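import Mathlib
import Fermat.Agent.S34.h22_LatON

/-!
# S36 / row Q (helper22): the generic `K₀`-lattice lemma (K0-LAT)

`D` a lattice datum (`h22_Lat`: valuation ring `A` of the constants `K`, integral elements `O` of
`F`, reduction `red : O → Rb`) with the (ON) property and `A` of rank one.  A *rational
structure*: a subfield `K0` of `K` and a subring `F0` of `F` containing the `K0`-constants, with

* (RES)  every element of `A` is congruent modulo `𝔪_A` to an element of `A ∩ K0`;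
* (INT)  a uniformiser `π ∈ K0 ∩ 𝔪_A`: every nonzero `f ∈ F0` is `π ^ n • u` with `u ∈ O`,
  `red u ≠ 0`  (the sup-norm is discrete on `F0`).

Then for every finite-dimensional `K`-subspace `V` of `F` spanned by `V ∩ F0`:

* `h22_k0lat_family` : there are `dim V` elements of `V ∩ O ∩ F0` with `k`-independent reductions;
* `h22_k0lat_lift`   : every reduction of an element of `V ∩ O` is the reduction of an element of
  `V ∩ O ∩ F0`.
-/

set_option autoImplicit false

noncomputable section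

namespace Fermat.Agent.S36

open Fermat.Agent.S34 Fermat.Agent.S18

variable {K F k Rb : Type*} [Field K] [Field F] [Algebra K F] [Field k] [CommRing Rb]
  [Algebra k Rb]

/-! ### Valuation-ring helpers -/

theorem h22_nonunit_inv_of_not_mem (A : ValuationSubring K) {x : K} (hx : x ∉ A) :
    x⁻¹ ∈ A.nonunits := by
  rw [ValuationSubring.mem_nonunits_iff A]
  have h1 : ¬ A.valuation x ≤ 1 := fun h => hx ((A.valuation_le_one_iff x).1 h)
  rw [not_le] at h1
  rw [map_inv₀]
  exact inv_lt_one_of_one_lt₀ h1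

theorem h22_one_not_mem_nonunits (A : ValuationSubring K) : (1 : K) ∉ A.nonunits := by
  rw [ValuationSubring.mem_nonunits_iff A, map_one]
  exact lt_irrefl _

theorem h22_mul_mem_nonunits (A : ValuationSubring K) {a b : K} (ha : a ∈ A)
    (hb : b ∈ A.nonunits) : a * b ∈ A.nonunits := by
  rw [ValuationSubring.mem_nonunits_iff A] at hb ⊢
  rw [map_mul]
  exact mul_lt_one_of_nonneg_of_lt_one_right ((A.valuation_le_one_iff a).2 ha) zero_le hb

/-- For a nonzero non-unit `π`: `π ^ z ∈ A ↔ 0 ≤ z`. -/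
theorem h22_zpow_mem_iff (A : ValuationSubring K) {π : K} (hπ : π ∈ A.nonunits) (hπ0 : π ≠ 0)
    (z : ℤ) : π ^ z ∈ A ↔ 0 ≤ z := by
  have hv1 : A.valuation π < 1 := (ValuationSubring.mem_nonunits_iff A).1 hπ
  have hv0 : 0 < A.valuation π := zero_lt_iff.2 ((map_ne_zero _).2 hπ0)
  rw [← A.valuation_le_one_iff, map_zpow₀]
  exact zpow_le_one_iff_right_of_lt_one₀ hv0 hv1

/-! ### Reduction helpers -/

theorem h22_redF_sub (D : h22_Lat K F k Rb) {f g : F} (hf : f ∈ D.O) (hg : g ∈ D.O) :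
    D.redF (f - g) = D.redF f - D.redF g := by
  rw [D.redF_of_mem hf, D.redF_of_mem hg, D.redF_of_mem (D.O.sub_mem hf hg), ← map_sub]
  rfl

theorem h22_smul_mem_O (D : h22_Lat K F k Rb) {a : K} (ha : a ∈ D.A) {f : F} (hf : f ∈ D.O) :
    a • f ∈ D.O := by
  rw [Algebra.smul_def]
  exact D.O.mul_mem ((D.mem_iff _).mp ha) hf

/-- an integral multiple of an element with zero reduction has zero reduction -/
theorem h22_redF_smul_of_zero (D : h22_Lat K F k Rb) {a : K} (ha : a ∈ D.A) {f : F}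
    (hf : f ∈ D.O) (h0 : D.redF f = 0) : D.redF (a • f) = 0 := by
  obtain ⟨a', ha', g', hg', rfl⟩ := (h22_redF_eq_zero_iff D hf).1 h0
  refine (h22_redF_eq_zero_iff D (h22_smul_mem_O D ha hf)).2
    ⟨a * a', h22_mul_mem_nonunits D.A ha ha', g', hg', ?_⟩
  rw [Algebra.smul_def, map_mul, mul_assoc]

theorem h22_resK_eq_of_sub (D : h22_Lat K F k Rb) {a b : K} (ha : a ∈ D.A) (hb : b ∈ D.A)
    (h : a - b ∈ D.A.nonunits) : D.resK a = D.resK b := by
  have hab : a - b ∈ D.A := sub_mem ha hb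
  have h1 : D.resK (a - b) = 0 := (h22_resK_eq_zero_iff D hab).2 h
  rw [D.resK_of_mem hab] at h1
  rw [D.resK_of_mem ha, D.resK_of_mem hb]
  have h2 : (⟨a - b, hab⟩ : D.A) = ⟨a, ha⟩ - ⟨b, hb⟩ := rfl
  rw [h2, map_sub, sub_eq_zero] at h1
  exact h1

/-! ### The generic (K0-LAT) -/

section Main

variable (D : h22_Lat K F k Rb) (hON : h22_ON D) (hR : h39_RankOne D.A)
  (K0 : Subfield K) (F0 : Subring F) (hK0 : ∀ a ∈ K0, algebraMap K F a ∈ F0)
  (π : K) (hπ0 : π ∈ K0) (hπ : π ∈ D.A.nonunits) (hπne : π ≠ 0)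
  (hres : ∀ a ∈ D.A, ∃ a0 ∈ K0, a0 ∈ D.A ∧ a - a0 ∈ D.A.nonunits)
  (hint : ∀ f ∈ F0, f ≠ 0 → ∃ n : ℤ, (π ^ n)⁻¹ • f ∈ D.O ∧ D.redF ((π ^ n)⁻¹ • f) ≠ 0)

include hK0 in
theorem h22_smul_mem_F0 {a : K} (ha : a ∈ K0) {f : F} (hf : f ∈ F0) : a • f ∈ F0 := by
  rw [Algebra.smul_def]
  exact F0.mul_mem (hK0 a ha) hf

include hK0 in
theorem h22_sum_smul_mem_F0 {r : ℕ} (c : Fin r → K) (hc : ∀ i, c i ∈ K0) (e : Fin r → F)
    (he : ∀ i, e i ∈ F0) : (∑ i, c i • e i) ∈ F0 :=
  sum_mem fun i _ => h22_smul_mem_F0 K0 F0 hK0 (hc i) (he i)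

include hON hR hK0 hπ0 hπ hπne hres hint in
/-- **Inductive step**: an orthonormal `F0`-family of `V` which is not yet a basis can be enlarged
by an element of `V ∩ O ∩ F0`. -/
theorem h22_k0lat_step (V : Submodule K F) [FiniteDimensional K V]
    (hspan : Submodule.span K {g | g ∈ V ∧ g ∈ F0} = V) {r : ℕ} (hr : r < Module.finrank K V)
    (e : Fin r → F) (heV : ∀ i, e i ∈ V) (heO : ∀ i, e i ∈ D.O) (heF : ∀ i, e i ∈ F0)
    (hind : LinearIndependent k (fun i => D.redF (e i))) :
    ∃ y : F, y ∈ V ∧ y ∈ D.O ∧ y ∈ F0 ∧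
      D.redF y ∉ Submodule.span k (Set.range (fun i => D.redF (e i))) := by
  classical
  have hπA : π ∈ D.A := D.A.nonunits_le hπ
  have hπinv : π⁻¹ ∉ D.A := fun h => by
    have h1 := h22_mul_mem_nonunits D.A h hπ
    rw [inv_mul_cancel₀ hπne] at h1
    exact h22_one_not_mem_nonunits D.A h1
  have hzK0 : ∀ z : ℤ, (π ^ z)⁻¹ ∈ K0 := fun z => K0.inv_mem (K0.zpow_mem hπ0 z)
  -- (1) an `F0`-element of `V` outside the span
  have heK : LinearIndependent K e := h22_on_linearIndependent D e heO hind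
  obtain ⟨g, hgV, hgF, hgS⟩ : ∃ g, g ∈ V ∧ g ∈ F0 ∧ g ∉ Submodule.span K (Set.range e) := by
    by_contra hcon
    push Not at hcon
    have hle : V ≤ Submodule.span K (Set.range e) := by
      rw [← hspan]
      exact Submodule.span_le.mpr fun g hg => hcon g hg.1 hg.2
    haveI : Module.Finite K (Submodule.span K (Set.range e)) :=
      FiniteDimensional.span_of_finite K (Set.finite_range e)
    have h1 : Module.finrank K V ≤ Module.finrank K (Submodule.span K (Set.range e)) :=
      Submodule.finrank_mono hle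
    rw [finrank_span_eq_card heK, Fintype.card_fin] at h1
    omega
  -- (2) an element of `span (g, e) ∩ O` whose reduction is new
  set W0 : Submodule k Rb := Submodule.span k (Set.range (fun i => D.redF (e i))) with hW0
  haveI hW0fin : Module.Finite k W0 :=
    FiniteDimensional.span_of_finite k (Set.finite_range _)
  have hW0fr : Module.finrank k W0 = r := by
    rw [hW0, finrank_span_eq_card hind, Fintype.card_fin]
  have hcons : LinearIndependent K (Fin.cons g e : Fin (r + 1) → F) :=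
    linearIndependent_finCons.mpr ⟨heK, hgS⟩
  set V' : Submodule K F := Submodule.span K (Set.range (Fin.cons g e : Fin (r + 1) → F))
    with hV'
  haveI hV'fin : FiniteDimensional K V' :=
    FiniteDimensional.span_of_finite K (Set.finite_range _)
  have hV'fr : Module.finrank K V' = r + 1 := by
    rw [hV', finrank_span_eq_card hcons, Fintype.card_fin]
  have hred := h22_finrank_red D hON V'
  obtain ⟨h, hhV', hhO, hhW⟩ : ∃ h, h ∈ V' ∧ h ∈ D.O ∧ D.redF h ∉ W0 := by
    by_contra hcon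
    push Not at hcon
    have hle : Submodule.span k (D.redF '' {f : F | f ∈ V' ∧ f ∈ D.O}) ≤ W0 := by
      refine Submodule.span_le.mpr ?_
      rintro _ ⟨f, ⟨hf1, hf2⟩, rfl⟩
      exact hcon f hf1 hf2
    have h1 := Submodule.finrank_mono hle
    rw [hred, hV'fr, hW0fr] at h1
    omega
  -- (3) coordinates of `h`
  obtain ⟨cp, hcp⟩ := (Submodule.mem_span_range_iff_exists_fun K).1 hhV'
  rw [Fin.sum_univ_succ] at hcp
  simp only [Fin.cons_zero, Fin.cons_succ] at hcp
  set a : K := cp 0 with ha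
  set c : Fin r → K := fun i => cp i.succ with hc
  have hcp' : a • g + ∑ i, c i • e i = h := hcp
  have ha0 : a ≠ 0 := by
    intro h0
    rw [h0, zero_smul, zero_add] at hcp'
    have hcA : ∀ i, c i ∈ D.A := h22_on_coeff_mem D e heO hind c (by rw [hcp']; exact hhO)
    apply hhW
    rw [← hcp', h22_redF_sum_smul D Finset.univ c e hcA heO]
    exact sum_mem fun i _ => Submodule.smul_mem _ _ (Submodule.subset_span ⟨i, rfl⟩)
  -- the enlarged orthonormal family `(h, e)`
  have hindp : LinearIndependent k (fun j => D.redF ((Fin.cons h e : Fin (r + 1) → F) j)) := by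
    have h1 : (fun j => D.redF ((Fin.cons h e : Fin (r + 1) → F) j)) =
        (Fin.cons (D.redF h) (fun i => D.redF (e i)) : Fin (r + 1) → Rb) := by
      funext j
      refine Fin.cases ?_ (fun i => ?_) j
      · rw [Fin.cons_zero, Fin.cons_zero]
      · rw [Fin.cons_succ, Fin.cons_succ]
    rw [h1]
    exact linearIndependent_finCons.mpr ⟨hind, hhW⟩
  have hpO : ∀ j, (Fin.cons h e : Fin (r + 1) → F) j ∈ D.O := by
    intro j
    refine Fin.cases ?_ (fun i => ?_) j
    · rw [Fin.cons_zero]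
      exact hhO
    · rw [Fin.cons_succ]
      exact heO i
  -- (4) the distance from `g` to the span of `e` is attained: a bound on the scalings
  have hbound : ∀ (c'' : Fin r → K) (s : K), s • (g + ∑ i, c'' i • e i) ∈ D.O →
      s * a⁻¹ ∈ D.A := by
    intro c'' s hs
    by_contra hsa
    have ht := h22_nonunit_inv_of_not_mem D.A hsa
    set t : K := (s * a⁻¹)⁻¹ with htdef
    set b : Fin r → K := fun i => a * c'' i - c i with hb
    have hu : t • (s • (g + ∑ i, c'' i • e i)) = h + ∑ i, b i • e i := by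
      have hs0 : s ≠ 0 := by
        rintro rfl
        exact hsa (by rw [zero_mul]; exact D.A.zero_mem)
      have hts : t * s = a := by
        rw [htdef]
        field_simp
      rw [smul_smul, hts, ← hcp', smul_add, Finset.smul_sum, add_assoc, ← Finset.sum_add_distrib]
      congr 1
      refine Finset.sum_congr rfl fun i _ => ?_
      rw [hb]
      simp only
      rw [smul_smul, sub_smul]
      abel
    have huO : h + ∑ i, b i • e i ∈ D.O := by
      rw [← hu]
      exact h22_smul_mem_O D (D.A.nonunits_le ht) hs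
    have hu0 : D.redF (h + ∑ i, b i • e i) = 0 := by
      rw [← hu]
      exact h22_redF_smul_nonunit D ht hs
    have hsum : ∑ j, (Fin.cons 1 b : Fin (r + 1) → K) j • (Fin.cons h e : Fin (r + 1) → F) j =
        h + ∑ i, b i • e i := by
      rw [Fin.sum_univ_succ]
      simp only [Fin.cons_zero, Fin.cons_succ, one_smul]
    have hdA : ∀ j, (Fin.cons 1 b : Fin (r + 1) → K) j ∈ D.A :=
      h22_on_coeff_mem D _ hpO hindp _ (by rw [hsum]; exact huO)
    have hdn := (h22_on_redF_eq_zero_iff D _ hpO hindp _ hdA).1 (by rw [hsum]; exact hu0) 0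
    rw [Fin.cons_zero] at hdn
    exact h22_one_not_mem_nonunits D.A hdn
  have hnotspan : ∀ c'' : Fin r → K, g + ∑ i, c'' i • e i ≠ 0 := by
    intro c'' h0
    apply hgS
    have : g = - ∑ i, c'' i • e i := eq_neg_of_add_eq_zero_left h0
    rw [this]
    exact Submodule.neg_mem _ (sum_mem fun i _ =>
      Submodule.smul_mem _ _ (Submodule.subset_span ⟨i, rfl⟩))
  -- (5) maximise the exponent over the `K0`-coset
  obtain ⟨N, hN⟩ := hR π hπA hπinv a⁻¹ (inv_ne_zero ha0)
  rw [inv_inv] at hN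
  obtain ⟨n, ⟨cs, hcsK0, hcsO⟩, hmax⟩ := Int.exists_greatest_of_bdd
    (P := fun n : ℤ => ∃ c'' : Fin r → K, (∀ i, c'' i ∈ K0) ∧
      (π ^ n)⁻¹ • (g + ∑ i, c'' i • e i) ∈ D.O)
    ⟨N, by
      rintro z ⟨c'', -, hz⟩
      have h1 := hbound c'' _ hz
      have h2 : π ^ ((N : ℤ) - z) ∈ D.A := by
        have h3 : π ^ ((N : ℤ) - z) = π ^ N * a * ((π ^ z)⁻¹ * a⁻¹) := by
          rw [zpow_sub₀ hπne, zpow_natCast]
          field_simp
        rw [h3]
        exact D.A.mul_mem _ _ hN h1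
      have h4 := (h22_zpow_mem_iff D.A hπ hπne _).1 h2
      omega⟩
    (by
      have hg0 : g ≠ 0 := by
        have := hnotspan (fun _ => 0)
        simpa using this
      obtain ⟨n0, hn0, -⟩ := hint g hgF hg0
      exact ⟨n0, fun _ => 0, fun _ => K0.zero_mem, by simpa using hn0⟩)
  set ys : F := g + ∑ i, cs i • e i with hys
  have hysF : ys ∈ F0 := F0.add_mem hgF (h22_sum_smul_mem_F0 K0 F0 hK0 cs hcsK0 e heF)
  have hysV : ys ∈ V := V.add_mem hgV (sum_mem fun i _ => V.smul_mem _ (heV i))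
  refine ⟨(π ^ n)⁻¹ • ys, V.smul_mem _ hysV, hcsO, h22_smul_mem_F0 K0 F0 hK0 (hzK0 n) hysF, ?_⟩
  -- (6) its reduction is new, by maximality
  intro hmem
  obtain ⟨l, hl⟩ := (Submodule.mem_span_range_iff_exists_fun k).1 hmem
  choose a1 ha1 using fun i => D.res_surjective (l i)
  choose a0 ha0K ha0A ha0n using fun i => hres (a1 i) (a1 i).2
  have hresK : ∀ i, D.resK (a0 i) = l i := by
    intro i
    rw [← h22_resK_eq_of_sub D (a1 i).2 (ha0A i) (ha0n i), D.resK_of_mem (a1 i).2]
    exact ha1 i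
  set z : F := (π ^ n)⁻¹ • ys - ∑ i, a0 i • e i with hz
  have hsumO : (∑ i, a0 i • e i) ∈ D.O := h22_sum_smul_mem D Finset.univ a0 e ha0A heO
  have hzO : z ∈ D.O := D.O.sub_mem hcsO hsumO
  have hzF : z ∈ F0 := F0.sub_mem (h22_smul_mem_F0 K0 F0 hK0 (hzK0 n) hysF)
    (h22_sum_smul_mem_F0 K0 F0 hK0 a0 ha0K e heF)
  have hz0 : D.redF z = 0 := by
    rw [hz, h22_redF_sub D hcsO hsumO, h22_redF_sum_smul D Finset.univ a0 e ha0A heO, ← hl,
      sub_eq_zero]
    exact Finset.sum_congr rfl fun i _ => by rw [hresK i]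
  have hπn0 : π ^ n ≠ 0 := zpow_ne_zero n hπne
  -- `z = π^{-n} • (g + ∑ c' e)`
  set c' : Fin r → K := fun i => cs i - π ^ n * a0 i with hc'
  have hzeq : z = (π ^ n)⁻¹ • (g + ∑ i, c' i • e i) := by
    rw [hz, hys, smul_add, smul_add, Finset.smul_sum, Finset.smul_sum, add_sub_assoc,
      ← Finset.sum_sub_distrib]
    congr 1
    refine Finset.sum_congr rfl fun i _ => ?_
    rw [hc']
    simp only
    rw [smul_smul, smul_smul, ← sub_smul]
    congr 1
    field_simp
  have hzne : z ≠ 0 := by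
    rw [hzeq]
    exact smul_ne_zero (inv_ne_zero hπn0) (hnotspan c')
  obtain ⟨m, hmO, hmred⟩ := hint z hzF hzne
  have hm1 : 1 ≤ m := by
    by_contra hm
    have hm' : 0 ≤ -m := by omega
    have h1 : (π ^ m)⁻¹ ∈ D.A := by
      rw [← zpow_neg]
      exact (h22_zpow_mem_iff D.A hπ hπne _).2 hm'
    exact hmred (h22_redF_smul_of_zero D h1 hzO hz0)
  have hc'K0 : ∀ i, c' i ∈ K0 := fun i =>
    K0.sub_mem (hcsK0 i) (K0.mul_mem (K0.zpow_mem hπ0 n) (ha0K i))
  have hnext : (π ^ (n + 1))⁻¹ • (g + ∑ i, c' i • e i) ∈ D.O := by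
    have h1 : (π ^ (n + 1))⁻¹ • (g + ∑ i, c' i • e i) = π ^ (m - 1) • ((π ^ m)⁻¹ • z) := by
      rw [hzeq, smul_smul, smul_smul]
      congr 1
      rw [zpow_add₀ hπne, zpow_sub₀ hπne, zpow_one]
      field_simp
    rw [h1]
    exact h22_smul_mem_O D ((h22_zpow_mem_iff D.A hπ hπne _).2 (by omega)) hmO
  have := hmax (n + 1) ⟨c', hc'K0, hnext⟩
  omega

include hON hR hK0 hπ0 hπ hπne hres hint in
/-- **(K0-LAT), family form.**  For every `r ≤ dim V` there are `r` elements of `V ∩ O ∩ F0`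
with `k`-independent reductions. -/
theorem h22_k0lat_family_le (V : Submodule K F) [FiniteDimensional K V]
    (hspan : Submodule.span K {g | g ∈ V ∧ g ∈ F0} = V) :
    ∀ r : ℕ, r ≤ Module.finrank K V → ∃ e : Fin r → F, (∀ i, e i ∈ V) ∧ (∀ i, e i ∈ D.O) ∧
      (∀ i, e i ∈ F0) ∧ LinearIndependent k (fun i => D.redF (e i)) := by
  intro r
  induction r with
  | zero =>
    intro _
    exact ⟨Fin.elim0, fun i => i.elim0, fun i => i.elim0, fun i => i.elim0,
      linearIndependent_empty_type⟩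
  | succ r ih =>
    intro hr
    obtain ⟨e, heV, heO, heF, hind⟩ := ih (by omega)
    obtain ⟨y, hyV, hyO, hyF, hyW⟩ := h22_k0lat_step D hON hR K0 F0 hK0 π hπ0 hπ hπne hres hint V
      hspan (by omega) e heV heO heF hind
    refine ⟨Fin.cons y e, ?_, ?_, ?_, ?_⟩
    · intro j
      refine Fin.cases ?_ (fun i => ?_) j
      · rw [Fin.cons_zero]; exact hyV
      · rw [Fin.cons_succ]; exact heV i
    · intro j
      refine Fin.cases ?_ (fun i => ?_) j
      · rw [Fin.cons_zero]; exact hyO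
      · rw [Fin.cons_succ]; exact heO i
    · intro j
      refine Fin.cases ?_ (fun i => ?_) j
      · rw [Fin.cons_zero]; exact hyF
      · rw [Fin.cons_succ]; exact heF i
    · have h1 : (fun j => D.redF ((Fin.cons y e : Fin (r + 1) → F) j)) =
          (Fin.cons (D.redF y) (fun i => D.redF (e i)) : Fin (r + 1) → Rb) := by
        funext j
        refine Fin.cases ?_ (fun i => ?_) j
        · rw [Fin.cons_zero, Fin.cons_zero]
        · rw [Fin.cons_succ, Fin.cons_succ]
      rw [h1]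
      exact linearIndependent_finCons.mpr ⟨hind, hyW⟩

include hON hR hK0 hπ0 hπ hπne hres hint in
/-- **(K0-LAT).**  `V` has an orthonormal basis consisting of elements of `F0`. -/
theorem h22_k0lat_family (V : Submodule K F) [FiniteDimensional K V]
    (hspan : Submodule.span K {g | g ∈ V ∧ g ∈ F0} = V) :
    ∃ e : Fin (Module.finrank K V) → F, (∀ i, e i ∈ V) ∧ (∀ i, e i ∈ D.O) ∧
      (∀ i, e i ∈ F0) ∧ LinearIndependent k (fun i => D.redF (e i)) :=
  h22_k0lat_family_le D hON hR K0 F0 hK0 π hπ0 hπ hπne hres hint V hspan _ le_rfl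

include hON hR hK0 hπ0 hπ hπne hres hint in
/-- **(K0-LAT), lifting form.**  Every reduction of an element of `V ∩ O` is the reduction of an
element of `V ∩ O ∩ F0`. -/
theorem h22_k0lat_lift (V : Submodule K F) [FiniteDimensional K V]
    (hspan : Submodule.span K {g | g ∈ V ∧ g ∈ F0} = V) (f : F) (hfV : f ∈ V) (hfO : f ∈ D.O) :
    ∃ f0 : F, f0 ∈ V ∧ f0 ∈ F0 ∧ f0 ∈ D.O ∧ D.redF f0 = D.redF f := by
  obtain ⟨e, heV, heO, heF, hind⟩ :=
    h22_k0lat_family D hON hR K0 F0 hK0 π hπ0 hπ hπne hres hint V hspan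
  obtain ⟨c, rfl, hc⟩ := h22_on_span D V e heV heO hind f hfV
  have hcA := hc hfO
  choose a0 ha0K ha0A ha0n using fun i => hres (c i) (hcA i)
  refine ⟨∑ i, a0 i • e i, sum_mem fun i _ => V.smul_mem _ (heV i),
    h22_sum_smul_mem_F0 K0 F0 hK0 a0 ha0K e heF, h22_sum_smul_mem D Finset.univ a0 e ha0A heO, ?_⟩
  rw [h22_redF_sum_smul D Finset.univ a0 e ha0A heO, h22_redF_sum_smul D Finset.univ c e hcA heO]
  exact Finset.sum_congr rfl fun i _ => by
    rw [h22_resK_eq_of_sub D (hcA i) (ha0A i) (ha0n i)]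

end Main

end Fermat.Agent.S36

end
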