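import Mathlib

/-!
# S36 / row Q (helper22): a `ℤ`-valued valuation from a valuation subring and a uniformiser

`O` a valuation subring of a field `F`, `π ∈ F` a nonzero non-unit of `O`.  `h22_dv O π f` is the
integer `n` with `v(f) = v(π) ^ n` (junk value `0` when the value of `f` is not a power of the value
of `π`).  On the elements whose value is a power of `v(π)` it is a discrete valuation with
`h22_dv π = 1`, valuation ring `O` and maximal ideal the non-units.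
-/

set_option autoImplicit false

noncomputable section

namespace Fermat.Agent.S36

variable {F : Type*} [Field F]

open Classical in
/-- The exponent `n` with `v(f) = v(π) ^ n` (`0` if there is none). -/
def h22_dv (O : ValuationSubring F) (π : F) (f : F) : ℤ :=
  if h : ∃ n : ℤ, O.valuation f = O.valuation π ^ n then h.choose else 0

variable {O : ValuationSubring F} {π : F}

theorem h22_val_pi_pos (hπ0 : π ≠ 0) : 0 < O.valuation π :=
  zero_lt_iff.2 ((map_ne_zero _).2 hπ0)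

theorem h22_val_pi_lt (hπ : π ∈ O.nonunits) : O.valuation π < 1 :=
  (ValuationSubring.mem_nonunits_iff O).1 hπ

theorem h22_dv_spec {f : F} (h : ∃ n : ℤ, O.valuation f = O.valuation π ^ n) :
    O.valuation f = O.valuation π ^ h22_dv O π f := by
  unfold h22_dv
  rw [dif_pos h]
  exact h.choose_spec

theorem h22_dv_eq (hπ : π ∈ O.nonunits) (hπ0 : π ≠ 0) {f : F} {n : ℤ}
    (h : O.valuation f = O.valuation π ^ n) : h22_dv O π f = n := by
  have h1 := h22_dv_spec (O := O) (π := π) ⟨n, h⟩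
  rw [h] at h1
  exact (zpow_right_injective₀ (h22_val_pi_pos hπ0) (ne_of_lt (h22_val_pi_lt hπ)) h1).symm

theorem h22_dv_mul (hπ : π ∈ O.nonunits) (hπ0 : π ≠ 0) {f g : F}
    (hf : ∃ n : ℤ, O.valuation f = O.valuation π ^ n)
    (hg : ∃ n : ℤ, O.valuation g = O.valuation π ^ n) :
    h22_dv O π (f * g) = h22_dv O π f + h22_dv O π g := by
  refine h22_dv_eq hπ hπ0 ?_
  rw [map_mul, h22_dv_spec hf, h22_dv_spec hg,
    zpow_add₀ (ne_of_gt (h22_val_pi_pos (O := O) hπ0))]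

theorem h22_dv_add (hπ : π ∈ O.nonunits) (hπ0 : π ≠ 0) {f g : F}
    (hf : ∃ n : ℤ, O.valuation f = O.valuation π ^ n)
    (hg : ∃ n : ℤ, O.valuation g = O.valuation π ^ n)
    (hfg : ∃ n : ℤ, O.valuation (f + g) = O.valuation π ^ n) :
    min (h22_dv O π f) (h22_dv O π g) ≤ h22_dv O π (f + g) := by
  have h0 := h22_val_pi_pos (O := O) hπ0
  have h1 := h22_val_pi_lt hπ
  have hadd := O.valuation.map_add f g
  rw [h22_dv_spec hf, h22_dv_spec hg, h22_dv_spec hfg] at hadd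
  rcases le_max_iff.1 hadd with h | h
  · exact le_trans (min_le_left _ _) ((zpow_le_zpow_iff_right_of_lt_one₀ h0 h1).1 h)
  · exact le_trans (min_le_right _ _) ((zpow_le_zpow_iff_right_of_lt_one₀ h0 h1).1 h)

theorem h22_dv_self (hπ : π ∈ O.nonunits) (hπ0 : π ≠ 0) : h22_dv O π π = 1 :=
  h22_dv_eq hπ hπ0 (zpow_one _).symm

theorem h22_dv_one (hπ : π ∈ O.nonunits) (hπ0 : π ≠ 0) : h22_dv O π 1 = 0 :=
  h22_dv_eq hπ hπ0 (by rw [map_one, zpow_zero])

theorem h22_dv_nonneg_iff (hπ : π ∈ O.nonunits) (hπ0 : π ≠ 0) {f : F}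
    (hf : ∃ n : ℤ, O.valuation f = O.valuation π ^ n) : 0 ≤ h22_dv O π f ↔ f ∈ O := by
  rw [← O.valuation_le_one_iff, h22_dv_spec hf]
  exact (zpow_le_one_iff_right_of_lt_one₀ (h22_val_pi_pos hπ0) (h22_val_pi_lt hπ)).symm

theorem h22_dv_pos_iff (hπ : π ∈ O.nonunits) (hπ0 : π ≠ 0) {f : F}
    (hf : ∃ n : ℤ, O.valuation f = O.valuation π ^ n) : 0 < h22_dv O π f ↔ f ∈ O.nonunits := by
  rw [ValuationSubring.mem_nonunits_iff O, h22_dv_spec hf]
  exact (zpow_lt_one_iff_right_of_lt_one₀ (h22_val_pi_pos hπ0) (h22_val_pi_lt hπ)).symm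

/-- From the unit form to the valuation form. -/
theorem h22_val_of_unit (hπ0 : π ≠ 0) {f : F} (hf : f ≠ 0) {n : ℤ}
    (h1 : (π ^ n)⁻¹ * f ∈ O) (h2 : ((π ^ n)⁻¹ * f)⁻¹ ∈ O) :
    O.valuation f = O.valuation π ^ n := by
  have hπn : π ^ n ≠ 0 := zpow_ne_zero n hπ0
  have hu0 : (π ^ n)⁻¹ * f ≠ 0 := mul_ne_zero (inv_ne_zero hπn) hf
  have hv0 : O.valuation ((π ^ n)⁻¹ * f) ≠ 0 := (map_ne_zero _).2 hu0
  have ha := (O.valuation_le_one_iff _).2 h1
  have hb := (O.valuation_le_one_iff _).2 h2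
  rw [map_inv₀] at hb
  have hb' : 1 ≤ O.valuation ((π ^ n)⁻¹ * f) := (inv_le_one₀ (zero_lt_iff.2 hv0)).1 hb
  have h3 : O.valuation ((π ^ n)⁻¹ * f) = 1 := le_antisymm ha hb'
  rw [map_mul, map_inv₀, map_zpow₀] at h3
  have h4 : O.valuation π ^ n ≠ 0 := zpow_ne_zero n (ne_of_gt (h22_val_pi_pos hπ0))
  field_simp at h3
  exact h3

/-- From the valuation form to the unit form. -/
theorem h22_unit_of_val (hπ0 : π ≠ 0) {f : F} {n : ℤ}
    (h : O.valuation f = O.valuation π ^ n) :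
    (π ^ n)⁻¹ * f ∈ O ∧ ((π ^ n)⁻¹ * f)⁻¹ ∈ O := by
  have h4 : O.valuation π ^ n ≠ 0 := zpow_ne_zero n (ne_of_gt (h22_val_pi_pos hπ0))
  have h3 : O.valuation ((π ^ n)⁻¹ * f) = 1 := by
    rw [map_mul, map_inv₀, map_zpow₀, h, inv_mul_cancel₀ h4]
  refine ⟨(O.valuation_le_one_iff _).1 (le_of_eq h3), (O.valuation_le_one_iff _).1 ?_⟩
  rw [map_inv₀, h3, inv_one]

end Fermat.Agent.S36

end
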