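import Mathlib
import Fermat.Agent.S05.h26_Inertia

/-!
# S36, row K, item (K8) = (RES): the residue field of the inertia field is everything (helper5)

`A` a valuation subring of `ℚ̄` over a prime `q`, `I := A.inertiaSubgroupIn ℚ` its inertia group.

* `h5_teich_K0` : every unit `a` of `A` is congruent modulo the maximal ideal to a root of unity
  `ζ` of order prime to `q` which is fixed by `I` (a Teichmüller representative).
* `h5_res_K0`  : (RES)  `A = A₀ + m_A`, i.e. every `a ∈ A` is congruent modulo `m_A` to an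
  `I`-fixed element of `A`.

Generic tools (any field / any valuation subring):

* `h5_mem_of_pow_eq_one` : roots of unity lie in every valuation subring;
* `h5_root_eq_one` : a root of unity of order prime to the residue characteristic which is
  `≡ 1` modulo the maximal ideal is `1`;
* `h5_exists_root_near` : over an algebraically closed field, `aⁿ ≡ 1` implies `a ≡ ζ` for some
  `ζ` with `ζⁿ = 1`;
* `h5_exists_pow_sub_one` : a unit of `A` which is algebraic over `ℤ` has finite order prime to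
  `q` in the residue field.
-/

set_option autoImplicit false

open Polynomial

namespace Fermat.Agent.S36

open Fermat.Agent.S05

section generic

variable {L : Type*} [Field L]

/-- nonzero powers of elements of the maximal ideal stay in the maximal ideal. -/
theorem h5_pow_mem_nonunits (A : ValuationSubring L) {x : L} (hx : x ∈ A.nonunits) {n : ℕ}
    (hn : n ≠ 0) : x ^ n ∈ A.nonunits := by
  obtain ⟨m, rfl⟩ := Nat.exists_eq_succ_of_ne_zero hn
  rw [pow_succ]
  exact h26_mul_mem_nonunits_left A (A.pow_mem (A.nonunits_le hx) m) hx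

/-- **Roots of unity lie in every valuation subring.** -/
theorem h5_mem_of_pow_eq_one (A : ValuationSubring L) {ζ : L} {n : ℕ} (hn : n ≠ 0)
    (h : ζ ^ n = 1) : ζ ∈ A := by
  by_contra hζ
  obtain ⟨-, h1⟩ := (h26_not_mem_iff A).mp hζ
  have h2 := h5_pow_mem_nonunits A h1 hn
  rw [inv_pow, h, inv_one] at h2
  exact h26_one_not_mem_nonunits A h2

theorem h5_zero_mem_nonunits (A : ValuationSubring L) : (0 : L) ∈ A.nonunits := by
  rw [ValuationSubring.mem_nonunits_iff, map_zero]
  exact zero_lt_one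

theorem h5_add_mem_nonunits (A : ValuationSubring L) {x y : L} (hx : x ∈ A.nonunits)
    (hy : y ∈ A.nonunits) : x + y ∈ A.nonunits := by
  rw [ValuationSubring.mem_nonunits_iff] at hx hy ⊢
  exact lt_of_le_of_lt (A.valuation.map_add x y) (max_lt hx hy)

theorem h5_neg_mem_nonunits (A : ValuationSubring L) {x : L} (hx : x ∈ A.nonunits) :
    -x ∈ A.nonunits := by
  rw [ValuationSubring.mem_nonunits_iff] at hx ⊢
  rwa [Valuation.map_neg]

theorem h5_sum_mem_nonunits (A : ValuationSubring L) {ι : Type*} (s : Finset ι) (f : ι → L)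
    (h : ∀ i ∈ s, f i ∈ A.nonunits) : ∑ i ∈ s, f i ∈ A.nonunits := by
  classical
  induction s using Finset.induction_on with
  | empty =>
    rw [Finset.sum_empty]
    exact h5_zero_mem_nonunits A
  | insert a s ha ih =>
    rw [Finset.sum_insert ha]
    exact h5_add_mem_nonunits A (h a (Finset.mem_insert_self a s))
      (ih fun i hi => h i (Finset.mem_insert_of_mem hi))

/-- `ξ ≡ 1` implies `ξ ^ i ≡ 1`. -/
theorem h5_pow_sub_one_mem_nonunits (A : ValuationSubring L) {ξ : L}
    (h1 : ξ - 1 ∈ A.nonunits) (i : ℕ) : ξ ^ i - 1 ∈ A.nonunits := by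
  have hξA : ξ ∈ A := by
    have := A.add_mem _ _ (A.nonunits_le h1) A.one_mem
    simpa using this
  rw [← mul_geom_sum ξ i]
  exact h26_mul_mem_nonunits_right A h1 (A.sum_mem fun j _ => A.pow_mem hξA j)

/-- **Reduction is injective on roots of unity of order prime to the residue characteristic**:
a root of unity `ξ` with `ξ ^ n = 1`, `q ∤ n`, `ξ ≡ 1` is `1`. -/
theorem h5_root_eq_one (A : ValuationSubring L) {q : ℕ} (hq : q.Prime) (hA : A.LiesOverPrime q)
    {ξ : L} {n : ℕ} (hn : ¬ q ∣ n) (hξ : ξ ^ n = 1) (h1 : ξ - 1 ∈ A.nonunits) : ξ = 1 := by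
  by_contra hne
  have hgeom : ∑ i ∈ Finset.range n, ξ ^ i = 0 := by
    have h := mul_geom_sum ξ n
    rw [hξ, sub_self] at h
    exact (mul_eq_zero.mp h).resolve_left (sub_ne_zero.mpr hne)
  have hsum : ∑ i ∈ Finset.range n, (ξ ^ i - 1) ∈ A.nonunits :=
    h5_sum_mem_nonunits A _ _ fun i _ => h5_pow_sub_one_mem_nonunits A h1 i
  rw [Finset.sum_sub_distrib, hgeom, Finset.sum_const, Finset.card_range, nsmul_eq_mul,
    mul_one, zero_sub] at hsum
  have hn' : (n : L) ∈ A.nonunits := by
    have := h5_neg_mem_nonunits A hsum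
    rwa [neg_neg] at this
  exact hn ((h26_natCast_mem_nonunits_iff A hq hA n).mp hn')

/-- a product of units of `A` is a unit of `A` (multiset form, in terms of the valuation). -/
theorem h5_valuation_multiset_prod (A : ValuationSubring L) (s : Multiset L)
    (h : ∀ x ∈ s, A.valuation x = 1) : A.valuation s.prod = 1 := by
  rw [map_multiset_prod]
  apply Multiset.prod_eq_one
  intro y hy
  obtain ⟨x, hx, rfl⟩ := Multiset.mem_map.mp hy
  exact h x hx

/-- **Lifting roots of unity**: over an algebraically closed field, if `a ^ n ≡ 1` then `a ≡ ζ`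
for some `ζ` with `ζ ^ n = 1`. -/
theorem h5_exists_root_near [IsAlgClosed L] (A : ValuationSubring L) {a : L} (ha : a ∈ A)
    {n : ℕ} (hn : n ≠ 0) (h : a ^ n - 1 ∈ A.nonunits) :
    ∃ ζ : L, ζ ^ n = 1 ∧ a - ζ ∈ A.nonunits := by
  classical
  set p : L[X] := X ^ n - 1 with hp
  have hmonic : p.Monic := monic_X_pow_sub_C (1 : L) hn
  have hsplit : p.Splits := IsAlgClosed.splits p
  have hprod : p = (p.roots.map fun r => X - C r).prod :=
    hsplit.eq_prod_roots_of_monic hmonic
  have heval : a ^ n - 1 = (p.roots.map fun r => a - r).prod := by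
    have h1 : eval a p = a ^ n - 1 := by simp [hp]
    rw [← h1]
    conv_lhs => rw [hprod]
    rw [eval_multiset_prod, Multiset.map_map]
    congr 1
    apply Multiset.map_congr rfl
    intro r _
    simp
  have hroot : ∀ r ∈ p.roots, r ^ n = 1 := by
    intro r hr
    have h1 : eval r p = 0 := (mem_roots'.mp hr).2
    have h2 : r ^ n - 1 = 0 := by simpa [hp] using h1
    exact sub_eq_zero.mp h2
  by_contra hno
  have hno : ∀ ζ : L, ζ ^ n = 1 → a - ζ ∉ A.nonunits := fun ζ hζ hmem => hno ⟨ζ, hζ, hmem⟩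
  have hall : ∀ x ∈ (p.roots.map fun r => a - r), A.valuation x = 1 := by
    intro x hx
    obtain ⟨r, hr, rfl⟩ := Multiset.mem_map.mp hx
    have hrA : r ∈ A := h5_mem_of_pow_eq_one A hn (hroot r hr)
    have h1 : A.valuation (a - r) ≤ 1 :=
      (A.valuation_le_one_iff _).mpr (A.sub_mem ha hrA)
    have h2 : ¬ A.valuation (a - r) < 1 := by
      intro h3
      exact hno r (hroot r hr) ((ValuationSubring.mem_nonunits_iff A).mpr h3)
    exact le_antisymm h1 (not_lt.mp h2)
  have h1 := h5_valuation_multiset_prod A _ hall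
  rw [← heval] at h1
  have h2 := (ValuationSubring.mem_nonunits_iff A).mp h
  rw [h1] at h2
  exact lt_irrefl _ h2

/-- **Finite order in the residue field**: a unit `a` of a valuation subring `A` over `q` which
is algebraic over `ℤ` satisfies `a ^ n ≡ 1` for some `n ≠ 0` prime to `q`. -/
theorem h5_exists_pow_sub_one [CharZero L] (A : ValuationSubring L) {q : ℕ} (hq : q.Prime)
    (hA : A.LiesOverPrime q) {a : L} (halg : IsAlgebraic ℤ a) (ha : a ∈ A)
    (ha' : a ∉ A.nonunits) : ∃ n : ℕ, n ≠ 0 ∧ ¬ q ∣ n ∧ a ^ n - 1 ∈ A.nonunits := by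
  classical
  have : Fact q.Prime := ⟨hq⟩
  -- the residue field has characteristic `q`
  have hqk : ((q : ℕ) : IsLocalRing.ResidueField A) = 0 := by
    have h1 : ((q : ℕ) : A) ∈ IsLocalRing.maximalIdeal A := by
      rw [← ValuationSubring.coe_mem_nonunits_iff]
      have h0 : (((q : ℕ) : A) : L) = (q : L) := by norm_cast
      rw [h0]
      exact hA
    have h2 := (IsLocalRing.residue_eq_zero_iff ((q : ℕ) : A)).mpr h1
    rwa [map_natCast] at h2
  have : CharP (IsLocalRing.ResidueField A) q := (CharP.charP_iff_prime_eq_zero hq).mpr hqk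
  let _ : Algebra (ZMod q) (IsLocalRing.ResidueField A) := ZMod.algebra _ q
  set x : A := ⟨a, ha⟩ with hx
  set ab : IsLocalRing.ResidueField A := IsLocalRing.residue A x with hab
  have hab0 : ab ≠ 0 := by
    intro h0
    have h1 := (IsLocalRing.residue_eq_zero_iff x).mp h0
    exact ha' (ValuationSubring.coe_mem_nonunits_iff.mpr h1)
  -- a primitive integer polynomial killing `a`
  obtain ⟨f, hf0, hfa⟩ := halg
  have hprim : f.primPart.IsPrimitive := isPrimitive_primPart f
  have hpa : aeval a f.primPart = 0 := by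
    have h1 : aeval a f = aeval a (C f.content) * aeval a f.primPart := by
      conv_lhs => rw [f.eq_C_content_mul_primPart]
      rw [map_mul]
    rw [hfa, aeval_C] at h1
    have hc : algebraMap ℤ L f.content ≠ 0 := by
      rw [Ne, FaithfulSMul.algebraMap_eq_zero_iff]
      exact fun h => hf0 (content_eq_zero_iff.mp h)
    exact (mul_eq_zero.mp h1.symm).resolve_left hc
  -- reduce it modulo `q`
  set pb : (ZMod q)[X] := f.primPart.map (Int.castRingHom (ZMod q)) with hpb
  have hpb0 : pb ≠ 0 := by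
    intro h0
    have hdvd : C ((q : ℕ) : ℤ) ∣ f.primPart := by
      rw [C_dvd_iff_dvd_coeff]
      intro i
      have h1 : pb.coeff i = 0 := by rw [h0, coeff_zero]
      rw [hpb, coeff_map, eq_intCast] at h1
      exact (ZMod.intCast_zmod_eq_zero_iff_dvd _ q).mp h1
    have hunit := hprim _ hdvd
    have h2 := Int.natAbs_of_isUnit hunit
    rw [Int.natAbs_natCast] at h2
    exact hq.one_lt.ne' h2
  have hxa : aeval x f.primPart = 0 := by
    apply Subtype.val_injective
    have h1 := aeval_algHom_apply (A.subtype.toIntAlgHom) x f.primPart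
    have h2 : (A.subtype.toIntAlgHom) x = a := rfl
    rw [h2, hpa] at h1
    exact h1.symm
  have hroot : aeval ab pb = 0 := by
    have h1 : aeval ab pb = aeval ab f.primPart := by
      rw [hpb, aeval_def, aeval_def, eval₂_map]
      congr 1
      exact RingHom.ext_int _ _
    rw [h1]
    have h2 := aeval_algHom_apply ((IsLocalRing.residue A).toIntAlgHom) x f.primPart
    have h3 : ((IsLocalRing.residue A).toIntAlgHom) x = ab := rfl
    rw [h3, hxa, map_zero] at h2
    exact h2
  have halgb : IsAlgebraic (ZMod q) ab := ⟨pb, hpb0, hroot⟩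
  have hint : IsIntegral (ZMod q) ab := halgb.isIntegral
  -- the powers of the residue live in a finite ring
  have hfg := hint.fg_adjoin_singleton
  have : Module.Finite (ZMod q) (Algebra.adjoin (ZMod q) {ab}) :=
    Module.Finite.iff_fg.mpr hfg
  have : Finite (Algebra.adjoin (ZMod q) {ab}) := Module.finite_of_finite (ZMod q)
  let g : ℕ → Algebra.adjoin (ZMod q) {ab} := fun i =>
    ⟨ab ^ i, pow_mem (Algebra.subset_adjoin (Set.mem_singleton ab)) i⟩
  have hninj : ¬ Function.Injective g := not_injective_infinite_finite g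
  have key : ∃ N : ℕ, N ≠ 0 ∧ ab ^ N = 1 := by
    have hex : ∃ i j : ℕ, g i = g j ∧ i ≠ j := by
      by_contra hcon
      apply hninj
      intro i j hij
      by_contra hne
      exact hcon ⟨i, j, hij, hne⟩
    obtain ⟨i, j, hij, hne⟩ := hex
    have hij' : ab ^ i = ab ^ j := congrArg Subtype.val hij
    have aux : ∀ i j : ℕ, i < j → ab ^ i = ab ^ j → ∃ N : ℕ, N ≠ 0 ∧ ab ^ N = 1 := by
      intro i j hlt h
      refine ⟨j - i, by omega, ?_⟩
      have h1 : ab ^ j = ab ^ i * ab ^ (j - i) := by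
        rw [← pow_add]
        congr 1
        omega
      rw [h1] at h
      have h2 : ab ^ i * (ab ^ (j - i) - 1) = 0 := by rw [mul_sub, mul_one, ← h, sub_self]
      exact sub_eq_zero.mp ((mul_eq_zero.mp h2).resolve_left (pow_ne_zero i hab0))
    rcases lt_or_gt_of_ne hne with h | h
    · exact aux i j h hij'
    · exact aux j i h hij'.symm
  obtain ⟨N, hN0, hN⟩ := key
  obtain ⟨e, n, hn, rfl⟩ := Nat.exists_eq_pow_mul_and_not_dvd hN0 q hq.ne_one
  have hn0 : n ≠ 0 := by
    rintro rfl
    exact hN0 (mul_zero _)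
  have hn1 : ab ^ n = 1 := by
    have h1 : (ab ^ n - 1) ^ q ^ e = 0 := by
      rw [sub_pow_char_pow, one_pow, ← pow_mul, mul_comm, hN, sub_self]
    exact sub_eq_zero.mp (pow_eq_zero_iff (pow_ne_zero e hq.ne_zero) |>.mp h1)
  refine ⟨n, hn0, hn, ?_⟩
  have h1 : IsLocalRing.residue A (x ^ n - 1) = 0 := by
    rw [map_sub, map_pow, map_one, ← hab, hn1, sub_self]
  have h2 := (IsLocalRing.residue_eq_zero_iff (x ^ n - 1)).mp h1
  have h3 := ValuationSubring.coe_mem_nonunits_iff.mpr h2
  simpa [hx] using h3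

end generic

section Qbar

local notation "Qb" => AlgebraicClosure ℚ

/-- **Teichmüller representatives are inertia-fixed.** Every unit `a` of a valuation subring `A`
of `ℚ̄` over `q` is congruent modulo the maximal ideal to a root of unity `ζ` of order prime to
`q`, and `ζ` is fixed by the inertia group of `A`. -/
theorem h5_teich_K0 (q : ℕ) (hq : q.Prime) (A : ValuationSubring Qb) (hA : A.LiesOverPrime q)
    (a : Qb) (ha : a ∈ A) (ha' : a ∉ A.nonunits) :
    ∃ (n : ℕ) (ζ : Qb), n ≠ 0 ∧ ¬ q ∣ n ∧ ζ ^ n = 1 ∧ ζ ∈ A ∧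
      (∀ σ ∈ A.inertiaSubgroupIn ℚ, σ ζ = ζ) ∧ a - ζ ∈ A.nonunits := by
  have halg : IsAlgebraic ℤ a :=
    (IsFractionRing.isAlgebraic_iff ℤ ℚ Qb).mpr ((AlgebraicClosure.isAlgebraic ℚ).isAlgebraic a)
  obtain ⟨n, hn0, hn, hpow⟩ := h5_exists_pow_sub_one A hq hA halg ha ha'
  obtain ⟨ζ, hζ, hnear⟩ := h5_exists_root_near A ha hn0 hpow
  have hζA : ζ ∈ A := h5_mem_of_pow_eq_one A hn0 hζ
  refine ⟨n, ζ, hn0, hn, hζ, hζA, ?_, hnear⟩
  intro σ hσ
  have hζ0 : ζ ≠ 0 := by
    rintro rfl
    rw [zero_pow hn0] at hζ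
    exact zero_ne_one hζ
  have hinv : (ζ⁻¹) ^ n = 1 := by rw [inv_pow, hζ, inv_one]
  have hinvA : ζ⁻¹ ∈ A := h5_mem_of_pow_eq_one A hn0 hinv
  have h1 : σ ζ - ζ ∈ A.nonunits := h26_sub_mem_nonunits_of_mem_inertia A hσ hζA
  have h2 : σ ζ * ζ⁻¹ - 1 ∈ A.nonunits := by
    have h3 : σ ζ * ζ⁻¹ - 1 = (σ ζ - ζ) * ζ⁻¹ := by
      field_simp
    rw [h3]
    exact h26_mul_mem_nonunits_right A h1 hinvA
  have h4 : (σ ζ * ζ⁻¹) ^ n = 1 := by
    rw [mul_pow, ← map_pow, hζ, map_one, one_mul, hinv]
  have h5 := h5_root_eq_one A hq hA hn h4 h2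
  field_simp at h5
  exact h5

/-- **(K8) = (RES)**: `A = A₀ + m_A`. Every element of a valuation subring `A` of `ℚ̄` over `q`
is congruent modulo the maximal ideal to an element of `A` fixed by the inertia group of `A`:
the inertia field has the full residue field. -/
theorem h5_res_K0 (q : ℕ) (hq : q.Prime) (A : ValuationSubring Qb) (hA : A.LiesOverPrime q)
    (a : Qb) (ha : a ∈ A) :
    ∃ a0 : Qb, a0 ∈ A ∧ (∀ σ ∈ A.inertiaSubgroupIn ℚ, σ a0 = a0) ∧ a - a0 ∈ A.nonunits := by
  by_cases ha' : a ∈ A.nonunits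
  · exact ⟨0, A.zero_mem, fun σ _ => map_zero σ, by simpa using ha'⟩
  · obtain ⟨n, ζ, -, -, -, hζA, hfix, hnear⟩ := h5_teich_K0 q hq A hA a ha ha'
    exact ⟨ζ, hζA, hfix, hnear⟩

end Qbar

end Fermat.Agent.S36
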