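import Mathlib
import Fermat.Prelude.Def_AlgebraicCurve_BaseChangeGalois

/-!
# S36 / K0-rationality leaf (K2)+(K3), generic core: averaging over a finite image

`F/K` fields, a group `Γ` acting semilinearly (`ρ : Γ →* SemilinearAut K F`), `H ≤ Γ` any
subgroup, `π : Γ → Δ` a homomorphism to a finite group whose elements act on the constants as
pairwise distinct characters `χ δ : M →* K`.  An element `f : F` has *level* `π` (with respect
to `H`) if it is fixed by `H ∩ ker π`.

* `h69_dedekind_dual` : Dedekind independence in dual form.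
* `h69_orbit_data` : the finitely many translates `φ δ` of `f`, indexed by the image of `H`.
* `h69_avg_core` : an `H`-stable `K`-subspace `V` of `F`: every `f ∈ V` of level `π` lies in the
  `K`-span of the `H`-fixed elements of `V` (the averages `∑_δ χ δ c • φ δ`).
* `h69_norm_core` : the norm `f * g'` of `f` is `H`-fixed, where `g'` is a product of translates
  of `f`.
-/

set_option autoImplicit false

noncomputable section

open AlgebraicCurve

namespace Fermat.Agent.S36

section Dedekind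

/-- **Dedekind, dual form.**  For finitely many pairwise distinct `K`-valued characters `χ i` of a
monoid `M` there is a finitely supported family `a` with `∑_c a c * χ i c = [i = i0]`. -/
theorem h69_dedekind_dual {K M ι : Type*} [Field K] [Monoid M] [Finite ι]
    (χ : ι → M →* K) (hχ : Function.Injective χ) (i0 : ι) :
    ∃ a : M →₀ K, (a.sum fun c r => r * χ i0 c) = 1 ∧
      ∀ i, i ≠ i0 → (a.sum fun c r => r * χ i c) = 0 := by
  classical
  have := Fintype.ofFinite ι
  let v : M → ι → K := fun c i => χ i c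
  have hli : LinearIndependent K (fun i : ι => ((χ i : M →* K) : M → K)) :=
    (linearIndependent_monoidHom M K).comp χ hχ
  have htop : Submodule.span K (Set.range v) = ⊤ := by
    by_contra hne
    obtain ⟨f, hf0, hf⟩ := Submodule.exists_le_ker_of_lt_top _ (lt_top_iff_ne_top.mpr hne)
    apply hf0
    have hz : ∀ i, f (fun j => if i = j then 1 else 0) = 0 := by
      have h1 : ∑ i, f (fun j => if i = j then 1 else 0) • ((χ i : M →* K) : M → K) = 0 := by
        funext c
        have h2 : f (v c) = 0 := hf (Submodule.subset_span ⟨c, rfl⟩)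
        rw [LinearMap.pi_apply_eq_sum_univ f (v c)] at h2
        simp only [Finset.sum_apply, Pi.smul_apply, smul_eq_mul, Pi.zero_apply]
        refine Eq.trans (Finset.sum_congr rfl fun i _ => ?_) h2
        simp only [v, smul_eq_mul]
        ring
      exact fun i => Fintype.linearIndependent_iff.mp hli _ h1 i
    refine LinearMap.ext fun x => ?_
    rw [LinearMap.pi_apply_eq_sum_univ f x]
    simp [hz]
  have hmem : (Pi.single i0 1 : ι → K) ∈ Submodule.span K (Set.range v) := by
    rw [htop]; exact Submodule.mem_top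
  rw [← Finsupp.range_linearCombination] at hmem
  obtain ⟨a, ha⟩ := hmem
  have key : ∀ i, (a.sum fun c r => r * χ i c) = (Pi.single i0 1 : ι → K) i := by
    intro i
    have h1 := congrFun ha i
    rw [Finsupp.linearCombination_apply, Finsupp.sum_apply'] at h1
    rw [← h1]
    rfl
  refine ⟨a, ?_, fun i hi => ?_⟩
  · rw [key, Pi.single_eq_same]
  · rw [key, Pi.single_eq_of_ne hi]

end Dedekind

section Avg

variable {K F : Type*} [Field K] [Field F] [Algebra K F]

/-- Semilinearity of the action with respect to scalar multiplication by constants. -/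
theorem h69_smul_smul (g : SemilinearAut K F) (k : K) (x : F) :
    g • (k • x) = SemilinearAut.baseAut g k • g • x := by
  rw [Algebra.smul_def, Algebra.smul_def, smul_mul', SemilinearAut.smul_algebraMap]

variable {Γ Δ : Type*} [Group Γ] [Group Δ]

/-- **Orbit data.**  If `f` is fixed by `H ∩ ker π`, its `H`-translates are indexed by the image
of `H` under `π`. -/
theorem h69_orbit_data (ρ : Γ →* SemilinearAut K F) (π : Γ →* Δ) (H : Subgroup Γ)
    (f : F) (hlev : ∀ s ∈ H, π s = 1 → ρ s • f = f) :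
    ∃ φ : (H.map π) → F, φ 1 = f ∧ (∀ δ, ∃ γ ∈ H, φ δ = ρ γ • f) ∧
      ∀ (γ : Γ) (hγ : γ ∈ H) (δ : H.map π),
        ρ γ • φ δ = φ (⟨π γ, Subgroup.mem_map_of_mem π hγ⟩ * δ) := by
  have hex : ∀ δ : H.map π, ∃ γ ∈ H, π γ = δ := fun δ => Subgroup.mem_map.mp δ.2
  choose lift hliftH hlift using hex
  have key : ∀ γ ∈ H, ∀ γ' ∈ H, π γ = π γ' → ρ γ • f = ρ γ' • f := by
    intro γ hγ γ' hγ' h
    have h1 : ρ (γ⁻¹ * γ') • f = f :=
      hlev _ (H.mul_mem (H.inv_mem hγ) hγ') (by rw [map_mul, map_inv, h, inv_mul_cancel])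
    have h2 : ρ γ' = ρ γ * ρ (γ⁻¹ * γ') := by rw [← map_mul, mul_inv_cancel_left]
    rw [h2, mul_smul, h1]
  refine ⟨fun δ => ρ (lift δ) • f, ?_, fun δ => ⟨lift δ, hliftH δ, rfl⟩, fun γ hγ δ => ?_⟩
  · have h1 := key (lift 1) (hliftH 1) 1 H.one_mem (by rw [hlift, map_one]; rfl)
    show ρ (lift 1) • f = f
    rw [h1, map_one, one_smul]
  · show ρ γ • ρ (lift δ) • f = ρ (lift _) • f
    rw [← mul_smul, ← map_mul]
    refine key _ (H.mul_mem hγ (hliftH δ)) _ (hliftH _) ?_
    rw [map_mul, hlift, hlift]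
    rfl

variable [Finite Δ]

/-- **Averaging / vector space descent, generic form.**  `V` an `H`-stable `K`-subspace of `F`.
Every `f ∈ V` fixed by `H ∩ ker π` is a `K`-linear combination of `H`-fixed elements of `V`. -/
theorem h69_avg_core {M : Type*} [Monoid M]
    (ρ : Γ →* SemilinearAut K F) (π : Γ →* Δ) (χ : Δ → M →* K)
    (hχinj : Function.Injective χ)
    (hχ : ∀ (γ : Γ) (δ : Δ) (c : M), SemilinearAut.baseAut (ρ γ) (χ δ c) = χ (π γ * δ) c)
    (H : Subgroup Γ) (V : Submodule K F) (hV : ∀ γ ∈ H, ∀ v ∈ V, ρ γ • v ∈ V)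
    (f : F) (hf : f ∈ V) (hlev : ∀ s ∈ H, π s = 1 → ρ s • f = f) :
    f ∈ Submodule.span K {g | g ∈ V ∧ ∀ γ ∈ H, ρ γ • g = g} := by
  classical
  obtain ⟨φ, hφ1, hφH, hφ⟩ := h69_orbit_data ρ π H f hlev
  have := Fintype.ofFinite (H.map π)
  let T : M → F := fun c => ∑ δ : H.map π, χ (δ : Δ) c • φ δ
  have hTV : ∀ c, T c ∈ V := fun c => Submodule.sum_mem _ fun δ _ => by
    obtain ⟨γ, hγ, h⟩ := hφH δ
    rw [h]
    exact V.smul_mem _ (hV γ hγ f hf)
  have hTfix : ∀ c, ∀ γ ∈ H, ρ γ • T c = T c := by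
    intro c γ hγ
    show ρ γ • ∑ δ : H.map π, χ (δ : Δ) c • φ δ = _
    rw [Finset.smul_sum]
    refine (Finset.sum_congr rfl fun δ _ => ?_).trans
      (Equiv.sum_comp (Equiv.mulLeft (⟨π γ, Subgroup.mem_map_of_mem π hγ⟩ : H.map π))
        (fun δ => χ (δ : Δ) c • φ δ))
    rw [h69_smul_smul, hχ, hφ γ hγ δ]
    rfl
  obtain ⟨a, ha1, ha0⟩ := h69_dedekind_dual (fun δ : H.map π => χ (δ : Δ))
    (fun δ δ' h => Subtype.ext (hχinj h)) 1
  have hsum : f = a.sum fun c r => r • T c := by
    simp only [Finsupp.sum, T, Finset.smul_sum, smul_smul]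
    rw [Finset.sum_comm]
    simp only [← Finset.sum_smul]
    rw [Finset.sum_eq_single 1]
    · have h1 := ha1
      simp only [Finsupp.sum] at h1
      rw [h1, one_smul, hφ1]
    · intro δ _ hδ
      have h0 := ha0 δ hδ
      simp only [Finsupp.sum] at h0
      rw [h0, zero_smul]
    · intro h
      exact absurd (Finset.mem_univ _) h
  rw [hsum]
  exact Submodule.sum_mem _ fun c _ =>
    Submodule.smul_mem _ _ (Submodule.subset_span ⟨hTV c, hTfix c⟩)

/-- **Norms.**  If `f` is fixed by `H ∩ ker π`, there is a product `g'` of `H`-translates of `f`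
such that `f * g'` is fixed by `H`. -/
theorem h69_norm_core (ρ : Γ →* SemilinearAut K F) (π : Γ →* Δ) (H : Subgroup Γ)
    (f : F) (hlev : ∀ s ∈ H, π s = 1 → ρ s • f = f) :
    ∃ g' : F, (∀ S : Submonoid F, (∀ γ ∈ H, ρ γ • f ∈ S) → g' ∈ S) ∧
      ∀ γ ∈ H, ρ γ • (f * g') = f * g' := by
  classical
  obtain ⟨φ, hφ1, hφH, hφ⟩ := h69_orbit_data ρ π H f hlev
  have := Fintype.ofFinite (H.map π)
  have hprod : f * ∏ δ ∈ Finset.univ.erase (1 : H.map π), φ δ = ∏ δ, φ δ := by
    rw [← hφ1]
    exact Finset.mul_prod_erase Finset.univ φ (Finset.mem_univ _)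
  refine ⟨∏ δ ∈ Finset.univ.erase (1 : H.map π), φ δ, fun S hS => ?_, fun γ hγ => ?_⟩
  · refine Submonoid.prod_mem S fun δ _ => ?_
    obtain ⟨γ, hγ, h⟩ := hφH δ
    rw [h]
    exact hS γ hγ
  · rw [hprod, Finset.smul_prod']
    refine (Finset.prod_congr rfl fun δ _ => hφ γ hγ δ).trans
      (Equiv.prod_comp (Equiv.mulLeft (⟨π γ, Subgroup.mem_map_of_mem π hγ⟩ : H.map π)) φ)

end Avg

end Fermat.Agent.S36
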