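import Mathlib
import Fermat.Prelude.Def_AlgebraicCurve_BaseChangeGalois

/-!
# S36 / K0-rationality leaf (K1), generic core: descent of invariant divisor classes

`F/K` a function field with places, a group `Γ` acting semilinearly (`ρ : Γ →* SemilinearAut K F`),
a *leading coefficient* `lc : F → K` (multiplicative, identity on constants, equivariant), and
"functions without zeros and poles are constants".  Let `H ≤ Γ` be any subgroup and `D0` a
divisor such that `γ • D0 - D0` is principal for every `γ ∈ H` and such that `D0` is fixed by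
`H ∩ ker π` for a homomorphism `π : Γ → Δ` to a finite group whose elements act as pairwise
distinct characters `χ δ : M →* F`.  Then there is `b ≠ 0` with `D0 + div b` fixed by `H`
(`h69_desc_core`).

Proof: the functions `f γ` with divisor `γ • D0 - D0` and leading coefficient `1` form an exact
1-cocycle on `H` (no constants: this is where the rational cusp enters), factoring through the
finite image of `H` in `Δ`; a Poincaré series `b = ∑ f δ * χ δ c` is nonzero for a suitable `c`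
(Dedekind independence of characters) and satisfies `f γ * γ • b = b`.
-/

set_option autoImplicit false

noncomputable section

open AlgebraicCurve

namespace Fermat.Agent.S36

section Core

variable {K F : Type*} [Field K] [Field F] [Algebra K F]

/-- The order of a semilinear translate. -/
theorem h69_ord_smul (g : SemilinearAut K F) (v : Place K F) (f : F) :
    v.ord (g • f) = (g⁻¹ • v).ord f := by
  have h := SemilinearAut.ord_smul g (g⁻¹ • v) f
  rwa [smul_inv_smul] at h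

/-- Constants have order zero at every place. -/
theorem h69_ord_algebraMap (v : Place K F) {c : K} (hc : c ≠ 0) :
    v.ord (algebraMap K F c) = 0 := by
  have hu : IsUnit (algebraMap K v.toValuationSubring c) :=
    (Ne.isUnit hc).map (algebraMap K v.toValuationSubring)
  have h := v.ord_coe_unit hu.unit
  rwa [IsUnit.unit_spec, Place.coe_algebraMap] at h

section LC

variable (lc : F → K) (lc_mul : ∀ f g : F, lc (f * g) = lc f * lc g)
  (lc_alg : ∀ c : K, lc (algebraMap K F c) = c)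

include lc_alg in
theorem h69_lc_one : lc (1 : F) = 1 := by
  have h := lc_alg 1
  rwa [map_one] at h

include lc_mul lc_alg in
theorem h69_lc_mul_inv {f : F} (hf : f ≠ 0) : lc f * lc f⁻¹ = 1 := by
  rw [← lc_mul, mul_inv_cancel₀ hf, h69_lc_one lc lc_alg]

include lc_mul lc_alg in
theorem h69_lc_ne_zero {f : F} (hf : f ≠ 0) : lc f ≠ 0 := by
  intro h0
  have h := h69_lc_mul_inv lc lc_mul lc_alg hf
  rw [h0, zero_mul] at h
  exact zero_ne_one h

include lc_mul lc_alg in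
/-- **Uniqueness**: a function is determined by its divisor and its leading coefficient. -/
theorem h69_unique
    (hconst : ∀ f : F, f ≠ 0 → (∀ v : Place K F, v.ord f = 0) → ∃ c : K, f = algebraMap K F c)
    {f g : F} (hf : f ≠ 0) (hg : g ≠ 0) (hord : ∀ v : Place K F, v.ord f = v.ord g)
    (hlc : lc f = lc g) : f = g := by
  have hg' : g⁻¹ ≠ 0 := inv_ne_zero hg
  have h0 : f * g⁻¹ ≠ 0 := mul_ne_zero hf hg'
  obtain ⟨c, hc⟩ := hconst (f * g⁻¹) h0 (fun v => by
    rw [v.ord_mul hf hg', v.ord_inv, hord v]; ring)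
  have h3 : c = 1 := by
    have h := lc_alg c
    rw [← hc, lc_mul, hlc, h69_lc_mul_inv lc lc_mul lc_alg hg] at h
    exact h.symm
  rw [h3, map_one] at hc
  exact (mul_inv_eq_one₀ hg).mp hc

include lc_mul lc_alg in
/-- Normalisation: a nonzero function can be scaled to leading coefficient `1` without changing
its divisor. -/
theorem h69_exists_normalised {f : F} (hf : f ≠ 0) :
    ∃ g : F, g ≠ 0 ∧ lc g = 1 ∧ ∀ v : Place K F, v.ord g = v.ord f := by
  have hlc := h69_lc_ne_zero lc lc_mul lc_alg hf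
  have hc : algebraMap K F (lc f)⁻¹ ≠ 0 := by
    rw [Ne, map_eq_zero]
    exact inv_ne_zero hlc
  refine ⟨algebraMap K F (lc f)⁻¹ * f, mul_ne_zero hc hf, ?_, fun v => ?_⟩
  · rw [lc_mul, lc_alg, inv_mul_cancel₀ hlc]
  · rw [v.ord_mul hc hf, h69_ord_algebraMap v (inv_ne_zero hlc), zero_add]

end LC

/-- **Descent core.**  See the module docstring. -/
theorem h69_desc_core
    {Γ Δ M : Type*} [Group Γ] [Group Δ] [Finite Δ] [Monoid M]
    (ρ : Γ →* SemilinearAut K F) (π : Γ →* Δ) (χ : Δ → M →* F)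
    (hχinj : Function.Injective χ)
    (hχ : ∀ (γ : Γ) (δ : Δ) (c : M), ρ γ • χ δ c = χ (π γ * δ) c)
    (lc : F → K) (lc_mul : ∀ f g : F, lc (f * g) = lc f * lc g)
    (lc_alg : ∀ c : K, lc (algebraMap K F c) = c)
    (lc_smul : ∀ (γ : Γ) (f : F), lc (ρ γ • f) = SemilinearAut.baseAut (ρ γ) (lc f))
    (hconst : ∀ f : F, f ≠ 0 → (∀ v : Place K F, v.ord f = 0) → ∃ c : K, f = algebraMap K F c)
    (H : Subgroup Γ) (D0 : Divisor K F)
    (hlev : ∀ s ∈ H, π s = 1 → ρ s • D0 = D0)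
    (hfix : ∀ γ ∈ H, ∃ f : F, f ≠ 0 ∧ ∀ v : Place K F, (ρ γ • D0) v - D0 v = v.ord f) :
    ∃ b : F, b ≠ 0 ∧ ∀ γ ∈ H, ∀ v : Place K F,
      (ρ γ • D0) v + v.ord (ρ γ • b) = D0 v + v.ord b := by
  classical
  have hU := fun {f g : F} => h69_unique lc lc_mul lc_alg hconst (f := f) (g := g)
  -- the normalised cocycle
  have hex : ∀ γ : Γ, ∃ f : F, γ ∈ H →
      (f ≠ 0 ∧ lc f = 1 ∧ ∀ v : Place K F, (ρ γ • D0) v - D0 v = v.ord f) := by
    intro γ
    by_cases hγ : γ ∈ H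
    · obtain ⟨f, hf, hord⟩ := hfix γ hγ
      obtain ⟨g, hg, hg1, hgo⟩ := h69_exists_normalised lc lc_mul lc_alg hf
      exact ⟨g, fun _ => ⟨hg, hg1, fun v => by rw [hgo v, hord v]⟩⟩
    · exact ⟨1, fun h => absurd h hγ⟩
  choose fc hfc using hex
  have hfc0 : ∀ γ ∈ H, fc γ ≠ 0 := fun γ hγ => (hfc γ hγ).1
  have hfc1 : ∀ γ ∈ H, lc (fc γ) = 1 := fun γ hγ => (hfc γ hγ).2.1
  have hfco : ∀ γ ∈ H, ∀ v : Place K F, (ρ γ • D0) v - D0 v = v.ord (fc γ) :=
    fun γ hγ => (hfc γ hγ).2.2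
  have hsm0 : ∀ (γ : Γ) {f : F}, f ≠ 0 → ρ γ • f ≠ 0 := by
    intro γ f hf h0
    exact hf ((smul_eq_zero_iff_eq (ρ γ)).mp h0)
  -- the cocycle relation
  have hcoc : ∀ σ ∈ H, ∀ τ ∈ H, fc (σ * τ) = fc σ * ρ σ • fc τ := by
    intro σ hσ τ hτ
    have hστ : σ * τ ∈ H := H.mul_mem hσ hτ
    refine hU (hfc0 _ hστ) (mul_ne_zero (hfc0 σ hσ) (hsm0 σ (hfc0 τ hτ))) (fun v => ?_) ?_
    · rw [v.ord_mul (hfc0 σ hσ) (hsm0 σ (hfc0 τ hτ)), h69_ord_smul, ← hfco _ hστ v,
        ← hfco σ hσ v, ← hfco τ hτ, map_mul, mul_smul,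
        SemilinearAut.divisor_smul_apply (ρ σ) (ρ τ • D0) v,
        SemilinearAut.divisor_smul_apply (ρ σ) D0 v]
      ring
    · rw [hfc1 _ hστ, lc_mul, hfc1 σ hσ, lc_smul, hfc1 τ hτ, map_one, mul_one]
  -- triviality on the kernel
  have hker : ∀ s ∈ H, π s = 1 → fc s = 1 := by
    intro s hs hπ
    refine hU (hfc0 s hs) one_ne_zero (fun v => ?_) ?_
    · rw [← hfco s hs v, hlev s hs hπ, sub_self, Place.ord_one]
    · rw [hfc1 s hs, h69_lc_one lc lc_alg]
  -- `fc` factors through the image of `H`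
  have hfac : ∀ γ ∈ H, ∀ γ' ∈ H, π γ = π γ' → fc γ = fc γ' := by
    intro γ hγ γ' hγ' hπ
    have hs : γ'⁻¹ * γ ∈ H := H.mul_mem (H.inv_mem hγ') hγ
    have hπs : π (γ'⁻¹ * γ) = 1 := by
      rw [map_mul, map_inv, hπ, inv_mul_cancel]
    have h1 := hcoc γ' hγ' _ hs
    rw [mul_inv_cancel_left, hker _ hs hπs, smul_one, mul_one] at h1
    exact h1
  -- the finite image
  let Hb : Subgroup Δ := H.map π
  have hrep : ∀ δ : Hb, ∃ γ : Γ, γ ∈ H ∧ π γ = (δ : Δ) := fun δ => by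
    obtain ⟨γ, hγ, hγδ⟩ := Subgroup.mem_map.mp δ.2
    exact ⟨γ, hγ, hγδ⟩
  choose rep hrepH hrepπ using hrep
  let fb : Hb → F := fun δ => fc (rep δ)
  have hfb : ∀ γ (hγ : γ ∈ H), fc γ = fb ⟨π γ, Subgroup.mem_map_of_mem π hγ⟩ := by
    intro γ hγ
    exact hfac γ hγ _ (hrepH ⟨π γ, Subgroup.mem_map_of_mem π hγ⟩)
      (hrepπ ⟨π γ, Subgroup.mem_map_of_mem π hγ⟩).symm
  have hfb0 : ∀ δ : Hb, fb δ ≠ 0 := fun δ => hfc0 _ (hrepH δ)
  -- Dedekind independence
  have : Fintype Hb := Fintype.ofFinite Hb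
  have hli : LinearIndependent F (fun δ : Hb => ((χ (δ : Δ) : M →* F) : M → F)) := by
    have h1 := linearIndependent_monoidHom M F
    exact h1.comp (fun δ : Hb => χ (δ : Δ)) (fun a b hab => Subtype.ext (hχinj hab))
  have hexc : ∃ c : M, ∑ δ : Hb, fb δ * χ (δ : Δ) c ≠ 0 := by
    by_contra hcon
    have hcon : ∀ c : M, ∑ δ : Hb, fb δ * χ (δ : Δ) c = 0 := fun c => by
      by_contra h
      exact hcon ⟨c, h⟩
    have h0 : ∑ δ : Hb, fb δ • ((χ (δ : Δ) : M →* F) : M → F) = 0 := by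
      funext c
      rw [Finset.sum_apply]
      simpa using hcon c
    have h1 := (Fintype.linearIndependent_iff.mp hli) fb h0 (1 : Hb)
    exact hfb0 1 h1
  obtain ⟨c, hc⟩ := hexc
  refine ⟨∑ δ : Hb, fb δ * χ (δ : Δ) c, hc, fun γ hγ v => ?_⟩
  -- the transformation law of the Poincaré series
  set g : Hb := ⟨π γ, Subgroup.mem_map_of_mem π hγ⟩ with hg
  have hterm : ∀ δ : Hb, fc γ * ρ γ • (fb δ * χ (δ : Δ) c) = fb (g * δ) * χ ((g * δ : Hb) : Δ) c := by
    intro δ
    rw [smul_mul', hχ, ← mul_assoc]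
    congr 1
    have h1 := hcoc γ hγ (rep δ) (hrepH δ)
    rw [← h1, hfb _ (H.mul_mem hγ (hrepH δ))]
    congr 1
    apply Subtype.ext
    show π (γ * rep δ) = π γ * (δ : Δ)
    rw [map_mul, hrepπ]
  have hlaw : fc γ * ρ γ • (∑ δ : Hb, fb δ * χ (δ : Δ) c) = ∑ δ : Hb, fb δ * χ (δ : Δ) c := by
    rw [Finset.smul_sum, Finset.mul_sum]
    rw [Finset.sum_congr rfl (fun δ _ => hterm δ)]
    exact Equiv.sum_comp (Equiv.mulLeft g) (fun δ : Hb => fb δ * χ (δ : Δ) c)
  have hb' : ρ γ • (∑ δ : Hb, fb δ * χ (δ : Δ) c) ≠ 0 := hsm0 γ hc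
  have hord := congrArg v.ord hlaw
  rw [v.ord_mul (hfc0 γ hγ) hb', ← hfco γ hγ v] at hord
  linarith

/-- Two degree-zero divisors with the same class differ by a principal divisor. -/
theorem h69_principal_of_mk_eq {D D' : Divisor.degZero (K := K) (F := F)}
    (h : Pic0.mk D = Pic0.mk D') :
    ∃ f : F, f ≠ 0 ∧ ∀ v : Place K F, (D : Divisor K F) v - (D' : Divisor K F) v = v.ord f := by
  have h2 : Pic0.mk (D - D') = 0 := by
    have h3 : Pic0.mk (D - D') = Pic0.mk D - Pic0.mk D' := rfl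
    rw [h3, h, sub_self]
  have h4 := (QuotientAddGroup.eq_zero_iff _).mp h2
  rw [AddSubgroup.mem_addSubgroupOf] at h4
  obtain ⟨f, hf, hfD⟩ := h4
  refine ⟨f, hf, fun v => ?_⟩
  rw [← hfD v]
  rfl

/-- Adding a principal divisor does not change the class. -/
theorem h69_mk_add_principal (D : Divisor.degZero (K := K) (F := F)) (Db : Divisor K F)
    (hdeg : Db ∈ Divisor.degZero (K := K) (F := F)) {b : F} (hb : b ≠ 0)
    (hDb : ∀ v : Place K F, Db v = v.ord b) :
    Pic0.mk (D + ⟨Db, hdeg⟩) = Pic0.mk D := by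
  rw [Pic0.mk_add]
  have h0 : Pic0.mk (⟨Db, hdeg⟩ : Divisor.degZero (K := K) (F := F)) = 0 := by
    refine (QuotientAddGroup.eq_zero_iff _).mpr ?_
    rw [AddSubgroup.mem_addSubgroupOf]
    exact ⟨b, hb, hDb⟩
  rw [h0, add_zero]

/-- **Descent, divisor form (generic).** A class fixed by `H` whose representative `D0` has
finite level (`hlev`) is the class of an `H`-invariant divisor. -/
theorem h69_desc_gen [HasPrincipalDivisors K F]
    {Γ Δ M : Type*} [Group Γ] [Group Δ] [Finite Δ] [Monoid M]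
    (ρ : Γ →* SemilinearAut K F) (π : Γ →* Δ) (χ : Δ → M →* F)
    (hχinj : Function.Injective χ)
    (hχ : ∀ (γ : Γ) (δ : Δ) (c : M), ρ γ • χ δ c = χ (π γ * δ) c)
    (lc : F → K) (lc_mul : ∀ f g : F, lc (f * g) = lc f * lc g)
    (lc_alg : ∀ c : K, lc (algebraMap K F c) = c)
    (lc_smul : ∀ (γ : Γ) (f : F), lc (ρ γ • f) = SemilinearAut.baseAut (ρ γ) (lc f))
    (hconst : ∀ f : F, f ≠ 0 → (∀ v : Place K F, v.ord f = 0) → ∃ c : K, f = algebraMap K F c)
    (H : Subgroup Γ) (D0 : Divisor.degZero (K := K) (F := F))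
    (hlev : ∀ s ∈ H, π s = 1 → ρ s • (D0 : Divisor K F) = D0)
    (hx : ∀ γ ∈ H, ρ γ • Pic0.mk D0 = Pic0.mk D0) :
    ∃ D : Divisor.degZero (K := K) (F := F), Pic0.mk D = Pic0.mk D0 ∧
      ∀ γ ∈ H, ρ γ • (D : Divisor K F) = D := by
  have hfix : ∀ γ ∈ H, ∃ f : F, f ≠ 0 ∧
      ∀ v : Place K F, (ρ γ • (D0 : Divisor K F)) v - (D0 : Divisor K F) v = v.ord f := by
    intro γ hγ
    have h1 := hx γ hγ
    rw [SemilinearAut.pic0_smul_mk] at h1
    exact h69_principal_of_mk_eq h1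
  obtain ⟨b, hb, hbH⟩ := h69_desc_core ρ π χ hχinj hχ lc lc_mul lc_alg lc_smul hconst H
    (D0 : Divisor K F) hlev hfix
  obtain ⟨Db, hDb, hdeg⟩ := HasPrincipalDivisors.exists_divisor (K := K) b hb
  have hDbz : Db ∈ Divisor.degZero (K := K) (F := F) := Divisor.mem_degZero.mpr hdeg
  refine ⟨D0 + ⟨Db, hDbz⟩, h69_mk_add_principal D0 Db hDbz hb hDb, fun γ hγ => ?_⟩
  ext v
  have h1 := hbH γ hγ v
  have h2 : (ρ γ • Db) v = v.ord (ρ γ • b) := by
    rw [SemilinearAut.divisor_smul_apply, hDb, h69_ord_smul]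
  show (ρ γ • ((D0 : Divisor K F) + Db)) v = ((D0 : Divisor K F) + Db) v
  rw [smul_add, Finsupp.add_apply, Finsupp.add_apply, h2, hDb v]
  exact h1

/-- **Descent, function form (generic).** For an `H`-invariant degree-zero divisor `D` whose
class is killed by `n`, the function `u` with `div u = n D` and leading coefficient `1` is
fixed by `H`. -/
theorem h69_desc_torsion_gen
    {Γ : Type*} [Group Γ] (ρ : Γ →* SemilinearAut K F)
    (lc : F → K) (lc_mul : ∀ f g : F, lc (f * g) = lc f * lc g)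
    (lc_alg : ∀ c : K, lc (algebraMap K F c) = c)
    (lc_smul : ∀ (γ : Γ) (f : F), lc (ρ γ • f) = SemilinearAut.baseAut (ρ γ) (lc f))
    (hconst : ∀ f : F, f ≠ 0 → (∀ v : Place K F, v.ord f = 0) → ∃ c : K, f = algebraMap K F c)
    (H : Subgroup Γ) (D : Divisor.degZero (K := K) (F := F))
    (hD : ∀ γ ∈ H, ρ γ • (D : Divisor K F) = D) (n : ℕ) (hn : n • Pic0.mk D = 0) :
    ∃ u : F, u ≠ 0 ∧ lc u = 1 ∧
      (∀ v : Place K F, (n : ℤ) * (D : Divisor K F) v = v.ord u) ∧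
      ∀ γ ∈ H, ρ γ • u = u := by
  have h0 : (n • D : Divisor.degZero (K := K) (F := F)) ∈
      (Divisor.principal (K := K) (F := F)).addSubgroupOf
        (Divisor.degZero (K := K) (F := F)) := by
    have h1 : Pic0.mk (n • D) = 0 := hn
    exact (QuotientAddGroup.eq_zero_iff _).mp h1
  rw [AddSubgroup.mem_addSubgroupOf] at h0
  obtain ⟨u0, hu0, hu0D⟩ := h0
  obtain ⟨u, hu, hu1, huo⟩ := h69_exists_normalised lc lc_mul lc_alg hu0
  have hord : ∀ v : Place K F, (n : ℤ) * (D : Divisor K F) v = v.ord u := by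
    intro v
    rw [huo v, ← hu0D v]
    simp
  refine ⟨u, hu, hu1, hord, fun γ hγ => ?_⟩
  have hne : ρ γ • u ≠ 0 := by
    intro h
    exact hu ((smul_eq_zero_iff_eq (ρ γ)).mp h)
  refine h69_unique lc lc_mul lc_alg hconst hne hu (fun v => ?_) ?_
  · rw [h69_ord_smul, ← hord, ← hord v, ← SemilinearAut.divisor_smul_apply, hD γ hγ]
  · rw [lc_smul, hu1, map_one]

end Core

end Fermat.Agent.S36
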