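import Mathlib
import Fermat.Agent.S36.h69_AvgCore
import Fermat.Agent.S36.h69_DescCore
import Fermat.Agent.S17.h83_Smooth
import Fermat.Agent.S17.h35_GalDescent
import Fermat.Agent.S24.h35_PlaceBasic
import Fermat.Agent.S34.h44_ValApprox

/-!
# S36 / K0-rationality leaf (K2)-(K5): rationality over the fixed field of a subgroup

`H` an arbitrary subgroup of `Gal(ℚ̄/ℚ)` (e.g. an inertia group), acting on `F̄(N)` through
`arithmeticGalois` (coefficientwise on `t`-expansions).  `F^H` := the `H`-fixed functions.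

* `h69_span_fixed` (K2/K3) : an `H`-stable `ℚ̄`-subspace `V` of `F̄(N)` is spanned by `V ∩ F^H`.
* `h69_rr_span_fixed` (K3) : `L(D)` is spanned by its `H`-fixed elements if `D` is `H`-invariant.
* `h69_norm` : every `f` has a norm `f * g'` in `F^H`, `g'` a product of `H`-translates of `f`.
* `h69_orbit_finite` : Galois orbits of places are finite.
* `h69_exists_fixed_uniformizer` (K4) : every place `P` has a uniformiser in `F^H`
  (`F̄(N) / F^H` is unramified at `P`).
* `h69_conj_of_fixed_le` (K5) : places with the same restriction to `F^H` are `H`-conjugate.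
-/

set_option autoImplicit false

noncomputable section

open AlgebraicCurve ModularCurve IntermediateField

namespace Fermat.Agent.S36

local notation "Qb" => AlgebraicClosure ℚ

section PlaceGen

open Fermat.Agent.S24

variable {K F : Type*} [Field K] [Field F] [Algebra K F]

/-- `{f | f = 0 ∨ n ≤ ord_P f}` as a `K`-subspace of `F`. -/
def h69_ordGE (P : Place K F) (n : ℤ) : Submodule K F where
  carrier := {f | f = 0 ∨ n ≤ P.ord f}
  zero_mem' := Or.inl rfl
  add_mem' := by
    intro f g hf hg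
    by_cases hf0 : f = 0
    · subst hf0
      simpa using hg
    by_cases hg0 : g = 0
    · subst hg0
      simpa using hf
    by_cases h0 : f + g = 0
    · exact Or.inl h0
    · exact Or.inr (le_trans (le_min (hf.resolve_left hf0) (hg.resolve_left hg0))
        (h35_ord_add P hf0 hg0 h0))
  smul_mem' := by
    intro c f hf
    by_cases hf0 : f = 0
    · left
      simp [hf0]
    by_cases hc : c = 0
    · left
      simp [hc]
    · right
      show n ≤ P.ord (c • f)
      rw [Algebra.smul_def, P.ord_mul (by simpa using hc) hf0, h35_ord_algebraMap, zero_add]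
      exact hf.resolve_left hf0

theorem h69_mem_ordGE (P : Place K F) (n : ℤ) (f : F) :
    f ∈ h69_ordGE P n ↔ f = 0 ∨ n ≤ P.ord f := Iff.rfl

/-- **Weak approximation for places**: a function vanishing at the places of a finite set `S1`
and a unit at the places of a disjoint nonempty finite set `S2`. -/
theorem h69_place_sep (S1 S2 : Set (Place K F)) (h1 : S1.Finite) (h2 : S2.Finite)
    (hd : Disjoint S1 S2) (hne : S2.Nonempty) :
    ∃ b : F, b ≠ 0 ∧ (∀ P ∈ S1, 0 < P.ord b) ∧ ∀ P ∈ S2, P.ord b = 0 := by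
  classical
  have hfin : Finite ↥(S1 ∪ S2) := (h1.union h2).to_subtype
  let O : ↥(S1 ∪ S2) → ValuationSubring F := fun i => i.1.toValuationSubring
  have hinc : ∀ i j, i ≠ j → ¬ O i ≤ O j := fun i j hij hle =>
    hij (Subtype.ext (h35_place_eq_of_le i.1 j.1 hle))
  obtain ⟨b, -, hb⟩ := Fermat.Agent.S34.h44_val_crt O hinc
    (fun i => if i.1 ∈ S2 then 1 else 0)
    (fun i => by
      by_cases hi : i.1 ∈ S2
      · simp only [hi, if_true]
        exact (O i).one_mem
      · simp only [hi, if_false]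
        exact (O i).zero_mem)
  have hunit : ∀ P ∈ S2, b ≠ 0 ∧ P.ord b = 0 := by
    intro P hP
    have h := hb ⟨P, Or.inr hP⟩
    simp only [hP, if_true] at h
    have hv : P.toValuationSubring.valuation b = 1 := by
      have e : b = 1 + (b - 1) := by ring
      rw [e]
      exact Valuation.map_one_add_of_lt _ h
    have hb0 : b ≠ 0 := by
      intro h0
      rw [h0, map_zero] at hv
      exact zero_ne_one hv
    have hmem : b ∈ P.toValuationSubring :=
      (P.toValuationSubring.valuation_le_one_iff b).mp hv.le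
    have hmem' : b⁻¹ ∈ P.toValuationSubring := by
      refine (P.toValuationSubring.valuation_le_one_iff b⁻¹).mp ?_
      rw [map_inv₀, hv, inv_one]
    have e1 := (h35_mem_iff_ord_nonneg P hb0).mp hmem
    have e2 := (h35_mem_iff_ord_nonneg P (inv_ne_zero hb0)).mp hmem'
    rw [P.ord_inv] at e2
    exact ⟨hb0, by omega⟩
  obtain ⟨P0, hP0⟩ := hne
  have hb0 : b ≠ 0 := (hunit P0 hP0).1
  refine ⟨b, hb0, fun P hP => ?_, fun P hP => (hunit P hP).2⟩
  have hP2 : P ∉ S2 := fun h => Set.disjoint_left.mp hd hP h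
  have h := hb ⟨P, Or.inl hP⟩
  simp only [hP2, if_false, sub_zero] at h
  have hv0 : P.toValuationSubring.valuation b ≠ 0 := (Valuation.ne_zero_iff _).mpr hb0
  refine (h35_ord_pos_iff P hb0).mpr
    ⟨(P.toValuationSubring.valuation_le_one_iff b).mp h.le, fun hinv => ?_⟩
  have h3 := (P.toValuationSubring.valuation_le_one_iff b⁻¹).mpr hinv
  rw [map_inv₀] at h3
  have h4 : (1 : _) < (P.toValuationSubring.valuation b)⁻¹ :=
    (one_lt_inv₀ (lt_of_le_of_ne zero_le hv0.symm)).mpr h
  exact absurd h3 (not_le.mpr h4)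

variable {Γ : Type*} [Group Γ]

/-- **(K4), generic form.**  If every `H`-stable subspace is spanned by its `H`-fixed elements and
the orbit of the place `P` is finite, then `P` has an `H`-fixed uniformiser. -/
theorem h69_unif_gen (ρ : Γ →* SemilinearAut K F) (H : Subgroup Γ)
    (hspan : ∀ V : Submodule K F, (∀ γ ∈ H, ∀ v ∈ V, ρ γ • v ∈ V) →
      Submodule.span K {g | g ∈ V ∧ ∀ γ ∈ H, ρ γ • g = g} = V)
    (P : Place K F) (hfin : (Set.range fun γ : Γ => ρ γ • P).Finite) :
    ∃ t : F, (∀ γ ∈ H, ρ γ • t = t) ∧ P.ord t = 1 := by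
  classical
  set S : Set (Place K F) := Set.range fun γ : Γ => ρ γ • P with hS
  have hPS : P ∈ S := ⟨1, by simp⟩
  have hSstab : ∀ (γ : Γ) (Q : Place K F), Q ∈ S → ρ γ • Q ∈ S := by
    rintro γ _ ⟨τ, rfl⟩
    exact ⟨γ * τ, by simp [map_mul, mul_smul]⟩
  -- `b`: a unit at `P`, vanishing at the other points of the orbit
  obtain ⟨b, hb0, hb1, hb2⟩ := h69_place_sep (S \ {P}) {P} (hfin.subset Set.sdiff_subset)
    (Set.finite_singleton P) Set.disjoint_sdiff_left ⟨P, rfl⟩
  have hbP : P.ord b = 0 := hb2 P rfl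
  -- a uniformiser at `P`
  obtain ⟨π, hπ⟩ := IsDiscreteValuationRing.exists_irreducible P.toValuationSubring
  have hπ1 : P.ord (π : F) = 1 := P.ord_coe_irreducible hπ
  have hπ0 : (π : F) ≠ 0 := by
    intro h0
    rw [h0, P.ord_zero] at hπ1
    exact zero_ne_one hπ1
  obtain ⟨M, hM⟩ : ∃ M : ℤ, ∀ Q ∈ S, 1 - Q.ord (π : F) ≤ M := by
    obtain ⟨M, hM⟩ := (hfin.image fun Q => 1 - Q.ord (π : F)).bddAbove
    exact ⟨M, fun Q hQ => hM ⟨Q, hQ, rfl⟩⟩
  set k : ℕ := M.toNat with hk
  set s : F := (π : F) * b ^ k with hs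
  have hs0 : s ≠ 0 := mul_ne_zero hπ0 (pow_ne_zero _ hb0)
  have hsord : ∀ Q : Place K F, Q.ord s = Q.ord (π : F) + k * Q.ord b := by
    intro Q
    rw [hs, Q.ord_mul hπ0 (pow_ne_zero _ hb0), ← zpow_natCast, Q.ord_zpow]
  have hsP : P.ord s = 1 := by rw [hsord, hπ1, hbP]; ring
  have hsS : ∀ Q ∈ S, 1 ≤ Q.ord s := by
    intro Q hQ
    by_cases hQP : Q = P
    · rw [hQP, hsP]
    · have h1 : 0 < Q.ord b := hb1 Q ⟨hQ, hQP⟩
      have h2 := hM Q hQ
      rw [hsord]
      have h3 : M ≤ (k : ℤ) := Int.self_le_toNat M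
      have h4 : (k : ℤ) ≤ k * Q.ord b := le_mul_of_one_le_right (Int.natCast_nonneg k) h1
      omega
  -- the subspace of functions vanishing on the orbit
  let V : Submodule K F := ⨅ Q : S, h69_ordGE (Q : Place K F) 1
  have hV : ∀ γ ∈ H, ∀ v ∈ V, ρ γ • v ∈ V := by
    intro γ _ v hv
    rw [Submodule.mem_iInf] at hv ⊢
    intro Q
    have hQ' : (ρ γ)⁻¹ • Q.1 ∈ S := by
      rw [← map_inv]
      exact hSstab γ⁻¹ Q.1 Q.2
    have h1 := hv ⟨_, hQ'⟩
    rw [h69_mem_ordGE] at h1 ⊢
    rcases h1 with h1 | h1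
    · left
      rw [h1, smul_zero]
    · right
      rw [h69_ord_smul]
      exact h1
  have hsV : s ∈ V := by
    rw [Submodule.mem_iInf]
    intro Q
    exact Or.inr (hsS Q.1 Q.2)
  have hspanV := hspan V hV
  by_contra hcon
  push Not at hcon
  have hle : Submodule.span K {g | g ∈ V ∧ ∀ γ ∈ H, ρ γ • g = g} ≤ h69_ordGE P 2 := by
    refine Submodule.span_le.mpr ?_
    rintro g ⟨hgV, hgfix⟩
    rw [Submodule.mem_iInf] at hgV
    rcases hgV ⟨P, hPS⟩ with h | h
    · exact Or.inl h
    · right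
      have h' : 1 ≤ P.ord g := h
      have := hcon g hgfix
      omega
  rw [hspanV] at hle
  rcases hle hsV with h | h
  · exact hs0 h
  · omega

/-- **(K5), generic form.**  If norms exist and orbits of places are finite: if every `H`-fixed
function regular at `P` is regular at `P'`, then `P'` is an `H`-translate of `P`. -/
theorem h69_conj_gen (ρ : Γ →* SemilinearAut K F) (H : Subgroup Γ)
    (hnorm : ∀ f : F, ∃ g' : F, (∀ S : Submonoid F, (∀ γ ∈ H, ρ γ • f ∈ S) → g' ∈ S) ∧
      ∀ γ ∈ H, ρ γ • (f * g') = f * g')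
    (P P' : Place K F) (hfin : (Set.range fun γ : Γ => ρ γ • P).Finite)
    (hfin' : (Set.range fun γ : Γ => ρ γ • P').Finite)
    (h : ∀ g : F, (∀ γ ∈ H, ρ γ • g = g) →
      g ∈ P.toValuationSubring → g ∈ P'.toValuationSubring) :
    ∃ γ ∈ H, ρ γ • P = P' := by
  classical
  by_contra hcon
  push Not at hcon
  set S1 : Set (Place K F) := {Q | ∃ γ ∈ H, ρ γ • P' = Q} with hS1
  set S2 : Set (Place K F) := {Q | ∃ γ ∈ H, ρ γ • P = Q} with hS2
  have h1 : S1.Finite := hfin'.subset (by
    rintro _ ⟨γ, -, rfl⟩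
    exact ⟨γ, rfl⟩)
  have h2 : S2.Finite := hfin.subset (by
    rintro _ ⟨γ, -, rfl⟩
    exact ⟨γ, rfl⟩)
  have hd : Disjoint S1 S2 := by
    rw [Set.disjoint_left]
    rintro Q ⟨σ, hσ, rfl⟩ ⟨τ, hτ, hτQ⟩
    apply hcon (σ⁻¹ * τ) (H.mul_mem (H.inv_mem hσ) hτ)
    rw [map_mul, mul_smul, hτQ, map_inv, inv_smul_smul]
  have hP2 : P ∈ S2 := ⟨1, H.one_mem, by simp⟩
  have hP1 : P' ∈ S1 := ⟨1, H.one_mem, by simp⟩
  obtain ⟨b, hb0, hb1, hb2⟩ := h69_place_sep S1 S2 h1 h2 hd ⟨P, hP2⟩
  obtain ⟨g', hg', hfix⟩ := hnorm b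
  have hsm0 : ∀ γ : Γ, ρ γ • b ≠ 0 := fun γ h0 => hb0 ((smul_eq_zero_iff_eq _).mp h0)
  -- the units at `P`
  let U : Submonoid F :=
    { carrier := {x | x ≠ 0 ∧ P.ord x = 0}
      one_mem' := ⟨one_ne_zero, P.ord_one⟩
      mul_mem' := fun {x y} hx hy =>
        ⟨mul_ne_zero hx.1 hy.1, by rw [P.ord_mul hx.1 hy.1, hx.2, hy.2, add_zero]⟩ }
  have hgU : g' ∈ U := hg' U (fun γ hγ => ⟨hsm0 γ, by
    rw [h69_ord_smul]
    exact hb2 _ ⟨γ⁻¹, H.inv_mem hγ, by rw [map_inv]⟩⟩)
  have hgO : g' ∈ P'.toValuationSubring.toSubring.toSubmonoid := hg' _ (fun γ hγ => by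
    show ρ γ • b ∈ P'.toValuationSubring
    rw [h35_mem_iff_ord_nonneg P' (hsm0 γ), h69_ord_smul]
    exact (hb1 _ ⟨γ⁻¹, H.inv_mem hγ, by rw [map_inv]⟩).le)
  have hg0 : b * g' ≠ 0 := mul_ne_zero hb0 hgU.1
  have hgP : P.ord (b * g') = 0 := by
    rw [P.ord_mul hb0 hgU.1, hb2 P hP2, hgU.2, add_zero]
  have hgP' : 0 < P'.ord (b * g') := by
    rw [P'.ord_mul hb0 hgU.1]
    have e1 := hb1 P' hP1
    have e2 := (h35_mem_iff_ord_nonneg P' hgU.1).mp hgO
    omega
  have hfix' : ∀ γ ∈ H, ρ γ • (b * g')⁻¹ = (b * g')⁻¹ :=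
    fun γ hγ => by rw [smul_inv'', hfix γ hγ]
  have hin : (b * g')⁻¹ ∈ P.toValuationSubring :=
    (h35_mem_iff_ord_nonneg P (inv_ne_zero hg0)).mpr (by rw [P.ord_inv, hgP]; simp)
  have hout := (h35_mem_iff_ord_nonneg P' (inv_ne_zero hg0)).mp (h _ hfix' hin)
  rw [P'.ord_inv] at hout
  omega

end PlaceGen

section Modular

open Fermat.Agent.S24

variable (N : ℕ)

/-- The `ℚ̄`-valued characters `c ↦ δ(c)` of a number field `E'`. -/
def h69_chiQ (E' : IntermediateField ℚ Qb) (δ : E' ≃ₐ[ℚ] E') : E' →* Qb :=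
  ((algebraMap E' Qb).comp (δ : E' →+* E')).toMonoidHom

theorem h69_chiQ_apply (E' : IntermediateField ℚ Qb) (δ : E' ≃ₐ[ℚ] E') (c : E') :
    h69_chiQ E' δ c = ((δ c : E') : Qb) := rfl

theorem h69_chiQ_injective (E' : IntermediateField ℚ Qb) :
    Function.Injective (h69_chiQ E') := by
  intro δ δ' h
  ext c
  have h1 := DFunLike.congr_fun h c
  rw [h69_chiQ_apply, h69_chiQ_apply] at h1
  exact congrArg Subtype.val (Subtype.ext h1 : δ c = δ' c)

/-- **Functions have finite level**: every element of `F̄(N)` is fixed by the automorphisms of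
`ℚ̄` fixing a suitable finite normal extension of `ℚ`. -/
theorem h69_elem_level (f : modularFunctionFieldBar N) :
    ∃ E : IntermediateField ℚ Qb, FiniteDimensional ℚ E ∧ Normal ℚ E ∧
      ∀ σ : Qb ≃ₐ[ℚ] Qb, (∀ a ∈ E, σ a = a) →
        arithmeticGalois (modularFunctionFieldFull N) σ • f = f := by
  have halg : Algebra.IsAlgebraic ℚ Qb := AlgebraicClosure.isAlgebraic ℚ
  have hclo : IsAlgClosure ℚ Qb := ⟨inferInstance, inferInstance⟩
  have hnor : Normal ℚ Qb := IsAlgClosure.normal ℚ Qb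
  obtain ⟨E, hE, hE'⟩ := Fermat.Agent.GAL.h67_exists_level_coeffMap
    (F₀ := modularFunctionFieldFull N) f.2
  refine ⟨IntermediateField.normalClosure ℚ E Qb, normalClosure.is_finiteDimensional ℚ E Qb,
    normalClosure.normal ℚ E Qb, fun σ hσ => ?_⟩
  apply Subtype.ext
  rw [coe_arithmeticGalois_smul]
  exact hE' σ (fun a ha => hσ a (IntermediateField.le_normalClosure E ha))

/-- The compatibility of the characters `h69_chiQ` with the Galois action. -/
theorem h69_chiQ_smul (E' : IntermediateField ℚ Qb) [Normal ℚ E'] (γ : Qb ≃ₐ[ℚ] Qb)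
    (δ : E' ≃ₐ[ℚ] E') (c : E') :
    SemilinearAut.baseAut (arithmeticGalois (modularFunctionFieldFull N) γ) (h69_chiQ E' δ c) =
      h69_chiQ E' (AlgEquiv.restrictNormalHom (F := ℚ) (K₁ := Qb) E' γ * δ) c := by
  rw [h69_chiQ_apply, h69_chiQ_apply, AlgEquiv.mul_apply]
  exact (AlgEquiv.restrictNormal_commutes γ E' (δ c)).symm

/-- An element fixed by `Gal(ℚ̄/E')` is fixed by the elements of `H` with trivial restriction
to `E'`. -/
theorem h69_level_of_fix (E' : IntermediateField ℚ Qb) [Normal ℚ E']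
    (f : modularFunctionFieldBar N)
    (hE' : ∀ σ : Qb ≃ₐ[ℚ] Qb, (∀ a ∈ E', σ a = a) →
      arithmeticGalois (modularFunctionFieldFull N) σ • f = f)
    (s : Qb ≃ₐ[ℚ] Qb) (hs : AlgEquiv.restrictNormalHom (F := ℚ) (K₁ := Qb) E' s = 1) :
    arithmeticGalois (modularFunctionFieldFull N) s • f = f := by
  refine hE' s (fun a ha => ?_)
  have h1 : ((AlgEquiv.restrictNormalHom (F := ℚ) (K₁ := Qb) E' s (⟨a, ha⟩ : E') : E') : Qb) =
      s a := AlgEquiv.restrictNormal_commutes s E' ⟨a, ha⟩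
  rw [hs] at h1
  exact h1.symm

/-- **(K2)/(K3) Vector space descent.**  An `H`-stable `ℚ̄`-subspace `V` of `F̄(N)` is spanned
by its `H`-fixed elements, for every subgroup `H` of `Gal(ℚ̄/ℚ)`. -/
theorem h69_span_fixed (H : Subgroup (Qb ≃ₐ[ℚ] Qb))
    (V : Submodule Qb (modularFunctionFieldBar N))
    (hV : ∀ σ ∈ H, ∀ v ∈ V, arithmeticGalois (modularFunctionFieldFull N) σ • v ∈ V) :
    Submodule.span Qb {g | g ∈ V ∧
      ∀ σ ∈ H, arithmeticGalois (modularFunctionFieldFull N) σ • g = g} = V := by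
  refine le_antisymm (Submodule.span_le.mpr fun g hg => hg.1) fun f hf => ?_
  obtain ⟨E', hfin, hnor, hE'⟩ := h69_elem_level N f
  exact h69_avg_core (arithmeticGalois (modularFunctionFieldFull N))
    (AlgEquiv.restrictNormalHom (F := ℚ) (K₁ := Qb) E') (h69_chiQ E') (h69_chiQ_injective E')
    (h69_chiQ_smul N E') H V hV f hf (fun s _ hs => h69_level_of_fix N E' f hE' s hs)

/-- **(K3) for Riemann–Roch spaces.**  If the divisor `D` is `H`-invariant, `L(D)` is spanned
by its `H`-fixed elements. -/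
theorem h69_rr_span_fixed (H : Subgroup (Qb ≃ₐ[ℚ] Qb))
    (D : Divisor Qb (modularFunctionFieldBar N))
    (hD : ∀ σ ∈ H, arithmeticGalois (modularFunctionFieldFull N) σ • D = D) :
    Submodule.span Qb {g | g ∈ riemannRochSpace D ∧
      ∀ σ ∈ H, arithmeticGalois (modularFunctionFieldFull N) σ • g = g} = riemannRochSpace D :=
  h69_span_fixed N H (riemannRochSpace D) fun σ hσ _ hv =>
    Fermat.Agent.S17.h35_smul_mem_rr_of_fix _ D (hD σ hσ) hv

/-- **Norms.**  Every `f` has a multiple `f * g'` fixed by `H`, where `g'` is a product of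
`H`-translates of `f` (it lies in every submonoid containing all `H`-translates of `f`). -/
theorem h69_norm (H : Subgroup (Qb ≃ₐ[ℚ] Qb)) (f : modularFunctionFieldBar N) :
    ∃ g' : modularFunctionFieldBar N,
      (∀ S : Submonoid (modularFunctionFieldBar N),
        (∀ σ ∈ H, arithmeticGalois (modularFunctionFieldFull N) σ • f ∈ S) → g' ∈ S) ∧
      ∀ σ ∈ H, arithmeticGalois (modularFunctionFieldFull N) σ • (f * g') = f * g' := by
  obtain ⟨E', hfin, hnor, hE'⟩ := h69_elem_level N f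
  exact h69_norm_core (arithmeticGalois (modularFunctionFieldFull N))
    (AlgEquiv.restrictNormalHom (F := ℚ) (K₁ := Qb) E') H f
    (fun s _ hs => h69_level_of_fix N E' f hE' s hs)

variable [NeZero N]

/-- **Galois orbits of places are finite.** -/
theorem h69_orbit_finite (P : Place Qb (modularFunctionFieldBar N)) :
    (Set.range fun σ : Qb ≃ₐ[ℚ] Qb =>
      arithmeticGalois (modularFunctionFieldFull N) σ • P).Finite := by
  have halg : Algebra.IsAlgebraic ℚ Qb := AlgebraicClosure.isAlgebraic ℚ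
  have hclo : IsAlgClosure ℚ Qb := ⟨inferInstance, inferInstance⟩
  have hnor : Normal ℚ Qb := IsAlgClosure.normal ℚ Qb
  obtain ⟨E, hEfin, hE⟩ := Fermat.Agent.S17.h83_place_level N P
  have hE'fin : FiniteDimensional ℚ (IntermediateField.normalClosure ℚ E Qb) :=
    normalClosure.is_finiteDimensional ℚ E Qb
  have hE'nor : Normal ℚ (IntermediateField.normalClosure ℚ E Qb) :=
    normalClosure.normal ℚ E Qb
  have hsurj := AlgEquiv.restrictNormalHom_surjective (F := ℚ)
    (K₁ := IntermediateField.normalClosure ℚ E Qb) Qb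
  choose lift hlift using hsurj
  refine (Set.finite_range fun δ : (IntermediateField.normalClosure ℚ E Qb) ≃ₐ[ℚ]
    (IntermediateField.normalClosure ℚ E Qb) =>
      arithmeticGalois (modularFunctionFieldFull N) (lift δ) • P).subset ?_
  rintro _ ⟨σ, rfl⟩
  refine ⟨AlgEquiv.restrictNormalHom (F := ℚ) (K₁ := Qb)
    (IntermediateField.normalClosure ℚ E Qb) σ, ?_⟩
  set τ := lift (AlgEquiv.restrictNormalHom (F := ℚ) (K₁ := Qb)
    (IntermediateField.normalClosure ℚ E Qb) σ) with hτ
  have hτσ : AlgEquiv.restrictNormalHom (F := ℚ) (K₁ := Qb)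
      (IntermediateField.normalClosure ℚ E Qb) τ =
      AlgEquiv.restrictNormalHom (F := ℚ) (K₁ := Qb)
        (IntermediateField.normalClosure ℚ E Qb) σ := hlift _
  have hmem : τ⁻¹ * σ ∈ E.fixingSubgroup := by
    rw [IntermediateField.mem_fixingSubgroup_iff]
    intro a ha
    have ha' : a ∈ IntermediateField.normalClosure ℚ E Qb :=
      IntermediateField.le_normalClosure E ha
    have h1 : τ a = σ a := by
      have e1 := AlgEquiv.restrictNormal_commutes τ
        (IntermediateField.normalClosure ℚ E Qb) ⟨a, ha'⟩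
      have e2 := AlgEquiv.restrictNormal_commutes σ
        (IntermediateField.normalClosure ℚ E Qb) ⟨a, ha'⟩
      have e3 : AlgEquiv.restrictNormal τ (IntermediateField.normalClosure ℚ E Qb) =
          AlgEquiv.restrictNormal σ (IntermediateField.normalClosure ℚ E Qb) := hτσ
      rw [e3] at e1
      exact e1.symm.trans e2
    show τ⁻¹ (σ a) = a
    rw [← h1]
    exact τ.symm_apply_apply a
  have h2 := hE _ hmem
  show arithmeticGalois (modularFunctionFieldFull N) τ • P =
    arithmeticGalois (modularFunctionFieldFull N) σ • P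
  have h3 : σ = τ * (τ⁻¹ * σ) := by rw [mul_inv_cancel_left]
  rw [h3, map_mul, mul_smul, h2]

/-- **(K4) Invariant uniformisers.**  Every place `P` of `F̄(N)` has a uniformiser fixed by `H`:
the extension `F̄(N) / F^H` is unramified at `P`. -/
theorem h69_exists_fixed_uniformizer (H : Subgroup (Qb ≃ₐ[ℚ] Qb))
    (P : Place Qb (modularFunctionFieldBar N)) :
    ∃ t : modularFunctionFieldBar N,
      (∀ σ ∈ H, arithmeticGalois (modularFunctionFieldFull N) σ • t = t) ∧ P.ord t = 1 :=
  h69_unif_gen (arithmeticGalois (modularFunctionFieldFull N)) H (h69_span_fixed N H) P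
    (h69_orbit_finite N P)

/-- **(K5) Orbits are separated by invariant functions.**  If every `H`-fixed function regular
at `P` is regular at `P'`, then `P'` is an `H`-translate of `P`. -/
theorem h69_conj_of_fixed_le (H : Subgroup (Qb ≃ₐ[ℚ] Qb))
    (P P' : Place Qb (modularFunctionFieldBar N))
    (h : ∀ g : modularFunctionFieldBar N,
      (∀ σ ∈ H, arithmeticGalois (modularFunctionFieldFull N) σ • g = g) →
        g ∈ P.toValuationSubring → g ∈ P'.toValuationSubring) :
    ∃ σ ∈ H, arithmeticGalois (modularFunctionFieldFull N) σ • P = P' :=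
  h69_conj_gen (arithmeticGalois (modularFunctionFieldFull N)) H (h69_norm N H) P P'
    (h69_orbit_finite N P) (h69_orbit_finite N P') h

end Modular

end Fermat.Agent.S36
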