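import Mathlib
import Fermat.Agent.S36.h69_Rat
import Fermat.Agent.S33.h14_Unr
import Fermat.Agent.S18.h64_RankOne
import Fermat.Agent.S36.h5_ResK0

/-!
# S36 / K0-rationality leaf (K6)+(K7) and the carrier `F0`

* `h69_ld_core`, `h69_linearIndependent_of_fixed` (K7 = (LD)) : fixed elements which are linearly
  independent over the fixed constants are linearly independent over all constants
  (Artin's minimal relation argument; generic).
* `h69_fixedSubfield`, `h69_fixedConst` : the fixed elements of `F` resp. of `K` as subfields.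
* `h69_F0 N H` : the `H`-fixed elements of `F̄(N)` as a subfield (the carrier of "K0-rational").
* `h69_span_F0`, `h69_rr_span_F0` : (K2), (K3) in terms of `h69_F0`.
* `h69_dv` (K6 = (DV)) : a nonzero element of `ℚ̄` fixed by the inertia group of `A` over `q` is
  `q ^ n` times a fixed unit of `A`.
-/

set_option autoImplicit false

noncomputable section

open AlgebraicCurve ModularCurve IntermediateField

namespace Fermat.Agent.S36

local notation "Qb" => AlgebraicClosure ℚ

section Generic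

variable {K F : Type*} [Field K] [Field F] [Algebra K F]
variable {Γ : Type*} [Group Γ]

/-- **(K7) = (LD), core.**  `f i` fixed by `H`.  If every relation `∑ c i • f i = 0` with
`H`-fixed coefficients is trivial, then every relation is trivial. -/
theorem h69_ld_core {ι : Type*} [Fintype ι] (ρ : Γ →* SemilinearAut K F) (H : Subgroup Γ)
    (f : ι → F) (hf : ∀ i, ∀ γ ∈ H, ρ γ • f i = f i)
    (h0 : ∀ c : ι → K, (∀ i, ∀ γ ∈ H, SemilinearAut.baseAut (ρ γ) (c i) = c i) →
      ∑ i, c i • f i = 0 → ∀ i, c i = 0)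
    (c : ι → K) (hc : ∑ i, c i • f i = 0) : ∀ i, c i = 0 := by
  classical
  have key : ∀ n : ℕ, ∀ c : ι → K, (Finset.univ.filter fun i => c i ≠ 0).card ≤ n →
      ∑ i, c i • f i = 0 → ∀ i, c i = 0 := by
    intro n
    induction n with
    | zero =>
      intro c hcard _ i
      by_contra hi
      have h1 : i ∈ Finset.univ.filter fun i => c i ≠ 0 :=
        Finset.mem_filter.mpr ⟨Finset.mem_univ _, hi⟩
      have h2 := Finset.card_pos.mpr ⟨i, h1⟩
      omega
    | succ n ih =>
      intro c hcard hc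
      by_contra hne
      push Not at hne
      obtain ⟨i0, hi0⟩ := hne
      have hc'0 : c i0 / c i0 = 1 := div_self hi0
      have hrel' : ∑ i, (c i / c i0) • f i = 0 := by
        have h1 : ∑ i, (c i / c i0) • f i = (c i0)⁻¹ • ∑ i, c i • f i := by
          rw [Finset.smul_sum]
          refine Finset.sum_congr rfl fun i _ => ?_
          rw [smul_smul, div_eq_inv_mul]
        rw [h1, hc, smul_zero]
      have hfixc : ∀ i, ∀ γ ∈ H,
          SemilinearAut.baseAut (ρ γ) (c i / c i0) = c i / c i0 := by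
        intro i γ hγ
        have hd0 : SemilinearAut.baseAut (ρ γ) (c i0 / c i0) - c i0 / c i0 = 0 := by
          rw [hc'0, map_one, sub_self]
        have hdrel : ∑ j, (SemilinearAut.baseAut (ρ γ) (c j / c i0) - c j / c i0) • f j = 0 := by
          have h1 : ∑ j, (SemilinearAut.baseAut (ρ γ) (c j / c i0) - c j / c i0) • f j =
              ρ γ • (∑ j, (c j / c i0) • f j) - ∑ j, (c j / c i0) • f j := by
            rw [Finset.smul_sum, ← Finset.sum_sub_distrib]
            refine Finset.sum_congr rfl fun j _ => ?_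
            rw [h69_smul_smul, hf j γ hγ, sub_smul]
          rw [h1, hrel', smul_zero, sub_zero]
        have hdcard : (Finset.univ.filter fun j =>
            SemilinearAut.baseAut (ρ γ) (c j / c i0) - c j / c i0 ≠ 0).card ≤ n := by
          have hsub : (Finset.univ.filter fun j =>
              SemilinearAut.baseAut (ρ γ) (c j / c i0) - c j / c i0 ≠ 0) ⊆
              (Finset.univ.filter fun j => c j ≠ 0).erase i0 := by
            intro j hj
            rw [Finset.mem_filter] at hj
            rw [Finset.mem_erase, Finset.mem_filter]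
            refine ⟨fun h => hj.2 (h ▸ hd0), Finset.mem_univ _, fun hcj => hj.2 ?_⟩
            rw [hcj, zero_div, map_zero, sub_zero]
          have h1 := Finset.card_le_card hsub
          have hmem : i0 ∈ Finset.univ.filter fun j => c j ≠ 0 :=
            Finset.mem_filter.mpr ⟨Finset.mem_univ _, hi0⟩
          rw [Finset.card_erase_of_mem hmem] at h1
          have h2 := Finset.card_pos.mpr ⟨i0, hmem⟩
          omega
        exact sub_eq_zero.mp (ih _ hdcard hdrel i)
      have h3 := h0 (fun i => c i / c i0) hfixc hrel' i0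
      rw [hc'0] at h3
      exact one_ne_zero h3
  exact key _ c le_rfl hc

/-- The elements of `F` fixed by `H`, as a subfield. -/
def h69_fixedSubfield (ρ : Γ →* SemilinearAut K F) (H : Subgroup Γ) : Subfield F where
  carrier := {f | ∀ γ ∈ H, ρ γ • f = f}
  mul_mem' := fun {a b} ha hb γ hγ => by rw [smul_mul', ha γ hγ, hb γ hγ]
  one_mem' := fun γ _ => smul_one _
  add_mem' := fun {a b} ha hb γ hγ => by rw [smul_add, ha γ hγ, hb γ hγ]
  zero_mem' := fun γ _ => smul_zero _
  neg_mem' := fun {a} ha γ hγ => by rw [smul_neg, ha γ hγ]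
  inv_mem' := fun a ha γ hγ => by rw [smul_inv'', ha γ hγ]

theorem h69_mem_fixedSubfield (ρ : Γ →* SemilinearAut K F) (H : Subgroup Γ) (f : F) :
    f ∈ h69_fixedSubfield ρ H ↔ ∀ γ ∈ H, ρ γ • f = f := Iff.rfl

/-- The constants fixed by `H`, as a subfield of `K`. -/
def h69_fixedConst (ρ : Γ →* SemilinearAut K F) (H : Subgroup Γ) : Subfield K where
  carrier := {c | ∀ γ ∈ H, SemilinearAut.baseAut (ρ γ) c = c}
  mul_mem' := fun {a b} ha hb γ hγ => by rw [map_mul, ha γ hγ, hb γ hγ]
  one_mem' := fun γ _ => map_one _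
  add_mem' := fun {a b} ha hb γ hγ => by rw [map_add, ha γ hγ, hb γ hγ]
  zero_mem' := fun γ _ => map_zero _
  neg_mem' := fun {a} ha γ hγ => by rw [map_neg, ha γ hγ]
  inv_mem' := fun a ha γ hγ => by rw [map_inv₀, ha γ hγ]

theorem h69_mem_fixedConst (ρ : Γ →* SemilinearAut K F) (H : Subgroup Γ) (c : K) :
    c ∈ h69_fixedConst ρ H ↔ ∀ γ ∈ H, SemilinearAut.baseAut (ρ γ) c = c := Iff.rfl

/-- A constant is a fixed function iff it is a fixed constant. -/
theorem h69_algebraMap_mem_fixedSubfield (ρ : Γ →* SemilinearAut K F) (H : Subgroup Γ) (c : K) :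
    algebraMap K F c ∈ h69_fixedSubfield ρ H ↔ c ∈ h69_fixedConst ρ H := by
  rw [h69_mem_fixedSubfield, h69_mem_fixedConst]
  refine forall₂_congr fun γ _ => ?_
  rw [SemilinearAut.smul_algebraMap]
  exact (algebraMap K F).injective.eq_iff

/-- **(K7) = (LD).**  Fixed elements of `F` which are linearly independent over the fixed
constants are linearly independent over `K`. -/
theorem h69_linearIndependent_of_fixed (ρ : Γ →* SemilinearAut K F) (H : Subgroup Γ)
    {ι : Type*} (f : ι → F) (hf : ∀ i, f i ∈ h69_fixedSubfield ρ H)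
    (hli : LinearIndependent (h69_fixedConst ρ H) f) : LinearIndependent K f := by
  classical
  rw [linearIndependent_iff'] at hli ⊢
  intro s g hg i hi
  have h1 := h69_ld_core ρ H (fun j : s => f j) (fun j => hf j)
    (fun c hc hrel j => by
      have h2 := hli s (fun j => if hj : j ∈ s then ⟨c ⟨j, hj⟩, hc ⟨j, hj⟩⟩ else 0) (by
        rw [← Finset.sum_coe_sort s]
        refine Eq.trans (Finset.sum_congr rfl fun j _ => ?_) hrel
        rw [dif_pos j.2]
        rfl) j j.2
      rw [dif_pos j.2] at h2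
      exact congrArg Subtype.val h2)
    (fun j => g j) (by rw [Finset.sum_coe_sort s (fun j => g j • f j)]; exact hg) ⟨i, hi⟩
  exact h1

end Generic

section Modular

variable (N : ℕ)

/-- **The carrier of "K0-rational functions"**: the elements of `F̄(N)` fixed by the subgroup
`H` of `Gal(ℚ̄/ℚ)`, as a subfield. -/
def h69_F0 (H : Subgroup (Qb ≃ₐ[ℚ] Qb)) : Subfield (modularFunctionFieldBar N) :=
  h69_fixedSubfield (arithmeticGalois (modularFunctionFieldFull N)) H

theorem h69_mem_F0 (H : Subgroup (Qb ≃ₐ[ℚ] Qb)) (f : modularFunctionFieldBar N) :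
    f ∈ h69_F0 N H ↔ ∀ σ ∈ H, arithmeticGalois (modularFunctionFieldFull N) σ • f = f := Iff.rfl

/-- A constant lies in `F0` iff it is fixed by `H`. -/
theorem h69_algebraMap_mem_F0 (H : Subgroup (Qb ≃ₐ[ℚ] Qb)) (c : Qb) :
    algebraMap Qb (modularFunctionFieldBar N) c ∈ h69_F0 N H ↔ ∀ σ ∈ H, σ c = c :=
  h69_algebraMap_mem_fixedSubfield (arithmeticGalois (modularFunctionFieldFull N)) H c

/-- **(K2)**: `F̄(N)` is the `ℚ̄`-span of `F0`. -/
theorem h69_span_F0 (H : Subgroup (Qb ≃ₐ[ℚ] Qb)) :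
    Submodule.span Qb (h69_F0 N H : Set (modularFunctionFieldBar N)) = ⊤ := by
  refine Eq.trans ?_ (h69_span_fixed N H ⊤ (fun _ _ _ _ => Submodule.mem_top))
  congr 1
  ext g
  exact ⟨fun hg => ⟨Submodule.mem_top, hg⟩, fun hg => hg.2⟩

/-- **(K3)** in terms of `F0`: for an `H`-invariant divisor `D`, `L(D)` is the `ℚ̄`-span of
`F0 ∩ L(D)`. -/
theorem h69_rr_span_F0 (H : Subgroup (Qb ≃ₐ[ℚ] Qb))
    (D : Divisor Qb (modularFunctionFieldBar N))
    (hD : ∀ σ ∈ H, arithmeticGalois (modularFunctionFieldFull N) σ • D = D) :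
    Submodule.span Qb ((h69_F0 N H : Set (modularFunctionFieldBar N)) ∩
      (riemannRochSpace D : Set (modularFunctionFieldBar N))) = riemannRochSpace D := by
  refine Eq.trans ?_ (h69_rr_span_fixed N H D hD)
  congr 1
  ext g
  exact ⟨fun hg => ⟨hg.2, hg.1⟩, fun hg => ⟨hg.2, hg.1⟩⟩

/-- **(K3)** in the literal shape of the `hK3` binder of `h89_inv_chart_of_orbit`. -/
theorem h69_K3 (H : Subgroup (Qb ≃ₐ[ℚ] Qb)) (D : Divisor Qb (modularFunctionFieldBar N))
    (hD : ∀ σ ∈ H, arithmeticGalois (modularFunctionFieldFull N) σ • D = D) :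
    (riemannRochSpace D : Set (modularFunctionFieldBar N)) ⊆
      Submodule.span Qb ({t : modularFunctionFieldBar N |
        ∀ σ ∈ H, arithmeticGalois (modularFunctionFieldFull N) σ • t = t} ∩
        (riemannRochSpace D : Set (modularFunctionFieldBar N))) := by
  intro f hf
  have h := h69_rr_span_F0 N H D hD
  have hf' : f ∈ Submodule.span Qb ((h69_F0 N H : Set (modularFunctionFieldBar N)) ∩
      (riemannRochSpace D : Set (modularFunctionFieldBar N))) := by
    rw [h]
    exact hf
  exact hf'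

/-- **(K7) = (LD)** for `F̄(N)`: if every relation between the `H`-fixed functions `f i` with
`H`-fixed coefficients is trivial, every relation with coefficients in `ℚ̄` is trivial. -/
theorem h69_ld (H : Subgroup (Qb ≃ₐ[ℚ] Qb)) {ι : Type*} [Fintype ι]
    (f : ι → modularFunctionFieldBar N) (hf : ∀ i, f i ∈ h69_F0 N H)
    (h0 : ∀ c : ι → Qb, (∀ i, ∀ σ ∈ H, σ (c i) = c i) → ∑ i, c i • f i = 0 → ∀ i, c i = 0)
    (c : ι → Qb) (hc : ∑ i, c i • f i = 0) : ∀ i, c i = 0 :=
  h69_ld_core (arithmeticGalois (modularFunctionFieldFull N)) H f hf h0 c hc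

end Modular

section DV

/-- **(K6) = (DV).**  `A` a valuation subring of `ℚ̄` over the prime `q`.  A nonzero element
fixed by the inertia group of `A` is `q ^ n` times a fixed unit of `A`: the inertia field is
discretely valued with uniformiser `q`. -/
theorem h69_dv (q : ℕ) [Fact q.Prime] (A : ValuationSubring Qb) (hA : A.LiesOverPrime q)
    (a : Qb) (ha : a ≠ 0) (hfix : ∀ σ ∈ A.inertiaSubgroupIn ℚ, σ a = a) :
    ∃ (n : ℤ) (u : Qb), a = (q : Qb) ^ n * u ∧ u ∈ A ∧ u⁻¹ ∈ A ∧
      ∀ σ ∈ A.inertiaSubgroupIn ℚ, σ u = u := by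
  have hq : q.Prime := Fact.out
  have hq0 : (q : Qb) ≠ 0 := by exact_mod_cast hq.ne_zero
  -- the integral case, by induction on `N` with `a ∣ q ^ N`
  have key : ∀ N : ℕ, ∀ a : Qb, a ≠ 0 → a ∈ A → (∀ σ ∈ A.inertiaSubgroupIn ℚ, σ a = a) →
      (∃ t ∈ A, (q : Qb) ^ N = a * t) →
      ∃ (n : ℕ) (u : Qb), a = (q : Qb) ^ n * u ∧ u ∈ A ∧ u⁻¹ ∈ A ∧
        ∀ σ ∈ A.inertiaSubgroupIn ℚ, σ u = u := by
    intro N
    induction N with
    | zero =>
      rintro a ha0 haA hfix ⟨t, ht, h⟩
      refine ⟨0, a, by simp, haA, ?_, hfix⟩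
      rw [pow_zero] at h
      rw [inv_eq_of_mul_eq_one_right h.symm]
      exact ht
    | succ N ih =>
      rintro a ha0 haA hfix ⟨t, ht, h⟩
      by_cases hnu : a ∈ A.nonunits
      · obtain ⟨b, hbA, hab, hbfix⟩ := Fermat.Agent.S33.h14_unr q A hA a hnu hfix
        have hb0 : b ≠ 0 := by
          rintro rfl
          exact ha0 (by rw [hab, mul_zero])
        have h' : (q : Qb) ^ N = b * t := by
          have h1 : (q : Qb) * (q : Qb) ^ N = (q : Qb) * (b * t) := by
            rw [← pow_succ', h, hab]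
            ring
          exact mul_left_cancel₀ hq0 h1
        obtain ⟨n, u, hu, huA, huA', hufix⟩ := ih b hb0 hbA hbfix ⟨t, ht, h'⟩
        exact ⟨n + 1, u, by rw [hab, hu, pow_succ']; ring, huA, huA', hufix⟩
      · refine ⟨0, a, by simp, haA, ?_, hfix⟩
        rw [ValuationSubring.mem_nonunits_iff_or] at hnu
        push Not at hnu
        exact hnu.2
  have hint : ∀ a : Qb, a ≠ 0 → a ∈ A → (∀ σ ∈ A.inertiaSubgroupIn ℚ, σ a = a) →
      ∃ (n : ℕ) (u : Qb), a = (q : Qb) ^ n * u ∧ u ∈ A ∧ u⁻¹ ∈ A ∧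
        ∀ σ ∈ A.inertiaSubgroupIn ℚ, σ u = u := by
    intro a ha0 haA hfix
    obtain ⟨N, t, ht, h⟩ := Fermat.Agent.S18.h64_rankOne_Qbar hq A hA (q : Qb) hA a ha0
    exact key N a ha0 haA hfix ⟨t, ht, h⟩
  rcases A.mem_or_inv_mem a with haA | haA
  · obtain ⟨n, u, hu, huA, huA', hufix⟩ := hint a ha haA hfix
    exact ⟨n, u, by rw [hu, zpow_natCast], huA, huA', hufix⟩
  · obtain ⟨n, u, hu, huA, huA', hufix⟩ := hint a⁻¹ (inv_ne_zero ha) haA
      (fun σ hσ => by rw [map_inv₀, hfix σ hσ])
    refine ⟨-(n : ℤ), u⁻¹, ?_, huA', by rwa [inv_inv], fun σ hσ => by rw [map_inv₀, hufix σ hσ]⟩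
    rw [zpow_neg, zpow_natCast, ← mul_inv, ← hu, inv_inv]

/-- **(K6+)**: every unit of `A` is, modulo the maximal ideal, the `m`-th power of an
inertia-fixed unit of `A` (the residue field of the inertia field is algebraically closed). -/
theorem h69_unit_root (q : ℕ) [Fact q.Prime] (A : ValuationSubring Qb) (hA : A.LiesOverPrime q)
    (m : ℕ) (hm : m ≠ 0) (κ : Qb) (hκ : κ ∈ A) (hκ' : κ ∉ A.nonunits) :
    ∃ c : Qb, c ∈ A ∧ c ∉ A.nonunits ∧ (∀ σ ∈ A.inertiaSubgroupIn ℚ, σ c = c) ∧
      κ - c ^ m ∈ A.nonunits := by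
  have hq : q.Prime := Fact.out
  obtain ⟨y, hy⟩ := IsAlgClosed.exists_pow_nat_eq κ (Nat.pos_of_ne_zero hm)
  have hvκ : A.valuation κ = 1 := by
    have h1 : A.valuation κ ≤ 1 := (A.valuation_le_one_iff κ).mpr hκ
    have h2 : ¬ A.valuation κ < 1 := fun h => hκ' (A.mem_nonunits_iff.mpr h)
    exact le_antisymm h1 (not_lt.mp h2)
  have hvy : A.valuation y = 1 := by
    have h1 : A.valuation y ^ m = 1 := by rw [← map_pow, hy, hvκ]
    exact (pow_eq_one_iff.mp h1).resolve_right hm
  have hyA : y ∈ A := (A.valuation_le_one_iff y).mp hvy.le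
  have hy' : y ∉ A.nonunits := fun h => by
    have := A.mem_nonunits_iff.mp h
    rw [hvy] at this
    exact lt_irrefl _ this
  obtain ⟨n, ζ, hn, -, hζn, hζA, hζfix, hyζ⟩ := h5_teich_K0 q hq A hA y hyA hy'
  have hvζ : A.valuation ζ = 1 := by
    have h1 : A.valuation ζ ^ n = 1 := by rw [← map_pow, hζn, map_one]
    exact (pow_eq_one_iff.mp h1).resolve_right hn
  refine ⟨ζ, hζA, fun h => ?_, hζfix, ?_⟩
  · have := A.mem_nonunits_iff.mp h
    rw [hvζ] at this
    exact lt_irrefl _ this
  · rw [← hy, ← geom_sum₂_mul, A.mem_nonunits_iff, map_mul, mul_comm]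
    refine mul_lt_one_of_lt_of_le (A.mem_nonunits_iff.mp hyζ) ?_
    refine (A.valuation_le_one_iff _).mpr (sum_mem fun i _ => ?_)
    exact A.mul_mem _ _ (A.pow_mem hyA _) (A.pow_mem hζA _)

end DV

end Fermat.Agent.S36
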