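import Mathlib
import Fermat.Agent.S36.h69_K0
import Fermat.Agent.S36.h22_K0LatGen
import Fermat.Agent.S34.h31_IntSeriesMod
import Fermat.Agent.S37.h87_Decomp
import Fermat.Agent.S18.h64_RankOneW

/-!
# S36 / row Q (helper22): the Gauss valuation at `∞` is discrete on the inertia-fixed functions

`A` a valuation ring of `ℚ̄` over `q`, `I` its inertia group, `N` any level.  The valuation ring
of the `t`-expansion ("ratios `y₁ / y₂` of `A`-integral series with `ȳ₂ ≠ 0`") is NOT cut out by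
the coefficients of a function (the expansion of a function may have unbounded denominators),
so discreteness on the `I`-fixed functions needs an argument:

* `h22_exists_bdd_frac` : every function of level `N` is a quotient `P / Q` of functions with
  BOUNDED expansions (the generators `j(dτ)` have integral expansions);
* `h22_exists_fixed_frac` : for an `I`-fixed function, `P` and `Q` can be taken `I`-fixed
  (descent of the denominator space, `h69_span_fixed`);
* `h22_bdd_fixed_scale` : a bounded `I`-fixed series is `q ^ n` times an integral series with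
  nonzero reduction (`h69_dv` + rank one: the minimum of the coefficient valuations is attained);
* `h22_int_ser` : **(INT-SER)** every nonzero `I`-fixed function `f` of level `N` is
  `q ^ n * (y₁ / y₂)` with `y₁, y₂` integral series with nonzero reductions, `n ∈ ℤ`.
-/

set_option autoImplicit false

noncomputable section

open AlgebraicCurve ModularCurve IntermediateField

namespace Fermat.Agent.S36

open Fermat.Agent.S34 Fermat.Agent.S18 Fermat.Agent.S37

local notation "Qb" => AlgebraicClosure ℚ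

/-! ### Bounded series -/

section Bdd

variable {K : Type*} [Field K] (A : ValuationSubring K)

theorem h22_C_mem_int {c : K} (hc : c ∈ A) : (HahnSeries.C c : LaurentSeries K) ∈ h31_intSeries A :=
  h31_single_mem A 0 hc

/-- Series with bounded coefficients: some nonzero constant multiple is `A`-integral. -/
def h22_bddSeries : Subring (LaurentSeries K) where
  carrier := {g | ∃ c : K, c ≠ 0 ∧ HahnSeries.C c * g ∈ h31_intSeries A}
  mul_mem' := by
    rintro g h ⟨c, hc, hg⟩ ⟨d, hd, hh⟩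
    refine ⟨c * d, mul_ne_zero hc hd, ?_⟩
    have : HahnSeries.C (c * d) * (g * h) = (HahnSeries.C c * g) * (HahnSeries.C d * h) := by
      rw [map_mul]
      ring
    rw [this]
    exact (h31_intSeries A).mul_mem hg hh
  one_mem' := ⟨1, one_ne_zero, by rw [map_one, mul_one]; exact (h31_intSeries A).one_mem⟩
  add_mem' := by
    rintro g h ⟨c, hc, hg⟩ ⟨d, hd, hh⟩
    rcases A.mem_or_inv_mem (c * d⁻¹) with hcd | hcd
    · refine ⟨c, hc, ?_⟩
      have : HahnSeries.C c * (g + h) =
          HahnSeries.C c * g + HahnSeries.C (c * d⁻¹) * (HahnSeries.C d * h) := by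
        rw [mul_add, ← mul_assoc, ← map_mul, mul_assoc, inv_mul_cancel₀ hd, mul_one]
      rw [this]
      exact (h31_intSeries A).add_mem hg ((h31_intSeries A).mul_mem (h22_C_mem_int A hcd) hh)
    · refine ⟨d, hd, ?_⟩
      have : HahnSeries.C d * (g + h) =
          HahnSeries.C (c * d⁻¹)⁻¹ * (HahnSeries.C c * g) + HahnSeries.C d * h := by
        rw [mul_add, ← mul_assoc, ← map_mul]
        congr 3
        field_simp
      rw [this]
      exact (h31_intSeries A).add_mem ((h31_intSeries A).mul_mem (h22_C_mem_int A hcd) hg) hh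
  zero_mem' := ⟨1, one_ne_zero, by rw [mul_zero]; exact (h31_intSeries A).zero_mem⟩
  neg_mem' := by
    rintro g ⟨c, hc, hg⟩
    exact ⟨c, hc, by rw [mul_neg]; exact (h31_intSeries A).neg_mem hg⟩

theorem h22_mem_bddSeries (g : LaurentSeries K) :
    g ∈ h22_bddSeries A ↔ ∃ c : K, c ≠ 0 ∧ HahnSeries.C c * g ∈ h31_intSeries A := Iff.rfl

theorem h22_int_le_bdd {g : LaurentSeries K} (hg : g ∈ h31_intSeries A) : g ∈ h22_bddSeries A :=
  ⟨1, one_ne_zero, by rw [map_one, one_mul]; exact hg⟩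

theorem h22_C_mem_bdd (c : K) : (HahnSeries.C c : LaurentSeries K) ∈ h22_bddSeries A := by
  by_cases hc : c = 0
  · rw [hc, map_zero]
    exact (h22_bddSeries A).zero_mem
  · refine ⟨c⁻¹, inv_ne_zero hc, ?_⟩
    rw [← map_mul, inv_mul_cancel₀ hc, map_one]
    exact (h31_intSeries A).one_mem

end Bdd

/-! ### Functions of level `N` are quotients of bounded functions -/

section Frac

variable (N : ℕ) [NeZero N] (A : ValuationSubring Qb)

theorem h22_gen_mem_int (d : ℕ) [NeZero d] :
    coeffEmb Qb (qExpand ℚ d jq) ∈ h31_intSeries A := by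
  have h1 : coeffEmb Qb (qExpand ℚ d jq) = coeffMap A.subtype (qExpand A d (jqModC A)) := by
    rw [coeffMap_qExpand, coeffMap_jqModC, coeffEmb, coeffMap_qExpand, ← jqModC_rat,
      coeffMap_jqModC]
  rw [h1]
  exact h31_coeffMap_mem A _

/-- The bounded functions of level `N`, as a subring of the Laurent series. -/
def h22_bddFun : Subring (LaurentSeries Qb) :=
  h22_bddSeries A ⊓ (modularFunctionFieldBar N).toSubring

theorem h22_mem_closure_bddFun (x : LaurentSeries Qb) (hx : x ∈ modularFunctionFieldBar N) :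
    x ∈ Subfield.closure (h22_bddFun N A : Set (LaurentSeries Qb)) := by
  have hconst : ∀ c : Qb, algebraMap Qb (LaurentSeries Qb) c ∈
      Subfield.closure (h22_bddFun N A : Set (LaurentSeries Qb)) := by
    intro c
    refine Subfield.subset_closure ⟨?_, (modularFunctionFieldBar N).algebraMap_mem c⟩
    rw [algebraMap_laurentSeries_eq_single]
    exact h22_C_mem_bdd A c
  have hrat : ∀ x0 : LaurentSeries ℚ, x0 ∈ modularFunctionFieldFull N →
      coeffEmb Qb x0 ∈ Subfield.closure (h22_bddFun N A : Set (LaurentSeries Qb)) := by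
    intro x0 hx0
    induction hx0 using IntermediateField.adjoin_induction with
    | mem y hy =>
      obtain ⟨d, hd, hdN, rfl⟩ := hy
      exact Subfield.subset_closure ⟨h22_int_le_bdd A (h22_gen_mem_int A d),
        coeffEmb_mem_laurentBaseChange Qb (jqd_mem_full N hdN)⟩
    | algebraMap r =>
      have h1 : coeffEmb Qb (algebraMap ℚ (LaurentSeries ℚ) r) =
          algebraMap Qb (LaurentSeries Qb) (algebraMap ℚ Qb r) := by
        rw [algebraMap_laurentSeries_eq_single, algebraMap_laurentSeries_eq_single, coeffEmb,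
          coeffMap_single]
      rw [h1]
      exact hconst _
    | add x y _ _ hx hy =>
      rw [map_add]
      exact add_mem hx hy
    | inv x _ hx =>
      rw [map_inv₀]
      exact inv_mem hx
    | mul x y _ _ hx hy =>
      rw [map_mul]
      exact mul_mem hx hy
  rw [mem_laurentBaseChange_iff] at hx
  have hle : Subfield.closure (Set.range (algebraMap Qb (LaurentSeries Qb)) ∪
      (⇑(coeffEmb Qb) '' ((modularFunctionFieldFull N : IntermediateField ℚ (LaurentSeries ℚ)) :
        Set (LaurentSeries ℚ)))) ≤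
      Subfield.closure (h22_bddFun N A : Set (LaurentSeries Qb)) := by
    rw [Subfield.closure_le]
    rintro y (⟨c, rfl⟩ | ⟨x0, hx0, rfl⟩)
    · exact hconst c
    · exact hrat x0 hx0
  exact hle hx

/-- **Bounded fractions.**  Every function of level `N` is `P / Q` with `P, Q` functions with
bounded expansions. -/
theorem h22_exists_bdd_frac (f : modularFunctionFieldBar N) :
    ∃ P Q : modularFunctionFieldBar N, (P : LaurentSeries Qb) ∈ h22_bddSeries A ∧
      (Q : LaurentSeries Qb) ∈ h22_bddSeries A ∧ Q ≠ 0 ∧ f * Q = P := by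
  by_cases hf : f = 0
  · exact ⟨0, 1, (h22_bddSeries A).zero_mem, (h22_bddSeries A).one_mem, one_ne_zero,
      by rw [hf, zero_mul]⟩
  obtain ⟨y, hy, z, hz, hyz⟩ := Subfield.mem_closure_iff.1
    (h22_mem_closure_bddFun N A (f : LaurentSeries Qb) f.2)
  rw [Subring.closure_eq] at hy hz
  have hz0 : z ≠ 0 := by
    rintro rfl
    rw [div_zero] at hyz
    exact hf (Subtype.ext hyz.symm)
  refine ⟨⟨y, hy.2⟩, ⟨z, hz.2⟩, hy.1, hz.1, fun h => hz0 (congrArg Subtype.val h), ?_⟩
  apply Subtype.ext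
  show (f : LaurentSeries Qb) * z = y
  rw [← hyz]
  field_simp

end Frac

/-! ### Inertia-fixed denominators -/

section Fixed

variable (N : ℕ) [NeZero N] (A : ValuationSubring Qb)

theorem h22_coe_smul (σ : Qb ≃ₐ[ℚ] Qb) (x : modularFunctionFieldBar N) :
    ((arithmeticGalois (modularFunctionFieldFull N) σ • x : modularFunctionFieldBar N) :
      LaurentSeries Qb) = coeffMap (σ : Qb →+* Qb) (x : LaurentSeries Qb) := rfl

/-- Inertia preserves the integral series. -/
theorem h22_coeffMap_int (σ : Qb ≃ₐ[ℚ] Qb) (hσ : σ ∈ A.inertiaSubgroupIn ℚ)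
    {g : LaurentSeries Qb} (hg : g ∈ h31_intSeries A) :
    coeffMap (σ : Qb →+* Qb) g ∈ h31_intSeries A := by
  obtain ⟨sA, hsA, -⟩ := h87_inertia_lift A σ hσ
  intro i
  rw [coeffMap_coeff]
  have := (sA ⟨g.coeff i, hg i⟩).2
  rw [← SetLike.mem_coe] at this
  have h2 := hsA ⟨g.coeff i, hg i⟩
  show σ (g.coeff i) ∈ A
  rw [← show A.subtype (sA ⟨g.coeff i, hg i⟩) = σ (g.coeff i) from h2]
  exact (sA ⟨g.coeff i, hg i⟩).2

/-- Inertia preserves the bounded series. -/
theorem h22_coeffMap_bdd (σ : Qb ≃ₐ[ℚ] Qb) (hσ : σ ∈ A.inertiaSubgroupIn ℚ)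
    {g : LaurentSeries Qb} (hg : g ∈ h22_bddSeries A) :
    coeffMap (σ : Qb →+* Qb) g ∈ h22_bddSeries A := by
  obtain ⟨c, hc, hcg⟩ := hg
  refine ⟨σ c, (map_ne_zero σ).2 hc, ?_⟩
  have h1 := h22_coeffMap_int A σ hσ hcg
  rw [map_mul] at h1
  have h2 : coeffMap (σ : Qb →+* Qb) (HahnSeries.C c) = HahnSeries.C (σ c) := by
    rw [show (HahnSeries.C c : LaurentSeries Qb) = HahnSeries.single 0 c from rfl, coeffMap_single]
    rfl
  rw [h2] at h1
  exact h1

/-- **Fixed fractions.**  An inertia-fixed function of level `N` is `P / Q` with `P, Q`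
inertia-fixed functions with bounded expansions. -/
theorem h22_exists_fixed_frac (f : modularFunctionFieldBar N)
    (hf : f ∈ h69_F0 N (A.inertiaSubgroupIn ℚ)) :
    ∃ P Q : modularFunctionFieldBar N, P ∈ h69_F0 N (A.inertiaSubgroupIn ℚ) ∧
      Q ∈ h69_F0 N (A.inertiaSubgroupIn ℚ) ∧ (P : LaurentSeries Qb) ∈ h22_bddSeries A ∧
      (Q : LaurentSeries Qb) ∈ h22_bddSeries A ∧ Q ≠ 0 ∧ f * Q = P := by
  -- the denominator space
  let V : Submodule Qb (modularFunctionFieldBar N) :=
    { carrier := {Q | (Q : LaurentSeries Qb) ∈ h22_bddSeries A ∧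
        ((f * Q : modularFunctionFieldBar N) : LaurentSeries Qb) ∈ h22_bddSeries A}
      add_mem' := by
        rintro a b ⟨ha1, ha2⟩ ⟨hb1, hb2⟩
        refine ⟨(h22_bddSeries A).add_mem ha1 hb1, ?_⟩
        rw [mul_add]
        exact (h22_bddSeries A).add_mem ha2 hb2
      zero_mem' := ⟨(h22_bddSeries A).zero_mem, by
        rw [mul_zero]; exact (h22_bddSeries A).zero_mem⟩
      smul_mem' := by
        rintro c a ⟨ha1, ha2⟩
        have hc : ((algebraMap Qb (modularFunctionFieldBar N) c : modularFunctionFieldBar N) :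
            LaurentSeries Qb) ∈ h22_bddSeries A := by
          show algebraMap Qb (LaurentSeries Qb) c ∈ h22_bddSeries A
          rw [algebraMap_laurentSeries_eq_single]
          exact h22_C_mem_bdd A c
        refine ⟨?_, ?_⟩
        · rw [Algebra.smul_def]
          exact (h22_bddSeries A).mul_mem hc ha1
        · rw [Algebra.smul_def, mul_left_comm]
          exact (h22_bddSeries A).mul_mem hc ha2 }
  have hVstab : ∀ σ ∈ A.inertiaSubgroupIn ℚ, ∀ v ∈ V,
      arithmeticGalois (modularFunctionFieldFull N) σ • v ∈ V := by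
    rintro σ hσ v ⟨hv1, hv2⟩
    refine ⟨?_, ?_⟩
    · rw [h22_coe_smul]
      exact h22_coeffMap_bdd A σ hσ hv1
    · have h1 : f * (arithmeticGalois (modularFunctionFieldFull N) σ • v) =
          arithmeticGalois (modularFunctionFieldFull N) σ • (f * v) := by
        rw [smul_mul', (h69_mem_F0 N _ f).1 hf σ hσ]
      rw [h1, h22_coe_smul]
      exact h22_coeffMap_bdd A σ hσ hv2
  have hspan := h69_span_fixed N (A.inertiaSubgroupIn ℚ) V hVstab
  -- `V ≠ 0`
  obtain ⟨P0, Q0, hP0, hQ0, hQ0ne, hfQ0⟩ := h22_exists_bdd_frac N A f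
  have hQ0V : Q0 ∈ V := ⟨hQ0, by rw [hfQ0]; exact hP0⟩
  -- hence a nonzero fixed element
  obtain ⟨Q, ⟨hQV, hQfix⟩, hQne⟩ : ∃ Q, Q ∈ {g | g ∈ V ∧
      ∀ σ ∈ A.inertiaSubgroupIn ℚ, arithmeticGalois (modularFunctionFieldFull N) σ • g = g} ∧
      Q ≠ 0 := by
    by_contra hcon
    push Not at hcon
    have hbot : Submodule.span Qb {g | g ∈ V ∧ ∀ σ ∈ A.inertiaSubgroupIn ℚ,
        arithmeticGalois (modularFunctionFieldFull N) σ • g = g} ≤ ⊥ :=
      Submodule.span_le.mpr fun g hg => by
        rw [hcon g hg]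
        exact Submodule.zero_mem _
    rw [hspan] at hbot
    exact hQ0ne ((Submodule.mem_bot Qb).1 (hbot hQ0V))
  refine ⟨f * Q, Q, (h69_F0 N _).mul_mem hf ((h69_mem_F0 N _ Q).2 hQfix),
    (h69_mem_F0 N _ Q).2 hQfix, hQV.2, hQV.1, hQne, rfl⟩

end Fixed

/-! ### Bounded fixed series: the minimum is attained -/

section Scale

variable (q : ℕ) [Fact q.Prime] (A : ValuationSubring Qb) (hA : A.LiesOverPrime q)

theorem h22_coeff_C_mul {K : Type*} [Field K] (c : K) (g : LaurentSeries K) (i : ℤ) :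
    (HahnSeries.C c * g).coeff i = c * g.coeff i := by
  rw [HahnSeries.C_mul_eq_smul, HahnSeries.coeff_smul, smul_eq_mul]

include hA in
/-- A bounded inertia-fixed series is `q ^ n` times an integral series with nonzero reduction. -/
theorem h22_bdd_fixed_scale (g : LaurentSeries Qb) (hg0 : g ≠ 0) (hbdd : g ∈ h22_bddSeries A)
    (hfix : ∀ σ ∈ A.inertiaSubgroupIn ℚ, coeffMap (σ : Qb →+* Qb) g = g) :
    ∃ (n : ℤ) (y : LaurentSeries A),
      coeffMap A.subtype y = HahnSeries.C ((q : Qb) ^ n)⁻¹ * g ∧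
      coeffMap (IsLocalRing.residue A) y ≠ 0 := by
  have hq : q.Prime := Fact.out
  have hq0 : (q : Qb) ≠ 0 := by exact_mod_cast hq.ne_zero
  have hqn : (q : Qb) ∈ A.nonunits := hA
  have hqA : (q : Qb) ∈ A := A.nonunits_le hqn
  have hqinv : (q : Qb)⁻¹ ∉ A := fun h => by
    have h1 := h22_mul_mem_nonunits A h hqn
    rw [inv_mul_cancel₀ hq0] at h1
    exact h22_one_not_mem_nonunits A h1
  have hcoef : ∀ i, g.coeff i ≠ 0 → ∃ (n : ℤ) (u : Qb),
      g.coeff i = (q : Qb) ^ n * u ∧ u ∈ A ∧ u⁻¹ ∈ A := by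
    intro i hi
    obtain ⟨n, u, h1, h2, h3, -⟩ := h69_dv q A hA (g.coeff i) hi (fun σ hσ => by
      have h := congrArg (fun x : LaurentSeries Qb => x.coeff i) (hfix σ hσ)
      simp only [coeffMap_coeff] at h
      exact h)
    exact ⟨n, u, h1, h2, h3⟩
  obtain ⟨c, hc, hcg⟩ := hbdd
  obtain ⟨N, hN⟩ := h64_rankOne_h39 hq A hA (q : Qb) hqA hqinv c hc
  obtain ⟨i1, hi1⟩ : ∃ i, g.coeff i ≠ 0 := by
    by_contra hcon
    push Not at hcon
    exact hg0 (HahnSeries.ext (funext fun i => by rw [hcon i]; rfl))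
  obtain ⟨n, ⟨i0, u0, hi0, h0, hu0, hu0'⟩, hmin⟩ := Int.exists_least_of_bdd
    (P := fun n : ℤ => ∃ (i : ℤ) (u : Qb), g.coeff i ≠ 0 ∧ g.coeff i = (q : Qb) ^ n * u ∧
      u ∈ A ∧ u⁻¹ ∈ A)
    ⟨-(N : ℤ), by
      rintro z ⟨i, u, hi, h1, h2, h3⟩
      have hu : u ≠ 0 := by
        rintro rfl
        exact hi (by rw [h1, mul_zero])
      have h4 : c * g.coeff i ∈ A := by
        have := hcg i
        rwa [h22_coeff_C_mul] at this
      have h5 : (q : Qb) ^ (z + N) ∈ A := by
        have h6 : (q : Qb) ^ (z + N) = (c * g.coeff i) * u⁻¹ * ((q : Qb) ^ N * c⁻¹) := by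
          rw [h1, zpow_add₀ hq0, zpow_natCast]
          field_simp
        rw [h6]
        exact A.mul_mem _ _ (A.mul_mem _ _ h4 h3) hN
      have := (h22_zpow_mem_iff A hqn hq0 _).1 h5
      omega⟩
    (by
      obtain ⟨n1, u1, h1, h2, h3⟩ := hcoef i1 hi1
      exact ⟨n1, i1, u1, hi1, h1, h2, h3⟩)
  have hint : HahnSeries.C ((q : Qb) ^ n)⁻¹ * g ∈ h31_intSeries A := by
    intro i
    rw [h22_coeff_C_mul]
    by_cases hi : g.coeff i = 0
    · rw [hi, mul_zero]
      exact A.zero_mem
    · obtain ⟨ni, ui, h1, h2, h3⟩ := hcoef i hi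
      have hle := hmin ni ⟨i, ui, hi, h1, h2, h3⟩
      have h4 : ((q : Qb) ^ n)⁻¹ * g.coeff i = (q : Qb) ^ (ni - n) * ui := by
        rw [h1, zpow_sub₀ hq0]
        field_simp
      rw [h4]
      exact A.mul_mem _ _ ((h22_zpow_mem_iff A hqn hq0 _).2 (by omega)) h2
  obtain ⟨y, hy⟩ := (h31_mem_intSeries_iff A _).1 hint
  refine ⟨n, y, hy, fun hred => ?_⟩
  have h1 := congrArg (fun x : LaurentSeries (IsLocalRing.ResidueField A) => x.coeff i0) hred
  simp only [coeffMap_coeff, HahnSeries.coeff_zero] at h1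
  have h2 : ((y.coeff i0 : A) : Qb) = u0 := by
    have h3 := congrArg (fun x : LaurentSeries Qb => x.coeff i0) hy
    simp only [coeffMap_coeff, h22_coeff_C_mul] at h3
    have h4 : (A.subtype (y.coeff i0) : Qb) = ((q : Qb) ^ n)⁻¹ * g.coeff i0 := h3
    rw [h0] at h4
    rw [show ((y.coeff i0 : A) : Qb) = A.subtype (y.coeff i0) from rfl, h4]
    field_simp
  have h5 : (y.coeff i0 : A) ∈ IsLocalRing.maximalIdeal A :=
    (IsLocalRing.residue_eq_zero_iff _).1 h1
  have h6 : u0 ∈ A.nonunits := by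
    rw [← h2]
    exact (ValuationSubring.coe_mem_nonunits_iff).2 h5
  have h7 := h22_mul_mem_nonunits A hu0' h6
  have hu00 : u0 ≠ 0 := by
    rintro rfl
    exact hi0 (by rw [h0, mul_zero])
  rw [inv_mul_cancel₀ hu00] at h7
  exact h22_one_not_mem_nonunits A h7

variable (N : ℕ) [NeZero N]

include hA in
/-- **(INT-SER).**  Every nonzero inertia-fixed function `f` of level `N` is `q ^ n` times a
ratio of integral series with nonzero reductions: the Gauss valuation of the `t`-expansion takes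
values in `ℤ · v(q)` on the inertia-fixed functions. -/
theorem h22_int_ser (f : modularFunctionFieldBar N) (hf : f ≠ 0)
    (hfix : f ∈ h69_F0 N (A.inertiaSubgroupIn ℚ)) :
    ∃ (n : ℤ) (y₁ y₂ : LaurentSeries A),
      coeffMap (IsLocalRing.residue A) y₁ ≠ 0 ∧ coeffMap (IsLocalRing.residue A) y₂ ≠ 0 ∧
      (((algebraMap Qb (modularFunctionFieldBar N) ((q : Qb) ^ n))⁻¹ * f :
          modularFunctionFieldBar N) : LaurentSeries Qb) * coeffMap A.subtype y₂ =
        coeffMap A.subtype y₁ := by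
  have hq : q.Prime := Fact.out
  have hq0 : (q : Qb) ≠ 0 := by exact_mod_cast hq.ne_zero
  obtain ⟨P, Q, hPfix, hQfix, hPb, hQb, hQ0, hfQ⟩ := h22_exists_fixed_frac N A f hfix
  have hP0 : P ≠ 0 := by
    rw [← hfQ]
    exact mul_ne_zero hf hQ0
  have hfixser : ∀ g : modularFunctionFieldBar N, g ∈ h69_F0 N (A.inertiaSubgroupIn ℚ) →
      ∀ σ ∈ A.inertiaSubgroupIn ℚ, coeffMap (σ : Qb →+* Qb) (g : LaurentSeries Qb) = g := by
    intro g hg σ hσ
    rw [← h22_coe_smul, (h69_mem_F0 N _ g).1 hg σ hσ]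
  obtain ⟨nP, yP, hyP, hyP'⟩ := h22_bdd_fixed_scale q A hA (P : LaurentSeries Qb)
    (fun h => hP0 (Subtype.ext h)) hPb (hfixser P hPfix)
  obtain ⟨nQ, yQ, hyQ, hyQ'⟩ := h22_bdd_fixed_scale q A hA (Q : LaurentSeries Qb)
    (fun h => hQ0 (Subtype.ext h)) hQb (hfixser Q hQfix)
  refine ⟨nP - nQ, yP, yQ, hyP', hyQ', ?_⟩
  rw [hyP, hyQ]
  have h1 : (P : LaurentSeries Qb) = (f : LaurentSeries Qb) * (Q : LaurentSeries Qb) := by
    rw [← hfQ]
    rfl
  have h2 : (((algebraMap Qb (modularFunctionFieldBar N) ((q : Qb) ^ (nP - nQ)))⁻¹ * f :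
      modularFunctionFieldBar N) : LaurentSeries Qb) =
      (HahnSeries.C ((q : Qb) ^ (nP - nQ)))⁻¹ * (f : LaurentSeries Qb) := by
    show (algebraMap Qb (LaurentSeries Qb) ((q : Qb) ^ (nP - nQ)))⁻¹ * (f : LaurentSeries Qb) = _
    rw [algebraMap_laurentSeries_eq_single]
    rfl
  rw [h2, h1, zpow_sub₀ hq0]
  have hCP : (HahnSeries.C ((q : Qb) ^ nP) : LaurentSeries Qb) ≠ 0 :=
    (map_ne_zero _).2 (zpow_ne_zero _ hq0)
  have hCQ : (HahnSeries.C ((q : Qb) ^ nQ) : LaurentSeries Qb) ≠ 0 :=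
    (map_ne_zero _).2 (zpow_ne_zero _ hq0)
  rw [map_div₀, map_inv₀, map_inv₀]
  field_simp

end Scale

end Fermat.Agent.S36

end
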