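import Mathlib
import Fermat.Agent.S36.h22_IntSer
import Fermat.Agent.S36.h22_DiscVal
import Fermat.Agent.S34.h60_Pair
import Fermat.Agent.S34.h22_LatMqBridge
import Fermat.Agent.S18.h89_GaussCore
import Fermat.Agent.S18.h64_CoreAdapter

/-!
# S36 / row I-Q (helper22): the two vertical valuations of level `Mq` on the inertia-fixed functions

`q ∤ M`, `A` a valuation ring of `ℚ̄` over `q`, `I` its inertia group, `F = F̄(Mq)`,
`F0 = h69_F0 (M q) I` the `I`-fixed functions, `R₁ = h60_R1`, `R₂ = h60_R2` the two reduction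
data (components `Z_F`, `Z_V` of the special fibre), `π = q`.

* `h22_pair_val` : for `f ∈ F0`, `f ≠ 0`, the value of `f` at `R_c` is an integral power of the
  value of `q` (from (INT-SER) `h22_int_ser`; for `c = 1` through the swap `h60_w`).
* `h22_vq c : F0 → ℤ` : the normalised vertical valuations, with
  `h22_vq_mul`, `h22_vq_add`, `h22_vq_q` (`= 1`), `h22_vq_nonneg_iff` (`↔ f ∈ O_c`),
  `h22_vq_pos_iff` (`↔ f ∈ 𝔪_c`), `h22_vq_pos_iff_red`, `h22_vq_unit`.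
* `h22_h87_hint` : the sup-norm of the pair lattice `h87_D` is discrete on `F0`;
  `h22_k0_ker` : `f ∈ F0 ∩ O` with zero reduction is `q g`, `g ∈ F0 ∩ O`.
-/

set_option autoImplicit false

noncomputable section

open AlgebraicCurve ModularCurve IntermediateField

namespace Fermat.Agent.S36

open Fermat.Agent.S34 Fermat.Agent.S18 Fermat.Agent.S37

local notation "Qb" => AlgebraicClosure ℚ

section VertVal

variable (M q : ℕ) [NeZero M] [NeZero q] [Fact q.Prime] (hqM : ¬ q ∣ M)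
  (A : ValuationSubring Qb) (hA : A.LiesOverPrime q)

/-- the uniformiser `q` as a constant function of level `Mq` -/
def h22_piF : ↥(modularFunctionFieldBar (M * q)) :=
  algebraMap Qb ↥(modularFunctionFieldBar (M * q)) (q : Qb)

theorem h22_piF_ne : h22_piF M q ≠ 0 := by
  have hq : q.Prime := Fact.out
  unfold h22_piF
  rw [Ne, map_eq_zero]
  exact_mod_cast hq.ne_zero

theorem h22_piF_eq_natCast : h22_piF M q = (q : ↥(modularFunctionFieldBar (M * q))) := by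
  unfold h22_piF
  rw [map_natCast]

include hA in
theorem h22_piF_nonunit (c : Fin 2) :
    h22_piF M q ∈ (h60_pair M q hqM A hA c).O.nonunits := by
  refine (h64_A_nonunits_iff _ _).1 ?_
  rw [(h60_pair_spec M q hqM A hA).1 c]
  exact hA

include hA in
/-- unit scaling at `R₁` -/
theorem h22_R1_unit (f : ↥(modularFunctionFieldBar (M * q))) (hf : f ≠ 0)
    (hfix : f ∈ h69_F0 (M * q) (A.inertiaSubgroupIn ℚ)) :
    ∃ n : ℤ, (h22_piF M q ^ n)⁻¹ * f ∈ (h60_R1 M q hqM A hA).O ∧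
      ((h22_piF M q ^ n)⁻¹ * f)⁻¹ ∈ (h60_R1 M q hqM A hA).O := by
  obtain ⟨n, y₁, y₂, hy₁, hy₂, h⟩ := h22_int_ser q A hA (M * q) f hf hfix
  have hg : (algebraMap Qb ↥(modularFunctionFieldBar (M * q)) ((q : Qb) ^ n))⁻¹ * f ∈
      (h60_R1 M q hqM A hA).O := (h60_R1_mem_iff M q hqM A hA _).mpr ⟨y₁, y₂, hy₂, h⟩
  have hred := h60_R1_red_eq M q hqM A hA _ hg y₁ y₂ h
  have hne : (h60_R1 M q hqM A hA).red ⟨_, hg⟩ ≠ 0 := by
    intro h0
    rw [h0] at hred
    apply hy₁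
    rw [← hred]
    exact zero_mul _
  have hinv := h89_inv_mem_of_red_ne_zero (h60_R1 M q hqM A hA) hg hne
  refine ⟨n, ?_, ?_⟩
  · unfold h22_piF
    rw [← map_zpow₀]
    exact hg
  · unfold h22_piF
    rw [← map_zpow₀]
    exact hinv

/-- the swap preserves the inertia-fixed functions -/
theorem h22_w_mem_F0 (H : Subgroup (Qb ≃ₐ[ℚ] Qb)) (f : ↥(modularFunctionFieldBar (M * q)))
    (hfix : f ∈ h69_F0 (M * q) H) : h60_w M q hqM f ∈ h69_F0 (M * q) H := by
  rw [h69_mem_F0] at hfix ⊢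
  intro σ hσ
  show arithmeticRingAut (modularFunctionFieldFull (M * q)) σ (h60_w M q hqM f) = h60_w M q hqM f
  rw [← h60_w_galois]
  exact congrArg _ (hfix σ hσ)

theorem h22_w_piF : h60_w M q hqM (h22_piF M q) = h22_piF M q :=
  h60_w_algebraMap M q hqM _

include hA in
/-- unit scaling at `R₂` -/
theorem h22_R2_unit (f : ↥(modularFunctionFieldBar (M * q))) (hf : f ≠ 0)
    (hfix : f ∈ h69_F0 (M * q) (A.inertiaSubgroupIn ℚ)) :
    ∃ n : ℤ, (h22_piF M q ^ n)⁻¹ * f ∈ (h60_R2 M q hqM A hA).O ∧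
      ((h22_piF M q ^ n)⁻¹ * f)⁻¹ ∈ (h60_R2 M q hqM A hA).O := by
  obtain ⟨n, h1, h2⟩ := h22_R1_unit M q hqM A hA (h60_w M q hqM f) ((map_ne_zero _).2 hf)
    (h22_w_mem_F0 M q hqM _ f hfix)
  have hw : h60_w M q hqM ((h22_piF M q ^ n)⁻¹ * f) = (h22_piF M q ^ n)⁻¹ * h60_w M q hqM f := by
    rw [map_mul, map_inv₀, map_zpow₀, h22_w_piF]
  refine ⟨n, ?_, ?_⟩
  · rw [h60_R2_mem_iff, hw]
    exact h1
  · rw [h60_R2_mem_iff, map_inv₀, hw]
    exact h2

include hA in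
/-- **The values of the inertia-fixed functions at the two components are integral powers of
the value of `q`.** -/
theorem h22_pair_val (c : Fin 2) (f : ↥(modularFunctionFieldBar (M * q))) (hf : f ≠ 0)
    (hfix : f ∈ h69_F0 (M * q) (A.inertiaSubgroupIn ℚ)) :
    ∃ n : ℤ, (h60_pair M q hqM A hA c).O.valuation f =
      (h60_pair M q hqM A hA c).O.valuation (h22_piF M q) ^ n := by
  fin_cases c
  · obtain ⟨n, h1, h2⟩ := h22_R1_unit M q hqM A hA f hf hfix
    exact ⟨n, h22_val_of_unit (O := (h60_R1 M q hqM A hA).O) (h22_piF_ne M q) hf h1 h2⟩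
  · obtain ⟨n, h1, h2⟩ := h22_R2_unit M q hqM A hA f hf hfix
    exact ⟨n, h22_val_of_unit (O := (h60_R2 M q hqM A hA).O) (h22_piF_ne M q) hf h1 h2⟩

/-- **The two vertical valuations of level `Mq`** on the inertia-fixed functions
(`0 ↦ Z_F = h60_R1`, `1 ↦ Z_V = h60_R2`), normalised by `v(q) = 1`. -/
def h22_vq (c : Fin 2) (f : ↥(h69_F0 (M * q) (A.inertiaSubgroupIn ℚ))) : ℤ :=
  h22_dv (h60_pair M q hqM A hA c).O (h22_piF M q) (f : ↥(modularFunctionFieldBar (M * q)))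

include hA in
theorem h22_vq_ex (c : Fin 2) (f : ↥(h69_F0 (M * q) (A.inertiaSubgroupIn ℚ))) (hf : f ≠ 0) :
    ∃ n : ℤ, (h60_pair M q hqM A hA c).O.valuation (f : ↥(modularFunctionFieldBar (M * q))) =
      (h60_pair M q hqM A hA c).O.valuation (h22_piF M q) ^ n :=
  h22_pair_val M q hqM A hA c f (fun h => hf (Subtype.ext h)) f.2

theorem h22_vq_mul (c : Fin 2) (f g : ↥(h69_F0 (M * q) (A.inertiaSubgroupIn ℚ))) (hf : f ≠ 0)
    (hg : g ≠ 0) :
    h22_vq M q hqM A hA c (f * g) = h22_vq M q hqM A hA c f + h22_vq M q hqM A hA c g :=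
  h22_dv_mul (h22_piF_nonunit M q hqM A hA c) (h22_piF_ne M q)
    (h22_vq_ex M q hqM A hA c f hf) (h22_vq_ex M q hqM A hA c g hg)

theorem h22_vq_add (c : Fin 2) (f g : ↥(h69_F0 (M * q) (A.inertiaSubgroupIn ℚ))) (hf : f ≠ 0)
    (hg : g ≠ 0) (hfg : f + g ≠ 0) :
    min (h22_vq M q hqM A hA c f) (h22_vq M q hqM A hA c g) ≤ h22_vq M q hqM A hA c (f + g) :=
  h22_dv_add (h22_piF_nonunit M q hqM A hA c) (h22_piF_ne M q)
    (h22_vq_ex M q hqM A hA c f hf) (h22_vq_ex M q hqM A hA c g hg)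
    (h22_vq_ex M q hqM A hA c (f + g) hfg)

theorem h22_vq_q (c : Fin 2) :
    h22_vq M q hqM A hA c (q : ↥(h69_F0 (M * q) (A.inertiaSubgroupIn ℚ))) = 1 := by
  unfold h22_vq
  have h1 : (((q : ↥(h69_F0 (M * q) (A.inertiaSubgroupIn ℚ))) :
      ↥(modularFunctionFieldBar (M * q)))) = h22_piF M q := by
    rw [h22_piF_eq_natCast]
    rfl
  rw [h1]
  exact h22_dv_self (h22_piF_nonunit M q hqM A hA c) (h22_piF_ne M q)

theorem h22_vq_nonneg_iff (c : Fin 2) (f : ↥(h69_F0 (M * q) (A.inertiaSubgroupIn ℚ)))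
    (hf : f ≠ 0) :
    0 ≤ h22_vq M q hqM A hA c f ↔
      (f : ↥(modularFunctionFieldBar (M * q))) ∈ (h60_pair M q hqM A hA c).O :=
  h22_dv_nonneg_iff (h22_piF_nonunit M q hqM A hA c) (h22_piF_ne M q)
    (h22_vq_ex M q hqM A hA c f hf)

theorem h22_vq_pos_iff (c : Fin 2) (f : ↥(h69_F0 (M * q) (A.inertiaSubgroupIn ℚ)))
    (hf : f ≠ 0) :
    0 < h22_vq M q hqM A hA c f ↔
      (f : ↥(modularFunctionFieldBar (M * q))) ∈ (h60_pair M q hqM A hA c).O.nonunits :=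
  h22_dv_pos_iff (h22_piF_nonunit M q hqM A hA c) (h22_piF_ne M q)
    (h22_vq_ex M q hqM A hA c f hf)

theorem h22_vq_pos_iff_red (c : Fin 2) (f : ↥(h69_F0 (M * q) (A.inertiaSubgroupIn ℚ)))
    (hf : f ≠ 0) :
    0 < h22_vq M q hqM A hA c f ↔
      (f : ↥(modularFunctionFieldBar (M * q))) ∈ (h60_pair M q hqM A hA c).O ∧
        (h60_pair M q hqM A hA c).redF (f : ↥(modularFunctionFieldBar (M * q))) = 0 := by
  rw [h22_vq_pos_iff M q hqM A hA c f hf]
  constructor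
  · intro h
    have hO := (h60_pair M q hqM A hA c).O.nonunits_le h
    refine ⟨hO, ?_⟩
    rw [(h60_pair M q hqM A hA c).redF_of_mem hO]
    exact (h64_red_eq_zero_iff _ ⟨_, hO⟩).2 h
  · rintro ⟨hO, h0⟩
    rw [(h60_pair M q hqM A hA c).redF_of_mem hO] at h0
    exact (h64_red_eq_zero_iff _ ⟨_, hO⟩).1 h0

/-- the value of `f` in valuation form -/
theorem h22_vq_spec (c : Fin 2) (f : ↥(h69_F0 (M * q) (A.inertiaSubgroupIn ℚ))) (hf : f ≠ 0) :
    (h60_pair M q hqM A hA c).O.valuation (f : ↥(modularFunctionFieldBar (M * q))) =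
      (h60_pair M q hqM A hA c).O.valuation (h22_piF M q) ^ h22_vq M q hqM A hA c f :=
  h22_dv_spec (h22_vq_ex M q hqM A hA c f hf)

/-- `q ^ (-v_c f) f` is a unit of `O_c`. -/
theorem h22_vq_unit (c : Fin 2) (f : ↥(h69_F0 (M * q) (A.inertiaSubgroupIn ℚ))) (hf : f ≠ 0) :
    (h22_piF M q ^ h22_vq M q hqM A hA c f)⁻¹ * (f : ↥(modularFunctionFieldBar (M * q))) ∈
        (h60_pair M q hqM A hA c).O ∧
      ((h22_piF M q ^ h22_vq M q hqM A hA c f)⁻¹ * (f : ↥(modularFunctionFieldBar (M * q))))⁻¹ ∈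
        (h60_pair M q hqM A hA c).O :=
  h22_unit_of_val (h22_piF_ne M q) (h22_vq_spec M q hqM A hA c f hf)

end VertVal

end Fermat.Agent.S36

end
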