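import Mathlib
import Fermat.Agent.S36.h22_VertVal
import Fermat.Agent.S36.h22_K0LatGen
import Fermat.Agent.S36.h5_ResK0
import Fermat.Agent.S34.h51_Glue
import Fermat.Agent.S34.h60_ValPB

/-!
# S36 / row I-Q (helper22): (K0-LAT) at level `Mq`

`D = h87_D M q hqM A hA` the pair lattice of level `Mq` (`q ∤ M`), `I` the inertia group of `A`,
`F0 = h69_F0 (M q) I`.

* `h22_h87_hint` : the sup-norm of `D` is discrete on `F0`: every nonzero `f ∈ F0` is `q ^ n`
  times an element of `O` with nonzero reduction.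
* `h22_k0_ker_Mq` : `f ∈ F0 ∩ O` with reduction `(0, 0)` is `q g` with `g ∈ F0 ∩ O`.
* `h22_k0lat_family_Mq` : for an `I`-invariant divisor `E`, `L(E)` has an orthonormal basis of
  `I`-fixed functions.
* `h22_k0lat_Mq` : **(Q-LAT)** every element of `red (L(E) ∩ O)` is the reduction of an
  `I`-fixed element of `L(E) ∩ O` (`E` an `I`-invariant divisor).
-/

set_option autoImplicit false

noncomputable section

open AlgebraicCurve ModularCurve IntermediateField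

namespace Fermat.Agent.S36

open Fermat.Agent.S34 Fermat.Agent.S18 Fermat.Agent.S37

local notation "Qb" => AlgebraicClosure ℚ

/-- The constants fixed by a subgroup of `Gal(ℚ̄/ℚ)`, as a subfield of `ℚ̄`. -/
def h22_K0 (H : Subgroup (Qb ≃ₐ[ℚ] Qb)) : Subfield Qb :=
  (IntermediateField.fixedField H).toSubfield

theorem h22_mem_K0 (H : Subgroup (Qb ≃ₐ[ℚ] Qb)) (a : Qb) :
    a ∈ h22_K0 H ↔ ∀ σ ∈ H, σ a = a := by
  unfold h22_K0
  rw [IntermediateField.mem_toSubfield, IntermediateField.mem_fixedField_iff]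

section Mq

variable (M q : ℕ) [NeZero M] [NeZero q] [Fact q.Prime] (hqM : ¬ q ∣ M)
  (A : ValuationSubring Qb) (hA : A.LiesOverPrime q)

theorem h22_piF_mem_F0 (H : Subgroup (Qb ≃ₐ[ℚ] Qb)) : h22_piF M q ∈ h69_F0 (M * q) H := by
  unfold h22_piF
  rw [h69_algebraMap_mem_F0]
  intro σ _
  exact map_natCast σ q

/-- **Discreteness of the sup-norm of `h87_D` on the inertia-fixed functions.** -/
theorem h22_h87_hint (f : ↥(modularFunctionFieldBar (M * q)))
    (hfix : f ∈ h69_F0 (M * q) (A.inertiaSubgroupIn ℚ)) (hf : f ≠ 0) :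
    ∃ n : ℤ, ((q : Qb) ^ n)⁻¹ • f ∈ (h87_D M q hqM A hA).O ∧
      (h87_D M q hqM A hA).redF (((q : Qb) ^ n)⁻¹ • f) ≠ 0 := by
  set f' : ↥(h69_F0 (M * q) (A.inertiaSubgroupIn ℚ)) := ⟨f, hfix⟩ with hf'
  have hf'0 : f' ≠ 0 := fun h => hf (congrArg Subtype.val h)
  set n : ℤ := min (h22_vq M q hqM A hA 0 f') (h22_vq M q hqM A hA 1 f') with hn
  have hπ0 := h22_piF_ne M q
  have hsm : ((q : Qb) ^ n)⁻¹ • f = (h22_piF M q ^ n)⁻¹ * f := by
    rw [Algebra.smul_def, map_inv₀, map_zpow₀]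
    rfl
  -- the value of `g` at each component
  have hval : ∀ c : Fin 2, (h60_pair M q hqM A hA c).O.valuation ((h22_piF M q ^ n)⁻¹ * f) =
      (h60_pair M q hqM A hA c).O.valuation (h22_piF M q) ^
        (h22_vq M q hqM A hA c f' - n) := by
    intro c
    have h1 := h22_vq_spec M q hqM A hA c f' hf'0
    have h2 : (h60_pair M q hqM A hA c).O.valuation (h22_piF M q) ≠ 0 :=
      ne_of_gt (h22_val_pi_pos hπ0)
    rw [map_mul, map_inv₀, map_zpow₀, show ((f' : ↥(modularFunctionFieldBar (M * q)))) = f from rfl]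
      at *
    rw [h1, zpow_sub₀ h2, div_eq_inv_mul]
  have hmem : ∀ c : Fin 2, (h22_piF M q ^ n)⁻¹ * f ∈ (h60_pair M q hqM A hA c).O := by
    intro c
    rw [← ValuationSubring.valuation_le_one_iff, hval c]
    refine (zpow_le_one_iff_right_of_lt_one₀ (h22_val_pi_pos hπ0)
      (h22_val_pi_lt (h22_piF_nonunit M q hqM A hA c))).2 ?_
    have h1 : n ≤ h22_vq M q hqM A hA c f' := by
      fin_cases c
      · exact min_le_left _ _
      · exact min_le_right _ _
    omega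
  have hg0 : (h22_piF M q ^ n)⁻¹ * f ≠ 0 := mul_ne_zero (inv_ne_zero (zpow_ne_zero _ hπ0)) hf
  have hunit : ∀ c : Fin 2, h22_vq M q hqM A hA c f' = n →
      (h60_pair M q hqM A hA c).redF ((h22_piF M q ^ n)⁻¹ * f) ≠ 0 := by
    intro c hc
    have h1 := hval c
    rw [hc, sub_self, zpow_zero] at h1
    have hinv : ((h22_piF M q ^ n)⁻¹ * f)⁻¹ ∈ (h60_pair M q hqM A hA c).O := by
      rw [← ValuationSubring.valuation_le_one_iff, map_inv₀, h1, inv_one]
    rw [(h60_pair M q hqM A hA c).redF_of_mem (hmem c)]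
    exact h60_red_ne_zero_of_inv _ (hmem c) hinv hg0
  refine ⟨n, ?_, ?_⟩
  · rw [hsm]
    exact ⟨hmem 0, hmem 1⟩
  · rw [hsm, h87_D_redF M q hqM A hA (hmem 0) (hmem 1)]
    intro h0
    rw [Prod.mk_eq_zero] at h0
    rcases min_choice (h22_vq M q hqM A hA 0 f') (h22_vq M q hqM A hA 1 f') with h | h
    · exact hunit 0 (by rw [hn, h]) h0.1
    · exact hunit 1 (by rw [hn, h]) h0.2

/-- **The kernel of the reduction on `F0 ∩ O` is `q (F0 ∩ O)`.** -/
theorem h22_k0_ker_Mq (f : ↥(modularFunctionFieldBar (M * q)))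
    (hfix : f ∈ h69_F0 (M * q) (A.inertiaSubgroupIn ℚ)) (hfO : f ∈ (h87_D M q hqM A hA).O)
    (h0 : (h87_D M q hqM A hA).redF f = 0) :
    ∃ g : ↥(modularFunctionFieldBar (M * q)), g ∈ h69_F0 (M * q) (A.inertiaSubgroupIn ℚ) ∧
      g ∈ (h87_D M q hqM A hA).O ∧ f = h22_piF M q * g := by
  by_cases hf : f = 0
  · exact ⟨0, Subfield.zero_mem _, Subring.zero_mem _, by rw [hf, mul_zero]⟩
  have hπ0 := h22_piF_ne M q
  have hπF := h22_piF_mem_F0 M q (A.inertiaSubgroupIn ℚ)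
  set f' : ↥(h69_F0 (M * q) (A.inertiaSubgroupIn ℚ)) := ⟨f, hfix⟩ with hf'
  have hf'0 : f' ≠ 0 := fun h => hf (congrArg Subtype.val h)
  have hgF : (h22_piF M q)⁻¹ * f ∈ h69_F0 (M * q) (A.inertiaSubgroupIn ℚ) :=
    Subfield.mul_mem _ (Subfield.inv_mem _ hπF) hfix
  set g' : ↥(h69_F0 (M * q) (A.inertiaSubgroupIn ℚ)) := ⟨(h22_piF M q)⁻¹ * f, hgF⟩ with hg'
  have hg'0 : g' ≠ 0 := fun h =>
    (mul_ne_zero (inv_ne_zero hπ0) hf) (congrArg Subtype.val h)
  have hq0 : (q : ↥(h69_F0 (M * q) (A.inertiaSubgroupIn ℚ))) ≠ 0 := by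
    intro h
    apply hπ0
    rw [h22_piF_eq_natCast]
    have := congrArg Subtype.val h
    exact this
  have hfg : f' = (q : ↥(h69_F0 (M * q) (A.inertiaSubgroupIn ℚ))) * g' := by
    apply Subtype.ext
    show f = (q : ↥(modularFunctionFieldBar (M * q))) * ((h22_piF M q)⁻¹ * f)
    rw [← h22_piF_eq_natCast, ← mul_assoc, mul_inv_cancel₀ hπ0, one_mul]
  rw [h87_D_redF M q hqM A hA hfO.1 hfO.2, Prod.mk_eq_zero] at h0
  have hpos : ∀ c : Fin 2, 0 < h22_vq M q hqM A hA c f' := by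
    intro c
    rw [h22_vq_pos_iff_red M q hqM A hA c f' hf'0]
    fin_cases c
    · exact ⟨hfO.1, h0.1⟩
    · exact ⟨hfO.2, h0.2⟩
  have hgO : ∀ c : Fin 2, (h22_piF M q)⁻¹ * f ∈ (h60_pair M q hqM A hA c).O := by
    intro c
    have h1 := h22_vq_mul M q hqM A hA c _ g' hq0 hg'0
    rw [← hfg, h22_vq_q] at h1
    have h2 := hpos c
    exact (h22_vq_nonneg_iff M q hqM A hA c g' hg'0).1 (by omega)
  refine ⟨(h22_piF M q)⁻¹ * f, hgF, ⟨hgO 0, hgO 1⟩, ?_⟩
  rw [← mul_assoc, mul_inv_cancel₀ hπ0, one_mul]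

variable (E : Divisor Qb ↥(modularFunctionFieldBar (M * q)))
  (hE : ∀ σ ∈ A.inertiaSubgroupIn ℚ,
    arithmeticGalois (modularFunctionFieldFull (M * q)) σ • E = E)

include hE in
theorem h22_rr_span_Mq :
    Submodule.span Qb {g | g ∈ riemannRochSpace E ∧
      g ∈ (h69_F0 (M * q) (A.inertiaSubgroupIn ℚ)).toSubring} = riemannRochSpace E := by
  have h := h69_rr_span_F0 (M * q) (A.inertiaSubgroupIn ℚ) E hE
  have hset : {g | g ∈ riemannRochSpace E ∧
      g ∈ (h69_F0 (M * q) (A.inertiaSubgroupIn ℚ)).toSubring} =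
      ((h69_F0 (M * q) (A.inertiaSubgroupIn ℚ) : Set ↥(modularFunctionFieldBar (M * q))) ∩
        (riemannRochSpace E : Set ↥(modularFunctionFieldBar (M * q)))) := by
    ext g
    exact ⟨fun hg => ⟨hg.2, hg.1⟩, fun hg => ⟨hg.2, hg.1⟩⟩
  rw [hset]
  exact h

include hE in
/-- **(K0-LAT) at level `Mq`, basis form**: `L(E)` has an orthonormal basis of inertia-fixed
functions, for every inertia-invariant divisor `E`. -/
theorem h22_k0lat_family_Mq :
    ∃ e : Fin (Module.finrank Qb (riemannRochSpace E)) → ↥(modularFunctionFieldBar (M * q)),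
      (∀ i, e i ∈ riemannRochSpace E) ∧ (∀ i, e i ∈ (h87_D M q hqM A hA).O) ∧
      (∀ i, e i ∈ h69_F0 (M * q) (A.inertiaSubgroupIn ℚ)) ∧
      LinearIndependent (IsLocalRing.ResidueField A)
        (fun i => (h87_D M q hqM A hA).redF (e i)) := by
  have hq : q.Prime := Fact.out
  haveI : FiniteDimensional Qb (riemannRochSpace E) := (h75_riemann (h22_isChart_jMq M q) E).1
  exact h22_k0lat_family (h87_D M q hqM A hA) (h22_on_h87_D M q hqM A hA)
    (h22_rankOne_h87_D M q hqM A hA) (h22_K0 (A.inertiaSubgroupIn ℚ))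
    (h69_F0 (M * q) (A.inertiaSubgroupIn ℚ)).toSubring
    (fun a ha => (h69_algebraMap_mem_F0 (M * q) _ a).2 ((h22_mem_K0 _ a).1 ha))
    (q : Qb) ((h22_mem_K0 _ _).2 fun σ _ => map_natCast σ q) hA
    (by exact_mod_cast hq.ne_zero)
    (fun a ha => by
      obtain ⟨a0, h1, h2, h3⟩ := h5_res_K0 q hq A hA a ha
      exact ⟨a0, (h22_mem_K0 _ a0).2 h2, h1, h3⟩)
    (fun f hf hf0 => h22_h87_hint M q hqM A hA f hf hf0)
    (riemannRochSpace E) (h22_rr_span_Mq M q A E hE)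

include hE in
/-- **(Q-LAT) = (K0-LAT) at level `Mq`**: every element of `red (L(E) ∩ O)` is the reduction of
an inertia-fixed element of `L(E) ∩ O`. -/
theorem h22_k0lat_Mq (a : ↥(modularFunctionFieldFullC (IsLocalRing.ResidueField A) M) ×
      ↥(modularFunctionFieldFullC (IsLocalRing.ResidueField A) M))
    (ha : a ∈ h51_Rd (h87_D M q hqM A hA) E) :
    ∃ f : ↥(modularFunctionFieldBar (M * q)), f ∈ h69_F0 (M * q) (A.inertiaSubgroupIn ℚ) ∧
      f ∈ riemannRochSpace E ∧ f ∈ (h87_D M q hqM A hA).O ∧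
      (h87_D M q hqM A hA).redF f = a := by
  have hq : q.Prime := Fact.out
  haveI : FiniteDimensional Qb (riemannRochSpace E) := (h75_riemann (h22_isChart_jMq M q) E).1
  obtain ⟨f, hfE, hfO, rfl⟩ := ha
  obtain ⟨f0, h1, h2, h3, h4⟩ := h22_k0lat_lift (h87_D M q hqM A hA) (h22_on_h87_D M q hqM A hA)
    (h22_rankOne_h87_D M q hqM A hA) (h22_K0 (A.inertiaSubgroupIn ℚ))
    (h69_F0 (M * q) (A.inertiaSubgroupIn ℚ)).toSubring
    (fun a ha => (h69_algebraMap_mem_F0 (M * q) _ a).2 ((h22_mem_K0 _ a).1 ha))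
    (q : Qb) ((h22_mem_K0 _ _).2 fun σ _ => map_natCast σ q) hA
    (by exact_mod_cast hq.ne_zero)
    (fun a ha => by
      obtain ⟨a0, h1, h2, h3⟩ := h5_res_K0 q hq A hA a ha
      exact ⟨a0, (h22_mem_K0 _ a0).2 h2, h1, h3⟩)
    (fun f hf hf0 => h22_h87_hint M q hqM A hA f hf hf0)
    (riemannRochSpace E) (h22_rr_span_Mq M q A E hE) f hfE hfO
  exact ⟨f0, h2, h1, h3, h4⟩

end Mq

end Fermat.Agent.S36

end
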