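import Mathlib
import Fermat.Agent.S36.h22_K0LatMq
import Fermat.Agent.S34.h10_XModInst

/-!
# S36 / row I-Q (helper22): the level-`Mq` exports in the binder shapes of the consumers

For `D0 = (∞) + (0')` (the S34 cuspidal divisor), `F0 := (h69_F0 (M q) I).toSubring`, `π = q`:

* `h22_D0_smul` : `n • D0` is inertia-invariant;
* `h22_hrat_Mq` : `hrat` of `h81_CountHyp` — every element of `red (L(n D0) ∩ O)` is the reduction
  of an inertia-fixed element of `L(n D0) ∩ O`;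
* `h22_hdisc1_Mq`, `h22_hdisc2_Mq` : `hdisc1`, `hdisc2` of `h81_CountHyp` — an inertia-fixed
  element of `O_c` with zero reduction is divisible by `q` in `O_c`;
* `h22_hπF0_Mq` : `hπF0`.
-/

set_option autoImplicit false

noncomputable section

open AlgebraicCurve ModularCurve IntermediateField

namespace Fermat.Agent.S36

open Fermat.Agent.S34 Fermat.Agent.S18 Fermat.Agent.S37

local notation "Qb" => AlgebraicClosure ℚ

section Mq

variable (M q : ℕ) [NeZero M] [NeZero q] [Fact q.Prime] (hqM : ¬ q ∣ M)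
  (A : ValuationSubring Qb) (hA : A.LiesOverPrime q)

/-- An inertia-fixed element of `O_c` with zero reduction is divisible by `q` in `O_c`. -/
theorem h22_disc_Mq (c : Fin 2) (g : ↥(modularFunctionFieldBar (M * q)))
    (hfix : g ∈ h69_F0 (M * q) (A.inertiaSubgroupIn ℚ))
    (hO : g ∈ (h60_pair M q hqM A hA c).O) (h0 : (h60_pair M q hqM A hA c).redF g = 0) :
    (algebraMap Qb ↥(modularFunctionFieldBar (M * q)) (q : Qb))⁻¹ * g ∈
      (h60_pair M q hqM A hA c).O := by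
  by_cases hg : g = 0
  · rw [hg, mul_zero]
    exact Subring.zero_mem _
  have hπ0 := h22_piF_ne M q
  have hπF := h22_piF_mem_F0 M q (A.inertiaSubgroupIn ℚ)
  set g' : ↥(h69_F0 (M * q) (A.inertiaSubgroupIn ℚ)) := ⟨g, hfix⟩ with hg'
  have hg'0 : g' ≠ 0 := fun h => hg (congrArg Subtype.val h)
  have hhF : (h22_piF M q)⁻¹ * g ∈ h69_F0 (M * q) (A.inertiaSubgroupIn ℚ) :=
    Subfield.mul_mem _ (Subfield.inv_mem _ hπF) hfix
  set h' : ↥(h69_F0 (M * q) (A.inertiaSubgroupIn ℚ)) := ⟨(h22_piF M q)⁻¹ * g, hhF⟩ with hh'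
  have hh'0 : h' ≠ 0 := fun h =>
    (mul_ne_zero (inv_ne_zero hπ0) hg) (congrArg Subtype.val h)
  have hq0 : (q : ↥(h69_F0 (M * q) (A.inertiaSubgroupIn ℚ))) ≠ 0 := by
    intro h
    apply hπ0
    rw [h22_piF_eq_natCast]
    exact congrArg Subtype.val h
  have hgh : g' = (q : ↥(h69_F0 (M * q) (A.inertiaSubgroupIn ℚ))) * h' := by
    apply Subtype.ext
    show g = (q : ↥(modularFunctionFieldBar (M * q))) * ((h22_piF M q)⁻¹ * g)
    rw [← h22_piF_eq_natCast, ← mul_assoc, mul_inv_cancel₀ hπ0, one_mul]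
  have hpos : 0 < h22_vq M q hqM A hA c g' :=
    (h22_vq_pos_iff_red M q hqM A hA c g' hg'0).2 ⟨hO, h0⟩
  have h1 := h22_vq_mul M q hqM A hA c _ h' hq0 hh'0
  rw [← hgh, h22_vq_q] at h1
  exact (h22_vq_nonneg_iff M q hqM A hA c h' hh'0).1 (by omega)

/-- `hdisc1` of `h81_CountHyp`. -/
theorem h22_hdisc1_Mq (g : ↥(modularFunctionFieldBar (M * q)))
    (hfix : g ∈ (h69_F0 (M * q) (A.inertiaSubgroupIn ℚ)).toSubring)
    (hO : g ∈ (h60_R1 M q hqM A hA).O) (h0 : (h60_R1 M q hqM A hA).redF g = 0) :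
    (algebraMap Qb ↥(modularFunctionFieldBar (M * q)) (q : Qb))⁻¹ * g ∈
      (h60_R1 M q hqM A hA).O :=
  h22_disc_Mq M q hqM A hA 0 g hfix hO h0

/-- `hdisc2` of `h81_CountHyp`. -/
theorem h22_hdisc2_Mq (g : ↥(modularFunctionFieldBar (M * q)))
    (hfix : g ∈ (h69_F0 (M * q) (A.inertiaSubgroupIn ℚ)).toSubring)
    (hO : g ∈ (h60_R2 M q hqM A hA).O) (h0 : (h60_R2 M q hqM A hA).redF g = 0) :
    (algebraMap Qb ↥(modularFunctionFieldBar (M * q)) (q : Qb))⁻¹ * g ∈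
      (h60_R2 M q hqM A hA).O :=
  h22_disc_Mq M q hqM A hA 1 g hfix hO h0

/-- `hπF0` of `h81_CountHyp`. -/
theorem h22_hπF0_Mq (H : Subgroup (Qb ≃ₐ[ℚ] Qb)) :
    (algebraMap Qb ↥(modularFunctionFieldBar (M * q)) (q : Qb))⁻¹ ∈
      (h69_F0 (M * q) H).toSubring :=
  Subfield.inv_mem _ (h22_piF_mem_F0 M q H)

variable {Pinf P0 : Place Qb ↥(modularFunctionFieldBar (M * q))}
  (hPinf : h10_IsCusp (modularFunctionFieldBar (M * q)) Pinf)
  (hP0 : h10_IsCusp0 M q (h60_w M q hqM) P0)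

include hPinf hP0 in
/-- `n • D0` is inertia-invariant (`D0 = (∞) + (0')`). -/
theorem h22_D0_smul (n : ℕ) (σ : Qb ≃ₐ[ℚ] Qb) (hσ : σ ∈ A.inertiaSubgroupIn ℚ) :
    arithmeticGalois (modularFunctionFieldFull (M * q)) σ •
        (n • (Finsupp.single Pinf (1 : ℤ) + Finsupp.single P0 (1 : ℤ) :
          Divisor Qb ↥(modularFunctionFieldBar (M * q)))) =
      n • (Finsupp.single Pinf (1 : ℤ) + Finsupp.single P0 (1 : ℤ) :
          Divisor Qb ↥(modularFunctionFieldBar (M * q))) := by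
  rw [smul_comm, h10_D0_inertia M q hqM A hPinf hP0 _ ⟨σ, hσ, rfl⟩]

include hPinf hP0 in
/-- `hrat` of `h81_CountHyp`: (K0-LAT) for the divisors `n • D0`. -/
theorem h22_hrat_Mq (n : ℕ)
    (a : ↥(modularFunctionFieldFullC (IsLocalRing.ResidueField A) M) ×
      ↥(modularFunctionFieldFullC (IsLocalRing.ResidueField A) M))
    (ha : a ∈ h51_Rd (h87_D M q hqM A hA)
      (n • (Finsupp.single Pinf (1 : ℤ) + Finsupp.single P0 (1 : ℤ) :
          Divisor Qb ↥(modularFunctionFieldBar (M * q))))) :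
    ∃ g : ↥(modularFunctionFieldBar (M * q)),
      g ∈ (h69_F0 (M * q) (A.inertiaSubgroupIn ℚ)).toSubring ∧
      g ∈ riemannRochSpace (n • (Finsupp.single Pinf (1 : ℤ) + Finsupp.single P0 (1 : ℤ) :
          Divisor Qb ↥(modularFunctionFieldBar (M * q)))) ∧
      g ∈ (h87_D M q hqM A hA).O ∧ (h87_D M q hqM A hA).redF g = a :=
  h22_k0lat_Mq M q hqM A hA _ (fun σ hσ => h22_D0_smul M q hqM A hPinf hP0 n σ hσ) a ha

end Mq

end Fermat.Agent.S36

end
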