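import Mathlib
import Fermat.Agent.S34.h20_ChartSF
import Fermat.Agent.S18.GR_ChartPt
import Fermat.Agent.S27.h68_RRCons

/-!
# S36 row Q / (Q-PTS): the points of two curves glued along finitely many point pairs (helper65)

Generic (no modular input).  `k` algebraically closed, `Fb / k` a function field, `y` a chart
whose only pole is `Qinf`, `Γ := h20_regOff Qinf` the functions regular off `Qinf`.  `Sg` is a
finite set of places (`≠ Qinf`, `Φ Q ≠ Qinf`, `Φ` injective) and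

`T := {(a₁, a₂) ∈ Γ × Γ | ∀ Q ∈ Sg, a₁(Φ Q) = a₂(Q)}`

is the coordinate ring of two copies of the affine curve glued along the pairs `(Φ Q, Q)`
(the S34 node theorem `hunion`).  `red : B → Fb × Fb` is a ring hom with image `T`
(the reduction of the `K₀`-rational chart ring, `ker red = q B`).

* `h65_place_of_surj` : a surjective ring hom from the chart ring onto a field is the evaluation
  at a place of the chart (its kernel is the set of functions vanishing there).
* `h65_glue_pts` : **classification of the maximal ideals of `B` containing `ker red`**: every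
  such `m` is the ideal of a point `P ≠ Qinf` of the first branch which is not a node point, or
  of a point of the second branch which is not a node point, or of a node `S ∈ Sg` (then both
  descriptions hold).
-/

set_option autoImplicit false

noncomputable section

open AlgebraicCurve Module IsDedekindDomain

namespace Fermat.Agent.S36

open Fermat.Agent.S18 Fermat.Agent.S24 Fermat.Agent.S27 Fermat.Agent.S34

variable {k Fb : Type*} [Field k] [Field Fb] [Algebra k Fb] [IsAlgClosed k]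

/-- A surjective ring hom from the chart ring onto a field is the evaluation at a place of the
chart. -/
theorem h65_place_of_surj {y : Fb} (hy : h75_IsChart k y) (S : Subalgebra k Fb)
    (hS : ∀ f : Fb, f ∈ S ↔ h39_Reg k y f) {L : Type*} [Field L] (ψ : S →+* L)
    (hψ : Function.Surjective ψ) :
    ∃ P : Place k Fb, y ∈ P.toValuationSubring ∧
      ∀ f : S, ψ f = 0 ↔ ((f : Fb) = 0 ∨ 0 < P.ord (f : Fb)) := by
  have := h75_ringB_isDedekindDomain hy
  have := h75_ringB_isFractionRing hy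
  have hmem : ∀ b : h75_ringB k y, (b : Fb) ∈ S :=
    fun b => (hS _).mpr ((h64_reg_iff_mem_ringB hy _).mpr b.2)
  have hmem' : ∀ f : S, (f : Fb) ∈ h75_ringB k y :=
    fun f => (h64_reg_iff_mem_ringB hy _).mp ((hS _).mp f.2)
  let ι : h75_ringB k y →+* S :=
    { toFun := fun b => ⟨(b : Fb), hmem b⟩
      map_one' := rfl
      map_mul' := fun _ _ => rfl
      map_zero' := rfl
      map_add' := fun _ _ => rfl }
  let ψ' : h75_ringB k y →+* L := ψ.comp ι
  have hprime : (RingHom.ker ψ').IsPrime := RingHom.ker_isPrime ψ'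
  have hne : RingHom.ker ψ' ≠ ⊥ := by
    intro hbot
    let yB : h75_ringB k y := ⟨y, h75_self_mem_ringB y⟩
    have hy0 : ψ' yB ≠ 0 := by
      intro h0
      have hmemk : yB ∈ RingHom.ker ψ' := h0
      rw [hbot, Ideal.mem_bot] at hmemk
      exact hy.ne_zero (congrArg Subtype.val hmemk)
    obtain ⟨g, hg⟩ := hψ (ψ' yB)⁻¹
    let gB : h75_ringB k y := ⟨(g : Fb), hmem' g⟩
    have hgB : ψ' gB = (ψ' yB)⁻¹ := by
      show ψ (ι gB) = _
      have hιg : ι gB = g := Subtype.ext rfl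
      rw [hιg, hg]
    have h1 : yB * gB - 1 ∈ RingHom.ker ψ' := by
      rw [RingHom.mem_ker, map_sub, map_mul, map_one, hgB, mul_inv_cancel₀ hy0, sub_self]
    rw [hbot, Ideal.mem_bot] at h1
    have h2 : y * (g : Fb) = 1 := by
      have h3 : ((yB * gB - 1 : h75_ringB k y) : Fb) = 0 := congrArg Subtype.val h1
      exact sub_eq_zero.mp h3
    obtain ⟨P0, hP0⟩ := h68_exists_place_value hy (0 : k)
    rw [map_zero, sub_zero] at hP0
    have hyP : y ∈ P0.toValuationSubring := h24_mem_of_ord_nonneg P0 hP0.le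
    have hgP : (g : Fb) ∈ P0.toValuationSubring := (hS _).mp g.2 P0 hyP
    have hg0 : (g : Fb) ≠ 0 := by
      intro h
      rw [h, mul_zero] at h2
      exact zero_ne_one h2
    have h3 := P0.ord_mul hy.ne_zero hg0
    rw [h2, Place.ord_one] at h3
    have h4 := h24_ord_nonneg_of_mem P0 hgP
    omega
  let w : HeightOneSpectrum (h75_ringB k y) := ⟨RingHom.ker ψ', hprime, hne⟩
  refine ⟨Place.ofHeightOneSpectrum (K := k) (F := Fb) w, h75_self_mem_ofHeightOneSpectrum w, ?_⟩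
  intro f
  have h1 := h64_mem_prime_iff (K := k) w (⟨(f : Fb), hmem' f⟩ : h75_ringB k y)
  rw [← h1]
  show ψ f = 0 ↔ ψ (ι ⟨(f : Fb), hmem' f⟩) = 0
  have hιf : ι ⟨(f : Fb), hmem' f⟩ = f := Subtype.ext rfl
  rw [hιf]

/-- The functions regular off the pole of the chart `y` are the chart ring of `y`. -/
theorem h65_regOff_iff {y : Fb} (Qinf : Place k Fb)
    (hpole : ∀ Q : Place k Fb, y ∈ Q.toValuationSubring ↔ Q ≠ Qinf) (f : Fb) :
    f ∈ h20_regOff Qinf ↔ h39_Reg k y f := by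
  constructor
  · intro hf P hP
    exact hf P ((hpole P).mp hP)
  · intro hf P hP
    exact hf P ((hpole P).mpr hP)

/-- Abstract branch case: a surjective ring hom `πb : R → L` onto a field which does not kill
an element `u0` "supported on the branch" factors through the branch projection `pr`, and is the
evaluation at a place of the branch. -/
theorem h65_branch_point {y : Fb} (hy : h75_IsChart k y) (Qinf : Place k Fb)
    (hpole : ∀ Q : Place k Fb, y ∈ Q.toValuationSubring ↔ Q ≠ Qinf)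
    {R : Type*} [CommRing R] (pr : R →+* h20_regOff Qinf) {L : Type*} [Field L]
    (πb : R →+* L) (hπb : Function.Surjective πb) (e : h20_regOff Qinf → R) (u0 : R)
    (hu : πb u0 ≠ 0) (he : ∀ t : R, t * u0 = e (pr t))
    (he_add : ∀ f g, e (f + g) = e f + e g) (he_mul : ∀ f g, e (f * g) * u0 = e f * e g)
    (he_one : e 1 = u0) :
    ∃ P : Place k Fb, P ≠ Qinf ∧
      ∀ t : R, πb t = 0 ↔ h39_Val P ((pr t : h20_regOff Qinf) : Fb) 0 := by
  have he_zero : e 0 = 0 := by
    have h := he_add 0 0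
    rw [add_zero] at h
    have h' : e 0 + 0 = e 0 + e 0 := by rw [add_zero]; exact h
    exact (add_left_cancel h').symm
  let ψ : h20_regOff Qinf →+* L :=
    { toFun := fun f => πb (e f) * (πb u0)⁻¹
      map_one' := by rw [he_one, mul_inv_cancel₀ hu]
      map_mul' := fun f g => by
        have h := congrArg πb (he_mul f g)
        rw [map_mul, map_mul] at h
        have h' : πb (e (f * g)) = πb (e f) * πb (e g) * (πb u0)⁻¹ := by
          rw [← h, mul_assoc, mul_inv_cancel₀ hu, mul_one]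
        rw [h']
        ring
      map_zero' := by rw [he_zero, map_zero, zero_mul]
      map_add' := fun f g => by rw [he_add, map_add, add_mul] }
  have hψ : ∀ t : R, πb t = ψ (pr t) := by
    intro t
    show πb t = πb (e (pr t)) * (πb u0)⁻¹
    rw [← he t, map_mul, mul_assoc, mul_inv_cancel₀ hu, mul_one]
  have hsurj : Function.Surjective ψ := by
    intro l
    obtain ⟨t, rfl⟩ := hπb l
    exact ⟨pr t, (hψ t).symm⟩
  obtain ⟨P, hyP, hP⟩ := h65_place_of_surj hy (h20_regOff Qinf)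
    (fun f => h65_regOff_iff Qinf hpole f) ψ hsurj
  refine ⟨P, (hpole P).mp hyP, fun t => ?_⟩
  rw [hψ t, hP (pr t), h39_val_zero_iff]

/-- **(Q-PTS)**: classification of the maximal ideals of `B` over the glued curve. -/
theorem h65_glue_pts {y : Fb} (hy : h75_IsChart k y) (Qinf : Place k Fb)
    (hpole : ∀ Q : Place k Fb, y ∈ Q.toValuationSubring ↔ Q ≠ Qinf)
    (Sg : Finset (Place k Fb)) (Φ : Place k Fb → Place k Fb) (hΦ : Function.Injective Φ)
    (hSg : ∀ Q ∈ Sg, Q ≠ Qinf ∧ Φ Q ≠ Qinf)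
    {B : Type*} [CommRing B] (red : B →+* Fb × Fb)
    (hT : ∀ a : Fb × Fb, (∃ b : B, red b = a) ↔
      (a.1 ∈ h20_regOff Qinf ∧ a.2 ∈ h20_regOff Qinf) ∧
        ∀ Q ∈ Sg, ∃ c : k, h39_Val (Φ Q) a.1 c ∧ h39_Val Q a.2 c)
    (m : Ideal B) (hm : m.IsMaximal) (hker : ∀ b : B, red b = 0 → b ∈ m) :
    (∃ P : Place k Fb, P ≠ Qinf ∧ (∀ S ∈ Sg, P ≠ Φ S) ∧
        ∀ b : B, b ∈ m ↔ h39_Val P (red b).1 0) ∨
    (∃ P : Place k Fb, P ≠ Qinf ∧ P ∉ Sg ∧ ∀ b : B, b ∈ m ↔ h39_Val P (red b).2 0) ∨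
    (∃ S ∈ Sg, (∀ b : B, b ∈ m ↔ h39_Val (Φ S) (red b).1 0) ∧
      ∀ b : B, b ∈ m ↔ h39_Val S (red b).2 0) := by
  classical
  letI : Field (B ⧸ m) := Ideal.Quotient.field m
  let π : B →+* B ⧸ m := Ideal.Quotient.mk m
  have hπ : ∀ b : B, π b = 0 ↔ b ∈ m := fun b => Ideal.Quotient.eq_zero_iff_mem
  let rr : B →+* red.range := red.rangeRestrict
  have hrr : Function.Surjective rr := red.rangeRestrict_surjective
  have hle : RingHom.ker rr ≤ RingHom.ker π := by
    intro b hb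
    rw [RingHom.mem_ker] at hb ⊢
    have h0 : red b = 0 := congrArg Subtype.val hb
    exact (hπ b).mpr (hker b h0)
  let πb : red.range →+* B ⧸ m :=
    rr.liftOfRightInverse (Function.surjInv hrr) (Function.rightInverse_surjInv hrr) ⟨π, hle⟩
  have hπb : ∀ b : B, πb (rr b) = π b := fun b =>
    RingHom.liftOfRightInverse_comp_apply rr _ (Function.rightInverse_surjInv hrr) ⟨π, hle⟩ b
  have hπb_surj : Function.Surjective πb := by
    intro l
    obtain ⟨b, rfl⟩ := Ideal.Quotient.mk_surjective l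
    exact ⟨rr b, hπb b⟩
  have hmk : ∀ a : Fb × Fb, ((a.1 ∈ h20_regOff Qinf ∧ a.2 ∈ h20_regOff Qinf) ∧
      ∀ Q ∈ Sg, ∃ c : k, h39_Val (Φ Q) a.1 c ∧ h39_Val Q a.2 c) → a ∈ red.range :=
    fun a h => RingHom.mem_range.mpr ((hT a).mpr h)
  have hcond : ∀ t : red.range,
      ((t : Fb × Fb).1 ∈ h20_regOff Qinf ∧ (t : Fb × Fb).2 ∈ h20_regOff Qinf) ∧
      ∀ Q ∈ Sg, ∃ c : k, h39_Val (Φ Q) (t : Fb × Fb).1 c ∧ h39_Val Q (t : Fb × Fb).2 c :=
    fun t => (hT _).mp (RingHom.mem_range.mp t.2)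
  have hfinal : ∀ b : B, b ∈ m ↔ πb (rr b) = 0 := fun b => by rw [hπb, hπ]
  have hnode : ∀ b : B, ∀ S ∈ Sg, (h39_Val (Φ S) (red b).1 0 ↔ h39_Val S (red b).2 0) := by
    intro b S hS
    obtain ⟨c, h1, h2⟩ := ((hT (red b)).mp ⟨b, rfl⟩).2 S hS
    constructor
    · intro h
      have hc : c = 0 := h39_val_unique _ h1 h
      rw [hc] at h2
      exact h2
    · intro h
      have hc : c = 0 := h39_val_unique _ h2 h
      rw [hc] at h1
      exact h1
  have hleft : ∀ h : Fb, h ∈ h20_regOff Qinf → (∀ S ∈ Sg, h39_Val (Φ S) h 0) →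
      ((h, (0 : Fb)) : Fb × Fb) ∈ red.range := by
    intro h hh hv
    exact hmk _ ⟨⟨hh, (h20_regOff Qinf).zero_mem⟩,
      fun Q hQ => ⟨0, hv Q hQ, Or.inl (map_zero _).symm⟩⟩
  have hright : ∀ h : Fb, h ∈ h20_regOff Qinf → (∀ S ∈ Sg, h39_Val S h 0) →
      (((0 : Fb), h) : Fb × Fb) ∈ red.range := by
    intro h hh hv
    exact hmk _ ⟨⟨(h20_regOff Qinf).zero_mem, hh⟩,
      fun Q hQ => ⟨0, Or.inl (map_zero _).symm, hv Q hQ⟩⟩
  have hval_mul : ∀ (Q : Place k Fb) (_ : Q ≠ Qinf) (f h : Fb), f ∈ h20_regOff Qinf →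
      h ∈ h20_regOff Qinf → h39_Val Q h 0 → h39_Val Q (f * h) 0 := by
    intro Q hQ f h hf hh hv
    have h1 := h20_valOff_spec hy Qinf Q hQ (⟨f, hf⟩ * ⟨h, hh⟩)
    rw [map_mul, h20_valOff_eq hy Qinf Q hQ ⟨h, hh⟩ hv, mul_zero] at h1
    exact h1
  by_cases hA : ∃ (h1 : Fb) (hh : h1 ∈ h20_regOff Qinf) (hv : ∀ S ∈ Sg, h39_Val (Φ S) h1 0),
      πb ⟨(h1, 0), hleft h1 hh hv⟩ ≠ 0
  · -- a point of the first branch
    obtain ⟨h1, hh, hv, hu⟩ := hA
    let pr : red.range →+* h20_regOff Qinf :=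
      { toFun := fun t => ⟨(t : Fb × Fb).1, (hcond t).1.1⟩
        map_one' := rfl
        map_mul' := fun _ _ => rfl
        map_zero' := rfl
        map_add' := fun _ _ => rfl }
    let e : h20_regOff Qinf → red.range := fun f =>
      ⟨((f : Fb) * h1, 0), hleft _ ((h20_regOff Qinf).mul_mem f.2 hh)
        (fun S hS => hval_mul (Φ S) (hSg S hS).2 f h1 f.2 hh (hv S hS))⟩
    obtain ⟨P, hPinf, hP⟩ := h65_branch_point hy Qinf hpole pr πb hπb_surj e
      ⟨(h1, 0), hleft h1 hh hv⟩ hu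
      (fun t => Subtype.ext (Prod.ext rfl (mul_zero _)))
      (fun f g => Subtype.ext (Prod.ext (add_mul _ _ _) (add_zero _).symm))
      (fun f g => Subtype.ext (Prod.ext
        (show (f : Fb) * (g : Fb) * h1 * h1 = (f : Fb) * h1 * ((g : Fb) * h1) by ring) rfl))
      (Subtype.ext (Prod.ext (one_mul _) rfl))
    have hP' : ∀ b : B, b ∈ m ↔ h39_Val P (red b).1 0 := fun b => by
      rw [hfinal b, hP (rr b)]
      rfl
    by_cases hPS : ∃ S ∈ Sg, P = Φ S
    · obtain ⟨S, hS, rfl⟩ := hPS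
      exact Or.inr (Or.inr ⟨S, hS, hP', fun b => (hP' b).trans (hnode b S hS)⟩)
    · push Not at hPS
      exact Or.inl ⟨P, hPinf, hPS, hP'⟩
  by_cases hB : ∃ (h2 : Fb) (hh : h2 ∈ h20_regOff Qinf) (hv : ∀ S ∈ Sg, h39_Val S h2 0),
      πb ⟨(0, h2), hright h2 hh hv⟩ ≠ 0
  · -- a point of the second branch
    obtain ⟨h2, hh, hv, hu⟩ := hB
    let pr : red.range →+* h20_regOff Qinf :=
      { toFun := fun t => ⟨(t : Fb × Fb).2, (hcond t).1.2⟩
        map_one' := rfl
        map_mul' := fun _ _ => rfl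
        map_zero' := rfl
        map_add' := fun _ _ => rfl }
    let e : h20_regOff Qinf → red.range := fun f =>
      ⟨(0, (f : Fb) * h2), hright _ ((h20_regOff Qinf).mul_mem f.2 hh)
        (fun S hS => hval_mul S (hSg S hS).1 f h2 f.2 hh (hv S hS))⟩
    obtain ⟨P, hPinf, hP⟩ := h65_branch_point hy Qinf hpole pr πb hπb_surj e
      ⟨(0, h2), hright h2 hh hv⟩ hu
      (fun t => Subtype.ext (Prod.ext (mul_zero _) rfl))
      (fun f g => Subtype.ext (Prod.ext (add_zero _).symm (add_mul _ _ _)))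
      (fun f g => Subtype.ext (Prod.ext rfl
        (show (f : Fb) * (g : Fb) * h2 * h2 = (f : Fb) * h2 * ((g : Fb) * h2) by ring)))
      (Subtype.ext (Prod.ext rfl (one_mul _)))
    have hP' : ∀ b : B, b ∈ m ↔ h39_Val P (red b).2 0 := fun b => by
      rw [hfinal b, hP (rr b)]
      rfl
    by_cases hPS : P ∈ Sg
    · exact Or.inr (Or.inr ⟨P, hPS, fun b => (hP' b).trans (hnode b P hPS).symm, hP'⟩)
    · exact Or.inr (Or.inl ⟨P, hPinf, hPS, hP'⟩)
  -- a node
  push Not at hA hB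
  let pr2 : red.range →+* h20_regOff Qinf :=
    { toFun := fun t => ⟨(t : Fb × Fb).2, (hcond t).1.2⟩
      map_one' := rfl
      map_mul' := fun _ _ => rfl
      map_zero' := rfl
      map_add' := fun _ _ => rfl }
  let ν : {S // S ∈ Sg} → red.range →+* k := fun μ =>
    ((h20_valOff hy Qinf μ.1 (hSg μ.1 μ.2).1 : h20_regOff Qinf →ₐ[k] k) :
      h20_regOff Qinf →+* k).comp pr2
  have hν_spec : ∀ (μ : {S // S ∈ Sg}) (t : red.range),
      h39_Val μ.1 (t : Fb × Fb).2 (ν μ t) :=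
    fun μ t => h20_valOff_spec hy Qinf μ.1 (hSg μ.1 μ.2).1 (pr2 t)
  have hν_spec1 : ∀ (μ : {S // S ∈ Sg}) (t : red.range),
      h39_Val (Φ μ.1) (t : Fb × Fb).1 (ν μ t) := by
    intro μ t
    obtain ⟨c, h1, h2⟩ := (hcond t).2 μ.1 μ.2
    have hc : ν μ t = c := h39_val_unique _ (hν_spec μ t) h2
    rw [hc]
    exact h1
  have hC1 : ∀ t : red.range, (∀ μ : {S // S ∈ Sg}, ν μ t = 0) → πb t = 0 := by
    intro t ht
    have h1 : ∀ S ∈ Sg, h39_Val (Φ S) (t : Fb × Fb).1 0 := fun S hS => by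
      have h := hν_spec1 ⟨S, hS⟩ t
      rw [ht ⟨S, hS⟩] at h
      exact h
    have h2 : ∀ S ∈ Sg, h39_Val S (t : Fb × Fb).2 0 := fun S hS => by
      have h := hν_spec ⟨S, hS⟩ t
      rw [ht ⟨S, hS⟩] at h
      exact h
    have ht' : t = ⟨((t : Fb × Fb).1, 0), hleft _ (hcond t).1.1 h1⟩ +
        ⟨(0, (t : Fb × Fb).2), hright _ (hcond t).1.2 h2⟩ :=
      Subtype.ext (Prod.ext (add_zero _).symm (zero_add _).symm)
    have e1 : πb ⟨((t : Fb × Fb).1, 0), hleft _ (hcond t).1.1 h1⟩ = 0 :=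
      hA _ (hcond t).1.1 h1
    have e2 : πb ⟨(0, (t : Fb × Fb).2), hright _ (hcond t).1.2 h2⟩ = 0 :=
      hB _ (hcond t).1.2 h2
    calc πb t = πb (⟨((t : Fb × Fb).1, 0), hleft _ (hcond t).1.1 h1⟩ +
          ⟨(0, (t : Fb × Fb).2), hright _ (hcond t).1.2 h2⟩) := congrArg πb ht'
      _ = 0 := by rw [map_add, e1, e2, add_zero]
  have hC2 : ∀ μ0 : {S // S ∈ Sg}, ∃ e : red.range,
      ∀ μ : {S // S ∈ Sg}, ν μ e = if μ = μ0 then 1 else 0 := by
    intro μ0
    obtain ⟨f1, hf1⟩ := h20_evMap_surjective hy Qinf (fun μ : {S // S ∈ Sg} => Φ μ.1)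
      (fun μ => (hSg μ.1 μ.2).2) (fun μ μ' h => Subtype.ext (hΦ h))
      (2 * h75_genus k y + Fintype.card {S // S ∈ Sg}) le_rfl
      (fun μ => if μ = μ0 then 1 else 0)
    obtain ⟨f2, hf2⟩ := h20_evMap_surjective hy Qinf (fun μ : {S // S ∈ Sg} => μ.1)
      (fun μ => (hSg μ.1 μ.2).1) Subtype.val_injective
      (2 * h75_genus k y + Fintype.card {S // S ∈ Sg}) le_rfl
      (fun μ => if μ = μ0 then 1 else 0)
    have hmem : (((f1 : Fb), (f2 : Fb)) : Fb × Fb) ∈ red.range := by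
      refine hmk _ ⟨⟨h20_rr_Dinf_le_regOff Qinf _ f1.2, h20_rr_Dinf_le_regOff Qinf _ f2.2⟩,
        fun S hS => ⟨if (⟨S, hS⟩ : {S // S ∈ Sg}) = μ0 then 1 else 0, ?_, ?_⟩⟩
      · have h := h20_evMap_spec hy Qinf (fun μ : {S // S ∈ Sg} => Φ μ.1)
          (fun μ => (hSg μ.1 μ.2).2) _ f1 ⟨S, hS⟩
        rw [hf1] at h
        exact h
      · have h := h20_evMap_spec hy Qinf (fun μ : {S // S ∈ Sg} => μ.1)
          (fun μ => (hSg μ.1 μ.2).1) _ f2 ⟨S, hS⟩
        rw [hf2] at h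
        exact h
    refine ⟨⟨_, hmem⟩, fun μ => ?_⟩
    have h1 := hν_spec μ ⟨_, hmem⟩
    have h2 := h20_evMap_spec hy Qinf (fun μ : {S // S ∈ Sg} => μ.1)
      (fun μ => (hSg μ.1 μ.2).1) _ f2 μ
    rw [hf2] at h2
    exact h39_val_unique _ h1 h2
  choose e he using hC2
  have hsum : πb (1 - ∑ μ : {S // S ∈ Sg}, e μ) = 0 := by
    apply hC1
    intro μ
    rw [map_sub, map_one, map_sum]
    simp only [he]
    rw [Finset.sum_ite_eq]
    simp
  have hex : ∃ μ0 : {S // S ∈ Sg}, πb (e μ0) ≠ 0 := by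
    by_contra hall
    push Not at hall
    rw [map_sub, map_one, map_sum, Finset.sum_eq_zero (fun μ _ => hall μ), sub_zero] at hsum
    exact one_ne_zero hsum
  obtain ⟨μ0, hμ0⟩ := hex
  have hconst_mem : ∀ c : k,
      ((algebraMap k Fb c, algebraMap k Fb c) : Fb × Fb) ∈ red.range := fun c =>
    hmk _ ⟨⟨(h20_regOff Qinf).algebraMap_mem c, (h20_regOff Qinf).algebraMap_mem c⟩,
      fun S hS => ⟨c, Or.inl rfl, Or.inl rfl⟩⟩
  have hνconst : ∀ (μ : {S // S ∈ Sg}) (c : k), ν μ ⟨_, hconst_mem c⟩ = c := fun μ c =>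
    h39_val_unique _ (hν_spec μ ⟨_, hconst_mem c⟩) (Or.inl rfl)
  have hC5 : ∀ t : red.range, πb t = πb ⟨_, hconst_mem (ν μ0 t)⟩ := by
    intro t
    have h0 : πb ((t - ⟨_, hconst_mem (ν μ0 t)⟩) * e μ0) = 0 := by
      apply hC1
      intro μ
      rw [map_mul, map_sub, hνconst, he]
      by_cases hμ : μ = μ0
      · rw [hμ, sub_self, zero_mul]
      · rw [if_neg hμ, mul_zero]
    rw [map_mul, map_sub] at h0
    rcases mul_eq_zero.mp h0 with h | h
    · exact sub_eq_zero.mp h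
    · exact absurd h hμ0
  have hC6 : ∀ t : red.range, πb t = 0 ↔ ν μ0 t = 0 := by
    intro t
    constructor
    · intro h
      by_contra hc
      have h1 : πb ⟨_, hconst_mem (ν μ0 t)⟩ = 0 := by rw [← hC5 t]; exact h
      have h2 : (⟨_, hconst_mem (ν μ0 t)⟩ : red.range) * ⟨_, hconst_mem (ν μ0 t)⁻¹⟩ = 1 := by
        apply Subtype.ext
        apply Prod.ext
        · show algebraMap k Fb (ν μ0 t) * algebraMap k Fb (ν μ0 t)⁻¹ = 1
          rw [← map_mul, mul_inv_cancel₀ hc, map_one]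
        · show algebraMap k Fb (ν μ0 t) * algebraMap k Fb (ν μ0 t)⁻¹ = 1
          rw [← map_mul, mul_inv_cancel₀ hc, map_one]
      have h3 := congrArg πb h2
      rw [map_mul, h1, zero_mul, map_one] at h3
      exact zero_ne_one h3
    · intro h
      rw [hC5 t]
      have h0 : (⟨_, hconst_mem (ν μ0 t)⟩ : red.range) = 0 := by
        apply Subtype.ext
        show ((algebraMap k Fb (ν μ0 t), algebraMap k Fb (ν μ0 t)) : Fb × Fb) = 0
        rw [h, map_zero]
        rfl
      rw [h0, map_zero]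
  have hP2 : ∀ b : B, b ∈ m ↔ h39_Val μ0.1 (red b).2 0 := by
    intro b
    rw [hfinal b, hC6 (rr b)]
    constructor
    · intro h
      have h' := hν_spec μ0 (rr b)
      rw [h] at h'
      exact h'
    · intro h
      exact h39_val_unique _ (hν_spec μ0 (rr b)) h
  exact Or.inr (Or.inr ⟨μ0.1, μ0.2, fun b => (hP2 b).trans (hnode b μ0.1 μ0.2).symm, hP2⟩)

end Fermat.Agent.S36

end
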