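import Mathlib
import Fermat.Agent.S34.h65_ChartInst

/-!
# S36 row Q: the explicit node theorem (`hunion`) for the lattice `h87_D M q hqM A hA` (helper65)

In `Fermat.Agent.S34.h65_chart_inst` the node description of the special fibre is an internal
step (the exported `h87_ChartProp` hides the divisor `D0`, the node set and the evaluations).
Here it is exported in explicit form, in the binder shape `Sg`, `Φ`, `hSg`, `hunion` of
`h87_chartProp_of_rows`:

`h65_hunion_inst` : for the two cusps `Pinf`, `P0` of level `M q` there is a finite set `Sg` of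
places of the residue field `Fb = k(X₀(M))`, none of them the cusp, stable under `Φ ∘ Φ = id`
(`Φ` the Frobenius permutation), such that a pair `(a₁, a₂)` is the reduction of an integral
function with poles only at `Pinf`, `P0` iff `a₁`, `a₂` are regular off the cusp and
`a₁(Φ Q) = a₂(Q)` for all `Q ∈ Sg`.

Also `h65_rows_inst`: the rows (INT), (LEAD), (GRAPH) for the same data, for convenience.
-/

set_option autoImplicit false
set_option synthInstance.maxHeartbeats 400000
set_option linter.style.haveILetI false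

noncomputable section

open AlgebraicCurve ModularCurve Module
open Fermat.Agent.S18 Fermat.Agent.S24 Fermat.Agent.S27 Fermat.Agent.S37 Fermat.Agent.S34

namespace Fermat.Agent.S36

local notation "Qb" => AlgebraicClosure ℚ

/-- **The explicit node theorem** for `h87_D M q hqM A hA`. -/
theorem h65_hunion_inst (M q : ℕ) [NeZero M] [NeZero q] [Fact q.Prime] (hqM : ¬ q ∣ M)
    (hch : 5 ≤ q ∨ 2 ∣ M ∨ 3 ∣ M) (A : ValuationSubring Qb) (hA : A.LiesOverPrime q)
    [IsAlgClosed (IsLocalRing.ResidueField A)] [CharP (IsLocalRing.ResidueField A) q]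
    {Pinf P0 : Place Qb ↥(modularFunctionFieldBar (M * q))}
    (hPinf : h10_IsCusp (modularFunctionFieldBar (M * q)) Pinf)
    (hP0 : h10_IsCusp0 M q (h60_w M q hqM) P0) :
    ∃ Sg : Finset (Place (IsLocalRing.ResidueField A)
        ↥(modularFunctionFieldFullC (IsLocalRing.ResidueField A) M)),
      (∀ Q ∈ Sg, Q ≠ h11_placeInftyC (IsLocalRing.ResidueField A) M ∧
        h96_frobPerm (h84_isFrobChart_jk M q hqM A hA) Q ≠
          h11_placeInftyC (IsLocalRing.ResidueField A) M ∧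
        h96_frobPerm (h84_isFrobChart_jk M q hqM A hA)
          (h96_frobPerm (h84_isFrobChart_jk M q hqM A hA) Q) = Q) ∧
      ∀ a : ↥(modularFunctionFieldFullC (IsLocalRing.ResidueField A) M) ×
          ↥(modularFunctionFieldFullC (IsLocalRing.ResidueField A) M),
        (∃ n : ℕ, a ∈ h51_Rd (h87_D M q hqM A hA)
          (n • (Finsupp.single Pinf (1 : ℤ) + Finsupp.single P0 (1 : ℤ)))) ↔
        (∃ n : ℕ, a.1 ∈ h16_Linf (h11_placeInftyC (IsLocalRing.ResidueField A) M) n ∧
            a.2 ∈ h16_Linf (h11_placeInftyC (IsLocalRing.ResidueField A) M) n) ∧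
          ∀ Q ∈ Sg, ∃ c : IsLocalRing.ResidueField A,
            h39_Val (h96_frobPerm (h84_isFrobChart_jk M q hqM A hA) Q) a.1 c ∧
              h39_Val Q a.2 c := by
  classical
  have hD0 : 0 ≤ (Finsupp.single Pinf (1 : ℤ) + Finsupp.single P0 (1 : ℤ) :
      Divisor Qb ↥(modularFunctionFieldBar (M * q))) := h10_D0_nonneg Pinf P0
  have hD0v : ∀ v, 0 ≤ (Finsupp.single Pinf (1 : ℤ) + Finsupp.single P0 (1 : ℤ) :
      Divisor Qb ↥(modularFunctionFieldBar (M * q))) v := fun v => hD0 v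
  have hreg := h17_int_mod M q hqM A hA hch hPinf hP0
  have hB1 := h31_graph_D₁ M q hqM A hA hch hPinf hP0
  have hB2 := h31_graph_D₂ M q hqM A hA hch hPinf hP0
  have hF := h84_isFrobChart_jk M q hqM A hA
  obtain ⟨y, hy, hpole⟩ := h84_exists_yChart M q hqM A hA hch
  have hfix := h84_frobPerm_placeInftyC hF
  have hBR : ∀ a ∈ h51_RdUnion (h87_D M q hqM A hA) _ hD0v,
      ∀ Q : Place (IsLocalRing.ResidueField A)
        ↥(modularFunctionFieldFullC (IsLocalRing.ResidueField A) M),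
      Q ≠ h11_placeInftyC (IsLocalRing.ResidueField A) M →
        a.1 ∈ Q.toValuationSubring ∧ a.2 ∈ Q.toValuationSubring := by
    rintro a ⟨n, ha⟩ Q hQ'
    obtain ⟨h1, h2⟩ := hreg n a ha
    exact ⟨(h51_reg_iff_Linf _ a.1).mpr ⟨n, h1⟩ Q hQ', (h51_reg_iff_Linf _ a.2).mpr ⟨n, h2⟩ Q hQ'⟩
  obtain ⟨Sg, hSg, hmem⟩ := h98_frob_nodes_off hF hy
    (h11_placeInftyC (IsLocalRing.ResidueField A) M) hpole hfix
    (h51_RdUnion (h87_D M q hqM A hA) _ hD0v) hBR hB1 hB2
  refine ⟨Sg, hSg, fun a => ?_⟩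
  rw [← h51_mem_RdUnion (h87_D M q hqM A hA) _ hD0v a, hmem a]
  refine and_congr ?_ Iff.rfl
  constructor
  · intro hr
    obtain ⟨n1, h1⟩ := (h51_reg_iff_Linf _ a.1).mp (fun Q hQ' => (hr Q hQ').1)
    obtain ⟨n2, h2⟩ := (h51_reg_iff_Linf _ a.2).mp (fun Q hQ' => (hr Q hQ').2)
    exact ⟨max n1 n2, h16_Linf_mono _ (le_max_left n1 n2) h1,
      h16_Linf_mono _ (le_max_right n1 n2) h2⟩
  · rintro ⟨n, h1, h2⟩ Q hQ'
    exact ⟨(h51_reg_iff_Linf _ a.1).mpr ⟨n, h1⟩ Q hQ',
      (h51_reg_iff_Linf _ a.2).mpr ⟨n, h2⟩ Q hQ'⟩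

/-- The two cusps of level `M q` exist (the data `Pinf`, `P0` of `h65_hunion_inst`). -/
theorem h65_exists_cusps (M q : ℕ) [NeZero M] [NeZero q] [Fact q.Prime] (hqM : ¬ q ∣ M) :
    ∃ Pinf P0 : Place Qb ↥(modularFunctionFieldBar (M * q)),
      h10_IsCusp (modularFunctionFieldBar (M * q)) Pinf ∧
        h10_IsCusp0 M q (h60_w M q hqM) P0 := by
  obtain ⟨Pinf, hPinf⟩ := h10_exists_cusp (F := modularFunctionFieldBar (M * q))
    ⟨h59_jbar (M * q), h10_order_jbar (M * q)⟩
  obtain ⟨P0, hP0⟩ := h10_exists_cusp0 (h60_w M q hqM) (h60_w_alpha M q hqM)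
    (h60_w_beta M q hqM)
  exact ⟨Pinf, P0, hPinf, hP0⟩

end Fermat.Agent.S36

end
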