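import Mathlib

/-!
# S36 / (L1-GLOBAL): local generators by global sections (helper80)

Abstract, Mathlib-only core.  A field `F` with a family `v i` of `ℤ`-valued valuations (given on
nonzero elements), the subring `B` of elements integral for all of them, and a prime ideal `m` of
`B` (a "point").  The index `i` *passes through* `m` when every element of `B` of positive
`v i` lies in `m`.

* `h80_inLoc_iff` : the localisation `B_m` (computed inside `F`) is the set of elements which are
  integral for every valuation through `m`  (prime avoidance; no noetherian hypothesis).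
* `h80_exists_localEq` : from local equations of the single valuations through `m` one gets a
  local equation of any finitely supported "divisor" `E`.
* `h80_exists_gen` : a local equation of `E` at `m` can be replaced by a GLOBAL section
  `s ∈ N(E) = {f | E ≤ v f}` generating `N(E)` at `m`.
* `h80_exists_move` : simultaneous version at finitely many maximal ideals (CRT).
* `h80_move_shift` : after dividing by the global section, the shifted divisor is `≤ 0`, is `0`
  at all valuations through the chosen points, and its sections are integral there.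
* `h80_node_factor` : the factorisation behind the slope congruence at a regular node.
-/

set_option autoImplicit false

namespace Fermat.Agent.S36

/-- A family of `ℤ`-valued valuations (specified on nonzero elements) of a field `F`, together
with the subring `B` of the elements that are integral for all of them. -/
structure h80_ValFam (F : Type*) [Field F] (ι : Type*) where
  /-- the valuations (values at `0` are irrelevant) -/
  v : ι → F → ℤ
  map_mul : ∀ (i : ι) (f g : F), f ≠ 0 → g ≠ 0 → v i (f * g) = v i f + v i g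
  map_add : ∀ (i : ι) (f g : F), f ≠ 0 → g ≠ 0 → f + g ≠ 0 →
    min (v i f) (v i g) ≤ v i (f + g)
  finite_supp : ∀ f : F, f ≠ 0 → {i | v i f ≠ 0}.Finite
  /-- the integral elements -/
  B : Subring F
  mem_B : ∀ f : F, f ≠ 0 → (f ∈ B ↔ ∀ i, 0 ≤ v i f)

namespace h80_ValFam

variable {F : Type*} [Field F] {ι : Type*} (V : h80_ValFam F ι)

/-- The valuation `v i` passes through the point `m`. -/
def Through (m : Ideal V.B) (i : ι) : Prop :=
  ∀ f : V.B, (f : F) ≠ 0 → 0 < V.v i f → f ∈ m

/-- Membership in the localisation `B_m`, computed inside `F`. -/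
def InLoc (m : Ideal V.B) (f : F) : Prop :=
  ∃ b t : V.B, t ∉ m ∧ (t : F) * f = (b : F)

/-- Membership in `m B_m`, computed inside `F`. -/
def InMLoc (m : Ideal V.B) (f : F) : Prop :=
  ∃ b t : V.B, b ∈ m ∧ t ∉ m ∧ (t : F) * f = (b : F)

/-- The module `N(E) = {f | E ≤ v f}` of sections of the divisor `-E`. -/
def InN (E : ι → ℤ) (f : F) : Prop := f = 0 ∨ ∀ i, E i ≤ V.v i f

end h80_ValFam

variable {F : Type*} [Field F] {ι : Type*} (V : h80_ValFam F ι)

/-! ### Valuation calculus -/

theorem h80_v_one (i : ι) : V.v i 1 = 0 := by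
  have h := V.map_mul i 1 1 one_ne_zero one_ne_zero
  rw [mul_one] at h
  omega

theorem h80_v_inv (i : ι) {f : F} (hf : f ≠ 0) : V.v i f⁻¹ = - V.v i f := by
  have h := V.map_mul i f f⁻¹ hf (inv_ne_zero hf)
  rw [mul_inv_cancel₀ hf, h80_v_one] at h
  omega

theorem h80_v_div (i : ι) {f g : F} (hf : f ≠ 0) (hg : g ≠ 0) :
    V.v i (f / g) = V.v i f - V.v i g := by
  rw [div_eq_mul_inv, V.map_mul i f g⁻¹ hf (inv_ne_zero hg), h80_v_inv V i hg]
  ring

theorem h80_v_pow (i : ι) {f : F} (hf : f ≠ 0) (n : ℕ) : V.v i (f ^ n) = n * V.v i f := by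
  induction n with
  | zero => simp [h80_v_one]
  | succ n ih =>
    rw [pow_succ, V.map_mul i _ _ (pow_ne_zero n hf) hf, ih]
    push_cast
    ring

theorem h80_v_zpow (i : ι) {f : F} (hf : f ≠ 0) (n : ℤ) : V.v i (f ^ n) = n * V.v i f := by
  cases n with
  | ofNat n => simpa using h80_v_pow V i hf n
  | negSucc n =>
    rw [zpow_negSucc, h80_v_inv V i (pow_ne_zero _ hf), h80_v_pow V i hf]
    push_cast [Int.negSucc_eq]
    ring

theorem h80_v_prod (i : ι) {κ : Type*} (s : Finset κ) (g : κ → F) (hg : ∀ k ∈ s, g k ≠ 0) :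
    V.v i (∏ k ∈ s, g k) = ∑ k ∈ s, V.v i (g k) := by
  classical
  induction s using Finset.induction_on with
  | empty => simp [h80_v_one]
  | insert a s ha ih =>
    rw [Finset.prod_insert ha, Finset.sum_insert ha,
      V.map_mul i _ _ (hg a (Finset.mem_insert_self a s))
        (Finset.prod_ne_zero_iff.mpr fun k hk => hg k (Finset.mem_insert_of_mem hk)),
      ih fun k hk => hg k (Finset.mem_insert_of_mem hk)]

theorem h80_v_nonneg (i : ι) (f : V.B) (hf : (f : F) ≠ 0) : 0 ≤ V.v i f :=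
  (V.mem_B _ hf).mp f.2 i

theorem h80_ne_zero_of_not_mem {m : Ideal V.B} {t : V.B} (ht : t ∉ m) : (t : F) ≠ 0 := by
  intro h
  apply ht
  have : t = 0 := Subtype.ext h
  rw [this]
  exact m.zero_mem

theorem h80_through_eq_zero {m : Ideal V.B} {i : ι} (hi : V.Through m i) {t : V.B}
    (ht : t ∉ m) : V.v i t = 0 := by
  have h0 := h80_ne_zero_of_not_mem V ht
  have h1 := h80_v_nonneg V i t h0
  by_contra h
  exact ht (hi t h0 (lt_of_le_of_ne h1 (Ne.symm h)))

/-! ### Denominator clearing (prime avoidance) -/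

/-- If the finitely many valuations at which `f` misses the bound `E` do not pass through `m`,
some `t ∈ B ∖ m` makes `t f` satisfy the bound everywhere. -/
theorem h80_exists_clear (m : Ideal V.B) [m.IsPrime] {f : F} (hf : f ≠ 0) (E : ι → ℤ)
    (hfin : {i | V.v i f < E i}.Finite)
    (hS : ∀ i, V.v i f < E i → ¬ V.Through m i) :
    ∃ t : V.B, t ∉ m ∧ ∀ i, E i ≤ V.v i ((t : F) * f) := by
  classical
  have key : ∀ i, ∃ t : V.B, V.v i f < E i → ((t : F) ≠ 0 ∧ 0 < V.v i t ∧ t ∉ m) := by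
    intro i
    by_cases h : V.v i f < E i
    · have h' := hS i h
      unfold h80_ValFam.Through at h'
      push Not at h'
      obtain ⟨t, h1, h2, h3⟩ := h'
      exact ⟨t, fun _ => ⟨h1, h2, h3⟩⟩
    · exact ⟨1, fun h' => absurd h' h⟩
  choose τ hτ using key
  set S : Finset ι := hfin.toFinset with hSdef
  have hmemS : ∀ i, i ∈ S ↔ V.v i f < E i := fun i => by simp [hSdef]
  set t : V.B := ∏ i ∈ S, τ i ^ (E i - V.v i f).toNat with htdef
  have htm : t ∉ m := by
    rw [htdef, Ideal.IsPrime.prod_mem_iff]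
    rintro ⟨i, hi, hmem⟩
    exact (hτ i ((hmemS i).mp hi)).2.2 (Ideal.IsPrime.mem_of_pow_mem inferInstance _ hmem)
  refine ⟨t, htm, fun j => ?_⟩
  have ht0 : (t : F) ≠ 0 := h80_ne_zero_of_not_mem V htm
  have hτ0 : ∀ i ∈ S, ((τ i : F) ^ (E i - V.v i f).toNat) ≠ 0 := fun i hi =>
    pow_ne_zero _ (hτ i ((hmemS i).mp hi)).1
  have hcoe : (t : F) = ∏ i ∈ S, (τ i : F) ^ (E i - V.v i f).toNat := by
    rw [htdef]
    simp
  rw [V.map_mul j _ _ ht0 hf, hcoe, h80_v_prod V j S _ hτ0]
  have hterm : ∀ i ∈ S, 0 ≤ V.v j ((τ i : F) ^ (E i - V.v i f).toNat) := by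
    intro i hi
    rw [h80_v_pow V j (hτ i ((hmemS i).mp hi)).1]
    exact mul_nonneg (by positivity) (h80_v_nonneg V j (τ i) (hτ i ((hmemS i).mp hi)).1)
  by_cases hj : j ∈ S
  · have h1 : V.v j ((τ j : F) ^ (E j - V.v j f).toNat) ≤
        ∑ i ∈ S, V.v j ((τ i : F) ^ (E i - V.v i f).toNat) :=
      Finset.single_le_sum hterm hj
    rw [h80_v_pow V j (hτ j ((hmemS j).mp hj)).1] at h1
    have h2 := (hτ j ((hmemS j).mp hj)).2.1
    have h3 : ((E j - V.v j f).toNat : ℤ) = E j - V.v j f :=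
      Int.toNat_of_nonneg (by have := (hmemS j).mp hj; omega)
    rw [h3] at h1
    have h4 : E j - V.v j f ≤ (E j - V.v j f) * V.v j (τ j) := by
      have := (hmemS j).mp hj
      nlinarith
    linarith
  · have h1 : 0 ≤ ∑ i ∈ S, V.v j ((τ i : F) ^ (E i - V.v i f).toNat) :=
      Finset.sum_nonneg hterm
    have h2 : ¬ V.v j f < E j := fun h => hj ((hmemS j).mpr h)
    omega

/-! ### (LOC-VAL): the local ring is the intersection of the valuation rings through the point -/

theorem h80_inLoc_iff (m : Ideal V.B) [m.IsPrime] {f : F} (hf : f ≠ 0) :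
    V.InLoc m f ↔ ∀ i, V.Through m i → 0 ≤ V.v i f := by
  constructor
  · rintro ⟨b, t, ht, hbt⟩ i hi
    have ht0 := h80_ne_zero_of_not_mem V ht
    have hb0 : (b : F) ≠ 0 := by
      rw [← hbt]
      exact mul_ne_zero ht0 hf
    have h1 := h80_v_nonneg V i b hb0
    rw [← hbt, V.map_mul i _ _ ht0 hf, h80_through_eq_zero V hi ht] at h1
    omega
  · intro h
    have hfin : {i | V.v i f < (fun _ => (0 : ℤ)) i}.Finite :=
      (V.finite_supp f hf).subset fun i hi => by
        have hi' : V.v i f < 0 := hi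
        show V.v i f ≠ 0
        omega
    obtain ⟨t, ht, htf⟩ := h80_exists_clear V m hf (fun _ => 0) hfin
      (fun i hi hthr => by have := h i hthr; omega)
    have hmem : (t : F) * f ∈ V.B :=
      (V.mem_B _ (mul_ne_zero (h80_ne_zero_of_not_mem V ht) hf)).mpr htf
    exact ⟨⟨_, hmem⟩, t, ht, rfl⟩

/-- Units of the local ring: an element and its inverse are both in `B_m` iff all valuations
through `m` vanish on it. -/
theorem h80_through_eq_zero_of_unit (m : Ideal V.B) [m.IsPrime] {f : F} (hf : f ≠ 0)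
    (h1 : V.InLoc m f) (h2 : V.InLoc m f⁻¹) {i : ι} (hi : V.Through m i) : V.v i f = 0 := by
  have a := (h80_inLoc_iff V m hf).mp h1 i hi
  have b := (h80_inLoc_iff V m (inv_ne_zero hf)).mp h2 i hi
  rw [h80_v_inv V i hf] at b
  omega

/-! ### `N(E)` is a `B`-module -/

theorem h80_inN_zero (E : ι → ℤ) : V.InN E 0 := Or.inl rfl

theorem h80_inN_add (E : ι → ℤ) {f g : F} (hf : V.InN E f) (hg : V.InN E g) :
    V.InN E (f + g) := by
  by_cases h0 : f + g = 0
  · exact Or.inl h0
  by_cases hf0 : f = 0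
  · subst hf0
    simpa using hg
  by_cases hg0 : g = 0
  · subst hg0
    simpa using hf
  refine Or.inr fun i => ?_
  have h1 := V.map_add i f g hf0 hg0 h0
  have h2 := hf.resolve_left hf0 i
  have h3 := hg.resolve_left hg0 i
  exact le_trans (le_min h2 h3) h1

theorem h80_inN_mul (E : ι → ℤ) (c : V.B) {f : F} (hf : V.InN E f) :
    V.InN E ((c : F) * f) := by
  by_cases hc0 : (c : F) = 0
  · exact Or.inl (by rw [hc0, zero_mul])
  by_cases hf0 : f = 0
  · exact Or.inl (by rw [hf0, mul_zero])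
  refine Or.inr fun i => ?_
  rw [V.map_mul i _ _ hc0 hf0]
  have h1 := h80_v_nonneg V i c hc0
  have h2 := hf.resolve_left hf0 i
  omega

theorem h80_inN_sum (E : ι → ℤ) {κ : Type*} (s : Finset κ) (g : κ → F)
    (h : ∀ k ∈ s, V.InN E (g k)) : V.InN E (∑ k ∈ s, g k) := by
  classical
  induction s using Finset.induction_on with
  | empty => simpa using h80_inN_zero V E
  | insert a s ha ih =>
    rw [Finset.sum_insert ha]
    exact h80_inN_add V E (h a (Finset.mem_insert_self a s))
      (ih fun k hk => h k (Finset.mem_insert_of_mem hk))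

/-! ### The maximal ideal of the local ring -/

theorem h80_inMLoc_zero (m : Ideal V.B) [hm : m.IsPrime] : V.InMLoc m 0 :=
  ⟨0, 1, m.zero_mem, fun h => hm.ne_top ((Ideal.eq_top_iff_one m).mpr h), by simp⟩

theorem h80_inMLoc_add (m : Ideal V.B) [hm : m.IsPrime] {x y : F} (hx : V.InMLoc m x)
    (hy : V.InMLoc m y) : V.InMLoc m (x + y) := by
  obtain ⟨b, t, hb, ht, hbt⟩ := hx
  obtain ⟨b', t', hb', ht', hbt'⟩ := hy
  refine ⟨t' * b + t * b', t * t', m.add_mem (m.mul_mem_left _ hb) (m.mul_mem_left _ hb'),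
    fun h => (hm.mem_or_mem h).elim ht ht', ?_⟩
  push_cast
  rw [← hbt, ← hbt']
  ring

theorem h80_inMLoc_mul (m : Ideal V.B) {c : V.B} (hc : c ∈ m) {x : F} (hx : V.InLoc m x) :
    V.InMLoc m ((c : F) * x) := by
  obtain ⟨b, t, ht, hbt⟩ := hx
  refine ⟨c * b, t, m.mul_mem_right _ hc, ht, ?_⟩
  push_cast
  rw [← hbt]
  ring

theorem h80_inMLoc_sum (m : Ideal V.B) [m.IsPrime] {κ : Type*} (s : Finset κ) (g : κ → F)
    (h : ∀ k ∈ s, V.InMLoc m (g k)) : V.InMLoc m (∑ k ∈ s, g k) := by
  classical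
  induction s using Finset.induction_on with
  | empty => simpa using h80_inMLoc_zero V m
  | insert a s ha ih =>
    rw [Finset.sum_insert ha]
    exact h80_inMLoc_add V m (h a (Finset.mem_insert_self a s))
      (ih fun k hk => h k (Finset.mem_insert_of_mem hk))

/-- `c + z` with `c ∈ B ∖ m` and `z ∈ m B_m` is a unit of the local ring. -/
theorem h80_unit_add (m : Ideal V.B) [hm : m.IsPrime] {c : V.B} (hc : c ∉ m) {z : F}
    (hz : V.InMLoc m z) :
    (c : F) + z ≠ 0 ∧ ∀ i, V.Through m i → V.v i ((c : F) + z) = 0 := by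
  obtain ⟨b, t, hb, ht, hbt⟩ := hz
  have ht0 := h80_ne_zero_of_not_mem V ht
  have hn : t * c + b ∉ m := by
    intro h
    have h' : t * c ∈ m := by
      have := m.sub_mem h hb
      simpa using this
    exact (hm.mem_or_mem h').elim ht hc
  have hn0 := h80_ne_zero_of_not_mem V hn
  have heq : (t : F) * ((c : F) + z) = ((t * c + b : V.B) : F) := by
    push_cast
    rw [← hbt]
    ring
  have hne : (c : F) + z ≠ 0 := by
    intro h
    rw [h, mul_zero] at heq
    exact hn0 heq.symm
  refine ⟨hne, fun i hi => ?_⟩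
  have h1 := V.map_mul i _ _ ht0 hne
  rw [heq, h80_through_eq_zero V hi hn, h80_through_eq_zero V hi ht] at h1
  omega

/-! ### (GEN): a local equation can be realised by a global section -/

theorem h80_exists_gen (m : Ideal V.B) [hm : m.IsPrime] (E : ι → ℤ) (hE : {i | E i ≠ 0}.Finite)
    {e : F} (he : e ≠ 0) (hloc : ∀ i, V.Through m i → V.v i e = E i) :
    ∃ s : F, s ≠ 0 ∧ V.InN E s ∧ (∀ i, V.Through m i → V.v i s = E i) ∧
      ∀ f : F, V.InN E f → ∃ b t : V.B, t ∉ m ∧ (t : F) * f = s * (b : F) := by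
  have hfin : {i | V.v i e < E i}.Finite :=
    ((V.finite_supp e he).union hE).subset fun i hi => by
      have hi' : V.v i e < E i := hi
      by_contra hcon
      have h1 : V.v i e = 0 := not_not.mp fun h => hcon (Or.inl h)
      have h2 : E i = 0 := not_not.mp fun h => hcon (Or.inr h)
      omega
  obtain ⟨t, ht, hte⟩ := h80_exists_clear V m he E hfin
    (fun i hi hthr => by have := hloc i hthr; omega)
  have ht0 := h80_ne_zero_of_not_mem V ht
  have hs0 : (t : F) * e ≠ 0 := mul_ne_zero ht0 he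
  have hsthr : ∀ i, V.Through m i → V.v i ((t : F) * e) = E i := by
    intro i hi
    rw [V.map_mul i _ _ ht0 he, h80_through_eq_zero V hi ht, hloc i hi, zero_add]
  refine ⟨(t : F) * e, hs0, Or.inr hte, hsthr, fun f hf => ?_⟩
  by_cases hf0 : f = 0
  · exact ⟨0, 1, fun h => hm.ne_top ((Ideal.eq_top_iff_one m).mpr h), by simp [hf0]⟩
  have hq0 : f / ((t : F) * e) ≠ 0 := div_ne_zero hf0 hs0
  have hq : V.InLoc m (f / ((t : F) * e)) := by
    rw [h80_inLoc_iff V m hq0]
    intro i hi
    rw [h80_v_div V i hf0 hs0, hsthr i hi]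
    have := hf.resolve_left hf0 i
    omega
  obtain ⟨b, t', ht', hbt'⟩ := hq
  refine ⟨b, t', ht', ?_⟩
  rw [← hbt']
  field_simp

/-- (UNIT*) ⟹ local equation of an arbitrary finitely supported `E`. -/
theorem h80_exists_localEq (m : Ideal V.B) (E : ι → ℤ) (hE : {i | E i ≠ 0}.Finite)
    (hunit : ∀ i, V.Through m i → E i ≠ 0 →
      ∃ e : F, e ≠ 0 ∧ V.v i e = 1 ∧ ∀ j, V.Through m j → j ≠ i → V.v j e = 0) :
    ∃ e : F, e ≠ 0 ∧ ∀ i, V.Through m i → V.v i e = E i := by
  classical
  have key : ∀ i, ∃ e : F, e ≠ 0 ∧ (V.Through m i → E i ≠ 0 →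
      (V.v i e = 1 ∧ ∀ j, V.Through m j → j ≠ i → V.v j e = 0)) := by
    intro i
    by_cases h : V.Through m i ∧ E i ≠ 0
    · obtain ⟨e, h1, h2, h3⟩ := hunit i h.1 h.2
      exact ⟨e, h1, fun _ _ => ⟨h2, h3⟩⟩
    · exact ⟨1, one_ne_zero, fun h1 h2 => absurd ⟨h1, h2⟩ h⟩
  choose ε hε0 hε using key
  set S : Finset ι := hE.toFinset.filter (fun i => V.Through m i) with hSdef
  have hmemS : ∀ i, i ∈ S ↔ E i ≠ 0 ∧ V.Through m i := fun i => by simp [hSdef]
  refine ⟨∏ i ∈ S, ε i ^ E i, Finset.prod_ne_zero_iff.mpr fun i _ => zpow_ne_zero _ (hε0 i),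
    fun j hj => ?_⟩
  rw [h80_v_prod V j S _ fun i _ => zpow_ne_zero _ (hε0 i)]
  have hterm : ∀ i ∈ S, V.v j (ε i ^ E i) = if i = j then E j else 0 := by
    intro i hi
    rw [h80_v_zpow V j (hε0 i)]
    obtain ⟨hEi, hthr⟩ := (hmemS i).mp hi
    by_cases hij : i = j
    · subst hij
      rw [(hε i hthr hEi).1, if_pos rfl, mul_one]
    · rw [(hε i hthr hEi).2 j hj (Ne.symm hij), if_neg hij, mul_zero]
  rw [Finset.sum_congr rfl hterm, Finset.sum_ite_eq' S j]
  by_cases hjS : j ∈ S
  · rw [if_pos hjS]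
  · rw [if_neg hjS]
    by_contra hcon
    exact hjS ((hmemS j).mpr ⟨fun h => hcon (by rw [h]), hj⟩)

/-! ### (MOVE): simultaneous generator at finitely many maximal ideals -/

theorem h80_exists_move {κ : Type*} [Finite κ] [Nonempty κ] (m : κ → Ideal V.B)
    (hmax : ∀ k, (m k).IsMaximal) (hinj : Function.Injective m)
    (E : ι → ℤ) (hE : {i | E i ≠ 0}.Finite) (e : κ → F) (he : ∀ k, e k ≠ 0)
    (hloc : ∀ k i, V.Through (m k) i → V.v i (e k) = E i) :
    ∃ g : F, g ≠ 0 ∧ V.InN E g ∧ ∀ k i, V.Through (m k) i → V.v i g = E i := by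
  classical
  cases nonempty_fintype κ
  have : ∀ k, (m k).IsPrime := fun k => (hmax k).isPrime
  have hgen := fun k => h80_exists_gen V (m k) E hE (he k) (hloc k)
  choose s hs0 hsN hsthr hsgen using hgen
  have hcop : Pairwise (Function.onFun IsCoprime m) := by
    intro j k hjk
    have := hmax j
    have := hmax k
    exact Ideal.isCoprime_of_isMaximal fun h => hjk (hinj h)
  have hcrt : ∀ k, ∃ c : V.B, c - 1 ∈ m k ∧ ∀ j, j ≠ k → c ∈ m j := by
    intro k
    obtain ⟨c, hc⟩ := Ideal.exists_forall_sub_mem_ideal hcop (fun j => if j = k then (1 : V.B) else 0)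
    refine ⟨c, by simpa using hc k, fun j hj => ?_⟩
    have := hc j
    simpa [hj] using this
  choose c hc1 hc0 using hcrt
  have hck : ∀ k, c k ∉ m k := by
    intro k h
    have h1 : (1 : V.B) ∈ m k := by
      have := (m k).sub_mem h (hc1 k)
      simpa using this
    exact (hmax k).ne_top ((Ideal.eq_top_iff_one _).mpr h1)
  set g : F := ∑ k, (c k : F) * s k with hgdef
  have hgN : V.InN E g := h80_inN_sum V E _ _ fun k _ => h80_inN_mul V E (c k) (hsN k)
  have hmain : ∀ k, g / s k ≠ 0 ∧ ∀ i, V.Through (m k) i → V.v i (g / s k) = 0 := by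
    intro k
    have hsplit : g / s k = (c k : F) + ∑ j ∈ Finset.univ.erase k, (c j : F) * (s j / s k) := by
      rw [hgdef, ← Finset.add_sum_erase Finset.univ _ (Finset.mem_univ k), add_div,
        mul_div_assoc, div_self (hs0 k), mul_one, Finset.sum_div]
      congr 1
      exact Finset.sum_congr rfl fun j _ => by rw [mul_div_assoc]
    have hz : V.InMLoc (m k) (∑ j ∈ Finset.univ.erase k, (c j : F) * (s j / s k)) := by
      refine h80_inMLoc_sum V (m k) _ _ fun j hj => ?_
      have hjk : j ≠ k := (Finset.mem_erase.mp hj).1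
      refine h80_inMLoc_mul V (m k) (hc0 j k hjk.symm) ?_
      obtain ⟨b, t, ht, hbt⟩ := hsgen k (s j) (hsN j)
      refine ⟨b, t, ht, ?_⟩
      rw [← mul_div_assoc, hbt, mul_div_cancel_left₀ _ (hs0 k)]
    rw [hsplit]
    exact h80_unit_add V (m k) (hck k) hz
  obtain ⟨k0⟩ := ‹Nonempty κ›
  have hg0 : g ≠ 0 := by
    intro h
    have := (hmain k0).1
    rw [h, zero_div] at this
    exact this rfl
  refine ⟨g, hg0, hgN, fun k i hi => ?_⟩
  have h1 := (hmain k).2 i hi
  rw [h80_v_div V i hg0 (hs0 k), hsthr k i hi] at h1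
  omega

/-! ### After moving: the shifted divisor -/

/-- If `g ∈ N(E)` generates `N(E)` at `m`, the shifted divisor `E' = E - div g` is `≤ 0`,
vanishes at every valuation through `m`, `N(E') = g⁻¹ N(E)` contains `1`, and all its elements
are integral at `m`. -/
theorem h80_move_shift (m : Ideal V.B) [hm : m.IsPrime] (E : ι → ℤ) {g : F} (hg0 : g ≠ 0)
    (hgN : V.InN E g) (hthr : ∀ i, V.Through m i → V.v i g = E i) :
    (∀ i, E i - V.v i g ≤ 0) ∧ (∀ i, V.Through m i → E i - V.v i g = 0) ∧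
      V.InN (fun i => E i - V.v i g) 1 ∧
      (∀ f : F, V.InN (fun i => E i - V.v i g) f ↔ V.InN E (g * f)) ∧
      ∀ f : F, V.InN (fun i => E i - V.v i g) f → V.InLoc m f := by
  have hg := hgN.resolve_left hg0
  have hiff : ∀ f : F, V.InN (fun i => E i - V.v i g) f ↔ V.InN E (g * f) := by
    intro f
    by_cases hf0 : f = 0
    · subst hf0
      exact ⟨fun _ => Or.inl (mul_zero g), fun _ => Or.inl rfl⟩
    constructor
    · intro h
      refine Or.inr fun i => ?_
      have h1 : E i - V.v i g ≤ V.v i f := h.resolve_left hf0 i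
      rw [V.map_mul i _ _ hg0 hf0]
      omega
    · intro h
      refine Or.inr fun i => ?_
      have h1 := h.resolve_left (mul_ne_zero hg0 hf0) i
      rw [V.map_mul i _ _ hg0 hf0] at h1
      show E i - V.v i g ≤ V.v i f
      omega
  refine ⟨fun i => by have := hg i; omega, fun i hi => by have := hthr i hi; omega,
    Or.inr fun i => ?_, hiff, fun f hf => ?_⟩
  · show E i - V.v i g ≤ V.v i 1
    have := hg i
    rw [h80_v_one]
    omega
  by_cases hf0 : f = 0
  · subst hf0
    exact ⟨0, 1, fun h => hm.ne_top ((Ideal.eq_top_iff_one m).mpr h), by simp⟩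
  rw [h80_inLoc_iff V m hf0]
  intro i hi
  have h1 : E i - V.v i g ≤ V.v i f := hf.resolve_left hf0 i
  have h2 := hthr i hi
  omega

/-- (MOVE) in the form consumed by the gluing step: one global `g ∈ N(E)` such that at each of
the finitely many chosen points the shifted divisor is trivial and its sections are integral. -/
theorem h80_exists_move_shift {κ : Type*} [Finite κ] [Nonempty κ] (m : κ → Ideal V.B)
    (hmax : ∀ k, (m k).IsMaximal) (hinj : Function.Injective m)
    (E : ι → ℤ) (hE : {i | E i ≠ 0}.Finite) (e : κ → F) (he : ∀ k, e k ≠ 0)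
    (hloc : ∀ k i, V.Through (m k) i → V.v i (e k) = E i) :
    ∃ g : F, g ≠ 0 ∧ V.InN E g ∧ (∀ k i, V.Through (m k) i → V.v i g = E i) ∧
      (∀ i, E i - V.v i g ≤ 0) ∧ V.InN (fun i => E i - V.v i g) 1 ∧
      (∀ f : F, V.InN (fun i => E i - V.v i g) f ↔ V.InN E (g * f)) ∧
      ∀ k, ∀ f : F, V.InN (fun i => E i - V.v i g) f → V.InLoc (m k) f := by
  obtain ⟨g, hg0, hgN, hthr⟩ := h80_exists_move V m hmax hinj E hE e he hloc
  obtain ⟨k0⟩ := ‹Nonempty κ›
  have : ∀ k, (m k).IsPrime := fun k => (hmax k).isPrime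
  have h0 := h80_move_shift V (m k0) E hg0 hgN (hthr k0)
  exact ⟨g, hg0, hgN, hthr, h0.1, h0.2.2.1, h0.2.2.2.1,
    fun k => (h80_move_shift V (m k) E hg0 hgN (hthr k)).2.2.2.2⟩

/-! ### Units of the local ring and the node factorisation -/

theorem h80_inLoc_of_through_zero (m : Ideal V.B) [m.IsPrime] {h : F} (h0 : h ≠ 0)
    (hh : ∀ i, V.Through m i → V.v i h = 0) : V.InLoc m h ∧ V.InLoc m h⁻¹ := by
  refine ⟨(h80_inLoc_iff V m h0).mpr fun i hi => by rw [hh i hi],
    (h80_inLoc_iff V m (inv_ne_zero h0)).mpr fun i hi => ?_⟩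
  rw [h80_v_inv V i h0, hh i hi, neg_zero]

/-- Factorisation at a point through which two distinguished valuations `c1, c2` pass with local
equations `a, b`: a function whose orders at all OTHER valuations through the point are
divisible by `n` is `unit * a ^ v_c1 * b ^ v_c2 * (n-th power)`. -/
theorem h80_node_factor (m : Ideal V.B) [m.IsPrime] (c1 c2 : ι) (hc : c1 ≠ c2) {a b : F}
    (ha0 : a ≠ 0) (hb0 : b ≠ 0)
    (ha1 : V.Through m c1 → V.v c1 a = 1) (ha : ∀ i, V.Through m i → i ≠ c1 → V.v i a = 0)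
    (hb1 : V.Through m c2 → V.v c2 b = 1) (hb : ∀ i, V.Through m i → i ≠ c2 → V.v i b = 0)
    (n : ℕ)
    (hunit : ∀ i, V.Through m i → i ≠ c1 → i ≠ c2 →
      ∃ e : F, e ≠ 0 ∧ V.v i e = 1 ∧ ∀ j, V.Through m j → j ≠ i → V.v j e = 0)
    {f : F} (hf : f ≠ 0)
    (hdiv : ∀ i, V.Through m i → i ≠ c1 → i ≠ c2 → (n : ℤ) ∣ V.v i f) :
    ∃ h w : F, h ≠ 0 ∧ w ≠ 0 ∧ (∀ i, V.Through m i → V.v i h = 0) ∧
      (∀ i, V.Through m i → (i = c1 ∨ i = c2) → V.v i w = 0) ∧
      f = h * a ^ (V.v c1 f) * b ^ (V.v c2 f) * w ^ n := by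
  classical
  set E : ι → ℤ := fun i => if i = c1 ∨ i = c2 then 0 else V.v i f / n with hEdef
  have hE12 : ∀ i, (i = c1 ∨ i = c2) → E i = 0 := fun i h => by
    simp only [hEdef]
    rw [if_pos h]
  have hEelse : ∀ i, i ≠ c1 → i ≠ c2 → E i = V.v i f / n := fun i h1 h2 => by
    simp only [hEdef]
    rw [if_neg (by rintro (h | h); exacts [h1 h, h2 h])]
  have hE : {i | E i ≠ 0}.Finite :=
    (V.finite_supp f hf).subset fun i hi => by
      intro h0
      apply hi
      by_cases h12 : i = c1 ∨ i = c2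
      · exact hE12 i h12
      · rw [hEelse i (fun h => h12 (Or.inl h)) (fun h => h12 (Or.inr h)), h0, Int.zero_ediv]
  obtain ⟨w, hw0, hw⟩ := h80_exists_localEq V m E hE (fun i hi hEi =>
    hunit i hi (fun h => hEi (hE12 i (Or.inl h))) (fun h => hEi (hE12 i (Or.inr h))))
  have hab0 : a ^ (V.v c1 f) * b ^ (V.v c2 f) ≠ 0 :=
    mul_ne_zero (zpow_ne_zero _ ha0) (zpow_ne_zero _ hb0)
  have hden0 : a ^ (V.v c1 f) * b ^ (V.v c2 f) * w ^ n ≠ 0 :=
    mul_ne_zero hab0 (pow_ne_zero _ hw0)
  refine ⟨f / (a ^ (V.v c1 f) * b ^ (V.v c2 f) * w ^ n), w, div_ne_zero hf hden0, hw0,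
    fun i hi => ?_, fun i hi h12 => ?_, ?_⟩
  · rw [h80_v_div V i hf hden0, V.map_mul i _ _ hab0 (pow_ne_zero _ hw0),
      V.map_mul i _ _ (zpow_ne_zero _ ha0) (zpow_ne_zero _ hb0), h80_v_zpow V i ha0,
      h80_v_zpow V i hb0, h80_v_pow V i hw0, hw i hi]
    by_cases h1 : i = c1
    · subst h1
      rw [ha1 hi, hb i hi hc, hE12 i (Or.inl rfl)]
      ring
    · by_cases h2 : i = c2
      · subst h2
        rw [ha i hi h1, hb1 hi, hE12 i (Or.inr rfl)]
        ring
      · rw [ha i hi h1, hb i hi h2, hEelse i h1 h2, Int.mul_ediv_cancel' (hdiv i hi h1 h2)]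
        ring
  · rw [hw i hi, hE12 i h12]
  · field_simp

end Fermat.Agent.S36
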