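import Mathlib
import Fermat.Agent.S36.h80_LocGen

/-!
# S36 / row (L1-a): the consumer forms of `h80_LocGen` (helper80)

* `h80_ValFam.UnitStar` : the interface (UNIT*) at a point `m` for one valuation `i`:
  a local equation `e` with `v i e = 1` and `v j e = 0` at every other valuation through `m`.
* `h80_div_inLoc` : `f ∈ N(E)` and `e` a local equation of `E` at `m`  ⟹  `f / e ∈ B_m`.
* `h80_pow_unit` : `v u = n • E` through `m`  ⟹  `u = e ^ n * w` with `w` a unit of `B_m`.
* `h80_L1a` : the packaged row: from (UNIT*) at the support of `E`, a local equation `e` with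
  all three properties.
* `h80_mkValFam` : build the structure from the valuations alone (`B` is defined by `v ≥ 0`).
-/

set_option autoImplicit false

namespace Fermat.Agent.S36

variable {F : Type*} [Field F] {ι : Type*}

/-- (UNIT*) at the point `m` for the valuation `i`. -/
def h80_ValFam.UnitStar (V : h80_ValFam F ι) (m : Ideal V.B) (i : ι) : Prop :=
  ∃ e : F, e ≠ 0 ∧ V.v i e = 1 ∧ ∀ j, V.Through m j → j ≠ i → V.v j e = 0

variable (V : h80_ValFam F ι)

/-- Sections of `N(E)` are divisible, in the local ring at `m`, by a local equation of `E`. -/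
theorem h80_div_inLoc (m : Ideal V.B) [hm : m.IsPrime] (E : ι → ℤ) {e : F} (he : e ≠ 0)
    (hloc : ∀ i, V.Through m i → V.v i e = E i) {f : F} (hf : V.InN E f) :
    V.InLoc m (f / e) := by
  by_cases hf0 : f = 0
  · subst hf0
    exact ⟨0, 1, fun h => hm.ne_top ((Ideal.eq_top_iff_one m).mpr h), by simp⟩
  rw [h80_inLoc_iff V m (div_ne_zero hf0 he)]
  intro i hi
  rw [h80_v_div V i hf0 he, hloc i hi]
  have := hf.resolve_left hf0 i
  omega

/-- If the orders of `u` through `m` are `n • E`, then `u = e ^ n * (unit of B_m)`. -/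
theorem h80_pow_unit (m : Ideal V.B) [m.IsPrime] (E : ι → ℤ) {e : F} (he : e ≠ 0)
    (hloc : ∀ i, V.Through m i → V.v i e = E i) (n : ℕ) {u : F} (hu0 : u ≠ 0)
    (hu : ∀ i, V.Through m i → V.v i u = n * E i) :
    u / e ^ n ≠ 0 ∧ (∀ i, V.Through m i → V.v i (u / e ^ n) = 0) ∧
      V.InLoc m (u / e ^ n) ∧ V.InLoc m (u / e ^ n)⁻¹ := by
  have hw0 : u / e ^ n ≠ 0 := div_ne_zero hu0 (pow_ne_zero n he)
  have hw : ∀ i, V.Through m i → V.v i (u / e ^ n) = 0 := by
    intro i hi
    rw [h80_v_div V i hu0 (pow_ne_zero n he), h80_v_pow V i he, hu i hi, hloc i hi]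
    ring
  exact ⟨hw0, hw, h80_inLoc_of_through_zero V m hw0 hw⟩

/-- Row (L1-a): from (UNIT*) at the valuations through `m` in the support of `E`, a local
equation `e` of `E` at `m` such that every section of `N(E)` is `e * (element of B_m)`, the
function `u` with `v u = n • E` through `m` is `e ^ n * (unit of B_m)`, and `e` is a unit at the
valuations through `m` outside the support of `E`. -/
theorem h80_L1a (m : Ideal V.B) [m.IsPrime] (E : ι → ℤ) (hE : {i | E i ≠ 0}.Finite)
    (hunit : ∀ i, V.Through m i → E i ≠ 0 → V.UnitStar m i) :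
    ∃ e : F, e ≠ 0 ∧ (∀ i, V.Through m i → V.v i e = E i) ∧
      (∀ i, V.Through m i → E i = 0 → V.v i e = 0) ∧
      (∀ f : F, V.InN E f → V.InLoc m (f / e)) ∧
      ∀ (n : ℕ) (u : F), u ≠ 0 → (∀ i, V.Through m i → V.v i u = n * E i) →
        u / e ^ n ≠ 0 ∧ (∀ i, V.Through m i → V.v i (u / e ^ n) = 0) ∧
          V.InLoc m (u / e ^ n) ∧ V.InLoc m (u / e ^ n)⁻¹ ∧ u = e ^ n * (u / e ^ n) := by
  obtain ⟨e, he, hloc⟩ := h80_exists_localEq V m E hE hunit
  refine ⟨e, he, hloc, fun i hi h0 => by rw [hloc i hi, h0],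
    fun f hf => h80_div_inLoc V m E he hloc hf, fun n u hu0 hu => ?_⟩
  obtain ⟨h1, h2, h3, h4⟩ := h80_pow_unit V m E he hloc n hu0 hu
  refine ⟨h1, h2, h3, h4, ?_⟩
  field_simp

/-! ### Constructor: the structure from the valuations alone -/

/-- Build an `h80_ValFam` from a family of `ℤ`-valued valuations; `B` is the set of elements
with all valuations `≥ 0` (and `0`). -/
def h80_mkValFam (v : ι → F → ℤ)
    (map_mul : ∀ (i : ι) (f g : F), f ≠ 0 → g ≠ 0 → v i (f * g) = v i f + v i g)
    (map_add : ∀ (i : ι) (f g : F), f ≠ 0 → g ≠ 0 → f + g ≠ 0 →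
      min (v i f) (v i g) ≤ v i (f + g))
    (finite_supp : ∀ f : F, f ≠ 0 → {i | v i f ≠ 0}.Finite) : h80_ValFam F ι where
  v := v
  map_mul := map_mul
  map_add := map_add
  finite_supp := finite_supp
  B :=
    { carrier := {f | f = 0 ∨ ∀ i, 0 ≤ v i f}
      mul_mem' := by
        rintro f g (rfl | hf) (rfl | hg)
        · exact Or.inl (mul_zero _)
        · exact Or.inl (zero_mul _)
        · exact Or.inl (mul_zero _)
        · by_cases hf0 : f = 0
          · exact Or.inl (by rw [hf0, zero_mul])
          by_cases hg0 : g = 0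
          · exact Or.inl (by rw [hg0, mul_zero])
          refine Or.inr fun i => ?_
          rw [map_mul i f g hf0 hg0]
          have := hf i
          have := hg i
          omega
      one_mem' := by
        refine Or.inr fun i => ?_
        have h := map_mul i 1 1 one_ne_zero one_ne_zero
        rw [mul_one] at h
        omega
      add_mem' := by
        rintro f g hf hg
        by_cases h0 : f + g = 0
        · exact Or.inl h0
        by_cases hf0 : f = 0
        · subst hf0
          simpa using hg
        by_cases hg0 : g = 0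
        · subst hg0
          simpa using hf
        refine Or.inr fun i => ?_
        exact le_trans (le_min (hf.resolve_left hf0 i) (hg.resolve_left hg0 i))
          (map_add i f g hf0 hg0 h0)
      zero_mem' := Or.inl rfl
      neg_mem' := by
        rintro f hf
        by_cases hf0 : f = 0
        · exact Or.inl (by rw [hf0, neg_zero])
        refine Or.inr fun i => ?_
        have h1 : v i (-1 : F) = 0 := by
          have h := map_mul i (-1) (-1) (neg_ne_zero.mpr one_ne_zero) (neg_ne_zero.mpr one_ne_zero)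
          have h' := map_mul i 1 1 one_ne_zero one_ne_zero
          rw [mul_one] at h'
          rw [neg_one_mul, neg_neg] at h
          omega
        have h2 := map_mul i (-1) f (neg_ne_zero.mpr one_ne_zero) hf0
        rw [neg_one_mul] at h2
        rw [h2, h1, zero_add]
        exact hf.resolve_left hf0 i }
  mem_B := fun f hf => ⟨fun h => h.resolve_left hf, fun h => Or.inr h⟩

@[simp]
theorem h80_mkValFam_v (v : ι → F → ℤ) (h1 h2 h3) : (h80_mkValFam v h1 h2 h3).v = v := rfl

theorem h80_mem_mkValFam_B (v : ι → F → ℤ) (h1 h2 h3) (f : F) :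
    f ∈ (h80_mkValFam v h1 h2 h3).B ↔ f = 0 ∨ ∀ i, 0 ≤ v i f := Iff.rfl

end Fermat.Agent.S36
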