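import Mathlib
import Fermat.Agent.S36.h80_LocUnit

/-!
# S36 / producer row (VF), generic part: the valuation family of a chart (helper80)

Input: a field `F` (the `K₀`-rational function field), finitely many `ℤ`-valued valuations
`w c` (`c : κ`, the vertical ones) and a family `h p` (`p : P`, the places of the chart,
restricted to `F`) of `ℤ`-valued valuations with finite support.

Two places may induce the SAME valuation of `F` (conjugate places).  The interface (UNIT*)
quantifies over indices `j ≠ i`, so such repetitions must not occur in the index type: the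
horizontal index type is the set `h80_HorIdx h` of the valuation *functions* `h p`.

* `h80_chartFam` : the family, `ι = κ ⊕ h80_HorIdx h`, `B = {f | all valuations ≥ 0}`.
* `h80_mem_chartFam_B` : the chart ring.
* `h80_chartFam_scale` : a function with non-negative horizontal valuations becomes an element
  of the chart ring after multiplication by a power of `q₀` (`q₀` a horizontal unit of positive
  vertical valuations), without changing its horizontal valuations.
* `h80_chartFam_hq`, `h80_chartFam_hunr`, `h80_chartFam_hsep` : the three horizontal inputs of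
  `h89_unitStar`, from their forms in `F`.
* `h80_chartFam_exists_vert` : a point containing `q₀` lies on a vertical component.
* `h80_locMap` : `Localization.AtPrime m → F` for any valuation family, injective, with image
  `{f | V.InLoc m f}`.
-/

set_option autoImplicit false
set_option linter.unusedSectionVars false

namespace Fermat.Agent.S36

variable {F : Type*} [Field F] {κ P : Type*}

/-- The index type of the horizontal valuations: the set of the valuation functions `h p`. -/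
def h80_HorIdx (h : P → F → ℤ) : Type _ := {w : F → ℤ // ∃ p, w = h p}

/-- The index of `p`. -/
def h80_horMk (h : P → F → ℤ) (p : P) : h80_HorIdx h := ⟨h p, p, rfl⟩

theorem h80_horMk_val (h : P → F → ℤ) (p : P) : (h80_horMk h p).1 = h p := rfl

theorem h80_horMk_surj (h : P → F → ℤ) (i : h80_HorIdx h) : ∃ p, i = h80_horMk h p := by
  obtain ⟨w, p, rfl⟩ := i
  exact ⟨p, rfl⟩

theorem h80_horMk_eq_iff (h : P → F → ℤ) (p p' : P) :
    h80_horMk h p = h80_horMk h p' ↔ h p = h p' := by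
  constructor
  · intro e
    exact congrArg Subtype.val e
  · intro e
    exact Subtype.ext e

/-- The valuations of the chart family. -/
def h80_chartV (w : κ → F → ℤ) (h : P → F → ℤ) : κ ⊕ h80_HorIdx h → F → ℤ
  | Sum.inl c => w c
  | Sum.inr i => i.1

/-- An index is horizontal. -/
def h80_IsHor {h : P → F → ℤ} (i : κ ⊕ h80_HorIdx h) : Prop := ∃ j, i = Sum.inr j

theorem h80_isHor_inr {h : P → F → ℤ} (j : h80_HorIdx h) :
    h80_IsHor (Sum.inr j : κ ⊕ h80_HorIdx h) := ⟨j, rfl⟩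

theorem h80_not_isHor_inl {h : P → F → ℤ} (c : κ) :
    ¬ h80_IsHor (Sum.inl c : κ ⊕ h80_HorIdx h) := by
  rintro ⟨j, hj⟩
  cases hj

theorem h80_not_isHor_iff {h : P → F → ℤ} (i : κ ⊕ h80_HorIdx h) :
    ¬ h80_IsHor i ↔ ∃ c, i = Sum.inl c := by
  rcases i with c | j
  · exact ⟨fun _ => ⟨c, rfl⟩, fun _ => h80_not_isHor_inl c⟩
  · refine ⟨fun hn => absurd (h80_isHor_inr j) hn, ?_⟩
    rintro ⟨c, hc⟩
    cases hc

theorem h80_chartV_finite [Finite κ] (w : κ → F → ℤ) (h : P → F → ℤ)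
    (hfin : ∀ f : F, f ≠ 0 → {p | h p f ≠ 0}.Finite) (f : F) (hf : f ≠ 0) :
    {i | h80_chartV w h i f ≠ 0}.Finite := by
  have h1 : (Set.range (Sum.inl : κ → κ ⊕ h80_HorIdx h)).Finite := Set.finite_range _
  have h2 : ((fun p => (Sum.inr (h80_horMk h p) : κ ⊕ h80_HorIdx h)) '' {p | h p f ≠ 0}).Finite :=
    (hfin f hf).image _
  refine (h1.union h2).subset ?_
  rintro (c | i) hi
  · exact Or.inl ⟨c, rfl⟩
  · obtain ⟨p, rfl⟩ := h80_horMk_surj h i
    exact Or.inr ⟨p, hi, rfl⟩

section Fam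

variable [Finite κ] (w : κ → F → ℤ) (h : P → F → ℤ)
  (hw_mul : ∀ c (f g : F), f ≠ 0 → g ≠ 0 → w c (f * g) = w c f + w c g)
  (hw_add : ∀ c (f g : F), f ≠ 0 → g ≠ 0 → f + g ≠ 0 → min (w c f) (w c g) ≤ w c (f + g))
  (hh_mul : ∀ p (f g : F), f ≠ 0 → g ≠ 0 → h p (f * g) = h p f + h p g)
  (hh_add : ∀ p (f g : F), f ≠ 0 → g ≠ 0 → f + g ≠ 0 → min (h p f) (h p g) ≤ h p (f + g))
  (hh_fin : ∀ f : F, f ≠ 0 → {p | h p f ≠ 0}.Finite)

/-- **The valuation family of a chart**: vertical valuations `w c`, horizontal valuations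
`h p` (indexed by the valuation functions themselves), `B` = the elements with all valuations
`≥ 0`. -/
def h80_chartFam : h80_ValFam F (κ ⊕ h80_HorIdx h) :=
  h80_mkValFam (h80_chartV w h)
    (by
      rintro (c | ⟨_, p, rfl⟩) f g hf hg
      · exact hw_mul c f g hf hg
      · exact hh_mul p f g hf hg)
    (by
      rintro (c | ⟨_, p, rfl⟩) f g hf hg hfg
      · exact hw_add c f g hf hg hfg
      · exact hh_add p f g hf hg hfg)
    (h80_chartV_finite w h hh_fin)

local notation "VV" => h80_chartFam w h hw_mul hw_add hh_mul hh_add hh_fin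

theorem h80_chartFam_v_inl (c : κ) (f : F) : (VV).v (Sum.inl c) f = w c f := rfl

theorem h80_chartFam_v_inr (i : h80_HorIdx h) (f : F) : (VV).v (Sum.inr i) f = i.1 f := rfl

theorem h80_chartFam_v_mk (p : P) (f : F) : (VV).v (Sum.inr (h80_horMk h p)) f = h p f := rfl

/-- The chart ring. -/
theorem h80_mem_chartFam_B (f : F) :
    f ∈ (VV).B ↔ f = 0 ∨ ((∀ c, 0 ≤ w c f) ∧ ∀ p, 0 ≤ h p f) := by
  constructor
  · rintro (h0 | hf)
    · exact Or.inl h0
    · exact Or.inr ⟨fun c => hf (Sum.inl c), fun p => hf (Sum.inr (h80_horMk h p))⟩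
  · rintro (h0 | ⟨h1, h2⟩)
    · exact Or.inl h0
    · refine Or.inr ?_
      rintro (c | i)
      · exact h1 c
      · obtain ⟨p, rfl⟩ := h80_horMk_surj h i
        exact h2 p

/-- Scaling into the chart ring: if `g` has non-negative horizontal valuations, then `q₀ ^ n * g`
lies in the chart ring for a suitable `n`, with the same horizontal valuations. -/
theorem h80_chartFam_scale {q0 : F} (hq0 : q0 ≠ 0) (hqh : ∀ p, h p q0 = 0)
    (hqw : ∀ c, 0 < w c q0) {g : F} (hg : g ≠ 0) (hgh : ∀ p, 0 ≤ h p g) :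
    ∃ n : ℕ, q0 ^ n * g ∈ (VV).B ∧ q0 ^ n * g ≠ 0 ∧ ∀ p, h p (q0 ^ n * g) = h p g := by
  obtain ⟨N, hN⟩ := (Set.finite_range fun c => (-(w c g)).toNat).bddAbove
  have hN' : ∀ c, (-(w c g)).toNat ≤ N := fun c => hN ⟨c, rfl⟩
  have hne : q0 ^ N * g ≠ 0 := mul_ne_zero (pow_ne_zero N hq0) hg
  have hv : ∀ i, (VV).v i (q0 ^ N * g) = N * (VV).v i q0 + (VV).v i g := by
    intro i
    rw [(VV).map_mul i _ _ (pow_ne_zero N hq0) hg, h80_v_pow (VV) i hq0]
  have hhor : ∀ p, h p (q0 ^ N * g) = h p g := by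
    intro p
    have h1 := hv (Sum.inr (h80_horMk h p))
    rw [h80_chartFam_v_mk, h80_chartFam_v_mk, h80_chartFam_v_mk, hqh p] at h1
    rw [h1]
    ring
  refine ⟨N, ?_, hne, hhor⟩
  rw [h80_mem_chartFam_B]
  refine Or.inr ⟨fun c => ?_, fun p => ?_⟩
  · have h1 := hv (Sum.inl c)
    rw [h80_chartFam_v_inl, h80_chartFam_v_inl, h80_chartFam_v_inl] at h1
    rw [h1]
    have h2 := hqw c
    have h3 := hN' c
    have h4 : (N : ℤ) ≤ N * w c q0 := by nlinarith
    omega
  · rw [hhor p]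
    exact hgh p

/-- (hq): `q₀` is a unit at the horizontal valuations. -/
theorem h80_chartFam_hq {q0 : F} (hqh : ∀ p, h p q0 = 0) (i : κ ⊕ h80_HorIdx h)
    (hi : h80_IsHor i) : (VV).v i q0 = 0 := by
  obtain ⟨j, rfl⟩ := hi
  obtain ⟨p, rfl⟩ := h80_horMk_surj h j
  exact hqh p

/-- (hunr): a function of the chart ring of valuation `1` at a horizontal valuation, from a
function of `F` which is regular on the chart. -/
theorem h80_chartFam_hunr {q0 : F} (hq0 : q0 ≠ 0) (hqh : ∀ p, h p q0 = 0)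
    (hqw : ∀ c, 0 < w c q0)
    (hunr : ∀ p, ∃ t : F, t ≠ 0 ∧ (∀ p', 0 ≤ h p' t) ∧ h p t = 1)
    (i : κ ⊕ h80_HorIdx h) (hi : h80_IsHor i) :
    ∃ f : (VV).B, (f : F) ≠ 0 ∧ (VV).v i f = 1 := by
  obtain ⟨j, rfl⟩ := hi
  obtain ⟨p, rfl⟩ := h80_horMk_surj h j
  obtain ⟨t, ht0, htreg, htp⟩ := hunr p
  obtain ⟨n, hmem, hne, hhor⟩ :=
    h80_chartFam_scale w h hw_mul hw_add hh_mul hh_add hh_fin hq0 hqh hqw ht0 htreg
  refine ⟨⟨_, hmem⟩, hne, ?_⟩
  show h p (q0 ^ n * t) = 1
  rw [hhor p, htp]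

/-- (hsep): two different horizontal valuations are separated by a function of the chart ring,
from a separating function of `F` which is regular on the chart. -/
theorem h80_chartFam_hsep {q0 : F} (hq0 : q0 ≠ 0) (hqh : ∀ p, h p q0 = 0)
    (hqw : ∀ c, 0 < w c q0)
    (hsep : ∀ p p', h p ≠ h p' →
      ∃ g : F, g ≠ 0 ∧ (∀ p'', 0 ≤ h p'' g) ∧ 0 < h p g ∧ h p' g = 0)
    (i j : κ ⊕ h80_HorIdx h) (hi : h80_IsHor i) (hj : h80_IsHor j) (hij : i ≠ j) :
    ∃ f : (VV).B, (f : F) ≠ 0 ∧ 0 < (VV).v i f ∧ (VV).v j f = 0 := by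
  obtain ⟨i', rfl⟩ := hi
  obtain ⟨j', rfl⟩ := hj
  obtain ⟨p, rfl⟩ := h80_horMk_surj h i'
  obtain ⟨p', rfl⟩ := h80_horMk_surj h j'
  have hpp : h p ≠ h p' := by
    intro e
    apply hij
    rw [(h80_horMk_eq_iff h p p').2 e]
  obtain ⟨g, hg0, hgreg, hgp, hgp'⟩ := hsep p p' hpp
  obtain ⟨n, hmem, hne, hhor⟩ :=
    h80_chartFam_scale w h hw_mul hw_add hh_mul hh_add hh_fin hq0 hqh hqw hg0 hgreg
  refine ⟨⟨_, hmem⟩, hne, ?_, ?_⟩
  · show 0 < h p (q0 ^ n * g)
    rw [hhor p]
    exact hgp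
  · show h p' (q0 ^ n * g) = 0
    rw [hhor p', hgp']

/-- A vertical valuation through `m` forces `q₀ ∈ m`. -/
theorem h80_chartFam_q_mem {q0 : F} (hq0 : q0 ≠ 0) (hqB : q0 ∈ (VV).B)
    (hqw : ∀ c, 0 < w c q0) (m : Ideal (VV).B) (c : κ) (hc : (VV).Through m (Sum.inl c)) :
    (⟨q0, hqB⟩ : (VV).B) ∈ m :=
  hc ⟨q0, hqB⟩ hq0 (hqw c)

/-- A point containing `q₀` lies on a vertical component: some vertical valuation passes
through `m`. -/
theorem h80_chartFam_exists_vert [Nonempty κ] {q0 : F} (hq0 : q0 ≠ 0) (hqh : ∀ p, h p q0 = 0)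
    (hqB : q0 ∈ (VV).B) (m : Ideal (VV).B) [hm : m.IsPrime]
    (hqm : (⟨q0, hqB⟩ : (VV).B) ∈ m) : ∃ c : κ, (VV).Through m (Sum.inl c) := by
  classical
  by_contra hcon
  push Not at hcon
  have hex : ∀ c : κ, ∃ f : (VV).B, (f : F) ≠ 0 ∧ 0 < w c f ∧ f ∉ m := by
    intro c
    have := hcon c
    unfold h80_ValFam.Through at this
    push Not at this
    obtain ⟨f, hf0, hfpos, hfm⟩ := this
    exact ⟨f, hf0, hfpos, hfm⟩
  choose f hf0 hfpos hfm using hex
  have := Fintype.ofFinite κ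
  -- the product of the `f c`
  let g : (VV).B := ∏ c, f c
  have hgm : g ∉ m := by
    intro hg
    obtain ⟨c, _, hc⟩ := (Ideal.IsPrime.prod_mem_iff (hp := hm)).1 hg
    exact hfm c hc
  have hg0 : (g : F) ≠ 0 := h80_ne_zero_of_not_mem (VV) hgm
  have hgnn : ∀ i, 0 ≤ (VV).v i (g : F) := fun i => h80_v_nonneg (VV) i g hg0
  have hgpos : ∀ c, 0 < w c (g : F) := by
    intro c
    have hcoe : (g : F) = ∏ c', ((f c' : (VV).B) : F) := by
      simp [g]
    have h1 : (VV).v (Sum.inl c) (g : F) = ∑ c', (VV).v (Sum.inl c) ((f c' : (VV).B) : F) := by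
      rw [hcoe]
      exact h80_v_prod (VV) (Sum.inl c) Finset.univ _ (fun k _ => hf0 k)
    have h2 : (VV).v (Sum.inl c) ((f c : (VV).B) : F)
        ≤ ∑ c', (VV).v (Sum.inl c) ((f c' : (VV).B) : F) :=
      Finset.single_le_sum (f := fun c' => (VV).v (Sum.inl c) ((f c' : (VV).B) : F))
        (fun k _ => h80_v_nonneg (VV) (Sum.inl c) (f k) (hf0 k)) (Finset.mem_univ c)
    have h3 : 0 < (VV).v (Sum.inl c) ((f c : (VV).B) : F) := hfpos c
    have h4 : (VV).v (Sum.inl c) (g : F) = w c (g : F) := rfl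
    omega
  -- `g ^ N / q₀` lies in the chart ring for large `N`
  obtain ⟨N, hN⟩ := (Set.finite_range fun c => (w c q0).toNat).bddAbove
  have hN' : ∀ c, (w c q0).toNat ≤ N := fun c => hN ⟨c, rfl⟩
  have hquot0 : (g : F) ^ N / q0 ≠ 0 := div_ne_zero (pow_ne_zero N hg0) hq0
  have hquot : (g : F) ^ N / q0 ∈ (VV).B := by
    rw [(VV).mem_B _ hquot0]
    intro i
    rw [h80_v_div (VV) i (pow_ne_zero N hg0) hq0, h80_v_pow (VV) i hg0]
    rcases i with c | j
    · have h1 := hgpos c
      have h2 := hN' c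
      have h3 : (VV).v (Sum.inl c) (g : F) = w c (g : F) := rfl
      have h4 : (VV).v (Sum.inl c) q0 = w c q0 := rfl
      rw [h3, h4]
      have h5 : (N : ℤ) ≤ N * w c (g : F) := by nlinarith
      omega
    · obtain ⟨p, rfl⟩ := h80_horMk_surj h j
      have h1 : (VV).v (Sum.inr (h80_horMk h p)) q0 = 0 := hqh p
      have h2 := hgnn (Sum.inr (h80_horMk h p))
      rw [h1]
      have h3 : 0 ≤ (N : ℤ) * (VV).v (Sum.inr (h80_horMk h p)) (g : F) := by positivity
      omega
  have hgN : g ^ N = ⟨q0, hqB⟩ * ⟨(g : F) ^ N / q0, hquot⟩ := by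
    apply Subtype.ext
    push_cast
    field_simp
  have hmem : g ^ N ∈ m := by
    rw [hgN]
    exact m.mul_mem_right _ hqm
  exact hgm (hm.mem_of_pow_mem N hmem)

end Fam

/-! ### The localisation at a point as an abstract ring -/

section Loc

variable {ι : Type*} (V : h80_ValFam F ι) (m : Ideal V.B) [hm : m.IsPrime]

/-- The canonical map `B_m → F`. -/
noncomputable def h80_locMap : Localization.AtPrime m →+* F :=
  IsLocalization.lift (M := m.primeCompl) (g := V.B.subtype)
    (fun t => IsUnit.mk0 _ (h80_ne_zero_of_not_mem V t.2))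

theorem h80_locMap_algebraMap (b : V.B) :
    h80_locMap V m (algebraMap V.B (Localization.AtPrime m) b) = (b : F) :=
  IsLocalization.lift_eq _ b

theorem h80_locMap_mk'_eq_iff (b : V.B) (t : m.primeCompl) (f : F) :
    h80_locMap V m (IsLocalization.mk' (Localization.AtPrime m) b t) = f ↔
      (b : F) = (t : V.B) * f :=
  IsLocalization.lift_mk'_spec _ _ _ _

theorem h80_locMap_injective : Function.Injective (h80_locMap V m) := by
  unfold h80_locMap
  rw [IsLocalization.lift_injective_iff]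
  intro x y
  have hinj : Function.Injective (algebraMap V.B (Localization.AtPrime m)) :=
    IsLocalization.injective (Localization.AtPrime m) m.primeCompl_le_nonZeroDivisors
  constructor
  · intro e
    rw [hinj e]
  · intro e
    have : x = y := Subtype.ext e
    rw [this]

/-- The image of `B_m → F` is `{f | V.InLoc m f}`. -/
theorem h80_inLoc_iff_locMap (f : F) :
    V.InLoc m f ↔ ∃ b : Localization.AtPrime m, h80_locMap V m b = f := by
  constructor
  · rintro ⟨b, t, ht, hbt⟩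
    refine ⟨IsLocalization.mk' (Localization.AtPrime m) b (⟨t, ht⟩ : m.primeCompl), ?_⟩
    rw [h80_locMap_mk'_eq_iff]
    exact hbt.symm
  · rintro ⟨b, rfl⟩
    obtain ⟨⟨x, y⟩, rfl⟩ := IsLocalization.mk'_surjective m.primeCompl b
    refine ⟨x, y, y.2, ?_⟩
    exact ((h80_locMap_mk'_eq_iff V m x y _).1 rfl).symm

end Loc

end Fermat.Agent.S36
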