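import Mathlib
import Fermat.Agent.S36.h80_ChartFam
import Fermat.Agent.S24.h35_PlaceBasic

/-!
# S36 / producer row (VF): the chart family on a subfield of a function field (helper80)

`F / K` a function field with its places, `F₀` a field with an embedding `emb : F₀ →+* F`
(the `K₀`-rational functions: a `Subfield`, an `IntermediateField`, ...), `U` a set of places of
`F / K` (the chart), `w c` finitely many `ℤ`-valued valuations of `F₀` (the vertical ones).

* `h80_placeOrd emb U` : the horizontal valuations `f ↦ ord_P (emb f)`, `P ∈ U`;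
* `h80_placeFam` : the valuation family `h80_chartFam w (h80_placeOrd emb U)` on `F₀`;
* `h80_mem_placeFam_B` : its chart ring
  `{f | (∀ c, 0 ≤ w c f) ∧ ∀ P ∈ U, 0 ≤ P.ord (emb f)}`.
-/

set_option autoImplicit false
set_option linter.unusedSectionVars false

namespace Fermat.Agent.S36

open AlgebraicCurve Fermat.Agent.S24

variable {K F : Type*} [Field K] [Field F] [Algebra K F]
variable {F0 : Type*} [Field F0] (emb : F0 →+* F) (U : Set (Place K F))

/-- The horizontal valuations of `F₀`: the places of `U`, restricted along `emb`. -/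
noncomputable def h80_placeOrd : U → F0 → ℤ := fun P f => (P : Place K F).ord (emb f)

theorem h80_placeOrd_apply (P : U) (f : F0) :
    h80_placeOrd emb U P f = (P : Place K F).ord (emb f) := rfl

theorem h80_placeOrd_mul (P : U) (f g : F0) (hf : f ≠ 0) (hg : g ≠ 0) :
    h80_placeOrd emb U P (f * g) = h80_placeOrd emb U P f + h80_placeOrd emb U P g := by
  unfold h80_placeOrd
  rw [map_mul]
  exact (P : Place K F).ord_mul ((map_ne_zero emb).2 hf) ((map_ne_zero emb).2 hg)

theorem h80_placeOrd_add (P : U) (f g : F0) (hf : f ≠ 0) (hg : g ≠ 0) (hfg : f + g ≠ 0) :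
    min (h80_placeOrd emb U P f) (h80_placeOrd emb U P g) ≤ h80_placeOrd emb U P (f + g) := by
  unfold h80_placeOrd
  rw [map_add]
  refine h35_ord_add (P : Place K F) ((map_ne_zero emb).2 hf) ((map_ne_zero emb).2 hg) ?_
  rw [← map_add]
  exact (map_ne_zero emb).2 hfg

theorem h80_placeOrd_fin (hfin : ∀ f : F, f ≠ 0 → {P : Place K F | P ∈ U ∧ P.ord f ≠ 0}.Finite)
    (f : F0) (hf : f ≠ 0) : {P : U | h80_placeOrd emb U P f ≠ 0}.Finite := by
  have h1 := hfin (emb f) ((map_ne_zero emb).2 hf)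
  have h2 : {P : U | h80_placeOrd emb U P f ≠ 0} ⊆
      (Subtype.val : U → Place K F) ⁻¹' {P : Place K F | P ∈ U ∧ P.ord (emb f) ≠ 0} := by
    intro P hP
    exact ⟨P.2, hP⟩
  exact (h1.preimage Subtype.val_injective.injOn).subset h2

section Fam

variable {κ : Type*} [Finite κ] (w : κ → F0 → ℤ)
  (hw_mul : ∀ c (f g : F0), f ≠ 0 → g ≠ 0 → w c (f * g) = w c f + w c g)
  (hw_add : ∀ c (f g : F0), f ≠ 0 → g ≠ 0 → f + g ≠ 0 → min (w c f) (w c g) ≤ w c (f + g))
  (hfin : ∀ f : F, f ≠ 0 → {P : Place K F | P ∈ U ∧ P.ord f ≠ 0}.Finite)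

/-- **The valuation family of the chart `U` on `F₀`**: vertical valuations `w c`, horizontal
valuations `ord_P ∘ emb` (`P ∈ U`). -/
noncomputable def h80_placeFam : h80_ValFam F0 (κ ⊕ h80_HorIdx (h80_placeOrd emb U)) :=
  h80_chartFam w (h80_placeOrd emb U) hw_mul hw_add (h80_placeOrd_mul emb U)
    (h80_placeOrd_add emb U) (h80_placeOrd_fin emb U hfin)

local notation "VP" => h80_placeFam emb U w hw_mul hw_add hfin

theorem h80_placeFam_v_inl (c : κ) (f : F0) : (VP).v (Sum.inl c) f = w c f := rfl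

theorem h80_placeFam_v_mk (P : Place K F) (hP : P ∈ U) (f : F0) :
    (VP).v (Sum.inr (h80_horMk (h80_placeOrd emb U) ⟨P, hP⟩)) f = P.ord (emb f) := rfl

/-- Every horizontal index is the restriction of a place of `U`. -/
theorem h80_placeFam_hor (i : κ ⊕ h80_HorIdx (h80_placeOrd emb U)) (hi : h80_IsHor i) :
    ∃ (P : Place K F) (hP : P ∈ U), i = Sum.inr (h80_horMk (h80_placeOrd emb U) ⟨P, hP⟩) := by
  obtain ⟨j, rfl⟩ := hi
  obtain ⟨⟨P, hP⟩, rfl⟩ := h80_horMk_surj _ j
  exact ⟨P, hP, rfl⟩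

/-- The chart ring. -/
theorem h80_mem_placeFam_B (f : F0) :
    f ∈ (VP).B ↔ f = 0 ∨ ((∀ c, 0 ≤ w c f) ∧ ∀ P ∈ U, 0 ≤ (P : Place K F).ord (emb f)) := by
  unfold h80_placeFam
  rw [h80_mem_chartFam_B]
  constructor
  · rintro (h0 | ⟨h1, h2⟩)
    · exact Or.inl h0
    · exact Or.inr ⟨h1, fun P hP => h2 ⟨P, hP⟩⟩
  · rintro (h0 | ⟨h1, h2⟩)
    · exact Or.inl h0
    · exact Or.inr ⟨h1, fun P => h2 P.1 P.2⟩

end Fam

end Fermat.Agent.S36
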