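import Mathlib
import Fermat.Agent.S19.h2_ModChartJ
import Fermat.Agent.S18.h54_ModLevel

/-!
# S36 / I-LAT, I-BR, I-E: the chart divisors of `x` and their Galois invariance (helper5)

Generic (`g : SemilinearAut K F`, `x : F` with `g • x = x`):

* `h5_ordfun_invariant` : a divisor of the form `v ↦ φ (ord_v x)` is `g`-invariant;
* `h5_polar_invariant`, `h5_zero_invariant` : the polar divisor `E1 v = max 0 (-ord_v x)` and
  the zero divisor `E2` (`ord_v x = E2 v - E1 v`) are `g`-invariant;
* `h5_comb_invariant` : `n • E1 + j • Ez` is invariant when `E1`, `Ez` are;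
* `h5_exists_chart_divisors` : for `x ≠ 0` the divisors `E1`, `E2` exist, with all the
  chart binders of `h46_principal_of_local` (`hE1`, `hE2`, `hdisj`, `hdivx`).

Modular (`F = F̄(N)`, `x = j = h59_jbar N`):

* `h5_jbar_chart_divisors` : `E1`, `E2` for `x = h59_jbar N` with the chart binders and
  invariance under the whole arithmetic Galois action.
-/

set_option autoImplicit false

noncomputable section

open AlgebraicCurve ModularCurve

namespace Fermat.Agent.S36

section Generic

variable {K F : Type*} [Field K] [Field F] [Algebra K F]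

/-- A divisor which is a function of `ord_v x`, `x` fixed by `g`, is `g`-invariant. -/
theorem h5_ordfun_invariant (g : SemilinearAut K F) (x : F) (hgx : g • x = x) (φ : ℤ → ℤ)
    (E : Divisor K F) (hE : ∀ v : Place K F, E v = φ (v.ord x)) : g • E = E := by
  ext w
  rw [SemilinearAut.divisor_smul_apply, hE, hE]
  congr 1
  have h1 : g⁻¹ • x = x := by
    rw [inv_smul_eq_iff, hgx]
  have h2 := SemilinearAut.ord_smul g⁻¹ w (g • x)
  rw [inv_smul_smul] at h2
  rw [h2, hgx]

/-- The polar divisor of a `g`-fixed function is `g`-invariant. -/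
theorem h5_polar_invariant (g : SemilinearAut K F) (x : F) (hgx : g • x = x)
    (E1 : Divisor K F) (hE1 : ∀ v : Place K F, E1 v = max 0 (-v.ord x)) : g • E1 = E1 :=
  h5_ordfun_invariant g x hgx (fun n => max 0 (-n)) E1 hE1

/-- The zero divisor of a `g`-fixed function is `g`-invariant. -/
theorem h5_zero_invariant (g : SemilinearAut K F) (x : F) (hgx : g • x = x)
    (E1 E2 : Divisor K F) (hE1 : ∀ v : Place K F, E1 v = max 0 (-v.ord x))
    (hdivx : ∀ v : Place K F, v.ord x = E2 v - E1 v) : g • E2 = E2 :=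
  h5_ordfun_invariant g x hgx (fun n => n + max 0 (-n)) E2 (fun v => by
    have h1 := hdivx v
    have h2 := hE1 v
    change E2 v = v.ord x + max 0 (-v.ord x)
    omega)

/-- Integral combinations of invariant divisors are invariant. -/
theorem h5_comb_invariant (g : SemilinearAut K F) (E1 Ez : Divisor K F) (h1 : g • E1 = E1)
    (hz : g • Ez = Ez) (n : ℕ) (j : ℤ) : g • (n • E1 + j • Ez) = n • E1 + j • Ez := by
  rw [smul_add, smul_comm g n E1, smul_comm g j Ez, h1, hz]

/-- The polar and zero divisors of `x ≠ 0`, with the chart binders of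
`h46_principal_of_local`. -/
theorem h5_exists_chart_divisors [HasPrincipalDivisors K F] (x : F) (hx0 : x ≠ 0) :
    ∃ E1 E2 : Divisor K F, (∀ v : Place K F, E1 v = max 0 (-v.ord x)) ∧
      (∀ v : Place K F, 0 ≤ E1 v) ∧ (∀ v : Place K F, 0 ≤ E2 v) ∧
      (∀ v : Place K F, E1 v = 0 ∨ E2 v = 0) ∧
      (∀ v : Place K F, v.ord x = E2 v - E1 v) := by
  obtain ⟨Dx, hDx, -⟩ := HasPrincipalDivisors.exists_divisor (K := K) x hx0
  refine ⟨Finsupp.mapRange (fun n : ℤ => max 0 (-n)) (by simp) Dx,
    Finsupp.mapRange (fun n : ℤ => max 0 n) (by simp) Dx, fun v => ?_, fun v => ?_, fun v => ?_,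
    fun v => ?_, fun v => ?_⟩
  · rw [Finsupp.mapRange_apply, hDx v]
  · rw [Finsupp.mapRange_apply]
    exact le_max_left _ _
  · rw [Finsupp.mapRange_apply]
    exact le_max_left _ _
  · rw [Finsupp.mapRange_apply, Finsupp.mapRange_apply]
    rcases le_total (0 : ℤ) (Dx v) with h | h
    · left
      exact max_eq_left (by omega)
    · right
      exact max_eq_left h
  · rw [Finsupp.mapRange_apply, Finsupp.mapRange_apply, hDx v]
    rcases le_total (0 : ℤ) (v.ord x) with h | h
    · rw [max_eq_right h, max_eq_left (by omega)]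
      omega
    · rw [max_eq_left h, max_eq_right (by omega)]
      omega

end Generic

section Modular

/-- **The chart divisors of `j` at level `N`**, invariant under the arithmetic Galois action:
`E1` = polar divisor (the cusps with their widths), `E2` = zero divisor, in the binder shapes of
`h46_principal_of_local` (`x := h59_jbar N`). -/
theorem h5_jbar_chart_divisors (N : ℕ) [NeZero N]
    [HasPrincipalDivisors (AlgebraicClosure ℚ) ↥(modularFunctionFieldBar N)] :
    ∃ E1 E2 : Divisor (AlgebraicClosure ℚ) ↥(modularFunctionFieldBar N),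
      (∀ v : Place (AlgebraicClosure ℚ) ↥(modularFunctionFieldBar N),
        E1 v = max 0 (-v.ord (Fermat.Agent.S24.h59_jbar N))) ∧
      (∀ v : Place (AlgebraicClosure ℚ) ↥(modularFunctionFieldBar N), 0 ≤ E1 v) ∧
      (∀ v : Place (AlgebraicClosure ℚ) ↥(modularFunctionFieldBar N), 0 ≤ E2 v) ∧
      (∀ v : Place (AlgebraicClosure ℚ) ↥(modularFunctionFieldBar N), E1 v = 0 ∨ E2 v = 0) ∧
      (∀ v : Place (AlgebraicClosure ℚ) ↥(modularFunctionFieldBar N),
        v.ord (Fermat.Agent.S24.h59_jbar N) = E2 v - E1 v) ∧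
      (∀ σ : AlgebraicClosure ℚ ≃ₐ[ℚ] AlgebraicClosure ℚ,
        arithmeticGalois (modularFunctionFieldFull N) σ • E1 = E1) ∧
      (∀ σ : AlgebraicClosure ℚ ≃ₐ[ℚ] AlgebraicClosure ℚ,
        arithmeticGalois (modularFunctionFieldFull N) σ • E2 = E2) := by
  have hx := Fermat.Agent.S18.h54_isChart_jbar N
  obtain ⟨E1, E2, hE1, hE1', hE2, hdisj, hdivx⟩ :=
    h5_exists_chart_divisors (K := AlgebraicClosure ℚ) (Fermat.Agent.S24.h59_jbar N) hx.ne_zero
  exact ⟨E1, E2, hE1, hE1', hE2, hdisj, hdivx,
    fun σ => h5_polar_invariant _ _ (Fermat.Agent.S19.h2_jbar_fix N σ) E1 hE1,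
    fun σ => h5_zero_invariant _ _ (Fermat.Agent.S19.h2_jbar_fix N σ) E1 E2 hE1 hdivx⟩

end Modular

end Fermat.Agent.S36
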