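import Mathlib

/-!
# S36 / (NOETH) + (FG-INT): integral chart rings are finitely generated and noetherian (helper97)

Mathlib-only.  `K0 ⊆ F0` fields of characteristic zero, `A0 ⊆ K0` a noetherian integrally closed
subring with fraction field `K0` (e.g. a discrete valuation ring), `x ∈ F0` transcendental over
`K0` with `F0` finite over `K0(x)`.  `h97_ev A0 x : A0[X] →+* F0` is `p ↦ p(x)`.

* `h97_fg_core` : a set of elements of `F0`, stable under addition and under multiplication by
  `A0[x]`, all integral over `A0[x]`, is a finitely generated `A0[x]`-module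
  (`IsIntegralClosure.isNoetherian` over the noetherian integrally closed ring `A0[X]`).
* `h97_fg_of_integral` : (FG0) for a subring `B ⊇ A0[x]` integral over `A0[x]`.
* `h97_noeth` : (NOETH) such a `B` is a noetherian ring.
* `h97_finite_of_dep` : the hypothesis `FiniteDimensional K0⟮x⟯ F0` from bounded dependence.
* `h97_int_descent` : integrality over `A[x]` (constants in a bigger field `K ⊇ K0`, `A` integral
  over `A0`) descends to integrality over `A0[x]`.
* `h97_orbit_monic`, `h97_int_of_orbit` : `A` is integral over `A ∩ K^G` for a group `G` acting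
  with finite orbits and stabilising `A`.
-/

set_option autoImplicit false
set_option linter.style.haveILetI false

open Polynomial IntermediateField

namespace Fermat.Agent.S36

section Core

variable {K0 F0 : Type*} [Field K0] [Field F0] [Algebra K0 F0]

/-- Evaluation at `x` of polynomials with coefficients in the subring `A0` of `K0`. -/
noncomputable def h97_ev (A0 : Subring K0) (x : F0) : Polynomial A0 →+* F0 :=
  Polynomial.eval₂RingHom ((algebraMap K0 F0).comp A0.subtype) x

theorem h97_ev_C (A0 : Subring K0) (x : F0) (a : A0) :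
    h97_ev A0 x (C a) = algebraMap K0 F0 a := by
  simp [h97_ev]

theorem h97_ev_X (A0 : Subring K0) (x : F0) : h97_ev A0 x X = x := by
  simp [h97_ev]

theorem h97_ev_eq_aeval (A0 : Subring K0) (x : F0) (p : Polynomial A0) :
    h97_ev A0 x p = aeval x (p.map A0.subtype) := by
  simp [h97_ev, aeval_def, eval₂_map]

theorem h97_ev_mem (A0 : Subring K0) (x : F0) (B : Subring F0)
    (hAB : ∀ a : A0, algebraMap K0 F0 a ∈ B) (hxB : x ∈ B) (p : Polynomial A0) :
    h97_ev A0 x p ∈ B := by
  induction p using Polynomial.induction_on' with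
  | add p q hp hq => rw [map_add]; exact B.add_mem hp hq
  | monomial n a =>
    rw [← C_mul_X_pow_eq_monomial, map_mul, map_pow, h97_ev_C, h97_ev_X]
    exact B.mul_mem (hAB a) (B.pow_mem hxB n)

theorem h97_ev_injective (A0 : Subring K0) (x : F0) (hx : Transcendental K0 x) :
    Function.Injective (h97_ev A0 x) := by
  rw [injective_iff_map_eq_zero]
  intro p hp
  rw [h97_ev_eq_aeval] at hp
  have h1 := (transcendental_iff_injective.mp hx)
  have h2 : p.map A0.subtype = 0 := h1 (by rw [hp, map_zero])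
  exact (Polynomial.map_eq_zero_iff (Subtype.val_injective)).mp h2

/-- `A0[X]` has fraction field `K0(x)` when `x` is transcendental. -/
theorem h97_isFractionRing (A0 : Subring K0) [IsFractionRing A0 K0]
    (x : F0) (hx : Transcendental K0 x)
    (ev' : Polynomial A0 →+* K0⟮x⟯) (hev' : ∀ p, ((ev' p : K0⟮x⟯) : F0) = h97_ev A0 x p) :
    @IsFractionRing (Polynomial A0) _ K0⟮x⟯ _ ev'.toAlgebra := by
  let _ : Algebra (Polynomial A0) K0⟮x⟯ := ev'.toAlgebra
  have hinj : Function.Injective ev' := by
    intro p q hpq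
    apply h97_ev_injective A0 x hx
    rw [← hev', ← hev', hpq]
  have : FaithfulSMul (Polynomial A0) K0⟮x⟯ :=
    (faithfulSMul_iff_algebraMap_injective _ _).mpr hinj
  apply IsFractionRing.of_field
  intro z
  obtain ⟨r, s, hz⟩ := (mem_adjoin_simple_iff K0 (z : F0)).mp z.2
  obtain ⟨br, hbrM, hbr⟩ := IsLocalization.integerNormalization_spec (nonZeroDivisors A0) r
  obtain ⟨bs, hbsM, hbs⟩ := IsLocalization.integerNormalization_spec (nonZeroDivisors A0) s
  set r' := IsLocalization.integerNormalization (nonZeroDivisors A0) r with hr'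
  set s' := IsLocalization.integerNormalization (nonZeroDivisors A0) s with hs'
  have hbr0 : algebraMap K0 F0 (br : K0) ≠ 0 := by
    have h1 : (br : K0) ≠ 0 := by
      have := nonZeroDivisors.ne_zero hbrM
      exact fun h => this (Subtype.ext h)
    exact (_root_.map_ne_zero _).mpr h1
  have hbs0 : algebraMap K0 F0 (bs : K0) ≠ 0 := by
    have h1 : (bs : K0) ≠ 0 := by
      have := nonZeroDivisors.ne_zero hbsM
      exact fun h => this (Subtype.ext h)
    exact (_root_.map_ne_zero _).mpr h1
  have hr : h97_ev A0 x r' = algebraMap K0 F0 (br : K0) * aeval x r := by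
    rw [h97_ev_eq_aeval]
    have h1 : r'.map A0.subtype = br • r := hbr
    have h2 : br • r = C (br : K0) * r := by rw [Subring.smul_def, smul_eq_C_mul]
    rw [h1, h2, map_mul, aeval_C]
  have hs : h97_ev A0 x s' = algebraMap K0 F0 (bs : K0) * aeval x s := by
    rw [h97_ev_eq_aeval]
    have h1 : s'.map A0.subtype = bs • s := hbs
    have h2 : bs • s = C (bs : K0) * s := by rw [Subring.smul_def, smul_eq_C_mul]
    rw [h1, h2, map_mul, aeval_C]
  refine ⟨r' * C bs, s' * C br, ?_⟩
  apply Subtype.ext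
  show (z : F0) = ((ev' (r' * C bs) / ev' (s' * C br) : K0⟮x⟯) : F0)
  rw [IntermediateField.coe_div, hev', hev', map_mul, map_mul, h97_ev_C, h97_ev_C, hr, hs, hz]
  by_cases hs0 : aeval x s = 0
  · rw [hs0]; simp
  · field_simp

/-- **(FG) core.**  A set `N` of elements of `F0`, stable under addition and under multiplication
by `A0[x]`, all of whose elements are integral over `A0[x]`, is a finitely generated
`A0[x]`-module: it lies in the integral closure of `A0[X]` in `F0`, which is a noetherian
`A0[X]`-module (`IsIntegralClosure.isNoetherian`). -/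
theorem h97_fg_core [CharZero K0] (A0 : Subring K0) [IsNoetherianRing A0] [IsIntegrallyClosed A0]
    [IsFractionRing A0 K0]
    (x : F0) (hx : Transcendental K0 x) [FiniteDimensional K0⟮x⟯ F0]
    (N : Set F0) (h0 : (0 : F0) ∈ N) (hadd : ∀ a ∈ N, ∀ b ∈ N, a + b ∈ N)
    (hsmul : ∀ (p : Polynomial A0), ∀ b ∈ N, h97_ev A0 x p * b ∈ N)
    (hint : ∀ b ∈ N, (h97_ev A0 x).IsIntegralElem b) :
    ∃ (r : ℕ) (t : Fin r → F0), (∀ i, t i ∈ N) ∧
      ∀ b ∈ N, ∃ p : Fin r → Polynomial A0, b = ∑ i, h97_ev A0 x (p i) * t i := by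
  classical
  let xK : K0⟮x⟯ := ⟨x, mem_adjoin_simple_self K0 x⟩
  let ev' : Polynomial A0 →+* K0⟮x⟯ :=
    Polynomial.eval₂RingHom ((algebraMap K0 K0⟮x⟯).comp A0.subtype) xK
  have hev' : ∀ p, ((ev' p : K0⟮x⟯) : F0) = h97_ev A0 x p := by
    intro p
    induction p using Polynomial.induction_on' with
    | add p q hp hq => rw [map_add, map_add, IntermediateField.coe_add, hp, hq]
    | monomial n a =>
      rw [← C_mul_X_pow_eq_monomial, map_mul, map_pow, map_mul, map_pow, h97_ev_C, h97_ev_X]
      simp [ev', xK]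
  letI alg1 : Algebra (Polynomial A0) K0⟮x⟯ := ev'.toAlgebra
  letI alg2 : Algebra (Polynomial A0) F0 := (h97_ev A0 x).toAlgebra
  haveI : IsScalarTower (Polynomial A0) K0⟮x⟯ F0 :=
    IsScalarTower.of_algebraMap_eq (fun p => (hev' p).symm)
  haveI : IsFractionRing (Polynomial A0) K0⟮x⟯ := h97_isFractionRing A0 x hx ev' hev'
  haveI : CharZero K0⟮x⟯ := charZero_of_injective_algebraMap (algebraMap K0 K0⟮x⟯).injective
  haveI : Algebra.IsSeparable K0⟮x⟯ F0 := inferInstance
  have hN : IsNoetherian (Polynomial A0) (integralClosure (Polynomial A0) F0) :=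
    IsIntegralClosure.isNoetherian (Polynomial A0) K0⟮x⟯ F0 (integralClosure (Polynomial A0) F0)
  let N' : Submodule (Polynomial A0) (integralClosure (Polynomial A0) F0) :=
    { carrier := {c | (c : F0) ∈ N}
      add_mem' := fun {a b} ha hb => hadd _ ha _ hb
      zero_mem' := h0
      smul_mem' := fun p c hc => by
        show ((p • c : integralClosure (Polynomial A0) F0) : F0) ∈ N
        have : ((p • c : integralClosure (Polynomial A0) F0) : F0) = h97_ev A0 x p * (c : F0) := by
          rw [Algebra.smul_def]; rfl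
        rw [this]
        exact hsmul p _ hc }
  obtain ⟨r, s, hs⟩ := Submodule.fg_iff_exists_fin_generating_family.mp (hN.noetherian N')
  refine ⟨r, fun i => (s i : F0), ?_, ?_⟩
  · intro i
    have : s i ∈ N' := by rw [← hs]; exact Submodule.subset_span ⟨i, rfl⟩
    exact this
  · intro b hb
    have hbint : IsIntegral (Polynomial A0) b := hint b hb
    have hbN : (⟨b, hbint⟩ : integralClosure (Polynomial A0) F0) ∈ N' := hb
    rw [← hs] at hbN
    obtain ⟨c, hc⟩ := (Submodule.mem_span_range_iff_exists_fun _).mp hbN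
    refine ⟨c, ?_⟩
    have h1 := congrArg (fun z : integralClosure (Polynomial A0) F0 => (z : F0)) hc
    simp only at h1
    rw [← h1]
    rw [AddSubmonoidClass.coe_finsetSum]
    refine Finset.sum_congr rfl fun i _ => ?_
    rw [Algebra.smul_def]; rfl

/-- **(FG0)**: a subring `B` of `F0` containing `A0` and `x`, all of whose elements are integral
over `A0[x]`, is generated over `A0[x]` by finitely many of its elements. -/
theorem h97_fg_of_integral [CharZero K0] (A0 : Subring K0) [IsNoetherianRing A0]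
    [IsIntegrallyClosed A0] [IsFractionRing A0 K0]
    (x : F0) (hx : Transcendental K0 x) [FiniteDimensional K0⟮x⟯ F0]
    (B : Subring F0) (hAB : ∀ a : A0, algebraMap K0 F0 a ∈ B) (hxB : x ∈ B)
    (hint : ∀ b ∈ B, (h97_ev A0 x).IsIntegralElem b) :
    ∃ (r : ℕ) (t : Fin r → F0), (∀ i, t i ∈ B) ∧
      ∀ b ∈ B, ∃ p : Fin r → Polynomial A0, b = ∑ i, h97_ev A0 x (p i) * t i :=
  h97_fg_core A0 x hx (B : Set F0) B.zero_mem (fun _ ha _ hb => B.add_mem ha hb)
    (fun p _ hb => B.mul_mem (h97_ev_mem A0 x B hAB hxB p) hb) hint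

/-- **(NOETH)**: a subring `B` of `F0` containing `A0` and `x`, all of whose elements are
integral over `A0[x]`, is a noetherian ring. -/
theorem h97_noeth [CharZero K0] (A0 : Subring K0) [IsNoetherianRing A0]
    [IsIntegrallyClosed A0] [IsFractionRing A0 K0]
    (x : F0) (hx : Transcendental K0 x) [FiniteDimensional K0⟮x⟯ F0]
    (B : Subring F0) (hAB : ∀ a : A0, algebraMap K0 F0 a ∈ B) (hxB : x ∈ B)
    (hint : ∀ b ∈ B, (h97_ev A0 x).IsIntegralElem b) :
    IsNoetherianRing B := by
  classical
  rw [isNoetherianRing_iff_ideal_fg]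
  intro I
  obtain ⟨r, t, ht, hgen⟩ := h97_fg_core A0 x hx {f : F0 | ∃ h : f ∈ B, (⟨f, h⟩ : B) ∈ I}
    ⟨B.zero_mem, I.zero_mem⟩
    (fun a ⟨ha, haI⟩ b ⟨hb, hbI⟩ => ⟨B.add_mem ha hb, I.add_mem haI hbI⟩)
    (fun p b ⟨hb, hbI⟩ => ⟨B.mul_mem (h97_ev_mem A0 x B hAB hxB p) hb,
      I.mul_mem_left ⟨_, h97_ev_mem A0 x B hAB hxB p⟩ hbI⟩)
    (fun b ⟨hb, _⟩ => hint b hb)
  refine ⟨Finset.univ.image fun i : Fin r => (⟨t i, (ht i).1⟩ : B), ?_⟩
  apply le_antisymm
  · rw [Ideal.span_le]
    intro y hy
    simp only [Finset.coe_image, Finset.coe_univ, Set.image_univ, Set.mem_range] at hy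
    obtain ⟨i, rfl⟩ := hy
    exact (ht i).2
  · intro b hb
    obtain ⟨p, hp⟩ := hgen (b : F0) ⟨b.2, hb⟩
    have hb' : b = ∑ i, (⟨_, h97_ev_mem A0 x B hAB hxB (p i)⟩ : B) * ⟨t i, (ht i).1⟩ := by
      apply Subtype.ext
      rw [hp]
      simp
    rw [hb']
    refine Ideal.sum_mem _ fun i _ => Ideal.mul_mem_left _ _ (Ideal.subset_span ?_)
    simp

/-- The finiteness hypothesis in elementary form: if any `n + 1` elements of `F0` satisfy a
nontrivial linear relation with coefficients in `K0[x]`, then `F0` is finite over `K0(x)`. -/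
theorem h97_finite_of_dep (x : F0) (hx : Transcendental K0 x)
    (hdep : ∃ n : ℕ, ∀ f : Fin (n + 1) → F0, ∃ p : Fin (n + 1) → K0[X],
      p ≠ 0 ∧ ∑ i, aeval x (p i) * f i = 0) :
    FiniteDimensional K0⟮x⟯ F0 := by
  classical
  obtain ⟨n, hn⟩ := hdep
  have hrank : Module.rank K0⟮x⟯ F0 ≤ n := by
    apply rank_le
    intro s hs
    by_contra hlt
    rw [not_le] at hlt
    have hcard : Fintype.card (Fin (n + 1)) ≤ Fintype.card s := by
      rw [Fintype.card_fin, Fintype.card_coe]
      omega
    obtain ⟨e⟩ := Function.Embedding.nonempty_of_card_le hcard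
    obtain ⟨p, hp0, hp⟩ := hn (fun i => ((e i : s) : F0))
    have hli : LinearIndependent K0⟮x⟯ (fun i : Fin (n + 1) => ((e i : s) : F0)) :=
      hs.comp e e.injective
    have hmem : ∀ i, aeval x (p i) ∈ K0⟮x⟯ := fun i =>
      (mem_adjoin_simple_iff K0 _).mpr ⟨p i, 1, by simp⟩
    have h0 := Fintype.linearIndependent_iff.mp hli (fun i => ⟨aeval x (p i), hmem i⟩) (by
      rw [← hp]
      exact Finset.sum_congr rfl fun i _ => rfl)
    apply hp0
    funext i
    have h1 : aeval x (p i) = 0 := congrArg (fun z : K0⟮x⟯ => (z : F0)) (h0 i)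
    exact (transcendental_iff_injective.mp hx) (by rw [h1]; simp)
  exact Module.rank_lt_aleph0_iff.mp (lt_of_le_of_lt hrank (Cardinal.natCast_lt_aleph0))

end Core

section Descent

variable {K0 K F0 F : Type*} [Field K0] [Field K] [Field F0] [Field F]
  [Algebra K0 F0] [Algebra K F]

/-- **Integrality descent.**  `K0 → K`, `F0 → F` compatible field embeddings, `A ⊆ K` a subring
integral over `A0 ⊆ K0`.  If the image in `F` of `f ∈ F0` satisfies a monic equation with
coefficients in `A[x]`, then `f` satisfies a monic equation with coefficients in `A0[x]`. -/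
theorem h97_int_descent (jK : K0 →+* K) (jF : F0 →+* F)
    (hcomm : ∀ c : K0, jF (algebraMap K0 F0 c) = algebraMap K F (jK c))
    (A0 : Subring K0) (A : Subring K)
    (hAint : ∀ a ∈ A, (jK.comp A0.subtype).IsIntegralElem a)
    (x f : F0)
    (φ : Polynomial A →+* F) (hφC : ∀ a : A, φ (C a) = algebraMap K F a) (hφX : φ X = jF x)
    (hf : φ.IsIntegralElem (jF f)) :
    (h97_ev A0 x).IsIntegralElem f := by
  classical
  set ψ : Polynomial A0 →+* F := jF.comp (h97_ev A0 x) with hψ
  -- every element of `φ(A[X])` is `ψ`-integral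
  have hψC : ∀ a0 : A0, ψ (C a0) = algebraMap K F (jK a0) := by
    intro a0
    rw [hψ, RingHom.comp_apply, h97_ev_C, hcomm]
  have hC : ∀ a : A, ψ.IsIntegralElem (φ (C a)) := by
    intro a
    obtain ⟨P, hPm, hP⟩ := hAint a a.2
    refine ⟨P.map C, hPm.map _, ?_⟩
    rw [eval₂_map, hφC]
    have h1 : ψ.comp C = (algebraMap K F).comp (jK.comp A0.subtype) := by
      ext a0
      simp only [RingHom.comp_apply]
      exact hψC a0
    rw [h1, ← hom_eval₂, hP, map_zero]
  have hX : ψ.IsIntegralElem (φ X) := by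
    have : φ X = ψ X := by rw [hφX, hψ, RingHom.comp_apply, h97_ev_X]
    rw [this]
    exact ψ.isIntegralElem_map
  have hall : ∀ p : Polynomial A, ψ.IsIntegralElem (φ p) := by
    intro p
    induction p using Polynomial.induction_on' with
    | add p q hp hq => rw [map_add]; exact RingHom.IsIntegralElem.add ψ hp hq
    | monomial n a =>
      rw [← C_mul_X_pow_eq_monomial, map_mul, map_pow]
      refine RingHom.IsIntegralElem.mul ψ (hC a) ?_
      induction n with
      | zero => rw [pow_zero]; simpa using ψ.isIntegralElem_map (x := 1)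
      | succ n ih => rw [pow_succ]; exact RingHom.IsIntegralElem.mul ψ ih hX
  -- transitivity
  letI : Algebra (Polynomial A0) F := ψ.toAlgebra
  have hall' : ∀ p : Polynomial A, φ p ∈ integralClosure (Polynomial A0) F := fun p => hall p
  obtain ⟨G, hGm, hG⟩ := hf
  have hlift : G.map φ ∈ Polynomial.lifts (algebraMap (integralClosure (Polynomial A0) F) F) := by
    rw [Polynomial.lifts_iff_coeff_lifts]
    intro n
    rw [Polynomial.coeff_map]
    exact ⟨⟨_, hall' (G.coeff n)⟩, rfl⟩
  obtain ⟨q, hq, -, hqm⟩ := Polynomial.lifts_and_natDegree_eq_and_monic hlift (hGm.map φ)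
  have hint1 : IsIntegral (integralClosure (Polynomial A0) F) (jF f) := by
    refine ⟨q, hqm, ?_⟩
    rw [← eval_map, hq, eval_map]
    exact hG
  have hint2 : IsIntegral (Polynomial A0) (jF f) := isIntegral_trans _ hint1
  obtain ⟨P, hPm, hP⟩ := hint2
  refine ⟨P, hPm, ?_⟩
  have h2 : jF (eval₂ (h97_ev A0 x) f P) = 0 := by
    rw [hom_eval₂]
    exact hP
  exact (_root_.map_eq_zero jF).mp h2

end Descent

section Orbit

variable {K : Type*} [Field K] {G : Type*} [Group G] [MulSemiringAction G K]

/-- **Orbit polynomial.**  `G` acts on the field `K` by ring automorphisms, `A` is a `G`-stable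
subring and `a ∈ A` has a finite orbit.  Then `a` is a root of a monic polynomial whose
coefficients lie in `A` and are fixed by `G`.  (So `A` is integral over `A ∩ K^G`.) -/
theorem h97_orbit_monic (A : Subring K) (hA : ∀ (g : G), ∀ a ∈ A, g • a ∈ A)
    (a : K) (ha : a ∈ A) (hfin : (MulAction.orbit G a).Finite) :
    ∃ P : K[X], P.Monic ∧ (∀ n, P.coeff n ∈ A) ∧ (∀ (n : ℕ) (g : G), g • P.coeff n = P.coeff n) ∧
      P.eval a = 0 := by
  classical
  set S : Finset K := hfin.toFinset with hS
  have hmemS : ∀ b, b ∈ S ↔ b ∈ MulAction.orbit G a := fun b => hfin.mem_toFinset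
  refine ⟨∏ b ∈ S, (X - C b), monic_prod_of_monic _ _ (fun b _ => monic_X_sub_C b), ?_, ?_, ?_⟩
  · -- coefficients in `A`
    have hSA : ∀ b ∈ S, b ∈ A := by
      intro b hb
      obtain ⟨g, rfl⟩ := (hmemS b).mp hb
      exact hA g a ha
    have hlift : (∏ b ∈ S, (X - C b)) =
        (∏ b ∈ S.attach, (X - C (⟨b.1, hSA b.1 b.2⟩ : A))).map A.subtype := by
      rw [Polynomial.map_prod, ← Finset.prod_attach]
      refine Finset.prod_congr rfl fun b _ => ?_
      rw [Polynomial.map_sub, Polynomial.map_X, Polynomial.map_C]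
      rfl
    intro n
    rw [hlift, Polynomial.coeff_map]
    exact (Subtype.property _)
  · -- coefficients fixed
    intro n g
    set σ : K →+* K := MulSemiringAction.toRingHom G K g with hσ
    have hmap : (∏ b ∈ S, (X - C b)).map σ = ∏ b ∈ S, (X - C b) := by
      rw [Polynomial.map_prod]
      have h1 : ∀ b ∈ S, (X - C b).map σ = X - C (g • b) := by
        intro b _
        rw [Polynomial.map_sub, Polynomial.map_X, Polynomial.map_C]
        rfl
      rw [Finset.prod_congr rfl h1]
      refine Finset.prod_nbij' (fun b => g • b) (fun b => g⁻¹ • b) ?_ ?_ ?_ ?_ ?_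
      · intro b hb
        rw [hmemS] at hb ⊢
        obtain ⟨h, rfl⟩ := hb
        exact ⟨g * h, by simp [mul_smul]⟩
      · intro b hb
        rw [hmemS] at hb ⊢
        obtain ⟨h, rfl⟩ := hb
        exact ⟨g⁻¹ * h, by simp [mul_smul]⟩
      · intro b _; simp
      · intro b _; simp
      · intro b _; rfl
    have h2 := congrArg (fun Q : K[X] => Q.coeff n) hmap
    simp only [Polynomial.coeff_map] at h2
    exact h2
  · rw [Polynomial.eval_prod]
    refine Finset.prod_eq_zero ((hmemS a).mpr (MulAction.mem_orbit_self a)) ?_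
    simp

/-- `A` is integral over `A0 = A ∩ K0` when `K0` is the field of `G`-invariants, `A` is
`G`-stable and all orbits in `A` are finite.  (Hypothesis `hAint` of `h97_int_descent`.) -/
theorem h97_int_of_orbit {K0 : Type*} [Field K0] (jK : K0 →+* K)
    (hK0 : ∀ c : K, (∀ g : G, g • c = c) → ∃ c0 : K0, jK c0 = c)
    (A : Subring K) (A0 : Subring K0) (hA0 : ∀ c0 : K0, jK c0 ∈ A → c0 ∈ A0)
    (hA : ∀ (g : G), ∀ a ∈ A, g • a ∈ A)
    (hfin : ∀ a ∈ A, (MulAction.orbit G a).Finite) :
    ∀ a ∈ A, (jK.comp A0.subtype).IsIntegralElem a := by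
  intro a ha
  obtain ⟨P, hPm, hPA, hPG, hPa⟩ := h97_orbit_monic A hA a ha (hfin a ha)
  have hlift : P ∈ Polynomial.lifts (jK.comp A0.subtype) := by
    rw [Polynomial.lifts_iff_coeff_lifts]
    intro n
    obtain ⟨c0, hc0⟩ := hK0 (P.coeff n) (hPG n)
    exact ⟨⟨c0, hA0 c0 (by rw [hc0]; exact hPA n)⟩, hc0⟩
  obtain ⟨Q, hQ, -, hQm⟩ := Polynomial.lifts_and_natDegree_eq_and_monic hlift hPm
  refine ⟨Q, hQm, ?_⟩
  rw [← eval_map, hQ]
  exact hPa

end Orbit

end Fermat.Agent.S36
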