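import Mathlib
import Fermat.Agent.S05.h26_Inertia
import Fermat.Agent.S36.h97_Noeth

/-!
# S36 / row K, item (K9) = (INTEG): `A` is integral over `A ∩ Qbar^I` (helper5)

`Qb = AlgebraicClosure ℚ`, `A : ValuationSubring Qb` (no further hypothesis),
`I = A.inertiaSubgroupIn ℚ`.

* `h5_inertia_stable` : `I` stabilises `A` (binder `hA` of `h97_orbit_monic` / `h97_int_of_orbit`
  with `G := ↥(A.inertiaSubgroupIn ℚ)`, `K := Qb`).
* `h5_orbit_finite` : the orbits on `Qb` of any subgroup `H` of the absolute Galois group are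
  finite (binder `hfin`).
* `h5_integ_K0` : every `a ∈ A` is a root of a monic polynomial whose coefficients lie in `A`
  and are fixed by `I`.
* `h5_integ_carrier` : the hypothesis `hAint` of `h97_int_descent`, for any carrier `K0` of the
  `I`-fixed field.
* `h5_A0`, `h5_isIntegral_A0` : the subring `A ∩ Qb^I` of `Qb` and `IsIntegral (h5_A0 A) a`.
-/

set_option autoImplicit false

open Polynomial

namespace Fermat.Agent.S36

/-- The inertia subgroup stabilises the valuation subring (in the binder shape of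
`h97_orbit_monic`). -/
theorem h5_inertia_stable (A : ValuationSubring (AlgebraicClosure ℚ)) :
    ∀ (g : ↥(A.inertiaSubgroupIn ℚ)), ∀ a ∈ A.toSubring, g • a ∈ A.toSubring :=
  fun g _ ha => Fermat.Agent.S05.h26_mem_of_mem_inertia A g.2 ha

/-- Orbits of a subgroup of the absolute Galois group of `ℚ` on `AlgebraicClosure ℚ` are
finite. -/
theorem h5_orbit_finite (H : Subgroup (AlgebraicClosure ℚ ≃ₐ[ℚ] AlgebraicClosure ℚ))
    (a : AlgebraicClosure ℚ) : (MulAction.orbit ↥H a).Finite := by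
  have hint : IsIntegral ℚ a := ((AlgebraicClosure.isAlgebraic ℚ).isAlgebraic a).isIntegral
  refine Set.Finite.subset ((minpoly ℚ a).rootSet_finite (AlgebraicClosure ℚ)) ?_
  rintro b ⟨g, rfl⟩
  rw [Polynomial.mem_rootSet]
  refine ⟨minpoly.ne_zero hint, ?_⟩
  change aeval ((g : AlgebraicClosure ℚ ≃ₐ[ℚ] AlgebraicClosure ℚ) a) (minpoly ℚ a) = 0
  rw [Polynomial.aeval_algEquiv, AlgHom.comp_apply, minpoly.aeval, map_zero]

/-- **(INTEG).**  Every element of `A` is a root of a monic polynomial whose coefficients lie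
in `A` and are fixed by the inertia subgroup. -/
theorem h5_integ_K0 (A : ValuationSubring (AlgebraicClosure ℚ)) (a : AlgebraicClosure ℚ)
    (ha : a ∈ A) :
    ∃ P : (AlgebraicClosure ℚ)[X], P.Monic ∧ (∀ n, P.coeff n ∈ A) ∧
      (∀ n, ∀ σ ∈ A.inertiaSubgroupIn ℚ, σ (P.coeff n) = P.coeff n) ∧ P.eval a = 0 := by
  obtain ⟨P, hPm, hPA, hPG, hPa⟩ :=
    h97_orbit_monic (G := ↥(A.inertiaSubgroupIn ℚ)) A.toSubring (h5_inertia_stable A) a ha
      (h5_orbit_finite _ a)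
  exact ⟨P, hPm, hPA, fun n σ hσ => hPG n ⟨σ, hσ⟩, hPa⟩

/-- The hypothesis `hAint` of `h97_int_descent`, for any carrier `K0` of the inertia-fixed
field. -/
theorem h5_integ_carrier (A : ValuationSubring (AlgebraicClosure ℚ)) {K0 : Type*} [Field K0]
    (jK : K0 →+* AlgebraicClosure ℚ)
    (hK0 : ∀ c : AlgebraicClosure ℚ, (∀ σ ∈ A.inertiaSubgroupIn ℚ, σ c = c) →
      ∃ c0 : K0, jK c0 = c)
    (A0 : Subring K0) (hA0 : ∀ c0 : K0, jK c0 ∈ A → c0 ∈ A0) :
    ∀ a ∈ A.toSubring, (jK.comp A0.subtype).IsIntegralElem a :=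
  h97_int_of_orbit (G := ↥(A.inertiaSubgroupIn ℚ)) jK
    (fun c hc => hK0 c (fun σ hσ => hc ⟨σ, hσ⟩)) A.toSubring A0 hA0 (h5_inertia_stable A)
    (fun a _ => h5_orbit_finite _ a)

/-- The subring `A ∩ Qb^I` of inertia-fixed elements of `A`. -/
def h5_A0 (A : ValuationSubring (AlgebraicClosure ℚ)) : Subring (AlgebraicClosure ℚ) where
  carrier := {x | x ∈ A ∧ ∀ σ ∈ A.inertiaSubgroupIn ℚ, σ x = x}
  mul_mem' := fun ⟨ha, ha'⟩ ⟨hb, hb'⟩ =>
    ⟨A.mul_mem _ _ ha hb, fun σ hσ => by rw [map_mul, ha' σ hσ, hb' σ hσ]⟩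
  one_mem' := ⟨A.one_mem, fun σ _ => map_one σ⟩
  add_mem' := fun ⟨ha, ha'⟩ ⟨hb, hb'⟩ =>
    ⟨A.add_mem _ _ ha hb, fun σ hσ => by rw [map_add, ha' σ hσ, hb' σ hσ]⟩
  zero_mem' := ⟨A.zero_mem, fun σ _ => map_zero σ⟩
  neg_mem' := fun ⟨ha, ha'⟩ => ⟨A.neg_mem _ ha, fun σ hσ => by rw [map_neg, ha' σ hσ]⟩

theorem h5_mem_A0 (A : ValuationSubring (AlgebraicClosure ℚ)) (x : AlgebraicClosure ℚ) :
    x ∈ h5_A0 A ↔ x ∈ A ∧ ∀ σ ∈ A.inertiaSubgroupIn ℚ, σ x = x := Iff.rfl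

theorem h5_A0_le (A : ValuationSubring (AlgebraicClosure ℚ)) : h5_A0 A ≤ A.toSubring :=
  fun _ hx => hx.1

/-- **(INTEG), subring form.**  `A` is integral over `A ∩ Qb^I`. -/
theorem h5_isIntegral_A0 (A : ValuationSubring (AlgebraicClosure ℚ)) (a : AlgebraicClosure ℚ)
    (ha : a ∈ A) : IsIntegral (h5_A0 A) a := by
  obtain ⟨P, hPm, hPA, hPG, hPa⟩ := h5_integ_K0 A a ha
  have hlift : P ∈ Polynomial.lifts (h5_A0 A).subtype := by
    rw [Polynomial.lifts_iff_coeff_lifts]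
    intro n
    exact ⟨⟨P.coeff n, hPA n, hPG n⟩, rfl⟩
  obtain ⟨Q, hQ, -, hQm⟩ := Polynomial.lifts_and_natDegree_eq_and_monic hlift hPm
  refine ⟨Q, hQm, ?_⟩
  have h1 : algebraMap (h5_A0 A) (AlgebraicClosure ℚ) = (h5_A0 A).subtype := rfl
  rw [h1, ← eval_map, hQ]
  exact hPa

end Fermat.Agent.S36
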