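import Mathlib
import Fermat.Agent.S36.h69_K0
import Fermat.Agent.S36.h97_Noeth

/-!
# S36 / row K, (K-INST): the concrete carriers `K0`, `F0` and the K-row binders of the lattice row

`H` a subgroup of `Gal(ℚ̄/ℚ)` (in use: the inertia group of a valuation subring `A` over `q`).

* `h69_K0 H` := `IntermediateField.fixedField H` (the constants fixed by `H`);
  `h69_F0 N H` (landed) the fixed functions; `h69_algK0F0` the algebra structure `K0 → F0`.
* `h69_inst_comm`, `h69_inst_span` (SP), `h69_inst_ld` (LD), `h69_inst_transcendental`,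
  `h69_inst_finite` (`F0` is finite over `K0(x0)` for a chart `x0 ∈ F0`).
* `h69_inst_dv` (DV) in terms of `K0`.
-/

set_option autoImplicit false

noncomputable section

open AlgebraicCurve ModularCurve IntermediateField Polynomial

namespace Fermat.Agent.S36

local notation "Qb" => AlgebraicClosure ℚ

section Generic

variable {K F : Type*} [Field K] [Field F] [Algebra K F]
variable {Γ : Type*} [Group Γ]

/-- **Polynomial relations with fixed coefficients.**  `x` and the `f i` fixed by `H`, `F` finite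
over `K(x)` of degree `n`.  Any `n + 1` of the `f i` satisfy a nontrivial relation
`∑ i, (∑ j, c i j x^j) f i = 0` with `H`-fixed coefficients `c i j`. -/
theorem h69_poly_dep_core (ρ : Γ →* SemilinearAut K F) (H : Subgroup Γ) (x : F)
    (hxfix : ∀ γ ∈ H, ρ γ • x = x) [FiniteDimensional K⟮x⟯ F]
    (f : Fin (Module.finrank K⟮x⟯ F + 1) → F) (hf : ∀ i, ∀ γ ∈ H, ρ γ • f i = f i) :
    ∃ (d : ℕ) (c : Fin (Module.finrank K⟮x⟯ F + 1) → Fin (d + 1) → K),
      (∀ i j, ∀ γ ∈ H, SemilinearAut.baseAut (ρ γ) (c i j) = c i j) ∧ (∃ i j, c i j ≠ 0) ∧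
      ∑ i, (∑ j, c i j • x ^ (j : ℕ)) * f i = 0 := by
  classical
  -- Step 1: a `K(x)`-linear relation
  have hdep : ¬ LinearIndependent K⟮x⟯ f := fun hli => by
    have h1 := hli.fintype_card_le_finrank
    rw [Fintype.card_fin] at h1
    omega
  obtain ⟨a, ha, i0, hi0⟩ := Fintype.not_linearIndependent_iff.mp hdep
  -- Step 2: write the coefficients as fractions
  have hfrac : ∀ i, ∃ r s : K[X], aeval x s ≠ 0 ∧
      ((a i : K⟮x⟯) : F) * aeval x s = aeval x r := by
    intro i
    obtain ⟨r, s, h⟩ := (IntermediateField.mem_adjoin_simple_iff K _).mp (a i).2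
    by_cases hs : aeval x s = 0
    · refine ⟨0, 1, by simp, ?_⟩
      rw [h, hs, div_zero]
      simp
    · exact ⟨r, s, hs, by rw [h, div_mul_cancel₀ _ hs]⟩
  choose r s hs hrs using hfrac
  -- Step 3: clear denominators
  have hS : aeval x (∏ i, s i) ≠ 0 := by
    rw [map_prod]
    exact Finset.prod_ne_zero_iff.mpr fun i _ => hs i
  have hP : ∀ i, aeval x (r i * ∏ j ∈ Finset.univ.erase i, s j) =
      ((a i : K⟮x⟯) : F) * aeval x (∏ i, s i) := by
    intro i
    rw [map_mul, map_prod, map_prod, ← hrs i,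
      ← Finset.mul_prod_erase Finset.univ (fun j => aeval x (s j)) (Finset.mem_univ i)]
    ring
  have hrel : ∑ i, aeval x (r i * ∏ j ∈ Finset.univ.erase i, s j) * f i = 0 := by
    have h1 : ∑ i, aeval x (r i * ∏ j ∈ Finset.univ.erase i, s j) * f i =
        aeval x (∏ i, s i) * ∑ i, a i • f i := by
      rw [Finset.mul_sum]
      refine Finset.sum_congr rfl fun i _ => ?_
      rw [hP i, IntermediateField.smul_def, smul_eq_mul]
      ring
    rw [h1, ha, mul_zero]
  have hP0 : r i0 * ∏ j ∈ Finset.univ.erase i0, s j ≠ 0 := by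
    intro h0
    have h1 := hP i0
    rw [h0, map_zero] at h1
    rcases mul_eq_zero.mp h1.symm with h | h
    · exact hi0 (Subtype.ext h)
    · exact hS h
  -- Step 4: descend the coefficients
  obtain ⟨d, hd⟩ : ∃ d, ∀ i, (r i * ∏ j ∈ Finset.univ.erase i, s j).natDegree < d + 1 :=
    ⟨Finset.univ.sup fun i => (r i * ∏ j ∈ Finset.univ.erase i, s j).natDegree, fun i =>
      Nat.lt_succ_of_le (Finset.le_sup
        (f := fun i => (r i * ∏ j ∈ Finset.univ.erase i, s j).natDegree) (Finset.mem_univ i))⟩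
  by_contra hcon
  push Not at hcon
  have hG : ∀ ij : Fin (Module.finrank K⟮x⟯ F + 1) × Fin (d + 1), ∀ γ ∈ H,
      ρ γ • (x ^ (ij.2 : ℕ) * f ij.1) = x ^ (ij.2 : ℕ) * f ij.1 := fun ij γ hγ => by
    rw [smul_mul', smul_pow', hxfix γ hγ, hf _ γ hγ]
  have hCrel : ∑ ij : Fin (Module.finrank K⟮x⟯ F + 1) × Fin (d + 1),
      (r ij.1 * ∏ j ∈ Finset.univ.erase ij.1, s j).coeff (ij.2 : ℕ) •
        (x ^ (ij.2 : ℕ) * f ij.1) = 0 := by
    rw [Fintype.sum_prod_type]
    refine Eq.trans (Finset.sum_congr rfl fun i _ => ?_) hrel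
    rw [Polynomial.aeval_eq_sum_range' (hd i), Finset.sum_mul,
      Fin.sum_univ_eq_sum_range (fun j => (r i * ∏ j ∈ Finset.univ.erase i, s j).coeff j •
        (x ^ j * f i)) (d + 1)]
    exact Finset.sum_congr rfl fun j _ => (smul_mul_assoc _ _ _).symm
  have hall := h69_ld_core ρ H
    (fun ij : Fin (Module.finrank K⟮x⟯ F + 1) × Fin (d + 1) => x ^ (ij.2 : ℕ) * f ij.1) hG
    (fun c hc hrel' => by
      by_contra hne
      push Not at hne
      obtain ⟨ij, hij⟩ := hne
      refine hcon d (fun i j => c (i, j)) (fun i j => hc (i, j)) ⟨ij.1, ij.2, hij⟩ ?_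
      rw [Fintype.sum_prod_type] at hrel'
      refine Eq.trans (Finset.sum_congr rfl fun i _ => ?_) hrel'
      rw [Finset.sum_mul]
      exact Finset.sum_congr rfl fun j _ => smul_mul_assoc _ _ _)
    (fun ij => (r ij.1 * ∏ j ∈ Finset.univ.erase ij.1, s j).coeff (ij.2 : ℕ)) hCrel
  have h2 := hall (i0, ⟨_, hd i0⟩)
  exact hP0 (Polynomial.leadingCoeff_eq_zero.mp h2)

end Generic

section Carrier

variable (N : ℕ) (H : Subgroup (Qb ≃ₐ[ℚ] Qb))

/-- **The carrier `K0`**: the constants fixed by `H`. -/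
abbrev h69_K0 : IntermediateField ℚ Qb := IntermediateField.fixedField H

theorem h69_mem_K0 (c : Qb) : c ∈ h69_K0 H ↔ ∀ σ ∈ H, σ c = c := by
  rw [IntermediateField.mem_fixedField_iff]

/-- The inclusion `K0 → F0`. -/
def h69_K0toF0 : h69_K0 H →+* h69_F0 N H :=
  ((algebraMap Qb (modularFunctionFieldBar N)).comp (algebraMap (h69_K0 H) Qb)).codRestrict
    (h69_F0 N H) (fun c => (h69_algebraMap_mem_F0 N H (c : Qb)).mpr ((h69_mem_K0 H c).mp c.2))

/-- **The algebra structure `K0 → F0`.** -/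
instance h69_algK0F0 : Algebra (h69_K0 H) (h69_F0 N H) := (h69_K0toF0 N H).toAlgebra

/-- (hcomm) The inclusions `K0 → F0 → F` and `K0 → ℚ̄ → F` agree. -/
theorem h69_inst_comm (c : h69_K0 H) :
    ((algebraMap (h69_K0 H) (h69_F0 N H) c : h69_F0 N H) : modularFunctionFieldBar N) =
      algebraMap Qb (modularFunctionFieldBar N) (c : Qb) := rfl

theorem h69_inst_smul (c : h69_K0 H) (g : h69_F0 N H) :
    ((c • g : h69_F0 N H) : modularFunctionFieldBar N) =
      (c : Qb) • (g : modularFunctionFieldBar N) := by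
  rw [Algebra.smul_def, Algebra.smul_def]
  rfl

/-- **(SP)**: every function is a `ℚ̄`-combination of elements of `F0`. -/
theorem h69_inst_span (f : modularFunctionFieldBar N) :
    f ∈ Submodule.span Qb (Set.range (h69_F0 N H).subtype) := by
  have h : Set.range (h69_F0 N H).subtype = (h69_F0 N H : Set (modularFunctionFieldBar N)) := by
    ext g
    exact ⟨fun ⟨y, hy⟩ => hy ▸ y.2, fun hg => ⟨⟨g, hg⟩, rfl⟩⟩
  rw [h, h69_span_F0]
  exact Submodule.mem_top

/-- **(LD)**: a `K0`-linearly independent family of `F0` is `ℚ̄`-linearly independent in `F`. -/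
theorem h69_inst_ld {ι : Type*} (g : ι → h69_F0 N H) (hli : LinearIndependent (h69_K0 H) g) :
    LinearIndependent Qb (fun i => (g i : modularFunctionFieldBar N)) := by
  classical
  rw [linearIndependent_iff'] at hli ⊢
  intro s c hc i hi
  have h1 := h69_ld_core (arithmeticGalois (modularFunctionFieldFull N)) H
    (fun j : s => ((g j : h69_F0 N H) : modularFunctionFieldBar N)) (fun j => (g j).2)
    (fun c' hc' hrel j => by
      have h2 := hli s (fun j => if hj : j ∈ s then
          (⟨c' ⟨j, hj⟩, (h69_mem_K0 H _).mpr (hc' ⟨j, hj⟩)⟩ : h69_K0 H) else 0) (by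
        apply Subtype.ext
        rw [← Finset.sum_coe_sort s]
        have h3 : ((∑ j : s, (if hj : (j : ι) ∈ s then
            (⟨c' ⟨j, hj⟩, (h69_mem_K0 H _).mpr (hc' ⟨j, hj⟩)⟩ : h69_K0 H) else 0) • g j :
            h69_F0 N H) : modularFunctionFieldBar N) =
            ∑ j : s, c' j • ((g j : h69_F0 N H) : modularFunctionFieldBar N) := by
          rw [← Subfield.coe_subtype, map_sum]
          refine Finset.sum_congr rfl fun j _ => ?_
          rw [Subfield.coe_subtype, h69_inst_smul, dif_pos j.2]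
        rw [h3, hrel]
        rfl) j j.2
      rw [dif_pos j.2] at h2
      exact congrArg Subtype.val h2)
    (fun j => c j) (by rw [Finset.sum_coe_sort s (fun j => c j • (g j : modularFunctionFieldBar N))]
                       exact hc) ⟨i, hi⟩
  exact h1

/-- A function of `F0` transcendental over `ℚ̄` is transcendental over `K0`. -/
theorem h69_inst_transcendental (x0 : h69_F0 N H)
    (hx : Transcendental Qb (x0 : modularFunctionFieldBar N)) :
    Transcendental (h69_K0 H) x0 := by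
  intro halg
  obtain ⟨p, hp0, hp⟩ := halg
  apply hx
  refine ⟨p.map (algebraMap (h69_K0 H) Qb),
    (Polynomial.map_ne_zero_iff (algebraMap (h69_K0 H) Qb).injective).mpr hp0, ?_⟩
  have h1 : aeval (x0 : modularFunctionFieldBar N) (p.map (algebraMap (h69_K0 H) Qb)) =
      (h69_F0 N H).subtype (aeval x0 p) := by
    rw [aeval_def, aeval_def, Polynomial.eval₂_map, Polynomial.hom_eval₂]
    rfl
  rw [h1, hp, map_zero]

/-- Polynomial relations with `H`-fixed coefficients, for `F̄(N)`. -/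
theorem h69_poly_dep (x : modularFunctionFieldBar N) (hx : x ∈ h69_F0 N H)
    [FiniteDimensional Qb⟮x⟯ (modularFunctionFieldBar N)]
    (f : Fin (Module.finrank Qb⟮x⟯ (modularFunctionFieldBar N) + 1) → modularFunctionFieldBar N)
    (hf : ∀ i, f i ∈ h69_F0 N H) :
    ∃ (d : ℕ) (c : Fin (Module.finrank Qb⟮x⟯ (modularFunctionFieldBar N) + 1) → Fin (d + 1) → Qb),
      (∀ i j, ∀ σ ∈ H, σ (c i j) = c i j) ∧ (∃ i j, c i j ≠ 0) ∧
      ∑ i, (∑ j, c i j • x ^ (j : ℕ)) * f i = 0 :=
  h69_poly_dep_core (arithmeticGalois (modularFunctionFieldFull N)) H x hx f hf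

/-- **`F0` is finite over `K0(x0)`** for `x0 ∈ F0` transcendental with `F` finite over `ℚ̄(x0)`. -/
theorem h69_inst_finite (x0 : h69_F0 N H)
    (hx : Transcendental Qb (x0 : modularFunctionFieldBar N))
    [FiniteDimensional Qb⟮(x0 : modularFunctionFieldBar N)⟯ (modularFunctionFieldBar N)] :
    FiniteDimensional (h69_K0 H)⟮x0⟯ (h69_F0 N H) := by
  classical
  refine h97_finite_of_dep x0 (h69_inst_transcendental N H x0 hx)
    ⟨Module.finrank Qb⟮(x0 : modularFunctionFieldBar N)⟯ (modularFunctionFieldBar N),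
      fun f => ?_⟩
  obtain ⟨d, c, hc, ⟨i1, j1, hne⟩, hrel⟩ := h69_poly_dep N H
    (x0 : modularFunctionFieldBar N) x0.2
    (fun i => ((f i : h69_F0 N H) : modularFunctionFieldBar N)) (fun i => (f i).2)
  refine ⟨fun i => ∑ j : Fin (d + 1), Polynomial.monomial (j : ℕ)
    (⟨c i j, (h69_mem_K0 H _).mpr (hc i j)⟩ : h69_K0 H), fun h0 => ?_, ?_⟩
  · have h1 := congrArg (fun p : Polynomial (h69_K0 H) => p.coeff (j1 : ℕ)) (congrFun h0 i1)
    simp only [Pi.zero_apply, Polynomial.coeff_zero, Polynomial.finsetSum_coeff,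
      Polynomial.coeff_monomial] at h1
    rw [Finset.sum_eq_single j1 (fun j _ hj => if_neg (fun h => hj (Fin.ext h)))
      (fun h => absurd (Finset.mem_univ _) h), if_pos rfl] at h1
    exact hne (congrArg Subtype.val h1)
  · apply Subtype.ext
    change (h69_F0 N H).subtype _ = (0 : modularFunctionFieldBar N)
    rw [map_sum]
    refine Eq.trans (Finset.sum_congr rfl fun i _ => ?_) hrel
    rw [map_mul, map_sum, map_sum]
    congr 1
    refine Finset.sum_congr rfl fun j _ => ?_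
    rw [Polynomial.aeval_monomial, map_mul, map_pow, Subfield.coe_subtype, Algebra.smul_def]
    rfl

/-- `F0` is finite over `K0(x0)` for a chart `x0 ∈ F0`. -/
theorem h69_inst_finite_of_chart (x0 : h69_F0 N H)
    (hx : Fermat.Agent.S18.h75_IsChart Qb (x0 : modularFunctionFieldBar N)) :
    FiniteDimensional (h69_K0 H)⟮x0⟯ (h69_F0 N H) :=
  haveI := hx.fin
  h69_inst_finite N H x0 hx.tr

end Carrier

section DVR

/-- A valuation subring with a nonzero non-unit `w` such that every nonzero element of the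
field is `w ^ n` times a unit is a discrete valuation ring (with uniformiser `w`). -/
theorem h69_isDVR_of_dv {K0 : Type*} [Field K0] (A0 : ValuationSubring K0) (w : K0)
    (hw0 : w ≠ 0) (hw : w ∈ A0.nonunits)
    (hdv : ∀ c : K0, c ≠ 0 → ∃ (n : ℤ) (u : K0), c = w ^ n * u ∧ u ∈ A0 ∧ u⁻¹ ∈ A0) :
    IsDiscreteValuationRing A0 := by
  have hwA : w ∈ A0 := A0.nonunits_le hw
  have hwinv : w⁻¹ ∉ A0 := by
    have h := (ValuationSubring.mem_nonunits_iff_or (A := A0)).mp hw
    exact h.resolve_left hw0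
  -- no positive power of `w` times an integral element is `1`
  have hkey : ∀ (k : ℕ) (t : K0), t ∈ A0 → w ^ (k + 1) * t ≠ 1 := by
    intro k t ht h1
    apply hwinv
    have h2 : w⁻¹ = w ^ k * t := by
      rw [pow_succ, mul_assoc, mul_comm] at h1
      exact inv_eq_of_mul_eq_one_right (by rw [← h1]; ring)
    rw [h2]
    exact A0.mul_mem _ _ (A0.pow_mem hwA k) ht
  have hnat : ∀ c : K0, c ≠ 0 → c ∈ A0 →
      ∃ (m : ℕ) (u : K0), c = w ^ m * u ∧ u ∈ A0 ∧ u⁻¹ ∈ A0 := by
    intro c hc0 hcA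
    obtain ⟨n, u, hcu, hu, hu'⟩ := hdv c hc0
    have hu0 : u ≠ 0 := by
      rintro rfl
      exact hc0 (by rw [hcu, mul_zero])
    rcases le_or_gt 0 n with hn | hn
    · obtain ⟨m, rfl⟩ := Int.eq_ofNat_of_zero_le hn
      exact ⟨m, u, by rw [hcu, zpow_natCast], hu, hu'⟩
    · exfalso
      obtain ⟨k, hk⟩ : ∃ k : ℕ, n = -((k : ℤ) + 1) := ⟨(-n - 1).toNat, by omega⟩
      refine hkey k (c * u⁻¹) (A0.mul_mem _ _ hcA hu') ?_
      rw [hcu, hk, zpow_neg, ← Nat.cast_succ, zpow_natCast]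
      field_simp
  have hunit : ∀ a : A0, ∀ u : K0, u ≠ 0 → (a : K0) = u → u⁻¹ ∈ A0 → IsUnit a := by
    intro a u hu0 hau hu'
    refine isUnit_iff_exists_inv.mpr ⟨⟨u⁻¹, hu'⟩, Subtype.ext ?_⟩
    show (a : K0) * u⁻¹ = 1
    rw [hau, mul_inv_cancel₀ hu0]
  refine IsDiscreteValuationRing.ofHasUnitMulPowIrreducibleFactorization
    ⟨⟨w, hwA⟩, ?_, fun {x} hx => ?_⟩
  · rw [irreducible_iff]
    refine ⟨fun hunitp => ?_, fun a b hab => ?_⟩
    · obtain ⟨y, hy⟩ := isUnit_iff_exists_inv.mp hunitp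
      have h1 : w * (y : K0) = 1 := congrArg Subtype.val hy
      exact hkey 0 (y : K0) y.2 (by rw [zero_add, pow_one]; exact h1)
    · have hab' : w = (a : K0) * (b : K0) := congrArg Subtype.val hab
      have ha0 : (a : K0) ≠ 0 := by
        intro h0
        exact hw0 (by rw [hab', h0, zero_mul])
      have hb0 : (b : K0) ≠ 0 := by
        intro h0
        exact hw0 (by rw [hab', h0, mul_zero])
      obtain ⟨m, u, hau, hu, hu'⟩ := hnat a ha0 a.2
      obtain ⟨k, v, hbv, hv, hv'⟩ := hnat b hb0 b.2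
      have hu0 : u ≠ 0 := by
        rintro rfl
        exact ha0 (by rw [hau, mul_zero])
      have hv0 : v ≠ 0 := by
        rintro rfl
        exact hb0 (by rw [hbv, mul_zero])
      rcases Nat.eq_zero_or_pos m with hm | hm
      · left
        exact hunit a u hu0 (by rw [hau, hm, pow_zero, one_mul]) hu'
      rcases Nat.eq_zero_or_pos k with hk | hk
      · right
        exact hunit b v hv0 (by rw [hbv, hk, pow_zero, one_mul]) hv'
      exfalso
      obtain ⟨j, hj⟩ : ∃ j : ℕ, m + k = j + 1 + 1 := ⟨m + k - 2, by omega⟩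
      refine hkey j (u * v) (A0.mul_mem _ _ hu hv) ?_
      have h2 : w * 1 = w * (w ^ (j + 1) * (u * v)) := by
        rw [mul_one]
        conv_lhs => rw [hab', hau, hbv]
        have h3 : w ^ m * u * (w ^ k * v) = w ^ (m + k) * (u * v) := by
          rw [pow_add]
          ring
        rw [h3, hj]
        ring
      exact (mul_left_cancel₀ hw0 h2).symm
  · have hx0 : (x : K0) ≠ 0 := fun h0 => hx (Subtype.ext h0)
    obtain ⟨m, u, hxu, hu, hu'⟩ := hnat x hx0 x.2
    have hu0 : u ≠ 0 := by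
      rintro rfl
      exact hx0 (by rw [hxu, mul_zero])
    refine ⟨m, ⟨⟨⟨u, hu⟩, ⟨u⁻¹, hu'⟩, Subtype.ext (mul_inv_cancel₀ hu0),
      Subtype.ext (inv_mul_cancel₀ hu0)⟩, Subtype.ext ?_⟩⟩
    show (w ^ m : K0) * u = x
    rw [hxu]

end DVR

section DVInst

variable (q : ℕ) [Fact q.Prime] (A : ValuationSubring Qb)

/-- **The carrier `A0`** `= A ∩ K0`, a valuation subring of `K0`. -/
abbrev h69_A0 : ValuationSubring (h69_K0 (A.inertiaSubgroupIn ℚ)) :=
  A.comap (algebraMap (h69_K0 (A.inertiaSubgroupIn ℚ)) Qb)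

theorem h69_mem_A0 (c : h69_K0 (A.inertiaSubgroupIn ℚ)) : c ∈ h69_A0 A ↔ (c : Qb) ∈ A :=
  Iff.rfl

/-- **(DV)** in terms of `K0`: every nonzero element of `K0` is `q ^ n` times a unit of `A0`. -/
theorem h69_inst_dv (hA : A.LiesOverPrime q) (c : h69_K0 (A.inertiaSubgroupIn ℚ)) (hc : c ≠ 0) :
    ∃ (n : ℤ) (u : h69_K0 (A.inertiaSubgroupIn ℚ)),
      c = (q : h69_K0 (A.inertiaSubgroupIn ℚ)) ^ n * u ∧ u ∈ h69_A0 A ∧ u⁻¹ ∈ h69_A0 A := by
  have hc' : (c : Qb) ≠ 0 := fun h0 => hc (Subtype.ext h0)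
  obtain ⟨n, u, hu, huA, huA', hufix⟩ := h69_dv q A hA (c : Qb) hc'
    (fun σ hσ => (h69_mem_K0 _ _).mp c.2 σ hσ)
  refine ⟨n, ⟨u, (h69_mem_K0 _ u).mpr hufix⟩, ?_, huA, ?_⟩
  · apply (algebraMap (h69_K0 (A.inertiaSubgroupIn ℚ)) Qb).injective
    rw [map_mul, map_zpow₀, map_natCast]
    exact hu
  · show ((⟨u, (h69_mem_K0 _ u).mpr hufix⟩ : h69_K0 (A.inertiaSubgroupIn ℚ))⁻¹ : Qb) ∈ A
    exact huA'

theorem h69_q_mem_nonunits (hA : A.LiesOverPrime q) :
    (q : h69_K0 (A.inertiaSubgroupIn ℚ)) ∈ (h69_A0 A).nonunits := by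
  have hq : q.Prime := Fact.out
  have h1 := (ValuationSubring.mem_nonunits_iff_or (A := A)).mp hA
  have hq0 : (q : Qb) ≠ 0 := by exact_mod_cast hq.ne_zero
  rw [ValuationSubring.mem_nonunits_iff_or]
  right
  intro h
  apply h1.resolve_left hq0
  have h2 : (((q : h69_K0 (A.inertiaSubgroupIn ℚ))⁻¹ : h69_K0 (A.inertiaSubgroupIn ℚ)) : Qb) ∈ A :=
    h
  have h3 : (((q : h69_K0 (A.inertiaSubgroupIn ℚ))⁻¹ : h69_K0 (A.inertiaSubgroupIn ℚ)) : Qb) =
      (q : Qb)⁻¹ := by
    rw [← IntermediateField.algebraMap_apply, map_inv₀, map_natCast]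
  rwa [h3] at h2

/-- **`A0 = A ∩ K0` is a discrete valuation ring** (with uniformiser `q`): in particular it is
noetherian and integrally closed with fraction field `K0`. -/
theorem h69_A0_isDVR (hA : A.LiesOverPrime q) : IsDiscreteValuationRing (h69_A0 A) := by
  have hq : q.Prime := Fact.out
  refine h69_isDVR_of_dv (h69_A0 A) (q : h69_K0 (A.inertiaSubgroupIn ℚ)) ?_
    (h69_q_mem_nonunits q A hA) (fun c hc => h69_inst_dv q A hA c hc)
  exact_mod_cast hq.ne_zero

end DVInst

end Fermat.Agent.S36
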