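/-
S36 / inputs (hunr), (hsep) of row (L1-b) (helper89).  Generic over a function field `F / K`.

`x` is a chart function with polar divisor `D0`, `Inv` the set of rational (Galois-invariant)
functions, `orb` a finite Galois-stable set of places of the chart.  If the Riemann–Roch spaces
`L(n D0 - orb)` are spanned by their rational elements (vector-space descent (K3)), then there
are rational chart functions with a simple zero at a place of `orb`, and rational chart functions
vanishing on `orb` and not at a given place outside `orb`.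
-/
import Fermat.Agent.S18.RR_Approx
import Fermat.Agent.S24.h35_PlaceBasic

set_option autoImplicit false

namespace Fermat.Agent.S36

open AlgebraicCurve Fermat.Agent.S18 Fermat.Agent.S24

variable {K F : Type*} [Field K] [Field F] [Algebra K F]

/-- A function whose orders on the chart `{x finite}` are bounded below by `E` lies in
`L(n D0 - E)` for some `n`, `D0` the polar divisor of `x`. -/
theorem h89_exists_rr_bound {x : F} (D0 : Divisor K F)
    (hD0 : ∀ v : Place K F, D0 v = max 0 (-v.ord x)) (E : Divisor K F) (f : F)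
    (hE : ∀ P : Place K F, 0 ≤ P.ord x → E P ≤ P.ord f) :
    ∃ n : ℕ, f ∈ riemannRochSpace (n • D0 - E) := by
  classical
  refine ⟨∑ P ∈ D0.support, (E P - P.ord f).toNat, ?_⟩
  rw [mem_riemannRochSpace_iff]
  intro v
  refine Or.inr ?_
  rw [Finsupp.sub_apply, Finsupp.smul_apply, nsmul_eq_mul]
  by_cases hv : 0 ≤ v.ord x
  · have h1 : D0 v = 0 := by rw [hD0 v]; omega
    have h2 := hE v hv
    rw [h1, mul_zero]
    omega
  · have h1 : 1 ≤ D0 v := by rw [hD0 v]; omega
    have hmem : v ∈ D0.support := by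
      rw [Finsupp.mem_support_iff]
      omega
    have h2 : (E v - v.ord f).toNat ≤ ∑ P ∈ D0.support, (E P - P.ord f).toNat :=
      Finset.single_le_sum (f := fun P => (E P - P.ord f).toNat) (fun _ _ => Nat.zero_le _) hmem
    have h3 : E v - v.ord f ≤ ((E v - v.ord f).toNat : ℤ) := Int.self_le_toNat _
    have h4 : ((E v - v.ord f).toNat : ℤ) ≤
        ((∑ P ∈ D0.support, (E P - P.ord f).toNat : ℕ) : ℤ) := by exact_mod_cast h2
    have h5 : (0 : ℤ) ≤ ((∑ P ∈ D0.support, (E P - P.ord f).toNat : ℕ) : ℤ) := Int.natCast_nonneg _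
    nlinarith

variable [IsAlgClosed K]

/-- **Rational chart functions with prescribed order at a place, vanishing on an orbit.**
`c = 1` if `P ∈ orb` (invariant uniformiser), `c = 0` if `P ∉ orb` (separation of orbits). -/
theorem h89_inv_exact {x : F} (hx : h75_IsChart K x) (D0 : Divisor K F)
    (hD0 : ∀ v : Place K F, D0 v = max 0 (-v.ord x)) (Inv : Set F)
    (orb : Finset (Place K F)) (horb : ∀ P ∈ orb, 0 ≤ P.ord x)
    (hK3 : ∀ n : ℕ, (riemannRochSpace (n • D0 - ∑ Q ∈ orb, Finsupp.single Q (1 : ℤ)) : Set F) ⊆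
      Submodule.span K
        (Inv ∩ (riemannRochSpace (n • D0 - ∑ Q ∈ orb, Finsupp.single Q (1 : ℤ)) : Set F)))
    (P : Place K F) (hP : 0 ≤ P.ord x) :
    ∃ t ∈ Inv, t ≠ 0 ∧ (∀ P' : Place K F, 0 ≤ P'.ord x → 0 ≤ P'.ord t) ∧
      (∀ P' ∈ orb, 1 ≤ P'.ord t) ∧ (P ∈ orb → P.ord t = 1) ∧ (P ∉ orb → P.ord t = 0) := by
  classical
  set Eorb : Divisor K F := ∑ Q ∈ orb, Finsupp.single Q (1 : ℤ) with hEorb
  have hEapp : ∀ v : Place K F, Eorb v = if v ∈ orb then 1 else 0 := by
    intro v
    rw [hEorb, Finsupp.finsetSum_apply]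
    simp only [Finsupp.single_apply]
    rw [Finset.sum_ite_eq' orb v]
  have hx0 : x ≠ 0 := hx.ne_zero
  have hmemx : ∀ Q : Place K F, 0 ≤ Q.ord x → x ∈ Q.toValuationSubring :=
    fun Q hQ => (h35_mem_iff_ord_nonneg Q hx0).2 hQ
  obtain ⟨f1, hf10, hf1S, hf1T⟩ := h75_exists_exact hx (insert P orb)
    (fun Q hQ => by
      rcases Finset.mem_insert.1 hQ with rfl | hQ
      · exact hmemx _ hP
      · exact hmemx _ (horb Q hQ))
    (fun Q => if Q ∈ orb then 1 else 0)
  have hf1E : ∀ Q : Place K F, 0 ≤ Q.ord x → Eorb Q ≤ Q.ord f1 := by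
    intro Q hQ
    rw [hEapp]
    by_cases hQS : Q ∈ insert P orb
    · rw [hf1S Q hQS]
    · have h1 := hf1T Q (hmemx Q hQ) hQS
      have h2 : Q ∉ orb := fun h => hQS (Finset.mem_insert_of_mem h)
      rw [if_neg h2]
      exact h1
  obtain ⟨n, hn⟩ := h89_exists_rr_bound D0 hD0 Eorb f1 hf1E
  have hD0P : D0 P = 0 := by rw [hD0 P]; omega
  -- `f1 ∉ L(n D0 - Eorb - P)`
  have hf1not : f1 ∉ riemannRochSpace (n • D0 - Eorb - Finsupp.single P (1 : ℤ)) := by
    intro h
    rw [mem_riemannRochSpace_iff] at h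
    rcases h P with h | h
    · exact hf10 h
    · rw [Finsupp.sub_apply, Finsupp.sub_apply, Finsupp.smul_apply, nsmul_eq_mul, hD0P,
        Finsupp.single_eq_same, hEapp, hf1S P (Finset.mem_insert_self P orb)] at h
      omega
  have hspan := hK3 n hn
  have hex : ∃ t ∈ Inv ∩ (riemannRochSpace (n • D0 - Eorb) : Set F),
      t ∉ riemannRochSpace (n • D0 - Eorb - Finsupp.single P (1 : ℤ)) := by
    by_contra hcon
    have hall : Inv ∩ (riemannRochSpace (n • D0 - Eorb) : Set F) ⊆
        (riemannRochSpace (n • D0 - Eorb - Finsupp.single P (1 : ℤ)) : Set F) := by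
      intro t ht
      by_contra h
      exact hcon ⟨t, ht, h⟩
    exact hf1not (Submodule.span_le.2 hall hspan)
  obtain ⟨t, ⟨htInv, htL⟩, htnot⟩ := hex
  have htL' := mem_riemannRochSpace_iff.1 htL
  have ht0 : t ≠ 0 := by
    rintro rfl
    exact htnot (Submodule.zero_mem _)
  have hbound : ∀ v : Place K F, Eorb v - n * D0 v ≤ v.ord t := by
    intro v
    rcases htL' v with h | h
    · exact absurd h ht0
    · rw [Finsupp.sub_apply, Finsupp.smul_apply, nsmul_eq_mul] at h
      omega
  suffices hmain : P.ord t = if P ∈ orb then 1 else 0 by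
    refine ⟨t, htInv, ht0, ?_, ?_, fun h => by rw [hmain, if_pos h], fun h => by rw [hmain, if_neg h]⟩
    · intro Q hQ
      have h1 : D0 Q = 0 := by rw [hD0 Q]; omega
      have h2 := hbound Q
      rw [h1, mul_zero, hEapp] at h2
      split_ifs at h2 <;> omega
    · intro Q hQ
      have h1 : D0 Q = 0 := by rw [hD0 Q]; have := horb Q hQ; omega
      have h2 := hbound Q
      rw [h1, mul_zero, hEapp, if_pos hQ] at h2
      omega
  refine ?_
  · have h2 := hbound P
    rw [hD0P, mul_zero, hEapp] at h2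
    have h3 : P.ord t < (if P ∈ orb then 1 else 0) + 1 := by
      by_contra hge
      apply htnot
      rw [mem_riemannRochSpace_iff]
      intro v
      refine Or.inr ?_
      rw [Finsupp.sub_apply, Finsupp.sub_apply, Finsupp.smul_apply, nsmul_eq_mul]
      by_cases hv : v = P
      · rw [hv, Finsupp.single_eq_same, hD0P, hEapp]
        omega
      · rw [Finsupp.single_apply, if_neg (Ne.symm hv)]
        have := hbound v
        omega
    omega

end Fermat.Agent.S36
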