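/-
S36 / (UNR-F0), (SEP-F0) (helper89): rational chart functions at a Galois orbit of places.

* `h89_inv_chart_of_orbit` (generic): a group `G` acting semilinearly on the function field `F/K`
  through `ρ`, a subgroup `H`, an `H`-invariant chart function `x` with polar divisor `D0`.
  If the Riemann–Roch spaces of `H`-invariant divisors are spanned by their `H`-invariant elements
  (vector-space descent (K3)) and the `H`-orbit of a chart place `P` is finite, then there is an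
  `H`-invariant function, regular on the chart, with a simple zero at `P`; and for every chart
  place `P'` outside the orbit an `H`-invariant function, regular on the chart, vanishing at `P`
  and not at `P'`.
* `h89_orbit_finite_modular` : orbits of places of `F̄(N)` under `Gal(ℚ̄/ℚ)` are finite.
-/
import Fermat.Agent.S36.h89_InvChart
import Fermat.Agent.S17.h83_Smooth

set_option autoImplicit false

namespace Fermat.Agent.S36

open AlgebraicCurve Fermat.Agent.S18

section generic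

variable {K F : Type*} [Field K] [Field F] [Algebra K F]

theorem h89_sum_single_apply (orb : Finset (Place K F)) (v : Place K F) :
    (∑ Q ∈ orb, Finsupp.single Q (1 : ℤ) : Divisor K F) v =
      @ite ℤ (v ∈ orb) (Classical.propDecidable _) 1 0 := by
  classical
  rw [Finsupp.finsetSum_apply]
  simp only [Finsupp.single_apply]
  rw [Finset.sum_ite_eq' orb v]
  congr

variable [IsAlgClosed K]

/-- **(UNR-F0) and (SEP-F0)** from vector-space descent, for a finite orbit of chart places. -/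
theorem h89_inv_chart_of_orbit {G : Type*} [Group G] (ρ : G →* SemilinearAut K F)
    (H : Subgroup G) {x : F} (hx : h75_IsChart K x) (hxH : ∀ σ ∈ H, ρ σ • x = x)
    (D0 : Divisor K F) (hD0 : ∀ v : Place K F, D0 v = max 0 (-v.ord x))
    (hK3 : ∀ D : Divisor K F, (∀ σ ∈ H, ρ σ • D = D) →
      (riemannRochSpace D : Set F) ⊆
        Submodule.span K ({t : F | ∀ σ ∈ H, ρ σ • t = t} ∩ (riemannRochSpace D : Set F)))
    (P : Place K F) (hP : 0 ≤ P.ord x)
    (hfin : {Q : Place K F | ∃ σ ∈ H, ρ σ • P = Q}.Finite) :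
    (∃ t : F, (∀ σ ∈ H, ρ σ • t = t) ∧ t ≠ 0 ∧
        (∀ Q : Place K F, 0 ≤ Q.ord x → 0 ≤ Q.ord t) ∧ P.ord t = 1) ∧
      ∀ P' : Place K F, 0 ≤ P'.ord x → (∀ σ ∈ H, ρ σ • P ≠ P') →
        ∃ g : F, (∀ σ ∈ H, ρ σ • g = g) ∧ g ≠ 0 ∧
          (∀ Q : Place K F, 0 ≤ Q.ord x → 0 ≤ Q.ord g) ∧ 1 ≤ P.ord g ∧ P'.ord g = 0 := by
  classical
  set orb : Finset (Place K F) := hfin.toFinset with horbdef
  have hmem : ∀ Q : Place K F, Q ∈ orb ↔ ∃ σ ∈ H, ρ σ • P = Q := by
    intro Q
    rw [horbdef, Set.Finite.mem_toFinset]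
    rfl
  have hPorb : P ∈ orb := (hmem P).2 ⟨1, H.one_mem, by rw [map_one, one_smul]⟩
  -- orders of `x` along the action
  have hord : ∀ σ ∈ H, ∀ Q : Place K F, (ρ σ • Q).ord x = Q.ord x := by
    intro σ hσ Q
    have h := SemilinearAut.ord_smul (ρ σ) Q x
    rwa [hxH σ hσ] at h
  have hord' : ∀ σ ∈ H, ∀ Q : Place K F, ((ρ σ)⁻¹ • Q).ord x = Q.ord x := by
    intro σ hσ Q
    have h := hord σ⁻¹ (H.inv_mem hσ) Q
    rwa [map_inv] at h
  have horb : ∀ Q ∈ orb, 0 ≤ Q.ord x := by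
    intro Q hQ
    obtain ⟨σ, hσ, rfl⟩ := (hmem Q).1 hQ
    rw [hord σ hσ]
    exact hP
  -- the orbit is stable
  have hstab : ∀ σ ∈ H, ∀ Q : Place K F, ((ρ σ)⁻¹ • Q ∈ orb ↔ Q ∈ orb) := by
    intro σ hσ Q
    rw [hmem, hmem]
    constructor
    · rintro ⟨τ, hτ, h⟩
      refine ⟨σ * τ, H.mul_mem hσ hτ, ?_⟩
      rw [map_mul, mul_smul, h, smul_inv_smul]
    · rintro ⟨τ, hτ, h⟩
      refine ⟨σ⁻¹ * τ, H.mul_mem (H.inv_mem hσ) hτ, ?_⟩
      rw [map_mul, mul_smul, h, map_inv]
  -- invariance of the divisors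
  have hDinv : ∀ n : ℕ, ∀ σ ∈ H,
      ρ σ • (n • D0 - ∑ Q ∈ orb, Finsupp.single Q (1 : ℤ)) =
        n • D0 - ∑ Q ∈ orb, Finsupp.single Q (1 : ℤ) := by
    intro n σ hσ
    ext w
    rw [SemilinearAut.divisor_smul_apply, Finsupp.sub_apply, Finsupp.sub_apply,
      Finsupp.smul_apply, Finsupp.smul_apply, h89_sum_single_apply, h89_sum_single_apply,
      hD0, hD0, hord' σ hσ w]
    congr 1
    by_cases hw : w ∈ orb
    · rw [if_pos hw, if_pos ((hstab σ hσ w).2 hw)]
    · rw [if_neg hw, if_neg (fun h => hw ((hstab σ hσ w).1 h))]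
  have hK3' : ∀ n : ℕ,
      (riemannRochSpace (n • D0 - ∑ Q ∈ orb, Finsupp.single Q (1 : ℤ)) : Set F) ⊆
        Submodule.span K ({t : F | ∀ σ ∈ H, ρ σ • t = t} ∩
          (riemannRochSpace (n • D0 - ∑ Q ∈ orb, Finsupp.single Q (1 : ℤ)) : Set F)) :=
    fun n => hK3 _ (hDinv n)
  refine ⟨?_, ?_⟩
  · obtain ⟨t, htInv, ht0, htreg, -, ht1, -⟩ :=
      h89_inv_exact hx D0 hD0 {t : F | ∀ σ ∈ H, ρ σ • t = t} orb horb hK3' P hP
    exact ⟨t, htInv, ht0, htreg, ht1 hPorb⟩
  · intro P' hP' hne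
    have hP'orb : P' ∉ orb := by
      intro h
      obtain ⟨σ, hσ, h1⟩ := (hmem P').1 h
      exact hne σ hσ h1
    obtain ⟨g, hgInv, hg0, hgreg, hgorb, -, hg0'⟩ :=
      h89_inv_exact hx D0 hD0 {t : F | ∀ σ ∈ H, ρ σ • t = t} orb horb hK3' P' hP'
    exact ⟨g, hgInv, hg0, hgreg, hgorb P hPorb, hg0' hP'orb⟩

end generic

section modular

open ModularCurve IntermediateField

local notation "Qb" => AlgebraicClosure ℚ

/-- Orbits of places of `F̄(N)` under the absolute Galois group are finite. -/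
theorem h89_orbit_finite_modular (N : ℕ) [NeZero N] (H : Subgroup (Qb ≃ₐ[ℚ] Qb))
    (P : Place Qb (modularFunctionFieldBar N)) :
    {Q : Place Qb (modularFunctionFieldBar N) |
      ∃ σ ∈ H, arithmeticGalois (modularFunctionFieldFull N) σ • P = Q}.Finite := by
  classical
  obtain ⟨E, hE, hfix⟩ := Fermat.Agent.S17.h83_place_level N P
  -- the orbit map factors through the restriction to `E`
  let r : (Qb ≃ₐ[ℚ] Qb) → (E →ₐ[ℚ] Qb) := fun σ => (σ : Qb →ₐ[ℚ] Qb).comp E.val
  have hr : ∀ σ τ : Qb ≃ₐ[ℚ] Qb, r σ = r τ →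
      arithmeticGalois (modularFunctionFieldFull N) σ • P =
        arithmeticGalois (modularFunctionFieldFull N) τ • P := by
    intro σ τ h
    have hmemfix : τ⁻¹ * σ ∈ E.fixingSubgroup := by
      rw [IntermediateField.mem_fixingSubgroup_iff]
      intro a ha
      have h1 : σ a = τ a := by
        have := DFunLike.congr_fun h ⟨a, ha⟩
        exact this
      show τ⁻¹ (σ a) = a
      rw [h1]
      exact τ.symm_apply_apply a
    have h2 := hfix _ hmemfix
    rw [map_mul, mul_smul, map_inv] at h2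
    exact inv_smul_eq_iff.1 h2
  let g : (E →ₐ[ℚ] Qb) → Place Qb (modularFunctionFieldBar N) := fun φ =>
    if h : ∃ σ : Qb ≃ₐ[ℚ] Qb, r σ = φ then
      arithmeticGalois (modularFunctionFieldFull N) h.choose • P
    else P
  have : FiniteDimensional ℚ E := hE
  refine (Set.finite_range g).subset ?_
  rintro Q ⟨σ, -, rfl⟩
  refine ⟨r σ, ?_⟩
  have hex : ∃ τ : Qb ≃ₐ[ℚ] Qb, r τ = r σ := ⟨σ, rfl⟩
  show (if h : ∃ τ : Qb ≃ₐ[ℚ] Qb, r τ = r σ then
      arithmeticGalois (modularFunctionFieldFull N) h.choose • P else P) = _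
  rw [dif_pos hex]
  exact hr _ _ hex.choose_spec

end modular

end Fermat.Agent.S36
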