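import Mathlib
import Fermat.Agent.S36.h80_ChartPlace
import Fermat.Agent.S36.h89_InvOrbit

/-!
# S36 / producer row (VF): the horizontal inputs for the field of invariants (helper80)

`G` acts semilinearly on the function field `F / K` through `ρ`, `H ≤ G`, `F₀` a subfield of `F`
whose elements are the `H`-invariant functions, `x ∈ F₀` a chart function,
`U = {P | 0 ≤ ord_P x}` the chart.  From vector-space descent (K3) and finiteness of the
`H`-orbits of places (`h89_inv_chart_of_orbit`):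

* `h80_inv_hunr` : every chart place has an element of `F₀`, regular on the chart, of order `1`;
* `h80_inv_hsep` : two chart places with different restrictions to `F₀` are separated by an
  element of `F₀` regular on the chart.

These are the hypotheses `hunr`, `hsep` of `h80_chartFam_hunr`, `h80_chartFam_hsep` for the
horizontal valuations `h80_placeOrd F₀.subtype U`.
-/

set_option autoImplicit false
set_option linter.unusedSectionVars false

namespace Fermat.Agent.S36

open AlgebraicCurve Fermat.Agent.S18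

variable {K F : Type*} [Field K] [Field F] [Algebra K F] [IsAlgClosed K]
variable {G : Type*} [Group G] (ρ : G →* SemilinearAut K F) (H : Subgroup G)
  (F0 : Subfield F) (hF0 : ∀ t : F, t ∈ F0 ↔ ∀ σ ∈ H, ρ σ • t = t)
  {x : F} (hx : h75_IsChart K x) (hxF0 : x ∈ F0)
  (D0 : Divisor K F) (hD0 : ∀ v : Place K F, D0 v = max 0 (-v.ord x))
  (hK3 : ∀ D : Divisor K F, (∀ σ ∈ H, ρ σ • D = D) →
    (riemannRochSpace D : Set F) ⊆
      Submodule.span K ({t : F | ∀ σ ∈ H, ρ σ • t = t} ∩ (riemannRochSpace D : Set F)))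
  (hfin : ∀ P : Place K F, {Q : Place K F | ∃ σ ∈ H, ρ σ • P = Q}.Finite)

/-- The chart of `x`. -/
def h80_chartSet (K : Type*) {F : Type*} [Field K] [Field F] [Algebra K F] (x : F) :
    Set (Place K F) := {P | 0 ≤ P.ord x}

theorem h80_mem_chartSet (P : Place K F) : P ∈ h80_chartSet K x ↔ 0 ≤ P.ord x := Iff.rfl

include hF0 in
/-- Conjugate places induce the same valuation on the invariants. -/
theorem h80_inv_ord_smul (σ : G) (hσ : σ ∈ H) (P : Place K F) (f : F0) :
    (ρ σ • P).ord (f : F) = P.ord (f : F) := by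
  have h1 : ρ σ • (f : F) = (f : F) := (hF0 _).1 f.2 σ hσ
  have h2 := SemilinearAut.ord_smul (ρ σ) P (f : F)
  rw [h1] at h2
  exact h2

include hF0 hx hxF0 hD0 hK3 hfin in
/-- (hunr) for the invariants. -/
theorem h80_inv_hunr (p : h80_chartSet K x) :
    ∃ t : F0, t ≠ 0 ∧ (∀ p' : h80_chartSet K x, 0 ≤ h80_placeOrd F0.subtype _ p' t) ∧
      h80_placeOrd F0.subtype _ p t = 1 := by
  obtain ⟨⟨t, htinv, ht0, htreg, ht1⟩, -⟩ :=
    h89_inv_chart_of_orbit ρ H hx (fun σ hσ => (hF0 x).1 hxF0 σ hσ) D0 hD0 hK3 p.1 p.2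
      (hfin p.1)
  refine ⟨⟨t, (hF0 t).2 htinv⟩, ?_, fun p' => htreg p'.1 p'.2, ht1⟩
  intro h
  exact ht0 (congrArg Subtype.val h)

include hF0 hx hxF0 hD0 hK3 hfin in
/-- (hsep) for the invariants. -/
theorem h80_inv_hsep (p p' : h80_chartSet K x)
    (hpp : h80_placeOrd F0.subtype (h80_chartSet K x) p ≠
      h80_placeOrd F0.subtype (h80_chartSet K x) p') :
    ∃ g : F0, g ≠ 0 ∧ (∀ p'' : h80_chartSet K x, 0 ≤ h80_placeOrd F0.subtype _ p'' g) ∧
      0 < h80_placeOrd F0.subtype _ p g ∧ h80_placeOrd F0.subtype _ p' g = 0 := by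
  obtain ⟨-, hsep⟩ :=
    h89_inv_chart_of_orbit ρ H hx (fun σ hσ => (hF0 x).1 hxF0 σ hσ) D0 hD0 hK3 p.1 p.2
      (hfin p.1)
  have hnc : ∀ σ ∈ H, ρ σ • (p.1 : Place K F) ≠ p'.1 := by
    intro σ hσ e
    apply hpp
    funext f
    show (p.1 : Place K F).ord (F0.subtype f) = (p'.1 : Place K F).ord (F0.subtype f)
    rw [← e]
    exact (h80_inv_ord_smul ρ H F0 hF0 σ hσ p.1 f).symm
  obtain ⟨g, hginv, hg0, hgreg, hg1, hg2⟩ := hsep p'.1 p'.2 hnc
  refine ⟨⟨g, (hF0 g).2 hginv⟩, ?_, fun p'' => hgreg p''.1 p''.2, ?_, hg2⟩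
  · intro h
    exact hg0 (congrArg Subtype.val h)
  · show 0 < (p.1 : Place K F).ord g
    omega

end Fermat.Agent.S36
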