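import Mathlib

/-!
# S36 / producer row (NOETH), generic core: integrality from two scaled integralities (helper80)

`R` an integrally closed domain, `π` a prime element of `R`, `L` a field containing `R`.

* `h80_integral_of_scaled` : if `s * f` and `π ^ n * f` are integral over `R` with `π ∤ s`, then
  `f` is integral over `R`.  (The coefficients `c` of the minimal polynomial of `f` over
  `Frac R` satisfy `s ^ k * c ∈ R` and `π ^ (n k) * c ∈ R`; `π` prime and `π ∤ s` give `c ∈ R`.)
* `h80_integral_of_localizations` : `f` integral over the localisation of `R` at the prime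
  `(π)` and over `R[1/π]`  ⟹  `f` integral over `R`.

Application: `R = A₀[x]` (`A₀` the discrete valuation ring of `K₀`, `π = q`), `L = F₀`:
an element of `F₀` which is integral over the Gauss valuation ring `A₀[x]_(q)` (all vertical
valuations `≥ 0`) and over `K₀[x] = A₀[x][1/q]` (regular on the chart) is integral over `A₀[x]`.
So the chart ring `{v ≥ 0}` is the integral closure of `A₀[x]`, hence noetherian.
-/

set_option autoImplicit false

namespace Fermat.Agent.S36

open Polynomial

/-- If `s ^ k * c` and `π ^ N * c` lie in `R` with `π` prime, `π ∤ s`, then `c ∈ R`. -/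
theorem h80_mem_of_scaled {R K : Type*} [CommRing R] [IsDomain R] [Field K] [Algebra R K]
    [FaithfulSMul R K] {π : R} (hπ : Prime π) {s : R} (hs : ¬ π ∣ s) (k N : ℕ) {c : K}
    (h1 : c * algebraMap R K s ^ k ∈ Set.range (algebraMap R K))
    (h2 : c * algebraMap R K π ^ N ∈ Set.range (algebraMap R K)) :
    c ∈ Set.range (algebraMap R K) := by
  obtain ⟨a, ha⟩ := h1
  obtain ⟨a', ha'⟩ := h2
  have hinj : Function.Injective (algebraMap R K) := FaithfulSMul.algebraMap_injective R K
  -- `π ^ N * a = s ^ k * a'`
  have he : s ^ k * a' = π ^ N * a := by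
    apply hinj
    rw [map_mul, map_mul, map_pow, map_pow, ha, ha']
    ring
  have hsk : ¬ π ∣ s ^ k := fun h => hs (hπ.dvd_of_dvd_pow h)
  have hdvd : π ^ N ∣ a' := hπ.pow_dvd_of_dvd_mul_left N hsk ⟨a, he⟩
  obtain ⟨r, hr⟩ := hdvd
  refine ⟨r, ?_⟩
  have hπ0 : algebraMap R K π ^ N ≠ 0 :=
    pow_ne_zero N ((map_ne_zero_iff _ hinj).2 hπ.ne_zero)
  have h3 : algebraMap R K r * algebraMap R K π ^ N = c * algebraMap R K π ^ N := by
    rw [← ha', hr, map_mul, map_pow]
    ring
  exact mul_right_cancel₀ hπ0 h3

/-- **Integrality from two scaled integralities.** -/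
theorem h80_integral_of_scaled {R L : Type*} [CommRing R] [IsDomain R] [IsIntegrallyClosed R]
    [Field L] [Algebra R L] [FaithfulSMul R L] {π : R} (hπ : Prime π) {s : R} (hs : ¬ π ∣ s)
    (n : ℕ) {f : L} (hsf : IsIntegral R (algebraMap R L s * f))
    (hnf : IsIntegral R (algebraMap R L (π ^ n) * f)) : IsIntegral R f := by
  classical
  let K := FractionRing R
  let _ : Algebra K L := FractionRing.liftAlgebra R L
  have : IsScalarTower R K L := FractionRing.isScalarTower_liftAlgebra R L
  have hinjL : Function.Injective (algebraMap R L) := FaithfulSMul.algebraMap_injective R L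
  have hinjK : Function.Injective (algebraMap R K) := FaithfulSMul.algebraMap_injective R K
  have hs0 : s ≠ 0 := by
    rintro rfl
    exact hs (dvd_zero π)
  have hπn0 : π ^ n ≠ 0 := pow_ne_zero n hπ.ne_zero
  -- `f` is integral over `K`
  have hfK : IsIntegral K f := by
    have h1 : IsIntegral K (algebraMap R L s * f) := hsf.tower_top
    have h2 : IsIntegral K (algebraMap K L (algebraMap R K s)⁻¹) := isIntegral_algebraMap
    have h3 := h2.mul h1
    have hsL : algebraMap R L s ≠ 0 := (map_ne_zero_iff _ hinjL).2 hs0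
    have h4 : algebraMap K L (algebraMap R K s)⁻¹ * (algebraMap R L s * f) = f := by
      rw [map_inv₀, ← IsScalarTower.algebraMap_apply R K L, ← mul_assoc, inv_mul_cancel₀ hsL,
        one_mul]
    rwa [h4] at h3
  set Pm := minpoly K f with hPm
  -- the coefficients of `Pm`, scaled by powers of a nonzero `a` with `a f` integral, lie in `R`
  have key : ∀ a : R, a ≠ 0 → IsIntegral R (algebraMap R L a * f) → ∀ i,
      Pm.coeff i * algebraMap R K a ^ (Pm.natDegree - i) ∈ Set.range (algebraMap R K) := by
    intro a ha hint i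
    have haK : algebraMap R K a ≠ 0 := (map_ne_zero_iff _ hinjK).2 ha
    have h1 : minpoly K (algebraMap R K a • f) = Pm.scaleRoots (algebraMap R K a) :=
      IsIntegrallyClosed.minpoly_smul haK hfK
    have h2 : algebraMap R K a • f = algebraMap R L a * f := by
      rw [Algebra.smul_def, ← IsScalarTower.algebraMap_apply R K L]
    rw [h2] at h1
    have h3 : minpoly K (algebraMap R L a * f)
        = (minpoly R (algebraMap R L a * f)).map (algebraMap R K) :=
      minpoly.isIntegrallyClosed_eq_field_fractions' K hint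
    have h4 : (Pm.scaleRoots (algebraMap R K a)).coeff i
        = ((minpoly R (algebraMap R L a * f)).map (algebraMap R K)).coeff i := by
      rw [← h1, h3]
    rw [coeff_scaleRoots, coeff_map] at h4
    exact ⟨_, h4.symm⟩
  have hcoeff : ∀ i, Pm.coeff i ∈ Set.range (algebraMap R K) := by
    intro i
    have h1 := key s hs0 hsf i
    have h2 := key (π ^ n) hπn0 hnf i
    rw [map_pow, ← pow_mul] at h2
    exact h80_mem_of_scaled hπ hs _ _ h1 h2
  have hlift : Pm ∈ Polynomial.lifts (algebraMap R K) :=
    (Polynomial.lifts_iff_coeff_lifts Pm).2 hcoeff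
  obtain ⟨Q, hQmap, -, hQmonic⟩ :=
    Polynomial.lifts_and_natDegree_eq_and_monic hlift (minpoly.monic hfK)
  refine ⟨Q, hQmonic, ?_⟩
  have h5 : aeval f (Q.map (algebraMap R K)) = 0 := by
    rw [hQmap]
    exact minpoly.aeval K f
  rw [aeval_map_algebraMap] at h5
  rw [← aeval_def]
  exact h5

/-- `f` integral over the localisation `R₁` of `R` at the prime `(π)` and over `R₂ = R[1/π]`
⟹ `f` integral over `R`. -/
theorem h80_integral_of_localizations {R L : Type*} [CommRing R] [IsDomain R]
    [IsIntegrallyClosed R] [Field L] [Algebra R L] [FaithfulSMul R L] {π : R} (hπ : Prime π)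
    (M₁ : Submonoid R) (hM₁ : ∀ s ∈ M₁, ¬ π ∣ s)
    {R₁ : Type*} [CommRing R₁] [Algebra R R₁] [IsLocalization M₁ R₁] [Algebra R₁ L]
    [IsScalarTower R R₁ L]
    {R₂ : Type*} [CommRing R₂] [Algebra R R₂] [IsLocalization.Away π R₂] [Algebra R₂ L]
    [IsScalarTower R R₂ L]
    {f : L} (h₁ : IsIntegral R₁ f) (h₂ : IsIntegral R₂ f) : IsIntegral R f := by
  obtain ⟨⟨s, hsM⟩, hs⟩ := IsIntegral.exists_multiple_integral_of_isLocalization M₁ f h₁
  obtain ⟨⟨t, n, rfl⟩, ht⟩ :=
    IsIntegral.exists_multiple_integral_of_isLocalization (Submonoid.powers π) f h₂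
  rw [Submonoid.smul_def, Algebra.smul_def] at hs ht
  exact h80_integral_of_scaled hπ (hM₁ s hsM) n hs ht

end Fermat.Agent.S36
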