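import Mathlib
import Fermat.Agent.S36.h80_NormalGlue

/-!
# S36 / (NOETH): scaling integral elements (helper80)

Mathlib-only, in the language of `RingHom.IsIntegralElem` (no algebra instances).

* `h80_exists_scaled_integralElem` : `φ : R →+* L`, `ψ : S →+* L`, `M` a submonoid of `R` such
  that every element of `ψ S` is moved into `φ R` by some `φ m`, `m ∈ M`.  If `f` is integral
  over `S`, then `φ m * f` is integral over `R` for some `m ∈ M`.
* `h80_integralElem_of_scaled` : the `RingHom` form of `h80_integral_of_scaled`.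
* `h80_integralElem_glue` : `R` an integrally closed domain, `π` prime; `f` integral over `S₁`
  (whose elements are moved into `R` by multipliers prime to `π`) and over `S₂` (whose elements
  are moved into `R` by powers of `π`)  ⟹  `f` integral over `R`.
-/

set_option autoImplicit false

namespace Fermat.Agent.S36

open Polynomial

theorem h80_exists_common_scale {R S L : Type*} [CommRing R] [CommRing S] [CommRing L]
    (φ : R →+* L) (ψ : S →+* L) (M : Submonoid R)
    (hfrac : ∀ v : S, ∃ m ∈ M, ∃ r : R, φ m * ψ v = φ r) (s : Finset S) :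
    ∃ m ∈ M, ∀ v ∈ s, ∃ r : R, φ m * ψ v = φ r := by
  classical
  induction s using Finset.induction_on with
  | empty => exact ⟨1, M.one_mem, fun v hv => absurd hv (Finset.notMem_empty v)⟩
  | insert a s _ ih =>
    obtain ⟨m, hm, hms⟩ := ih
    obtain ⟨m', hm', r', hr'⟩ := hfrac a
    refine ⟨m * m', M.mul_mem hm hm', fun v hv => ?_⟩
    rcases Finset.mem_insert.1 hv with rfl | hv
    · refine ⟨m * r', ?_⟩
      rw [map_mul, map_mul, ← hr']
      ring
    · obtain ⟨r, hr⟩ := hms v hv
      refine ⟨m' * r, ?_⟩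
      rw [map_mul, map_mul, ← hr]
      ring

/-- **Scaling an integral element**: if every element of `S` is moved into `R` by a multiplier
from `M`, an element integral over `S` becomes integral over `R` after multiplication by some
`m ∈ M`. -/
theorem h80_exists_scaled_integralElem {R S L : Type*} [CommRing R] [CommRing S] [CommRing L]
    (φ : R →+* L) (ψ : S →+* L) (M : Submonoid R)
    (hfrac : ∀ v : S, ∃ m ∈ M, ∃ r : R, φ m * ψ v = φ r) {f : L} (hf : ψ.IsIntegralElem f) :
    ∃ m ∈ M, φ.IsIntegralElem (φ m * f) := by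
  classical
  obtain ⟨p, hp, hroot⟩ := hf
  set d := p.natDegree with hd
  obtain ⟨m, hm, hms⟩ := h80_exists_common_scale φ ψ M hfrac ((Finset.range d).image p.coeff)
  have hall : ∀ i, ∃ r : R, i < d → φ m * ψ (p.coeff i) = φ r := by
    intro i
    by_cases hi : i < d
    · obtain ⟨r, hr⟩ := hms (p.coeff i) (Finset.mem_image.2 ⟨i, Finset.mem_range.2 hi, rfl⟩)
      exact ⟨r, fun _ => hr⟩
    · exact ⟨0, fun h => absurd h hi⟩
  choose r hr using hall
  refine ⟨m, hm, X ^ d + ∑ i ∈ Finset.range d, C (r i * m ^ (d - 1 - i)) * X ^ i, ?_, ?_⟩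
  · refine monic_X_pow_add ?_
    refine (degree_sum_le _ _).trans_lt ((Finset.sup_lt_iff (WithBot.bot_lt_coe d)).2 ?_)
    intro i hi
    exact (degree_C_mul_X_pow_le i _).trans_lt (WithBot.coe_lt_coe.2 (Finset.mem_range.1 hi))
  · have h1 : f ^ d + ∑ i ∈ Finset.range d, ψ (p.coeff i) * f ^ i = 0 := by
      have h2 := hroot
      rw [hp.as_sum, eval₂_add, eval₂_pow, eval₂_X, eval₂_finset_sum] at h2
      rw [← h2, ← hd]
      congr 1
      refine Finset.sum_congr rfl fun i _ => ?_
      rw [eval₂_mul, eval₂_C, eval₂_pow, eval₂_X]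
    rw [eval₂_add, eval₂_pow, eval₂_X, eval₂_finset_sum]
    have h3 : ∀ i ∈ Finset.range d,
        eval₂ φ (φ m * f) (C (r i * m ^ (d - 1 - i)) * X ^ i) =
          φ m ^ d * (ψ (p.coeff i) * f ^ i) := by
      intro i hi
      have hi' : i < d := Finset.mem_range.1 hi
      rw [eval₂_mul, eval₂_C, eval₂_pow, eval₂_X, map_mul, map_pow, ← hr i hi']
      have hd' : d = 1 + (d - 1 - i) + i := by omega
      conv_rhs => rw [hd']
      ring
    rw [Finset.sum_congr rfl h3, ← Finset.mul_sum, mul_pow, ← mul_add, h1, mul_zero]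

/-- The `RingHom` form of `h80_integral_of_scaled`. -/
theorem h80_integralElem_of_scaled {R L : Type*} [CommRing R] [IsDomain R]
    [IsIntegrallyClosed R] [Field L] (φ : R →+* L) (hφ : Function.Injective φ) {π : R}
    (hπ : Prime π) {s : R} (hs : ¬ π ∣ s) (n : ℕ) {f : L} (h1 : φ.IsIntegralElem (φ s * f))
    (h2 : φ.IsIntegralElem (φ (π ^ n) * f)) : φ.IsIntegralElem f := by
  letI : Algebra R L := φ.toAlgebra
  haveI : FaithfulSMul R L := (faithfulSMul_iff_algebraMap_injective R L).2 hφ
  exact h80_integral_of_scaled hπ hs n h1 h2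

/-- **Gluing integrality**: `f` integral over `S₁` and over `S₂`, where the elements of `S₁`
are moved into `R` by multipliers prime to `π` and those of `S₂` by powers of `π`
⟹ `f` integral over `R`. -/
theorem h80_integralElem_glue {R S₁ S₂ L : Type*} [CommRing R] [IsDomain R]
    [IsIntegrallyClosed R] [CommRing S₁] [CommRing S₂] [Field L] (φ : R →+* L)
    (hφ : Function.Injective φ) {π : R} (hπ : Prime π)
    (ψ₁ : S₁ →+* L) (h₁ : ∀ v : S₁, ∃ s : R, ¬ π ∣ s ∧ ∃ r : R, φ s * ψ₁ v = φ r)
    (ψ₂ : S₂ →+* L) (h₂ : ∀ v : S₂, ∃ n : ℕ, ∃ r : R, φ (π ^ n) * ψ₂ v = φ r)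
    {f : L} (hf₁ : ψ₁.IsIntegralElem f) (hf₂ : ψ₂.IsIntegralElem f) : φ.IsIntegralElem f := by
  -- the submonoid of the multipliers prime to `π`
  let M₁ : Submonoid R :=
    { carrier := {s | ¬ π ∣ s}
      mul_mem' := fun {a b} ha hb h => (hπ.dvd_or_dvd h).elim ha hb
      one_mem' := fun h => hπ.not_unit (isUnit_of_dvd_one h) }
  obtain ⟨s, hs, hsf⟩ := h80_exists_scaled_integralElem φ ψ₁ M₁
    (fun v => by
      obtain ⟨s, hs, r, hr⟩ := h₁ v
      exact ⟨s, hs, r, hr⟩) hf₁
  obtain ⟨t, ⟨n, rfl⟩, htf⟩ := h80_exists_scaled_integralElem φ ψ₂ (Submonoid.powers π)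
    (fun v => by
      obtain ⟨n, r, hr⟩ := h₂ v
      exact ⟨π ^ n, ⟨n, rfl⟩, r, hr⟩) hf₂
  exact h80_integralElem_of_scaled φ hφ hπ hs n hsf htf

end Fermat.Agent.S36
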