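import Mathlib
import Fermat.Agent.S36.h80_ChartInv
import Fermat.Agent.S36.h80_ScaleInt
import Fermat.Agent.S36.h69_K0Inst
import Fermat.Agent.S36.h5_IntegK0
import Fermat.Agent.S19.h2_ModChartJ
import Fermat.Agent.S18.h54_ModLevel
import Fermat.Agent.S18.h64_RankOne
import Fermat.Agent.S18.RR_Riemann
import Fermat.Agent.S36.h5_ChartDiv

/-!
# S36 / row I-FAM: the chart valuation families at a modular level (helper80)

`N` a level, `H` a subgroup of `Gal(ℚ̄/ℚ)`, `F₀ = h69_F0 N H` the `H`-fixed functions,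
`w c : F₀ → ℤ` finitely many vertical valuations (row I-VAL), `x` a chart function of `F̄(N)`.

* `h80_famOf N H w hw_mul hw_add x hx : h80_ValFam (h69_F0 N H) (κ ⊕ _)` : the valuation family
  of the chart `{P | 0 ≤ ord_P x}`; `h80_mem_famOf_B` its chart ring.
* `h80_famOf_hq`, `h80_famOf_hunr`, `h80_famOf_hsep` : the horizontal inputs of
  `h89_unitStar` / `h62_unitStar_of_branches` (for `x ∈ F₀`).
* `h80_famOf_noeth` : the chart ring is noetherian, from the vertical integrality (I-VAL).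
* `h80_fam1`, `h80_fam2` : the two charts of `j` (`x = j` and `x = j⁻¹`).
-/

set_option autoImplicit false
set_option linter.unusedSectionVars false
set_option linter.style.haveILetI false

noncomputable section

namespace Fermat.Agent.S36

open AlgebraicCurve ModularCurve Polynomial
open Fermat.Agent.S18 Fermat.Agent.S24 Fermat.Agent.S19

local notation "Qb" => AlgebraicClosure ℚ

section Fam

variable (N : ℕ) [NeZero N] (H : Subgroup (Qb ≃ₐ[ℚ] Qb))
variable {κ : Type*} [Finite κ] (w : κ → h69_F0 N H → ℤ)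
  (hw_mul : ∀ c (f g : h69_F0 N H), f ≠ 0 → g ≠ 0 → w c (f * g) = w c f + w c g)
  (hw_add : ∀ c (f g : h69_F0 N H), f ≠ 0 → g ≠ 0 → f + g ≠ 0 →
    min (w c f) (w c g) ≤ w c (f + g))

/-- The horizontal valuations of `F₀` on the chart of `x`. -/
abbrev h80_horOrd (x : modularFunctionFieldBar N) :
    h80_chartSet Qb x → h69_F0 N H → ℤ :=
  h80_placeOrd (h69_F0 N H).subtype (h80_chartSet Qb x)

/-- **The chart family** of the chart function `x` at level `N`: vertical valuations `w c`,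
horizontal valuations = the places `P` with `0 ≤ ord_P x`, restricted to `F₀`. -/
def h80_famOf (x : modularFunctionFieldBar N) (hx : h75_IsChart Qb x) :
    h80_ValFam (h69_F0 N H) (κ ⊕ h80_HorIdx (h80_horOrd N H x)) :=
  h80_placeFam (h69_F0 N H).subtype (h80_chartSet Qb x) w hw_mul hw_add
    (fun f hf => (h75_finite_ord_ne hx f hf).subset fun _ hP => hP.2)

variable (x : modularFunctionFieldBar N) (hx : h75_IsChart Qb x)

local notation "VX" => h80_famOf N H w hw_mul hw_add x hx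

theorem h80_famOf_v_inl (c : κ) (f : h69_F0 N H) : (VX).v (Sum.inl c) f = w c f := rfl

theorem h80_famOf_v_mk (P : Place Qb (modularFunctionFieldBar N)) (hP : 0 ≤ P.ord x)
    (f : h69_F0 N H) :
    (VX).v (Sum.inr (h80_horMk (h80_horOrd N H x) ⟨P, hP⟩)) f =
      P.ord (f : modularFunctionFieldBar N) := rfl

/-- Every horizontal index comes from a place of the chart. -/
theorem h80_famOf_hor (i : κ ⊕ h80_HorIdx (h80_horOrd N H x)) (hi : h80_IsHor i) :
    ∃ (P : Place Qb (modularFunctionFieldBar N)) (hP : 0 ≤ P.ord x),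
      i = Sum.inr (h80_horMk (h80_horOrd N H x) ⟨P, hP⟩) :=
  h80_placeFam_hor _ _ i hi

/-- **The chart ring**: the `H`-fixed functions with non-negative vertical valuations which are
regular on the chart. -/
theorem h80_mem_famOf_B (f : h69_F0 N H) :
    f ∈ (VX).B ↔ f = 0 ∨ ((∀ c, 0 ≤ w c f) ∧
      ∀ P : Place Qb (modularFunctionFieldBar N), 0 ≤ P.ord x →
        0 ≤ P.ord (f : modularFunctionFieldBar N)) :=
  h80_mem_placeFam_B _ _ w hw_mul hw_add _ f

/-- (hq): a nonzero constant of `F₀` is a unit at every horizontal valuation. -/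
theorem h80_famOf_hq (a : Qb) (haF0 : algebraMap Qb (modularFunctionFieldBar N) a ∈ h69_F0 N H)
    (i : κ ⊕ h80_HorIdx (h80_horOrd N H x)) (hi : h80_IsHor i) :
    (VX).v i ⟨algebraMap Qb (modularFunctionFieldBar N) a, haF0⟩ = 0 := by
  obtain ⟨P, hP, rfl⟩ := h80_famOf_hor N H x i hi
  exact h35_ord_algebraMap P a

/-- (hunr): every horizontal valuation takes the value `1` on the chart ring. -/
theorem h80_famOf_hunr (hxF0 : x ∈ h69_F0 N H) (q0 : h69_F0 N H) (hq0 : q0 ≠ 0)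
    (hqh : ∀ P : Place Qb (modularFunctionFieldBar N), 0 ≤ P.ord x →
      P.ord (q0 : modularFunctionFieldBar N) = 0)
    (hqw : ∀ c, 0 < w c q0)
    (i : κ ⊕ h80_HorIdx (h80_horOrd N H x)) (hi : h80_IsHor i) :
    ∃ f : (VX).B, (f : h69_F0 N H) ≠ 0 ∧ (VX).v i f = 1 := by
  haveI : HasPrincipalDivisors Qb (modularFunctionFieldBar N) := h75_hasPrincipalDivisors hx
  obtain ⟨D0, -, hD0, -⟩ := h5_exists_chart_divisors (K := Qb) x hx.ne_zero
  exact h80_chartFam_hunr w (h80_horOrd N H x) hw_mul hw_add (h80_placeOrd_mul _ _)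
    (h80_placeOrd_add _ _)
    (h80_placeOrd_fin _ _ (fun f hf => (h75_finite_ord_ne hx f hf).subset fun _ hP => hP.2))
    hq0 (fun p => hqh p.1 p.2) hqw
    (fun p => h80_inv_hunr (arithmeticGalois (modularFunctionFieldFull N)) H (h69_F0 N H)
      (h69_mem_F0 N H) hx hxF0 D0 hD0 (fun D hD => h69_K3 N H D hD)
      (fun P => h89_orbit_finite_modular N H P) p) i hi

/-- (hsep): two different horizontal valuations are separated by an element of the chart
ring. -/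
theorem h80_famOf_hsep (hxF0 : x ∈ h69_F0 N H) (q0 : h69_F0 N H) (hq0 : q0 ≠ 0)
    (hqh : ∀ P : Place Qb (modularFunctionFieldBar N), 0 ≤ P.ord x →
      P.ord (q0 : modularFunctionFieldBar N) = 0)
    (hqw : ∀ c, 0 < w c q0)
    (i j : κ ⊕ h80_HorIdx (h80_horOrd N H x)) (hi : h80_IsHor i) (hj : h80_IsHor j)
    (hij : i ≠ j) :
    ∃ f : (VX).B, (f : h69_F0 N H) ≠ 0 ∧ 0 < (VX).v i f ∧ (VX).v j f = 0 := by
  haveI : HasPrincipalDivisors Qb (modularFunctionFieldBar N) := h75_hasPrincipalDivisors hx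
  obtain ⟨D0, -, hD0, -⟩ := h5_exists_chart_divisors (K := Qb) x hx.ne_zero
  exact h80_chartFam_hsep w (h80_horOrd N H x) hw_mul hw_add (h80_placeOrd_mul _ _)
    (h80_placeOrd_add _ _)
    (h80_placeOrd_fin _ _ (fun f hf => (h75_finite_ord_ne hx f hf).subset fun _ hP => hP.2))
    hq0 (fun p => hqh p.1 p.2) hqw
    (fun p p' hpp => h80_inv_hsep (arithmeticGalois (modularFunctionFieldFull N)) H (h69_F0 N H)
      (h69_mem_F0 N H) hx hxF0 D0 hD0 (fun D hD => h69_K3 N H D hD)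
      (fun P => h89_orbit_finite_modular N H P) p p' hpp) i j hi hj hij

end Fam

section Generic

/-- In a valuation subring with a uniformiser `w` (in the sense of `hdv`), every element is
zero, a unit, or divisible by `w`. -/
theorem h80_dv_trichotomy {K0 : Type*} [Field K0] (A0 : ValuationSubring K0) (w : K0)
    (hw0 : w ≠ 0) (hw : w ∈ A0)
    (hdv : ∀ c : K0, c ≠ 0 → ∃ (n : ℤ) (u : K0), c = w ^ n * u ∧ u ∈ A0 ∧ u⁻¹ ∈ A0)
    (a : A0.toSubring) : a = 0 ∨ IsUnit a ∨ (⟨w, hw⟩ : A0.toSubring) ∣ a := by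
  by_cases ha0 : a = 0
  · exact Or.inl ha0
  right
  have ha0' : (a : K0) ≠ 0 := fun h => ha0 (Subtype.ext h)
  obtain ⟨n, u, hau, hu, hu'⟩ := hdv (a : K0) ha0'
  have hu0 : u ≠ 0 := by
    rintro rfl
    exact ha0' (by rw [hau, mul_zero])
  rcases lt_or_ge 0 n with hn | hn
  · right
    obtain ⟨m, rfl⟩ : ∃ m : ℕ, n = (m : ℤ) + 1 := ⟨(n - 1).toNat, by omega⟩
    refine ⟨⟨w ^ m * u, A0.mul_mem _ _ (A0.pow_mem hw m) hu⟩, Subtype.ext ?_⟩
    show (a : K0) = w * (w ^ m * u)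
    rw [hau, zpow_add_one₀ hw0, zpow_natCast]
    ring
  · left
    obtain ⟨m, rfl⟩ : ∃ m : ℕ, n = -(m : ℤ) := ⟨(-n).toNat, by omega⟩
    refine isUnit_iff_exists_inv.mpr ⟨⟨w ^ m * u⁻¹, A0.mul_mem _ _ (A0.pow_mem hw m) hu'⟩,
      Subtype.ext ?_⟩
    show (a : K0) * (w ^ m * u⁻¹) = 1
    rw [hau, zpow_neg, zpow_natCast]
    field_simp

/-- A uniformiser (in the sense of `hdv`) of a valuation subring is a prime element. -/
theorem h80_prime_of_dv {K0 : Type*} [Field K0] (A0 : ValuationSubring K0) (w : K0)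
    (hw0 : w ≠ 0) (hw : w ∈ A0.nonunits)
    (hdv : ∀ c : K0, c ≠ 0 → ∃ (n : ℤ) (u : K0), c = w ^ n * u ∧ u ∈ A0 ∧ u⁻¹ ∈ A0) :
    Prime (⟨w, A0.nonunits_le hw⟩ : A0.toSubring) := by
  have hnu : ¬ IsUnit (⟨w, A0.nonunits_le hw⟩ : A0.toSubring) := by
    intro hunit
    obtain ⟨y, hy⟩ := isUnit_iff_exists_inv.mp hunit
    have h1 : w * (y : K0) = 1 := congrArg Subtype.val hy
    have h2 : w⁻¹ = (y : K0) := inv_eq_of_mul_eq_one_right h1
    have h3 := (ValuationSubring.mem_nonunits_iff_or (A := A0)).mp hw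
    exact (h3.resolve_left hw0) (h2 ▸ y.2)
  refine ⟨fun h => hw0 (congrArg Subtype.val h), hnu, fun a b hab => ?_⟩
  rcases h80_dv_trichotomy A0 w hw0 (A0.nonunits_le hw) hdv a with rfl | ha | ha
  · exact Or.inl (dvd_zero _)
  · rcases h80_dv_trichotomy A0 w hw0 (A0.nonunits_le hw) hdv b with rfl | hb | hb
    · exact Or.inr (dvd_zero _)
    · exact absurd (isUnit_of_dvd_unit hab (ha.mul hb)) hnu
    · exact Or.inr hb
  · exact Or.inl ha

/-- Clearing the denominators of an element of `ℚ̄[x]` by a power of `q`. -/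
theorem h80_adjoin_scale {F : Type*} [Field F] [Algebra Qb F] (q : ℕ) [Fact q.Prime]
    (A : ValuationSubring Qb) (hA : A.LiesOverPrime q) (x : F)
    (v : F) (hv : v ∈ Algebra.adjoin Qb {x}) :
    ∃ (n : ℕ) (r : Polynomial A.toSubring),
      algebraMap Qb F (q : Qb) ^ n * v = h97_ev A.toSubring x r := by
  have hqA : (q : Qb) ∈ A.nonunits := hA
  induction hv using Algebra.adjoin_induction with
  | mem y hy =>
    rw [Set.mem_singleton_iff] at hy
    subst hy
    exact ⟨0, X, by rw [pow_zero, one_mul, h97_ev_X]⟩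
  | algebraMap c =>
    rcases eq_or_ne c 0 with rfl | hc
    · exact ⟨0, 0, by simp⟩
    · obtain ⟨n, t, ht, hnt⟩ := h64_rankOne_Qbar (Fact.out : q.Prime) A hA (q : Qb) hqA c⁻¹
        (inv_ne_zero hc)
      refine ⟨n, C ⟨t, ht⟩, ?_⟩
      rw [h97_ev_C, ← map_pow, ← map_mul, hnt]
      congr 1
      show c⁻¹ * t * c = t
      field_simp
  | add v₁ v₂ _ _ h₁ h₂ =>
    obtain ⟨n₁, r₁, e₁⟩ := h₁
    obtain ⟨n₂, r₂, e₂⟩ := h₂
    have hqA' : (q : Qb) ∈ A.toSubring := A.nonunits_le hqA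
    refine ⟨n₁ + n₂, C ⟨(q : Qb), hqA'⟩ ^ n₂ * r₁ + C ⟨(q : Qb), hqA'⟩ ^ n₁ * r₂, ?_⟩
    rw [map_add, map_mul, map_mul, map_pow, map_pow, h97_ev_C, ← e₁, ← e₂]
    show algebraMap Qb F (q : Qb) ^ (n₁ + n₂) * (v₁ + v₂) = algebraMap Qb F (q : Qb) ^ n₂ * _ +
      algebraMap Qb F (q : Qb) ^ n₁ * _
    ring
  | mul v₁ v₂ _ _ h₁ h₂ =>
    obtain ⟨n₁, r₁, e₁⟩ := h₁
    obtain ⟨n₂, r₂, e₂⟩ := h₂
    refine ⟨n₁ + n₂, r₁ * r₂, ?_⟩
    rw [map_mul, ← e₁, ← e₂]
    ring

end Generic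

section Noeth

variable (N : ℕ) [NeZero N] (q : ℕ) [Fact q.Prime] (A : ValuationSubring Qb)
  (hA : A.LiesOverPrime q)
variable {κ : Type*} [Finite κ] (w : κ → h69_F0 N (A.inertiaSubgroupIn ℚ) → ℤ)
  (hw_mul : ∀ c (f g : h69_F0 N (A.inertiaSubgroupIn ℚ)), f ≠ 0 → g ≠ 0 →
    w c (f * g) = w c f + w c g)
  (hw_add : ∀ c (f g : h69_F0 N (A.inertiaSubgroupIn ℚ)), f ≠ 0 → g ≠ 0 → f + g ≠ 0 →
    min (w c f) (w c g) ≤ w c (f + g))
  (x0 : h69_F0 N (A.inertiaSubgroupIn ℚ))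
  (hx : h75_IsChart Qb (x0 : modularFunctionFieldBar N))

include hA hx in
/-- (b) a function of `F₀` regular on the chart becomes integral over `A₀[x]` after
multiplication by a power of `q`. -/
theorem h80_hor_integral (f : h69_F0 N (A.inertiaSubgroupIn ℚ))
    (hf : ∀ P : Place Qb (modularFunctionFieldBar N),
      0 ≤ P.ord (x0 : modularFunctionFieldBar N) → 0 ≤ P.ord (f : modularFunctionFieldBar N)) :
    ∃ n : ℕ, (h97_ev (h69_A0 A).toSubring x0).IsIntegralElem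
      ((q : h69_F0 N (A.inertiaSubgroupIn ℚ)) ^ n * f) := by
  -- Step 1: integrality over `ℚ̄[x]`
  have h1 : IsIntegral (Algebra.adjoin Qb {(x0 : modularFunctionFieldBar N)})
      (f : modularFunctionFieldBar N) := by
    refine (h75_isIntegral_iff hx _).2 fun P hP => ?_
    by_cases hf0 : (f : modularFunctionFieldBar N) = 0
    · rw [hf0]; exact zero_mem _
    · exact (h35_mem_iff_ord_nonneg P hf0).2
        (hf P ((h35_mem_iff_ord_nonneg P hx.ne_zero).1 hP))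
  -- Step 2: scaling by a power of `q` gives integrality over `A[x]`
  have hqA : (q : Qb) ∈ A.toSubring := A.nonunits_le hA
  obtain ⟨m, ⟨n, rfl⟩, h2⟩ := h80_exists_scaled_integralElem
    (h97_ev A.toSubring (x0 : modularFunctionFieldBar N))
    (algebraMap (Algebra.adjoin Qb {(x0 : modularFunctionFieldBar N)}) (modularFunctionFieldBar N))
    (Submonoid.powers (C (⟨(q : Qb), hqA⟩ : A.toSubring)))
    (fun v => by
      obtain ⟨n, r, hr⟩ := h80_adjoin_scale q A hA (x0 : modularFunctionFieldBar N) (v : _) v.2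
      refine ⟨_, ⟨n, rfl⟩, r, ?_⟩
      rw [map_pow, h97_ev_C]
      exact hr) h1
  refine ⟨n, ?_⟩
  -- Step 3: descent of the constants to `A₀`
  refine h97_int_descent (algebraMap (h69_K0 (A.inertiaSubgroupIn ℚ)) Qb)
    (h69_F0 N (A.inertiaSubgroupIn ℚ)).subtype (h69_inst_comm N (A.inertiaSubgroupIn ℚ))
    (h69_A0 A).toSubring A.toSubring
    (h5_integ_carrier A (algebraMap (h69_K0 (A.inertiaSubgroupIn ℚ)) Qb)
      (fun c hc => ⟨⟨c, (h69_mem_K0 (A.inertiaSubgroupIn ℚ) c).2 hc⟩, rfl⟩)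
      (h69_A0 A).toSubring (fun c0 h => h))
    x0 _ (h97_ev A.toSubring (x0 : modularFunctionFieldBar N)) (h97_ev_C _ _) (h97_ev_X _ _) ?_
  have h3 : (h69_F0 N (A.inertiaSubgroupIn ℚ)).subtype
      ((q : h69_F0 N (A.inertiaSubgroupIn ℚ)) ^ n * f) =
      h97_ev A.toSubring (x0 : modularFunctionFieldBar N) (C (⟨(q : Qb), hqA⟩ : A.toSubring) ^ n) *
        (f : modularFunctionFieldBar N) := by
    rw [map_pow, h97_ev_C]
    simp
  rw [h3]
  exact h2

include hA in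
/-- **The chart ring is noetherian** (row I-FAM), from the vertical integrality (row I-VAL):
`hvert` says that a function of `F₀` with non-negative vertical valuations is integral over
`A₀[x]` after multiplication by some `s(x)`, `s ∈ A₀[X]` not divisible by `q`
(i.e. it is integral over the Gauss ring of `(A₀, x)`). -/
theorem h80_famOf_noeth
    (hwA : ∀ c (a : h69_K0 (A.inertiaSubgroupIn ℚ)), a ∈ h69_A0 A → a ≠ 0 →
      0 ≤ w c (algebraMap (h69_K0 (A.inertiaSubgroupIn ℚ)) (h69_F0 N (A.inertiaSubgroupIn ℚ)) a))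
    (hwx : ∀ c, 0 ≤ w c x0)
    (hvert : ∀ f : h69_F0 N (A.inertiaSubgroupIn ℚ), f ≠ 0 → (∀ c, 0 ≤ w c f) →
      ∃ s : Polynomial (h69_A0 A).toSubring,
        (∃ i, (s.coeff i : h69_K0 (A.inertiaSubgroupIn ℚ))⁻¹ ∈ h69_A0 A ∧ s.coeff i ≠ 0) ∧
        (h97_ev (h69_A0 A).toSubring x0).IsIntegralElem (h97_ev (h69_A0 A).toSubring x0 s * f)) :
    IsNoetherianRing
      (h80_famOf N (A.inertiaSubgroupIn ℚ) w hw_mul hw_add (x0 : modularFunctionFieldBar N) hx).B ∧
    ∀ f ∈ (h80_famOf N (A.inertiaSubgroupIn ℚ) w hw_mul hw_add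
        (x0 : modularFunctionFieldBar N) hx).B,
      (h97_ev (h69_A0 A).toSubring x0).IsIntegralElem f := by
  have hqprime : q.Prime := Fact.out
  haveI hdvr : IsDiscreteValuationRing (h69_A0 A).toSubring := h69_A0_isDVR q A hA
  haveI hfr : IsFractionRing (h69_A0 A).toSubring (h69_K0 (A.inertiaSubgroupIn ℚ)) :=
    inferInstanceAs (IsFractionRing (h69_A0 A) (h69_K0 (A.inertiaSubgroupIn ℚ)))
  haveI : CharZero (h69_K0 (A.inertiaSubgroupIn ℚ)) :=
    charZero_of_injective_algebraMap (algebraMap ℚ (h69_K0 (A.inertiaSubgroupIn ℚ))).injective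
  have hx0 : Transcendental (h69_K0 (A.inertiaSubgroupIn ℚ)) x0 :=
    h69_inst_transcendental N (A.inertiaSubgroupIn ℚ) x0 hx.tr
  haveI := h69_inst_finite_of_chart N (A.inertiaSubgroupIn ℚ) x0 hx
  have hq0 : (q : h69_K0 (A.inertiaSubgroupIn ℚ)) ≠ 0 := by exact_mod_cast hqprime.ne_zero
  have hπ := h80_prime_of_dv (h69_A0 A) (q : h69_K0 (A.inertiaSubgroupIn ℚ)) hq0
    (h69_q_mem_nonunits q A hA) (h69_inst_dv q A hA)
  have hint : ∀ f ∈ (h80_famOf N (A.inertiaSubgroupIn ℚ) w hw_mul hw_add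
      (x0 : modularFunctionFieldBar N) hx).B,
      (h97_ev (h69_A0 A).toSubring x0).IsIntegralElem f := by
    intro f hfB
    by_cases hf0 : f = 0
    · rw [hf0]; exact (h97_ev (h69_A0 A).toSubring x0).isIntegralElem_zero
    rcases (h80_mem_famOf_B N (A.inertiaSubgroupIn ℚ) w hw_mul hw_add
      (x0 : modularFunctionFieldBar N) hx f).1 hfB with h0 | ⟨hv, hh⟩
    · exact absurd h0 hf0
    obtain ⟨s, ⟨i, hi_unit, hi_ne⟩, hs⟩ := hvert f hf0 hv
    obtain ⟨n, hn⟩ := h80_hor_integral N q A hA x0 hx f hh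
    have hCπ : Prime (C (⟨(q : h69_K0 (A.inertiaSubgroupIn ℚ)),
        (h69_A0 A).nonunits_le (h69_q_mem_nonunits q A hA)⟩ : (h69_A0 A).toSubring)) :=
      Polynomial.prime_C_iff.2 hπ
    have hnd : ¬ C (⟨(q : h69_K0 (A.inertiaSubgroupIn ℚ)),
        (h69_A0 A).nonunits_le (h69_q_mem_nonunits q A hA)⟩ : (h69_A0 A).toSubring) ∣ s := by
      intro hdvd
      have h1 := (Polynomial.C_dvd_iff_dvd_coeff _ _).1 hdvd i
      have h2 : IsUnit (s.coeff i) := by
        refine isUnit_iff_exists_inv.mpr ⟨⟨_, hi_unit⟩, Subtype.ext ?_⟩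
        show (s.coeff i : h69_K0 (A.inertiaSubgroupIn ℚ)) * (s.coeff i : h69_K0 _)⁻¹ = 1
        exact mul_inv_cancel₀ (fun h => hi_ne (Subtype.ext h))
      exact hπ.not_unit (isUnit_of_dvd_unit h1 h2)
    refine h80_integralElem_of_scaled (h97_ev (h69_A0 A).toSubring x0)
      (h97_ev_injective _ x0 hx0) hCπ hnd n hs ?_
    rw [map_pow, h97_ev_C]
    have h3 : algebraMap (h69_K0 (A.inertiaSubgroupIn ℚ)) (h69_F0 N (A.inertiaSubgroupIn ℚ))
        ((⟨(q : h69_K0 (A.inertiaSubgroupIn ℚ)),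
        (h69_A0 A).nonunits_le (h69_q_mem_nonunits q A hA)⟩ : (h69_A0 A).toSubring) :
          h69_K0 (A.inertiaSubgroupIn ℚ)) = (q : h69_F0 N (A.inertiaSubgroupIn ℚ)) :=
      map_natCast _ q
    rw [h3]
    exact hn
  refine ⟨h97_noeth (h69_A0 A).toSubring x0 hx0 _ ?_ ?_ hint, hint⟩
  · intro a
    by_cases ha0 : (a : h69_K0 (A.inertiaSubgroupIn ℚ)) = 0
    · rw [ha0, map_zero]; exact zero_mem _
    refine (h80_mem_famOf_B N (A.inertiaSubgroupIn ℚ) w hw_mul hw_add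
      (x0 : modularFunctionFieldBar N) hx _).2 (Or.inr ⟨fun c => hwA c a a.2 ha0, fun P _ => ?_⟩)
    rw [h69_inst_comm, h35_ord_algebraMap]
  · exact (h80_mem_famOf_B N (A.inertiaSubgroupIn ℚ) w hw_mul hw_add
      (x0 : modularFunctionFieldBar N) hx _).2 (Or.inr ⟨hwx, fun P hP => hP⟩)

end Noeth

section Charts

variable (N : ℕ) [NeZero N] (H : Subgroup (Qb ≃ₐ[ℚ] Qb))

/-- `j ∈ F₀`. -/
theorem h80_jbar_mem_F0 : h59_jbar N ∈ h69_F0 N H := fun σ _ => h2_jbar_fix N σ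

/-- `j⁻¹ ∈ F₀`. -/
theorem h80_jbar_inv_mem_F0 : (h59_jbar N)⁻¹ ∈ h69_F0 N H :=
  (h69_F0 N H).inv_mem (h80_jbar_mem_F0 N H)

variable {κ : Type*} [Finite κ] (w : κ → h69_F0 N H → ℤ)
  (hw_mul : ∀ c (f g : h69_F0 N H), f ≠ 0 → g ≠ 0 → w c (f * g) = w c f + w c g)
  (hw_add : ∀ c (f g : h69_F0 N H), f ≠ 0 → g ≠ 0 → f + g ≠ 0 →
    min (w c f) (w c g) ≤ w c (f + g))

/-- **Chart 1**: the places where `j` is finite. -/
def h80_fam1 : h80_ValFam (h69_F0 N H) (κ ⊕ h80_HorIdx (h80_horOrd N H (h59_jbar N))) :=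
  h80_famOf N H w hw_mul hw_add (h59_jbar N) (h54_isChart_jbar N)

/-- **Chart 2**: the places where `j⁻¹` is finite (contains all cusps). -/
def h80_fam2 : h80_ValFam (h69_F0 N H) (κ ⊕ h80_HorIdx (h80_horOrd N H (h59_jbar N)⁻¹)) :=
  h80_famOf N H w hw_mul hw_add (h59_jbar N)⁻¹ (h75_isChart_inv (h54_isChart_jbar N))

end Charts

end Fermat.Agent.S36
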