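import Mathlib
import Fermat.Agent.S36.h80_LocGen

/-!
# S36 / S40 : the NODE INTERFACE (helper62 + helper48), in the language of `h80_ValFam`

One frozen interface between the producers (the `K₀`-rational local structure of the level-`N'q`
model, built on the S34 chart package) and the consumers (G36: triple points and thick component
of level `q²M'`; G40: the slope congruence (TH0) at a regular node).

`V : h80_ValFam F ι` is the family of the `ℤ`-valued valuations of the `K₀`-rational function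
field `F`: the vertical ones (components of the special fibre) and the horizontal ones (closed
points of the generic fibre off `D0`); `V.B` is the `K₀`-rational chart ring; a point of the
special fibre is a maximal ideal `m` of `V.B` containing `q`.

* `h62_UnitStar V m` : **(UNIT\*)** every valuation through `m` has a local equation at `m`
  (`⟸` the local ring at `m` is a UFD, by the PID-lift).
* `h62_Pt V q m c z e` : **one-branch point**: exactly one vertical valuation `c` passes through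
  `m`, `z` is its local equation, `v_c q = e` (`e = 1`, `z = q`: smooth point of a reduced
  component; `e = q - 1`: point of the thick component of level `q²M'`), and (UNIT\*).
* `h62_Node V q m c1 c2 a b` : **regular node**: exactly two vertical valuations `c1, c2` pass
  through `m`, with local equations `a, b` (`v_c1 a = 1`, `v_c2 b = 1`, all other valuations
  through `m` vanish on `a` and `b`), `v_c1 q = v_c2 q = 1`, `m B_m = (a, b) B_m`, and (UNIT\*).
* consequences: `a * b = q * ψ` with `ψ` a unit at `m` (`h62_Node.psi`), and the factorisation of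
  G40's (TH0) (`h62_Node.factor`, from `h80_node_factor`).
-/

set_option autoImplicit false

namespace Fermat.Agent.S36

variable {F : Type*} [Field F] {ι : Type*}

/-- **(UNIT\*)** at the point `m`: every valuation through `m` has a local equation at `m`. -/
def h62_UnitStar (V : h80_ValFam F ι) (m : Ideal V.B) : Prop :=
  ∀ i, V.Through m i →
    ∃ e : F, e ≠ 0 ∧ V.v i e = 1 ∧ ∀ j, V.Through m j → j ≠ i → V.v j e = 0

/-- **One-branch point** of the special fibre: `c` is the only vertical valuation through `m`,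
`z` its local equation, `v_c q = e`. -/
structure h62_Pt (V : h80_ValFam F ι) (q : ℕ) (m : Ideal V.B) (c : ι) (z : V.B) (e : ℕ) :
    Prop where
  isMax : m.IsMaximal
  q_mem : (q : V.B) ∈ m
  q_ne : (q : F) ≠ 0
  thr : V.Through m c
  vert : ∀ i, V.Through m i → 0 < V.v i (q : F) → i = c
  z_ne : (z : F) ≠ 0
  vz : V.v c z = 1
  vz' : ∀ i, V.Through m i → i ≠ c → V.v i z = 0
  vq : V.v c (q : F) = e
  unitStar : h62_UnitStar V m

/-- **Regular node** of the special fibre: `c1, c2` are the vertical valuations through `m`,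
with local equations `a, b`; `m B_m = (a, b) B_m`; `q` has valuation `1` on both branches. -/
structure h62_Node (V : h80_ValFam F ι) (q : ℕ) (m : Ideal V.B) (c1 c2 : ι) (a b : V.B) :
    Prop where
  isMax : m.IsMaximal
  q_mem : (q : V.B) ∈ m
  q_ne : (q : F) ≠ 0
  c_ne : c1 ≠ c2
  thr1 : V.Through m c1
  thr2 : V.Through m c2
  vert : ∀ i, V.Through m i → 0 < V.v i (q : F) → i = c1 ∨ i = c2
  horiz : ∀ i, V.Through m i → i ≠ c1 → i ≠ c2 → V.v i (q : F) = 0
  vq1 : V.v c1 (q : F) = 1
  vq2 : V.v c2 (q : F) = 1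
  a_ne : (a : F) ≠ 0
  b_ne : (b : F) ≠ 0
  va1 : V.v c1 a = 1
  va : ∀ i, V.Through m i → i ≠ c1 → V.v i a = 0
  vb2 : V.v c2 b = 1
  vb : ∀ i, V.Through m i → i ≠ c2 → V.v i b = 0
  gen : ∀ f : V.B, f ∈ m → ∃ t x y : V.B, t ∉ m ∧ t * f = x * a + y * b
  unitStar : h62_UnitStar V m

namespace h62_Node

variable {V : h80_ValFam F ι} {q : ℕ} {m : Ideal V.B} {c1 c2 : ι} {a b : V.B}

/-- `ψ := a b / q` is a unit at the node: all valuations through `m` vanish on it. -/
theorem psi (h : h62_Node V q m c1 c2 a b) :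
    ((a : F) * b / q ≠ 0) ∧ ∀ i, V.Through m i → V.v i ((a : F) * b / q) = 0 := by
  have hab : (a : F) * b ≠ 0 := mul_ne_zero h.a_ne h.b_ne
  refine ⟨div_ne_zero hab h.q_ne, fun i hi => ?_⟩
  rw [h80_v_div V i hab h.q_ne, V.map_mul i _ _ h.a_ne h.b_ne]
  by_cases h1 : i = c1
  · subst h1
    rw [h.va1, h.vb i hi h.c_ne, h.vq1]
    ring
  · by_cases h2 : i = c2
    · subst h2
      rw [h.va i hi h1, h.vb2, h.vq2]
      ring
    · rw [h.va i hi h1, h.vb i hi h2, h.horiz i hi h1 h2]
      ring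

/-- The factorisation behind (TH0): a function whose orders at the horizontal valuations through
the node are divisible by `n` is `unit * a ^ v_c1 * b ^ v_c2 * (n-th power)`. -/
theorem factor (h : h62_Node V q m c1 c2 a b) (n : ℕ) {f : F} (hf : f ≠ 0)
    (hdiv : ∀ i, V.Through m i → i ≠ c1 → i ≠ c2 → (n : ℤ) ∣ V.v i f) :
    ∃ u w : F, u ≠ 0 ∧ w ≠ 0 ∧ (∀ i, V.Through m i → V.v i u = 0) ∧
      (∀ i, V.Through m i → (i = c1 ∨ i = c2) → V.v i w = 0) ∧
      f = u * (a : F) ^ (V.v c1 f) * (b : F) ^ (V.v c2 f) * w ^ n := by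
  have : m.IsPrime := h.isMax.isPrime
  exact h80_node_factor V m c1 c2 h.c_ne h.a_ne h.b_ne (fun _ => h.va1) h.va (fun _ => h.vb2) h.vb n
    (fun i hi _ _ => h.unitStar i hi) hf hdiv

end h62_Node

/-- **Triple point** of the level-`q²M'` fibre: three vertical valuations `c1, c2, c3` through
`m` with local equations `b2, z, b0` (`C1 = (b2)`, `C2 = (z)` of multiplicity `e = q - 1`,
`C3 = (b0)`), `m B_m = (b0, b2) B_m`. -/
structure h62_Triple (V : h80_ValFam F ι) (q : ℕ) (m : Ideal V.B) (c1 c2 c3 : ι)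
    (b2 z b0 : V.B) (e : ℕ) : Prop where
  isMax : m.IsMaximal
  q_mem : (q : V.B) ∈ m
  q_ne : (q : F) ≠ 0
  c12 : c1 ≠ c2
  c13 : c1 ≠ c3
  c23 : c2 ≠ c3
  thr1 : V.Through m c1
  thr2 : V.Through m c2
  thr3 : V.Through m c3
  vert : ∀ i, V.Through m i → 0 < V.v i (q : F) → i = c1 ∨ i = c2 ∨ i = c3
  horiz : ∀ i, V.Through m i → i ≠ c1 → i ≠ c2 → i ≠ c3 → V.v i (q : F) = 0
  vq1 : V.v c1 (q : F) = 1
  vq2 : V.v c2 (q : F) = e
  vq3 : V.v c3 (q : F) = 1
  b2_ne : (b2 : F) ≠ 0
  z_ne : (z : F) ≠ 0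
  b0_ne : (b0 : F) ≠ 0
  v1 : V.v c1 b2 = 1
  v1' : ∀ i, V.Through m i → i ≠ c1 → V.v i b2 = 0
  v2 : V.v c2 z = 1
  v2' : ∀ i, V.Through m i → i ≠ c2 → V.v i z = 0
  v3 : V.v c3 b0 = 1
  v3' : ∀ i, V.Through m i → i ≠ c3 → V.v i b0 = 0
  gen : ∀ f : V.B, f ∈ m → ∃ t x y : V.B, t ∉ m ∧ t * f = x * b0 + y * b2
  unitStar : h62_UnitStar V m

/-! ### The local ring at a point, as a subring of `F` -/

/-- The local ring `B_m` at the point `m`, computed inside `F`. -/
def h62_locRing (V : h80_ValFam F ι) (m : Ideal V.B) [hm : m.IsPrime] : Subring F where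
  carrier := {f | V.InLoc m f}
  mul_mem' := by
    rintro f g ⟨b, t, ht, hb⟩ ⟨b', t', ht', hb'⟩
    refine ⟨b * b', t * t', fun h => (hm.mem_or_mem h).elim ht ht', ?_⟩
    push_cast
    rw [← hb, ← hb']
    ring
  one_mem' := ⟨1, 1, fun h => hm.ne_top ((Ideal.eq_top_iff_one m).mpr h), by simp⟩
  add_mem' := by
    rintro f g ⟨b, t, ht, hb⟩ ⟨b', t', ht', hb'⟩
    refine ⟨t' * b + t * b', t * t', fun h => (hm.mem_or_mem h).elim ht ht', ?_⟩
    push_cast
    rw [← hb, ← hb']
    ring
  zero_mem' := ⟨0, 1, fun h => hm.ne_top ((Ideal.eq_top_iff_one m).mpr h), by simp⟩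
  neg_mem' := by
    rintro f ⟨b, t, ht, hb⟩
    refine ⟨-b, t, ht, ?_⟩
    push_cast
    rw [← hb]
    ring

theorem h62_mem_locRing (V : h80_ValFam F ι) (m : Ideal V.B) [m.IsPrime] (f : F) :
    f ∈ h62_locRing V m ↔ V.InLoc m f := Iff.rfl

theorem h62_le_locRing (V : h80_ValFam F ι) (m : Ideal V.B) [m.IsPrime] :
    V.B ≤ h62_locRing V m := fun f hf =>
  ⟨⟨f, hf⟩, 1, fun h => (‹m.IsPrime›).ne_top ((Ideal.eq_top_iff_one m).mpr h), by simp⟩

/-- `V.B → B_m`. -/
def h62_toLoc (V : h80_ValFam F ι) (m : Ideal V.B) [m.IsPrime] : V.B →+* h62_locRing V m :=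
  Subring.inclusion (h62_le_locRing V m)

theorem h62_toLoc_coe (V : h80_ValFam F ι) (m : Ideal V.B) [m.IsPrime] (x : V.B) :
    ((h62_toLoc V m x : h62_locRing V m) : F) = (x : F) := rfl

end Fermat.Agent.S36
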