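import Mathlib

/-!
# S36 / (CORE-LOC) C1, C1', C2, C3 (helper90): the PID-lift and its consequences

Mathlib-only local algebra behind `(UNIT)` (board #2964 (3), #3370 (3)/(6)).

Setting: `B` a noetherian local ring, `z ∈ 𝔪` with `B ⧸ (z)` a principal ideal ring (in the
application a discrete valuation ring: the local ring of a branch of the special fibre).

* `h90_ideal_principal_of_quot` : an ideal `I` with `z * y ∈ I → y ∈ I` is principal
  (lift a generator of the image of `I` in `B ⧸ (z)`; then `I = f B + z I`, Nakayama).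
* `h90_prime_principal_of_quot` : every prime ideal not containing `z` is principal.
* `h90_ufd_of_quot` : if moreover `B` is a domain, `z ≠ 0` and `B ⧸ (z)` is a domain, then `B` is
  a unique factorisation domain (Kaplansky's criterion).
* `h90_maximalIdeal_eq_pair` : if the maximal ideal of `B ⧸ (z)` is generated by the class of `s`,
  then `𝔪 = (z, s)`.
-/

set_option autoImplicit false

namespace Fermat.Agent.S36

open IsLocalRing

/-- **PID-lift.** `B` noetherian local, `z ∈ 𝔪`, `B ⧸ (z)` a principal ideal ring. An ideal `I`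
which is saturated with respect to `z` (`z * y ∈ I → y ∈ I`) is principal. -/
theorem h90_ideal_principal_of_quot {B : Type*} [CommRing B] [IsLocalRing B] [IsNoetherianRing B]
    (z : B) (hz : z ∈ maximalIdeal B)
    (hP : IsPrincipalIdealRing (B ⧸ Ideal.span {z}))
    (I : Ideal B) (hI : ∀ y : B, z * y ∈ I → y ∈ I) :
    ∃ f : B, f ∈ I ∧ I = Ideal.span {f} := by
  obtain ⟨g, hg⟩ := (hP.principal (I.map (Ideal.Quotient.mk (Ideal.span {z})))).principal
  have hgmem : g ∈ I.map (Ideal.Quotient.mk (Ideal.span {z})) := by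
    rw [hg]
    exact Submodule.mem_span_singleton_self g
  obtain ⟨f, hfI, rfl⟩ :=
    (Ideal.mem_map_iff_of_surjective _ Ideal.Quotient.mk_surjective).1 hgmem
  refine ⟨f, hfI, le_antisymm ?_ ((Ideal.span_singleton_le_iff_mem I).2 hfI)⟩
  have key : I ≤ Ideal.span {f} ⊔ Ideal.span {z} • I := by
    intro x hx
    have hx' : Ideal.Quotient.mk (Ideal.span {z}) x ∈
        I.map (Ideal.Quotient.mk (Ideal.span {z})) := Ideal.mem_map_of_mem _ hx
    rw [hg] at hx'
    obtain ⟨c, hc⟩ := Submodule.mem_span_singleton.1 hx'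
    obtain ⟨c', rfl⟩ := Ideal.Quotient.mk_surjective c
    have h1 : x - c' * f ∈ Ideal.span {z} := by
      rw [← Ideal.Quotient.eq, map_mul]
      exact hc.symm
    obtain ⟨y, hy⟩ := Ideal.mem_span_singleton'.1 h1
    have hyI : y ∈ I := hI y (by
      rw [mul_comm, hy]
      exact I.sub_mem hx (I.mul_mem_left _ hfI))
    have hxe : x = c' * f + z • y := by
      rw [smul_eq_mul, mul_comm z y, hy]
      ring
    rw [hxe]
    exact Submodule.add_mem_sup (Ideal.mem_span_singleton'.2 ⟨c', rfl⟩)
      (Submodule.smul_mem_smul (Ideal.mem_span_singleton_self z) hyI)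
  refine Submodule.le_of_le_smul_of_le_jacobson_bot (IsNoetherian.noetherian I) ?_ key
  rw [IsLocalRing.jacobson_eq_maximalIdeal ⊥ bot_ne_top]
  exact (Ideal.span_singleton_le_iff_mem _).2 hz

/-- **PID-lift for primes.** Every prime ideal not containing `z` is principal. -/
theorem h90_prime_principal_of_quot {B : Type*} [CommRing B] [IsLocalRing B] [IsNoetherianRing B]
    (z : B) (hz : z ∈ maximalIdeal B)
    (hP : IsPrincipalIdealRing (B ⧸ Ideal.span {z}))
    (p : Ideal B) [hp : p.IsPrime] (hzp : z ∉ p) :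
    ∃ f : B, f ∈ p ∧ p = Ideal.span {f} :=
  h90_ideal_principal_of_quot z hz hP p fun _ hy => (hp.mem_or_mem hy).resolve_left hzp

/-- **Factoriality.** `B` a noetherian local domain, `z ∈ 𝔪` nonzero with `B ⧸ (z)` a principal
ideal domain: `B` is a unique factorisation domain. -/
theorem h90_ufd_of_quot {B : Type*} [CommRing B] [IsDomain B] [IsLocalRing B] [IsNoetherianRing B]
    (z : B) (hz : z ∈ maximalIdeal B) (hz0 : z ≠ 0)
    (hD : IsDomain (B ⧸ Ideal.span {z}))
    (hP : IsPrincipalIdealRing (B ⧸ Ideal.span {z})) :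
    UniqueFactorizationMonoid B := by
  have hzprime : Prime z := by
    rw [← Ideal.span_singleton_prime hz0]
    exact (Ideal.Quotient.isDomain_iff_prime _).1 hD
  refine UniqueFactorizationMonoid.iff_exists_prime_mem_of_isPrime.2 fun I hI0 hIp => ?_
  by_cases hzI : z ∈ I
  · exact ⟨z, hzI, hzprime⟩
  · obtain ⟨f, hfI, hf⟩ := h90_prime_principal_of_quot z hz hP I hzI
    refine ⟨f, hfI, ?_⟩
    have hf0 : f ≠ 0 := by
      rintro rfl
      apply hI0
      rw [hf]
      simp
    rw [← Ideal.span_singleton_prime hf0, ← hf]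
    exact hIp

/-- **Parameters.** If the maximal ideal of `B ⧸ (z)` is generated by the class of `s`, then
`𝔪 = (z, s)`. -/
theorem h90_maximalIdeal_eq_pair {B : Type*} [CommRing B] [IsLocalRing B]
    (z s : B) (hz : z ∈ maximalIdeal B)
    (hs : ∀ x : B, x ∈ maximalIdeal B →
      Ideal.Quotient.mk (Ideal.span {z}) x ∈
        Ideal.span {Ideal.Quotient.mk (Ideal.span {z}) s})
    (hsm : s ∈ maximalIdeal B) :
    maximalIdeal B = Ideal.span {z, s} := by
  apply le_antisymm
  · intro x hx
    obtain ⟨c, hc⟩ := Ideal.mem_span_singleton'.1 (hs x hx)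
    obtain ⟨c', rfl⟩ := Ideal.Quotient.mk_surjective c
    have h1 : x - c' * s ∈ Ideal.span {z} := by
      rw [← Ideal.Quotient.eq, map_mul]
      exact hc.symm
    obtain ⟨y, hy⟩ := Ideal.mem_span_singleton'.1 h1
    rw [Ideal.mem_span_pair]
    exact ⟨y, c', by rw [hy]; ring⟩
  · rw [Ideal.span_le]
    rintro x (rfl | rfl)
    · exact hz
    · exact hsm

end Fermat.Agent.S36
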