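/-
S36 / row (L1-b) (helper89): (U) ⟹ (UNIT*), in the valuation-family language of `h80_LocGen`.

`V` is a family of valuations of `F` (vertical and horizontal ones), `m` a point, `Bm` the local
ring at `m` with its embedding `φ` into `F` (image `= V.InLoc m`).  If every prime ideal of `Bm`
without `q` is principal (PID-lift, `h90_prime_principal_of_quot`), then every horizontal
valuation through `m` has a local equation: this is the hypothesis (UNIT*) of `h80_L1a`.

Hypotheses on the valuations: a horizontal valuation through `m` takes the value `1` on the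
chart ring (`hunr`: unramifiedness over the rational function field), two different horizontal
valuations through `m` are separated by a chart function (`hsep`), and the elements of `Bm` of
positive vertical valuation are multiples of a non-unit divisor of `q` (`hvert`: branch data).
-/
import Fermat.Agent.S36.h80_LocUnit
import Fermat.Agent.S36.h90_PIDLift

set_option autoImplicit false

namespace Fermat.Agent.S36

section posIdeal

variable {R : Type*} [CommRing R] [IsDomain R]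

/-- The ideal of elements of positive value for a non-negative valuation `w` on `R` (specified
on nonzero elements). -/
def h89_posIdeal (w : R → ℤ)
    (hmul : ∀ a b : R, a ≠ 0 → b ≠ 0 → w (a * b) = w a + w b)
    (hadd : ∀ a b : R, a ≠ 0 → b ≠ 0 → a + b ≠ 0 → min (w a) (w b) ≤ w (a + b))
    (hnn : ∀ a : R, a ≠ 0 → 0 ≤ w a) : Ideal R where
  carrier := {b | b = 0 ∨ 0 < w b}
  zero_mem' := Or.inl rfl
  add_mem' := by
    rintro a b ha hb
    by_cases ha0 : a = 0
    · rw [ha0, zero_add]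
      exact hb
    by_cases hb0 : b = 0
    · rw [hb0, add_zero]
      exact ha
    by_cases hab : a + b = 0
    · exact Or.inl hab
    have ha' : 0 < w a := ha.resolve_left ha0
    have hb' : 0 < w b := hb.resolve_left hb0
    refine Or.inr ?_
    have h := hadd a b ha0 hb0 hab
    have := min_le_iff.1 h
    omega
  smul_mem' := by
    rintro c b hb
    by_cases hcb : c * b = 0
    · exact Or.inl hcb
    have hc0 : c ≠ 0 := fun h => hcb (by rw [h, zero_mul])
    have hb0 : b ≠ 0 := fun h => hcb (by rw [h, mul_zero])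
    rcases hb with hb | hb
    · exact absurd hb hb0
    refine Or.inr ?_
    show 0 < w (c * b)
    rw [hmul c b hc0 hb0]
    have := hnn c hc0
    omega

omit [IsDomain R] in
theorem h89_mem_posIdeal (w : R → ℤ)
    (hmul : ∀ a b : R, a ≠ 0 → b ≠ 0 → w (a * b) = w a + w b)
    (hadd : ∀ a b : R, a ≠ 0 → b ≠ 0 → a + b ≠ 0 → min (w a) (w b) ≤ w (a + b))
    (hnn : ∀ a : R, a ≠ 0 → 0 ≤ w a) (b : R) :
    b ∈ h89_posIdeal w hmul hadd hnn ↔ b = 0 ∨ 0 < w b := Iff.rfl

theorem h89_posIdeal_prime (w : R → ℤ)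
    (hmul : ∀ a b : R, a ≠ 0 → b ≠ 0 → w (a * b) = w a + w b)
    (hadd : ∀ a b : R, a ≠ 0 → b ≠ 0 → a + b ≠ 0 → min (w a) (w b) ≤ w (a + b))
    (hnn : ∀ a : R, a ≠ 0 → 0 ≤ w a) : (h89_posIdeal w hmul hadd hnn).IsPrime := by
  have hone : w 1 = 0 := by
    have h := hmul 1 1 one_ne_zero one_ne_zero
    rw [mul_one] at h
    omega
  refine ⟨?_, ?_⟩
  · intro htop
    have h1 : (1 : R) ∈ h89_posIdeal w hmul hadd hnn := by rw [htop]; trivial
    rcases (h89_mem_posIdeal w hmul hadd hnn 1).1 h1 with h | h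
    · exact one_ne_zero h
    · omega
  · intro a b hab
    by_cases ha0 : a = 0
    · exact Or.inl ((h89_mem_posIdeal w hmul hadd hnn a).2 (Or.inl ha0))
    by_cases hb0 : b = 0
    · exact Or.inr ((h89_mem_posIdeal w hmul hadd hnn b).2 (Or.inl hb0))
    rcases (h89_mem_posIdeal w hmul hadd hnn _).1 hab with h | h
    · exact absurd h (mul_ne_zero ha0 hb0)
    rw [hmul a b ha0 hb0] at h
    have h1 := hnn a ha0
    have h2 := hnn b hb0
    by_cases h3 : 0 < w a
    · exact Or.inl ((h89_mem_posIdeal w hmul hadd hnn a).2 (Or.inr h3))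
    · exact Or.inr ((h89_mem_posIdeal w hmul hadd hnn b).2 (Or.inr (by omega)))

/-- A non-negative valuation on `R` whose ideal of positive elements is principal and contains a
nonzero element: a prime generator dividing exactly the elements of positive value. -/
theorem h89_posIdeal_gen (w : R → ℤ)
    (hmul : ∀ a b : R, a ≠ 0 → b ≠ 0 → w (a * b) = w a + w b)
    (hadd : ∀ a b : R, a ≠ 0 → b ≠ 0 → a + b ≠ 0 → min (w a) (w b) ≤ w (a + b))
    (hnn : ∀ a : R, a ≠ 0 → 0 ≤ w a)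
    (hprin : ∃ π : R, h89_posIdeal w hmul hadd hnn = Ideal.span {π})
    (hex : ∃ f : R, f ≠ 0 ∧ 0 < w f) :
    ∃ π : R, Prime π ∧ 0 < w π ∧ ∀ b : R, b ≠ 0 → (0 < w b ↔ π ∣ b) := by
  obtain ⟨π, hπ⟩ := hprin
  obtain ⟨f, hf0, hfpos⟩ := hex
  have hfmem : f ∈ h89_posIdeal w hmul hadd hnn :=
    (h89_mem_posIdeal w hmul hadd hnn f).2 (Or.inr hfpos)
  have hπ0 : π ≠ 0 := by
    rintro rfl
    rw [hπ, Ideal.span_singleton_eq_bot.2 rfl, Ideal.mem_bot] at hfmem
    exact hf0 hfmem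
  have hπprime : Prime π := by
    rw [← Ideal.span_singleton_prime hπ0, ← hπ]
    exact h89_posIdeal_prime w hmul hadd hnn
  have hmem : ∀ b : R, b ≠ 0 → (0 < w b ↔ π ∣ b) := by
    intro b hb
    rw [← Ideal.mem_span_singleton, ← hπ, h89_mem_posIdeal]
    constructor
    · intro h
      exact Or.inr h
    · rintro (h | h)
      · exact absurd h hb
      · exact h
  exact ⟨π, hπprime, (hmem π hπ0).2 dvd_rfl, hmem⟩

end posIdeal

variable {F : Type*} [Field F] {ι : Type*} (V : h80_ValFam F ι)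

/-- **(L1-b), abstract form**: if the primes of the local ring `Bm` without `q` are principal,
every horizontal valuation through `m` satisfies (UNIT*). -/
theorem h89_unitStar_of_prin (m : Ideal V.B) [m.IsPrime]
    {Bm : Type*} [CommRing Bm] [IsDomain Bm] (φ : Bm →+* F) (hinj : Function.Injective φ)
    (hφ : ∀ f : F, V.InLoc m f ↔ ∃ b : Bm, φ b = f)
    (q : Bm) (hq0 : q ≠ 0) (Hor : ι → Prop)
    (hprin : ∀ I : Ideal Bm, I.IsPrime → q ∉ I → ∃ π : Bm, I = Ideal.span {π})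
    (hq : ∀ i, Hor i → V.Through m i → V.v i (φ q) = 0)
    (hunr : ∀ i, Hor i → V.Through m i → ∃ f : V.B, (f : F) ≠ 0 ∧ V.v i f = 1)
    (hsep : ∀ i j, Hor i → Hor j → V.Through m i → V.Through m j → i ≠ j →
      ∃ f : V.B, (f : F) ≠ 0 ∧ 0 < V.v i f ∧ V.v j f = 0)
    (hvert : ∀ j, ¬ Hor j → V.Through m j → ∃ p : Bm, ¬ IsUnit p ∧ p ∣ q ∧
      ∀ b : Bm, b ≠ 0 → 0 < V.v j (φ b) → p ∣ b) :
    ∀ i, Hor i → V.Through m i → V.UnitStar m i := by
  have hne : ∀ b : Bm, b ≠ 0 → φ b ≠ 0 := fun b hb h => hb (hinj (by rw [h, map_zero]))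
  -- the valuations through `m` are non-negative valuations on `Bm`
  have hmul : ∀ j, ∀ a b : Bm, a ≠ 0 → b ≠ 0 →
      V.v j (φ (a * b)) = V.v j (φ a) + V.v j (φ b) := by
    intro j a b ha hb
    rw [map_mul, V.map_mul j _ _ (hne a ha) (hne b hb)]
  have hadd : ∀ j, ∀ a b : Bm, a ≠ 0 → b ≠ 0 → a + b ≠ 0 →
      min (V.v j (φ a)) (V.v j (φ b)) ≤ V.v j (φ (a + b)) := by
    intro j a b ha hb hab
    rw [map_add]
    exact V.map_add j _ _ (hne a ha) (hne b hb) (by rw [← map_add]; exact hne _ hab)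
  have hnn : ∀ j, V.Through m j → ∀ a : Bm, a ≠ 0 → 0 ≤ V.v j (φ a) := by
    intro j hj a ha
    exact (h80_inLoc_iff V m (hne a ha)).1 ((hφ _).2 ⟨a, rfl⟩) j hj
  -- chart functions lie in `Bm`
  have hB : ∀ f : V.B, ∃ b : Bm, φ b = (f : F) := by
    intro f
    exact (hφ _).1 ⟨f, 1, fun h => (inferInstance : m.IsPrime).ne_top
      ((Ideal.eq_top_iff_one m).2 h), by simp⟩
  -- generators at the horizontal valuations through `m`
  have hgen : ∀ j, Hor j → ∀ hj : V.Through m j, (∃ f : Bm, f ≠ 0 ∧ 0 < V.v j (φ f)) →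
      ∃ π : Bm, Prime π ∧ 0 < V.v j (φ π) ∧ ∀ b : Bm, b ≠ 0 → (0 < V.v j (φ b) ↔ π ∣ b) := by
    intro j hjH hj hex
    refine h89_posIdeal_gen (fun b => V.v j (φ b)) (hmul j) (hadd j) (hnn j hj) ?_ hex
    refine hprin _ (h89_posIdeal_prime _ (hmul j) (hadd j) (hnn j hj)) ?_
    intro hmem
    rcases (h89_mem_posIdeal _ (hmul j) (hadd j) (hnn j hj) q).1 hmem with h | h
    · exact hq0 h
    · rw [hq j hjH hj] at h
      omega
  intro i hiH hi
  obtain ⟨f, hf0, hf1⟩ := hunr i hiH hi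
  obtain ⟨f', hf'⟩ := hB f
  have hf'0 : f' ≠ 0 := by
    rintro rfl
    rw [map_zero] at hf'
    exact hf0 hf'.symm
  obtain ⟨π, hπ, hπpos, hπmem⟩ := hgen i hiH hi ⟨f', hf'0, by rw [hf', hf1]; omega⟩
  have hπ0 : π ≠ 0 := hπ.ne_zero
  -- `v i π = 1`
  have hπ1 : V.v i (φ π) = 1 := by
    obtain ⟨h, hh⟩ := (hπmem f' hf'0).1 (by rw [hf', hf1]; omega)
    have hh0 : h ≠ 0 := by
      rintro rfl
      rw [mul_zero] at hh
      exact hf'0 hh
    have h2 := hmul i π h hπ0 hh0
    rw [← hh, hf', hf1] at h2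
    have h3 := hnn i hi h hh0
    omega
  refine ⟨φ π, hne π hπ0, hπ1, ?_⟩
  intro j hj hji
  have h0 := hnn j hj π hπ0
  by_contra hcon
  have hpos : 0 < V.v j (φ π) := by omega
  by_cases hjH : Hor j
  · obtain ⟨πj, hπj, hπjpos, hπjmem⟩ := hgen j hjH hj ⟨π, hπ0, hpos⟩
    have hdvd : πj ∣ π := (hπjmem π hπ0).1 hpos
    obtain ⟨g, hg0, hgi, hgj⟩ := hsep i j hiH hjH hi hj (Ne.symm hji)
    obtain ⟨g', hg'⟩ := hB g
    have hg'0 : g' ≠ 0 := by
      rintro rfl
      rw [map_zero] at hg'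
      exact hg0 hg'.symm
    have h1 : π ∣ g' := (hπmem g' hg'0).1 (by rw [hg']; exact hgi)
    have h2 : 0 < V.v j (φ g') := (hπjmem g' hg'0).2 (hdvd.trans h1)
    rw [hg', hgj] at h2
    omega
  · obtain ⟨p, hpu, hpq, hpmem⟩ := hvert j hjH hj
    obtain ⟨h, hh⟩ := hpmem π hπ0 hpos
    have hhu : IsUnit h := (hπ.irreducible.isUnit_or_isUnit hh).resolve_left hpu
    have hπp : π ∣ p := ⟨hhu.unit⁻¹.1, by rw [hh, mul_assoc]; simp⟩
    have hπq : 0 < V.v i (φ q) := (hπmem q hq0).2 (hπp.trans hpq)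
    rw [hq i hiH hi] at hπq
    omega

/-- **(L1-b)**: (U) ⟹ (UNIT*).  `Bm` noetherian local, `z` in its maximal ideal with `Bm / z` a
principal ideal ring and `z ∣ q`: every horizontal valuation through `m` satisfies (UNIT*). -/
theorem h89_unitStar (m : Ideal V.B) [m.IsPrime]
    {Bm : Type*} [CommRing Bm] [IsDomain Bm] [IsLocalRing Bm] [IsNoetherianRing Bm]
    (φ : Bm →+* F) (hinj : Function.Injective φ)
    (hφ : ∀ f : F, V.InLoc m f ↔ ∃ b : Bm, φ b = f)
    (q z : Bm) (hq0 : q ≠ 0) (hz : z ∈ IsLocalRing.maximalIdeal Bm)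
    (hP : IsPrincipalIdealRing (Bm ⧸ Ideal.span {z})) (hzq : z ∣ q) (Hor : ι → Prop)
    (hq : ∀ i, Hor i → V.Through m i → V.v i (φ q) = 0)
    (hunr : ∀ i, Hor i → V.Through m i → ∃ f : V.B, (f : F) ≠ 0 ∧ V.v i f = 1)
    (hsep : ∀ i j, Hor i → Hor j → V.Through m i → V.Through m j → i ≠ j →
      ∃ f : V.B, (f : F) ≠ 0 ∧ 0 < V.v i f ∧ V.v j f = 0)
    (hvert : ∀ j, ¬ Hor j → V.Through m j → ∃ p : Bm, ¬ IsUnit p ∧ p ∣ q ∧
      ∀ b : Bm, b ≠ 0 → 0 < V.v j (φ b) → p ∣ b) :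
    ∀ i, Hor i → V.Through m i → V.UnitStar m i := by
  refine h89_unitStar_of_prin V m φ hinj hφ q hq0 Hor ?_ hq hunr hsep hvert
  intro I hI hqI
  have hzI : z ∉ I := fun h => hqI (Ideal.mem_of_dvd I hzq h)
  obtain ⟨f, _, hf⟩ := h90_prime_principal_of_quot z hz hP I hzI
  exact ⟨f, hf⟩

end Fermat.Agent.S36
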