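import Mathlib
import Fermat.Agent.S36.h62_NodeIface
import Fermat.Agent.S36.h89_UnitStar

/-!
# S36 / row U (helper62): the local ring at a point and the branch cases, valuations only

Language: `V : h80_ValFam F ι` (helper80), `m` a maximal ideal of the chart ring `V.B`,
`h62_locRing V m` the local ring at `m` inside `F` (`S36/h62_NodeIface.lean`).

* `h62_locRing_isLocalization` : `h62_locRing V m` is the localisation of `V.B` at `m`; hence it is
  a local ring (`h62_locRing_isLocalRing`) and noetherian when `V.B` is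
  (`h62_locRing_isNoetherianRing`).
* `h62_vert_shape` : **(V2), generator criterion**: a local equation `π` of a vertical valuation
  `j` through `m` (value `1` at `j`, value `0` at the other valuations through `m`) gives an
  element of the local ring that is a non-unit, divides `q`, and divides every element of positive
  `j`-value: exactly the hypothesis `hvert` of `h89_unitStar`.
* `h62_unitStar_of_branches` : **row U ⟹ (UNIT\*)**: vertical local equations at `m`, one of them
  with principal quotient, noetherian chart ring, `hunr`, `hsep` ⟹ `h62_UnitStar V m`.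
* the cases: `h62_case_reduced` (one reduced branch: `π = q`), `h62_case_pullback` (a branch of a
  multi-branch point: image of a level-`q` node generator), `h62_case_thick` (the thick branch and
  the middle cusps: `z` with `z ^ e / q` a unit of the local ring).
-/

set_option autoImplicit false

namespace Fermat.Agent.S36

variable {F : Type*} [Field F] {ι : Type*}

/-! ### The local ring is the localisation -/

theorem h62_locRing_isLocalization (V : h80_ValFam F ι) (m : Ideal V.B) [hm : m.IsPrime] :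
    letI : Algebra V.B (h62_locRing V m) := (h62_toLoc V m).toAlgebra
    IsLocalization.AtPrime (h62_locRing V m) m := by
  letI : Algebra V.B (h62_locRing V m) := (h62_toLoc V m).toAlgebra
  show IsLocalization m.primeCompl (h62_locRing V m)
  rw [isLocalization_iff]
  refine ⟨?_, ?_, ?_⟩
  · rintro ⟨y, hy⟩
    have hy0 : (y : F) ≠ 0 := h80_ne_zero_of_not_mem V hy
    have hinv : ((y : F))⁻¹ ∈ h62_locRing V m :=
      ⟨1, y, hy, by rw [mul_inv_cancel₀ hy0]; simp⟩
    refine IsUnit.of_mul_eq_one (⟨(y : F)⁻¹, hinv⟩ : h62_locRing V m) ?_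
    apply Subtype.ext
    show (y : F) * (y : F)⁻¹ = 1
    exact mul_inv_cancel₀ hy0
  · rintro ⟨z, b, t, ht, hbt⟩
    refine ⟨(b, ⟨t, ht⟩), ?_⟩
    apply Subtype.ext
    show z * (t : F) = (b : F)
    rw [mul_comm]
    exact hbt
  · intro x y hxy
    refine ⟨1, ?_⟩
    have h1 : ((h62_toLoc V m x : h62_locRing V m) : F) = (h62_toLoc V m y : h62_locRing V m) :=
      congrArg Subtype.val hxy
    rw [h62_toLoc_coe, h62_toLoc_coe] at h1
    rw [Subtype.ext h1]

theorem h62_locRing_isLocalRing (V : h80_ValFam F ι) (m : Ideal V.B) [hm : m.IsPrime] :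
    IsLocalRing (h62_locRing V m) := by
  letI : Algebra V.B (h62_locRing V m) := (h62_toLoc V m).toAlgebra
  haveI := h62_locRing_isLocalization V m
  exact IsLocalization.AtPrime.isLocalRing (h62_locRing V m) m

theorem h62_locRing_isNoetherianRing (V : h80_ValFam F ι) (m : Ideal V.B) [hm : m.IsPrime]
    [hN : IsNoetherianRing V.B] : IsNoetherianRing (h62_locRing V m) := by
  letI : Algebra V.B (h62_locRing V m) := (h62_toLoc V m).toAlgebra
  haveI := h62_locRing_isLocalization V m
  exact IsLocalization.isNoetherianRing m.primeCompl (h62_locRing V m) hN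

/-- Valuations through `m` are non-negative on the local ring. -/
theorem h62_locRing_nonneg (V : h80_ValFam F ι) (m : Ideal V.B) [m.IsPrime]
    (b : h62_locRing V m) (hb : (b : F) ≠ 0) {i : ι} (hi : V.Through m i) : 0 ≤ V.v i (b : F) :=
  (h80_inLoc_iff V m hb).1 b.2 i hi

/-- Units of the local ring have value `0` at every valuation through `m`. -/
theorem h62_locRing_unit (V : h80_ValFam F ι) (m : Ideal V.B) [m.IsPrime]
    (b : h62_locRing V m) (hb : IsUnit b) {i : ι} (hi : V.Through m i) : V.v i (b : F) = 0 := by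
  obtain ⟨c, hc⟩ := hb.exists_right_inv
  have hbc : (b : F) * (c : F) = 1 := congrArg Subtype.val hc
  have hb0 : (b : F) ≠ 0 := left_ne_zero_of_mul_eq_one hbc
  have hc0 : (c : F) ≠ 0 := right_ne_zero_of_mul_eq_one hbc
  have h1 := V.map_mul i _ _ hb0 hc0
  rw [hbc, h80_v_one V i] at h1
  have h2 := h62_locRing_nonneg V m b hb0 hi
  have h3 := h62_locRing_nonneg V m c hc0 hi
  omega

/-! ### (V2): the generator criterion -/

/-- **(V2)**: a local equation of the valuation `j` through `m`, as an element of the local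
ring: not a unit, divides every element of `V.B` of positive `j`-value (in particular `q`), and
divides every element of the local ring of positive `j`-value. -/
theorem h62_vert_shape (V : h80_ValFam F ι) (m : Ideal V.B) [m.IsPrime] {j : ι}
    (hj : V.Through m j) {π : F} (hπ0 : π ≠ 0) (hπ : V.v j π = 1)
    (hπ' : ∀ k, V.Through m k → k ≠ j → V.v k π = 0) :
    ∃ p : h62_locRing V m, (p : F) = π ∧ ¬ IsUnit p ∧
      ∀ b : h62_locRing V m, b ≠ 0 → 0 < V.v j (b : F) → p ∣ b := by
  have hπL : π ∈ h62_locRing V m := by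
    refine (h80_inLoc_iff V m hπ0).2 fun k hk => ?_
    by_cases hkj : k = j
    · subst hkj
      rw [hπ]
      exact zero_le_one
    · rw [hπ' k hk hkj]
  refine ⟨⟨π, hπL⟩, rfl, fun hu => ?_, fun b hb hbj => ?_⟩
  · have := h62_locRing_unit V m ⟨π, hπL⟩ hu hj
    rw [hπ] at this
    exact one_ne_zero this
  · have hb0 : (b : F) ≠ 0 := fun h => hb (Subtype.ext h)
    have hq0 : (b : F) / π ≠ 0 := div_ne_zero hb0 hπ0
    have hqL : (b : F) / π ∈ h62_locRing V m := by
      refine (h80_inLoc_iff V m hq0).2 fun k hk => ?_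
      rw [h80_v_div V k hb0 hπ0]
      by_cases hkj : k = j
      · subst hkj
        rw [hπ]
        omega
      · rw [hπ' k hk hkj, sub_zero]
        exact h62_locRing_nonneg V m b hb0 hk
    refine ⟨⟨(b : F) / π, hqL⟩, ?_⟩
    apply Subtype.ext
    show (b : F) = π * ((b : F) / π)
    field_simp

/-! ### Row U ⟹ (UNIT\*) -/

/-- **Row U ⟹ (UNIT\*)**.  At the point `m` (a prime ideal of the noetherian chart ring): every
vertical valuation through `m` (`0 < v q`) has a local equation, ONE of them (`c`, with local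
equation `π`) has a principal-ideal quotient `B_m ⧸ (π)`, horizontal valuations (`v q = 0`)
through `m` are unramified over the chart ring (`hunr`) and separated by chart functions
(`hsep`).  Then every valuation through `m` has a local equation. -/
theorem h62_unitStar_of_branches (V : h80_ValFam F ι) (m : Ideal V.B) [hm : m.IsPrime]
    [IsNoetherianRing V.B] (q : V.B) (hq0 : (q : F) ≠ 0)
    (hvert : ∀ j, V.Through m j → 0 < V.v j (q : F) →
      ∃ e : F, e ≠ 0 ∧ V.v j e = 1 ∧ ∀ k, V.Through m k → k ≠ j → V.v k e = 0)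
    {c : ι} (hc : V.Through m c) (hcq : 0 < V.v c (q : F))
    (π : h62_locRing V m) (hπ0 : (π : F) ≠ 0) (hπ : V.v c (π : F) = 1)
    (hπ' : ∀ k, V.Through m k → k ≠ c → V.v k (π : F) = 0)
    (hP : IsPrincipalIdealRing (h62_locRing V m ⧸ Ideal.span {π}))
    (hunr : ∀ i, V.v i (q : F) = 0 → V.Through m i → ∃ f : V.B, (f : F) ≠ 0 ∧ V.v i f = 1)
    (hsep : ∀ i j, V.v i (q : F) = 0 → V.v j (q : F) = 0 → V.Through m i → V.Through m j →
      i ≠ j → ∃ f : V.B, (f : F) ≠ 0 ∧ 0 < V.v i f ∧ V.v j f = 0) :
    h62_UnitStar V m := by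
  haveI := h62_locRing_isLocalRing V m
  haveI := h62_locRing_isNoetherianRing V m
  have hqnn : ∀ i, 0 ≤ V.v i (q : F) := fun i => h80_v_nonneg V i q hq0
  set qL : h62_locRing V m := h62_toLoc V m q with hqL
  have hqLc : (qL : F) = (q : F) := rfl
  have hqL0 : qL ≠ 0 := fun h => hq0 (by rw [← hqLc, h]; rfl)
  -- the distinguished generator
  obtain ⟨p, hpπ, hpu, hpdvd⟩ := h62_vert_shape V m hc hπ0 hπ hπ'
  have hpeq : p = π := Subtype.ext hpπ
  subst hpeq
  have hz : p ∈ IsLocalRing.maximalIdeal (h62_locRing V m) :=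
    (IsLocalRing.mem_maximalIdeal p).2 hpu
  have hzq : p ∣ qL := hpdvd qL hqL0 (by rw [hqLc]; exact hcq)
  have key := h89_unitStar V m (Bm := h62_locRing V m) (h62_locRing V m).subtype
    Subtype.val_injective (fun f => ⟨fun h => ⟨⟨f, h⟩, rfl⟩, fun ⟨b, hb⟩ => hb ▸ b.2⟩)
    qL p hqL0 hz hP hzq (fun i => V.v i (q : F) = 0)
    (fun i hi _ => hi) hunr hsep
    (fun j hjH hj => by
      have hjq : 0 < V.v j (q : F) := lt_of_le_of_ne (hqnn j) (Ne.symm hjH)
      obtain ⟨e, he0, he1, he'⟩ := hvert j hj hjq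
      obtain ⟨p', _, hp'u, hp'dvd⟩ := h62_vert_shape V m hj he0 he1 he'
      exact ⟨p', hp'u, hp'dvd qL hqL0 (by rw [hqLc]; exact hjq), fun b hb hbj => hp'dvd b hb hbj⟩)
  intro i hi
  by_cases hiH : V.v i (q : F) = 0
  · exact key i hiH hi
  · exact hvert i hi (lt_of_le_of_ne (hqnn i) (Ne.symm hiH))

/-! ### The cases -/

/-- **Case (a)**: only one vertical valuation `c` passes through `m`, and `v_c q = 1`: `q` is its
local equation. -/
theorem h62_case_reduced (V : h80_ValFam F ι) (m : Ideal V.B) (q : V.B) (hq0 : (q : F) ≠ 0)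
    {c : ι} (hvq : V.v c (q : F) = 1)
    (hvert : ∀ i, V.Through m i → 0 < V.v i (q : F) → i = c) :
    V.v c (q : F) = 1 ∧ ∀ k, V.Through m k → k ≠ c → V.v k (q : F) = 0 := by
  refine ⟨hvq, fun k hk hkc => ?_⟩
  have h1 := h80_v_nonneg V k q hq0
  by_contra h
  exact hkc (hvert k hk (lt_of_le_of_ne h1 (Ne.symm h)))

/-- **Case (b)**: pull-back of a generator.  `b` is a function of the lower level, `ib` its image
at the upper level; if `ib` has value `1` at the branch `C` and every other valuation `k` through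
`m` restricts (up to a factor) to a lower valuation at which `b` has value `0`, then `ib` is a
local equation of `C` at `m`. -/
theorem h62_case_pullback {F₁ : Type*} [Field F₁] {ι₁ : Type*} (V₁ : h80_ValFam F₁ ι₁)
    (V : h80_ValFam F ι) (m : Ideal V.B) (i₀ : F₁ →+* F) (b : F₁) {C : ι}
    (hC : V.v C (i₀ b) = 1) (good : ι₁ → Prop) (hb : ∀ i₁, good i₁ → V₁.v i₁ b = 0)
    (hres : ∀ k, V.Through m k → k ≠ C →
      ∃ (i₁ : ι₁) (e : ℤ), good i₁ ∧ V.v k (i₀ b) = e * V₁.v i₁ b) :
    V.v C (i₀ b) = 1 ∧ ∀ k, V.Through m k → k ≠ C → V.v k (i₀ b) = 0 := by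
  refine ⟨hC, fun k hk hkC => ?_⟩
  obtain ⟨i₁, e, hg, he⟩ := hres k hk hkC
  rw [he, hb i₁ hg, mul_zero]

/-- **Case (c)/(c')**: the thick branch.  `c` is the only vertical valuation through `m`,
`v_c q = e ≥ 1`; `z` lies in the local ring and `η = z ^ e / q` has `v_c η = 0` and is NOT in
`m B_m` (its residue at the point is nonzero).  Then `z` is a local equation of `c` at `m`. -/
theorem h62_case_thick (V : h80_ValFam F ι) (m : Ideal V.B) [hm : m.IsPrime] (q : V.B)
    (hq0 : (q : F) ≠ 0) {c : ι} (hc : V.Through m c) {e : ℕ} (he : 0 < e)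
    (hvq : V.v c (q : F) = e)
    (hvert : ∀ i, V.Through m i → 0 < V.v i (q : F) → i = c)
    {z : F} (hz0 : z ≠ 0) (hzL : V.InLoc m z)
    (hη : V.v c (z ^ e / (q : F)) = 0) (hres : ¬ V.InMLoc m (z ^ e / (q : F))) :
    V.v c z = 1 ∧ ∀ k, V.Through m k → k ≠ c → V.v k z = 0 := by
  have hze0 : z ^ e ≠ 0 := pow_ne_zero e hz0
  have hη0 : z ^ e / (q : F) ≠ 0 := div_ne_zero hze0 hq0
  have hzn : ∀ k, V.Through m k → 0 ≤ V.v k z := (h80_inLoc_iff V m hz0).1 hzL
  have hqn : ∀ k, k ≠ c → V.Through m k → V.v k (q : F) = 0 := by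
    intro k hkc hk
    have h1 := h80_v_nonneg V k q hq0
    by_contra h
    exact hkc (hvert k hk (lt_of_le_of_ne h1 (Ne.symm h)))
  have hval : ∀ k, V.v k (z ^ e / (q : F)) = e * V.v k z - V.v k (q : F) := by
    intro k
    rw [h80_v_div V k hze0 hq0, h80_v_pow V k hz0]
  -- `η` lies in the local ring
  have hηL : V.InLoc m (z ^ e / (q : F)) := by
    refine (h80_inLoc_iff V m hη0).2 fun k hk => ?_
    by_cases hkc : k = c
    · subst hkc
      rw [hη]
    · rw [hval k, hqn k hkc hk, sub_zero]
      exact mul_nonneg (Int.natCast_nonneg e) (hzn k hk)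
  -- not in `m B_m`, hence all valuations through `m` vanish on it
  have hηunit : ∀ k, V.Through m k → V.v k (z ^ e / (q : F)) = 0 := by
    obtain ⟨b, t, ht, hbt⟩ := hηL
    have hbm : b ∉ m := fun hb => hres ⟨b, t, hb, ht, hbt⟩
    have ht0 := h80_ne_zero_of_not_mem V ht
    have hb0 := h80_ne_zero_of_not_mem V hbm
    intro k hk
    have h1 := V.map_mul k _ _ ht0 hη0
    rw [hbt, h80_through_eq_zero V hk hbm, h80_through_eq_zero V hk ht] at h1
    omega
  have heZ : (0 : ℤ) < (e : ℤ) := by exact_mod_cast he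
  refine ⟨?_, fun k hk hkc => ?_⟩
  · have h1 := hval c
    rw [hη, hvq] at h1
    have h2 : (e : ℤ) * (V.v c z - 1) = 0 := by linarith
    rcases mul_eq_zero.1 h2 with h | h
    · omega
    · omega
  · have h1 := hval k
    rw [hηunit k hk, hqn k hkc hk, sub_zero] at h1
    rcases mul_eq_zero.1 h1.symm with h | h
    · omega
    · exact h

end Fermat.Agent.S36
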