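import Mathlib
import Fermat.Agent.S36.h62_BranchCases

/-!
# S36 / row U (helper62): branch quotients and the one-branch form of (UNIT\*)

* `h62_subring_eq_top` : **maximal-subring lemma**: a subring of a field containing all
  elements of non-negative value for an integer valuation, and one element of negative value, is
  the whole field.
* `h62_pir_of_residue` : **(V1)**: if `ρ : L →+* Fb` has kernel `(π)` and image the valuation ring
  `{g | g = 0 ∨ 0 ≤ o g}` of an integer valuation `o` of the field `Fb`, then `L ⧸ (π)` is a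
  principal ideal ring.
* `h62_residue_nonneg` : the inclusion `ρ(L) ⊆ {0 ≤ o}` from `ρ(L) ⊇ {0 ≤ o}` and `ρ(L) ≠ Fb`
  (a non-unit of `L` outside `(π)`).
* `h62_unitStar_of_one_branch` : **row U ⟹ (UNIT\*)**, one-branch form: ONE valuation `c` through
  `m` has a local equation `π` with `B_m ⧸ (π)` a principal ideal ring, and every other valuation
  through `m` (vertical or horizontal) takes the value `1` on the chart ring and is separated from
  the others by chart functions.  Then every valuation through `m` has a local equation.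
-/

set_option autoImplicit false

namespace Fermat.Agent.S36

/-- **Maximal-subring lemma.** -/
theorem h62_subring_eq_top {K : Type*} [Field K] (o : K → ℤ)
    (hmul : ∀ g h : K, g ≠ 0 → h ≠ 0 → o (g * h) = o g + o h)
    (S : Subring K) (hW : ∀ g : K, g ≠ 0 → 0 ≤ o g → g ∈ S)
    {x : K} (hxS : x ∈ S) (hx0 : x ≠ 0) (hx : o x < 0) : S = ⊤ := by
  have hpow : ∀ n : ℕ, o (x ^ n) = n * o x := by
    intro n
    induction n with
    | zero =>
      have h1 := hmul 1 1 one_ne_zero one_ne_zero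
      rw [mul_one] at h1
      simp only [pow_zero, Nat.cast_zero, zero_mul]
      omega
    | succ n ih =>
      rw [pow_succ, hmul _ _ (pow_ne_zero n hx0) hx0, ih]
      push_cast
      ring
  refine (Subring.eq_top_iff' S).2 fun y => ?_
  by_cases hy0 : y = 0
  · rw [hy0]
    exact S.zero_mem
  -- choose `n` with `o y - n * o x ≥ 0`
  obtain ⟨n, hn⟩ : ∃ n : ℕ, 0 ≤ o y + n * (-(o x)) := by
    refine ⟨(-(o y)).toNat, ?_⟩
    have h1 : (1 : ℤ) ≤ -(o x) := by omega
    have h2 : (0 : ℤ) ≤ ((-(o y)).toNat : ℤ) := Int.natCast_nonneg _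
    have h3 : -(o y) ≤ ((-(o y)).toNat : ℤ) := Int.self_le_toNat _
    nlinarith
  have hxn0 : x ^ n ≠ 0 := pow_ne_zero n hx0
  have hq0 : y / x ^ n ≠ 0 := div_ne_zero hy0 hxn0
  have hq : 0 ≤ o (y / x ^ n) := by
    have h1 := hmul (y / x ^ n) (x ^ n) hq0 hxn0
    rw [div_mul_cancel₀ y hxn0, hpow] at h1
    linarith
  have h2 : y = y / x ^ n * x ^ n := (div_mul_cancel₀ y hxn0).symm
  rw [h2]
  exact S.mul_mem (hW _ hq0 hq) (S.pow_mem hxS n)

/-- **(V1), principal-ideal form.** `ρ : L →+* Fb` with kernel `(π)` and image the valuation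
ring of the integer valuation `o`: the quotient `L ⧸ (π)` is a principal ideal ring. -/
theorem h62_pir_of_residue {L Fb : Type*} [CommRing L] [Field Fb] (π : L) (ρ : L →+* Fb)
    (hker : ∀ b : L, ρ b = 0 ↔ π ∣ b) (o : Fb → ℤ)
    (hmul : ∀ g h : Fb, g ≠ 0 → h ≠ 0 → o (g * h) = o g + o h)
    (hnn : ∀ b : L, ρ b ≠ 0 → 0 ≤ o (ρ b))
    (hsurj : ∀ g : Fb, g ≠ 0 → 0 ≤ o g → ∃ b : L, ρ b = g) :
    IsPrincipalIdealRing (L ⧸ Ideal.span {π}) := by
  classical
  refine ⟨fun J => ?_⟩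
  set mk := Ideal.Quotient.mk (Ideal.span {π}) with hmk
  have hmk0 : ∀ b : L, mk b = 0 ↔ ρ b = 0 := by
    intro b
    rw [hmk, Ideal.Quotient.eq_zero_iff_mem, Ideal.mem_span_singleton, hker]
  by_cases hJ : ∀ b : L, mk b ∈ J → ρ b = 0
  · refine ⟨⟨0, ?_⟩⟩
    rw [Submodule.span_zero_singleton]
    refine le_antisymm (fun x hx => ?_) bot_le
    obtain ⟨b, rfl⟩ := Ideal.Quotient.mk_surjective x
    rw [Submodule.mem_bot]
    exact (hmk0 b).2 (hJ b hx)
  · push_neg at hJ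
    -- the set of values on `J`
    have hex : ∃ n : ℕ, ∃ b : L, mk b ∈ J ∧ ρ b ≠ 0 ∧ o (ρ b) = n := by
      obtain ⟨b, hbJ, hb⟩ := hJ
      exact ⟨(o (ρ b)).toNat, b, hbJ, hb, (Int.toNat_of_nonneg (hnn b hb)).symm⟩
    obtain ⟨b₀, hb₀J, hb₀, hb₀n⟩ := Nat.find_spec hex
    have hmin : ∀ b : L, mk b ∈ J → ρ b ≠ 0 → o (ρ b₀) ≤ o (ρ b) := by
      intro b hbJ hb
      have h1 : Nat.find hex ≤ (o (ρ b)).toNat :=
        Nat.find_min' hex ⟨b, hbJ, hb, (Int.toNat_of_nonneg (hnn b hb)).symm⟩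
      have h2 := Int.toNat_of_nonneg (hnn b hb)
      omega
    refine ⟨⟨mk b₀, ?_⟩⟩
    refine le_antisymm (fun x hx => ?_) ?_
    · obtain ⟨b, rfl⟩ := Ideal.Quotient.mk_surjective x
      rw [Submodule.mem_span_singleton]
      by_cases hb : ρ b = 0
      · refine ⟨0, ?_⟩
        rw [zero_smul]
        exact ((hmk0 b).2 hb).symm
      · have hg0 : ρ b / ρ b₀ ≠ 0 := div_ne_zero hb hb₀
        have hg : 0 ≤ o (ρ b / ρ b₀) := by
          have h1 := hmul (ρ b / ρ b₀) (ρ b₀) hg0 hb₀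
          rw [div_mul_cancel₀ _ hb₀] at h1
          have := hmin b hx hb
          omega
        obtain ⟨c, hc⟩ := hsurj _ hg0 hg
        refine ⟨mk c, ?_⟩
        rw [smul_eq_mul, ← map_mul, ← sub_eq_zero, ← map_sub, hmk0, map_sub, map_mul, hc,
          div_mul_cancel₀ _ hb₀, sub_self]
    · rw [Submodule.span_singleton_le_iff_mem]
      exact hb₀J

/-- From `{0 ≤ o} ⊆ ρ(L)` and one element `s` with `ρ s ≠ 0`, `ρ s` not invertible in `ρ(L)`,
the image `ρ(L)` is contained in `{0 ≤ o}`. -/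
theorem h62_residue_nonneg {L Fb : Type*} [CommRing L] [Field Fb] (ρ : L →+* Fb) (o : Fb → ℤ)
    (hmul : ∀ g h : Fb, g ≠ 0 → h ≠ 0 → o (g * h) = o g + o h)
    (hsurj : ∀ g : Fb, g ≠ 0 → 0 ≤ o g → ∃ b : L, ρ b = g)
    {s : L} (hs0 : ρ s ≠ 0) (hs : ∀ b : L, ρ s * ρ b ≠ 1) :
    ∀ b : L, ρ b ≠ 0 → 0 ≤ o (ρ b) := by
  intro b hb
  by_contra hneg
  have htop : ρ.range = ⊤ :=
    h62_subring_eq_top o hmul ρ.range (fun g hg0 hg => hsurj g hg0 hg) ⟨b, rfl⟩ hb
      (lt_of_not_ge hneg)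
  have h1 : (ρ s)⁻¹ ∈ ρ.range := by
    rw [htop]
    exact Subring.mem_top _
  obtain ⟨c, hc⟩ := h1
  exact hs c (by rw [hc, mul_inv_cancel₀ hs0])

variable {F : Type*} [Field F] {ι : Type*}

/-- **Row U ⟹ (UNIT\*), one-branch form.** -/
theorem h62_unitStar_of_one_branch (V : h80_ValFam F ι) (m : Ideal V.B) [hm : m.IsPrime]
    [IsNoetherianRing V.B] {c : ι} (hc : V.Through m c)
    (π : h62_locRing V m) (hπ0 : (π : F) ≠ 0) (hπ : V.v c (π : F) = 1)
    (hπ' : ∀ k, V.Through m k → k ≠ c → V.v k (π : F) = 0)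
    (hP : IsPrincipalIdealRing (h62_locRing V m ⧸ Ideal.span {π}))
    (hunr : ∀ i, i ≠ c → V.Through m i → ∃ f : V.B, (f : F) ≠ 0 ∧ V.v i f = 1)
    (hsep : ∀ i j, i ≠ c → j ≠ c → V.Through m i → V.Through m j → i ≠ j →
      ∃ f : V.B, (f : F) ≠ 0 ∧ 0 < V.v i f ∧ V.v j f = 0) :
    h62_UnitStar V m := by
  haveI := h62_locRing_isLocalRing V m
  haveI := h62_locRing_isNoetherianRing V m
  obtain ⟨p, hpπ, hpu, hpdvd⟩ := h62_vert_shape V m hc hπ0 hπ hπ'
  have hpeq : p = π := Subtype.ext hpπ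
  subst hpeq
  have hp0 : p ≠ 0 := fun h => hπ0 (by rw [h]; rfl)
  have hz : p ∈ IsLocalRing.maximalIdeal (h62_locRing V m) :=
    (IsLocalRing.mem_maximalIdeal p).2 hpu
  have key := h89_unitStar V m (Bm := h62_locRing V m) (h62_locRing V m).subtype
    Subtype.val_injective (fun f => ⟨fun h => ⟨⟨f, h⟩, rfl⟩, fun ⟨b, hb⟩ => hb ▸ b.2⟩)
    p p hp0 hz hP dvd_rfl (fun i => i ≠ c)
    (fun i hi hthr => hπ' i hthr hi) hunr hsep
    (fun j hjH hj => by
      have hjc : j = c := not_not.mp hjH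
      subst hjc
      exact ⟨p, hpu, dvd_rfl, fun b hb hbj => hpdvd b hb hbj⟩)
  intro i hi
  by_cases hic : i = c
  · subst hic
    exact ⟨(p : F), hπ0, hπ, hπ'⟩
  · exact key i hic hi

end Fermat.Agent.S36
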