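import Mathlib
import Fermat.Agent.S36.h62_BranchQuot

/-!
# S36 / row U (helper62): the generic assembly at a point

`V : h80_ValFam F ι`, `m` a prime ideal of the chart ring `V.B` (a point of the special fibre),
`q : F` the residue characteristic (any element that is integral at `m`); an index `i` through `m`
is *vertical* when `0 < v_i q` and *horizontal* when `v_i q = 0`.

Inputs at `m`:

* **(K)** `hunrH`, `hsepH` : the horizontal valuations through `m` take the value `1`, and are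
  pairwise separated, by functions regular at `m`  (row K);
* **(EQ)** `E`, `hE`, `hE1`, `hζ` : every vertical valuation through `m` except at most one has a
  local equation at `m`, and every vertical valuation takes the value `1` somewhere on `F`;
* **(RES)** `h62_Res V m c Fb` : for the vertical `c` through `m`, the residue map `ρ` of `v_c`
  and an order function `o` on the residue field with `ρ(B_m) = {o ≥ 0}`.

Outputs (`h62_rowU`): exactly the local hypotheses of `h94_loc_glue_val` at `m`: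

* `h62_UnitStar V m` (every valuation through `m` has a local equation at `m`),
* (H4) on every vertical branch (`h62_Res.h4`),
* (H5) for every family of branch equations (`h62_h5`).
-/

set_option autoImplicit false

namespace Fermat.Agent.S36

universe w

variable {F : Type*} [Field F] {ι : Type*}

/-! ### Local form ⟹ global form -/

/-- A function regular at `m` is, up to a factor which is a unit at `m`, a chart function: same
values at all the valuations through `m`. -/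
theorem h62_glob_of_loc (V : h80_ValFam F ι) (m : Ideal V.B) [m.IsPrime] {f : F} (hf0 : f ≠ 0)
    (hf : ∀ k, V.Through m k → 0 ≤ V.v k f) :
    ∃ g : V.B, (g : F) ≠ 0 ∧ ∀ k, V.Through m k → V.v k (g : F) = V.v k f := by
  obtain ⟨b, t, ht, hbt⟩ := (h80_inLoc_iff V m hf0).2 hf
  have ht0 := h80_ne_zero_of_not_mem V ht
  refine ⟨b, ?_, fun k hk => ?_⟩
  · rw [← hbt]
    exact mul_ne_zero ht0 hf0
  · rw [← hbt, V.map_mul k _ _ ht0 hf0, h80_through_eq_zero V hk ht, zero_add]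

/-- **Fix-up.**  If every other valuation through `m` is separated from `c` by a function regular
at `m`, any function can be made regular at `m` without changing its value at `c`. -/
theorem h62_fixup (V : h80_ValFam F ι) (m : Ideal V.B) {c : ι}
    (hsep : ∀ k, V.Through m k → k ≠ c →
      ∃ u : F, u ≠ 0 ∧ 0 < V.v k u ∧ V.v c u = 0 ∧ ∀ j, V.Through m j → 0 ≤ V.v j u)
    {ζ : F} (hζ0 : ζ ≠ 0) :
    ∃ ζ' : F, ζ' ≠ 0 ∧ V.v c ζ' = V.v c ζ ∧ ∀ j, V.Through m j → j ≠ c → 0 ≤ V.v j ζ' := by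
  classical
  have key : ∀ k, ∃ u : F, u ≠ 0 ∧ (V.Through m k → k ≠ c →
      0 < V.v k u ∧ V.v c u = 0 ∧ ∀ j, V.Through m j → 0 ≤ V.v j u) := by
    intro k
    by_cases h : V.Through m k ∧ k ≠ c
    · obtain ⟨u, hu0, hu⟩ := hsep k h.1 h.2
      exact ⟨u, hu0, fun _ _ => hu⟩
    · exact ⟨1, one_ne_zero, fun h1 h2 => absurd ⟨h1, h2⟩ h⟩
  choose u hu0 hu using key
  set S : Finset ι := (V.finite_supp ζ hζ0).toFinset.filter
    (fun k => V.Through m k ∧ k ≠ c ∧ V.v k ζ < 0) with hS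
  have hmemS : ∀ k, k ∈ S ↔ V.Through m k ∧ k ≠ c ∧ V.v k ζ < 0 := by
    intro k
    rw [hS, Finset.mem_filter, Set.Finite.mem_toFinset]
    constructor
    · exact fun h => h.2
    · intro h
      refine ⟨?_, h⟩
      show V.v k ζ ≠ 0
      omega
  have hg0 : ∀ k ∈ S, u k ^ (-(V.v k ζ)).toNat ≠ 0 := fun k _ => pow_ne_zero _ (hu0 k)
  have hprod0 : ∏ k ∈ S, u k ^ (-(V.v k ζ)).toNat ≠ 0 := Finset.prod_ne_zero_iff.2 hg0
  have hval : ∀ j, V.v j (ζ * ∏ k ∈ S, u k ^ (-(V.v k ζ)).toNat) =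
      V.v j ζ + ∑ k ∈ S, ((-(V.v k ζ)).toNat : ℤ) * V.v j (u k) := by
    intro j
    rw [V.map_mul j _ _ hζ0 hprod0, h80_v_prod V j S _ hg0]
    congr 1
    refine Finset.sum_congr rfl fun k _ => ?_
    rw [h80_v_pow V j (hu0 k)]
  refine ⟨ζ * ∏ k ∈ S, u k ^ (-(V.v k ζ)).toNat, mul_ne_zero hζ0 hprod0, ?_, fun j hj hjc => ?_⟩
  · rw [hval, Finset.sum_eq_zero, add_zero]
    intro k hk
    obtain ⟨h1, h2, -⟩ := (hmemS k).1 hk
    rw [(hu k h1 h2).2.1, mul_zero]
  · rw [hval]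
    have hterm : ∀ k ∈ S, (0 : ℤ) ≤ ((-(V.v k ζ)).toNat : ℤ) * V.v j (u k) := by
      intro k hk
      obtain ⟨h1, h2, -⟩ := (hmemS k).1 hk
      exact mul_nonneg (Int.natCast_nonneg _) ((hu k h1 h2).2.2 j hj)
    by_cases hneg : V.v j ζ < 0
    · have hjS : j ∈ S := (hmemS j).2 ⟨hj, hjc, hneg⟩
      have h1 := Finset.single_le_sum hterm hjS
      have h2 : (1 : ℤ) ≤ V.v j (u j) := (hu j hj hjc).1
      have h3 : ((-(V.v j ζ)).toNat : ℤ) = -(V.v j ζ) := Int.toNat_of_nonneg (by omega)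
      rw [h3] at h1
      nlinarith
    · have := Finset.sum_nonneg hterm
      omega

/-! ### (RES): the residue datum of a vertical valuation at the point -/

/-- **Residue datum** of the valuation `c` at the point `m`: a subring `O` containing the
valuation ring of `v_c`, the residue map `ρ : O → Fb` (kernel `= {v_c > 0}`), and an order
function `o` on the residue field `Fb` such that the image of the local ring `B_m` is exactly
`{o ≥ 0}` (the local ring of the branch at the point). -/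
structure h62_Res (V : h80_ValFam F ι) (m : Ideal V.B) (c : ι) (Fb : Type w) [Field Fb] where
  /-- the valuation ring of `v_c` -/
  O : Subring F
  mem_O : ∀ f : F, f ≠ 0 → 0 ≤ V.v c f → f ∈ O
  /-- the residue map -/
  ρ : O →+* Fb
  ρ_eq_zero : ∀ f : O, (f : F) ≠ 0 → (ρ f = 0 ↔ 0 < V.v c (f : F))
  /-- the order at the point of the branch -/
  o : Fb → ℤ
  o_mul : ∀ g h : Fb, g ≠ 0 → h ≠ 0 → o (g * h) = o g + o h
  nonneg : ∀ f : O, V.InLoc m (f : F) → ρ f ≠ 0 → 0 ≤ o (ρ f)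
  surj : ∀ g : Fb, g ≠ 0 → 0 ≤ o g → ∃ f : O, V.InLoc m (f : F) ∧ ρ f = g

namespace h62_Res

variable {V : h80_ValFam F ι} {m : Ideal V.B} {c : ι} {Fb : Type w} [Field Fb]

theorem o_one (R : h62_Res V m c Fb) : R.o 1 = 0 := by
  have h := R.o_mul 1 1 one_ne_zero one_ne_zero
  rw [mul_one] at h
  omega

theorem o_pow (R : h62_Res V m c Fb) {g : Fb} (hg : g ≠ 0) (n : ℕ) : R.o (g ^ n) = n * R.o g := by
  induction n with
  | zero => simp [R.o_one]
  | succ n ih =>
    rw [pow_succ, R.o_mul _ _ (pow_ne_zero n hg) hg, ih]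
    push_cast
    ring

/-- The local ring at `m` lies in `O`. -/
theorem locRing_le (R : h62_Res V m c Fb) [m.IsPrime] (hc : V.Through m c) :
    h62_locRing V m ≤ R.O := by
  intro f hf
  by_cases hf0 : f = 0
  · rw [hf0]
    exact R.O.zero_mem
  · exact R.mem_O f hf0 ((h80_inLoc_iff V m hf0).1 hf c hc)

/-- **(V1)**: the quotient of the local ring by a local equation of the branch `c` is a principal
ideal ring. -/
theorem pir (R : h62_Res V m c Fb) [m.IsPrime] (hc : V.Through m c) (π : h62_locRing V m)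
    (hπ0 : (π : F) ≠ 0) (hπ : V.v c (π : F) = 1)
    (hπ' : ∀ k, V.Through m k → k ≠ c → V.v k (π : F) = 0) :
    IsPrincipalIdealRing (h62_locRing V m ⧸ Ideal.span {π}) := by
  obtain ⟨p, hpπ, -, hpdvd⟩ := h62_vert_shape V m hc hπ0 hπ hπ'
  have hpeq : p = π := Subtype.ext hpπ
  subst hpeq
  have hle := R.locRing_le hc
  set ρ' : h62_locRing V m →+* Fb := R.ρ.comp (Subring.inclusion hle) with hρ'
  have hcoe : ∀ b : h62_locRing V m, ((Subring.inclusion hle b : R.O) : F) = (b : F) :=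
    fun b => rfl
  refine h62_pir_of_residue p ρ' (fun b => ?_) R.o R.o_mul (fun b hb => ?_) (fun g hg0 hg => ?_)
  · by_cases hb0 : b = 0
    · rw [hb0, map_zero]
      simp
    have hbF : (b : F) ≠ 0 := fun h => hb0 (Subtype.ext h)
    have h1 : ρ' b = 0 ↔ 0 < V.v c (b : F) := by
      rw [hρ', RingHom.comp_apply]
      exact R.ρ_eq_zero _ (by rw [hcoe]; exact hbF)
    rw [h1]
    constructor
    · exact fun h => hpdvd b hb0 h
    · rintro ⟨b', rfl⟩
      have hb'0 : (b' : F) ≠ 0 := by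
        intro h
        apply hbF
        show (p : F) * (b' : F) = 0
        rw [h, mul_zero]
      have h2 : V.v c ((p * b' : h62_locRing V m) : F) = V.v c (p : F) + V.v c (b' : F) :=
        V.map_mul c _ _ hπ0 hb'0
      have h3 := h62_locRing_nonneg V m b' hb'0 hc
      rw [h2, hπ]
      omega
  · exact R.nonneg _ b.2 hb
  · obtain ⟨f, hfL, hf⟩ := R.surj g hg0 hg
    refine ⟨⟨(f : F), hfL⟩, ?_⟩
    rw [hρ', RingHom.comp_apply]
    have : Subring.inclusion hle ⟨(f : F), hfL⟩ = f := Subtype.ext rfl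
    rw [this, hf]

/-- **(H4)** on the branch `c`: an `n`-th root, modulo the branch, of a unit of the local ring is
congruent modulo the branch to an element of the local ring. -/
theorem h4 (R : h62_Res V m c Fb) [m.IsPrime] (hc : V.Through m c) {n : ℕ} (hn : n ≠ 0)
    (t s : F) (ht0 : t ≠ 0) (htc : 0 ≤ V.v c t) (hs : V.InLoc m s) (hs' : V.InLoc m s⁻¹)
    (hs0 : s ≠ 0) (h : t ^ n = s ∨ 1 ≤ V.v c (t ^ n - s)) :
    ∃ b : F, V.InLoc m b ∧ (t = b ∨ 1 ≤ V.v c (t - b)) := by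
  have hvs : V.v c s = 0 := h80_through_eq_zero_of_unit V m hs0 hs hs' hc
  have htO : t ∈ R.O := R.mem_O t ht0 htc
  have hsO : s ∈ R.O := R.mem_O s hs0 (by omega)
  have hs'O : s⁻¹ ∈ R.O := R.mem_O _ (inv_ne_zero hs0) (by rw [h80_v_inv V c hs0]; omega)
  set T : R.O := ⟨t, htO⟩ with hT
  set S : R.O := ⟨s, hsO⟩ with hS
  set S' : R.O := ⟨s⁻¹, hs'O⟩ with hS'
  -- `ρ T ^ n = ρ S`
  have h1 : R.ρ T ^ n = R.ρ S := by
    rw [← map_pow, ← sub_eq_zero, ← map_sub]
    by_cases hd : ((T ^ n - S : R.O) : F) = 0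
    · have : T ^ n - S = 0 := Subtype.ext hd
      rw [this, map_zero]
    · rw [R.ρ_eq_zero _ hd]
      have hd' : t ^ n - s ≠ 0 := hd
      have := h.resolve_left (fun h0 => hd' (sub_eq_zero.2 h0))
      show 0 < V.v c (t ^ n - s)
      omega
  have hρS : R.ρ S ≠ 0 := by
    rw [Ne, R.ρ_eq_zero S hs0]
    show ¬ 0 < V.v c s
    omega
  have hρS' : R.ρ S' ≠ 0 := by
    rw [Ne, R.ρ_eq_zero S' (inv_ne_zero hs0)]
    show ¬ 0 < V.v c s⁻¹
    rw [h80_v_inv V c hs0]
    omega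
  have hSS' : R.ρ S * R.ρ S' = 1 := by
    rw [← map_mul]
    have : S * S' = 1 := Subtype.ext (mul_inv_cancel₀ hs0)
    rw [this, map_one]
  have ho1 := R.nonneg S hs hρS
  have ho2 := R.nonneg S' hs' hρS'
  have ho3 := R.o_mul _ _ hρS hρS'
  rw [hSS', R.o_one] at ho3
  have hρT : R.ρ T ≠ 0 := by
    intro h0
    rw [h0, zero_pow hn] at h1
    exact hρS h1.symm
  have ho4 := R.o_pow hρT n
  rw [h1] at ho4
  have ho5 : R.o (R.ρ T) = 0 := by
    have h6 : (n : ℤ) * R.o (R.ρ T) = 0 := by omega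
    rcases mul_eq_zero.1 h6 with h7 | h7
    · exact absurd (by exact_mod_cast h7) hn
    · exact h7
  obtain ⟨f, hfL, hf⟩ := R.surj (R.ρ T) hρT (by omega)
  refine ⟨(f : F), hfL, ?_⟩
  by_cases hd : ((T - f : R.O) : F) = 0
  · left
    have hd' : t - (f : F) = 0 := hd
    exact sub_eq_zero.1 hd'
  · right
    have h8 : R.ρ (T - f) = 0 := by rw [map_sub, hf, sub_self]
    have h9 := (R.ρ_eq_zero _ hd).1 h8
    have h10 : V.v c (((T - f : R.O)) : F) = V.v c (t - (f : F)) := rfl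
    omega

end h62_Res

/-! ### (EQ) + (K) + (RES at one branch) ⟹ (UNIT\*) -/

section UnitStar

variable (V : h80_ValFam F ι) (m : Ideal V.B)

/-- `θ = q / ∏ π_c ^ (v_c q)` (product over the other verticals through `m`): the equation of the
exceptional vertical `c` to the power `v_c q`, up to a unit at `m`. -/
theorem h62_theta (q : F) (hq0 : q ≠ 0) (hqn : ∀ k, V.Through m k → 0 ≤ V.v k q)
    (E : ι → Prop)
    (hE : ∀ c, V.Through m c → E c →
      ∃ π : F, π ≠ 0 ∧ V.v c π = 1 ∧ ∀ k, V.Through m k → k ≠ c → V.v k π = 0)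
    {c : ι} (hc : V.Through m c)
    (hoth : ∀ c', V.Through m c' → 0 < V.v c' q → c' ≠ c → E c') :
    ∃ θ : F, θ ≠ 0 ∧ V.v c θ = V.v c q ∧ ∀ k, V.Through m k → k ≠ c → V.v k θ = 0 := by
  classical
  have key : ∀ c', ∃ π : F, π ≠ 0 ∧ (V.Through m c' → E c' →
      V.v c' π = 1 ∧ ∀ k, V.Through m k → k ≠ c' → V.v k π = 0) := by
    intro c'
    by_cases h : V.Through m c' ∧ E c'
    · obtain ⟨π, h0, h1⟩ := hE c' h.1 h.2
      exact ⟨π, h0, fun _ _ => h1⟩
    · exact ⟨1, one_ne_zero, fun h1 h2 => absurd ⟨h1, h2⟩ h⟩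
  choose π hπ0 hπ using key
  set S : Finset ι := (V.finite_supp q hq0).toFinset.filter
    (fun k => V.Through m k ∧ k ≠ c) with hS
  have hmemS : ∀ k, k ∈ S ↔ V.Through m k ∧ k ≠ c ∧ 0 < V.v k q := by
    intro k
    rw [hS, Finset.mem_filter, Set.Finite.mem_toFinset]
    constructor
    · rintro ⟨h1, h2, h3⟩
      have h4 : V.v k q ≠ 0 := h1
      have := hqn k h2
      exact ⟨h2, h3, by omega⟩
    · rintro ⟨h1, h2, h3⟩
      refine ⟨?_, h1, h2⟩
      show V.v k q ≠ 0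
      omega
  have hg0 : ∀ k ∈ S, π k ^ (V.v k q) ≠ 0 := fun k _ => zpow_ne_zero _ (hπ0 k)
  have hprod0 : ∏ k ∈ S, π k ^ (V.v k q) ≠ 0 := Finset.prod_ne_zero_iff.2 hg0
  have hval : ∀ j, V.v j (q / ∏ k ∈ S, π k ^ (V.v k q)) =
      V.v j q - ∑ k ∈ S, V.v k q * V.v j (π k) := by
    intro j
    rw [h80_v_div V j hq0 hprod0, h80_v_prod V j S _ hg0]
    congr 1
    refine Finset.sum_congr rfl fun k _ => ?_
    rw [h80_v_zpow V j (hπ0 k)]
  have hπS : ∀ k ∈ S, V.v k (π k) = 1 ∧ ∀ j, V.Through m j → j ≠ k → V.v j (π k) = 0 := by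
    intro k hk
    obtain ⟨h1, h2, h3⟩ := (hmemS k).1 hk
    exact hπ k h1 (hoth k h1 h3 h2)
  refine ⟨q / ∏ k ∈ S, π k ^ (V.v k q), div_ne_zero hq0 hprod0, ?_, fun j hj hjc => ?_⟩
  · rw [hval, Finset.sum_eq_zero, sub_zero]
    intro k hk
    rw [(hπS k hk).2 c hc (fun h => ((hmemS k).1 hk).2.1 h.symm), mul_zero]
  · rw [hval]
    by_cases hjS : j ∈ S
    · rw [Finset.sum_eq_single j, (hπS j hjS).1, mul_one, sub_self]
      · intro k hk hkj
        rw [(hπS k hk).2 j hj (fun h => hkj h.symm), mul_zero]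
      · intro h
        exact absurd hjS h
    · rw [Finset.sum_eq_zero, sub_zero]
      · have h1 := hqn j hj
        by_contra h2
        exact hjS ((hmemS j).2 ⟨hj, hjc, by omega⟩)
      · intro k hk
        rw [(hπS k hk).2 j hj (fun h => hjS (h ▸ hk)), mul_zero]

/-- **(EQ) + (K) + one principal branch quotient ⟹ (UNIT\*).**  The horizontal valuations through
`m` are unramified and separated (`hunrH`, `hsepH`, local form); every vertical valuation through
`m` except at most one has a local equation (`E`, `hE`, `hE1`), every vertical valuation takes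
the value `1` (`hζ`); one index `c₀` with a local equation has a principal branch quotient. -/
theorem h62_unitStar_of_eqs [hm : m.IsPrime] [IsNoetherianRing V.B]
    (q : F) (hq0 : q ≠ 0) (hqn : ∀ k, V.Through m k → 0 ≤ V.v k q)
    (hunrH : ∀ i, V.Through m i → V.v i q = 0 →
      ∃ f : F, f ≠ 0 ∧ V.v i f = 1 ∧ ∀ k, V.Through m k → 0 ≤ V.v k f)
    (hsepH : ∀ i j, V.Through m i → V.Through m j → V.v i q = 0 → V.v j q = 0 → i ≠ j →
      ∃ f : F, f ≠ 0 ∧ 0 < V.v i f ∧ V.v j f = 0 ∧ ∀ k, V.Through m k → 0 ≤ V.v k f)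
    (E : ι → Prop)
    (hE : ∀ c, V.Through m c → E c →
      ∃ π : F, π ≠ 0 ∧ V.v c π = 1 ∧ ∀ k, V.Through m k → k ≠ c → V.v k π = 0)
    (hE1 : ∀ c c', V.Through m c → V.Through m c' → 0 < V.v c q → 0 < V.v c' q → c ≠ c' →
      E c ∨ E c')
    (hζ : ∀ c, V.Through m c → 0 < V.v c q → ∃ ζ : F, ζ ≠ 0 ∧ V.v c ζ = 1)
    {c₀ : ι} (hc₀ : V.Through m c₀) (hEc₀ : E c₀)
    (hP : ∀ π : h62_locRing V m, (π : F) ≠ 0 → V.v c₀ (π : F) = 1 →
      (∀ k, V.Through m k → k ≠ c₀ → V.v k (π : F) = 0) →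
      IsPrincipalIdealRing (h62_locRing V m ⧸ Ideal.span {π})) :
    h62_UnitStar V m := by
  classical
  -- positive elements
  have hPE : ∀ i, V.Through m i →
      ∃ f : F, f ≠ 0 ∧ 0 < V.v i f ∧ ∀ k, V.Through m k → 0 ≤ V.v k f := by
    intro i hi
    by_cases hv : V.v i q = 0
    · obtain ⟨f, hf0, hf1, hf⟩ := hunrH i hi hv
      exact ⟨f, hf0, by omega, hf⟩
    · have := hqn i hi
      exact ⟨q, hq0, by omega, hqn⟩
  -- separation, local form, all pairs
  have hLS : ∀ i j, V.Through m i → V.Through m j → i ≠ j →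
      ∃ f : F, f ≠ 0 ∧ 0 < V.v i f ∧ V.v j f = 0 ∧ ∀ k, V.Through m k → 0 ≤ V.v k f := by
    intro i j hi hj hij
    obtain ⟨f, hf0, hfi, hf⟩ := hPE i hi
    have hqj := hqn j hj
    by_cases hvj : V.v j q = 0
    · by_cases hvi : V.v i q = 0
      · exact hsepH i j hi hj hvi hvj hij
      · have := hqn i hi
        exact ⟨q, hq0, by omega, hvj, hqn⟩
    · have hvj' : 0 < V.v j q := by omega
      by_cases hEj : E j
      · obtain ⟨π, hπ0, hπ1, hπ⟩ := hE j hj hEj
        have hz := zpow_ne_zero (V.v j f) hπ0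
        refine ⟨f / π ^ (V.v j f), div_ne_zero hf0 hz, ?_, ?_, fun k hk => ?_⟩
        · rw [h80_v_div V i hf0 hz, h80_v_zpow V i hπ0, hπ i hi hij, mul_zero, sub_zero]
          exact hfi
        · rw [h80_v_div V j hf0 hz, h80_v_zpow V j hπ0, hπ1, mul_one, sub_self]
        · rw [h80_v_div V k hf0 hz, h80_v_zpow V k hπ0]
          by_cases hkj : k = j
          · subst hkj
            rw [hπ1, mul_one, sub_self]
          · rw [hπ k hk hkj, mul_zero, sub_zero]
            exact hf k hk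
      · obtain ⟨θ, hθ0, hθj, hθ⟩ := h62_theta V m q hq0 hqn E hE hj
          (fun c' hc' hq' hne => (hE1 c' j hc' hj hq' hvj' hne).resolve_right hEj)
        have hz1 := zpow_ne_zero (V.v j q) hf0
        have hz2 := zpow_ne_zero (V.v j f) hθ0
        refine ⟨f ^ (V.v j q) / θ ^ (V.v j f), div_ne_zero hz1 hz2, ?_, ?_, fun k hk => ?_⟩
        · rw [h80_v_div V i hz1 hz2, h80_v_zpow V i hf0, h80_v_zpow V i hθ0, hθ i hi hij,
            mul_zero, sub_zero]
          exact mul_pos hvj' hfi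
        · rw [h80_v_div V j hz1 hz2, h80_v_zpow V j hf0, h80_v_zpow V j hθ0, hθj]
          ring
        · rw [h80_v_div V k hz1 hz2, h80_v_zpow V k hf0, h80_v_zpow V k hθ0]
          by_cases hkj : k = j
          · subst hkj
            rw [hθj]
            have : V.v k q * V.v k f - V.v k f * V.v k q = 0 := by ring
            omega
          · rw [hθ k hk hkj, mul_zero, sub_zero]
            exact mul_nonneg hqj (hf k hk)
  -- value one, local form, all indices
  have hLU : ∀ i, V.Through m i →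
      ∃ f : F, f ≠ 0 ∧ V.v i f = 1 ∧ ∀ k, V.Through m k → 0 ≤ V.v k f := by
    intro i hi
    have hqi := hqn i hi
    by_cases hvi : V.v i q = 0
    · exact hunrH i hi hvi
    · have hvi' : 0 < V.v i q := by omega
      by_cases hEi : E i
      · obtain ⟨π, hπ0, hπ1, hπ⟩ := hE i hi hEi
        refine ⟨π, hπ0, hπ1, fun k hk => ?_⟩
        by_cases hki : k = i
        · subst hki
          rw [hπ1]
          exact zero_le_one
        · rw [hπ k hk hki]
      · obtain ⟨ζ, hζ0, hζ1⟩ := hζ i hi hvi'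
        obtain ⟨ζ', hζ'0, hζ'1, hζ'⟩ := h62_fixup V m (c := i)
          (fun k hk hki => hLS k i hk hi hki) hζ0
        refine ⟨ζ', hζ'0, by rw [hζ'1, hζ1], fun k hk => ?_⟩
        by_cases hki : k = i
        · subst hki
          rw [hζ'1, hζ1]
          exact zero_le_one
        · exact hζ' k hk hki
  -- the branch `c₀`
  obtain ⟨π₀, hπ₀0, hπ₀1, hπ₀⟩ := hE c₀ hc₀ hEc₀
  have hπ₀L : π₀ ∈ h62_locRing V m := by
    refine (h80_inLoc_iff V m hπ₀0).2 fun k hk => ?_
    by_cases hk0 : k = c₀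
    · subst hk0
      rw [hπ₀1]
      exact zero_le_one
    · rw [hπ₀ k hk hk0]
  refine h62_unitStar_of_one_branch V m hc₀ ⟨π₀, hπ₀L⟩ hπ₀0 hπ₀1 hπ₀
    (hP ⟨π₀, hπ₀L⟩ hπ₀0 hπ₀1 hπ₀) (fun i _ hi => ?_) (fun i j _ _ hi hj hij => ?_)
  · obtain ⟨f, hf0, hf1, hf⟩ := hLU i hi
    obtain ⟨g, hg0, hg⟩ := h62_glob_of_loc V m hf0 hf
    exact ⟨g, hg0, by rw [hg i hi, hf1]⟩
  · obtain ⟨f, hf0, hfi, hfj, hf⟩ := hLS i j hi hj hij
    obtain ⟨g, hg0, hg⟩ := h62_glob_of_loc V m hf0 hf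
    exact ⟨g, hg0, by rw [hg i hi]; exact hfi, by rw [hg j hj, hfj]⟩

end UnitStar

/-! ### (H5): the partial products of the branch equations generate a primary ideal -/

/-- A local equation of the valuation `c` at `m` is a prime element of the local ring, dividing
exactly the elements of positive `c`-value. -/
theorem h62_locEq_prime (V : h80_ValFam F ι) (m : Ideal V.B) [m.IsPrime] {c : ι}
    (hc : V.Through m c) (π : h62_locRing V m) (hπ0 : (π : F) ≠ 0) (hπ : V.v c (π : F) = 1)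
    (hπ' : ∀ k, V.Through m k → k ≠ c → V.v k (π : F) = 0) :
    Prime π ∧ ∀ b : h62_locRing V m, b ≠ 0 → (π ∣ b ↔ 0 < V.v c (b : F)) := by
  obtain ⟨p, hpπ, hpu, hpdvd⟩ := h62_vert_shape V m hc hπ0 hπ hπ'
  have hpeq : p = π := Subtype.ext hpπ
  subst hpeq
  have hne : ∀ b : h62_locRing V m, b ≠ 0 → (b : F) ≠ 0 := fun b hb h => hb (Subtype.ext h)
  have hiff : ∀ b : h62_locRing V m, b ≠ 0 → (p ∣ b ↔ 0 < V.v c (b : F)) := by
    intro b hb
    constructor
    · rintro ⟨b', rfl⟩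
      have hb'0 : b' ≠ 0 := by
        rintro rfl
        exact hb (mul_zero _)
      have h2 : V.v c ((p * b' : h62_locRing V m) : F) = V.v c (p : F) + V.v c (b' : F) :=
        V.map_mul c _ _ hπ0 (hne b' hb'0)
      have h3 := h62_locRing_nonneg V m b' (hne b' hb'0) hc
      rw [h2, hπ]
      omega
    · exact hpdvd b hb
  refine ⟨⟨fun h => hπ0 (by rw [h]; rfl), hpu, fun x y hxy => ?_⟩, hiff⟩
  by_cases hx : x = 0
  · rw [hx]
    exact Or.inl (dvd_zero _)
  by_cases hy : y = 0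
  · rw [hy]
    exact Or.inr (dvd_zero _)
  have hxy0 : x * y ≠ 0 := mul_ne_zero hx hy
  have h1 := (hiff _ hxy0).1 hxy
  have h2 : V.v c ((x * y : h62_locRing V m) : F) = V.v c (x : F) + V.v c (y : F) :=
    V.map_mul c _ _ (hne x hx) (hne y hy)
  have h3 := h62_locRing_nonneg V m x (hne x hx) hc
  have h4 := h62_locRing_nonneg V m y (hne y hy) hc
  by_cases h5 : 0 < V.v c (x : F)
  · exact Or.inl ((hiff x hx).2 h5)
  · exact Or.inr ((hiff y hy).2 (by omega))

/-- Elements of `m B_m` are non-units of the local ring. -/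
theorem h62_mem_maximalIdeal_of_inMLoc (V : h80_ValFam F ι) (m : Ideal V.B) [hm : m.IsPrime]
    (g : h62_locRing V m) (hg : V.InMLoc m (g : F)) :
    letI := h62_locRing_isLocalRing V m
    g ∈ IsLocalRing.maximalIdeal (h62_locRing V m) := by
  letI := h62_locRing_isLocalRing V m
  rw [IsLocalRing.mem_maximalIdeal, mem_nonunits_iff]
  intro hu
  obtain ⟨g', hg'⟩ := hu.exists_right_inv
  have hgg' : (g : F) * (g' : F) = 1 := congrArg Subtype.val hg'
  obtain ⟨b, t, hb, ht, hbt⟩ := hg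
  obtain ⟨b', t', ht', hbt'⟩ := g'.2
  have h1 : ((t * t' : V.B) : F) = ((b * b' : V.B) : F) := by
    push_cast
    rw [← hbt, ← hbt']
    linear_combination (-(t : F) * (t' : F)) * hgg'
  have h2 : t * t' = b * b' := Subtype.ext h1
  exact (hm.mem_or_mem (h2 ▸ m.mul_mem_right b' hb)).elim ht ht'

/-- **(H5)**: if the quotients of the local ring by the branch equations `p k` are principal
ideal rings, a power of the maximal ideal lies in the ideal generated by the partial products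
`∏_{k' ≠ k} p k' ^ a k'`. -/
theorem h62_h5 (V : h80_ValFam F ι) (m : Ideal V.B) [hm : m.IsPrime] [IsNoetherianRing V.B]
    {κ : Type*} [Fintype κ] [DecidableEq κ] [Nonempty κ] (c : κ → ι)
    (hcinj : Function.Injective c) (a : κ → ℕ) (p : κ → F) (hc : ∀ k, V.Through m (c k))
    (hp0 : ∀ k, p k ≠ 0) (hp1 : ∀ k, V.v (c k) (p k) = 1)
    (hp2 : ∀ k j, V.Through m j → j ≠ c k → V.v j (p k) = 0)
    (hP : ∀ k, ∀ π : h62_locRing V m, (π : F) = p k →
      IsPrincipalIdealRing (h62_locRing V m ⧸ Ideal.span {π})) :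
    ∃ N : ℕ, ∀ g : Fin N → F, (∀ i, V.InMLoc m (g i)) →
      ∃ h : κ → F, (∀ k, V.InLoc m (h k)) ∧
        ∏ i, g i = ∑ k, h k * ∏ k' ∈ Finset.univ.erase k, p k' ^ a k' := by
  classical
  letI := h62_locRing_isLocalRing V m
  haveI := h62_locRing_isNoetherianRing V m
  have hpL : ∀ k, p k ∈ h62_locRing V m := by
    intro k
    refine (h80_inLoc_iff V m (hp0 k)).2 fun j hj => ?_
    by_cases hjk : j = c k
    · rw [hjk, hp1 k]
      exact zero_le_one
    · rw [hp2 k j hj hjk]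
  set P : κ → h62_locRing V m := fun k => ⟨p k, hpL k⟩ with hPdef
  have hprime : ∀ k, Prime (P k) ∧
      ∀ b : h62_locRing V m, b ≠ 0 → (P k ∣ b ↔ 0 < V.v (c k) (b : F)) :=
    fun k => h62_locEq_prime V m (hc k) (P k) (hp0 k) (hp1 k) (hp2 k)
  set W : κ → h62_locRing V m := fun k => ∏ k' ∈ Finset.univ.erase k, P k' ^ a k' with hWdef
  set J : Ideal (h62_locRing V m) := Ideal.span (Set.range W) with hJdef
  have hrad : IsLocalRing.maximalIdeal (h62_locRing V m) ≤ J.radical := by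
    rw [Ideal.radical_eq_sInf]
    refine le_sInf ?_
    rintro 𝔓 ⟨hJ𝔓, h𝔓⟩
    have step : ∀ k, ∃ k', k' ≠ k ∧ P k' ∈ 𝔓 := by
      intro k
      have hW : W k ∈ 𝔓 := hJ𝔓 (Ideal.subset_span ⟨k, rfl⟩)
      obtain ⟨k', hk', hmem⟩ := (Ideal.IsPrime.prod_mem_iff).1 hW
      exact ⟨k', Finset.ne_of_mem_erase hk', h𝔓.mem_of_pow_mem _ hmem⟩
    obtain ⟨k₁, -, hk₁⟩ := step (Classical.arbitrary κ)
    obtain ⟨k₂, hk₂₁, hk₂⟩ := step k₁
    have hQ := hP k₁ (P k₁) rfl
    haveI : (Ideal.span {P k₁}).IsPrime :=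
      (Ideal.span_singleton_prime (hprime k₁).1.ne_zero).2 (hprime k₁).1
    set mk := Ideal.Quotient.mk (Ideal.span {P k₁}) with hmk
    have hsurj : Function.Surjective mk := Ideal.Quotient.mk_surjective
    have hker : RingHom.ker mk ≤ 𝔓 := by
      rw [hmk, Ideal.mk_ker, Ideal.span_singleton_le_iff_mem]
      exact hk₁
    haveI : (𝔓.map mk).IsPrime := Ideal.map_isPrime_of_surjective hsurj hker
    have hne : 𝔓.map mk ≠ ⊥ := by
      intro h0
      have h1 : mk (P k₂) ∈ 𝔓.map mk := Ideal.mem_map_of_mem mk hk₂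
      rw [h0, Ideal.mem_bot, hmk, Ideal.Quotient.eq_zero_iff_mem, Ideal.mem_span_singleton] at h1
      have h2 := ((hprime k₁).2 (P k₂) (fun h => hp0 k₂ (congrArg Subtype.val h))).1 h1
      have h3 : V.v (c k₁) (p k₂) = 0 :=
        hp2 k₂ (c k₁) (hc k₁) (fun h => hk₂₁ (hcinj h).symm)
      have h4 : V.v (c k₁) ((P k₂ : h62_locRing V m) : F) = V.v (c k₁) (p k₂) := rfl
      omega
    haveI hmax : (𝔓.map mk).IsMaximal := IsPrime.to_maximal_ideal hne
    have h𝔓max : 𝔓.IsMaximal := by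
      have h3 : Ideal.comap mk (𝔓.map mk) = 𝔓 := by
        rw [Ideal.comap_map_of_surjective mk hsurj, ← RingHom.ker_eq_comap_bot, sup_eq_left]
        exact hker
      rw [← h3]
      exact Ideal.comap_isMaximal_of_surjective mk hsurj
    rw [IsLocalRing.eq_maximalIdeal h𝔓max]
  obtain ⟨N, hN⟩ := Ideal.exists_pow_le_of_le_radical_of_fg hrad (IsNoetherian.noetherian _)
  refine ⟨N, fun g hg => ?_⟩
  have hgL : ∀ i, g i ∈ h62_locRing V m := fun i => by
    obtain ⟨b, t, -, ht, hbt⟩ := hg i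
    exact ⟨b, t, ht, hbt⟩
  set G : Fin N → h62_locRing V m := fun i => ⟨g i, hgL i⟩ with hGdef
  have hGm : ∀ i, G i ∈ IsLocalRing.maximalIdeal (h62_locRing V m) :=
    fun i => h62_mem_maximalIdeal_of_inMLoc V m (G i) (hg i)
  have hprod : ∏ i, G i ∈ J := by
    apply hN
    have := Ideal.prod_mem_prod (s := Finset.univ)
      (I := fun _ : Fin N => IsLocalRing.maximalIdeal (h62_locRing V m)) (x := G)
      (fun i _ => hGm i)
    rwa [Finset.prod_const, Finset.card_univ, Fintype.card_fin] at this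
  obtain ⟨coef, hcoef⟩ := Ideal.mem_span_range_iff_exists_fun.1 hprod
  refine ⟨fun k => (coef k : F), fun k => (coef k).2, ?_⟩
  have h1 := congrArg (Subring.subtype (h62_locRing V m)) hcoef
  rw [map_sum, map_prod] at h1
  have h2 : ∏ i, g i = ∏ x, (h62_locRing V m).subtype (G x) :=
    Finset.prod_congr rfl fun _ _ => rfl
  rw [h2, ← h1]
  refine Finset.sum_congr rfl fun k _ => ?_
  rw [map_mul, hWdef]
  simp only [map_prod, map_pow]
  rfl

/-! ### Row U at a point -/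

/-- **Row U at a point: (UNIT\*)** from (K), (EQ) and (RES). -/
theorem h62_rowU_unitStar (V : h80_ValFam F ι) (m : Ideal V.B) [hm : m.IsPrime]
    [IsNoetherianRing V.B] (q : F) (hq0 : q ≠ 0) (hqn : ∀ k, V.Through m k → 0 ≤ V.v k q)
    (hunrH : ∀ i, V.Through m i → V.v i q = 0 →
      ∃ f : F, f ≠ 0 ∧ V.v i f = 1 ∧ ∀ k, V.Through m k → 0 ≤ V.v k f)
    (hsepH : ∀ i j, V.Through m i → V.Through m j → V.v i q = 0 → V.v j q = 0 → i ≠ j →
      ∃ f : F, f ≠ 0 ∧ 0 < V.v i f ∧ V.v j f = 0 ∧ ∀ k, V.Through m k → 0 ≤ V.v k f)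
    (E : ι → Prop)
    (hE : ∀ c, V.Through m c → E c →
      ∃ π : F, π ≠ 0 ∧ V.v c π = 1 ∧ ∀ k, V.Through m k → k ≠ c → V.v k π = 0)
    (hE1 : ∀ c c', V.Through m c → V.Through m c' → 0 < V.v c q → 0 < V.v c' q → c ≠ c' →
      E c ∨ E c')
    (hζ : ∀ c, V.Through m c → 0 < V.v c q → ∃ ζ : F, ζ ≠ 0 ∧ V.v c ζ = 1)
    (hV : ∃ c₀, V.Through m c₀ ∧ 0 < V.v c₀ q ∧ E c₀)
    (hR : ∀ c, V.Through m c → 0 < V.v c q →
      ∃ (Fb : Type w) (_ : Field Fb), Nonempty (h62_Res V m c Fb)) :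
    h62_UnitStar V m := by
  obtain ⟨c₀, hc₀, hq₀, hEc₀⟩ := hV
  obtain ⟨Fb, _, ⟨R⟩⟩ := hR c₀ hc₀ hq₀
  exact h62_unitStar_of_eqs V m q hq0 hqn hunrH hsepH E hE hE1 hζ hc₀ hEc₀
    (fun π h0 h1 h2 => R.pir hc₀ π h0 h1 h2)

/-- **Row U at a point: (H5)** from (RES). -/
theorem h62_rowU_h5 (V : h80_ValFam F ι) (m : Ideal V.B) [hm : m.IsPrime]
    [IsNoetherianRing V.B] (q : F)
    (hR : ∀ c, V.Through m c → 0 < V.v c q →
      ∃ (Fb : Type w) (_ : Field Fb), Nonempty (h62_Res V m c Fb))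
    {κ : Type*} [Fintype κ] [DecidableEq κ] [Nonempty κ] (c : κ → ι)
    (hcinj : Function.Injective c) (a : κ → ℕ) (p : κ → F) (hc : ∀ k, V.Through m (c k))
    (hcq : ∀ k, 0 < V.v (c k) q)
    (hp0 : ∀ k, p k ≠ 0) (hp1 : ∀ k, V.v (c k) (p k) = 1)
    (hp2 : ∀ k j, V.Through m j → j ≠ c k → V.v j (p k) = 0) :
    ∃ N : ℕ, ∀ g : Fin N → F, (∀ i, V.InMLoc m (g i)) →
      ∃ h : κ → F, (∀ k, V.InLoc m (h k)) ∧
        ∏ i, g i = ∑ k, h k * ∏ k' ∈ Finset.univ.erase k, p k' ^ a k' := by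
  refine h62_h5 V m c hcinj a p hc hp0 hp1 hp2 fun k π hπ => ?_
  obtain ⟨Fb, _, ⟨R⟩⟩ := hR (c k) (hc k) (hcq k)
  exact R.pir (hc k) π (by rw [hπ]; exact hp0 k) (by rw [hπ]; exact hp1 k)
    (fun j hj hjk => by rw [hπ]; exact hp2 k j hj hjk)

/-- **Row U at a point: (H4)** from (RES). -/
theorem h62_rowU_h4 (V : h80_ValFam F ι) (m : Ideal V.B) [hm : m.IsPrime] (q : F)
    (hR : ∀ c, V.Through m c → 0 < V.v c q →
      ∃ (Fb : Type w) (_ : Field Fb), Nonempty (h62_Res V m c Fb))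
    {c : ι} (hc : V.Through m c) (hcq : 0 < V.v c q) {n : ℕ} (hn : n ≠ 0)
    (t s : F) (ht0 : t ≠ 0) (htc : 0 ≤ V.v c t) (hs : V.InLoc m s) (hs' : V.InLoc m s⁻¹)
    (hs0 : s ≠ 0) (h : t ^ n = s ∨ 1 ≤ V.v c (t ^ n - s)) :
    ∃ b : F, V.InLoc m b ∧ (t = b ∨ 1 ≤ V.v c (t - b)) := by
  obtain ⟨Fb, _, ⟨R⟩⟩ := hR c hc hcq
  exact R.h4 hc hn t s ht0 htc hs hs' hs0 h

end Fermat.Agent.S36
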