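import Mathlib
import Fermat.Agent.S36.h65_GluePts
import Fermat.Agent.S36.h62_RowU

/-!
# S36 rows I-Q / I-PTS: the residue datum `h62_Res` at a point of two glued curves (helper83)

Generic (no modular input).  Setting of `h65_glue_pts`: `k` algebraically closed, `Fb / k` a
function field, `y` a chart whose only pole is `Qinf`, `Γ := h20_regOff Qinf`, a finite set `Sg`
of places and an injective `Φ`, and a chart ring `V.B` (of a valuation family `V` on a field `F`)
with a ring hom `red : V.B → Fb × Fb` whose image is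

`T = {(a₁, a₂) ∈ Γ × Γ | ∀ Q ∈ Sg, a₁(Φ Q) = a₂(Q)}`.

Curve side:

* `h83_exists_interp` : interpolation in `Γ` at finitely many places;
* `h83_exists_frac` : a function regular at `P ≠ Qinf` is a quotient `a / s` of elements of `Γ`
  with `s(P) = 1`.

Glue side:

* `h83_glue_lift_fst`, `h83_glue_lift_snd` : both projections `V.B → Γ` are surjective;
* `h83_resCore` : the residue datum `h62_Res V m c Fb` (with `o := P.ord`) from a residue map `ρ`
  of `v_c` whose restriction to the chart ring takes regular values at `P`, describes `m` as the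
  functions vanishing at `P`, and has local fractions;
* `h83_resGlueFst`, `h83_resGlueSnd` : the residue datum for the first (second) branch at a
  maximal ideal `m` described by a place `P` of that branch (the output of `h65_glue_pts`);
* `h83_glue_through_fst`, `h83_glue_through_snd` : the branch passes through `m`.
-/

set_option autoImplicit false

noncomputable section

open AlgebraicCurve

namespace Fermat.Agent.S36

open Fermat.Agent.S18 Fermat.Agent.S24 Fermat.Agent.S27 Fermat.Agent.S34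

universe w

variable {k : Type*} {Fb : Type w} [Field k] [Field Fb] [Algebra k Fb] [IsAlgClosed k]

/-! ### Curve side -/

omit [IsAlgClosed k] in
theorem h83_val_pow (P : Place k Fb) {f : Fb} {b : k} (hf : h39_Val P f b) (n : ℕ) :
    h39_Val P (f ^ n) (b ^ n) := by
  induction n with
  | zero =>
    have h := h39_val_algebraMap P (1 : k)
    rw [map_one] at h
    simpa using h
  | succ n ih =>
    rw [pow_succ, pow_succ]
    exact h39_val_mul P ih hf

omit [IsAlgClosed k] in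
theorem h83_not_val_zero_one (P : Place k Fb) {f : Fb} (h0 : h39_Val P f 0) (h1 : h39_Val P f 1) :
    False :=
  zero_ne_one (h39_val_unique P h0 h1)

omit [IsAlgClosed k] in
/-- A function with value `1` at `P` is nonzero, of order `0`. -/
theorem h83_ne_zero_of_val_one (P : Place k Fb) {f : Fb} (h1 : h39_Val P f 1) : f ≠ 0 := by
  rintro rfl
  have h0 : h39_Val P (0 : Fb) 0 := by
    have h := h39_val_algebraMap P (0 : k)
    rwa [map_zero] at h
  exact h83_not_val_zero_one P h0 h1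

/-- Separation in `Γ`. -/
theorem h83_exists_sep {y : Fb} (hy : h75_IsChart k y) (Qinf : Place k Fb)
    (hpole : ∀ Q : Place k Fb, y ∈ Q.toValuationSubring ↔ Q ≠ Qinf) (P Q : Place k Fb)
    (hP : P ≠ Qinf) (hQ : Q ≠ Qinf) (hne : P ≠ Q) :
    ∃ h : Fb, h ∈ h20_regOff Qinf ∧ h39_Val P h 1 ∧ h39_Val Q h 0 := by
  obtain ⟨h, hreg, h1, h0⟩ := h39_exists_separating hy P Q ((hpole P).mpr hP) ((hpole Q).mpr hQ) hne
  exact ⟨h, (h65_regOff_iff Qinf hpole h).mpr hreg, h1, h0⟩

/-- A function of `Γ` with value `1` at `p i₀` and `0` at the `p i`, `i ∈ S`. -/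
theorem h83_exists_bump {y : Fb} (hy : h75_IsChart k y) (Qinf : Place k Fb)
    (hpole : ∀ Q : Place k Fb, y ∈ Q.toValuationSubring ↔ Q ≠ Qinf) {ι : Type*}
    (p : ι → Place k Fb) (P : Place k Fb) (hP : P ≠ Qinf) (S : Finset ι)
    (hS : ∀ i ∈ S, p i ≠ Qinf ∧ P ≠ p i) :
    ∃ e : Fb, e ∈ h20_regOff Qinf ∧ h39_Val P e 1 ∧ ∀ i ∈ S, h39_Val (p i) e 0 := by
  classical
  induction S using Finset.induction_on with
  | empty =>
    refine ⟨1, (h20_regOff Qinf).one_mem, ?_, fun i hi => absurd hi (Finset.notMem_empty i)⟩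
    have h := h39_val_algebraMap P (1 : k)
    rwa [map_one] at h
  | insert i₁ S hi₁ ih =>
    obtain ⟨e, he, he1, he0⟩ := ih (fun i hi => hS i (Finset.mem_insert_of_mem hi))
    obtain ⟨hq1, hne1⟩ := hS i₁ (Finset.mem_insert_self i₁ S)
    obtain ⟨h, hh, hh1, hh0⟩ := h83_exists_sep hy Qinf hpole P (p i₁) hP hq1 hne1
    refine ⟨e * h, (h20_regOff Qinf).mul_mem he hh, ?_, ?_⟩
    · have := h39_val_mul P he1 hh1
      rwa [mul_one] at this
    · intro i hi
      rcases Finset.mem_insert.mp hi with rfl | hi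
      · obtain ⟨b, hb⟩ := h39_exists_val hy (p i) (he (p i) hq1)
        have := h39_val_mul (p i) hb hh0
        rwa [mul_zero] at this
      · obtain ⟨b, hb⟩ := h39_exists_val hy (p i)
          (hh (p i) (hS i (Finset.mem_insert_of_mem hi)).1)
        have := h39_val_mul (p i) (he0 i hi) hb
        rwa [zero_mul] at this

/-- **Interpolation** in `Γ`: prescribed values at finitely many places `p i ≠ Qinf`. -/
theorem h83_exists_interp {y : Fb} (hy : h75_IsChart k y) (Qinf : Place k Fb)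
    (hpole : ∀ Q : Place k Fb, y ∈ Q.toValuationSubring ↔ Q ≠ Qinf) {ι : Type*}
    (p : ι → Place k Fb) (S : Finset ι) (hinj : Set.InjOn p (S : Set ι))
    (hS : ∀ i ∈ S, p i ≠ Qinf) (c : ι → k) :
    ∃ a : Fb, a ∈ h20_regOff Qinf ∧ ∀ i ∈ S, h39_Val (p i) a (c i) := by
  classical
  induction S using Finset.induction_on with
  | empty =>
    exact ⟨0, (h20_regOff Qinf).zero_mem, fun i hi => absurd hi (Finset.notMem_empty i)⟩
  | insert i₀ S hi₀ ih =>
    have hinj' : Set.InjOn p (S : Set ι) :=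
      hinj.mono (by intro i hi; exact Finset.mem_insert_of_mem hi)
    obtain ⟨a, ha, hav⟩ := ih hinj' (fun i hi => hS i (Finset.mem_insert_of_mem hi))
    have h0 : p i₀ ≠ Qinf := hS i₀ (Finset.mem_insert_self i₀ S)
    obtain ⟨e, he, he1, he0⟩ := h83_exists_bump hy Qinf hpole p (p i₀) h0 S (fun i hi =>
      ⟨hS i (Finset.mem_insert_of_mem hi), fun hpi => hi₀ (by
        have := hinj (Finset.mem_insert_self i₀ S) (Finset.mem_insert_of_mem hi) hpi
        rw [this]; exact hi)⟩)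
    obtain ⟨b₀, hb₀⟩ := h39_exists_val hy (p i₀) (ha (p i₀) h0)
    refine ⟨a + algebraMap k Fb (c i₀ - b₀) * e,
      (h20_regOff Qinf).add_mem ha ((h20_regOff Qinf).mul_mem
        ((h20_regOff Qinf).algebraMap_mem _) he), ?_⟩
    intro i hi
    rcases Finset.mem_insert.mp hi with rfl | hi
    · have h1 := h39_val_add (p i) hb₀ (h39_val_mul (p i) (h39_val_algebraMap (p i) (c i - b₀)) he1)
      have h2 : b₀ + (c i - b₀) * 1 = c i := by ring
      rwa [h2] at h1
    · have h1 := h39_val_add (p i) (hav i hi)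
        (h39_val_mul (p i) (h39_val_algebraMap (p i) (c i₀ - b₀)) (he0 i hi))
      have h2 : c i + (c i₀ - b₀) * 0 = c i := by ring
      rwa [h2] at h1

/-- Auxiliary induction for `h83_exists_frac`: `S` contains the places `≠ Qinf` where `g` is not
regular. -/
theorem h83_exists_frac_aux {y : Fb} (hy : h75_IsChart k y) (Qinf : Place k Fb)
    (hpole : ∀ Q : Place k Fb, y ∈ Q.toValuationSubring ↔ Q ≠ Qinf) (P : Place k Fb)
    (hP : P ≠ Qinf) (S : Finset (Place k Fb)) :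
    ∀ g : Fb, g ∈ P.toValuationSubring →
      (∀ R : Place k Fb, R ≠ Qinf → g ∉ R.toValuationSubring → R ∈ S) →
      ∃ s : Fb, s ∈ h20_regOff Qinf ∧ h39_Val P s 1 ∧ s * g ∈ h20_regOff Qinf := by
  classical
  have hone : h39_Val P (1 : Fb) 1 := by
    have h := h39_val_algebraMap P (1 : k)
    rwa [map_one] at h
  induction S using Finset.induction_on with
  | empty =>
    intro g _ hbad
    refine ⟨1, (h20_regOff Qinf).one_mem, hone, ?_⟩
    rw [one_mul]
    intro R hR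
    by_contra hg
    exact absurd (hbad R hR hg) (Finset.notMem_empty R)
  | insert Q S hQ ih =>
    intro g hgP hbad
    by_cases hgood : Q = Qinf ∨ g ∈ Q.toValuationSubring
    · refine ih g hgP (fun R hR hg => ?_)
      rcases Finset.mem_insert.mp (hbad R hR hg) with rfl | h
      · rcases hgood with h | h
        · exact absurd h hR
        · exact absurd h hg
      · exact h
    · push Not at hgood
      obtain ⟨hQinf, hgQ⟩ := hgood
      have hPQ : P ≠ Q := by
        rintro rfl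
        exact hgQ hgP
      have hg0 : g ≠ 0 := by
        rintro rfl
        exact hgQ Q.toValuationSubring.zero_mem
      obtain ⟨h, hh, hh1, hh0⟩ := h83_exists_sep hy Qinf hpole P Q hP hQinf hPQ
      have hh_ne : h ≠ 0 := h83_ne_zero_of_val_one P hh1
      have hordh : 0 < Q.ord h := by
        rcases (h39_val_zero_iff Q).mp hh0 with h' | h'
        · exact absurd h' hh_ne
        · exact h'
      set n : ℕ := (-Q.ord g).toNat with hn
      have hpow_ne : h ^ n ≠ 0 := pow_ne_zero n hh_ne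
      have hpow_mem : h ^ n ∈ h20_regOff Qinf := (h20_regOff Qinf).pow_mem hh n
      obtain ⟨s', hs', hs'1, hs'g⟩ := ih (h ^ n * g)
        (P.toValuationSubring.mul_mem _ _ (hpow_mem P hP) hgP) (fun R hR hg' => by
          have hgR : g ∉ R.toValuationSubring := fun hgR =>
            hg' (R.toValuationSubring.mul_mem _ _ (hpow_mem R hR) hgR)
          rcases Finset.mem_insert.mp (hbad R hR hgR) with rfl | h'
          · exfalso
            apply hg'
            rw [h35_mem_iff_ord_nonneg R (mul_ne_zero hpow_ne hg0), R.ord_mul hpow_ne hg0]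
            have h1 : R.ord (h ^ n) = n * R.ord h := by
              have := R.ord_zpow h (n : ℤ)
              rwa [zpow_natCast] at this
            rw [h1]
            have h2 : (n : ℤ) = -R.ord g := by
              rw [hn]
              have : R.ord g < 0 := by
                by_contra hcon
                push Not at hcon
                exact hgR ((h35_mem_iff_ord_nonneg R hg0).mpr hcon)
              exact Int.toNat_of_nonneg (by omega)
            have h3 : (0 : ℤ) ≤ n := Int.natCast_nonneg n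
            nlinarith
          · exact h')
      refine ⟨s' * h ^ n, (h20_regOff Qinf).mul_mem hs' hpow_mem, ?_, ?_⟩
      · have := h39_val_mul P hs'1 (h83_val_pow P hh1 n)
        rwa [one_pow, mul_one] at this
      · rw [mul_assoc]
        exact hs'g

/-- **Local fractions**: a function regular at `P ≠ Qinf` is `a / s` with `a, s ∈ Γ`,
`s(P) = 1`. -/
theorem h83_exists_frac {y : Fb} (hy : h75_IsChart k y) (Qinf : Place k Fb)
    (hpole : ∀ Q : Place k Fb, y ∈ Q.toValuationSubring ↔ Q ≠ Qinf) (P : Place k Fb)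
    (hP : P ≠ Qinf) (g : Fb) (hg : g ∈ P.toValuationSubring) :
    ∃ s : Fb, s ∈ h20_regOff Qinf ∧ h39_Val P s 1 ∧ s * g ∈ h20_regOff Qinf := by
  classical
  by_cases hg0 : g = 0
  · refine ⟨1, (h20_regOff Qinf).one_mem, ?_, ?_⟩
    · have h := h39_val_algebraMap P (1 : k)
      rwa [map_one] at h
    · rw [hg0, mul_zero]
      exact (h20_regOff Qinf).zero_mem
  · obtain ⟨D, hD⟩ := h7_exists_div hy g hg0
    refine h83_exists_frac_aux hy Qinf hpole P hP D.support g hg (fun R _ hgR => ?_)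
    rw [Finsupp.mem_support_iff, hD]
    intro h0
    exact hgR ((h35_mem_iff_ord_nonneg R hg0).mpr (by omega))

/-! ### Glue side -/

section Glue

variable {F : Type*} [Field F] {ι : Type*}

/-- The first projection of the chart ring onto `Γ` is surjective. -/
theorem h83_glue_lift_fst {y : Fb} (hy : h75_IsChart k y) (Qinf : Place k Fb)
    (hpole : ∀ Q : Place k Fb, y ∈ Q.toValuationSubring ↔ Q ≠ Qinf)
    (Sg : Finset (Place k Fb)) (Φ : Place k Fb → Place k Fb)
    (hSg : ∀ Q ∈ Sg, Q ≠ Qinf ∧ Φ Q ≠ Qinf)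
    {B : Type*} [CommRing B] (red : B →+* Fb × Fb)
    (hT : ∀ a : Fb × Fb, (∃ b : B, red b = a) ↔
      (a.1 ∈ h20_regOff Qinf ∧ a.2 ∈ h20_regOff Qinf) ∧
        ∀ Q ∈ Sg, ∃ c : k, h39_Val (Φ Q) a.1 c ∧ h39_Val Q a.2 c)
    (a : Fb) (ha : a ∈ h20_regOff Qinf) : ∃ b : B, (red b).1 = a := by
  classical
  have hex : ∀ Q : Place k Fb, ∃ c : k, Q ∈ Sg → h39_Val (Φ Q) a c := by
    intro Q
    by_cases hQ : Q ∈ Sg
    · obtain ⟨c, hc⟩ := h39_exists_val hy (Φ Q) (ha (Φ Q) (hSg Q hQ).2)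
      exact ⟨c, fun _ => hc⟩
    · exact ⟨0, fun h => absurd h hQ⟩
  choose c hc using hex
  obtain ⟨a₂, ha₂, hv⟩ := h83_exists_interp hy Qinf hpole (fun Q : Place k Fb => Q) Sg
    (fun _ _ _ _ h => h) (fun Q hQ => (hSg Q hQ).1) c
  obtain ⟨b, hb⟩ := (hT (a, a₂)).mpr ⟨⟨ha, ha₂⟩, fun Q hQ => ⟨c Q, hc Q hQ, hv Q hQ⟩⟩
  exact ⟨b, by rw [hb]⟩

/-- The second projection of the chart ring onto `Γ` is surjective. -/
theorem h83_glue_lift_snd {y : Fb} (hy : h75_IsChart k y) (Qinf : Place k Fb)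
    (hpole : ∀ Q : Place k Fb, y ∈ Q.toValuationSubring ↔ Q ≠ Qinf)
    (Sg : Finset (Place k Fb)) (Φ : Place k Fb → Place k Fb) (hΦ : Function.Injective Φ)
    (hSg : ∀ Q ∈ Sg, Q ≠ Qinf ∧ Φ Q ≠ Qinf)
    {B : Type*} [CommRing B] (red : B →+* Fb × Fb)
    (hT : ∀ a : Fb × Fb, (∃ b : B, red b = a) ↔
      (a.1 ∈ h20_regOff Qinf ∧ a.2 ∈ h20_regOff Qinf) ∧
        ∀ Q ∈ Sg, ∃ c : k, h39_Val (Φ Q) a.1 c ∧ h39_Val Q a.2 c)
    (a : Fb) (ha : a ∈ h20_regOff Qinf) : ∃ b : B, (red b).2 = a := by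
  classical
  have hex : ∀ Q : Place k Fb, ∃ c : k, Q ∈ Sg → h39_Val Q a c := by
    intro Q
    by_cases hQ : Q ∈ Sg
    · obtain ⟨c, hc⟩ := h39_exists_val hy Q (ha Q (hSg Q hQ).1)
      exact ⟨c, fun _ => hc⟩
    · exact ⟨0, fun h => absurd h hQ⟩
  choose c hc using hex
  obtain ⟨a₁, ha₁, hv⟩ := h83_exists_interp hy Qinf hpole Φ Sg
    (fun _ _ _ _ h => hΦ h) (fun Q hQ => (hSg Q hQ).2) c
  obtain ⟨b, hb⟩ := (hT (a₁, a)).mpr ⟨⟨ha₁, ha⟩, fun Q hQ => ⟨c Q, hv Q hQ, hc Q hQ⟩⟩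
  exact ⟨b, by rw [hb]⟩

omit [IsAlgClosed k] in
/-- Elements of the chart ring lie in every `O` containing the valuation ring of `v_c`. -/
theorem h83_B_le (V : h80_ValFam F ι) (c : ι) (O : Subring F)
    (mem_O : ∀ f : F, f ≠ 0 → 0 ≤ V.v c f → f ∈ O) (b : V.B) : (b : F) ∈ O := by
  by_cases hb : (b : F) = 0
  · rw [hb]
    exact O.zero_mem
  · exact mem_O _ hb ((V.mem_B _ hb).mp b.2 c)

omit [IsAlgClosed k] in
/-- **The residue datum from a point of a branch** (core): `ρ` a residue map of `v_c` whose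
restriction to the chart ring takes values regular at `P`, with `m = {ρ(·)(P) = 0}` and local
fractions. -/
def h83_resCore (V : h80_ValFam F ι) (m : Ideal V.B) (c : ι)
    (O : Subring F) (mem_O : ∀ f : F, f ≠ 0 → 0 ≤ V.v c f → f ∈ O)
    (ρ : O →+* Fb) (ρ_eq_zero : ∀ f : O, (f : F) ≠ 0 → (ρ f = 0 ↔ 0 < V.v c (f : F)))
    (P : Place k Fb)
    (hreg : ∀ b : V.B, ρ ⟨b, h83_B_le V c O mem_O b⟩ ∈ P.toValuationSubring)
    (hm : ∀ b : V.B, b ∈ m ↔ h39_Val P (ρ ⟨b, h83_B_le V c O mem_O b⟩) 0)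
    (hfrac : ∀ g : Fb, g ∈ P.toValuationSubring → ∃ b t : V.B,
      h39_Val P (ρ ⟨t, h83_B_le V c O mem_O t⟩) 1 ∧
        ρ ⟨b, h83_B_le V c O mem_O b⟩ = ρ ⟨t, h83_B_le V c O mem_O t⟩ * g) :
    h62_Res V m c Fb where
  O := O
  mem_O := mem_O
  ρ := ρ
  ρ_eq_zero := ρ_eq_zero
  o := P.ord
  o_mul := fun g h hg hh => P.ord_mul hg hh
  nonneg := by
    rintro f ⟨b, t, ht, htf⟩ hf
    have hmul : ρ ⟨t, h83_B_le V c O mem_O t⟩ * ρ f = ρ ⟨b, h83_B_le V c O mem_O b⟩ := by
      rw [← map_mul]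
      exact congrArg ρ (Subtype.ext htf)
    have htv : ¬ h39_Val P (ρ ⟨t, h83_B_le V c O mem_O t⟩) 0 := fun h => ht ((hm t).mpr h)
    rw [h39_val_zero_iff] at htv
    push Not at htv
    obtain ⟨ht0, htord⟩ := htv
    have htord' : P.ord (ρ ⟨t, h83_B_le V c O mem_O t⟩) = 0 :=
      le_antisymm htord (h35_ord_nonneg_of_mem P (hreg t))
    have hb0 : ρ ⟨b, h83_B_le V c O mem_O b⟩ ≠ 0 := by
      rw [← hmul]
      exact mul_ne_zero ht0 hf
    have hbord := h35_ord_nonneg_of_mem P (hreg b)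
    rw [← hmul, P.ord_mul ht0 hf, htord', zero_add] at hbord
    exact hbord
  surj := by
    intro g hg0 hg
    obtain ⟨b, t, ht1, hbt⟩ := hfrac g ((h35_mem_iff_ord_nonneg P hg0).mpr hg)
    have hρt : ρ ⟨t, h83_B_le V c O mem_O t⟩ ≠ 0 := h83_ne_zero_of_val_one P ht1
    have htm : t ∉ m := fun h => h83_not_val_zero_one P ((hm t).mp h) ht1
    have ht0 : (t : F) ≠ 0 := h80_ne_zero_of_not_mem V htm
    have hρb : ρ ⟨b, h83_B_le V c O mem_O b⟩ ≠ 0 := by
      rw [hbt]
      exact mul_ne_zero hρt hg0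
    have hb0 : (b : F) ≠ 0 := by
      intro h
      apply hρb
      have : (⟨(b : F), h83_B_le V c O mem_O b⟩ : O) = 0 := Subtype.ext h
      rw [this, map_zero]
    have hvt : V.v c (t : F) = 0 := by
      have h1 : ¬ 0 < V.v c (t : F) := fun h =>
        hρt ((ρ_eq_zero ⟨t, h83_B_le V c O mem_O t⟩ ht0).mpr h)
      have h2 := h80_v_nonneg V c t ht0
      omega
    have hvb := h80_v_nonneg V c b hb0
    have hf0 : (b : F) / (t : F) ≠ 0 := div_ne_zero hb0 ht0
    have hfO : (b : F) / (t : F) ∈ O := mem_O _ hf0 (by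
      rw [h80_v_div V c hb0 ht0, hvt, sub_zero]
      exact hvb)
    refine ⟨⟨(b : F) / (t : F), hfO⟩, ⟨b, t, htm, by field_simp⟩, ?_⟩
    have hmul : ρ ⟨t, h83_B_le V c O mem_O t⟩ * ρ ⟨(b : F) / (t : F), hfO⟩
        = ρ ⟨b, h83_B_le V c O mem_O b⟩ := by
      rw [← map_mul]
      refine congrArg ρ (Subtype.ext ?_)
      show (t : F) * ((b : F) / (t : F)) = (b : F)
      field_simp
    rw [hbt] at hmul
    exact mul_left_cancel₀ hρt hmul

/-- **(RES) on the first branch**: `m` is the point `P ≠ Qinf` of the first branch. -/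
def h83_resGlueFst {y : Fb} (hy : h75_IsChart k y) (Qinf : Place k Fb)
    (hpole : ∀ Q : Place k Fb, y ∈ Q.toValuationSubring ↔ Q ≠ Qinf)
    (Sg : Finset (Place k Fb)) (Φ : Place k Fb → Place k Fb)
    (hSg : ∀ Q ∈ Sg, Q ≠ Qinf ∧ Φ Q ≠ Qinf)
    (V : h80_ValFam F ι) (red : V.B →+* Fb × Fb)
    (hT : ∀ a : Fb × Fb, (∃ b : V.B, red b = a) ↔
      (a.1 ∈ h20_regOff Qinf ∧ a.2 ∈ h20_regOff Qinf) ∧
        ∀ Q ∈ Sg, ∃ c : k, h39_Val (Φ Q) a.1 c ∧ h39_Val Q a.2 c)
    (m : Ideal V.B) (c : ι) (O : Subring F) (mem_O : ∀ f : F, f ≠ 0 → 0 ≤ V.v c f → f ∈ O)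
    (ρ : O →+* Fb) (ρ_eq_zero : ∀ f : O, (f : F) ≠ 0 → (ρ f = 0 ↔ 0 < V.v c (f : F)))
    (hρ : ∀ (b : V.B) (hb : (b : F) ∈ O), ρ ⟨b, hb⟩ = (red b).1)
    (P : Place k Fb) (hP : P ≠ Qinf) (hm : ∀ b : V.B, b ∈ m ↔ h39_Val P (red b).1 0) :
    h62_Res V m c Fb :=
  h83_resCore V m c O mem_O ρ ρ_eq_zero P
    (fun b => by
      rw [hρ]
      exact ((hT (red b)).mp ⟨b, rfl⟩).1.1 P hP)
    (fun b => by rw [hρ]; exact hm b)
    (fun g hg => by
      obtain ⟨s, hs, hs1, hsg⟩ := h83_exists_frac hy Qinf hpole P hP g hg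
      obtain ⟨t, ht⟩ := h83_glue_lift_fst hy Qinf hpole Sg Φ hSg red hT s hs
      obtain ⟨b, hb⟩ := h83_glue_lift_fst hy Qinf hpole Sg Φ hSg red hT (s * g) hsg
      refine ⟨b, t, ?_, ?_⟩
      · rw [hρ, ht]; exact hs1
      · rw [hρ, hρ, ht, hb])

/-- **(RES) on the second branch**: `m` is the point `P ≠ Qinf` of the second branch. -/
def h83_resGlueSnd {y : Fb} (hy : h75_IsChart k y) (Qinf : Place k Fb)
    (hpole : ∀ Q : Place k Fb, y ∈ Q.toValuationSubring ↔ Q ≠ Qinf)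
    (Sg : Finset (Place k Fb)) (Φ : Place k Fb → Place k Fb) (hΦ : Function.Injective Φ)
    (hSg : ∀ Q ∈ Sg, Q ≠ Qinf ∧ Φ Q ≠ Qinf)
    (V : h80_ValFam F ι) (red : V.B →+* Fb × Fb)
    (hT : ∀ a : Fb × Fb, (∃ b : V.B, red b = a) ↔
      (a.1 ∈ h20_regOff Qinf ∧ a.2 ∈ h20_regOff Qinf) ∧
        ∀ Q ∈ Sg, ∃ c : k, h39_Val (Φ Q) a.1 c ∧ h39_Val Q a.2 c)
    (m : Ideal V.B) (c : ι) (O : Subring F) (mem_O : ∀ f : F, f ≠ 0 → 0 ≤ V.v c f → f ∈ O)
    (ρ : O →+* Fb) (ρ_eq_zero : ∀ f : O, (f : F) ≠ 0 → (ρ f = 0 ↔ 0 < V.v c (f : F)))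
    (hρ : ∀ (b : V.B) (hb : (b : F) ∈ O), ρ ⟨b, hb⟩ = (red b).2)
    (P : Place k Fb) (hP : P ≠ Qinf) (hm : ∀ b : V.B, b ∈ m ↔ h39_Val P (red b).2 0) :
    h62_Res V m c Fb :=
  h83_resCore V m c O mem_O ρ ρ_eq_zero P
    (fun b => by
      rw [hρ]
      exact ((hT (red b)).mp ⟨b, rfl⟩).1.2 P hP)
    (fun b => by rw [hρ]; exact hm b)
    (fun g hg => by
      obtain ⟨s, hs, hs1, hsg⟩ := h83_exists_frac hy Qinf hpole P hP g hg
      obtain ⟨t, ht⟩ := h83_glue_lift_snd hy Qinf hpole Sg Φ hΦ hSg red hT s hs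
      obtain ⟨b, hb⟩ := h83_glue_lift_snd hy Qinf hpole Sg Φ hΦ hSg red hT (s * g) hsg
      refine ⟨b, t, ?_, ?_⟩
      · rw [hρ, ht]; exact hs1
      · rw [hρ, hρ, ht, hb])

omit [IsAlgClosed k] in
/-- The branch `c` passes through `m` (first or second branch: `pr` is the projection). -/
theorem h83_glue_through (V : h80_ValFam F ι) (m : Ideal V.B) (c : ι)
    (O : Subring F) (mem_O : ∀ f : F, f ≠ 0 → 0 ≤ V.v c f → f ∈ O)
    (ρ : O →+* Fb) (ρ_eq_zero : ∀ f : O, (f : F) ≠ 0 → (ρ f = 0 ↔ 0 < V.v c (f : F)))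
    (P : Place k Fb)
    (hm : ∀ b : V.B, b ∈ m ↔ h39_Val P (ρ ⟨b, h83_B_le V c O mem_O b⟩) 0) :
    V.Through m c := by
  intro f hf0 hpos
  rw [hm f, (ρ_eq_zero ⟨f, h83_B_le V c O mem_O f⟩ hf0).mpr hpos]
  have h := h39_val_algebraMap P (0 : k)
  rwa [map_zero] at h

end Glue

end Fermat.Agent.S36

end
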