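import Mathlib
import Fermat.Agent.S36.h22_QExports
import Fermat.Agent.S36.h80_ChartPlace
import Fermat.Agent.S36.h80_FamInst
import Fermat.Agent.S36.h65_GluePts
import Fermat.Agent.S36.h65_HunionInst
import Fermat.Agent.S36.h83_ResGlue
import Fermat.Agent.S34.h22_LatMqBridge

/-!
# S36 / row I-Q (helper22): the level-`Mq` instance of the chart family of the S34 chart

`D0 = (∞) + (0')` the S34 cuspidal divisor of level `M q`, `F₀ = h69_F0 (M q) I` the inertia-fixed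
functions, `v_F = h22_vq 0`, `v_V = h22_vq 1` the two vertical valuations.

* `h22_Vq` : the valuation family of the chart `{P | P ≠ ∞, 0'}` on `F₀`
  (vertical indices `Sum.inl 0 = Z_F`, `Sum.inl 1 = Z_V`); `h22_mem_Vq_B` its chart ring
  `B = F₀ ∩ O ∩ ⋃ L(n D0)`.
* `h22_redB : B →+* Fb × Fb` the reduction; `h22_redB_ker` (kernel `= q B`), `h22_redB_q`,
  `h22_redB_fst_eq_zero_iff`, `h22_redB_snd_eq_zero_iff`.
* `h22_redB_T` : the image of `h22_redB` is the node ring (`hT` of `h65_glue_pts`,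
  `h83_resGlueFst`, ... verbatim), from the node theorem `hunion` (`h65_hunion_inst`) and the
  rational lifting `h22_hrat_Mq`.
* `h22_Oc c`, `h22_rho c` : the valuation ring of `v_c` in `F₀` and its residue map, in the binder
  shapes `O`, `mem_O`, `ρ`, `ρ_eq_zero`, `hρ` of `h83_resGlueFst` / `h83_resGlueSnd`.
-/

set_option autoImplicit false
set_option linter.unusedSectionVars false

noncomputable section

open AlgebraicCurve ModularCurve IntermediateField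

namespace Fermat.Agent.S36

open Fermat.Agent.S34 Fermat.Agent.S18 Fermat.Agent.S37 Fermat.Agent.S24 Fermat.Agent.S27

local notation "Qb" => AlgebraicClosure ℚ

section QInst

variable (M q : ℕ) [NeZero M] [NeZero q] [Fact q.Prime] (hqM : ¬ q ∣ M)
  (A : ValuationSubring Qb) (hA : A.LiesOverPrime q)
  (Pinf P0 : Place Qb ↥(modularFunctionFieldBar (M * q)))

/-! ### The Riemann–Roch spaces `L(n D0)` -/

omit [NeZero M] [NeZero q] [Fact q.Prime] in
/-- Elements of `L(n D0)` are regular off the two cusps. -/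
theorem h22_rr_D0_reg {n : ℕ} {f : ↥(modularFunctionFieldBar (M * q))}
    (hf : f ∈ riemannRochSpace (n • (Finsupp.single Pinf (1 : ℤ) + Finsupp.single P0 (1 : ℤ) :
      Divisor Qb ↥(modularFunctionFieldBar (M * q)))))
    (P : Place Qb ↥(modularFunctionFieldBar (M * q))) (h1 : P ≠ Pinf) (h2 : P ≠ P0) :
    0 ≤ P.ord f := by
  classical
  rw [mem_riemannRochSpace_iff] at hf
  rcases hf P with h0 | h
  · rw [h0, Place.ord_zero]
  · rw [Finsupp.smul_apply, Finsupp.add_apply, Finsupp.single_apply, Finsupp.single_apply,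
      if_neg (Ne.symm h1), if_neg (Ne.symm h2)] at h
    simpa using h

omit [NeZero M] [NeZero q] [Fact q.Prime] in
/-- A function regular off the two cusps lies in some `L(n D0)`. -/
theorem h22_exists_rr_D0 (f : ↥(modularFunctionFieldBar (M * q)))
    (hf : ∀ P : Place Qb ↥(modularFunctionFieldBar (M * q)), P ≠ Pinf → P ≠ P0 → 0 ≤ P.ord f) :
    ∃ n : ℕ, f ∈ riemannRochSpace (n • (Finsupp.single Pinf (1 : ℤ) + Finsupp.single P0 (1 : ℤ) :
      Divisor Qb ↥(modularFunctionFieldBar (M * q)))) := by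
  classical
  refine ⟨(max (-(Pinf.ord f)) (-(P0.ord f))).toNat, ?_⟩
  rw [mem_riemannRochSpace_iff]
  intro v
  right
  have hn : max (-(Pinf.ord f)) (-(P0.ord f)) ≤
      ((max (-(Pinf.ord f)) (-(P0.ord f))).toNat : ℤ) := Int.self_le_toNat _
  have hn1 := le_trans (le_max_left _ _) hn
  have hn2 := le_trans (le_max_right _ _) hn
  rw [Finsupp.smul_apply, Finsupp.add_apply, Finsupp.single_apply, Finsupp.single_apply,
    nsmul_eq_mul]
  by_cases h1 : Pinf = v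
  · subst h1
    rw [if_pos rfl]
    split_ifs <;> push_cast <;> omega
  · by_cases h2 : P0 = v
    · subst h2
      rw [if_neg h1, if_pos rfl]
      push_cast
      omega
    · rw [if_neg h1, if_neg h2]
      have := hf v (Ne.symm h1) (Ne.symm h2)
      push_cast
      omega

/-! ### The chart family -/

/-- The chart of the S34 divisor `D0`: all places except the two cusps. -/
def h22_UD0 : Set (Place Qb ↥(modularFunctionFieldBar (M * q))) := {P | P ≠ Pinf ∧ P ≠ P0}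

/-- **The level-`Mq` chart family** of the S34 chart: vertical valuations `h22_vq 0` (`Z_F`),
`h22_vq 1` (`Z_V`); horizontal valuations = the places `≠ ∞, 0'`, restricted to `F₀`. -/
def h22_Vq : h80_ValFam ↥(h69_F0 (M * q) (A.inertiaSubgroupIn ℚ))
    (Fin 2 ⊕ h80_HorIdx (h80_placeOrd (h69_F0 (M * q) (A.inertiaSubgroupIn ℚ)).subtype
      (h22_UD0 M q Pinf P0))) :=
  h80_placeFam (h69_F0 (M * q) (A.inertiaSubgroupIn ℚ)).subtype (h22_UD0 M q Pinf P0)
    (h22_vq M q hqM A hA) (h22_vq_mul M q hqM A hA) (h22_vq_add M q hqM A hA)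
    (fun f hf => (h75_finite_ord_ne (h22_isChart_jMq M q) f hf).subset fun _ hP => hP.2)

theorem h22_Vq_v_inl (c : Fin 2) (f : ↥(h69_F0 (M * q) (A.inertiaSubgroupIn ℚ))) :
    (h22_Vq M q hqM A hA Pinf P0).v (Sum.inl c) f = h22_vq M q hqM A hA c f := rfl

/-- The chart ring. -/
theorem h22_mem_Vq_B (f : ↥(h69_F0 (M * q) (A.inertiaSubgroupIn ℚ))) :
    f ∈ (h22_Vq M q hqM A hA Pinf P0).B ↔ f = 0 ∨ ((∀ c, 0 ≤ h22_vq M q hqM A hA c f) ∧
      ∀ P : Place Qb ↥(modularFunctionFieldBar (M * q)), P ≠ Pinf → P ≠ P0 →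
        0 ≤ P.ord (f : ↥(modularFunctionFieldBar (M * q)))) := by
  unfold h22_Vq
  rw [h80_mem_placeFam_B]
  constructor
  · rintro (h | ⟨h1, h2⟩)
    · exact Or.inl h
    · exact Or.inr ⟨h1, fun P hP1 hP2 => h2 P ⟨hP1, hP2⟩⟩
  · rintro (h | ⟨h1, h2⟩)
    · exact Or.inl h
    · exact Or.inr ⟨h1, fun P hP => h2 P hP.1 hP.2⟩

/-- Elements of the chart ring lie in both valuation rings. -/
theorem h22_Vq_B_mem_pair (b : (h22_Vq M q hqM A hA Pinf P0).B) (c : Fin 2) :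
    ((b : ↥(h69_F0 (M * q) (A.inertiaSubgroupIn ℚ))) : ↥(modularFunctionFieldBar (M * q))) ∈
      (h60_pair M q hqM A hA c).O := by
  by_cases hb : (b : ↥(h69_F0 (M * q) (A.inertiaSubgroupIn ℚ))) = 0
  · rw [hb]
    exact Subring.zero_mem _
  · rcases (h22_mem_Vq_B M q hqM A hA Pinf P0 _).1 b.2 with h | ⟨h1, -⟩
    · exact absurd h hb
    · exact (h22_vq_nonneg_iff M q hqM A hA c _ hb).1 (h1 c)

/-- Elements of the chart ring lie in the lattice `h87_D`. -/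
theorem h22_Vq_B_mem_O (b : (h22_Vq M q hqM A hA Pinf P0).B) :
    ((b : ↥(h69_F0 (M * q) (A.inertiaSubgroupIn ℚ))) : ↥(modularFunctionFieldBar (M * q))) ∈
      (h87_D M q hqM A hA).O :=
  ⟨h22_Vq_B_mem_pair M q hqM A hA Pinf P0 b 0, h22_Vq_B_mem_pair M q hqM A hA Pinf P0 b 1⟩

/-- `F₀ ∩ O ∩ L(n D0)` lies in the chart ring. -/
theorem h22_mem_Vq_B_of_rr {n : ℕ} (g : ↥(modularFunctionFieldBar (M * q)))
    (hg0 : g ∈ h69_F0 (M * q) (A.inertiaSubgroupIn ℚ))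
    (hgL : g ∈ riemannRochSpace (n • (Finsupp.single Pinf (1 : ℤ) + Finsupp.single P0 (1 : ℤ) :
      Divisor Qb ↥(modularFunctionFieldBar (M * q)))))
    (hgO : g ∈ (h87_D M q hqM A hA).O) :
    (⟨g, hg0⟩ : ↥(h69_F0 (M * q) (A.inertiaSubgroupIn ℚ))) ∈ (h22_Vq M q hqM A hA Pinf P0).B := by
  rw [h22_mem_Vq_B]
  by_cases h0 : (⟨g, hg0⟩ : ↥(h69_F0 (M * q) (A.inertiaSubgroupIn ℚ))) = 0
  · exact Or.inl h0
  · refine Or.inr ⟨fun c => (h22_vq_nonneg_iff M q hqM A hA c _ h0).2 ?_, fun P h1 h2 =>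
      h22_rr_D0_reg M q Pinf P0 hgL P h1 h2⟩
    fin_cases c
    · exact hgO.1
    · exact hgO.2

/-- Elements of the chart ring lie in some `L(n D0)`. -/
theorem h22_Vq_B_rr (b : (h22_Vq M q hqM A hA Pinf P0).B) :
    ∃ n : ℕ, ((b : ↥(h69_F0 (M * q) (A.inertiaSubgroupIn ℚ))) :
        ↥(modularFunctionFieldBar (M * q))) ∈
      riemannRochSpace (n • (Finsupp.single Pinf (1 : ℤ) + Finsupp.single P0 (1 : ℤ) :
        Divisor Qb ↥(modularFunctionFieldBar (M * q)))) := by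
  rcases (h22_mem_Vq_B M q hqM A hA Pinf P0 _).1 b.2 with h | ⟨-, h2⟩
  · exact ⟨0, by rw [h]; exact Submodule.zero_mem _⟩
  · exact h22_exists_rr_D0 M q Pinf P0 _ h2

/-! ### The reduction map of the chart ring -/

/-- **The reduction** `B → Fb × Fb` of the chart ring (the restriction of `h87_D.red`). -/
def h22_redB : (h22_Vq M q hqM A hA Pinf P0).B →+*
    ↥(modularFunctionFieldFullC (IsLocalRing.ResidueField A) M) ×
      ↥(modularFunctionFieldFullC (IsLocalRing.ResidueField A) M) :=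
  (h87_D M q hqM A hA).red.comp
    ((((h69_F0 (M * q) (A.inertiaSubgroupIn ℚ)).subtype).comp
      (h22_Vq M q hqM A hA Pinf P0).B.subtype).codRestrict (h87_D M q hqM A hA).O
        (fun b => h22_Vq_B_mem_O M q hqM A hA Pinf P0 b))

theorem h22_redB_apply (b : (h22_Vq M q hqM A hA Pinf P0).B) :
    h22_redB M q hqM A hA Pinf P0 b = (h87_D M q hqM A hA).redF
      ((b : ↥(h69_F0 (M * q) (A.inertiaSubgroupIn ℚ))) : ↥(modularFunctionFieldBar (M * q))) := by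
  rw [(h87_D M q hqM A hA).redF_of_mem (h22_Vq_B_mem_O M q hqM A hA Pinf P0 b)]
  rfl

theorem h22_redB_pair (b : (h22_Vq M q hqM A hA Pinf P0).B) :
    h22_redB M q hqM A hA Pinf P0 b =
      ((h60_R1 M q hqM A hA).redF
          ((b : ↥(h69_F0 (M * q) (A.inertiaSubgroupIn ℚ))) : ↥(modularFunctionFieldBar (M * q))),
        (h60_R2 M q hqM A hA).redF
          ((b : ↥(h69_F0 (M * q) (A.inertiaSubgroupIn ℚ))) : ↥(modularFunctionFieldBar (M * q)))) := by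
  rw [h22_redB_apply]
  exact h87_D_redF M q hqM A hA (h22_Vq_B_mem_pair M q hqM A hA Pinf P0 b 0)
    (h22_Vq_B_mem_pair M q hqM A hA Pinf P0 b 1)

theorem h22_redB_comp (b : (h22_Vq M q hqM A hA Pinf P0).B) (c : Fin 2) :
    (h60_pair M q hqM A hA c).redF
        ((b : ↥(h69_F0 (M * q) (A.inertiaSubgroupIn ℚ))) : ↥(modularFunctionFieldBar (M * q))) =
      ![(h22_redB M q hqM A hA Pinf P0 b).1, (h22_redB M q hqM A hA Pinf P0 b).2] c := by
  rw [h22_redB_pair]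
  fin_cases c <;> rfl

/-- A component of the reduction vanishes iff the vertical valuation is positive. -/
theorem h22_redB_comp_eq_zero_iff (b : (h22_Vq M q hqM A hA Pinf P0).B)
    (hb : (b : ↥(h69_F0 (M * q) (A.inertiaSubgroupIn ℚ))) ≠ 0) (c : Fin 2) :
    ![(h22_redB M q hqM A hA Pinf P0 b).1, (h22_redB M q hqM A hA Pinf P0 b).2] c = 0 ↔
      0 < (h22_Vq M q hqM A hA Pinf P0).v (Sum.inl c) b := by
  rw [← h22_redB_comp, h22_Vq_v_inl, h22_vq_pos_iff_red M q hqM A hA c _ hb]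
  exact ⟨fun h => ⟨h22_Vq_B_mem_pair M q hqM A hA Pinf P0 b c, h⟩, fun h => h.2⟩

/-- `hc1` of `h65_glue_local`. -/
theorem h22_redB_fst_eq_zero_iff (b : (h22_Vq M q hqM A hA Pinf P0).B)
    (hb : (b : ↥(h69_F0 (M * q) (A.inertiaSubgroupIn ℚ))) ≠ 0) :
    (h22_redB M q hqM A hA Pinf P0 b).1 = 0 ↔
      0 < (h22_Vq M q hqM A hA Pinf P0).v (Sum.inl 0) b :=
  h22_redB_comp_eq_zero_iff M q hqM A hA Pinf P0 b hb 0

/-- `hc2` of `h65_glue_local`. -/
theorem h22_redB_snd_eq_zero_iff (b : (h22_Vq M q hqM A hA Pinf P0).B)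
    (hb : (b : ↥(h69_F0 (M * q) (A.inertiaSubgroupIn ℚ))) ≠ 0) :
    (h22_redB M q hqM A hA Pinf P0 b).2 = 0 ↔
      0 < (h22_Vq M q hqM A hA Pinf P0).v (Sum.inl 1) b :=
  h22_redB_comp_eq_zero_iff M q hqM A hA Pinf P0 b hb 1

/-- `red q = 0`. -/
theorem h22_redB_q :
    h22_redB M q hqM A hA Pinf P0 (q : (h22_Vq M q hqM A hA Pinf P0).B) = 0 := by
  have hq : q.Prime := Fact.out
  have e : (((q : (h22_Vq M q hqM A hA Pinf P0).B)) : ↥(h69_F0 (M * q) (A.inertiaSubgroupIn ℚ))) =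
      (q : ↥(h69_F0 (M * q) (A.inertiaSubgroupIn ℚ))) := SubringClass.coe_natCast _ q
  have hq0 : (((q : (h22_Vq M q hqM A hA Pinf P0).B)) :
      ↥(h69_F0 (M * q) (A.inertiaSubgroupIn ℚ))) ≠ 0 := by
    rw [e]
    exact_mod_cast hq.ne_zero
  have key : ∀ c : Fin 2, 0 < (h22_Vq M q hqM A hA Pinf P0).v (Sum.inl c)
      ((q : (h22_Vq M q hqM A hA Pinf P0).B) : ↥(h69_F0 (M * q) (A.inertiaSubgroupIn ℚ))) := by
    intro c
    rw [h22_Vq_v_inl, e, h22_vq_q]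
    exact one_pos
  exact Prod.ext ((h22_redB_fst_eq_zero_iff M q hqM A hA Pinf P0 _ hq0).2 (key 0))
    ((h22_redB_snd_eq_zero_iff M q hqM A hA Pinf P0 _ hq0).2 (key 1))

/-- **The kernel of the reduction is `q B`** (`hker` of `h65_glue_local`). -/
theorem h22_redB_ker (r : (h22_Vq M q hqM A hA Pinf P0).B)
    (h : h22_redB M q hqM A hA Pinf P0 r = 0) :
    ∃ r' : (h22_Vq M q hqM A hA Pinf P0).B, r = (q : (h22_Vq M q hqM A hA Pinf P0).B) * r' := by
  rw [h22_redB_apply] at h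
  obtain ⟨g, hg0, hgO, hfg⟩ := h22_k0_ker_Mq M q hqM A hA _
    (r : ↥(h69_F0 (M * q) (A.inertiaSubgroupIn ℚ))).2 (h22_Vq_B_mem_O M q hqM A hA Pinf P0 r) h
  have hgB : (⟨g, hg0⟩ : ↥(h69_F0 (M * q) (A.inertiaSubgroupIn ℚ))) ∈
      (h22_Vq M q hqM A hA Pinf P0).B := by
    rw [h22_mem_Vq_B]
    by_cases h0 : (⟨g, hg0⟩ : ↥(h69_F0 (M * q) (A.inertiaSubgroupIn ℚ))) = 0
    · exact Or.inl h0
    · refine Or.inr ⟨fun c => (h22_vq_nonneg_iff M q hqM A hA c _ h0).2 ?_, fun P h1 h2 => ?_⟩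
      · fin_cases c
        · exact hgO.1
        · exact hgO.2
      · have hg0' : g ≠ 0 := fun h' => h0 (Subtype.ext h')
        have hr : P.ord ((r : ↥(h69_F0 (M * q) (A.inertiaSubgroupIn ℚ))) :
            ↥(modularFunctionFieldBar (M * q))) = P.ord (h22_piF M q) + P.ord g := by
          rw [hfg]
          exact P.ord_mul (h22_piF_ne M q) hg0'
        have hπ : P.ord (h22_piF M q) = 0 := h35_ord_algebraMap P _
        have hr0 : (r : ↥(h69_F0 (M * q) (A.inertiaSubgroupIn ℚ))) ≠ 0 := by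
          intro hr0
          have : ((r : ↥(h69_F0 (M * q) (A.inertiaSubgroupIn ℚ))) :
              ↥(modularFunctionFieldBar (M * q))) = 0 := by rw [hr0]; rfl
          rw [hfg] at this
          exact (mul_ne_zero (h22_piF_ne M q) hg0') this
        rcases (h22_mem_Vq_B M q hqM A hA Pinf P0 _).1 r.2 with h' | ⟨-, h3⟩
        · exact absurd h' hr0
        · have := h3 P h1 h2
          show 0 ≤ P.ord g
          omega
  refine ⟨⟨⟨g, hg0⟩, hgB⟩, ?_⟩
  apply Subtype.ext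
  apply Subtype.ext
  show ((r : ↥(h69_F0 (M * q) (A.inertiaSubgroupIn ℚ))) : ↥(modularFunctionFieldBar (M * q))) =
    (((q : (h22_Vq M q hqM A hA Pinf P0).B) : ↥(h69_F0 (M * q) (A.inertiaSubgroupIn ℚ))) :
      ↥(modularFunctionFieldBar (M * q))) * g
  rw [hfg, h22_piF_eq_natCast]
  congr 1

/-- **The image of the reduction is the node ring** (`hT` of `h65_glue_pts`,
`h83_resGlueFst`, `h65_glue_local` verbatim): from the node theorem `hunion`
(`h65_hunion_inst`) and the rational lifting `h22_hrat_Mq`. -/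
theorem h22_redB_T (hPinf : h10_IsCusp (modularFunctionFieldBar (M * q)) Pinf)
    (hP0 : h10_IsCusp0 M q (h60_w M q hqM) P0)
    (Qinf : Place (IsLocalRing.ResidueField A)
      ↥(modularFunctionFieldFullC (IsLocalRing.ResidueField A) M))
    (Sg : Finset (Place (IsLocalRing.ResidueField A)
      ↥(modularFunctionFieldFullC (IsLocalRing.ResidueField A) M)))
    (Φ : Place (IsLocalRing.ResidueField A)
        ↥(modularFunctionFieldFullC (IsLocalRing.ResidueField A) M) →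
      Place (IsLocalRing.ResidueField A)
        ↥(modularFunctionFieldFullC (IsLocalRing.ResidueField A) M))
    (hunion : ∀ a : ↥(modularFunctionFieldFullC (IsLocalRing.ResidueField A) M) ×
        ↥(modularFunctionFieldFullC (IsLocalRing.ResidueField A) M),
      (∃ n : ℕ, a ∈ h51_Rd (h87_D M q hqM A hA)
        (n • (Finsupp.single Pinf (1 : ℤ) + Finsupp.single P0 (1 : ℤ)))) ↔
      (∃ n : ℕ, a.1 ∈ h16_Linf Qinf n ∧ a.2 ∈ h16_Linf Qinf n) ∧
        ∀ Q ∈ Sg, ∃ c : IsLocalRing.ResidueField A, h39_Val (Φ Q) a.1 c ∧ h39_Val Q a.2 c)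
    (a : ↥(modularFunctionFieldFullC (IsLocalRing.ResidueField A) M) ×
        ↥(modularFunctionFieldFullC (IsLocalRing.ResidueField A) M)) :
    (∃ b : (h22_Vq M q hqM A hA Pinf P0).B, h22_redB M q hqM A hA Pinf P0 b = a) ↔
      (a.1 ∈ h20_regOff Qinf ∧ a.2 ∈ h20_regOff Qinf) ∧
        ∀ Q ∈ Sg, ∃ c : IsLocalRing.ResidueField A, h39_Val (Φ Q) a.1 c ∧ h39_Val Q a.2 c := by
  constructor
  · rintro ⟨b, rfl⟩
    obtain ⟨n, hn⟩ := h22_Vq_B_rr M q hqM A hA Pinf P0 b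
    have h1 := (hunion (h22_redB M q hqM A hA Pinf P0 b)).mp
      ⟨n, _, hn, h22_Vq_B_mem_O M q hqM A hA Pinf P0 b, (h22_redB_apply M q hqM A hA Pinf P0 b).symm⟩
    obtain ⟨⟨m, hm1, hm2⟩, hnode⟩ := h1
    exact ⟨⟨(h51_reg_iff_Linf Qinf _).mpr ⟨m, hm1⟩, (h51_reg_iff_Linf Qinf _).mpr ⟨m, hm2⟩⟩, hnode⟩
  · rintro ⟨⟨hr1, hr2⟩, hnode⟩
    obtain ⟨n1, h1⟩ := (h51_reg_iff_Linf Qinf a.1).mp hr1
    obtain ⟨n2, h2⟩ := (h51_reg_iff_Linf Qinf a.2).mp hr2
    obtain ⟨n, hn⟩ := (hunion a).mpr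
      ⟨⟨max n1 n2, h16_Linf_mono Qinf (le_max_left n1 n2) h1,
        h16_Linf_mono Qinf (le_max_right n1 n2) h2⟩, hnode⟩
    obtain ⟨g, hg0, hgL, hgO, hgr⟩ := h22_hrat_Mq M q hqM A hA hPinf hP0 n a hn
    refine ⟨⟨⟨g, hg0⟩, h22_mem_Vq_B_of_rr M q hqM A hA Pinf P0 g hg0 hgL hgO⟩, ?_⟩
    rw [h22_redB_apply]
    exact hgr

/-! ### The valuation rings of the two vertical valuations in `F₀` and their residue maps -/

/-- The valuation ring of `v_c` in `F₀`. -/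
def h22_Oc (c : Fin 2) : Subring ↥(h69_F0 (M * q) (A.inertiaSubgroupIn ℚ)) :=
  (h60_pair M q hqM A hA c).O.toSubring.comap (h69_F0 (M * q) (A.inertiaSubgroupIn ℚ)).subtype

theorem h22_mem_Oc (c : Fin 2) (f : ↥(h69_F0 (M * q) (A.inertiaSubgroupIn ℚ))) :
    f ∈ h22_Oc M q hqM A hA c ↔
      (f : ↥(modularFunctionFieldBar (M * q))) ∈ (h60_pair M q hqM A hA c).O := Iff.rfl

/-- The residue map of `v_c` on `F₀` (the restriction of `(h60_pair c).red`). -/
def h22_rho (c : Fin 2) : h22_Oc M q hqM A hA c →+*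
    ↥(modularFunctionFieldFullC (IsLocalRing.ResidueField A) M) :=
  (h60_pair M q hqM A hA c).red.comp
    ((((h69_F0 (M * q) (A.inertiaSubgroupIn ℚ)).subtype).comp
      (h22_Oc M q hqM A hA c).subtype).codRestrict (h60_pair M q hqM A hA c).O (fun f => f.2))

theorem h22_rho_apply (c : Fin 2) (f : h22_Oc M q hqM A hA c) :
    h22_rho M q hqM A hA c f = (h60_pair M q hqM A hA c).redF
      ((f : ↥(h69_F0 (M * q) (A.inertiaSubgroupIn ℚ))) : ↥(modularFunctionFieldBar (M * q))) := by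
  have hf : ((f : ↥(h69_F0 (M * q) (A.inertiaSubgroupIn ℚ))) :
      ↥(modularFunctionFieldBar (M * q))) ∈ (h60_pair M q hqM A hA c).O := f.2
  rw [(h60_pair M q hqM A hA c).redF_of_mem hf]
  rfl

/-- `mem_O` of `h83_resGlueFst` / `h83_resGlueSnd` / `h62_Res`. -/
theorem h22_Oc_mem_O (c : Fin 2) (f : ↥(h69_F0 (M * q) (A.inertiaSubgroupIn ℚ))) (hf : f ≠ 0)
    (h : 0 ≤ (h22_Vq M q hqM A hA Pinf P0).v (Sum.inl c) f) : f ∈ h22_Oc M q hqM A hA c :=
  (h22_vq_nonneg_iff M q hqM A hA c f hf).1 h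

/-- `ρ_eq_zero` of `h83_resGlueFst` / `h83_resGlueSnd` / `h62_Res`. -/
theorem h22_rho_eq_zero (c : Fin 2) (f : h22_Oc M q hqM A hA c)
    (hf : (f : ↥(h69_F0 (M * q) (A.inertiaSubgroupIn ℚ))) ≠ 0) :
    h22_rho M q hqM A hA c f = 0 ↔
      0 < (h22_Vq M q hqM A hA Pinf P0).v (Sum.inl c)
        (f : ↥(h69_F0 (M * q) (A.inertiaSubgroupIn ℚ))) := by
  rw [h22_rho_apply, h22_Vq_v_inl, h22_vq_pos_iff_red M q hqM A hA c _ hf]
  exact ⟨fun h => ⟨f.2, h⟩, fun h => h.2⟩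

/-- `hρ` of `h83_resGlueFst`. -/
theorem h22_rho_redB_fst (b : (h22_Vq M q hqM A hA Pinf P0).B)
    (hb : (b : ↥(h69_F0 (M * q) (A.inertiaSubgroupIn ℚ))) ∈ h22_Oc M q hqM A hA 0) :
    h22_rho M q hqM A hA 0 ⟨b, hb⟩ = (h22_redB M q hqM A hA Pinf P0 b).1 := by
  rw [h22_rho_apply, h22_redB_pair]
  rfl

/-- `hρ` of `h83_resGlueSnd`. -/
theorem h22_rho_redB_snd (b : (h22_Vq M q hqM A hA Pinf P0).B)
    (hb : (b : ↥(h69_F0 (M * q) (A.inertiaSubgroupIn ℚ))) ∈ h22_Oc M q hqM A hA 1) :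
    h22_rho M q hqM A hA 1 ⟨b, hb⟩ = (h22_redB M q hqM A hA Pinf P0 b).2 := by
  rw [h22_rho_apply, h22_redB_pair]
  rfl

/-! ### The closed points of the special fibre and the residue data -/

section Pts

variable [IsAlgClosed (IsLocalRing.ResidueField A)]
  {y : ↥(modularFunctionFieldFullC (IsLocalRing.ResidueField A) M)}
  (hy : h75_IsChart (IsLocalRing.ResidueField A) y)
  (Qinf : Place (IsLocalRing.ResidueField A)
    ↥(modularFunctionFieldFullC (IsLocalRing.ResidueField A) M))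
  (hpole : ∀ Q : Place (IsLocalRing.ResidueField A)
    ↥(modularFunctionFieldFullC (IsLocalRing.ResidueField A) M),
      y ∈ Q.toValuationSubring ↔ Q ≠ Qinf)
  (Sg : Finset (Place (IsLocalRing.ResidueField A)
    ↥(modularFunctionFieldFullC (IsLocalRing.ResidueField A) M)))
  (Φ : Place (IsLocalRing.ResidueField A)
      ↥(modularFunctionFieldFullC (IsLocalRing.ResidueField A) M) →
    Place (IsLocalRing.ResidueField A)
      ↥(modularFunctionFieldFullC (IsLocalRing.ResidueField A) M))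
  (hΦ : Function.Injective Φ) (hSg : ∀ Q ∈ Sg, Q ≠ Qinf ∧ Φ Q ≠ Qinf)
  (hPinf : h10_IsCusp (modularFunctionFieldBar (M * q)) Pinf)
  (hP0 : h10_IsCusp0 M q (h60_w M q hqM) P0)
  (hunion : ∀ a : ↥(modularFunctionFieldFullC (IsLocalRing.ResidueField A) M) ×
      ↥(modularFunctionFieldFullC (IsLocalRing.ResidueField A) M),
    (∃ n : ℕ, a ∈ h51_Rd (h87_D M q hqM A hA)
      (n • (Finsupp.single Pinf (1 : ℤ) + Finsupp.single P0 (1 : ℤ)))) ↔
    (∃ n : ℕ, a.1 ∈ h16_Linf Qinf n ∧ a.2 ∈ h16_Linf Qinf n) ∧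
      ∀ Q ∈ Sg, ∃ c : IsLocalRing.ResidueField A, h39_Val (Φ Q) a.1 c ∧ h39_Val Q a.2 c)

include hy hpole hΦ hSg hPinf hP0 hunion in
/-- **(Q-PTS)**: every maximal ideal `m ∋ q` of the chart ring is a point of the first branch, a
point of the second branch, or a node `S ∈ Sg` (the conclusion of `h65_glue_pts`). -/
theorem h22_pts_Mq (m : Ideal (h22_Vq M q hqM A hA Pinf P0).B) (hm : m.IsMaximal)
    (hqm : (q : (h22_Vq M q hqM A hA Pinf P0).B) ∈ m) :
    (∃ P : Place (IsLocalRing.ResidueField A)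
        ↥(modularFunctionFieldFullC (IsLocalRing.ResidueField A) M),
      P ≠ Qinf ∧ (∀ S ∈ Sg, P ≠ Φ S) ∧
        ∀ b : (h22_Vq M q hqM A hA Pinf P0).B,
          b ∈ m ↔ h39_Val P (h22_redB M q hqM A hA Pinf P0 b).1 0) ∨
    (∃ P : Place (IsLocalRing.ResidueField A)
        ↥(modularFunctionFieldFullC (IsLocalRing.ResidueField A) M),
      P ≠ Qinf ∧ P ∉ Sg ∧
        ∀ b : (h22_Vq M q hqM A hA Pinf P0).B,
          b ∈ m ↔ h39_Val P (h22_redB M q hqM A hA Pinf P0 b).2 0) ∨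
    (∃ S ∈ Sg,
      (∀ b : (h22_Vq M q hqM A hA Pinf P0).B,
        b ∈ m ↔ h39_Val (Φ S) (h22_redB M q hqM A hA Pinf P0 b).1 0) ∧
      ∀ b : (h22_Vq M q hqM A hA Pinf P0).B,
        b ∈ m ↔ h39_Val S (h22_redB M q hqM A hA Pinf P0 b).2 0) :=
  h65_glue_pts hy Qinf hpole Sg Φ hΦ hSg (h22_redB M q hqM A hA Pinf P0)
    (h22_redB_T M q hqM A hA Pinf P0 hPinf hP0 Qinf Sg Φ hunion) m hm
    (fun b hb => by
      obtain ⟨r', rfl⟩ := h22_redB_ker M q hqM A hA Pinf P0 b hb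
      exact Ideal.mul_mem_right _ _ hqm)

/-- **(RES) on the first branch** at level `Mq`: the residue datum of `v_F` at a maximal ideal
`m` which is the point `P ≠ Qinf` of the first branch (also at a node, `P = Φ S`). -/
def h22_resFst (m : Ideal (h22_Vq M q hqM A hA Pinf P0).B)
    (P : Place (IsLocalRing.ResidueField A)
      ↥(modularFunctionFieldFullC (IsLocalRing.ResidueField A) M)) (hP : P ≠ Qinf)
    (hmP : ∀ b : (h22_Vq M q hqM A hA Pinf P0).B,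
      b ∈ m ↔ h39_Val P (h22_redB M q hqM A hA Pinf P0 b).1 0) :
    h62_Res (h22_Vq M q hqM A hA Pinf P0) m (Sum.inl 0)
      ↥(modularFunctionFieldFullC (IsLocalRing.ResidueField A) M) :=
  h83_resGlueFst hy Qinf hpole Sg Φ hSg (h22_Vq M q hqM A hA Pinf P0)
    (h22_redB M q hqM A hA Pinf P0)
    (h22_redB_T M q hqM A hA Pinf P0 hPinf hP0 Qinf Sg Φ hunion) m (Sum.inl 0)
    (h22_Oc M q hqM A hA 0) (h22_Oc_mem_O M q hqM A hA Pinf P0 0) (h22_rho M q hqM A hA 0)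
    (h22_rho_eq_zero M q hqM A hA Pinf P0 0) (h22_rho_redB_fst M q hqM A hA Pinf P0) P hP hmP

/-- **(RES) on the second branch** at level `Mq`: the residue datum of `v_V` at a maximal ideal
`m` which is the point `P ≠ Qinf` of the second branch (also at a node, `P = S`). -/
def h22_resSnd (m : Ideal (h22_Vq M q hqM A hA Pinf P0).B)
    (P : Place (IsLocalRing.ResidueField A)
      ↥(modularFunctionFieldFullC (IsLocalRing.ResidueField A) M)) (hP : P ≠ Qinf)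
    (hmP : ∀ b : (h22_Vq M q hqM A hA Pinf P0).B,
      b ∈ m ↔ h39_Val P (h22_redB M q hqM A hA Pinf P0 b).2 0) :
    h62_Res (h22_Vq M q hqM A hA Pinf P0) m (Sum.inl 1)
      ↥(modularFunctionFieldFullC (IsLocalRing.ResidueField A) M) :=
  h83_resGlueSnd hy Qinf hpole Sg Φ hΦ hSg (h22_Vq M q hqM A hA Pinf P0)
    (h22_redB M q hqM A hA Pinf P0)
    (h22_redB_T M q hqM A hA Pinf P0 hPinf hP0 Qinf Sg Φ hunion) m (Sum.inl 1)
    (h22_Oc M q hqM A hA 1) (h22_Oc_mem_O M q hqM A hA Pinf P0 1) (h22_rho M q hqM A hA 1)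
    (h22_rho_eq_zero M q hqM A hA Pinf P0 1) (h22_rho_redB_snd M q hqM A hA Pinf P0) P hP hmP

theorem h22_resFst_O (m : Ideal (h22_Vq M q hqM A hA Pinf P0).B)
    (P : Place (IsLocalRing.ResidueField A)
      ↥(modularFunctionFieldFullC (IsLocalRing.ResidueField A) M)) (hP : P ≠ Qinf)
    (hmP : ∀ b : (h22_Vq M q hqM A hA Pinf P0).B,
      b ∈ m ↔ h39_Val P (h22_redB M q hqM A hA Pinf P0 b).1 0) :
    (h22_resFst M q hqM A hA Pinf P0 hy Qinf hpole Sg Φ hSg hPinf hP0 hunion m P hP hmP).O =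
      h22_Oc M q hqM A hA 0 := rfl

theorem h22_resFst_rho (m : Ideal (h22_Vq M q hqM A hA Pinf P0).B)
    (P : Place (IsLocalRing.ResidueField A)
      ↥(modularFunctionFieldFullC (IsLocalRing.ResidueField A) M)) (hP : P ≠ Qinf)
    (hmP : ∀ b : (h22_Vq M q hqM A hA Pinf P0).B,
      b ∈ m ↔ h39_Val P (h22_redB M q hqM A hA Pinf P0 b).1 0) :
    (h22_resFst M q hqM A hA Pinf P0 hy Qinf hpole Sg Φ hSg hPinf hP0 hunion m P hP hmP).ρ =
      h22_rho M q hqM A hA 0 := rfl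

theorem h22_resFst_o (m : Ideal (h22_Vq M q hqM A hA Pinf P0).B)
    (P : Place (IsLocalRing.ResidueField A)
      ↥(modularFunctionFieldFullC (IsLocalRing.ResidueField A) M)) (hP : P ≠ Qinf)
    (hmP : ∀ b : (h22_Vq M q hqM A hA Pinf P0).B,
      b ∈ m ↔ h39_Val P (h22_redB M q hqM A hA Pinf P0 b).1 0) :
    (h22_resFst M q hqM A hA Pinf P0 hy Qinf hpole Sg Φ hSg hPinf hP0 hunion m P hP hmP).o =
      P.ord := rfl

theorem h22_resSnd_O (m : Ideal (h22_Vq M q hqM A hA Pinf P0).B)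
    (P : Place (IsLocalRing.ResidueField A)
      ↥(modularFunctionFieldFullC (IsLocalRing.ResidueField A) M)) (hP : P ≠ Qinf)
    (hmP : ∀ b : (h22_Vq M q hqM A hA Pinf P0).B,
      b ∈ m ↔ h39_Val P (h22_redB M q hqM A hA Pinf P0 b).2 0) :
    (h22_resSnd M q hqM A hA Pinf P0 hy Qinf hpole Sg Φ hΦ hSg hPinf hP0 hunion m P hP hmP).O =
      h22_Oc M q hqM A hA 1 := rfl

theorem h22_resSnd_rho (m : Ideal (h22_Vq M q hqM A hA Pinf P0).B)
    (P : Place (IsLocalRing.ResidueField A)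
      ↥(modularFunctionFieldFullC (IsLocalRing.ResidueField A) M)) (hP : P ≠ Qinf)
    (hmP : ∀ b : (h22_Vq M q hqM A hA Pinf P0).B,
      b ∈ m ↔ h39_Val P (h22_redB M q hqM A hA Pinf P0 b).2 0) :
    (h22_resSnd M q hqM A hA Pinf P0 hy Qinf hpole Sg Φ hΦ hSg hPinf hP0 hunion m P hP hmP).ρ =
      h22_rho M q hqM A hA 1 := rfl

theorem h22_resSnd_o (m : Ideal (h22_Vq M q hqM A hA Pinf P0).B)
    (P : Place (IsLocalRing.ResidueField A)
      ↥(modularFunctionFieldFullC (IsLocalRing.ResidueField A) M)) (hP : P ≠ Qinf)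
    (hmP : ∀ b : (h22_Vq M q hqM A hA Pinf P0).B,
      b ∈ m ↔ h39_Val P (h22_redB M q hqM A hA Pinf P0 b).2 0) :
    (h22_resSnd M q hqM A hA Pinf P0 hy Qinf hpole Sg Φ hΦ hSg hPinf hP0 hunion m P hP hmP).o =
      P.ord := rfl

omit [IsAlgClosed (IsLocalRing.ResidueField A)] in
/-- The first branch passes through a point of the first branch. -/
theorem h22_through_fst (m : Ideal (h22_Vq M q hqM A hA Pinf P0).B)
    (P : Place (IsLocalRing.ResidueField A)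
      ↥(modularFunctionFieldFullC (IsLocalRing.ResidueField A) M))
    (hmP : ∀ b : (h22_Vq M q hqM A hA Pinf P0).B,
      b ∈ m ↔ h39_Val P (h22_redB M q hqM A hA Pinf P0 b).1 0) :
    (h22_Vq M q hqM A hA Pinf P0).Through m (Sum.inl 0) := by
  intro f hf0 hpos
  rw [hmP f, (h22_redB_fst_eq_zero_iff M q hqM A hA Pinf P0 f hf0).2 hpos]
  have h := h39_val_algebraMap P (0 : IsLocalRing.ResidueField A)
  rwa [map_zero] at h

omit [IsAlgClosed (IsLocalRing.ResidueField A)] in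
/-- The second branch passes through a point of the second branch. -/
theorem h22_through_snd (m : Ideal (h22_Vq M q hqM A hA Pinf P0).B)
    (P : Place (IsLocalRing.ResidueField A)
      ↥(modularFunctionFieldFullC (IsLocalRing.ResidueField A) M))
    (hmP : ∀ b : (h22_Vq M q hqM A hA Pinf P0).B,
      b ∈ m ↔ h39_Val P (h22_redB M q hqM A hA Pinf P0 b).2 0) :
    (h22_Vq M q hqM A hA Pinf P0).Through m (Sum.inl 1) := by
  intro f hf0 hpos
  rw [hmP f, (h22_redB_snd_eq_zero_iff M q hqM A hA Pinf P0 f hf0).2 hpos]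
  have h := h39_val_algebraMap P (0 : IsLocalRing.ResidueField A)
  rwa [map_zero] at h

end Pts

/-! ### Node data at level `Mq`, for any chart family containing the chart ring of `D0` -/

section Node

omit [NeZero M] [NeZero q] [Fact q.Prime] in
/-- Values of a finite product. -/
theorem h22_exists_val_prod {k Fb : Type*} [Field k] [Field Fb] [Algebra k Fb]
    (Q : Place k Fb) {ι : Type*} (Z : Finset ι) (f : ι → Fb)
    (h : ∀ i ∈ Z, ∃ c : k, h39_Val Q (f i) c) : ∃ c : k, h39_Val Q (∏ i ∈ Z, f i) c := by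
  classical
  induction Z using Finset.induction_on with
  | empty =>
    refine ⟨1, ?_⟩
    have h1 := h39_val_algebraMap Q (1 : k)
    rw [map_one] at h1
    simpa using h1
  | insert i Z hi ih =>
    obtain ⟨c, hc⟩ := ih (fun j hj => h j (Finset.mem_insert_of_mem hj))
    obtain ⟨d, hd⟩ := h i (Finset.mem_insert_self i Z)
    rw [Finset.prod_insert hi]
    exact ⟨d * c, h39_val_mul Q hd hc⟩

variable [IsAlgClosed (IsLocalRing.ResidueField A)]
  (Qinf : Place (IsLocalRing.ResidueField A)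
    ↥(modularFunctionFieldFullC (IsLocalRing.ResidueField A) M))
  (Sg : Finset (Place (IsLocalRing.ResidueField A)
    ↥(modularFunctionFieldFullC (IsLocalRing.ResidueField A) M)))
  (Φ : Place (IsLocalRing.ResidueField A)
      ↥(modularFunctionFieldFullC (IsLocalRing.ResidueField A) M) →
    Place (IsLocalRing.ResidueField A)
      ↥(modularFunctionFieldFullC (IsLocalRing.ResidueField A) M))
  (hPinf : h10_IsCusp (modularFunctionFieldBar (M * q)) Pinf)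
  (hP0 : h10_IsCusp0 M q (h60_w M q hqM) P0)
  (hunion : ∀ a : ↥(modularFunctionFieldFullC (IsLocalRing.ResidueField A) M) ×
      ↥(modularFunctionFieldFullC (IsLocalRing.ResidueField A) M),
    (∃ n : ℕ, a ∈ h51_Rd (h87_D M q hqM A hA)
      (n • (Finsupp.single Pinf (1 : ℤ) + Finsupp.single P0 (1 : ℤ)))) ↔
    (∃ n : ℕ, a.1 ∈ h16_Linf Qinf n ∧ a.2 ∈ h16_Linf Qinf n) ∧
      ∀ Q ∈ Sg, ∃ c : IsLocalRing.ResidueField A, h39_Val (Φ Q) a.1 c ∧ h39_Val Q a.2 c)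
  (hS1 : ∀ S ∈ Sg, ∃ (n n' : ℕ) (f g : ↥(modularFunctionFieldBar (M * q))),
    (f ∈ (h69_F0 (M * q) (A.inertiaSubgroupIn ℚ)).toSubring ∧
      f ∈ riemannRochSpace (n • (Finsupp.single Pinf (1 : ℤ) + Finsupp.single P0 (1 : ℤ) :
        Divisor Qb ↥(modularFunctionFieldBar (M * q)))) ∧
      f ∈ (h60_R1 M q hqM A hA).O ∧ f ∈ (h60_R2 M q hqM A hA).O ∧
      (h60_R2 M q hqM A hA).redF f = 0 ∧ (Φ S).ord ((h60_R1 M q hqM A hA).redF f) = 1) ∧
    (g ∈ (h69_F0 (M * q) (A.inertiaSubgroupIn ℚ)).toSubring ∧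
      g ∈ riemannRochSpace (n' • (Finsupp.single Pinf (1 : ℤ) + Finsupp.single P0 (1 : ℤ) :
        Divisor Qb ↥(modularFunctionFieldBar (M * q)))) ∧
      g ∈ (h60_R1 M q hqM A hA).O ∧ g ∈ (h60_R2 M q hqM A hA).O ∧
      (h60_R1 M q hqM A hA).redF g = 0 ∧ S.ord ((h60_R2 M q hqM A hA).redF g) = 1) ∧
    (algebraMap Qb ↥(modularFunctionFieldBar (M * q)) (q : Qb))⁻¹ * (f * g) ∈
      (h60_R1 M q hqM A hA).O ∧
    (algebraMap Qb ↥(modularFunctionFieldBar (M * q)) (q : Qb))⁻¹ * (f * g) ∈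
      (h60_R2 M q hqM A hA).O ∧
    ∃ c : IsLocalRing.ResidueField A, c ≠ 0 ∧
      h39_Val (Φ S) ((h60_R1 M q hqM A hA).redF
        ((algebraMap Qb ↥(modularFunctionFieldBar (M * q)) (q : Qb))⁻¹ * (f * g))) c ∧
      h39_Val S ((h60_R2 M q hqM A hA).redF
        ((algebraMap Qb ↥(modularFunctionFieldBar (M * q)) (q : Qb))⁻¹ * (f * g))) c)
  {ι1 : Type*} (V1 : h80_ValFam ↥(h69_F0 (M * q) (A.inertiaSubgroupIn ℚ)) ι1) (wF wV : ι1)
  (hB : ∀ f : ↥(h69_F0 (M * q) (A.inertiaSubgroupIn ℚ)),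
    f ∈ (h22_Vq M q hqM A hA Pinf P0).B → f ∈ V1.B)
  (hposF : ∀ x : (h22_Vq M q hqM A hA Pinf P0).B,
    (x : ↥(h69_F0 (M * q) (A.inertiaSubgroupIn ℚ))) ≠ 0 →
      (0 < V1.v wF x ↔ (h22_redB M q hqM A hA Pinf P0 x).1 = 0))
  (hposV : ∀ x : (h22_Vq M q hqM A hA Pinf P0).B,
    (x : ↥(h69_F0 (M * q) (A.inertiaSubgroupIn ℚ))) ≠ 0 →
      (0 < V1.v wV x ↔ (h22_redB M q hqM A hA Pinf P0 x).2 = 0))
  (hhor : ∀ i, i ≠ wF → i ≠ wV →
    V1.v i ((q : ℕ) : ↥(h69_F0 (M * q) (A.inertiaSubgroupIn ℚ))) = 0)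

include hPinf hP0 hunion hS1 hB hposF hposV hhor in
/-- **(Q-NODE), element form.**  `V1` any valuation family on `F₀(Mq)` whose chart ring contains
the chart ring of `D0` (e.g. the `j`-chart family), `wF`, `wV` its two vertical indices.  At every
prime `s` of `V1.B` through which both verticals pass there are `aF, bV, ψ ∈ V1.B` with
`aF bV = q ψ`, `ψ ∉ s`, `aF, bV ∈ s`, `v_V aF = 0`, `v_F bV = 0`, and `aF`, `bV` units at every
other valuation through `s`. -/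
theorem h22_node_Mq (s : Ideal V1.B) [hs : s.IsPrime] (hF : V1.Through s wF)
    (hV : V1.Through s wV) :
    ∃ aF bV ψ : V1.B, (aF : ↥(h69_F0 (M * q) (A.inertiaSubgroupIn ℚ))) ≠ 0 ∧
      (bV : ↥(h69_F0 (M * q) (A.inertiaSubgroupIn ℚ))) ≠ 0 ∧
      aF * bV = ((q : ℕ) : V1.B) * ψ ∧ ψ ∉ s ∧ aF ∈ s ∧ bV ∈ s ∧
      V1.v wV aF = 0 ∧ V1.v wF bV = 0 ∧
      ∀ h, V1.Through s h → h ≠ wF → h ≠ wV → V1.v h aF = 0 ∧ V1.v h bV = 0 := by
  classical
  have hq : q.Prime := Fact.out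
  have hBle : (h22_Vq M q hqM A hA Pinf P0).B ≤ V1.B := fun f hf => hB f hf
  set ι0 : (h22_Vq M q hqM A hA Pinf P0).B →+* V1.B := Subring.inclusion hBle with hι0
  have hT := h22_redB_T M q hqM A hA Pinf P0 hPinf hP0 Qinf Sg Φ hunion
  have hzero : ∀ P : Place (IsLocalRing.ResidueField A)
      ↥(modularFunctionFieldFullC (IsLocalRing.ResidueField A) M),
      h39_Val P (0 : ↥(modularFunctionFieldFullC (IsLocalRing.ResidueField A) M)) 0 :=
    fun P => Or.inl (map_zero _).symm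
  -- membership from the vanishing of a component
  have mem1 : ∀ x : (h22_Vq M q hqM A hA Pinf P0).B,
      (h22_redB M q hqM A hA Pinf P0 x).1 = 0 → ι0 x ∈ s := by
    intro x hx
    by_cases h0 : (x : ↥(h69_F0 (M * q) (A.inertiaSubgroupIn ℚ))) = 0
    · have : ι0 x = 0 := Subtype.ext h0
      rw [this]
      exact s.zero_mem
    · exact hF (ι0 x) h0 ((hposF x h0).2 hx)
  have mem2 : ∀ x : (h22_Vq M q hqM A hA Pinf P0).B,
      (h22_redB M q hqM A hA Pinf P0 x).2 = 0 → ι0 x ∈ s := by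
    intro x hx
    by_cases h0 : (x : ↥(h69_F0 (M * q) (A.inertiaSubgroupIn ℚ))) = 0
    · have : ι0 x = 0 := Subtype.ext h0
      rw [this]
      exact s.zero_mem
    · exact hV (ι0 x) h0 ((hposV x h0).2 hx)
  have hval : ∀ (x : (h22_Vq M q hqM A hA Pinf P0).B), ∀ Q ∈ Sg,
      ∃ c : IsLocalRing.ResidueField A,
        h39_Val (Φ Q) (h22_redB M q hqM A hA Pinf P0 x).1 c ∧
          h39_Val Q (h22_redB M q hqM A hA Pinf P0 x).2 c :=
    fun x => ((hT _).mp ⟨x, rfl⟩).2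
  have hreg : ∀ (x : (h22_Vq M q hqM A hA Pinf P0).B),
      (h22_redB M q hqM A hA Pinf P0 x).1 ∈ h20_regOff Qinf ∧
        (h22_redB M q hqM A hA Pinf P0 x).2 ∈ h20_regOff Qinf :=
    fun x => ((hT _).mp ⟨x, rfl⟩).1
  -- Claim A: an element all of whose node values vanish lies in `s`
  have claimA : ∀ x : (h22_Vq M q hqM A hA Pinf P0).B,
      (∀ Q ∈ Sg, h39_Val Q (h22_redB M q hqM A hA Pinf P0 x).2 0) → ι0 x ∈ s := by
    intro x hx
    have hx' : ∀ Q ∈ Sg, h39_Val (Φ Q) (h22_redB M q hqM A hA Pinf P0 x).1 0 := by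
      intro Q hQ
      obtain ⟨c, hc1, hc2⟩ := hval x Q hQ
      have : c = 0 := h39_val_unique Q hc2 (hx Q hQ)
      rwa [this] at hc1
    obtain ⟨x1, hx1⟩ := (hT ((h22_redB M q hqM A hA Pinf P0 x).1, 0)).mpr
      ⟨⟨(hreg x).1, (h20_regOff Qinf).zero_mem⟩, fun Q hQ => ⟨0, hx' Q hQ, hzero Q⟩⟩
    obtain ⟨x2, hx2⟩ := (hT (0, (h22_redB M q hqM A hA Pinf P0 x).2)).mpr
      ⟨⟨(h20_regOff Qinf).zero_mem, (hreg x).2⟩, fun Q hQ => ⟨0, hzero (Φ Q), hx Q hQ⟩⟩
    have e : x = (x - x1 - x2) + x1 + x2 := by ring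
    have hy : h22_redB M q hqM A hA Pinf P0 (x - x1 - x2) = 0 := by
      rw [map_sub, map_sub, hx1, hx2]
      ext <;> simp
    rw [e, map_add, map_add]
    exact s.add_mem (s.add_mem (mem1 _ (by rw [hy]; rfl)) (mem2 x1 (by rw [hx1])))
      (mem1 x2 (by rw [hx2]))
  -- Claim B: `s` contains the ideal of one node
  have claimB : ∃ S ∈ Sg, ∀ x : (h22_Vq M q hqM A hA Pinf P0).B,
      h39_Val S (h22_redB M q hqM A hA Pinf P0 x).2 0 → ι0 x ∈ s := by
    by_contra hcon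
    push_neg at hcon
    choose! xS hxS using hcon
    have hprod : ι0 (∏ S ∈ Sg, xS S) ∈ s := by
      refine claimA _ (fun Q hQ => ?_)
      rw [map_prod, Prod.snd_prod, ← Finset.mul_prod_erase Sg _ hQ]
      obtain ⟨c, hc⟩ := h22_exists_val_prod Q (Sg.erase Q)
        (fun S => (h22_redB M q hqM A hA Pinf P0 (xS S)).2)
        (fun S _ => by
          obtain ⟨c, -, hc⟩ := hval (xS S) Q hQ
          exact ⟨c, hc⟩)
      have := h39_val_mul Q (hxS Q hQ).1 hc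
      rwa [zero_mul] at this
    rw [map_prod] at hprod
    obtain ⟨S, hS, hmem⟩ := (Ideal.IsPrime.prod_mem_iff).1 hprod
    exact (hxS S hS).2 hmem
  obtain ⟨S, hS, hSmem⟩ := claimB
  -- the node functions
  obtain ⟨n, n', f, g, ⟨hf0, hfL, hf1, hf2, hfr, hft⟩, ⟨hg0, hgL, hg1, hg2, hgr, hgt⟩,
    hψ1, hψ2, c, hc0, -, hcS⟩ := hS1 S hS
  have hfne : (h60_R1 M q hqM A hA).redF f ≠ 0 := by
    intro h
    rw [h, Place.ord_zero] at hft
    exact zero_ne_one hft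
  have hgne : (h60_R2 M q hqM A hA).redF g ≠ 0 := by
    intro h
    rw [h, Place.ord_zero] at hgt
    exact zero_ne_one hgt
  have hf00 : f ≠ 0 := fun h => hfne (by rw [h]; exact h39_redF_zero _)
  have hg00 : g ≠ 0 := fun h => hgne (by rw [h]; exact h39_redF_zero _)
  set bV0 : (h22_Vq M q hqM A hA Pinf P0).B :=
    ⟨⟨f, hf0⟩, h22_mem_Vq_B_of_rr M q hqM A hA Pinf P0 f hf0 hfL ⟨hf1, hf2⟩⟩ with hbV0
  set aF0 : (h22_Vq M q hqM A hA Pinf P0).B :=
    ⟨⟨g, hg0⟩, h22_mem_Vq_B_of_rr M q hqM A hA Pinf P0 g hg0 hgL ⟨hg1, hg2⟩⟩ with haF0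
  have hπ0 := h22_piF_ne M q
  have hπF := h22_piF_mem_F0 M q (A.inertiaSubgroupIn ℚ)
  have hψF0 : (h22_piF M q)⁻¹ * (f * g) ∈ h69_F0 (M * q) (A.inertiaSubgroupIn ℚ) :=
    Subfield.mul_mem _ (Subfield.inv_mem _ hπF) (Subfield.mul_mem _ hf0 hg0)
  have hψne : (h22_piF M q)⁻¹ * (f * g) ≠ 0 :=
    mul_ne_zero (inv_ne_zero hπ0) (mul_ne_zero hf00 hg00)
  have hψB : (⟨(h22_piF M q)⁻¹ * (f * g), hψF0⟩ : ↥(h69_F0 (M * q) (A.inertiaSubgroupIn ℚ))) ∈
      (h22_Vq M q hqM A hA Pinf P0).B := by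
    rw [h22_mem_Vq_B]
    have h0 : (⟨(h22_piF M q)⁻¹ * (f * g), hψF0⟩ :
        ↥(h69_F0 (M * q) (A.inertiaSubgroupIn ℚ))) ≠ 0 := fun h => hψne (congrArg Subtype.val h)
    refine Or.inr ⟨fun c => (h22_vq_nonneg_iff M q hqM A hA c _ h0).2 ?_, fun P h1 h2 => ?_⟩
    · fin_cases c
      · exact hψ1
      · exact hψ2
    · show 0 ≤ P.ord ((h22_piF M q)⁻¹ * (f * g))
      rw [P.ord_mul (inv_ne_zero hπ0) (mul_ne_zero hf00 hg00), P.ord_mul hf00 hg00]
      have e1 : P.ord (h22_piF M q)⁻¹ = 0 := by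
        unfold h22_piF
        rw [← map_inv₀]
        exact h35_ord_algebraMap P _
      have e2 := h22_rr_D0_reg M q Pinf P0 hfL P h1 h2
      have e3 := h22_rr_D0_reg M q Pinf P0 hgL P h1 h2
      omega
  set ψ0 : (h22_Vq M q hqM A hA Pinf P0).B := ⟨⟨(h22_piF M q)⁻¹ * (f * g), hψF0⟩, hψB⟩ with hψ0
  -- reductions
  have hredψ : (h22_redB M q hqM A hA Pinf P0 ψ0).2 =
      (h60_R2 M q hqM A hA).redF ((h22_piF M q)⁻¹ * (f * g)) := by
    rw [h22_redB_pair]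
  have hredf1 : (h22_redB M q hqM A hA Pinf P0 bV0).1 = (h60_R1 M q hqM A hA).redF f := by
    rw [h22_redB_pair]
  have hredf2 : (h22_redB M q hqM A hA Pinf P0 bV0).2 = 0 := by
    rw [h22_redB_pair]
    exact hfr
  have hredg1 : (h22_redB M q hqM A hA Pinf P0 aF0).1 = 0 := by
    rw [h22_redB_pair]
    exact hgr
  have hredg2 : (h22_redB M q hqM A hA Pinf P0 aF0).2 = (h60_R2 M q hqM A hA).redF g := by
    rw [h22_redB_pair]
  -- `ψ ∉ s`
  have hψs : ι0 ψ0 ∉ s := by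
    intro hmem
    obtain ⟨y0, hy0⟩ := (hT (algebraMap _ _ c⁻¹, algebraMap _ _ c⁻¹)).mpr
      ⟨⟨Subalgebra.algebraMap_mem _ _, Subalgebra.algebraMap_mem _ _⟩,
        fun Q _ => ⟨c⁻¹, h39_val_algebraMap _ _, h39_val_algebraMap _ _⟩⟩
    have hv : h39_Val S (h22_redB M q hqM A hA Pinf P0 (ψ0 * y0 - 1)).2 0 := by
      have h1 : h39_Val S ((h22_redB M q hqM A hA Pinf P0 ψ0).2 *
          (h22_redB M q hqM A hA Pinf P0 y0).2) (c * c⁻¹) := by
        rw [hredψ, hy0]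
        exact h39_val_mul S hcS (h39_val_algebraMap S c⁻¹)
      have h2 := h39_val_add S h1 (h39_val_algebraMap S (-1 : IsLocalRing.ResidueField A))
      rw [mul_inv_cancel₀ hc0, add_neg_cancel, map_neg, map_one] at h2
      rw [map_sub, map_mul, map_one]
      have e : ((h22_redB M q hqM A hA Pinf P0 ψ0 * h22_redB M q hqM A hA Pinf P0 y0 - 1 :
          ↥(modularFunctionFieldFullC (IsLocalRing.ResidueField A) M) ×
            ↥(modularFunctionFieldFullC (IsLocalRing.ResidueField A) M))).2 =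
          (h22_redB M q hqM A hA Pinf P0 ψ0).2 * (h22_redB M q hqM A hA Pinf P0 y0).2 + -1 := by
        simp [sub_eq_add_neg]
      rw [e]
      exact h2
    have h3 := hSmem _ hv
    rw [map_sub, map_mul, map_one] at h3
    have h4 : (1 : V1.B) ∈ s := by
      have := s.sub_mem (s.mul_mem_right (ι0 y0) hmem) h3
      simpa using this
    exact hs.ne_top ((Ideal.eq_top_iff_one s).2 h4)
  -- the product relation
  have hrel : aF0 * bV0 = ((q : ℕ) : (h22_Vq M q hqM A hA Pinf P0).B) * ψ0 := by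
    apply Subtype.ext
    apply Subtype.ext
    show g * f = ((((q : ℕ) : (h22_Vq M q hqM A hA Pinf P0).B) :
      ↥(h69_F0 (M * q) (A.inertiaSubgroupIn ℚ))) : ↥(modularFunctionFieldBar (M * q))) *
        ((h22_piF M q)⁻¹ * (f * g))
    have e : ((((q : ℕ) : (h22_Vq M q hqM A hA Pinf P0).B) :
        ↥(h69_F0 (M * q) (A.inertiaSubgroupIn ℚ))) : ↥(modularFunctionFieldBar (M * q))) =
        h22_piF M q := by
      rw [h22_piF_eq_natCast]
      rfl
    rw [e, ← mul_assoc, mul_inv_cancel₀ hπ0, one_mul]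
    exact mul_comm g f
  -- nonvanishing
  have haF_ne : ((ι0 aF0 : V1.B) : ↥(h69_F0 (M * q) (A.inertiaSubgroupIn ℚ))) ≠ 0 :=
    fun h => hg00 (congrArg Subtype.val h)
  have hbV_ne : ((ι0 bV0 : V1.B) : ↥(h69_F0 (M * q) (A.inertiaSubgroupIn ℚ))) ≠ 0 :=
    fun h => hf00 (congrArg Subtype.val h)
  have hψ_ne : ((ι0 ψ0 : V1.B) : ↥(h69_F0 (M * q) (A.inertiaSubgroupIn ℚ))) ≠ 0 :=
    fun h => hψne (congrArg Subtype.val h)
  have hq_ne : (((q : ℕ) : V1.B) : ↥(h69_F0 (M * q) (A.inertiaSubgroupIn ℚ))) ≠ 0 := by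
    rw [SubringClass.coe_natCast]
    exact_mod_cast hq.ne_zero
  have hnn : ∀ (i : ι1) (x : V1.B), (x : ↥(h69_F0 (M * q) (A.inertiaSubgroupIn ℚ))) ≠ 0 →
      0 ≤ V1.v i x := fun i x hx => h80_v_nonneg V1 i x hx
  -- the valuations of `ψ` through `s` vanish
  have hψv : ∀ i, V1.Through s i → V1.v i (ι0 ψ0 : V1.B) = 0 := by
    intro i hi
    have h1 := hnn i _ hψ_ne
    by_contra h2
    exact hψs (hi _ hψ_ne (lt_of_le_of_ne h1 (Ne.symm h2)))
  have hrel' : ι0 aF0 * ι0 bV0 = ((q : ℕ) : V1.B) * ι0 ψ0 := by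
    rw [← map_mul, hrel, map_mul, map_natCast]
  refine ⟨ι0 aF0, ι0 bV0, ι0 ψ0, haF_ne, hbV_ne, hrel', hψs, ?_, ?_, ?_, ?_, ?_⟩
  · exact mem1 aF0 hredg1
  · exact mem2 bV0 hredf2
  · -- `v_V aF = 0`
    have h1 := hnn wV _ haF_ne
    by_contra h2
    have h3 : 0 < V1.v wV (ι0 aF0 : V1.B) := lt_of_le_of_ne h1 (Ne.symm h2)
    have h4 := (hposV aF0 (fun h => hg00 (congrArg Subtype.val h))).1 h3
    rw [hredg2] at h4
    exact hgne h4
  · -- `v_F bV = 0`
    have h1 := hnn wF _ hbV_ne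
    by_contra h2
    have h3 : 0 < V1.v wF (ι0 bV0 : V1.B) := lt_of_le_of_ne h1 (Ne.symm h2)
    have h4 := (hposF bV0 (fun h => hf00 (congrArg Subtype.val h))).1 h3
    rw [hredf1] at h4
    exact hfne h4
  · intro h hh hF' hV'
    have e1 : V1.v h (((ι0 aF0 * ι0 bV0 : V1.B)) : ↥(h69_F0 (M * q) (A.inertiaSubgroupIn ℚ))) =
        V1.v h (ι0 aF0 : V1.B) + V1.v h (ι0 bV0 : V1.B) := V1.map_mul h _ _ haF_ne hbV_ne
    have e2 : V1.v h (((((q : ℕ) : V1.B) * ι0 ψ0 : V1.B)) :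
        ↥(h69_F0 (M * q) (A.inertiaSubgroupIn ℚ))) =
        V1.v h (((q : ℕ) : V1.B) : ↥(h69_F0 (M * q) (A.inertiaSubgroupIn ℚ))) +
          V1.v h (ι0 ψ0 : V1.B) := V1.map_mul h _ _ hq_ne hψ_ne
    rw [hrel'] at e1
    rw [e1, hψv h hh, SubringClass.coe_natCast, hhor h hF' hV'] at e2
    have h1 := hnn h _ haF_ne
    have h2 := hnn h _ hbV_ne
    constructor <;> omega

end Node

/-! ### The `j`-chart family `h80_fam1` at level `Mq` -/

section Fam1

variable (w : Fin 2 → ↥(h69_F0 (M * q) (A.inertiaSubgroupIn ℚ)) → ℤ)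
  (hw_mul : ∀ c (f g : ↥(h69_F0 (M * q) (A.inertiaSubgroupIn ℚ))), f ≠ 0 → g ≠ 0 →
    w c (f * g) = w c f + w c g)
  (hw_add : ∀ c (f g : ↥(h69_F0 (M * q) (A.inertiaSubgroupIn ℚ))), f ≠ 0 → g ≠ 0 → f + g ≠ 0 →
    min (w c f) (w c g) ≤ w c (f + g))
  (hw0 : ∀ c (f : ↥(h69_F0 (M * q) (A.inertiaSubgroupIn ℚ))), f ≠ 0 →
    (0 ≤ w c f ↔ (f : ↥(modularFunctionFieldBar (M * q))) ∈ (h60_pair M q hqM A hA c).O))
  (hw1 : ∀ c (f : ↥(h69_F0 (M * q) (A.inertiaSubgroupIn ℚ))), f ≠ 0 →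
    (0 < w c f ↔ (f : ↥(modularFunctionFieldBar (M * q))) ∈ (h60_pair M q hqM A hA c).O ∧
      (h60_pair M q hqM A hA c).redF (f : ↥(modularFunctionFieldBar (M * q))) = 0))
  (hPinf : h10_IsCusp (modularFunctionFieldBar (M * q)) Pinf)
  (hP0 : h10_IsCusp0 M q (h60_w M q hqM) P0)

include hw0 hPinf hP0 in
/-- The chart ring of `D0` lies in the chart ring of the `j`-chart (`∞`, `0'` are poles of
`j`). -/
theorem h22_Vq_B_le_fam1 (f : ↥(h69_F0 (M * q) (A.inertiaSubgroupIn ℚ)))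
    (hf : f ∈ (h22_Vq M q hqM A hA Pinf P0).B) :
    f ∈ (h80_fam1 (M * q) (A.inertiaSubgroupIn ℚ) w hw_mul hw_add).B := by
  have hq : q.Prime := Fact.out
  unfold h80_fam1
  rw [h80_mem_famOf_B]
  rcases (h22_mem_Vq_B M q hqM A hA Pinf P0 f).1 hf with h0 | ⟨h1, h2⟩
  · exact Or.inl h0
  · by_cases h0 : f = 0
    · exact Or.inl h0
    refine Or.inr ⟨fun c => (hw0 c f h0).2 ((h22_vq_nonneg_iff M q hqM A hA c f h0).1 (h1 c)),
      fun P hP => h2 P ?_ ?_⟩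
    · rintro rfl
      rw [hPinf.ord_eq, h10_order_jbar] at hP
      omega
    · rintro rfl
      have e : h59_jbar (M * q) = heckeAlphaBar Qb M q (h59_jbar M) := Subtype.ext rfl
      have h3 := h10_ord0_alpha (h60_w_alpha M q hqM) hP0 (h59_jbar M)
      rw [h10_order_jbar] at h3
      rw [e, h3] at hP
      have : (0 : ℤ) < (q : ℤ) := by exact_mod_cast hq.pos
      omega

variable [IsAlgClosed (IsLocalRing.ResidueField A)]
  (Qinf : Place (IsLocalRing.ResidueField A)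
    ↥(modularFunctionFieldFullC (IsLocalRing.ResidueField A) M))
  (Sg : Finset (Place (IsLocalRing.ResidueField A)
    ↥(modularFunctionFieldFullC (IsLocalRing.ResidueField A) M)))
  (Φ : Place (IsLocalRing.ResidueField A)
      ↥(modularFunctionFieldFullC (IsLocalRing.ResidueField A) M) →
    Place (IsLocalRing.ResidueField A)
      ↥(modularFunctionFieldFullC (IsLocalRing.ResidueField A) M))
  (hunion : ∀ a : ↥(modularFunctionFieldFullC (IsLocalRing.ResidueField A) M) ×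
      ↥(modularFunctionFieldFullC (IsLocalRing.ResidueField A) M),
    (∃ n : ℕ, a ∈ h51_Rd (h87_D M q hqM A hA)
      (n • (Finsupp.single Pinf (1 : ℤ) + Finsupp.single P0 (1 : ℤ)))) ↔
    (∃ n : ℕ, a.1 ∈ h16_Linf Qinf n ∧ a.2 ∈ h16_Linf Qinf n) ∧
      ∀ Q ∈ Sg, ∃ c : IsLocalRing.ResidueField A, h39_Val (Φ Q) a.1 c ∧ h39_Val Q a.2 c)
  (hS1 : ∀ S ∈ Sg, ∃ (n n' : ℕ) (f g : ↥(modularFunctionFieldBar (M * q))),
    (f ∈ (h69_F0 (M * q) (A.inertiaSubgroupIn ℚ)).toSubring ∧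
      f ∈ riemannRochSpace (n • (Finsupp.single Pinf (1 : ℤ) + Finsupp.single P0 (1 : ℤ) :
        Divisor Qb ↥(modularFunctionFieldBar (M * q)))) ∧
      f ∈ (h60_R1 M q hqM A hA).O ∧ f ∈ (h60_R2 M q hqM A hA).O ∧
      (h60_R2 M q hqM A hA).redF f = 0 ∧ (Φ S).ord ((h60_R1 M q hqM A hA).redF f) = 1) ∧
    (g ∈ (h69_F0 (M * q) (A.inertiaSubgroupIn ℚ)).toSubring ∧
      g ∈ riemannRochSpace (n' • (Finsupp.single Pinf (1 : ℤ) + Finsupp.single P0 (1 : ℤ) :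
        Divisor Qb ↥(modularFunctionFieldBar (M * q)))) ∧
      g ∈ (h60_R1 M q hqM A hA).O ∧ g ∈ (h60_R2 M q hqM A hA).O ∧
      (h60_R1 M q hqM A hA).redF g = 0 ∧ S.ord ((h60_R2 M q hqM A hA).redF g) = 1) ∧
    (algebraMap Qb ↥(modularFunctionFieldBar (M * q)) (q : Qb))⁻¹ * (f * g) ∈
      (h60_R1 M q hqM A hA).O ∧
    (algebraMap Qb ↥(modularFunctionFieldBar (M * q)) (q : Qb))⁻¹ * (f * g) ∈
      (h60_R2 M q hqM A hA).O ∧
    ∃ c : IsLocalRing.ResidueField A, c ≠ 0 ∧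
      h39_Val (Φ S) ((h60_R1 M q hqM A hA).redF
        ((algebraMap Qb ↥(modularFunctionFieldBar (M * q)) (q : Qb))⁻¹ * (f * g))) c ∧
      h39_Val S ((h60_R2 M q hqM A hA).redF
        ((algebraMap Qb ↥(modularFunctionFieldBar (M * q)) (q : Qb))⁻¹ * (f * g))) c)

include hw0 hw1 hPinf hP0 hunion hS1 in
/-- **(Q-NODE) for the `j`-chart family** `h80_fam1` of level `Mq` (any vertical family `w` with
the (Q-VAL) characterisation `hw0`, `hw1`: `h22_vq`, `h6_vq`, `h98_w1`): at every prime `s`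
through which both verticals pass there are `aF, bV, ψ` in the chart ring with `aF bV = q ψ`,
`ψ ∉ s`, `aF, bV ∈ s`, `v_V aF = 0`, `v_F bV = 0` and `aF`, `bV` units at every horizontal
valuation through `s`. -/
theorem h22_node_fam1
    (s : Ideal (h80_fam1 (M * q) (A.inertiaSubgroupIn ℚ) w hw_mul hw_add).B) [s.IsPrime]
    (hF : (h80_fam1 (M * q) (A.inertiaSubgroupIn ℚ) w hw_mul hw_add).Through s (Sum.inl 0))
    (hV : (h80_fam1 (M * q) (A.inertiaSubgroupIn ℚ) w hw_mul hw_add).Through s (Sum.inl 1)) :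
    ∃ aF bV ψ : (h80_fam1 (M * q) (A.inertiaSubgroupIn ℚ) w hw_mul hw_add).B,
      (aF : ↥(h69_F0 (M * q) (A.inertiaSubgroupIn ℚ))) ≠ 0 ∧
      (bV : ↥(h69_F0 (M * q) (A.inertiaSubgroupIn ℚ))) ≠ 0 ∧
      aF * bV = ((q : ℕ) : (h80_fam1 (M * q) (A.inertiaSubgroupIn ℚ) w hw_mul hw_add).B) * ψ ∧
      ψ ∉ s ∧ aF ∈ s ∧ bV ∈ s ∧
      (h80_fam1 (M * q) (A.inertiaSubgroupIn ℚ) w hw_mul hw_add).v (Sum.inl 1) aF = 0 ∧
      (h80_fam1 (M * q) (A.inertiaSubgroupIn ℚ) w hw_mul hw_add).v (Sum.inl 0) bV = 0 ∧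
      ∀ h, h80_IsHor h →
        (h80_fam1 (M * q) (A.inertiaSubgroupIn ℚ) w hw_mul hw_add).Through s h →
        (h80_fam1 (M * q) (A.inertiaSubgroupIn ℚ) w hw_mul hw_add).v h aF = 0 ∧
          (h80_fam1 (M * q) (A.inertiaSubgroupIn ℚ) w hw_mul hw_add).v h bV = 0 := by
  have hpos : ∀ (c : Fin 2) (x : (h22_Vq M q hqM A hA Pinf P0).B),
      (x : ↥(h69_F0 (M * q) (A.inertiaSubgroupIn ℚ))) ≠ 0 →
      (0 < w c x ↔ ![(h22_redB M q hqM A hA Pinf P0 x).1,
        (h22_redB M q hqM A hA Pinf P0 x).2] c = 0) := by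
    intro c x hx
    rw [hw1 c _ hx, ← h22_redB_comp]
    exact ⟨fun h => h.2, fun h => ⟨h22_Vq_B_mem_pair M q hqM A hA Pinf P0 x c, h⟩⟩
  obtain ⟨aF, bV, ψ, h1, h2, h3, h4, h5, h6, h7, h8, h9⟩ :=
    h22_node_Mq M q hqM A hA Pinf P0 Qinf Sg Φ hPinf hP0 hunion hS1
      (h80_fam1 (M * q) (A.inertiaSubgroupIn ℚ) w hw_mul hw_add) (Sum.inl 0) (Sum.inl 1)
      (h22_Vq_B_le_fam1 M q hqM A hA Pinf P0 w hw_mul hw_add hw0 hPinf hP0)
      (fun x hx => hpos 0 x hx) (fun x hx => hpos 1 x hx)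
      (fun i hi0 hi1 => by
        rcases i with c | j
        · fin_cases c
          · exact absurd rfl hi0
          · exact absurd rfl hi1
        · have hqF0 : algebraMap Qb ↥(modularFunctionFieldBar (M * q)) (q : Qb) ∈
              h69_F0 (M * q) (A.inertiaSubgroupIn ℚ) := h22_piF_mem_F0 M q _
          have := h80_famOf_hq (M * q) (A.inertiaSubgroupIn ℚ) w hw_mul hw_add
            (h59_jbar (M * q)) (h54_isChart_jbar (M * q)) (q : Qb) hqF0 (Sum.inr j) ⟨j, rfl⟩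
          have e : ((q : ℕ) : ↥(h69_F0 (M * q) (A.inertiaSubgroupIn ℚ))) =
              ⟨algebraMap Qb ↥(modularFunctionFieldBar (M * q)) (q : Qb), hqF0⟩ := by
            apply Subtype.ext
            show ((q : ℕ) : ↥(modularFunctionFieldBar (M * q))) =
              algebraMap Qb ↥(modularFunctionFieldBar (M * q)) (q : Qb)
            exact (map_natCast _ q).symm
          rw [e]
          exact this) s hF hV
  refine ⟨aF, bV, ψ, h1, h2, h3, h4, h5, h6, h7, h8, fun h hh hthr => ?_⟩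
  obtain ⟨j, rfl⟩ := hh
  exact h9 _ hthr (by simp) (by simp)

include hw0 hw1 hPinf hP0 hunion hS1 in
/-- **`hnode` of `h14_class`** (general form) VERBATIM for `V1 := h80_fam1` at level `Mq`,
`wF := Sum.inl 0`, `wV := Sum.inl 1`, `Hor1 := h80_IsHor`. -/
theorem h22_hnode_fam1 :
    ∀ s : Ideal (h80_fam1 (M * q) (A.inertiaSubgroupIn ℚ) w hw_mul hw_add).B, s.IsMaximal →
      (h80_fam1 (M * q) (A.inertiaSubgroupIn ℚ) w hw_mul hw_add).Through s (Sum.inl 0) →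
      (h80_fam1 (M * q) (A.inertiaSubgroupIn ℚ) w hw_mul hw_add).Through s (Sum.inl 1) →
      ∃ aF bV : (h80_fam1 (M * q) (A.inertiaSubgroupIn ℚ) w hw_mul hw_add).B,
        (aF : ↥(h69_F0 (M * q) (A.inertiaSubgroupIn ℚ))) ≠ 0 ∧
        (bV : ↥(h69_F0 (M * q) (A.inertiaSubgroupIn ℚ))) ≠ 0 ∧ aF ∈ s ∧ bV ∈ s ∧
        (h80_fam1 (M * q) (A.inertiaSubgroupIn ℚ) w hw_mul hw_add).v (Sum.inl 1) aF = 0 ∧
        (h80_fam1 (M * q) (A.inertiaSubgroupIn ℚ) w hw_mul hw_add).v (Sum.inl 0) bV = 0 ∧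
        ∀ h, h80_IsHor h →
          (h80_fam1 (M * q) (A.inertiaSubgroupIn ℚ) w hw_mul hw_add).Through s h →
          (h80_fam1 (M * q) (A.inertiaSubgroupIn ℚ) w hw_mul hw_add).v h aF = 0 ∧
            (h80_fam1 (M * q) (A.inertiaSubgroupIn ℚ) w hw_mul hw_add).v h bV = 0 := by
  intro s hs hF hV
  have := hs.isPrime
  obtain ⟨aF, bV, ψ, h1, h2, -, -, h5, h6, h7, h8, h9⟩ :=
    h22_node_fam1 M q hqM A hA Pinf P0 w hw_mul hw_add hw0 hw1 hPinf hP0 Qinf Sg Φ hunion hS1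
      s hF hV
  exact ⟨aF, bV, h1, h2, h5, h6, h7, h8, h9⟩

omit [IsAlgClosed (IsLocalRing.ResidueField A)] in
/-- `hw0` for `w := h22_vq`. -/
theorem h22_vq_hw0 (c : Fin 2) (f : ↥(h69_F0 (M * q) (A.inertiaSubgroupIn ℚ))) (hf : f ≠ 0) :
    0 ≤ h22_vq M q hqM A hA c f ↔
      (f : ↥(modularFunctionFieldBar (M * q))) ∈ (h60_pair M q hqM A hA c).O :=
  h22_vq_nonneg_iff M q hqM A hA c f hf

omit [IsAlgClosed (IsLocalRing.ResidueField A)] in
/-- `hw1` for `w := h22_vq`. -/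
theorem h22_vq_hw1 (c : Fin 2) (f : ↥(h69_F0 (M * q) (A.inertiaSubgroupIn ℚ))) (hf : f ≠ 0) :
    0 < h22_vq M q hqM A hA c f ↔
      (f : ↥(modularFunctionFieldBar (M * q))) ∈ (h60_pair M q hqM A hA c).O ∧
        (h60_pair M q hqM A hA c).redF (f : ↥(modularFunctionFieldBar (M * q))) = 0 :=
  h22_vq_pos_iff_red M q hqM A hA c f hf

end Fam1

end QInst

end Fermat.Agent.S36

end
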