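import Mathlib
import Fermat.Prelude.Def_ModularCurve_X0
import Fermat.Prelude.Def_ModularCurve_LaurentCoeff

/-!
# S36 / (HASSE) package, row (TH) (helper20): the derivation `θ = Q d/dQ` on Laurent series

* `h20_thetaFun f` : the series with coefficients `n * f.coeff n`;
* `h20_thetaFun_mul` (Leibniz), `h20_thetaFun_add`, `h20_thetaFun_smul`;
* `h20_thetaFun_coeffMap` : `θ` commutes with coefficient maps;
* `h20_thetaFun_qExpand` : `θ (f(Q^N)) = N • (θ f)(Q^N)`;
* `h20_thetaFun_single`, `h20_thetaFun_C`, `h20_thetaFun_algebraMap`, `h20_thetaFun_inv`,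
  `h20_thetaFun_div`;
* `h20_der_eq_zero` : a "derivation" `Δ : F → E` (additive, Leibniz) of a field `F` that is
  separable algebraic over `K(x)`, vanishing on `K` and at `x`, vanishes identically.

Mathlib + the Prelude definitions `coeffMap`, `qExpand` only.
-/

set_option autoImplicit false

noncomputable section

open HahnSeries ModularCurve

namespace Fermat.Agent.S36

section Theta

variable {R : Type*} [CommRing R]

/-- `θ = Q d/dQ` on Laurent series: multiply the `n`-th coefficient by `n`. -/
def h20_thetaFun (f : LaurentSeries R) : LaurentSeries R where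
  coeff n := (n : R) * f.coeff n
  isPWO_support' := f.isPWO_support.mono (fun n hn => by
    simp only [Function.mem_support, ne_eq] at hn ⊢
    intro h
    exact hn (by rw [h, mul_zero]))

@[simp]
theorem h20_thetaFun_coeff (f : LaurentSeries R) (n : ℤ) :
    (h20_thetaFun f).coeff n = (n : R) * f.coeff n := rfl

theorem h20_thetaFun_support (f : LaurentSeries R) :
    (h20_thetaFun f).support ⊆ f.support := by
  intro n hn
  simp only [HahnSeries.mem_support, h20_thetaFun_coeff, ne_eq] at hn ⊢
  intro h
  exact hn (by rw [h, mul_zero])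

theorem h20_thetaFun_zero : h20_thetaFun (0 : LaurentSeries R) = 0 := by
  ext n
  simp

theorem h20_thetaFun_add (f g : LaurentSeries R) :
    h20_thetaFun (f + g) = h20_thetaFun f + h20_thetaFun g := by
  ext n
  simp [mul_add]

theorem h20_thetaFun_neg (f : LaurentSeries R) : h20_thetaFun (-f) = -h20_thetaFun f := by
  ext n
  simp

theorem h20_thetaFun_sub (f g : LaurentSeries R) :
    h20_thetaFun (f - g) = h20_thetaFun f - h20_thetaFun g := by
  ext n
  simp [mul_sub]

theorem h20_thetaFun_smul (r : R) (f : LaurentSeries R) :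
    h20_thetaFun (r • f) = r • h20_thetaFun f := by
  ext n
  simp only [h20_thetaFun_coeff, HahnSeries.coeff_smul, smul_eq_mul]
  ring

theorem h20_thetaFun_nsmul (m : ℕ) (f : LaurentSeries R) :
    h20_thetaFun (m • f) = m • h20_thetaFun f := by
  ext n
  rw [h20_thetaFun_coeff, HahnSeries.coeff_smul, HahnSeries.coeff_smul, h20_thetaFun_coeff,
    nsmul_eq_mul, nsmul_eq_mul]
  ring

/-- **Leibniz rule** for `θ`. -/
theorem h20_thetaFun_mul (f g : LaurentSeries R) :
    h20_thetaFun (f * g) = h20_thetaFun f * g + f * h20_thetaFun g := by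
  ext n
  rw [h20_thetaFun_coeff, HahnSeries.coeff_add, HahnSeries.coeff_mul,
    HahnSeries.coeff_mul_left' f.isPWO_support (h20_thetaFun_support f),
    HahnSeries.coeff_mul_right' g.isPWO_support (h20_thetaFun_support g),
    Finset.mul_sum, ← Finset.sum_add_distrib]
  refine Finset.sum_congr rfl fun ij hij => ?_
  have h : ij.1 + ij.2 = n := (Finset.mem_antidiagonal.mp hij).2.2
  simp only [h20_thetaFun_coeff]
  rw [← h]
  push_cast
  ring

theorem h20_thetaFun_single (n : ℤ) (r : R) :
    h20_thetaFun (HahnSeries.single n r) = HahnSeries.single n ((n : R) * r) := by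
  ext m
  rcases eq_or_ne m n with rfl | hm
  · simp [HahnSeries.coeff_single_same]
  · simp [HahnSeries.coeff_single_of_ne hm]

theorem h20_thetaFun_C (r : R) : h20_thetaFun (HahnSeries.C r : LaurentSeries R) = 0 := by
  rw [HahnSeries.C_apply, h20_thetaFun_single]
  simp

theorem h20_thetaFun_one : h20_thetaFun (1 : LaurentSeries R) = 0 := by
  have h : (1 : LaurentSeries R) = HahnSeries.C (1 : R) := by simp
  rw [h, h20_thetaFun_C]

theorem h20_thetaFun_pow (f : LaurentSeries R) (n : ℕ) :
    h20_thetaFun (f ^ (n + 1)) = (n + 1) • (f ^ n * h20_thetaFun f) := by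
  induction n with
  | zero => simp
  | succ n ih =>
    rw [pow_succ, h20_thetaFun_mul, ih, pow_succ]
    simp only [nsmul_eq_mul]
    push_cast
    ring

/-- `θ` commutes with coefficient maps. -/
theorem h20_thetaFun_coeffMap {S : Type*} [CommRing S] (φ : R →+* S) (f : LaurentSeries R) :
    h20_thetaFun (coeffMap φ f) = coeffMap φ (h20_thetaFun f) := by
  ext n
  simp

/-- `θ (f(Q^N)) = N • (θ f)(Q^N)`. -/
theorem h20_thetaFun_qExpand (N : ℕ) [NeZero N] (f : LaurentSeries R) :
    h20_thetaFun (qExpand R N f) = N • qExpand R N (h20_thetaFun f) := by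
  ext k
  rw [h20_thetaFun_coeff, HahnSeries.coeff_smul]
  by_cases hk : (N : ℤ) ∣ k
  · obtain ⟨m, rfl⟩ := hk
    rw [qExpand_coeff_mul, qExpand_coeff_mul, h20_thetaFun_coeff, nsmul_eq_mul]
    push_cast
    ring
  · rw [qExpand_coeff_of_not_dvd N f hk, qExpand_coeff_of_not_dvd N _ hk]
    simp

end Theta

section Field

variable {K : Type*} [Field K]

theorem h20_thetaFun_algebraMap (c : K) :
    h20_thetaFun (algebraMap K (LaurentSeries K) c) = 0 := by
  rw [algebraMap_laurentSeries_eq_single, h20_thetaFun_single]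
  simp

/-- `θ (f⁻¹) = - θ f / f ^ 2`. -/
theorem h20_thetaFun_inv (f : LaurentSeries K) (hf : f ≠ 0) :
    h20_thetaFun f⁻¹ = -(h20_thetaFun f * (f⁻¹) ^ 2) := by
  have h := h20_thetaFun_mul f f⁻¹
  rw [mul_inv_cancel₀ hf, h20_thetaFun_one] at h
  have h2 : f * h20_thetaFun f⁻¹ = -(h20_thetaFun f * f⁻¹) := by
    rw [eq_neg_iff_add_eq_zero, add_comm]
    exact h.symm
  have h3 : h20_thetaFun f⁻¹ = f⁻¹ * (f * h20_thetaFun f⁻¹) := by
    rw [← mul_assoc, inv_mul_cancel₀ hf, one_mul]
  rw [h3, h2]
  ring

/-- Quotient rule. -/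
theorem h20_thetaFun_div (f g : LaurentSeries K) (hg : g ≠ 0) :
    h20_thetaFun (f / g) = (h20_thetaFun f * g - f * h20_thetaFun g) / g ^ 2 := by
  rw [div_eq_mul_inv, h20_thetaFun_mul, h20_thetaFun_inv g hg]
  field_simp
  ring

end Field

section DerUnique

open IntermediateField Polynomial

variable {K F E : Type*} [Field K] [Field F] [Algebra K F] [Field E] [Algebra F E]

/-- **Uniqueness of derivations on a separable algebraic extension of `K(x)`.**  A map
`Δ : F → E` which is additive, satisfies the Leibniz rule, and vanishes on `K` and at `x`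
vanishes on all of `F`, provided `F / K(x)` is separable algebraic. -/
theorem h20_der_eq_zero (x : F) [Algebra.IsSeparable K⟮x⟯ F] (Δ : F → E)
    (hadd : ∀ f g, Δ (f + g) = Δ f + Δ g)
    (hmul : ∀ f g, Δ (f * g) = Δ f * algebraMap F E g + algebraMap F E f * Δ g)
    (hK : ∀ c : K, Δ (algebraMap K F c) = 0) (hx : Δ x = 0) : ∀ f, Δ f = 0 := by
  have h0 : Δ 0 = 0 := by
    have h := hadd 0 0
    rw [add_zero] at h
    exact left_eq_add.mp h
  have h1 : Δ 1 = 0 := by
    have h := hK 1
    rwa [map_one] at h
  have hinj : Function.Injective (algebraMap F E) := (algebraMap F E).injective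
  have hinv : ∀ f, Δ f = 0 → Δ f⁻¹ = 0 := by
    intro f hf
    rcases eq_or_ne f 0 with rfl | hf0
    · rw [inv_zero]
      exact h0
    · have h := hmul f f⁻¹
      rw [mul_inv_cancel₀ hf0, h1, hf, zero_mul, zero_add] at h
      have h2 : algebraMap F E f ≠ 0 := fun h' => hf0 (hinj (by rw [h', map_zero]))
      exact (mul_eq_zero.mp h.symm).resolve_left h2
  have hT : ∀ z : F, z ∈ K⟮x⟯ → Δ z = 0 := by
    intro z hz
    induction hz using IntermediateField.adjoin_induction with
    | mem y hy =>
      rw [Set.mem_singleton_iff] at hy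
      rw [hy]
      exact hx
    | algebraMap c => exact hK c
    | add y z _ _ hy hz => rw [hadd, hy, hz, add_zero]
    | inv y _ hy => exact hinv y hy
    | mul y z _ _ hy hz => rw [hmul, hy, hz, zero_mul, mul_zero, add_zero]
  have hpow : ∀ (f : F) (n : ℕ),
      Δ (f ^ (n + 1)) = (n + 1 : E) * algebraMap F E (f ^ n) * Δ f := by
    intro f n
    induction n with
    | zero => simp
    | succ n ih =>
      rw [pow_succ, hmul, ih, pow_succ, map_mul]
      push_cast
      ring
  intro f
  have key : ∀ p : K⟮x⟯[X],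
      Δ (aeval f p) = algebraMap F E (aeval f (derivative p)) * Δ f := by
    intro p
    induction p using Polynomial.induction_on' with
    | add p r hp hr => rw [map_add, hadd, hp, hr, map_add, map_add, map_add, add_mul]
    | monomial n a =>
      rw [aeval_monomial, hmul, derivative_monomial, aeval_monomial]
      have ha : Δ (algebraMap K⟮x⟯ F a) = 0 := hT _ a.2
      rw [ha, zero_mul, zero_add]
      rcases n with _ | n
      · simp [h1]
      · rw [hpow]
        simp only [Nat.add_sub_cancel, map_mul, map_natCast, Nat.cast_add, Nat.cast_one,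
          map_add, map_one, map_pow]
        ring
  have hsep : (minpoly K⟮x⟯ f).Separable := Algebra.IsSeparable.isSeparable K⟮x⟯ f
  have hne := hsep.aeval_derivative_ne_zero (minpoly.aeval K⟮x⟯ f)
  have h := key (minpoly K⟮x⟯ f)
  rw [minpoly.aeval, h0] at h
  have h2 : algebraMap F E (aeval f (derivative (minpoly K⟮x⟯ f))) ≠ 0 :=
    fun h' => hne (hinj (by rw [h', map_zero]))
  exact (mul_eq_zero.mp h.symm).resolve_left h2

end DerUnique

end Fermat.Agent.S36

end
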