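import Mathlib
import Fermat.Agent.S36.h20_Theta
import Fermat.Agent.S34.h60_R2
import Fermat.Agent.S24.h73_Diff
import Fermat.Agent.S18.h54_ModLevel
import Fermat.Agent.S37.h87_Frob

/-!
# S36 / (HASSE) package, rows (DJ), (RHO), (W-SWAP) (helper20)

`J = j(Q)`, `J₁ = j(Q^q)`, `θ = Q d/dQ`.

* series level: `h20_TJ R = θ j`, `h20_rhoS K q = (θ j)(Q^q) / (θ j)(Q)`; over `ℚ̄` both lie in
  the ring `h60_Os A` of ratios of `A`-integral series, with reductions `h20_TJ k`,
  `h20_rhoS k q` (`h20_rs_rhoS`); in characteristic `q`, `h20_rhoS k q = (θ j) ^ (q - 1)`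
  (`h20_rhoS_char`);
* `h20_dJ N : Derivation ℚ̄ F(N) F(N)` with `h20_dJ N j = 1`, and (DJ) `h20_theta_eq`:
  `θ f = (d f / d j) * θ j` for every `f ∈ F(N)`;
* `h20_rho M q : F(Mq)`, `ρ = (1/q) dJ₁/dJ`, with expansion `h20_rhoS ℚ̄ q` (`h20_coe_rho`);
* (W-SWAP) `h20_w_rho` : `w ρ * ρ * q ^ 2 = 1` for the swap `w = h60_w`
  (`h20_w_rho_eq` : `w ρ = (q ^ 2 * ρ)⁻¹`);
* `h20_rho_mem`, `h20_rho_inv_mem` : `ρ, ρ⁻¹ ∈ h60_R1.O`; `h20_coe_redF_rho`,
  `h20_coe_redF_rho_pow` : the expansion of `red₁ ρ` is `h20_rhoS k q = (θ j) ^ (q - 1)`.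
-/

set_option autoImplicit false
set_option synthInstance.maxHeartbeats 400000

noncomputable section

open ModularCurve AlgebraicCurve IntermediateField

namespace Fermat.Agent.S36

open Fermat.Agent.S18 Fermat.Agent.S24 Fermat.Agent.S34 Fermat.Agent.S37

local notation "Qb" => AlgebraicClosure ℚ

/-! ### Series level -/

section Series

variable (R : Type*) [CommRing R]

/-- `θ j`, as a Laurent series over any commutative ring. -/
def h20_TJ : LaurentSeries R := h20_thetaFun (jqModC R)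

theorem h20_TJ_coeff_neg_one : (h20_TJ R).coeff (-1) = -1 := by
  rw [h20_TJ, h20_thetaFun_coeff, coeff_jqModC_neg_one]
  simp

theorem h20_TJ_ne_zero [Nontrivial R] : h20_TJ R ≠ 0 := by
  intro h
  have h1 := h20_TJ_coeff_neg_one R
  rw [h] at h1
  simp at h1

variable {R} in
theorem h20_coeffMap_TJ {S : Type*} [CommRing S] (φ : R →+* S) :
    coeffMap φ (h20_TJ R) = h20_TJ S := by
  rw [h20_TJ, ← h20_thetaFun_coeffMap, coeffMap_jqModC, h20_TJ]

end Series

section SeriesField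

variable (K : Type*) [Field K] (q : ℕ) [NeZero q]

/-- `(θ j)(Q^q) / (θ j)(Q)`. -/
def h20_rhoS : LaurentSeries K := qExpand K q (h20_TJ K) * (h20_TJ K)⁻¹

theorem h20_rhoS_mul : h20_rhoS K q * h20_TJ K = qExpand K q (h20_TJ K) := by
  rw [h20_rhoS, mul_assoc, inv_mul_cancel₀ (h20_TJ_ne_zero K), mul_one]

theorem h20_rhoS_ne_zero : h20_rhoS K q ≠ 0 := by
  rw [h20_rhoS]
  refine mul_ne_zero ?_ (inv_ne_zero (h20_TJ_ne_zero K))
  intro h
  exact h20_TJ_ne_zero K (qExpand_injective (R := K) q (by rw [h, map_zero]))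

end SeriesField

section SeriesChar

variable (k : Type*) [Field k] (q : ℕ) [NeZero q] [Fact q.Prime] [CharP k q]

/-- In characteristic `q`: `(θ j)(Q^q) = (θ j) ^ q`. -/
theorem h20_TJ_pow_char : qExpand k q (h20_TJ k) = h20_TJ k ^ q := by
  rw [h87_pow_char k q (h20_TJ k), h20_coeffMap_TJ]

/-- In characteristic `q`: `ρ̄ = (θ j) ^ (q - 1)`. -/
theorem h20_rhoS_char : h20_rhoS k q = h20_TJ k ^ (q - 1) := by
  have hq : q = (q - 1) + 1 := (Nat.succ_pred_eq_of_pos (Fact.out : q.Prime).pos).symm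
  have h0 := h20_TJ_ne_zero k
  rw [h20_rhoS, h20_TJ_pow_char k q]
  conv_lhs => rw [hq, pow_succ]
  rw [mul_assoc, mul_inv_cancel₀ h0, mul_one]

/-- In characteristic `q`: `j(Q^q) = j ^ q`. -/
theorem h20_jq_pow_char : qExpand k q (jqModC k) = jqModC k ^ q := by
  rw [h87_pow_char k q (jqModC k), coeffMap_jqModC]

end SeriesChar

/-! ### Integrality of the series over `ℚ̄` -/

section Integral

variable (A : ValuationSubring Qb) (q : ℕ) [NeZero q]

theorem h20_coe_TJ : coeffMap A.subtype (h20_TJ A) = h20_TJ Qb := h20_coeffMap_TJ _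

/-- `θ j` as an element of `h60_Os A`. -/
def h20_TJO : h60_Os A := ⟨h20_TJ Qb, by rw [← h20_coe_TJ A]; exact h60_int_mem A _⟩

theorem h20_rs_TJO : h60_rs A (h20_TJO A) = h20_TJ (IsLocalRing.ResidueField A) := by
  have h2 : h20_TJO A = ⟨coeffMap A.subtype (h20_TJ A), h60_int_mem A _⟩ :=
    Subtype.ext (h20_coe_TJ A).symm
  rw [h2, h60_rs_int, h20_coeffMap_TJ]

theorem h20_rs_TJO_ne_zero : h60_rs A (h20_TJO A) ≠ 0 := by
  rw [h20_rs_TJO]
  exact h20_TJ_ne_zero _

/-- `(θ j)(Q^q)` as an element of `h60_Os A`. -/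
def h20_VTJO : h60_Os A := ⟨qExpand Qb q (h20_TJ Qb), h60_qExpand_mem A q (h20_TJO A).2⟩

theorem h20_rs_VTJO :
    h60_rs A (h20_VTJO A q) = qExpand (IsLocalRing.ResidueField A) q
      (h20_TJ (IsLocalRing.ResidueField A)) := by
  have h := h60_rs_qExpand A q (h20_TJO A)
  rw [h20_rs_TJO] at h
  exact h

/-- `1 / θ j` as an element of `h60_Os A`. -/
def h20_TJinvO : h60_Os A := ⟨(h20_TJ Qb)⁻¹, h60_inv_mem A (h20_TJO A) (h20_rs_TJO_ne_zero A)⟩

theorem h20_rs_TJinvO :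
    h60_rs A (h20_TJinvO A) = (h20_TJ (IsLocalRing.ResidueField A))⁻¹ := by
  have h := h60_rs_inv A (h20_TJO A) (h20_rs_TJO_ne_zero A)
  rw [h20_rs_TJO] at h
  exact h

/-- `ρ` as an element of `h60_Os A`. -/
def h20_rhoO : h60_Os A := h20_VTJO A q * h20_TJinvO A

theorem h20_coe_rhoO : ((h20_rhoO A q : h60_Os A) : LaurentSeries Qb) = h20_rhoS Qb q := rfl

theorem h20_rhoS_mem : h20_rhoS Qb q ∈ h60_Os A := (h20_rhoO A q).2

/-- **The reduction of `ρ`** is the same series over the residue field. -/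
theorem h20_rs_rhoO :
    h60_rs A (h20_rhoO A q) = h20_rhoS (IsLocalRing.ResidueField A) q := by
  rw [h20_rhoO, map_mul, h20_rs_VTJO, h20_rs_TJinvO, h20_rhoS]

end Integral

/-! ### The derivation `d/dj` of `F(N)` -/

section DJ

variable (N : ℕ) [NeZero N]

omit [NeZero N] in
theorem h20_coe_jbar :
    ((h59_jbar N : ↥(modularFunctionFieldBar N)) : LaurentSeries Qb) = jqModC Qb := by
  rw [h59_coe_jbar, coeffEmb, ← jqModC_rat, coeffMap_jqModC]

theorem h20_exists_dJ :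
    ∃ δ : Derivation Qb ↥(modularFunctionFieldBar N) ↥(modularFunctionFieldBar N),
      δ (h59_jbar N) = 1 := by
  have := h78_finiteDimensional N
  obtain ⟨b, hb⟩ := h73_kaehler_basis (K := Qb) (h59_jbar N) (h59_jbar_transcendental N)
  refine ⟨(b.coord ()).compDer (KaehlerDifferential.D Qb ↥(modularFunctionFieldBar N)), ?_⟩
  show b.coord () (KaehlerDifferential.D Qb ↥(modularFunctionFieldBar N) (h59_jbar N)) = 1
  rw [← hb]
  simp

/-- `d/dj` on `F(N)`. -/
def h20_dJ : Derivation Qb ↥(modularFunctionFieldBar N) ↥(modularFunctionFieldBar N) :=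
  (h20_exists_dJ N).choose

theorem h20_dJ_j : h20_dJ N (h59_jbar N) = 1 := (h20_exists_dJ N).choose_spec

/-- **(DJ)**: `θ f = (df/dj) θ j` for every `f ∈ F(N)`. -/
theorem h20_theta_eq (f : ↥(modularFunctionFieldBar N)) :
    h20_thetaFun (f : LaurentSeries Qb)
      = ((h20_dJ N f : ↥(modularFunctionFieldBar N)) : LaurentSeries Qb) * h20_TJ Qb := by
  have : Algebra.IsSeparable Qb⟮h59_jbar N⟯ ↥(modularFunctionFieldBar N) :=
    (h54_isChart_jbar N).sep
  have key := h20_der_eq_zero (K := Qb) (F := ↥(modularFunctionFieldBar N))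
    (E := LaurentSeries Qb) (h59_jbar N)
    (fun f => h20_thetaFun (f : LaurentSeries Qb)
      - ((h20_dJ N f : ↥(modularFunctionFieldBar N)) : LaurentSeries Qb) * h20_TJ Qb)
    ?_ ?_ ?_ ?_ f
  · exact sub_eq_zero.mp key
  · intro f g
    simp only [map_add, IntermediateField.coe_add, h20_thetaFun_add]
    ring
  · intro f g
    simp only [Derivation.leibniz, IntermediateField.coe_mul, h20_thetaFun_mul,
      IntermediateField.coe_add, smul_eq_mul, IntermediateField.algebraMap_apply]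
    ring
  · intro c
    rw [Derivation.map_algebraMap, IntermediateField.coe_algebraMap_apply,
      h20_thetaFun_algebraMap, IntermediateField.coe_zero, zero_mul, sub_zero]
  · simp only [h20_dJ_j, IntermediateField.coe_one, one_mul]
    rw [h20_coe_jbar, h20_TJ, sub_self]

/-- **(DJ)**, existential form (the shape consumed by `h60_hasse_fb_charted`). -/
theorem h20_DJ_exists :
    ∃ δ : Derivation Qb ↥(modularFunctionFieldBar N) ↥(modularFunctionFieldBar N),
      δ (h59_jbar N) = 1 ∧ ∀ f : ↥(modularFunctionFieldBar N),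
        h20_thetaFun (f : LaurentSeries Qb)
          = ((δ f : ↥(modularFunctionFieldBar N)) : LaurentSeries Qb)
            * h20_thetaFun ((h59_jbar N : ↥(modularFunctionFieldBar N)) : LaurentSeries Qb) := by
  refine ⟨h20_dJ N, h20_dJ_j N, fun f => ?_⟩
  rw [h20_theta_eq N f, h20_coe_jbar, h20_TJ]

end DJ

/-! ### The function `ρ = (1/q) dJ₁/dJ` of level `Mq` -/

section Rho

variable (M q : ℕ) [NeZero M] [NeZero q]

/-- `J₁ = j(Q^q)` as an element of `F(Mq)`. -/
def h20_J1 : ↥(modularFunctionFieldBar (M * q)) := heckeBetaBar Qb M q (h59_jbar M)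

omit [NeZero M] in
theorem h20_coe_J1 :
    ((h20_J1 M q : ↥(modularFunctionFieldBar (M * q))) : LaurentSeries Qb)
      = qExpand Qb q (jqModC Qb) := by
  rw [h20_J1, coe_heckeBetaBar, h20_coe_jbar]

theorem h20_alpha_jbar : heckeAlphaBar Qb M q (h59_jbar M) = h59_jbar (M * q) := by
  apply Subtype.ext
  rw [coe_heckeAlphaBar, h59_coe_jbar, h59_coe_jbar]

/-- `ρ = (1/q) dJ₁/dJ ∈ F(Mq)`. -/
def h20_rho : ↥(modularFunctionFieldBar (M * q)) :=
  ((q : ℕ) : ↥(modularFunctionFieldBar (M * q)))⁻¹ * h20_dJ (M * q) (h20_J1 M q)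

/-- The expansion of `ρ` is `(θ j)(Q^q) / (θ j)(Q)`. -/
theorem h20_coe_rho :
    ((h20_rho M q : ↥(modularFunctionFieldBar (M * q))) : LaurentSeries Qb) = h20_rhoS Qb q := by
  have h1 := h20_theta_eq (M * q) (h20_J1 M q)
  rw [h20_coe_J1, h20_thetaFun_qExpand, ← h20_TJ, nsmul_eq_mul] at h1
  have hq : ((q : ℕ) : LaurentSeries Qb) ≠ 0 := by
    rw [← map_natCast (algebraMap Qb (LaurentSeries Qb))]
    exact (map_ne_zero _).mpr (Nat.cast_ne_zero.mpr (NeZero.ne q))
  have h0 := h20_TJ_ne_zero Qb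
  have h2 : ((h20_rho M q : ↥(modularFunctionFieldBar (M * q))) : LaurentSeries Qb)
      = ((q : ℕ) : LaurentSeries Qb)⁻¹
        * ((h20_dJ (M * q) (h20_J1 M q) : ↥(modularFunctionFieldBar (M * q))) :
            LaurentSeries Qb) := by
    rw [h20_rho, IntermediateField.coe_mul, IntermediateField.coe_inv]
    congr 2
  rw [h2, h20_rhoS, eq_mul_inv_iff_mul_eq₀ h0, mul_assoc, ← h1, inv_mul_cancel_left₀ hq]

theorem h20_rho_ne_zero : h20_rho M q ≠ 0 := by
  intro h
  have h1 := h20_coe_rho M q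
  rw [h, IntermediateField.coe_zero] at h1
  exact h20_rhoS_ne_zero Qb q h1.symm

end Rho

/-! ### (W-SWAP) -/

section Swap

variable (M q : ℕ) [NeZero M] [NeZero q] [Fact q.Prime] (hqM : ¬ q ∣ M)

theorem h20_w_J0 : h60_w M q hqM (h59_jbar (M * q)) = h20_J1 M q := by
  rw [← h20_alpha_jbar, h60_w_alpha, h20_J1]

theorem h20_w_J1 : h60_w M q hqM (h20_J1 M q) = h59_jbar (M * q) := by
  rw [h20_J1, h60_w_beta, h20_alpha_jbar]

/-- `w (dJ₁/dJ) * (dJ₁/dJ) = 1`. -/
theorem h20_w_dJ1 :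
    h60_w M q hqM (h20_dJ (M * q) (h20_J1 M q)) * h20_dJ (M * q) (h20_J1 M q) = 1 := by
  have : Algebra.IsSeparable Qb⟮h59_jbar (M * q)⟯ ↥(modularFunctionFieldBar (M * q)) :=
    (h54_isChart_jbar (M * q)).sep
  set w := h60_w M q hqM with hw
  set δ := h20_dJ (M * q) with hδ
  have key := h20_der_eq_zero (K := Qb) (F := ↥(modularFunctionFieldBar (M * q)))
    (E := ↥(modularFunctionFieldBar (M * q))) (h59_jbar (M * q))
    (fun f => w (δ (w f)) - w (δ (h20_J1 M q)) * δ f) ?_ ?_ ?_ ?_ (h20_J1 M q)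
  · have h1 : w (δ (w (h20_J1 M q))) = 1 := by
      rw [hw, h20_w_J1, hδ, h20_dJ_j, map_one]
    rw [h1] at key
    exact (sub_eq_zero.mp key).symm
  · intro f g
    simp only [map_add]
    ring
  · intro f g
    simp only [map_mul, Derivation.leibniz, smul_eq_mul, map_add, hw, h60_w_w,
      Algebra.algebraMap_self, RingHom.id_apply]
    ring
  · intro c
    simp only [hw, h60_w_algebraMap, Derivation.map_algebraMap, map_zero, mul_zero, sub_zero]
  · simp only [hw, h20_w_J0, hδ, h20_dJ_j, mul_one, sub_self]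

/-- **(W-SWAP)**: `w ρ * ρ * q ^ 2 = 1`. -/
theorem h20_w_rho :
    h60_w M q hqM (h20_rho M q) * h20_rho M q
      * ((q : ℕ) : ↥(modularFunctionFieldBar (M * q))) ^ 2 = 1 := by
  have h := h20_w_dJ1 M q hqM
  have hq : ((q : ℕ) : ↥(modularFunctionFieldBar (M * q))) ≠ 0 := by
    rw [← map_natCast (algebraMap Qb ↥(modularFunctionFieldBar (M * q)))]
    exact (map_ne_zero _).mpr (Nat.cast_ne_zero.mpr (NeZero.ne q))
  rw [h20_rho, map_mul, map_inv₀, map_natCast]
  calc ((q : ℕ) : ↥(modularFunctionFieldBar (M * q)))⁻¹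
          * h60_w M q hqM (h20_dJ (M * q) (h20_J1 M q))
          * (((q : ℕ) : ↥(modularFunctionFieldBar (M * q)))⁻¹ * h20_dJ (M * q) (h20_J1 M q))
          * ((q : ℕ) : ↥(modularFunctionFieldBar (M * q))) ^ 2
      = (h60_w M q hqM (h20_dJ (M * q) (h20_J1 M q)) * h20_dJ (M * q) (h20_J1 M q))
          * (((q : ℕ) : ↥(modularFunctionFieldBar (M * q)))⁻¹
            * ((q : ℕ) : ↥(modularFunctionFieldBar (M * q)))) ^ 2 := by ring
    _ = 1 := by rw [h, inv_mul_cancel₀ hq, one_pow, one_mul]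

/-- (W-SWAP), inverse form: `w ρ = (q ^ 2 * ρ)⁻¹`. -/
theorem h20_w_rho_eq :
    h60_w M q hqM (h20_rho M q)
      = (((q : ℕ) : ↥(modularFunctionFieldBar (M * q))) ^ 2 * h20_rho M q)⁻¹ := by
  refine eq_inv_of_mul_eq_one_left ?_
  rw [← h20_w_rho M q hqM]
  ring

end Swap

/-! ### `ρ` in the valuation ring `O₁ = h60_R1.O` -/

section R1

variable (M q : ℕ) [NeZero M] [NeZero q] [Fact q.Prime] (hqM : ¬ q ∣ M)
  (A : ValuationSubring Qb) (hA : A.LiesOverPrime q)

/-- `ρ ∈ O₁`. -/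
theorem h20_rho_mem : h20_rho M q ∈ (h60_R1 M q hqM A hA).O := by
  rw [h60_R1_mem_iff_Os, h20_coe_rho]
  exact h20_rhoS_mem A q

/-- The expansion of `red₁ ρ` is `(θ j)(Q^q) / (θ j)(Q)` over the residue field. -/
theorem h20_coe_redF_rho :
    (((h60_R1 M q hqM A hA).redF (h20_rho M q) :
        ↥(modularFunctionFieldFullC (IsLocalRing.ResidueField A) M)) :
          LaurentSeries (IsLocalRing.ResidueField A))
      = h20_rhoS (IsLocalRing.ResidueField A) q := by
  rw [(h60_R1 M q hqM A hA).redF_of_mem (h20_rho_mem M q hqM A hA), h60_R1_coe_red]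
  have h2 : (⟨((h20_rho M q : ↥(modularFunctionFieldBar (M * q))) : LaurentSeries Qb),
      (h60_R1_mem_iff_Os M q hqM A hA (h20_rho M q)).mp (h20_rho_mem M q hqM A hA)⟩ :
        h60_Os A) = h20_rhoO A q := Subtype.ext (h20_coe_rho M q)
  rw [h2, h20_rs_rhoO]

/-- The expansion of `red₁ ρ` is `(θ j) ^ (q - 1)`. -/
theorem h20_coe_redF_rho_pow :
    (((h60_R1 M q hqM A hA).redF (h20_rho M q) :
        ↥(modularFunctionFieldFullC (IsLocalRing.ResidueField A) M)) :
          LaurentSeries (IsLocalRing.ResidueField A))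
      = h20_thetaFun (jqModC (IsLocalRing.ResidueField A)) ^ (q - 1) := by
  have : CharP (IsLocalRing.ResidueField A) q := h19_residueField_charP A q hA
  rw [h20_coe_redF_rho, h20_rhoS_char, h20_TJ]

theorem h20_redF_rho_ne_zero : (h60_R1 M q hqM A hA).redF (h20_rho M q) ≠ 0 := by
  intro h
  have h1 := h20_coe_redF_rho M q hqM A hA
  rw [h, IntermediateField.coe_zero] at h1
  exact h20_rhoS_ne_zero _ q h1.symm

/-- `ρ⁻¹ ∈ O₁`. -/
theorem h20_rho_inv_mem : (h20_rho M q)⁻¹ ∈ (h60_R1 M q hqM A hA).O :=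
  (h39_inv_of_redF_ne_zero _ (h20_redF_rho_ne_zero M q hqM A hA)).1

theorem h20_redF_rho_inv :
    (h60_R1 M q hqM A hA).redF (h20_rho M q)⁻¹
      = ((h60_R1 M q hqM A hA).redF (h20_rho M q))⁻¹ :=
  (h39_inv_of_redF_ne_zero _ (h20_redF_rho_ne_zero M q hqM A hA)).2

end R1

end Fermat.Agent.S36

end
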