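/-
S36 (HASSE package, row (U3), generic core; helper65).

On a function field `F/K` (char 0, `K` algebraically closed) with a transcendental `J` whose
fibres have the ramification pattern of the `j`-line of a modular curve without elliptic
points (`e = 3` over `0`, `e = 2` over `1728`, `e = 1` elsewhere), and an automorphism `σ`,
the function `ρ⁶ J⁴ (J - 1728)³ / ((σ J)⁴ (σ J - 1728)³)` with `d(σ J) = ρ dJ` is a unit at
every place where `J` and `σ J` are finite.
-/
import Mathlib
import Fermat.Agent.S24.h73_Diff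

set_option autoImplicit false

namespace Fermat.Agent.S36

open KaehlerDifferential AlgebraicCurve Fermat.Agent.S24

section Gen

variable {K F : Type*} [Field K] [Field F] [Algebra K F]

open Classical in
/-- The ramification pattern of the `j`-line: `3` over `0`, `2` over `1728`, `1` elsewhere. -/
noncomputable def h65_jRam (c : K) : ℤ := if c = 0 then 3 else if c = 1728 then 2 else 1

theorem h65_jRam_zero : h65_jRam (0 : K) = 3 := by
  rw [h65_jRam, if_pos rfl]

theorem h65_jRam_1728 (h : (1728 : K) ≠ 0) : h65_jRam (1728 : K) = 2 := by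
  rw [h65_jRam, if_neg h, if_pos rfl]

theorem h65_jRam_of_ne {c : K} (h0 : c ≠ 0) (h1 : c ≠ 1728) : h65_jRam c = 1 := by
  rw [h65_jRam, if_neg h0, if_neg h1]

theorem h65_ord_pow (v : Place K F) (f : F) (n : ℕ) : v.ord (f ^ n) = n * v.ord f := by
  have h := v.ord_zpow f (n : ℤ)
  rwa [zpow_natCast] at h

theorem h65_ord_div (v : Place K F) {f g : F} (hf : f ≠ 0) (hg : g ≠ 0) :
    v.ord (f / g) = v.ord f - v.ord g := by
  rw [div_eq_mul_inv, v.ord_mul hf (inv_ne_zero hg), v.ord_inv]
  ring

/-- At a place where `x - c` vanishes, `x - d` is a unit for every constant `d ≠ c`. -/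
theorem h65_ord_sub_of_ne (v : Place K F) {x : F} {c d : K}
    (hc : 0 < v.ord (x - algebraMap K F c)) (hcd : d ≠ c) :
    v.ord (x - algebraMap K F d) = 0 := by
  have hmem : x - algebraMap K F c ∈ v.toValuationSubring := h73_mem_of_ord_nonneg v hc.le
  have hmax : (⟨x - algebraMap K F c, hmem⟩ : v.toValuationSubring) ∈
      IsLocalRing.maximalIdeal v.toValuationSubring :=
    (h73_mem_maximalIdeal_iff v hmem).mpr (Or.inr hc)
  have hne : c - d ≠ 0 := sub_ne_zero.mpr (Ne.symm hcd)
  have hu : IsUnit (algebraMap K v.toValuationSubring (c - d)) :=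
    (isUnit_iff_ne_zero.mpr hne).map _
  have hsum : IsUnit ((⟨x - algebraMap K F c, hmem⟩ : v.toValuationSubring) +
      algebraMap K v.toValuationSubring (c - d)) := by
    by_contra hnu
    have h1 : (⟨x - algebraMap K F c, hmem⟩ : v.toValuationSubring) +
        algebraMap K v.toValuationSubring (c - d) ∈
          IsLocalRing.maximalIdeal v.toValuationSubring := hnu
    have h2 := Ideal.sub_mem _ h1 hmax
    rw [add_sub_cancel_left] at h2
    exact h2 hu
  have h3 := v.ord_coe_unit hsum.unit
  rw [IsUnit.unit_spec] at h3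
  have h4 : (((⟨x - algebraMap K F c, hmem⟩ : v.toValuationSubring) +
      algebraMap K v.toValuationSubring (c - d) : v.toValuationSubring) : F) =
        x - algebraMap K F d := by
    show (x - algebraMap K F c) +
      ((algebraMap K v.toValuationSubring (c - d) : v.toValuationSubring) : F) = _
    rw [v.coe_algebraMap, map_sub]
    ring
  rwa [h4] at h3

variable [CharZero K]

/-- The order of `x⁴ (x - 1728)³` at a place with the `j`-line ramification pattern. -/
theorem h65_ord_jfactor (v : Place K F) {x : F} {c : K}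
    (hc : 0 < v.ord (x - algebraMap K F c))
    (hE : v.ord (x - algebraMap K F c) = h65_jRam c) :
    x ^ 4 * (x - 1728) ^ 3 ≠ 0 ∧ v.ord (x ^ 4 * (x - 1728) ^ 3) = 6 * (h65_jRam c - 1) := by
  have h1728K : (1728 : K) ≠ 0 := by norm_num
  have hx0 : x ≠ 0 := by
    rintro rfl
    by_cases h0 : c = 0
    · subst h0
      simp at hc
    · have := h65_ord_sub_of_ne v hc (d := 0) (Ne.symm h0)
      simp at this
      rw [zero_sub, ← map_neg, h73_ord_algebraMap] at hc
      exact lt_irrefl _ hc
  have hx1 : x - 1728 ≠ 0 := by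
    intro h
    have hx : x = algebraMap K F 1728 := by
      rw [map_ofNat]
      exact sub_eq_zero.mp h
    rw [hx, ← map_sub, h73_ord_algebraMap] at hc
    exact lt_irrefl _ hc
  have e0 : x - algebraMap K F 0 = x := by rw [map_zero, sub_zero]
  have e1 : x - algebraMap K F 1728 = x - 1728 := by rw [map_ofNat]
  refine ⟨mul_ne_zero (pow_ne_zero _ hx0) (pow_ne_zero _ hx1), ?_⟩
  rw [v.ord_mul (pow_ne_zero _ hx0) (pow_ne_zero _ hx1), h65_ord_pow, h65_ord_pow]
  by_cases h0 : c = 0
  · subst h0
    have hA : v.ord x = 3 := by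
      rw [e0] at hE
      rw [hE, h65_jRam_zero]
    have hB : v.ord (x - 1728) = 0 := by
      rw [← e1]
      exact h65_ord_sub_of_ne v hc h1728K
    rw [hA, hB, h65_jRam_zero]
    norm_num
  · by_cases h1 : c = 1728
    · subst h1
      have hA : v.ord x = 0 := by
        rw [← e0]
        exact h65_ord_sub_of_ne v hc (Ne.symm h1728K)
      have hB : v.ord (x - 1728) = 2 := by
        rw [e1] at hE
        rw [hE, h65_jRam_1728 h1728K]
      rw [hA, hB, h65_jRam_1728 h1728K]
      norm_num
    · have hA : v.ord x = 0 := by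
        rw [← e0]
        exact h65_ord_sub_of_ne v hc (Ne.symm h0)
      have hB : v.ord (x - 1728) = 0 := by
        rw [← e1]
        exact h65_ord_sub_of_ne v hc (Ne.symm h1)
      rw [hA, hB, h65_jRam_of_ne h0 h1]
      norm_num

variable [IsAlgClosed K]

/-- **(U3), generic form.** -/
theorem h65_unit_generic (hF : h73_IsFF K F) (J : F) (hJ : Transcendental K J)
    (σ : F ≃ₐ[K] F) (ρ : F) (hρ : D K F (σ J) = ρ • D K F J)
    (hRAM : ∀ (v : Place K F) (c : K), 0 < v.ord (J - algebraMap K F c) →
      v.ord (J - algebraMap K F c) = h65_jRam c)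
    (P : Place K F) (hP : J ∈ P.toValuationSubring) (hP' : σ J ∈ P.toValuationSubring) :
    P.ord (ρ ^ 6 * (J ^ 4 * (J - 1728) ^ 3) / ((σ J) ^ 4 * (σ J - 1728) ^ 3)) = 0 := by
  have hJ' : Transcendental K (σ J) := by
    intro halg
    apply hJ
    have := halg.algHom σ.symm.toAlgHom
    simpa using this
  -- the values of `J` and `σ J` at `P`
  obtain ⟨c, hc⟩ := h73_exists_value hF P hP
  have hc : 0 < P.ord (J - algebraMap K F c) := by
    rcases hc with hc | hc
    · exact absurd (hc ▸ isAlgebraic_algebraMap c) hJ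
    · exact hc
  obtain ⟨c', hc'⟩ := h73_exists_value hF P hP'
  have hc' : 0 < P.ord (σ J - algebraMap K F c') := by
    rcases hc' with hc' | hc'
    · exact absurd (hc' ▸ isAlgebraic_algebraMap c') hJ'
    · exact hc'
  have hE : P.ord (J - algebraMap K F c) = h65_jRam c := hRAM P c hc
  have hE' : P.ord (σ J - algebraMap K F c') = h65_jRam c' := by
    have h1 := (σ.symm • P).ord_smul (σ := σ) (J - algebraMap K F c')
    have h2 : σ • σ.symm • P = P := by
      rw [← mul_smul]
      have : σ * σ.symm = 1 := by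
        ext x
        simp
      rw [this, one_smul]
    rw [h2, map_sub, AlgEquiv.commutes] at h1
    rw [h1]
    apply hRAM
    rw [← h1]
    exact hc'
  obtain ⟨hn, hordJ⟩ := h65_ord_jfactor P hc hE
  obtain ⟨hn', hordJ'⟩ := h65_ord_jfactor P hc' hE'
  have hd := h73_ordDifferential_D_pos hF P hc
  have hd' := h73_ordDifferential_D_pos hF P hc'
  have hDJ : D K F J ≠ 0 := h73_D_ne_zero hF hJ
  have hDJ' : D K F (σ J) ≠ 0 := h73_D_ne_zero hF hJ'
  have hρ0 : ρ ≠ 0 := by
    rintro rfl
    rw [zero_smul] at hρ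
    exact hDJ' hρ
  have hsm := h73_ordDifferential_smul hF P hρ0 hDJ
  rw [← hρ, hd', hd, hE, hE'] at hsm
  rw [h65_ord_div P (mul_ne_zero (pow_ne_zero _ hρ0) hn) hn',
    P.ord_mul (pow_ne_zero _ hρ0) hn, h65_ord_pow, hordJ, hordJ']
  push_cast
  linarith

end Gen

end Fermat.Agent.S36
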