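/-
S36 (HASSE package, row (U3), ramification input; helper65).

`h65_ram` : at a level `N` without elliptic elements, every place `P` of `F_K(N)` over `j = c`
has `ord_P (j - c) = 3, 2, 1` according to `c = 0`, `c = 1728`, neither.
`h65_fin` : at a place where `j` is finite, every element of `A_N` is regular.
Both are read off the analytic point dictionary `gal_dict_point_K` (on main).
-/
import Mathlib
import Fermat.Agent.GAL.AnDictPt
import Fermat.Agent.S36.h65_UnitGen

set_option autoImplicit false

open UpperHalfPlane ModularCurve CongruenceSubgroup AlgebraicCurve ModularForm EisensteinSeries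
open scoped MatrixGroups Manifold

namespace Fermat.Agent.S36

open Fermat.Agent.S24 Fermat.Agent.S16 Fermat.Agent.GAL

section generic

open IntermediateField

variable {K : Type*} [Field K] [Algebra ℚ K] [IsAlgClosed K] (ι : K →+* ℂ) (N : ℕ) [NeZero N]

include ι

/-- **(RAM)**: the ramification of `j` at a level without elliptic elements. -/
theorem h65_ram
    (hEll : ∀ g : SL(2, ℤ), g⁻¹ * ModularGroup.S * g ∉ Gamma0 N ∧
      g⁻¹ * (ModularGroup.S * ModularGroup.T) * g ∉ Gamma0 N)
    (P : Place K (gal_F K N)) (c : K)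
    (hc : 0 < P.ord (h78_j K N - algebraMap K (gal_F K N) c)) :
    P.ord (h78_j K N - algebraMap K (gal_F K N) c) = h65_jRam c := by
  have hP : h78_j K N ∈ P.toValuationSubring := by
    have h1 : h78_j K N - algebraMap K (gal_F K N) c ∈ P.toValuationSubring :=
      h73_mem_of_ord_nonneg P hc.le
    have h2 := add_mem h1 (P.algebraMap_mem' c)
    rwa [sub_add_cancel] at h2
  obtain ⟨τ₀, g, e, hrel, he⟩ := gal_dict_point_K ι N P hP
  have he1 : e = 1 := by
    rcases he with h | ⟨_, _, h⟩ | ⟨_, _, h⟩
    · exact h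
    · exact absurd h (hEll g).1
    · exact absurd h (hEll g).2
  set a : h78_AN K N := ⟨coeffEmb K jq, h78_jq_mem_AN K N⟩ - algebraMap K (h78_AN K N) c with ha
  have hev : h54_ev ι N a = fun τ => h77_j τ - ι c := by
    rw [ha, map_sub, h54_ev_j, h54_ev_const]
    rfl
  have hmap : algebraMap (h78_AN K N) (gal_F K N) a
      = h78_j K N - algebraMap K (gal_F K N) c := by
    rw [ha, map_sub, ← h54_j_eq_algebraMap, ← IsScalarTower.algebraMap_apply]
  have ha0 : a ≠ 0 := by
    intro h0
    rw [h0, map_zero] at hmap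
    rw [← hmap] at hc
    simp at hc
  have h1 := hrel a 1 ha0 one_ne_zero
  rw [map_one (algebraMap (h78_AN K N) (gal_F K N)), div_one, hmap, he1, Nat.cast_one,
    one_mul] at h1
  have hf1 : (fun z : ℍ => h54_ev ι N a (g⁻¹ • z)) = fun z => h77_j z - ι c := by
    funext z
    rw [hev]
    show h77_j (g⁻¹ • z) - ι c = h77_j z - ι c
    rw [h54_j_smul]
  have hf2 : (fun z : ℍ => h54_ev ι N (1 : h78_AN K N) (g⁻¹ • z)) = fun _ => (1 : ℂ) := by
    funext z
    rw [map_one]
    rfl
  rw [hf1, hf2, h54_taylor_const, map_one, PowerSeries.order_one] at h1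
  have hmd : MDiff (fun z : ℍ => h77_j z - ι c) := by
    rw [← hev]
    exact h54_ev_mdiff ι N a
  rw [h54_taylor_order hmd] at h1
  simp only [ENat.toNat_zero, Nat.cast_zero, sub_zero] at h1
  -- the value of `j` at `τ₀`
  have hval : h77_j τ₀ = ι c := by
    by_contra hne
    have h0 : analyticOrderAt ((fun z : ℍ => h77_j z - ι c) ∘ ofComplex) (τ₀ : ℂ) = 0 := by
      rw [← h54_taylor_order hmd, PowerSeries.order_zero_of_unit]
      rw [PowerSeries.isUnit_iff_constantCoeff, h54_taylor_constantCoeff]
      exact isUnit_iff_ne_zero.mpr (sub_ne_zero.mpr hne)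
    rw [h0] at h1
    simp at h1
    omega
  have hfun : ((fun z : ℍ => h77_j z - ι c) ∘ ofComplex)
      = fun z : ℂ => h77_j (ofComplex z) - h77_j τ₀ := by
    funext z
    rw [hval]
    rfl
  have hord := h39_order_nat τ₀
  have hord' : analyticOrderAt (fun z : ℂ => h77_j (ofComplex z) - h77_j τ₀) (τ₀ : ℂ) =
      ((if h77_j τ₀ = 0 then 3 else if h77_j τ₀ = 1728 then 2 else 1 : ℕ) : ℕ∞) := hord
  rw [hfun, hord', ENat.toNat_natCast, hval] at h1
  rw [← h1]
  have hinj : Function.Injective ι := ι.injective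
  by_cases h0 : c = 0
  · subst h0
    rw [h65_jRam_zero, map_zero, if_pos rfl]
    rfl
  · have h0' : ι c ≠ 0 := fun h => h0 (hinj (by rw [h, map_zero]))
    have h1728K : (1728 : K) ≠ 0 := by
      have : CharZero K := algebraRat.charZero K
      norm_num
    by_cases h1 : c = 1728
    · subst h1
      rw [h65_jRam_1728 h1728K, if_neg h0', map_ofNat, if_pos rfl]
      rfl
    · have h1' : ι c ≠ 1728 := fun h => h1 (hinj (by rw [h, map_ofNat]))
      rw [h65_jRam_of_ne h0 h1, if_neg h0', if_neg h1']
      rfl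

/-- **(FIN)**: at a place where `j` is finite, every element of `A_N` is regular. -/
theorem h65_fin (P : Place K (gal_F K N)) (hP : h78_j K N ∈ P.toValuationSubring)
    (a : h78_AN K N) : algebraMap (h78_AN K N) (gal_F K N) a ∈ P.toValuationSubring := by
  rcases eq_or_ne a 0 with rfl | ha0
  · rw [map_zero]
    exact zero_mem _
  obtain ⟨τ₀, g, e, hrel, he⟩ := gal_dict_point_K ι N P hP
  have he0 : 0 < e := by
    rcases he with h | ⟨h, _⟩ | ⟨h, _⟩ <;> omega
  have h1 := hrel a 1 ha0 one_ne_zero
  rw [map_one (algebraMap (h78_AN K N) (gal_F K N)), div_one] at h1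
  have hf2 : (fun z : ℍ => h54_ev ι N (1 : h78_AN K N) (g⁻¹ • z)) = fun _ => (1 : ℂ) := by
    funext z
    rw [map_one]
    rfl
  rw [hf2, h54_taylor_const, map_one, PowerSeries.order_one] at h1
  simp only [ENat.toNat_zero, Nat.cast_zero, sub_zero] at h1
  apply h73_mem_of_ord_nonneg P
  have h2 : (0 : ℤ) ≤ (e : ℤ) * P.ord (algebraMap (h78_AN K N) (gal_F K N) a) := by
    rw [← h1]
    exact Int.natCast_nonneg _
  have he0' : (0 : ℤ) < (e : ℤ) := by exact_mod_cast he0
  exact nonneg_of_mul_nonneg_right h2 he0'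

end generic

end Fermat.Agent.S36
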