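/-
S36 (HASSE package, row (U3); helper65).

`h65_unit_u` : at a level `M q` (`q ∤ M`) without elliptic elements, for every `ρ` with
`d(w J) = ρ dJ` (`w` the swap `h60_w`, `J` the `j`-function, `w J = j(q^q)`), the function
`ρ⁶ J⁴ (J - 1728)³ / ((w J)⁴ (w J - 1728)³)` has order `0` at every place where `J` is finite.
(It is `q⁶ Δ(Q^q)/Δ(Q)` up to the constant, but this is not used.)
-/
import Mathlib
import Fermat.Agent.S36.h65_Ram
import Fermat.Agent.S34.h60_R2
import Fermat.Agent.S37.h88_HICore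
import Fermat.Prelude.Thm_ModularCurve_coeffMap_qExpand

set_option autoImplicit false

open UpperHalfPlane ModularCurve CongruenceSubgroup AlgebraicCurve KaehlerDifferential
open scoped MatrixGroups

namespace Fermat.Agent.S36

open Fermat.Agent.S24 Fermat.Agent.S34 Fermat.Agent.S37 Fermat.Agent.GAL

local notation "Qb" => AlgebraicClosure ℚ

variable (M q : ℕ) [NeZero M] [NeZero q] [Fact q.Prime] (hqM : ¬ q ∣ M)

/-- The swap `w` of `F(Mq)` as a `Qb`-algebra automorphism. -/
noncomputable def h65_wEquiv :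
    ↥(modularFunctionFieldBar (M * q)) ≃ₐ[Qb] ↥(modularFunctionFieldBar (M * q)) :=
  AlgEquiv.ofRingEquiv
    (f := RingEquiv.ofRingHom (h60_w M q hqM) (h60_w M q hqM)
      (RingHom.ext fun x => h60_w_w M q hqM x) (RingHom.ext fun x => h60_w_w M q hqM x))
    (fun c => h60_w_algebraMap M q hqM c)

theorem h65_wEquiv_apply (f : ↥(modularFunctionFieldBar (M * q))) :
    h65_wEquiv M q hqM f = h60_w M q hqM f := rfl

/-- `w J = j(Q^q)`. -/
theorem h65_w_jbar :
    h60_w M q hqM (h59_jbar (M * q)) = heckeBetaBar Qb M q (h59_jbar M) := by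
  have h : h59_jbar (M * q) = heckeAlphaBar Qb M q (h59_jbar M) := Subtype.ext rfl
  rw [h, h60_w_alpha]

/-- `w J` is regular wherever `J` is. -/
theorem h65_wJ_mem (P : Place Qb ↥(modularFunctionFieldBar (M * q)))
    (hP : h59_jbar (M * q) ∈ P.toValuationSubring) :
    h60_w M q hqM (h59_jbar (M * q)) ∈ P.toValuationSubring := by
  have hmem : coeffEmb Qb (qExpand ℚ q jq) ∈ h78_AN Qb (M * q) :=
    h78_gens_subset_AN Qb (M * q) (h78_mem_gens Qb (dvd_mul_left q M))
  have h1 := h65_fin h78_iota (M * q) P hP ⟨coeffEmb Qb (qExpand ℚ q jq), hmem⟩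
  have h2 : algebraMap (h78_AN Qb (M * q)) (gal_F Qb (M * q))
      ⟨coeffEmb Qb (qExpand ℚ q jq), hmem⟩ = h60_w M q hqM (h59_jbar (M * q)) := by
    rw [h65_w_jbar]
    apply Subtype.ext
    show coeffEmb Qb (qExpand ℚ q jq) = qExpand Qb q (coeffEmb Qb jq)
    exact ModularCurve.coeffMap_qExpand _ q jq
  rwa [h2] at h1

/-- **(U3)**: the modular unit has no zeros or poles where `J` is finite. -/
theorem h65_unit_u
    (hEll : ∀ g : SL(2, ℤ), g⁻¹ * ModularGroup.S * g ∉ Gamma0 (M * q) ∧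
      g⁻¹ * (ModularGroup.S * ModularGroup.T) * g ∉ Gamma0 (M * q))
    (ρ : ↥(modularFunctionFieldBar (M * q)))
    (hρ : D Qb ↥(modularFunctionFieldBar (M * q)) (h60_w M q hqM (h59_jbar (M * q)))
      = ρ • D Qb ↥(modularFunctionFieldBar (M * q)) (h59_jbar (M * q)))
    (P : Place Qb ↥(modularFunctionFieldBar (M * q)))
    (hP : h59_jbar (M * q) ∈ P.toValuationSubring) :
    P.ord (ρ ^ 6 * (h59_jbar (M * q) ^ 4 * (h59_jbar (M * q) - 1728) ^ 3) /
      (h60_w M q hqM (h59_jbar (M * q)) ^ 4 *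
        (h60_w M q hqM (h59_jbar (M * q)) - 1728) ^ 3)) = 0 := by
  have hJ : h59_jbar (M * q) = h78_j Qb (M * q) := Subtype.ext rfl
  exact h65_unit_generic (h88_isFF (M * q)) (h59_jbar (M * q)) (h59_jbar_transcendental (M * q))
    (h65_wEquiv M q hqM) ρ hρ
    (fun v c hc => by
      rw [hJ] at hc ⊢
      exact h65_ram h78_iota (M * q) hEll v c hc)
    P hP (h65_wJ_mem M q hqM P hP)

end Fermat.Agent.S36
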