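import Mathlib
import Fermat.Agent.S36.h20_Rho
import Fermat.Agent.S36.h65_UnitU

/-!
# S36 / (HASSE) package (helper20): `ρ` in Kähler form, and the unit property of `u`

* `h20_D_eq N f` : `D f = (h20_dJ N f) • D j` in `Ω[F(N)/ℚ̄]`;
* `h20_D_wJ` : `D (w J) = (q * ρ) • D J` for `ρ = h20_rho M q` (the hypothesis `hρ` of
  `h65_unit_u` for `q * ρ`);
* `h20_u_ord` : for a level `Mq` without elliptic elements, the function
  `ρ ^ 6 * (J ^ 4 * (J - 1728) ^ 3) / ((w J) ^ 4 * (w J - 1728) ^ 3)` has order `0` at every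
  place where `J` is finite.
-/

set_option autoImplicit false
set_option synthInstance.maxHeartbeats 400000

noncomputable section

open UpperHalfPlane ModularCurve CongruenceSubgroup AlgebraicCurve KaehlerDifferential
open scoped MatrixGroups

namespace Fermat.Agent.S36

open Fermat.Agent.S18 Fermat.Agent.S24 Fermat.Agent.S34 Fermat.Agent.S37

local notation "Qb" => AlgebraicClosure ℚ

/-- `D f = (df/dj) • D j`. -/
theorem h20_D_eq (N : ℕ) [NeZero N] (f : ↥(modularFunctionFieldBar N)) :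
    D Qb ↥(modularFunctionFieldBar N) f
      = h20_dJ N f • D Qb ↥(modularFunctionFieldBar N) (h59_jbar N) := by
  have := h78_finiteDimensional N
  obtain ⟨b, hb⟩ := h73_kaehler_basis (K := Qb) (h59_jbar N) (h59_jbar_transcendental N)
  have h1 : D Qb ↥(modularFunctionFieldBar N) f
      = b.repr (D Qb ↥(modularFunctionFieldBar N) f) () •
        D Qb ↥(modularFunctionFieldBar N) (h59_jbar N) := by
    have h := b.sum_repr (D Qb ↥(modularFunctionFieldBar N) f)
    rw [← hb]
    simpa using h.symm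
  have h2 := congrArg (h20_dJ N).liftKaehlerDifferential h1
  rw [map_smul, Derivation.liftKaehlerDifferential_comp_D,
    Derivation.liftKaehlerDifferential_comp_D, h20_dJ_j, smul_eq_mul, mul_one] at h2
  rw [h2]
  exact h1

section Level

variable (M q : ℕ) [NeZero M] [NeZero q] [Fact q.Prime] (hqM : ¬ q ∣ M)

/-- `D (w J) = (q * ρ) • D J`. -/
theorem h20_D_wJ :
    D Qb ↥(modularFunctionFieldBar (M * q)) (h60_w M q hqM (h59_jbar (M * q)))
      = (((q : ℕ) : ↥(modularFunctionFieldBar (M * q))) * h20_rho M q) •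
        D Qb ↥(modularFunctionFieldBar (M * q)) (h59_jbar (M * q)) := by
  have hq : ((q : ℕ) : ↥(modularFunctionFieldBar (M * q))) ≠ 0 := by
    rw [← map_natCast (algebraMap Qb ↥(modularFunctionFieldBar (M * q)))]
    exact (map_ne_zero _).mpr (Nat.cast_ne_zero.mpr (NeZero.ne q))
  rw [h20_w_J0, h20_D_eq (M * q) (h20_J1 M q), h20_rho, mul_inv_cancel_left₀ hq]

/-- **The unit property of `u`** (from `h65_unit_u`): order `0` wherever `J` is finite. -/
theorem h20_u_ord
    (hEll : ∀ g : SL(2, ℤ), g⁻¹ * ModularGroup.S * g ∉ Gamma0 (M * q) ∧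
      g⁻¹ * (ModularGroup.S * ModularGroup.T) * g ∉ Gamma0 (M * q))
    (P : Place Qb ↥(modularFunctionFieldBar (M * q)))
    (hP : h59_jbar (M * q) ∈ P.toValuationSubring) :
    P.ord (h20_rho M q ^ 6 * (h59_jbar (M * q) ^ 4 * (h59_jbar (M * q) - 1728) ^ 3) /
      (h60_w M q hqM (h59_jbar (M * q)) ^ 4 *
        (h60_w M q hqM (h59_jbar (M * q)) - 1728) ^ 3)) = 0 := by
  have hq : ((q : ℕ) : ↥(modularFunctionFieldBar (M * q))) ≠ 0 := by
    rw [← map_natCast (algebraMap Qb ↥(modularFunctionFieldBar (M * q)))]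
    exact (map_ne_zero _).mpr (Nat.cast_ne_zero.mpr (NeZero.ne q))
  have h := h65_unit_u M q hqM hEll _ (h20_D_wJ M q hqM) P hP
  set X : ↥(modularFunctionFieldBar (M * q)) :=
    (h59_jbar (M * q) ^ 4 * (h59_jbar (M * q) - 1728) ^ 3) /
      (h60_w M q hqM (h59_jbar (M * q)) ^ 4 *
        (h60_w M q hqM (h59_jbar (M * q)) - 1728) ^ 3) with hX
  have e1 : (((q : ℕ) : ↥(modularFunctionFieldBar (M * q))) * h20_rho M q) ^ 6 *
      (h59_jbar (M * q) ^ 4 * (h59_jbar (M * q) - 1728) ^ 3) /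
      (h60_w M q hqM (h59_jbar (M * q)) ^ 4 *
        (h60_w M q hqM (h59_jbar (M * q)) - 1728) ^ 3)
      = algebraMap Qb ↥(modularFunctionFieldBar (M * q)) ((q : Qb) ^ 6) * (h20_rho M q ^ 6 * X) := by
    rw [hX, map_pow, map_natCast]
    ring
  have e2 : h20_rho M q ^ 6 * (h59_jbar (M * q) ^ 4 * (h59_jbar (M * q) - 1728) ^ 3) /
      (h60_w M q hqM (h59_jbar (M * q)) ^ 4 *
        (h60_w M q hqM (h59_jbar (M * q)) - 1728) ^ 3) = h20_rho M q ^ 6 * X := by
    rw [hX]
    ring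
  rw [e1] at h
  rw [e2]
  have hc : (algebraMap Qb ↥(modularFunctionFieldBar (M * q)) ((q : Qb) ^ 6)) ≠ 0 :=
    (map_ne_zero _).mpr (pow_ne_zero 6 (Nat.cast_ne_zero.mpr (NeZero.ne q)))
  by_cases hY : h20_rho M q ^ 6 * X = 0
  · rw [hY, mul_zero] at h
    rw [hY]
    exact h
  · rw [P.ord_mul hc hY, h73_ord_algebraMap, zero_add] at h
    exact h

end Level

end Fermat.Agent.S36

end
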