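import Mathlib
import Fermat.Agent.S27.RRFull
import Fermat.Agent.S18.h17_Holo
import Fermat.Agent.S18.RR_Approx

/-!
# S36 row (R-CNT), genus bridge, generic part 1 (helper64): `div(dx)` is canonical

`K` algebraically closed of characteristic zero, `F / K` a function field with a chart `x`.
Let `W` be a divisor with `W P = ord_P (x - a) - 1` at every place over a finite value `a`
and `W P = ord_P x - 1` at every pole of `x` (the divisor of the differential `dx`).  Then

* `h64_Omega_eq_rr` : `Ω(x, D) = L(W - D)` for every divisor `D` (trace-dual differentials of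
  S18/RR against the order conditions; twisted form of RR-B9 `h17_mem_Omega_of_holo` /
  `h17_holo_of_mem_Omega`);
* `h64_isCanonical_dx` : `W` is canonical in the sense of `h68_IsCanonical`;
* `h64_degree_dx` : `deg W = 2 g - 2` with `g = h75_genus K x` the Riemann–Roch genus.
-/

set_option autoImplicit false

noncomputable section

open AlgebraicCurve IntermediateField Module
open Fermat.Agent.S18 Fermat.Agent.S24 Fermat.Agent.S27

namespace Fermat.Agent.S36

variable {K F : Type*} [Field K] [Field F] [Algebra K F]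

/-- `1` lies in `M_t(0)`. -/
theorem h64_one_mem_chart_zero (t : F) : (1 : F) ∈ h75_chart t (0 : Divisor K F) :=
  h75_mem_chart_zero_iff.mpr fun P _ => P.toValuationSubring.one_mem

/-- A place where the chart function is regular lies over a value of the chart. -/
theorem h64_mem_of_pos (P : Place K F) (t : F) (a : K)
    (hpos : 0 < P.ord (t - algebraMap K F a)) : t ∈ P.toValuationSubring := by
  have hmem := h24_mem_of_ord_nonneg P hpos.le
  have := add_mem hmem (P.algebraMap_mem' a)
  simpa using this

/-- On the chart of `t`: an element of `M_t(D)` with exact order `-D P₀` at a chart place. -/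
theorem h64_exists_exact_chart [IsAlgClosed K] {t : F} (ht : h75_IsChart K t) (D : Divisor K F)
    (P₀ : Place K F) (hP₀ : t ∈ P₀.toValuationSubring) :
    ∃ f : F, f ≠ 0 ∧ f ∈ h75_chart t D ∧ P₀.ord f = -D P₀ := by
  classical
  set S : Finset (Place K F) :=
    (insert P₀ D.support).filter (fun Q => t ∈ Q.toValuationSubring) with hS
  have hSmem : ∀ Q ∈ S, t ∈ Q.toValuationSubring := fun Q hQ => (Finset.mem_filter.mp hQ).2
  obtain ⟨f, hf0, hfS, hfo⟩ := h75_exists_exact ht S hSmem (fun Q => -D Q)
  refine ⟨f, hf0, ?_, ?_⟩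
  · rw [h75_mem_chart_iff]
    intro Q hQ
    right
    by_cases hQS : Q ∈ S
    · rw [hfS Q hQS]
    · have hD : D Q = 0 := by
        by_contra hne
        exact hQS (Finset.mem_filter.mpr
          ⟨Finset.mem_insert_of_mem (Finsupp.mem_support_iff.mpr hne), hQ⟩)
      rw [hD, neg_zero]
      exact hfo Q hQ hQS
  · exact hfS P₀ (Finset.mem_filter.mpr ⟨Finset.mem_insert_self _ _, hP₀⟩)

/-- Multiplication by an element of `M_t(D)` maps `M_t(0)` into `M_t(D)`. -/
theorem h64_mul_mem_chart {t : F} {D : Divisor K F} {f m : F} (hf : f ∈ h75_chart t D)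
    (hm : m ∈ h75_chart t (0 : Divisor K F)) : f * m ∈ h75_chart t D := by
  rw [h75_mem_chart_iff] at hf ⊢
  rw [h75_mem_chart_zero_iff] at hm
  intro Q hQ
  by_cases h0 : f * m = 0
  · exact Or.inl h0
  right
  have hf0 : f ≠ 0 := left_ne_zero_of_mul h0
  have hm0 : m ≠ 0 := right_ne_zero_of_mul h0
  have h1 := (hf Q hQ).resolve_left hf0
  have h2 := h24_ord_nonneg_of_mem Q (hm Q hQ)
  rw [Q.ord_mul hf0 hm0]
  omega

section Canon

variable [IsAlgClosed K] {x : F} (hx : h75_IsChart K x) (W : Divisor K F)
  (hWf : ∀ (P : Place K F) (a : K), 0 < P.ord (x - algebraMap K F a) →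
    W P = P.ord (x - algebraMap K F a) - 1)
  (hWi : ∀ P : Place K F, P.ord x < 0 → W P = P.ord x - 1)

include hx hWf hWi in
/-- `L(W - D) ⊆ Ω(x, D)` (any characteristic). -/
theorem h64_mem_Omega_of_rr (D : Divisor K F) (w : F)
    (hw : w ∈ riemannRochSpace (W - D)) : w ∈ h75_Omega x D := by
  rw [mem_riemannRochSpace_iff] at hw
  refine ⟨fun m hm => ?_, fun l hl => ?_⟩
  · rw [h17_mem_poly_iff]
    have key := h17_trace_mem_of_holo hx (w * m) (fun P a hpos => ?_) 1
      (h64_one_mem_chart_zero x)
    · rwa [mul_one] at key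
    · by_cases h0 : w * m = 0
      · exact Or.inl h0
      right
      have hw0 : w ≠ 0 := left_ne_zero_of_mul h0
      have hm0 : m ≠ 0 := right_ne_zero_of_mul h0
      have hxP : x ∈ P.toValuationSubring := h64_mem_of_pos P x a hpos
      have h1 := (hw P).resolve_left hw0
      have h2 := ((h75_mem_chart_iff.mp hm) P hxP).resolve_left hm0
      rw [Finsupp.sub_apply, hWf P a hpos] at h1
      rw [P.ord_mul hw0 hm0]
      omega
  · rw [h17_mem_polyInv_iff, ← h17_trace_inv_chart]
    have key := h17_trace_mem_of_holo (h17_isChart_inv hx) (x ^ 2 * w * l)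
      (fun P a' hpos => ?_) 1 (h64_one_mem_chart_zero x⁻¹)
    · rwa [mul_one] at key
    · have hinvP : x⁻¹ ∈ P.toValuationSubring := h64_mem_of_pos P x⁻¹ a' hpos
      have hcond : (∀ a : K, 0 < P.ord (x - algebraMap K F a) →
          w * l = 0 ∨ 1 - P.ord (x - algebraMap K F a) ≤ P.ord (w * l)) ∧
          (P.ord x < 0 → w * l = 0 ∨ 1 - P.ord x ≤ P.ord (w * l)) := by
        constructor
        · intro a hposa
          by_cases h0 : w * l = 0
          · exact Or.inl h0
          right
          have hw0 : w ≠ 0 := left_ne_zero_of_mul h0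
          have hl0 : l ≠ 0 := right_ne_zero_of_mul h0
          have h1 := (hw P).resolve_left hw0
          have h2 := ((h75_mem_chart_iff.mp hl) P hinvP).resolve_left hl0
          rw [Finsupp.sub_apply, hWf P a hposa] at h1
          rw [P.ord_mul hw0 hl0]
          omega
        · intro hneg
          by_cases h0 : w * l = 0
          · exact Or.inl h0
          right
          have hw0 : w ≠ 0 := left_ne_zero_of_mul h0
          have hl0 : l ≠ 0 := right_ne_zero_of_mul h0
          have h1 := (hw P).resolve_left hw0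
          have h2 := ((h75_mem_chart_iff.mp hl) P hinvP).resolve_left hl0
          rw [Finsupp.sub_apply, hWi P hneg] at h1
          rw [P.ord_mul hw0 hl0]
          omega
      have := h17_holo_inv hx.ne_zero (w * l) P hcond a' hpos
      rwa [← mul_assoc] at this

include hx hWf hWi in
/-- `Ω(x, D) ⊆ L(W - D)` (characteristic zero: tame different). -/
theorem h64_rr_of_mem_Omega [CharZero K] (D : Divisor K F) (w : F)
    (hw : w ∈ h75_Omega x D) : w ∈ riemannRochSpace (W - D) := by
  rw [mem_riemannRochSpace_iff]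
  intro P
  by_cases hw0 : w = 0
  · exact Or.inl hw0
  right
  obtain ⟨h1, h2⟩ := hw
  have hx0 := hx.ne_zero
  rw [Finsupp.sub_apply]
  by_cases hxP : x ∈ P.toValuationSubring
  · -- a finite place
    obtain ⟨a, hpos⟩ := h17_exists_value hx P hxP
    obtain ⟨f, hf0, hfD, hfP⟩ := h64_exists_exact_chart hx D P hxP
    have key := h17_holo_of_trace_mem hx (w * f) (fun m hm => by
      have h3 := h1 (f * m) (h64_mul_mem_chart hfD hm)
      rw [h17_mem_poly_iff, ← mul_assoc] at h3
      exact h3) P a hpos
    have key2 := key.resolve_left (mul_ne_zero hw0 hf0)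
    rw [P.ord_mul hw0 hf0, hfP] at key2
    rw [hWf P a hpos]
    omega
  · -- a pole of `x`
    have hneg : P.ord x < 0 := by
      by_contra hnn
      exact hxP ((h35_mem_iff_ord_nonneg P hx0).mpr (not_lt.mp hnn))
    have ht := h17_isChart_inv hx
    have hinvP : x⁻¹ ∈ P.toValuationSubring := by
      rw [h35_mem_iff_ord_nonneg P (inv_ne_zero hx0), P.ord_inv]
      omega
    have hpos : 0 < P.ord (x⁻¹ - algebraMap K F 0) := by
      rw [map_zero, sub_zero, P.ord_inv]
      omega
    obtain ⟨f, hf0, hfD, hfP⟩ := h64_exists_exact_chart ht D P hinvP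
    have key := h17_holo_of_trace_mem ht (x ^ 2 * (w * f)) (fun l hl => by
      rw [h17_trace_inv_chart]
      have h3 := h2 (f * l) (h64_mul_mem_chart hfD hl)
      rw [h17_mem_polyInv_iff, ← mul_assoc] at h3
      exact h3) P 0 hpos
    have key2 := key.resolve_left (mul_ne_zero (pow_ne_zero 2 hx0) (mul_ne_zero hw0 hf0))
    have hord : P.ord (x ^ 2 * (w * f)) = 2 * P.ord x + (P.ord w + P.ord f) := by
      rw [pow_two, mul_assoc, P.ord_mul hx0 (mul_ne_zero hx0 (mul_ne_zero hw0 hf0)),
        P.ord_mul hx0 (mul_ne_zero hw0 hf0), P.ord_mul hw0 hf0]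
      ring
    rw [hord, map_zero, sub_zero, P.ord_inv, hfP] at key2
    rw [hWi P hneg]
    omega

include hx hWf hWi in
/-- **`Ω(x, D) = L(div(dx) - D)`** for every divisor `D`. -/
theorem h64_Omega_eq_rr [CharZero K] (D : Divisor K F) :
    h75_Omega x D = riemannRochSpace (W - D) :=
  Submodule.ext fun w =>
    ⟨h64_rr_of_mem_Omega hx W hWf hWi D w, h64_mem_Omega_of_rr hx W hWf hWi D w⟩

include hx hWf hWi in
/-- **`div(dx)` is a canonical divisor.** -/
theorem h64_isCanonical_dx [CharZero K] : h68_IsCanonical x W := by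
  intro D
  have h1 := h68_finrank_Omega hx D
  rw [h64_Omega_eq_rr hx W hWf hWi D] at h1
  linarith

include hx hWf hWi in
/-- **`deg div(dx) = 2 g - 2`** with `g` the Riemann–Roch genus. -/
theorem h64_degree_dx [CharZero K] : Divisor.degree W = 2 * (h75_genus K x : ℤ) - 2 :=
  h68_canonical_degree hx (h64_isCanonical_dx hx W hWf hWi)

end Canon

end Fermat.Agent.S36

end
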