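import Mathlib
import Fermat.Agent.S36.h64_CanonDx
import Fermat.Agent.S24.h24_Fibre

/-!
# S36 row (R-CNT), genus bridge, generic part 2 (helper64): Riemann–Hurwitz for the RR genus

`h64_genus_of_fibre_counts` : `K` algebraically closed of characteristic zero, `t` a chart of
`F / K` of degree `n`, all fibres of `t` over `a ≠ a₁, a₂` of full cardinality `n`.  Then

`2 g - 2 = n - #fibre(a₁) - #fibre(a₂) - #poles(t)`

for the Riemann–Roch genus `g = h75_genus K t` (`= genusFF K F`).  This is the statement of
S24's `h73_genus_of_fibre_counts` for the Riemann–Roch genus instead of the genus defined by the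
degree of a Kähler differential.
-/

set_option autoImplicit false

noncomputable section

open AlgebraicCurve IntermediateField Module
open Fermat.Agent.S18 Fermat.Agent.S24 Fermat.Agent.S27

namespace Fermat.Agent.S36

variable {K F : Type*} [Field K] [Field F] [Algebra K F]

theorem h64_sum_single_apply [DecidableEq (Place K F)] (S : Finset (Place K F))
    (e : Place K F → ℤ) (P : Place K F) :
    (∑ Q ∈ S, Finsupp.single Q (e Q) : Divisor K F) P = if P ∈ S then e P else 0 := by
  rw [Finsupp.finsetSum_apply]
  simp only [Finsupp.single_apply]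
  rw [Finset.sum_ite_eq' S P e]

theorem h64_card_subtype_eq {α : Type*} (p : α → Prop) (h : {v : α | p v}.Finite) :
    Nat.card {v : α // p v} = h.toFinset.card := by
  have h1 : Nat.card {v : α // p v} = Set.ncard {v : α | p v} := Nat.card_coe_set_eq _
  rw [h1, Set.ncard_eq_toFinset_card _ h]

/-- **Riemann–Hurwitz for the Riemann–Roch genus**, fibre-count form. -/
theorem h64_genus_of_fibre_counts [IsAlgClosed K] [CharZero K] {t : F} (ht : h75_IsChart K t)
    (a₁ a₂ : K) (ha : a₁ ≠ a₂)
    (hS : ∀ a : K, a ≠ a₁ → a ≠ a₂ →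
      Nat.card {v : Place K F // 0 < v.ord (t - algebraMap K F a)} = Module.finrank K⟮t⟯ F) :
    2 * (h75_genus K t : ℤ) - 2 =
      (Module.finrank K⟮t⟯ F : ℤ)
        - (Nat.card {v : Place K F // 0 < v.ord (t - algebraMap K F a₁)} : ℤ)
        - (Nat.card {v : Place K F // 0 < v.ord (t - algebraMap K F a₂)} : ℤ)
        - (Nat.card {v : Place K F // v.ord t < 0} : ℤ) := by
  classical
  have hfin := ht.fin
  have hf1 := h24_fibre_finite t ht.tr a₁
  have hf2 := h24_fibre_finite t ht.tr a₂
  have hfi := h24_fibre_infty_finite t ht.tr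
  have hm1 : ∀ P : Place K F, P ∈ hf1.toFinset ↔ 0 < P.ord (t - algebraMap K F a₁) := by
    intro P
    rw [Set.Finite.mem_toFinset]
    exact Iff.rfl
  have hm2 : ∀ P : Place K F, P ∈ hf2.toFinset ↔ 0 < P.ord (t - algebraMap K F a₂) := by
    intro P
    rw [Set.Finite.mem_toFinset]
    exact Iff.rfl
  have hmi : ∀ P : Place K F, P ∈ hfi.toFinset ↔ P.ord t < 0 := by
    intro P
    rw [Set.Finite.mem_toFinset]
    exact Iff.rfl
  have hsum1 := h24_fibre_sum t ht.tr a₁ hf1.toFinset hm1
  have hsum2 := h24_fibre_sum t ht.tr a₂ hf2.toFinset hm2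
  have hsumi := h24_fibre_infty_sum t ht.tr hfi.toFinset hmi
  -- the divisor of `dt`
  set W : Divisor K F :=
    ∑ P ∈ hf1.toFinset, Finsupp.single P (P.ord (t - algebraMap K F a₁) - 1) +
      ∑ P ∈ hf2.toFinset, Finsupp.single P (P.ord (t - algebraMap K F a₂) - 1) +
      ∑ P ∈ hfi.toFinset, Finsupp.single P (P.ord t - 1) with hW
  have hWP : ∀ P : Place K F, W P =
      (if P ∈ hf1.toFinset then P.ord (t - algebraMap K F a₁) - 1 else 0) +
        (if P ∈ hf2.toFinset then P.ord (t - algebraMap K F a₂) - 1 else 0) +
        (if P ∈ hfi.toFinset then P.ord t - 1 else 0) := by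
    intro P
    rw [hW, Finsupp.add_apply, Finsupp.add_apply, h64_sum_single_apply, h64_sum_single_apply,
      h64_sum_single_apply]
  -- finite places
  have hWf : ∀ (P : Place K F) (a : K), 0 < P.ord (t - algebraMap K F a) →
      W P = P.ord (t - algebraMap K F a) - 1 := by
    intro P a hpos
    have hnp : P ∉ hfi.toFinset := by
      rw [hmi]
      have := h24_fibre_not_pole P t a hpos
      omega
    rw [hWP P, if_neg hnp, add_zero]
    by_cases h1 : a = a₁
    · subst h1
      have hn2 : P ∉ hf2.toFinset := by
        rw [hm2]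
        intro h2
        exact ha (h24_fibre_disjoint P t a a₂ hpos h2)
      rw [if_pos ((hm1 P).mpr hpos), if_neg hn2, add_zero]
    · by_cases h2 : a = a₂
      · subst h2
        have hn1 : P ∉ hf1.toFinset := by
          rw [hm1]
          intro h1'
          exact h1 (h24_fibre_disjoint P t a a₁ hpos h1')
        rw [if_neg hn1, if_pos ((hm2 P).mpr hpos), zero_add]
      · have hn1 : P ∉ hf1.toFinset := by
          rw [hm1]
          intro h1'
          exact h1 (h24_fibre_disjoint P t a a₁ hpos h1')
        have hn2 : P ∉ hf2.toFinset := by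
          rw [hm2]
          intro h2'
          exact h2 (h24_fibre_disjoint P t a a₂ hpos h2')
        rw [if_neg hn1, if_neg hn2, add_zero]
        -- the fibre over `a` is unramified
        have hfa := h24_fibre_finite t ht.tr a
        have hma : ∀ Q : Place K F, Q ∈ hfa.toFinset ↔ 0 < Q.ord (t - algebraMap K F a) := by
          intro Q
          rw [Set.Finite.mem_toFinset]
          exact Iff.rfl
        have hsuma := h24_fibre_sum t ht.tr a hfa.toFinset hma
        have hcard : hfa.toFinset.card = Module.finrank K⟮t⟯ F := by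
          rw [← h64_card_subtype_eq _ hfa]
          exact hS a h1 h2
        have hz : ∑ Q ∈ hfa.toFinset, (Q.ord (t - algebraMap K F a) - 1) = 0 := by
          rw [Finset.sum_sub_distrib, hsuma, Finset.sum_const, hcard]
          simp
        have hall := (Finset.sum_eq_zero_iff_of_nonneg (fun Q hQ => by
          have := (hma Q).mp hQ
          omega)).mp hz P ((hma P).mpr hpos)
        omega
  -- poles
  have hWi : ∀ P : Place K F, P.ord t < 0 → W P = P.ord t - 1 := by
    intro P hneg
    have hn1 : P ∉ hf1.toFinset := by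
      rw [hm1]
      intro h1
      have := h24_fibre_not_pole P t a₁ h1
      omega
    have hn2 : P ∉ hf2.toFinset := by
      rw [hm2]
      intro h2
      have := h24_fibre_not_pole P t a₂ h2
      omega
    rw [hWP P, if_neg hn1, if_neg hn2, if_pos ((hmi P).mpr hneg), zero_add, zero_add]
  have hdeg := h64_degree_dx ht W hWf hWi
  -- the degree of `W`
  have hone : ∀ P : Place K F, ((P.deg : ℕ) : ℤ) = 1 := by
    intro P
    rw [h75_deg_eq_one ht P]
    rfl
  have hdW : Divisor.degree W =
      ((Module.finrank K⟮t⟯ F : ℤ) - hf1.toFinset.card) +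
        ((Module.finrank K⟮t⟯ F : ℤ) - hf2.toFinset.card) +
        (-(Module.finrank K⟮t⟯ F : ℤ) - hfi.toFinset.card) := by
    rw [hW, map_add, map_add, map_sum, map_sum, map_sum]
    simp only [Divisor.degree_single, hone, mul_one]
    rw [Finset.sum_sub_distrib, Finset.sum_sub_distrib, Finset.sum_sub_distrib, hsum1, hsum2]
    have hi : ∑ P ∈ hfi.toFinset, P.ord t = -(Module.finrank K⟮t⟯ F : ℤ) := by
      rw [← hsumi, Finset.sum_neg_distrib, neg_neg]
    rw [hi]
    simp
  rw [h64_card_subtype_eq _ hf1, h64_card_subtype_eq _ hf2, h64_card_subtype_eq _ hfi]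
  rw [hdW] at hdeg
  linarith

end Fermat.Agent.S36

end
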