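import Mathlib
import Fermat.Agent.S36.h64_GenusRH
import Fermat.Agent.S24.h59_Gen
import Fermat.Agent.S24.h33_Cusps
import Fermat.Agent.S24.h29_Index
import Fermat.Agent.S24.h29_Elliptic
import Fermat.Agent.S24.h47_Numerics
import Fermat.Agent.S24.h78_Fibres
import Fermat.Agent.S18.h54_ModLevel

/-!
# S36 row (R-CNT), genus bridge, modular part (helper64)

`h64_genus_mod` : the Riemann–Roch genus `h75_genus ℚ̄ (j)` of the modular function field of
level `Γ₀(N)` over `ℚ̄` (`= genusFF`, the genus of S27 and of the whole reduction theory of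
S18 / S34) is `genusFormula N`.  S24 proves this for the genus defined by the degree of a Kähler
differential; here the same fibre counts of S24 are fed into `h64_genus_of_fibre_counts`.
-/

set_option autoImplicit false

noncomputable section

open ModularCurve AlgebraicCurve IntermediateField
open scoped MatrixGroups
open Fermat.Agent.S18 Fermat.Agent.S24 Fermat.Agent.S27

namespace Fermat.Agent.S36

/-- **The Riemann–Roch genus of `X₀(N)` is `genusFormula N`.** -/
theorem h64_genus_mod (N : ℕ) [NeZero N] :
    (h75_genus (AlgebraicClosure ℚ) (h59_jbar N) : ℚ) = ModularCurve.genusFormula N := by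
  have hfd := h78_finiteDimensional N
  have hne : (1728 : AlgebraicClosure ℚ) ≠ 0 := by norm_num
  have hg := h64_genus_of_fibre_counts (h54_isChart_jbar N) (1728 : AlgebraicClosure ℚ) 0 hne
    (fun a h1 h0 => by rw [h78_card_fibre N a h0 h1, h78_finrank N])
  rw [h78_finrank N, h78_card_fibre_1728 N, h78_card_fibre_zero N, h78_card_poles N] at hg
  have hnum := h47_genus_of_counts N (G := SL(2, ℤ))
    (X := SL(2, ℤ) ⧸ CongruenceSubgroup.Gamma0 N)
    ModularGroup.S ModularGroup.T SpecialLinearGroup.SL2Z_generators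
    (h29_card_quotient_Gamma0 N) (h29_orbits_S N) (h29_orbits_ST N) (h33_orbits_T N)
  rw [← hnum]
  have hnat : h75_genus (AlgebraicClosure ℚ) (h59_jbar N) =
      (((Nat.card (SL(2, ℤ) ⧸ CongruenceSubgroup.Gamma0 N) : ℕ) : ℤ)
        - h47_orbCount (SL(2, ℤ) ⧸ CongruenceSubgroup.Gamma0 N) ModularGroup.S
        - h47_orbCount (SL(2, ℤ) ⧸ CongruenceSubgroup.Gamma0 N)
            (ModularGroup.S * ModularGroup.T)
        - h47_orbCount (SL(2, ℤ) ⧸ CongruenceSubgroup.Gamma0 N) ModularGroup.T
        + 2).toNat / 2 := by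
    omega
  rw [← hnat]

end Fermat.Agent.S36

end
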