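import Mathlib
import Fermat.Agent.S34.h87_ChartRows

/-!
# S36 row (R-CNT), generic half (helper64): the number of nodes

In the setting of `h87_chartProp_of_rows` (a lattice datum `D : h22_Lat K F k (Fb × Fb)` with
`h22_ON D`, charts of `F / K` and `Fb / k`, an effective divisor `D0` of degree `2`, the cusp
`Qinf`, rows (INT) `hreg`, (LEAD) `hlead₁`, `hlead₂`, and (NODE) `hunion` for a finite set `Sg`
of places with injective partner map `Φ`), the number of nodes is forced: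

`h64_node_card_generic : (Sg.card : ℤ) = g_F - 2 g_Fb + 1`.

Proof: at a level `n` beyond all thresholds, `red (L(n D0) ∩ O)` is the kernel of the
difference of the node functionals on `L(n Qinf) × L(n Qinf)` (`h16_node_chart`,
`h20_chart_hnode`), the node functionals are independent (`h20_chart_hind_nodes`), and the
codimension is `g_F - 2 g_Fb + 1` (`h16_codim_chart`).
-/

set_option autoImplicit false

noncomputable section

open AlgebraicCurve Module
open Fermat.Agent.S18 Fermat.Agent.S24 Fermat.Agent.S27 Fermat.Agent.S34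

namespace Fermat.Agent.S36

/-- Rank–nullity in the shape used for the node count: a subspace `R` which is the zero locus
inside `P` of a surjective linear map `δ : P → (Z → k)` has codimension `|Z|` in `P`. -/
theorem h64_finrank_node_kernel {k V : Type*} [Field k] [AddCommGroup V] [Module k V]
    {Z : Type*} [Fintype Z] (P R : Submodule k V) [FiniteDimensional k P]
    (δ : P →ₗ[k] (Z → k)) (hsurj : Function.Surjective δ)
    (hR : ∀ a : V, a ∈ R ↔ ∃ h : a ∈ P, δ ⟨a, h⟩ = 0) :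
    finrank k P = finrank k R + Fintype.card Z := by
  have hmap : Submodule.map P.subtype (LinearMap.ker δ) = R := by
    ext a
    rw [hR a]
    constructor
    · rintro ⟨b, hb, rfl⟩
      exact ⟨b.2, by simpa using hb⟩
    · rintro ⟨h, hδ⟩
      exact ⟨⟨a, h⟩, by simpa using hδ, rfl⟩
  have h1 : finrank k R = finrank k (LinearMap.ker δ) := by
    rw [← hmap]
    exact (Submodule.equivMapOfInjective P.subtype P.injective_subtype
      (LinearMap.ker δ)).finrank_eq.symm
  have h2 := LinearMap.finrank_range_add_finrank_ker δ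
  have h3 : LinearMap.range δ = ⊤ := LinearMap.range_eq_top.mpr hsurj
  rw [h3, finrank_top, Module.finrank_fintype_fun_eq_card] at h2
  omega

/-- **The number of nodes** (generic): in the setting of `h87_chartProp_of_rows`, every finite
node set `Sg` describing the ring `⋃ₙ red (L(n D0) ∩ O)` has exactly `g_F - 2 g_Fb + 1`
elements. -/
theorem h64_node_card_generic {K F k Fb : Type} [Field K] [Field F] [Algebra K F] [Field k]
    [Field Fb] [Algebra k Fb] [IsAlgClosed K] [IsAlgClosed k]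
    {xF : F} (hxF : h75_IsChart K xF) {xb : Fb} (hxb : h75_IsChart k xb)
    (D : h22_Lat K F k (Fb × Fb)) (hON : h22_ON D)
    (D0 : Divisor K F) (hD0 : 0 ≤ D0) (hdeg : Divisor.degree D0 = 2) (Qinf : Place k Fb)
    (hreg : ∀ n, ∀ a ∈ h51_Rd D (n • D0), a.1 ∈ h16_Linf Qinf n ∧ a.2 ∈ h16_Linf Qinf n)
    (n₁ : ℕ)
    (hlead₁ : ∀ n, n₁ ≤ n → ∃ x ∈ h51_Rd D ((n + 1) • D0),
      x.1 ∉ h16_Linf Qinf n ∧ x.2 ∈ h16_Linf Qinf n)
    (hlead₂ : ∀ n, n₁ ≤ n → ∃ y ∈ h51_Rd D ((n + 1) • D0),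
      y.1 ∈ h16_Linf Qinf n ∧ y.2 ∉ h16_Linf Qinf n)
    (Sg : Finset (Place k Fb)) (Φ : Place k Fb → Place k Fb) (hΦ : Function.Injective Φ)
    (hSg : ∀ Q ∈ Sg, Q ≠ Qinf ∧ Φ Q ≠ Qinf)
    (hunion : ∀ a : Fb × Fb, (∃ n : ℕ, a ∈ h51_Rd D (n • D0)) ↔
      (∃ n : ℕ, a.1 ∈ h16_Linf Qinf n ∧ a.2 ∈ h16_Linf Qinf n) ∧
        ∀ Q ∈ Sg, ∃ c : k, h39_Val (Φ Q) a.1 c ∧ h39_Val Q a.2 c) :
    (Sg.card : ℤ) = (h75_genus K xF : ℤ) - 2 * h75_genus k xb + 1 := by
  classical
  set gF := h75_genus K xF with hgF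
  set gb := h75_genus k xb with hgb
  set n : ℕ := n₁ + 2 * gF + 2 * gb + Sg.card with hn
  -- (NODE) in place language at level `n`
  have hnodeP : ∀ m, n ≤ m → ∀ a : Fb × Fb, a ∈ h51_Rd D (m • D0) ↔
      (a.1 ∈ h16_Linf Qinf m ∧ a.2 ∈ h16_Linf Qinf m) ∧
        ∀ Q ∈ Sg, ∃ c : k, h39_Val (Φ Q) a.1 c ∧ h39_Val Q a.2 c := by
    intro m hm a
    exact h16_node_chart hxF hxb D hON D0 hD0 hdeg Qinf hreg n₁ hlead₁ hlead₂
      (fun a => ∀ Q ∈ Sg, ∃ c : k, h39_Val (Φ Q) a.1 c ∧ h39_Val Q a.2 c) hunion m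
      (by rw [max_le_iff]; constructor <;> omega) a
  have hnode := h20_chart_hnode hxb Qinf Sg Φ hSg D D0 n hnodeP n le_rfl
  have hind := h20_chart_hind_nodes hxb Qinf Sg Φ hSg hΦ n (by omega)
  have : FiniteDimensional k (h20_P Qinf n) := h20_P_finite hxb Qinf n
  -- the difference of the node functionals
  let e1 := h20_e1 hxb Qinf (h20_nodeQ1 Sg Φ) (h20_nodeQ1_ne Qinf Sg Φ hSg)
  let e2 := h20_e2 hxb Qinf (h20_nodeQ2 Sg) (h20_nodeQ2_ne Qinf Sg Φ hSg)
  let ι : h20_P Qinf n → h20_Bs Qinf := fun a => ⟨a.1, h20_P_le_Bs Qinf n a.1 a.2⟩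
  have hιadd : ∀ a b, ι (a + b) = ι a + ι b := fun a b => Subtype.ext rfl
  have hιsmul : ∀ (c : k) a, ι (c • a) = c • ι a := fun c a => Subtype.ext rfl
  let δ : h20_P Qinf n →ₗ[k] ({Q // Q ∈ Sg} → k) :=
    { toFun := fun a ν => e2 ν (ι a) - e1 ν (ι a)
      map_add' := by
        intro a b
        funext ν
        simp only [hιadd, map_add, Pi.add_apply]
        ring
      map_smul' := by
        intro c a
        funext ν
        simp only [hιsmul, map_smul, Pi.smul_apply, RingHom.id_apply, smul_eq_mul]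
        ring }
  have hδ : ∀ a ν, δ a ν = e2 ν (ι a) - e1 ν (ι a) := fun a ν => rfl
  have hsurj : Function.Surjective δ := by
    intro t
    obtain ⟨a, h, h1, h2⟩ := hind (fun _ => 0) t
    refine ⟨⟨a, h⟩, ?_⟩
    funext ν
    rw [hδ]
    have h1' : e1 ν (ι ⟨a, h⟩) = 0 := h1 ν
    have h2' : e2 ν (ι ⟨a, h⟩) = t ν := h2 ν
    rw [h1', h2', sub_zero]
  have hR : ∀ a : Fb × Fb, a ∈ h51_Rd D (n • D0) ↔ ∃ h : a ∈ h20_P Qinf n, δ ⟨a, h⟩ = 0 := by
    intro a
    rw [hnode a]
    constructor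
    · rintro ⟨h, he⟩
      refine ⟨h, ?_⟩
      funext ν
      rw [hδ]
      have := he ν
      show e2 ν (ι ⟨a, h⟩) - e1 ν (ι ⟨a, h⟩) = 0
      exact sub_eq_zero.mpr this
    · rintro ⟨h, he⟩
      refine ⟨h, fun ν => ?_⟩
      have := congrFun he ν
      rw [hδ] at this
      exact sub_eq_zero.mp this
  have hcount := h64_finrank_node_kernel (h20_P Qinf n) (h51_Rd D (n • D0)) δ hsurj hR
  rw [Fintype.card_coe] at hcount
  have hcodim := h16_codim_chart hxF hxb D hON D0 hdeg Qinf n (by omega) (by omega)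
  have hPeq : finrank k (h20_P Qinf n) = finrank k (h16_pairFil (h16_Linf Qinf) n) := rfl
  rw [← hPeq, hcount] at hcodim
  push_cast at hcodim
  linarith

end Fermat.Agent.S36

end
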