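import Mathlib
import Fermat.Prelude.Def_ModularCurve_GenusNumerics

/-!
# S36 row (R-CNT), numerics (helper64): `g(Mq) - 2 g(M) + 1` for a prime `q ∤ M`

Mathlib + frozen definitions only.

* `h64_sum_divisors_prime_mul` : `∑_{d ∣ qM} f d = ∑_{d ∣ M} f d + ∑_{d ∣ M} f (q d)`;
* `h64_dedekindPsi_prime_mul` : `ψ(qM) = (q + 1) ψ(M)`;
* `h64_cuspCount_prime_mul` : `cuspCount (qM) = 2 cuspCount M`;
* `h64_nuTwo_mul_eq_zero`, `h64_nuThree_mul_eq_zero` : no elliptic points at level `M` gives none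
  at level `qM`;
* `h64_node_numerics_gen` : `12 (g(qM) - 2 g(M) + 1) = (q - 1) ψ(M) - 3 (ν₂(qM) - 2 ν₂(M))
  - 4 (ν₃(qM) - 2 ν₃(M))`;
* `h64_node_numerics` : `12 (g(qM) - 2 g(M) + 1) = (q - 1) ψ(M)` when `ν₂(M) = ν₃(M) = 0`;
* `h64_node_numerics'` : the same for the level written `M * q`.
-/

set_option autoImplicit false

namespace Fermat.Agent.S36

open ModularCurve

/-- The divisors of `q M` (`q` prime, `q ∤ M`): those of `M` and their `q`-multiples. -/
theorem h64_divisors_prime_mul {q M : ℕ} (hq : q.Prime) (hM : 0 < M) :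
    (q * M).divisors = M.divisors ∪ M.divisors.image (fun d => q * d) := by
  ext d
  simp only [Nat.mem_divisors, Finset.mem_union, Finset.mem_image]
  constructor
  · rintro ⟨hd, -⟩
    by_cases hqd : q ∣ d
    · obtain ⟨d', rfl⟩ := hqd
      right
      exact ⟨d', ⟨(Nat.mul_dvd_mul_iff_left hq.pos).mp hd, hM.ne'⟩, rfl⟩
    · left
      have hcop : Nat.Coprime d q := ((Nat.Prime.coprime_iff_not_dvd hq).mpr hqd).symm
      exact ⟨hcop.dvd_of_dvd_mul_left hd, hM.ne'⟩
  · rintro (⟨hd, -⟩ | ⟨d', ⟨hd', -⟩, rfl⟩)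
    · exact ⟨Dvd.dvd.mul_left hd q, mul_ne_zero hq.ne_zero hM.ne'⟩
    · exact ⟨Nat.mul_dvd_mul_left q hd', mul_ne_zero hq.ne_zero hM.ne'⟩

/-- Sums over the divisors of `q M` (`q` prime, `q ∤ M`). -/
theorem h64_sum_divisors_prime_mul {α : Type*} [AddCommMonoid α] {q M : ℕ} (hq : q.Prime)
    (hM : 0 < M) (hqM : ¬ q ∣ M) (f : ℕ → α) :
    ∑ d ∈ (q * M).divisors, f d = ∑ d ∈ M.divisors, f d + ∑ d ∈ M.divisors, f (q * d) := by
  rw [h64_divisors_prime_mul hq hM, Finset.sum_union, Finset.sum_image]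
  · intro a _ b _ hab
    exact Nat.eq_of_mul_eq_mul_left hq.pos hab
  · rw [Finset.disjoint_left]
    intro d hd hd'
    obtain ⟨d', -, rfl⟩ := Finset.mem_image.mp hd'
    exact hqM ((dvd_mul_right q d').trans (Nat.mem_divisors.mp hd).1)

/-- `ψ(q M) = (q + 1) ψ(M)` for a prime `q ∤ M`. -/
theorem h64_dedekindPsi_prime_mul {q M : ℕ} (hq : q.Prime) (hM : 0 < M) (hqM : ¬ q ∣ M) :
    dedekindPsi (q * M) = (q + 1) * dedekindPsi M := by
  unfold dedekindPsi
  rw [Finset.sum_filter, h64_sum_divisors_prime_mul hq hM hqM, Finset.sum_filter, add_mul,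
    one_mul, Finset.mul_sum]
  congr 1
  · refine Finset.sum_congr rfl fun d hd => ?_
    have hdM : d ∣ M := (Nat.mem_divisors.mp hd).1
    by_cases hs : Squarefree d
    · rw [if_pos hs, if_pos hs, Nat.mul_div_assoc q hdM]
    · rw [if_neg hs, if_neg hs, mul_zero]
  · refine Finset.sum_congr rfl fun d hd => ?_
    have hdM : d ∣ M := (Nat.mem_divisors.mp hd).1
    have hcop : Nat.Coprime q d :=
      (Nat.Prime.coprime_iff_not_dvd hq).mpr fun h => hqM (h.trans hdM)
    have hsq : Squarefree (q * d) ↔ Squarefree d := by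
      rw [Nat.squarefree_mul hcop]
      exact ⟨fun h => h.2, fun h => ⟨hq.squarefree, h⟩⟩
    by_cases hs : Squarefree d
    · rw [if_pos (hsq.mpr hs), if_pos hs, Nat.mul_div_mul_left _ _ hq.pos]
    · rw [if_neg (fun h => hs (hsq.mp h)), if_neg hs]

/-- `cuspCount (q M) = 2 cuspCount M` for a prime `q ∤ M`. -/
theorem h64_cuspCount_prime_mul {q M : ℕ} (hq : q.Prime) (hM : 0 < M) (hqM : ¬ q ∣ M) :
    cuspCount (q * M) = 2 * cuspCount M := by
  unfold cuspCount
  rw [h64_sum_divisors_prime_mul hq hM hqM, two_mul]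
  congr 1
  · refine Finset.sum_congr rfl fun d hd => ?_
    have hdM : d ∣ M := (Nat.mem_divisors.mp hd).1
    have hcop : Nat.Coprime q d :=
      (Nat.Prime.coprime_iff_not_dvd hq).mpr fun h => hqM (h.trans hdM)
    rw [Nat.mul_div_assoc q hdM, Nat.Coprime.gcd_mul_left_cancel_right _ hcop]
  · refine Finset.sum_congr rfl fun d hd => ?_
    have hdM : d ∣ M := (Nat.mem_divisors.mp hd).1
    have hcop : Nat.Coprime q (M / d) :=
      (Nat.Prime.coprime_iff_not_dvd hq).mpr fun h => hqM (h.trans (Nat.div_dvd_of_dvd hdM))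
    rw [Nat.mul_div_mul_left _ _ hq.pos, Nat.Coprime.gcd_mul_left_cancel _ hcop]

/-- No root of `x² + 1` modulo `M` gives none modulo a multiple of `M`. -/
theorem h64_nuTwo_mul_eq_zero {q M : ℕ} (hM : 0 < M) (h : nuTwo M = 0) : nuTwo (q * M) = 0 := by
  have : NeZero M := ⟨hM.ne'⟩
  unfold nuTwo at h ⊢
  have hemp : IsEmpty {x : ZMod M // x ^ 2 + 1 = 0} := by
    rcases Nat.card_eq_zero.mp h with h | h
    · exact h
    · exact absurd (inferInstance : Finite {x : ZMod M // x ^ 2 + 1 = 0}) (not_finite_iff_infinite.mpr h)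
  have : IsEmpty {x : ZMod (q * M) // x ^ 2 + 1 = 0} := by
    refine ⟨fun x => hemp.false ⟨ZMod.castHom (dvd_mul_left M q) (ZMod M) x.1, ?_⟩⟩
    rw [← map_pow, ← map_one (ZMod.castHom (dvd_mul_left M q) (ZMod M)), ← map_add, x.2, map_zero]
  exact Nat.card_of_isEmpty

/-- No root of `x² + x + 1` modulo `M` gives none modulo a multiple of `M`. -/
theorem h64_nuThree_mul_eq_zero {q M : ℕ} (hM : 0 < M) (h : nuThree M = 0) :
    nuThree (q * M) = 0 := by
  have : NeZero M := ⟨hM.ne'⟩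
  unfold nuThree at h ⊢
  have hemp : IsEmpty {x : ZMod M // x ^ 2 + x + 1 = 0} := by
    rcases Nat.card_eq_zero.mp h with h | h
    · exact h
    · exact absurd (inferInstance : Finite {x : ZMod M // x ^ 2 + x + 1 = 0})
        (not_finite_iff_infinite.mpr h)
  have : IsEmpty {x : ZMod (q * M) // x ^ 2 + x + 1 = 0} := by
    refine ⟨fun x => hemp.false ⟨ZMod.castHom (dvd_mul_left M q) (ZMod M) x.1, ?_⟩⟩
    rw [← map_pow, ← map_one (ZMod.castHom (dvd_mul_left M q) (ZMod M)), ← map_add, ← map_add,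
      x.2, map_zero]
  exact Nat.card_of_isEmpty

/-- **Node numerics, general form**: for a prime `q ∤ M`,
`12 (g(qM) - 2 g(M) + 1) = (q - 1) ψ(M) - 3 (ν₂(qM) - 2 ν₂(M)) - 4 (ν₃(qM) - 2 ν₃(M))`. -/
theorem h64_node_numerics_gen {q M : ℕ} (hq : q.Prime) (hM : 0 < M) (hqM : ¬ q ∣ M) :
    12 * (genusFormula (q * M) - 2 * genusFormula M + 1) =
      ((q : ℚ) - 1) * dedekindPsi M - 3 * ((nuTwo (q * M) : ℚ) - 2 * nuTwo M)
        - 4 * ((nuThree (q * M) : ℚ) - 2 * nuThree M) := by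
  unfold genusFormula
  rw [h64_dedekindPsi_prime_mul hq hM hqM, h64_cuspCount_prime_mul hq hM hqM]
  push_cast
  ring

/-- **Node numerics**: for a prime `q ∤ M` and a level `M` without elliptic points,
`12 (g(qM) - 2 g(M) + 1) = (q - 1) ψ(M)`. -/
theorem h64_node_numerics {q M : ℕ} (hq : q.Prime) (hM : 0 < M) (hqM : ¬ q ∣ M)
    (h2 : nuTwo M = 0) (h3 : nuThree M = 0) :
    12 * (genusFormula (q * M) - 2 * genusFormula M + 1) = ((q : ℚ) - 1) * dedekindPsi M := by
  rw [h64_node_numerics_gen hq hM hqM, h64_nuTwo_mul_eq_zero hM h2,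
    h64_nuThree_mul_eq_zero hM h3, h2, h3]
  push_cast
  ring

/-- `h64_node_numerics` with the level written `M * q`. -/
theorem h64_node_numerics' {q M : ℕ} (hq : q.Prime) (hM : 0 < M) (hqM : ¬ q ∣ M)
    (h2 : nuTwo M = 0) (h3 : nuThree M = 0) :
    12 * (genusFormula (M * q) - 2 * genusFormula M + 1) = ((q : ℚ) - 1) * dedekindPsi M := by
  rw [mul_comm M q]
  exact h64_node_numerics hq hM hqM h2 h3

end Fermat.Agent.S36
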