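import Mathlib
import Fermat.Agent.S34.h65_ChartInst
import Fermat.Agent.S37.h60_RedInputs
import Fermat.Agent.S18.GR_Glue
import Fermat.Agent.S36.h64_NodeCount
import Fermat.Agent.S36.h64_NodeNumerics
import Fermat.Agent.S36.h64_GenusMod

/-!
# S36 row (R-CNT), modular instance (helper64): the number of nodes of `X₀(Mq)` mod `q`

For a prime `q ∤ M` with `5 ≤ q ∨ 2 ∣ M ∨ 3 ∣ M`, a valuation ring `A` of `ℚ̄` over `q`, the
canonical lattice `h87_D M q hqM A hA`, `D0 = (∞) + (0)`, `Qinf = h11_placeInftyC k M`, and ANY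
finite node set `Sg` with injective partner map `Φ` describing the ring `⋃ₙ red (L(n D0) ∩ O)`
(the binder `hunion` of `h87_chartProp_of_rows` / `h65_chart_inst`):

* `h64_genus_Fb` : the Riemann–Roch genus of `Fb = modularFunctionFieldFullC k M` (any chart) is
  `genusFormula M`;
* `h64_node_card_mod` : `#Sg = g(Mq) - 2 g(M) + 1` with `g = genusFormula`;
* `h64_node_count_mod` : `12 * #Sg = (q - 1) * ψ(M)` when `nuTwo M = nuThree M = 0`.
-/

set_option autoImplicit false
set_option synthInstance.maxHeartbeats 400000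
set_option linter.style.haveILetI false

noncomputable section

open AlgebraicCurve ModularCurve Module
open Fermat.Agent.S18 Fermat.Agent.S24 Fermat.Agent.S27 Fermat.Agent.S37 Fermat.Agent.S34

namespace Fermat.Agent.S36

local notation "Qb" => AlgebraicClosure ℚ

/-- The Riemann–Roch genus of the reduction `Fb(M)` of level `M` (`q ∤ M`) is
`genusFormula M`, for every chart. -/
theorem h64_genus_Fb (M q : ℕ) [NeZero M] [Fact q.Prime] (hqM : ¬ q ∣ M)
    (hch : 5 ≤ q ∨ 2 ∣ M ∨ 3 ∣ M) (A : ValuationSubring Qb) (hA : A.LiesOverPrime q)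
    {y : ↥(modularFunctionFieldFullC (IsLocalRing.ResidueField A) M)}
    (hy : h75_IsChart (IsLocalRing.ResidueField A) y) :
    (h75_genus (IsLocalRing.ResidueField A) y : ℚ) = genusFormula M := by
  haveI : IsAlgClosed (IsLocalRing.ResidueField A) := h19_residueField_isAlgClosed A
  obtain ⟨x, hx⟩ := h60_exists_chart M hqM A hA hch
  have hw : h39_WeakChart (h39_modRed M hqM A hA) x := hx.toh39_WeakChart
  have hxK : h75_IsChart Qb x := h39_weakChart_isChart (h39_modRed M hqM A hA) hw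
  have hxk : h75_IsChart (IsLocalRing.ResidueField A) ((h39_modRed M hqM A hA).redF x) :=
    h39_weakChart_isChart_red (h39_modRed M hqM A hA) hw
  rw [h39_genus_eq_of_charts hy hxk, h39_genus_eq (h39_modRed M hqM A hA) hx,
    h39_genus_eq_of_charts hxK (h54_isChart_jbar M)]
  exact h64_genus_mod M

/-- **The number of nodes of `X₀(Mq)` modulo `q`** (`g = genusFormula`). -/
theorem h64_node_card_mod (M q : ℕ) [NeZero M] [NeZero q] [Fact q.Prime] (hqM : ¬ q ∣ M)
    (hch : 5 ≤ q ∨ 2 ∣ M ∨ 3 ∣ M) (A : ValuationSubring Qb) (hA : A.LiesOverPrime q)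
    {Pinf P0 : Place Qb ↥(modularFunctionFieldBar (M * q))}
    (hPinf : h10_IsCusp (modularFunctionFieldBar (M * q)) Pinf)
    (hP0 : h10_IsCusp0 M q (h60_w M q hqM) P0)
    (Sg : Finset (Place (IsLocalRing.ResidueField A)
      ↥(modularFunctionFieldFullC (IsLocalRing.ResidueField A) M)))
    (Φ : Place (IsLocalRing.ResidueField A)
        ↥(modularFunctionFieldFullC (IsLocalRing.ResidueField A) M) →
      Place (IsLocalRing.ResidueField A)
        ↥(modularFunctionFieldFullC (IsLocalRing.ResidueField A) M))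
    (hΦ : Function.Injective Φ)
    (hSg : ∀ Q ∈ Sg, Q ≠ h11_placeInftyC (IsLocalRing.ResidueField A) M ∧
      Φ Q ≠ h11_placeInftyC (IsLocalRing.ResidueField A) M)
    (hunion : ∀ a : ↥(modularFunctionFieldFullC (IsLocalRing.ResidueField A) M) ×
        ↥(modularFunctionFieldFullC (IsLocalRing.ResidueField A) M),
      (∃ n : ℕ, a ∈ h51_Rd (h87_D M q hqM A hA)
        (n • (Finsupp.single Pinf (1 : ℤ) + Finsupp.single P0 (1 : ℤ)))) ↔
      (∃ n : ℕ, a.1 ∈ h16_Linf (h11_placeInftyC (IsLocalRing.ResidueField A) M) n ∧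
          a.2 ∈ h16_Linf (h11_placeInftyC (IsLocalRing.ResidueField A) M) n) ∧
        ∀ Q ∈ Sg, ∃ c : IsLocalRing.ResidueField A, h39_Val (Φ Q) a.1 c ∧ h39_Val Q a.2 c) :
    (Sg.card : ℚ) = genusFormula (M * q) - 2 * genusFormula M + 1 := by
  classical
  haveI : IsAlgClosed (IsLocalRing.ResidueField A) := h19_residueField_isAlgClosed A
  haveI : CharP (IsLocalRing.ResidueField A) q := h19_residueField_charP A q hA
  have hON := h22_on_h87_D M q hqM A hA
  have hD0 : 0 ≤ (Finsupp.single Pinf (1 : ℤ) + Finsupp.single P0 (1 : ℤ) :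
      Divisor Qb ↥(modularFunctionFieldBar (M * q))) := h10_D0_nonneg Pinf P0
  have hdeg1 : ∀ P : Place Qb (modularFunctionFieldBar (M * q)), P.deg = 1 :=
    Fermat.Agent.S24.h73_deg_eq_one (Fermat.Agent.S37.h88_isFF (M * q))
  have hdeg : Divisor.degree (Finsupp.single Pinf (1 : ℤ) + Finsupp.single P0 (1 : ℤ) :
      Divisor Qb ↥(modularFunctionFieldBar (M * q))) = 2 := h10_D0_degree hdeg1 Pinf P0
  have hreg := h17_int_mod M q hqM A hA hch hPinf hP0
  obtain ⟨n₁, hlead₁, hlead₂⟩ := h31_lead M q hqM A hA hch hPinf hP0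
  obtain ⟨y, hy, -⟩ := h84_exists_yChart M q hqM A hA hch
  have hcard := h64_node_card_generic (h22_isChart_jMq M q) hy (h87_D M q hqM A hA) hON
    (Finsupp.single Pinf (1 : ℤ) + Finsupp.single P0 (1 : ℤ)) hD0 hdeg
    (h11_placeInftyC (IsLocalRing.ResidueField A) M) hreg n₁ hlead₁ hlead₂ Sg Φ hΦ hSg hunion
  have h1 := h64_genus_mod (M * q)
  have h2 := h64_genus_Fb M q hqM hch A hA hy
  have hcardQ : (Sg.card : ℚ) = (h75_genus Qb (h59_jbar (M * q)) : ℚ) -
      2 * (h75_genus (IsLocalRing.ResidueField A) y : ℚ) + 1 := by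
    exact_mod_cast hcard
  rw [hcardQ, h1, h2]

/-- **`12 * #Sg = (q - 1) * ψ(M)`** at levels `M` without elliptic elements. -/
theorem h64_node_count_mod (M q : ℕ) [NeZero M] [NeZero q] [Fact q.Prime] (hqM : ¬ q ∣ M)
    (hch : 5 ≤ q ∨ 2 ∣ M ∨ 3 ∣ M) (A : ValuationSubring Qb) (hA : A.LiesOverPrime q)
    (h2 : nuTwo M = 0) (h3 : nuThree M = 0)
    {Pinf P0 : Place Qb ↥(modularFunctionFieldBar (M * q))}
    (hPinf : h10_IsCusp (modularFunctionFieldBar (M * q)) Pinf)
    (hP0 : h10_IsCusp0 M q (h60_w M q hqM) P0)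
    (Sg : Finset (Place (IsLocalRing.ResidueField A)
      ↥(modularFunctionFieldFullC (IsLocalRing.ResidueField A) M)))
    (Φ : Place (IsLocalRing.ResidueField A)
        ↥(modularFunctionFieldFullC (IsLocalRing.ResidueField A) M) →
      Place (IsLocalRing.ResidueField A)
        ↥(modularFunctionFieldFullC (IsLocalRing.ResidueField A) M))
    (hΦ : Function.Injective Φ)
    (hSg : ∀ Q ∈ Sg, Q ≠ h11_placeInftyC (IsLocalRing.ResidueField A) M ∧
      Φ Q ≠ h11_placeInftyC (IsLocalRing.ResidueField A) M)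
    (hunion : ∀ a : ↥(modularFunctionFieldFullC (IsLocalRing.ResidueField A) M) ×
        ↥(modularFunctionFieldFullC (IsLocalRing.ResidueField A) M),
      (∃ n : ℕ, a ∈ h51_Rd (h87_D M q hqM A hA)
        (n • (Finsupp.single Pinf (1 : ℤ) + Finsupp.single P0 (1 : ℤ)))) ↔
      (∃ n : ℕ, a.1 ∈ h16_Linf (h11_placeInftyC (IsLocalRing.ResidueField A) M) n ∧
          a.2 ∈ h16_Linf (h11_placeInftyC (IsLocalRing.ResidueField A) M) n) ∧
        ∀ Q ∈ Sg, ∃ c : IsLocalRing.ResidueField A, h39_Val (Φ Q) a.1 c ∧ h39_Val Q a.2 c) :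
    12 * Sg.card = (q - 1) * dedekindPsi M := by
  have hq : q.Prime := Fact.out
  have hcard := h64_node_card_mod M q hqM hch A hA hPinf hP0 Sg Φ hΦ hSg hunion
  have hnum := h64_node_numerics' hq (NeZero.pos M) hqM h2 h3
  rw [← hcard] at hnum
  have hq1 : 1 ≤ q := hq.one_lt.le
  have : ((12 * Sg.card : ℕ) : ℚ) = (((q - 1) * dedekindPsi M : ℕ) : ℚ) := by
    push_cast [Nat.cast_sub hq1]
    exact hnum
  exact_mod_cast this

end Fermat.Agent.S36

end
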