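/-
S36 (HASSE package, row (U3), consumer shapes; helper65).

* `h65_noEll_of_nu` : if `M ∣ N` and `nuTwo M = 0 = nuThree M` (no roots of `x² + 1` and of
  `x² + x + 1` modulo `M`), then `Γ₀(N)` contains no conjugate of `S` or of `S T`
  (the hypothesis `hEll` of `h65_ram` / `h65_unit_u`).
* `h65_unit_u_ord` : `h65_unit_u` with the finiteness of `J` stated as `0 ≤ P.ord J`, and with
  the level hypothesis stated through `nuTwo`, `nuThree`.
-/
import Mathlib
import Fermat.Agent.S36.h65_UnitU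
import Fermat.Prelude.Def_ModularCurve_GenusNumerics

set_option autoImplicit false

open UpperHalfPlane ModularCurve CongruenceSubgroup AlgebraicCurve KaehlerDifferential
open scoped MatrixGroups

namespace Fermat.Agent.S36

open Fermat.Agent.S24 Fermat.Agent.S34 Fermat.Agent.S37 Fermat.Agent.GAL

local notation "Qb" => AlgebraicClosure ℚ

/-- Trace of a conjugate in `SL(2, ℤ)`. -/
theorem h65_trace_conj (g s : SL(2, ℤ)) :
    Matrix.trace ((g⁻¹ * s * g : SL(2, ℤ)) : Matrix (Fin 2) (Fin 2) ℤ)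
      = Matrix.trace (s : Matrix (Fin 2) (Fin 2) ℤ) := by
  have h1 : ((g⁻¹ * s * g : SL(2, ℤ)) : Matrix (Fin 2) (Fin 2) ℤ)
      = (g⁻¹ : SL(2, ℤ)).1 * (s.1 * g.1) := by
    rw [mul_assoc]; rfl
  rw [h1, Matrix.trace_mul_comm, Matrix.mul_assoc]
  have h2 : g.1 * (g⁻¹ : SL(2, ℤ)).1 = 1 := by
    show (g * g⁻¹ : SL(2, ℤ)).1 = 1
    rw [mul_inv_cancel]; rfl
  rw [h2, Matrix.mul_one]

/-- An element of `Γ₀(N)` of trace `t` gives a root of `x² - t x + 1` modulo every `M ∣ N`. -/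
theorem h65_root_of_mem_Gamma0 (N M : ℕ) (hMN : M ∣ N) (m : SL(2, ℤ)) (hm : m ∈ Gamma0 N)
    (t : ℤ) (ht : Matrix.trace (m : Matrix (Fin 2) (Fin 2) ℤ) = t) :
    ((m 0 0 : ℤ) : ZMod M) ^ 2 - (t : ZMod M) * ((m 0 0 : ℤ) : ZMod M) + 1 = 0 := by
  rw [Gamma0_mem] at hm
  have hc : ((m 1 0 : ℤ) : ZMod M) = 0 := by
    rw [ZMod.intCast_zmod_eq_zero_iff_dvd] at hm ⊢
    exact dvd_trans (Int.natCast_dvd_natCast.mpr hMN) hm
  have hdet : m 0 0 * m 1 1 - m 0 1 * m 1 0 = 1 := by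
    have := m.2
    rw [Matrix.det_fin_two] at this
    exact this
  have htr : m 0 0 + m 1 1 = t := by
    rw [← ht, Matrix.trace_fin_two]
  have hdet' : ((m 0 0 : ℤ) : ZMod M) * ((m 1 1 : ℤ) : ZMod M) = 1 := by
    have := congrArg (fun x : ℤ => (x : ZMod M)) hdet
    simp only [Int.cast_sub, Int.cast_mul, Int.cast_one, hc, mul_zero, sub_zero] at this
    exact this
  have htr' : ((m 0 0 : ℤ) : ZMod M) + ((m 1 1 : ℤ) : ZMod M) = (t : ZMod M) := by
    have := congrArg (fun x : ℤ => (x : ZMod M)) htr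
    simpa using this
  rw [← htr', ← hdet']
  ring

/-- **No elliptic elements** from the genus numerics: if `nuTwo M = 0 = nuThree M` for some
`M ∣ N`, then no conjugate of `S` or of `S T` lies in `Γ₀(N)`. -/
theorem h65_noEll_of_nu (N M : ℕ) [NeZero M] (hMN : M ∣ N)
    (h2 : nuTwo M = 0) (h3 : nuThree M = 0) :
    ∀ g : SL(2, ℤ), g⁻¹ * ModularGroup.S * g ∉ Gamma0 N ∧
      g⁻¹ * (ModularGroup.S * ModularGroup.T) * g ∉ Gamma0 N := by
  intro g
  constructor
  · intro hm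
    have hroot := h65_root_of_mem_Gamma0 N M hMN _ hm 0
      (by rw [h65_trace_conj]; simp [ModularGroup.S, Matrix.trace_fin_two])
    have hne : Nonempty {x : ZMod M // x ^ 2 + 1 = 0} :=
      ⟨⟨_, by simpa using hroot⟩⟩
    have : 0 < nuTwo M := by
      unfold nuTwo
      exact Nat.card_pos
    omega
  · intro hm
    have hroot := h65_root_of_mem_Gamma0 N M hMN _ hm 1
      (by
        rw [h65_trace_conj]
        simp [ModularGroup.S, ModularGroup.T, Matrix.trace_fin_two])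
    have hne : Nonempty {x : ZMod M // x ^ 2 + x + 1 = 0} :=
      ⟨⟨-_, by
        have h := hroot
        simp only [Int.cast_one, one_mul] at h
        rw [← h]; ring⟩⟩
    have : 0 < nuThree M := by
      unfold nuThree
      exact Nat.card_pos
    omega

variable (M q : ℕ) [NeZero M] [NeZero q] [Fact q.Prime] (hqM : ¬ q ∣ M)

/-- **(U3)**, consumer shape: at a level `M q` with `nuTwo M = 0 = nuThree M`, for every `ρ`
with `d(w J) = ρ dJ`, the function `ρ⁶ J⁴ (J - 1728)³ / ((w J)⁴ (w J - 1728)³)` has order `0`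
at every place `P` with `0 ≤ ord_P J`. -/
theorem h65_unit_u_ord (h2 : nuTwo M = 0) (h3 : nuThree M = 0)
    (ρ : ↥(modularFunctionFieldBar (M * q)))
    (hρ : D Qb ↥(modularFunctionFieldBar (M * q)) (h60_w M q hqM (h59_jbar (M * q)))
      = ρ • D Qb ↥(modularFunctionFieldBar (M * q)) (h59_jbar (M * q)))
    (P : Place Qb ↥(modularFunctionFieldBar (M * q)))
    (hP : 0 ≤ P.ord (h59_jbar (M * q))) :
    P.ord (ρ ^ 6 * (h59_jbar (M * q) ^ 4 * (h59_jbar (M * q) - 1728) ^ 3) /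
      (h60_w M q hqM (h59_jbar (M * q)) ^ 4 *
        (h60_w M q hqM (h59_jbar (M * q)) - 1728) ^ 3)) = 0 :=
  h65_unit_u M q hqM (h65_noEll_of_nu (M * q) M (Dvd.intro _ rfl) h2 h3) ρ hρ P
    (h73_mem_of_ord_nonneg P hP)

/-- The inverse of the modular unit is regular where `J` is finite as well. -/
theorem h65_unit_u_inv_ord (h2 : nuTwo M = 0) (h3 : nuThree M = 0)
    (ρ : ↥(modularFunctionFieldBar (M * q)))
    (hρ : D Qb ↥(modularFunctionFieldBar (M * q)) (h60_w M q hqM (h59_jbar (M * q)))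
      = ρ • D Qb ↥(modularFunctionFieldBar (M * q)) (h59_jbar (M * q)))
    (P : Place Qb ↥(modularFunctionFieldBar (M * q)))
    (hP : 0 ≤ P.ord (h59_jbar (M * q))) :
    P.ord ((ρ ^ 6 * (h59_jbar (M * q) ^ 4 * (h59_jbar (M * q) - 1728) ^ 3) /
      (h60_w M q hqM (h59_jbar (M * q)) ^ 4 *
        (h60_w M q hqM (h59_jbar (M * q)) - 1728) ^ 3))⁻¹) = 0 := by
  rw [Place.ord_inv, h65_unit_u_ord M q hqM h2 h3 ρ hρ P hP, neg_zero]

end Fermat.Agent.S36
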