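import Mathlib
import Fermat.Agent.S18.GR_RedAPI
import Fermat.Agent.S18.GR_ChartPt
import Fermat.Agent.S24.h35_PlaceBasic
import Fermat.Agent.S34.h51_Glue
import Fermat.Agent.S34.h16_NodeChart

/-!
# S36 (HASSE) package, row (COUNT), generic part (helper81)

Setting: two reduction data `R₁ R₂ : h39_RedDatum K F k Fb` of a function field `F/K` with the
same residue function field `Fb/k` (the two components of the special fibre), a subring `B ⊆ F`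
("functions regular off the cusps"), a finite set `T` of places of `Fb` ("cusps of the special
fibre"), a constant `π` (the uniformiser `q`) and a function `u ∈ B ∩ O₁` with `π ^ 12 u ∈ O₂`
(the modular unit `Δ(qτ)/Δ(τ)`), `W := red₁ u`.

* `h81_count_core` : the degree count: if `W` has zeros of total order `≥ C` on `T`, poles of
  order `≤ e` on a finite set `N`, no other poles, and `e · #N ≤ C`, then `ord_P W = -e` on `N`
  and `W` is a unit off `T ∪ N`;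
* `h81_pow_absorb` : rank one: a power of an element of the maximal ideal absorbs any element;
* `h81_ord_bound` : `g ^ n u ∈ B ∩ O₁ ∩ O₂ ⟹ n ord_P(red₁ g) + ord_P(W) ≥ 0` off `T`;
* `h81_ord_ge_zero`, `h81_ord_ge_neg` : the two pole bounds (W1), (W2) for `W`.
-/

set_option autoImplicit false

noncomputable section

open AlgebraicCurve

namespace Fermat.Agent.S36

open Fermat.Agent.S18 Fermat.Agent.S24 Fermat.Agent.S34

variable {K F k Fb : Type*} [Field K] [Field F] [Algebra K F] [Field k] [Field Fb] [Algebra k Fb]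

/-! ### The degree count -/

/-- **The count.**  If `W` has zeros of total order `≥ C` on `T`, poles of order `≤ e` on `N`,
no other poles, `#N ≤ M` and `e M ≤ C`, then `#N = M`, `ord_P W = -e` on `N`, and `W` is a unit
off `T ∪ N`. -/
theorem h81_count_core [HasPrincipalDivisors k Fb] (hdeg1 : ∀ P : Place k Fb, P.deg = 1)
    {W : Fb} (hW : W ≠ 0) (T N : Finset (Place k Fb)) (hTN : Disjoint T N) (e C : ℤ) (M : ℕ)
    (he : 0 < e) (hNM : N.card ≤ M)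
    (hT : C ≤ ∑ P ∈ T, P.ord W) (hN : ∀ P ∈ N, -e ≤ P.ord W)
    (hrest : ∀ P : Place k Fb, P ∉ T → P ∉ N → 0 ≤ P.ord W) (hcnt : e * (M : ℤ) ≤ C) :
    N.card = M ∧ (∀ P ∈ N, P.ord W = -e) ∧
      (∀ P : Place k Fb, P ∉ T → P ∉ N → P.ord W = 0) ∧ ∑ P ∈ T, P.ord W = C := by
  classical
  obtain ⟨D, hD, hdeg⟩ := HasPrincipalDivisors.exists_divisor (K := k) (F := Fb) W hW
  set U : Finset (Place k Fb) := D.support ∪ (T ∪ N) with hU
  have hsumU : ∑ v ∈ U, v.ord W = 0 := by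
    have h1 : Divisor.degree D = ∑ v ∈ D.support, v.ord W := by
      unfold Divisor.degree
      rw [Finsupp.liftAddHom_apply, Finsupp.sum]
      refine Finset.sum_congr rfl fun v _ => ?_
      rw [AddMonoidHom.mulRight_apply, hdeg1 v, hD v]
      simp
    rw [← hdeg, h1]
    symm
    refine Finset.sum_subset Finset.subset_union_left fun v _ hv => ?_
    rw [← hD v]
    exact Finsupp.notMem_support_iff.mp hv
  have hsub : T ∪ N ⊆ U := Finset.subset_union_right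
  have hsplit : ∑ v ∈ U, v.ord W =
      ∑ v ∈ U \ (T ∪ N), v.ord W + (∑ v ∈ T, v.ord W + ∑ v ∈ N, v.ord W) := by
    rw [← Finset.sum_union hTN, Finset.sum_sdiff hsub]
  have hR : ∀ v ∈ U \ (T ∪ N), 0 ≤ v.ord W := by
    intro v hv
    have hv2 := (Finset.mem_sdiff.mp hv).2
    rw [Finset.mem_union, not_or] at hv2
    exact hrest v hv2.1 hv2.2
  have hN' : ∀ v ∈ N, 0 ≤ v.ord W + e := fun v hv => by linarith [hN v hv]
  have hNsum : ∑ v ∈ N, (v.ord W + e) = ∑ v ∈ N, v.ord W + e * N.card := by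
    rw [Finset.sum_add_distrib, Finset.sum_const, nsmul_eq_mul, mul_comm]
  have hR0 := Finset.sum_nonneg hR
  have hN0 := Finset.sum_nonneg hN'
  have hNM' : (N.card : ℤ) ≤ (M : ℤ) := by exact_mod_cast hNM
  have hdiff : 0 ≤ e * ((M : ℤ) - N.card) := mul_nonneg he.le (by linarith)
  have hdz : e * ((M : ℤ) - N.card) = 0 := by nlinarith
  have hMN : (M : ℤ) - N.card = 0 := by
    rcases mul_eq_zero.mp hdz with h | h
    · exact absurd h he.ne'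
    · exact h
  have hRz : ∑ v ∈ U \ (T ∪ N), v.ord W = 0 := by nlinarith
  have hNz : ∑ v ∈ N, (v.ord W + e) = 0 := by nlinarith
  refine ⟨by omega, fun P hP => ?_, fun P hPT hPN => ?_, by nlinarith⟩
  · have := (Finset.sum_eq_zero_iff_of_nonneg hN').mp hNz P hP
    linarith
  · by_cases hPU : P ∈ U
    · exact (Finset.sum_eq_zero_iff_of_nonneg hR).mp hRz P
        (Finset.mem_sdiff.mpr ⟨hPU, by rw [Finset.mem_union, not_or]; exact ⟨hPT, hPN⟩⟩)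
    · have : P ∉ D.support := fun h => hPU (Finset.mem_union_left _ h)
      rw [← hD P]
      exact Finsupp.notMem_support_iff.mp this

/-! ### Rank one -/

/-- A power of an element of the maximal ideal of `O` absorbs any nonzero element. -/
theorem h81_pow_absorb (R : h39_RedDatum K F k Fb) (hrank : h39_RankOne R.A) {g y : F}
    (hg : g ∈ R.O) (hg0 : R.redF g = 0) (hy : y ≠ 0) : ∃ n : ℕ, g ^ n * y ∈ R.O := by
  obtain ⟨c, g', hcA, hc0, hg', rfl⟩ := h39_exists_factor_of_redF_eq_zero R hg hg0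
  obtain ⟨d, hd0, hdy, -⟩ := R.exists_scale y hy
  rcases (h39_resK_eq_zero_iff R hcA).mp hc0 with rfl | hcinv
  · refine ⟨1, ?_⟩
    rw [map_zero, zero_mul, pow_one, zero_mul]
    exact R.O.zero_mem
  · obtain ⟨n, hn⟩ := hrank c hcA hcinv d hd0
    refine ⟨n, ?_⟩
    have hdF : algebraMap K F d ≠ 0 := by
      rw [Ne, map_eq_zero]
      exact hd0
    have e1 : (algebraMap K F c * g') ^ n * y =
        algebraMap K F (c ^ n * d⁻¹) * (g' ^ n * (algebraMap K F d * y)) := by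
      rw [map_mul, map_pow, map_inv₀, mul_pow]
      field_simp
    rw [e1]
    exact R.O.mul_mem _ _ ((R.mem_iff _).mp hn) (R.O.mul_mem _ _ (R.O.pow_mem hg' n) hdy)

/-! ### The pole bounds -/

section Bound

variable (R₁ R₂ : h39_RedDatum K F k Fb) (B : Subring F) (T : Finset (Place k Fb))
  (hint : ∀ x : F, x ∈ B → x ∈ R₁.O → x ∈ R₂.O → ∀ P : Place k Fb, P ∉ T →
    R₁.redF x ∈ P.toValuationSubring)

include hint in
/-- `g ^ n u ∈ B ∩ O₁ ∩ O₂ ⟹ n ord_P(red₁ g) + ord_P(red₁ u) ≥ 0` for `P ∉ T`. -/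
theorem h81_ord_bound {u : F} (huB : u ∈ B) (hu1 : u ∈ R₁.O) (hW : R₁.redF u ≠ 0)
    {g : F} (hgB : g ∈ B) (hg1 : g ∈ R₁.O) (hg0 : R₁.redF g ≠ 0) (n : ℕ)
    (hgu : g ^ n * u ∈ R₂.O) (P : Place k Fb) (hP : P ∉ T) :
    0 ≤ (n : ℤ) * P.ord (R₁.redF g) + P.ord (R₁.redF u) := by
  have h1 := hint (g ^ n * u) (B.mul_mem (B.pow_mem hgB n) huB)
    (R₁.O.mul_mem _ _ (R₁.O.pow_mem hg1 n) hu1) hgu P hP
  rw [h39_redF_mul R₁ (R₁.O.pow_mem hg1 n) hu1, h39_redF_pow R₁ hg1] at h1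
  have h2 := h35_ord_nonneg_of_mem P h1
  rwa [P.ord_mul (pow_ne_zero n hg0) hW, ← zpow_natCast, P.ord_zpow] at h2

include hint in
/-- **(W1)**: a separator `g ∈ B ∩ O₁ ∩ 𝔪₂` whose first reduction is a unit at `P ∉ T` shows
that `W = red₁ u` is regular at `P`. -/
theorem h81_ord_ge_zero (hrank : h39_RankOne R₂.A) {u : F} (huB : u ∈ B) (hu1 : u ∈ R₁.O)
    (hW : R₁.redF u ≠ 0) {g : F} (hgB : g ∈ B) (hg1 : g ∈ R₁.O) (hg2 : g ∈ R₂.O)
    (hg20 : R₂.redF g = 0) (P : Place k Fb) (hP : P ∉ T) (hgP : P.ord (R₁.redF g) = 0)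
    (hg0 : R₁.redF g ≠ 0) : 0 ≤ P.ord (R₁.redF u) := by
  have hu0 : u ≠ 0 := by
    rintro rfl
    exact hW (h39_redF_zero R₁)
  obtain ⟨n, hn⟩ := h81_pow_absorb R₂ hrank hg2 hg20 hu0
  have := h81_ord_bound R₁ R₂ B T hint huB hu1 hW hgB hg1 hg0 n hn P hP
  rwa [hgP, mul_zero, zero_add] at this

include hint in
/-- **(W2)**, general form: if `π⁻ʲ g ∈ O₂`, `π ^ e u ∈ O₂` and `e ≤ n j`, then
`n ord_P(red₁ g) + ord_P(W) ≥ 0` for `P ∉ T`. -/
theorem h81_ord_ge_neg {π : K} (hπ0 : π ≠ 0) (hπ2 : π ∈ R₂.A) {u : F} (huB : u ∈ B)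
    (hu1 : u ∈ R₁.O) (hW : R₁.redF u ≠ 0) (e : ℕ) (hu2 : algebraMap K F π ^ e * u ∈ R₂.O)
    {g : F} (hgB : g ∈ B) (hg1 : g ∈ R₁.O) (hg0 : R₁.redF g ≠ 0) (j n : ℕ) (hnj : e ≤ n * j)
    (hgj : (algebraMap K F π)⁻¹ ^ j * g ∈ R₂.O) (P : Place k Fb) (hP : P ∉ T) :
    0 ≤ (n : ℤ) * P.ord (R₁.redF g) + P.ord (R₁.redF u) := by
  have hπF : algebraMap K F π ≠ 0 := by
    rw [Ne, map_eq_zero]
    exact hπ0
  have hπO : algebraMap K F π ∈ R₂.O := (R₂.mem_iff π).mp hπ2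
  have hgu : g ^ n * u ∈ R₂.O := by
    have e1 : g ^ n * u = ((algebraMap K F π)⁻¹ ^ j * g) ^ n *
        (algebraMap K F π ^ (n * j - e) * (algebraMap K F π ^ e * u)) := by
      rw [mul_pow, ← pow_mul, ← mul_assoc (algebraMap K F π ^ (n * j - e)), ← pow_add,
        Nat.sub_add_cancel hnj, inv_pow, mul_comm j n]
      field_simp
    rw [e1]
    exact R₂.O.mul_mem _ _ (R₂.O.pow_mem hgj n) (R₂.O.mul_mem _ _ (R₂.O.pow_mem hπO _) hu2)
  exact h81_ord_bound R₁ R₂ B T hint huB hu1 hW hgB hg1 hg0 n hgu P hP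

end Bound

/-! ### Values, zeros and `L(n Q∞)` -/

section Aux

/-- At a place of degree one a regular function takes a value. -/
theorem h81_exists_val (P : Place k Fb) (hdeg : P.deg = 1) {a : Fb}
    (ha : a ∈ P.toValuationSubring) : ∃ c : k, h39_Val P a c := by
  have h1 : Module.finrank k P.ResidueField = 1 := hdeg
  have hne : (1 : P.ResidueField) ≠ 0 := one_ne_zero
  obtain ⟨c, hc⟩ := (finrank_eq_one_iff_of_nonzero' (1 : P.ResidueField) hne).1 h1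
    (IsLocalRing.residue P.toValuationSubring ⟨a, ha⟩)
  refine ⟨c, (h64_val_iff_residue P ha c).mpr ?_⟩
  rw [← hc, Algebra.smul_def, mul_one]

theorem h81_val_pow (P : Place k Fb) {a : Fb} {c : k} (h : h39_Val P a c) (n : ℕ) :
    h39_Val P (a ^ n) (c ^ n) := by
  induction n with
  | zero =>
    rw [pow_zero, pow_zero]
    have := h39_val_algebraMap P (1 : k)
    rwa [map_one] at this
  | succ n ih =>
    rw [pow_succ, pow_succ]
    exact h39_val_mul P ih h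

theorem h81_val_zero_right (P : Place k Fb) {c : k} (h : h39_Val P (0 : Fb) c) : c = 0 := by
  have h0 : h39_Val P (0 : Fb) (0 : k) := by
    have := h39_val_algebraMap P (0 : k)
    rwa [map_zero] at this
  exact h39_val_unique P h h0

theorem h81_ne_zero_of_val (P : Place k Fb) {a : Fb} {c : k} (h : h39_Val P a c) (hc : c ≠ 0) :
    a ≠ 0 := by
  rintro rfl
  exact hc (h81_val_zero_right P h)

theorem h81_ord_pos_of_val_zero (P : Place k Fb) {a : Fb} (h : h39_Val P a 0) (ha : a ≠ 0) :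
    0 < P.ord a := by
  rcases (h39_val_zero_iff P).mp h with h | h
  · exact absurd h ha
  · exact h

theorem h81_val_zero_of_ord_pos (P : Place k Fb) {a : Fb} (h : 0 < P.ord a) : h39_Val P a 0 :=
  (h39_val_zero_iff P).mpr (Or.inr h)

/-- The zeros and poles of a nonzero function form a finite set. -/
theorem h81_exists_support [HasPrincipalDivisors k Fb] {y : Fb} (hy : y ≠ 0) :
    ∃ Z : Finset (Place k Fb), ∀ P : Place k Fb, P ∉ Z → P.ord y = 0 := by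
  obtain ⟨D, hD, -⟩ := HasPrincipalDivisors.exists_divisor (K := k) (F := Fb) y hy
  refine ⟨D.support, fun P hP => ?_⟩
  rw [← hD P]
  exact Finsupp.notMem_support_iff.mp hP

theorem h81_Linf_mul {Q : Place k Fb} {n m : ℕ} {a b : Fb} (ha : a ∈ h16_Linf Q n)
    (hb : b ∈ h16_Linf Q m) : a * b ∈ h16_Linf Q (n + m) := by
  unfold h16_Linf at ha hb ⊢
  rw [add_smul]
  exact h51_mul_mem_rr ha hb

theorem h81_Linf_pow {Q : Place k Fb} {n : ℕ} {a : Fb} (ha : a ∈ h16_Linf Q n) (M : ℕ) :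
    a ^ M ∈ h16_Linf Q (M * n) := by
  induction M with
  | zero =>
    rw [pow_zero, zero_mul, h16_mem_Linf]
    right
    refine ⟨fun P _ => ?_, ?_⟩
    · rw [Place.ord_one]
    · rw [Place.ord_one]
      simp
  | succ M ih =>
    rw [pow_succ, Nat.succ_mul]
    exact h81_Linf_mul ih ha

theorem h81_Linf_of_reg (Q : Place k Fb) {a : Fb} (h : ∀ P : Place k Fb, P ≠ Q → 0 ≤ P.ord a) :
    ∃ n : ℕ, a ∈ h16_Linf Q n := by
  refine ⟨(-Q.ord a).toNat, ?_⟩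
  rw [h16_mem_Linf]
  right
  refine ⟨h, ?_⟩
  have := Int.self_le_toNat (-Q.ord a)
  linarith

theorem h81_Linf_ord_nonneg {Q : Place k Fb} {n : ℕ} {a : Fb} (ha : a ∈ h16_Linf Q n)
    (P : Place k Fb) (hP : P ≠ Q) : 0 ≤ P.ord a := by
  rcases h16_mem_Linf.mp ha with rfl | ⟨h, -⟩
  · rw [Place.ord_zero]
  · exact h P hP

end Aux

/-! ### Separators in `Fb` from value interpolation -/

section Interp

variable [HasPrincipalDivisors k Fb] (Qinf : Place k Fb)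
  (hV : ∀ (Z : Finset (Place k Fb)) (c : Place k Fb → k), (∀ Q ∈ Z, Q ≠ Qinf) →
    ∃ n : ℕ, ∃ a ∈ h16_Linf Qinf n, ∀ Q ∈ Z, h39_Val Q a (c Q))

include hV in
/-- A function regular off `Q∞` with value `1` at `P1` and vanishing to order
`≥ L + |ord_Q y|` at every other finite zero or pole `Q` of `y` and at every point of `Z`. -/
theorem h81_clear {y : Fb} (hy : y ≠ 0) (Z : Finset (Place k Fb)) {P1 : Place k Fb}
    (hP1 : P1 ≠ Qinf) (L : ℕ) :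
    ∃ n : ℕ, ∃ s ∈ h16_Linf Qinf n, h39_Val P1 s 1 ∧
      ∀ Q : Place k Fb, Q ≠ Qinf → Q ≠ P1 → (Q ∈ Z ∨ Q.ord y ≠ 0) →
        (L : ℤ) + |Q.ord y| ≤ Q.ord s := by
  classical
  obtain ⟨Zy, hZy⟩ := h81_exists_support (k := k) hy
  set Z' : Finset (Place k Fb) := ((Zy ∪ Z).erase P1).erase Qinf with hZ'
  obtain ⟨n0, e, he, hev⟩ := hV (insert P1 Z') (fun Q => if Q = P1 then 1 else 0) (by
    intro Q hQ
    rcases Finset.mem_insert.mp hQ with rfl | h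
    · exact hP1
    · exact Finset.ne_of_mem_erase h)
  have he1 : h39_Val P1 e 1 := by
    have := hev P1 (Finset.mem_insert_self _ _)
    rwa [if_pos rfl] at this
  have he0 : e ≠ 0 := h81_ne_zero_of_val P1 he1 one_ne_zero
  refine ⟨(L + ∑ Q ∈ Z', (Q.ord y).natAbs) * n0, e ^ (L + ∑ Q ∈ Z', (Q.ord y).natAbs),
    h81_Linf_pow he _, ?_, ?_⟩
  · have := h81_val_pow P1 he1 (L + ∑ Q ∈ Z', (Q.ord y).natAbs)
    rwa [one_pow] at this
  · intro Q hQinf hQP1 hQ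
    have hQZ' : Q ∈ Z' := by
      refine Finset.mem_erase.mpr ⟨hQinf, Finset.mem_erase.mpr ⟨hQP1, Finset.mem_union.mpr ?_⟩⟩
      rcases hQ with h | h
      · exact Or.inr h
      · left
        by_contra hc
        exact h (hZy Q hc)
    have hval : h39_Val Q e 0 := by
      have := hev Q (Finset.mem_insert_of_mem hQZ')
      rwa [if_neg hQP1] at this
    have hpos := h81_ord_pos_of_val_zero Q hval he0
    rw [← zpow_natCast, Q.ord_zpow]
    have h1 : (Q.ord y).natAbs ≤ ∑ Q ∈ Z', (Q.ord y).natAbs :=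
      Finset.single_le_sum (f := fun Q : Place k Fb => (Q.ord y).natAbs)
        (fun _ _ => Nat.zero_le _) hQZ'
    have h2 : ((Q.ord y).natAbs : ℤ) = |Q.ord y| := Int.natCast_natAbs _
    have hM : (L : ℤ) + |Q.ord y| ≤ ((L + ∑ Q ∈ Z', (Q.ord y).natAbs : ℕ) : ℤ) := by
      rw [← h2]
      exact_mod_cast Nat.add_le_add_left h1 L
    calc (L : ℤ) + |Q.ord y| ≤ ((L + ∑ Q ∈ Z', (Q.ord y).natAbs : ℕ) : ℤ) := hM
      _ = ((L + ∑ Q ∈ Z', (Q.ord y).natAbs : ℕ) : ℤ) * 1 := (mul_one _).symm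
      _ ≤ ((L + ∑ Q ∈ Z', (Q.ord y).natAbs : ℕ) : ℤ) * Q.ord e :=
        mul_le_mul_of_nonneg_left hpos (Int.natCast_nonneg _)

include hV in
/-- A function regular off `Q∞` with a simple zero at `P1` and zeros on `Z \ {P1}`. -/
theorem h81_exists_simple (Z : Finset (Place k Fb)) (hZ : ∀ Q ∈ Z, Q ≠ Qinf) {P1 : Place k Fb}
    (hP1 : P1 ≠ Qinf) :
    ∃ n : ℕ, ∃ t ∈ h16_Linf Qinf n, P1.ord t = 1 ∧ ∀ Q ∈ Z, Q ≠ P1 → 0 < Q.ord t := by
  obtain ⟨ϖ, hϖ⟩ := IsDiscreteValuationRing.exists_irreducible P1.toValuationSubring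
  have hy1 : P1.ord (ϖ : Fb) = 1 := P1.ord_coe_irreducible hϖ
  have hy0 : (ϖ : Fb) ≠ 0 := by
    intro h0
    rw [h0, Place.ord_zero] at hy1
    exact zero_ne_one hy1
  obtain ⟨n, s, hs, hs1, hsQ⟩ := h81_clear Qinf hV hy0 Z hP1 1
  have hs0 : s ≠ 0 := h81_ne_zero_of_val P1 hs1 one_ne_zero
  have hsP1 : P1.ord s = 0 := h39_ord_eq_zero_of_val P1 hs1 one_ne_zero
  have hord : ∀ P : Place k Fb, P.ord (s * (ϖ : Fb)) = P.ord s + P.ord (ϖ : Fb) :=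
    fun P => P.ord_mul hs0 hy0
  have hreg : ∀ P : Place k Fb, P ≠ Qinf → 0 ≤ P.ord (s * (ϖ : Fb)) := by
    intro P hP
    rw [hord P]
    by_cases hPP1 : P = P1
    · rw [hPP1, hsP1, hy1]
      norm_num
    · by_cases h0 : P.ord (ϖ : Fb) = 0
      · rw [h0, add_zero]
        exact h81_Linf_ord_nonneg hs P hP
      · have := hsQ P hP hPP1 (Or.inr h0)
        have h3 := neg_abs_le (P.ord (ϖ : Fb))
        push_cast at this
        linarith
  obtain ⟨n', hn'⟩ := h81_Linf_of_reg Qinf hreg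
  refine ⟨n', s * (ϖ : Fb), hn', ?_, fun Q hQ hQP1 => ?_⟩
  · rw [hord P1, hsP1, hy1, zero_add]
  · rw [hord Q]
    have := hsQ Q (hZ Q hQ) hQP1 (Or.inl hQ)
    have h3 := neg_abs_le (Q.ord (ϖ : Fb))
    push_cast at this
    linarith

end Interp

/-! ### The quotient lemma -/

/-- If `t` has a simple zero at `P1`, `z` vanishes at `P1`, and `s` kills the other finite zeros
of `t` (and the points of `Z`), then `a = s z / t` is regular off `Q∞` and vanishes on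
`Z \ {P1}`. -/
theorem h81_quot (Qinf : Place k Fb) {P1 : Place k Fb} {t s z : Fb} {ns nz : ℕ}
    (ht0 : t ≠ 0) (ht1 : P1.ord t = 1)
    (hs : s ∈ h16_Linf Qinf ns) (hs1 : h39_Val P1 s 1) (Z : Finset (Place k Fb)) (L : ℕ)
    (hL : 1 ≤ L)
    (hsQ : ∀ Q : Place k Fb, Q ≠ Qinf → Q ≠ P1 → (Q ∈ Z ∨ Q.ord t ≠ 0) →
      (L : ℤ) + |Q.ord t| ≤ Q.ord s)
    (hz : z ∈ h16_Linf Qinf nz) (hz1 : h39_Val P1 z 0) :
    (∀ P : Place k Fb, P ≠ Qinf → 0 ≤ P.ord (s * z / t)) ∧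
      (∀ Q ∈ Z, Q ≠ Qinf → Q ≠ P1 → h39_Val Q (s * z / t) 0) ∧ t * (s * z / t) = s * z := by
  have hs0 : s ≠ 0 := h81_ne_zero_of_val P1 hs1 one_ne_zero
  have hsP1 : P1.ord s = 0 := h39_ord_eq_zero_of_val P1 hs1 one_ne_zero
  have hL' : (1 : ℤ) ≤ (L : ℤ) := by exact_mod_cast hL
  refine ⟨?_, ?_, by field_simp⟩
  · intro P hP
    by_cases hz0 : z = 0
    · rw [hz0, mul_zero, zero_div, Place.ord_zero]
    · have hord : P.ord (s * z / t) = P.ord s + P.ord z - P.ord t := by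
        rw [div_eq_mul_inv, P.ord_mul (mul_ne_zero hs0 hz0) (inv_ne_zero ht0), P.ord_mul hs0 hz0,
          P.ord_inv]
        ring
      rw [hord]
      have hzP := h81_Linf_ord_nonneg hz P hP
      by_cases hPP1 : P = P1
      · have := h81_ord_pos_of_val_zero P1 hz1 hz0
        rw [hPP1, hsP1, ht1]
        linarith
      · by_cases h0 : P.ord t = 0
        · rw [h0, sub_zero]
          exact add_nonneg (h81_Linf_ord_nonneg hs P hP) hzP
        · have h1 := hsQ P hP hPP1 (Or.inr h0)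
          have h2 := le_abs_self (P.ord t)
          linarith
  · intro Q hQ hQinf hQP1
    by_cases hz0 : z = 0
    · rw [hz0, mul_zero, zero_div]
      exact (h39_val_zero_iff Q).mpr (Or.inl rfl)
    · apply h81_val_zero_of_ord_pos
      have hord : Q.ord (s * z / t) = Q.ord s + Q.ord z - Q.ord t := by
        rw [div_eq_mul_inv, Q.ord_mul (mul_ne_zero hs0 hz0) (inv_ne_zero ht0), Q.ord_mul hs0 hz0,
          Q.ord_inv]
        ring
      rw [hord]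
      have hzQ := h81_Linf_ord_nonneg hz Q hQinf
      have h1 := hsQ Q hQinf hQP1 (Or.inl hQ)
      have h2 := le_abs_self (Q.ord t)
      linarith

/-! ### The hypotheses of the row and the main theorems -/

/-- **The hypotheses of the (COUNT) row.**  `R₁`, `R₂` are the two reductions, `D` the lattice
`O₁ ∩ O₂`, `D0` the polar divisor, `Qinf` the cusp of the special fibre, `Sg`/`Φ` the nodes,
`B` the functions regular off the cusps, `F0` the `K₀`-rational functions, `T` the cusps of the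
special fibre, `π` the uniformiser, `u` the modular unit and `C` the count. -/
structure h81_CountHyp (R₁ R₂ : h39_RedDatum K F k Fb) (D : h22_Lat K F k (Fb × Fb))
    (D0 : Divisor K F) (Qinf : Place k Fb) (Sg : Finset (Place k Fb))
    (Φ : Place k Fb → Place k Fb) (B F0 : Subring F) (T : Finset (Place k Fb)) (π : K) (u : F)
    (C : ℤ) : Prop where
  hDO : ∀ f : F, f ∈ D.O ↔ f ∈ R₁.O ∧ f ∈ R₂.O
  hDred : ∀ f : F, f ∈ D.O → D.redF f = (R₁.redF f, R₂.redF f)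
  hrank : h39_RankOne R₂.A
  hπ0 : π ≠ 0
  hπ1 : π ∈ R₁.A
  hπ1' : R₁.resK π = 0
  hπ2 : π ∈ R₂.A
  hπ2' : R₂.resK π = 0
  hπB : algebraMap K F π ∈ B
  hLB : ∀ (n : ℕ) (f : F), f ∈ riemannRochSpace (n • D0) → f ∈ B
  huB : u ∈ B
  hu1 : u ∈ R₁.O
  hW : R₁.redF u ≠ 0
  hu2 : algebraMap K F π ^ 12 * u ∈ R₂.O
  hint : ∀ x : F, x ∈ B → x ∈ R₁.O → x ∈ R₂.O → ∀ P : Place k Fb, P ∉ T →
    R₁.redF x ∈ P.toValuationSubring
  hQT : Qinf ∈ T
  hSg : ∀ Q ∈ Sg, Q ≠ Qinf ∧ Φ Q ≠ Qinf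
  hΦ : Function.Injective Φ
  hunion : ∀ a : Fb × Fb, (∃ n : ℕ, a ∈ h51_Rd D (n • D0)) ↔
    (∃ n : ℕ, a.1 ∈ h16_Linf Qinf n ∧ a.2 ∈ h16_Linf Qinf n) ∧
      ∀ Q ∈ Sg, ∃ c : k, h39_Val (Φ Q) a.1 c ∧ h39_Val Q a.2 c
  hπF0 : (algebraMap K F π)⁻¹ ∈ F0
  hrat : ∀ (n : ℕ) (a : Fb × Fb), a ∈ h51_Rd D (n • D0) →
    ∃ g : F, g ∈ F0 ∧ g ∈ riemannRochSpace (n • D0) ∧ g ∈ D.O ∧ D.redF g = a
  hdisc1 : ∀ g : F, g ∈ F0 → g ∈ R₁.O → R₁.redF g = 0 → (algebraMap K F π)⁻¹ * g ∈ R₁.O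
  hdisc2 : ∀ g : F, g ∈ F0 → g ∈ R₂.O → R₂.redF g = 0 → (algebraMap K F π)⁻¹ * g ∈ R₂.O
  hV : ∀ (Z : Finset (Place k Fb)) (c : Place k Fb → k), (∀ Q ∈ Z, Q ≠ Qinf) →
    ∃ n : ℕ, ∃ a ∈ h16_Linf Qinf n, ∀ Q ∈ Z, h39_Val Q a (c Q)
  hdeg1 : ∀ P : Place k Fb, P.deg = 1
  hcusp : C ≤ ∑ P ∈ T, P.ord (R₁.redF u)
  hcnt : 12 * (Sg.card : ℤ) ≤ C

section Main

variable {R₁ R₂ : h39_RedDatum K F k Fb} {D : h22_Lat K F k (Fb × Fb)} {D0 : Divisor K F}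
  {Qinf : Place k Fb} {Sg : Finset (Place k Fb)} {Φ : Place k Fb → Place k Fb} {B F0 : Subring F}
  {T : Finset (Place k Fb)} {π : K} {u : F} {C : ℤ}

/-- An element of `L(n D0) ∩ O` reduces to a pair regular off `Q∞` and glued at the nodes. -/
theorem h81_CountHyp.node (H : h81_CountHyp R₁ R₂ D D0 Qinf Sg Φ B F0 T π u C) {g : F} {n : ℕ}
    (hgL : g ∈ riemannRochSpace (n • D0)) (hg1 : g ∈ R₁.O) (hg2 : g ∈ R₂.O) :
    (∃ m : ℕ, R₁.redF g ∈ h16_Linf Qinf m ∧ R₂.redF g ∈ h16_Linf Qinf m) ∧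
      ∀ Q ∈ Sg, ∃ c : k, h39_Val (Φ Q) (R₁.redF g) c ∧ h39_Val Q (R₂.redF g) c := by
  have hgO : g ∈ D.O := (H.hDO g).mpr ⟨hg1, hg2⟩
  have h := (H.hunion (D.redF g)).mp ⟨n, g, hgL, hgO, rfl⟩
  rwa [H.hDred g hgO] at h

/-- A glued pair regular off `Q∞` lifts to a `K₀`-rational element of `L(n D0) ∩ O`. -/
theorem h81_CountHyp.lift (H : h81_CountHyp R₁ R₂ D D0 Qinf Sg Φ B F0 T π u C) {a1 a2 : Fb}
    {n1 n2 : ℕ} (h1 : a1 ∈ h16_Linf Qinf n1) (h2 : a2 ∈ h16_Linf Qinf n2)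
    (hnode : ∀ Q ∈ Sg, ∃ c : k, h39_Val (Φ Q) a1 c ∧ h39_Val Q a2 c) :
    ∃ (n : ℕ) (g : F), g ∈ F0 ∧ g ∈ riemannRochSpace (n • D0) ∧ g ∈ B ∧ g ∈ R₁.O ∧ g ∈ R₂.O ∧
      R₁.redF g = a1 ∧ R₂.redF g = a2 := by
  obtain ⟨n, ha⟩ := (H.hunion (a1, a2)).mpr
    ⟨⟨max n1 n2, h16_Linf_mono Qinf (le_max_left n1 n2) h1,
      h16_Linf_mono Qinf (le_max_right n1 n2) h2⟩, hnode⟩
  obtain ⟨g, hg0, hgL, hgO, hgr⟩ := H.hrat n (a1, a2) ha
  obtain ⟨hg1, hg2⟩ := (H.hDO g).mp hgO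
  rw [H.hDred g hgO] at hgr
  exact ⟨n, g, hg0, hgL, H.hLB n g hgL, hg1, hg2, (Prod.ext_iff.mp hgr).1, (Prod.ext_iff.mp hgr).2⟩

/-- **(COUNT) (1)**: the node points `Φ S` are not in `T` (a theorem of the count, not an
input), `W = red₁ u` has a pole of order exactly `12` at every node point `Φ S`, and `W` is a
unit at every other place off `T`. -/
theorem h81_CountHyp.ordW [HasPrincipalDivisors k Fb]
    (H : h81_CountHyp R₁ R₂ D D0 Qinf Sg Φ B F0 T π u C) :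
    (∀ S ∈ Sg, Φ S ∉ T) ∧ (∀ S ∈ Sg, (Φ S).ord (R₁.redF u) = -12) ∧
      (∀ P : Place k Fb, P ∉ T → (∀ S ∈ Sg, P ≠ Φ S) → P.ord (R₁.redF u) = 0) := by
  classical
  have himg : ∀ Q ∈ Sg.image Φ, Q ≠ Qinf := by
    intro Q hQ
    obtain ⟨S, hS, rfl⟩ := Finset.mem_image.mp hQ
    exact (H.hSg S hS).2
  have hzero : (0 : Fb) ∈ h16_Linf Qinf 0 := Submodule.zero_mem _
  have hval0 : ∀ Q : Place k Fb, h39_Val Q (0 : Fb) 0 := fun Q =>
    (h39_val_zero_iff Q).mpr (Or.inl rfl)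
  set N : Finset (Place k Fb) := (Sg.image Φ).filter (fun P => P ∉ T) with hNdef
  have hN : ∀ P ∈ N, -(12 : ℤ) ≤ P.ord (R₁.redF u) := by
    intro P hP
    obtain ⟨hP1, hPT⟩ := Finset.mem_filter.mp hP
    obtain ⟨S, hS, rfl⟩ := Finset.mem_image.mp hP1
    obtain ⟨n, t, ht, ht1, htQ⟩ := h81_exists_simple Qinf H.hV (Sg.image Φ) himg (H.hSg S hS).2
    have hnode : ∀ Q ∈ Sg, ∃ c : k, h39_Val (Φ Q) t c ∧ h39_Val Q (0 : Fb) c := by
      intro Q hQ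
      refine ⟨0, h81_val_zero_of_ord_pos _ ?_, hval0 Q⟩
      by_cases hQS : Q = S
      · rw [hQS, ht1]
        norm_num
      · exact htQ (Φ Q) (Finset.mem_image_of_mem Φ hQ) (fun h => hQS (H.hΦ h))
    obtain ⟨n', f, hf0, hfL, hfB, hf1, hf2, hr1, hr2⟩ := H.lift ht hzero hnode
    have hfπ := H.hdisc2 f hf0 hf2 hr2
    have ht0 : t ≠ 0 := by
      rintro rfl
      rw [Place.ord_zero] at ht1
      exact zero_ne_one ht1
    have hb := h81_ord_ge_neg R₁ R₂ B T H.hint H.hπ0 H.hπ2 H.huB H.hu1 H.hW 12 H.hu2 hfB hf1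
      (by rw [hr1]; exact ht0) 1 12 (by norm_num) (by rw [pow_one]; exact hfπ) (Φ S) hPT
    rw [hr1, ht1] at hb
    push_cast at hb
    linarith
  have hrest : ∀ P : Place k Fb, P ∉ T → P ∉ N → 0 ≤ P.ord (R₁.redF u) := by
    intro P hPT hPN
    have hPimg : P ∉ Sg.image Φ := fun h => hPN (Finset.mem_filter.mpr ⟨h, hPT⟩)
    have hPinf : P ≠ Qinf := fun h => hPT (h ▸ H.hQT)
    obtain ⟨n, a, ha, hav⟩ := H.hV (insert P (Sg.image Φ)) (fun Q => if Q = P then 1 else 0) (by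
      intro Q hQ
      rcases Finset.mem_insert.mp hQ with rfl | h
      · exact hPinf
      · exact himg Q h)
    have haP : h39_Val P a 1 := by
      have := hav P (Finset.mem_insert_self _ _)
      rwa [if_pos rfl] at this
    have hnode : ∀ Q ∈ Sg, ∃ c : k, h39_Val (Φ Q) a c ∧ h39_Val Q (0 : Fb) c := by
      intro Q hQ
      refine ⟨0, ?_, hval0 Q⟩
      have hmem := Finset.mem_image_of_mem Φ hQ
      have := hav (Φ Q) (Finset.mem_insert_of_mem hmem)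
      rwa [if_neg (fun h : Φ Q = P => hPimg (h ▸ hmem))] at this
    obtain ⟨n', g, -, -, hgB, hg1, hg2, hr1, hr2⟩ := H.lift ha hzero hnode
    exact h81_ord_ge_zero R₁ R₂ B T H.hint H.hrank H.huB H.hu1 H.hW hgB hg1 hg2 hr2 P hPT
      (by rw [hr1]; exact h39_ord_eq_zero_of_val P haP one_ne_zero)
      (by rw [hr1]; exact h81_ne_zero_of_val P haP one_ne_zero)
  have hTN : Disjoint T N := by
    rw [Finset.disjoint_right]
    intro Q hQ
    exact (Finset.mem_filter.mp hQ).2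
  have hcard : (Sg.image Φ).card = Sg.card := Finset.card_image_of_injective _ H.hΦ
  have hNM : N.card ≤ Sg.card := by
    rw [← hcard]
    exact Finset.card_filter_le _ _
  obtain ⟨h0, h1, h2, -⟩ := h81_count_core H.hdeg1 H.hW T N hTN 12 C Sg.card (by norm_num) hNM
    H.hcusp hN hrest H.hcnt
  have hNeq : N = Sg.image Φ :=
    Finset.eq_of_subset_of_card_le (Finset.filter_subset _ _) (by rw [hcard, h0])
  have hoff : ∀ S ∈ Sg, Φ S ∉ T := by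
    intro S hS
    have hmem : Φ S ∈ N := by
      rw [hNeq]
      exact Finset.mem_image_of_mem Φ hS
    exact (Finset.mem_filter.mp hmem).2
  refine ⟨hoff, fun S hS => h1 _ ?_, fun P hPT hP => h2 P hPT ?_⟩
  · rw [hNeq]
    exact Finset.mem_image_of_mem Φ hS
  · intro hmem
    rw [hNeq] at hmem
    obtain ⟨S, hS, rfl⟩ := Finset.mem_image.mp hmem
    exact hP S hS rfl

/-- **(COUNT) (2), thickness one in valuation form**: an element of `B ∩ O₁` whose first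
reduction has a simple zero at the node point `Φ S` is not divisible by `π²` in `O₂`. -/
theorem h81_CountHyp.thick_val [HasPrincipalDivisors k Fb]
    (H : h81_CountHyp R₁ R₂ D D0 Qinf Sg Φ B F0 T π u C) {S : Place k Fb} (hS : S ∈ Sg) {f : F}
    (hfB : f ∈ B) (hf1 : f ∈ R₁.O) (hfP : (Φ S).ord (R₁.redF f) = 1) :
    ¬ ((algebraMap K F π)⁻¹ ^ 2 * f ∈ R₂.O) := by
  intro h
  have hf0 : R₁.redF f ≠ 0 := by
    intro h0
    rw [h0, Place.ord_zero] at hfP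
    exact zero_ne_one hfP
  have hb := h81_ord_ge_neg R₁ R₂ B T H.hint H.hπ0 H.hπ2 H.huB H.hu1 H.hW 12 H.hu2 hfB hf1 hf0
    2 6 (by norm_num) h (Φ S) (H.ordW.1 S hS)
  rw [hfP, H.ordW.2.1 S hS] at hb
  norm_num at hb

/-- **(COUNT) (3) = (S1), thickness one at the node**: for `K₀`-rational `f, g ∈ L(∞ D0) ∩ O`
with `red f = (t, 0)`, `red g = (0, t')`, `t` with a simple zero at `Φ S` and `t'` with a simple
zero at `S`, the function `f g / π` lies in `O` and takes a NONZERO value at the node `S`. -/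
theorem h81_CountHyp.thick [HasPrincipalDivisors k Fb]
    (H : h81_CountHyp R₁ R₂ D D0 Qinf Sg Φ B F0 T π u C) {S : Place k Fb} (hS : S ∈ Sg)
    {f g : F} {n n' : ℕ} (hf0 : f ∈ F0) (hfL : f ∈ riemannRochSpace (n • D0)) (hf1 : f ∈ R₁.O)
    (hf2 : f ∈ R₂.O) (hfr : R₂.redF f = 0) (hft : (Φ S).ord (R₁.redF f) = 1)
    (hg0 : g ∈ F0) (hgL : g ∈ riemannRochSpace (n' • D0)) (hg1 : g ∈ R₁.O) (hg2 : g ∈ R₂.O)
    (hgr : R₁.redF g = 0) (hgt : S.ord (R₂.redF g) = 1) :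
    (algebraMap K F π)⁻¹ * (f * g) ∈ R₁.O ∧ (algebraMap K F π)⁻¹ * (f * g) ∈ R₂.O ∧
      ∃ c : k, c ≠ 0 ∧ h39_Val (Φ S) (R₁.redF ((algebraMap K F π)⁻¹ * (f * g))) c ∧
        h39_Val S (R₂.redF ((algebraMap K F π)⁻¹ * (f * g))) c := by
  classical
  have hϖ1 : algebraMap K F π ∈ R₁.O := (R₁.mem_iff π).mp H.hπ1
  have hϖ2 : algebraMap K F π ∈ R₂.O := (R₂.mem_iff π).mp H.hπ2
  have ht0 : R₁.redF f ≠ 0 := by
    intro h0
    rw [h0, Place.ord_zero] at hft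
    exact zero_ne_one hft
  have ht'0 : R₂.redF g ≠ 0 := by
    intro h0
    rw [h0, Place.ord_zero] at hgt
    exact zero_ne_one hgt
  have hP1 : Φ S ≠ Qinf := (H.hSg S hS).2
  have hP2 : S ≠ Qinf := (H.hSg S hS).1
  have himg : ∀ Q ∈ Sg.image Φ, Q ≠ Qinf := by
    intro Q hQ
    obtain ⟨S', hS', rfl⟩ := Finset.mem_image.mp hQ
    exact (H.hSg S' hS').2
  -- `Z = f g / π`
  have hfπ : (algebraMap K F π)⁻¹ * f ∈ R₂.O := H.hdisc2 f hf0 hf2 hfr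
  have hgπ : (algebraMap K F π)⁻¹ * g ∈ R₁.O := H.hdisc1 g hg0 hg1 hgr
  have hZ1 : (algebraMap K F π)⁻¹ * (f * g) ∈ R₁.O := by
    have e1 : (algebraMap K F π)⁻¹ * (f * g) = f * ((algebraMap K F π)⁻¹ * g) := by ring
    rw [e1]
    exact R₁.O.mul_mem _ _ hf1 hgπ
  have hZ2 : (algebraMap K F π)⁻¹ * (f * g) ∈ R₂.O := by
    have e1 : (algebraMap K F π)⁻¹ * (f * g) = (algebraMap K F π)⁻¹ * f * g := by ring
    rw [e1]
    exact R₂.O.mul_mem _ _ hfπ hg2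
  have hZL : (algebraMap K F π)⁻¹ * (f * g) ∈ riemannRochSpace ((n + n') • D0) := by
    rw [add_smul]
    have h := (riemannRochSpace (n • D0 + n' • D0)).smul_mem (π⁻¹) (h51_mul_mem_rr hfL hgL)
    rwa [Algebra.smul_def, map_inv₀] at h
  have hZ0 : (algebraMap K F π)⁻¹ * (f * g) ∈ F0 := F0.mul_mem H.hπF0 (F0.mul_mem hf0 hg0)
  obtain ⟨⟨mz, hz1L, hz2L⟩, hZnode⟩ := H.node hZL hZ1 hZ2
  obtain ⟨c, hc1, hc2⟩ := hZnode S hS
  refine ⟨hZ1, hZ2, c, ?_, hc1, hc2⟩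
  intro hc0
  rw [hc0] at hc1 hc2
  -- the node data of `f` and `g`
  obtain ⟨-, hfnode⟩ := H.node hfL hf1 hf2
  obtain ⟨-, hgnode⟩ := H.node hgL hg1 hg2
  -- the multipliers `s1`, `s2`
  obtain ⟨ns1, s1, hs1L, hs1v, hs1Q⟩ := h81_clear Qinf H.hV ht0 (Sg.image Φ) hP1 1
  obtain ⟨ns2, s2, hs2L, hs2v, hs2Q⟩ := h81_clear Qinf H.hV ht'0 Sg hP2 1
  have hs10 : s1 ≠ 0 := h81_ne_zero_of_val _ hs1v one_ne_zero
  have hs20 : s2 ≠ 0 := h81_ne_zero_of_val _ hs2v one_ne_zero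
  have hσnode : ∀ Q ∈ Sg, ∃ c : k, h39_Val (Φ Q) s1 c ∧ h39_Val Q s2 c := by
    intro Q hQ
    by_cases hQS : Q = S
    · rw [hQS]
      exact ⟨1, hs1v, hs2v⟩
    · refine ⟨0, h81_val_zero_of_ord_pos _ ?_, h81_val_zero_of_ord_pos _ ?_⟩
      · have h1 := hs1Q (Φ Q) (H.hSg Q hQ).2 (fun h => hQS (H.hΦ h))
          (Or.inl (Finset.mem_image_of_mem Φ hQ))
        have h2 := abs_nonneg ((Φ Q).ord (R₁.redF f))
        push_cast at h1
        linarith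
      · have h1 := hs2Q Q (H.hSg Q hQ).1 hQS (Or.inl hQ)
        have h2 := abs_nonneg (Q.ord (R₂.redF g))
        push_cast at h1
        linarith
  obtain ⟨nσ, sF, hσ0, hσL, hσB, hσ1, hσ2, hσr1, hσr2⟩ := H.lift hs1L hs2L hσnode
  -- the quotient `a = (s1 z1 / t, a2)`
  obtain ⟨ha1reg, ha1node, ha1eq⟩ := h81_quot Qinf ht0 hft hs1L hs1v (Sg.image Φ) 1 le_rfl hs1Q
    hz1L hc1
  obtain ⟨na1, ha1L⟩ := h81_Linf_of_reg Qinf ha1reg
  obtain ⟨α, hα⟩ := h81_exists_val (Φ S) (H.hdeg1 _) (h24_mem_of_ord_nonneg (Φ S) (ha1reg _ hP1))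
  obtain ⟨na2, a2, ha2L, ha2v⟩ := H.hV Sg (fun Q => if Q = S then α else 0)
    (fun Q hQ => (H.hSg Q hQ).1)
  have hanode : ∀ Q ∈ Sg, ∃ c : k,
      h39_Val (Φ Q) (s1 * R₁.redF ((algebraMap K F π)⁻¹ * (f * g)) / R₁.redF f) c ∧
        h39_Val Q a2 c := by
    intro Q hQ
    by_cases hQS : Q = S
    · refine ⟨α, by rw [hQS]; exact hα, ?_⟩
      have := ha2v Q hQ
      rwa [if_pos hQS] at this
    · refine ⟨0, ha1node (Φ Q) (Finset.mem_image_of_mem Φ hQ) (H.hSg Q hQ).2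
        (fun h => hQS (H.hΦ h)), ?_⟩
      have := ha2v Q hQ
      rwa [if_neg hQS] at this
  obtain ⟨nA, aF, hA0, hAL, hAB, hA1, hA2, hAr1, hAr2⟩ := H.lift ha1L ha2L hanode
  -- the quotient `b = (b1, s2 z2 / t')`
  obtain ⟨hb2reg, hb2node, hb2eq⟩ := h81_quot Qinf ht'0 hgt hs2L hs2v Sg 1 le_rfl hs2Q hz2L hc2
  obtain ⟨nb2, hb2L⟩ := h81_Linf_of_reg Qinf hb2reg
  obtain ⟨β, hβ⟩ := h81_exists_val S (H.hdeg1 _) (h24_mem_of_ord_nonneg S (hb2reg _ hP2))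
  obtain ⟨nb1, b1, hb1L, hb1v⟩ := H.hV (Sg.image Φ) (fun P => if P = Φ S then β else 0) himg
  have hbnode : ∀ Q ∈ Sg, ∃ c : k, h39_Val (Φ Q) b1 c ∧
      h39_Val Q (s2 * R₂.redF ((algebraMap K F π)⁻¹ * (f * g)) / R₂.redF g) c := by
    intro Q hQ
    have hmem := Finset.mem_image_of_mem Φ hQ
    by_cases hQS : Q = S
    · refine ⟨β, ?_, by rw [hQS]; exact hβ⟩
      have := hb1v (Φ Q) hmem
      rwa [if_pos (by rw [hQS])] at this
    · refine ⟨0, ?_, hb2node Q hQ (H.hSg Q hQ).1 hQS⟩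
      have := hb1v (Φ Q) hmem
      rwa [if_neg (fun h => hQS (H.hΦ h))] at this
  obtain ⟨nB, bF, hB0, hBL, hBB, hB1, hB2, hBr1, hBr2⟩ := H.lift hb1L hb2L hbnode
  -- `Y = σ Z - f a - g b` reduces to `0` on both components
  have hY0 : sF * ((algebraMap K F π)⁻¹ * (f * g)) - f * aF - g * bF ∈ F0 :=
    F0.sub_mem (F0.sub_mem (F0.mul_mem hσ0 hZ0) (F0.mul_mem hf0 hA0)) (F0.mul_mem hg0 hB0)
  have hY1 : sF * ((algebraMap K F π)⁻¹ * (f * g)) - f * aF - g * bF ∈ R₁.O :=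
    R₁.O.sub_mem (R₁.O.sub_mem (R₁.O.mul_mem _ _ hσ1 hZ1) (R₁.O.mul_mem _ _ hf1 hA1))
      (R₁.O.mul_mem _ _ hg1 hB1)
  have hY2 : sF * ((algebraMap K F π)⁻¹ * (f * g)) - f * aF - g * bF ∈ R₂.O :=
    R₂.O.sub_mem (R₂.O.sub_mem (R₂.O.mul_mem _ _ hσ2 hZ2) (R₂.O.mul_mem _ _ hf2 hA2))
      (R₂.O.mul_mem _ _ hg2 hB2)
  have hYr1 : R₁.redF (sF * ((algebraMap K F π)⁻¹ * (f * g)) - f * aF - g * bF) = 0 := by
    rw [h39_redF_sub R₁ (R₁.O.sub_mem (R₁.O.mul_mem _ _ hσ1 hZ1) (R₁.O.mul_mem _ _ hf1 hA1))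
        (R₁.O.mul_mem _ _ hg1 hB1),
      h39_redF_sub R₁ (R₁.O.mul_mem _ _ hσ1 hZ1) (R₁.O.mul_mem _ _ hf1 hA1),
      h39_redF_mul R₁ hσ1 hZ1, h39_redF_mul R₁ hf1 hA1, h39_redF_mul R₁ hg1 hB1, hσr1, hAr1, hgr,
      zero_mul, sub_zero, ha1eq, sub_self]
  have hYr2 : R₂.redF (sF * ((algebraMap K F π)⁻¹ * (f * g)) - f * aF - g * bF) = 0 := by
    rw [h39_redF_sub R₂ (R₂.O.sub_mem (R₂.O.mul_mem _ _ hσ2 hZ2) (R₂.O.mul_mem _ _ hf2 hA2))
        (R₂.O.mul_mem _ _ hg2 hB2),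
      h39_redF_sub R₂ (R₂.O.mul_mem _ _ hσ2 hZ2) (R₂.O.mul_mem _ _ hf2 hA2),
      h39_redF_mul R₂ hσ2 hZ2, h39_redF_mul R₂ hf2 hA2, h39_redF_mul R₂ hg2 hB2, hσr2, hBr2, hfr,
      zero_mul, sub_zero, hb2eq, sub_self]
  have hC2 := H.hdisc2 _ hY0 hY2 hYr2
  -- `f' = σ f - π b`, `g' = σ g - π a`
  have hf'B : sF * f - algebraMap K F π * bF ∈ B :=
    B.sub_mem (B.mul_mem hσB (H.hLB n f hfL)) (B.mul_mem H.hπB hBB)
  have hf'1 : sF * f - algebraMap K F π * bF ∈ R₁.O :=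
    R₁.O.sub_mem (R₁.O.mul_mem _ _ hσ1 hf1) (R₁.O.mul_mem _ _ hϖ1 hB1)
  have hf'r : R₁.redF (sF * f - algebraMap K F π * bF) = s1 * R₁.redF f := by
    rw [h39_redF_sub R₁ (R₁.O.mul_mem _ _ hσ1 hf1) (R₁.O.mul_mem _ _ hϖ1 hB1),
      h39_redF_mul R₁ hσ1 hf1, h39_redF_mul R₁ hϖ1 hB1, hσr1, h39_redF_algebraMap R₁ H.hπ1,
      H.hπ1', map_zero, zero_mul, sub_zero]
  have hf'ord : (Φ S).ord (R₁.redF (sF * f - algebraMap K F π * bF)) = 1 := by
    rw [hf'r, (Φ S).ord_mul hs10 ht0, h39_ord_eq_zero_of_val _ hs1v one_ne_zero, hft, zero_add]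
  have hg'2 : sF * g - algebraMap K F π * aF ∈ R₂.O :=
    R₂.O.sub_mem (R₂.O.mul_mem _ _ hσ2 hg2) (R₂.O.mul_mem _ _ hϖ2 hA2)
  have hg'r : R₂.redF (sF * g - algebraMap K F π * aF) = s2 * R₂.redF g := by
    rw [h39_redF_sub R₂ (R₂.O.mul_mem _ _ hσ2 hg2) (R₂.O.mul_mem _ _ hϖ2 hA2),
      h39_redF_mul R₂ hσ2 hg2, h39_redF_mul R₂ hϖ2 hA2, hσr2, h39_redF_algebraMap R₂ H.hπ2,
      H.hπ2', map_zero, zero_mul, sub_zero]
  have hg'ne : R₂.redF (sF * g - algebraMap K F π * aF) ≠ 0 := by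
    rw [hg'r]
    exact mul_ne_zero hs20 ht'0
  obtain ⟨hg'inv, -⟩ := h39_inv_of_redF_ne_zero R₂ hg'ne
  have hg'0 : sF * g - algebraMap K F π * aF ≠ 0 := by
    intro h
    rw [h] at hg'ne
    exact hg'ne (h39_redF_zero R₂)
  have hϖ0 : algebraMap K F π ≠ 0 := by
    rw [Ne, map_eq_zero]
    exact H.hπ0
  have hkey : (algebraMap K F π)⁻¹ ^ 2 * (sF * f - algebraMap K F π * bF) =
      (sF * ((algebraMap K F π)⁻¹ *
        (sF * ((algebraMap K F π)⁻¹ * (f * g)) - f * aF - g * bF)) + aF * bF) *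
        (sF * g - algebraMap K F π * aF)⁻¹ := by
    rw [eq_mul_inv_iff_mul_eq₀ hg'0]
    field_simp
    ring
  have hmem : (algebraMap K F π)⁻¹ ^ 2 * (sF * f - algebraMap K F π * bF) ∈ R₂.O := by
    rw [hkey]
    exact R₂.O.mul_mem _ _ (R₂.O.add_mem _ _ (R₂.O.mul_mem _ _ hσ2 hC2)
      (R₂.O.mul_mem _ _ hA2 hB2)) hg'inv
  exact H.thick_val hS hf'B hf'1 hf'ord hmem

/-- A `K₀`-rational separator on the first component: `red f = (t, 0)` with a simple zero of `t`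
at the node point `Φ S`. -/
theorem h81_CountHyp.exists_sep₁ [HasPrincipalDivisors k Fb]
    (H : h81_CountHyp R₁ R₂ D D0 Qinf Sg Φ B F0 T π u C) {S : Place k Fb} (hS : S ∈ Sg) :
    ∃ (n : ℕ) (f : F), f ∈ F0 ∧ f ∈ riemannRochSpace (n • D0) ∧ f ∈ B ∧ f ∈ R₁.O ∧ f ∈ R₂.O ∧
      R₂.redF f = 0 ∧ (Φ S).ord (R₁.redF f) = 1 := by
  classical
  have himg : ∀ Q ∈ Sg.image Φ, Q ≠ Qinf := by
    intro Q hQ
    obtain ⟨S', hS', rfl⟩ := Finset.mem_image.mp hQ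
    exact (H.hSg S' hS').2
  obtain ⟨n, t, ht, ht1, htQ⟩ := h81_exists_simple Qinf H.hV (Sg.image Φ) himg (H.hSg S hS).2
  have hnode : ∀ Q ∈ Sg, ∃ c : k, h39_Val (Φ Q) t c ∧ h39_Val Q (0 : Fb) c := by
    intro Q hQ
    refine ⟨0, h81_val_zero_of_ord_pos _ ?_, (h39_val_zero_iff Q).mpr (Or.inl rfl)⟩
    by_cases hQS : Q = S
    · rw [hQS, ht1]
      norm_num
    · exact htQ (Φ Q) (Finset.mem_image_of_mem Φ hQ) (fun h => hQS (H.hΦ h))
  obtain ⟨n', f, hf0, hfL, hfB, hf1, hf2, hr1, hr2⟩ :=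
    H.lift ht (Submodule.zero_mem (h16_Linf Qinf 0)) hnode
  exact ⟨n', f, hf0, hfL, hfB, hf1, hf2, hr2, by rw [hr1]; exact ht1⟩

/-- A `K₀`-rational separator on the second component: `red g = (0, t')` with a simple zero of
`t'` at the node point `S`. -/
theorem h81_CountHyp.exists_sep₂ [HasPrincipalDivisors k Fb]
    (H : h81_CountHyp R₁ R₂ D D0 Qinf Sg Φ B F0 T π u C) {S : Place k Fb} (hS : S ∈ Sg) :
    ∃ (n : ℕ) (g : F), g ∈ F0 ∧ g ∈ riemannRochSpace (n • D0) ∧ g ∈ B ∧ g ∈ R₁.O ∧ g ∈ R₂.O ∧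
      R₁.redF g = 0 ∧ S.ord (R₂.redF g) = 1 := by
  classical
  obtain ⟨n, t, ht, ht1, htQ⟩ := h81_exists_simple Qinf H.hV Sg (fun Q hQ => (H.hSg Q hQ).1)
    (H.hSg S hS).1
  have hnode : ∀ Q ∈ Sg, ∃ c : k, h39_Val (Φ Q) (0 : Fb) c ∧ h39_Val Q t c := by
    intro Q hQ
    refine ⟨0, (h39_val_zero_iff _).mpr (Or.inl rfl), h81_val_zero_of_ord_pos _ ?_⟩
    by_cases hQS : Q = S
    · rw [hQS, ht1]
      norm_num
    · exact htQ Q hQ hQS
  obtain ⟨n', g, hg0, hgL, hgB, hg1, hg2, hr1, hr2⟩ :=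
    H.lift (Submodule.zero_mem (h16_Linf Qinf 0)) ht hnode
  exact ⟨n', g, hg0, hgL, hgB, hg1, hg2, hr1, by rw [hr2]; exact ht1⟩

/-- **(S1) = THICK1**: at every node `S` there are `K₀`-rational `f, g ∈ L(∞ D0) ∩ O` with
`red f = (t, 0)`, `red g = (0, t')`, simple zeros at the node, `f g / π ∈ O`, and `red (f g / π)`
takes a nonzero value at the node. -/
theorem h81_CountHyp.S1 [HasPrincipalDivisors k Fb]
    (H : h81_CountHyp R₁ R₂ D D0 Qinf Sg Φ B F0 T π u C) {S : Place k Fb} (hS : S ∈ Sg) :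
    ∃ (n n' : ℕ) (f g : F),
      (f ∈ F0 ∧ f ∈ riemannRochSpace (n • D0) ∧ f ∈ R₁.O ∧ f ∈ R₂.O ∧ R₂.redF f = 0 ∧
        (Φ S).ord (R₁.redF f) = 1) ∧
      (g ∈ F0 ∧ g ∈ riemannRochSpace (n' • D0) ∧ g ∈ R₁.O ∧ g ∈ R₂.O ∧ R₁.redF g = 0 ∧
        S.ord (R₂.redF g) = 1) ∧
      (algebraMap K F π)⁻¹ * (f * g) ∈ R₁.O ∧ (algebraMap K F π)⁻¹ * (f * g) ∈ R₂.O ∧
      ∃ c : k, c ≠ 0 ∧ h39_Val (Φ S) (R₁.redF ((algebraMap K F π)⁻¹ * (f * g))) c ∧
        h39_Val S (R₂.redF ((algebraMap K F π)⁻¹ * (f * g))) c := by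
  obtain ⟨n, f, hf0, hfL, -, hf1, hf2, hfr, hft⟩ := H.exists_sep₁ hS
  obtain ⟨n', g, hg0, hgL, -, hg1, hg2, hgr, hgt⟩ := H.exists_sep₂ hS
  exact ⟨n, n', f, g, ⟨hf0, hfL, hf1, hf2, hfr, hft⟩, ⟨hg0, hgL, hg1, hg2, hgr, hgt⟩,
    H.thick hS hf0 hfL hf1 hf2 hfr hft hg0 hgL hg1 hg2 hgr hgt⟩

end Main

end Fermat.Agent.S36

end
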