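import Fermat.Agent.S36.h83_GenusBridge
import Fermat.Agent.S18.GR_LxDim
import Fermat.Agent.S24.h59_Gen
import Fermat.Agent.S24.h33_Cusps
import Fermat.Agent.S24.h29_Index
import Fermat.Agent.S24.h29_Elliptic
import Fermat.Agent.S24.h47_Numerics
import Fermat.Agent.S24.h78_Fibres

/-!
# S36 / (BRIDGE), modular form: the Riemann–Roch genus of `X₀(N)` is `genusFormula N`

* `h83_h75_genus_jbar`    : `h75_genus ℚ̄ j = genusFormula N`;
* `h83_jbar_isChart`      : `j` is a chart of `ℚ̄(X₀(N))`;
* `h83_h75_genus_modular` : `h75_genus ℚ̄ x = genusFormula N` for every chart `x`;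
* `h83_genusFF_modular`   : `genusFF ℚ̄ ℚ̄(X₀(N)) = genusFormula N`.

No `HasCanonicalDivisor` hypothesis: the generic `h83_h75_genus_of_fibre_counts` builds the divisor
of `dj` from the fibre counts of S24 (`h78_*`).
-/

set_option autoImplicit false

open ModularCurve
open scoped MatrixGroups
open IntermediateField AlgebraicCurve

namespace Fermat.Agent.S36

open Fermat.Agent.S18 Fermat.Agent.S24 Fermat.Agent.S27

/-- the Riemann–Roch genus of the chart `j` of `X₀(N)` is `genusFormula N`. -/
theorem h83_h75_genus_jbar (N : ℕ) [NeZero N] :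
    (h75_genus (AlgebraicClosure ℚ) (h59_jbar N) : ℚ) = ModularCurve.genusFormula N := by
  have hfd := h78_finiteDimensional N
  have hne : (1728 : AlgebraicClosure ℚ) ≠ 0 := by norm_num
  have hg := h83_h75_genus_of_fibre_counts (K := AlgebraicClosure ℚ)
    (F := ↥(modularFunctionFieldBar N)) (h59_jbar N) (h59_jbar_transcendental N)
    (1728 : AlgebraicClosure ℚ) 0 hne
    (fun a h1 h0 => by rw [h78_card_fibre N a h0 h1, h78_finrank N])
  rw [hg, h78_finrank N, h78_card_fibre_1728 N, h78_card_fibre_zero N, h78_card_poles N]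
  exact h47_genus_of_counts N (G := SL(2, ℤ)) (X := SL(2, ℤ) ⧸ CongruenceSubgroup.Gamma0 N)
    ModularGroup.S ModularGroup.T SpecialLinearGroup.SL2Z_generators
    (h29_card_quotient_Gamma0 N) (h29_orbits_S N) (h29_orbits_ST N) (h33_orbits_T N)

/-- `j` is a chart of the modular function field. -/
theorem h83_jbar_isChart (N : ℕ) [NeZero N] :
    h75_IsChart (AlgebraicClosure ℚ) (h59_jbar N) := by
  have hfd := h78_finiteDimensional N
  exact h83_isChart _ (h59_jbar_transcendental N)

/-- **The Riemann–Roch genus of `X₀(N)`** in any chart. -/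
theorem h83_h75_genus_modular (N : ℕ) [NeZero N] {x : ↥(modularFunctionFieldBar N)}
    (hx : h75_IsChart (AlgebraicClosure ℚ) x) :
    (h75_genus (AlgebraicClosure ℚ) x : ℚ) = ModularCurve.genusFormula N := by
  rw [h39_genus_eq_of_charts hx (h83_jbar_isChart N)]
  exact h83_h75_genus_jbar N

/-- **The adelic genus of `X₀(N)`** (the genus of S27). -/
theorem h83_genusFF_modular (N : ℕ) [NeZero N] :
    (genusFF (AlgebraicClosure ℚ) ↥(modularFunctionFieldBar N) : ℚ)
      = ModularCurve.genusFormula N := by
  rw [h15_genusFF_eq (h83_jbar_isChart N)]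
  exact h83_h75_genus_jbar N

end Fermat.Agent.S36
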