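import Mathlib
import Fermat.Agent.S34.h17_IntMod
import Fermat.Agent.S37.h19_DEG
import Fermat.Agent.S36.h83_GenusMod

/-!
# S36, row H (a): (INT-J), integrality transfer in the chart `j` at level `Mq` (helper81)

Level `M`, `q ∤ M` a prime, `A` a valuation ring of `ℚ̄` over `q`, `k` its residue field,
`Fb = Fb(M)`, `R₁ = h60_R1`, `R₂ = h60_R2` the two reductions of `F = F(Mq)`,
`J = h59_jbar (M * q)`, `j̄ = h54_jk k M`.

* `h81_finrank_pow` : `q · [Fb : k(x)] ≤ [Fb : k(x^q)]` when `x` has a simple pole somewhere;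
* `h81_jchart` : the chart `J` for the pair `(R₁, R₂)`: `J ∈ O₁ ∩ O₂`, `red₁ J = j̄`,
  `red₂ J = j̄ ^ q`, and the degree inequality `[F : K(J)] ≤ [Fb : k(j̄)] + [Fb : k(j̄^q)]`
  (`(q+1) ψ(M) ≤ ψ(M) + q ψ(M)`);
* `h81_int_j` : **(INT-J)** a function of `O₁ ∩ O₂` which is regular at every place where `J`
  is regular (poles only at cusps) has both reductions regular at every place where `j̄` is
  regular.  No restriction on `q` (`2` and `3` included), no hypothesis on `M`.
-/

set_option autoImplicit false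
set_option synthInstance.maxHeartbeats 400000

noncomputable section

open AlgebraicCurve ModularCurve IntermediateField

namespace Fermat.Agent.S36

open Fermat.Agent.S18 Fermat.Agent.S24 Fermat.Agent.S37 Fermat.Agent.S27 Fermat.Agent.S34

local notation "Qb" => AlgebraicClosure ℚ

section Generic

variable {K F : Type*} [Field K] [Field F] [Algebra K F]

/-- `q · [F : K(x)] ≤ [F : K(x^q)]` as soon as `x` has a simple pole at some place. -/
theorem h81_finrank_pow (v : Place K F) {x : F} {q : ℕ} (hq : 0 < q) (hx : v.ord x = -1)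
    [Module.Finite K⟮x ^ q⟯ F] :
    q * Module.finrank K⟮x⟯ F ≤ Module.finrank K⟮x ^ q⟯ F := by
  have hle : K⟮x ^ q⟯ ≤ K⟮x⟯ :=
    adjoin_simple_le_iff.mpr (pow_mem (mem_adjoin_simple_self K x) q)
  rw [← relfinrank_mul_finrank_top hle]
  apply Nat.mul_le_mul_right
  rw [relfinrank_eq_finrank_of_le hle]
  have h1 : v.ord (x ^ q) = -(q : ℤ) := by
    rw [← zpow_natCast, Place.ord_zpow, hx]
    ring
  have h2 : v.ord (x ^ (q + 1)) = -((q : ℤ) + 1) := by
    rw [← zpow_natCast, Place.ord_zpow, hx]
    push_cast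
    ring
  have hli := h70_linearIndependent_pow v hq h1 h2
  have hmem : ∀ i : Fin q, (x ^ (q + 1)) ^ (i : ℕ) ∈ extendScalars hle := by
    intro i
    rw [mem_extendScalars]
    exact pow_mem (pow_mem (mem_adjoin_simple_self K x) _) _
  have hli' : LinearIndependent K⟮x ^ q⟯
      (fun i : Fin q => (⟨(x ^ (q + 1)) ^ (i : ℕ), hmem i⟩ : extendScalars hle)) := by
    refine LinearIndependent.of_comp ((extendScalars hle).val.toLinearMap) ?_
    exact hli
  have hfin : Module.Finite K⟮x ^ q⟯ (extendScalars hle) :=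
    Module.Finite.of_injective ((extendScalars hle).val.toLinearMap)
      (extendScalars hle).val.injective
  have h := hli'.fintype_card_le_finrank
  rwa [Fintype.card_fin] at h

end Generic

section Mod

variable (M q : ℕ) [NeZero M] [NeZero q] [Fact q.Prime] (hqM : ¬ q ∣ M)
  (A : ValuationSubring Qb) (hA : A.LiesOverPrime q)

/-- `J = j` of level `Mq` lies in `O₁ ∩ O₂`, with `red₁ J = j̄` and `red₂ J = j̄ ^ q`. -/
theorem h81_J_mem :
    h59_jbar (M * q) ∈ (h60_R1 M q hqM A hA).O ∧ h59_jbar (M * q) ∈ (h60_R2 M q hqM A hA).O ∧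
    (h60_R1 M q hqM A hA).redF (h59_jbar (M * q)) = h54_jk (IsLocalRing.ResidueField A) M ∧
    (h60_R2 M q hqM A hA).redF (h59_jbar (M * q))
      = h54_jk (IsLocalRing.ResidueField A) M ^ q := by
  have hk : IsAlgClosed (IsLocalRing.ResidueField A) := h19_residueField_isAlgClosed A
  have hchar : CharP (IsLocalRing.ResidueField A) q := h19_residueField_charP A q hA
  have hRM := h39_modRed_spec M hqM A hA
  have hbO : h59_jbar M ∈ (h39_modRed M hqM A hA).O := (h39_modRed_weakChart_j M hqM A hA).mem
  have hred := h54_redF_jbar hRM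
  rw [← h19_heckeAlphaBar_jbar M q]
  refine ⟨(h60_R1_alpha_mem_iff M q hqM A hA hRM _).mpr hbO,
    (h60_R2_alpha_mem_iff M q hqM A hA hRM _).mpr hbO, ?_, ?_⟩
  · rw [h60_R1_redF_alpha M q hqM A hA hRM, hred]
  · apply Subtype.ext
    rw [h60_R2_redF_alpha_coe M q hqM A hA hRM, hred, ← h84_phi_jk M q (IsLocalRing.ResidueField A)]
    rfl

/-- The cusp of level `M` in characteristic `q` is a simple pole of `j̄`. -/
theorem h81_ord_jk (k : Type) [Field k] :
    (h11_placeInftyC k M).ord (h54_jk k M) = -1 := by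
  have h0 : h54_jk k M ≠ 0 := by
    intro h
    exact (h54_jk_transcendental k M) (h ▸ isAlgebraic_zero)
  rw [h11_placeInftyC_ord k M h0]
  exact h59_jqModC_order k

include hqM hA in
/-- The degree inequality of the chart `J`: `(q+1) ψ(M) ≤ ψ(M) + q ψ(M)`. -/
theorem h81_jchart_deg :
    Module.finrank Qb⟮h59_jbar (M * q)⟯ ↥(modularFunctionFieldBar (M * q)) ≤
      Module.finrank (IsLocalRing.ResidueField A)⟮h54_jk (IsLocalRing.ResidueField A) M⟯
          ↥(modularFunctionFieldFullC (IsLocalRing.ResidueField A) M) +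
        Module.finrank (IsLocalRing.ResidueField A)⟮h54_jk (IsLocalRing.ResidueField A) M ^ q⟯
          ↥(modularFunctionFieldFullC (IsLocalRing.ResidueField A) M) := by
  have hq : q.Prime := Fact.out
  have hj := h84_isChart_jk M q hqM A hA
  have htr2 : Transcendental (IsLocalRing.ResidueField A)
      (h54_jk (IsLocalRing.ResidueField A) M ^ q) := hj.tr.pow hq.pos
  have hfin1 := hj.fin
  have hfin2 : Module.Finite
      (IsLocalRing.ResidueField A)⟮h54_jk (IsLocalRing.ResidueField A) M ^ q⟯
      ↥(modularFunctionFieldFullC (IsLocalRing.ResidueField A) M) :=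
    h35_finiteDimensional_of_transcendental hj.tr htr2
  have h1 := h81_finrank_pow (h11_placeInftyC (IsLocalRing.ResidueField A) M) hq.pos
    (h81_ord_jk M (IsLocalRing.ResidueField A))
  have hψ : ModularCurve.dedekindPsi (M * q) = (q + 1) * ModularCurve.dedekindPsi M := by
    rw [mul_comm M q]
    exact h29_psi_mul_of_not_dvd q M hq (Nat.pos_of_ne_zero (NeZero.ne M)) hqM
  rw [h78_finrank (M * q), h29_card_quotient_Gamma0 (M * q), hψ]
  rw [h39_mod_finrank_fb M hqM A hA, h29_card_quotient_Gamma0 M] at h1 ⊢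
  calc (q + 1) * ModularCurve.dedekindPsi M
      = ModularCurve.dedekindPsi M + q * ModularCurve.dedekindPsi M := by ring
    _ ≤ _ := Nat.add_le_add_left h1 _

/-- **(INT-J)** A function of `O₁ ∩ O₂` regular wherever `J` is regular has both reductions
regular wherever `j̄` is regular. -/
theorem h81_int_j (f : ↥(modularFunctionFieldBar (M * q)))
    (hreg : ∀ P : Place Qb ↥(modularFunctionFieldBar (M * q)),
      h59_jbar (M * q) ∈ P.toValuationSubring → f ∈ P.toValuationSubring)
    (hf1 : f ∈ (h60_R1 M q hqM A hA).O) (hf2 : f ∈ (h60_R2 M q hqM A hA).O)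
    (Q : Place (IsLocalRing.ResidueField A)
      ↥(modularFunctionFieldFullC (IsLocalRing.ResidueField A) M))
    (hQ : h54_jk (IsLocalRing.ResidueField A) M ∈ Q.toValuationSubring) :
    (h60_R1 M q hqM A hA).redF f ∈ Q.toValuationSubring ∧
      (h60_R2 M q hqM A hA).redF f ∈ Q.toValuationSubring := by
  classical
  have hq : q.Prime := Fact.out
  obtain ⟨hJ1, hJ2, hr1, hr2⟩ := h81_J_mem M q hqM A hA
  have hAeq : ∀ i, (h60_pair M q hqM A hA i).A = A := (h60_pair_spec M q hqM A hA).1
  have hinc : ∀ i j, i ≠ j →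
      ¬ (h60_pair M q hqM A hA i).O ≤ (h60_pair M q hqM A hA j).O := by
    intro i j hij
    fin_cases i <;> fin_cases j
    · exact absurd rfl hij
    · exact (h60_not_le M q hqM A hA).1
    · exact (h60_not_le M q hqM A hA).2
    · exact absurd rfl hij
  have hfO : ∀ i, f ∈ (h60_pair M q hqM A hA i).O := by
    intro i
    fin_cases i
    · exact hf1
    · exact hf2
  have hxO : ∀ i, h59_jbar (M * q) ∈ (h60_pair M q hqM A hA i).O := by
    intro i
    fin_cases i
    · exact hJ1
    · exact hJ2
  have hj := h84_isChart_jk M q hqM A hA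
  have htr2 : Transcendental (IsLocalRing.ResidueField A)
      (h54_jk (IsLocalRing.ResidueField A) M ^ q) := hj.tr.pow hq.pos
  have htr : ∀ i, Transcendental (IsLocalRing.ResidueField A)
      ((h60_pair M q hqM A hA i).redF (h59_jbar (M * q))) := by
    intro i
    fin_cases i
    · show Transcendental _ ((h60_R1 M q hqM A hA).redF (h59_jbar (M * q)))
      rw [hr1]
      exact hj.tr
    · show Transcendental _ ((h60_R2 M q hqM A hA).redF (h59_jbar (M * q)))
      rw [hr2]
      exact htr2
  have hfin : ∀ i, Module.Finite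
      (IsLocalRing.ResidueField A)⟮(h60_pair M q hqM A hA i).redF (h59_jbar (M * q))⟯
      ↥(modularFunctionFieldFullC (IsLocalRing.ResidueField A) M) := by
    intro i
    have := hj.fin
    exact h35_finiteDimensional_of_transcendental hj.tr (htr i)
  have hxch := h83_jbar_isChart (M * q)
  have hdeg : Module.finrank Qb⟮h59_jbar (M * q)⟯ ↥(modularFunctionFieldBar (M * q)) ≤
      ∑ i, Module.finrank
        (IsLocalRing.ResidueField A)⟮(h60_pair M q hqM A hA i).redF (h59_jbar (M * q))⟯
        ↥(modularFunctionFieldFullC (IsLocalRing.ResidueField A) M) := by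
    rw [Fin.sum_univ_two]
    show _ ≤
      Module.finrank
          (IsLocalRing.ResidueField A)⟮(h60_R1 M q hqM A hA).redF (h59_jbar (M * q))⟯
          ↥(modularFunctionFieldFullC (IsLocalRing.ResidueField A) M) +
        Module.finrank
          (IsLocalRing.ResidueField A)⟮(h60_R2 M q hqM A hA).redF (h59_jbar (M * q))⟯
          ↥(modularFunctionFieldFullC (IsLocalRing.ResidueField A) M)
    rw [hr1, hr2]
    exact h81_jchart_deg M q hqM A hA
  have := hxch.fin
  have := hfin
  have hREG := fun i => h16_red_reg_family (h60_pair M q hqM A hA)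
    (fun i j => (hAeq i).trans (hAeq j).symm) hinc hxO htr hdeg hxch.sep hfO hreg i
  constructor
  · apply hREG 0 Q
    show (h60_R1 M q hqM A hA).redF (h59_jbar (M * q)) ∈ Q.toValuationSubring
    rw [hr1]
    exact hQ
  · apply hREG 1 Q
    show (h60_R2 M q hqM A hA).redF (h59_jbar (M * q)) ∈ Q.toValuationSubring
    rw [hr2]
    exact pow_mem hQ q

end Mod

end Fermat.Agent.S36

end
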