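import Mathlib
import Fermat.Agent.S34.h84_FrobMod
import Fermat.Agent.S24.h29_Index
import Fermat.Agent.S18.h17_HoloCore

/-!
# S36 row H, (CUSP-SUM) (helper64): orders of a rational function of `J` over `J = ∞`

Generic (`k` any field, `Fb / k` any field extension with the prelude's places):

* `h64_ord_add_of_lt` : strict ultrametric equality for `Place.ord`;
* `h64_ord_aeval_of_pole` : at a pole `y` of `J`, `ord_y P(J) = deg P * ord_y J` (`P ≠ 0`);
* `h64_ord_of_mem_adjoin` : for `V ∈ k(J)`, `V ≠ 0`, and a place `y₀` with `ord_{y₀} J = -1`: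
  `ord_y V = - ord_{y₀} V * ord_y J` at every pole `y` of `J`.

Modular (`Fb = modularFunctionFieldFullC k M`, `jk = h54_jk k M`):

* `h64_ord_of_mem_adjoin_jk` : `W ∈ k(jk)` with `Q`-expansion order `d`:
  `ord_y W = - d * ord_y jk` at every pole `y` of `jk`;
* `h64_sum_poles_jk` : `∑_{y : ord_y jk < 0} (- ord_y jk) = [Fb : k(jk)]` (any chart `jk`);
* `h64_sum_poles_jk_mod`, `h64_cusp_sum` : for `k` the residue field of `A` over `q ∤ M`, the
  sum is `ψ(M)`, and `∑_{y : ord_y jk < 0} ord_y W = d * ψ(M)`.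
-/

set_option autoImplicit false

noncomputable section

open AlgebraicCurve IntermediateField ModularCurve
open scoped MatrixGroups
open Fermat.Agent.S18 Fermat.Agent.S24 Fermat.Agent.S27 Fermat.Agent.S34 Fermat.Agent.S37

namespace Fermat.Agent.S36

section Generic

variable {k Fb : Type*} [Field k] [Field Fb] [Algebra k Fb]

/-- Strict ultrametric equality: the term of smaller order wins. -/
theorem h64_ord_add_of_lt (y : Place k Fb) {f g : Fb} (hf : f ≠ 0) (hg : g ≠ 0)
    (h : y.ord f < y.ord g) : f + g ≠ 0 ∧ y.ord (f + g) = y.ord f := by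
  have hfg : f + g ≠ 0 := by
    intro h0
    have hgf : g = -f := eq_neg_of_add_eq_zero_right h0
    rw [hgf, h35_ord_neg] at h
    exact lt_irrefl _ h
  refine ⟨hfg, le_antisymm ?_ ?_⟩
  · have h1 := h35_ord_sub y hfg hg (by rwa [add_sub_cancel_right])
    rw [add_sub_cancel_right] at h1
    rcases min_le_iff.mp h1 with h2 | h2
    · exact h2
    · omega
  · have h1 := h35_ord_add y hf hg hfg
    rw [min_eq_left h.le] at h1
    exact h1

/-- At a pole of `J`, the order of a nonzero polynomial in `J` is `deg * ord J`. -/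
theorem h64_ord_aeval_of_pole_aux (y : Place k Fb) {J : Fb} (hJ : y.ord J < 0) :
    ∀ (n : ℕ) (P : Polynomial k), P ≠ 0 → P.natDegree = n →
      Polynomial.aeval J P ≠ 0 ∧ y.ord (Polynomial.aeval J P) = (n : ℤ) * y.ord J := by
  have hJ0 : J ≠ 0 := by
    rintro rfl
    rw [y.ord_zero] at hJ
    exact lt_irrefl _ hJ
  intro n
  induction n using Nat.strong_induction_on with
  | _ n ih =>
    intro P hP hn
    have ha : P.leadingCoeff ≠ 0 := Polynomial.leadingCoeff_ne_zero.mpr hP
    have haF : algebraMap k Fb P.leadingCoeff ≠ 0 := by simpa using ha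
    have hlead : Polynomial.aeval J (Polynomial.monomial n P.leadingCoeff) =
        algebraMap k Fb P.leadingCoeff * J ^ n := by
      rw [Polynomial.aeval_monomial]
    have hl0 : algebraMap k Fb P.leadingCoeff * J ^ n ≠ 0 := mul_ne_zero haF (pow_ne_zero n hJ0)
    have hlord : y.ord (algebraMap k Fb P.leadingCoeff * J ^ n) = (n : ℤ) * y.ord J := by
      rw [y.ord_mul haF (pow_ne_zero n hJ0), h24_ord_algebraMap, zero_add, ← zpow_natCast,
        y.ord_zpow]
    have hdecomp : P = P.eraseLead + Polynomial.monomial n P.leadingCoeff := by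
      rw [← hn]
      exact (Polynomial.eraseLead_add_monomial_natDegree_leadingCoeff P).symm
    by_cases he : P.eraseLead = 0
    · rw [hdecomp, he, zero_add, hlead]
      exact ⟨hl0, hlord⟩
    · have hlt : P.eraseLead.natDegree < n := by
        rw [← hn]
        exact (Polynomial.eraseLead_natDegree_lt_or_eraseLead_eq_zero P).resolve_right he
      obtain ⟨h1, h2⟩ := ih _ hlt P.eraseLead he rfl
      have hcmp : y.ord (algebraMap k Fb P.leadingCoeff * J ^ n) <
          y.ord (Polynomial.aeval J P.eraseLead) := by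
        rw [hlord, h2]
        have hmn : ((P.eraseLead.natDegree : ℕ) : ℤ) < (n : ℤ) := by exact_mod_cast hlt
        nlinarith [mul_pos (sub_pos.mpr hmn) (neg_pos.mpr hJ)]
      have key := h64_ord_add_of_lt y hl0 h1 hcmp
      have hsum : Polynomial.aeval J P =
          algebraMap k Fb P.leadingCoeff * J ^ n + Polynomial.aeval J P.eraseLead := by
        conv_lhs => rw [hdecomp]
        rw [map_add, hlead, add_comm]
      rw [hsum]
      exact ⟨key.1, key.2.trans hlord⟩

/-- At a pole of `J`, the order of a nonzero polynomial in `J` is `deg * ord J`. -/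
theorem h64_ord_aeval_of_pole (y : Place k Fb) {J : Fb} (hJ : y.ord J < 0)
    (P : Polynomial k) (hP : P ≠ 0) :
    Polynomial.aeval J P ≠ 0 ∧ y.ord (Polynomial.aeval J P) = (P.natDegree : ℤ) * y.ord J :=
  h64_ord_aeval_of_pole_aux y hJ P.natDegree P hP rfl

/-- A nonzero rational function of `J` has, at every pole `y` of `J`, the order
`- ord_{y₀} V * ord_y J`, where `y₀` is a simple pole of `J`. -/
theorem h64_ord_of_mem_adjoin (y₀ : Place k Fb) {J : Fb} (h0 : y₀.ord J = -1) {V : Fb}
    (hV : V ∈ k⟮J⟯) (hV0 : V ≠ 0) (y : Place k Fb) (hy : y.ord J < 0) :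
    y.ord V = - y₀.ord V * y.ord J := by
  obtain ⟨r, s, rfl⟩ := (IntermediateField.mem_adjoin_simple_iff k V).mp hV
  have hr0 : Polynomial.aeval J r ≠ 0 := fun h => hV0 (by rw [h, zero_div])
  have hs0 : Polynomial.aeval J s ≠ 0 := fun h => hV0 (by rw [h, div_zero])
  have hr : r ≠ 0 := fun h => hr0 (by rw [h, map_zero])
  have hs : s ≠ 0 := fun h => hs0 (by rw [h, map_zero])
  have h0' : y₀.ord J < 0 := by rw [h0]; norm_num
  have e1 := (h64_ord_aeval_of_pole y hy r hr).2
  have e2 := (h64_ord_aeval_of_pole y hy s hs).2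
  have e3 := (h64_ord_aeval_of_pole y₀ h0' r hr).2
  have e4 := (h64_ord_aeval_of_pole y₀ h0' s hs).2
  rw [div_eq_mul_inv, y.ord_mul hr0 (inv_ne_zero hs0), y.ord_inv, y₀.ord_mul hr0 (inv_ne_zero hs0),
    y₀.ord_inv, e1, e2, e3, e4, h0]
  ring

theorem h64_finrank_congr {E E' : IntermediateField k Fb} (h : E = E') :
    Module.finrank E Fb = Module.finrank E' Fb := by
  subst h
  rfl

/-- The polar divisor of a chart `J` has degree `[Fb : k(J)]`. -/
theorem h64_sum_poles [IsAlgClosed k] {J : Fb} (hJ : h75_IsChart k J)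
    (T : Finset (Place k Fb)) (hT : ∀ P : Place k Fb, P ∈ T ↔ P.ord J < 0) :
    ∑ P ∈ T, -(P.ord J) = (Module.finrank k⟮J⟯ Fb : ℤ) := by
  obtain ⟨s, hs, hsum⟩ := h75_fibre_main (h17_isChart_inv hJ) (0 : k)
  have hsT : s = T := by
    ext P
    rw [hs, hT, map_zero, sub_zero, P.ord_inv]
    omega
  rw [← hsT, ← h64_finrank_congr (h17_adjoin_inv J), ← hsum]
  refine Finset.sum_congr rfl fun P _ => ?_
  rw [map_zero, sub_zero, P.ord_inv]

end Generic

section Modular

variable (k : Type) [Field k] (M : ℕ) [NeZero M]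

/-- A rational function `W` of `j̄` with `Q`-expansion order `d` has order `- d * ord_y j̄` at
every place `y` over `j̄ = ∞`. -/
theorem h64_ord_of_mem_adjoin_jk {W : ↥(modularFunctionFieldFullC k M)} (hW0 : W ≠ 0)
    (hWk : W ∈ k⟮h54_jk k M⟯) (d : ℤ)
    (hord : ((W : ↥(modularFunctionFieldFullC k M)) : LaurentSeries k).order = d)
    (y : Place k ↥(modularFunctionFieldFullC k M)) (hy : y.ord (h54_jk k M) < 0) :
    y.ord W = - d * y.ord (h54_jk k M) := by
  have hj0 : h54_jk k M ≠ 0 := by
    intro h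
    rw [h, y.ord_zero] at hy
    exact lt_irrefl _ hy
  have h0 : (h11_placeInftyC k M).ord (h54_jk k M) = -1 := by
    rw [h11_placeInftyC_ord k M hj0]
    exact h59_jqModC_order k
  have key := h64_ord_of_mem_adjoin (h11_placeInftyC k M) h0 hWk hW0 y hy
  rw [h11_placeInftyC_ord k M hW0, hord] at key
  exact key

variable {k M}

/-- `∑_{y over j̄ = ∞} ord_y W = d * [Fb : k(j̄)]` for a rational function `W` of `j̄` of
`Q`-expansion order `d`. -/
theorem h64_cusp_sum_gen [IsAlgClosed k] (hJ : h75_IsChart k (h54_jk k M))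
    (T : Finset (Place k ↥(modularFunctionFieldFullC k M)))
    (hT : ∀ P : Place k ↥(modularFunctionFieldFullC k M), P ∈ T ↔ P.ord (h54_jk k M) < 0)
    {W : ↥(modularFunctionFieldFullC k M)} (hW0 : W ≠ 0)
    (hWk : W ∈ k⟮h54_jk k M⟯) (d : ℤ)
    (hord : ((W : ↥(modularFunctionFieldFullC k M)) : LaurentSeries k).order = d) :
    ∑ P ∈ T, P.ord W =
      d * (Module.finrank k⟮h54_jk k M⟯ ↥(modularFunctionFieldFullC k M) : ℤ) := by
  rw [← h64_sum_poles hJ T hT, Finset.mul_sum]
  refine Finset.sum_congr rfl fun P hP => ?_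
  rw [h64_ord_of_mem_adjoin_jk k M hW0 hWk d hord P ((hT P).mp hP)]
  ring

end Modular

section Residue

local notation "Qb" => AlgebraicClosure ℚ

variable (M q : ℕ) [NeZero M] [Fact q.Prime] (hqM : ¬ q ∣ M)
  (A : ValuationSubring Qb) (hA : A.LiesOverPrime q)

include hqM hA in
/-- The polar divisor of `j̄` on the reduction of `X₀(M)` modulo `q ∤ M` has degree `ψ(M)`. -/
theorem h64_sum_poles_jk_mod
    (T : Finset (Place (IsLocalRing.ResidueField A)
      ↥(modularFunctionFieldFullC (IsLocalRing.ResidueField A) M)))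
    (hT : ∀ P, P ∈ T ↔ P.ord (h54_jk (IsLocalRing.ResidueField A) M) < 0) :
    ∑ P ∈ T, -(P.ord (h54_jk (IsLocalRing.ResidueField A) M)) = (dedekindPsi M : ℤ) := by
  have : IsAlgClosed (IsLocalRing.ResidueField A) := h19_residueField_isAlgClosed A
  rw [h64_sum_poles (h84_isChart_jk M q hqM A hA) T hT, h39_mod_finrank_fb M hqM A hA,
    h29_card_quotient_Gamma0 M]

include hqM hA in
/-- **(CUSP-SUM)**: for `W ∈ k(j̄)` of `Q`-expansion order `d` on the reduction of `X₀(M)`
modulo `q ∤ M`: `∑_{y over j̄ = ∞} ord_y W = d * ψ(M)`. -/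
theorem h64_cusp_sum
    (T : Finset (Place (IsLocalRing.ResidueField A)
      ↥(modularFunctionFieldFullC (IsLocalRing.ResidueField A) M)))
    (hT : ∀ P, P ∈ T ↔ P.ord (h54_jk (IsLocalRing.ResidueField A) M) < 0)
    {W : ↥(modularFunctionFieldFullC (IsLocalRing.ResidueField A) M)} (hW0 : W ≠ 0)
    (hWk : W ∈ (IsLocalRing.ResidueField A)⟮h54_jk (IsLocalRing.ResidueField A) M⟯) (d : ℤ)
    (hord : ((W : ↥(modularFunctionFieldFullC (IsLocalRing.ResidueField A) M)) :
      LaurentSeries (IsLocalRing.ResidueField A)).order = d) :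
    ∑ P ∈ T, P.ord W = d * (dedekindPsi M : ℤ) := by
  have : IsAlgClosed (IsLocalRing.ResidueField A) := h19_residueField_isAlgClosed A
  rw [h64_cusp_sum_gen (h84_isChart_jk M q hqM A hA) T hT hW0 hWk d hord,
    h39_mod_finrank_fb M hqM A hA, h29_card_quotient_Gamma0 M]

end Residue

end Fermat.Agent.S36

end
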