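import Mathlib
import Fermat.Agent.S34.h60_Pair
import Fermat.Agent.S34.h84_FrobMod
import Fermat.Agent.S36.h64_CuspSum
import Fermat.Agent.S36.h20_Theta

/-!
# S36 (HASSE package, row (U); helper84)

Level `M q`, `q ∤ M`, `A` a valuation ring of `ℚ̄` over `q`, `k` its residue field,
`R₁ = h60_R1`, `R₂ = h60_R2`, `w = h60_w`, `J = h59_jbar (M q)`, `j̄ = h54_jk k M`.

For ANY `ρ ∈ F(Mq)` (in the application `ρ = q⁻¹ d(wJ)/dJ`, with `red₁ ρ ≠ 0` and
`w ρ · ρ · q² = 1`):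

* `h84_u` : `u = ρ⁶ J⁴ (J - 1728)³ / ((wJ)⁴ (wJ - 1728)³)`  (`= q⁶ Δ(qτ)/Δ(τ)`);
* `h84_u_swap` : `w u · u · q¹² = 1`;
* `h84_u_mem_R1`, `h84_redF_u_ne_zero`, `h84_redF_rho_pow`, `h84_redF_u_eq` :
  `u ∈ O₁`, `W := red₁ u ≠ 0`, `(red₁ ρ)⁶ = W · (j̄⁴ (j̄ - 1728)³)^(q-1)`;
* `h84_u_inv_R1`, `h84_u_inv_mem_R2`, `h84_redF2_u_inv` : `u⁻¹ ∈ O₁ ∩ O₂` with reductions
  `(W⁻¹, 0)`;
* `h84_q12u_mem_R1`, `h84_redF1_q12u`, `h84_q12u_mem_R2`, `h84_redF2_q12u` :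
  `q¹² u ∈ O₁ ∩ O₂` with reductions `(0, W⁻¹)`;
* `h84_W_mem_adjoin` : `W ∈ k(j̄)` if `red₁ ρ ∈ k(j̄)`.

The cusp orders of `W` (row (W-CUSP)) are in `h84_UnitCusp.lean`.
-/

set_option autoImplicit false
set_option synthInstance.maxHeartbeats 400000
set_option linter.unusedSectionVars false

noncomputable section

open ModularCurve AlgebraicCurve IntermediateField

namespace Fermat.Agent.S36

open Fermat.Agent.S18 Fermat.Agent.S24 Fermat.Agent.S27 Fermat.Agent.S34 Fermat.Agent.S37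

local notation "Qb" => AlgebraicClosure ℚ

section Generic

variable {K F k Fb : Type*} [Field K] [Field F] [Algebra K F] [Field k] [Field Fb] [Algebra k Fb]

theorem h84_natCast_mem_O (R : h39_RedDatum K F k Fb) (n : ℕ) : (n : F) ∈ R.O :=
  natCast_mem R.O n

theorem h84_redF_natCast (R : h39_RedDatum K F k Fb) (n : ℕ) : R.redF (n : F) = (n : Fb) := by
  rw [R.redF_of_mem (h84_natCast_mem_O R n)]
  have h : (⟨(n : F), h84_natCast_mem_O R n⟩ : R.O) = ((n : ℕ) : R.O) := Subtype.ext (by simp)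
  rw [h, map_natCast]

theorem h84_ofNat_mem_O (R : h39_RedDatum K F k Fb) : (1728 : F) ∈ R.O := by
  have h : (1728 : F) = ((1728 : ℕ) : F) := by norm_num
  rw [h]
  exact h84_natCast_mem_O R 1728

theorem h84_redF_ofNat (R : h39_RedDatum K F k Fb) : R.redF (1728 : F) = (1728 : Fb) := by
  have h : (1728 : F) = ((1728 : ℕ) : F) := by norm_num
  rw [h, h84_redF_natCast]
  norm_num

/-- A transcendental element is not a natural number. -/
theorem h84_transc_ne_natCast {x : F} (hx : Transcendental K x) (n : ℕ) : x - (n : F) ≠ 0 := by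
  intro h
  apply hx
  rw [sub_eq_zero.mp h, ← map_natCast (algebraMap K F)]
  exact isAlgebraic_algebraMap _

theorem h84_transc_ne_zero {x : F} (hx : Transcendental K x) : x ≠ 0 := by
  intro h
  apply hx
  rw [h]
  exact isAlgebraic_zero

theorem h84_transc_ne_ofNat {x : F} (hx : Transcendental K x) : x - (1728 : F) ≠ 0 := by
  have h : (1728 : F) = ((1728 : ℕ) : F) := by norm_num
  rw [h]
  exact h84_transc_ne_natCast hx 1728

/-- Frobenius on the polynomial `X⁴ (X - 1728)³` in characteristic `q`. -/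
theorem h84_T_frob {E : Type*} [Field E] (q : ℕ) [Fact q.Prime] [CharP E q] (x : E) :
    (x ^ q) ^ 4 * (x ^ q - 1728) ^ 3 = (x ^ 4 * (x - 1728) ^ 3) ^ q := by
  have hfr : (1728 : E) ^ q = 1728 := by
    have h := map_natCast (frobenius E q) 1728
    rw [frobenius_def] at h
    exact_mod_cast h
  have hsub : (x - 1728) ^ q = x ^ q - 1728 := by rw [sub_pow_char, hfr]
  rw [← hsub, mul_pow, ← pow_mul, ← pow_mul, ← pow_mul, ← pow_mul, mul_comm q 4, mul_comm q 3]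

theorem h84_cancel_pow {E : Type*} [Field E] (r T : E) (hT : T ≠ 0) (q : ℕ) (hq : 0 < q) :
    r = r * T * (T ^ q)⁻¹ * T ^ (q - 1) := by
  have hpow : T ^ q = T ^ (q - 1) * T := by rw [← pow_succ, Nat.sub_add_cancel hq]
  have hp1 := pow_ne_zero (q - 1) hT
  rw [hpow]
  field_simp

end Generic

section U

variable (M q : ℕ) [NeZero M] [NeZero q] [Fact q.Prime] (hqM : ¬ q ∣ M)
  (A : ValuationSubring Qb) (hA : A.LiesOverPrime q)

/-- **The modular unit** `u = ρ⁶ J⁴ (J - 1728)³ / ((wJ)⁴ (wJ - 1728)³)` of level `M q`. -/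
def h84_u (ρ : ↥(modularFunctionFieldBar (M * q))) : ↥(modularFunctionFieldBar (M * q)) :=
  ρ ^ 6 * (h59_jbar (M * q) ^ 4 * (h59_jbar (M * q) - 1728) ^ 3) /
    (h60_w M q hqM (h59_jbar (M * q)) ^ 4 * (h60_w M q hqM (h59_jbar (M * q)) - 1728) ^ 3)

/-- `w J = j(Q^q)`. -/
theorem h84_w_jbar :
    h60_w M q hqM (h59_jbar (M * q)) = heckeBetaBar Qb M q (h59_jbar M) := by
  have h : h59_jbar (M * q) = heckeAlphaBar Qb M q (h59_jbar M) := Subtype.ext rfl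
  rw [h, h60_w_alpha]

omit [NeZero M] [NeZero q] [Fact q.Prime] in
theorem h84_T_ne_zero :
    h59_jbar (M * q) ^ 4 * (h59_jbar (M * q) - 1728) ^ 3 ≠ 0 :=
  mul_ne_zero (pow_ne_zero _ (h84_transc_ne_zero (h59_jbar_transcendental (M * q))))
    (pow_ne_zero _ (h84_transc_ne_ofNat (h59_jbar_transcendental (M * q))))

theorem h84_wT_ne_zero :
    h60_w M q hqM (h59_jbar (M * q)) ^ 4 * (h60_w M q hqM (h59_jbar (M * q)) - 1728) ^ 3 ≠ 0 := by
  have h : h60_w M q hqM (h59_jbar (M * q) ^ 4 * (h59_jbar (M * q) - 1728) ^ 3)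
      = h60_w M q hqM (h59_jbar (M * q)) ^ 4 * (h60_w M q hqM (h59_jbar (M * q)) - 1728) ^ 3 := by
    rw [map_mul, map_pow, map_pow, map_sub, map_ofNat]
  rw [← h]
  exact (map_ne_zero _).mpr (h84_T_ne_zero M q)

/-- **(U), swap**: `w u · u · q¹² = 1` if `w ρ · ρ · q² = 1`. -/
theorem h84_u_swap (ρ : ↥(modularFunctionFieldBar (M * q)))
    (hρw : h60_w M q hqM ρ * ρ * (q : ↥(modularFunctionFieldBar (M * q))) ^ 2 = 1) :
    h60_w M q hqM (h84_u M q hqM ρ) * h84_u M q hqM ρ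
      * (q : ↥(modularFunctionFieldBar (M * q))) ^ 12 = 1 := by
  have hJ0 : h59_jbar (M * q) ≠ 0 := h84_transc_ne_zero (h59_jbar_transcendental (M * q))
  have hJ1 : h59_jbar (M * q) - 1728 ≠ 0 := h84_transc_ne_ofNat (h59_jbar_transcendental (M * q))
  have hwJ0 : h60_w M q hqM (h59_jbar (M * q)) ≠ 0 := (map_ne_zero _).mpr hJ0
  have hwJ1 : h60_w M q hqM (h59_jbar (M * q)) - 1728 ≠ 0 := by
    have h := (map_ne_zero (h60_w M q hqM)).mpr hJ1
    rwa [map_sub, map_ofNat] at h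
  have key : h60_w M q hqM (h84_u M q hqM ρ) * h84_u M q hqM ρ
      * (q : ↥(modularFunctionFieldBar (M * q))) ^ 12
      = (h60_w M q hqM ρ * ρ * (q : ↥(modularFunctionFieldBar (M * q))) ^ 2) ^ 6 := by
    unfold h84_u
    rw [map_div₀, map_mul, map_pow, map_mul, map_pow, map_pow, map_sub, map_ofNat, map_mul,
      map_pow, map_pow, map_sub, map_ofNat, h60_w_w]
    field_simp
  rw [key, hρw, one_pow]

/-! ### Reductions of `J` and `w J` -/

theorem h84_jbar_mem : h59_jbar (M * q) ∈ (h60_R1 M q hqM A hA).O := by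
  have hRM := h54_isModRed M hqM A hA
  have hj : h59_jbar M ∈ (h54_redDatum M hqM A hA).O :=
    hRM.mem_of_integral _ _ (h54_coe_jbar M A)
  have h : h59_jbar (M * q) = heckeAlphaBar Qb M q (h59_jbar M) := Subtype.ext rfl
  rw [h]
  exact h60_R1_alpha_mem M q hqM A hA hRM ⟨_, hj⟩

theorem h84_redF_jbar :
    (h60_R1 M q hqM A hA).redF (h59_jbar (M * q)) = h54_jk (IsLocalRing.ResidueField A) M := by
  have hRM := h54_isModRed M hqM A hA
  have h : h59_jbar (M * q) = heckeAlphaBar Qb M q (h59_jbar M) := Subtype.ext rfl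
  rw [h, h60_R1_redF_alpha M q hqM A hA hRM, h54_redF_jbar hRM]

theorem h84_wjbar_mem : h60_w M q hqM (h59_jbar (M * q)) ∈ (h60_R1 M q hqM A hA).O := by
  have hRM := h54_isModRed M hqM A hA
  have hj : h59_jbar M ∈ (h54_redDatum M hqM A hA).O :=
    hRM.mem_of_integral _ _ (h54_coe_jbar M A)
  rw [h84_w_jbar]
  exact h60_R1_beta_mem M q hqM A hA hRM ⟨_, hj⟩

theorem h84_redF_wjbar :
    (h60_R1 M q hqM A hA).redF (h60_w M q hqM (h59_jbar (M * q)))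
      = h54_jk (IsLocalRing.ResidueField A) M ^ q := by
  have : CharP (IsLocalRing.ResidueField A) q := h19_residueField_charP A q hA
  have hRM := h54_isModRed M hqM A hA
  rw [h84_w_jbar]
  apply Subtype.ext
  rw [h60_R1_redF_beta_coe M q hqM A hA hRM, h54_redF_jbar hRM]
  show qExpand (IsLocalRing.ResidueField A) q (jqModC (IsLocalRing.ResidueField A))
    = (jqModC (IsLocalRing.ResidueField A)) ^ q
  exact (h60_jq_pow (IsLocalRing.ResidueField A) q).symm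

/-! ### Reduction of the two polynomial factors -/

theorem h84_T_mem :
    h59_jbar (M * q) ^ 4 * (h59_jbar (M * q) - 1728) ^ 3 ∈ (h60_R1 M q hqM A hA).O :=
  (h60_R1 M q hqM A hA).O.mul_mem _ _
    ((h60_R1 M q hqM A hA).O.pow_mem (h84_jbar_mem M q hqM A hA) 4)
    ((h60_R1 M q hqM A hA).O.pow_mem
      ((h60_R1 M q hqM A hA).O.sub_mem (h84_jbar_mem M q hqM A hA) (h84_ofNat_mem_O _)) 3)

theorem h84_redF_T :
    (h60_R1 M q hqM A hA).redF (h59_jbar (M * q) ^ 4 * (h59_jbar (M * q) - 1728) ^ 3)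
      = h54_jk (IsLocalRing.ResidueField A) M ^ 4
        * (h54_jk (IsLocalRing.ResidueField A) M - 1728) ^ 3 := by
  have hJ := h84_jbar_mem M q hqM A hA
  have h1 := h84_ofNat_mem_O (h60_R1 M q hqM A hA)
  have hs := (h60_R1 M q hqM A hA).O.sub_mem hJ h1
  rw [h39_redF_mul _ ((h60_R1 M q hqM A hA).O.pow_mem hJ 4)
      ((h60_R1 M q hqM A hA).O.pow_mem hs 3),
    h39_redF_pow _ hJ, h39_redF_pow _ hs, h39_redF_sub _ hJ h1, h84_redF_jbar, h84_redF_ofNat]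

theorem h84_wT_mem :
    h60_w M q hqM (h59_jbar (M * q)) ^ 4 * (h60_w M q hqM (h59_jbar (M * q)) - 1728) ^ 3
      ∈ (h60_R1 M q hqM A hA).O :=
  (h60_R1 M q hqM A hA).O.mul_mem _ _
    ((h60_R1 M q hqM A hA).O.pow_mem (h84_wjbar_mem M q hqM A hA) 4)
    ((h60_R1 M q hqM A hA).O.pow_mem
      ((h60_R1 M q hqM A hA).O.sub_mem (h84_wjbar_mem M q hqM A hA) (h84_ofNat_mem_O _)) 3)

theorem h84_redF_wT :
    (h60_R1 M q hqM A hA).redF
        (h60_w M q hqM (h59_jbar (M * q)) ^ 4 * (h60_w M q hqM (h59_jbar (M * q)) - 1728) ^ 3)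
      = (h54_jk (IsLocalRing.ResidueField A) M ^ 4
        * (h54_jk (IsLocalRing.ResidueField A) M - 1728) ^ 3) ^ q := by
  have : CharP (IsLocalRing.ResidueField A) q := h19_residueField_charP A q hA
  have : CharP ↥(modularFunctionFieldFullC (IsLocalRing.ResidueField A) M) q :=
    charP_of_injective_algebraMap
      (algebraMap (IsLocalRing.ResidueField A)
        ↥(modularFunctionFieldFullC (IsLocalRing.ResidueField A) M)).injective q
  have hJ := h84_wjbar_mem M q hqM A hA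
  have h1 := h84_ofNat_mem_O (h60_R1 M q hqM A hA)
  have hs := (h60_R1 M q hqM A hA).O.sub_mem hJ h1
  rw [h39_redF_mul _ ((h60_R1 M q hqM A hA).O.pow_mem hJ 4)
      ((h60_R1 M q hqM A hA).O.pow_mem hs 3),
    h39_redF_pow _ hJ, h39_redF_pow _ hs, h39_redF_sub _ hJ h1, h84_redF_wjbar, h84_redF_ofNat]
  exact h84_T_frob q _

omit [NeZero q] [Fact q.Prime] in
theorem h84_Tb_ne_zero (k : Type) [Field k] :
    h54_jk k M ^ 4 * (h54_jk k M - 1728) ^ 3 ≠ 0 :=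
  mul_ne_zero (pow_ne_zero _ (h84_transc_ne_zero (h54_jk_transcendental k M)))
    (pow_ne_zero _ (h84_transc_ne_ofNat (h54_jk_transcendental k M)))

/-! ### The unit `u` on the first component -/

/-- **(U)**: `u ∈ O₁`. -/
theorem h84_u_mem_R1 (ρ : ↥(modularFunctionFieldBar (M * q)))
    (hρ : ρ ∈ (h60_R1 M q hqM A hA).O) :
    h84_u M q hqM ρ ∈ (h60_R1 M q hqM A hA).O := by
  have hD : (h60_R1 M q hqM A hA).redF
      (h60_w M q hqM (h59_jbar (M * q)) ^ 4 * (h60_w M q hqM (h59_jbar (M * q)) - 1728) ^ 3)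
      ≠ 0 := by
    rw [h84_redF_wT]
    exact pow_ne_zero _ (h84_Tb_ne_zero M _)
  unfold h84_u
  rw [div_eq_mul_inv]
  exact (h60_R1 M q hqM A hA).O.mul_mem _ _
    ((h60_R1 M q hqM A hA).O.mul_mem _ _ ((h60_R1 M q hqM A hA).O.pow_mem hρ 6)
      (h84_T_mem M q hqM A hA))
    (h39_inv_of_redF_ne_zero _ hD).1

/-- **(U)**: `(red₁ ρ)⁶ = W · (j̄⁴ (j̄ - 1728)³)^(q-1)` for `W = red₁ u`. -/
theorem h84_redF_rho_pow (ρ : ↥(modularFunctionFieldBar (M * q)))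
    (hρ : ρ ∈ (h60_R1 M q hqM A hA).O) :
    (h60_R1 M q hqM A hA).redF ρ ^ 6
      = (h60_R1 M q hqM A hA).redF (h84_u M q hqM ρ)
        * (h54_jk (IsLocalRing.ResidueField A) M ^ 4
          * (h54_jk (IsLocalRing.ResidueField A) M - 1728) ^ 3) ^ (q - 1) := by
  have hTb := h84_Tb_ne_zero M (IsLocalRing.ResidueField A)
  have hD : (h60_R1 M q hqM A hA).redF
      (h60_w M q hqM (h59_jbar (M * q)) ^ 4 * (h60_w M q hqM (h59_jbar (M * q)) - 1728) ^ 3)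
      ≠ 0 := by
    rw [h84_redF_wT]
    exact pow_ne_zero _ hTb
  obtain ⟨hDi, hDr⟩ := h39_inv_of_redF_ne_zero _ hD
  have hN := (h60_R1 M q hqM A hA).O.mul_mem _ _ ((h60_R1 M q hqM A hA).O.pow_mem hρ 6)
      (h84_T_mem M q hqM A hA)
  have hu : (h60_R1 M q hqM A hA).redF (h84_u M q hqM ρ)
      = (h60_R1 M q hqM A hA).redF ρ ^ 6
        * (h54_jk (IsLocalRing.ResidueField A) M ^ 4
          * (h54_jk (IsLocalRing.ResidueField A) M - 1728) ^ 3)
        * ((h54_jk (IsLocalRing.ResidueField A) M ^ 4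
          * (h54_jk (IsLocalRing.ResidueField A) M - 1728) ^ 3) ^ q)⁻¹ := by
    unfold h84_u
    rw [div_eq_mul_inv, h39_redF_mul _ hN hDi, hDr, h84_redF_wT,
      h39_redF_mul _ ((h60_R1 M q hqM A hA).O.pow_mem hρ 6) (h84_T_mem M q hqM A hA),
      h39_redF_pow _ hρ, h84_redF_T]
  rw [hu]
  exact h84_cancel_pow _ _ hTb q (Fact.out : q.Prime).pos

/-- **(U)**: `W = red₁ u ≠ 0`. -/
theorem h84_redF_u_ne_zero (ρ : ↥(modularFunctionFieldBar (M * q)))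
    (hρ0 : (h60_R1 M q hqM A hA).redF ρ ≠ 0) :
    (h60_R1 M q hqM A hA).redF (h84_u M q hqM ρ) ≠ 0 := by
  intro h
  have h1 := h84_redF_rho_pow M q hqM A hA ρ (h39_mem_of_redF_ne_zero _ hρ0)
  rw [h, zero_mul] at h1
  exact hρ0 (pow_eq_zero_iff (by norm_num) |>.mp h1)

theorem h84_u_ne_zero (ρ : ↥(modularFunctionFieldBar (M * q)))
    (hρ0 : (h60_R1 M q hqM A hA).redF ρ ≠ 0) : h84_u M q hqM ρ ≠ 0 := by
  intro h
  apply h84_redF_u_ne_zero M q hqM A hA ρ hρ0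
  rw [h, h39_redF_zero]

/-- **(U)**: `u⁻¹ ∈ O₁` and `red₁ u⁻¹ = W⁻¹`. -/
theorem h84_u_inv_R1 (ρ : ↥(modularFunctionFieldBar (M * q)))
    (hρ0 : (h60_R1 M q hqM A hA).redF ρ ≠ 0) :
    (h84_u M q hqM ρ)⁻¹ ∈ (h60_R1 M q hqM A hA).O ∧
      (h60_R1 M q hqM A hA).redF (h84_u M q hqM ρ)⁻¹
        = ((h60_R1 M q hqM A hA).redF (h84_u M q hqM ρ))⁻¹ :=
  h39_inv_of_redF_ne_zero _ (h84_redF_u_ne_zero M q hqM A hA ρ hρ0)

/-! ### The constant `q` -/

theorem h84_q_mem_A1 : (q : Qb) ∈ (h60_R1 M q hqM A hA).A := by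
  rw [h60_R1_A]
  exact ValuationSubring.nonunits_subset hA

theorem h84_resK_q : (h60_R1 M q hqM A hA).resK (q : Qb) = 0 := by
  have hq0 : (q : Qb) ≠ 0 := Nat.cast_ne_zero.mpr (Fact.out : q.Prime).ne_zero
  have hqinv : (q : Qb)⁻¹ ∉ A := ((ValuationSubring.mem_nonunits_iff_or A).mp hA).resolve_left hq0
  exact (h39_resK_eq_zero_iff _ (h84_q_mem_A1 M q hqM A hA)).mpr
    (Or.inr (by rw [h60_R1_A]; exact hqinv))

theorem h84_q_mem_R1 :
    algebraMap Qb ↥(modularFunctionFieldBar (M * q)) (q : Qb) ∈ (h60_R1 M q hqM A hA).O :=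
  ((h60_R1 M q hqM A hA).mem_iff _).mp (h84_q_mem_A1 M q hqM A hA)

theorem h84_redF_q :
    (h60_R1 M q hqM A hA).redF (algebraMap Qb ↥(modularFunctionFieldBar (M * q)) (q : Qb)) = 0 := by
  rw [h39_redF_algebraMap _ (h84_q_mem_A1 M q hqM A hA), h84_resK_q, map_zero]

/-- **(U)**: `q¹² u ∈ O₁` ... -/
theorem h84_q12u_mem_R1 (ρ : ↥(modularFunctionFieldBar (M * q)))
    (hρ : ρ ∈ (h60_R1 M q hqM A hA).O) :
    algebraMap Qb ↥(modularFunctionFieldBar (M * q)) (q : Qb) ^ 12 * h84_u M q hqM ρ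
      ∈ (h60_R1 M q hqM A hA).O :=
  (h60_R1 M q hqM A hA).O.mul_mem _ _
    ((h60_R1 M q hqM A hA).O.pow_mem (h84_q_mem_R1 M q hqM A hA) 12)
    (h84_u_mem_R1 M q hqM A hA ρ hρ)

/-- ... with `red₁ (q¹² u) = 0`. -/
theorem h84_redF1_q12u (ρ : ↥(modularFunctionFieldBar (M * q)))
    (hρ : ρ ∈ (h60_R1 M q hqM A hA).O) :
    (h60_R1 M q hqM A hA).redF
      (algebraMap Qb ↥(modularFunctionFieldBar (M * q)) (q : Qb) ^ 12 * h84_u M q hqM ρ) = 0 := by
  rw [h39_redF_mul _ ((h60_R1 M q hqM A hA).O.pow_mem (h84_q_mem_R1 M q hqM A hA) 12)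
      (h84_u_mem_R1 M q hqM A hA ρ hρ),
    h39_redF_pow _ (h84_q_mem_R1 M q hqM A hA), h84_redF_q, zero_pow (by norm_num), zero_mul]

/-! ### The second component -/

/-- `w (q¹² u) = u⁻¹`. -/
theorem h84_w_q12u (ρ : ↥(modularFunctionFieldBar (M * q)))
    (hρw : h60_w M q hqM ρ * ρ * (q : ↥(modularFunctionFieldBar (M * q))) ^ 2 = 1) :
    h60_w M q hqM
        (algebraMap Qb ↥(modularFunctionFieldBar (M * q)) (q : Qb) ^ 12 * h84_u M q hqM ρ)
      = (h84_u M q hqM ρ)⁻¹ := by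
  have h := h84_u_swap M q hqM ρ hρw
  rw [map_mul, map_pow, h60_w_algebraMap, map_natCast]
  apply eq_inv_of_mul_eq_one_left
  rw [← h]
  ring

/-- `w (u⁻¹) = q¹² u`. -/
theorem h84_w_u_inv (ρ : ↥(modularFunctionFieldBar (M * q)))
    (hρw : h60_w M q hqM ρ * ρ * (q : ↥(modularFunctionFieldBar (M * q))) ^ 2 = 1) :
    h60_w M q hqM (h84_u M q hqM ρ)⁻¹
      = algebraMap Qb ↥(modularFunctionFieldBar (M * q)) (q : Qb) ^ 12 * h84_u M q hqM ρ := by
  rw [← h84_w_q12u M q hqM ρ hρw, h60_w_w]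

/-- **(U)**: `q¹² u ∈ O₂` (`hu2` of `h81_CountHyp`, `π = q`). -/
theorem h84_q12u_mem_R2 (ρ : ↥(modularFunctionFieldBar (M * q)))
    (hρ0 : (h60_R1 M q hqM A hA).redF ρ ≠ 0)
    (hρw : h60_w M q hqM ρ * ρ * (q : ↥(modularFunctionFieldBar (M * q))) ^ 2 = 1) :
    algebraMap Qb ↥(modularFunctionFieldBar (M * q)) (q : Qb) ^ 12 * h84_u M q hqM ρ
      ∈ (h60_R2 M q hqM A hA).O := by
  rw [h60_R2_mem_iff, h84_w_q12u M q hqM ρ hρw]
  exact (h84_u_inv_R1 M q hqM A hA ρ hρ0).1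

/-- **(U)**: `red₂ (q¹² u) = W⁻¹`. -/
theorem h84_redF2_q12u (ρ : ↥(modularFunctionFieldBar (M * q)))
    (hρ0 : (h60_R1 M q hqM A hA).redF ρ ≠ 0)
    (hρw : h60_w M q hqM ρ * ρ * (q : ↥(modularFunctionFieldBar (M * q))) ^ 2 = 1) :
    (h60_R2 M q hqM A hA).redF
        (algebraMap Qb ↥(modularFunctionFieldBar (M * q)) (q : Qb) ^ 12 * h84_u M q hqM ρ)
      = ((h60_R1 M q hqM A hA).redF (h84_u M q hqM ρ))⁻¹ := by
  rw [h60_R2_redF, h84_w_q12u M q hqM ρ hρw]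
  exact (h84_u_inv_R1 M q hqM A hA ρ hρ0).2

/-- **(U)**: `u⁻¹ ∈ O₂`. -/
theorem h84_u_inv_mem_R2 (ρ : ↥(modularFunctionFieldBar (M * q)))
    (hρ : ρ ∈ (h60_R1 M q hqM A hA).O)
    (hρw : h60_w M q hqM ρ * ρ * (q : ↥(modularFunctionFieldBar (M * q))) ^ 2 = 1) :
    (h84_u M q hqM ρ)⁻¹ ∈ (h60_R2 M q hqM A hA).O := by
  rw [h60_R2_mem_iff, h84_w_u_inv M q hqM ρ hρw]
  exact h84_q12u_mem_R1 M q hqM A hA ρ hρ

/-- **(U)**: `red₂ u⁻¹ = 0`. -/
theorem h84_redF2_u_inv (ρ : ↥(modularFunctionFieldBar (M * q)))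
    (hρ : ρ ∈ (h60_R1 M q hqM A hA).O)
    (hρw : h60_w M q hqM ρ * ρ * (q : ↥(modularFunctionFieldBar (M * q))) ^ 2 = 1) :
    (h60_R2 M q hqM A hA).redF (h84_u M q hqM ρ)⁻¹ = 0 := by
  rw [h60_R2_redF, h84_w_u_inv M q hqM ρ hρw]
  exact h84_redF1_q12u M q hqM A hA ρ hρ

end U

/-! ### (W-CUSP) -/

section WCusp

variable (M q : ℕ) [NeZero M] [NeZero q] [Fact q.Prime] (hqM : ¬ q ∣ M)
  (A : ValuationSubring Qb) (hA : A.LiesOverPrime q)

omit [NeZero q] [Fact q.Prime] in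
theorem h84_Tb_mem_adjoin (k : Type) [Field k] :
    h54_jk k M ^ 4 * (h54_jk k M - 1728) ^ 3 ∈ k⟮h54_jk k M⟯ :=
  mul_mem (pow_mem (mem_adjoin_simple_self k _) 4)
    (pow_mem (sub_mem (mem_adjoin_simple_self k _) (ofNat_mem _ 1728)) 3)

/-- `W = (red₁ ρ)⁶ · T / T^q`. -/
theorem h84_redF_u_eq (ρ : ↥(modularFunctionFieldBar (M * q)))
    (hρ : ρ ∈ (h60_R1 M q hqM A hA).O) :
    (h60_R1 M q hqM A hA).redF (h84_u M q hqM ρ)
      = (h60_R1 M q hqM A hA).redF ρ ^ 6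
        * (h54_jk (IsLocalRing.ResidueField A) M ^ 4
          * (h54_jk (IsLocalRing.ResidueField A) M - 1728) ^ 3)
        * ((h54_jk (IsLocalRing.ResidueField A) M ^ 4
          * (h54_jk (IsLocalRing.ResidueField A) M - 1728) ^ 3) ^ q)⁻¹ := by
  have hTb := h84_Tb_ne_zero M (IsLocalRing.ResidueField A)
  have hp1 := pow_ne_zero (q - 1) hTb
  have hpq := pow_ne_zero q hTb
  have h := h84_redF_rho_pow M q hqM A hA ρ hρ
  have hpow : (h54_jk (IsLocalRing.ResidueField A) M ^ 4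
      * (h54_jk (IsLocalRing.ResidueField A) M - 1728) ^ 3) ^ q
      = (h54_jk (IsLocalRing.ResidueField A) M ^ 4
        * (h54_jk (IsLocalRing.ResidueField A) M - 1728) ^ 3) ^ (q - 1)
        * (h54_jk (IsLocalRing.ResidueField A) M ^ 4
          * (h54_jk (IsLocalRing.ResidueField A) M - 1728) ^ 3) := by
    rw [← pow_succ, Nat.sub_add_cancel (Fact.out : q.Prime).pos]
  rw [h, eq_mul_inv_iff_mul_eq₀ hpq, hpow]
  ring

/-- **(W-CUSP), (ii)**: `W ∈ k(j̄)` if `red₁ ρ ∈ k(j̄)`. -/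
theorem h84_W_mem_adjoin (ρ : ↥(modularFunctionFieldBar (M * q)))
    (hρ : ρ ∈ (h60_R1 M q hqM A hA).O)
    (hk : (h60_R1 M q hqM A hA).redF ρ
      ∈ (IsLocalRing.ResidueField A)⟮h54_jk (IsLocalRing.ResidueField A) M⟯) :
    (h60_R1 M q hqM A hA).redF (h84_u M q hqM ρ)
      ∈ (IsLocalRing.ResidueField A)⟮h54_jk (IsLocalRing.ResidueField A) M⟯ := by
  rw [h84_redF_u_eq M q hqM A hA ρ hρ]
  exact mul_mem (mul_mem (pow_mem hk 6) (h84_Tb_mem_adjoin M _))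
    (inv_mem (pow_mem (h84_Tb_mem_adjoin M _) q))

end WCusp

end Fermat.Agent.S36

end
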