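import Mathlib
import Fermat.Agent.S36.h84_UnitU

/-!
# S36 (HASSE package, row (W-CUSP); helper84)

Level `M q`, `q ∤ M`, `A` over `q`, `k` the residue field, `R₁ = h60_R1`, `j̄ = h54_jk k M`,
`u = h84_u M q hqM ρ`, `W = red₁ u`.

* `h84_order_theta` / `h84_order_theta_pow` : the `Q`-order of `(θ j̄)^n` is `-n`;
* `h84_W_order` : if `red₁ ρ ≠ 0` has `Q`-order `-(q-1)` then `W` has `Q`-order `q - 1`;
* `h84_fullC_one` : the level-one field over `k` is `k(j)`;
* `h84_mem_adjoin_of_coe_mem` : an element of the level-`M` field whose `Q`-expansion lies in the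
  level-one field lies in `k(j̄)`;
* `h84_redF_mem_adjoin_of_level_one` : the level-one descent: if the `q`-expansion of `ρ ∈ O₁` is
  the expansion of a function of level `(1, q)`, then `red₁ ρ ∈ k(j̄)`;
* `h84_W_cusp`, `h84_W_cusp_sum` : **(W-CUSP)**: `ord_y W = -(q-1) ord_y j̄` at every place over
  `j̄ = ∞`, and `∑_{y over j̄ = ∞} ord_y W = (q-1) ψ(M)`.
-/

set_option autoImplicit false
set_option synthInstance.maxHeartbeats 400000
set_option linter.unusedSectionVars false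

noncomputable section

open ModularCurve AlgebraicCurve IntermediateField

namespace Fermat.Agent.S36

open Fermat.Agent.S18 Fermat.Agent.S24 Fermat.Agent.S27 Fermat.Agent.S34 Fermat.Agent.S37

local notation "Qb" => AlgebraicClosure ℚ

section Theta

variable (k : Type) [Field k]

/-- `θ j̄` has `Q`-order `-1`. -/
theorem h84_order_theta : (h20_thetaFun (jqModC k)).order = -1 := by
  have hj := h59_jqModC_order k
  have hj0 : jqModC k ≠ 0 := by
    intro h
    rw [h, HahnSeries.order_zero] at hj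
    norm_num at hj
  have hc : (jqModC k).coeff (-1) ≠ 0 := by
    have := mt HahnSeries.coeff_order_eq_zero.mp hj0
    rwa [hj] at this
  have hθc : (h20_thetaFun (jqModC k)).coeff (-1) ≠ 0 := by
    rw [h20_thetaFun_coeff]
    refine mul_ne_zero ?_ hc
    simp
  have hθ0 : h20_thetaFun (jqModC k) ≠ 0 := by
    intro h
    rw [h] at hθc
    exact hθc rfl
  apply le_antisymm (HahnSeries.order_le_of_coeff_ne_zero hθc)
  by_contra hlt
  rw [not_le] at hlt
  apply mt HahnSeries.coeff_order_eq_zero.mp hθ0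
  rw [h20_thetaFun_coeff, HahnSeries.coeff_eq_zero_of_lt_order (by rw [hj]; exact hlt), mul_zero]

theorem h84_theta_ne_zero : h20_thetaFun (jqModC k) ≠ 0 := by
  intro h
  have h1 := h84_order_theta k
  rw [h, HahnSeries.order_zero] at h1
  norm_num at h1

/-- `(θ j̄)^n` has `Q`-order `-n`. -/
theorem h84_order_theta_pow (n : ℕ) : (h20_thetaFun (jqModC k) ^ n).order = -(n : ℤ) := by
  rw [HahnSeries.order_pow, h84_order_theta]
  simp

end Theta

section Descent

variable (k : Type) [Field k]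

theorem h84_divisorExpansionsC_one : divisorExpansionsC k 1 = {jqModC k} := by
  ext x
  constructor
  · rintro ⟨d, hd, hd1, rfl⟩
    have h1 : d = 1 := Nat.dvd_one.mp hd1
    subst h1
    rw [Set.mem_singleton_iff]
    exact qExpand_one_apply _
  · intro hx
    rw [Set.mem_singleton_iff] at hx
    subst hx
    exact ⟨1, inferInstance, one_dvd 1, (qExpand_one_apply _).symm⟩

/-- The level-one field over `k` is `k(j)`. -/
theorem h84_fullC_one : modularFunctionFieldFullC k 1 = k⟮jqModC k⟯ := by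
  unfold modularFunctionFieldFullC
  rw [h84_divisorExpansionsC_one]

/-- An element of the level-`M` field whose `Q`-expansion lies in the level-one field lies in
`k(j̄)`. -/
theorem h84_mem_adjoin_of_coe_mem (M : ℕ) [NeZero M] (f : ↥(modularFunctionFieldFullC k M))
    (hf : (f : LaurentSeries k) ∈ modularFunctionFieldFullC k 1) : f ∈ k⟮h54_jk k M⟯ := by
  rw [h84_fullC_one, IntermediateField.mem_adjoin_simple_iff] at hf
  obtain ⟨r, s, hrs⟩ := hf
  rw [IntermediateField.mem_adjoin_simple_iff]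
  refine ⟨r, s, Subtype.ext ?_⟩
  rw [hrs, IntermediateField.coe_div, ← IntermediateField.aeval_coe, ← IntermediateField.aeval_coe]
  rfl

end Descent

section WOrder

theorem h84_ord_pow {K F : Type*} [Field K] [Field F] [Algebra K F] (v : Place K F) (f : F)
    (n : ℕ) : v.ord (f ^ n) = n * v.ord f := by
  rw [← zpow_natCast, Place.ord_zpow]

variable (M q : ℕ) [NeZero M] [NeZero q] [Fact q.Prime] (hqM : ¬ q ∣ M)
  (A : ValuationSubring Qb) (hA : A.LiesOverPrime q)

omit [NeZero q] [Fact q.Prime] in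
/-- `ord_∞ (j̄⁴ (j̄ - 1728)³) = -7`. -/
theorem h84_ord_Tb (k : Type) [Field k] :
    (h11_placeInftyC k M).ord (h54_jk k M ^ 4 * (h54_jk k M - 1728) ^ 3) = -7 := by
  have hj0 : h54_jk k M ≠ 0 := h84_transc_ne_zero (h54_jk_transcendental k M)
  have h0 : (h11_placeInftyC k M).ord (h54_jk k M) = -1 := by
    rw [h11_placeInftyC_ord k M hj0]
    exact h59_jqModC_order k
  have hX4 : (Polynomial.X ^ 4 : Polynomial k) ≠ 0 := pow_ne_zero _ Polynomial.X_ne_zero
  have hX3 : ((Polynomial.X - Polynomial.C (1728 : k)) ^ 3 : Polynomial k) ≠ 0 :=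
    pow_ne_zero _ (Polynomial.X_sub_C_ne_zero _)
  have hdeg : (Polynomial.X ^ 4 * (Polynomial.X - Polynomial.C (1728 : k)) ^ 3 :
      Polynomial k).natDegree = 7 := by
    rw [Polynomial.natDegree_mul hX4 hX3, Polynomial.natDegree_pow, Polynomial.natDegree_pow,
      Polynomial.natDegree_X, Polynomial.natDegree_X_sub_C]
  have h := (h64_ord_aeval_of_pole (h11_placeInftyC k M) (by rw [h0]; norm_num) _
    (mul_ne_zero hX4 hX3)).2
  have hae : Polynomial.aeval (h54_jk k M)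
      (Polynomial.X ^ 4 * (Polynomial.X - Polynomial.C (1728 : k)) ^ 3 : Polynomial k)
      = h54_jk k M ^ 4 * (h54_jk k M - 1728) ^ 3 := by
    rw [map_mul, map_pow, map_pow, map_sub, Polynomial.aeval_X, Polynomial.aeval_C, map_ofNat]
  rw [hae, hdeg, h0] at h
  rw [h]
  norm_num

/-- **(W-CUSP), (iii)**: if `red₁ ρ ≠ 0` has `Q`-order `-(q-1)`, then `W = red₁ u` has `Q`-order
`q - 1`. -/
theorem h84_W_order (ρ : ↥(modularFunctionFieldBar (M * q)))
    (hρ0 : (h60_R1 M q hqM A hA).redF ρ ≠ 0)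
    (hord : (((h60_R1 M q hqM A hA).redF ρ :
        ↥(modularFunctionFieldFullC (IsLocalRing.ResidueField A) M)) :
          LaurentSeries (IsLocalRing.ResidueField A)).order = -((q - 1 : ℕ) : ℤ)) :
    (((h60_R1 M q hqM A hA).redF (h84_u M q hqM ρ) :
        ↥(modularFunctionFieldFullC (IsLocalRing.ResidueField A) M)) :
          LaurentSeries (IsLocalRing.ResidueField A)).order = ((q - 1 : ℕ) : ℤ) := by
  have hρ := h39_mem_of_redF_ne_zero _ hρ0
  have hW0 := h84_redF_u_ne_zero M q hqM A hA ρ hρ0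
  have hTb := h84_Tb_ne_zero M (IsLocalRing.ResidueField A)
  have h := h84_redF_rho_pow M q hqM A hA ρ hρ
  have h1 := congrArg (h11_placeInftyC (IsLocalRing.ResidueField A) M).ord h
  rw [h84_ord_pow, Place.ord_mul _ hW0 (pow_ne_zero _ hTb), h84_ord_pow, h84_ord_Tb,
    h11_placeInftyC_ord _ M hρ0, hord, h11_placeInftyC_ord _ M hW0] at h1
  push_cast at h1 ⊢
  linarith

/-- **(W-CUSP)**: `ord_y W = -(q-1) ord_y j̄` at every place `y` over `j̄ = ∞`. -/
theorem h84_W_cusp (ρ : ↥(modularFunctionFieldBar (M * q)))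
    (hρ0 : (h60_R1 M q hqM A hA).redF ρ ≠ 0)
    (hk : (h60_R1 M q hqM A hA).redF ρ
      ∈ (IsLocalRing.ResidueField A)⟮h54_jk (IsLocalRing.ResidueField A) M⟯)
    (hord : (((h60_R1 M q hqM A hA).redF ρ :
        ↥(modularFunctionFieldFullC (IsLocalRing.ResidueField A) M)) :
          LaurentSeries (IsLocalRing.ResidueField A)).order = -((q - 1 : ℕ) : ℤ))
    (y : Place (IsLocalRing.ResidueField A)
      ↥(modularFunctionFieldFullC (IsLocalRing.ResidueField A) M))
    (hy : y.ord (h54_jk (IsLocalRing.ResidueField A) M) < 0) :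
    y.ord ((h60_R1 M q hqM A hA).redF (h84_u M q hqM ρ))
      = -((q - 1 : ℕ) : ℤ) * y.ord (h54_jk (IsLocalRing.ResidueField A) M) :=
  h64_ord_of_mem_adjoin_jk _ M (h84_redF_u_ne_zero M q hqM A hA ρ hρ0)
    (h84_W_mem_adjoin M q hqM A hA ρ (h39_mem_of_redF_ne_zero _ hρ0) hk) _
    (h84_W_order M q hqM A hA ρ hρ0 hord) y hy

/-- **(W-CUSP), sum** (`hcusp` of `h81_CountHyp`, as an equality):
`∑_{y over j̄ = ∞} ord_y W = (q-1) ψ(M)`. -/
theorem h84_W_cusp_sum (ρ : ↥(modularFunctionFieldBar (M * q)))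
    (hρ0 : (h60_R1 M q hqM A hA).redF ρ ≠ 0)
    (hk : (h60_R1 M q hqM A hA).redF ρ
      ∈ (IsLocalRing.ResidueField A)⟮h54_jk (IsLocalRing.ResidueField A) M⟯)
    (hord : (((h60_R1 M q hqM A hA).redF ρ :
        ↥(modularFunctionFieldFullC (IsLocalRing.ResidueField A) M)) :
          LaurentSeries (IsLocalRing.ResidueField A)).order = -((q - 1 : ℕ) : ℤ))
    (T : Finset (Place (IsLocalRing.ResidueField A)
      ↥(modularFunctionFieldFullC (IsLocalRing.ResidueField A) M)))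
    (hT : ∀ P, P ∈ T ↔ P.ord (h54_jk (IsLocalRing.ResidueField A) M) < 0) :
    ∑ P ∈ T, P.ord ((h60_R1 M q hqM A hA).redF (h84_u M q hqM ρ))
      = ((q - 1 : ℕ) : ℤ) * (dedekindPsi M : ℤ) :=
  h64_cusp_sum M q hqM A hA T hT (h84_redF_u_ne_zero M q hqM A hA ρ hρ0)
    (h84_W_mem_adjoin M q hqM A hA ρ (h39_mem_of_redF_ne_zero _ hρ0) hk) _
    (h84_W_order M q hqM A hA ρ hρ0 hord)

end WOrder

section LevelOne

variable (M q : ℕ) [NeZero M] [NeZero q] [Fact q.Prime] (hqM : ¬ q ∣ M)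
  (A : ValuationSubring Qb) (hA : A.LiesOverPrime q)

/-- **Level-one descent**: if the `q`-expansion of `ρ ∈ O₁` (level `M q`) is the `q`-expansion of
a function `ρ₁` of level `1 · q`, then `red₁ ρ ∈ k(j̄)`. -/
theorem h84_redF_mem_adjoin_of_level_one (ρ : ↥(modularFunctionFieldBar (M * q)))
    (hρ : ρ ∈ (h60_R1 M q hqM A hA).O) (ρ1 : ↥(modularFunctionFieldBar (1 * q)))
    (h1 : (ρ1 : LaurentSeries Qb) = (ρ : LaurentSeries Qb)) :
    (h60_R1 M q hqM A hA).redF ρ
      ∈ (IsLocalRing.ResidueField A)⟮h54_jk (IsLocalRing.ResidueField A) M⟯ := by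
  have hq1 : ¬ q ∣ 1 := fun h => (Fact.out : q.Prime).one_lt.ne' (Nat.dvd_one.mp h)
  have hρOs := (h60_R1_mem_iff_Os M q hqM A hA ρ).mp hρ
  have hρ1Os : (ρ1 : LaurentSeries Qb) ∈ h60_Os A := by
    rw [h1]
    exact hρOs
  have hρ1 : ρ1 ∈ (h60_R1 1 q hq1 A hA).O := (h60_R1_mem_iff_Os 1 q hq1 A hA ρ1).mpr hρ1Os
  apply h84_mem_adjoin_of_coe_mem
  rw [(h60_R1 M q hqM A hA).redF_of_mem hρ, h60_R1_coe_red M q hqM A hA ρ hρ]
  have h2 := h60_R1_coe_red 1 q hq1 A hA ρ1 hρ1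
  have h3 : h60_rs A ⟨(ρ : LaurentSeries Qb), hρOs⟩
      = h60_rs A ⟨(ρ1 : LaurentSeries Qb), hρ1Os⟩ :=
    congrArg (h60_rs A) (Subtype.ext h1.symm)
  rw [h3, ← h2]
  exact SetLike.coe_mem _

/-- **(U) + (W-CUSP), one call.**  Let `ρ ∈ F(Mq)` satisfy: (a) the `Q`-expansion of `red₁ ρ` is
`(θ j̄)^(q-1)`; (b) `w ρ · ρ · q² = 1`; (c) the `q`-expansion of `ρ` is the expansion of a function
of level `1 · q`.  Then `u = h84_u M q hqM ρ` and `W = red₁ u` satisfy: `u ∈ O₁`, `W ≠ 0`,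
`q¹² u ∈ O₂` with `red₂ (q¹² u) = W⁻¹`, `(red₁ ρ)⁶ = W (j̄⁴ (j̄ - 1728)³)^(q-1)`, `W ∈ k(j̄)`, the
`Q`-order of `W` is `q - 1`, and `∑_{y over j̄ = ∞} ord_y W = (q - 1) ψ(M)`. -/
theorem h84_unit_main (ρ : ↥(modularFunctionFieldBar (M * q)))
    (hser : (((h60_R1 M q hqM A hA).redF ρ :
        ↥(modularFunctionFieldFullC (IsLocalRing.ResidueField A) M)) :
          LaurentSeries (IsLocalRing.ResidueField A))
        = h20_thetaFun (jqModC (IsLocalRing.ResidueField A)) ^ (q - 1))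
    (hρw : h60_w M q hqM ρ * ρ * (q : ↥(modularFunctionFieldBar (M * q))) ^ 2 = 1)
    (ρ1 : ↥(modularFunctionFieldBar (1 * q)))
    (h1 : (ρ1 : LaurentSeries Qb) = (ρ : LaurentSeries Qb)) :
    h84_u M q hqM ρ ∈ (h60_R1 M q hqM A hA).O ∧
    (h60_R1 M q hqM A hA).redF (h84_u M q hqM ρ) ≠ 0 ∧
    algebraMap Qb ↥(modularFunctionFieldBar (M * q)) (q : Qb) ^ 12 * h84_u M q hqM ρ
      ∈ (h60_R2 M q hqM A hA).O ∧
    (h60_R2 M q hqM A hA).redF
        (algebraMap Qb ↥(modularFunctionFieldBar (M * q)) (q : Qb) ^ 12 * h84_u M q hqM ρ)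
      = ((h60_R1 M q hqM A hA).redF (h84_u M q hqM ρ))⁻¹ ∧
    (h60_R1 M q hqM A hA).redF ρ ^ 6
      = (h60_R1 M q hqM A hA).redF (h84_u M q hqM ρ)
        * (h54_jk (IsLocalRing.ResidueField A) M ^ 4
          * (h54_jk (IsLocalRing.ResidueField A) M - 1728) ^ 3) ^ (q - 1) ∧
    (h60_R1 M q hqM A hA).redF (h84_u M q hqM ρ)
      ∈ (IsLocalRing.ResidueField A)⟮h54_jk (IsLocalRing.ResidueField A) M⟯ ∧
    (((h60_R1 M q hqM A hA).redF (h84_u M q hqM ρ) :
        ↥(modularFunctionFieldFullC (IsLocalRing.ResidueField A) M)) :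
          LaurentSeries (IsLocalRing.ResidueField A)).order = ((q - 1 : ℕ) : ℤ) ∧
    ∀ T : Finset (Place (IsLocalRing.ResidueField A)
        ↥(modularFunctionFieldFullC (IsLocalRing.ResidueField A) M)),
      (∀ P, P ∈ T ↔ P.ord (h54_jk (IsLocalRing.ResidueField A) M) < 0) →
      ∑ P ∈ T, P.ord ((h60_R1 M q hqM A hA).redF (h84_u M q hqM ρ))
        = ((q - 1 : ℕ) : ℤ) * (dedekindPsi M : ℤ) := by
  have hρ0 : (h60_R1 M q hqM A hA).redF ρ ≠ 0 := by
    intro h
    rw [h] at hser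
    exact pow_ne_zero (q - 1) (h84_theta_ne_zero (IsLocalRing.ResidueField A)) hser.symm
  have hρ := h39_mem_of_redF_ne_zero _ hρ0
  have hord : (((h60_R1 M q hqM A hA).redF ρ :
        ↥(modularFunctionFieldFullC (IsLocalRing.ResidueField A) M)) :
          LaurentSeries (IsLocalRing.ResidueField A)).order = -((q - 1 : ℕ) : ℤ) := by
    rw [hser]
    exact h84_order_theta_pow _ (q - 1)
  have hk := h84_redF_mem_adjoin_of_level_one M q hqM A hA ρ hρ ρ1 h1
  exact ⟨h84_u_mem_R1 M q hqM A hA ρ hρ, h84_redF_u_ne_zero M q hqM A hA ρ hρ0,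
    h84_q12u_mem_R2 M q hqM A hA ρ hρ0 hρw, h84_redF2_q12u M q hqM A hA ρ hρ0 hρw,
    h84_redF_rho_pow M q hqM A hA ρ hρ,
    h84_W_mem_adjoin M q hqM A hA ρ hρ hk, h84_W_order M q hqM A hA ρ hρ0 hord,
    fun T hT => h84_W_cusp_sum M q hqM A hA ρ hρ0 hk hord T hT⟩

end LevelOne

end Fermat.Agent.S36

end
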