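import Mathlib
import Fermat.Agent.S36.h84_UnitCusp
import Fermat.Agent.S36.h20_RhoD
import Fermat.Agent.S36.h22_QExports
import Fermat.Agent.S36.h64_NodeCountMod
import Fermat.Agent.S36.h81_IntJ
import Fermat.Agent.S36.h81_CountW
import Fermat.Agent.S36.h65_UnitU2
import Fermat.Agent.S34.h20_ChartSF
import Fermat.Agent.S18.h64_RankOneW

/-!
# S36 / S40, row (COUNT): the modular instance of `h81_CountHyp` (helper67)

Level `M q`, `q ∤ M`, no elliptic points at level `M`, `A` a valuation subring of `ℚ̄` over `q`.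
The two reduction data `R₁ = h60_R1`, `R₂ = h60_R2`, the lattice `h87_D`, the cuspidal divisor
`(∞) + (0')`, the cusp `h11_placeInftyC` of the special fibre, `B` the functions regular wherever
`J` is finite, `F0` the inertia-fixed functions, `T` the poles of `j̄`, `π = q`, the unit
`u = h84_u M q hqM (h20_rho M q)` and the count `C = (q - 1) ψ(M)`.

* `h67_cnt_B` : the subring `B`;
* `h67_cnt_mod` : the instance, for every node set `Sg` with the sharp union hypothesis.
-/

set_option autoImplicit false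
set_option synthInstance.maxHeartbeats 400000
set_option linter.unusedSectionVars false

noncomputable section

open ModularCurve AlgebraicCurve IntermediateField

namespace Fermat.Agent.S36

open Fermat.Agent.S18 Fermat.Agent.S24 Fermat.Agent.S27 Fermat.Agent.S34 Fermat.Agent.S37

local notation "Qb" => AlgebraicClosure ℚ

/-- The functions regular wherever `x` is regular. -/
def h67_cnt_B {K F : Type*} [Field K] [Field F] [Algebra K F] (x : F) : Subring F where
  carrier := {f | ∀ P : Place K F, x ∈ P.toValuationSubring → f ∈ P.toValuationSubring}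
  mul_mem' := fun ha hb P hP => P.toValuationSubring.mul_mem _ _ (ha P hP) (hb P hP)
  one_mem' := fun P _ => P.toValuationSubring.one_mem
  add_mem' := fun ha hb P hP => P.toValuationSubring.add_mem _ _ (ha P hP) (hb P hP)
  zero_mem' := fun P _ => P.toValuationSubring.zero_mem
  neg_mem' := fun ha P hP => P.toValuationSubring.neg_mem _ (ha P hP)

theorem h67_cnt_mem_B {K F : Type*} [Field K] [Field F] [Algebra K F] (x f : F) :
    f ∈ h67_cnt_B (K := K) x ↔
      ∀ P : Place K F, x ∈ P.toValuationSubring → f ∈ P.toValuationSubring := Iff.rfl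

section Mod

variable (M q : ℕ) [NeZero M] [NeZero q] [Fact q.Prime] (hqM : ¬ q ∣ M)
  (A : ValuationSubring Qb) (hA : A.LiesOverPrime q)

set_option maxHeartbeats 1600000 in
/-- **The modular instance of `h81_CountHyp`.** -/
theorem h67_cnt_mod (hch : 5 ≤ q ∨ 2 ∣ M ∨ 3 ∣ M) (h2 : nuTwo M = 0) (h3 : nuThree M = 0)
    {Pinf P0 : Place Qb ↥(modularFunctionFieldBar (M * q))}
    (hPinf : h10_IsCusp (modularFunctionFieldBar (M * q)) Pinf)
    (hP0 : h10_IsCusp0 M q (h60_w M q hqM) P0)
    (Sg : Finset (Place (IsLocalRing.ResidueField A)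
      ↥(modularFunctionFieldFullC (IsLocalRing.ResidueField A) M)))
    (Φ : Place (IsLocalRing.ResidueField A)
        ↥(modularFunctionFieldFullC (IsLocalRing.ResidueField A) M) →
      Place (IsLocalRing.ResidueField A)
        ↥(modularFunctionFieldFullC (IsLocalRing.ResidueField A) M))
    (hΦ : Function.Injective Φ)
    (hSg : ∀ Q ∈ Sg, Q ≠ h11_placeInftyC (IsLocalRing.ResidueField A) M ∧
      Φ Q ≠ h11_placeInftyC (IsLocalRing.ResidueField A) M)
    (hunion : ∀ a : ↥(modularFunctionFieldFullC (IsLocalRing.ResidueField A) M) ×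
        ↥(modularFunctionFieldFullC (IsLocalRing.ResidueField A) M),
      (∃ n : ℕ, a ∈ h51_Rd (h87_D M q hqM A hA)
        (n • (Finsupp.single Pinf (1 : ℤ) + Finsupp.single P0 (1 : ℤ)))) ↔
      (∃ n : ℕ, a.1 ∈ h16_Linf (h11_placeInftyC (IsLocalRing.ResidueField A) M) n ∧
          a.2 ∈ h16_Linf (h11_placeInftyC (IsLocalRing.ResidueField A) M) n) ∧
        ∀ Q ∈ Sg, ∃ c : IsLocalRing.ResidueField A, h39_Val (Φ Q) a.1 c ∧ h39_Val Q a.2 c)
    (T : Finset (Place (IsLocalRing.ResidueField A)
      ↥(modularFunctionFieldFullC (IsLocalRing.ResidueField A) M)))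
    (hT : ∀ P, P ∈ T ↔ P.ord (h54_jk (IsLocalRing.ResidueField A) M) < 0) :
    h81_CountHyp (h60_R1 M q hqM A hA) (h60_R2 M q hqM A hA) (h87_D M q hqM A hA)
      (Finsupp.single Pinf (1 : ℤ) + Finsupp.single P0 (1 : ℤ))
      (h11_placeInftyC (IsLocalRing.ResidueField A) M) Sg Φ
      (h67_cnt_B (K := Qb) (h59_jbar (M * q)))
      (h69_F0 (M * q) (A.inertiaSubgroupIn ℚ)).toSubring T (q : Qb)
      (h84_u M q hqM (h20_rho M q)) (((q - 1 : ℕ) : ℤ) * (dedekindPsi M : ℤ)) := by
  classical
  have hq : q.Prime := Fact.out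
  have : IsAlgClosed (IsLocalRing.ResidueField A) := h19_residueField_isAlgClosed A
  have : CharP (IsLocalRing.ResidueField A) q := h19_residueField_charP A q hA
  have hq0 : (q : Qb) ≠ 0 := Nat.cast_ne_zero.mpr hq.ne_zero
  have hqA : (q : Qb) ∈ A := ValuationSubring.nonunits_subset hA
  have hqinv : (q : Qb)⁻¹ ∉ A :=
    ((ValuationSubring.mem_nonunits_iff_or A).mp hA).resolve_left hq0
  obtain ⟨y, hy, -⟩ := h84_exists_yChart M q hqM A hA hch
  have hEll := h65_noEll_of_nu (M * q) M (Dvd.intro _ rfl) h2 h3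
  -- the unit
  have h1 : ((h20_rho 1 q : ↥(modularFunctionFieldBar (1 * q))) : LaurentSeries Qb)
      = ((h20_rho M q : ↥(modularFunctionFieldBar (M * q))) : LaurentSeries Qb) := by
    rw [h20_coe_rho, h20_coe_rho]
  obtain ⟨hu1, hW, hu2, -, -, -, -, hcusp⟩ := h84_unit_main M q hqM A hA (h20_rho M q)
    (h20_coe_redF_rho_pow M q hqM A hA) (h20_w_rho M q hqM) (h20_rho 1 q) h1
  -- the poles of J
  have hJinf : h59_jbar (M * q) ∉ Pinf.toValuationSubring := by
    intro h
    have h0 : h59_jbar (M * q) ≠ 0 := by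
      intro h0
      have := h10_order_jbar (M * q)
      rw [h0] at this
      simp at this
    have h1 := h35_ord_nonneg_of_mem Pinf h
    rw [hPinf _ h0, h10_order_jbar] at h1
    omega
  have hJne : h59_jbar (M * q) ≠ 0 := by
    intro h0
    have := h10_order_jbar (M * q)
    rw [h0] at this
    simp at this
  have hJ0 : h59_jbar (M * q) ∉ P0.toValuationSubring := by
    intro h
    have h1 := h35_ord_nonneg_of_mem P0 h
    rw [hP0 _ hJne, h20_w_J0, h20_J1, h10_order_beta, h10_order_jbar] at h1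
    have : (0 : ℤ) < (q : ℤ) := by exact_mod_cast hq.pos
    linarith
  refine
    { hDO := fun f => h87_D_mem M q hqM A hA
      hDred := fun f hf => h87_D_redF M q hqM A hA hf.1 hf.2
      hrank := by
        rw [h60_R2_A]
        exact h64_rankOne_h39 hq A hA
      hπ0 := hq0
      hπ1 := h84_q_mem_A1 M q hqM A hA
      hπ1' := h84_resK_q M q hqM A hA
      hπ2 := by
        rw [h60_R2_A]
        exact hqA
      hπ2' := by
        refine (h39_resK_eq_zero_iff _ (by rw [h60_R2_A]; exact hqA)).mpr (Or.inr ?_)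
        rw [h60_R2_A]
        exact hqinv
      hπB := fun P _ => by
        have := h73_ord_algebraMap P (q : Qb)
        exact h73_mem_of_ord_nonneg P this.ge
      hLB := ?_
      huB := fun P hP => by
        have := h20_u_ord M q hqM hEll P hP
        exact h73_mem_of_ord_nonneg P this.ge
      hu1 := hu1
      hW := hW
      hu2 := hu2
      hint := fun x hxB hx1 hx2 P hP => by
        refine (h81_int_j M q hqM A hA x hxB hx1 hx2 P ?_).1
        have hP' : ¬ P.ord (h54_jk (IsLocalRing.ResidueField A) M) < 0 := fun h => hP ((hT P).mpr h)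
        exact h73_mem_of_ord_nonneg P (not_lt.mp hP')
      hQT := (hT _).mpr (by rw [h81_ord_jk]; norm_num)
      hSg := hSg
      hΦ := hΦ
      hunion := hunion
      hπF0 := h22_hπF0_Mq M q (A.inertiaSubgroupIn ℚ)
      hrat := fun n a ha => h22_hrat_Mq M q hqM A hA hPinf hP0 n a ha
      hdisc1 := fun g hg hO h0 => h22_hdisc1_Mq M q hqM A hA g hg hO h0
      hdisc2 := fun g hg hO h0 => h22_hdisc2_Mq M q hqM A hA g hg hO h0
      hV := ?_
      hdeg1 := fun P => h75_deg_eq_one hy P
      hcusp := (hcusp T hT).ge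
      hcnt := ?_ }
  · -- hLB
    intro n f hf P hP
    have hPinf' : P ≠ Pinf := fun h => hJinf (h ▸ hP)
    have hP0' : P ≠ P0 := fun h => hJ0 (h ▸ hP)
    rcases (mem_riemannRochSpace_iff.mp hf) P with h0 | h
    · rw [h0]
      exact zero_mem _
    · apply h73_mem_of_ord_nonneg P
      have hz : (n • (Finsupp.single Pinf (1 : ℤ) + Finsupp.single P0 (1 : ℤ) :
          Divisor Qb ↥(modularFunctionFieldBar (M * q)))) P = 0 := by
        rw [Finsupp.smul_apply, Finsupp.add_apply, Finsupp.single_apply, Finsupp.single_apply,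
          if_neg (Ne.symm hPinf'), if_neg (Ne.symm hP0')]
        simp
      rw [hz, neg_zero] at h
      exact h
  · -- hV
    intro Z c hZ
    have hQ : ∀ ν : {Q // Q ∈ Z}, (ν : Place (IsLocalRing.ResidueField A)
        ↥(modularFunctionFieldFullC (IsLocalRing.ResidueField A) M)) ≠
          h11_placeInftyC (IsLocalRing.ResidueField A) M := fun ν => hZ ν.1 ν.2
    have hsurj := h20_evMap_surjective hy (h11_placeInftyC (IsLocalRing.ResidueField A) M)
      (fun ν : {Q // Q ∈ Z} => (ν : Place (IsLocalRing.ResidueField A)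
        ↥(modularFunctionFieldFullC (IsLocalRing.ResidueField A) M)))
      hQ Subtype.val_injective (2 * h75_genus (IsLocalRing.ResidueField A) y + Fintype.card {Q // Q ∈ Z})
      le_rfl
    obtain ⟨f, hf⟩ := hsurj (fun ν => c ν)
    refine ⟨_, f.1, f.2, fun Q hQZ => ?_⟩
    have h := h20_evMap_spec hy (h11_placeInftyC (IsLocalRing.ResidueField A) M)
      (fun ν : {Q // Q ∈ Z} => (ν : Place (IsLocalRing.ResidueField A)
        ↥(modularFunctionFieldFullC (IsLocalRing.ResidueField A) M))) hQ _ f ⟨Q, hQZ⟩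
    rw [hf] at h
    exact h
  · -- hcnt
    have h := h64_node_count_mod M q hqM hch A hA h2 h3 hPinf hP0 Sg Φ hΦ hSg hunion
    have : ((12 * Sg.card : ℕ) : ℤ) = (((q - 1) * dedekindPsi M : ℕ) : ℤ) := by rw [h]
    push_cast at this
    rw [this]

include hqM hA in
/-- Principal divisors on the special fibre (from the chart `y` of `h84_exists_yChart`). -/
theorem h67_cnt_hpd (hch : 5 ≤ q ∨ 2 ∣ M ∨ 3 ∣ M) :
    HasPrincipalDivisors (IsLocalRing.ResidueField A)
      ↥(modularFunctionFieldFullC (IsLocalRing.ResidueField A) M) := by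
  have : IsAlgClosed (IsLocalRing.ResidueField A) := h19_residueField_isAlgClosed A
  obtain ⟨y, hy, -⟩ := h84_exists_yChart M q hqM A hA hch
  exact h75_hasPrincipalDivisors hy

include hqM hA in
/-- The finite set of poles of `j̄` on the special fibre. -/
theorem h67_cnt_exists_T (hch : 5 ≤ q ∨ 2 ∣ M ∨ 3 ∣ M) :
    ∃ T : Finset (Place (IsLocalRing.ResidueField A)
      ↥(modularFunctionFieldFullC (IsLocalRing.ResidueField A) M)),
      ∀ P, P ∈ T ↔ P.ord (h54_jk (IsLocalRing.ResidueField A) M) < 0 := by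
  classical
  have hpd := h67_cnt_hpd M q hqM A hA hch
  have h0 : h54_jk (IsLocalRing.ResidueField A) M ≠ 0 := by
    intro h
    exact (h54_jk_transcendental (IsLocalRing.ResidueField A) M) (h ▸ isAlgebraic_zero)
  obtain ⟨Z, hZ⟩ := h81_exists_support (k := IsLocalRing.ResidueField A) h0
  refine ⟨Z.filter (fun P => P.ord (h54_jk (IsLocalRing.ResidueField A) M) < 0), fun P => ?_⟩
  rw [Finset.mem_filter]
  refine ⟨fun h => h.2, fun h => ⟨?_, h⟩⟩
  by_contra hP
  rw [hZ P hP] at h
  exact lt_irrefl _ h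

/-- **The modular instance of `h81_CountHyp`**, with the set `T` of poles of `j̄` chosen. -/
theorem h67_cnt_mod_ex (hch : 5 ≤ q ∨ 2 ∣ M ∨ 3 ∣ M) (h2 : nuTwo M = 0) (h3 : nuThree M = 0)
    {Pinf P0 : Place Qb ↥(modularFunctionFieldBar (M * q))}
    (hPinf : h10_IsCusp (modularFunctionFieldBar (M * q)) Pinf)
    (hP0 : h10_IsCusp0 M q (h60_w M q hqM) P0)
    (Sg : Finset (Place (IsLocalRing.ResidueField A)
      ↥(modularFunctionFieldFullC (IsLocalRing.ResidueField A) M)))
    (Φ : Place (IsLocalRing.ResidueField A)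
        ↥(modularFunctionFieldFullC (IsLocalRing.ResidueField A) M) →
      Place (IsLocalRing.ResidueField A)
        ↥(modularFunctionFieldFullC (IsLocalRing.ResidueField A) M))
    (hΦ : Function.Injective Φ)
    (hSg : ∀ Q ∈ Sg, Q ≠ h11_placeInftyC (IsLocalRing.ResidueField A) M ∧
      Φ Q ≠ h11_placeInftyC (IsLocalRing.ResidueField A) M)
    (hunion : ∀ a : ↥(modularFunctionFieldFullC (IsLocalRing.ResidueField A) M) ×
        ↥(modularFunctionFieldFullC (IsLocalRing.ResidueField A) M),
      (∃ n : ℕ, a ∈ h51_Rd (h87_D M q hqM A hA)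
        (n • (Finsupp.single Pinf (1 : ℤ) + Finsupp.single P0 (1 : ℤ)))) ↔
      (∃ n : ℕ, a.1 ∈ h16_Linf (h11_placeInftyC (IsLocalRing.ResidueField A) M) n ∧
          a.2 ∈ h16_Linf (h11_placeInftyC (IsLocalRing.ResidueField A) M) n) ∧
        ∀ Q ∈ Sg, ∃ c : IsLocalRing.ResidueField A, h39_Val (Φ Q) a.1 c ∧ h39_Val Q a.2 c) :
    ∃ T : Finset (Place (IsLocalRing.ResidueField A)
      ↥(modularFunctionFieldFullC (IsLocalRing.ResidueField A) M)),
      (∀ P, P ∈ T ↔ P.ord (h54_jk (IsLocalRing.ResidueField A) M) < 0) ∧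
      h81_CountHyp (h60_R1 M q hqM A hA) (h60_R2 M q hqM A hA) (h87_D M q hqM A hA)
        (Finsupp.single Pinf (1 : ℤ) + Finsupp.single P0 (1 : ℤ))
        (h11_placeInftyC (IsLocalRing.ResidueField A) M) Sg Φ
        (h67_cnt_B (K := Qb) (h59_jbar (M * q)))
        (h69_F0 (M * q) (A.inertiaSubgroupIn ℚ)).toSubring T (q : Qb)
        (h84_u M q hqM (h20_rho M q)) (((q - 1 : ℕ) : ℤ) * (dedekindPsi M : ℤ)) := by
  obtain ⟨T, hT⟩ := h67_cnt_exists_T M q hqM A hA hch
  exact ⟨T, hT, h67_cnt_mod M q hqM A hA hch h2 h3 hPinf hP0 Sg Φ hΦ hSg hunion T hT⟩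

end Mod

end Fermat.Agent.S36

end
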