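import Mathlib

/-!
# S36, layer (MID): the field-theory lemma (PUSH)

`E → F1` a finite separable field extension, `F2` an extension of `F1` and `i2 : F1 →+* F2` a
second embedding which agrees with the structure map on `E`.  If `F2` is generated by the two
copies of `F1` and `[F1 : E] = [F2 : F1] + 1`, `[F2 : F1] ≥ 2`, then `F2` is the "off-diagonal
factor" of `F1 ⊗_E F1`: every pair of distinct embeddings `c0, c2 : F1 →+* Ω` into a field which
agree on `E` comes from a unique embedding `c : F2 →+* Ω` with `c ∘ i0 = c0`, `c ∘ i2 = c2`.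

* `h36_eq_of_primitive` : two ring homomorphisms on `F1 = E(θ)` agreeing on `E` and at `θ` are
  equal;
* `h36_push` : the statement above, with the first copy of `F1` given by `algebraMap F1 F2`;
* `h36_push_hom` : the same for plain ring homomorphisms `b : E →+* F1`, `i0 i2 : F1 →+* F2`.
-/

set_option autoImplicit false
set_option linter.style.haveILetI false

open Polynomial IntermediateField

namespace Fermat.Agent.S36

/-- Two ring homomorphisms out of `F1 = E(θ)` which agree on `E` and at `θ` are equal. -/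
theorem h36_eq_of_primitive {E F1 R : Type*} [Field E] [Field F1] [Semiring R] [Algebra E F1]
    {θ : F1} (hθ : E⟮θ⟯ = ⊤) {f g : F1 →+* R}
    (hE : ∀ e : E, f (algebraMap E F1 e) = g (algebraMap E F1 e)) (hθfg : f θ = g θ) : f = g := by
  have hcl : Subfield.closure (Set.range (algebraMap E F1) ∪ {θ}) = ⊤ := by
    rw [← IntermediateField.adjoin_toSubfield, hθ]
    rfl
  refine RingHom.eq_of_eqOn_of_field_closure_eq_top hcl ?_
  rintro x (⟨e, rfl⟩ | hx)
  · exact hE e
  · rw [Set.mem_singleton_iff] at hx
    rw [hx]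
    exact hθfg

/-- **(PUSH)**, algebra form. -/
theorem h36_push {E F1 F2 Ω : Type*} [Field E] [Field F1] [Field F2] [Field Ω]
    [Algebra E F1] [Algebra F1 F2] [FiniteDimensional E F1] [Algebra.IsSeparable E F1]
    (i2 : F1 →+* F2)
    (hb : ∀ e : E, i2 (algebraMap E F1 e) = algebraMap F1 F2 (algebraMap E F1 e))
    (hdeg : Module.finrank E F1 = Module.finrank F1 F2 + 1)
    (hdeg2 : 2 ≤ Module.finrank F1 F2)
    (hgen : Subfield.closure (Set.range (algebraMap F1 F2) ∪ Set.range i2) = ⊤)
    (c0 c2 : F1 →+* Ω)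
    (hc : ∀ e : E, c0 (algebraMap E F1 e) = c2 (algebraMap E F1 e)) (hne : c0 ≠ c2) :
    ∃! c : F2 →+* Ω, c.comp (algebraMap F1 F2) = c0 ∧ c.comp i2 = c2 := by
  classical
  have hfin2 : FiniteDimensional F1 F2 := Module.finite_of_finrank_pos (by omega)
  obtain ⟨θ, hθ⟩ := Field.exists_primitive_element E F1
  have hθint : IsIntegral E θ := Algebra.IsIntegral.isIntegral θ
  set P : E[X] := minpoly E θ with hP
  have hPmonic : P.Monic := minpoly.monic hθint
  have hPdeg : P.natDegree = Module.finrank E F1 := by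
    rw [hP, ← IntermediateField.adjoin.finrank hθint, hθ, IntermediateField.finrank_top']
  -- `P` over `F1` and its cofactor `G`
  set P1 : F1[X] := P.map (algebraMap E F1) with hP1
  have hP1monic : P1.Monic := hPmonic.map _
  have hP1root : P1.IsRoot θ := by
    rw [Polynomial.IsRoot, hP1, Polynomial.eval_map, ← Polynomial.aeval_def]
    exact minpoly.aeval E θ
  set G : F1[X] := P1 /ₘ (X - C θ) with hG
  have hPG : (X - C θ) * G = P1 := Polynomial.mul_divByMonic_eq_iff_isRoot.mpr hP1root
  have hGmonic : G.Monic := by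
    have h1 : ((X - C θ) * G).Monic := by rw [hPG]; exact hP1monic
    exact (Polynomial.monic_X_sub_C θ).of_mul_monic_left h1
  have hGdeg : G.natDegree + 1 = Module.finrank E F1 := by
    have h1 : P1.natDegree = P.natDegree := hPmonic.natDegree_map _
    have h2 : ((X - C θ) * G).natDegree = (X - C θ).natDegree + G.natDegree :=
      (Polynomial.monic_X_sub_C θ).natDegree_mul hGmonic
    rw [hPG, Polynomial.natDegree_X_sub_C] at h2
    omega
  -- the element `x = i2 θ`
  set x : F2 := i2 θ with hx
  have hxint : IsIntegral F1 x := Algebra.IsIntegral.isIntegral x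
  -- `i2 ≠ algebraMap`
  have hi2ne : x ≠ algebraMap F1 F2 θ := by
    intro h
    have h1 : i2 = algebraMap F1 F2 := h36_eq_of_primitive hθ hb h
    have h2 : Subfield.closure (Set.range (algebraMap F1 F2)) = ⊤ := by
      rw [← hgen, h1, Set.union_self]
    have h3 : (⊥ : IntermediateField F1 F2) = ⊤ := by
      apply IntermediateField.toSubfield_injective
      rw [← IntermediateField.adjoin_empty, IntermediateField.adjoin_toSubfield, Set.union_empty,
        h2]
      rfl
    have h4 : Module.finrank F1 F2 = 1 := by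
      rw [← IntermediateField.finrank_top' (F := F1) (E := F2), ← h3,
        IntermediateField.finrank_bot]
    omega
  -- `F1⟮x⟯ = ⊤`
  have hxtop : F1⟮x⟯ = ⊤ := by
    rw [eq_top_iff]
    intro y _
    have hy : y ∈ Subfield.closure (Set.range (algebraMap F1 F2) ∪ Set.range i2) := by
      rw [hgen]; trivial
    have hle0 : Subfield.closure (Set.range (algebraMap F1 F2) ∪ Set.range i2) ≤
        F1⟮x⟯.toSubfield := by
      rw [Subfield.closure_le]
      rintro y (⟨r, rfl⟩ | ⟨r, rfl⟩)
      · exact F1⟮x⟯.algebraMap_mem r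
      · -- `i2 r ∈ F1⟮x⟯`
        have hcl : Subfield.closure (Set.range (algebraMap E F1) ∪ {θ}) = ⊤ := by
          rw [← IntermediateField.adjoin_toSubfield, hθ]
          rfl
        have hr : r ∈ Subfield.closure (Set.range (algebraMap E F1) ∪ {θ}) := by
          rw [hcl]; trivial
        have hmap : i2 r ∈ Subfield.map i2
            (Subfield.closure (Set.range (algebraMap E F1) ∪ {θ})) := ⟨r, hr, rfl⟩
        rw [RingHom.map_field_closure] at hmap
        have hle : Subfield.closure (i2 '' (Set.range (algebraMap E F1) ∪ {θ})) ≤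
            F1⟮x⟯.toSubfield := by
          rw [Subfield.closure_le]
          rintro _ ⟨z, (⟨e, rfl⟩ | hz), rfl⟩
          · rw [hb e]
            exact F1⟮x⟯.algebraMap_mem _
          · rw [Set.mem_singleton_iff] at hz
            rw [hz]
            exact IntermediateField.mem_adjoin_simple_self F1 x
        exact hle hmap
    exact hle0 hy
  -- the minimal polynomial of `x` over `F1` is `G`
  have hQdeg : (minpoly F1 x).natDegree = Module.finrank F1 F2 := by
    rw [← IntermediateField.adjoin.finrank hxint, hxtop, IntermediateField.finrank_top']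
  have hP1x : Polynomial.aeval x P1 = 0 := by
    rw [hP1, Polynomial.aeval_def, Polynomial.eval₂_map]
    have h1 : (algebraMap F1 F2).comp (algebraMap E F1) = i2.comp (algebraMap E F1) :=
      RingHom.ext fun e => (hb e).symm
    rw [h1, ← Polynomial.eval₂_map, ← hP1, hx, Polynomial.eval₂_at_apply]
    have h2 : P1.eval θ = 0 := hP1root
    rw [h2, map_zero]
  have hGx : Polynomial.aeval x G = 0 := by
    have h1 : Polynomial.aeval x ((X - C θ) * G) = 0 := by rw [hPG]; exact hP1x
    rw [map_mul, map_sub, Polynomial.aeval_X, Polynomial.aeval_C] at h1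
    rcases mul_eq_zero.mp h1 with h2 | h2
    · exact absurd (sub_eq_zero.mp h2) hi2ne
    · exact h2
  have hQG : minpoly F1 x = G := by
    symm
    refine Polynomial.eq_of_monic_of_dvd_of_natDegree_le (minpoly.monic hxint) hGmonic
      (minpoly.dvd F1 x hGx) ?_
    rw [hQdeg]
    omega
  -- the value `y = c2 θ`
  letI algΩ : Algebra F1 Ω := c0.toAlgebra
  have hc0 : ∀ r : F1, algebraMap F1 Ω r = c0 r := fun r => rfl
  have hyne : c2 θ ≠ c0 θ := by
    intro h
    exact hne (h36_eq_of_primitive hθ hc h.symm)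
  have hP1y : Polynomial.aeval (c2 θ) P1 = 0 := by
    rw [hP1, Polynomial.aeval_def, Polynomial.eval₂_map]
    have h1 : (algebraMap F1 Ω).comp (algebraMap E F1) = c2.comp (algebraMap E F1) :=
      RingHom.ext fun e => hc e
    rw [h1, ← Polynomial.eval₂_map, ← hP1, Polynomial.eval₂_at_apply]
    have h2 : P1.eval θ = 0 := hP1root
    rw [h2, map_zero]
  have hGy : Polynomial.aeval (c2 θ) G = 0 := by
    have h1 : Polynomial.aeval (c2 θ) ((X - C θ) * G) = 0 := by rw [hPG]; exact hP1y
    rw [map_mul, map_sub, Polynomial.aeval_X, Polynomial.aeval_C, hc0] at h1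
    rcases mul_eq_zero.mp h1 with h2 | h2
    · exact absurd (sub_eq_zero.mp h2) hyne
    · exact h2
  -- the lift
  let pb : PowerBasis F1 F1⟮x⟯ := IntermediateField.adjoin.powerBasis hxint
  have hpbmin : minpoly F1 pb.gen = G := by
    rw [IntermediateField.adjoin.powerBasis_gen, IntermediateField.minpoly_gen, hQG]
  have hlift : Polynomial.aeval (c2 θ) (minpoly F1 pb.gen) = 0 := by rw [hpbmin]; exact hGy
  let ψ : F1⟮x⟯ →ₐ[F1] Ω := pb.lift (c2 θ) hlift
  let e1 : F2 ≃ₐ[F1] F1⟮x⟯ :=
    (IntermediateField.topEquiv (F := F1) (E := F2)).symm.trans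
      (IntermediateField.equivOfEq hxtop.symm)
  let c : F2 →ₐ[F1] Ω := ψ.comp e1.toAlgHom
  have hcx : c x = c2 θ := by
    have h1 : e1 x = AdjoinSimple.gen F1 x := by
      apply Subtype.ext
      rfl
    show ψ (e1 x) = c2 θ
    rw [h1, ← IntermediateField.adjoin.powerBasis_gen hxint]
    exact pb.lift_gen (c2 θ) hlift
  have hc_i0 : (c : F2 →+* Ω).comp (algebraMap F1 F2) = c0 :=
    RingHom.ext fun r => c.commutes r
  have hc_i2 : (c : F2 →+* Ω).comp i2 = c2 := by
    refine h36_eq_of_primitive hθ (fun e => ?_) ?_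
    · show c (i2 (algebraMap E F1 e)) = c2 (algebraMap E F1 e)
      rw [hb e, c.commutes, hc0, hc e]
    · exact hcx
  refine ⟨(c : F2 →+* Ω), ⟨hc_i0, hc_i2⟩, ?_⟩
  rintro c' ⟨h0, h2⟩
  refine RingHom.eq_of_eqOn_of_field_closure_eq_top hgen ?_
  rintro y (⟨r, rfl⟩ | ⟨r, rfl⟩)
  · have := congrArg (fun f : F1 →+* Ω => f r) (h0.trans hc_i0.symm)
    exact this
  · have := congrArg (fun f : F1 →+* Ω => f r) (h2.trans hc_i2.symm)
    exact this

/-- **(PUSH)**, ring homomorphism form. -/
theorem h36_push_hom {E F1 F2 Ω : Type*} [Field E] [Field F1] [Field F2] [Field Ω]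
    (b : E →+* F1) (i0 i2 : F1 →+* F2) (hb : i0.comp b = i2.comp b)
    (hfin : letI := b.toAlgebra; FiniteDimensional E F1)
    (hsep : letI := b.toAlgebra; Algebra.IsSeparable E F1)
    (hdeg : (letI := b.toAlgebra; Module.finrank E F1) =
      (letI := i0.toAlgebra; Module.finrank F1 F2) + 1)
    (hdeg2 : 2 ≤ (letI := i0.toAlgebra; Module.finrank F1 F2))
    (hgen : Subfield.closure (Set.range i0 ∪ Set.range i2) = ⊤)
    (c0 c2 : F1 →+* Ω) (hc : c0.comp b = c2.comp b) (hne : c0 ≠ c2) :
    ∃! c : F2 →+* Ω, c.comp i0 = c0 ∧ c.comp i2 = c2 := by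
  letI := b.toAlgebra
  letI := i0.toAlgebra
  exact h36_push (E := E) i2 (fun e => (congrArg (fun f : E →+* F2 => f e) hb).symm) hdeg hdeg2
    hgen c0 c2 (fun e => congrArg (fun f : E →+* Ω => f e) hc) hne

end Fermat.Agent.S36
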