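/-
S36 / layer (L4) (helper49): degrees of the two degeneracy maps `α, β : F(N) → F(N q)` for a
prime `q ∣ N`, and the two "compositum" facts needed for the norm base change at `q ∣ N`.

* `h49_deg_alpha_dvd`   : `[F(N q) : α F(N)] = q` for `q ∣ N`;
* `h49_deg_beta_eq_alpha` : `[F(N q) : β F(N)] = [F(N q) : α F(N)]` at every level;
* `h49_not_in_beta`     : `j` is not in `β F(L)` (series in `t^q`);
* `h49_not_contained_alpha` : `F(N q) ⊄ F(N c)` for a prime `c ∤ N q`, `q ∣ N`.
-/
import Mathlib
import Fermat.Agent.S35.h49_NormBC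
import Fermat.Agent.S37.h88_HICore

set_option autoImplicit false
set_option synthInstance.maxHeartbeats 400000
set_option linter.style.haveILetI false

noncomputable section

open ModularCurve AlgebraicCurve

namespace Fermat.Agent.S36

open Fermat.Agent.S34 Fermat.Agent.S37 Fermat.Agent.S24 Fermat.Agent.S35

local notation "Qb" => AlgebraicClosure ℚ

/-! ## Degrees -/

section Tower

variable {K F0 F1 F2 : Type*} [Field K] [Field F0] [Field F1] [Field F2]
  [Algebra K F0] [Algebra K F1] [Algebra K F2]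

/-- Tower law for `finrankAlong`. -/
theorem h49_finrankAlong_comp (φ : F0 →ₐ[K] F1) (ψ : F1 →ₐ[K] F2) :
    finrankAlong K (ψ.comp φ) = finrankAlong K φ * finrankAlong K ψ := by
  letI a01 : Algebra F0 F1 := algebraAlong φ
  letI a12 : Algebra F1 F2 := algebraAlong ψ
  letI a02 : Algebra F0 F2 := algebraAlong (ψ.comp φ)
  haveI : IsScalarTower F0 F1 F2 := IsScalarTower.of_algebraMap_eq fun _ => rfl
  exact (Module.finrank_mul_finrank F0 F1 F2).symm

end Tower

/-- `[F(N q) : F(N)] = q` along `α` for a prime `q ∣ N`. -/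
theorem h49_deg_alpha_dvd (N : ℕ) [NeZero N] (q : ℕ) [NeZero q] (hq : q.Prime) (hqN : q ∣ N) :
    finrankAlong Qb (heckeAlphaBar Qb N q) = q := by
  have h := h19_finrank_tower N q
  have hψ : ModularCurve.dedekindPsi (N * q) = q * ModularCurve.dedekindPsi N := by
    rw [mul_comm N q]
    exact h29_psi_mul_of_dvd q N hq (Nat.pos_of_ne_zero (NeZero.ne N)) hqN
  rw [h78_finrank N, h78_finrank (N * q), h29_card_quotient_Gamma0 N,
    h29_card_quotient_Gamma0 (N * q), hψ, mul_comm] at h
  have hpos : 0 < ModularCurve.dedekindPsi N := by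
    rw [← h29_card_quotient_Gamma0 N, ← h78_finrank N]
    have := h78_finiteDimensional N
    exact Module.finrank_pos
  exact Nat.eq_of_mul_eq_mul_right hpos h

/-- The degree along `α` is positive. -/
theorem h49_deg_alpha_pos (N q : ℕ) [NeZero N] [NeZero q] :
    0 < finrankAlong Qb (heckeAlphaBar Qb N q) := by
  letI := algebraAlong (heckeAlphaBar Qb N q)
  haveI : Module.Finite (modularFunctionFieldBar N) (modularFunctionFieldBar (N * q)) :=
    h88_finiteAlong_alpha N q
  exact Module.finrank_pos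

/-- `β ∘ α = α ∘ β : F(M) → F(M q q)` (both are `f(t) ↦ f(t^q)` on expansions). -/
theorem h49_beta_alpha_comm (M q : ℕ) [NeZero M] [NeZero q] :
    (heckeBetaBar Qb (M * q) q).comp (heckeAlphaBar Qb M q)
      = (heckeAlphaBar Qb (M * q) q).comp (heckeBetaBar Qb M q) :=
  AlgHom.ext fun y => Subtype.ext (by
    rw [AlgHom.comp_apply, AlgHom.comp_apply, coe_heckeBetaBar, coe_heckeAlphaBar,
      coe_heckeAlphaBar, coe_heckeBetaBar])

/-- For `q ∤ M` the degrees along `β` and `α` agree (Atkin–Lehner swap). -/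
theorem h49_deg_beta_eq_alpha_of_not_dvd (M q : ℕ) [NeZero M] [NeZero q] (hq : q.Prime)
    (hqM : ¬ q ∣ M) :
    finrankAlong Qb (heckeBetaBar Qb M q) = finrankAlong Qb (heckeAlphaBar Qb M q) := by
  obtain ⟨a, b, hab⟩ := h49_exists_bezout ((Nat.Prime.coprime_iff_not_dvd hq).mpr hqM)
  exact @Algebra.finrank_eq_of_equiv_equiv (modularFunctionFieldBar M)
    (modularFunctionFieldBar (M * q)) _ _ (algebraAlong (heckeBetaBar Qb M q))
    (modularFunctionFieldBar M) (modularFunctionFieldBar (M * q)) _ _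
    (algebraAlong (heckeAlphaBar Qb M q)) (RingEquiv.refl _) (h49_swapEquiv hab h78_iota hq)
    (by
      refine RingHom.ext fun y => ?_
      show heckeAlphaBar Qb M q y = h49_swapF hab h78_iota hq (heckeBetaBar Qb M q y)
      rw [h49_swapF_beta])

/-- **The degrees along `β` and `α` agree at every level.** -/
theorem h49_deg_beta_eq_alpha (q : ℕ) [NeZero q] (hq : q.Prime) :
    ∀ (N : ℕ) [NeZero N],
      finrankAlong Qb (heckeBetaBar Qb N q) = finrankAlong Qb (heckeAlphaBar Qb N q) := by
  intro N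
  induction N using Nat.strong_induction_on with
  | _ N ih =>
    intro hN
    by_cases hqN : q ∣ N
    · obtain ⟨M, hM⟩ := hqN
      have hM' : N = M * q := by rw [hM, mul_comm]
      subst hM'
      have hM0 : M ≠ 0 := by
        rintro rfl
        exact NeZero.ne (0 * q) (zero_mul q)
      haveI : NeZero M := ⟨hM0⟩
      have hlt : M < M * q := by
        have := hq.two_le
        nlinarith [Nat.pos_of_ne_zero hM0]
      have ihM := ih M hlt
      have h1 := h49_finrankAlong_comp (heckeAlphaBar Qb M q) (heckeBetaBar Qb (M * q) q)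
      have h2 := h49_finrankAlong_comp (heckeBetaBar Qb M q) (heckeAlphaBar Qb (M * q) q)
      rw [h49_beta_alpha_comm M q, h2, ihM] at h1
      exact (Nat.eq_of_mul_eq_mul_left (h49_deg_alpha_pos M q) h1).symm
    · exact h49_deg_beta_eq_alpha_of_not_dvd N q hq hqN

/-- `[F(N q) : β F(N)] = q` for a prime `q ∣ N`. -/
theorem h49_deg_beta_dvd (N : ℕ) [NeZero N] (q : ℕ) [NeZero q] (hq : q.Prime) (hqN : q ∣ N) :
    finrankAlong Qb (heckeBetaBar Qb N q) = q := by
  rw [h49_deg_beta_eq_alpha q hq N, h49_deg_alpha_dvd N q hq hqN]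

/-! ## `j ∉ β F(L)` -/

/-- The function `j` (at any level) is not in the image of `β` at a prime `q`. -/
theorem h49_not_in_beta (L q : ℕ) [NeZero L] [NeZero q] (hq : q.Prime)
    (f : LaurentSeries Qb) (hf : f = coeffEmb Qb jq)
    (g : modularFunctionFieldBar L)
    (h : ((heckeBetaBar Qb L q g : modularFunctionFieldBar (L * q)) : LaurentSeries Qb) = f) :
    False := by
  rw [coe_heckeBetaBar, hf] at h
  have h1 := h59_coeff_coeffEmb_jq_pow_self Qb 1
  rw [pow_one, ← h] at h1
  have h2 : ¬ ((q : ℕ) : ℤ) ∣ (-((1 : ℕ) : ℤ)) := by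
    intro hd
    have h3 : ((q : ℕ) : ℤ) ∣ 1 := by
      have := (dvd_neg (a := ((q : ℕ) : ℤ)) (b := (1 : ℤ))).1 (by simpa using hd)
      exact this
    have h4 : (q : ℕ) ∣ 1 := by exact_mod_cast h3
    exact hq.one_lt.ne' (Nat.dvd_one.mp h4)
  rw [qExpand_coeff_of_not_dvd q _ h2] at h1
  exact zero_ne_one h1

end Fermat.Agent.S36
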