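import Mathlib
import Fermat.Agent.S36.h36_Push
import Fermat.Agent.S36.h49_Pull2Deg
import Fermat.Agent.S34.h60_R2
import Fermat.Agent.S24.h59_Cusp
import Fermat.Agent.S24.h71_Degree

/-!
# S36, layer (MID): the swap `W` of `F(M q²)` and the middle-cusp embedding

`q ∤ M` prime, `E = F(M)`, `F1 = F(Mq)`, `F2 = F(Mq·q)` (all `modularFunctionFieldBar`, inside
`LaurentSeries ℚ̄`).

* `h36_i0 M q`      : `F1 →+* F2`, the inclusion (`heckeAlphaBar (M*q) q`): functions of
  `(E₀ → E₁)`;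
* `h36_i2 M q hqM`  : `F1 →+* F2`, `f ↦ (w f)(t^q)` (`heckeBetaBar (M*q) q ∘ h60_w`): functions of
  `(E₂ → E₁)`;
* `h36_i0_beta`     : `i0 ∘ β = i2 ∘ β` on `E`;
* `h36_i02_gen`         : `F2` is generated by the two copies of `F1`;
* `h36_push_mod`    : **(PUSH)** at these levels: two distinct ring homomorphisms `c0, c2` of `F1`
  into a field which agree on `β E` glue to a unique ring homomorphism `c` of `F2` with
  `c ∘ i0 = c0`, `c ∘ i2 = c2`;
* `h36_W`           : the swap of `F2` (`W ∘ i0 = i2`, `W ∘ i2 = i0`, `W ∘ W = id`);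
* `h36_mid ζ`       : for a `q`-th root of unity `ζ ≠ 1`, the embedding `F2 →+* LaurentSeries ℚ̄`
  with `mid ∘ i0 = coe` and `mid ∘ i2 = twist_ζ ∘ coe` (the expansion at a middle cusp:
  `(E₀, E₁, E₂) = (Tate(t), Tate(t^q), Tate(ζ t))`).
-/

set_option autoImplicit false
set_option synthInstance.maxHeartbeats 400000
set_option linter.style.haveILetI false
set_option linter.unusedSectionVars false

noncomputable section

open ModularCurve AlgebraicCurve

namespace Fermat.Agent.S36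

open Fermat.Agent.S34 Fermat.Agent.S37 Fermat.Agent.S24 Fermat.Agent.S35

local notation "Qb" => AlgebraicClosure ℚ

section Mid

variable (M q : ℕ) [NeZero M] [NeZero q] [Fact q.Prime] (hqM : ¬ q ∣ M)

/-- Functions of `(E₀ → E₁)`: the inclusion `F(Mq) → F(Mq·q)`. -/
def h36_i0 : ↥(modularFunctionFieldBar (M * q)) →+* ↥(modularFunctionFieldBar (M * q * q)) :=
  (heckeAlphaBar Qb (M * q) q).toRingHom

/-- Functions of `(E₂ → E₁)`: `f ↦ (w f)(t^q)`. -/
def h36_i2 : ↥(modularFunctionFieldBar (M * q)) →+* ↥(modularFunctionFieldBar (M * q * q)) :=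
  (heckeBetaBar Qb (M * q) q).toRingHom.comp (h60_w M q hqM)

theorem h36_coe_i0 (f : ↥(modularFunctionFieldBar (M * q))) :
    ((h36_i0 M q f : ↥(modularFunctionFieldBar (M * q * q))) : LaurentSeries Qb) = f :=
  coe_heckeAlphaBar (M * q) q f

theorem h36_coe_i2 (f : ↥(modularFunctionFieldBar (M * q))) :
    ((h36_i2 M q hqM f : ↥(modularFunctionFieldBar (M * q * q))) : LaurentSeries Qb) =
      qExpand Qb q ((h60_w M q hqM f : ↥(modularFunctionFieldBar (M * q))) : LaurentSeries Qb) :=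
  rfl

/-- `i2 (w y) = β' y`. -/
theorem h36_i2_w (y : ↥(modularFunctionFieldBar (M * q))) :
    h36_i2 M q hqM (h60_w M q hqM y) = heckeBetaBar Qb (M * q) q y := by
  show heckeBetaBar Qb (M * q) q (h60_w M q hqM (h60_w M q hqM y)) = _
  rw [h60_w_w]

/-- `i0 ∘ β = i2 ∘ β` on `F(M)`. -/
theorem h36_i0_beta (g : ↥(modularFunctionFieldBar M)) :
    h36_i0 M q (heckeBetaBar Qb M q g) = h36_i2 M q hqM (heckeBetaBar Qb M q g) := by
  show heckeAlphaBar Qb (M * q) q (heckeBetaBar Qb M q g) =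
    heckeBetaBar Qb (M * q) q (h60_w M q hqM (heckeBetaBar Qb M q g))
  rw [h60_w_beta]
  exact (congrArg (fun φ : ↥(modularFunctionFieldBar M) →ₐ[Qb]
    ↥(modularFunctionFieldBar (M * q * q)) => φ g) (h49_beta_alpha_comm M q)).symm

/-- `i2 (α g) = g(t^(q²))`. -/
theorem h36_i2_alpha (g : ↥(modularFunctionFieldBar M)) :
    h36_i2 M q hqM (heckeAlphaBar Qb M q g) =
      heckeBetaBar Qb (M * q) q (heckeBetaBar Qb M q g) := by
  show heckeBetaBar Qb (M * q) q (h60_w M q hqM (heckeAlphaBar Qb M q g)) = _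
  rw [h60_w_alpha]

theorem h36_i0_algebraMap (c : Qb) :
    h36_i0 M q (algebraMap Qb ↥(modularFunctionFieldBar (M * q)) c) =
      algebraMap Qb ↥(modularFunctionFieldBar (M * q * q)) c :=
  (heckeAlphaBar Qb (M * q) q).commutes c

theorem h36_i2_algebraMap (c : Qb) :
    h36_i2 M q hqM (algebraMap Qb ↥(modularFunctionFieldBar (M * q)) c) =
      algebraMap Qb ↥(modularFunctionFieldBar (M * q * q)) c := by
  show heckeBetaBar Qb (M * q) q (h60_w M q hqM _) = _
  rw [h60_w_algebraMap]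
  exact (heckeBetaBar Qb (M * q) q).commutes c

/-- The two copies of `F(Mq)` generate `F(Mq·q)`. -/
theorem h36_i02_gen :
    Subfield.closure (Set.range (h36_i0 M q) ∪ Set.range (h36_i2 M q hqM)) = ⊤ := by
  have hq : q.Prime := Fact.out
  set S : Subfield ↥(modularFunctionFieldBar (M * q * q)) :=
    Subfield.closure (Set.range (h36_i0 M q) ∪ Set.range (h36_i2 M q hqM)) with hS
  have hgen := h71_adjoin_gen (M * q * q)
  have h1 : (IntermediateField.adjoin Qb (Set.range (h71_gen (M * q * q)))).toSubfield ≤ S := by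
    rw [IntermediateField.adjoin_toSubfield, Subfield.closure_le]
    rintro x (⟨c, rfl⟩ | ⟨d, rfl⟩)
    · exact Subfield.subset_closure (Or.inl ⟨_, h36_i0_algebraMap M q c⟩)
    · have hdN : (d : ℕ) ∣ M * q * q := Nat.dvd_of_mem_divisors d.2
      have hd0 : NeZero (d : ℕ) := ⟨(Nat.pos_of_mem_divisors d.2).ne'⟩
      by_cases hd : (d : ℕ) ∣ M * q
      · refine Subfield.subset_closure (Or.inl
          ⟨h71_gen (M * q) ⟨d, Nat.mem_divisors.mpr ⟨hd, NeZero.ne _⟩⟩, ?_⟩)
        exact Subtype.ext rfl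
      · have hqd : q ∣ (d : ℕ) := by
          rcases Nat.coprime_or_dvd_of_prime hq (d : ℕ) with hc | hc
          · exact absurd (Nat.Coprime.dvd_of_dvd_mul_right hc.symm hdN) hd
          · exact hc
        obtain ⟨d', hd'⟩ := hqd
        have hd'N : d' ∣ M * q := by
          apply Nat.dvd_of_mul_dvd_mul_left hq.pos
          rw [← hd', mul_comm q (M * q)]
          exact hdN
        have hd'0 : NeZero d' := ⟨fun h0 => by
          rw [h0, mul_zero] at hd'
          exact (NeZero.ne (d : ℕ)) hd'⟩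
        refine Subfield.subset_closure (Or.inr
          ⟨h60_w M q hqM (h71_gen (M * q) ⟨d', Nat.mem_divisors.mpr ⟨hd'N, NeZero.ne _⟩⟩), ?_⟩)
        rw [h36_i2_w]
        apply Subtype.ext
        have hE : qExpand Qb q (qExpand Qb d' (coeffEmb Qb jq)) =
            qExpand Qb (q * d') (coeffEmb Qb jq) := qExpand_qExpand d' q _
        have hE2 : ∀ (a b : ℕ) [NeZero a] [NeZero b], a = b →
            qExpand Qb a (coeffEmb Qb jq) = qExpand Qb b (coeffEmb Qb jq) := by
          intro a b _ _ hab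
          subst hab
          rfl
        exact hE.trans (hE2 _ _ hd').symm
  rw [hgen] at h1
  exact top_le_iff.mp h1

include hqM in
/-- Degree of `F(Mq)` over `β F(M)`. -/
theorem h36_deg_beta : finrankAlong Qb (heckeBetaBar Qb M q) = q + 1 := by
  rw [h49_deg_beta_eq_alpha_of_not_dvd M q Fact.out hqM]
  exact h19_DEG M q Fact.out hqM

/-- Degree of `F(Mq·q)` over `i0 F(Mq)`. -/
theorem h36_deg_i0 : finrankAlong Qb (heckeAlphaBar Qb (M * q) q) = q :=
  h49_deg_alpha_dvd (M * q) q Fact.out (dvd_mul_left q M)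

/-- **(PUSH)** at the levels `M`, `Mq`, `Mq·q`. -/
theorem h36_push_mod {Ω : Type*} [Field Ω]
    (c0 c2 : ↥(modularFunctionFieldBar (M * q)) →+* Ω)
    (hc : ∀ g : ↥(modularFunctionFieldBar M),
      c0 (heckeBetaBar Qb M q g) = c2 (heckeBetaBar Qb M q g)) (hne : c0 ≠ c2) :
    ∃! c : ↥(modularFunctionFieldBar (M * q * q)) →+* Ω,
      c.comp (h36_i0 M q) = c0 ∧ c.comp (h36_i2 M q hqM) = c2 := by
  have hq : q.Prime := Fact.out
  have hdb := h36_deg_beta M q hqM
  have hd0 := h36_deg_i0 M q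
  unfold finrankAlong at hdb hd0
  letI algb : Algebra ↥(modularFunctionFieldBar M) ↥(modularFunctionFieldBar (M * q)) :=
    (heckeBetaBar Qb M q).toRingHom.toAlgebra
  have hfin : FiniteDimensional ↥(modularFunctionFieldBar M) ↥(modularFunctionFieldBar (M * q)) :=
    Module.finite_of_finrank_pos (by rw [hdb]; omega)
  have hsep : Algebra.IsSeparable ↥(modularFunctionFieldBar M)
      ↥(modularFunctionFieldBar (M * q)) := inferInstance
  refine h36_push_hom (heckeBetaBar Qb M q).toRingHom (h36_i0 M q) (h36_i2 M q hqM)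
    (RingHom.ext fun g => h36_i0_beta M q hqM g) hfin hsep ?_ ?_ (h36_i02_gen M q hqM) c0 c2
    (RingHom.ext fun g => hc g) hne
  · show Module.finrank ↥(modularFunctionFieldBar M) ↥(modularFunctionFieldBar (M * q)) = _ + 1
    rw [hdb]
    congr 1
    exact hd0.symm
  · show 2 ≤ _
    have h2 : 2 ≤ q := hq.two_le
    calc 2 ≤ q := h2
      _ = _ := hd0.symm

/-- `i2 ≠ i0`. -/
theorem h36_i2_ne_i0 : h36_i2 M q hqM ≠ h36_i0 M q := by
  have hq : q.Prime := Fact.out
  intro h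
  have h1 := congrArg (fun φ : ↥(modularFunctionFieldBar (M * q)) →+*
    ↥(modularFunctionFieldBar (M * q * q)) => ((φ (heckeAlphaBar Qb M q (h59_jbar M)) :
      ↥(modularFunctionFieldBar (M * q * q))) : LaurentSeries Qb).coeff (-1)) h
  rw [h36_i2_alpha, h36_coe_i0, coe_heckeBetaBar, coe_heckeAlphaBar, h59_coe_jbar] at h1
  rw [qExpand_coeff_of_not_dvd] at h1
  · have h2 : (coeffEmb Qb jq).coeff (-1) = 1 := by
      have := h59_coeff_coeffEmb_jq_pow_self Qb 1
      simpa using this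
    rw [h2] at h1
    exact zero_ne_one h1
  · intro hdvd
    have h3 : (q : ℤ) ∣ 1 := by
      have := (dvd_neg (a := (q : ℤ)) (b := (1 : ℤ))).mp hdvd
      exact this
    have h4 : q ∣ 1 := by exact_mod_cast h3
    exact hq.one_lt.ne' (Nat.dvd_one.mp h4)

/-- **The swap of `F(Mq·q)`.** -/
def h36_W : ↥(modularFunctionFieldBar (M * q * q)) →+* ↥(modularFunctionFieldBar (M * q * q)) :=
  (h36_push_mod M q hqM (h36_i2 M q hqM) (h36_i0 M q)
    (fun g => (h36_i0_beta M q hqM g).symm) (h36_i2_ne_i0 M q hqM)).choose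

theorem h36_W_i0 (f : ↥(modularFunctionFieldBar (M * q))) :
    h36_W M q hqM (h36_i0 M q f) = h36_i2 M q hqM f :=
  congrArg (fun φ : ↥(modularFunctionFieldBar (M * q)) →+*
    ↥(modularFunctionFieldBar (M * q * q)) => φ f)
    (h36_push_mod M q hqM (h36_i2 M q hqM) (h36_i0 M q)
      (fun g => (h36_i0_beta M q hqM g).symm) (h36_i2_ne_i0 M q hqM)).choose_spec.1.1

theorem h36_W_i2 (f : ↥(modularFunctionFieldBar (M * q))) :
    h36_W M q hqM (h36_i2 M q hqM f) = h36_i0 M q f :=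
  congrArg (fun φ : ↥(modularFunctionFieldBar (M * q)) →+*
    ↥(modularFunctionFieldBar (M * q * q)) => φ f)
    (h36_push_mod M q hqM (h36_i2 M q hqM) (h36_i0 M q)
      (fun g => (h36_i0_beta M q hqM g).symm) (h36_i2_ne_i0 M q hqM)).choose_spec.1.2

/-- Two ring homomorphisms out of `F(Mq·q)` which agree on both copies of `F(Mq)` are equal. -/
theorem h36_hom_ext {R : Type*} [Semiring R]
    {φ ψ : ↥(modularFunctionFieldBar (M * q * q)) →+* R}
    (h0 : ∀ f, φ (h36_i0 M q f) = ψ (h36_i0 M q f))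
    (h2 : ∀ f, φ (h36_i2 M q hqM f) = ψ (h36_i2 M q hqM f)) : φ = ψ := by
  refine RingHom.eq_of_eqOn_of_field_closure_eq_top (h36_i02_gen M q hqM) ?_
  rintro x (⟨f, rfl⟩ | ⟨f, rfl⟩)
  · exact h0 f
  · exact h2 f

/-- `W` is an involution. -/
theorem h36_W_W (x : ↥(modularFunctionFieldBar (M * q * q))) :
    h36_W M q hqM (h36_W M q hqM x) = x := by
  have h : (h36_W M q hqM).comp (h36_W M q hqM) = RingHom.id _ := by
    refine h36_hom_ext M q hqM (fun f => ?_) (fun f => ?_)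
    · show h36_W M q hqM (h36_W M q hqM (h36_i0 M q f)) = h36_i0 M q f
      rw [h36_W_i0, h36_W_i2]
    · show h36_W M q hqM (h36_W M q hqM (h36_i2 M q hqM f)) = h36_i2 M q hqM f
      rw [h36_W_i2, h36_W_i0]
  exact congrArg (fun φ : ↥(modularFunctionFieldBar (M * q * q)) →+*
    ↥(modularFunctionFieldBar (M * q * q)) => φ x) h

/-- `W` fixes the constants. -/
theorem h36_W_algebraMap (c : Qb) :
    h36_W M q hqM (algebraMap Qb ↥(modularFunctionFieldBar (M * q * q)) c) =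
      algebraMap Qb ↥(modularFunctionFieldBar (M * q * q)) c := by
  rw [← h36_i0_algebraMap M q c, h36_W_i0, h36_i2_algebraMap, h36_i0_algebraMap]

/-! ### The middle-cusp embedding -/

/-- The twist by a `q`-th root of unity fixes every series in `t^q`. -/
theorem h36_twist_qExpand {ζ : Qb} (hζ : ζ ^ q = 1) (x : LaurentSeries Qb) :
    h64_twist ζ (qExpand Qb q x) = qExpand Qb q x := by
  ext k
  rw [h64_twist_coeff]
  by_cases hk : (q : ℤ) ∣ k
  · obtain ⟨m, rfl⟩ := hk
    have h1 : ζ ^ ((q : ℤ) * m) = 1 := by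
      rw [zpow_mul, zpow_natCast, hζ, one_zpow]
    rw [h1, mul_one]
  · rw [qExpand_coeff_of_not_dvd q x hk, zero_mul]

variable {q} in
/-- The two ring homomorphisms `coe` and `twist_ζ ∘ coe` of `F(Mq)` into `LaurentSeries ℚ̄`. -/
def h36_tw (ζ : Qb) (hζ0 : ζ ≠ 0) :
    ↥(modularFunctionFieldBar (M * q)) →+* LaurentSeries Qb :=
  (h59_twistHom ζ hζ0).comp (modularFunctionFieldBar (M * q)).val.toRingHom

theorem h36_tw_apply (ζ : Qb) (hζ0 : ζ ≠ 0) (f : ↥(modularFunctionFieldBar (M * q))) :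
    h36_tw M ζ hζ0 f = h64_twist ζ (f : LaurentSeries Qb) := rfl

theorem h36_tw_ne (ζ : Qb) (hζ0 : ζ ≠ 0) (hζ1 : ζ ≠ 1) :
    (modularFunctionFieldBar (M * q)).val.toRingHom ≠ h36_tw M ζ hζ0 := by
  intro h
  have h1 := congrArg (fun φ : ↥(modularFunctionFieldBar (M * q)) →+* LaurentSeries Qb =>
    (φ (h59_jbar (M * q))).coeff (-1)) h
  rw [h36_tw_apply, h64_twist_coeff] at h1
  have h2 : (coeffEmb Qb jq).coeff (-1) = 1 := by
    have := h59_coeff_coeffEmb_jq_pow_self Qb 1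
    simpa using this
  have h3 : ((modularFunctionFieldBar (M * q)).val.toRingHom (h59_jbar (M * q))).coeff (-1) = 1 := by
    show ((h59_jbar (M * q) : ↥(modularFunctionFieldBar (M * q))) : LaurentSeries Qb).coeff (-1) = 1
    rw [h59_coe_jbar, h2]
  rw [h3] at h1
  have h4 : ((h59_jbar (M * q) : ↥(modularFunctionFieldBar (M * q))) : LaurentSeries Qb).coeff (-1)
      = 1 := by rw [h59_coe_jbar, h2]
  rw [h4, one_mul, zpow_neg, zpow_one] at h1
  apply hζ1
  have h5 : ζ⁻¹ = 1 := h1.symm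
  exact inv_eq_one.mp h5

theorem h36_zq_ne_zero {ζ : Qb} (hζ : ζ ^ q = 1) : ζ ≠ 0 := by
  intro h0
  rw [h0, zero_pow (NeZero.ne q)] at hζ
  exact zero_ne_one hζ

theorem h36_tw_beta (ζ : Qb) (hζ : ζ ^ q = 1) (g : ↥(modularFunctionFieldBar M)) :
    (modularFunctionFieldBar (M * q)).val.toRingHom (heckeBetaBar Qb M q g) =
      h36_tw M ζ (h36_zq_ne_zero q hζ) (heckeBetaBar Qb M q g) := by
  rw [h36_tw_apply]
  show ((heckeBetaBar Qb M q g : ↥(modularFunctionFieldBar (M * q))) : LaurentSeries Qb) = _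
  rw [coe_heckeBetaBar, h36_twist_qExpand q hζ]

theorem h36_mid_exists (ζ : Qb) (hζ : ζ ^ q = 1) (hζ1 : ζ ≠ 1) :
    ∃! c : ↥(modularFunctionFieldBar (M * q * q)) →+* LaurentSeries Qb,
      c.comp (h36_i0 M q) = (modularFunctionFieldBar (M * q)).val.toRingHom ∧
      c.comp (h36_i2 M q hqM) = h36_tw M ζ (h36_zq_ne_zero q hζ) :=
  h36_push_mod M q hqM (modularFunctionFieldBar (M * q)).val.toRingHom
    (h36_tw M ζ (h36_zq_ne_zero q hζ)) (h36_tw_beta M q ζ hζ)
    (h36_tw_ne M q ζ _ hζ1)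

/-- **The middle-cusp embedding** attached to a `q`-th root of unity `ζ ≠ 1`. -/
def h36_mid (ζ : Qb) (hζ : ζ ^ q = 1) (hζ1 : ζ ≠ 1) :
    ↥(modularFunctionFieldBar (M * q * q)) →+* LaurentSeries Qb :=
  (h36_mid_exists M q hqM ζ hζ hζ1).choose

theorem h36_mid_i0 (ζ : Qb) (hζ : ζ ^ q = 1) (hζ1 : ζ ≠ 1)
    (f : ↥(modularFunctionFieldBar (M * q))) :
    h36_mid M q hqM ζ hζ hζ1 (h36_i0 M q f) = (f : LaurentSeries Qb) :=
  congrArg (fun φ : ↥(modularFunctionFieldBar (M * q)) →+* LaurentSeries Qb => φ f)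
    (h36_mid_exists M q hqM ζ hζ hζ1).choose_spec.1.1

theorem h36_mid_i2 (ζ : Qb) (hζ : ζ ^ q = 1) (hζ1 : ζ ≠ 1)
    (f : ↥(modularFunctionFieldBar (M * q))) :
    h36_mid M q hqM ζ hζ hζ1 (h36_i2 M q hqM f) = h64_twist ζ (f : LaurentSeries Qb) :=
  congrArg (fun φ : ↥(modularFunctionFieldBar (M * q)) →+* LaurentSeries Qb => φ f)
    (h36_mid_exists M q hqM ζ hζ hζ1).choose_spec.1.2

/-- Uniqueness: a ring hom with the two defining properties is `h36_mid`. -/
theorem h36_mid_unique (ζ : Qb) (hζ : ζ ^ q = 1) (hζ1 : ζ ≠ 1)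
    (c : ↥(modularFunctionFieldBar (M * q * q)) →+* LaurentSeries Qb)
    (h0 : ∀ f, c (h36_i0 M q f) = (f : LaurentSeries Qb))
    (h2 : ∀ f, c (h36_i2 M q hqM f) = h64_twist ζ (f : LaurentSeries Qb)) :
    c = h36_mid M q hqM ζ hζ hζ1 := by
  refine h36_hom_ext M q hqM (fun f => ?_) (fun f => ?_)
  · rw [h0, h36_mid_i0]
  · rw [h2, h36_mid_i2]

/-- The middle-cusp embedding is the identity on constants. -/
theorem h36_mid_algebraMap (ζ : Qb) (hζ : ζ ^ q = 1) (hζ1 : ζ ≠ 1) (c : Qb) :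
    h36_mid M q hqM ζ hζ hζ1 (algebraMap Qb ↥(modularFunctionFieldBar (M * q * q)) c) =
      algebraMap Qb (LaurentSeries Qb) c := by
  rw [← h36_i0_algebraMap M q c, h36_mid_i0]
  rfl

end Mid

end Fermat.Agent.S36
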