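import Mathlib

/-!
# S36 / row TOR: the toric witness (helper27) -- Mathlib-only core

Setting (abstract).  `F` = the `K₀`-rational function field of level `q²L`, `F'` = the one of level
`qL`; `a b : F' →+* F` the two degeneracy embeddings, `Na Nb : F →*₀ F'` the two norms.
`v1 v2 v3` are the normalised valuations of the three components of the fibre at level `q²L`
(`v(q) = (1, q-1, 1)`), `wF wV` those of the two components at level `qL`; all of them are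
`AddValuation _ (WithTop ℤ)`, so that `x ≡ y` modulo the prime of `v` reads `0 < v (x - y)` and
`x - y ∈ q·O` reads `v q ≤ v (x - y)` for the three `v`.

`h27_toric_core` : if `Na u = κa φa^m` and `Nb u = κb φb^m` with constants `κa κb`
(`m` prime to `q`), then `u^(q²-1) = q^J h^m u4` with `u4 ∈ 1 + q·O`.

The hypotheses are the identification-free forms of the rows VAL ((V0)-(V3)), NR ((N1)-(N4))
and K ((K6+)) of the S36 architecture.
-/

set_option autoImplicit false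

namespace Fermat.Agent.S36

/-! ### `WithTop ℤ` -/

theorem h27_one_le_of_pos {x : WithTop ℤ} (h : 0 < x) : 1 ≤ x := by
  induction x using WithTop.recTopCoe with
  | top => exact le_top
  | coe n =>
    have h' : (0 : ℤ) < n := by exact_mod_cast h
    exact_mod_cast h'

theorem h27_nsmul_coe (n : ℕ) (a : ℤ) : n • (a : WithTop ℤ) = ((n * a : ℤ) : WithTop ℤ) := by
  rw [← WithTop.coe_nsmul]
  simp

theorem h27_nsmul_pos {x : WithTop ℤ} (h : 0 < x) {n : ℕ} (hn : 0 < n) : 0 < n • x := by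
  obtain ⟨k, rfl⟩ : ∃ k, n = k + 1 := ⟨n - 1, by omega⟩
  rw [succ_nsmul]
  exact lt_of_lt_of_le h (le_add_of_nonneg_left (nsmul_nonneg h.le k))

theorem h27_coe_pos {a : ℤ} (h : 0 < a) : (0 : WithTop ℤ) < (a : WithTop ℤ) := by
  exact_mod_cast h

/-! ### Valuation calculus -/

section Val

variable {F : Type*} [Field F] (v : AddValuation F (WithTop ℤ))

theorem h27_exists_int {x : F} (hx : x ≠ 0) : ∃ n : ℤ, v x = (n : WithTop ℤ) := by
  have h := (AddValuation.ne_top_iff v).mpr hx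
  exact (WithTop.ne_top_iff_exists.mp h).imp fun n hn => hn.symm

theorem h27_ne_zero_of_int {x : F} {n : ℤ} (h : v x = (n : WithTop ℤ)) : x ≠ 0 := by
  rintro rfl
  rw [AddValuation.map_zero] at h
  exact WithTop.top_ne_coe h

theorem h27_ne_zero_of_unit {x : F} (h : v x = 0) : x ≠ 0 :=
  h27_ne_zero_of_int v (n := 0) (by simpa using h)

theorem h27_val_mul_int {x y : F} {n k : ℤ} (hx : v x = (n : WithTop ℤ))
    (hy : v y = (k : WithTop ℤ)) : v (x * y) = ((n + k : ℤ) : WithTop ℤ) := by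
  rw [v.map_mul, hx, hy]
  rfl

theorem h27_val_inv_int {x : F} {n : ℤ} (hx : v x = (n : WithTop ℤ)) :
    v x⁻¹ = ((-n : ℤ) : WithTop ℤ) := by
  rw [v.map_inv, hx]
  exact (WithTop.LinearOrderedAddCommGroup.coe_neg n).symm

theorem h27_val_pow_int {x : F} {n : ℤ} (hx : v x = (n : WithTop ℤ)) (k : ℕ) :
    v (x ^ k) = ((k * n : ℤ) : WithTop ℤ) := by
  rw [v.map_pow, hx, h27_nsmul_coe]

theorem h27_val_zpow_int {x : F} {n : ℤ} (hx : v x = (n : WithTop ℤ)) (k : ℤ) :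
    v (x ^ k) = ((k * n : ℤ) : WithTop ℤ) := by
  cases k with
  | ofNat k =>
    rw [Int.ofNat_eq_natCast, zpow_natCast]
    exact h27_val_pow_int v hx k
  | negSucc k =>
    rw [zpow_negSucc, h27_val_inv_int v (h27_val_pow_int v hx (k + 1))]
    congr 1
    rw [Int.negSucc_eq]
    push_cast
    ring

theorem h27_unit_mul {x y : F} (hx : v x = 0) (hy : v y = 0) : v (x * y) = 0 := by
  rw [v.map_mul, hx, hy, add_zero]

theorem h27_unit_inv {x : F} (hx : v x = 0) : v x⁻¹ = 0 := by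
  rw [v.map_inv, hx, neg_zero]

theorem h27_unit_pow {x : F} (hx : v x = 0) (k : ℕ) : v (x ^ k) = 0 := by
  rw [v.map_pow, hx, nsmul_zero]

theorem h27_unit_zpow {x : F} (hx : v x = 0) (k : ℤ) : v (x ^ k) = 0 := by
  have h := h27_val_zpow_int v (x := x) (n := 0) (by simpa using hx) k
  simpa using h

theorem h27_natCast_nonneg (n : ℕ) : 0 ≤ v (n : F) := by
  induction n with
  | zero => simp
  | succ n ih =>
    rw [Nat.cast_succ]
    exact v.map_le_add ih (by rw [v.map_one])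

/-! ### Congruences modulo the prime of `v`: `0 < v (x - y)` -/

theorem h27_cong_refl (x : F) : 0 < v (x - x) := by
  rw [sub_self, v.map_zero]
  exact WithTop.top_pos

theorem h27_cong_symm {x y : F} (h : 0 < v (x - y)) : 0 < v (y - x) := by
  rwa [v.map_sub_swap]

theorem h27_cong_trans {x y z : F} (h1 : 0 < v (x - y)) (h2 : 0 < v (y - z)) :
    0 < v (x - z) := by
  have h : x - z = (x - y) + (y - z) := by ring
  rw [h]
  exact v.map_lt_add h1 h2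

theorem h27_cong_mul {x y x' y' : F} (h1 : 0 < v (x - y)) (h2 : 0 < v (x' - y'))
    (hx : 0 ≤ v x) (hy' : 0 ≤ v y') : 0 < v (x * x' - y * y') := by
  have h : x * x' - y * y' = x * (x' - y') + (x - y) * y' := by ring
  rw [h]
  refine v.map_lt_add ?_ ?_
  · rw [v.map_mul]
    exact lt_of_lt_of_le h2 (le_add_of_nonneg_left hx)
  · rw [v.map_mul]
    exact lt_of_lt_of_le h1 (le_add_of_nonneg_right hy')

/-- A congruence transports unit-ness. -/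
theorem h27_cong_val {x y : F} (h : 0 < v (x - y)) (hx : v x = 0) : v y = 0 := by
  have h' : v x < v (y - x) := by
    rw [hx, v.map_sub_swap]
    exact h
  rw [v.map_eq_of_lt_sub h', hx]

theorem h27_cong_pow {x y : F} (h : 0 < v (x - y)) (hx : 0 ≤ v x) (hy : 0 ≤ v y) (n : ℕ) :
    0 < v (x ^ n - y ^ n) := by
  induction n with
  | zero => simp
  | succ n ih =>
    rw [pow_succ, pow_succ]
    refine h27_cong_mul v ih h ?_ hy
    rw [v.map_pow]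
    exact nsmul_nonneg hx n

theorem h27_cong_inv {x y : F} (h : 0 < v (x - y)) (hx : v x = 0) (hy : v y = 0) :
    0 < v (x⁻¹ - y⁻¹) := by
  have hx0 : x ≠ 0 := h27_ne_zero_of_unit v hx
  have hy0 : y ≠ 0 := h27_ne_zero_of_unit v hy
  have h' : x⁻¹ - y⁻¹ = (y - x) * (x⁻¹ * y⁻¹) := by
    field_simp
  rw [h', v.map_mul, h27_unit_mul v (h27_unit_inv v hx) (h27_unit_inv v hy), add_zero]
  exact h27_cong_symm v h

theorem h27_cong_zpow {x y : F} (h : 0 < v (x - y)) (hx : v x = 0) (hy : v y = 0) (k : ℤ) :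
    0 < v (x ^ k - y ^ k) := by
  cases k with
  | ofNat k =>
    rw [Int.ofNat_eq_natCast, zpow_natCast, zpow_natCast]
    exact h27_cong_pow v h hx.ge hy.ge k
  | negSucc k =>
    rw [zpow_negSucc, zpow_negSucc]
    exact h27_cong_inv v (h27_cong_pow v h hx.ge hy.ge (k + 1)) (h27_unit_pow v hx _)
      (h27_unit_pow v hy _)

/-! ### Powers of elements congruent to `1` -/

theorem h27_unit_of_cong_one {t : F} (ht : 0 < v (t - 1)) : v t = 0 :=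
  h27_cong_val v (h27_cong_symm v ht) v.map_one

theorem h27_pow_sub_one {t : F} (ht : 0 < v (t - 1)) (n : ℕ) : v (t - 1) ≤ v (t ^ n - 1) := by
  have hunit : v t = 0 := h27_unit_of_cong_one v ht
  rw [← geom_sum_mul t n, v.map_mul]
  have h : 0 ≤ v (∑ i ∈ Finset.range n, t ^ i) :=
    v.map_le_sum fun i _ => by rw [v.map_pow, hunit, nsmul_zero]
  exact le_add_of_nonneg_left h

theorem h27_zpow_sub_one {c : WithTop ℤ} (hc : 0 < c) {s : F} (hs : c ≤ v (s - 1)) (k : ℤ) :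
    c ≤ v (s ^ k - 1) := by
  have hs0 : 0 < v (s - 1) := lt_of_lt_of_le hc hs
  have hunit : v s = 0 := h27_unit_of_cong_one v hs0
  cases k with
  | ofNat n =>
    rw [Int.ofNat_eq_natCast, zpow_natCast]
    exact le_trans hs (h27_pow_sub_one v hs0 n)
  | negSucc n =>
    rw [zpow_negSucc]
    have hsn : s ^ (n + 1) ≠ 0 := pow_ne_zero _ (h27_ne_zero_of_unit v hunit)
    have h' : (s ^ (n + 1))⁻¹ - 1 = -((s ^ (n + 1) - 1) * (s ^ (n + 1))⁻¹) := by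
      field_simp
      ring
    rw [h', v.map_neg, v.map_mul, h27_unit_inv v (h27_unit_pow v hunit _), add_zero]
    exact le_trans hs (h27_pow_sub_one v hs0 (n + 1))

/-- On the thick branch (`v q = q - 1`): `t ≡ 1` modulo the prime implies `t^q ≡ 1` modulo
`q`. -/
theorem h27_thick {q : ℕ} (hq : q.Prime)
    (hvq : v (q : F) = (((q : ℤ) - 1 : ℤ) : WithTop ℤ)) {t : F} (ht : 0 < v (t - 1)) :
    v (q : F) ≤ v (t ^ q - 1) := by
  obtain ⟨n, hn⟩ : ∃ n : F, n = t - 1 := ⟨_, rfl⟩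
  have ht' : t = n + 1 := by rw [hn]; ring
  rw [← hn] at ht
  have h1 : (1 : WithTop ℤ) ≤ v n := h27_one_le_of_pos ht
  have h0 : (0 : WithTop ℤ) ≤ v n := ht.le
  rw [ht', add_pow_prime_eq hq n 1, one_pow]
  have hring : n ^ q + 1 + (q : F) * n * 1 *
      (∑ k ∈ Finset.Ioo 0 q, n ^ (k - 1) * 1 ^ (q - k - 1) * ((q.choose k / q : ℕ) : F)) - 1
      = n ^ q + (q : F) * n *
      (∑ k ∈ Finset.Ioo 0 q, n ^ (k - 1) * 1 ^ (q - k - 1) * ((q.choose k / q : ℕ) : F)) := by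
    ring
  rw [hring]
  refine v.map_le_add ?_ ?_
  · rw [v.map_pow, hvq]
    calc (((q : ℤ) - 1 : ℤ) : WithTop ℤ) ≤ ((q : ℤ) : WithTop ℤ) := by
          exact_mod_cast (by omega : (q : ℤ) - 1 ≤ q)
      _ = q • (1 : WithTop ℤ) := by
          rw [← WithTop.coe_one, h27_nsmul_coe]
          simp
      _ ≤ q • v n := nsmul_le_nsmul_right h1 q
  · rw [v.map_mul, v.map_mul]
    have hs : 0 ≤ v (∑ k ∈ Finset.Ioo 0 q,
        n ^ (k - 1) * 1 ^ (q - k - 1) * ((q.choose k / q : ℕ) : F)) :=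
      v.map_le_sum fun k _ => by
        rw [v.map_mul, v.map_mul, v.map_pow, v.map_pow, v.map_one, nsmul_zero, add_zero]
        exact add_nonneg (nsmul_nonneg h0 _) (h27_natCast_nonneg v _)
    calc v (q : F) = v (q : F) + 0 + 0 := by simp
      _ ≤ v (q : F) + v n + v (∑ k ∈ Finset.Ioo 0 q,
          n ^ (k - 1) * 1 ^ (q - k - 1) * ((q.choose k / q : ℕ) : F)) :=
        add_le_add (add_le_add le_rfl h0) hs

/-! ### Idempotents from uniformisers -/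

theorem h27_idem_one {p s : F} (hp : v p = 1) (hs : v s = 0) {N : ℕ} (hN : 0 < N) :
    v (s ^ N * (s ^ N + p ^ N)⁻¹ - 1) = ((N : ℤ) : WithTop ℤ) := by
  have hsN : v (s ^ N) = 0 := h27_unit_pow v hs N
  have hpN : v (p ^ N) = ((N : ℤ) : WithTop ℤ) := by
    have h := h27_val_pow_int v (x := p) (n := 1) (by simpa using hp) N
    simpa using h
  have hNpos : (0 : WithTop ℤ) < ((N : ℤ) : WithTop ℤ) := h27_coe_pos (by exact_mod_cast hN)
  have hD : v (s ^ N + p ^ N) = 0 := by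
    rw [v.map_add_of_distinct_val (by rw [hsN, hpN]; exact hNpos.ne), hsN, hpN]
    exact min_eq_left hNpos.le
  have hD0 : s ^ N + p ^ N ≠ 0 := h27_ne_zero_of_unit v hD
  have h' : s ^ N * (s ^ N + p ^ N)⁻¹ - 1 = -(p ^ N * (s ^ N + p ^ N)⁻¹) := by
    field_simp
    ring
  rw [h', v.map_neg, v.map_mul, h27_unit_inv v hD, add_zero, hpN]

theorem h27_idem_zero {p s : F} (hp : v p = 0) (hs : v s = 1) {N : ℕ} (hN : 0 < N) :
    v (s ^ N * (s ^ N + p ^ N)⁻¹) = ((N : ℤ) : WithTop ℤ) := by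
  have hpN : v (p ^ N) = 0 := h27_unit_pow v hp N
  have hsN : v (s ^ N) = ((N : ℤ) : WithTop ℤ) := by
    have h := h27_val_pow_int v (x := s) (n := 1) (by simpa using hs) N
    simpa using h
  have hNpos : (0 : WithTop ℤ) < ((N : ℤ) : WithTop ℤ) := h27_coe_pos (by exact_mod_cast hN)
  have hD : v (s ^ N + p ^ N) = 0 := by
    rw [v.map_add_of_distinct_val (by rw [hsN, hpN]; exact hNpos.ne'), hsN, hpN]
    exact min_eq_right hNpos.le
  rw [v.map_mul, h27_unit_inv v hD, add_zero, hsN]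

theorem h27_pos_of_int {x y : F} {c N : ℤ} (hx : v x = (c : WithTop ℤ))
    (hy : v y = (N : WithTop ℤ)) (h : 0 < c + N) : 0 < v (x * y) := by
  rw [h27_val_mul_int v hx hy]
  exact h27_coe_pos h

/-- Extraction of an `m`-th root of a unit modulo the prime of `v` from one of its `q`-th
power (`q`, `m` coprime). -/
theorem h27_root_of_pow {q m : ℕ} {A B : ℤ} (hAB : A * q + B * m = 1) {u P : F}
    (hu : v u = 0) (hP : v P = 0) (h : 0 < v (u ^ q - P ^ m)) :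
    ∃ y : F, v y = 0 ∧ 0 < v (u - y ^ m) := by
  have hu0 : u ≠ 0 := h27_ne_zero_of_unit v hu
  refine ⟨P ^ A * u ^ B, h27_unit_mul v (h27_unit_zpow v hP A) (h27_unit_zpow v hu B), ?_⟩
  have e1 : u = (u ^ q) ^ A * (u ^ B) ^ m := by
    rw [← zpow_natCast u q, ← zpow_mul, ← zpow_natCast (u ^ B) m, ← zpow_mul, ← zpow_add₀ hu0]
    have : (q : ℤ) * A + B * (m : ℤ) = 1 := by linarith
    rw [this, zpow_one]
  have e2 : (P ^ A * u ^ B) ^ m = (P ^ m) ^ A * (u ^ B) ^ m := by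
    rw [mul_pow, ← zpow_natCast (P ^ A) m, ← zpow_mul, ← zpow_natCast P m, ← zpow_mul,
      mul_comm A (m : ℤ)]
  have h1 := h27_cong_zpow v h (h27_unit_pow v hu q) (h27_unit_pow v hP m) A
  have h2 := h27_cong_mul v h1 (h27_cong_refl v ((u ^ B) ^ m))
    (h27_unit_zpow v (h27_unit_pow v hu q) A).ge
    (h27_unit_pow v (h27_unit_zpow v hu B) m).ge
  rw [e2]
  rw [← e1] at h2
  exact h2

end Val

/-! ### Chinese remainder theorem for three valuations with uniformisers -/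

section CRT

variable {F : Type*} [Field F] (v1 v2 v3 : AddValuation F (WithTop ℤ))

theorem h27_crt {p1 p2 p3 : F}
    (h11 : v1 p1 = 1) (h21 : v2 p1 = 0) (h31 : v3 p1 = 0)
    (h12 : v1 p2 = 0) (h22 : v2 p2 = 1) (h32 : v3 p2 = 0)
    (h13 : v1 p3 = 0) (h23 : v2 p3 = 0) (h33 : v3 p3 = 1)
    (Y1 Y2 Y3 : F) (hY1 : v1 Y1 = 0) (hY2 : v2 Y2 = 0) (hY3 : v3 Y3 = 0) :
    ∃ g0 : F, 0 < v1 (g0 - Y1) ∧ 0 < v2 (g0 - Y2) ∧ 0 < v3 (g0 - Y3) := by
  have hY10 : Y1 ≠ 0 := h27_ne_zero_of_unit v1 hY1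
  have hY20 : Y2 ≠ 0 := h27_ne_zero_of_unit v2 hY2
  have hY30 : Y3 ≠ 0 := h27_ne_zero_of_unit v3 hY3
  obtain ⟨c12, hc12⟩ := h27_exists_int v1 hY20
  obtain ⟨c13, hc13⟩ := h27_exists_int v1 hY30
  obtain ⟨c21, hc21⟩ := h27_exists_int v2 hY10
  obtain ⟨c23, hc23⟩ := h27_exists_int v2 hY30
  obtain ⟨c31, hc31⟩ := h27_exists_int v3 hY10
  obtain ⟨c32, hc32⟩ := h27_exists_int v3 hY20
  obtain ⟨N, hN⟩ : ∃ N : ℕ, N = 1 + c12.natAbs + c13.natAbs + c21.natAbs + c23.natAbs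
      + c31.natAbs + c32.natAbs := ⟨_, rfl⟩
  have hN0 : 0 < N := by omega
  have hNZ : (0 : ℤ) < (N : ℤ) := by exact_mod_cast hN0
  -- the three idempotents
  obtain ⟨e1, he1⟩ : ∃ e : F, e = (p2 * p3) ^ N * ((p2 * p3) ^ N + p1 ^ N)⁻¹ := ⟨_, rfl⟩
  obtain ⟨e2, he2⟩ : ∃ e : F, e = (p1 * p3) ^ N * ((p1 * p3) ^ N + p2 ^ N)⁻¹ := ⟨_, rfl⟩
  obtain ⟨e3, he3⟩ : ∃ e : F, e = (p1 * p2) ^ N * ((p1 * p2) ^ N + p3 ^ N)⁻¹ := ⟨_, rfl⟩
  -- e1
  have a11 : v1 (e1 - 1) = ((N : ℤ) : WithTop ℤ) := by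
    rw [he1]; exact h27_idem_one v1 h11 (h27_unit_mul v1 h12 h13) hN0
  have a21 : v2 e1 = ((N : ℤ) : WithTop ℤ) := by
    rw [he1]; exact h27_idem_zero v2 h21 (by rw [v2.map_mul, h22, h23, add_zero]) hN0
  have a31 : v3 e1 = ((N : ℤ) : WithTop ℤ) := by
    rw [he1]; exact h27_idem_zero v3 h31 (by rw [v3.map_mul, h32, h33, zero_add]) hN0
  -- e2
  have a22 : v2 (e2 - 1) = ((N : ℤ) : WithTop ℤ) := by
    rw [he2]; exact h27_idem_one v2 h22 (h27_unit_mul v2 h21 h23) hN0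
  have a12 : v1 e2 = ((N : ℤ) : WithTop ℤ) := by
    rw [he2]; exact h27_idem_zero v1 h12 (by rw [v1.map_mul, h11, h13, add_zero]) hN0
  have a32 : v3 e2 = ((N : ℤ) : WithTop ℤ) := by
    rw [he2]; exact h27_idem_zero v3 h32 (by rw [v3.map_mul, h31, h33, zero_add]) hN0
  -- e3
  have a33 : v3 (e3 - 1) = ((N : ℤ) : WithTop ℤ) := by
    rw [he3]; exact h27_idem_one v3 h33 (h27_unit_mul v3 h31 h32) hN0
  have a13 : v1 e3 = ((N : ℤ) : WithTop ℤ) := by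
    rw [he3]; exact h27_idem_zero v1 h13 (by rw [v1.map_mul, h11, h12, add_zero]) hN0
  have a23 : v2 e3 = ((N : ℤ) : WithTop ℤ) := by
    rw [he3]; exact h27_idem_zero v2 h23 (by rw [v2.map_mul, h21, h22, zero_add]) hN0
  have hY1' : v1 Y1 = ((0 : ℤ) : WithTop ℤ) := by simpa using hY1
  have hY2' : v2 Y2 = ((0 : ℤ) : WithTop ℤ) := by simpa using hY2
  have hY3' : v3 Y3 = ((0 : ℤ) : WithTop ℤ) := by simpa using hY3
  refine ⟨Y1 * e1 + Y2 * e2 + Y3 * e3, ?_, ?_, ?_⟩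
  · have h : Y1 * e1 + Y2 * e2 + Y3 * e3 - Y1 = Y1 * (e1 - 1) + Y2 * e2 + Y3 * e3 := by ring
    rw [h]
    refine v1.map_lt_add (v1.map_lt_add ?_ ?_) ?_
    · exact h27_pos_of_int v1 hY1' a11 (by omega)
    · exact h27_pos_of_int v1 hc12 a12 (by omega)
    · exact h27_pos_of_int v1 hc13 a13 (by omega)
  · have h : Y1 * e1 + Y2 * e2 + Y3 * e3 - Y2 = Y1 * e1 + Y2 * (e2 - 1) + Y3 * e3 := by ring
    rw [h]
    refine v2.map_lt_add (v2.map_lt_add ?_ ?_) ?_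
    · exact h27_pos_of_int v2 hc21 a21 (by omega)
    · exact h27_pos_of_int v2 hY2' a22 (by omega)
    · exact h27_pos_of_int v2 hc23 a23 (by omega)
  · have h : Y1 * e1 + Y2 * e2 + Y3 * e3 - Y3 = Y1 * e1 + Y2 * e2 + Y3 * (e3 - 1) := by ring
    rw [h]
    refine v3.map_lt_add (v3.map_lt_add ?_ ?_) ?_
    · exact h27_pos_of_int v3 hc31 a31 (by omega)
    · exact h27_pos_of_int v3 hc32 a32 (by omega)
    · exact h27_pos_of_int v3 hY3' a33 (by omega)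

end CRT

/-! ### The norm of a unit is an `m`-th power modulo both primes of level `q` -/

section NormRoot

variable {F' : Type*} [Field F'] (wF wV : AddValuation F' (WithTop ℤ))

theorem h27_norm_root (q m : ℕ) (hm : 0 < m)
    (hwFq : wF (q : F') = 1) (hwVq : wV (q : F') = 1)
    (C : F' → Prop) (hCq : C (q : F')) (hCmul : ∀ x y, C x → C y → C (x * y))
    (hCinv : ∀ x, C x → C x⁻¹) (hCval : ∀ x, C x → wF x = wV x)
    (hCroot : ∀ κ, C κ → wF κ = 0 → ∃ c : F', wF c = 0 ∧ wV c = 0 ∧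
      0 < wF (κ - c ^ m) ∧ 0 < wV (κ - c ^ m))
    {X κ φ : F'} (hX : X = κ * φ ^ m) (hκ : C κ) (hκ0 : κ ≠ 0) (hφ0 : φ ≠ 0)
    (hXF : wF X = 0) (hXV : wV X = 0) :
    ∃ ψ : F', wF ψ = 0 ∧ wV ψ = 0 ∧ 0 < wF (X - ψ ^ m) ∧ 0 < wV (X - ψ ^ m) := by
  have hQ0 : (q : F') ≠ 0 := h27_ne_zero_of_int wF (n := 1) (by simpa using hwFq)
  have hwFq' : wF (q : F') = ((1 : ℤ) : WithTop ℤ) := by simpa using hwFq
  have hwVq' : wV (q : F') = ((1 : ℤ) : WithTop ℤ) := by simpa using hwVq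
  obtain ⟨k, hk⟩ := h27_exists_int wF hκ0
  obtain ⟨f, hf⟩ := h27_exists_int wF hφ0
  obtain ⟨g, hg⟩ := h27_exists_int wV hφ0
  have hk' : wV κ = (k : WithTop ℤ) := by rw [← hCval κ hκ, hk]
  have e1 : k + m * f = 0 := by
    have h := hXF
    rw [hX, h27_val_mul_int wF hk (h27_val_pow_int wF hf m)] at h
    exact_mod_cast h
  have e2 : k + m * g = 0 := by
    have h := hXV
    rw [hX, h27_val_mul_int wV hk' (h27_val_pow_int wV hg m)] at h
    exact_mod_cast h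
  have hmZ : (m : ℤ) ≠ 0 := by exact_mod_cast hm.ne'
  have hfg : g = f := by
    have h : (m : ℤ) * g = m * f := by linarith
    exact mul_left_cancel₀ hmZ h
  subst hfg
  -- closure of the constants under integer powers of `q`
  have hC1 : C (1 : F') := by
    have h := hCmul _ _ hCq (hCinv _ hCq)
    rwa [mul_inv_cancel₀ hQ0] at h
  have hCpow : ∀ n : ℕ, C ((q : F') ^ n) := by
    intro n
    induction n with
    | zero => simpa using hC1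
    | succ n ih => rw [pow_succ]; exact hCmul _ _ ih hCq
  have hCz : ∀ j : ℤ, C ((q : F') ^ j) := by
    intro j
    cases j with
    | ofNat n => rw [Int.ofNat_eq_natCast, zpow_natCast]; exact hCpow n
    | negSucc n => rw [zpow_negSucc]; exact hCinv _ (hCpow _)
  obtain ⟨φ3, hφ3⟩ : ∃ φ3 : F', φ3 = φ * (q : F') ^ (-g) := ⟨_, rfl⟩
  obtain ⟨κ3, hκ3⟩ : ∃ κ3 : F', κ3 = κ * (q : F') ^ ((m : ℤ) * g) := ⟨_, rfl⟩
  have hφ3F : wF φ3 = 0 := by
    rw [hφ3, h27_val_mul_int wF hf (h27_val_zpow_int wF hwFq' (-g))]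
    exact_mod_cast (by ring : g + -g * 1 = (0 : ℤ))
  have hφ3V : wV φ3 = 0 := by
    rw [hφ3, h27_val_mul_int wV hg (h27_val_zpow_int wV hwVq' (-g))]
    exact_mod_cast (by ring : g + -g * 1 = (0 : ℤ))
  have hκ3F : wF κ3 = 0 := by
    rw [hκ3, h27_val_mul_int wF hk (h27_val_zpow_int wF hwFq' ((m : ℤ) * g))]
    exact_mod_cast (by linarith : k + (m : ℤ) * g * 1 = (0 : ℤ))
  have hκ3C : C κ3 := by rw [hκ3]; exact hCmul _ _ hκ (hCz _)
  have hX3 : X = κ3 * φ3 ^ m := by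
    have hz : (q : F') ^ ((m : ℤ) * g) * ((q : F') ^ (-g)) ^ m = 1 := by
      rw [← zpow_natCast ((q : F') ^ (-g)) m, ← zpow_mul, ← zpow_add₀ hQ0]
      have : (m : ℤ) * g + -g * (m : ℤ) = 0 := by ring
      rw [this, zpow_zero]
    rw [hX, hκ3, hφ3, mul_pow]
    calc κ * φ ^ m = κ * φ ^ m * ((q : F') ^ ((m : ℤ) * g) * ((q : F') ^ (-g)) ^ m) := by
          rw [hz, mul_one]
      _ = κ * (q : F') ^ ((m : ℤ) * g) * (φ ^ m * ((q : F') ^ (-g)) ^ m) := by ring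
  obtain ⟨c, hcF, hcV, hc1, hc2⟩ := hCroot κ3 hκ3C hκ3F
  refine ⟨c * φ3, h27_unit_mul wF hcF hφ3F, h27_unit_mul wV hcV hφ3V, ?_, ?_⟩
  · have h : X - (c * φ3) ^ m = (κ3 - c ^ m) * φ3 ^ m := by rw [hX3]; ring
    rw [h, wF.map_mul, h27_unit_pow wF hφ3F, add_zero]
    exact hc1
  · have h : X - (c * φ3) ^ m = (κ3 - c ^ m) * φ3 ^ m := by rw [hX3]; ring
    rw [h, wV.map_mul, h27_unit_pow wV hφ3V, add_zero]
    exact hc2

end NormRoot

/-! ### The core theorem -/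

section Main

variable {F F' : Type*} [Field F] [Field F']

theorem h27_val_u2 (v : AddValuation F (WithTop ℤ)) {u Q b0 : F} {n vq k : ℤ}
    (hu : v u = (n : WithTop ℤ)) (hQ : v Q = (vq : WithTop ℤ)) (hb : v b0 = (k : WithTop ℤ))
    (q m : ℕ) (J0 : ℤ) :
    v (u ^ (q + 1) * Q ^ (-J0) * (b0 ^ m)⁻¹)
      = ((((q + 1 : ℕ) : ℤ) * n + -J0 * vq + -((m : ℤ) * k) : ℤ) : WithTop ℤ) := by
  rw [h27_val_mul_int v (h27_val_mul_int v (h27_val_pow_int v hu (q + 1))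
    (h27_val_zpow_int v hQ (-J0))) (h27_val_inv_int v (h27_val_pow_int v hb m))]

/-- **TOR core.**  `a b : F' →+* F` the two degeneracy embeddings, `Na Nb` the two norms,
`v1 v2 v3` the three valuations at level `q²L` (`v(q) = (1, q-1, 1)`), `wF wV` the two at level
`qL`, `C` the constants.  If both norms of `u` are a constant times an `m`-th power (`m` prime
to `q`), then `u^(q²-1) = q^J · h^m · u4` with `u4 ≡ 1` modulo `q` at the three valuations. -/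
theorem h27_toric_core
    (a b : F' →+* F) (Na Nb : F →*₀ F')
    (q m : ℕ) (hq : q.Prime) (hm : 0 < m) (hqm : Nat.Coprime q m)
    (v1 v2 v3 : AddValuation F (WithTop ℤ)) (wF wV : AddValuation F' (WithTop ℤ))
    -- (V0): the primes along `a`, and `P1` along `b`
    (hv1a : ∀ g, v1 (a g) = wF g) (hv2a : ∀ g, v2 (a g) = (q - 1) • wF g)
    (hv3a : ∀ g, v3 (a g) = wV g) (hv1b : ∀ g, v1 (b g) = wF g)
    (hv1q : v1 (q : F) = 1) (hv2q : v2 (q : F) = (((q : ℤ) - 1 : ℤ) : WithTop ℤ))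
    (hv3q : v3 (q : F) = 1)
    -- (V1), (V2): residue degree one of `P1`, `P2` over `Z_F` along `a`
    (hV1 : ∀ y : F, v1 y = 0 → ∃ y' : F', 0 < v1 (y - a y'))
    (hV2 : ∀ u : F, v2 u = 0 → ∃ g : F', 0 < v2 (u - a g))
    -- (V3): uniformisers
    (hV3 : ∃ p1 p2 p3 : F, v1 p1 = 1 ∧ v2 p1 = 0 ∧ v3 p1 = 0 ∧ v1 p2 = 0 ∧ v2 p2 = 1 ∧
      v3 p2 = 0 ∧ v1 p3 = 0 ∧ v2 p3 = 0 ∧ v3 p3 = 1)
    -- (N1): valuations of norms
    (hN1aF : ∀ u : F, u ≠ 0 → wF (Na u) = v1 u + v2 u)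
    (hN1aV : ∀ u : F, u ≠ 0 → wV (Na u) = q • v3 u)
    (hN1bF : ∀ u : F, u ≠ 0 → wF (Nb u) = q • v1 u)
    (hN1bV : ∀ u : F, u ≠ 0 → wV (Nb u) = v2 u + v3 u)
    (hNaq : Na (q : F) = (q : F') ^ q) (hNbq : Nb (q : F) = (q : F') ^ q)
    -- (N2), (N3), (N4): residues of norms of units
    (hN2 : ∀ u : F, v1 u = 0 → v2 u = 0 → v3 u = 0 → 0 < v3 (a (Na u) - u ^ q))
    (hN3 : ∀ u : F, v1 u = 0 → v2 u = 0 → v3 u = 0 → 0 < v1 (b (Nb u) - u ^ q))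
    (hN4 : ∀ u : F, v1 u = 0 → v2 u = 0 → v3 u = 0 → ∀ g : F', 0 < v2 (u - a g) →
      0 < v1 (a (Na u) - u * a g ^ (q - 1)))
    -- (K6+): the constants
    (C : F' → Prop) (hCq : C (q : F')) (hCmul : ∀ x y, C x → C y → C (x * y))
    (hCinv : ∀ x, C x → C x⁻¹) (hCval : ∀ x, C x → wF x = wV x)
    (hCroot : ∀ κ, C κ → wF κ = 0 → ∃ c : F', wF c = 0 ∧ wV c = 0 ∧
      0 < wF (κ - c ^ m) ∧ 0 < wV (κ - c ^ m))
    -- the data
    (u : F) (hu : u ≠ 0) (κa κb φa φb : F') (hκa : C κa) (hκb : C κb)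
    (hκa0 : κa ≠ 0) (hκb0 : κb ≠ 0) (hφa : φa ≠ 0) (hφb : φb ≠ 0)
    (hNa : Na u = κa * φa ^ m) (hNb : Nb u = κb * φb ^ m) :
    ∃ (J : ℤ) (h u4 : F), h ≠ 0 ∧ u ^ (q ^ 2 - 1) = (q : F) ^ J * h ^ m * u4 ∧
      v1 (q : F) ≤ v1 (u4 - 1) ∧ v2 (q : F) ≤ v2 (u4 - 1) ∧ v3 (q : F) ≤ v3 (u4 - 1) := by
  obtain ⟨p1, p2, p3, h11, h21, h31, h12, h22, h32, h13, h23, h33⟩ := hV3
  have hq2 : 2 ≤ q := hq.two_le
  have hv1q' : v1 (q : F) = ((1 : ℤ) : WithTop ℤ) := by simpa using hv1q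
  have hv3q' : v3 (q : F) = ((1 : ℤ) : WithTop ℤ) := by simpa using hv3q
  have hQ : (q : F) ≠ 0 := h27_ne_zero_of_int v1 hv1q'
  have haQ : a (q : F') = (q : F) := map_natCast a q
  have hwFq : wF (q : F') = 1 := by rw [← hv1a, haQ, hv1q]
  have hwVq : wV (q : F') = 1 := by rw [← hv3a, haQ, hv3q]
  have hQ' : (q : F') ≠ 0 := h27_ne_zero_of_int wF (n := 1) (by simpa using hwFq)
  -- Step A: valuations
  obtain ⟨n1, hn1⟩ := h27_exists_int v1 hu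
  obtain ⟨n2, hn2⟩ := h27_exists_int v2 hu
  obtain ⟨n3, hn3⟩ := h27_exists_int v3 hu
  obtain ⟨ka, hka⟩ := h27_exists_int wF hκa0
  obtain ⟨fa, hfa⟩ := h27_exists_int wF hφa
  obtain ⟨ga, hga⟩ := h27_exists_int wV hφa
  obtain ⟨kb, hkb⟩ := h27_exists_int wF hκb0
  obtain ⟨fb, hfb⟩ := h27_exists_int wF hφb
  obtain ⟨gb, hgb⟩ := h27_exists_int wV hφb
  have hka' : wV κa = (ka : WithTop ℤ) := by rw [← hCval κa hκa, hka]
  have hkb' : wV κb = (kb : WithTop ℤ) := by rw [← hCval κb hκb, hkb]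
  have e1 : ka + m * fa = n1 + n2 := by
    have h := hN1aF u hu
    rw [hNa, h27_val_mul_int wF hka (h27_val_pow_int wF hfa m), hn1, hn2] at h
    exact_mod_cast h
  have e2 : ka + m * ga = q * n3 := by
    have h := hN1aV u hu
    rw [hNa, h27_val_mul_int wV hka' (h27_val_pow_int wV hga m), hn3, h27_nsmul_coe] at h
    exact_mod_cast h
  have e3 : kb + m * fb = q * n1 := by
    have h := hN1bF u hu
    rw [hNb, h27_val_mul_int wF hkb (h27_val_pow_int wF hfb m), hn1, h27_nsmul_coe] at h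
    exact_mod_cast h
  have e4 : kb + m * gb = n2 + n3 := by
    have h := hN1bV u hu
    rw [hNb, h27_val_mul_int wV hkb' (h27_val_pow_int wV hgb m), hn2, hn3] at h
    exact_mod_cast h
  obtain ⟨k2, hk2⟩ : ∃ k2 : ℤ, k2 = (fa - ga) - q * (fb - gb) := ⟨_, rfl⟩
  obtain ⟨k3, hk3⟩ : ∃ k3 : ℤ, k3 = -((fa - ga) + (fb - gb)) := ⟨_, rfl⟩
  obtain ⟨J0, hJ0⟩ : ∃ J0 : ℤ, J0 = ((q : ℤ) + 1) * n1 := ⟨_, rfl⟩
  have hid1 : ((q + 1 : ℕ) : ℤ) * n1 + -J0 * 1 + -((m : ℤ) * 0) = 0 := by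
    rw [hJ0]
    push_cast
    ring
  have hid2 : ((q + 1 : ℕ) : ℤ) * n2 + -J0 * ((q : ℤ) - 1) + -((m : ℤ) * k2) = 0 := by
    rw [hk2, hJ0]
    push_cast
    linear_combination (-1 : ℤ) * e1 + e2 + (q : ℤ) * e3 - (q : ℤ) * e4
  have hid3 : ((q + 1 : ℕ) : ℤ) * n3 + -J0 * 1 + -((m : ℤ) * k3) = 0 := by
    rw [hk3, hJ0]
    push_cast
    linear_combination e1 - e2 + e3 - e4
  obtain ⟨b0, hb0⟩ : ∃ b0 : F, b0 = p2 ^ k2 * p3 ^ k3 := ⟨_, rfl⟩
  have hb0v1 : v1 b0 = ((0 : ℤ) : WithTop ℤ) := by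
    rw [hb0, h27_unit_mul v1 (h27_unit_zpow v1 h12 k2) (h27_unit_zpow v1 h13 k3)]
    rfl
  have hb0v2 : v2 b0 = (k2 : WithTop ℤ) := by
    rw [hb0, v2.map_mul, h27_unit_zpow v2 h23 k3, add_zero,
      h27_val_zpow_int v2 (x := p2) (n := 1) (by simpa using h22) k2, mul_one]
  have hb0v3 : v3 b0 = (k3 : WithTop ℤ) := by
    rw [hb0, v3.map_mul, h27_unit_zpow v3 h32 k2, zero_add,
      h27_val_zpow_int v3 (x := p3) (n := 1) (by simpa using h33) k3, mul_one]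
  have hb00 : b0 ≠ 0 := h27_ne_zero_of_int v1 hb0v1
  obtain ⟨u2, hu2⟩ : ∃ u2 : F, u2 = u ^ (q + 1) * (q : F) ^ (-J0) * (b0 ^ m)⁻¹ := ⟨_, rfl⟩
  have hu2v1 : v1 u2 = 0 := by
    rw [hu2, h27_val_u2 v1 hn1 hv1q' hb0v1 q m J0, hid1]
    rfl
  have hu2v2 : v2 u2 = 0 := by
    rw [hu2, h27_val_u2 v2 hn2 hv2q hb0v2 q m J0, hid2]
    rfl
  have hu2v3 : v3 u2 = 0 := by
    rw [hu2, h27_val_u2 v3 hn3 hv3q' hb0v3 q m J0, hid3]
    rfl
  have hu20 : u2 ≠ 0 := h27_ne_zero_of_unit v1 hu2v1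
  -- Step B: the norms of `u2`
  have hNab0 : Na b0 ≠ 0 := (map_ne_zero Na).mpr hb00
  have hNbb0 : Nb b0 ≠ 0 := (map_ne_zero Nb).mpr hb00
  have hNa2 : Na u2 = (κa ^ (q + 1) * ((q : F') ^ q) ^ (-J0)) *
      (φa ^ (q + 1) * (Na b0)⁻¹) ^ m := by
    rw [hu2, map_mul, map_mul, map_pow, map_zpow₀, map_inv₀, map_pow, hNa, hNaq]
    ring
  have hNb2 : Nb u2 = (κb ^ (q + 1) * ((q : F') ^ q) ^ (-J0)) *
      (φb ^ (q + 1) * (Nb b0)⁻¹) ^ m := by
    rw [hu2, map_mul, map_mul, map_pow, map_zpow₀, map_inv₀, map_pow, hNb, hNbq]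
    ring
  have hC1 : C (1 : F') := by
    have h := hCmul _ _ hCq (hCinv _ hCq)
    rwa [mul_inv_cancel₀ hQ'] at h
  have hCpow : ∀ x, C x → ∀ n : ℕ, C (x ^ n) := by
    intro x hx n
    induction n with
    | zero => simpa using hC1
    | succ n ih => rw [pow_succ]; exact hCmul _ _ ih hx
  have hCzq : ∀ j : ℤ, C (((q : F') ^ q) ^ j) := by
    intro j
    cases j with
    | ofNat n =>
      rw [Int.ofNat_eq_natCast, zpow_natCast]
      exact hCpow _ (hCpow _ hCq q) n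
    | negSucc n =>
      rw [zpow_negSucc]
      exact hCinv _ (hCpow _ (hCpow _ hCq q) _)
  have hκ2a : C (κa ^ (q + 1) * ((q : F') ^ q) ^ (-J0)) := hCmul _ _ (hCpow _ hκa _) (hCzq _)
  have hκ2b : C (κb ^ (q + 1) * ((q : F') ^ q) ^ (-J0)) := hCmul _ _ (hCpow _ hκb _) (hCzq _)
  have hκ2a0 : κa ^ (q + 1) * ((q : F') ^ q) ^ (-J0) ≠ 0 :=
    mul_ne_zero (pow_ne_zero _ hκa0) (zpow_ne_zero _ (pow_ne_zero _ hQ'))
  have hκ2b0 : κb ^ (q + 1) * ((q : F') ^ q) ^ (-J0) ≠ 0 :=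
    mul_ne_zero (pow_ne_zero _ hκb0) (zpow_ne_zero _ (pow_ne_zero _ hQ'))
  have hφ2a0 : φa ^ (q + 1) * (Na b0)⁻¹ ≠ 0 :=
    mul_ne_zero (pow_ne_zero _ hφa) (inv_ne_zero hNab0)
  have hφ2b0 : φb ^ (q + 1) * (Nb b0)⁻¹ ≠ 0 :=
    mul_ne_zero (pow_ne_zero _ hφb) (inv_ne_zero hNbb0)
  have hNa2F : wF (Na u2) = 0 := by rw [hN1aF u2 hu20, hu2v1, hu2v2, add_zero]
  have hNa2V : wV (Na u2) = 0 := by rw [hN1aV u2 hu20, hu2v3, nsmul_zero]
  have hNb2F : wF (Nb u2) = 0 := by rw [hN1bF u2 hu20, hu2v1, nsmul_zero]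
  have hNb2V : wV (Nb u2) = 0 := by rw [hN1bV u2 hu20, hu2v2, hu2v3, add_zero]
  obtain ⟨ψa, hψaF, hψaV, hψa1, hψa2⟩ := h27_norm_root wF wV q m hm hwFq hwVq C hCq hCmul
    hCinv hCval hCroot hNa2 hκ2a hκ2a0 hφ2a0 hNa2F hNa2V
  obtain ⟨ψb, hψbF, hψbV, hψb1, hψb2⟩ := h27_norm_root wF wV q m hm hwFq hwVq C hCq hCmul
    hCinv hCval hCroot hNb2 hκ2b hκ2b0 hφ2b0 hNb2F hNb2V
  -- Step C: residues
  obtain ⟨A, B, hAB⟩ : ∃ A B : ℤ, A * q + B * m = 1 := Nat.isCoprime_iff_coprime.mpr hqm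
  -- (C1) at `P1`, through `b`
  have hbψ : v1 (b ψb) = 0 := by rw [hv1b, hψbF]
  have c1a : 0 < v1 (u2 ^ q - b ψb ^ m) := by
    have h1 := hN3 u2 hu2v1 hu2v2 hu2v3
    have h2 : 0 < v1 (b (Nb u2) - b ψb ^ m) := by
      rw [← map_pow b ψb m, ← map_sub b, hv1b]
      exact hψb1
    exact h27_cong_trans v1 (h27_cong_symm v1 h1) h2
  obtain ⟨y1, hy1, hy1c⟩ := h27_root_of_pow v1 hAB hu2v1 hbψ c1a
  -- (C3) at `P3`, through `a`
  have haψ3 : v3 (a ψa) = 0 := by rw [hv3a, hψaV]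
  have c3a : 0 < v3 (u2 ^ q - a ψa ^ m) := by
    have h1 := hN2 u2 hu2v1 hu2v2 hu2v3
    have h2 : 0 < v3 (a (Na u2) - a ψa ^ m) := by
      rw [← map_pow a ψa m, ← map_sub a, hv3a]
      exact hψa2
    exact h27_cong_trans v3 (h27_cong_symm v3 h1) h2
  obtain ⟨y3, hy3, hy3c⟩ := h27_root_of_pow v3 hAB hu2v3 haψ3 c3a
  -- (C2) at `P2`
  obtain ⟨g, hg⟩ := hV2 u2 hu2v2
  have hag2 : v2 (a g) = 0 := h27_cong_val v2 hg hu2v2
  have hg0 : g ≠ 0 := by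
    rintro rfl
    rw [map_zero] at hag2
    exact h27_ne_zero_of_unit v2 hag2 rfl
  have hq1 : 0 < q - 1 := by omega
  have hwg : wF g = 0 := by
    obtain ⟨n, hn⟩ := h27_exists_int wF hg0
    have h := hag2
    rw [hv2a, hn, h27_nsmul_coe] at h
    have h' : ((q - 1 : ℕ) : ℤ) * n = 0 := by exact_mod_cast h
    have hq1' : ((q - 1 : ℕ) : ℤ) ≠ 0 := by exact_mod_cast hq1.ne'
    have hn0 : n = 0 := (mul_eq_zero.mp h').resolve_left hq1'
    rw [hn, hn0]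
    rfl
  have hN4' := hN4 u2 hu2v1 hu2v2 hu2v3 g hg
  have haψ1 : v1 (a ψa) = 0 := by rw [hv1a, hψaF]
  have h5 : 0 < v1 (a (Na u2) - a ψa ^ m) := by
    rw [← map_pow a ψa m, ← map_sub a, hv1a]
    exact hψa1
  have h6 : 0 < v1 (u2 * a g ^ (q - 1) - a ψa ^ m) :=
    h27_cong_trans v1 (h27_cong_symm v1 hN4') h5
  obtain ⟨Y, hY⟩ : ∃ Y : F, Y = a ψa * y1⁻¹ := ⟨_, rfl⟩
  have hYv : v1 Y = 0 := by
    rw [hY]
    exact h27_unit_mul v1 haψ1 (h27_unit_inv v1 hy1)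
  have hy1m : v1 (y1 ^ m) = 0 := h27_unit_pow v1 hy1 m
  have h7 : 0 < v1 (a g ^ (q - 1) - Y ^ m) := by
    have hx : a g ^ (q - 1) = u2⁻¹ * (u2 * a g ^ (q - 1)) := by
      rw [← mul_assoc, inv_mul_cancel₀ hu20, one_mul]
    have hy : Y ^ m = (y1 ^ m)⁻¹ * a ψa ^ m := by
      rw [hY, mul_pow, inv_pow, mul_comm]
    rw [hx, hy]
    exact h27_cong_mul v1 (h27_cong_inv v1 hy1c hu2v1 hy1m) h6 (h27_unit_inv v1 hu2v1).ge
      (h27_unit_pow v1 haψ1 m).ge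
  obtain ⟨y', hy'⟩ := hV1 Y hYv
  have hay' : v1 (a y') = 0 := h27_cong_val v1 hy' hYv
  have h8 : 0 < v1 (a g ^ (q - 1) - a y' ^ m) :=
    h27_cong_trans v1 h7 (h27_cong_pow v1 hy' hYv.ge hay'.ge m)
  have h9 : 0 < wF (g ^ (q - 1) - y' ^ m) := by
    rw [← map_pow a g (q - 1), ← map_pow a y' m, ← map_sub a, hv1a] at h8
    exact h8
  have h10 : 0 < v2 (a g ^ (q - 1) - a y' ^ m) := by
    rw [← map_pow a g (q - 1), ← map_pow a y' m, ← map_sub a, hv2a]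
    exact h27_nsmul_pos h9 hq1
  have hwy' : wF y' = 0 := by
    rw [← hv1a]
    exact hay'
  have hay'2 : v2 (a y') = 0 := by rw [hv2a, hwy', nsmul_zero]
  have c2 : 0 < v2 (u2 ^ (q - 1) - a y' ^ m) :=
    h27_cong_trans v2 (h27_cong_pow v2 hg hu2v2.ge hag2.ge (q - 1)) h10
  -- Step D: from the three primes to `q`
  have hY1u : v1 (y1 ^ (q - 1)) = 0 := h27_unit_pow v1 hy1 _
  have hY3u : v3 (y3 ^ (q - 1)) = 0 := h27_unit_pow v3 hy3 _
  have hy3m : v3 (y3 ^ m) = 0 := h27_unit_pow v3 hy3 m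
  obtain ⟨g0, hg1, hg2, hg3⟩ := h27_crt v1 v2 v3 h11 h21 h31 h12 h22 h32 h13 h23 h33
    (y1 ^ (q - 1)) (a y') (y3 ^ (q - 1)) hY1u hay'2 hY3u
  have hg0v1 : v1 g0 = 0 := h27_cong_val v1 (h27_cong_symm v1 hg1) hY1u
  have hg0v2 : v2 g0 = 0 := h27_cong_val v2 (h27_cong_symm v2 hg2) hay'2
  have hg0v3 : v3 g0 = 0 := h27_cong_val v3 (h27_cong_symm v3 hg3) hY3u
  have hg00 : g0 ≠ 0 := h27_ne_zero_of_unit v1 hg0v1
  obtain ⟨u3, hu3⟩ : ∃ u3 : F, u3 = u2 ^ (q - 1) := ⟨_, rfl⟩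
  have d1 : 0 < v1 (u3 - g0 ^ m) := by
    have h1 : 0 < v1 (u2 ^ (q - 1) - (y1 ^ m) ^ (q - 1)) :=
      h27_cong_pow v1 hy1c hu2v1.ge hy1m.ge (q - 1)
    have h2 : (y1 ^ m) ^ (q - 1) = (y1 ^ (q - 1)) ^ m := by
      rw [← pow_mul, ← pow_mul, mul_comm]
    rw [h2] at h1
    rw [hu3]
    exact h27_cong_trans v1 h1 (h27_cong_pow v1 (h27_cong_symm v1 hg1) hY1u.ge hg0v1.ge m)
  have d2 : 0 < v2 (u3 - g0 ^ m) := by
    rw [hu3]
    exact h27_cong_trans v2 c2 (h27_cong_pow v2 (h27_cong_symm v2 hg2) hay'2.ge hg0v2.ge m)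
  have d3 : 0 < v3 (u3 - g0 ^ m) := by
    have h1 : 0 < v3 (u2 ^ (q - 1) - (y3 ^ m) ^ (q - 1)) :=
      h27_cong_pow v3 hy3c hu2v3.ge hy3m.ge (q - 1)
    have h2 : (y3 ^ m) ^ (q - 1) = (y3 ^ (q - 1)) ^ m := by
      rw [← pow_mul, ← pow_mul, mul_comm]
    rw [h2] at h1
    rw [hu3]
    exact h27_cong_trans v3 h1 (h27_cong_pow v3 (h27_cong_symm v3 hg3) hY3u.ge hg0v3.ge m)
  obtain ⟨t, ht⟩ : ∃ t : F, t = u3 * (g0 ^ m)⁻¹ := ⟨_, rfl⟩
  have hg0m : g0 ^ m ≠ 0 := pow_ne_zero _ hg00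
  have htsub : t - 1 = (u3 - g0 ^ m) * (g0 ^ m)⁻¹ := by
    rw [ht, sub_mul, mul_inv_cancel₀ hg0m]
  have t1 : 0 < v1 (t - 1) := by
    rw [htsub, v1.map_mul, h27_unit_inv v1 (h27_unit_pow v1 hg0v1 m), add_zero]
    exact d1
  have t2 : 0 < v2 (t - 1) := by
    rw [htsub, v2.map_mul, h27_unit_inv v2 (h27_unit_pow v2 hg0v2 m), add_zero]
    exact d2
  have t3 : 0 < v3 (t - 1) := by
    rw [htsub, v3.map_mul, h27_unit_inv v3 (h27_unit_pow v3 hg0v3 m), add_zero]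
    exact d3
  have ht0 : t ≠ 0 := h27_ne_zero_of_unit v1 (h27_unit_of_cong_one v1 t1)
  have s1 : v1 (q : F) ≤ v1 (t ^ q - 1) := by
    rw [hv1q]
    exact le_trans (h27_one_le_of_pos t1) (h27_pow_sub_one v1 t1 q)
  have s2 : v2 (q : F) ≤ v2 (t ^ q - 1) := h27_thick v2 hq hv2q t2
  have s3 : v3 (q : F) ≤ v3 (t ^ q - 1) := by
    rw [hv3q]
    exact le_trans (h27_one_le_of_pos t3) (h27_pow_sub_one v3 t3 q)
  have hpos1 : (0 : WithTop ℤ) < 1 := h27_coe_pos (zero_lt_one : (0 : ℤ) < 1)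
  have hv2qpos : (0 : WithTop ℤ) < v2 (q : F) := by
    rw [hv2q]
    have h2' : (2 : ℤ) ≤ q := by exact_mod_cast hq2
    exact h27_coe_pos (by omega)
  refine ⟨J0 * ((q : ℤ) - 1), b0 ^ (q - 1) * (g0 * t ^ B), (t ^ q) ^ A, ?_, ?_, ?_, ?_, ?_⟩
  · exact mul_ne_zero (pow_ne_zero _ hb00) (mul_ne_zero hg00 (zpow_ne_zero _ ht0))
  · have hqq : q ^ 2 - 1 = (q + 1) * (q - 1) := by
      obtain ⟨k, hk⟩ : ∃ k, q = k + 1 := ⟨q - 1, by omega⟩
      rw [hk]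
      have h : (k + 1) ^ 2 = (k + 1 + 1) * k + 1 := by ring
      rw [h, Nat.add_sub_cancel, Nat.add_sub_cancel]
    have et : t = (t ^ q) ^ A * (t ^ B) ^ m := by
      rw [← zpow_natCast t q, ← zpow_mul, ← zpow_natCast (t ^ B) m, ← zpow_mul,
        ← zpow_add₀ ht0]
      have h : (q : ℤ) * A + B * (m : ℤ) = 1 := by linarith
      rw [h, zpow_one]
    have eu3 : u3 = g0 ^ m * t := by
      rw [ht, mul_comm u3, ← mul_assoc, mul_inv_cancel₀ hg0m, one_mul]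
    have hQJ : (q : F) ^ J0 ≠ 0 := zpow_ne_zero _ hQ
    have hbm : b0 ^ m ≠ 0 := pow_ne_zero _ hb00
    have eu : u ^ (q + 1) = u2 * (q : F) ^ J0 * b0 ^ m := by
      rw [hu2, zpow_neg]
      field_simp
    have hbb : (b0 ^ m) ^ (q - 1) = (b0 ^ (q - 1)) ^ m := by
      rw [← pow_mul, ← pow_mul, mul_comm]
    have hz : ((q : F) ^ J0) ^ (q - 1) = (q : F) ^ (J0 * ((q : ℤ) - 1)) := by
      rw [← zpow_natCast ((q : F) ^ J0) (q - 1), ← zpow_mul]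
      congr 1
      rw [Nat.cast_sub (by omega : 1 ≤ q), Nat.cast_one]
    calc u ^ (q ^ 2 - 1) = (u ^ (q + 1)) ^ (q - 1) := by rw [hqq, pow_mul]
      _ = (u2 * (q : F) ^ J0 * b0 ^ m) ^ (q - 1) := by rw [eu]
      _ = u3 * ((q : F) ^ J0) ^ (q - 1) * (b0 ^ (q - 1)) ^ m := by
          rw [mul_pow, mul_pow, ← hu3, hbb]
      _ = g0 ^ m * ((t ^ q) ^ A * (t ^ B) ^ m) * (q : F) ^ (J0 * ((q : ℤ) - 1))
            * (b0 ^ (q - 1)) ^ m := by
          rw [hz, eu3, ← et]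
      _ = (q : F) ^ (J0 * ((q : ℤ) - 1)) * (b0 ^ (q - 1) * (g0 * t ^ B)) ^ m * (t ^ q) ^ A := by
          rw [mul_pow, mul_pow]
          ring
  · exact h27_zpow_sub_one v1 (by rw [hv1q]; exact hpos1) s1 A
  · exact h27_zpow_sub_one v2 hv2qpos s2 A
  · exact h27_zpow_sub_one v3 (by rw [hv3q]; exact hpos1) s3 A

end Main

end Fermat.Agent.S36
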