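import Mathlib
import Fermat.Agent.S36.h69_DescCore
import Fermat.Agent.S17.h83_Smooth
import Fermat.Agent.GAL.AnThetaAlg

/-!
# S36 / K0-rationality leaf (K1): invariant divisors and invariant functions on `X₀(N)`

`H` an arbitrary subgroup of `Gal(ℚ̄/ℚ)` (e.g. an inertia group), acting on `F̄(N)` and on
`J₀(N)(ℚ̄)` through `arithmeticGalois` (coefficientwise on `t`-expansions).

* `h69_desc` : an `H`-fixed class of `J₀(N)` is the class of an `H`-invariant **divisor**.
* `h69_desc_torsion` : if moreover `n • x = 0`, then `n D = div u` for a function `u` fixed by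
  `H` (normalised by leading `t`-coefficient `1`).

The rational cusp `∞` enters through the leading coefficient of the `t`-expansion
(`h69_lc`), which makes the cocycle of `h69_desc_core` exact.
-/

set_option autoImplicit false

noncomputable section

open AlgebraicCurve ModularCurve IntermediateField

namespace Fermat.Agent.S36

local notation "Qb" => AlgebraicClosure ℚ

section LeadingCoeff

variable {L : Type*} [Field L]

/-- Coefficientwise ring homomorphisms of a field preserve the order of a Laurent series. -/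
theorem h69_order_coeffMap (φ : L →+* L) {x : LaurentSeries L} (hx : x ≠ 0) :
    coeffMap φ x ≠ 0 ∧ (coeffMap φ x).order = x.order := by
  have h1 : (coeffMap φ x).coeff x.order ≠ 0 := by
    rw [coeffMap_coeff]
    exact (map_ne_zero φ).mpr (HahnSeries.coeff_order_eq_zero.not.mpr hx)
  have hx' : coeffMap φ x ≠ 0 := by
    intro h
    rw [h] at h1
    exact h1 rfl
  refine ⟨hx', le_antisymm (HahnSeries.order_le_of_coeff_ne_zero h1) ?_⟩
  have h2 : x.coeff (coeffMap φ x).order ≠ 0 := by
    have h3 := HahnSeries.coeff_order_eq_zero.not.mpr hx'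
    rw [coeffMap_coeff] at h3
    exact (map_ne_zero φ).mp h3
  exact HahnSeries.order_le_of_coeff_ne_zero h2

/-- Coefficientwise ring homomorphisms of a field commute with the leading coefficient. -/
theorem h69_leadingCoeff_coeffMap (φ : L →+* L) (x : LaurentSeries L) :
    (coeffMap φ x).leadingCoeff = φ x.leadingCoeff := by
  by_cases hx : x = 0
  · subst hx
    simp
  · obtain ⟨-, h2⟩ := h69_order_coeffMap φ hx
    rw [HahnSeries.leadingCoeff_eq, HahnSeries.leadingCoeff_eq, coeffMap_coeff, h2]

end LeadingCoeff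

section Modular

variable (N : ℕ)

/-- The leading coefficient of the `t`-expansion. -/
def h69_lc (f : modularFunctionFieldBar N) : Qb :=
  (f : LaurentSeries Qb).leadingCoeff

theorem h69_lc_mul (f g : modularFunctionFieldBar N) :
    h69_lc N (f * g) = h69_lc N f * h69_lc N g :=
  HahnSeries.leadingCoeff_mul (f : LaurentSeries Qb) (g : LaurentSeries Qb)

theorem h69_lc_algebraMap (c : Qb) :
    h69_lc N (algebraMap Qb (modularFunctionFieldBar N) c) = c := by
  show (algebraMap Qb (LaurentSeries Qb) c).leadingCoeff = c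
  rw [algebraMap_laurentSeries_eq_single, HahnSeries.leadingCoeff_of_single]

theorem h69_lc_smul (σ : Qb ≃ₐ[ℚ] Qb) (f : modularFunctionFieldBar N) :
    h69_lc N (arithmeticGalois (modularFunctionFieldFull N) σ • f) =
      SemilinearAut.baseAut (arithmeticGalois (modularFunctionFieldFull N) σ) (h69_lc N f) := by
  show ((arithmeticGalois (modularFunctionFieldFull N) σ • f : modularFunctionFieldBar N) :
      LaurentSeries Qb).leadingCoeff = σ (f : LaurentSeries Qb).leadingCoeff
  rw [coe_arithmeticGalois_smul, h69_leadingCoeff_coeffMap]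
  rfl

/-- The characters `c ↦ δ(c)` of a number field `E'` with values in `F̄(N)`. -/
def h69_chi (E' : IntermediateField ℚ Qb) (δ : E' ≃ₐ[ℚ] E') : E' →* modularFunctionFieldBar N :=
  (((algebraMap Qb (modularFunctionFieldBar N)).comp (algebraMap E' Qb)).comp
    (δ : E' →+* E')).toMonoidHom

theorem h69_chi_apply (E' : IntermediateField ℚ Qb) (δ : E' ≃ₐ[ℚ] E') (c : E') :
    h69_chi N E' δ c = algebraMap Qb (modularFunctionFieldBar N) ((δ c : E') : Qb) := rfl

theorem h69_chi_injective (E' : IntermediateField ℚ Qb) :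
    Function.Injective (h69_chi N E') := by
  intro δ δ' h
  ext c
  have h1 := DFunLike.congr_fun h c
  rw [h69_chi_apply, h69_chi_apply] at h1
  exact congrArg Subtype.val
    (Subtype.ext ((algebraMap Qb (modularFunctionFieldBar N)).injective h1) : δ c = δ' c)

variable [NeZero N]

theorem h69_const (f : modularFunctionFieldBar N) (hf : f ≠ 0)
    (h : ∀ v : Place Qb (modularFunctionFieldBar N), v.ord f = 0) :
    ∃ c : Qb, f = algebraMap Qb (modularFunctionFieldBar N) c := by
  obtain ⟨c, -, hc⟩ := Fermat.Agent.GAL.gal_const_of_ord N f hf h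
  exact ⟨c, hc⟩

/-- Descent for a divisor of level `E'` (a finite normal extension of `ℚ`). -/
theorem h69_desc_of_level (H : Subgroup (Qb ≃ₐ[ℚ] Qb))
    (D0 : Divisor.degZero (K := Qb) (F := modularFunctionFieldBar N))
    (E' : IntermediateField ℚ Qb) [FiniteDimensional ℚ E'] [Normal ℚ E']
    (hE' : ∀ σ : Qb ≃ₐ[ℚ] Qb, (∀ a ∈ E', σ a = a) →
      arithmeticGalois (modularFunctionFieldFull N) σ •
        (D0 : Divisor Qb (modularFunctionFieldBar N)) = D0)
    (hx : ∀ σ ∈ H, arithmeticGalois (modularFunctionFieldFull N) σ • Pic0.mk D0 = Pic0.mk D0) :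
    ∃ D : Divisor.degZero (K := Qb) (F := modularFunctionFieldBar N),
      Pic0.mk D = Pic0.mk D0 ∧
      ∀ σ ∈ H, arithmeticGalois (modularFunctionFieldFull N) σ •
        (D : Divisor Qb (modularFunctionFieldBar N)) = D := by
  have hPD : HasPrincipalDivisors Qb (modularFunctionFieldBar N) :=
    Fermat.Agent.S37.h88_hasPrincipalDivisors N
  have hπ : ∀ (σ : Qb ≃ₐ[ℚ] Qb) (a : E'),
      ((AlgEquiv.restrictNormalHom (F := ℚ) (K₁ := Qb) E' σ a : E') : Qb) = σ (a : Qb) :=
    fun σ a => AlgEquiv.restrictNormal_commutes σ E' a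
  have hχ : ∀ (γ : Qb ≃ₐ[ℚ] Qb) (δ : E' ≃ₐ[ℚ] E') (c : E'),
      arithmeticGalois (modularFunctionFieldFull N) γ • h69_chi N E' δ c =
        h69_chi N E' (AlgEquiv.restrictNormalHom (F := ℚ) (K₁ := Qb) E' γ * δ) c := by
    intro γ δ c
    rw [h69_chi_apply, h69_chi_apply, SemilinearAut.smul_algebraMap, AlgEquiv.mul_apply, hπ]
    rfl
  have hlev : ∀ s ∈ H, AlgEquiv.restrictNormalHom (F := ℚ) (K₁ := Qb) E' s = 1 →
      arithmeticGalois (modularFunctionFieldFull N) s •
        (D0 : Divisor Qb (modularFunctionFieldBar N)) = D0 := by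
    intro s _ hs
    refine hE' s (fun a ha => ?_)
    have h1 := hπ s ⟨a, ha⟩
    rw [hs] at h1
    exact h1.symm
  exact h69_desc_gen (arithmeticGalois (modularFunctionFieldFull N))
    (AlgEquiv.restrictNormalHom (F := ℚ) (K₁ := Qb) E') (h69_chi N E')
    (h69_chi_injective N E') hχ (h69_lc N) (h69_lc_mul N) (h69_lc_algebraMap N) (h69_lc_smul N)
    (h69_const N) H D0 hlev hx

/-- **(K1), divisor form.** An `H`-fixed class of `J₀(N)(ℚ̄)` is represented by an
`H`-invariant divisor, for every subgroup `H` of `Gal(ℚ̄/ℚ)`. -/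
theorem h69_desc (H : Subgroup (Qb ≃ₐ[ℚ] Qb)) (x : JZero N)
    (hx : ∀ σ ∈ H, σ • x = x) :
    ∃ D : Divisor.degZero (K := Qb) (F := modularFunctionFieldBar N),
      Pic0.mk D = x ∧
      ∀ σ ∈ H, arithmeticGalois (modularFunctionFieldFull N) σ •
        (D : Divisor Qb (modularFunctionFieldBar N)) = D := by
  obtain ⟨D0, rfl⟩ := Pic0.mk_surjective x
  have halg : Algebra.IsAlgebraic ℚ Qb := AlgebraicClosure.isAlgebraic ℚ
  have hclo : IsAlgClosure ℚ Qb := ⟨inferInstance, inferInstance⟩
  have hnor : Normal ℚ Qb := IsAlgClosure.normal ℚ Qb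
  obtain ⟨E, hEfin, hE⟩ := Fermat.Agent.S17.h83_divisor_level N
    (D0 : Divisor Qb (modularFunctionFieldBar N))
  have hE'fin : FiniteDimensional ℚ (IntermediateField.normalClosure ℚ E Qb) :=
    normalClosure.is_finiteDimensional ℚ E Qb
  have hE'nor : Normal ℚ (IntermediateField.normalClosure ℚ E Qb) :=
    normalClosure.normal ℚ E Qb
  exact h69_desc_of_level N H D0 (IntermediateField.normalClosure ℚ E Qb)
    (fun σ hσ => hE σ ((IntermediateField.mem_fixingSubgroup_iff E σ).mpr
      fun a ha => hσ a (IntermediateField.le_normalClosure E ha)))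
    (fun σ hσ => hx σ hσ)

/-- **(K1), function form.** If moreover `n • x = 0`, then `n D = div u` for a function `u`
with leading coefficient `1` which is fixed by `H`. -/
theorem h69_desc_torsion (H : Subgroup (Qb ≃ₐ[ℚ] Qb)) (x : JZero N)
    (hx : ∀ σ ∈ H, σ • x = x) (n : ℕ) (hn : n • x = 0) :
    ∃ (D : Divisor.degZero (K := Qb) (F := modularFunctionFieldBar N))
      (u : modularFunctionFieldBar N),
      Pic0.mk D = x ∧
      (∀ σ ∈ H, arithmeticGalois (modularFunctionFieldFull N) σ •
        (D : Divisor Qb (modularFunctionFieldBar N)) = D) ∧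
      u ≠ 0 ∧ h69_lc N u = 1 ∧
      (∀ v : Place Qb (modularFunctionFieldBar N),
        (n : ℤ) * (D : Divisor Qb (modularFunctionFieldBar N)) v = v.ord u) ∧
      ∀ σ ∈ H, arithmeticGalois (modularFunctionFieldFull N) σ • u = u := by
  obtain ⟨D, rfl, hD⟩ := h69_desc N H x hx
  obtain ⟨u, hu, hu1, hord, hfix⟩ := h69_desc_torsion_gen
    (arithmeticGalois (modularFunctionFieldFull N)) (h69_lc N) (h69_lc_mul N)
    (h69_lc_algebraMap N) (h69_lc_smul N) (h69_const N) H D hD n hn
  exact ⟨D, u, rfl, hD, hu, hu1, hord, hfix⟩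

end Modular

end Fermat.Agent.S36
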