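import Mathlib
import Fermat.Agent.S36.h69_Desc
import Fermat.Agent.GAL.h67_GalHecke
import Fermat.Agent.GAL.h67_GalPlace
import Fermat.Agent.GAL.h67_CorrPrincipal
import Fermat.Agent.S35.h29_PullNew
import Fermat.Agent.S35.h67_NewDefs

/-!
# S36 / (EQV) + (NEW-RAT)  (helper70)

`H` an arbitrary subgroup of `Gal(ℚ̄/ℚ)` (in the application: an inertia group), acting on the
function fields `F̄(N)` through `arithmeticGalois`.

* `h70_normAlong_smul` (EQV, generic): the norm along `ψ : F → F'` is equivariant for a pair of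
  intertwined semilinear automorphisms.
* `h70_norm_alpha_galois`, `h70_norm_beta_galois`: the norms along the two degeneracy maps
  `heckeAlphaBar`, `heckeBetaBar : F̄(N) → F̄(N q)` commute with `arithmeticGalois`;
  `h70_norm_alpha_fixed`, `h70_norm_beta_fixed`, `h70_push_alpha_fixed`, `h70_push_beta_fixed`:
  norms of `H`-fixed functions are `H`-fixed, push-forwards of `H`-invariant divisors are
  `H`-invariant.
* `h70_new_norm_rel` (NEW-RAT): an `H`-fixed, `m`-torsion, `q`-new class `x` of `J₀(N q)` has an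
  `H`-invariant representative `D` and an `H`-fixed function `u` with `div u = m D`, together
  with `H`-fixed functions `φa`, `φb` of level `N` and `H`-fixed nonzero constants `κa`, `κb`
  such that `α_* D = div φa`, `β_* D = div φb` and
  `N_α u = κa φa ^ m`, `N_β u = κb φb ^ m`.
  This is the common starting point of rows TOR and NZ.
-/

set_option autoImplicit false
set_option linter.unusedSectionVars false

noncomputable section

open AlgebraicCurve ModularCurve

namespace Fermat.Agent.S36

open Fermat.Agent.GAL Fermat.Agent.S35 Fermat.Agent.S37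

local notation "Qb" => AlgebraicClosure ℚ

section Generic

variable {K F F' : Type*} [Field K] [Field F] [Field F'] [Algebra K F] [Algebra K F']

/-- **(EQV), generic.** The norm along `ψ : F → F'` is equivariant for intertwined semilinear
automorphisms. -/
theorem h70_normAlong_smul (ψ : F →ₐ[K] F') {g : SemilinearAut K F} {g' : SemilinearAut K F'}
    (h : SemilinearAut.IntertwinesAlong (ψ : F →+* F') g g') (x : F') :
    h67_normAlong ψ (g' • x) = g • h67_normAlong ψ x := by
  have key := @Algebra.norm_eq_of_equiv_equiv F F' F F' _ _ _ _ (algebraAlong ψ) (algebraAlong ψ)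
    (SemilinearAut.toRingAut g) (SemilinearAut.toRingAut g') (by
      refine RingHom.ext fun y => ?_
      exact (h y).symm) x
  have key' : h67_normAlong ψ x =
      (SemilinearAut.toRingAut g).symm (h67_normAlong ψ (g' • x)) := key
  rw [key']
  exact ((SemilinearAut.toRingAut g).apply_symm_apply _).symm

/-- The norm of a function fixed by `g'` is fixed by `g`. -/
theorem h70_normAlong_fixed (ψ : F →ₐ[K] F') {g : SemilinearAut K F} {g' : SemilinearAut K F'}
    (h : SemilinearAut.IntertwinesAlong (ψ : F →+* F') g g') {x : F'} (hx : g' • x = x) :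
    g • h67_normAlong ψ x = h67_normAlong ψ x := by
  rw [← h70_normAlong_smul ψ h, hx]

end Generic

section Modular

variable (N q : ℕ) [NeZero N] [NeZero q]

/-- **(EQV), `α`.** -/
theorem h70_norm_alpha_galois (σ : Qb ≃ₐ[ℚ] Qb) (f : modularFunctionFieldBar (N * q)) :
    h67_normAlong (heckeAlphaBar Qb N q)
        (arithmeticGalois (modularFunctionFieldFull (N * q)) σ • f)
      = arithmeticGalois (modularFunctionFieldFull N) σ •
          h67_normAlong (heckeAlphaBar Qb N q) f :=
  h70_normAlong_smul _ (h67_intertwines_alpha N q σ) f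

/-- **(EQV), `β`.** -/
theorem h70_norm_beta_galois (σ : Qb ≃ₐ[ℚ] Qb) (f : modularFunctionFieldBar (N * q)) :
    h67_normAlong (heckeBetaBar Qb N q)
        (arithmeticGalois (modularFunctionFieldFull (N * q)) σ • f)
      = arithmeticGalois (modularFunctionFieldFull N) σ •
          h67_normAlong (heckeBetaBar Qb N q) f :=
  h70_normAlong_smul _ (h67_intertwines_beta N q σ) f

theorem h70_norm_alpha_fixed (H : Subgroup (Qb ≃ₐ[ℚ] Qb)) {f : modularFunctionFieldBar (N * q)}
    (hf : ∀ σ ∈ H, arithmeticGalois (modularFunctionFieldFull (N * q)) σ • f = f) :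
    ∀ σ ∈ H, arithmeticGalois (modularFunctionFieldFull N) σ •
      h67_normAlong (heckeAlphaBar Qb N q) f = h67_normAlong (heckeAlphaBar Qb N q) f :=
  fun σ hσ => h70_normAlong_fixed _ (h67_intertwines_alpha N q σ) (hf σ hσ)

theorem h70_norm_beta_fixed (H : Subgroup (Qb ≃ₐ[ℚ] Qb)) {f : modularFunctionFieldBar (N * q)}
    (hf : ∀ σ ∈ H, arithmeticGalois (modularFunctionFieldFull (N * q)) σ • f = f) :
    ∀ σ ∈ H, arithmeticGalois (modularFunctionFieldFull N) σ •
      h67_normAlong (heckeBetaBar Qb N q) f = h67_normAlong (heckeBetaBar Qb N q) f :=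
  fun σ hσ => h70_normAlong_fixed _ (h67_intertwines_beta N q σ) (hf σ hσ)

theorem h70_push_alpha_fixed (H : Subgroup (Qb ≃ₐ[ℚ] Qb))
    {E : Divisor Qb (modularFunctionFieldBar (N * q))}
    (hE : ∀ σ ∈ H, arithmeticGalois (modularFunctionFieldFull (N * q)) σ • E = E) :
    ∀ σ ∈ H, arithmeticGalois (modularFunctionFieldFull N) σ •
        Divisor.pushforwardAlong (heckeAlphaBar Qb N q) (h88_alphaIntegral N q) E
      = Divisor.pushforwardAlong (heckeAlphaBar Qb N q) (h88_alphaIntegral N q) E := by
  intro σ hσ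
  rw [← h67_pushforwardAlong_smul _ _ (h67_intertwines_alpha N q σ), hE σ hσ]

theorem h70_push_beta_fixed (H : Subgroup (Qb ≃ₐ[ℚ] Qb))
    {E : Divisor Qb (modularFunctionFieldBar (N * q))}
    (hE : ∀ σ ∈ H, arithmeticGalois (modularFunctionFieldFull (N * q)) σ • E = E) :
    ∀ σ ∈ H, arithmeticGalois (modularFunctionFieldFull N) σ •
        Divisor.pushforwardAlong (heckeBetaBar Qb N q) (h88_betaIntegral N q) E
      = Divisor.pushforwardAlong (heckeBetaBar Qb N q) (h88_betaIntegral N q) E := by
  intro σ hσ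
  rw [← h67_pushforwardAlong_smul _ _ (h67_intertwines_beta N q σ), hE σ hσ]

end Modular

/-! ## (NEW-RAT): the two norm relations -/

section NormRel

/-- **Norm relation along one map.**  `ψ : F̄(N) → F̄(M)` a finite map commuting with the
arithmetic Galois action, `D` an `H`-invariant degree-zero divisor of level `M` whose
push-forward is principal, `u` an `H`-fixed function with `div u = m D`.  Then
`ψ_* D = div φ` with `φ` fixed by `H` (leading coefficient `1`) and `N_ψ u = κ φ ^ m` for an
`H`-fixed nonzero constant `κ`. -/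
theorem h70_norm_rel_core (N M : ℕ) [NeZero N] [NeZero M]
    (ψ : modularFunctionFieldBar N →ₐ[Qb] modularFunctionFieldBar M)
    (hψ : ψ.toRingHom.IsIntegral) (hfin : FiniteAlong Qb ψ) (hN : NormFormulaAlong Qb ψ hfin)
    (hint : ∀ σ : Qb ≃ₐ[ℚ] Qb, SemilinearAut.IntertwinesAlong
      (ψ : modularFunctionFieldBar N →+* modularFunctionFieldBar M)
      (arithmeticGalois (modularFunctionFieldFull N) σ)
      (arithmeticGalois (modularFunctionFieldFull M) σ))
    (H : Subgroup (Qb ≃ₐ[ℚ] Qb))
    (D : Divisor.degZero (K := Qb) (F := modularFunctionFieldBar M))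
    (hD : ∀ σ ∈ H, arithmeticGalois (modularFunctionFieldFull M) σ •
      (D : Divisor Qb (modularFunctionFieldBar M)) = D)
    (hprin : (Divisor.pushforwardAlong ψ hψ
      (D : Divisor Qb (modularFunctionFieldBar M))).IsPrincipal)
    (u : modularFunctionFieldBar M) (hu : u ≠ 0) (m : ℕ)
    (hord : ∀ v : Place Qb (modularFunctionFieldBar M),
      (m : ℤ) * (D : Divisor Qb (modularFunctionFieldBar M)) v = v.ord u)
    (hfix : ∀ σ ∈ H, arithmeticGalois (modularFunctionFieldFull M) σ • u = u) :
    ∃ (φ : modularFunctionFieldBar N) (κ : Qb), φ ≠ 0 ∧ h69_lc N φ = 1 ∧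
      (∀ σ ∈ H, arithmeticGalois (modularFunctionFieldFull N) σ • φ = φ) ∧
      (∀ w : Place Qb (modularFunctionFieldBar N),
        Divisor.pushforwardAlong ψ hψ (D : Divisor Qb (modularFunctionFieldBar M)) w
          = w.ord φ) ∧
      κ ≠ 0 ∧ (∀ σ ∈ H, σ κ = κ) ∧
      h67_normAlong ψ u = algebraMap Qb (modularFunctionFieldBar N) κ * φ ^ m := by
  classical
  -- the push-forward as a degree-zero divisor
  set E : Divisor.degZero (K := Qb) (F := modularFunctionFieldBar N) :=
    ⟨Divisor.pushforwardAlong ψ hψ (D : Divisor Qb (modularFunctionFieldBar M)),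
      Divisor.pushforwardAlong_mem_degZero ψ hψ D.2⟩ with hEdef
  have hEinv : ∀ σ ∈ H, arithmeticGalois (modularFunctionFieldFull N) σ •
      (E : Divisor Qb (modularFunctionFieldBar N)) = E := by
    intro σ hσ
    show arithmeticGalois (modularFunctionFieldFull N) σ •
      Divisor.pushforwardAlong ψ hψ (D : Divisor Qb (modularFunctionFieldBar M)) = _
    rw [← h67_pushforwardAlong_smul ψ hψ (hint σ), hD σ hσ]
  have hE0 : (1 : ℕ) • Pic0.mk E = 0 := by
    rw [one_smul]
    refine (QuotientAddGroup.eq_zero_iff _).mpr ?_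
    exact AddSubgroup.mem_addSubgroupOf.mpr (Divisor.mem_principal.mpr hprin)
  obtain ⟨φ, hφ0, hφ1, hφord, hφfix⟩ := h69_desc_torsion_gen
    (arithmeticGalois (modularFunctionFieldFull N)) (h69_lc N) (h69_lc_mul N)
    (h69_lc_algebraMap N) (h69_lc_smul N) (h69_const N) H E hEinv 1 hE0
  have hφord' : ∀ w : Place Qb (modularFunctionFieldBar N),
      Divisor.pushforwardAlong ψ hψ (D : Divisor Qb (modularFunctionFieldBar M)) w
        = w.ord φ := by
    intro w
    have h1 := hφord w
    rw [Nat.cast_one, one_mul] at h1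
    exact h1
  -- the norm of `u`
  have hNu0 : h67_normAlong ψ u ≠ 0 := h67_normAlong_ne_zero ψ hfin hu
  have hpow : ∀ w : Place Qb (modularFunctionFieldBar N), w.ord (φ ^ m) = (m : ℤ) * w.ord φ := by
    intro w
    have h1 := Place.ord_zpow w φ (m : ℤ)
    rwa [zpow_natCast] at h1
  have hNord : ∀ w : Place Qb (modularFunctionFieldBar N),
      w.ord (h67_normAlong ψ u) = (m : ℤ) * w.ord φ := by
    intro w
    have h1 := h67_pushforwardAlong_principal ψ hψ hfin hN
      (E := (m : ℤ) • (D : Divisor Qb (modularFunctionFieldBar M))) hu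
      (fun v => by rw [Finsupp.smul_apply, smul_eq_mul]; exact hord v) w
    rw [← h1, map_zsmul, Finsupp.smul_apply, smul_eq_mul, hφord' w]
  -- the quotient is a constant
  have hpm0 : (φ ^ m)⁻¹ ≠ 0 := inv_ne_zero (pow_ne_zero m hφ0)
  have hf0 : h67_normAlong ψ u * (φ ^ m)⁻¹ ≠ 0 := mul_ne_zero hNu0 hpm0
  have hford : ∀ w : Place Qb (modularFunctionFieldBar N),
      w.ord (h67_normAlong ψ u * (φ ^ m)⁻¹) = 0 := by
    intro w
    rw [Place.ord_mul w hNu0 hpm0, Place.ord_inv, hNord w, hpow w]
    ring
  obtain ⟨κ, hκ⟩ := h69_const N _ hf0 hford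
  have hκ0 : κ ≠ 0 := by
    rintro rfl
    rw [map_zero] at hκ
    exact hf0 hκ
  have hrel : h67_normAlong ψ u = algebraMap Qb (modularFunctionFieldBar N) κ * φ ^ m := by
    rw [← hκ, mul_assoc, inv_mul_cancel₀ (pow_ne_zero m hφ0), mul_one]
  refine ⟨φ, κ, hφ0, hφ1, hφfix, hφord', hκ0, ?_, hrel⟩
  -- `κ` is `H`-fixed
  intro σ hσ
  have hffix : arithmeticGalois (modularFunctionFieldFull N) σ •
      (h67_normAlong ψ u * (φ ^ m)⁻¹) = h67_normAlong ψ u * (φ ^ m)⁻¹ := by
    rw [smul_mul', smul_inv'', smul_pow', hφfix σ hσ,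
      h70_normAlong_fixed ψ (hint σ) (hfix σ hσ)]
  have h1 := h69_lc_smul N σ (h67_normAlong ψ u * (φ ^ m)⁻¹)
  rw [hffix, hκ, h69_lc_algebraMap, baseAut_arithmeticGalois] at h1
  exact h1.symm

variable (N q : ℕ) [NeZero N] [NeZero q]

/-- **(NEW-RAT).** An `H`-fixed, `m`-torsion, `q`-new class of `J₀(N q)` has an `H`-rational
Kummer pair `(D, u)` with the two norm relations `N_α u = κa φa ^ m`, `N_β u = κb φb ^ m`, all
data fixed by `H`, and `α_* D = div φa`, `β_* D = div φb`. -/
theorem h70_new_norm_rel (H : Subgroup (Qb ≃ₐ[ℚ] Qb)) (x : JZero (N * q))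
    (hx : ∀ σ ∈ H, σ • x = x) (hnew : h67_Jnew N q x) (m : ℕ) (hm : m • x = 0) :
    ∃ (D : Divisor.degZero (K := Qb) (F := modularFunctionFieldBar (N * q)))
      (u : modularFunctionFieldBar (N * q)) (φa φb : modularFunctionFieldBar N) (κa κb : Qb),
      Pic0.mk D = x ∧
      (∀ σ ∈ H, arithmeticGalois (modularFunctionFieldFull (N * q)) σ •
        (D : Divisor Qb (modularFunctionFieldBar (N * q))) = D) ∧
      u ≠ 0 ∧ h69_lc (N * q) u = 1 ∧
      (∀ v : Place Qb (modularFunctionFieldBar (N * q)),
        (m : ℤ) * (D : Divisor Qb (modularFunctionFieldBar (N * q))) v = v.ord u) ∧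
      (∀ σ ∈ H, arithmeticGalois (modularFunctionFieldFull (N * q)) σ • u = u) ∧
      (φa ≠ 0 ∧ h69_lc N φa = 1 ∧
        (∀ σ ∈ H, arithmeticGalois (modularFunctionFieldFull N) σ • φa = φa) ∧
        (∀ w : Place Qb (modularFunctionFieldBar N),
          Divisor.pushforwardAlong (heckeAlphaBar Qb N q) (h88_alphaIntegral N q)
            (D : Divisor Qb (modularFunctionFieldBar (N * q))) w = w.ord φa) ∧
        κa ≠ 0 ∧ (∀ σ ∈ H, σ κa = κa) ∧
        h67_normAlong (heckeAlphaBar Qb N q) u
          = algebraMap Qb (modularFunctionFieldBar N) κa * φa ^ m) ∧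
      (φb ≠ 0 ∧ h69_lc N φb = 1 ∧
        (∀ σ ∈ H, arithmeticGalois (modularFunctionFieldFull N) σ • φb = φb) ∧
        (∀ w : Place Qb (modularFunctionFieldBar N),
          Divisor.pushforwardAlong (heckeBetaBar Qb N q) (h88_betaIntegral N q)
            (D : Divisor Qb (modularFunctionFieldBar (N * q))) w = w.ord φb) ∧
        κb ≠ 0 ∧ (∀ σ ∈ H, σ κb = κb) ∧
        h67_normAlong (heckeBetaBar Qb N q) u
          = algebraMap Qb (modularFunctionFieldBar N) κb * φb ^ m) := by
  obtain ⟨D, u, hDx, hD, hu0, hu1, hord, hfix⟩ := h69_desc_torsion (N * q) H x hx m hm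
  obtain ⟨D', hD'x, hD'new⟩ := hnew
  -- `D - D'` is principal
  have hdiff : ((-D' + D : Divisor.degZero (K := Qb) (F := modularFunctionFieldBar (N * q))) :
      Divisor Qb (modularFunctionFieldBar (N * q))).IsPrincipal := by
    have h1 : Pic0.mk D' = Pic0.mk D := by rw [hD'x, hDx]
    have h2 := (QuotientAddGroup.eq (s := (Divisor.principal (K := Qb)
      (F := modularFunctionFieldBar (N * q))).addSubgroupOf
      (Divisor.degZero (K := Qb) (F := modularFunctionFieldBar (N * q))))).mp h1
    exact Divisor.mem_principal.mp (AddSubgroup.mem_addSubgroupOf.mp h2)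
  have hsplit : (D : Divisor Qb (modularFunctionFieldBar (N * q)))
      = (D' : Divisor Qb (modularFunctionFieldBar (N * q)))
        + ((-D' + D : Divisor.degZero (K := Qb) (F := modularFunctionFieldBar (N * q))) :
            Divisor Qb (modularFunctionFieldBar (N * q))) := by
    push_cast
    abel
  have hprinA : (Divisor.pushforwardAlong (heckeAlphaBar Qb N q) (h88_alphaIntegral N q)
      (D : Divisor Qb (modularFunctionFieldBar (N * q)))).IsPrincipal := by
    rw [hsplit, map_add]
    exact Divisor.mem_principal.mp ((Divisor.principal).add_mem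
      (Divisor.mem_principal.mpr (h67_divNew_alpha hD'new (h88_alphaIntegral N q)))
      (Divisor.mem_principal.mpr (Divisor.isPrincipal_pushforwardAlong _ _
        (h88_finiteAlong_alpha N q) (h87_NF_alpha N q) hdiff)))
  have hprinB : (Divisor.pushforwardAlong (heckeBetaBar Qb N q) (h88_betaIntegral N q)
      (D : Divisor Qb (modularFunctionFieldBar (N * q)))).IsPrincipal := by
    rw [hsplit, map_add]
    exact Divisor.mem_principal.mp ((Divisor.principal).add_mem
      (Divisor.mem_principal.mpr (h67_divNew_beta hD'new (h88_betaIntegral N q)))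
      (Divisor.mem_principal.mpr (Divisor.isPrincipal_pushforwardAlong _ _
        (h88_finiteAlong_beta N q) (h29_NF_beta N q) hdiff)))
  obtain ⟨φa, κa, ha⟩ := h70_norm_rel_core N (N * q) (heckeAlphaBar Qb N q)
    (h88_alphaIntegral N q) (h88_finiteAlong_alpha N q) (h87_NF_alpha N q)
    (fun σ => h67_intertwines_alpha N q σ) H D hD hprinA u hu0 m hord hfix
  obtain ⟨φb, κb, hb⟩ := h70_norm_rel_core N (N * q) (heckeBetaBar Qb N q)
    (h88_betaIntegral N q) (h88_finiteAlong_beta N q) (h29_NF_beta N q)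
    (fun σ => h67_intertwines_beta N q σ) H D hD hprinB u hu0 m hord hfix
  exact ⟨D, u, φa, φb, κa, κb, hDx, hD, hu0, hu1, hord, hfix, ha, hb⟩

end NormRel

end Fermat.Agent.S36
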