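import Mathlib
import Fermat.Agent.S36.h70_NormEqv
import Fermat.Agent.S36.h69_K0

/-!
# S36 / I-TOR wrapper  (helper70)

`H` a subgroup of `Gal(ℚ̄/ℚ)` (the inertia group), `F0(M) := h69_F0 M H` the `H`-fixed functions
of level `M`.

* `h70_kummer_twist`: the bookkeeping step of rows TOR and NZ.  If `(D, u)` is an `H`-rational
  Kummer pair (`D` `H`-invariant of degree zero, `u ∈ F0`, `div u = m D`) and
  `u ^ c = κ * h ^ m * u'` with `κ` a nonzero constant and `h ∈ F0`, then
  `D' := c D - div h` is `H`-invariant of degree zero, `[D'] = c [D]`, `div u' = m D'`, `u' ∈ F0`,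
  and the push-forwards of `D'` along the two degeneracy maps are principal when those of `D`
  are.
* `h70_torM_of_core`: **TOR-M from a core.**  `hcore` is the statement of the toric core for
  the field `F0(N q)` (for every nonzero `u ∈ F0(N q)` with the two norm relations there are a
  constant `κ'` and `h, u4 ∈ F0(N q)` with `u ^ c = κ' h ^ m u4` and `P u4`, where `P` is the
  property "`u4 ∈ 1 + q O_0`").  Conclusion: every `H`-fixed, `m`-torsion, `q`-new class `x`
  of `J₀(N q)` has an `H`-rational Kummer pair `(E4, u4)` of `c • x` with `P u4`, and `E4` is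
  again `q`-new as a divisor.
-/

set_option autoImplicit false
set_option linter.unusedSectionVars false

noncomputable section

open AlgebraicCurve ModularCurve

namespace Fermat.Agent.S36

open Fermat.Agent.GAL Fermat.Agent.S35 Fermat.Agent.S37

local notation "Qb" => AlgebraicClosure ℚ

section Twist

variable (M : ℕ) [NeZero M]

/-- The divisor of an `H`-fixed function is `H`-invariant. -/
theorem h70_div_fixed (H : Subgroup (Qb ≃ₐ[ℚ] Qb)) {h : modularFunctionFieldBar M}
    (hh : h ∈ h69_F0 M H) {Dh : Divisor Qb (modularFunctionFieldBar M)}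
    (hDh : ∀ v : Place Qb (modularFunctionFieldBar M), Dh v = v.ord h) :
    ∀ σ ∈ H, arithmeticGalois (modularFunctionFieldFull M) σ • Dh = Dh := by
  intro σ hσ
  refine h67_smul_divisor_eq_of_fix _ Dh (n := 1) one_ne_zero (f := h) (fun v => ?_) (hh σ hσ)
  rw [one_smul]
  exact hDh v

/-- **Bookkeeping for a twist of a Kummer pair.** -/
theorem h70_kummer_twist (H : Subgroup (Qb ≃ₐ[ℚ] Qb))
    (D : Divisor.degZero (K := Qb) (F := modularFunctionFieldBar M))
    (hD : ∀ σ ∈ H, arithmeticGalois (modularFunctionFieldFull M) σ •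
      (D : Divisor Qb (modularFunctionFieldBar M)) = D)
    (u : modularFunctionFieldBar M) (hu : u ≠ 0) (m c : ℕ)
    (hord : ∀ v : Place Qb (modularFunctionFieldBar M),
      (m : ℤ) * (D : Divisor Qb (modularFunctionFieldBar M)) v = v.ord u)
    (κ : Qb) (hκ : κ ≠ 0) (h u' : modularFunctionFieldBar M) (hh : h ≠ 0)
    (hhF : h ∈ h69_F0 M H)
    (hrel : u ^ c = algebraMap Qb (modularFunctionFieldBar M) κ * h ^ m * u') :
    ∃ D' : Divisor.degZero (K := Qb) (F := modularFunctionFieldBar M),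
      Pic0.mk D' = c • Pic0.mk D ∧
      (∀ σ ∈ H, arithmeticGalois (modularFunctionFieldFull M) σ •
        (D' : Divisor Qb (modularFunctionFieldBar M)) = D') ∧
      u' ≠ 0 ∧
      (∀ v : Place Qb (modularFunctionFieldBar M),
        (m : ℤ) * (D' : Divisor Qb (modularFunctionFieldBar M)) v = v.ord u') ∧
      (∀ v : Place Qb (modularFunctionFieldBar M),
        (D' : Divisor Qb (modularFunctionFieldBar M)) v
          = (c : ℤ) * (D : Divisor Qb (modularFunctionFieldBar M)) v - v.ord h) ∧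
      ∃ Dh : Divisor Qb (modularFunctionFieldBar M),
        (∀ v : Place Qb (modularFunctionFieldBar M), Dh v = v.ord h) ∧
        (D' : Divisor Qb (modularFunctionFieldBar M))
          = c • (D : Divisor Qb (modularFunctionFieldBar M)) - Dh := by
  haveI : HasPrincipalDivisors Qb (modularFunctionFieldBar M) := h88_hasPrincipalDivisors M
  obtain ⟨Dh, hDh, hdeg⟩ := HasPrincipalDivisors.exists_divisor (K := Qb) h hh
  set Dh0 : Divisor.degZero (K := Qb) (F := modularFunctionFieldBar M) :=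
    ⟨Dh, Divisor.mem_degZero.mpr hdeg⟩ with hDh0
  have hu'0 : u' ≠ 0 := by
    rintro rfl
    rw [mul_zero] at hrel
    exact pow_ne_zero c hu hrel
  have hκ0 : algebraMap Qb (modularFunctionFieldBar M) κ ≠ 0 :=
    (map_ne_zero (algebraMap Qb (modularFunctionFieldBar M))).mpr hκ
  have hval : ∀ v : Place Qb (modularFunctionFieldBar M),
      ((c • D - Dh0 : Divisor.degZero (K := Qb) (F := modularFunctionFieldBar M)) :
        Divisor Qb (modularFunctionFieldBar M)) v
        = (c : ℤ) * (D : Divisor Qb (modularFunctionFieldBar M)) v - v.ord h := by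
    intro v
    rw [AddSubgroup.coe_sub, AddSubgroup.coe_nsmul, Finsupp.sub_apply, Finsupp.smul_apply,
      nsmul_eq_mul]
    show _ - Dh v = _
    rw [hDh v]
  refine ⟨c • D - Dh0, ?_, ?_, hu'0, ?_, hval, Dh, hDh, ?_⟩
  rotate_left 3
  · rw [AddSubgroup.coe_sub, AddSubgroup.coe_nsmul]
  · -- the class
    have h0 : Pic0.mk Dh0 = 0 := by
      refine (QuotientAddGroup.eq_zero_iff _).mpr ?_
      exact AddSubgroup.mem_addSubgroupOf.mpr (Divisor.mem_principal.mpr ⟨h, hh, hDh⟩)
    show ((c • D - Dh0 : Divisor.degZero (K := Qb) (F := modularFunctionFieldBar M)) :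
      Pic0 Qb (modularFunctionFieldBar M)) = _
    rw [QuotientAddGroup.mk_sub, QuotientAddGroup.mk_nsmul]
    have h0' : ((Dh0 : Divisor.degZero (K := Qb) (F := modularFunctionFieldBar M)) :
      Pic0 Qb (modularFunctionFieldBar M)) = 0 := h0
    rw [h0', sub_zero]
    rfl
  · -- invariance
    intro σ hσ
    have h1 : arithmeticGalois (modularFunctionFieldFull M) σ •
        (c • (D : Divisor Qb (modularFunctionFieldBar M))) =
        c • (D : Divisor Qb (modularFunctionFieldBar M)) := by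
      rw [show arithmeticGalois (modularFunctionFieldFull M) σ •
          (c • (D : Divisor Qb (modularFunctionFieldBar M)))
          = c • (arithmeticGalois (modularFunctionFieldFull M) σ •
            (D : Divisor Qb (modularFunctionFieldBar M))) from
        map_nsmul (DistribSMul.toAddMonoidHom (Divisor Qb (modularFunctionFieldBar M))
          (arithmeticGalois (modularFunctionFieldFull M) σ)) c _, hD σ hσ]
    rw [AddSubgroup.coe_sub, AddSubgroup.coe_nsmul, smul_sub, h1]
    congr 1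
    exact h70_div_fixed M H hhF hDh σ hσ
  · -- the divisor of `u'`
    intro v
    rw [hval v]
    have h1 : v.ord (u ^ c) = (c : ℤ) * v.ord u := by
      have h2 := Place.ord_zpow v u (c : ℤ)
      rwa [zpow_natCast] at h2
    have h3 : v.ord (h ^ m) = (m : ℤ) * v.ord h := by
      have h2 := Place.ord_zpow v h (m : ℤ)
      rwa [zpow_natCast] at h2
    have h4 : v.ord (u ^ c) = v.ord h ^ 0 * ((m : ℤ) * v.ord h) + v.ord u' := by
      rw [hrel, Place.ord_mul v (mul_ne_zero hκ0 (pow_ne_zero m hh)) hu'0,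
        Place.ord_mul v hκ0 (pow_ne_zero m hh), h69_ord_algebraMap v hκ, h3]
      ring
    rw [h1, ← hord v] at h4
    linear_combination h4

end Twist

section TorM

variable (N q : ℕ) [NeZero N] [NeZero q]

/-- The two norm relations for an `H`-rational Kummer pair `(D, u)` whose divisor is `q`-new
(both push-forwards principal). -/
theorem h70_norm_rel_pair (H : Subgroup (Qb ≃ₐ[ℚ] Qb))
    (D : Divisor.degZero (K := Qb) (F := modularFunctionFieldBar (N * q)))
    (hD : ∀ σ ∈ H, arithmeticGalois (modularFunctionFieldFull (N * q)) σ •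
      (D : Divisor Qb (modularFunctionFieldBar (N * q))) = D)
    (hnew : h67_DivNew N q (D : Divisor Qb (modularFunctionFieldBar (N * q))))
    (u : modularFunctionFieldBar (N * q)) (hu : u ≠ 0) (m : ℕ)
    (hord : ∀ v : Place Qb (modularFunctionFieldBar (N * q)),
      (m : ℤ) * (D : Divisor Qb (modularFunctionFieldBar (N * q))) v = v.ord u)
    (hfix : u ∈ h69_F0 (N * q) H) :
    (∃ (φ : modularFunctionFieldBar N) (κ : Qb), φ ≠ 0 ∧ h69_lc N φ = 1 ∧ φ ∈ h69_F0 N H ∧
      (∀ w : Place Qb (modularFunctionFieldBar N),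
        Divisor.pushforwardAlong (heckeAlphaBar Qb N q) (h88_alphaIntegral N q)
          (D : Divisor Qb (modularFunctionFieldBar (N * q))) w = w.ord φ) ∧
      κ ≠ 0 ∧ (∀ σ ∈ H, σ κ = κ) ∧
      h67_normAlong (heckeAlphaBar Qb N q) u
        = algebraMap Qb (modularFunctionFieldBar N) κ * φ ^ m) ∧
    (∃ (φ : modularFunctionFieldBar N) (κ : Qb), φ ≠ 0 ∧ h69_lc N φ = 1 ∧ φ ∈ h69_F0 N H ∧
      (∀ w : Place Qb (modularFunctionFieldBar N),
        Divisor.pushforwardAlong (heckeBetaBar Qb N q) (h88_betaIntegral N q)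
          (D : Divisor Qb (modularFunctionFieldBar (N * q))) w = w.ord φ) ∧
      κ ≠ 0 ∧ (∀ σ ∈ H, σ κ = κ) ∧
      h67_normAlong (heckeBetaBar Qb N q) u
        = algebraMap Qb (modularFunctionFieldBar N) κ * φ ^ m) :=
  ⟨h70_norm_rel_core N (N * q) (heckeAlphaBar Qb N q)
      (h88_alphaIntegral N q) (h88_finiteAlong_alpha N q) (h87_NF_alpha N q)
      (fun σ => h67_intertwines_alpha N q σ) H D hD
      (h67_divNew_alpha hnew (h88_alphaIntegral N q)) u hu m hord hfix,
    h70_norm_rel_core N (N * q) (heckeBetaBar Qb N q)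
      (h88_betaIntegral N q) (h88_finiteAlong_beta N q) (h29_NF_beta N q)
      (fun σ => h67_intertwines_beta N q σ) H D hD
      (h67_divNew_beta hnew (h88_betaIntegral N q)) u hu m hord hfix⟩

/-- **TOR-M from a core.**  See the file header. -/
theorem h70_torM_of_core (H : Subgroup (Qb ≃ₐ[ℚ] Qb)) (m c : ℕ)
    (P : modularFunctionFieldBar (N * q) → Prop)
    (hcore : ∀ u : modularFunctionFieldBar (N * q), u ≠ 0 → u ∈ h69_F0 (N * q) H →
      (∃ (φ : modularFunctionFieldBar N) (κ : Qb), φ ≠ 0 ∧ φ ∈ h69_F0 N H ∧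
        κ ≠ 0 ∧ (∀ σ ∈ H, σ κ = κ) ∧
        h67_normAlong (heckeAlphaBar Qb N q) u
          = algebraMap Qb (modularFunctionFieldBar N) κ * φ ^ m) →
      (∃ (φ : modularFunctionFieldBar N) (κ : Qb), φ ≠ 0 ∧ φ ∈ h69_F0 N H ∧
        κ ≠ 0 ∧ (∀ σ ∈ H, σ κ = κ) ∧
        h67_normAlong (heckeBetaBar Qb N q) u
          = algebraMap Qb (modularFunctionFieldBar N) κ * φ ^ m) →
      ∃ (κ' : Qb) (h u4 : modularFunctionFieldBar (N * q)), κ' ≠ 0 ∧ h ≠ 0 ∧
        h ∈ h69_F0 (N * q) H ∧ u4 ∈ h69_F0 (N * q) H ∧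
        u ^ c = algebraMap Qb (modularFunctionFieldBar (N * q)) κ' * h ^ m * u4 ∧ P u4)
    (x : JZero (N * q)) (hx : ∀ σ ∈ H, σ • x = x) (hnew : h67_Jnew N q x) (hm : m • x = 0) :
    ∃ (E4 : Divisor.degZero (K := Qb) (F := modularFunctionFieldBar (N * q)))
      (u4 : modularFunctionFieldBar (N * q)),
      Pic0.mk E4 = c • x ∧
      (∀ σ ∈ H, arithmeticGalois (modularFunctionFieldFull (N * q)) σ •
        (E4 : Divisor Qb (modularFunctionFieldBar (N * q))) = E4) ∧
      h67_DivNew N q (E4 : Divisor Qb (modularFunctionFieldBar (N * q))) ∧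
      u4 ≠ 0 ∧ u4 ∈ h69_F0 (N * q) H ∧
      (∀ v : Place Qb (modularFunctionFieldBar (N * q)),
        (m : ℤ) * (E4 : Divisor Qb (modularFunctionFieldBar (N * q))) v = v.ord u4) ∧
      P u4 := by
  obtain ⟨D, u, φa, φb, κa, κb, hDx, hD, hu0, -, hord, hfix,
    ⟨hφa0, -, hφafix, hφaord, hκa0, hκafix, hNa⟩,
    ⟨hφb0, -, hφbfix, hφbord, hκb0, hκbfix, hNb⟩⟩ := h70_new_norm_rel N q H x hx hnew m hm
  obtain ⟨κ', h, u4, hκ'0, hh0, hhF, hu4F, hrel, hP⟩ := hcore u hu0 hfix
    ⟨φa, κa, hφa0, hφafix, hκa0, hκafix, hNa⟩ ⟨φb, κb, hφb0, hφbfix, hκb0, hκbfix, hNb⟩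
  obtain ⟨E4, hcls, hinv, hu40, hord4, -, Dh, hDh, hE4⟩ :=
    h70_kummer_twist (N * q) H D hD u hu0 m c hord κ' hκ'0 h u4 hh0 hhF hrel
  refine ⟨E4, u4, by rw [hcls, hDx], hinv, ?_, hu40, hu4F, hord4, hP⟩
  have hDhprin : Dh.IsPrincipal := ⟨h, hh0, hDh⟩
  refine h67_divNew_intro (h88_alphaIntegral N q) (h88_betaIntegral N q) ?_ ?_
  · rw [hE4, map_sub, map_nsmul]
    exact Divisor.mem_principal.mp ((Divisor.principal).sub_mem
      ((Divisor.principal).nsmul_mem (Divisor.mem_principal.mpr ⟨φa, hφa0, hφaord⟩) c)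
      (Divisor.mem_principal.mpr (Divisor.isPrincipal_pushforwardAlong _ _
        (h88_finiteAlong_alpha N q) (h87_NF_alpha N q) hDhprin)))
  · rw [hE4, map_sub, map_nsmul]
    exact Divisor.mem_principal.mp ((Divisor.principal).sub_mem
      ((Divisor.principal).nsmul_mem (Divisor.mem_principal.mpr ⟨φb, hφb0, hφbord⟩) c)
      (Divisor.mem_principal.mpr (Divisor.isPrincipal_pushforwardAlong _ _
        (h88_finiteAlong_beta N q) (h29_NF_beta N q) hDhprin)))

end TorM

end Fermat.Agent.S36
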