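import Mathlib
import Fermat.Agent.S36.h70_TorWrap
import Fermat.Agent.S36.h27_ToricCore
import Fermat.Agent.S36.h49_Pull2Deg

/-!
# S36 / I-TOR: the toric witness at the modular level (TOR-M)  (helper70)

`H` a subgroup of `Gal(ℚ̄/ℚ)` (the inertia group), `F0(M) := h69_F0 M H`.

* `h70_addVal`: a `ℤ`-valued valuation given on nonzero elements (helper80's shape) as an
  `AddValuation _ (WithTop ℤ)` (helper27's shape).
* `h70_aF0`, `h70_bF0 : F0(N) →+* F0(N q)` and `h70_NaF0`, `h70_NbF0 : F0(N q) →*₀ F0(N)`: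
  the two degeneracy maps and the two norms on the `H`-fixed subfields.
* `h70_torM`: **TOR-M.**  Hypotheses: three `ℤ`-valued valuations `w2 : Fin 3 → F0(N q) → ℤ`
  (`0 = C20`, `1 = C11`, `2 = C02`) and two `w1 : Fin 2 → F0(N) → ℤ` (`0 = Z_F`, `1 = Z_V`) with
  the items (V0)-(V3) [row VAL], (N1)-(N4) [row NR], (K6+) [row K] of the TOR design.
  Conclusion: every `H`-fixed, `m`-torsion, `q`-new class `x` of `J₀(N q)` (`q ∣ N`,
  `gcd(q, m) = 1`) has an `H`-rational Kummer pair `(E4, u4)` of `(q² - 1) • x` with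
  `u4 ≡ 1` modulo `q` at the three valuations.
-/

set_option autoImplicit false
set_option linter.unusedSectionVars false

noncomputable section

open AlgebraicCurve ModularCurve

namespace Fermat.Agent.S36

open Fermat.Agent.GAL Fermat.Agent.S35 Fermat.Agent.S37

local notation "Qb" => AlgebraicClosure ℚ

/-! ## Adapter: `ℤ`-valued valuations as `AddValuation`s -/

section Adapter

variable {F : Type*} [Field F] (w : F → ℤ)
  (hmul : ∀ f g : F, f ≠ 0 → g ≠ 0 → w (f * g) = w f + w g)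
  (hadd : ∀ f g : F, f ≠ 0 → g ≠ 0 → f + g ≠ 0 → min (w f) (w g) ≤ w (f + g))

open Classical in
/-- The `AddValuation` with values `w x` at `x ≠ 0` and `⊤` at `0`. -/
def h70_addVal : AddValuation F (WithTop ℤ) :=
  AddValuation.of (fun x => if x = 0 then (⊤ : WithTop ℤ) else ((w x : ℤ) : WithTop ℤ))
    (by simp)
    (by
      have h := hmul 1 1 one_ne_zero one_ne_zero
      rw [mul_one] at h
      have h1 : w 1 = 0 := by omega
      simp [h1])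
    (by
      intro x y
      by_cases hx : x = 0
      · subst hx; simp
      by_cases hy : y = 0
      · subst hy; simp
      by_cases hxy : x + y = 0
      · simp [hxy]
      simp only [hx, hy, hxy, if_false]
      rw [← WithTop.coe_min]
      exact WithTop.coe_le_coe.mpr (hadd x y hx hy hxy))
    (by
      intro x y
      by_cases hx : x = 0
      · subst hx; simp
      by_cases hy : y = 0
      · subst hy; simp
      simp only [hx, hy, mul_ne_zero hx hy, if_false]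
      rw [hmul x y hx hy, WithTop.coe_add])

open Classical in
theorem h70_addVal_of_ne {x : F} (hx : x ≠ 0) :
    h70_addVal w hmul hadd x = ((w x : ℤ) : WithTop ℤ) := by
  show (if x = 0 then (⊤ : WithTop ℤ) else ((w x : ℤ) : WithTop ℤ)) = _
  rw [if_neg hx]

theorem h70_addVal_zero : h70_addVal w hmul hadd 0 = ⊤ :=
  AddValuation.map_zero _

theorem h70_addVal_eq_zero {x : F} (h : h70_addVal w hmul hadd x = 0) : x ≠ 0 ∧ w x = 0 := by
  have hx : x ≠ 0 := by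
    rintro rfl
    rw [h70_addVal_zero] at h
    exact WithTop.top_ne_zero h
  refine ⟨hx, ?_⟩
  rw [h70_addVal_of_ne w hmul hadd hx] at h
  exact_mod_cast h

theorem h70_addVal_eq_zero_of {x : F} (hx : x ≠ 0) (h : w x = 0) :
    h70_addVal w hmul hadd x = 0 := by
  rw [h70_addVal_of_ne w hmul hadd hx, h]
  rfl

theorem h70_addVal_pos_of {x : F} (h : x = 0 ∨ 0 < w x) : 0 < h70_addVal w hmul hadd x := by
  by_cases hx : x = 0
  · rw [hx, h70_addVal_zero]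
    exact WithTop.top_pos
  · rw [h70_addVal_of_ne w hmul hadd hx]
    exact_mod_cast h.resolve_left hx

theorem h70_of_addVal_pos {x : F} (h : 0 < h70_addVal w hmul hadd x) : x = 0 ∨ 0 < w x := by
  by_cases hx : x = 0
  · exact Or.inl hx
  · rw [h70_addVal_of_ne w hmul hadd hx] at h
    exact Or.inr (by exact_mod_cast h)

theorem h70_of_addVal_le {y x : F} (hy : y ≠ 0)
    (h : h70_addVal w hmul hadd y ≤ h70_addVal w hmul hadd x) : x = 0 ∨ w y ≤ w x := by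
  by_cases hx : x = 0
  · exact Or.inl hx
  · rw [h70_addVal_of_ne w hmul hadd hx, h70_addVal_of_ne w hmul hadd hy] at h
    exact Or.inr (by exact_mod_cast h)

end Adapter

/-! ## The degeneracy maps and the norms on the fixed subfields -/

section Restrict

variable (N q : ℕ) [NeZero N] [NeZero q] (H : Subgroup (Qb ≃ₐ[ℚ] Qb))

/-- `α` on `H`-fixed functions. -/
def h70_aF0 : h69_F0 N H →+* h69_F0 (N * q) H :=
  (((heckeAlphaBar Qb N q : modularFunctionFieldBar N →ₐ[Qb] modularFunctionFieldBar (N * q)) :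
      modularFunctionFieldBar N →+* modularFunctionFieldBar (N * q)).comp
    (h69_F0 N H).subtype).codRestrict (h69_F0 (N * q) H) (fun x σ hσ => by
      have h1 := h67_intertwines_alpha N q σ (x : modularFunctionFieldBar N)
      have h2 := x.2 σ hσ
      rw [h2] at h1
      exact h1)

/-- `β` on `H`-fixed functions. -/
def h70_bF0 : h69_F0 N H →+* h69_F0 (N * q) H :=
  (((heckeBetaBar Qb N q : modularFunctionFieldBar N →ₐ[Qb] modularFunctionFieldBar (N * q)) :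
      modularFunctionFieldBar N →+* modularFunctionFieldBar (N * q)).comp
    (h69_F0 N H).subtype).codRestrict (h69_F0 (N * q) H) (fun x σ hσ => by
      have h1 := h67_intertwines_beta N q σ (x : modularFunctionFieldBar N)
      have h2 := x.2 σ hσ
      rw [h2] at h1
      exact h1)

@[simp]
theorem h70_coe_aF0 (g : h69_F0 N H) :
    ((h70_aF0 N q H g : h69_F0 (N * q) H) : modularFunctionFieldBar (N * q))
      = heckeAlphaBar Qb N q (g : modularFunctionFieldBar N) := rfl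

@[simp]
theorem h70_coe_bF0 (g : h69_F0 N H) :
    ((h70_bF0 N q H g : h69_F0 (N * q) H) : modularFunctionFieldBar (N * q))
      = heckeBetaBar Qb N q (g : modularFunctionFieldBar N) := rfl

theorem h70_normAlong_zero (ψ : modularFunctionFieldBar N →ₐ[Qb] modularFunctionFieldBar (N * q))
    (hfin : FiniteAlong Qb ψ) : h67_normAlong ψ 0 = 0 := by
  letI := algebraAlong ψ
  haveI : Module.Finite (modularFunctionFieldBar N) (modularFunctionFieldBar (N * q)) := hfin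
  exact Algebra.norm_zero

/-- The norm along `α` on `H`-fixed functions. -/
def h70_NaF0 : h69_F0 (N * q) H →*₀ h69_F0 N H where
  toFun u := ⟨h67_normAlong (heckeAlphaBar Qb N q) (u : modularFunctionFieldBar (N * q)),
    h70_norm_alpha_fixed N q H u.2⟩
  map_zero' := Subtype.ext (h70_normAlong_zero N q _ (h88_finiteAlong_alpha N q))
  map_one' := Subtype.ext (h67_normAlong_one _)
  map_mul' _ _ := Subtype.ext (h67_normAlong_mul _ _ _)

/-- The norm along `β` on `H`-fixed functions. -/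
def h70_NbF0 : h69_F0 (N * q) H →*₀ h69_F0 N H where
  toFun u := ⟨h67_normAlong (heckeBetaBar Qb N q) (u : modularFunctionFieldBar (N * q)),
    h70_norm_beta_fixed N q H u.2⟩
  map_zero' := Subtype.ext (h70_normAlong_zero N q _ (h88_finiteAlong_beta N q))
  map_one' := Subtype.ext (h67_normAlong_one _)
  map_mul' _ _ := Subtype.ext (h67_normAlong_mul _ _ _)

@[simp]
theorem h70_coe_NaF0 (u : h69_F0 (N * q) H) :
    ((h70_NaF0 N q H u : h69_F0 N H) : modularFunctionFieldBar N)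
      = h67_normAlong (heckeAlphaBar Qb N q) (u : modularFunctionFieldBar (N * q)) := rfl

@[simp]
theorem h70_coe_NbF0 (u : h69_F0 (N * q) H) :
    ((h70_NbF0 N q H u : h69_F0 N H) : modularFunctionFieldBar N)
      = h67_normAlong (heckeBetaBar Qb N q) (u : modularFunctionFieldBar (N * q)) := rfl

end Restrict

/-! ## TOR-M -/

section TorM

theorem h70_nsmul_top {n : ℕ} (hn : n ≠ 0) : n • (⊤ : WithTop ℤ) = ⊤ := by
  obtain ⟨k, rfl⟩ := Nat.exists_eq_succ_of_ne_zero hn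
  rw [succ_nsmul, WithTop.add_top]

variable (N q : ℕ) [NeZero N] [NeZero q] (H : Subgroup (Qb ≃ₐ[ℚ] Qb))

/-- The constants among the `H`-fixed functions. -/
def h70_IsConst (k : h69_F0 N H) : Prop :=
  ∃ κ : Qb, (k : modularFunctionFieldBar N) = algebraMap Qb (modularFunctionFieldBar N) κ

theorem h70_natCast_ne_zero (M : ℕ) {n : ℕ} (hn : n ≠ 0) : (n : h69_F0 M H) ≠ 0 := by
  intro h
  have h1 : ((n : h69_F0 M H) : modularFunctionFieldBar M) = 0 := by rw [h]; rfl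
  have h2 : ((n : h69_F0 M H) : modularFunctionFieldBar M)
      = algebraMap Qb (modularFunctionFieldBar M) (n : Qb) := by
    rw [map_natCast]
    rfl
  rw [h2] at h1
  have h3 := (map_eq_zero (algebraMap Qb (modularFunctionFieldBar M))).mp h1
  exact hn (by exact_mod_cast h3)

set_option maxHeartbeats 1000000 in
/-- **TOR-M.**  See the file header; `w2 0, w2 1, w2 2` are the valuations of `C20, C11, C02`
on `F0(N q)`, `w1 0, w1 1` those of `Z_F, Z_V` on `F0(N)`. -/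
theorem h70_torM (hq : q.Prime) (hqN : q ∣ N) (m : ℕ) (hm : 0 < m) (hqm : Nat.Coprime q m)
    (w2 : Fin 3 → h69_F0 (N * q) H → ℤ) (w1 : Fin 2 → h69_F0 N H → ℤ)
    (hw2mul : ∀ (c : Fin 3) (f g : h69_F0 (N * q) H), f ≠ 0 → g ≠ 0 →
      w2 c (f * g) = w2 c f + w2 c g)
    (hw2add : ∀ (c : Fin 3) (f g : h69_F0 (N * q) H), f ≠ 0 → g ≠ 0 → f + g ≠ 0 →
      min (w2 c f) (w2 c g) ≤ w2 c (f + g))
    (hw1mul : ∀ (c : Fin 2) (f g : h69_F0 N H), f ≠ 0 → g ≠ 0 → w1 c (f * g) = w1 c f + w1 c g)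
    (hw1add : ∀ (c : Fin 2) (f g : h69_F0 N H), f ≠ 0 → g ≠ 0 → f + g ≠ 0 →
      min (w1 c f) (w1 c g) ≤ w1 c (f + g))
    -- (V0)
    (hV0a0 : ∀ g : h69_F0 N H, g ≠ 0 → w2 0 (h70_aF0 N q H g) = w1 0 g)
    (hV0a1 : ∀ g : h69_F0 N H, g ≠ 0 → w2 1 (h70_aF0 N q H g) = ((q : ℤ) - 1) * w1 0 g)
    (hV0a2 : ∀ g : h69_F0 N H, g ≠ 0 → w2 2 (h70_aF0 N q H g) = w1 1 g)
    (hV0b0 : ∀ g : h69_F0 N H, g ≠ 0 → w2 0 (h70_bF0 N q H g) = w1 0 g)
    (hq0 : w2 0 (q : h69_F0 (N * q) H) = 1) (hq1 : w2 1 (q : h69_F0 (N * q) H) = (q : ℤ) - 1)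
    (hq2 : w2 2 (q : h69_F0 (N * q) H) = 1)
    -- (V1), (V2)
    (hV1 : ∀ y : h69_F0 (N * q) H, y ≠ 0 → w2 0 y = 0 →
      ∃ y' : h69_F0 N H, y - h70_aF0 N q H y' = 0 ∨ 0 < w2 0 (y - h70_aF0 N q H y'))
    (hV2 : ∀ u : h69_F0 (N * q) H, u ≠ 0 → w2 1 u = 0 →
      ∃ g : h69_F0 N H, u - h70_aF0 N q H g = 0 ∨ 0 < w2 1 (u - h70_aF0 N q H g))
    -- (V3)
    (hV3 : ∀ c : Fin 3, ∃ p : h69_F0 (N * q) H, p ≠ 0 ∧ w2 c p = 1 ∧ ∀ c', c' ≠ c → w2 c' p = 0)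
    -- (N1)
    (hN1aF : ∀ u : h69_F0 (N * q) H, u ≠ 0 → w1 0 (h70_NaF0 N q H u) = w2 0 u + w2 1 u)
    (hN1aV : ∀ u : h69_F0 (N * q) H, u ≠ 0 → w1 1 (h70_NaF0 N q H u) = (q : ℤ) * w2 2 u)
    (hN1bF : ∀ u : h69_F0 (N * q) H, u ≠ 0 → w1 0 (h70_NbF0 N q H u) = (q : ℤ) * w2 0 u)
    (hN1bV : ∀ u : h69_F0 (N * q) H, u ≠ 0 → w1 1 (h70_NbF0 N q H u) = w2 1 u + w2 2 u)
    -- (N2)-(N4)
    (hN2 : ∀ u : h69_F0 (N * q) H, u ≠ 0 → (∀ c, w2 c u = 0) →
      h70_aF0 N q H (h70_NaF0 N q H u) - u ^ q = 0 ∨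
        0 < w2 2 (h70_aF0 N q H (h70_NaF0 N q H u) - u ^ q))
    (hN3 : ∀ u : h69_F0 (N * q) H, u ≠ 0 → (∀ c, w2 c u = 0) →
      h70_bF0 N q H (h70_NbF0 N q H u) - u ^ q = 0 ∨
        0 < w2 0 (h70_bF0 N q H (h70_NbF0 N q H u) - u ^ q))
    (hN4 : ∀ u : h69_F0 (N * q) H, u ≠ 0 → (∀ c, w2 c u = 0) → ∀ g : h69_F0 N H,
      (u - h70_aF0 N q H g = 0 ∨ 0 < w2 1 (u - h70_aF0 N q H g)) →
      h70_aF0 N q H (h70_NaF0 N q H u) - u * h70_aF0 N q H g ^ (q - 1) = 0 ∨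
        0 < w2 0 (h70_aF0 N q H (h70_NaF0 N q H u) - u * h70_aF0 N q H g ^ (q - 1)))
    -- (K6+)
    (hCval : ∀ k : h69_F0 N H, k ≠ 0 → h70_IsConst N H k → w1 0 k = w1 1 k)
    (hCroot : ∀ k : h69_F0 N H, k ≠ 0 → h70_IsConst N H k → w1 0 k = 0 →
      ∃ c : h69_F0 N H, c ≠ 0 ∧ w1 0 c = 0 ∧ w1 1 c = 0 ∧
        (k - c ^ m = 0 ∨ (0 < w1 0 (k - c ^ m) ∧ 0 < w1 1 (k - c ^ m))))
    (x : JZero (N * q)) (hx : ∀ σ ∈ H, σ • x = x) (hnew : h67_Jnew N q x) (hmx : m • x = 0) :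
    ∃ (E4 : Divisor.degZero (K := Qb) (F := modularFunctionFieldBar (N * q)))
      (u4 : h69_F0 (N * q) H),
      Pic0.mk E4 = (q ^ 2 - 1) • x ∧
      (∀ σ ∈ H, arithmeticGalois (modularFunctionFieldFull (N * q)) σ •
        (E4 : Divisor Qb (modularFunctionFieldBar (N * q))) = E4) ∧
      h67_DivNew N q (E4 : Divisor Qb (modularFunctionFieldBar (N * q))) ∧
      u4 ≠ 0 ∧
      (∀ v : Place Qb (modularFunctionFieldBar (N * q)),
        (m : ℤ) * (E4 : Divisor Qb (modularFunctionFieldBar (N * q))) v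
          = v.ord (u4 : modularFunctionFieldBar (N * q))) ∧
      ∀ c : Fin 3, u4 - 1 = 0 ∨ w2 c (q : h69_F0 (N * q) H) ≤ w2 c (u4 - 1) := by
  classical
  have hq2' : 2 ≤ q := hq.two_le
  -- the five valuations
  obtain ⟨v1, e1, z1⟩ : ∃ v : AddValuation (h69_F0 (N * q) H) (WithTop ℤ),
      (∀ x, x ≠ 0 → v x = ((w2 0 x : ℤ) : WithTop ℤ)) ∧ v 0 = ⊤ :=
    ⟨h70_addVal (w2 0) (hw2mul 0) (hw2add 0), fun x hx => h70_addVal_of_ne _ _ _ hx,
      h70_addVal_zero _ _ _⟩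
  obtain ⟨v2, e2, z2⟩ : ∃ v : AddValuation (h69_F0 (N * q) H) (WithTop ℤ),
      (∀ x, x ≠ 0 → v x = ((w2 1 x : ℤ) : WithTop ℤ)) ∧ v 0 = ⊤ :=
    ⟨h70_addVal (w2 1) (hw2mul 1) (hw2add 1), fun x hx => h70_addVal_of_ne _ _ _ hx,
      h70_addVal_zero _ _ _⟩
  obtain ⟨v3, e3, z3⟩ : ∃ v : AddValuation (h69_F0 (N * q) H) (WithTop ℤ),
      (∀ x, x ≠ 0 → v x = ((w2 2 x : ℤ) : WithTop ℤ)) ∧ v 0 = ⊤ :=
    ⟨h70_addVal (w2 2) (hw2mul 2) (hw2add 2), fun x hx => h70_addVal_of_ne _ _ _ hx,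
      h70_addVal_zero _ _ _⟩
  obtain ⟨wF, eF, zF⟩ : ∃ v : AddValuation (h69_F0 N H) (WithTop ℤ),
      (∀ x, x ≠ 0 → v x = ((w1 0 x : ℤ) : WithTop ℤ)) ∧ v 0 = ⊤ :=
    ⟨h70_addVal (w1 0) (hw1mul 0) (hw1add 0), fun x hx => h70_addVal_of_ne _ _ _ hx,
      h70_addVal_zero _ _ _⟩
  obtain ⟨wV, eV, zV⟩ : ∃ v : AddValuation (h69_F0 N H) (WithTop ℤ),
      (∀ x, x ≠ 0 → v x = ((w1 1 x : ℤ) : WithTop ℤ)) ∧ v 0 = ⊤ :=
    ⟨h70_addVal (w1 1) (hw1mul 1) (hw1add 1), fun x hx => h70_addVal_of_ne _ _ _ hx,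
      h70_addVal_zero _ _ _⟩
  -- generic translations
  have tz : ∀ {K : Type} [Field K] (v : AddValuation K (WithTop ℤ)) (w : K → ℤ),
      (∀ x, x ≠ 0 → v x = ((w x : ℤ) : WithTop ℤ)) → v 0 = ⊤ →
      ∀ x, v x = 0 → x ≠ 0 ∧ w x = 0 := by
    intro K _ v w e z x h
    have hx : x ≠ 0 := by
      rintro rfl
      rw [z] at h
      exact WithTop.top_ne_zero h
    refine ⟨hx, ?_⟩
    rw [e x hx] at h
    exact_mod_cast h
  have tp : ∀ {K : Type} [Field K] (v : AddValuation K (WithTop ℤ)) (w : K → ℤ),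
      (∀ x, x ≠ 0 → v x = ((w x : ℤ) : WithTop ℤ)) → v 0 = ⊤ →
      ∀ x, (x = 0 ∨ 0 < w x) → 0 < v x := by
    intro K _ v w e z x h
    by_cases hx : x = 0
    · rw [hx, z]
      exact WithTop.top_pos
    · rw [e x hx]
      exact_mod_cast h.resolve_left hx
  have tq : ∀ {K : Type} [Field K] (v : AddValuation K (WithTop ℤ)) (w : K → ℤ),
      (∀ x, x ≠ 0 → v x = ((w x : ℤ) : WithTop ℤ)) → v 0 = ⊤ →
      ∀ x, 0 < v x → (x = 0 ∨ 0 < w x) := by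
    intro K _ v w e z x h
    by_cases hx : x = 0
    · exact Or.inl hx
    · rw [e x hx] at h
      exact Or.inr (by exact_mod_cast h)
  have tu : ∀ {K : Type} [Field K] (v : AddValuation K (WithTop ℤ)) (w : K → ℤ),
      (∀ x, x ≠ 0 → v x = ((w x : ℤ) : WithTop ℤ)) →
      ∀ x, x ≠ 0 → w x = 0 → v x = 0 := by
    intro K _ v w e x hx h
    rw [e x hx, h]
    rfl
  have ha0 : ∀ g : h69_F0 N H, g ≠ 0 → h70_aF0 N q H g ≠ 0 :=
    fun g hg => (map_ne_zero (h70_aF0 N q H)).mpr hg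
  have hb0 : ∀ g : h69_F0 N H, g ≠ 0 → h70_bF0 N q H g ≠ 0 :=
    fun g hg => (map_ne_zero (h70_bF0 N q H)).mpr hg
  have hNa0 : ∀ u : h69_F0 (N * q) H, u ≠ 0 → h70_NaF0 N q H u ≠ 0 :=
    fun u hu => (map_ne_zero (h70_NaF0 N q H)).mpr hu
  have hNb0 : ∀ u : h69_F0 (N * q) H, u ≠ 0 → h70_NbF0 N q H u ≠ 0 :=
    fun u hu => (map_ne_zero (h70_NbF0 N q H)).mpr hu
  have hqF : (q : h69_F0 (N * q) H) ≠ 0 := h70_natCast_ne_zero H (N * q) hq.ne_zero
  -- (V0)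
  have hv1a : ∀ g, v1 (h70_aF0 N q H g) = wF g := by
    intro g
    by_cases hg : g = 0
    · rw [hg, map_zero, z1, zF]
    · rw [e1 _ (ha0 g hg), eF g hg, hV0a0 g hg]
  have hv2a : ∀ g, v2 (h70_aF0 N q H g) = (q - 1) • wF g := by
    intro g
    by_cases hg : g = 0
    · rw [hg, map_zero, z2, zF, h70_nsmul_top (by omega)]
    · rw [e2 _ (ha0 g hg), eF g hg, hV0a1 g hg, h27_nsmul_coe, Nat.cast_sub hq.one_le,
        Nat.cast_one]
  have hv3a : ∀ g, v3 (h70_aF0 N q H g) = wV g := by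
    intro g
    by_cases hg : g = 0
    · rw [hg, map_zero, z3, zV]
    · rw [e3 _ (ha0 g hg), eV g hg, hV0a2 g hg]
  have hv1b : ∀ g, v1 (h70_bF0 N q H g) = wF g := by
    intro g
    by_cases hg : g = 0
    · rw [hg, map_zero, z1, zF]
    · rw [e1 _ (hb0 g hg), eF g hg, hV0b0 g hg]
  have hv1q : v1 (q : h69_F0 (N * q) H) = 1 := by
    rw [e1 _ hqF, hq0]
    rfl
  have hv2q : v2 (q : h69_F0 (N * q) H) = (((q : ℤ) - 1 : ℤ) : WithTop ℤ) := by
    rw [e2 _ hqF, hq1]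
  have hv3q : v3 (q : h69_F0 (N * q) H) = 1 := by
    rw [e3 _ hqF, hq2]
    rfl
  -- (V1), (V2), (V3)
  have hV1' : ∀ y : h69_F0 (N * q) H, v1 y = 0 →
      ∃ y' : h69_F0 N H, 0 < v1 (y - h70_aF0 N q H y') := by
    intro y hy
    obtain ⟨hy0, hwy⟩ := tz v1 (w2 0) e1 z1 y hy
    obtain ⟨y', h⟩ := hV1 y hy0 hwy
    exact ⟨y', tp v1 (w2 0) e1 z1 _ h⟩
  have hV2' : ∀ u : h69_F0 (N * q) H, v2 u = 0 →
      ∃ g : h69_F0 N H, 0 < v2 (u - h70_aF0 N q H g) := by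
    intro y hy
    obtain ⟨hy0, hwy⟩ := tz v2 (w2 1) e2 z2 y hy
    obtain ⟨y', h⟩ := hV2 y hy0 hwy
    exact ⟨y', tp v2 (w2 1) e2 z2 _ h⟩
  have hV3' : ∃ p1 p2 p3 : h69_F0 (N * q) H, v1 p1 = 1 ∧ v2 p1 = 0 ∧ v3 p1 = 0 ∧ v1 p2 = 0 ∧
      v2 p2 = 1 ∧ v3 p2 = 0 ∧ v1 p3 = 0 ∧ v2 p3 = 0 ∧ v3 p3 = 1 := by
    obtain ⟨p1, hp1, h11, h1o⟩ := hV3 0
    obtain ⟨p2, hp2, h22, h2o⟩ := hV3 1
    obtain ⟨p3, hp3, h33, h3o⟩ := hV3 2
    refine ⟨p1, p2, p3, ?_, tu v2 (w2 1) e2 p1 hp1 (h1o 1 (by decide)),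
      tu v3 (w2 2) e3 p1 hp1 (h1o 2 (by decide)), tu v1 (w2 0) e1 p2 hp2 (h2o 0 (by decide)),
      ?_, tu v3 (w2 2) e3 p2 hp2 (h2o 2 (by decide)), tu v1 (w2 0) e1 p3 hp3 (h3o 0 (by decide)),
      tu v2 (w2 1) e2 p3 hp3 (h3o 1 (by decide)), ?_⟩
    · rw [e1 _ hp1, h11]; rfl
    · rw [e2 _ hp2, h22]; rfl
    · rw [e3 _ hp3, h33]; rfl
  -- (N1)
  have hN1aF' : ∀ u : h69_F0 (N * q) H, u ≠ 0 → wF (h70_NaF0 N q H u) = v1 u + v2 u := by
    intro u hu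
    rw [eF _ (hNa0 u hu), e1 u hu, e2 u hu, hN1aF u hu, WithTop.coe_add]
  have hN1aV' : ∀ u : h69_F0 (N * q) H, u ≠ 0 → wV (h70_NaF0 N q H u) = q • v3 u := by
    intro u hu
    rw [eV _ (hNa0 u hu), e3 u hu, hN1aV u hu, h27_nsmul_coe]
  have hN1bF' : ∀ u : h69_F0 (N * q) H, u ≠ 0 → wF (h70_NbF0 N q H u) = q • v1 u := by
    intro u hu
    rw [eF _ (hNb0 u hu), e1 u hu, hN1bF u hu, h27_nsmul_coe]
  have hN1bV' : ∀ u : h69_F0 (N * q) H, u ≠ 0 → wV (h70_NbF0 N q H u) = v2 u + v3 u := by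
    intro u hu
    rw [eV _ (hNb0 u hu), e2 u hu, e3 u hu, hN1bV u hu, WithTop.coe_add]
  have hNaq : h70_NaF0 N q H (q : h69_F0 (N * q) H) = (q : h69_F0 N H) ^ q := by
    apply Subtype.ext
    have h1 : ((q : h69_F0 (N * q) H) : modularFunctionFieldBar (N * q))
        = heckeAlphaBar Qb N q (q : modularFunctionFieldBar N) := by
      rw [map_natCast]
      rfl
    rw [h70_coe_NaF0, h1, h67_normAlong_apply, h49_deg_alpha_dvd N q hq hqN]
    rfl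
  have hNbq : h70_NbF0 N q H (q : h69_F0 (N * q) H) = (q : h69_F0 N H) ^ q := by
    apply Subtype.ext
    have h1 : ((q : h69_F0 (N * q) H) : modularFunctionFieldBar (N * q))
        = heckeBetaBar Qb N q (q : modularFunctionFieldBar N) := by
      rw [map_natCast]
      rfl
    rw [h70_coe_NbF0, h1, h67_normAlong_apply, h49_deg_beta_dvd N q hq hqN]
    rfl
  -- (N2)-(N4)
  have hall : ∀ u : h69_F0 (N * q) H, v1 u = 0 → v2 u = 0 → v3 u = 0 →
      u ≠ 0 ∧ ∀ c, w2 c u = 0 := by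
    intro u h1 h2 h3
    obtain ⟨hu0, hw1⟩ := tz v1 (w2 0) e1 z1 u h1
    obtain ⟨-, hw2⟩ := tz v2 (w2 1) e2 z2 u h2
    obtain ⟨-, hw3⟩ := tz v3 (w2 2) e3 z3 u h3
    refine ⟨hu0, fun c => ?_⟩
    fin_cases c
    · exact hw1
    · exact hw2
    · exact hw3
  have hN2' : ∀ u : h69_F0 (N * q) H, v1 u = 0 → v2 u = 0 → v3 u = 0 →
      0 < v3 (h70_aF0 N q H (h70_NaF0 N q H u) - u ^ q) := by
    intro u h1 h2 h3
    obtain ⟨hu0, hw⟩ := hall u h1 h2 h3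
    exact tp v3 (w2 2) e3 z3 _ (hN2 u hu0 hw)
  have hN3' : ∀ u : h69_F0 (N * q) H, v1 u = 0 → v2 u = 0 → v3 u = 0 →
      0 < v1 (h70_bF0 N q H (h70_NbF0 N q H u) - u ^ q) := by
    intro u h1 h2 h3
    obtain ⟨hu0, hw⟩ := hall u h1 h2 h3
    exact tp v1 (w2 0) e1 z1 _ (hN3 u hu0 hw)
  have hN4' : ∀ u : h69_F0 (N * q) H, v1 u = 0 → v2 u = 0 → v3 u = 0 → ∀ g : h69_F0 N H,
      0 < v2 (u - h70_aF0 N q H g) →
      0 < v1 (h70_aF0 N q H (h70_NaF0 N q H u) - u * h70_aF0 N q H g ^ (q - 1)) := by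
    intro u h1 h2 h3 g hg
    obtain ⟨hu0, hw⟩ := hall u h1 h2 h3
    exact tp v1 (w2 0) e1 z1 _ (hN4 u hu0 hw g (tq v2 (w2 1) e2 z2 _ hg))
  -- (K6+)
  have hCq : h70_IsConst N H (q : h69_F0 N H) := ⟨(q : Qb), by rw [map_natCast]; rfl⟩
  have hCmul : ∀ x y : h69_F0 N H, h70_IsConst N H x → h70_IsConst N H y →
      h70_IsConst N H (x * y) := by
    rintro x y ⟨κ1, h1⟩ ⟨κ2, h2⟩
    refine ⟨κ1 * κ2, ?_⟩
    rw [map_mul, ← h1, ← h2]
    rfl
  have hCinv : ∀ x : h69_F0 N H, h70_IsConst N H x → h70_IsConst N H x⁻¹ := by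
    rintro x ⟨κ1, h1⟩
    refine ⟨κ1⁻¹, ?_⟩
    rw [map_inv₀, ← h1]
    rfl
  have hCval' : ∀ x : h69_F0 N H, h70_IsConst N H x → wF x = wV x := by
    intro x hxC
    by_cases hx0 : x = 0
    · rw [hx0, zF, zV]
    · rw [eF x hx0, eV x hx0, hCval x hx0 hxC]
  have hCroot' : ∀ κ : h69_F0 N H, h70_IsConst N H κ → wF κ = 0 → ∃ c : h69_F0 N H,
      wF c = 0 ∧ wV c = 0 ∧ 0 < wF (κ - c ^ m) ∧ 0 < wV (κ - c ^ m) := by
    intro κ hκC hκ
    obtain ⟨hκ0, hwκ⟩ := tz wF (w1 0) eF zF κ hκ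
    obtain ⟨c, hc0, hcF, hcV, hcong⟩ := hCroot κ hκ0 hκC hwκ
    refine ⟨c, tu wF (w1 0) eF c hc0 hcF, tu wV (w1 1) eV c hc0 hcV, ?_, ?_⟩
    · rcases hcong with h0 | ⟨hF, -⟩
      · exact tp wF (w1 0) eF zF _ (Or.inl h0)
      · exact tp wF (w1 0) eF zF _ (Or.inr hF)
    · rcases hcong with h0 | ⟨-, hV⟩
      · exact tp wV (w1 1) eV zV _ (Or.inl h0)
      · exact tp wV (w1 1) eV zV _ (Or.inr hV)
  -- the core, as the hypothesis of the wrapper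
  have hcore : ∀ u : modularFunctionFieldBar (N * q), u ≠ 0 → u ∈ h69_F0 (N * q) H →
      (∃ (φ : modularFunctionFieldBar N) (κ : Qb), φ ≠ 0 ∧ φ ∈ h69_F0 N H ∧
        κ ≠ 0 ∧ (∀ σ ∈ H, σ κ = κ) ∧
        h67_normAlong (heckeAlphaBar Qb N q) u
          = algebraMap Qb (modularFunctionFieldBar N) κ * φ ^ m) →
      (∃ (φ : modularFunctionFieldBar N) (κ : Qb), φ ≠ 0 ∧ φ ∈ h69_F0 N H ∧
        κ ≠ 0 ∧ (∀ σ ∈ H, σ κ = κ) ∧
        h67_normAlong (heckeBetaBar Qb N q) u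
          = algebraMap Qb (modularFunctionFieldBar N) κ * φ ^ m) →
      ∃ (κ' : Qb) (h u4 : modularFunctionFieldBar (N * q)), κ' ≠ 0 ∧ h ≠ 0 ∧
        h ∈ h69_F0 (N * q) H ∧ u4 ∈ h69_F0 (N * q) H ∧
        u ^ (q ^ 2 - 1) = algebraMap Qb (modularFunctionFieldBar (N * q)) κ' * h ^ m * u4 ∧
        ∃ hu4 : u4 ∈ h69_F0 (N * q) H, ∀ c : Fin 3,
          (⟨u4, hu4⟩ : h69_F0 (N * q) H) - 1 = 0 ∨
            w2 c (q : h69_F0 (N * q) H) ≤ w2 c ((⟨u4, hu4⟩ : h69_F0 (N * q) H) - 1) := by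
    rintro u hu0 huF ⟨φa, κa, hφa0, hφaF, hκa0, hκafix, hNa⟩ ⟨φb, κb, hφb0, hφbF, hκb0, hκbfix, hNb⟩
    have hκaF : algebraMap Qb (modularFunctionFieldBar N) κa ∈ h69_F0 N H :=
      (h69_algebraMap_mem_F0 N H κa).mpr hκafix
    have hκbF : algebraMap Qb (modularFunctionFieldBar N) κb ∈ h69_F0 N H :=
      (h69_algebraMap_mem_F0 N H κb).mpr hκbfix
    have hne : ∀ {M : ℕ} {z : modularFunctionFieldBar M} (hz : z ∈ h69_F0 M H), z ≠ 0 →
        (⟨z, hz⟩ : h69_F0 M H) ≠ 0 := by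
      intro M z hz hz0 h
      exact hz0 (congrArg Subtype.val h)
    obtain ⟨J, h, u4, hh0, hrel, h1, h2, h3⟩ := h27_toric_core (h70_aF0 N q H) (h70_bF0 N q H)
      (h70_NaF0 N q H) (h70_NbF0 N q H) q m hq hm hqm v1 v2 v3 wF wV hv1a hv2a hv3a hv1b hv1q
      hv2q hv3q hV1' hV2' hV3' hN1aF' hN1aV' hN1bF' hN1bV' hNaq hNbq hN2' hN3' hN4'
      (h70_IsConst N H) hCq hCmul hCinv hCval' hCroot'
      (⟨u, huF⟩ : h69_F0 (N * q) H) (hne huF hu0)
      (⟨_, hκaF⟩ : h69_F0 N H) (⟨_, hκbF⟩ : h69_F0 N H)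
      (⟨φa, hφaF⟩ : h69_F0 N H) (⟨φb, hφbF⟩ : h69_F0 N H) ⟨κa, rfl⟩ ⟨κb, rfl⟩
      (hne hκaF ((map_ne_zero _).mpr hκa0)) (hne hκbF ((map_ne_zero _).mpr hκb0))
      (hne hφaF hφa0) (hne hφbF hφb0) (Subtype.ext hNa) (Subtype.ext hNb)
    have hq0' : (q : Qb) ≠ 0 := Nat.cast_ne_zero.mpr hq.ne_zero
    refine ⟨(q : Qb) ^ J, (h : modularFunctionFieldBar (N * q)),
      (u4 : modularFunctionFieldBar (N * q)), zpow_ne_zero J hq0',
      fun h0 => hh0 (Subtype.ext h0), h.2, u4.2, ?_, u4.2, ?_⟩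
    · have h4 := congrArg (fun z : h69_F0 (N * q) H => (z : modularFunctionFieldBar (N * q))) hrel
      have h5 : algebraMap Qb (modularFunctionFieldBar (N * q)) ((q : Qb) ^ J)
          = ((((q : h69_F0 (N * q) H) ^ J : h69_F0 (N * q) H)) :
              modularFunctionFieldBar (N * q)) := by
        rw [map_zpow₀, map_natCast]
        rfl
      rw [h5]
      exact h4
    · intro c
      fin_cases c
      · by_cases hx : (⟨(u4 : modularFunctionFieldBar (N * q)), u4.2⟩ : h69_F0 (N * q) H) - 1 = 0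
        · exact Or.inl hx
        · refine Or.inr ?_
          have h1' := h1
          rw [e1 _ hqF, e1 _ hx] at h1'
          exact_mod_cast h1'
      · by_cases hx : (⟨(u4 : modularFunctionFieldBar (N * q)), u4.2⟩ : h69_F0 (N * q) H) - 1 = 0
        · exact Or.inl hx
        · refine Or.inr ?_
          have h2' := h2
          rw [e2 _ hqF, e2 _ hx] at h2'
          exact_mod_cast h2'
      · by_cases hx : (⟨(u4 : modularFunctionFieldBar (N * q)), u4.2⟩ : h69_F0 (N * q) H) - 1 = 0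
        · exact Or.inl hx
        · refine Or.inr ?_
          have h3' := h3
          rw [e3 _ hqF, e3 _ hx] at h3'
          exact_mod_cast h3'
  obtain ⟨E4, u4, hcls, hinv, hnew4, hu40, -, hord, hu4F, hP⟩ :=
    h70_torM_of_core N q H m (q ^ 2 - 1) _ hcore x hx hnew hmx
  exact ⟨E4, ⟨u4, hu4F⟩, hcls, hinv, hnew4, fun h0 => hu40 (congrArg Subtype.val h0), hord, hP⟩

end TorM

end Fermat.Agent.S36
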