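/-
S36 / row NR, input (NORM-PROD) (helper49): at a prime `q ∣ N` the norms along the two
degeneracy maps `α, β : F(N) → F(N q)` are products over the `q` expansion embeddings.

* `h49_norm_prod_generic` : the norm along an algebra hom as the product over a full family of
  embeddings;
* `h49_norm_beta_prod`  : `(N_β f)(t^q) = ∏_{a < q} f(ζ^a t)` (`ζ` a primitive `q`-th root of `1`);
* `h49_norm_beta_prod'` : the same with `h59_twistHom`;
* `h49_norm_alpha_prod` : `N_α f = f * ∏_i E_i f` for any family of `q - 1` pairwise distinct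
  embeddings `E_i : F(N q) → ℚ̄((t))`, different from the standard one, restricting to the
  standard expansion on `α F(N)`.
-/
import Mathlib
import Fermat.Agent.S36.h49_Pull2Deg
import Fermat.Agent.S24.h59_Cusp

set_option autoImplicit false
set_option synthInstance.maxHeartbeats 400000
set_option linter.style.haveILetI false

noncomputable section

open ModularCurve AlgebraicCurve

namespace Fermat.Agent.S36

open Fermat.Agent.S34 Fermat.Agent.S37 Fermat.Agent.S24 Fermat.Agent.S35

local notation "Qb" => AlgebraicClosure ℚ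

/-- The norm along an algebra hom of degree `#X` as a product over `#X` pairwise distinct
embeddings that agree on the base. -/
theorem h49_norm_prod_generic {K E F Ω X : Type*} [Field K] [Field E] [Field F] [Field Ω]
    [Algebra K E] [Algebra K F] [CharZero E] [Fintype X] (α : E →ₐ[K] F)
    (hdeg : finrankAlong K α = Fintype.card X) (hpos : 0 < Fintype.card X)
    (σ : X → F →+* Ω) (hσ : Function.Injective σ)
    (hE : ∀ x x' e, σ x (α e) = σ x' (α e)) (x₀ : X) (f : F) :
    letI := algebraAlong α
    σ x₀ (α (Algebra.norm E f)) = ∏ x, σ x f := by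
  letI := algebraAlong α
  have hfr : Module.finrank E F = Fintype.card X := hdeg
  haveI : FiniteDimensional E F := Module.finite_of_finrank_pos (by rw [hfr]; exact hpos)
  exact (h85_norm_of_embeddings (E := E) (F := F) σ hσ hE).2 hfr.symm x₀ f

/-- The two twists agree. -/
theorem h49_twist_eq (c : Qbˣ) (f : LaurentSeries Qb) :
    h87_twist c f = h59_twistHom (c : Qb) c.ne_zero f := by
  ext k
  rw [h87_twist_coeff, h59_twistHom_apply, h64_twist_coeff, Units.val_zpow_eq_zpow_val, mul_comm]

/-- The coefficient of `t⁻¹` of (the expansion of) `j` is `1`. -/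
theorem h49_jbar_coeff (L : ℕ) :
    ((h59_jbar L : modularFunctionFieldBar L) : LaurentSeries Qb).coeff (-1 : ℤ) = 1 := by
  have h1 := h59_coeff_coeffEmb_jq_pow_self Qb 1
  rw [pow_one] at h1
  rw [h59_coe_jbar]
  exact_mod_cast h1

/-- **(NP-beta)** `(N_β f)(t^q) = ∏_{a < q} f(ζ^a t)` for a prime `q ∣ N`. -/
theorem h49_norm_beta_prod (N q : ℕ) [NeZero N] [NeZero q] (hq : q.Prime) (hqN : q ∣ N)
    (ζ : Qbˣ) (hζ : IsPrimitiveRoot ζ q) (f : modularFunctionFieldBar (N * q)) :
    qExpand Qb q
        ((@Algebra.norm (modularFunctionFieldBar N) (modularFunctionFieldBar (N * q)) _ _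
          (algebraAlong (heckeBetaBar Qb N q)) f : modularFunctionFieldBar N) : LaurentSeries Qb)
      = ∏ a : Fin q, h87_twist (ζ ^ (a : ℕ)) (f : LaurentSeries Qb) := by
  let σ : Fin q → modularFunctionFieldBar (N * q) →+* LaurentSeries Qb := fun a =>
    (h87_twist (ζ ^ (a : ℕ))).comp (modularFunctionFieldBar (N * q)).val.toRingHom
  have hσ_apply : ∀ (a : Fin q) (g : modularFunctionFieldBar (N * q)),
      σ a g = h87_twist (ζ ^ (a : ℕ)) (g : LaurentSeries Qb) := fun _ _ => rfl
  have hpow : ∀ a : Fin q, (ζ ^ (a : ℕ)) ^ q = 1 := by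
    intro a
    rw [← pow_mul, mul_comm, pow_mul, hζ.pow_eq_one, one_pow]
  have hE : ∀ (x x' : Fin q) (e : modularFunctionFieldBar N),
      σ x (heckeBetaBar Qb N q e) = σ x' (heckeBetaBar Qb N q e) := by
    intro x x' e
    rw [hσ_apply, hσ_apply, coe_heckeBetaBar, h49_twist_qExpand q _ (hpow x),
      h49_twist_qExpand q _ (hpow x')]
  have hσ : Function.Injective σ := by
    intro x x' hxx
    have hc : (σ x (h59_jbar (N * q))).coeff (-1 : ℤ) = (σ x' (h59_jbar (N * q))).coeff (-1 : ℤ) := by
      rw [hxx]
    rw [hσ_apply, hσ_apply, h87_twist_coeff, h87_twist_coeff, h49_jbar_coeff, mul_one,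
      mul_one] at hc
    have h1 : (ζ ^ (x : ℕ)) ^ (-1 : ℤ) = (ζ ^ (x' : ℕ)) ^ (-1 : ℤ) := Units.ext hc
    have h2 : ζ ^ (x : ℕ) = ζ ^ (x' : ℕ) := by
      rw [zpow_neg_one, zpow_neg_one] at h1
      exact inv_injective h1
    exact Fin.ext (hζ.pow_inj x.2 x'.2 h2)
  have hcard : finrankAlong Qb (heckeBetaBar Qb N q) = Fintype.card (Fin q) := by
    rw [Fintype.card_fin]
    exact h49_deg_beta_dvd N q hq hqN
  have key := h49_norm_prod_generic (heckeBetaBar Qb N q) hcard
    (by rw [Fintype.card_fin]; exact hq.pos) σ hσ hE ⟨0, hq.pos⟩ f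
  rw [hσ_apply, coe_heckeBetaBar] at key
  have h0 : (ζ ^ ((⟨0, hq.pos⟩ : Fin q) : ℕ)) = 1 := pow_zero ζ
  rw [h0, h87_twist_one] at key
  rw [key]
  exact Finset.prod_congr rfl fun a _ => hσ_apply a f

/-- **(NP-beta)** with `h59_twistHom`. -/
theorem h49_norm_beta_prod' (N q : ℕ) [NeZero N] [NeZero q] (hq : q.Prime) (hqN : q ∣ N)
    (ζ : Qb) (hζ : IsPrimitiveRoot ζ q) (f : modularFunctionFieldBar (N * q)) :
    qExpand Qb q
        ((@Algebra.norm (modularFunctionFieldBar N) (modularFunctionFieldBar (N * q)) _ _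
          (algebraAlong (heckeBetaBar Qb N q)) f : modularFunctionFieldBar N) : LaurentSeries Qb)
      = ∏ a : Fin q, h59_twistHom (ζ ^ (a : ℕ)) (pow_ne_zero _ (hζ.ne_zero (NeZero.ne q)))
          (f : LaurentSeries Qb) := by
  obtain ⟨u, rfl⟩ := hζ.isUnit (NeZero.ne q)
  have hu : IsPrimitiveRoot u q := IsPrimitiveRoot.coe_units_iff.1 hζ
  rw [h49_norm_beta_prod N q hq hqN u hu f]
  refine Finset.prod_congr rfl fun a _ => ?_
  rw [h49_twist_eq]
  congr 1

/-- **(NP-alpha)** `N_α f = f * ∏_i E_i f` for any family of `q - 1` pairwise distinct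
embeddings, different from the standard expansion, restricting to the standard expansion on
`α F(N)` (prime `q ∣ N`). -/
theorem h49_norm_alpha_prod (N q : ℕ) [NeZero N] [NeZero q] (hq : q.Prime) (hqN : q ∣ N)
    (E : Fin (q - 1) → modularFunctionFieldBar (N * q) →+* LaurentSeries Qb)
    (hEα : ∀ (i : Fin (q - 1)) (e : modularFunctionFieldBar N),
      E i (heckeAlphaBar Qb N q e) = (e : LaurentSeries Qb))
    (hEinj : Function.Injective E)
    (hEne : ∀ i : Fin (q - 1), E i ≠ (modularFunctionFieldBar (N * q)).val.toRingHom)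
    (f : modularFunctionFieldBar (N * q)) :
    ((@Algebra.norm (modularFunctionFieldBar N) (modularFunctionFieldBar (N * q)) _ _
        (algebraAlong (heckeAlphaBar Qb N q)) f : modularFunctionFieldBar N) : LaurentSeries Qb)
      = (f : LaurentSeries Qb) * ∏ i : Fin (q - 1), E i f := by
  set std : modularFunctionFieldBar (N * q) →+* LaurentSeries Qb :=
    (modularFunctionFieldBar (N * q)).val.toRingHom with hstd
  have hstd_apply : ∀ g : modularFunctionFieldBar (N * q), std g = (g : LaurentSeries Qb) :=
    fun _ => rfl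
  let σ : Option (Fin (q - 1)) → modularFunctionFieldBar (N * q) →+* LaurentSeries Qb :=
    fun x => Option.elim x std E
  have hσn : σ none = std := rfl
  have hσs : ∀ i, σ (some i) = E i := fun _ => rfl
  have h1 : ∀ (x : Option (Fin (q - 1))) (e : modularFunctionFieldBar N),
      σ x (heckeAlphaBar Qb N q e) = (e : LaurentSeries Qb) := by
    intro x e
    cases x with
    | none => rw [hσn, hstd_apply, coe_heckeAlphaBar]
    | some i => rw [hσs]; exact hEα i e
  have hE : ∀ (x x' : Option (Fin (q - 1))) (e : modularFunctionFieldBar N),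
      σ x (heckeAlphaBar Qb N q e) = σ x' (heckeAlphaBar Qb N q e) := by
    intro x x' e
    rw [h1, h1]
  have hσ : Function.Injective σ := by
    intro x x' hxx
    cases x with
    | none =>
      cases x' with
      | none => rfl
      | some i' =>
        rw [hσn, hσs] at hxx
        exact absurd hxx.symm (hEne i')
    | some i =>
      cases x' with
      | none =>
        rw [hσn, hσs] at hxx
        exact absurd hxx (hEne i)
      | some i' =>
        rw [hσs, hσs] at hxx
        rw [hEinj hxx]
  have hcard : finrankAlong Qb (heckeAlphaBar Qb N q) = Fintype.card (Option (Fin (q - 1))) := by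
    rw [Fintype.card_option, Fintype.card_fin, h49_deg_alpha_dvd N q hq hqN]
    have := hq.pos
    omega
  have key := h49_norm_prod_generic (heckeAlphaBar Qb N q) hcard
    (by rw [Fintype.card_option]; omega) σ hσ hE none f
  rw [Fintype.prod_option, h1, hσn, hstd_apply] at key
  rw [key]
  exact congrArg _ (Finset.prod_congr rfl fun i _ => by rw [hσs])

end Fermat.Agent.S36
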