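/-
S36 / row NR, series half (helper49): residues of the norms along the two degeneracy maps
`α, β : F(N) → F(N q)` at a prime `q ∣ N`, in the language of `S34/h60_SerRed`
(`h60_Os A` = ratios of `A`-integral Laurent series with nonzero reduced denominator,
`h60_rs A` = the coefficientwise reduction).  No valuation objects occur.

Notation: `Nα := h67_normAlong (heckeAlphaBar Qb N q)`, `Nβ := h67_normAlong (heckeBetaBar Qb N q)`
(`h67_normAlong ψ g` is `Algebra.norm` for the algebra structure `algebraAlong ψ`, by `rfl`).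

* `h49_normAlong_alpha_const`, `h49_normAlong_beta_const` : `N(c) = c ^ q` for constants;
* `h49_normAlong_conj` : `Nβ (W f) = w (Nα f)` for involutions `W`, `w` with `W ∘ α = β ∘ w`;
  `h49_normAlong_conj'` : `w (Nβ f) = Nα (W f)`;
* `h49_normRes_beta` : `f ∈ Os ⟹ Nβ f ∈ Os` and `rs (Nβ f) = Frob_coeff (rs f)`;
* `h49_normRes_beta_pow` : `rs (β (Nβ f)) = rs f ^ q`;
* `h49_normRes_beta_scaled` : the same after scaling by constants (`c f ∈ Os ⟹ c^q Nβ f ∈ Os`);
* `h49_normRes_alpha` : for a family `E i` (`i < q - 1`) of the other embeddings over the standard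
  one: `f, E i f ∈ Os ⟹ Nα f ∈ Os` and `rs (Nα f) = rs f * ∏ i, rs (E i f)`;
* `h49_normRes_alpha_scaled` : the same after scaling (`c₁ f, c₂ E i f ∈ Os`);
* `h49_normRes_conj_pow` : the `W`-conjugate of the `β`-statement:
  `W f ∈ Os ⟹ rs (W (α (Nα f))) = rs (W f) ^ q`;
* `h49_normRes_conj_alpha` : the `W`-conjugate of the `α`-statement, for `w (Nβ f)`.
-/
import Mathlib
import Fermat.Agent.S36.h49_NormProd
import Fermat.Agent.S34.h60_SerRed
import Fermat.Agent.S37.h87_Decomp
import Fermat.Agent.S18.h19_ResField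
import Fermat.Agent.GAL.h67_CorrPrincipal

set_option autoImplicit false
set_option synthInstance.maxHeartbeats 400000
set_option linter.style.haveILetI false

noncomputable section

open ModularCurve AlgebraicCurve

namespace Fermat.Agent.S36

open Fermat.Agent.S34 Fermat.Agent.S37 Fermat.Agent.S24 Fermat.Agent.S35 Fermat.Agent.S18
  Fermat.Agent.GAL

local notation "Qb" => AlgebraicClosure ℚ

/-! ## Constants and conjugation -/

/-- `N_α(c) = c ^ q` for a constant `c` (`q ∣ N`). -/
theorem h49_normAlong_alpha_const (N q : ℕ) [NeZero N] [NeZero q] (hq : q.Prime) (hqN : q ∣ N)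
    (c : Qb) :
    h67_normAlong (heckeAlphaBar Qb N q) (algebraMap Qb (modularFunctionFieldBar (N * q)) c)
      = algebraMap Qb (modularFunctionFieldBar N) c ^ q := by
  have h := h67_normAlong_apply (heckeAlphaBar Qb N q) (algebraMap Qb (modularFunctionFieldBar N) c)
  rw [AlgHom.commutes, h49_deg_alpha_dvd N q hq hqN] at h
  exact h

/-- `N_β(c) = c ^ q` for a constant `c` (`q ∣ N`). -/
theorem h49_normAlong_beta_const (N q : ℕ) [NeZero N] [NeZero q] (hq : q.Prime) (hqN : q ∣ N)
    (c : Qb) :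
    h67_normAlong (heckeBetaBar Qb N q) (algebraMap Qb (modularFunctionFieldBar (N * q)) c)
      = algebraMap Qb (modularFunctionFieldBar N) c ^ q := by
  have h := h67_normAlong_apply (heckeBetaBar Qb N q) (algebraMap Qb (modularFunctionFieldBar N) c)
  rw [AlgHom.commutes, h49_deg_beta_dvd N q hq hqN] at h
  exact h

/-- **(SR-conj)** `N_β (W f) = w (N_α f)` for involutions `W` of `F(N q)` and `w` of `F(N)` with
`W ∘ α = β ∘ w`. -/
theorem h49_normAlong_conj (N q : ℕ) [NeZero N] [NeZero q]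
    (w : modularFunctionFieldBar N →+* modularFunctionFieldBar N) (hww : ∀ e, w (w e) = e)
    (W : modularFunctionFieldBar (N * q) →+* modularFunctionFieldBar (N * q))
    (hWW : ∀ f, W (W f) = f)
    (h : ∀ e, W (heckeAlphaBar Qb N q e) = heckeBetaBar Qb N q (w e))
    (f : modularFunctionFieldBar (N * q)) :
    h67_normAlong (heckeBetaBar Qb N q) (W f) = w (h67_normAlong (heckeAlphaBar Qb N q) f) := by
  set e₁ : modularFunctionFieldBar N ≃+* modularFunctionFieldBar N :=
    RingEquiv.ofRingHom w w (RingHom.ext hww) (RingHom.ext hww) with he₁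
  set e₂ : modularFunctionFieldBar (N * q) ≃+* modularFunctionFieldBar (N * q) :=
    RingEquiv.ofRingHom W W (RingHom.ext hWW) (RingHom.ext hWW) with he₂
  have key := @Algebra.norm_eq_of_equiv_equiv (modularFunctionFieldBar N)
    (modularFunctionFieldBar (N * q)) (modularFunctionFieldBar N)
    (modularFunctionFieldBar (N * q)) _ _ _ _
    (algebraAlong (heckeAlphaBar Qb N q)) (algebraAlong (heckeBetaBar Qb N q)) e₁ e₂
    (RingHom.ext fun e => (h e).symm) f
  have h2 : w (h67_normAlong (heckeAlphaBar Qb N q) f)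
      = e₁ (e₁.symm (h67_normAlong (heckeBetaBar Qb N q) (W f))) := congrArg w key
  rw [h2, RingEquiv.apply_symm_apply]

/-- `w (N_β f) = N_α (W f)`, same hypotheses. -/
theorem h49_normAlong_conj' (N q : ℕ) [NeZero N] [NeZero q]
    (w : modularFunctionFieldBar N →+* modularFunctionFieldBar N) (hww : ∀ e, w (w e) = e)
    (W : modularFunctionFieldBar (N * q) →+* modularFunctionFieldBar (N * q))
    (hWW : ∀ f, W (W f) = f)
    (h : ∀ e, W (heckeAlphaBar Qb N q e) = heckeBetaBar Qb N q (w e))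
    (f : modularFunctionFieldBar (N * q)) :
    w (h67_normAlong (heckeBetaBar Qb N q) f) = h67_normAlong (heckeAlphaBar Qb N q) (W f) := by
  have h1 := h49_normAlong_conj N q w hww W hWW h (W f)
  rw [hWW] at h1
  rw [h1, hww]

/-! ## `β`: the purely inseparable side -/

/-- **(SR-b)** If the expansion of `f ∈ F(N q)` is a ratio of `A`-integral series with nonzero
reduced denominator, so is that of `N_β f`, and `rs (N_β f)` is the coefficientwise Frobenius of
`rs f`. -/
theorem h49_normRes_beta (N q : ℕ) [NeZero N] [NeZero q] [Fact q.Prime] (hqN : q ∣ N)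
    (A : ValuationSubring Qb) [CharP (IsLocalRing.ResidueField A) q]
    (f : modularFunctionFieldBar (N * q)) (hf : (f : LaurentSeries Qb) ∈ h60_Os A) :
    ∃ h : ((h67_normAlong (heckeBetaBar Qb N q) f : modularFunctionFieldBar N) :
        LaurentSeries Qb) ∈ h60_Os A,
      h60_rs A ⟨_, h⟩
        = coeffMap (frobenius (IsLocalRing.ResidueField A) q) (h60_rs A ⟨_, hf⟩) := by
  have hq : q.Prime := Fact.out
  obtain ⟨ζ, -, hζ⟩ := h87_exists_zeta A q
  have hζA : IsPrimitiveRoot ζ q :=
    IsPrimitiveRoot.of_map_of_injective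
      (f := Units.map ((A.subtype : A →+* Qb) : A →* Qb)) hζ
      (Units.map_injective (f := ((A.subtype : A →+* Qb) : A →* Qb)) Subtype.val_injective)
  have key := h49_norm_beta_prod N q hq hqN _ hζ f
  have hgq : qExpand Qb q
      ((h67_normAlong (heckeBetaBar Qb N q) f : modularFunctionFieldBar N) : LaurentSeries Qb)
      = ∏ b ∈ Finset.range q,
          h87_twist (Units.map ((A.subtype : A →+* Qb) : A →* Qb) ζ ^ b)
            ((⟨(f : LaurentSeries Qb), hf⟩ : h60_Os A) : LaurentSeries Qb) := by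
    rw [← Fin.prod_univ_eq_prod_range
      (fun b => h87_twist (Units.map ((A.subtype : A →+* Qb) : A →* Qb) ζ ^ b)
        (f : LaurentSeries Qb)) q]
    exact key
  exact h60_adj A q ζ hζA ⟨(f : LaurentSeries Qb), hf⟩ _ hgq

/-- **(SR-b), power form** `rs (β (N_β f)) = rs f ^ q`. -/
theorem h49_normRes_beta_pow (N q : ℕ) [NeZero N] [NeZero q] [Fact q.Prime] (hqN : q ∣ N)
    (A : ValuationSubring Qb) [CharP (IsLocalRing.ResidueField A) q]
    (f : modularFunctionFieldBar (N * q)) (hf : (f : LaurentSeries Qb) ∈ h60_Os A) :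
    ∃ h : ((heckeBetaBar Qb N q (h67_normAlong (heckeBetaBar Qb N q) f) :
        modularFunctionFieldBar (N * q)) : LaurentSeries Qb) ∈ h60_Os A,
      h60_rs A ⟨_, h⟩ = h60_rs A ⟨_, hf⟩ ^ q := by
  obtain ⟨h1, h2⟩ := h49_normRes_beta N q hqN A f hf
  have h3 := h60_rs_qExpand A q ⟨_, h1⟩
  have hcoe : ((heckeBetaBar Qb N q (h67_normAlong (heckeBetaBar Qb N q) f) :
      modularFunctionFieldBar (N * q)) : LaurentSeries Qb)
      = qExpand Qb q ((h67_normAlong (heckeBetaBar Qb N q) f : modularFunctionFieldBar N) :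
        LaurentSeries Qb) := by rw [coe_heckeBetaBar]
  have hmem : ((heckeBetaBar Qb N q (h67_normAlong (heckeBetaBar Qb N q) f) :
      modularFunctionFieldBar (N * q)) : LaurentSeries Qb) ∈ h60_Os A := by
    rw [hcoe]
    exact h60_qExpand_mem A q h1
  refine ⟨hmem, ?_⟩
  rw [h87_pow_char (IsLocalRing.ResidueField A) q, ← h2, ← h3]
  exact congrArg (h60_rs A) (Subtype.ext hcoe)

/-- **(SR-b), scaled form**: `c f ∈ Os ⟹ c ^ q N_β f ∈ Os`, with
`rs (c ^ q N_β f) = Frob_coeff (rs (c f))`. -/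
theorem h49_normRes_beta_scaled (N q : ℕ) [NeZero N] [NeZero q] [Fact q.Prime] (hqN : q ∣ N)
    (A : ValuationSubring Qb) [CharP (IsLocalRing.ResidueField A) q] (c : Qb)
    (f : modularFunctionFieldBar (N * q))
    (hf : algebraMap Qb (LaurentSeries Qb) c * (f : LaurentSeries Qb) ∈ h60_Os A) :
    ∃ h : algebraMap Qb (LaurentSeries Qb) (c ^ q) *
        ((h67_normAlong (heckeBetaBar Qb N q) f : modularFunctionFieldBar N) :
          LaurentSeries Qb) ∈ h60_Os A,
      h60_rs A ⟨_, h⟩
        = coeffMap (frobenius (IsLocalRing.ResidueField A) q) (h60_rs A ⟨_, hf⟩) := by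
  have hq : q.Prime := Fact.out
  have hcoe : ((algebraMap Qb (modularFunctionFieldBar (N * q)) c * f :
      modularFunctionFieldBar (N * q)) : LaurentSeries Qb)
      = algebraMap Qb (LaurentSeries Qb) c * (f : LaurentSeries Qb) := rfl
  have hnorm : h67_normAlong (heckeBetaBar Qb N q)
      (algebraMap Qb (modularFunctionFieldBar (N * q)) c * f)
      = algebraMap Qb (modularFunctionFieldBar N) (c ^ q)
        * h67_normAlong (heckeBetaBar Qb N q) f := by
    rw [h67_normAlong_mul, h49_normAlong_beta_const N q hq hqN, map_pow]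
  have hcoe2 : ((h67_normAlong (heckeBetaBar Qb N q)
      (algebraMap Qb (modularFunctionFieldBar (N * q)) c * f) : modularFunctionFieldBar N) :
        LaurentSeries Qb)
      = algebraMap Qb (LaurentSeries Qb) (c ^ q) *
        ((h67_normAlong (heckeBetaBar Qb N q) f : modularFunctionFieldBar N) :
          LaurentSeries Qb) := by
    rw [hnorm]
    rfl
  have hf' : ((algebraMap Qb (modularFunctionFieldBar (N * q)) c * f :
      modularFunctionFieldBar (N * q)) : LaurentSeries Qb) ∈ h60_Os A := by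
    rw [hcoe]
    exact hf
  obtain ⟨h1, h2⟩ := h49_normRes_beta N q hqN A
    (algebraMap Qb (modularFunctionFieldBar (N * q)) c * f) hf'
  have hmem : algebraMap Qb (LaurentSeries Qb) (c ^ q) *
      ((h67_normAlong (heckeBetaBar Qb N q) f : modularFunctionFieldBar N) :
        LaurentSeries Qb) ∈ h60_Os A := by
    rw [← hcoe2]
    exact h1
  refine ⟨hmem, ?_⟩
  have e1 : (⟨_, hmem⟩ : h60_Os A) = ⟨_, h1⟩ := Subtype.ext hcoe2.symm
  have e2 : (⟨_, hf'⟩ : h60_Os A) = ⟨_, hf⟩ := Subtype.ext hcoe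
  rw [e1, h2, e2]

/-! ## `α`: the split side -/

/-- The other embeddings over the standard expansion are `ℚ̄`-linear. -/
theorem h49_E_const (N q : ℕ) [NeZero N] [NeZero q]
    (E : modularFunctionFieldBar (N * q) →+* LaurentSeries Qb)
    (hEα : ∀ e : modularFunctionFieldBar N,
      E (heckeAlphaBar Qb N q e) = (e : LaurentSeries Qb)) (c : Qb) :
    E (algebraMap Qb (modularFunctionFieldBar (N * q)) c) = algebraMap Qb (LaurentSeries Qb) c := by
  have h := hEα (algebraMap Qb (modularFunctionFieldBar N) c)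
  rw [AlgHom.commutes] at h
  rw [h]
  rfl

/-- **(SR-a)** For a family `E i` (`i < q - 1`) of pairwise distinct embeddings of `F(N q)` into
`ℚ̄((t))`, different from the standard one and restricting to the standard expansion on `α F(N)`:
if `f` and all `E i f` are ratios of `A`-integral series with nonzero reduced denominator, so is
`N_α f`, and `rs (N_α f) = rs f * ∏ i, rs (E i f)`. -/
theorem h49_normRes_alpha (N q : ℕ) [NeZero N] [NeZero q] (hq : q.Prime) (hqN : q ∣ N)
    (A : ValuationSubring Qb)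
    (E : Fin (q - 1) → modularFunctionFieldBar (N * q) →+* LaurentSeries Qb)
    (hEα : ∀ (i : Fin (q - 1)) (e : modularFunctionFieldBar N),
      E i (heckeAlphaBar Qb N q e) = (e : LaurentSeries Qb))
    (hEinj : Function.Injective E)
    (hEne : ∀ i : Fin (q - 1), E i ≠ (modularFunctionFieldBar (N * q)).val.toRingHom)
    (f : modularFunctionFieldBar (N * q)) (hf : (f : LaurentSeries Qb) ∈ h60_Os A)
    (hE : ∀ i, E i f ∈ h60_Os A) :
    ∃ h : ((h67_normAlong (heckeAlphaBar Qb N q) f : modularFunctionFieldBar N) :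
        LaurentSeries Qb) ∈ h60_Os A,
      h60_rs A ⟨_, h⟩ = h60_rs A ⟨_, hf⟩ * ∏ i, h60_rs A ⟨E i f, hE i⟩ := by
  have key := h49_norm_alpha_prod N q hq hqN E hEα hEinj hEne f
  set P : h60_Os A := ⟨_, hf⟩ * ∏ i, (⟨E i f, hE i⟩ : h60_Os A) with hP
  have hPcoe : (P : LaurentSeries Qb)
      = ((h67_normAlong (heckeAlphaBar Qb N q) f : modularFunctionFieldBar N) :
        LaurentSeries Qb) := by
    rw [hP, Subring.coe_mul, SubmonoidClass.coe_finsetProd]
    exact key.symm
  have hmem : ((h67_normAlong (heckeAlphaBar Qb N q) f : modularFunctionFieldBar N) :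
      LaurentSeries Qb) ∈ h60_Os A := by
    rw [← hPcoe]
    exact P.2
  refine ⟨hmem, ?_⟩
  have e1 : (⟨_, hmem⟩ : h60_Os A) = P := Subtype.ext hPcoe.symm
  rw [e1, hP, map_mul, map_prod]

/-- **(SR-a), scaled form**: `c₁ f ∈ Os` and `c₂ E i f ∈ Os` for all `i` give
`c₁ c₂^(q-1) N_α f ∈ Os` with `rs = rs (c₁ f) * ∏ i, rs (c₂ E i f)`. -/
theorem h49_normRes_alpha_scaled (N q : ℕ) [NeZero N] [NeZero q] (hq : q.Prime) (hqN : q ∣ N)
    (A : ValuationSubring Qb)
    (E : Fin (q - 1) → modularFunctionFieldBar (N * q) →+* LaurentSeries Qb)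
    (hEα : ∀ (i : Fin (q - 1)) (e : modularFunctionFieldBar N),
      E i (heckeAlphaBar Qb N q e) = (e : LaurentSeries Qb))
    (hEinj : Function.Injective E)
    (hEne : ∀ i : Fin (q - 1), E i ≠ (modularFunctionFieldBar (N * q)).val.toRingHom)
    (c₁ c₂ : Qb) (f : modularFunctionFieldBar (N * q))
    (hf : algebraMap Qb (LaurentSeries Qb) c₁ * (f : LaurentSeries Qb) ∈ h60_Os A)
    (hE : ∀ i, algebraMap Qb (LaurentSeries Qb) c₂ * E i f ∈ h60_Os A) :
    ∃ h : algebraMap Qb (LaurentSeries Qb) (c₁ * c₂ ^ (q - 1)) *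
        ((h67_normAlong (heckeAlphaBar Qb N q) f : modularFunctionFieldBar N) :
          LaurentSeries Qb) ∈ h60_Os A,
      h60_rs A ⟨_, h⟩ = h60_rs A ⟨_, hf⟩ * ∏ i, h60_rs A ⟨_, hE i⟩ := by
  have key := h49_norm_alpha_prod N q hq hqN E hEα hEinj hEne f
  set P : h60_Os A := ⟨_, hf⟩ * ∏ i, (⟨_, hE i⟩ : h60_Os A) with hP
  have hPcoe : (P : LaurentSeries Qb)
      = algebraMap Qb (LaurentSeries Qb) (c₁ * c₂ ^ (q - 1)) *
        ((h67_normAlong (heckeAlphaBar Qb N q) f : modularFunctionFieldBar N) :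
          LaurentSeries Qb) := by
    have key' : ((h67_normAlong (heckeAlphaBar Qb N q) f : modularFunctionFieldBar N) :
        LaurentSeries Qb) = (f : LaurentSeries Qb) * ∏ i, E i f := key
    rw [hP, Subring.coe_mul, SubmonoidClass.coe_finsetProd]
    show algebraMap Qb (LaurentSeries Qb) c₁ * (f : LaurentSeries Qb)
        * ∏ i, (algebraMap Qb (LaurentSeries Qb) c₂ * E i f) = _
    rw [Finset.prod_mul_distrib, Finset.prod_const, Finset.card_univ, Fintype.card_fin,
      key', map_mul, map_pow]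
    ring
  have hmem : algebraMap Qb (LaurentSeries Qb) (c₁ * c₂ ^ (q - 1)) *
      ((h67_normAlong (heckeAlphaBar Qb N q) f : modularFunctionFieldBar N) :
        LaurentSeries Qb) ∈ h60_Os A := by
    rw [← hPcoe]
    exact P.2
  refine ⟨hmem, ?_⟩
  have e1 : (⟨_, hmem⟩ : h60_Os A) = P := Subtype.ext hPcoe.symm
  rw [e1, hP, map_mul, map_prod]

/-! ## The `W`-conjugates -/

/-- **(SR-conj-b)** With involutions `W`, `w`, `W ∘ α = β ∘ w`: if the expansion of `W f` is in
`Os`, then so is that of `W (α (N_α f))`, and `rs (W (α (N_α f))) = rs (W f) ^ q`. -/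
theorem h49_normRes_conj_pow (N q : ℕ) [NeZero N] [NeZero q] [Fact q.Prime] (hqN : q ∣ N)
    (A : ValuationSubring Qb) [CharP (IsLocalRing.ResidueField A) q]
    (w : modularFunctionFieldBar N →+* modularFunctionFieldBar N) (hww : ∀ e, w (w e) = e)
    (W : modularFunctionFieldBar (N * q) →+* modularFunctionFieldBar (N * q))
    (hWW : ∀ f, W (W f) = f)
    (h : ∀ e, W (heckeAlphaBar Qb N q e) = heckeBetaBar Qb N q (w e))
    (f : modularFunctionFieldBar (N * q)) (hf : ((W f : modularFunctionFieldBar (N * q)) :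
      LaurentSeries Qb) ∈ h60_Os A) :
    ∃ h' : ((W (heckeAlphaBar Qb N q (h67_normAlong (heckeAlphaBar Qb N q) f)) :
        modularFunctionFieldBar (N * q)) : LaurentSeries Qb) ∈ h60_Os A,
      h60_rs A ⟨_, h'⟩ = h60_rs A ⟨_, hf⟩ ^ q := by
  have h1 : W (heckeAlphaBar Qb N q (h67_normAlong (heckeAlphaBar Qb N q) f))
      = heckeBetaBar Qb N q (h67_normAlong (heckeBetaBar Qb N q) (W f)) := by
    rw [h, h49_normAlong_conj N q w hww W hWW h f]
  obtain ⟨h2, h3⟩ := h49_normRes_beta_pow N q hqN A (W f) hf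
  have hmem : ((W (heckeAlphaBar Qb N q (h67_normAlong (heckeAlphaBar Qb N q) f)) :
      modularFunctionFieldBar (N * q)) : LaurentSeries Qb) ∈ h60_Os A := by
    rw [h1]
    exact h2
  refine ⟨hmem, ?_⟩
  have e1 : (⟨_, hmem⟩ : h60_Os A) = ⟨_, h2⟩ :=
    Subtype.ext (congrArg (fun x : modularFunctionFieldBar _ => (x : LaurentSeries Qb)) h1)
  rw [e1, h3]

/-- **(SR-conj-a)** With involutions `W`, `w`, `W ∘ α = β ∘ w` and a family `E i` as in
`h49_normRes_alpha`: if `W f` and all `E i (W f)` are in `Os`, so is `w (N_β f)`, and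
`rs (w (N_β f)) = rs (W f) * ∏ i, rs (E i (W f))`. -/
theorem h49_normRes_conj_alpha (N q : ℕ) [NeZero N] [NeZero q] (hq : q.Prime) (hqN : q ∣ N)
    (A : ValuationSubring Qb)
    (w : modularFunctionFieldBar N →+* modularFunctionFieldBar N) (hww : ∀ e, w (w e) = e)
    (W : modularFunctionFieldBar (N * q) →+* modularFunctionFieldBar (N * q))
    (hWW : ∀ f, W (W f) = f)
    (h : ∀ e, W (heckeAlphaBar Qb N q e) = heckeBetaBar Qb N q (w e))
    (E : Fin (q - 1) → modularFunctionFieldBar (N * q) →+* LaurentSeries Qb)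
    (hEα : ∀ (i : Fin (q - 1)) (e : modularFunctionFieldBar N),
      E i (heckeAlphaBar Qb N q e) = (e : LaurentSeries Qb))
    (hEinj : Function.Injective E)
    (hEne : ∀ i : Fin (q - 1), E i ≠ (modularFunctionFieldBar (N * q)).val.toRingHom)
    (f : modularFunctionFieldBar (N * q))
    (hf : ((W f : modularFunctionFieldBar (N * q)) : LaurentSeries Qb) ∈ h60_Os A)
    (hE : ∀ i, E i (W f) ∈ h60_Os A) :
    ∃ h' : ((w (h67_normAlong (heckeBetaBar Qb N q) f) : modularFunctionFieldBar N) :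
        LaurentSeries Qb) ∈ h60_Os A,
      h60_rs A ⟨_, h'⟩ = h60_rs A ⟨_, hf⟩ * ∏ i, h60_rs A ⟨E i (W f), hE i⟩ := by
  have h1 := h49_normAlong_conj' N q w hww W hWW h f
  obtain ⟨h2, h3⟩ := h49_normRes_alpha N q hq hqN A E hEα hEinj hEne (W f) hf hE
  have hmem : ((w (h67_normAlong (heckeBetaBar Qb N q) f) : modularFunctionFieldBar N) :
      LaurentSeries Qb) ∈ h60_Os A := by
    rw [h1]
    exact h2
  refine ⟨hmem, ?_⟩
  have e1 : (⟨_, hmem⟩ : h60_Os A) = ⟨_, h2⟩ :=
    Subtype.ext (congrArg (fun x : modularFunctionFieldBar _ => (x : LaurentSeries Qb)) h1)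
  rw [e1, h3]

end Fermat.Agent.S36
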