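/-
S36 / row I-NR, valuation half (helper98).

`h98_GV A π s n` : the Laurent series `s` has `π`-adic Gauss valuation `n`, i.e. `π ^ (-n) * s` is a
ratio of `A`-integral series with nonzero reduced denominator (`h60_Os A`) and its reduction
(`h60_rs A`) is nonzero.

* calculus: `h98_GV_mul`, `h98_GV_inv`, `h98_GV_pow`, `h98_GV_unique`, `h98_GV_nonneg_iff`,
  `h98_GV_pos_iff`, `h98_GV_add`, `h98_GV_change`, `h98_GV_change'`, `h98_GV_of_scale`;
* valuation of norms (NV), on top of helper49's series lemmas (`S36/h49_NormRes`):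
  `h98_nv_beta_std`, `h98_nv_alpha_std`, `h98_nv_alpha_conj`, `h98_nv_beta_conj`;
* residues of norms: `h98_n3`, `h98_n2`, `h98_n4`.
-/
import Mathlib
import Fermat.Agent.S36.h49_NormRes

set_option autoImplicit false
set_option synthInstance.maxHeartbeats 400000
set_option linter.style.haveILetI false

noncomputable section

open ModularCurve AlgebraicCurve

namespace Fermat.Agent.S36

open Fermat.Agent.S34 Fermat.Agent.S37 Fermat.Agent.S24 Fermat.Agent.S35 Fermat.Agent.S18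
  Fermat.Agent.GAL

/-! ## The Gauss-valuation predicate -/

section GV

variable {K : Type*} [Field K] (A : ValuationSubring K)

/-- `s` has `π`-adic Gauss valuation `n`. -/
def h98_GV (π : K) (s : LaurentSeries K) (n : ℤ) : Prop :=
  ∃ h : algebraMap K (LaurentSeries K) (π ^ (-n)) * s ∈ h60_Os A, h60_rs A ⟨_, h⟩ ≠ 0

variable {A}

theorem h98_GV_ne_zero {π : K} {s : LaurentSeries K} {n : ℤ} (h : h98_GV A π s n) : s ≠ 0 := by
  obtain ⟨h1, h2⟩ := h
  intro h0
  apply h2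
  have : (⟨_, h1⟩ : h60_Os A) = 0 :=
    Subtype.ext (show algebraMap K (LaurentSeries K) (π ^ (-n)) * s = 0 by rw [h0, mul_zero])
  rw [this, map_zero]

/-- membership and reduction transported along an equality of series. -/
theorem h98_rs_congr {s t : LaurentSeries K} (hs : s ∈ h60_Os A) (h : s = t) :
    ∃ ht : t ∈ h60_Os A, h60_rs A ⟨t, ht⟩ = h60_rs A ⟨s, hs⟩ := by
  subst h
  exact ⟨hs, rfl⟩

theorem h98_GV_of_eq {π : K} {s : LaurentSeries K} {n : ℤ} {t : LaurentSeries K}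
    (ht : t ∈ h60_Os A) (hrs : h60_rs A ⟨t, ht⟩ ≠ 0)
    (h : algebraMap K (LaurentSeries K) (π ^ (-n)) * s = t) : h98_GV A π s n := by
  subst h
  exact ⟨ht, hrs⟩

theorem h98_GV_mul {π : K} (hπ : π ≠ 0) {s t : LaurentSeries K} {n m : ℤ}
    (hs : h98_GV A π s n) (ht : h98_GV A π t m) : h98_GV A π (s * t) (n + m) := by
  obtain ⟨h1, h2⟩ := hs
  obtain ⟨h3, h4⟩ := ht
  refine h98_GV_of_eq (t := (algebraMap K (LaurentSeries K) (π ^ (-n)) * s) *
    (algebraMap K (LaurentSeries K) (π ^ (-m)) * t)) (mul_mem h1 h3) ?_ ?_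
  · have e : (⟨_, mul_mem h1 h3⟩ : h60_Os A) = ⟨_, h1⟩ * ⟨_, h3⟩ := rfl
    rw [e, map_mul]
    exact mul_ne_zero h2 h4
  · rw [neg_add, zpow_add₀ hπ, map_mul]
    ring

theorem h98_GV_one (π : K) : h98_GV A π 1 0 := by
  refine h98_GV_of_eq (t := 1) (one_mem _) ?_ (by simp)
  have e : (⟨1, one_mem _⟩ : h60_Os A) = 1 := rfl
  rw [e, map_one]
  exact one_ne_zero

theorem h98_GV_inv {π : K} {s : LaurentSeries K} {n : ℤ}
    (hs : h98_GV A π s n) : h98_GV A π s⁻¹ (-n) := by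
  obtain ⟨h1, h2⟩ := hs
  refine h98_GV_of_eq (t := (algebraMap K (LaurentSeries K) (π ^ (-n)) * s)⁻¹)
    (h60_inv_mem A ⟨_, h1⟩ h2) ?_ ?_
  · rw [h60_rs_inv A ⟨_, h1⟩ h2]
    exact inv_ne_zero h2
  · rw [mul_inv, ← map_inv₀, ← zpow_neg]

theorem h98_GV_pow {π : K} (hπ : π ≠ 0) {s : LaurentSeries K} {n : ℤ}
    (hs : h98_GV A π s n) (e : ℕ) : h98_GV A π (s ^ e) (e * n) := by
  induction e with
  | zero => simpa using h98_GV_one (A := A) π
  | succ e ih =>
    have := h98_GV_mul hπ ih hs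
    rw [pow_succ]
    convert this using 1
    push_cast
    ring

/-- integer powers of a unit of `A` are in `A`. -/
theorem h98_unit_zpow_mem {ε : K} (hε : ε ∈ A) (hε' : ε⁻¹ ∈ A) (z : ℤ) : ε ^ z ∈ A := by
  rcases Int.eq_nat_or_neg z with ⟨k, rfl | rfl⟩
  · rw [zpow_natCast]
    exact pow_mem hε k
  · rw [zpow_neg, zpow_natCast, ← inv_pow]
    exact pow_mem hε' k

/-- for a nonzero non-unit `π ∈ A`: `π ^ d ∈ A` forces `0 ≤ d`. -/
theorem h98_zpow_mem_nonneg {π : K} (hπA : π ∈ A) (hπn : π⁻¹ ∉ A) {d : ℤ}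
    (h : π ^ d ∈ A) : 0 ≤ d := by
  by_contra hd
  rw [not_le] at hd
  obtain ⟨k, hk⟩ : ∃ k : ℕ, d = -((k : ℤ) + 1) := ⟨(-d - 1).toNat, by omega⟩
  apply hπn
  have h1 : π⁻¹ = π ^ k * π ^ d := by
    rcases eq_or_ne π 0 with h0 | h0
    · subst h0
      rw [hk]
      rcases Nat.eq_zero_or_pos k with hk0 | hk0
      · subst hk0
        simp
      · rw [zero_pow (by omega)]
        simp
    · rw [hk, ← zpow_natCast, ← zpow_add₀ h0]
      have : ((k : ℤ) + -((k : ℤ) + 1)) = -1 := by ring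
      rw [this, zpow_neg_one]
  rw [h1]
  exact mul_mem (pow_mem hπA k) h

/-- constants which are units of `A` have valuation `0`. -/
theorem h98_GV_const_unit (π : K) {c : K} (hc : c ∈ A) (hc' : c⁻¹ ∈ A) (hc0 : c ≠ 0) :
    h98_GV A π (algebraMap K (LaurentSeries K) c) 0 := by
  refine h98_GV_of_eq (t := algebraMap K (LaurentSeries K) c) (h60_const_mem A hc) ?_ (by simp)
  rw [h60_rs_const A hc]
  intro h0
  have h1 : IsLocalRing.residue A ⟨c, hc⟩ = 0 := by
    have hinj : Function.Injective (algebraMap (IsLocalRing.ResidueField A)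
        (LaurentSeries (IsLocalRing.ResidueField A))) := FaithfulSMul.algebraMap_injective _ _
    exact hinj (by rw [h0, map_zero])
  rw [IsLocalRing.residue_eq_zero_iff, IsLocalRing.mem_maximalIdeal] at h1
  apply h1
  refine isUnit_iff_exists_inv.mpr ⟨⟨c⁻¹, hc'⟩, ?_⟩
  exact Subtype.ext (mul_inv_cancel₀ hc0)

/-- `π` has valuation `1`. -/
theorem h98_GV_pi {π : K} (hπ : π ≠ 0) : h98_GV A π (algebraMap K (LaurentSeries K) π) 1 := by
  refine h98_GV_of_eq (t := 1) (one_mem _) ?_ ?_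
  · have e : (⟨1, one_mem _⟩ : h60_Os A) = 1 := rfl
    rw [e, map_one]
    exact one_ne_zero
  · rw [← map_mul, zpow_neg_one, inv_mul_cancel₀ hπ, map_one]

/-- scaling by a unit of `A` does not change the valuation. -/
theorem h98_GV_unit_mul {π : K} (hπ : π ≠ 0) {c : K} (hc : c ∈ A) (hc' : c⁻¹ ∈ A) (hc0 : c ≠ 0)
    {s : LaurentSeries K} {n : ℤ} (hs : h98_GV A π s n) :
    h98_GV A π (algebraMap K (LaurentSeries K) c * s) n := by
  have := h98_GV_mul hπ (h98_GV_const_unit π hc hc' hc0) hs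
  rwa [zero_add] at this

/-- **Uniqueness** of the valuation, for a nonzero non-unit `π ∈ A`. -/
theorem h98_GV_unique {π : K} (hπ0 : π ≠ 0) (hπA : π ∈ A) (hπn : π⁻¹ ∉ A)
    {s : LaurentSeries K} {n m : ℤ} (hn : h98_GV A π s n) (hm : h98_GV A π s m) : n = m := by
  have key : ∀ {n m : ℤ}, h98_GV A π s n → h98_GV A π s m → n ≤ m := by
    intro n m hn hm
    obtain ⟨h1, h2⟩ := hn
    obtain ⟨h3, h4⟩ := hm
    have h5 : ((⟨_, h3⟩ : h60_Os A) : LaurentSeries K)
        = algebraMap K (LaurentSeries K) (π ^ (n - m)) *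
          ((⟨_, h1⟩ : h60_Os A) : LaurentSeries K) := by
      show algebraMap K (LaurentSeries K) (π ^ (-m)) * s
        = algebraMap K (LaurentSeries K) (π ^ (n - m)) *
          (algebraMap K (LaurentSeries K) (π ^ (-n)) * s)
      rw [← mul_assoc, ← map_mul, ← zpow_add₀ hπ0]
      congr 3
      ring
    have h6 := h60_inv_mem_A_of_scale A ⟨_, h1⟩ ⟨_, h3⟩ h4 h5
    rw [← zpow_neg] at h6
    have := h98_zpow_mem_nonneg hπA hπn h6
    omega
  exact le_antisymm (key hn hm) (key hm hn)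

/-- `0 ≤ v(s)` iff `s` is in the Gauss ring. -/
theorem h98_GV_nonneg_iff {π : K} (hπ0 : π ≠ 0) (hπA : π ∈ A) (hπn : π⁻¹ ∉ A)
    {s : LaurentSeries K} {n : ℤ} (hn : h98_GV A π s n) : 0 ≤ n ↔ s ∈ h60_Os A := by
  obtain ⟨h1, h2⟩ := hn
  have hs : s = algebraMap K (LaurentSeries K) (π ^ n) *
      (algebraMap K (LaurentSeries K) (π ^ (-n)) * s) := by
    rw [← mul_assoc, ← map_mul, ← zpow_add₀ hπ0, add_neg_cancel, zpow_zero, map_one, one_mul]
  constructor
  · intro h0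
    rw [hs]
    refine mul_mem (h60_const_mem A ?_) h1
    obtain ⟨k, rfl⟩ := Int.eq_ofNat_of_zero_le h0
    rw [zpow_natCast]
    exact pow_mem hπA k
  · intro hmem
    have h5 : ((⟨_, h1⟩ : h60_Os A) : LaurentSeries K)
        = algebraMap K (LaurentSeries K) (π ^ (-n)) * ((⟨s, hmem⟩ : h60_Os A) : LaurentSeries K) :=
      rfl
    have h6 := h60_inv_mem_A_of_scale A ⟨s, hmem⟩ ⟨_, h1⟩ h2 h5
    rw [← zpow_neg, neg_neg] at h6
    exact h98_zpow_mem_nonneg hπA hπn h6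

/-- `0 < v(s)` iff `s` is in the Gauss ring with zero reduction. -/
theorem h98_GV_pos_iff {π : K} (hπ0 : π ≠ 0) (hπA : π ∈ A) (hπn : π⁻¹ ∉ A)
    {s : LaurentSeries K} {n : ℤ} (hn : h98_GV A π s n) :
    0 < n ↔ ∃ h : s ∈ h60_Os A, h60_rs A ⟨s, h⟩ = 0 := by
  have hnn := h98_GV_nonneg_iff hπ0 hπA hπn hn
  obtain ⟨h1, h2⟩ := hn
  have hs : s = algebraMap K (LaurentSeries K) (π ^ n) *
      (algebraMap K (LaurentSeries K) (π ^ (-n)) * s) := by
    rw [← mul_assoc, ← map_mul, ← zpow_add₀ hπ0, add_neg_cancel, zpow_zero, map_one, one_mul]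
  constructor
  · intro h0
    have hmem : s ∈ h60_Os A := hnn.mp h0.le
    refine ⟨hmem, ?_⟩
    obtain ⟨k, rfl⟩ := Int.eq_ofNat_of_zero_le h0.le
    have hk : 0 < k := by exact_mod_cast h0
    have hπk : π ^ (k : ℤ) ∈ A := by
      rw [zpow_natCast]
      exact pow_mem hπA k
    have e : (⟨s, hmem⟩ : h60_Os A)
        = ⟨algebraMap K (LaurentSeries K) (π ^ (k : ℤ)), h60_const_mem A hπk⟩ * ⟨_, h1⟩ :=
      Subtype.ext hs
    rw [e, map_mul, h60_rs_const A hπk]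
    have h3 : IsLocalRing.residue A ⟨π ^ (k : ℤ), hπk⟩ = 0 := by
      rw [IsLocalRing.residue_eq_zero_iff, IsLocalRing.mem_maximalIdeal]
      rintro ⟨v, hv⟩
      apply hπn
      have h4 : π ^ (k : ℤ) * ((v⁻¹ : Aˣ) : K) = 1 := by
        have h5 : ((v : A) : K) = π ^ (k : ℤ) := congrArg Subtype.val hv
        rw [← h5]
        have h6 : (v : A) * ((v⁻¹ : Aˣ) : A) = 1 := Units.mul_inv v
        exact_mod_cast congrArg Subtype.val h6
      have h7 : π⁻¹ = π ^ (k - 1) * ((v⁻¹ : Aˣ) : K) := by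
        have h8 : π * (π ^ (k - 1) * ((v⁻¹ : Aˣ) : K)) = 1 := by
          rw [← mul_assoc, ← pow_succ', Nat.sub_add_cancel hk, ← zpow_natCast]
          exact h4
        exact inv_eq_of_mul_eq_one_right h8
      rw [h7]
      exact mul_mem (pow_mem hπA _) ((v⁻¹ : Aˣ) : A).2
    rw [h3, map_zero, zero_mul]
  · rintro ⟨hmem, hrs⟩
    have h0 : 0 ≤ n := hnn.mpr hmem
    rcases h0.lt_or_eq with h | h
    · exact h
    · exfalso
      apply h2
      have e : (⟨_, h1⟩ : h60_Os A) = ⟨s, hmem⟩ := Subtype.ext (by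
        show algebraMap K (LaurentSeries K) (π ^ (-n)) * s = s
        rw [← h, neg_zero, zpow_zero, map_one, one_mul])
      rw [e, hrs]

/-- change of uniformiser: `ϖ ^ e = π * ε`, `ε` a unit of `A`. -/
theorem h98_GV_change {π ϖ ε : K} {e : ℕ} (hε : ε ∈ A) (hε' : ε⁻¹ ∈ A) (hε0 : ε ≠ 0)
    (hϖ : ϖ ^ e = π * ε) {s : LaurentSeries K} {n : ℤ} (hn : h98_GV A π s n) :
    h98_GV A ϖ s (e * n) := by
  obtain ⟨h1, h2⟩ := hn
  have hz : ε ^ (-n) ∈ A := h98_unit_zpow_mem hε hε' _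
  have hz' : (ε ^ (-n))⁻¹ ∈ A := by
    rw [← zpow_neg]
    exact h98_unit_zpow_mem hε hε' _
  have hz0 : ε ^ (-n) ≠ 0 := zpow_ne_zero _ hε0
  obtain ⟨h3, h4⟩ := h98_GV_const_unit (A := A) (1 : K) hz hz' hz0
  refine h98_GV_of_eq (t := (algebraMap K (LaurentSeries K) ((1 : K) ^ (-(0 : ℤ))) *
      algebraMap K (LaurentSeries K) (ε ^ (-n))) *
      (algebraMap K (LaurentSeries K) (π ^ (-n)) * s)) (mul_mem h3 h1) ?_ ?_
  · have e' : (⟨_, mul_mem h3 h1⟩ : h60_Os A) = ⟨_, h3⟩ * ⟨_, h1⟩ := rfl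
    rw [e', map_mul]
    exact mul_ne_zero h4 h2
  · have h5 : ϖ ^ (-((e : ℤ) * n)) = ε ^ (-n) * π ^ (-n) := by
      rw [show -((e : ℤ) * n) = (e : ℤ) * (-n) by ring, zpow_mul, zpow_natCast, hϖ, mul_zpow,
        mul_comm]
    rw [h5, map_mul]
    simp
    ring

/-- change of uniformiser, converse direction. -/
theorem h98_GV_change' {π ϖ ε : K} {e : ℕ} (hε : ε ∈ A) (hε' : ε⁻¹ ∈ A) (hε0 : ε ≠ 0)
    (hϖ : ϖ ^ e = π * ε) {s : LaurentSeries K} {n : ℤ} (hn : h98_GV A ϖ s (e * n)) :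
    h98_GV A π s n := by
  obtain ⟨h1, h2⟩ := hn
  have hz : ε ^ n ∈ A := h98_unit_zpow_mem hε hε' _
  have hz' : (ε ^ n)⁻¹ ∈ A := by
    rw [← zpow_neg]
    exact h98_unit_zpow_mem hε hε' _
  have hz0 : ε ^ n ≠ 0 := zpow_ne_zero _ hε0
  obtain ⟨h3, h4⟩ := h98_GV_const_unit (A := A) (1 : K) hz hz' hz0
  refine h98_GV_of_eq (t := (algebraMap K (LaurentSeries K) ((1 : K) ^ (-(0 : ℤ))) *
      algebraMap K (LaurentSeries K) (ε ^ n)) *
      (algebraMap K (LaurentSeries K) (ϖ ^ (-((e : ℤ) * n))) * s)) (mul_mem h3 h1) ?_ ?_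
  · have e' : (⟨_, mul_mem h3 h1⟩ : h60_Os A) = ⟨_, h3⟩ * ⟨_, h1⟩ := rfl
    rw [e', map_mul]
    exact mul_ne_zero h4 h2
  · have h5 : ϖ ^ (-((e : ℤ) * n)) = ε ^ (-n) * π ^ (-n) := by
      rw [show -((e : ℤ) * n) = (e : ℤ) * (-n) by ring, zpow_mul, zpow_natCast, hϖ, mul_zpow,
        mul_comm]
    rw [h5, map_mul]
    simp only [neg_zero, zpow_zero, map_one, one_mul]
    rw [← mul_assoc, ← mul_assoc, ← map_mul, ← map_mul, ← zpow_add₀ hε0, add_neg_cancel,
      zpow_zero, one_mul]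

/-- integer powers of `π` as constants. -/
theorem h98_GV_pi_zpow {π : K} (hπ : π ≠ 0) (z : ℤ) :
    h98_GV A π (algebraMap K (LaurentSeries K) (π ^ z)) z := by
  refine h98_GV_of_eq (t := 1) (one_mem _) ?_ ?_
  · have e : (⟨1, one_mem _⟩ : h60_Os A) = 1 := rfl
    rw [e, map_one]
    exact one_ne_zero
  · rw [← map_mul, ← zpow_add₀ hπ, neg_add_cancel, zpow_zero, map_one]

/-- **Ultrametric inequality** for the Gauss valuation. -/
theorem h98_GV_add {π : K} (hπ0 : π ≠ 0) (hπA : π ∈ A) (hπn : π⁻¹ ∉ A)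
    {s t : LaurentSeries K} {n m k : ℤ} (hs : h98_GV A π s n) (ht : h98_GV A π t m)
    (hst : h98_GV A π (s + t) k) : min n m ≤ k := by
  have key : ∀ {s t : LaurentSeries K} {n m k : ℤ}, h98_GV A π s n → h98_GV A π t m →
      h98_GV A π (s + t) k → n ≤ m → n ≤ k := by
    intro s t n m k hs ht hst hnm
    obtain ⟨h1, -⟩ := hs
    obtain ⟨h3, -⟩ := ht
    have h5 : algebraMap K (LaurentSeries K) (π ^ (-n)) * (s + t) ∈ h60_Os A := by
      have e : algebraMap K (LaurentSeries K) (π ^ (-n)) * (s + t)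
          = algebraMap K (LaurentSeries K) (π ^ (-n)) * s
            + algebraMap K (LaurentSeries K) (π ^ (m - n)) *
              (algebraMap K (LaurentSeries K) (π ^ (-m)) * t) := by
        rw [← mul_assoc, ← map_mul, ← zpow_add₀ hπ0, mul_add]
        congr 4
        ring
      rw [e]
      refine add_mem h1 (mul_mem (h60_const_mem A ?_) h3)
      obtain ⟨j, hj⟩ := Int.eq_ofNat_of_zero_le (sub_nonneg.mpr hnm)
      rw [hj, zpow_natCast]
      exact pow_mem hπA j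
    have h6 := h98_GV_mul hπ0 (h98_GV_pi_zpow (A := A) hπ0 (-n)) hst
    have h7 := (h98_GV_nonneg_iff hπ0 hπA hπn h6).mpr h5
    omega
  rcases le_total n m with h | h
  · rw [min_eq_left h]
    exact key hs ht hst h
  · rw [min_eq_right h]
    rw [add_comm] at hst
    exact key ht hs hst h

/-- a scaled membership with nonzero reduction gives the valuation, up to a unit of `A`. -/
theorem h98_GV_of_scale {π c ε : K} {s : LaurentSeries K} {n : ℤ} (hε : ε ∈ A) (hε' : ε⁻¹ ∈ A)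
    (hε0 : ε ≠ 0) (hc : c = π ^ (-n) * ε)
    (h : ∃ h : algebraMap K (LaurentSeries K) c * s ∈ h60_Os A, h60_rs A ⟨_, h⟩ ≠ 0) :
    h98_GV A π s n := by
  obtain ⟨h1, h2⟩ := h
  have hi0 : ε⁻¹ ≠ 0 := inv_ne_zero hε0
  obtain ⟨h3, h4⟩ := h98_GV_const_unit (A := A) (1 : K) hε' (by rwa [inv_inv]) hi0
  refine h98_GV_of_eq (t := (algebraMap K (LaurentSeries K) ((1 : K) ^ (-(0 : ℤ))) *
      algebraMap K (LaurentSeries K) ε⁻¹) *
      (algebraMap K (LaurentSeries K) c * s)) (mul_mem h3 h1) ?_ ?_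
  · have e' : (⟨_, mul_mem h3 h1⟩ : h60_Os A) = ⟨_, h3⟩ * ⟨_, h1⟩ := rfl
    rw [e', map_mul]
    exact mul_ne_zero h4 h2
  · simp only [neg_zero, zpow_zero, map_one, one_mul]
    rw [hc, ← mul_assoc, ← map_mul]
    congr 2
    field_simp

/-- two elements of the Gauss ring with the same reduction differ by an element of zero
reduction. -/
theorem h98_rs_sub_zero {s t : LaurentSeries K} (hs : s ∈ h60_Os A) (ht : t ∈ h60_Os A)
    (h : h60_rs A ⟨s, hs⟩ = h60_rs A ⟨t, ht⟩) :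
    ∃ h' : s - t ∈ h60_Os A, h60_rs A ⟨_, h'⟩ = 0 := by
  refine ⟨sub_mem hs ht, ?_⟩
  have e : (⟨_, sub_mem hs ht⟩ : h60_Os A) = ⟨s, hs⟩ - ⟨t, ht⟩ := rfl
  rw [e, map_sub, h, sub_self]

/-- converse: zero reduction of the difference gives membership and equal reductions. -/
theorem h98_rs_of_sub_zero {s t : LaurentSeries K} (hs : s ∈ h60_Os A)
    (h : ∃ h' : s - t ∈ h60_Os A, h60_rs A ⟨_, h'⟩ = 0) :
    ∃ ht : t ∈ h60_Os A, h60_rs A ⟨t, ht⟩ = h60_rs A ⟨s, hs⟩ := by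
  obtain ⟨h1, h2⟩ := h
  have ht : t ∈ h60_Os A := by
    have : t = s - (s - t) := by ring
    rw [this]
    exact sub_mem hs h1
  refine ⟨ht, ?_⟩
  have e : (⟨t, ht⟩ : h60_Os A) = ⟨s, hs⟩ - ⟨_, h1⟩ := Subtype.ext (by
    show t = s - (s - t)
    ring)
  rw [e, map_sub, h2, sub_zero]

end GV

/-! ## Valuations and residues of the two norms -/

section NV

local notation "Qb" => AlgebraicClosure ℚ

theorem h98_coeffMap_frob_ne_zero {k : Type*} [Field k] (q : ℕ) [Fact q.Prime] [CharP k q]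
    {x : LaurentSeries k} (hx : x ≠ 0) : coeffMap (frobenius k q) x ≠ 0 := by
  intro h
  apply hx
  ext n
  have h1 := congrArg (fun z : LaurentSeries k => z.coeff n) h
  simp only [coeffMap_coeff, HahnSeries.coeff_zero] at h1
  rw [HahnSeries.coeff_zero]
  have h2 : frobenius k q (x.coeff n) = frobenius k q 0 := by rw [h1, map_zero]
  exact frobenius_inj k q h2

/-- **(NV), `β` at the standard expansion**: `wF(N_β u) = q · v₁(u)`. -/
theorem h98_nv_beta_std (N q : ℕ) [NeZero N] [NeZero q] [Fact q.Prime] (hqN : q ∣ N)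
    (A : ValuationSubring Qb) [CharP (IsLocalRing.ResidueField A) q]
    (u : modularFunctionFieldBar (N * q)) (n : ℤ)
    (h : h98_GV A (q : Qb) (u : LaurentSeries Qb) n) :
    h98_GV A (q : Qb)
      ((h67_normAlong (heckeBetaBar Qb N q) u : modularFunctionFieldBar N) : LaurentSeries Qb)
      (q * n) := by
  obtain ⟨h1, h2⟩ := h
  obtain ⟨h3, h4⟩ := h49_normRes_beta_scaled N q hqN A ((q : Qb) ^ (-n)) u h1
  refine h98_GV_of_eq h3 ?_ ?_
  · rw [h4]
    exact h98_coeffMap_frob_ne_zero q h2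
  · congr 2
    rw [← zpow_natCast, ← zpow_mul]
    congr 1
    ring

/-- **(NV), `α` at the standard expansion**: `wF(N_α u) = v₁(u) + v₂(u)`; the second valuation is
read on the family `E i` with a uniformiser `ϖ`, `ϖ ^ (q - 1) = q * ε`. -/
theorem h98_nv_alpha_std (N q : ℕ) [NeZero N] [NeZero q] (hq : q.Prime) (hqN : q ∣ N)
    (A : ValuationSubring Qb)
    (E : Fin (q - 1) → modularFunctionFieldBar (N * q) →+* LaurentSeries Qb)
    (hEα : ∀ (i : Fin (q - 1)) (e : modularFunctionFieldBar N),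
      E i (heckeAlphaBar Qb N q e) = (e : LaurentSeries Qb))
    (hEinj : Function.Injective E)
    (hEne : ∀ i : Fin (q - 1), E i ≠ (modularFunctionFieldBar (N * q)).val.toRingHom)
    (ϖ ε : Qb) (hε : ε ∈ A) (hε' : ε⁻¹ ∈ A) (hε0 : ε ≠ 0) (hϖ : ϖ ^ (q - 1) = (q : Qb) * ε)
    (u : modularFunctionFieldBar (N * q)) (n₁ n₂ : ℤ)
    (h1 : h98_GV A (q : Qb) (u : LaurentSeries Qb) n₁) (h2 : ∀ i, h98_GV A ϖ (E i u) n₂) :
    h98_GV A (q : Qb)
      ((h67_normAlong (heckeAlphaBar Qb N q) u : modularFunctionFieldBar N) : LaurentSeries Qb)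
      (n₁ + n₂) := by
  obtain ⟨h3, h4⟩ := h49_normRes_alpha_scaled N q hq hqN A E hEα hEinj hEne
    ((q : Qb) ^ (-n₁)) (ϖ ^ (-n₂)) u h1.1 (fun i => (h2 i).1)
  have hz : ε ^ (-n₂) ∈ A := h98_unit_zpow_mem hε hε' _
  have hz' : (ε ^ (-n₂))⁻¹ ∈ A := by
    rw [← zpow_neg]
    exact h98_unit_zpow_mem hε hε' _
  have hz0 : ε ^ (-n₂) ≠ 0 := zpow_ne_zero _ hε0
  refine h98_GV_of_scale hz hz' hz0 ?_ ⟨h3, ?_⟩
  · have h5 : (ϖ ^ (-n₂)) ^ (q - 1) = (q : Qb) ^ (-n₂) * ε ^ (-n₂) := by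
      rw [← zpow_natCast, ← zpow_mul, mul_comm, zpow_mul, zpow_natCast, hϖ, mul_zpow]
    have hq0 : (q : Qb) ≠ 0 := Nat.cast_ne_zero.mpr hq.ne_zero
    rw [h5, neg_add, zpow_add₀ hq0]
    ring
  · rw [h4]
    refine mul_ne_zero h1.2 (Finset.prod_ne_zero_iff.mpr fun i _ => (h2 i).2)

/-- **(NV), `α` at the conjugate expansion**: `wV(N_α u) = q · v₃(u)`. -/
theorem h98_nv_alpha_conj (N q : ℕ) [NeZero N] [NeZero q] [Fact q.Prime] (hqN : q ∣ N)
    (A : ValuationSubring Qb) [CharP (IsLocalRing.ResidueField A) q]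
    (w : modularFunctionFieldBar N →+* modularFunctionFieldBar N) (hww : ∀ e, w (w e) = e)
    (W : modularFunctionFieldBar (N * q) →+* modularFunctionFieldBar (N * q))
    (hWW : ∀ f, W (W f) = f)
    (h : ∀ e, W (heckeAlphaBar Qb N q e) = heckeBetaBar Qb N q (w e))
    (u : modularFunctionFieldBar (N * q)) (n : ℤ)
    (hu : h98_GV A (q : Qb) ((W u : modularFunctionFieldBar (N * q)) : LaurentSeries Qb) n) :
    h98_GV A (q : Qb)
      ((w (h67_normAlong (heckeAlphaBar Qb N q) u) : modularFunctionFieldBar N) :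
        LaurentSeries Qb) (q * n) := by
  rw [← h49_normAlong_conj N q w hww W hWW h u]
  exact h98_nv_beta_std N q hqN A (W u) n hu

/-- **(NV), `β` at the conjugate expansion**: `wV(N_β u) = v₃(u) + v₂(u)`. -/
theorem h98_nv_beta_conj (N q : ℕ) [NeZero N] [NeZero q] (hq : q.Prime) (hqN : q ∣ N)
    (A : ValuationSubring Qb)
    (w : modularFunctionFieldBar N →+* modularFunctionFieldBar N) (hww : ∀ e, w (w e) = e)
    (W : modularFunctionFieldBar (N * q) →+* modularFunctionFieldBar (N * q))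
    (hWW : ∀ f, W (W f) = f)
    (h : ∀ e, W (heckeAlphaBar Qb N q e) = heckeBetaBar Qb N q (w e))
    (E : Fin (q - 1) → modularFunctionFieldBar (N * q) →+* LaurentSeries Qb)
    (hEα : ∀ (i : Fin (q - 1)) (e : modularFunctionFieldBar N),
      E i (heckeAlphaBar Qb N q e) = (e : LaurentSeries Qb))
    (hEinj : Function.Injective E)
    (hEne : ∀ i : Fin (q - 1), E i ≠ (modularFunctionFieldBar (N * q)).val.toRingHom)
    (ϖ ε : Qb) (hε : ε ∈ A) (hε' : ε⁻¹ ∈ A) (hε0 : ε ≠ 0) (hϖ : ϖ ^ (q - 1) = (q : Qb) * ε)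
    (u : modularFunctionFieldBar (N * q)) (n₃ n₂ : ℤ)
    (h1 : h98_GV A (q : Qb) ((W u : modularFunctionFieldBar (N * q)) : LaurentSeries Qb) n₃)
    (h2 : ∀ i, h98_GV A ϖ (E i (W u)) n₂) :
    h98_GV A (q : Qb)
      ((w (h67_normAlong (heckeBetaBar Qb N q) u) : modularFunctionFieldBar N) :
        LaurentSeries Qb) (n₃ + n₂) := by
  rw [h49_normAlong_conj' N q w hww W hWW h u]
  exact h98_nv_alpha_std N q hq hqN A E hEα hEinj hEne ϖ ε hε hε' hε0 hϖ (W u) n₃ n₂ h1 h2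

/-- **(N3)** `β (N_β u) ≡ u ^ q` at the standard expansion (`P₁` purely inseparable over `Z_F`
along `β`). -/
theorem h98_n3 (N q : ℕ) [NeZero N] [NeZero q] [Fact q.Prime] (hqN : q ∣ N)
    (A : ValuationSubring Qb) [CharP (IsLocalRing.ResidueField A) q]
    (u : modularFunctionFieldBar (N * q)) (hu : (u : LaurentSeries Qb) ∈ h60_Os A) :
    ∃ h : ((heckeBetaBar Qb N q (h67_normAlong (heckeBetaBar Qb N q) u) - u ^ q :
        modularFunctionFieldBar (N * q)) : LaurentSeries Qb) ∈ h60_Os A,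
      h60_rs A ⟨_, h⟩ = 0 := by
  obtain ⟨h1, h2⟩ := h49_normRes_beta_pow N q hqN A u hu
  have h3 : h60_rs A ⟨_, h1⟩ = h60_rs A ⟨_, pow_mem hu q⟩ := by
    rw [h2, ← map_pow]
    rfl
  exact h98_rs_sub_zero h1 (pow_mem hu q) h3

/-- **(N2)** `α (N_α u) ≡ u ^ q` at the conjugate expansion (`P₃` purely inseparable over `Z_V`
along `α`). -/
theorem h98_n2 (N q : ℕ) [NeZero N] [NeZero q] [Fact q.Prime] (hqN : q ∣ N)
    (A : ValuationSubring Qb) [CharP (IsLocalRing.ResidueField A) q]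
    (w : modularFunctionFieldBar N →+* modularFunctionFieldBar N) (hww : ∀ e, w (w e) = e)
    (W : modularFunctionFieldBar (N * q) →+* modularFunctionFieldBar (N * q))
    (hWW : ∀ f, W (W f) = f)
    (h : ∀ e, W (heckeAlphaBar Qb N q e) = heckeBetaBar Qb N q (w e))
    (u : modularFunctionFieldBar (N * q))
    (hu : ((W u : modularFunctionFieldBar (N * q)) : LaurentSeries Qb) ∈ h60_Os A) :
    ∃ h' : ((W (heckeAlphaBar Qb N q (h67_normAlong (heckeAlphaBar Qb N q) u) - u ^ q) :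
        modularFunctionFieldBar (N * q)) : LaurentSeries Qb) ∈ h60_Os A,
      h60_rs A ⟨_, h'⟩ = 0 := by
  obtain ⟨h1, h2⟩ := h49_normRes_conj_pow N q hqN A w hww W hWW h u hu
  have h3 : h60_rs A ⟨_, h1⟩ = h60_rs A ⟨_, pow_mem hu q⟩ := by
    rw [h2, ← map_pow]
    rfl
  have h4 := h98_rs_sub_zero h1 (pow_mem hu q) h3
  have e : ((W (heckeAlphaBar Qb N q (h67_normAlong (heckeAlphaBar Qb N q) u) - u ^ q) :
      modularFunctionFieldBar (N * q)) : LaurentSeries Qb)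
      = ((W (heckeAlphaBar Qb N q (h67_normAlong (heckeAlphaBar Qb N q) u)) :
          modularFunctionFieldBar (N * q)) : LaurentSeries Qb)
        - ((W u : modularFunctionFieldBar (N * q)) : LaurentSeries Qb) ^ q := by
    rw [map_sub, map_pow]
    rfl
  rw [e]
  exact h4

/-- **(N4)** the two primes over `Z_F` along `α`: if `u ≡ α g` on the family `E i`, then
`α (N_α u) ≡ u * α g ^ (q - 1)` at the standard expansion. -/
theorem h98_n4 (N q : ℕ) [NeZero N] [NeZero q] (hq : q.Prime) (hqN : q ∣ N)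
    (A : ValuationSubring Qb)
    (E : Fin (q - 1) → modularFunctionFieldBar (N * q) →+* LaurentSeries Qb)
    (hEα : ∀ (i : Fin (q - 1)) (e : modularFunctionFieldBar N),
      E i (heckeAlphaBar Qb N q e) = (e : LaurentSeries Qb))
    (hEinj : Function.Injective E)
    (hEne : ∀ i : Fin (q - 1), E i ≠ (modularFunctionFieldBar (N * q)).val.toRingHom)
    (u : modularFunctionFieldBar (N * q)) (hu : (u : LaurentSeries Qb) ∈ h60_Os A)
    (hE : ∀ i, E i u ∈ h60_Os A) (g : modularFunctionFieldBar N)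
    (hg : ∀ i, ∃ h : E i (u - heckeAlphaBar Qb N q g) ∈ h60_Os A, h60_rs A ⟨_, h⟩ = 0) :
    ∃ h : ((heckeAlphaBar Qb N q (h67_normAlong (heckeAlphaBar Qb N q) u)
        - u * heckeAlphaBar Qb N q g ^ (q - 1) : modularFunctionFieldBar (N * q)) :
          LaurentSeries Qb) ∈ h60_Os A,
      h60_rs A ⟨_, h⟩ = 0 := by
  obtain ⟨h1, h2⟩ := h49_normRes_alpha N q hq hqN A E hEα hEinj hEne u hu hE
  -- the expansion of `g` is in the Gauss ring, with the reduction of every `E i u`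
  have hgi : ∀ i, ∃ ht : (g : LaurentSeries Qb) ∈ h60_Os A,
      h60_rs A ⟨_, ht⟩ = h60_rs A ⟨E i u, hE i⟩ := by
    intro i
    refine h98_rs_of_sub_zero (hE i) ?_
    obtain ⟨h3, h4⟩ := hg i
    have e : E i (u - heckeAlphaBar Qb N q g) = E i u - (g : LaurentSeries Qb) := by
      rw [map_sub, hEα]
    rw [e] at h3
    exact ⟨h3, by
      have e' : (⟨_, h3⟩ : h60_Os A) = ⟨E i (u - heckeAlphaBar Qb N q g), (hg i).1⟩ :=
        Subtype.ext e.symm
      rw [e', (hg i).2]⟩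
  have hq1 : 0 < q - 1 := Nat.sub_pos_of_lt hq.one_lt
  have hgmem : (g : LaurentSeries Qb) ∈ h60_Os A := (hgi ⟨0, hq1⟩).1
  have hgrs : ∀ i, h60_rs A ⟨E i u, hE i⟩ = h60_rs A ⟨_, hgmem⟩ := fun i => ((hgi i).2).symm
  have hmem2 : (u : LaurentSeries Qb) * (g : LaurentSeries Qb) ^ (q - 1) ∈ h60_Os A :=
    mul_mem hu (pow_mem hgmem _)
  have h3 : h60_rs A ⟨_, h1⟩ = h60_rs A ⟨_, hmem2⟩ := by
    rw [h2]
    have e : (⟨_, hmem2⟩ : h60_Os A) = ⟨_, hu⟩ * ⟨_, hgmem⟩ ^ (q - 1) := rfl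
    rw [e, map_mul, map_pow]
    congr 1
    rw [Finset.prod_congr rfl (fun i _ => hgrs i), Finset.prod_const, Finset.card_univ,
      Fintype.card_fin]
  have h4 := h98_rs_sub_zero h1 hmem2 h3
  have e : ((heckeAlphaBar Qb N q (h67_normAlong (heckeAlphaBar Qb N q) u)
        - u * heckeAlphaBar Qb N q g ^ (q - 1) : modularFunctionFieldBar (N * q)) :
          LaurentSeries Qb)
      = ((h67_normAlong (heckeAlphaBar Qb N q) u : modularFunctionFieldBar N) : LaurentSeries Qb)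
        - (u : LaurentSeries Qb) * (g : LaurentSeries Qb) ^ (q - 1) := by
    push_cast
    rw [coe_heckeAlphaBar, coe_heckeAlphaBar]
  rw [e]
  exact h4

end NV

end Fermat.Agent.S36
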