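import Mathlib

/-!
# S36 / row VAL : the fundamental equality in valuation form (helper99)

Mathlib-only.  `R` is a "discrete valuation ring with uniformiser `π`" (every nonzero element is
`π ^ k * unit`), `F` a field containing `R` with `Module.rank R F ≤ n`, and `w c` (`c : κ`, `κ`
finite) are pairwise distinct normalised `ℤ`-valued valuations of `F` (given on nonzero elements)
which are `≥ 0` on `R`, with `w c π = e c > 0`, and with `f c` elements of `F` whose residues at
`w c` are independent over `R / π`.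

If `n ≤ ∑ c, e c * f c` then

* `h99_fund_basis` : `W = {y | ∀ c, 0 ≤ w c y}` is a free `R`-module on the `∑ c, e c * f c`
  explicit elements `t c * b c j * z c ^ i`;
* `h99_sum_ef_eq` : `∑ c, e c * f c = n`;
* `h99_integral_of_nonneg` : every element of `W` is integral over `R`
  (so the listed valuations are all the valuations of `F` over `π`);
* `h99_nonneg_of_integral` : the converse (valuation rings are integrally closed).

The proof uses the weak approximation theorem of Mathlib for the absolute values `2 ^ (- w c)`.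
-/

set_option autoImplicit false

namespace Fermat.Agent.S36

/-- A `ℤ`-valued valuation of a field, specified on the nonzero elements. -/
structure h99_IsVal {F : Type*} [Field F] (w : F → ℤ) : Prop where
  map_mul : ∀ f g : F, f ≠ 0 → g ≠ 0 → w (f * g) = w f + w g
  map_add : ∀ f g : F, f ≠ 0 → g ≠ 0 → f + g ≠ 0 → min (w f) (w g) ≤ w (f + g)

/-- `f = 0` or `m ≤ w f`. -/
def h99_Ge {F : Type*} [Field F] (w : F → ℤ) (m : ℤ) (f : F) : Prop := f = 0 ∨ m ≤ w f

section calculus

variable {F : Type*} [Field F] {w : F → ℤ}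

theorem h99_w_one (hw : h99_IsVal w) : w 1 = 0 := by
  have h := hw.map_mul 1 1 one_ne_zero one_ne_zero
  rw [mul_one] at h
  omega

theorem h99_w_neg_one (hw : h99_IsVal w) : w (-1) = 0 := by
  have h := hw.map_mul (-1) (-1) (by simp) (by simp)
  rw [neg_mul_neg, mul_one, h99_w_one hw] at h
  omega

theorem h99_w_neg (hw : h99_IsVal w) {f : F} (hf : f ≠ 0) : w (-f) = w f := by
  have h := hw.map_mul (-1) f (by simp) hf
  rw [neg_one_mul, h99_w_neg_one hw] at h
  omega

theorem h99_w_inv (hw : h99_IsVal w) {f : F} (hf : f ≠ 0) : w f⁻¹ = - w f := by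
  have h := hw.map_mul f f⁻¹ hf (inv_ne_zero hf)
  rw [mul_inv_cancel₀ hf, h99_w_one hw] at h
  omega

theorem h99_w_pow (hw : h99_IsVal w) {f : F} (hf : f ≠ 0) (n : ℕ) : w (f ^ n) = n * w f := by
  induction n with
  | zero => simp [h99_w_one hw]
  | succ n ih =>
    rw [pow_succ, hw.map_mul _ _ (pow_ne_zero n hf) hf, ih]
    push_cast
    ring

theorem h99_w_zpow (hw : h99_IsVal w) {f : F} (hf : f ≠ 0) (n : ℤ) : w (f ^ n) = n * w f := by
  cases n with
  | ofNat n => simpa using h99_w_pow hw hf n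
  | negSucc n =>
    rw [zpow_negSucc, h99_w_inv hw (pow_ne_zero _ hf), h99_w_pow hw hf]
    push_cast [Int.negSucc_eq]
    ring

theorem h99_Ge.mono {m m' : ℤ} {f : F} (h : h99_Ge w m f) (hm : m' ≤ m) : h99_Ge w m' f :=
  h.imp id fun h => hm.trans h

theorem h99_ge_add (hw : h99_IsVal w) {m : ℤ} {f g : F} (hf : h99_Ge w m f)
    (hg : h99_Ge w m g) : h99_Ge w m (f + g) := by
  by_cases hf0 : f = 0
  · subst hf0; rwa [zero_add]
  by_cases hg0 : g = 0
  · subst hg0; rwa [add_zero]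
  by_cases hfg : f + g = 0
  · exact Or.inl hfg
  · exact Or.inr ((le_min (hf.resolve_left hf0) (hg.resolve_left hg0)).trans
      (hw.map_add f g hf0 hg0 hfg))

theorem h99_ge_mul (hw : h99_IsVal w) {m m' : ℤ} {f g : F} (hf : h99_Ge w m f)
    (hg : h99_Ge w m' g) : h99_Ge w (m + m') (f * g) := by
  by_cases hf0 : f = 0
  · subst hf0; exact Or.inl (zero_mul g)
  by_cases hg0 : g = 0
  · subst hg0; exact Or.inl (mul_zero f)
  · right
    rw [hw.map_mul f g hf0 hg0]
    exact add_le_add (hf.resolve_left hf0) (hg.resolve_left hg0)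

theorem h99_ge_sum (hw : h99_IsVal w) {ι : Type*} (s : Finset ι) {m : ℤ} (f : ι → F)
    (h : ∀ i ∈ s, h99_Ge w m (f i)) : h99_Ge w m (∑ i ∈ s, f i) := by
  classical
  induction s using Finset.induction_on with
  | empty => exact Or.inl (by simp)
  | insert a s ha ih =>
    rw [Finset.sum_insert ha]
    exact h99_ge_add hw (h a (Finset.mem_insert_self a s))
      (ih fun i hi => h i (Finset.mem_insert_of_mem hi))

/-- A term of strictly smallest valuation dominates. -/
theorem h99_w_add_eq (hw : h99_IsVal w) {f g : F} (hf : f ≠ 0) (hg : h99_Ge w (w f + 1) g) :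
    f + g ≠ 0 ∧ w (f + g) = w f := by
  by_cases hg0 : g = 0
  · subst hg0; simp [hf]
  have hg' := hg.resolve_left hg0
  have hne : f + g ≠ 0 := by
    intro h
    have h2 : g = -f := by
      rw [add_comm] at h
      exact eq_neg_of_add_eq_zero_left h
    rw [h2, h99_w_neg hw hf] at hg'
    omega
  refine ⟨hne, le_antisymm ?_ ?_⟩
  · by_contra hlt
    push Not at hlt
    have h1 := hw.map_add (f + g) (-g) hne (neg_ne_zero.mpr hg0) (by simpa using hf)
    rw [add_neg_cancel_right, h99_w_neg hw hg0] at h1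
    have h2 : w f + 1 ≤ min (w (f + g)) (w g) := le_min (by omega) hg'
    omega
  · have h1 := hw.map_add f g hf hg0 hne
    have h2 : w f ≤ min (w f) (w g) := le_min le_rfl (by omega)
    omega

open Classical in
/-- The absolute value `2 ^ (- w)`. -/
noncomputable def h99_abv (hw : h99_IsVal w) : AbsoluteValue F ℝ where
  toFun f := if f = 0 then 0 else (2 : ℝ) ^ (- w f)
  map_mul' f g := by
    by_cases hf : f = 0
    · simp [hf]
    by_cases hg : g = 0
    · simp [hg]
    simp only [hf, hg, mul_eq_zero, or_self, if_false]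
    rw [hw.map_mul f g hf hg, neg_add, zpow_add₀ (by norm_num)]
  nonneg' f := by
    split_ifs
    · exact le_rfl
    · positivity
  eq_zero' f := by
    constructor
    · intro h
      by_contra hf
      simp only [hf, if_false] at h
      exact (zpow_ne_zero _ (by norm_num)) h
    · intro h
      simp [h]
  add_le' f g := by
    by_cases hf : f = 0
    · simp [hf]
    by_cases hg : g = 0
    · simp [hg]
    by_cases hfg : f + g = 0
    · simp only [hfg, hf, hg, if_true, if_false]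
      positivity
    simp only [hfg, hf, hg, if_false]
    have h := hw.map_add f g hf hg hfg
    rcases le_total (w f) (w g) with hle | hle
    · rw [min_eq_left hle] at h
      calc (2 : ℝ) ^ (- w (f + g)) ≤ 2 ^ (- w f) :=
            zpow_le_zpow_right₀ (by norm_num) (by omega)
        _ ≤ 2 ^ (- w f) + 2 ^ (- w g) := le_add_of_nonneg_right (by positivity)
    · rw [min_eq_right hle] at h
      calc (2 : ℝ) ^ (- w (f + g)) ≤ 2 ^ (- w g) :=
            zpow_le_zpow_right₀ (by norm_num) (by omega)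
        _ ≤ 2 ^ (- w f) + 2 ^ (- w g) := le_add_of_nonneg_left (by positivity)

theorem h99_abv_apply (hw : h99_IsVal w) {f : F} (hf : f ≠ 0) :
    h99_abv hw f = (2 : ℝ) ^ (- w f) := by
  classical
  change (if f = 0 then (0 : ℝ) else (2 : ℝ) ^ (- w f)) = _
  rw [if_neg hf]

theorem h99_abv_lt_one (hw : h99_IsVal w) {f : F} (hf : f ≠ 0) :
    h99_abv hw f < 1 ↔ 0 < w f := by
  rw [h99_abv_apply hw hf, zpow_lt_one_iff_right₀ (by norm_num)]
  omega

theorem h99_one_lt_abv (hw : h99_IsVal w) {f : F} (hf : f ≠ 0) :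
    1 < h99_abv hw f ↔ w f < 0 := by
  rw [h99_abv_apply hw hf, one_lt_zpow_iff_right₀ (by norm_num)]
  omega

/-- Equivalent normalised valuations are equal. -/
theorem h99_eq_of_isEquiv {w w' : F → ℤ} (hw : h99_IsVal w) (hw' : h99_IsVal w')
    (hz : ∃ z : F, z ≠ 0 ∧ w z = 1) (hz' : ∃ z : F, z ≠ 0 ∧ w' z = 1)
    (h : (h99_abv hw).IsEquiv (h99_abv hw')) : ∀ g : F, g ≠ 0 → w g = w' g := by
  obtain ⟨z, hz0, hz1⟩ := hz
  obtain ⟨z', hz0', hz1'⟩ := hz'
  have pos : ∀ x : F, x ≠ 0 → (0 < w x ↔ 0 < w' x) := fun x hx => by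
    rw [← h99_abv_lt_one hw hx, ← h99_abv_lt_one hw' hx]
    exact h.lt_one_iff
  have neg : ∀ x : F, x ≠ 0 → (w x < 0 ↔ w' x < 0) := fun x hx => by
    rw [← h99_one_lt_abv hw hx, ← h99_one_lt_abv hw' hx]
    exact h.one_lt_iff
  have zero : ∀ x : F, x ≠ 0 → w x = 0 → w' x = 0 := fun x hx h0 => by
    have h1 := pos x hx
    have h2 := neg x hx
    omega
  have key : ∀ g : F, g ≠ 0 → w' g = w g * w' z := by
    intro g hg
    have hzp : z ^ (- w g) ≠ 0 := zpow_ne_zero _ hz0
    have h0 : w (g * z ^ (- w g)) = 0 := by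
      rw [hw.map_mul _ _ hg hzp, h99_w_zpow hw hz0, hz1]
      ring
    have h1 := zero _ (mul_ne_zero hg hzp) h0
    rw [hw'.map_mul _ _ hg hzp, h99_w_zpow hw' hz0] at h1
    linarith
  have hm : 0 < w' z := (pos z hz0).mp (by omega)
  have h1 := key z' hz0'
  rw [hz1'] at h1
  have h2 : w' z = 1 := Int.eq_one_of_dvd_one hm.le ⟨w z', by rw [h1]; ring⟩
  intro g hg
  rw [key g hg, h2, mul_one]

end calculus

section approx

variable {F : Type*} [Field F] {κ : Type*} [Finite κ]

/-- Separating elements for finitely many distinct normalised valuations. -/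
theorem h99_exists_sep (w : κ → F → ℤ) (hw : ∀ c, h99_IsVal (w c))
    (hnorm : ∀ c, ∃ z : F, z ≠ 0 ∧ w c z = 1)
    (hne : ∀ c c', c ≠ c' → ∃ g : F, g ≠ 0 ∧ w c g ≠ w c' g) (c : κ) :
    ∃ a : F, a ≠ 0 ∧ w c a < 0 ∧ ∀ j, j ≠ c → 0 < w j a := by
  have hnt : ∀ i, (h99_abv (hw i)).IsNontrivial := fun i => by
    obtain ⟨z, hz0, hz1⟩ := hnorm i
    exact ⟨z, hz0, ((h99_abv_lt_one (hw i) hz0).mpr (by omega)).ne⟩
  have hpw : Pairwise fun i j => ¬ (h99_abv (hw i)).IsEquiv (h99_abv (hw j)) := by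
    intro i j hij heq
    obtain ⟨g, hg, hgne⟩ := hne i j hij
    exact hgne (h99_eq_of_isEquiv (hw i) (hw j) (hnorm i) (hnorm j) heq g hg)
  obtain ⟨a, ha, haj⟩ := AbsoluteValue.exists_one_lt_lt_one_pi_of_not_isEquiv hnt hpw c
  have ha0 : a ≠ 0 := by
    rintro rfl
    rw [map_zero] at ha
    linarith
  exact ⟨a, ha0, (h99_one_lt_abv (hw c) ha0).mp ha,
    fun j hj => (h99_abv_lt_one (hw j) ha0).mp (haj j hj)⟩

/-- Approximate idempotents: a unit at `c`, of valuation `≥ M` at the other valuations. -/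
theorem h99_exists_idem (w : κ → F → ℤ) (hw : ∀ c, h99_IsVal (w c))
    (hnorm : ∀ c, ∃ z : F, z ≠ 0 ∧ w c z = 1)
    (hne : ∀ c c', c ≠ c' → ∃ g : F, g ≠ 0 ∧ w c g ≠ w c' g) (c : κ) (M : ℤ) :
    ∃ t : F, t ≠ 0 ∧ w c t = 0 ∧ ∀ j, j ≠ c → M ≤ w j t := by
  obtain ⟨a, ha0, hac, haj⟩ := h99_exists_sep w hw hnorm hne c
  obtain ⟨N, hN1, hNM⟩ : ∃ N : ℕ, (1 : ℤ) ≤ N ∧ M ≤ N :=
    ⟨(max M 1).toNat, by omega, by omega⟩
  have haN : a ^ N ≠ 0 := pow_ne_zero _ ha0
  have hwN : ∀ j, w j (a ^ N) = N * w j a := fun j => h99_w_pow (hw j) ha0 N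
  have h1 := h99_w_add_eq (hw c) haN (g := 1)
    (Or.inr (by rw [h99_w_one (hw c), hwN]; nlinarith))
  refine ⟨a ^ N / (a ^ N + 1), div_ne_zero haN h1.1, ?_, ?_⟩
  · rw [div_eq_mul_inv, (hw c).map_mul _ _ haN (inv_ne_zero h1.1), h99_w_inv (hw c) h1.1, h1.2]
    ring
  · intro j hj
    have hj' := haj j hj
    have h2 := h99_w_add_eq (hw j) one_ne_zero (g := a ^ N)
      (Or.inr (by rw [h99_w_one (hw j), hwN]; nlinarith))
    have h3 : a ^ N + 1 ≠ 0 := by rw [add_comm]; exact h2.1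
    rw [div_eq_mul_inv, (hw j).map_mul _ _ haN (inv_ne_zero h3), h99_w_inv (hw j) h3,
      add_comm (a ^ N) 1, h2.2, h99_w_one (hw j), hwN]
    nlinarith

end approx

section main

variable {R : Type*} [CommRing R] [IsDomain R] {F : Type*} [Field F] [Algebra R F]
  {κ : Type*} [Fintype κ]

theorem h99_ge_neg {w : F → ℤ} (hw : h99_IsVal w) {m : ℤ} {f : F} (hf : h99_Ge w m f) :
    h99_Ge w m (-f) := by
  by_cases hf0 : f = 0
  · left; simp [hf0]
  · right
    rw [h99_w_neg hw hf0]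
    exact hf.resolve_left hf0

omit [IsDomain R] [Fintype κ] in
theorem h99_ge_algebraMap (w : κ → F → ℤ)
    (hR : ∀ c (r : R), algebraMap R F r ≠ 0 → 0 ≤ w c (algebraMap R F r)) (c : κ) (r : R) :
    h99_Ge (w c) 0 (algebraMap R F r) := by
  by_cases h : algebraMap R F r = 0
  · exact Or.inl h
  · exact Or.inr (hR c r h)

omit [Fintype κ] in
/-- Independence modulo `π W` implies `R`-linear independence. -/
theorem h99_linIndep_of_ind (w : κ → F → ℤ) (hinj : Function.Injective (algebraMap R F))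
    (π : R) (hπ0 : π ≠ 0) (hπu : ¬ IsUnit π)
    (hDVR : ∀ r : R, r ≠ 0 → ∃ (k : ℕ) (u : Rˣ), r = π ^ k * u)
    (e : κ → ℕ) {X : Type*} [Fintype X] (g : X → F)
    (hind : ∀ r : X → R, (∀ c, h99_Ge (w c) (e c) (∑ x, r x • g x)) → ∀ x, π ∣ r x) :
    LinearIndependent R g := by
  have hπF : algebraMap R F π ≠ 0 := fun h => hπ0 (hinj (by rw [h, map_zero]))
  have key : ∀ k : ℕ, ∀ r : X → R, ∑ x, r x • g x = 0 → ∀ x, π ^ k ∣ r x := by
    intro k
    induction k with
    | zero => intro r _ x; simp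
    | succ k ih =>
      intro r hr x
      have h1 := hind r (fun c => Or.inl hr)
      choose s hs using h1
      have h2 : ∑ x, s x • g x = 0 := by
        have h3 : algebraMap R F π * ∑ x, s x • g x = 0 := by
          rw [Finset.mul_sum, ← hr]
          refine Finset.sum_congr rfl fun x _ => ?_
          rw [hs x, Algebra.smul_def, Algebra.smul_def, map_mul, mul_assoc]
        exact (mul_eq_zero.mp h3).resolve_left hπF
      obtain ⟨v, hv⟩ := ih s h2 x
      exact ⟨v, by rw [hs x, hv, pow_succ]; ring⟩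
  rw [Fintype.linearIndependent_iff]
  intro r hr x
  by_contra hx
  obtain ⟨m, u, hu⟩ := hDVR (r x) hx
  obtain ⟨v, hv⟩ := key (m + 1) r hr x
  apply hπu
  have h4 : π ^ m * (π * v) = π ^ m * u := by rw [← hu, hv, pow_succ]; ring
  have h5 : π * v = u := mul_left_cancel₀ (pow_ne_zero m hπ0) h4
  exact IsUnit.of_mul_eq_one (v * ↑u⁻¹) (by rw [← mul_assoc, h5]; simp)

omit [Fintype κ] in
/-- Independence modulo `π W` of at least `rank` elements of `W` implies that they span `W`. -/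
theorem h99_mem_span_of_ind (w : κ → F → ℤ) (hw : ∀ c, h99_IsVal (w c))
    (hinj : Function.Injective (algebraMap R F))
    (hR : ∀ c (r : R), algebraMap R F r ≠ 0 → 0 ≤ w c (algebraMap R F r))
    (π : R) (hπ0 : π ≠ 0) (hπu : ¬ IsUnit π)
    (hDVR : ∀ r : R, r ≠ 0 → ∃ (k : ℕ) (u : Rˣ), r = π ^ k * u)
    (e : κ → ℕ) (he : ∀ c, w c (algebraMap R F π) = e c)
    {X : Type*} [Fintype X] (g : X → F)
    (hind : ∀ r : X → R, (∀ c, h99_Ge (w c) (e c) (∑ x, r x • g x)) → ∀ x, π ∣ r x)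
    (n : ℕ) (hrank : Module.rank R F ≤ n) (hcard : n ≤ Fintype.card X)
    (y : F) (hy : ∀ c, h99_Ge (w c) 0 y) :
    y ∈ Submodule.span R (Set.range g) := by
  classical
  have hπF : algebraMap R F π ≠ 0 := fun h => hπ0 (hinj (by rw [h, map_zero]))
  have hli := h99_linIndep_of_ind w hinj π hπ0 hπu hDVR e g hind
  let v : Option X → F := fun o => o.elim y g
  have hdep : ¬ LinearIndependent R v := by
    intro hv
    have h1 := hv.cardinal_lift_le_rank
    have h2 := Cardinal.lift_le.mpr hrank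
    have h3 := h1.trans h2
    rw [Cardinal.mk_fintype, Fintype.card_option] at h3
    simp only [Cardinal.lift_natCast] at h3
    have h4 : Fintype.card X + 1 ≤ n := by exact_mod_cast h3
    omega
  obtain ⟨r, hr, o, ho⟩ := Fintype.not_linearIndependent_iff.mp hdep
  rw [Fintype.sum_option] at hr
  have hr' : r none • y + ∑ x, r (some x) • g x = 0 := hr
  have h0 : r none ≠ 0 := by
    intro h
    rw [h, zero_smul, zero_add] at hr'
    have h1 := Fintype.linearIndependent_iff.mp hli (fun x => r (some x)) hr'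
    cases o with
    | none => exact ho h
    | some x => exact ho (h1 x)
  obtain ⟨m, u, hu⟩ := hDVR (r none) h0
  have step : ∀ k : ℕ, k ≤ m → ∃ s : X → R, (∀ x, r (some x) = π ^ k * s x) ∧
      (π ^ (m - k) * (u : R)) • y + ∑ x, s x • g x = 0 := by
    intro k
    induction k with
    | zero =>
      intro _
      refine ⟨fun x => r (some x), fun x => by simp, ?_⟩
      rw [Nat.sub_zero, ← hu]
      exact hr'
    | succ k ih =>
      intro hk
      obtain ⟨s, hs, hrel⟩ := ih (by omega)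
      have h5 : ∀ c, h99_Ge (w c) (e c) (∑ x, s x • g x) := by
        intro c
        have h6 : ∑ x, s x • g x = - ((π ^ (m - k) * (u : R)) • y) :=
          eq_neg_of_add_eq_zero_right hrel
        rw [h6]
        apply h99_ge_neg (hw c)
        have h7 : π ^ (m - k) * (u : R) = π * (π ^ (m - k - 1) * (u : R)) := by
          rw [← mul_assoc, ← pow_succ']
          congr 2
          omega
        rw [h7, Algebra.smul_def, map_mul, mul_assoc]
        have h8 := h99_ge_mul (hw c)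
          (Or.inr (he c).ge : h99_Ge (w c) (e c) (algebraMap R F π))
          (h99_ge_mul (hw c) (h99_ge_algebraMap w hR c (π ^ (m - k - 1) * (u : R))) (hy c))
        simpa using h8
      have h6 := hind s h5
      choose s' hs' using h6
      refine ⟨s', fun x => by rw [hs x, hs' x, pow_succ]; ring, ?_⟩
      have h9 : algebraMap R F π *
          ((π ^ (m - (k + 1)) * (u : R)) • y + ∑ x, s' x • g x) = 0 := by
        rw [← hrel, mul_add, Finset.mul_sum]
        congr 1
        · rw [Algebra.smul_def, Algebra.smul_def, ← mul_assoc, ← map_mul, ← mul_assoc,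
            ← pow_succ']
          congr 4
          omega
        · refine Finset.sum_congr rfl fun x _ => ?_
          rw [hs' x, Algebra.smul_def, Algebra.smul_def, map_mul, mul_assoc]
      exact (mul_eq_zero.mp h9).resolve_left hπF
  obtain ⟨s, _, hrel⟩ := step m le_rfl
  rw [Nat.sub_self, pow_zero, one_mul] at hrel
  have h10 : y = (-(↑u⁻¹ : R)) • ∑ x, s x • g x := by
    have h11 : ∑ x, s x • g x = - ((u : R) • y) := eq_neg_of_add_eq_zero_right hrel
    rw [h11, neg_smul, smul_neg, neg_neg, smul_smul, Units.inv_mul, one_smul]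
  rw [h10]
  exact Submodule.smul_mem _ _ (Submodule.sum_mem _ fun x _ =>
    Submodule.smul_mem _ _ (Submodule.subset_span ⟨x, rfl⟩))

omit [IsDomain R] in
/-- The explicit family `t c * b c j * z c ^ i` lies in `W` and is independent modulo `π W`. -/
theorem h99_exists_family (w : κ → F → ℤ) (hw : ∀ c, h99_IsVal (w c))
    (hR : ∀ c (r : R), algebraMap R F r ≠ 0 → 0 ≤ w c (algebraMap R F r))
    (π : R) (hDVR : ∀ r : R, r ≠ 0 → ∃ (k : ℕ) (u : Rˣ), r = π ^ k * u)
    (e : κ → ℕ) (he : ∀ c, w c (algebraMap R F π) = e c)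
    (hnorm : ∀ c, ∃ z : F, z ≠ 0 ∧ w c z = 1)
    (hne : ∀ c c', c ≠ c' → ∃ g : F, g ≠ 0 ∧ w c g ≠ w c' g)
    (f : κ → ℕ) (b : (c : κ) → Fin (f c) → F)
    (hb : ∀ c (r : Fin (f c) → R), (∃ j, IsUnit (r j)) →
      ∑ j, r j • b c j ≠ 0 ∧ w c (∑ j, r j • b c j) = 0) :
    ∃ g : (Σ c : κ, Fin (f c) × Fin (e c)) → F,
      (∀ x, g x ≠ 0) ∧ (∀ x c, 0 ≤ w c (g x)) ∧
      ∀ r : (Σ c : κ, Fin (f c) × Fin (e c)) → R,
        (∀ c, h99_Ge (w c) (e c) (∑ x, r x • g x)) → ∀ x, π ∣ r x := by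
  classical
  choose z hz0 hz1 using hnorm
  have hb0 : ∀ c j, b c j ≠ 0 ∧ w c (b c j) = 0 := by
    intro c j
    have h := hb c (Pi.single j 1) ⟨j, by simp⟩
    have h2 : ∑ j', (Pi.single j (1 : R) : Fin (f c) → R) j' • b c j' = b c j := by
      rw [Finset.sum_eq_single j]
      · simp
      · intro j' _ hj'
        simp [Pi.single_eq_of_ne hj']
      · intro h
        exact absurd (Finset.mem_univ j) h
    rwa [h2] at h
  let Bd : (Σ c : κ, Fin (f c) × Fin (e c)) → κ → ℤ := fun x c' =>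
    e c' - w c' (b x.1 x.2.1) - (x.2.2 : ℕ) * w c' (z x.1)
  let M : ℤ := ∑ x, ∑ c', |Bd x c'|
  have hM : ∀ x c', Bd x c' ≤ M := by
    intro x c'
    calc Bd x c' ≤ |Bd x c'| := le_abs_self _
      _ ≤ ∑ c', |Bd x c'| :=
          Finset.single_le_sum (f := fun c' => |Bd x c'|) (fun _ _ => abs_nonneg _)
            (Finset.mem_univ c')
      _ ≤ M :=
          Finset.single_le_sum (f := fun x => ∑ c', |Bd x c'|)
            (fun _ _ => Finset.sum_nonneg fun _ _ => abs_nonneg _) (Finset.mem_univ x)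
  choose t ht0 ht1 ht2 using fun c =>
    h99_exists_idem w hw (fun c => ⟨z c, hz0 c, hz1 c⟩) hne c M
  let g : (Σ c : κ, Fin (f c) × Fin (e c)) → F := fun x =>
    t x.1 * b x.1 x.2.1 * z x.1 ^ (x.2.2 : ℕ)
  have hg0 : ∀ x, g x ≠ 0 := fun x =>
    mul_ne_zero (mul_ne_zero (ht0 _) (hb0 _ _).1) (pow_ne_zero _ (hz0 _))
  have hgw : ∀ x c', w c' (g x) =
      w c' (t x.1) + w c' (b x.1 x.2.1) + (x.2.2 : ℕ) * w c' (z x.1) := by
    intro x c'
    show w c' (t x.1 * b x.1 x.2.1 * z x.1 ^ (x.2.2 : ℕ)) = _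
    rw [(hw c').map_mul _ _ (mul_ne_zero (ht0 _) (hb0 _ _).1) (pow_ne_zero _ (hz0 _)),
      (hw c').map_mul _ _ (ht0 _) (hb0 _ _).1, h99_w_pow (hw c') (hz0 _)]
  have hg1 : ∀ x, w x.1 (g x) = (x.2.2 : ℕ) := by
    intro x
    rw [hgw, ht1, (hb0 _ _).2, hz1]
    ring
  have hg2 : ∀ x c', c' ≠ x.1 → (e c' : ℤ) ≤ w c' (g x) := by
    intro x c' hc
    rw [hgw]
    have h1 := ht2 x.1 c' hc
    have h2 : (e c' : ℤ) - w c' (b x.1 x.2.1) - (x.2.2 : ℕ) * w c' (z x.1) ≤ M := hM x c'
    linarith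
  refine ⟨g, hg0, ?_, ?_⟩
  · intro x c
    by_cases hc : c = x.1
    · subst hc
      rw [hg1]
      exact Int.natCast_nonneg _
    · exact (Int.natCast_nonneg _).trans (hg2 x c hc)
  · intro r hsum
    have main : ∀ c (i : ℕ) (hi : i < e c) (j : Fin (f c)), π ∣ r ⟨c, (j, ⟨i, hi⟩)⟩ := by
      intro c i
      induction i using Nat.strong_induction_on with
      | _ i IH =>
        intro hi j0
        by_contra hj0
        have hunit : IsUnit (r ⟨c, (j0, ⟨i, hi⟩)⟩) := by
          have hne0 : r ⟨c, (j0, ⟨i, hi⟩)⟩ ≠ 0 := fun h => hj0 (h ▸ dvd_zero π)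
          obtain ⟨k, u, hu⟩ := hDVR _ hne0
          cases k with
          | zero =>
            rw [hu, pow_zero, one_mul]
            exact u.isUnit
          | succ k => exact absurd ⟨π ^ k * u, by rw [hu, pow_succ]; ring⟩ hj0
        obtain ⟨hS0, hS1⟩ := hb c (fun j => r ⟨c, (j, ⟨i, hi⟩)⟩) ⟨j0, hunit⟩
        have hMain0 : t c * z c ^ i * (∑ j, r ⟨c, (j, ⟨i, hi⟩)⟩ • b c j) ≠ 0 :=
          mul_ne_zero (mul_ne_zero (ht0 c) (pow_ne_zero _ (hz0 c))) hS0
        have hMainw : w c (t c * z c ^ i * (∑ j, r ⟨c, (j, ⟨i, hi⟩)⟩ • b c j)) = i := by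
          rw [(hw c).map_mul _ _ (mul_ne_zero (ht0 c) (pow_ne_zero _ (hz0 c))) hS0,
            (hw c).map_mul _ _ (ht0 c) (pow_ne_zero _ (hz0 c)), h99_w_pow (hw c) (hz0 c),
            ht1, hz1, hS1]
          ring
        let P : (Σ c : κ, Fin (f c) × Fin (e c)) → Prop := fun x => x.1 = c ∧ (x.2.2 : ℕ) = i
        have hsplit : ∑ x, r x • g x =
            t c * z c ^ i * (∑ j, r ⟨c, (j, ⟨i, hi⟩)⟩ • b c j) +
              ∑ x ∈ Finset.univ.filter (fun x => ¬ P x), r x • g x := by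
          rw [← Finset.sum_filter_add_sum_filter_not Finset.univ P]
          congr 1
          rw [Finset.mul_sum]
          symm
          refine Finset.sum_bij
            (fun j _ => (⟨c, (j, ⟨i, hi⟩)⟩ : Σ c : κ, Fin (f c) × Fin (e c))) ?_ ?_ ?_ ?_
          · intro j _
            simp [P]
          · intro j _ j' _ h
            simpa using h
          · rintro ⟨c', j, i'⟩ hx
            simp only [Finset.mem_filter, Finset.mem_univ, true_and, P] at hx
            obtain ⟨h1, h2⟩ := hx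
            subst h1
            refine ⟨j, Finset.mem_univ _, ?_⟩
            have h3 : (⟨i, hi⟩ : Fin (e c')) = i' := Fin.ext h2.symm
            rw [h3]
          · intro j _
            show t c * z c ^ i * (r ⟨c, (j, ⟨i, hi⟩)⟩ • b c j) =
              r ⟨c, (j, ⟨i, hi⟩)⟩ • (t c * b c j * z c ^ i)
            rw [Algebra.smul_def, Algebra.smul_def]
            ring
        have hrest : h99_Ge (w c) ((i : ℤ) + 1)
            (∑ x ∈ Finset.univ.filter (fun x => ¬ P x), r x • g x) := by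
          refine h99_ge_sum (hw c) _ _ fun x hx => ?_
          simp only [Finset.mem_filter, Finset.mem_univ, true_and, P, not_and] at hx
          rw [Algebra.smul_def]
          by_cases hc : x.1 = c
          · obtain ⟨c', j, i'⟩ := x
            simp only at hc hx
            subst hc
            have hi' := hx rfl
            have hgi : w c' (g ⟨c', (j, i')⟩) = (i' : ℕ) := hg1 ⟨c', (j, i')⟩
            rcases lt_or_gt_of_ne hi' with hlt | hgt
            · obtain ⟨s, hs⟩ := IH (i' : ℕ) hlt i'.2 j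
              have hs' : r ⟨c', (j, i')⟩ = π * s := hs
              rw [hs', map_mul, mul_assoc]
              have h8 := h99_ge_mul (hw c')
                (Or.inr (he c').ge : h99_Ge (w c') (e c') (algebraMap R F π))
                (h99_ge_mul (hw c') (h99_ge_algebraMap w hR c' s)
                  (Or.inr (hgi ▸ Int.natCast_nonneg _) : h99_Ge (w c') 0 (g ⟨c', (j, i')⟩)))
              exact h8.mono (by omega)
            · have h8 := h99_ge_mul (hw c') (h99_ge_algebraMap w hR c' (r ⟨c', (j, i')⟩))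
                (Or.inr hgi.ge : h99_Ge (w c') ((i' : ℕ) : ℤ) (g ⟨c', (j, i')⟩))
              exact h8.mono (by omega)
          · have h8 := h99_ge_mul (hw c) (h99_ge_algebraMap w hR c (r x))
              (Or.inr (hg2 x c (fun h => hc h.symm)) : h99_Ge (w c) (e c) (g x))
            exact h8.mono (by omega)
        obtain ⟨hT0, hTw⟩ := h99_w_add_eq (hw c) hMain0 (by rw [hMainw]; exact hrest)
        rw [← hsplit] at hT0 hTw
        rcases hsum c with h | h
        · exact hT0 h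
        · rw [hTw, hMainw] at h
          omega
    rintro ⟨c, j, i⟩
    exact main c i i.2 j

/-- **Fundamental equality, valuation form**: `W = {y | ∀ c, 0 ≤ w c y}` is a free `R`-module on
the `∑ c, e c * f c` elements of an explicit family. -/
theorem h99_fund_basis (w : κ → F → ℤ) (hw : ∀ c, h99_IsVal (w c))
    (hinj : Function.Injective (algebraMap R F))
    (hR : ∀ c (r : R), algebraMap R F r ≠ 0 → 0 ≤ w c (algebraMap R F r))
    (π : R) (hπ0 : π ≠ 0) (hπu : ¬ IsUnit π)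
    (hDVR : ∀ r : R, r ≠ 0 → ∃ (k : ℕ) (u : Rˣ), r = π ^ k * u)
    (e : κ → ℕ) (he : ∀ c, w c (algebraMap R F π) = e c)
    (hnorm : ∀ c, ∃ z : F, z ≠ 0 ∧ w c z = 1)
    (hne : ∀ c c', c ≠ c' → ∃ g : F, g ≠ 0 ∧ w c g ≠ w c' g)
    (f : κ → ℕ) (b : (c : κ) → Fin (f c) → F)
    (hb : ∀ c (r : Fin (f c) → R), (∃ j, IsUnit (r j)) →
      ∑ j, r j • b c j ≠ 0 ∧ w c (∑ j, r j • b c j) = 0)
    (n : ℕ) (hrank : Module.rank R F ≤ n) (hn : n ≤ ∑ c, e c * f c) :
    ∃ g : (Σ c : κ, Fin (f c) × Fin (e c)) → F,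
      LinearIndependent R g ∧ (∀ x, g x ≠ 0) ∧ (∀ x c, 0 ≤ w c (g x)) ∧
      ∀ y : F, (∀ c, h99_Ge (w c) 0 y) → y ∈ Submodule.span R (Set.range g) := by
  obtain ⟨g, hg0, hgW, hind⟩ := h99_exists_family w hw hR π hDVR e he hnorm hne f b hb
  have hcard : n ≤ Fintype.card (Σ c : κ, Fin (f c) × Fin (e c)) := by
    rw [Fintype.card_sigma]
    simp only [Fintype.card_prod, Fintype.card_fin]
    refine hn.trans (le_of_eq (Finset.sum_congr rfl fun c _ => mul_comm _ _))
  exact ⟨g, h99_linIndep_of_ind w hinj π hπ0 hπu hDVR e g hind, hg0, hgW,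
    fun y hy => h99_mem_span_of_ind w hw hinj hR π hπ0 hπu hDVR e he g hind n hrank hcard y hy⟩

/-- Under the hypotheses of the fundamental equality, `∑ e f = n`. -/
theorem h99_sum_ef_eq (w : κ → F → ℤ) (hw : ∀ c, h99_IsVal (w c))
    (hinj : Function.Injective (algebraMap R F))
    (hR : ∀ c (r : R), algebraMap R F r ≠ 0 → 0 ≤ w c (algebraMap R F r))
    (π : R) (hπ0 : π ≠ 0) (hπu : ¬ IsUnit π)
    (hDVR : ∀ r : R, r ≠ 0 → ∃ (k : ℕ) (u : Rˣ), r = π ^ k * u)
    (e : κ → ℕ) (he : ∀ c, w c (algebraMap R F π) = e c)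
    (hnorm : ∀ c, ∃ z : F, z ≠ 0 ∧ w c z = 1)
    (hne : ∀ c c', c ≠ c' → ∃ g : F, g ≠ 0 ∧ w c g ≠ w c' g)
    (f : κ → ℕ) (b : (c : κ) → Fin (f c) → F)
    (hb : ∀ c (r : Fin (f c) → R), (∃ j, IsUnit (r j)) →
      ∑ j, r j • b c j ≠ 0 ∧ w c (∑ j, r j • b c j) = 0)
    (n : ℕ) (hrank : Module.rank R F ≤ n) (hn : n ≤ ∑ c, e c * f c) :
    ∑ c, e c * f c = n := by
  obtain ⟨g, hli, -⟩ := h99_fund_basis w hw hinj hR π hπ0 hπu hDVR e he hnorm hne f b hb n hrank hn
  refine le_antisymm ?_ hn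
  have h1 := hli.cardinal_lift_le_rank
  have h3 := h1.trans (Cardinal.lift_le.mpr hrank)
  rw [Cardinal.mk_fintype, Fintype.card_sigma] at h3
  simp only [Fintype.card_prod, Fintype.card_fin, Cardinal.lift_natCast] at h3
  have h4 : ∑ c, f c * e c ≤ n := by exact_mod_cast h3
  exact (le_of_eq (Finset.sum_congr rfl fun c _ => mul_comm _ _)).trans h4

/-- The ring `W = {y | ∀ c, 0 ≤ w c y}` as an `R`-subalgebra of `F`. -/
def h99_W (w : κ → F → ℤ) (hw : ∀ c, h99_IsVal (w c))
    (hR : ∀ c (r : R), algebraMap R F r ≠ 0 → 0 ≤ w c (algebraMap R F r)) : Subalgebra R F where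
  carrier := {y | ∀ c, h99_Ge (w c) 0 y}
  mul_mem' := fun ha hb c => by simpa using h99_ge_mul (hw c) (ha c) (hb c)
  add_mem' := fun ha hb c => h99_ge_add (hw c) (ha c) (hb c)
  one_mem' := fun c => Or.inr (h99_w_one (hw c)).ge
  zero_mem' := fun _ => Or.inl rfl
  algebraMap_mem' := fun r c => h99_ge_algebraMap w hR c r

omit [IsDomain R] [Fintype κ] in
theorem h99_mem_W (w : κ → F → ℤ) (hw : ∀ c, h99_IsVal (w c))
    (hR : ∀ c (r : R), algebraMap R F r ≠ 0 → 0 ≤ w c (algebraMap R F r)) (y : F) :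
    y ∈ h99_W w hw hR ↔ ∀ c, h99_Ge (w c) 0 y := Iff.rfl

/-- **(VAL-EXACT)**: an element which is integral for all the listed valuations is integral
over `R`. -/
theorem h99_integral_of_nonneg (w : κ → F → ℤ) (hw : ∀ c, h99_IsVal (w c))
    (hinj : Function.Injective (algebraMap R F))
    (hR : ∀ c (r : R), algebraMap R F r ≠ 0 → 0 ≤ w c (algebraMap R F r))
    (π : R) (hπ0 : π ≠ 0) (hπu : ¬ IsUnit π)
    (hDVR : ∀ r : R, r ≠ 0 → ∃ (k : ℕ) (u : Rˣ), r = π ^ k * u)
    (e : κ → ℕ) (he : ∀ c, w c (algebraMap R F π) = e c)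
    (hnorm : ∀ c, ∃ z : F, z ≠ 0 ∧ w c z = 1)
    (hne : ∀ c c', c ≠ c' → ∃ g : F, g ≠ 0 ∧ w c g ≠ w c' g)
    (f : κ → ℕ) (b : (c : κ) → Fin (f c) → F)
    (hb : ∀ c (r : Fin (f c) → R), (∃ j, IsUnit (r j)) →
      ∑ j, r j • b c j ≠ 0 ∧ w c (∑ j, r j • b c j) = 0)
    (n : ℕ) (hrank : Module.rank R F ≤ n) (hn : n ≤ ∑ c, e c * f c)
    (y : F) (hy : ∀ c, h99_Ge (w c) 0 y) : IsIntegral R y := by
  obtain ⟨g, -, -, hgW, hspan⟩ :=
    h99_fund_basis w hw hinj hR π hπ0 hπu hDVR e he hnorm hne f b hb n hrank hn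
  have hfg : (h99_W w hw hR).toSubmodule.FG := by
    have h1 : (h99_W w hw hR).toSubmodule = Submodule.span R (Set.range g) := by
      refine le_antisymm (fun y hy => hspan y hy) (Submodule.span_le.mpr ?_)
      rintro _ ⟨x, rfl⟩
      exact fun c => Or.inr (hgW x c)
    rw [h1]
    exact Submodule.fg_span (Set.finite_range g)
  exact IsIntegral.of_mem_of_fg (h99_W w hw hR) hfg y hy

omit [IsDomain R] [Fintype κ] in
/-- Valuation rings are integrally closed: the converse of `h99_integral_of_nonneg`. -/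
theorem h99_nonneg_of_integral {w : F → ℤ} (hw : h99_IsVal w)
    (hR : ∀ r : R, algebraMap R F r ≠ 0 → 0 ≤ w (algebraMap R F r)) {y : F} (hy0 : y ≠ 0)
    (hy : IsIntegral R y) : 0 ≤ w y := by
  obtain ⟨p, hp, hpy⟩ := hy
  by_contra hneg
  push Not at hneg
  rw [hp.as_sum] at hpy
  simp only [Polynomial.eval₂_add, Polynomial.eval₂_pow, Polynomial.eval₂_X,
    Polynomial.eval₂_finsetSum, Polynomial.eval₂_mul, Polynomial.eval₂_C] at hpy
  have hyd : y ^ p.natDegree ≠ 0 := pow_ne_zero _ hy0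
  have hrest : h99_Ge w (w (y ^ p.natDegree) + 1)
      (∑ i ∈ Finset.range p.natDegree, algebraMap R F (p.coeff i) * y ^ i) := by
    refine h99_ge_sum hw _ _ fun i hi => ?_
    have hi' := Finset.mem_range.mp hi
    by_cases hc : algebraMap R F (p.coeff i) = 0
    · left
      rw [hc, zero_mul]
    · right
      rw [hw.map_mul _ _ hc (pow_ne_zero _ hy0), h99_w_pow hw hy0, h99_w_pow hw hy0]
      have h1 := hR _ hc
      have h2 : (0 : ℤ) ≤ ((p.natDegree : ℤ) - i - 1) * (-1 - w y) :=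
        mul_nonneg (by omega) (by omega)
      nlinarith
  exact (h99_w_add_eq hw hyd hrest).1 hpy

omit [IsDomain R] in
/-- Fraction-field form of the rank hypothesis. -/
theorem h99_rank_le_of_finrank (K : Type*) [Field K] [Algebra R K] [IsFractionRing R K]
    [Algebra K F] [IsScalarTower R K F] [FiniteDimensional K F] :
    Module.rank R F ≤ (Module.finrank K F : Cardinal) := by
  rw [← IsFractionRing.rank_right_eq R K F, Module.finrank_eq_rank]

/-- A discrete valuation ring with uniformiser `π` satisfies the hypothesis `hDVR`. -/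
theorem h99_hDVR_of_dvr [IsDiscreteValuationRing R] {π : R} (hπ : Irreducible π) :
    ∀ r : R, r ≠ 0 → ∃ (k : ℕ) (u : Rˣ), r = π ^ k * u := fun r hr => by
  obtain ⟨k, u, hu⟩ := IsDiscreteValuationRing.eq_unit_mul_pow_irreducible hr hπ
  exact ⟨k, u, by rw [hu, mul_comm]⟩

/-- **(VAL-EXACT)**, iff form: the integral closure of `R` in `F` is `{y | ∀ c, 0 ≤ w c y}`. -/
theorem h99_integral_iff (w : κ → F → ℤ) (hw : ∀ c, h99_IsVal (w c))
    (hinj : Function.Injective (algebraMap R F))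
    (hR : ∀ c (r : R), algebraMap R F r ≠ 0 → 0 ≤ w c (algebraMap R F r))
    (π : R) (hπ0 : π ≠ 0) (hπu : ¬ IsUnit π)
    (hDVR : ∀ r : R, r ≠ 0 → ∃ (k : ℕ) (u : Rˣ), r = π ^ k * u)
    (e : κ → ℕ) (he : ∀ c, w c (algebraMap R F π) = e c)
    (hnorm : ∀ c, ∃ z : F, z ≠ 0 ∧ w c z = 1)
    (hne : ∀ c c', c ≠ c' → ∃ g : F, g ≠ 0 ∧ w c g ≠ w c' g)
    (f : κ → ℕ) (b : (c : κ) → Fin (f c) → F)
    (hb : ∀ c (r : Fin (f c) → R), (∃ j, IsUnit (r j)) →
      ∑ j, r j • b c j ≠ 0 ∧ w c (∑ j, r j • b c j) = 0)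
    (n : ℕ) (hrank : Module.rank R F ≤ n) (hn : n ≤ ∑ c, e c * f c) (y : F) :
    IsIntegral R y ↔ ∀ c, h99_Ge (w c) 0 y := by
  refine ⟨fun hy c => ?_, fun hy =>
    h99_integral_of_nonneg w hw hinj hR π hπ0 hπu hDVR e he hnorm hne f b hb n hrank hn y hy⟩
  by_cases hy0 : y = 0
  · exact Or.inl hy0
  · exact Or.inr (h99_nonneg_of_integral (hw c) (hR c) hy0 hy)

omit [IsDomain R] [Fintype κ] in
/-- The residue-degree witnesses from a reduction map: if `ρ` is a ring homomorphism on a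
subring `O` of the valuation ring of `w` which kills the elements of positive valuation, and the
`ρ (b j)` are independent with coefficients in `ρ R`, then the hypothesis `hb` of the fundamental
equality holds for the `b j`. -/
theorem h99_hb_of_red {w : F → ℤ} {L : Type*} [Field L] (O : Subring F)
    (hO : ∀ y : F, y ∈ O → h99_Ge w 0 y) (ρ : O →+* L)
    (hker : ∀ y : O, (y : F) ≠ 0 → 0 < w y → ρ y = 0)
    (hRO : ∀ r : R, algebraMap R F r ∈ O)
    {m : ℕ} (b : Fin m → O)
    (hindep : ∀ a : Fin m → R, ∑ j, ρ ⟨algebraMap R F (a j), hRO (a j)⟩ * ρ (b j) = 0 →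
      ∀ j, ρ ⟨algebraMap R F (a j), hRO (a j)⟩ = 0)
    (r : Fin m → R) (hr : ∃ j, IsUnit (r j)) :
    ∑ j, r j • (b j : F) ≠ 0 ∧ w (∑ j, r j • (b j : F)) = 0 := by
  obtain ⟨j0, hj0⟩ := hr
  have hmem : ∑ j, r j • (b j : F) ∈ O := by
    refine Subring.sum_mem O fun j _ => ?_
    rw [Algebra.smul_def]
    exact O.mul_mem (hRO _) (b j).2
  have h1 : (⟨∑ j, r j • (b j : F), hmem⟩ : O) =
      ∑ j, (⟨algebraMap R F (r j), hRO (r j)⟩ : O) * b j := by
    apply Subtype.ext
    rw [AddSubmonoidClass.coe_finsetSum]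
    show ∑ j, r j • (b j : F) = ∑ j, algebraMap R F (r j) * (b j : F)
    exact Finset.sum_congr rfl fun j _ => Algebra.smul_def (r j) (b j : F)
  have hρ : ρ ⟨∑ j, r j • (b j : F), hmem⟩ =
      ∑ j, ρ ⟨algebraMap R F (r j), hRO (r j)⟩ * ρ (b j) := by
    rw [h1, map_sum]
    simp_rw [map_mul]
  have hne : ρ ⟨∑ j, r j • (b j : F), hmem⟩ ≠ 0 := by
    intro h
    rw [hρ] at h
    have h2 := hindep r h j0
    obtain ⟨u, hu⟩ := hj0
    have h3 : ρ ⟨algebraMap R F (r j0), hRO _⟩ * ρ ⟨algebraMap R F (↑u⁻¹ : R), hRO _⟩ = 1 := by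
      rw [← map_mul, ← map_one ρ]
      congr 1
      apply Subtype.ext
      show algebraMap R F (r j0) * algebraMap R F (↑u⁻¹ : R) = 1
      rw [← map_mul, ← hu, Units.mul_inv, map_one]
    rw [h2, zero_mul] at h3
    exact zero_ne_one h3
  have hsum0 : ∑ j, r j • (b j : F) ≠ 0 := by
    intro h0
    apply hne
    have h4 : (⟨∑ j, r j • (b j : F), hmem⟩ : O) = 0 := Subtype.ext h0
    rw [h4, map_zero]
  refine ⟨hsum0, ?_⟩
  have hge := (hO _ hmem).resolve_left hsum0
  by_contra hw0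
  exact hne (hker ⟨_, hmem⟩ hsum0 (lt_of_le_of_ne hge (Ne.symm hw0)))

end main

end Fermat.Agent.S36
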