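/-
S36 / row I-VAL, generic core (helper98): the `ℤ`-valued Gauss valuation attached to an embedding
`E : F →+* K((t))` on a subfield `F0 ⊆ F` on which every nonzero element can be scaled by a power
of `π` to a unit of the Gauss ring (`h98_GV`, `S36/h98_NRVal`).

* `h98_gv E F0 π hsc : F0 → ℤ`, `h98_gv_spec`, `h98_gv_eq` (uniqueness);
* `h98_gv_isVal : h99_IsVal (h98_gv ..)` (multiplicative + ultrametric on nonzero elements);
* `h98_gv_nonneg_iff`, `h98_gv_pos_iff`;
* `h98_gvRing` (the subring `{f | E f ∈ h60_Os A}` of `F0`), `h98_gvRed` (its reduction map),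
  `h98_gvRing_ge`, `h98_gvRed_ker`, `h98_gvRed_ne_zero` : the inputs of `h99_hb_of_red`.
-/
import Mathlib
import Fermat.Agent.S36.h98_NRVal
import Fermat.Agent.S36.h99_FundEq

set_option autoImplicit false
set_option synthInstance.maxHeartbeats 400000

noncomputable section

open ModularCurve

namespace Fermat.Agent.S36

open Fermat.Agent.S34 Fermat.Agent.S18

section GaussFun

variable {K : Type*} [Field K] {A : ValuationSubring K} {F : Type*} [Field F]
  (E : F →+* LaurentSeries K) (F0 : Subfield F) (π : K)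
  (hsc : ∀ f : F0, f ≠ 0 → ∃ n : ℤ, h98_GV A π (E (f : F)) n)

/-- The Gauss valuation of `f ∈ F0` read through the embedding `E` (value `0` at `0`). -/
def h98_gv : F0 → ℤ := fun f => by
  classical
  exact if h : f = 0 then 0 else (hsc f h).choose

theorem h98_gv_zero : h98_gv E F0 π hsc 0 = 0 := by
  classical
  unfold h98_gv
  rw [dif_pos rfl]

theorem h98_gv_spec (f : F0) (hf : f ≠ 0) :
    h98_GV A π (E (f : F)) (h98_gv E F0 π hsc f) := by
  classical
  unfold h98_gv
  rw [dif_neg hf]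
  exact (hsc f hf).choose_spec

variable {E F0 π}

/-- nonzero elements of `F0` have nonzero expansion. -/
theorem h98_gv_E_ne_zero {f : F0} (hf : f ≠ 0) : E (f : F) ≠ 0 := by
  intro h
  have h1 : (f : F) = 0 := by
    by_contra h2
    exact (map_ne_zero E).mpr h2 h
  exact hf (Subtype.ext h1)

variable (hπ0 : π ≠ 0) (hπA : π ∈ A) (hπn : π⁻¹ ∉ A)

include hπ0 hπA hπn in
/-- **Uniqueness**: any exponent with the defining property is the value. -/
theorem h98_gv_eq (f : F0) (n : ℤ) (h : h98_GV A π (E (f : F)) n) :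
    h98_gv E F0 π hsc f = n := by
  have hf : f ≠ 0 := by
    rintro rfl
    exact h98_GV_ne_zero h (by simp)
  exact h98_GV_unique hπ0 hπA hπn (h98_gv_spec E F0 π hsc f hf) h

include hπ0 hπA hπn in
/-- The Gauss valuation is a `ℤ`-valued valuation on the nonzero elements of `F0`. -/
theorem h98_gv_isVal : h99_IsVal (h98_gv E F0 π hsc) where
  map_mul f g hf hg := by
    refine h98_gv_eq hsc hπ0 hπA hπn (f * g) _ ?_
    have := h98_GV_mul hπ0 (h98_gv_spec E F0 π hsc f hf) (h98_gv_spec E F0 π hsc g hg)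
    rw [← map_mul] at this
    exact this
  map_add f g hf hg hfg := by
    have h3 := h98_gv_spec E F0 π hsc (f + g) hfg
    have e : E ((f + g : F0) : F) = E (f : F) + E (g : F) := by
      rw [← map_add]
      rfl
    rw [e] at h3
    exact h98_GV_add hπ0 hπA hπn (h98_gv_spec E F0 π hsc f hf) (h98_gv_spec E F0 π hsc g hg) h3

include hπ0 hπA hπn in
theorem h98_gv_nonneg_iff (f : F0) (hf : f ≠ 0) :
    0 ≤ h98_gv E F0 π hsc f ↔ E (f : F) ∈ h60_Os A :=
  h98_GV_nonneg_iff hπ0 hπA hπn (h98_gv_spec E F0 π hsc f hf)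

include hπ0 hπA hπn in
theorem h98_gv_pos_iff (f : F0) (hf : f ≠ 0) :
    0 < h98_gv E F0 π hsc f ↔ ∃ h : E (f : F) ∈ h60_Os A, h60_rs A ⟨_, h⟩ = 0 :=
  h98_GV_pos_iff hπ0 hπA hπn (h98_gv_spec E F0 π hsc f hf)

include hπ0 hπA hπn in
/-- value zero iff the expansion is a unit of the Gauss ring. -/
theorem h98_gv_eq_zero_iff (f : F0) (hf : f ≠ 0) :
    h98_gv E F0 π hsc f = 0 ↔ ∃ h : E (f : F) ∈ h60_Os A, h60_rs A ⟨_, h⟩ ≠ 0 := by
  constructor
  · intro h0
    have h1 := h98_gv_spec E F0 π hsc f hf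
    rw [h0] at h1
    obtain ⟨h2, h3⟩ := h1
    have e : algebraMap K (LaurentSeries K) (π ^ (-(0 : ℤ))) * E (f : F) = E (f : F) := by simp
    obtain ⟨h4, h5⟩ := h98_rs_congr h2 e
    exact ⟨h4, by rw [h5]; exact h3⟩
  · rintro ⟨h1, h2⟩
    refine h98_gv_eq hsc hπ0 hπA hπn f 0 ?_
    exact h98_GV_of_eq h1 h2 (by simp)

variable (E F0 A)

/-- The Gauss ring of `F0` with respect to the embedding `E`. -/
def h98_gvRing : Subring F0 := (h60_Os A).comap (E.comp F0.subtype)

variable {E F0 A}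

theorem h98_mem_gvRing {f : F0} : f ∈ h98_gvRing A E F0 ↔ E (f : F) ∈ h60_Os A := Iff.rfl

variable (E F0 A)

/-- The reduction map of the Gauss ring of `F0`. -/
def h98_gvRed : h98_gvRing A E F0 →+* LaurentSeries (IsLocalRing.ResidueField A) :=
  (h60_rs A).comp
    (((E.comp F0.subtype).comp (h98_gvRing A E F0).subtype).codRestrict (h60_Os A)
      (fun f => h98_mem_gvRing.mp f.2))

variable {E F0 A}

theorem h98_gvRed_apply (f : h98_gvRing A E F0) :
    h98_gvRed A E F0 f = h60_rs A ⟨E ((f : F0) : F), h98_mem_gvRing.mp f.2⟩ := rfl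

include hπ0 hπA hπn in
/-- elements of the Gauss ring have nonnegative valuation. -/
theorem h98_gvRing_ge (y : F0) (hy : y ∈ h98_gvRing A E F0) :
    h99_Ge (h98_gv E F0 π hsc) 0 y := by
  by_cases h0 : y = 0
  · exact Or.inl h0
  · exact Or.inr ((h98_gv_nonneg_iff hsc hπ0 hπA hπn y h0).mpr (h98_mem_gvRing.mp hy))

include hπ0 hπA hπn in
/-- the reduction map kills the elements of positive valuation. -/
theorem h98_gvRed_ker (y : h98_gvRing A E F0) (hy0 : (y : F0) ≠ 0)
    (hy : 0 < h98_gv E F0 π hsc (y : F0)) : h98_gvRed A E F0 y = 0 := by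
  obtain ⟨h1, h2⟩ := (h98_gv_pos_iff hsc hπ0 hπA hπn (y : F0) hy0).mp hy
  rw [h98_gvRed_apply]
  exact h2

include hπ0 hπA hπn in
/-- the reduction of an element of valuation zero is nonzero. -/
theorem h98_gvRed_ne_zero (y : h98_gvRing A E F0) (hy0 : (y : F0) ≠ 0)
    (hy : h98_gv E F0 π hsc (y : F0) = 0) : h98_gvRed A E F0 y ≠ 0 := by
  obtain ⟨h1, h2⟩ := (h98_gv_eq_zero_iff hsc hπ0 hπA hπn (y : F0) hy0).mp hy
  rw [h98_gvRed_apply]
  exact h2

include hπ0 hπA hπn in
/-- conversely, zero reduction forces positive valuation. -/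
theorem h98_gv_pos_of_red (y : h98_gvRing A E F0) (hy0 : (y : F0) ≠ 0)
    (hy : h98_gvRed A E F0 y = 0) : 0 < h98_gv E F0 π hsc (y : F0) :=
  (h98_gv_pos_iff hsc hπ0 hπA hπn (y : F0) hy0).mpr ⟨h98_mem_gvRing.mp y.2, hy⟩

end GaussFun

end Fermat.Agent.S36
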