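/-
S36 / row NR, (MID-GAL) (helper49): Galois equivariance of the "middle" expansion embeddings of
`F(M q²)` and its consequences for the residue of the norm along `α` on inertia-fixed functions.

Setting: `q ∤ M` prime, `i0, i2 : F(M q) → F(M q²)` with `i0 = α` and `i2 = β ∘ w`
(`w = h60_w M q hqM` the swap of `F(M q)`), `Subfield.closure (range i0 ∪ range i2) = ⊤`.
A *middle embedding for `ζ`* is a ring hom `E : F(M q²) → ℚ̄((t))` with `E ∘ i0 = coe` and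
`E ∘ i2 = (t ↦ ζ t) ∘ coe` (`h59_twistHom ζ`).  (These are helper36's `h36_mid ζ`.)

* `h49_coeffMap_twistHom` : the twist commutes with the coefficientwise Galois action;
* `h49_Os_inertia` : inertia at `A` preserves `h60_Os A` and commutes with `h60_rs A`;
* `h49_mid_galois` : `E' (τ f) = τ_coeff (E f)` for middle embeddings `E, E'` for `ζ, τ ζ`
  (abstract `i0, i2` commuting with `τ` and generating);
* `h49_mid_galois_mod` : the same for `i0 = α`, `i2 = β ∘ w`;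
* `h49_exists_inertia_pow` : inertia acts transitively on the primitive `q`-th roots of unity;
* `h49_mid_indep` : for an inertia-fixed `f` and `τ ∈ I`: `c E f ∈ Os ⟹ τ(c) E' f ∈ Os` with the
  same reduction;
* `h49_normRes_alpha_scaled'` : `h49_normRes_alpha_scaled` with a scaling constant per embedding;
* `h49_normRes_alpha_fixed` : for an inertia-fixed `f`: `c₁ f ∈ Os`, `c₂ mid_ζ f ∈ Os` give
  `c₁ c' N_α f ∈ Os` with `v(c') = v(c₂)^(q-1)` and
  `rs (c₁ c' N_α f) = rs (c₁ f) * rs (c₂ mid_ζ f) ^ (q - 1)`;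
* `h49_normRes_alpha_fixed_one` : the unit case `c₁ = c₂ = 1`.
-/
import Mathlib
import Fermat.Agent.S36.h49_NormRes
import Fermat.Agent.S34.h49_SwapInv
import Fermat.Agent.S34.h60_R2
import Fermat.Agent.S40.h8_Tame

set_option autoImplicit false
set_option synthInstance.maxHeartbeats 400000
set_option linter.style.haveILetI false

noncomputable section

open ModularCurve AlgebraicCurve

namespace Fermat.Agent.S36

open Fermat.Agent.S34 Fermat.Agent.S37 Fermat.Agent.S24 Fermat.Agent.S35 Fermat.Agent.S18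
  Fermat.Agent.GAL Fermat.Agent.S40

local notation "Qb" => AlgebraicClosure ℚ

/-! ## Series-level Galois facts -/

/-- The twist `t ↦ ζ t` commutes with the coefficientwise Galois action. -/
theorem h49_coeffMap_twistHom (τ : Qb ≃ₐ[ℚ] Qb) (ζ : Qb) (hζ : ζ ≠ 0) (x : LaurentSeries Qb) :
    coeffMap ((τ : Qb ≃ₐ[ℚ] Qb) : Qb →+* Qb) (h59_twistHom ζ hζ x)
      = h59_twistHom (τ ζ) ((map_ne_zero τ).2 hζ)
          (coeffMap ((τ : Qb ≃ₐ[ℚ] Qb) : Qb →+* Qb) x) := by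
  ext k
  rw [coeffMap_coeff, h59_twistHom_apply, h64_twist_coeff, h59_twistHom_apply, h64_twist_coeff,
    coeffMap_coeff, map_mul, map_zpow₀]
  rfl

/-- Inertia at `A` preserves the ring `h60_Os A` of ratios of `A`-integral series and commutes
with the coefficientwise reduction. -/
theorem h49_Os_inertia (A : ValuationSubring Qb) (τ : Qb ≃ₐ[ℚ] Qb)
    (hτ : τ ∈ A.inertiaSubgroupIn ℚ) (x : LaurentSeries Qb) (hx : x ∈ h60_Os A) :
    ∃ h : coeffMap ((τ : Qb ≃ₐ[ℚ] Qb) : Qb →+* Qb) x ∈ h60_Os A,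
      h60_rs A ⟨_, h⟩ = h60_rs A ⟨x, hx⟩ := by
  obtain ⟨sA, hsA, hres⟩ := h87_inertia_lift A τ hτ
  obtain ⟨y₁, y₂, hy, h⟩ := hx
  have hcomm : ∀ y : LaurentSeries A,
      coeffMap ((τ : Qb ≃ₐ[ℚ] Qb) : Qb →+* Qb) (coeffMap A.subtype y)
        = coeffMap A.subtype (coeffMap sA y) := by
    intro y
    rw [coeffMap_coeffMap, coeffMap_coeffMap]
    exact coeffMap_congr (RingHom.ext fun a => (hsA a).symm) y
  have hresid : ∀ y : LaurentSeries A,
      coeffMap (IsLocalRing.residue A) (coeffMap sA y) = coeffMap (IsLocalRing.residue A) y := by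
    intro y
    rw [coeffMap_coeffMap]
    exact coeffMap_congr (RingHom.ext fun a => hres a) y
  have h' : coeffMap ((τ : Qb ≃ₐ[ℚ] Qb) : Qb →+* Qb) x * coeffMap A.subtype (coeffMap sA y₂)
      = coeffMap A.subtype (coeffMap sA y₁) := by
    rw [← hcomm, ← hcomm, ← map_mul, h]
  have hy' : coeffMap (IsLocalRing.residue A) (coeffMap sA y₂) ≠ 0 := by
    rw [hresid]
    exact hy
  have hmem : coeffMap ((τ : Qb ≃ₐ[ℚ] Qb) : Qb →+* Qb) x ∈ h60_Os A :=
    ⟨coeffMap sA y₁, coeffMap sA y₂, hy', h'⟩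
  refine ⟨hmem, ?_⟩
  refine h60_rs_eq A ⟨_, hmem⟩ (coeffMap sA y₁) (coeffMap sA y₂) hy' h' _ ?_
  rw [hresid, hresid]
  exact h60_rs_spec A ⟨x, ⟨y₁, y₂, hy, h⟩⟩ y₁ y₂ h

/-! ## (MID-GAL) -/

/-- **(MID-GAL), abstract form.** `i0, i2 : F(L) → F(L')` commuting with `τ` and generating
`F(L')`; `E`, `E'` middle embeddings for `ζ` and `ζ' = τ ζ`.  Then `E' (τ f) = τ_coeff (E f)`. -/
theorem h49_mid_galois {L L' : ℕ} [NeZero L] [NeZero L']
    (i0 i2 : modularFunctionFieldBar L →+* modularFunctionFieldBar L')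
    (hgen : Subfield.closure (Set.range i0 ∪ Set.range i2) = ⊤)
    (τ : Qb ≃ₐ[ℚ] Qb)
    (hi0 : ∀ g, i0 (arithmeticRingAut (modularFunctionFieldFull L) τ g)
      = arithmeticRingAut (modularFunctionFieldFull L') τ (i0 g))
    (hi2 : ∀ g, i2 (arithmeticRingAut (modularFunctionFieldFull L) τ g)
      = arithmeticRingAut (modularFunctionFieldFull L') τ (i2 g))
    (ζ : Qb) (hζ : ζ ≠ 0) (ζ' : Qb) (hζ' : ζ' ≠ 0) (hτζ : τ ζ = ζ')
    (E E' : modularFunctionFieldBar L' →+* LaurentSeries Qb)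
    (hE0 : ∀ g, E (i0 g) = (g : LaurentSeries Qb))
    (hE2 : ∀ g, E (i2 g) = h59_twistHom ζ hζ (g : LaurentSeries Qb))
    (hE0' : ∀ g, E' (i0 g) = (g : LaurentSeries Qb))
    (hE2' : ∀ g, E' (i2 g) = h59_twistHom ζ' hζ' (g : LaurentSeries Qb))
    (f : modularFunctionFieldBar L') :
    E' (arithmeticRingAut (modularFunctionFieldFull L') τ f)
      = coeffMap ((τ : Qb ≃ₐ[ℚ] Qb) : Qb →+* Qb) (E f) := by
  set φ : modularFunctionFieldBar L' →+* LaurentSeries Qb :=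
    E'.comp ((arithmeticRingAut (modularFunctionFieldFull L') τ :
      modularFunctionFieldBar L' ≃+* modularFunctionFieldBar L') :
        modularFunctionFieldBar L' →+* modularFunctionFieldBar L') with hφ
  set ψ : modularFunctionFieldBar L' →+* LaurentSeries Qb :=
    (coeffMap ((τ : Qb ≃ₐ[ℚ] Qb) : Qb →+* Qb)).comp E with hψ
  have hφa : ∀ x, φ x = E' (arithmeticRingAut (modularFunctionFieldFull L') τ x) := fun _ => rfl
  have hψa : ∀ x, ψ x = coeffMap ((τ : Qb ≃ₐ[ℚ] Qb) : Qb →+* Qb) (E x) := fun _ => rfl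
  have key : φ = ψ := by
    refine RingHom.eq_of_eqOn_of_field_closure_eq_top hgen ?_
    rintro x (⟨g, rfl⟩ | ⟨g, rfl⟩)
    · rw [hφa, hψa, ← hi0, hE0', hE0, coe_arithmeticRingAut_apply]
    · rw [hφa, hψa, ← hi2, hE2', hE2, coe_arithmeticRingAut_apply, h49_coeffMap_twistHom]
      subst hτζ
      rfl
  rw [← hφa, ← hψa, key]

/-- **(MID-GAL)** for `i0 = α`, `i2 = β ∘ w` at level `M q²`, `q ∤ M`. -/
theorem h49_mid_galois_mod (M q : ℕ) [NeZero M] [NeZero q] [Fact q.Prime] (hqM : ¬ q ∣ M)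
    (i0 i2 : modularFunctionFieldBar (M * q) →+* modularFunctionFieldBar (M * q * q))
    (hi0 : ∀ g, i0 g = heckeAlphaBar Qb (M * q) q g)
    (hi2 : ∀ g, i2 g = heckeBetaBar Qb (M * q) q (h60_w M q hqM g))
    (hgen : Subfield.closure (Set.range i0 ∪ Set.range i2) = ⊤)
    (τ : Qb ≃ₐ[ℚ] Qb)
    (ζ : Qb) (hζ : ζ ≠ 0) (ζ' : Qb) (hζ' : ζ' ≠ 0) (hτζ : τ ζ = ζ')
    (E E' : modularFunctionFieldBar (M * q * q) →+* LaurentSeries Qb)
    (hE0 : ∀ g, E (i0 g) = (g : LaurentSeries Qb))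
    (hE2 : ∀ g, E (i2 g) = h59_twistHom ζ hζ (g : LaurentSeries Qb))
    (hE0' : ∀ g, E' (i0 g) = (g : LaurentSeries Qb))
    (hE2' : ∀ g, E' (i2 g) = h59_twistHom ζ' hζ' (g : LaurentSeries Qb))
    (f : modularFunctionFieldBar (M * q * q)) :
    E' (arithmeticRingAut (modularFunctionFieldFull (M * q * q)) τ f)
      = coeffMap ((τ : Qb ≃ₐ[ℚ] Qb) : Qb →+* Qb) (E f) := by
  refine h49_mid_galois i0 i2 hgen τ ?_ ?_ ζ hζ ζ' hζ' hτζ E E' hE0 hE2 hE0' hE2' f
  · intro g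
    rw [hi0, hi0, h49_alpha_galois]
  · intro g
    rw [hi2, hi2, h60_w_galois, h49_beta_galois]

/-! ## Inertia and roots of unity -/

/-- Inertia at `A ∣ q` acts transitively on the primitive `q`-th roots of unity. -/
theorem h49_exists_inertia_pow (q : ℕ) [Fact q.Prime] (A : ValuationSubring Qb)
    (hA : A.LiesOverPrime q) (ζ : Qb) (hζ : IsPrimitiveRoot ζ q) (j : ℕ) (hj : ¬ q ∣ j) :
    ∃ τ ∈ A.inertiaSubgroupIn ℚ, τ ζ = ζ ^ j := by
  by_cases hq2 : q = 2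
  · refine ⟨1, one_mem _, ?_⟩
    subst hq2
    have hodd : j % 2 = 1 := by omega
    have h2 : ζ ^ 2 = 1 := hζ.pow_eq_one
    have h3 : ζ ^ j = ζ := by
      conv_lhs => rw [← Nat.div_add_mod j 2, hodd, pow_add, pow_mul, h2, one_pow, one_mul,
        pow_one]
    rw [h3]
    rfl
  · exact h8_cyc_surj q hq2 A hA ζ hζ j hj

/-! ## Independence of the middle embedding on inertia-fixed functions -/

/-- For an inertia-fixed `f`, `τ ∈ I` and middle embeddings `E`, `E'` for `ζ`, `τ ζ`: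
`c E f ∈ Os ⟹ τ(c) E' f ∈ Os`, with the same reduction. -/
theorem h49_mid_indep (M q : ℕ) [NeZero M] [NeZero q] [Fact q.Prime] (hqM : ¬ q ∣ M)
    (A : ValuationSubring Qb)
    (i0 i2 : modularFunctionFieldBar (M * q) →+* modularFunctionFieldBar (M * q * q))
    (hi0 : ∀ g, i0 g = heckeAlphaBar Qb (M * q) q g)
    (hi2 : ∀ g, i2 g = heckeBetaBar Qb (M * q) q (h60_w M q hqM g))
    (hgen : Subfield.closure (Set.range i0 ∪ Set.range i2) = ⊤)
    (τ : Qb ≃ₐ[ℚ] Qb) (hτ : τ ∈ A.inertiaSubgroupIn ℚ)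
    (ζ : Qb) (hζ : ζ ≠ 0) (ζ' : Qb) (hζ' : ζ' ≠ 0) (hτζ : τ ζ = ζ')
    (E E' : modularFunctionFieldBar (M * q * q) →+* LaurentSeries Qb)
    (hE0 : ∀ g, E (i0 g) = (g : LaurentSeries Qb))
    (hE2 : ∀ g, E (i2 g) = h59_twistHom ζ hζ (g : LaurentSeries Qb))
    (hE0' : ∀ g, E' (i0 g) = (g : LaurentSeries Qb))
    (hE2' : ∀ g, E' (i2 g) = h59_twistHom ζ' hζ' (g : LaurentSeries Qb))
    (f : modularFunctionFieldBar (M * q * q))
    (hfix : arithmeticRingAut (modularFunctionFieldFull (M * q * q)) τ f = f)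
    (c : Qb) (hx : algebraMap Qb (LaurentSeries Qb) c * E f ∈ h60_Os A) :
    ∃ h : algebraMap Qb (LaurentSeries Qb) (τ c) * E' f ∈ h60_Os A,
      h60_rs A ⟨_, h⟩ = h60_rs A ⟨_, hx⟩ := by
  have h1 := h49_mid_galois_mod M q hqM i0 i2 hi0 hi2 hgen τ ζ hζ ζ' hζ' hτζ E E'
    hE0 hE2 hE0' hE2' f
  rw [hfix] at h1
  have h2 : algebraMap Qb (LaurentSeries Qb) (τ c) * E' f
      = coeffMap ((τ : Qb ≃ₐ[ℚ] Qb) : Qb →+* Qb) (algebraMap Qb (LaurentSeries Qb) c * E f) := by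
    rw [map_mul, h1, coeffMap_algebraMap]
    rfl
  obtain ⟨h3, h4⟩ := h49_Os_inertia A τ hτ _ hx
  have hmem : algebraMap Qb (LaurentSeries Qb) (τ c) * E' f ∈ h60_Os A := by
    rw [h2]
    exact h3
  refine ⟨hmem, ?_⟩
  have e1 : (⟨_, hmem⟩ : h60_Os A) = ⟨_, h3⟩ := Subtype.ext h2
  rw [e1, h4]

/-! ## The norm along `α` on inertia-fixed functions -/

/-- `h49_normRes_alpha_scaled` with one scaling constant per embedding. -/
theorem h49_normRes_alpha_scaled' (N q : ℕ) [NeZero N] [NeZero q] (hq : q.Prime) (hqN : q ∣ N)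
    (A : ValuationSubring Qb)
    (E : Fin (q - 1) → modularFunctionFieldBar (N * q) →+* LaurentSeries Qb)
    (hEα : ∀ (i : Fin (q - 1)) (e : modularFunctionFieldBar N),
      E i (heckeAlphaBar Qb N q e) = (e : LaurentSeries Qb))
    (hEinj : Function.Injective E)
    (hEne : ∀ i : Fin (q - 1), E i ≠ (modularFunctionFieldBar (N * q)).val.toRingHom)
    (c₁ : Qb) (c₂ : Fin (q - 1) → Qb) (f : modularFunctionFieldBar (N * q))
    (hf : algebraMap Qb (LaurentSeries Qb) c₁ * (f : LaurentSeries Qb) ∈ h60_Os A)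
    (hE : ∀ i, algebraMap Qb (LaurentSeries Qb) (c₂ i) * E i f ∈ h60_Os A) :
    ∃ h : algebraMap Qb (LaurentSeries Qb) (c₁ * ∏ i, c₂ i) *
        ((h67_normAlong (heckeAlphaBar Qb N q) f : modularFunctionFieldBar N) :
          LaurentSeries Qb) ∈ h60_Os A,
      h60_rs A ⟨_, h⟩ = h60_rs A ⟨_, hf⟩ * ∏ i, h60_rs A ⟨_, hE i⟩ := by
  have key := h49_norm_alpha_prod N q hq hqN E hEα hEinj hEne f
  set P : h60_Os A := ⟨_, hf⟩ * ∏ i, (⟨_, hE i⟩ : h60_Os A) with hP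
  have hPcoe : (P : LaurentSeries Qb)
      = algebraMap Qb (LaurentSeries Qb) (c₁ * ∏ i, c₂ i) *
        ((h67_normAlong (heckeAlphaBar Qb N q) f : modularFunctionFieldBar N) :
          LaurentSeries Qb) := by
    have key' : ((h67_normAlong (heckeAlphaBar Qb N q) f : modularFunctionFieldBar N) :
        LaurentSeries Qb) = (f : LaurentSeries Qb) * ∏ i, E i f := key
    rw [hP, Subring.coe_mul, SubmonoidClass.coe_finsetProd]
    show algebraMap Qb (LaurentSeries Qb) c₁ * (f : LaurentSeries Qb)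
        * ∏ i, (algebraMap Qb (LaurentSeries Qb) (c₂ i) * E i f) = _
    rw [Finset.prod_mul_distrib, key', map_mul, map_prod]
    ring
  have hmem : algebraMap Qb (LaurentSeries Qb) (c₁ * ∏ i, c₂ i) *
      ((h67_normAlong (heckeAlphaBar Qb N q) f : modularFunctionFieldBar N) :
        LaurentSeries Qb) ∈ h60_Os A := by
    rw [← hPcoe]
    exact P.2
  refine ⟨hmem, ?_⟩
  have e1 : (⟨_, hmem⟩ : h60_Os A) = P := Subtype.ext hPcoe.symm
  rw [e1, hP, map_mul, map_prod]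

/-- The family `E i := mid (ζ ^ (i + 1))`, `i < q - 1`, of middle embeddings satisfies the
hypotheses of `h49_norm_alpha_prod`. -/
theorem h49_mid_family (M q : ℕ) [NeZero M] [NeZero q] [Fact q.Prime] (hqM : ¬ q ∣ M)
    (i0 i2 : modularFunctionFieldBar (M * q) →+* modularFunctionFieldBar (M * q * q))
    (hi0 : ∀ g, i0 g = heckeAlphaBar Qb (M * q) q g)
    (hi2 : ∀ g, i2 g = heckeBetaBar Qb (M * q) q (h60_w M q hqM g))
    (mid : ∀ ζ : Qb, IsPrimitiveRoot ζ q →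
      (modularFunctionFieldBar (M * q * q) →+* LaurentSeries Qb))
    (hmid0 : ∀ (ζ : Qb) (hζ : IsPrimitiveRoot ζ q) (g : modularFunctionFieldBar (M * q)),
      mid ζ hζ (i0 g) = (g : LaurentSeries Qb))
    (hmid2 : ∀ (ζ : Qb) (hζ : IsPrimitiveRoot ζ q) (g : modularFunctionFieldBar (M * q)),
      mid ζ hζ (i2 g) = h59_twistHom ζ (hζ.ne_zero (NeZero.ne q)) (g : LaurentSeries Qb))
    (ζ : Qb) (hζ : IsPrimitiveRoot ζ q) :
    ∃ E : Fin (q - 1) → modularFunctionFieldBar (M * q * q) →+* LaurentSeries Qb,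
      (∀ i : Fin (q - 1), ∃ hi : IsPrimitiveRoot (ζ ^ ((i : ℕ) + 1)) q,
        E i = mid (ζ ^ ((i : ℕ) + 1)) hi) ∧
      (∀ (i : Fin (q - 1)) (e : modularFunctionFieldBar (M * q)),
        E i (heckeAlphaBar Qb (M * q) q e) = (e : LaurentSeries Qb)) ∧
      Function.Injective E ∧
      ∀ i : Fin (q - 1), E i ≠ (modularFunctionFieldBar (M * q * q)).val.toRingHom := by
  have hq : q.Prime := Fact.out
  have hq2 : 2 ≤ q := hq.two_le
  have hζ0 : ζ ≠ 0 := hζ.ne_zero (NeZero.ne q)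
  have hnd : ∀ i : Fin (q - 1), ¬ q ∣ ((i : ℕ) + 1) := fun i =>
    Nat.not_dvd_of_pos_of_lt (Nat.succ_pos _) (by have := i.2; omega)
  have hprim : ∀ i : Fin (q - 1), IsPrimitiveRoot (ζ ^ ((i : ℕ) + 1)) q := fun i =>
    hζ.pow_of_coprime _ (Nat.Coprime.symm ((Nat.Prime.coprime_iff_not_dvd hq).2 (hnd i)))
  set E : Fin (q - 1) → modularFunctionFieldBar (M * q * q) →+* LaurentSeries Qb :=
    fun i => mid (ζ ^ ((i : ℕ) + 1)) (hprim i) with hEdef
  have hEα : ∀ (i : Fin (q - 1)) (e : modularFunctionFieldBar (M * q)),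
      E i (heckeAlphaBar Qb (M * q) q e) = (e : LaurentSeries Qb) := by
    intro i e
    rw [← hi0]
    exact hmid0 _ (hprim i) e
  -- the test element `i2 j`
  set J : modularFunctionFieldBar (M * q) := h59_jbar (M * q) with hJ
  have hJc : ((J : modularFunctionFieldBar (M * q)) : LaurentSeries Qb).coeff (-1 : ℤ) = 1 :=
    h49_jbar_coeff (M * q)
  have hEJ : ∀ i : Fin (q - 1), (E i (i2 J)).coeff (-1 : ℤ) = (ζ ^ ((i : ℕ) + 1)) ^ (-1 : ℤ) := by
    intro i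
    have h1 := hmid2 _ (hprim i) J
    show (mid (ζ ^ ((i : ℕ) + 1)) (hprim i) (i2 J)).coeff (-1 : ℤ) = _
    rw [h1, h59_twistHom_apply, h64_twist_coeff, hJc, one_mul]
  have hEinj : Function.Injective E := by
    intro i i' hii
    have h1 := hEJ i
    rw [hii, hEJ i'] at h1
    have h2 : ζ ^ ((i : ℕ) + 1) = ζ ^ ((i' : ℕ) + 1) := by
      have h3 := congrArg (fun x : Qb => x⁻¹) h1
      simpa only [zpow_neg_one, inv_inv] using h3.symm
    have h4 := hζ.pow_inj (by have := i.2; omega) (by have := i'.2; omega) h2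
    exact Fin.ext (by omega)
  have hEne : ∀ i : Fin (q - 1), E i ≠ (modularFunctionFieldBar (M * q * q)).val.toRingHom := by
    intro i hEi
    have h1 := hEJ i
    rw [hEi] at h1
    have h2 : ((modularFunctionFieldBar (M * q * q)).val.toRingHom (i2 J))
        = qExpand Qb q ((h60_w M q hqM J : modularFunctionFieldBar (M * q)) :
          LaurentSeries Qb) := by
      rw [hi2]
      exact coe_heckeBetaBar _ _ _
    rw [h2, qExpand_coeff_of_not_dvd q _ (by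
      intro hdvd
      have h3 : (q : ℤ) ∣ 1 := by simpa using hdvd
      have h4 := Int.le_of_dvd one_pos h3
      omega)] at h1
    exact zpow_ne_zero _ (pow_ne_zero _ hζ0) h1.symm
  exact ⟨E, fun i => ⟨hprim i, rfl⟩, hEα, hEinj, hEne⟩

/-- **(NR-α on `F0`)** `q ∤ M`, `f ∈ F(M q²)` fixed by the inertia group of `A ∣ q`, `mid ζ` the
middle embeddings.  If `c₁ f` and `c₂ mid_ζ f` are in `Os`, then `c₁ c' N_α f ∈ Os` for a constant
`c'` with `v(c') = v(c₂)^(q-1)`, and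
`rs (c₁ c' N_α f) = rs (c₁ f) * rs (c₂ mid_ζ f) ^ (q - 1)`. -/
theorem h49_normRes_alpha_fixed (M q : ℕ) [NeZero M] [NeZero q] [Fact q.Prime] (hqM : ¬ q ∣ M)
    (A : ValuationSubring Qb) (hA : A.LiesOverPrime q)
    (i0 i2 : modularFunctionFieldBar (M * q) →+* modularFunctionFieldBar (M * q * q))
    (hi0 : ∀ g, i0 g = heckeAlphaBar Qb (M * q) q g)
    (hi2 : ∀ g, i2 g = heckeBetaBar Qb (M * q) q (h60_w M q hqM g))
    (hgen : Subfield.closure (Set.range i0 ∪ Set.range i2) = ⊤)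
    (mid : ∀ ζ : Qb, IsPrimitiveRoot ζ q →
      (modularFunctionFieldBar (M * q * q) →+* LaurentSeries Qb))
    (hmid0 : ∀ (ζ : Qb) (hζ : IsPrimitiveRoot ζ q) (g : modularFunctionFieldBar (M * q)),
      mid ζ hζ (i0 g) = (g : LaurentSeries Qb))
    (hmid2 : ∀ (ζ : Qb) (hζ : IsPrimitiveRoot ζ q) (g : modularFunctionFieldBar (M * q)),
      mid ζ hζ (i2 g) = h59_twistHom ζ (hζ.ne_zero (NeZero.ne q)) (g : LaurentSeries Qb))
    (ζ : Qb) (hζ : IsPrimitiveRoot ζ q)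
    (f : modularFunctionFieldBar (M * q * q))
    (hfix : ∀ τ ∈ A.inertiaSubgroupIn ℚ,
      arithmeticRingAut (modularFunctionFieldFull (M * q * q)) τ f = f)
    (c₁ c₂ : Qb)
    (hf : algebraMap Qb (LaurentSeries Qb) c₁ * (f : LaurentSeries Qb) ∈ h60_Os A)
    (hm : algebraMap Qb (LaurentSeries Qb) c₂ * mid ζ hζ f ∈ h60_Os A) :
    ∃ c' : Qb, A.valuation c' = A.valuation c₂ ^ (q - 1) ∧
      ∃ h : algebraMap Qb (LaurentSeries Qb) (c₁ * c') *
          ((h67_normAlong (heckeAlphaBar Qb (M * q) q) f : modularFunctionFieldBar (M * q)) :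
            LaurentSeries Qb) ∈ h60_Os A,
        h60_rs A ⟨_, h⟩ = h60_rs A ⟨_, hf⟩ * h60_rs A ⟨_, hm⟩ ^ (q - 1) := by
  have hq : q.Prime := Fact.out
  have hζ0 : ζ ≠ 0 := hζ.ne_zero (NeZero.ne q)
  have hnd : ∀ i : Fin (q - 1), ¬ q ∣ ((i : ℕ) + 1) := fun i =>
    Nat.not_dvd_of_pos_of_lt (Nat.succ_pos _) (by have := i.2; omega)
  obtain ⟨E, hEmid, hEα, hEinj, hEne⟩ :=
    h49_mid_family M q hqM i0 i2 hi0 hi2 mid hmid0 hmid2 ζ hζ
  -- inertia elements moving `ζ` to `ζ ^ (i + 1)`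
  have hex : ∀ i : Fin (q - 1), ∃ τ ∈ A.inertiaSubgroupIn ℚ, τ ζ = ζ ^ ((i : ℕ) + 1) := fun i =>
    h49_exists_inertia_pow q A hA ζ hζ _ (hnd i)
  choose τ hτI hτζ using hex
  have hind : ∀ i : Fin (q - 1),
      ∃ h : algebraMap Qb (LaurentSeries Qb) (τ i c₂) * E i f ∈ h60_Os A,
        h60_rs A ⟨_, h⟩ = h60_rs A ⟨_, hm⟩ := by
    intro i
    obtain ⟨hi, hEi⟩ := hEmid i
    rw [hEi]
    exact h49_mid_indep M q hqM A i0 i2 hi0 hi2 hgen (τ i) (hτI i) ζ hζ0 (ζ ^ ((i : ℕ) + 1))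
      (hi.ne_zero (NeZero.ne q)) (hτζ i) (mid ζ hζ) (mid _ hi)
      (hmid0 ζ hζ) (hmid2 ζ hζ) (hmid0 _ hi) (hmid2 _ hi) f (hfix _ (hτI i)) c₂ hm
  have hqN : q ∣ M * q := Dvd.intro_left M rfl
  obtain ⟨h5, h6⟩ := h49_normRes_alpha_scaled' (M * q) q hq hqN A E hEα hEinj hEne c₁
    (fun i => τ i c₂) f hf (fun i => (hind i).choose)
  refine ⟨∏ i, τ i c₂, ?_, h5, ?_⟩
  · rw [map_prod, Finset.prod_congr rfl fun i _ => h8_val_smul A (hτI i) c₂, Finset.prod_const,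
      Finset.card_univ, Fintype.card_fin]
  · rw [h6, Finset.prod_congr rfl fun i _ => (hind i).choose_spec, Finset.prod_const,
      Finset.card_univ, Fintype.card_fin]

/-- **(NR-α on `F0`), unit case**: for an inertia-fixed `f` with `f ∈ Os` and `mid_ζ f ∈ Os`:
`N_α f ∈ Os` and `rs (N_α f) = rs f * rs (mid_ζ f) ^ (q - 1)`. -/
theorem h49_normRes_alpha_fixed_one (M q : ℕ) [NeZero M] [NeZero q] [Fact q.Prime]
    (hqM : ¬ q ∣ M) (A : ValuationSubring Qb) (hA : A.LiesOverPrime q)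
    (i0 i2 : modularFunctionFieldBar (M * q) →+* modularFunctionFieldBar (M * q * q))
    (hi0 : ∀ g, i0 g = heckeAlphaBar Qb (M * q) q g)
    (hi2 : ∀ g, i2 g = heckeBetaBar Qb (M * q) q (h60_w M q hqM g))
    (hgen : Subfield.closure (Set.range i0 ∪ Set.range i2) = ⊤)
    (mid : ∀ ζ : Qb, IsPrimitiveRoot ζ q →
      (modularFunctionFieldBar (M * q * q) →+* LaurentSeries Qb))
    (hmid0 : ∀ (ζ : Qb) (hζ : IsPrimitiveRoot ζ q) (g : modularFunctionFieldBar (M * q)),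
      mid ζ hζ (i0 g) = (g : LaurentSeries Qb))
    (hmid2 : ∀ (ζ : Qb) (hζ : IsPrimitiveRoot ζ q) (g : modularFunctionFieldBar (M * q)),
      mid ζ hζ (i2 g) = h59_twistHom ζ (hζ.ne_zero (NeZero.ne q)) (g : LaurentSeries Qb))
    (ζ : Qb) (hζ : IsPrimitiveRoot ζ q)
    (f : modularFunctionFieldBar (M * q * q))
    (hfix : ∀ τ ∈ A.inertiaSubgroupIn ℚ,
      arithmeticRingAut (modularFunctionFieldFull (M * q * q)) τ f = f)
    (hf : (f : LaurentSeries Qb) ∈ h60_Os A) (hm : mid ζ hζ f ∈ h60_Os A) :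
    ∃ h : ((h67_normAlong (heckeAlphaBar Qb (M * q) q) f : modularFunctionFieldBar (M * q)) :
        LaurentSeries Qb) ∈ h60_Os A,
      h60_rs A ⟨_, h⟩ = h60_rs A ⟨_, hf⟩ * h60_rs A ⟨_, hm⟩ ^ (q - 1) := by
  have hq : q.Prime := Fact.out
  have hζ0 : ζ ≠ 0 := hζ.ne_zero (NeZero.ne q)
  have hnd : ∀ i : Fin (q - 1), ¬ q ∣ ((i : ℕ) + 1) := fun i =>
    Nat.not_dvd_of_pos_of_lt (Nat.succ_pos _) (by have := i.2; omega)
  have hone : ∀ x : LaurentSeries Qb, algebraMap Qb (LaurentSeries Qb) 1 * x = x := fun x => by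
    rw [map_one, one_mul]
  have hm' : algebraMap Qb (LaurentSeries Qb) 1 * mid ζ hζ f ∈ h60_Os A := by
    rw [hone]; exact hm
  obtain ⟨E, hEmid, hEα, hEinj, hEne⟩ :=
    h49_mid_family M q hqM i0 i2 hi0 hi2 mid hmid0 hmid2 ζ hζ
  have hind : ∀ i : Fin (q - 1),
      ∃ h : E i f ∈ h60_Os A, h60_rs A ⟨_, h⟩ = h60_rs A ⟨_, hm⟩ := by
    intro i
    obtain ⟨hi, hEi⟩ := hEmid i
    obtain ⟨τ, hτI, hτζ⟩ := h49_exists_inertia_pow q A hA ζ hζ _ (hnd i)
    obtain ⟨h1, h2⟩ := h49_mid_indep M q hqM A i0 i2 hi0 hi2 hgen τ hτI ζ hζ0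
      (ζ ^ ((i : ℕ) + 1)) (hi.ne_zero (NeZero.ne q)) hτζ (mid ζ hζ) (mid _ hi)
      (hmid0 ζ hζ) (hmid2 ζ hζ) (hmid0 _ hi) (hmid2 _ hi) f (hfix _ hτI) 1 hm'
    have e0 : algebraMap Qb (LaurentSeries Qb) (τ 1) * mid _ hi f = E i f := by
      rw [map_one, map_one, one_mul, hEi]
    have hmem : E i f ∈ h60_Os A := by
      rw [← e0]; exact h1
    refine ⟨hmem, ?_⟩
    have e1 : (⟨_, hmem⟩ : h60_Os A) = ⟨_, h1⟩ := Subtype.ext e0.symm
    have e2 : (⟨_, hm'⟩ : h60_Os A) = ⟨_, hm⟩ := Subtype.ext (hone _)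
    rw [e1, h2, e2]
  have hqN : q ∣ M * q := Dvd.intro_left M rfl
  obtain ⟨h5, h6⟩ := h49_normRes_alpha (M * q) q hq hqN A E hEα hEinj hEne f hf
    (fun i => (hind i).choose)
  refine ⟨h5, ?_⟩
  rw [h6, Finset.prod_congr rfl fun i _ => (hind i).choose_spec, Finset.prod_const,
    Finset.card_univ, Fintype.card_fin]

end Fermat.Agent.S36
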