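/-
S36 / rows I-VAL and I-NR (helper98): the middle expansions and the swap `W` of `F(M q²)` in the
Gauss-valuation language `h98_GV` (`S36/h98_NRVal`).

Binders (those of `S36/h49_MidGal`, plus `W`): `q ∤ M` prime, `i0 = α`, `i2 = β ∘ w`
(`w = h60_w M q hqM`), `Subfield.closure (range i0 ∪ range i2) = ⊤`, `mid ζ` the middle
embeddings (`mid ζ ∘ i0 = coe`, `mid ζ ∘ i2 = twist_ζ ∘ coe`), and a ring endomorphism `W` of
`F(M q²)` with `W ∘ i0 = i2`, `W ∘ i2 = i0`.

* generic: `h98_GV_qExpand`, `h98_GV_twist`, `h98_GV_twistHom` (the Gauss valuation is invariant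
  under `t ↦ t^m` and under twists by roots of unity of order the residue characteristic);
* the uniformiser `ζ - 1`: `h98_zeta_unif`;
* `h98_W_alpha`, `h98_W_W`, `h98_W_galois`, `h98_W_fixed` : `W` is an involution commuting with
  the Galois action, `W ∘ α = β ∘ w`;
* `h98_mid_W` : `mid ζ ∘ W = twist_ζ ∘ mid ζ⁻¹`;
* `h98_mid_GV_indep` : on inertia-fixed functions the Gauss valuation of `mid ζ f` (uniformiser
  `ζ - 1`) does not depend on the primitive root `ζ`;
* `h98_mid_GV_W` : on inertia-fixed functions it is `W`-invariant;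
* the table (V0) in `h98_GV` form: `h98_V0_*`.
-/
import Mathlib
import Fermat.Agent.S36.h98_NRVal
import Fermat.Agent.S36.h49_MidGal

set_option autoImplicit false
set_option synthInstance.maxHeartbeats 400000
set_option linter.style.haveILetI false
set_option linter.unusedSectionVars false

noncomputable section

open ModularCurve AlgebraicCurve

namespace Fermat.Agent.S36

open Fermat.Agent.S34 Fermat.Agent.S37 Fermat.Agent.S24 Fermat.Agent.S35 Fermat.Agent.S18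
  Fermat.Agent.GAL Fermat.Agent.S40

local notation "Qb" => AlgebraicClosure ℚ

/-! ## Generic invariance of the Gauss valuation -/

section Generic

variable {K : Type*} [Field K] {A : ValuationSubring K}

/-- The Gauss valuation is invariant under `t ↦ t ^ m`. -/
theorem h98_GV_qExpand (m : ℕ) [NeZero m] {π : K} {s : LaurentSeries K} {n : ℤ}
    (h : h98_GV A π s n) : h98_GV A π (qExpand K m s) n := by
  obtain ⟨h1, h2⟩ := h
  have e : algebraMap K (LaurentSeries K) (π ^ (-n)) * qExpand K m s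
      = qExpand K m (algebraMap K (LaurentSeries K) (π ^ (-n)) * s) := by
    rw [map_mul]
    congr 1
    rw [algebraMap_laurentSeries_eq_single, qExpand_single, mul_zero]
  refine h98_GV_of_eq (h60_qExpand_mem A m h1) ?_ e
  rw [h60_rs_qExpand A m ⟨_, h1⟩]
  intro h0
  exact h2 (qExpand_injective (R := IsLocalRing.ResidueField A) m (by rw [h0, map_zero]))

/-- The Gauss valuation is invariant under the twist `t ↦ ζ t` by a unit of `A` reducing
to `1`. -/
theorem h98_GV_twist (ζ : Aˣ)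
    (hζ : Units.map ((IsLocalRing.residue A : A →+* IsLocalRing.ResidueField A) :
      A →* IsLocalRing.ResidueField A) ζ = 1)
    {π : K} {s : LaurentSeries K} {n : ℤ} (h : h98_GV A π s n) :
    h98_GV A π (h87_twist (Units.map ((A.subtype : A →+* K) : A →* K) ζ) s) n := by
  obtain ⟨h1, h2⟩ := h
  have e : algebraMap K (LaurentSeries K) (π ^ (-n)) *
        h87_twist (Units.map ((A.subtype : A →+* K) : A →* K) ζ) s
      = h87_twist (Units.map ((A.subtype : A →+* K) : A →* K) ζ)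
          (algebraMap K (LaurentSeries K) (π ^ (-n)) * s) := by
    rw [map_mul]
    congr 1
    rw [algebraMap_laurentSeries_eq_single, h87_twist_single, zpow_zero, Units.val_one, one_mul]
  refine h98_GV_of_eq (h60_twist_mem A ζ h1) ?_ e
  rw [h60_rs_twist A ζ hζ ⟨_, h1⟩]
  exact h2

end Generic

/-! ## Roots of unity of order the residue characteristic -/

section Zeta

variable (q : ℕ) [Fact q.Prime] (A : ValuationSubring Qb)

/-- The Gauss valuation is invariant under `t ↦ ζ t`, `ζ ^ q = 1`, `q` the residue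
characteristic. -/
theorem h98_GV_twistHom (hA : A.LiesOverPrime q) (ζ : Qb) (hζ : ζ ^ q = 1) (hζ0 : ζ ≠ 0)
    {π : Qb} {s : LaurentSeries Qb} {n : ℤ} (h : h98_GV A π s n) :
    h98_GV A π (h59_twistHom ζ hζ0 s) n := by
  have hq : q.Prime := Fact.out
  haveI : CharP (IsLocalRing.ResidueField A) q := h19_residueField_charP A q hA
  have hint : ∀ x : Qb, x ^ q = 1 → x ∈ A := fun x hx =>
    Fermat.Agent.S33.h14_unr_mem_of_isIntegral A (IsIntegral.of_pow hq.pos (by rw [hx]; exact isIntegral_one))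
  have hζA : ζ ∈ A := hint ζ hζ
  have hζiA : ζ⁻¹ ∈ A := hint ζ⁻¹ (by rw [inv_pow, hζ, inv_one])
  set ζA : Aˣ := ⟨⟨ζ, hζA⟩, ⟨ζ⁻¹, hζiA⟩, Subtype.ext (mul_inv_cancel₀ hζ0),
    Subtype.ext (inv_mul_cancel₀ hζ0)⟩ with hζAdef
  have hpow : ζA ^ q = 1 := by
    apply Units.ext
    apply Subtype.ext
    show ((ζA ^ q : Aˣ) : A).1 = 1
    rw [Units.val_pow_eq_pow_val]
    exact hζ
  have hres := h60_units_map_residue A q ζA hpow
  have h1 := h98_GV_twist ζA hres h
  rw [h49_twist_eq] at h1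
  exact h1

/-- `ζ - 1` is a uniformiser with `(ζ - 1) ^ (q - 1) = q * ε`, `ε` a unit of `A`. -/
theorem h98_zeta_unif (hA : A.LiesOverPrime q) (ζ : Qb) (hζ : IsPrimitiveRoot ζ q) :
    ζ - 1 ≠ 0 ∧ ζ - 1 ∈ A ∧ (ζ - 1)⁻¹ ∉ A ∧
      ∃ ε : Qb, ε ∈ A ∧ ε⁻¹ ∈ A ∧ ε ≠ 0 ∧ (ζ - 1) ^ (q - 1) = (q : Qb) * ε := by
  have hq : q.Prime := Fact.out
  have hq0 : (q : Qb) ≠ 0 := Nat.cast_ne_zero.mpr hq.ne_zero
  have h0 := h8_zeta_sub_one_ne q ζ hζ
  have hζA := h8_zeta_mem q A ζ hζ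
  have hvq := h8_val_p q A ζ hζ
  have hvq1 : A.valuation (q : Qb) < 1 := h8_val_p_lt q A hA
  have hq1 : q - 1 ≠ 0 := Nat.sub_ne_zero_of_lt hq.one_lt
  have hv1 : A.valuation (ζ - 1) < 1 := by
    by_contra hcon
    rw [not_lt] at hcon
    have : (1 : A.ValueGroup) ≤ A.valuation (ζ - 1) ^ (q - 1) := one_le_pow₀ hcon
    rw [← hvq] at this
    exact absurd hvq1 (not_lt.mpr this)
  refine ⟨h0, sub_mem hζA (one_mem _), ?_, (ζ - 1) ^ (q - 1) / (q : Qb), ?_⟩
  · intro hmem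
    have h2 : A.valuation (ζ - 1)⁻¹ ≤ 1 := (A.valuation_le_one_iff _).2 hmem
    rw [map_inv₀] at h2
    have h3 : (1 : A.ValueGroup) ≤ A.valuation (ζ - 1) := by
      have hpos : 0 < A.valuation (ζ - 1) := zero_lt_iff.2 ((map_ne_zero _).2 h0)
      rwa [inv_le_one₀ hpos] at h2
    exact absurd hv1 (not_lt.mpr h3)
  · have hv : A.valuation ((ζ - 1) ^ (q - 1) / (q : Qb)) = 1 := by
      rw [map_div₀, map_pow, hvq]
      exact div_self (pow_ne_zero _ ((map_ne_zero _).2 h0))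
    obtain ⟨h4, h5⟩ := h8_unit_of_val_one A _ hv
    refine ⟨h4, h5, div_ne_zero (pow_ne_zero _ h0) hq0, ?_⟩
    field_simp

/-- `q` has valuation `q - 1` for the uniformiser `ζ - 1`. -/
theorem h98_GV_q_zeta (hA : A.LiesOverPrime q) (ζ : Qb) (hζ : IsPrimitiveRoot ζ q) :
    h98_GV A (ζ - 1) (algebraMap Qb (LaurentSeries Qb) (q : Qb)) ((q - 1 : ℕ) : ℤ) := by
  have hq : q.Prime := Fact.out
  have hq0 : (q : Qb) ≠ 0 := Nat.cast_ne_zero.mpr hq.ne_zero
  obtain ⟨-, -, -, ε, hε, hε', hε0, hϖ⟩ := h98_zeta_unif q A hA ζ hζ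
  have h1 := h98_GV_change hε hε' hε0 hϖ (h98_GV_pi (A := A) hq0)
  rwa [mul_one] at h1

end Zeta

/-! ## The swap `W` and the middle embeddings -/

section Mid

variable (M q : ℕ) [NeZero M] [NeZero q] [Fact q.Prime] (hqM : ¬ q ∣ M)

/-- `W ∘ α = β ∘ w`. -/
theorem h98_W_alpha
    (i0 i2 : modularFunctionFieldBar (M * q) →+* modularFunctionFieldBar (M * q * q))
    (hi0 : ∀ g, i0 g = heckeAlphaBar Qb (M * q) q g)
    (hi2 : ∀ g, i2 g = heckeBetaBar Qb (M * q) q (h60_w M q hqM g))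
    (W : modularFunctionFieldBar (M * q * q) →+* modularFunctionFieldBar (M * q * q))
    (hW0 : ∀ g, W (i0 g) = i2 g) (e : modularFunctionFieldBar (M * q)) :
    W (heckeAlphaBar Qb (M * q) q e) = heckeBetaBar Qb (M * q) q (h60_w M q hqM e) := by
  rw [← hi0, hW0, hi2]

/-- `W` is an involution. -/
theorem h98_W_W
    (i0 i2 : modularFunctionFieldBar (M * q) →+* modularFunctionFieldBar (M * q * q))
    (hgen : Subfield.closure (Set.range i0 ∪ Set.range i2) = ⊤)
    (W : modularFunctionFieldBar (M * q * q) →+* modularFunctionFieldBar (M * q * q))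
    (hW0 : ∀ g, W (i0 g) = i2 g) (hW2 : ∀ g, W (i2 g) = i0 g)
    (f : modularFunctionFieldBar (M * q * q)) : W (W f) = f := by
  have key : W.comp W = RingHom.id _ := by
    refine RingHom.eq_of_eqOn_of_field_closure_eq_top hgen ?_
    rintro x (⟨g, rfl⟩ | ⟨g, rfl⟩)
    · show W (W (i0 g)) = i0 g
      rw [hW0, hW2]
    · show W (W (i2 g)) = i2 g
      rw [hW2, hW0]
  exact congrFun (congrArg DFunLike.coe key) f

/-- `W` commutes with the Galois action. -/
theorem h98_W_galois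
    (i0 i2 : modularFunctionFieldBar (M * q) →+* modularFunctionFieldBar (M * q * q))
    (hi0 : ∀ g, i0 g = heckeAlphaBar Qb (M * q) q g)
    (hi2 : ∀ g, i2 g = heckeBetaBar Qb (M * q) q (h60_w M q hqM g))
    (hgen : Subfield.closure (Set.range i0 ∪ Set.range i2) = ⊤)
    (W : modularFunctionFieldBar (M * q * q) →+* modularFunctionFieldBar (M * q * q))
    (hW0 : ∀ g, W (i0 g) = i2 g) (hW2 : ∀ g, W (i2 g) = i0 g)
    (τ : Qb ≃ₐ[ℚ] Qb) (f : modularFunctionFieldBar (M * q * q)) :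
    W (arithmeticRingAut (modularFunctionFieldFull (M * q * q)) τ f)
      = arithmeticRingAut (modularFunctionFieldFull (M * q * q)) τ (W f) := by
  have hi0τ : ∀ g, i0 (arithmeticRingAut (modularFunctionFieldFull (M * q)) τ g)
      = arithmeticRingAut (modularFunctionFieldFull (M * q * q)) τ (i0 g) := by
    intro g
    rw [hi0, hi0, h49_alpha_galois]
  have hi2τ : ∀ g, i2 (arithmeticRingAut (modularFunctionFieldFull (M * q)) τ g)
      = arithmeticRingAut (modularFunctionFieldFull (M * q * q)) τ (i2 g) := by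
    intro g
    rw [hi2, hi2, h60_w_galois, h49_beta_galois]
  set T : modularFunctionFieldBar (M * q * q) →+* modularFunctionFieldBar (M * q * q) :=
    ((arithmeticRingAut (modularFunctionFieldFull (M * q * q)) τ :
      modularFunctionFieldBar (M * q * q) ≃+* modularFunctionFieldBar (M * q * q)) :
        modularFunctionFieldBar (M * q * q) →+* modularFunctionFieldBar (M * q * q)) with hT
  have hTa : ∀ x, T x = arithmeticRingAut (modularFunctionFieldFull (M * q * q)) τ x :=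
    fun _ => rfl
  have key : W.comp T = T.comp W := by
    refine RingHom.eq_of_eqOn_of_field_closure_eq_top hgen ?_
    rintro x (⟨g, rfl⟩ | ⟨g, rfl⟩)
    · show W (T (i0 g)) = T (W (i0 g))
      rw [hTa, hTa, ← hi0τ, hW0, hW0, hi2τ]
    · show W (T (i2 g)) = T (W (i2 g))
      rw [hTa, hTa, ← hi2τ, hW2, hW2, hi0τ]
  exact congrFun (congrArg DFunLike.coe key) f

/-- `W` preserves the functions fixed by a Galois element. -/
theorem h98_W_fixed
    (i0 i2 : modularFunctionFieldBar (M * q) →+* modularFunctionFieldBar (M * q * q))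
    (hi0 : ∀ g, i0 g = heckeAlphaBar Qb (M * q) q g)
    (hi2 : ∀ g, i2 g = heckeBetaBar Qb (M * q) q (h60_w M q hqM g))
    (hgen : Subfield.closure (Set.range i0 ∪ Set.range i2) = ⊤)
    (W : modularFunctionFieldBar (M * q * q) →+* modularFunctionFieldBar (M * q * q))
    (hW0 : ∀ g, W (i0 g) = i2 g) (hW2 : ∀ g, W (i2 g) = i0 g)
    (τ : Qb ≃ₐ[ℚ] Qb) (f : modularFunctionFieldBar (M * q * q))
    (hfix : arithmeticRingAut (modularFunctionFieldFull (M * q * q)) τ f = f) :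
    arithmeticRingAut (modularFunctionFieldFull (M * q * q)) τ (W f) = W f := by
  rw [← h98_W_galois M q hqM i0 i2 hi0 hi2 hgen W hW0 hW2 τ f, hfix]

/-- twisting by `ζ` undoes twisting by `ζ⁻¹`. -/
theorem h98_twist_twist_inv (ζ : Qb) (hζ : ζ ≠ 0) (x : LaurentSeries Qb) :
    h59_twistHom ζ hζ (h59_twistHom ζ⁻¹ (inv_ne_zero hζ) x) = x := by
  ext k
  rw [h59_twistHom_apply, h64_twist_coeff, h59_twistHom_apply, h64_twist_coeff, mul_assoc,
    ← mul_zpow, inv_mul_cancel₀ hζ, one_zpow, mul_one]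

/-- **(MID-W)** `mid ζ ∘ W = twist_ζ ∘ mid ζ⁻¹`. -/
theorem h98_mid_W
    (i0 i2 : modularFunctionFieldBar (M * q) →+* modularFunctionFieldBar (M * q * q))
    (hgen : Subfield.closure (Set.range i0 ∪ Set.range i2) = ⊤)
    (mid : ∀ ζ : Qb, IsPrimitiveRoot ζ q →
      (modularFunctionFieldBar (M * q * q) →+* LaurentSeries Qb))
    (hmid0 : ∀ (ζ : Qb) (hζ : IsPrimitiveRoot ζ q) (g : modularFunctionFieldBar (M * q)),
      mid ζ hζ (i0 g) = (g : LaurentSeries Qb))
    (hmid2 : ∀ (ζ : Qb) (hζ : IsPrimitiveRoot ζ q) (g : modularFunctionFieldBar (M * q)),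
      mid ζ hζ (i2 g) = h59_twistHom ζ (hζ.ne_zero (NeZero.ne q)) (g : LaurentSeries Qb))
    (W : modularFunctionFieldBar (M * q * q) →+* modularFunctionFieldBar (M * q * q))
    (hW0 : ∀ g, W (i0 g) = i2 g) (hW2 : ∀ g, W (i2 g) = i0 g)
    (ζ : Qb) (hζ : IsPrimitiveRoot ζ q) (f : modularFunctionFieldBar (M * q * q)) :
    mid ζ hζ (W f)
      = h59_twistHom ζ (hζ.ne_zero (NeZero.ne q)) (mid ζ⁻¹ hζ.inv f) := by
  have hζ0 : ζ ≠ 0 := hζ.ne_zero (NeZero.ne q)
  have key : (mid ζ hζ).comp W = (h59_twistHom ζ hζ0).comp (mid ζ⁻¹ hζ.inv) := by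
    refine RingHom.eq_of_eqOn_of_field_closure_eq_top hgen ?_
    rintro x (⟨g, rfl⟩ | ⟨g, rfl⟩)
    · show mid ζ hζ (W (i0 g)) = h59_twistHom ζ hζ0 (mid ζ⁻¹ hζ.inv (i0 g))
      rw [hW0, hmid2, hmid0]
    · show mid ζ hζ (W (i2 g)) = h59_twistHom ζ hζ0 (mid ζ⁻¹ hζ.inv (i2 g))
      rw [hW2, hmid0, hmid2]
      exact (h98_twist_twist_inv ζ hζ0 _).symm
  exact congrFun (congrArg DFunLike.coe key) f

/-- **(MID-indep)** On inertia-fixed functions, the Gauss valuation of the middle expansion (for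
the uniformiser `ζ - 1`) does not depend on the primitive root. -/
theorem h98_mid_GV_indep (A : ValuationSubring Qb) (hA : A.LiesOverPrime q)
    (i0 i2 : modularFunctionFieldBar (M * q) →+* modularFunctionFieldBar (M * q * q))
    (hi0 : ∀ g, i0 g = heckeAlphaBar Qb (M * q) q g)
    (hi2 : ∀ g, i2 g = heckeBetaBar Qb (M * q) q (h60_w M q hqM g))
    (hgen : Subfield.closure (Set.range i0 ∪ Set.range i2) = ⊤)
    (mid : ∀ ζ : Qb, IsPrimitiveRoot ζ q →
      (modularFunctionFieldBar (M * q * q) →+* LaurentSeries Qb))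
    (hmid0 : ∀ (ζ : Qb) (hζ : IsPrimitiveRoot ζ q) (g : modularFunctionFieldBar (M * q)),
      mid ζ hζ (i0 g) = (g : LaurentSeries Qb))
    (hmid2 : ∀ (ζ : Qb) (hζ : IsPrimitiveRoot ζ q) (g : modularFunctionFieldBar (M * q)),
      mid ζ hζ (i2 g) = h59_twistHom ζ (hζ.ne_zero (NeZero.ne q)) (g : LaurentSeries Qb))
    (ζ : Qb) (hζ : IsPrimitiveRoot ζ q) (ζ' : Qb) (hζ' : IsPrimitiveRoot ζ' q)
    (f : modularFunctionFieldBar (M * q * q))
    (hfix : ∀ τ ∈ A.inertiaSubgroupIn ℚ,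
      arithmeticRingAut (modularFunctionFieldFull (M * q * q)) τ f = f)
    (n : ℤ) (h : h98_GV A (ζ - 1) (mid ζ hζ f) n) :
    h98_GV A (ζ - 1) (mid ζ' hζ' f) n := by
  have hq : q.Prime := Fact.out
  have hζ0 : ζ ≠ 0 := hζ.ne_zero (NeZero.ne q)
  have hζ'0 : ζ' ≠ 0 := hζ'.ne_zero (NeZero.ne q)
  obtain ⟨j, hjq, hj⟩ := hζ.eq_pow_of_pow_eq_one hζ'.pow_eq_one
  have hjnd : ¬ q ∣ j := by
    intro hd
    have hj0 : j = 0 := Nat.eq_zero_of_dvd_of_lt hd hjq
    rw [hj0, pow_zero] at hj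
    exact hζ'.ne_one hq.one_lt hj.symm
  obtain ⟨τ, hτI, hτζ⟩ := h49_exists_inertia_pow q A hA ζ hζ j hjnd
  rw [hj] at hτζ
  obtain ⟨h1, h2⟩ := h
  obtain ⟨h3, h4⟩ := h49_mid_indep M q hqM A i0 i2 hi0 hi2 hgen τ hτI ζ hζ0 ζ' hζ'0 hτζ
    (mid ζ hζ) (mid ζ' hζ') (hmid0 ζ hζ) (hmid2 ζ hζ) (hmid0 ζ' hζ') (hmid2 ζ' hζ') f
    (hfix τ hτI) ((ζ - 1) ^ (-n)) h1
  have hτc : τ ((ζ - 1) ^ (-n)) = (ζ' - 1) ^ (-n) := by
    rw [map_zpow₀, map_sub, map_one, hτζ]
  -- `mid ζ' f` has valuation `n` for the uniformiser `ζ' - 1`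
  have h5 : h98_GV A (ζ' - 1) (mid ζ' hζ' f) n := by
    refine h98_GV_of_eq h3 ?_ (by rw [hτc])
    rw [h4]
    exact h2
  -- change of uniformiser
  have hv : A.valuation (ζ' - 1) = A.valuation (ζ - 1) := by
    rw [← hj]
    exact h8_val_zeta_pow q A ζ hζ j hjnd
  have h0 := h8_zeta_sub_one_ne q ζ hζ
  have h0' := h8_zeta_sub_one_ne q ζ' hζ'
  have hvε : A.valuation ((ζ - 1) / (ζ' - 1)) = 1 := by
    rw [map_div₀, hv]
    exact div_self ((map_ne_zero _).2 h0)
  obtain ⟨hε, hε'⟩ := h8_unit_of_val_one A _ hvε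
  have hϖ : (ζ - 1) ^ 1 = (ζ' - 1) * ((ζ - 1) / (ζ' - 1)) := by
    field_simp
  have h6 := h98_GV_change hε hε' (div_ne_zero h0 h0') hϖ h5
  simpa using h6

/-- **(MID-W), valuation form** On inertia-fixed functions, the Gauss valuation of the middle
expansion is `W`-invariant. -/
theorem h98_mid_GV_W (A : ValuationSubring Qb) (hA : A.LiesOverPrime q)
    (i0 i2 : modularFunctionFieldBar (M * q) →+* modularFunctionFieldBar (M * q * q))
    (hi0 : ∀ g, i0 g = heckeAlphaBar Qb (M * q) q g)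
    (hi2 : ∀ g, i2 g = heckeBetaBar Qb (M * q) q (h60_w M q hqM g))
    (hgen : Subfield.closure (Set.range i0 ∪ Set.range i2) = ⊤)
    (mid : ∀ ζ : Qb, IsPrimitiveRoot ζ q →
      (modularFunctionFieldBar (M * q * q) →+* LaurentSeries Qb))
    (hmid0 : ∀ (ζ : Qb) (hζ : IsPrimitiveRoot ζ q) (g : modularFunctionFieldBar (M * q)),
      mid ζ hζ (i0 g) = (g : LaurentSeries Qb))
    (hmid2 : ∀ (ζ : Qb) (hζ : IsPrimitiveRoot ζ q) (g : modularFunctionFieldBar (M * q)),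
      mid ζ hζ (i2 g) = h59_twistHom ζ (hζ.ne_zero (NeZero.ne q)) (g : LaurentSeries Qb))
    (W : modularFunctionFieldBar (M * q * q) →+* modularFunctionFieldBar (M * q * q))
    (hW0 : ∀ g, W (i0 g) = i2 g) (hW2 : ∀ g, W (i2 g) = i0 g)
    (ζ : Qb) (hζ : IsPrimitiveRoot ζ q)
    (f : modularFunctionFieldBar (M * q * q))
    (hfix : ∀ τ ∈ A.inertiaSubgroupIn ℚ,
      arithmeticRingAut (modularFunctionFieldFull (M * q * q)) τ f = f)
    (n : ℤ) (h : h98_GV A (ζ - 1) (mid ζ hζ f) n) :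
    h98_GV A (ζ - 1) (mid ζ hζ (W f)) n := by
  rw [h98_mid_W M q i0 i2 hgen mid hmid0 hmid2 W hW0 hW2 ζ hζ f]
  refine h98_GV_twistHom q A hA ζ hζ.pow_eq_one _ ?_
  exact h98_mid_GV_indep M q hqM A hA i0 i2 hi0 hi2 hgen mid hmid0 hmid2 ζ hζ ζ⁻¹ hζ.inv f hfix n h

/-! ## The table (V0) -/

/-- (V0) `v₁ ∘ i0 = w_F`. -/
theorem h98_V0_i0_std (A : ValuationSubring Qb)
    (i0 : modularFunctionFieldBar (M * q) →+* modularFunctionFieldBar (M * q * q))
    (hi0 : ∀ g, i0 g = heckeAlphaBar Qb (M * q) q g)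
    (π : Qb) (g : modularFunctionFieldBar (M * q)) (n : ℤ)
    (h : h98_GV A π (g : LaurentSeries Qb) n) :
    h98_GV A π ((i0 g : modularFunctionFieldBar (M * q * q)) : LaurentSeries Qb) n := by
  rw [hi0, coe_heckeAlphaBar]
  exact h

/-- (V0) `v₂ ∘ i0 = (q - 1) w_F`. -/
theorem h98_V0_i0_mid (A : ValuationSubring Qb) (hA : A.LiesOverPrime q)
    (i0 : modularFunctionFieldBar (M * q) →+* modularFunctionFieldBar (M * q * q))
    (mid : ∀ ζ : Qb, IsPrimitiveRoot ζ q →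
      (modularFunctionFieldBar (M * q * q) →+* LaurentSeries Qb))
    (hmid0 : ∀ (ζ : Qb) (hζ : IsPrimitiveRoot ζ q) (g : modularFunctionFieldBar (M * q)),
      mid ζ hζ (i0 g) = (g : LaurentSeries Qb))
    (ζ : Qb) (hζ : IsPrimitiveRoot ζ q) (g : modularFunctionFieldBar (M * q)) (n : ℤ)
    (h : h98_GV A (q : Qb) (g : LaurentSeries Qb) n) :
    h98_GV A (ζ - 1) (mid ζ hζ (i0 g)) (((q - 1 : ℕ) : ℤ) * n) := by
  obtain ⟨-, -, -, ε, hε, hε', hε0, hϖ⟩ := h98_zeta_unif q A hA ζ hζ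
  rw [hmid0]
  exact h98_GV_change hε hε' hε0 hϖ h

/-- (V0) `v₃ ∘ i0 = w_V`. -/
theorem h98_V0_i0_conj (A : ValuationSubring Qb)
    (i0 i2 : modularFunctionFieldBar (M * q) →+* modularFunctionFieldBar (M * q * q))
    (hi2 : ∀ g, i2 g = heckeBetaBar Qb (M * q) q (h60_w M q hqM g))
    (W : modularFunctionFieldBar (M * q * q) →+* modularFunctionFieldBar (M * q * q))
    (hW0 : ∀ g, W (i0 g) = i2 g)
    (π : Qb) (g : modularFunctionFieldBar (M * q)) (n : ℤ)
    (h : h98_GV A π ((h60_w M q hqM g : modularFunctionFieldBar (M * q)) : LaurentSeries Qb) n) :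
    h98_GV A π ((W (i0 g) : modularFunctionFieldBar (M * q * q)) : LaurentSeries Qb) n := by
  rw [hW0, hi2, coe_heckeBetaBar]
  exact h98_GV_qExpand q h

/-- (V0) `v₁ ∘ sh = w_F` (`sh = β`). -/
theorem h98_V0_sh_std (A : ValuationSubring Qb)
    (π : Qb) (g : modularFunctionFieldBar (M * q)) (n : ℤ)
    (h : h98_GV A π (g : LaurentSeries Qb) n) :
    h98_GV A π ((heckeBetaBar Qb (M * q) q g : modularFunctionFieldBar (M * q * q)) :
      LaurentSeries Qb) n := by
  rw [coe_heckeBetaBar]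
  exact h98_GV_qExpand q h

/-- (V0) `v₂ ∘ sh = (q - 1) w_V`. -/
theorem h98_V0_sh_mid (A : ValuationSubring Qb) (hA : A.LiesOverPrime q)
    (i2 : modularFunctionFieldBar (M * q) →+* modularFunctionFieldBar (M * q * q))
    (hi2 : ∀ g, i2 g = heckeBetaBar Qb (M * q) q (h60_w M q hqM g))
    (mid : ∀ ζ : Qb, IsPrimitiveRoot ζ q →
      (modularFunctionFieldBar (M * q * q) →+* LaurentSeries Qb))
    (hmid2 : ∀ (ζ : Qb) (hζ : IsPrimitiveRoot ζ q) (g : modularFunctionFieldBar (M * q)),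
      mid ζ hζ (i2 g) = h59_twistHom ζ (hζ.ne_zero (NeZero.ne q)) (g : LaurentSeries Qb))
    (ζ : Qb) (hζ : IsPrimitiveRoot ζ q) (g : modularFunctionFieldBar (M * q)) (n : ℤ)
    (h : h98_GV A (q : Qb)
      ((h60_w M q hqM g : modularFunctionFieldBar (M * q)) : LaurentSeries Qb) n) :
    h98_GV A (ζ - 1) (mid ζ hζ (heckeBetaBar Qb (M * q) q g)) (((q - 1 : ℕ) : ℤ) * n) := by
  obtain ⟨-, -, -, ε, hε, hε', hε0, hϖ⟩ := h98_zeta_unif q A hA ζ hζ
  have e : heckeBetaBar Qb (M * q) q g = i2 (h60_w M q hqM g) := by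
    rw [hi2, h60_w_w]
  rw [e, hmid2]
  exact h98_GV_twistHom q A hA ζ hζ.pow_eq_one _ (h98_GV_change hε hε' hε0 hϖ h)

/-- (V0) `v₃ ∘ sh = w_V`. -/
theorem h98_V0_sh_conj (A : ValuationSubring Qb)
    (i0 i2 : modularFunctionFieldBar (M * q) →+* modularFunctionFieldBar (M * q * q))
    (hi0 : ∀ g, i0 g = heckeAlphaBar Qb (M * q) q g)
    (hi2 : ∀ g, i2 g = heckeBetaBar Qb (M * q) q (h60_w M q hqM g))
    (W : modularFunctionFieldBar (M * q * q) →+* modularFunctionFieldBar (M * q * q))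
    (hW2 : ∀ g, W (i2 g) = i0 g)
    (π : Qb) (g : modularFunctionFieldBar (M * q)) (n : ℤ)
    (h : h98_GV A π ((h60_w M q hqM g : modularFunctionFieldBar (M * q)) : LaurentSeries Qb) n) :
    h98_GV A π ((W (heckeBetaBar Qb (M * q) q g) : modularFunctionFieldBar (M * q * q)) :
      LaurentSeries Qb) n := by
  have e : heckeBetaBar Qb (M * q) q g = i2 (h60_w M q hqM g) := by
    rw [hi2, h60_w_w]
  rw [e, hW2, hi0, coe_heckeAlphaBar]
  exact h

end Mid

end Fermat.Agent.S36
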