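/-
S36 / rows I-VAL and I-NR, the concrete instance (helper98).

Level `(M q², M q)`, `q ∤ M` prime, `A` a valuation ring of `ℚ̄` over `q`, `I` its inertia group,
`F0(N) := h69_F0 N I`, `ζ` a primitive `q`-th root of unity.  Given the existence of the Gauss
orders on inertia-fixed functions (`h98_Ex`, the input from the (GV-EX) files) this file DEFINES

* `h98_w1 : Fin 2 → F0(M q) → ℤ`   (`0 = Z_F` : standard expansion; `1 = Z_V` : standard
  expansion of `w g`, `w = h60_w M q hqM`),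
* `h98_w2 : Fin 3 → F0(M q²) → ℤ`  (`0 = C20` : standard expansion; `1 = C11` : middle expansion
  `h36_mid ζ`, uniformiser `ζ - 1`; `2 = C02` : standard expansion of `W f`, `W = h36_W`),

and proves, in the binder shapes of `h70_torM` (`S36/h70_TorInst`, with `N := M * q`):
the valuation axioms (`h98_w1_isVal`, `h98_w2_isVal`, `h98_hw1mul`, ...), the table (V0)
(`h98_hV0a0`, `h98_hV0a1`, `h98_hV0a2`, `h98_hV0b0`), the values at `q` (`h98_hq0/1/2`), the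
valuations of the norms (N1) (`h98_hN1aF`, `h98_hN1aV`, `h98_hN1bF`, `h98_hN1bV`) and the residues
of the norms of units (N2)-(N4) (`h98_hN2`, `h98_hN3`, `h98_hN4`).
-/
import Mathlib
import Fermat.Agent.S36.h98_GaussFun
import Fermat.Agent.S36.h98_MidW
import Fermat.Agent.S36.h36_MidEmb
import Fermat.Agent.S36.h70_TorInst

set_option autoImplicit false
set_option synthInstance.maxHeartbeats 400000
set_option linter.style.haveILetI false
set_option linter.unusedSectionVars false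

noncomputable section

open ModularCurve AlgebraicCurve

namespace Fermat.Agent.S36

open Fermat.Agent.S34 Fermat.Agent.S37 Fermat.Agent.S24 Fermat.Agent.S35 Fermat.Agent.S18
  Fermat.Agent.GAL Fermat.Agent.S40

local notation "Qb" => AlgebraicClosure ℚ

/-- The standard expansion as a ring homomorphism. -/
def h98_coe (N : ℕ) : modularFunctionFieldBar N →+* LaurentSeries Qb :=
  (modularFunctionFieldBar N).val.toRingHom

theorem h98_coe_apply (N : ℕ) (f : modularFunctionFieldBar N) :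
    h98_coe N f = (f : LaurentSeries Qb) := rfl

/-- `q` is a uniformiser of `A`. -/
theorem h98_q_unif (q : ℕ) [Fact q.Prime] (A : ValuationSubring Qb) (hA : A.LiesOverPrime q) :
    (q : Qb) ≠ 0 ∧ (q : Qb) ∈ A ∧ (q : Qb)⁻¹ ∉ A := by
  have hq : q.Prime := Fact.out
  have hq0 : (q : Qb) ≠ 0 := Nat.cast_ne_zero.mpr hq.ne_zero
  have hv : A.valuation (q : Qb) < 1 := h8_val_p_lt q A hA
  refine ⟨hq0, (A.valuation_le_one_iff _).1 hv.le, ?_⟩
  intro hmem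
  have h2 : A.valuation (q : Qb)⁻¹ ≤ 1 := (A.valuation_le_one_iff _).2 hmem
  rw [map_inv₀] at h2
  have hpos : 0 < A.valuation (q : Qb) := zero_lt_iff.2 ((map_ne_zero _).2 hq0)
  rw [inv_le_one₀ hpos] at h2
  exact absurd hv (not_lt.mpr h2)

section W2

variable (M q : ℕ) [NeZero M] [NeZero q] [Fact q.Prime] (hqM : ¬ q ∣ M)
  (A : ValuationSubring Qb) (hA : A.LiesOverPrime q) (ζ : Qb) (hζ : IsPrimitiveRoot ζ q)

/-- The middle embedding attached to a primitive `q`-th root of unity. -/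
def h98_midP : ∀ ζ : Qb, IsPrimitiveRoot ζ q →
    (modularFunctionFieldBar (M * q * q) →+* LaurentSeries Qb) :=
  fun ζ hζ => h36_mid M q hqM ζ hζ.pow_eq_one (hζ.ne_one (Fact.out : q.Prime).one_lt)

theorem h98_midP_i0 (ζ : Qb) (hζ : IsPrimitiveRoot ζ q) (g : modularFunctionFieldBar (M * q)) :
    h98_midP M q hqM ζ hζ (h36_i0 M q g) = (g : LaurentSeries Qb) :=
  h36_mid_i0 M q hqM ζ hζ.pow_eq_one (hζ.ne_one (Fact.out : q.Prime).one_lt) g

theorem h98_midP_i2 (ζ : Qb) (hζ : IsPrimitiveRoot ζ q) (g : modularFunctionFieldBar (M * q)) :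
    h98_midP M q hqM ζ hζ (h36_i2 M q hqM g)
      = h59_twistHom ζ (hζ.ne_zero (NeZero.ne q)) (g : LaurentSeries Qb) := by
  rw [h98_midP, h36_mid_i2]
  rfl

theorem h98_hi0 (g : modularFunctionFieldBar (M * q)) :
    h36_i0 M q g = heckeAlphaBar Qb (M * q) q g := rfl

theorem h98_hi2 (g : modularFunctionFieldBar (M * q)) :
    h36_i2 M q hqM g = heckeBetaBar Qb (M * q) q (h60_w M q hqM g) := rfl

/-- Existence of the Gauss orders of inertia-fixed functions: the standard expansion at the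
levels `M q`, `M q²` and the middle expansion at level `M q²`. -/
structure h98_Ex : Prop where
  std1 : ∀ g : modularFunctionFieldBar (M * q), g ≠ 0 →
    (∀ τ ∈ A.inertiaSubgroupIn ℚ,
      arithmeticRingAut (modularFunctionFieldFull (M * q)) τ g = g) →
    ∃ n : ℤ, h98_GV A (q : Qb) (g : LaurentSeries Qb) n
  std2 : ∀ f : modularFunctionFieldBar (M * q * q), f ≠ 0 →
    (∀ τ ∈ A.inertiaSubgroupIn ℚ,
      arithmeticRingAut (modularFunctionFieldFull (M * q * q)) τ f = f) →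
    ∃ n : ℤ, h98_GV A (q : Qb) (f : LaurentSeries Qb) n
  mid : ∀ f : modularFunctionFieldBar (M * q * q), f ≠ 0 →
    (∀ τ ∈ A.inertiaSubgroupIn ℚ,
      arithmeticRingAut (modularFunctionFieldFull (M * q * q)) τ f = f) →
    ∃ n : ℤ, h98_GV A (ζ - 1) (h98_midP M q hqM ζ hζ f) n

variable (hex : h98_Ex M q hqM A ζ hζ)

/-! ### Fixedness bookkeeping -/

theorem h98_fix1 (g : h69_F0 (M * q) (A.inertiaSubgroupIn ℚ)) :
    ∀ τ ∈ A.inertiaSubgroupIn ℚ,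
      arithmeticRingAut (modularFunctionFieldFull (M * q)) τ
        (g : modularFunctionFieldBar (M * q)) = g :=
  fun τ hτ => g.2 τ hτ

theorem h98_fix2 (f : h69_F0 (M * q * q) (A.inertiaSubgroupIn ℚ)) :
    ∀ τ ∈ A.inertiaSubgroupIn ℚ,
      arithmeticRingAut (modularFunctionFieldFull (M * q * q)) τ
        (f : modularFunctionFieldBar (M * q * q)) = f :=
  fun τ hτ => f.2 τ hτ

theorem h98_fix1w (g : h69_F0 (M * q) (A.inertiaSubgroupIn ℚ)) :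
    ∀ τ ∈ A.inertiaSubgroupIn ℚ,
      arithmeticRingAut (modularFunctionFieldFull (M * q)) τ
        (h60_w M q hqM (g : modularFunctionFieldBar (M * q))) = h60_w M q hqM g := by
  intro τ hτ
  rw [← h60_w_galois, h98_fix1 M q A g τ hτ]

theorem h98_fix2W (f : h69_F0 (M * q * q) (A.inertiaSubgroupIn ℚ)) :
    ∀ τ ∈ A.inertiaSubgroupIn ℚ,
      arithmeticRingAut (modularFunctionFieldFull (M * q * q)) τ
        (h36_W M q hqM (f : modularFunctionFieldBar (M * q * q))) = h36_W M q hqM f := by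
  intro τ hτ
  exact h98_W_fixed M q hqM (h36_i0 M q) (h36_i2 M q hqM) (h98_hi0 M q) (h98_hi2 M q hqM)
    (h36_i02_gen M q hqM) (h36_W M q hqM) (h36_W_i0 M q hqM) (h36_W_i2 M q hqM) τ _
    (h98_fix2 M q A f τ hτ)

theorem h98_coe_ne1 {g : h69_F0 (M * q) (A.inertiaSubgroupIn ℚ)} (hg : g ≠ 0) :
    (g : modularFunctionFieldBar (M * q)) ≠ 0 := fun h => hg (Subtype.ext h)

theorem h98_coe_ne2 {f : h69_F0 (M * q * q) (A.inertiaSubgroupIn ℚ)} (hf : f ≠ 0) :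
    (f : modularFunctionFieldBar (M * q * q)) ≠ 0 := fun h => hf (Subtype.ext h)

/-! ### The five valuations -/

/-- `w_F`: the Gauss order of the standard expansion at level `M q`. -/
def h98_wF : h69_F0 (M * q) (A.inertiaSubgroupIn ℚ) → ℤ :=
  h98_gv (A := A) (h98_coe (M * q)) (h69_F0 (M * q) (A.inertiaSubgroupIn ℚ)) (q : Qb)
    (fun g hg => hex.std1 g (h98_coe_ne1 M q A hg) (h98_fix1 M q A g))

/-- `w_V`: the Gauss order of the standard expansion of `w g` at level `M q`. -/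
def h98_wV : h69_F0 (M * q) (A.inertiaSubgroupIn ℚ) → ℤ :=
  h98_gv (A := A) ((h98_coe (M * q)).comp (h60_w M q hqM))
    (h69_F0 (M * q) (A.inertiaSubgroupIn ℚ)) (q : Qb)
    (fun g hg => hex.std1 (h60_w M q hqM g)
      ((map_ne_zero (h60_w M q hqM)).mpr (h98_coe_ne1 M q A hg)) (h98_fix1w M q hqM A g))

/-- `v₁ = v₂₀`: the Gauss order of the standard expansion at level `M q²`. -/
def h98_v1 : h69_F0 (M * q * q) (A.inertiaSubgroupIn ℚ) → ℤ :=
  h98_gv (A := A) (h98_coe (M * q * q)) (h69_F0 (M * q * q) (A.inertiaSubgroupIn ℚ)) (q : Qb)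
    (fun f hf => hex.std2 f (h98_coe_ne2 M q A hf) (h98_fix2 M q A f))

/-- `v₂ = v₁₁`: the Gauss order of the middle expansion, uniformiser `ζ - 1`. -/
def h98_v2 : h69_F0 (M * q * q) (A.inertiaSubgroupIn ℚ) → ℤ :=
  h98_gv (A := A) (h98_midP M q hqM ζ hζ) (h69_F0 (M * q * q) (A.inertiaSubgroupIn ℚ)) (ζ - 1)
    (fun f hf => hex.mid f (h98_coe_ne2 M q A hf) (h98_fix2 M q A f))

/-- `v₃ = v₀₂`: the Gauss order of the standard expansion of `W f`. -/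
def h98_v3 : h69_F0 (M * q * q) (A.inertiaSubgroupIn ℚ) → ℤ :=
  h98_gv (A := A) ((h98_coe (M * q * q)).comp (h36_W M q hqM))
    (h69_F0 (M * q * q) (A.inertiaSubgroupIn ℚ)) (q : Qb)
    (fun f hf => hex.std2 (h36_W M q hqM f)
      ((map_ne_zero (h36_W M q hqM)).mpr (h98_coe_ne2 M q A hf)) (h98_fix2W M q hqM A f))

/-- The two vertical valuations of level `M q` (`0 = Z_F`, `1 = Z_V`). -/
def h98_w1 : Fin 2 → h69_F0 (M * q) (A.inertiaSubgroupIn ℚ) → ℤ :=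
  ![h98_wF M q hqM A ζ hζ hex, h98_wV M q hqM A ζ hζ hex]

/-- The three vertical valuations of level `M q²` (`0 = C20`, `1 = C11`, `2 = C02`). -/
def h98_w2 : Fin 3 → h69_F0 (M * q * q) (A.inertiaSubgroupIn ℚ) → ℤ :=
  ![h98_v1 M q hqM A ζ hζ hex, h98_v2 M q hqM A ζ hζ hex, h98_v3 M q hqM A ζ hζ hex]

/-! ### Specifications and uniqueness -/

theorem h98_wF_spec (g : h69_F0 (M * q) (A.inertiaSubgroupIn ℚ)) (hg : g ≠ 0) :
    h98_GV A (q : Qb) ((g : modularFunctionFieldBar (M * q)) : LaurentSeries Qb) (h98_wF M q hqM A ζ hζ hex g) :=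
  h98_gv_spec _ _ _ _ g hg

theorem h98_wV_spec (g : h69_F0 (M * q) (A.inertiaSubgroupIn ℚ)) (hg : g ≠ 0) :
    h98_GV A (q : Qb) ((h60_w M q hqM (g : modularFunctionFieldBar (M * q)) : modularFunctionFieldBar (M * q)) : LaurentSeries Qb)
      (h98_wV M q hqM A ζ hζ hex g) :=
  h98_gv_spec _ _ _ _ g hg

theorem h98_v1_spec (f : h69_F0 (M * q * q) (A.inertiaSubgroupIn ℚ)) (hf : f ≠ 0) :
    h98_GV A (q : Qb) ((f : modularFunctionFieldBar (M * q * q)) : LaurentSeries Qb) (h98_v1 M q hqM A ζ hζ hex f) :=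
  h98_gv_spec _ _ _ _ f hf

theorem h98_v2_spec (f : h69_F0 (M * q * q) (A.inertiaSubgroupIn ℚ)) (hf : f ≠ 0) :
    h98_GV A (ζ - 1) (h98_midP M q hqM ζ hζ (f : modularFunctionFieldBar (M * q * q))) (h98_v2 M q hqM A ζ hζ hex f) :=
  h98_gv_spec _ _ _ _ f hf

theorem h98_v3_spec (f : h69_F0 (M * q * q) (A.inertiaSubgroupIn ℚ)) (hf : f ≠ 0) :
    h98_GV A (q : Qb) ((h36_W M q hqM (f : modularFunctionFieldBar (M * q * q)) : modularFunctionFieldBar (M * q * q)) : LaurentSeries Qb)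
      (h98_v3 M q hqM A ζ hζ hex f) :=
  h98_gv_spec _ _ _ _ f hf

include hA

theorem h98_wF_eq (g : h69_F0 (M * q) (A.inertiaSubgroupIn ℚ)) (n : ℤ)
    (h : h98_GV A (q : Qb) ((g : modularFunctionFieldBar (M * q)) : LaurentSeries Qb) n) : h98_wF M q hqM A ζ hζ hex g = n :=
  h98_gv_eq _ (h98_q_unif q A hA).1 (h98_q_unif q A hA).2.1 (h98_q_unif q A hA).2.2 g n h

theorem h98_wV_eq (g : h69_F0 (M * q) (A.inertiaSubgroupIn ℚ)) (n : ℤ)
    (h : h98_GV A (q : Qb) ((h60_w M q hqM (g : modularFunctionFieldBar (M * q)) : modularFunctionFieldBar (M * q)) : LaurentSeries Qb) n) :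
    h98_wV M q hqM A ζ hζ hex g = n :=
  h98_gv_eq _ (h98_q_unif q A hA).1 (h98_q_unif q A hA).2.1 (h98_q_unif q A hA).2.2 g n h

theorem h98_v1_eq (f : h69_F0 (M * q * q) (A.inertiaSubgroupIn ℚ)) (n : ℤ)
    (h : h98_GV A (q : Qb) ((f : modularFunctionFieldBar (M * q * q)) : LaurentSeries Qb) n) : h98_v1 M q hqM A ζ hζ hex f = n :=
  h98_gv_eq _ (h98_q_unif q A hA).1 (h98_q_unif q A hA).2.1 (h98_q_unif q A hA).2.2 f n h

theorem h98_v2_eq (f : h69_F0 (M * q * q) (A.inertiaSubgroupIn ℚ)) (n : ℤ)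
    (h : h98_GV A (ζ - 1) (h98_midP M q hqM ζ hζ (f : modularFunctionFieldBar (M * q * q))) n) : h98_v2 M q hqM A ζ hζ hex f = n :=
  h98_gv_eq _ (h98_zeta_unif q A hA ζ hζ).1 (h98_zeta_unif q A hA ζ hζ).2.1 (h98_zeta_unif q A hA ζ hζ).2.2.1 f n h

theorem h98_v3_eq (f : h69_F0 (M * q * q) (A.inertiaSubgroupIn ℚ)) (n : ℤ)
    (h : h98_GV A (q : Qb) ((h36_W M q hqM (f : modularFunctionFieldBar (M * q * q)) : modularFunctionFieldBar (M * q * q)) : LaurentSeries Qb) n) :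
    h98_v3 M q hqM A ζ hζ hex f = n :=
  h98_gv_eq _ (h98_q_unif q A hA).1 (h98_q_unif q A hA).2.1 (h98_q_unif q A hA).2.2 f n h

/-! ### The valuation axioms -/

theorem h98_wF_isVal : h99_IsVal (h98_wF M q hqM A ζ hζ hex) :=
  h98_gv_isVal _ (h98_q_unif q A hA).1 (h98_q_unif q A hA).2.1 (h98_q_unif q A hA).2.2

theorem h98_wV_isVal : h99_IsVal (h98_wV M q hqM A ζ hζ hex) :=
  h98_gv_isVal _ (h98_q_unif q A hA).1 (h98_q_unif q A hA).2.1 (h98_q_unif q A hA).2.2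

theorem h98_v1_isVal : h99_IsVal (h98_v1 M q hqM A ζ hζ hex) :=
  h98_gv_isVal _ (h98_q_unif q A hA).1 (h98_q_unif q A hA).2.1 (h98_q_unif q A hA).2.2

theorem h98_v2_isVal : h99_IsVal (h98_v2 M q hqM A ζ hζ hex) :=
  h98_gv_isVal _ (h98_zeta_unif q A hA ζ hζ).1 (h98_zeta_unif q A hA ζ hζ).2.1 (h98_zeta_unif q A hA ζ hζ).2.2.1

theorem h98_v3_isVal : h99_IsVal (h98_v3 M q hqM A ζ hζ hex) :=
  h98_gv_isVal _ (h98_q_unif q A hA).1 (h98_q_unif q A hA).2.1 (h98_q_unif q A hA).2.2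

theorem h98_w1_isVal (c : Fin 2) : h99_IsVal (h98_w1 M q hqM A ζ hζ hex c) := by
  fin_cases c
  · exact h98_wF_isVal M q hqM A hA ζ hζ hex
  · exact h98_wV_isVal M q hqM A hA ζ hζ hex

theorem h98_w2_isVal (c : Fin 3) : h99_IsVal (h98_w2 M q hqM A ζ hζ hex c) := by
  fin_cases c
  · exact h98_v1_isVal M q hqM A hA ζ hζ hex
  · exact h98_v2_isVal M q hqM A hA ζ hζ hex
  · exact h98_v3_isVal M q hqM A hA ζ hζ hex

theorem h98_hw2mul : ∀ (c : Fin 3) (f g : h69_F0 (M * q * q) (A.inertiaSubgroupIn ℚ)), f ≠ 0 → g ≠ 0 →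
    h98_w2 M q hqM A ζ hζ hex c (f * g) = h98_w2 M q hqM A ζ hζ hex c f + h98_w2 M q hqM A ζ hζ hex c g :=
  fun c => (h98_w2_isVal M q hqM A hA ζ hζ hex c).map_mul

theorem h98_hw2add : ∀ (c : Fin 3) (f g : h69_F0 (M * q * q) (A.inertiaSubgroupIn ℚ)), f ≠ 0 → g ≠ 0 → f + g ≠ 0 →
    min (h98_w2 M q hqM A ζ hζ hex c f) (h98_w2 M q hqM A ζ hζ hex c g) ≤ h98_w2 M q hqM A ζ hζ hex c (f + g) :=
  fun c => (h98_w2_isVal M q hqM A hA ζ hζ hex c).map_add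

theorem h98_hw1mul : ∀ (c : Fin 2) (f g : h69_F0 (M * q) (A.inertiaSubgroupIn ℚ)), f ≠ 0 → g ≠ 0 →
    h98_w1 M q hqM A ζ hζ hex c (f * g) = h98_w1 M q hqM A ζ hζ hex c f + h98_w1 M q hqM A ζ hζ hex c g :=
  fun c => (h98_w1_isVal M q hqM A hA ζ hζ hex c).map_mul

theorem h98_hw1add : ∀ (c : Fin 2) (f g : h69_F0 (M * q) (A.inertiaSubgroupIn ℚ)), f ≠ 0 → g ≠ 0 → f + g ≠ 0 →
    min (h98_w1 M q hqM A ζ hζ hex c f) (h98_w1 M q hqM A ζ hζ hex c g) ≤ h98_w1 M q hqM A ζ hζ hex c (f + g) :=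
  fun c => (h98_w1_isVal M q hqM A hA ζ hζ hex c).map_add

/-! ### The table (V0) and the values at `q` -/

theorem h98_hV0a0 : ∀ g : h69_F0 (M * q) (A.inertiaSubgroupIn ℚ), g ≠ 0 →
    h98_w2 M q hqM A ζ hζ hex 0 (h70_aF0 (M * q) q (A.inertiaSubgroupIn ℚ) g) = h98_w1 M q hqM A ζ hζ hex 0 g := by
  intro g hg
  refine h98_v1_eq M q hqM A hA ζ hζ hex _ _ ?_
  rw [h70_coe_aF0, coe_heckeAlphaBar]
  exact h98_wF_spec M q hqM A ζ hζ hex g hg

theorem h98_hV0a1 : ∀ g : h69_F0 (M * q) (A.inertiaSubgroupIn ℚ), g ≠ 0 →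
    h98_w2 M q hqM A ζ hζ hex 1 (h70_aF0 (M * q) q (A.inertiaSubgroupIn ℚ) g)
      = ((q : ℤ) - 1) * h98_w1 M q hqM A ζ hζ hex 0 g := by
  intro g hg
  have hq : q.Prime := Fact.out
  refine h98_v2_eq M q hqM A hA ζ hζ hex _ _ ?_
  have h1 := h98_V0_i0_mid M q A hA (h36_i0 M q) (h98_midP M q hqM) (h98_midP_i0 M q hqM) ζ hζ
    (g : modularFunctionFieldBar (M * q)) _ (h98_wF_spec M q hqM A ζ hζ hex g hg)
  have e : ((q - 1 : ℕ) : ℤ) = (q : ℤ) - 1 := by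
    rw [Nat.cast_sub hq.one_le, Nat.cast_one]
  rw [e] at h1
  exact h1

theorem h98_hV0a2 : ∀ g : h69_F0 (M * q) (A.inertiaSubgroupIn ℚ), g ≠ 0 →
    h98_w2 M q hqM A ζ hζ hex 2 (h70_aF0 (M * q) q (A.inertiaSubgroupIn ℚ) g) = h98_w1 M q hqM A ζ hζ hex 1 g := by
  intro g hg
  refine h98_v3_eq M q hqM A hA ζ hζ hex _ _ ?_
  exact h98_V0_i0_conj M q hqM A (h36_i0 M q) (h36_i2 M q hqM) (h98_hi2 M q hqM)
    (h36_W M q hqM) (h36_W_i0 M q hqM) (q : Qb) (g : modularFunctionFieldBar (M * q)) _ (h98_wV_spec M q hqM A ζ hζ hex g hg)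

theorem h98_hV0b0 : ∀ g : h69_F0 (M * q) (A.inertiaSubgroupIn ℚ), g ≠ 0 →
    h98_w2 M q hqM A ζ hζ hex 0 (h70_bF0 (M * q) q (A.inertiaSubgroupIn ℚ) g) = h98_w1 M q hqM A ζ hζ hex 0 g := by
  intro g hg
  refine h98_v1_eq M q hqM A hA ζ hζ hex _ _ ?_
  exact h98_V0_sh_std M q A (q : Qb) (g : modularFunctionFieldBar (M * q)) _ (h98_wF_spec M q hqM A ζ hζ hex g hg)

omit hA in
theorem h98_coe_natCast (n : ℕ) :
    (((n : h69_F0 (M * q * q) (A.inertiaSubgroupIn ℚ)) : modularFunctionFieldBar (M * q * q)) : LaurentSeries Qb) = algebraMap Qb (LaurentSeries Qb) (n : Qb) := by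
  rw [map_natCast]
  rfl

theorem h98_hq0 : h98_w2 M q hqM A ζ hζ hex 0 (q : h69_F0 (M * q * q) (A.inertiaSubgroupIn ℚ)) = 1 := by
  refine h98_v1_eq M q hqM A hA ζ hζ hex _ _ ?_
  rw [h98_coe_natCast]
  exact h98_GV_pi (h98_q_unif q A hA).1

theorem h98_hq1 : h98_w2 M q hqM A ζ hζ hex 1 (q : h69_F0 (M * q * q) (A.inertiaSubgroupIn ℚ)) = (q : ℤ) - 1 := by
  have hq : q.Prime := Fact.out
  refine h98_v2_eq M q hqM A hA ζ hζ hex _ _ ?_
  have e : h98_midP M q hqM ζ hζ ((q : h69_F0 (M * q * q) (A.inertiaSubgroupIn ℚ)) : modularFunctionFieldBar (M * q * q))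
      = algebraMap Qb (LaurentSeries Qb) (q : Qb) := by
    have e1 : ((q : h69_F0 (M * q * q) (A.inertiaSubgroupIn ℚ)) : modularFunctionFieldBar (M * q * q)) = (q : modularFunctionFieldBar (M * q * q)) := rfl
    rw [e1, map_natCast, map_natCast]
  rw [e, ← Nat.cast_one (R := ℤ), ← Nat.cast_sub hq.one_le]
  exact h98_GV_q_zeta q A hA ζ hζ

theorem h98_hq2 : h98_w2 M q hqM A ζ hζ hex 2 (q : h69_F0 (M * q * q) (A.inertiaSubgroupIn ℚ)) = 1 := by
  refine h98_v3_eq M q hqM A hA ζ hζ hex _ _ ?_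
  have e : ((h36_W M q hqM ((q : h69_F0 (M * q * q) (A.inertiaSubgroupIn ℚ)) : modularFunctionFieldBar (M * q * q)) : modularFunctionFieldBar (M * q * q)) : LaurentSeries Qb)
      = algebraMap Qb (LaurentSeries Qb) (q : Qb) := by
    have e1 : ((q : h69_F0 (M * q * q) (A.inertiaSubgroupIn ℚ)) : modularFunctionFieldBar (M * q * q)) = (q : modularFunctionFieldBar (M * q * q)) := rfl
    rw [e1, map_natCast, map_natCast]
    rfl
  rw [e]
  exact h98_GV_pi (h98_q_unif q A hA).1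

/-! ### (N1): valuations of the norms -/

omit hex in
/-- The family `E i = mid (ζ ^ (i + 1))` with the transfer of Gauss orders on inertia-fixed
functions. -/
theorem h98_midfam :
    ∃ E : Fin (q - 1) → modularFunctionFieldBar (M * q * q) →+* LaurentSeries Qb,
      (∀ (i : Fin (q - 1)) (e : modularFunctionFieldBar (M * q)),
        E i (heckeAlphaBar Qb (M * q) q e) = (e : LaurentSeries Qb)) ∧
      Function.Injective E ∧
      (∀ i : Fin (q - 1), E i ≠ (modularFunctionFieldBar (M * q * q)).val.toRingHom) ∧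
      ∀ (u : modularFunctionFieldBar (M * q * q)),
        (∀ τ ∈ A.inertiaSubgroupIn ℚ,
          arithmeticRingAut (modularFunctionFieldFull (M * q * q)) τ u = u) →
        ∀ n : ℤ, h98_GV A (ζ - 1) (h98_midP M q hqM ζ hζ u) n →
          ∀ i, h98_GV A (ζ - 1) (E i u) n := by
  obtain ⟨E, hEmid, hEα, hEinj, hEne⟩ := h49_mid_family M q hqM (h36_i0 M q) (h36_i2 M q hqM)
    (h98_hi0 M q) (h98_hi2 M q hqM) (h98_midP M q hqM) (h98_midP_i0 M q hqM)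
    (h98_midP_i2 M q hqM) ζ hζ
  refine ⟨E, hEα, hEinj, hEne, ?_⟩
  intro u hfix n h i
  obtain ⟨hi, hEi⟩ := hEmid i
  rw [hEi]
  exact h98_mid_GV_indep M q hqM A hA (h36_i0 M q) (h36_i2 M q hqM) (h98_hi0 M q) (h98_hi2 M q hqM) (h36_i02_gen M q hqM) (h98_midP M q hqM) (h98_midP_i0 M q hqM) (h98_midP_i2 M q hqM) ζ hζ _ hi u hfix n h

omit hex hA in
theorem h98_hWα (e : modularFunctionFieldBar (M * q)) :
    h36_W M q hqM (heckeAlphaBar Qb (M * q) q e)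
      = heckeBetaBar Qb (M * q) q (h60_w M q hqM e) :=
  h98_W_alpha M q hqM (h36_i0 M q) (h36_i2 M q hqM) (h98_hi0 M q) (h98_hi2 M q hqM)
    (h36_W M q hqM) (h36_W_i0 M q hqM) e

theorem h98_hN1aF : ∀ u : h69_F0 (M * q * q) (A.inertiaSubgroupIn ℚ), u ≠ 0 →
    h98_w1 M q hqM A ζ hζ hex 0 (h70_NaF0 (M * q) q (A.inertiaSubgroupIn ℚ) u)
      = h98_w2 M q hqM A ζ hζ hex 0 u + h98_w2 M q hqM A ζ hζ hex 1 u := by
  intro u hu
  have hq : q.Prime := Fact.out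
  refine h98_wF_eq M q hqM A hA ζ hζ hex _ _ ?_
  rw [h70_coe_NaF0]
  obtain ⟨E, hEα, hEinj, hEne, hfam⟩ := h98_midfam M q hqM A hA ζ hζ
  obtain ⟨-, -, -, ε, hε, hε', hε0, hϖ⟩ := h98_zeta_unif q A hA ζ hζ
  exact h98_nv_alpha_std (M * q) q hq (Dvd.intro_left M rfl) A E hEα hEinj hEne (ζ - 1) ε
    hε hε' hε0 hϖ (u : modularFunctionFieldBar (M * q * q)) _ _ (h98_v1_spec M q hqM A ζ hζ hex u hu)
    (hfam (u : modularFunctionFieldBar (M * q * q)) (h98_fix2 M q A u) _ (h98_v2_spec M q hqM A ζ hζ hex u hu))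

theorem h98_hN1aV : ∀ u : h69_F0 (M * q * q) (A.inertiaSubgroupIn ℚ), u ≠ 0 →
    h98_w1 M q hqM A ζ hζ hex 1 (h70_NaF0 (M * q) q (A.inertiaSubgroupIn ℚ) u)
      = (q : ℤ) * h98_w2 M q hqM A ζ hζ hex 2 u := by
  intro u hu
  haveI : CharP (IsLocalRing.ResidueField A) q := h19_residueField_charP A q hA
  refine h98_wV_eq M q hqM A hA ζ hζ hex _ _ ?_
  rw [h70_coe_NaF0]
  exact h98_nv_alpha_conj (M * q) q (Dvd.intro_left M rfl) A (h60_w M q hqM) (h60_w_w M q hqM)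
    (h36_W M q hqM) (h36_W_W M q hqM) (h98_hWα M q hqM) (u : modularFunctionFieldBar (M * q * q)) _
    (h98_v3_spec M q hqM A ζ hζ hex u hu)

theorem h98_hN1bF : ∀ u : h69_F0 (M * q * q) (A.inertiaSubgroupIn ℚ), u ≠ 0 →
    h98_w1 M q hqM A ζ hζ hex 0 (h70_NbF0 (M * q) q (A.inertiaSubgroupIn ℚ) u)
      = (q : ℤ) * h98_w2 M q hqM A ζ hζ hex 0 u := by
  intro u hu
  haveI : CharP (IsLocalRing.ResidueField A) q := h19_residueField_charP A q hA
  refine h98_wF_eq M q hqM A hA ζ hζ hex _ _ ?_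
  rw [h70_coe_NbF0]
  exact h98_nv_beta_std (M * q) q (Dvd.intro_left M rfl) A (u : modularFunctionFieldBar (M * q * q)) _
    (h98_v1_spec M q hqM A ζ hζ hex u hu)

theorem h98_hN1bV : ∀ u : h69_F0 (M * q * q) (A.inertiaSubgroupIn ℚ), u ≠ 0 →
    h98_w1 M q hqM A ζ hζ hex 1 (h70_NbF0 (M * q) q (A.inertiaSubgroupIn ℚ) u)
      = h98_w2 M q hqM A ζ hζ hex 1 u + h98_w2 M q hqM A ζ hζ hex 2 u := by
  intro u hu
  have hq : q.Prime := Fact.out
  refine h98_wV_eq M q hqM A hA ζ hζ hex _ _ ?_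
  rw [h70_coe_NbF0]
  obtain ⟨E, hEα, hEinj, hEne, hfam⟩ := h98_midfam M q hqM A hA ζ hζ
  obtain ⟨-, -, -, ε, hε, hε', hε0, hϖ⟩ := h98_zeta_unif q A hA ζ hζ
  have hmidW : h98_GV A (ζ - 1) (h98_midP M q hqM ζ hζ (h36_W M q hqM (u : modularFunctionFieldBar (M * q * q))))
      (h98_v2 M q hqM A ζ hζ hex u) :=
    h98_mid_GV_W M q hqM A hA (h36_i0 M q) (h36_i2 M q hqM) (h98_hi0 M q) (h98_hi2 M q hqM) (h36_i02_gen M q hqM) (h98_midP M q hqM) (h98_midP_i0 M q hqM) (h98_midP_i2 M q hqM) (h36_W M q hqM) (h36_W_i0 M q hqM) (h36_W_i2 M q hqM)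
      ζ hζ (u : modularFunctionFieldBar (M * q * q)) (h98_fix2 M q A u) _ (h98_v2_spec M q hqM A ζ hζ hex u hu)
  have key := h98_nv_beta_conj (M * q) q hq (Dvd.intro_left M rfl) A (h60_w M q hqM)
    (h60_w_w M q hqM) (h36_W M q hqM) (h36_W_W M q hqM) (h98_hWα M q hqM) E hEα hEinj hEne
    (ζ - 1) ε hε hε' hε0 hϖ (u : modularFunctionFieldBar (M * q * q)) _ _ (h98_v3_spec M q hqM A ζ hζ hex u hu)
    (hfam _ (h98_fix2W M q hqM A u) _ hmidW)
  rw [add_comm]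
  exact key

/-! ### Membership / reduction characterisations -/

theorem h98_v1_eq_zero_iff (f : h69_F0 (M * q * q) (A.inertiaSubgroupIn ℚ)) (hf : f ≠ 0) :
    h98_v1 M q hqM A ζ hζ hex f = 0 ↔
      ∃ h : ((f : modularFunctionFieldBar (M * q * q)) : LaurentSeries Qb) ∈ h60_Os A, h60_rs A ⟨_, h⟩ ≠ 0 :=
  h98_gv_eq_zero_iff _ (h98_q_unif q A hA).1 (h98_q_unif q A hA).2.1 (h98_q_unif q A hA).2.2 f hf

theorem h98_v1_pos_iff (f : h69_F0 (M * q * q) (A.inertiaSubgroupIn ℚ)) (hf : f ≠ 0) :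
    0 < h98_v1 M q hqM A ζ hζ hex f ↔
      ∃ h : ((f : modularFunctionFieldBar (M * q * q)) : LaurentSeries Qb) ∈ h60_Os A, h60_rs A ⟨_, h⟩ = 0 :=
  h98_gv_pos_iff _ (h98_q_unif q A hA).1 (h98_q_unif q A hA).2.1 (h98_q_unif q A hA).2.2 f hf

theorem h98_v3_eq_zero_iff (f : h69_F0 (M * q * q) (A.inertiaSubgroupIn ℚ)) (hf : f ≠ 0) :
    h98_v3 M q hqM A ζ hζ hex f = 0 ↔
      ∃ h : ((h36_W M q hqM (f : modularFunctionFieldBar (M * q * q)) : modularFunctionFieldBar (M * q * q)) : LaurentSeries Qb) ∈ h60_Os A,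
        h60_rs A ⟨_, h⟩ ≠ 0 :=
  h98_gv_eq_zero_iff _ (h98_q_unif q A hA).1 (h98_q_unif q A hA).2.1 (h98_q_unif q A hA).2.2 f hf

theorem h98_v3_pos_iff (f : h69_F0 (M * q * q) (A.inertiaSubgroupIn ℚ)) (hf : f ≠ 0) :
    0 < h98_v3 M q hqM A ζ hζ hex f ↔
      ∃ h : ((h36_W M q hqM (f : modularFunctionFieldBar (M * q * q)) : modularFunctionFieldBar (M * q * q)) : LaurentSeries Qb) ∈ h60_Os A,
        h60_rs A ⟨_, h⟩ = 0 :=
  h98_gv_pos_iff _ (h98_q_unif q A hA).1 (h98_q_unif q A hA).2.1 (h98_q_unif q A hA).2.2 f hf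

theorem h98_v2_eq_zero_iff (f : h69_F0 (M * q * q) (A.inertiaSubgroupIn ℚ)) (hf : f ≠ 0) :
    h98_v2 M q hqM A ζ hζ hex f = 0 ↔
      ∃ h : h98_midP M q hqM ζ hζ (f : modularFunctionFieldBar (M * q * q)) ∈ h60_Os A, h60_rs A ⟨_, h⟩ ≠ 0 :=
  h98_gv_eq_zero_iff _ (h98_zeta_unif q A hA ζ hζ).1 (h98_zeta_unif q A hA ζ hζ).2.1 (h98_zeta_unif q A hA ζ hζ).2.2.1 f hf

theorem h98_v2_pos_iff (f : h69_F0 (M * q * q) (A.inertiaSubgroupIn ℚ)) (hf : f ≠ 0) :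
    0 < h98_v2 M q hqM A ζ hζ hex f ↔
      ∃ h : h98_midP M q hqM ζ hζ (f : modularFunctionFieldBar (M * q * q)) ∈ h60_Os A, h60_rs A ⟨_, h⟩ = 0 :=
  h98_gv_pos_iff _ (h98_zeta_unif q A hA ζ hζ).1 (h98_zeta_unif q A hA ζ hζ).2.1 (h98_zeta_unif q A hA ζ hζ).2.2.1 f hf

theorem h98_wF_pos_iff (g : h69_F0 (M * q) (A.inertiaSubgroupIn ℚ)) (hg : g ≠ 0) :
    0 < h98_wF M q hqM A ζ hζ hex g ↔
      ∃ h : ((g : modularFunctionFieldBar (M * q)) : LaurentSeries Qb) ∈ h60_Os A, h60_rs A ⟨_, h⟩ = 0 :=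
  h98_gv_pos_iff _ (h98_q_unif q A hA).1 (h98_q_unif q A hA).2.1 (h98_q_unif q A hA).2.2 g hg

theorem h98_wF_eq_zero_iff (g : h69_F0 (M * q) (A.inertiaSubgroupIn ℚ)) (hg : g ≠ 0) :
    h98_wF M q hqM A ζ hζ hex g = 0 ↔
      ∃ h : ((g : modularFunctionFieldBar (M * q)) : LaurentSeries Qb) ∈ h60_Os A, h60_rs A ⟨_, h⟩ ≠ 0 :=
  h98_gv_eq_zero_iff _ (h98_q_unif q A hA).1 (h98_q_unif q A hA).2.1 (h98_q_unif q A hA).2.2 g hg

theorem h98_wV_pos_iff (g : h69_F0 (M * q) (A.inertiaSubgroupIn ℚ)) (hg : g ≠ 0) :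
    0 < h98_wV M q hqM A ζ hζ hex g ↔
      ∃ h : ((h60_w M q hqM (g : modularFunctionFieldBar (M * q)) : modularFunctionFieldBar (M * q)) : LaurentSeries Qb) ∈ h60_Os A,
        h60_rs A ⟨_, h⟩ = 0 :=
  h98_gv_pos_iff _ (h98_q_unif q A hA).1 (h98_q_unif q A hA).2.1 (h98_q_unif q A hA).2.2 g hg

theorem h98_wV_eq_zero_iff (g : h69_F0 (M * q) (A.inertiaSubgroupIn ℚ)) (hg : g ≠ 0) :
    h98_wV M q hqM A ζ hζ hex g = 0 ↔
      ∃ h : ((h60_w M q hqM (g : modularFunctionFieldBar (M * q)) : modularFunctionFieldBar (M * q)) : LaurentSeries Qb) ∈ h60_Os A,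
        h60_rs A ⟨_, h⟩ ≠ 0 :=
  h98_gv_eq_zero_iff _ (h98_q_unif q A hA).1 (h98_q_unif q A hA).2.1 (h98_q_unif q A hA).2.2 g hg

/-! ### (N2)-(N4): residues of the norms of units -/

theorem h98_hN2 : ∀ u : h69_F0 (M * q * q) (A.inertiaSubgroupIn ℚ), u ≠ 0 → (∀ c, h98_w2 M q hqM A ζ hζ hex c u = 0) →
    h70_aF0 (M * q) q (A.inertiaSubgroupIn ℚ) (h70_NaF0 (M * q) q (A.inertiaSubgroupIn ℚ) u) - u ^ q = 0 ∨
      0 < h98_w2 M q hqM A ζ hζ hex 2
        (h70_aF0 (M * q) q (A.inertiaSubgroupIn ℚ) (h70_NaF0 (M * q) q (A.inertiaSubgroupIn ℚ) u) - u ^ q) := by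
  intro u hu hall
  haveI : CharP (IsLocalRing.ResidueField A) q := h19_residueField_charP A q hA
  by_cases hd : h70_aF0 (M * q) q (A.inertiaSubgroupIn ℚ) (h70_NaF0 (M * q) q (A.inertiaSubgroupIn ℚ) u) - u ^ q = 0
  · exact Or.inl hd
  right
  have h3 : h98_v3 M q hqM A ζ hζ hex u = 0 := hall 2
  obtain ⟨hmem, -⟩ := (h98_v3_eq_zero_iff M q hqM A hA ζ hζ hex u hu).mp h3
  obtain ⟨h1, h2⟩ := h98_n2 (M * q) q (Dvd.intro_left M rfl) A (h60_w M q hqM)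
    (h60_w_w M q hqM) (h36_W M q hqM) (h36_W_W M q hqM) (h98_hWα M q hqM) (u : modularFunctionFieldBar (M * q * q)) hmem
  exact (h98_v3_pos_iff M q hqM A hA ζ hζ hex _ hd).mpr ⟨h1, h2⟩

theorem h98_hN3 : ∀ u : h69_F0 (M * q * q) (A.inertiaSubgroupIn ℚ), u ≠ 0 → (∀ c, h98_w2 M q hqM A ζ hζ hex c u = 0) →
    h70_bF0 (M * q) q (A.inertiaSubgroupIn ℚ) (h70_NbF0 (M * q) q (A.inertiaSubgroupIn ℚ) u) - u ^ q = 0 ∨
      0 < h98_w2 M q hqM A ζ hζ hex 0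
        (h70_bF0 (M * q) q (A.inertiaSubgroupIn ℚ) (h70_NbF0 (M * q) q (A.inertiaSubgroupIn ℚ) u) - u ^ q) := by
  intro u hu hall
  haveI : CharP (IsLocalRing.ResidueField A) q := h19_residueField_charP A q hA
  by_cases hd : h70_bF0 (M * q) q (A.inertiaSubgroupIn ℚ) (h70_NbF0 (M * q) q (A.inertiaSubgroupIn ℚ) u) - u ^ q = 0
  · exact Or.inl hd
  right
  have h3 : h98_v1 M q hqM A ζ hζ hex u = 0 := hall 0
  obtain ⟨hmem, -⟩ := (h98_v1_eq_zero_iff M q hqM A hA ζ hζ hex u hu).mp h3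
  obtain ⟨h1, h2⟩ := h98_n3 (M * q) q (Dvd.intro_left M rfl) A (u : modularFunctionFieldBar (M * q * q)) hmem
  exact (h98_v1_pos_iff M q hqM A hA ζ hζ hex _ hd).mpr ⟨h1, h2⟩

theorem h98_hN4 : ∀ u : h69_F0 (M * q * q) (A.inertiaSubgroupIn ℚ), u ≠ 0 → (∀ c, h98_w2 M q hqM A ζ hζ hex c u = 0) →
    ∀ g : h69_F0 (M * q) (A.inertiaSubgroupIn ℚ),
      (u - h70_aF0 (M * q) q (A.inertiaSubgroupIn ℚ) g = 0 ∨
        0 < h98_w2 M q hqM A ζ hζ hex 1 (u - h70_aF0 (M * q) q (A.inertiaSubgroupIn ℚ) g)) →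
      h70_aF0 (M * q) q (A.inertiaSubgroupIn ℚ) (h70_NaF0 (M * q) q (A.inertiaSubgroupIn ℚ) u)
          - u * h70_aF0 (M * q) q (A.inertiaSubgroupIn ℚ) g ^ (q - 1) = 0 ∨
        0 < h98_w2 M q hqM A ζ hζ hex 0
          (h70_aF0 (M * q) q (A.inertiaSubgroupIn ℚ) (h70_NaF0 (M * q) q (A.inertiaSubgroupIn ℚ) u)
            - u * h70_aF0 (M * q) q (A.inertiaSubgroupIn ℚ) g ^ (q - 1)) := by
  intro u hu hall g hg
  have hq : q.Prime := Fact.out
  by_cases hd : h70_aF0 (M * q) q (A.inertiaSubgroupIn ℚ) (h70_NaF0 (M * q) q (A.inertiaSubgroupIn ℚ) u)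
      - u * h70_aF0 (M * q) q (A.inertiaSubgroupIn ℚ) g ^ (q - 1) = 0
  · exact Or.inl hd
  right
  have hz := h98_zeta_unif q A hA ζ hζ
  obtain ⟨E, hEα, hEinj, hEne, hfam⟩ := h98_midfam M q hqM A hA ζ hζ
  -- `u` is a unit at the standard and at the middle expansions
  have h1 : h98_v1 M q hqM A ζ hζ hex u = 0 := hall 0
  have h2 : h98_v2 M q hqM A ζ hζ hex u = 0 := hall 1
  obtain ⟨hmem1, -⟩ := (h98_v1_eq_zero_iff M q hqM A hA ζ hζ hex u hu).mp h1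
  have hGV2 : h98_GV A (ζ - 1) (h98_midP M q hqM ζ hζ (u : modularFunctionFieldBar (M * q * q))) 0 := by
    have := h98_v2_spec M q hqM A ζ hζ hex u hu
    rwa [h2] at this
  have hE : ∀ i, E i (u : modularFunctionFieldBar (M * q * q)) ∈ h60_Os A := fun i =>
    (h98_GV_nonneg_iff hz.1 hz.2.1 hz.2.2.1 (hfam _ (h98_fix2 M q A u) 0 hGV2 i)).mp le_rfl
  -- the congruence `u ≡ α g` on the whole family
  have hgE : ∀ i, ∃ h : E i ((u : modularFunctionFieldBar (M * q * q)) - heckeAlphaBar Qb (M * q) q (g : modularFunctionFieldBar (M * q))) ∈ h60_Os A,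
      h60_rs A ⟨_, h⟩ = 0 := by
    intro i
    rcases hg with hg0 | hgpos
    · have e : (u : modularFunctionFieldBar (M * q * q)) - heckeAlphaBar Qb (M * q) q (g : modularFunctionFieldBar (M * q)) = 0 := by
        have := congrArg (fun x : h69_F0 (M * q * q) (A.inertiaSubgroupIn ℚ) => (x : modularFunctionFieldBar (M * q * q))) hg0
        exact this
      rw [e, map_zero]
      exact ⟨zero_mem _, map_zero _⟩
    · have hne : u - h70_aF0 (M * q) q (A.inertiaSubgroupIn ℚ) g ≠ 0 := by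
        intro h0
        rw [h0] at hgpos
        have : h98_w2 M q hqM A ζ hζ hex 1 (0 : h69_F0 (M * q * q) (A.inertiaSubgroupIn ℚ)) = 0 := h98_gv_zero _ _ _ _
        omega
      have hsp := h98_v2_spec M q hqM A ζ hζ hex _ hne
      have hfix := h98_fix2 M q A (u - h70_aF0 (M * q) q (A.inertiaSubgroupIn ℚ) g)
      have hi := hfam _ hfix _ hsp i
      exact (h98_GV_pos_iff hz.1 hz.2.1 hz.2.2.1 hi).mp hgpos
  obtain ⟨h5, h6⟩ := h98_n4 (M * q) q hq (Dvd.intro_left M rfl) A E hEα hEinj hEne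
    (u : modularFunctionFieldBar (M * q * q)) hmem1 hE (g : modularFunctionFieldBar (M * q)) hgE
  exact (h98_v1_pos_iff M q hqM A hA ζ hζ hex _ hd).mpr ⟨h5, h6⟩

end W2

end Fermat.Agent.S36
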