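/-
S36 / I-Q -- I-VAL bridge at level `M q` (helper69).

helper98's `h98_w1 : Fin 2 → F0(M q) → ℤ` (Gauss orders of the standard expansion of `g` resp. of
`w g`) and helper22's `h22_vq : Fin 2 → F0(M q) → ℤ` (the discrete valuations of the S34
reduction data `h60_pair = ![h60_R1, h60_R2]`, normalised by `v(q) = 1`) are THE SAME functions.

* `h69_w1_eq_vq`      : `h98_w1 .. c f = h22_vq .. c f`  (`f ≠ 0`);  `h69_w1_eq_vq_fun` (`funext`);
* `h69_w1_nonneg_iff` : `0 ≤ h98_w1 .. c f ↔ f ∈ (h60_pair .. c).O`;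
* `h69_w1_pos_iff`    : `0 < h98_w1 .. c f ↔ f ∈ (h60_pair .. c).O ∧ (h60_pair .. c).redF f = 0`;
* `h69_w1_zero_iff`   : `h98_w1 .. c f = 0 ↔ f ∈ (h60_pair .. c).O ∧ (h60_pair .. c).redF f ≠ 0`.
-/
import Mathlib
import Fermat.Agent.S36.h98_W2
import Fermat.Agent.S36.h22_VertVal

set_option autoImplicit false
set_option synthInstance.maxHeartbeats 400000
set_option linter.style.haveILetI false
set_option linter.unusedSectionVars false

noncomputable section

open ModularCurve AlgebraicCurve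

namespace Fermat.Agent.S36

open Fermat.Agent.S34 Fermat.Agent.S37 Fermat.Agent.S24 Fermat.Agent.S18

local notation "Qb" => AlgebraicClosure ℚ

section Gen

variable {K : Type*} [Field K] (A : ValuationSubring K)

/-- A unit of the Gauss ring of series has nonzero reduction. -/
theorem h69_rs_ne_zero_of_inv {s : LaurentSeries K} (hs : s ∈ h60_Os A) (hs' : s⁻¹ ∈ h60_Os A)
    (hs0 : s ≠ 0) : h60_rs A ⟨s, hs⟩ ≠ 0 := by
  intro h0
  have h1 : (⟨s, hs⟩ : h60_Os A) * ⟨s⁻¹, hs'⟩ = 1 := Subtype.ext (mul_inv_cancel₀ hs0)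
  have h2 := congrArg (h60_rs A) h1
  rw [map_mul, h0, zero_mul, map_one] at h2
  exact zero_ne_one h2

end Gen

section Bridge

variable (M q : ℕ) [NeZero M] [NeZero q] [Fact q.Prime] (hqM : ¬ q ∣ M)
  (A : ValuationSubring Qb) (hA : A.LiesOverPrime q) (ζ : Qb) (hζ : IsPrimitiveRoot ζ q)
  (hex : h98_Ex M q hqM A ζ hζ)

include hA

/-- **`h98_w1 = h22_vq`** on nonzero inertia-fixed functions of level `M q`. -/
theorem h69_w1_eq_vq (c : Fin 2) (f : h69_F0 (M * q) (A.inertiaSubgroupIn ℚ)) (hf : f ≠ 0) :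
    h98_w1 M q hqM A ζ hζ hex c f = h22_vq M q hqM A hA c f := by
  have hq : q.Prime := Fact.out
  have hq0 : (q : Qb) ≠ 0 := Nat.cast_ne_zero.mpr hq.ne_zero
  have hf' : (f : modularFunctionFieldBar (M * q)) ≠ 0 := fun h => hf (Subtype.ext h)
  set n : ℤ := h22_vq M q hqM A hA c f with hn
  obtain ⟨hu, hu'⟩ := h22_vq_unit M q hqM A hA c f hf
  rw [← hn] at hu hu'
  set u : modularFunctionFieldBar (M * q) :=
    (h22_piF M q ^ n)⁻¹ * (f : modularFunctionFieldBar (M * q)) with hudef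
  have hu0 : u ≠ 0 := mul_ne_zero (inv_ne_zero (zpow_ne_zero _ (h22_piF_ne M q))) hf'
  -- `u` in terms of constants
  have hpi : (h22_piF M q ^ n)⁻¹
      = algebraMap Qb (modularFunctionFieldBar (M * q)) ((q : Qb) ^ (-n)) := by
    unfold h22_piF
    rw [zpow_neg, map_inv₀, map_zpow₀]
  fin_cases c
  · -- `Z_F`
    have hu1 : u ∈ (h60_R1 M q hqM A hA).O := hu
    have hu1' : u⁻¹ ∈ (h60_R1 M q hqM A hA).O := hu'
    have h1 : ((u : modularFunctionFieldBar (M * q)) : LaurentSeries Qb) ∈ h60_Os A :=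
      (h60_R1_mem_iff_Os M q hqM A hA u).mp hu1
    have h2 : (((u⁻¹ : modularFunctionFieldBar (M * q))) : LaurentSeries Qb) ∈ h60_Os A :=
      (h60_R1_mem_iff_Os M q hqM A hA u⁻¹).mp hu1'
    have e2 : (((u⁻¹ : modularFunctionFieldBar (M * q))) : LaurentSeries Qb)
        = ((u : modularFunctionFieldBar (M * q)) : LaurentSeries Qb)⁻¹ :=
      map_inv₀ (h98_coe (M * q)) u
    rw [e2] at h2
    have hs0 : ((u : modularFunctionFieldBar (M * q)) : LaurentSeries Qb) ≠ 0 :=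
      (map_ne_zero (h98_coe (M * q))).mpr hu0
    have hrs := h69_rs_ne_zero_of_inv A h1 h2 hs0
    have e : algebraMap Qb (LaurentSeries Qb) ((q : Qb) ^ (-n))
        * ((f : modularFunctionFieldBar (M * q)) : LaurentSeries Qb)
        = ((u : modularFunctionFieldBar (M * q)) : LaurentSeries Qb) := by
      rw [hudef, hpi]
      rfl
    exact h98_wF_eq M q hqM A hA ζ hζ hex f n (h98_GV_of_eq h1 hrs e)
  · -- `Z_V`
    have hu1 : h60_w M q hqM u ∈ (h60_R1 M q hqM A hA).O := hu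
    have hu1' : h60_w M q hqM u⁻¹ ∈ (h60_R1 M q hqM A hA).O := hu'
    have h1 : ((h60_w M q hqM u : modularFunctionFieldBar (M * q)) : LaurentSeries Qb)
        ∈ h60_Os A := (h60_R1_mem_iff_Os M q hqM A hA _).mp hu1
    have h2 : ((h60_w M q hqM u⁻¹ : modularFunctionFieldBar (M * q)) : LaurentSeries Qb)
        ∈ h60_Os A := (h60_R1_mem_iff_Os M q hqM A hA _).mp hu1'
    have e2 : ((h60_w M q hqM u⁻¹ : modularFunctionFieldBar (M * q)) : LaurentSeries Qb)
        = ((h60_w M q hqM u : modularFunctionFieldBar (M * q)) : LaurentSeries Qb)⁻¹ := by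
      rw [map_inv₀ (h60_w M q hqM) u]
      exact map_inv₀ (h98_coe (M * q)) _
    rw [e2] at h2
    have hs0 : ((h60_w M q hqM u : modularFunctionFieldBar (M * q)) : LaurentSeries Qb) ≠ 0 :=
      (map_ne_zero (h98_coe (M * q))).mpr ((map_ne_zero (h60_w M q hqM)).mpr hu0)
    have hrs := h69_rs_ne_zero_of_inv A h1 h2 hs0
    have e : algebraMap Qb (LaurentSeries Qb) ((q : Qb) ^ (-n))
        * ((h60_w M q hqM (f : modularFunctionFieldBar (M * q)) :
            modularFunctionFieldBar (M * q)) : LaurentSeries Qb)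
        = ((h60_w M q hqM u : modularFunctionFieldBar (M * q)) : LaurentSeries Qb) := by
      rw [hudef, hpi, map_mul, h60_w_algebraMap]
      rfl
    exact h98_wV_eq M q hqM A hA ζ hζ hex f n (h98_GV_of_eq h1 hrs e)

/-- **`h98_w1 = h22_vq`** as functions. -/
theorem h69_w1_eq_vq_fun :
    h98_w1 M q hqM A ζ hζ hex = h22_vq M q hqM A hA := by
  funext c f
  by_cases hf : f = 0
  · subst hf
    have h1 : h98_w1 M q hqM A ζ hζ hex c 0 = 0 := by
      fin_cases c
      · show h98_wF M q hqM A ζ hζ hex 0 = 0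
        unfold h98_wF
        exact h98_gv_zero _ _ _ _
      · show h98_wV M q hqM A ζ hζ hex 0 = 0
        unfold h98_wV
        exact h98_gv_zero _ _ _ _
    have h2 : h22_vq M q hqM A hA c 0 = 0 := by
      unfold h22_vq h22_dv
      rw [dif_neg]
      rintro ⟨n, hn⟩
      have h3 : (h60_pair M q hqM A hA c).O.valuation
          ((0 : h69_F0 (M * q) (A.inertiaSubgroupIn ℚ)) : modularFunctionFieldBar (M * q)) = 0 :=
        map_zero _
      rw [h3] at hn
      have h4 : (h60_pair M q hqM A hA c).O.valuation (h22_piF M q) ≠ 0 :=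
        (map_ne_zero _).mpr (h22_piF_ne M q)
      exact zpow_ne_zero n h4 hn.symm
    rw [h1, h2]
  · exact h69_w1_eq_vq M q hqM A hA ζ hζ hex c f hf

/-- **(Q-VAL) for `h98_w1`, nonnegativity**: `0 ≤ w1 c f ↔ f ∈ O_c`. -/
theorem h69_w1_nonneg_iff (c : Fin 2) (f : h69_F0 (M * q) (A.inertiaSubgroupIn ℚ)) (hf : f ≠ 0) :
    0 ≤ h98_w1 M q hqM A ζ hζ hex c f ↔
      (f : modularFunctionFieldBar (M * q)) ∈ (h60_pair M q hqM A hA c).O := by
  rw [h69_w1_eq_vq M q hqM A hA ζ hζ hex c f hf]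
  exact h22_vq_nonneg_iff M q hqM A hA c f hf

/-- **(Q-VAL) for `h98_w1`, positivity**: `0 < w1 c f ↔ f ∈ O_c ∧ red_c f = 0`. -/
theorem h69_w1_pos_iff (c : Fin 2) (f : h69_F0 (M * q) (A.inertiaSubgroupIn ℚ)) (hf : f ≠ 0) :
    0 < h98_w1 M q hqM A ζ hζ hex c f ↔
      (f : modularFunctionFieldBar (M * q)) ∈ (h60_pair M q hqM A hA c).O ∧
        (h60_pair M q hqM A hA c).redF (f : modularFunctionFieldBar (M * q)) = 0 := by
  rw [h69_w1_eq_vq M q hqM A hA ζ hζ hex c f hf]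
  exact h22_vq_pos_iff_red M q hqM A hA c f hf

/-- **(Q-VAL) for `h98_w1`, units**: `w1 c f = 0 ↔ f ∈ O_c ∧ red_c f ≠ 0`. -/
theorem h69_w1_zero_iff (c : Fin 2) (f : h69_F0 (M * q) (A.inertiaSubgroupIn ℚ)) (hf : f ≠ 0) :
    h98_w1 M q hqM A ζ hζ hex c f = 0 ↔
      (f : modularFunctionFieldBar (M * q)) ∈ (h60_pair M q hqM A hA c).O ∧
        (h60_pair M q hqM A hA c).redF (f : modularFunctionFieldBar (M * q)) ≠ 0 := by
  have h1 := h69_w1_nonneg_iff M q hqM A hA ζ hζ hex c f hf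
  have h2 := h69_w1_pos_iff M q hqM A hA ζ hζ hex c f hf
  constructor
  · intro h0
    have hO := h1.mp (by rw [h0])
    refine ⟨hO, fun hr => ?_⟩
    have := h2.mpr ⟨hO, hr⟩
    omega
  · rintro ⟨hO, hr⟩
    have h3 := h1.mpr hO
    have h4 : ¬ 0 < h98_w1 M q hqM A ζ hζ hex c f := fun h => hr (h2.mp h).2
    omega

end Bridge

end Fermat.Agent.S36
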