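import Mathlib
import Fermat.Agent.S36.h22_QInst
import Fermat.Agent.S36.h69_W1Bridge
import Fermat.Agent.S36.h67_CountMod

/-!
# S36 / I-PTS (M8), binder `hUw` (helper22): local equations of the two verticals at the
level-`Mq` nodes of the `j`-chart family

`V1 := h80_fam1 (M q) I w ..` the `j`-chart family of level `M q`, verticals `Sum.inl 0 = Z_F`,
`Sum.inl 1 = Z_V`.  At every maximal ideal `s` of the chart ring through which BOTH verticals
pass there are `e_F`, `e_V` with `v_F e_F = 1`, `v_V e_V = 1`, each a unit at every other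
valuation through `s` (the node is an ordinary double point `a_F b_V = q ψ`).

* `h22_hUw_gen`    : for ANY vertical family `w` with the (Q-VAL) characterisation `hw0`, `hw1`
  and `w c q = 1`, from the node data (`hunion`, `hS1`);
* `h22_hUw_98`     : the same at `w := h98_w1`;
* `h22_hUw_closed` : at `w := h98_w1`, the node data discharged (`h65_hunion_inst`,
  `h67_cnt_mod_ex`); hypotheses `hch`, `nuTwo M = 0`, `nuThree M = 0` only.
  This is the binder `hUw` of `h62_pts_mod` verbatim.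
-/

set_option autoImplicit false
set_option linter.unusedSectionVars false

noncomputable section

open AlgebraicCurve ModularCurve IntermediateField

namespace Fermat.Agent.S36

open Fermat.Agent.S34 Fermat.Agent.S18 Fermat.Agent.S37 Fermat.Agent.S24 Fermat.Agent.S27

local notation "Qb" => AlgebraicClosure ℚ

/-- Generic: at a point `s` with the valuation `i` through it, a relation `a b = π ψ` with
`ψ ∉ s` and `v_i π = 1` gives `v_i a + v_i b = 1`. -/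
theorem h22_node_sum {F : Type*} [Field F] {ι : Type*} (V : h80_ValFam F ι) (s : Ideal V.B)
    (i : ι) (hi : V.Through s i) (a b ψ : V.B) (π : F) (ha : (a : F) ≠ 0) (hb : (b : F) ≠ 0)
    (hπ : π ≠ 0) (hrel : (a : F) * b = π * ψ) (hψ : ψ ∉ s) (hπi : V.v i π = 1) :
    V.v i a + V.v i b = 1 := by
  have hψ0 : (ψ : F) ≠ 0 := by
    intro h0
    apply hψ
    have : ψ = 0 := Subtype.ext h0
    rw [this]
    exact s.zero_mem
  have hψv : V.v i ψ = 0 := by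
    have h0 : 0 ≤ V.v i ψ := (V.mem_B _ hψ0).mp ψ.2 i
    by_contra hne
    exact hψ (hi ψ hψ0 (lt_of_le_of_ne h0 (Ne.symm hne)))
  have e1 := V.map_mul i _ _ ha hb
  have e2 := V.map_mul i _ _ hπ hψ0
  rw [hrel, e2, hψv, hπi] at e1
  omega

section NodeU

variable (M q : ℕ) [NeZero M] [NeZero q] [Fact q.Prime] (hqM : ¬ q ∣ M)
  (A : ValuationSubring Qb) (hA : A.LiesOverPrime q)
  (Pinf P0 : Place Qb ↥(modularFunctionFieldBar (M * q)))

section Gen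

variable (w : Fin 2 → ↥(h69_F0 (M * q) (A.inertiaSubgroupIn ℚ)) → ℤ)
  (hw_mul : ∀ c (f g : ↥(h69_F0 (M * q) (A.inertiaSubgroupIn ℚ))), f ≠ 0 → g ≠ 0 →
    w c (f * g) = w c f + w c g)
  (hw_add : ∀ c (f g : ↥(h69_F0 (M * q) (A.inertiaSubgroupIn ℚ))), f ≠ 0 → g ≠ 0 → f + g ≠ 0 →
    min (w c f) (w c g) ≤ w c (f + g))
  (hw0 : ∀ c (f : ↥(h69_F0 (M * q) (A.inertiaSubgroupIn ℚ))), f ≠ 0 →
    (0 ≤ w c f ↔ (f : ↥(modularFunctionFieldBar (M * q))) ∈ (h60_pair M q hqM A hA c).O))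
  (hw1 : ∀ c (f : ↥(h69_F0 (M * q) (A.inertiaSubgroupIn ℚ))), f ≠ 0 →
    (0 < w c f ↔ (f : ↥(modularFunctionFieldBar (M * q))) ∈ (h60_pair M q hqM A hA c).O ∧
      (h60_pair M q hqM A hA c).redF (f : ↥(modularFunctionFieldBar (M * q))) = 0))
  (hwq : ∀ c, w c ((q : ℕ) : ↥(h69_F0 (M * q) (A.inertiaSubgroupIn ℚ))) = 1)
  (hPinf : h10_IsCusp (modularFunctionFieldBar (M * q)) Pinf)
  (hP0 : h10_IsCusp0 M q (h60_w M q hqM) P0)
  [IsAlgClosed (IsLocalRing.ResidueField A)]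
  (Qinf : Place (IsLocalRing.ResidueField A)
    ↥(modularFunctionFieldFullC (IsLocalRing.ResidueField A) M))
  (Sg : Finset (Place (IsLocalRing.ResidueField A)
    ↥(modularFunctionFieldFullC (IsLocalRing.ResidueField A) M)))
  (Φ : Place (IsLocalRing.ResidueField A)
      ↥(modularFunctionFieldFullC (IsLocalRing.ResidueField A) M) →
    Place (IsLocalRing.ResidueField A)
      ↥(modularFunctionFieldFullC (IsLocalRing.ResidueField A) M))
  (hunion : ∀ a : ↥(modularFunctionFieldFullC (IsLocalRing.ResidueField A) M) ×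
      ↥(modularFunctionFieldFullC (IsLocalRing.ResidueField A) M),
    (∃ n : ℕ, a ∈ h51_Rd (h87_D M q hqM A hA)
      (n • (Finsupp.single Pinf (1 : ℤ) + Finsupp.single P0 (1 : ℤ)))) ↔
    (∃ n : ℕ, a.1 ∈ h16_Linf Qinf n ∧ a.2 ∈ h16_Linf Qinf n) ∧
      ∀ Q ∈ Sg, ∃ c : IsLocalRing.ResidueField A, h39_Val (Φ Q) a.1 c ∧ h39_Val Q a.2 c)
  (hS1 : ∀ S ∈ Sg, ∃ (n n' : ℕ) (f g : ↥(modularFunctionFieldBar (M * q))),
    (f ∈ (h69_F0 (M * q) (A.inertiaSubgroupIn ℚ)).toSubring ∧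
      f ∈ riemannRochSpace (n • (Finsupp.single Pinf (1 : ℤ) + Finsupp.single P0 (1 : ℤ) :
        Divisor Qb ↥(modularFunctionFieldBar (M * q)))) ∧
      f ∈ (h60_R1 M q hqM A hA).O ∧ f ∈ (h60_R2 M q hqM A hA).O ∧
      (h60_R2 M q hqM A hA).redF f = 0 ∧ (Φ S).ord ((h60_R1 M q hqM A hA).redF f) = 1) ∧
    (g ∈ (h69_F0 (M * q) (A.inertiaSubgroupIn ℚ)).toSubring ∧
      g ∈ riemannRochSpace (n' • (Finsupp.single Pinf (1 : ℤ) + Finsupp.single P0 (1 : ℤ) :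
        Divisor Qb ↥(modularFunctionFieldBar (M * q)))) ∧
      g ∈ (h60_R1 M q hqM A hA).O ∧ g ∈ (h60_R2 M q hqM A hA).O ∧
      (h60_R1 M q hqM A hA).redF g = 0 ∧ S.ord ((h60_R2 M q hqM A hA).redF g) = 1) ∧
    (algebraMap Qb ↥(modularFunctionFieldBar (M * q)) (q : Qb))⁻¹ * (f * g) ∈
      (h60_R1 M q hqM A hA).O ∧
    (algebraMap Qb ↥(modularFunctionFieldBar (M * q)) (q : Qb))⁻¹ * (f * g) ∈
      (h60_R2 M q hqM A hA).O ∧
    ∃ c : IsLocalRing.ResidueField A, c ≠ 0 ∧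
      h39_Val (Φ S) ((h60_R1 M q hqM A hA).redF
        ((algebraMap Qb ↥(modularFunctionFieldBar (M * q)) (q : Qb))⁻¹ * (f * g))) c ∧
      h39_Val S ((h60_R2 M q hqM A hA).redF
        ((algebraMap Qb ↥(modularFunctionFieldBar (M * q)) (q : Qb))⁻¹ * (f * g))) c)

include hw0 hw1 hwq hPinf hP0 hunion hS1 in
/-- **`hUw`, generic vertical family**: local equations of `Z_F` and `Z_V` at every maximal ideal
of the `j`-chart ring of level `M q` through which both verticals pass. -/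
theorem h22_hUw_gen :
    ∀ s : Ideal (h80_fam1 (M * q) (A.inertiaSubgroupIn ℚ) w hw_mul hw_add).B, s.IsMaximal →
      (h80_fam1 (M * q) (A.inertiaSubgroupIn ℚ) w hw_mul hw_add).Through s (Sum.inl 0) →
      (h80_fam1 (M * q) (A.inertiaSubgroupIn ℚ) w hw_mul hw_add).Through s (Sum.inl 1) →
      (∃ e : ↥(h69_F0 (M * q) (A.inertiaSubgroupIn ℚ)), e ≠ 0 ∧
        (h80_fam1 (M * q) (A.inertiaSubgroupIn ℚ) w hw_mul hw_add).v (Sum.inl 0) e = 1 ∧
        ∀ j, (h80_fam1 (M * q) (A.inertiaSubgroupIn ℚ) w hw_mul hw_add).Through s j →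
          j ≠ Sum.inl 0 →
          (h80_fam1 (M * q) (A.inertiaSubgroupIn ℚ) w hw_mul hw_add).v j e = 0) ∧
      (∃ e : ↥(h69_F0 (M * q) (A.inertiaSubgroupIn ℚ)), e ≠ 0 ∧
        (h80_fam1 (M * q) (A.inertiaSubgroupIn ℚ) w hw_mul hw_add).v (Sum.inl 1) e = 1 ∧
        ∀ j, (h80_fam1 (M * q) (A.inertiaSubgroupIn ℚ) w hw_mul hw_add).Through s j →
          j ≠ Sum.inl 1 →
          (h80_fam1 (M * q) (A.inertiaSubgroupIn ℚ) w hw_mul hw_add).v j e = 0) := by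
  intro s hs hF hV
  have hq : q.Prime := Fact.out
  have := hs.isPrime
  obtain ⟨aF, bV, ψ, h1, h2, h3, h4, h5, h6, h7, h8, h9⟩ :=
    h22_node_fam1 M q hqM A hA Pinf P0 w hw_mul hw_add hw0 hw1 hPinf hP0 Qinf Sg Φ hunion hS1
      s hF hV
  have hq0 : ((q : ℕ) : ↥(h69_F0 (M * q) (A.inertiaSubgroupIn ℚ))) ≠ 0 :=
    Nat.cast_ne_zero.mpr hq.ne_zero
  have hrel : (aF : ↥(h69_F0 (M * q) (A.inertiaSubgroupIn ℚ))) * bV =
      ((q : ℕ) : ↥(h69_F0 (M * q) (A.inertiaSubgroupIn ℚ))) * ψ := by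
    have := congrArg (Subtype.val :
      (h80_fam1 (M * q) (A.inertiaSubgroupIn ℚ) w hw_mul hw_add).B →
        ↥(h69_F0 (M * q) (A.inertiaSubgroupIn ℚ))) h3
    simpa using this
  have hvF := h22_node_sum _ s (Sum.inl 0) hF aF bV ψ _ h1 h2 hq0 hrel h4 (hwq 0)
  have hvV := h22_node_sum _ s (Sum.inl 1) hV aF bV ψ _ h1 h2 hq0 hrel h4 (hwq 1)
  rw [h8] at hvF
  rw [h7] at hvV
  refine ⟨⟨aF, h1, by omega, ?_⟩, ⟨bV, h2, by omega, ?_⟩⟩
  · rintro (c | j) hj hne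
    · fin_cases c
      · exact absurd rfl hne
      · exact h7
    · exact (h9 _ ⟨j, rfl⟩ hj).1
  · rintro (c | j) hj hne
    · fin_cases c
      · exact h8
      · exact absurd rfl hne
    · exact (h9 _ ⟨j, rfl⟩ hj).2

end Gen

/-! ### The instance `w := h98_w1` -/

section W98

variable (ζ : Qb) (hζ : IsPrimitiveRoot ζ q) (hex : h98_Ex M q hqM A ζ hζ)

include hA in
/-- `h98_w1 c q = 1` (via the bridge `h69_w1_eq_vq`). -/
theorem h22_w98_q (c : Fin 2) :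
    h98_w1 M q hqM A ζ hζ hex c ((q : ℕ) : ↥(h69_F0 (M * q) (A.inertiaSubgroupIn ℚ))) = 1 := by
  have hq : q.Prime := Fact.out
  rw [h69_w1_eq_vq M q hqM A hA ζ hζ hex c _ (Nat.cast_ne_zero.mpr hq.ne_zero)]
  exact h22_vq_q M q hqM A hA c

variable (hPinf : h10_IsCusp (modularFunctionFieldBar (M * q)) Pinf)
  (hP0 : h10_IsCusp0 M q (h60_w M q hqM) P0)
  [IsAlgClosed (IsLocalRing.ResidueField A)]
  (Qinf : Place (IsLocalRing.ResidueField A)
    ↥(modularFunctionFieldFullC (IsLocalRing.ResidueField A) M))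
  (Sg : Finset (Place (IsLocalRing.ResidueField A)
    ↥(modularFunctionFieldFullC (IsLocalRing.ResidueField A) M)))
  (Φ : Place (IsLocalRing.ResidueField A)
      ↥(modularFunctionFieldFullC (IsLocalRing.ResidueField A) M) →
    Place (IsLocalRing.ResidueField A)
      ↥(modularFunctionFieldFullC (IsLocalRing.ResidueField A) M))
  (hunion : ∀ a : ↥(modularFunctionFieldFullC (IsLocalRing.ResidueField A) M) ×
      ↥(modularFunctionFieldFullC (IsLocalRing.ResidueField A) M),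
    (∃ n : ℕ, a ∈ h51_Rd (h87_D M q hqM A hA)
      (n • (Finsupp.single Pinf (1 : ℤ) + Finsupp.single P0 (1 : ℤ)))) ↔
    (∃ n : ℕ, a.1 ∈ h16_Linf Qinf n ∧ a.2 ∈ h16_Linf Qinf n) ∧
      ∀ Q ∈ Sg, ∃ c : IsLocalRing.ResidueField A, h39_Val (Φ Q) a.1 c ∧ h39_Val Q a.2 c)
  (hS1 : ∀ S ∈ Sg, ∃ (n n' : ℕ) (f g : ↥(modularFunctionFieldBar (M * q))),
    (f ∈ (h69_F0 (M * q) (A.inertiaSubgroupIn ℚ)).toSubring ∧
      f ∈ riemannRochSpace (n • (Finsupp.single Pinf (1 : ℤ) + Finsupp.single P0 (1 : ℤ) :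
        Divisor Qb ↥(modularFunctionFieldBar (M * q)))) ∧
      f ∈ (h60_R1 M q hqM A hA).O ∧ f ∈ (h60_R2 M q hqM A hA).O ∧
      (h60_R2 M q hqM A hA).redF f = 0 ∧ (Φ S).ord ((h60_R1 M q hqM A hA).redF f) = 1) ∧
    (g ∈ (h69_F0 (M * q) (A.inertiaSubgroupIn ℚ)).toSubring ∧
      g ∈ riemannRochSpace (n' • (Finsupp.single Pinf (1 : ℤ) + Finsupp.single P0 (1 : ℤ) :
        Divisor Qb ↥(modularFunctionFieldBar (M * q)))) ∧
      g ∈ (h60_R1 M q hqM A hA).O ∧ g ∈ (h60_R2 M q hqM A hA).O ∧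
      (h60_R1 M q hqM A hA).redF g = 0 ∧ S.ord ((h60_R2 M q hqM A hA).redF g) = 1) ∧
    (algebraMap Qb ↥(modularFunctionFieldBar (M * q)) (q : Qb))⁻¹ * (f * g) ∈
      (h60_R1 M q hqM A hA).O ∧
    (algebraMap Qb ↥(modularFunctionFieldBar (M * q)) (q : Qb))⁻¹ * (f * g) ∈
      (h60_R2 M q hqM A hA).O ∧
    ∃ c : IsLocalRing.ResidueField A, c ≠ 0 ∧
      h39_Val (Φ S) ((h60_R1 M q hqM A hA).redF
        ((algebraMap Qb ↥(modularFunctionFieldBar (M * q)) (q : Qb))⁻¹ * (f * g))) c ∧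
      h39_Val S ((h60_R2 M q hqM A hA).redF
        ((algebraMap Qb ↥(modularFunctionFieldBar (M * q)) (q : Qb))⁻¹ * (f * g))) c)

include hPinf hP0 hunion hS1 in
/-- **`hUw` at `w := h98_w1`**, from the node data. -/
theorem h22_hUw_98 :
    ∀ s : Ideal (h80_fam1 (M * q) (A.inertiaSubgroupIn ℚ) (h98_w1 M q hqM A ζ hζ hex)
        (h98_hw1mul M q hqM A hA ζ hζ hex) (h98_hw1add M q hqM A hA ζ hζ hex)).B, s.IsMaximal →
      (h80_fam1 (M * q) (A.inertiaSubgroupIn ℚ) (h98_w1 M q hqM A ζ hζ hex)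
        (h98_hw1mul M q hqM A hA ζ hζ hex) (h98_hw1add M q hqM A hA ζ hζ hex)).Through s
          (Sum.inl 0) →
      (h80_fam1 (M * q) (A.inertiaSubgroupIn ℚ) (h98_w1 M q hqM A ζ hζ hex)
        (h98_hw1mul M q hqM A hA ζ hζ hex) (h98_hw1add M q hqM A hA ζ hζ hex)).Through s
          (Sum.inl 1) →
      (∃ e : ↥(h69_F0 (M * q) (A.inertiaSubgroupIn ℚ)), e ≠ 0 ∧
        (h80_fam1 (M * q) (A.inertiaSubgroupIn ℚ) (h98_w1 M q hqM A ζ hζ hex)
          (h98_hw1mul M q hqM A hA ζ hζ hex) (h98_hw1add M q hqM A hA ζ hζ hex)).v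
            (Sum.inl 0) e = 1 ∧
        ∀ j, (h80_fam1 (M * q) (A.inertiaSubgroupIn ℚ) (h98_w1 M q hqM A ζ hζ hex)
          (h98_hw1mul M q hqM A hA ζ hζ hex) (h98_hw1add M q hqM A hA ζ hζ hex)).Through s j →
          j ≠ Sum.inl 0 →
          (h80_fam1 (M * q) (A.inertiaSubgroupIn ℚ) (h98_w1 M q hqM A ζ hζ hex)
            (h98_hw1mul M q hqM A hA ζ hζ hex) (h98_hw1add M q hqM A hA ζ hζ hex)).v j e = 0) ∧
      (∃ e : ↥(h69_F0 (M * q) (A.inertiaSubgroupIn ℚ)), e ≠ 0 ∧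
        (h80_fam1 (M * q) (A.inertiaSubgroupIn ℚ) (h98_w1 M q hqM A ζ hζ hex)
          (h98_hw1mul M q hqM A hA ζ hζ hex) (h98_hw1add M q hqM A hA ζ hζ hex)).v
            (Sum.inl 1) e = 1 ∧
        ∀ j, (h80_fam1 (M * q) (A.inertiaSubgroupIn ℚ) (h98_w1 M q hqM A ζ hζ hex)
          (h98_hw1mul M q hqM A hA ζ hζ hex) (h98_hw1add M q hqM A hA ζ hζ hex)).Through s j →
          j ≠ Sum.inl 1 →
          (h80_fam1 (M * q) (A.inertiaSubgroupIn ℚ) (h98_w1 M q hqM A ζ hζ hex)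
            (h98_hw1mul M q hqM A hA ζ hζ hex) (h98_hw1add M q hqM A hA ζ hζ hex)).v j e = 0) :=
  h22_hUw_gen M q hqM A hA Pinf P0 (h98_w1 M q hqM A ζ hζ hex)
    (h98_hw1mul M q hqM A hA ζ hζ hex) (h98_hw1add M q hqM A hA ζ hζ hex)
    (fun c f hf => h69_w1_nonneg_iff M q hqM A hA ζ hζ hex c f hf)
    (fun c f hf => h69_w1_pos_iff M q hqM A hA ζ hζ hex c f hf)
    (h22_w98_q M q hqM A hA ζ hζ hex) hPinf hP0 Qinf Sg Φ hunion hS1

end W98

/-! ### The closed form -/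

section Closed

variable (ζ : Qb) (hζ : IsPrimitiveRoot ζ q) (hex : h98_Ex M q hqM A ζ hζ)

/-- **`hUw` of `h62_pts_mod`, CLOSED** (level `M` without elliptic points): the local equations
of the two verticals at every level-`Mq` node of the `j`-chart family `h80_fam1 (M q) I h98_w1`. -/
theorem h22_hUw_closed (hch : 5 ≤ q ∨ 2 ∣ M ∨ 3 ∣ M) (h2 : nuTwo M = 0) (h3 : nuThree M = 0) :
    ∀ s : Ideal (h80_fam1 (M * q) (A.inertiaSubgroupIn ℚ) (h98_w1 M q hqM A ζ hζ hex)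
        (h98_hw1mul M q hqM A hA ζ hζ hex) (h98_hw1add M q hqM A hA ζ hζ hex)).B, s.IsMaximal →
      (h80_fam1 (M * q) (A.inertiaSubgroupIn ℚ) (h98_w1 M q hqM A ζ hζ hex)
        (h98_hw1mul M q hqM A hA ζ hζ hex) (h98_hw1add M q hqM A hA ζ hζ hex)).Through s
          (Sum.inl 0) →
      (h80_fam1 (M * q) (A.inertiaSubgroupIn ℚ) (h98_w1 M q hqM A ζ hζ hex)
        (h98_hw1mul M q hqM A hA ζ hζ hex) (h98_hw1add M q hqM A hA ζ hζ hex)).Through s
          (Sum.inl 1) →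
      (∃ e : ↥(h69_F0 (M * q) (A.inertiaSubgroupIn ℚ)), e ≠ 0 ∧
        (h80_fam1 (M * q) (A.inertiaSubgroupIn ℚ) (h98_w1 M q hqM A ζ hζ hex)
          (h98_hw1mul M q hqM A hA ζ hζ hex) (h98_hw1add M q hqM A hA ζ hζ hex)).v
            (Sum.inl 0) e = 1 ∧
        ∀ j, (h80_fam1 (M * q) (A.inertiaSubgroupIn ℚ) (h98_w1 M q hqM A ζ hζ hex)
          (h98_hw1mul M q hqM A hA ζ hζ hex) (h98_hw1add M q hqM A hA ζ hζ hex)).Through s j →
          j ≠ Sum.inl 0 →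
          (h80_fam1 (M * q) (A.inertiaSubgroupIn ℚ) (h98_w1 M q hqM A ζ hζ hex)
            (h98_hw1mul M q hqM A hA ζ hζ hex) (h98_hw1add M q hqM A hA ζ hζ hex)).v j e = 0) ∧
      (∃ e : ↥(h69_F0 (M * q) (A.inertiaSubgroupIn ℚ)), e ≠ 0 ∧
        (h80_fam1 (M * q) (A.inertiaSubgroupIn ℚ) (h98_w1 M q hqM A ζ hζ hex)
          (h98_hw1mul M q hqM A hA ζ hζ hex) (h98_hw1add M q hqM A hA ζ hζ hex)).v
            (Sum.inl 1) e = 1 ∧
        ∀ j, (h80_fam1 (M * q) (A.inertiaSubgroupIn ℚ) (h98_w1 M q hqM A ζ hζ hex)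
          (h98_hw1mul M q hqM A hA ζ hζ hex) (h98_hw1add M q hqM A hA ζ hζ hex)).Through s j →
          j ≠ Sum.inl 1 →
          (h80_fam1 (M * q) (A.inertiaSubgroupIn ℚ) (h98_w1 M q hqM A ζ hζ hex)
            (h98_hw1mul M q hqM A hA ζ hζ hex) (h98_hw1add M q hqM A hA ζ hζ hex)).v j e = 0) := by
  have : IsAlgClosed (IsLocalRing.ResidueField A) := h19_residueField_isAlgClosed A
  have : CharP (IsLocalRing.ResidueField A) q := h19_residueField_charP A q hA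
  obtain ⟨Pinf, P0, hPinf, hP0⟩ := h65_exists_cusps M q hqM
  obtain ⟨Sg, hSg, hunion⟩ := h65_hunion_inst M q hqM hch A hA hPinf hP0
  have := h67_cnt_hpd M q hqM A hA hch
  obtain ⟨T, -, H⟩ := h67_cnt_mod_ex M q hqM A hA hch h2 h3 hPinf hP0 Sg
    (h96_frobPerm (h84_isFrobChart_jk M q hqM A hA))
    (h96_frobPerm (h84_isFrobChart_jk M q hqM A hA)).injective
    (fun Q hQ => ⟨(hSg Q hQ).1, (hSg Q hQ).2.1⟩) hunion
  exact h22_hUw_98 M q hqM A hA Pinf P0 ζ hζ hex hPinf hP0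
    (h11_placeInftyC (IsLocalRing.ResidueField A) M) Sg
    (h96_frobPerm (h84_isFrobChart_jk M q hqM A hA)) hunion (fun S hS => H.S1 hS)

end Closed

end NodeU

end Fermat.Agent.S36

end
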