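import Mathlib
import Fermat.Agent.S36.h80_LocGen
import Fermat.Agent.S36.h62_NodeIface

/-!
# S36, row I-PTS (A): `hclass` — "two verticals through a point ⟹ all three" (helper14)

Generic on `h80_ValFam`.  `V1` is the level-`q` family (verticals `wF`, `wV`), `V2` the
level-`q²` family (verticals `P 0 = C₂₀`, `P 1 = C₁₁`, `P 2 = C₀₂`), `a b : F1 →+* F2` the two
degeneracy maps with `a (V1.B) ⊆ V2.B`, `b (V1.B) ⊆ V2.B`, both integral, and the tables

    a :  P 0 ↦ wF,  P 1 ↦ wF,  P 2 ↦ wV        b :  P 0 ↦ wF,  P 1 ↦ wV,  P 2 ↦ wV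

(`v_(P k) (φ g) = e k * v_(t k) g`, `e k ≥ 1`).  Inputs at the level-`q` nodes: elements `aF`, `bV`
of the maximal ideal with `v_wV aF = 0`, `v_wF bV = 0` and value `0` at the horizontals through
the node; `(HC)`: a horizontal through `m` lies over a horizontal through the contraction of `m`;
`(N2')`/`(N3')`: `f ^ r ≡ a g` modulo the centre of `P 2`, resp. `f ^ r ≡ b g` modulo the centre
of `P 0`.

* `h14_lo`, `h14_gu`   : **(GU)** going-up with a prescribed index through the point;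
* `h14_node_through`   : over a node, the distinguished vertical passes through every point;
* `h14_inj`            : at most one point over a given one through the distinguished vertical;
* `h14_uniq`           : **(UNIQ)** at most one point over a node;
* `h14_tp`             : **(TP)** an index over an index through the node passes through the
                         point over the node;
* `h14_all_through`    : over a node all three verticals pass through the point;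
* `h14_class`, `h14_class'` : `hclass`, `hsα`, `hsβ` in the binder shapes of `h94_nz_charts`.
-/

set_option autoImplicit false

namespace Fermat.Agent.S36

section centre

variable {F : Type*} [Field F] {ι : Type*}

/-- The centre on `V.B` of the valuation `c`: elements of positive value (and `0`). -/
def h14_centre (V : h80_ValFam F ι) (c : ι) : Ideal V.B where
  carrier := {f | (f : F) = 0 ∨ 0 < V.v c f}
  zero_mem' := Or.inl rfl
  add_mem' := by
    intro f g hf hg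
    by_cases hf0 : (f : F) = 0
    · have : f + g = g := by
        apply Subtype.ext
        simp [hf0]
      rw [this]
      exact hg
    by_cases hg0 : (g : F) = 0
    · have : f + g = f := by
        apply Subtype.ext
        simp [hg0]
      rw [this]
      exact hf
    by_cases hs : ((f + g : V.B) : F) = 0
    · exact Or.inl hs
    · right
      have hf' : 0 < V.v c f := hf.resolve_left hf0
      have hg' : 0 < V.v c g := hg.resolve_left hg0
      have hs' : (f : F) + g ≠ 0 := by simpa using hs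
      have h := V.map_add c f g hf0 hg0 hs'
      have : ((f + g : V.B) : F) = (f : F) + g := by simp
      rw [this]
      exact lt_of_lt_of_le (lt_min hf' hg') h
  smul_mem' := by
    intro b f hf
    by_cases hb0 : (b : F) = 0
    · left
      simp [hb0]
    by_cases hf0 : (f : F) = 0
    · left
      simp [hf0]
    · right
      have hf' : 0 < V.v c f := hf.resolve_left hf0
      have hb' := h80_v_nonneg V c b hb0
      have : ((b • f : V.B) : F) = (b : F) * f := by simp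
      rw [this, V.map_mul c _ _ hb0 hf0]
      omega

theorem h14_mem_centre (V : h80_ValFam F ι) (c : ι) (f : V.B) :
    f ∈ h14_centre V c ↔ (f : F) = 0 ∨ 0 < V.v c f := Iff.rfl

/-- `c` passes through `m` iff the centre of `c` is contained in `m`. -/
theorem h14_through_iff (V : h80_ValFam F ι) (m : Ideal V.B) (c : ι) :
    V.Through m c ↔ h14_centre V c ≤ m := by
  constructor
  · intro h f hf
    rcases hf with hf | hf
    · have : f = 0 := Subtype.ext hf
      rw [this]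
      exact m.zero_mem
    · by_cases hf0 : (f : F) = 0
      · have : f = 0 := Subtype.ext hf0
        rw [this]
        exact m.zero_mem
      · exact h f hf0 hf
  · intro h f hf0 hf
    exact h (Or.inr hf)

/-- A nonzero element of a prime `m` has positive value at some valuation through `m`. -/
theorem h14_exists_through_pos (V : h80_ValFam F ι) (m : Ideal V.B) [m.IsPrime] (f : V.B)
    (hf0 : (f : F) ≠ 0) (hf : f ∈ m) : ∃ i, V.Through m i ∧ 0 < V.v i f := by
  by_contra hcon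
  push Not at hcon
  have hloc : V.InLoc m (f : F)⁻¹ := by
    rw [h80_inLoc_iff V m (inv_ne_zero hf0)]
    intro i hi
    have h1 := hcon i hi
    have h2 := h80_v_nonneg V i f hf0
    rw [h80_v_inv V i hf0]
    omega
  obtain ⟨b, t, ht, hbt⟩ := hloc
  apply ht
  have : t = b * f := by
    apply Subtype.ext
    have h1 : ((b * f : V.B) : F) = (b : F) * f := by simp
    rw [h1, ← hbt, mul_assoc, inv_mul_cancel₀ hf0, mul_one]
  rw [this]
  exact m.mul_mem_left b hf

end centre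

section transfer

variable {F1 F2 : Type*} [Field F1] [Field F2] {ι1 ι2 : Type*}
  (V1 : h80_ValFam F1 ι1) (V2 : h80_ValFam F2 ι2)
  (φ : F1 →+* F2) (hφ : ∀ g ∈ V1.B, φ g ∈ V2.B)

/-- If `P` lies over `w` (positivity transfers), then `P` through `m` gives `w` through the
contraction of `m`. -/
theorem h14_through_comap (c : ι2) (w : ι1)
    (htab : ∀ g : V1.B, (g : F1) ≠ 0 → (0 < V2.v c (φ g) ↔ 0 < V1.v w g))
    (m : Ideal V2.B) (hc : V2.Through m c) :
    V1.Through (m.comap (φ.restrict V1.B V2.B hφ)) w := by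
  intro g hg0 hg
  rw [Ideal.mem_comap]
  have h1 : ((φ.restrict V1.B V2.B hφ g : V2.B) : F2) = φ g := rfl
  refine hc _ ?_ ?_
  · rw [h1]
    exact fun h => hg0 ((map_eq_zero φ).mp h)
  · rw [h1]
    exact (htab g hg0).mpr hg

/-- **(LO)** lying over with a prescribed vertical through the point. -/
theorem h14_lo (hint : (φ.restrict V1.B V2.B hφ).IsIntegral) (c : ι2) (w : ι1)
    (htab : ∀ g : V1.B, (g : F1) ≠ 0 → (0 < V2.v c (φ g) ↔ 0 < V1.v w g))
    (m1 : Ideal V1.B) [hm1 : m1.IsMaximal] (hw : V1.Through m1 w) :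
    ∃ m : Ideal V2.B, m.IsMaximal ∧ m.comap (φ.restrict V1.B V2.B hφ) = m1 ∧
      V2.Through m c := by
  have hle : (h14_centre V2 c).comap (φ.restrict V1.B V2.B hφ) ≤ m1 := by
    intro g hg
    rw [Ideal.mem_comap, h14_mem_centre] at hg
    have h1 : ((φ.restrict V1.B V2.B hφ g : V2.B) : F2) = φ g := rfl
    rw [h1] at hg
    by_cases hg0 : (g : F1) = 0
    · have : g = 0 := Subtype.ext hg0
      rw [this]
      exact m1.zero_mem
    · rcases hg with hg | hg
      · exact absurd ((map_eq_zero φ).mp hg) hg0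
      · exact hw g hg0 ((htab g hg0).mp hg)
  let _ : Algebra V1.B V2.B := (φ.restrict V1.B V2.B hφ).toAlgebra
  have : Algebra.IsIntegral V1.B V2.B := ⟨hint⟩
  have : m1.IsPrime := hm1.isPrime
  obtain ⟨Q, hQge, hQprime, hQcomap⟩ :=
    Ideal.exists_ideal_over_prime_of_isIntegral m1 (h14_centre V2 c) hle
  have hQcomap' : Q.comap (φ.restrict V1.B V2.B hφ) = m1 := hQcomap
  refine ⟨Q, ?_, hQcomap', (h14_through_iff V2 Q c).mpr hQge⟩
  exact Ideal.isMaximal_of_isIntegral_of_isMaximal_comap' (φ.restrict V1.B V2.B hφ) hint Q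
    (hQcomap'.symm ▸ hm1)

/-- **(NODE-φ)** if `x` lies in the contraction of `m`, has value `0` at the horizontals through
the contraction and at the images of all verticals but `P k0`, then `P k0` passes through `m`. -/
theorem h14_node_through (P : Fin 3 → ι2) (Hor1 : ι1 → Prop) (Hor2 : ι2 → Prop)
    (hcase : ∀ i : ι2, (∃ k, i = P k) ∨ Hor2 i) (t : Fin 3 → ι1)
    (htab : ∀ k, ∀ g : V1.B, (g : F1) ≠ 0 → (0 < V2.v (P k) (φ g) ↔ 0 < V1.v (t k) g))
    (m : Ideal V2.B) [m.IsPrime]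
    (hHC : ∀ h, Hor2 h → V2.Through m h → ∃ h1, Hor1 h1 ∧
      V1.Through (m.comap (φ.restrict V1.B V2.B hφ)) h1 ∧
      ∀ g : F1, g ≠ 0 → V1.v h1 g = 0 → V2.v h (φ g) = 0)
    (k0 : Fin 3) (x : V1.B) (hx0 : (x : F1) ≠ 0)
    (hxm : x ∈ m.comap (φ.restrict V1.B V2.B hφ))
    (hxv : ∀ k, k ≠ k0 → V1.v (t k) x = 0)
    (hxh : ∀ h1, Hor1 h1 → V1.Through (m.comap (φ.restrict V1.B V2.B hφ)) h1 → V1.v h1 x = 0) :
    V2.Through m (P k0) := by
  have h1 : ((φ.restrict V1.B V2.B hφ x : V2.B) : F2) = φ x := rfl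
  have hφx0 : φ (x : F1) ≠ 0 := fun h => hx0 ((map_eq_zero φ).mp h)
  obtain ⟨i, hi, hpos⟩ := h14_exists_through_pos V2 m (φ.restrict V1.B V2.B hφ x)
    (by rw [h1]; exact hφx0) (Ideal.mem_comap.mp hxm)
  rw [h1] at hpos
  rcases hcase i with ⟨k, rfl⟩ | hhor
  · by_cases hk : k = k0
    · rw [← hk]
      exact hi
    · exfalso
      have h2 := (htab k x hx0).mp hpos
      rw [hxv k hk] at h2
      exact lt_irrefl _ h2
  · exfalso
    obtain ⟨h1', hH1, hthr1, hval⟩ := hHC i hhor hi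
    have h2 := hval x hx0 (hxh h1' hH1 hthr1)
    rw [h2] at hpos
    exact lt_irrefl _ hpos

/-- **(INJ)** two points with the same contraction, both on the index `c`, coincide, if
`f ^ r` is congruent to an element of `φ (V1.B)` modulo the centre of `c` for every `f`. -/
theorem h14_inj (c : ι2) (r : ℕ) (hr : r ≠ 0)
    (hN : ∀ f : V2.B, ∃ g : V1.B, φ g - (f : F2) ^ r = 0 ∨ 0 < V2.v c (φ g - (f : F2) ^ r))
    (m m' : Ideal V2.B) (hm : m.IsMaximal) (hm' : m'.IsMaximal)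
    (hc : V2.Through m c) (hc' : V2.Through m' c)
    (hcomap : m.comap (φ.restrict V1.B V2.B hφ) = m'.comap (φ.restrict V1.B V2.B hφ)) :
    m = m' := by
  have hm'prime : m'.IsPrime := hm'.isPrime
  refine hm.eq_of_le hm'.ne_top ?_
  intro f hf
  obtain ⟨g, hg⟩ := hN f
  set D : V2.B := φ.restrict V1.B V2.B hφ g - f ^ r with hD
  have hDF : (D : F2) = φ g - (f : F2) ^ r := by
    rw [hD]
    rfl
  have hDc : D ∈ h14_centre V2 c := by
    rw [h14_mem_centre, hDF]
    exact hg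
  have hDm : D ∈ m := (h14_through_iff V2 m c).mp hc hDc
  have hDm' : D ∈ m' := (h14_through_iff V2 m' c).mp hc' hDc
  have hfr : f ^ r ∈ m := m.pow_mem_of_mem hf r (Nat.pos_of_ne_zero hr)
  have hgm : φ.restrict V1.B V2.B hφ g ∈ m := by
    have : φ.restrict V1.B V2.B hφ g = D + f ^ r := by rw [hD]; ring
    rw [this]
    exact m.add_mem hDm hfr
  have hgm' : φ.restrict V1.B V2.B hφ g ∈ m' := by
    have h1 : g ∈ m.comap (φ.restrict V1.B V2.B hφ) := Ideal.mem_comap.mpr hgm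
    rw [hcomap] at h1
    exact Ideal.mem_comap.mp h1
  have hfr' : f ^ r ∈ m' := by
    have : f ^ r = φ.restrict V1.B V2.B hφ g - D := by rw [hD]; ring
    rw [this]
    exact m'.sub_mem hgm' hDm'
  exact hm'prime.mem_of_pow_mem r hfr'

/-- **(UNIQ)** at most one maximal ideal of `V2.B` over a `φ`-node: a maximal ideal `s` of
`V1.B` (here `s = comap φ m = comap φ m'`) with an element `x ∈ s` of value `0` at the
verticals `t k`, `k ≠ k0`, and at the horizontals through `s`. -/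
theorem h14_uniq (P : Fin 3 → ι2) (Hor1 : ι1 → Prop) (Hor2 : ι2 → Prop)
    (hcase : ∀ i : ι2, (∃ k, i = P k) ∨ Hor2 i) (t : Fin 3 → ι1)
    (htab : ∀ k, ∀ g : V1.B, (g : F1) ≠ 0 → (0 < V2.v (P k) (φ g) ↔ 0 < V1.v (t k) g))
    (hHC : ∀ m : Ideal V2.B, m.IsMaximal → ∀ h, Hor2 h → V2.Through m h → ∃ h1, Hor1 h1 ∧
      V1.Through (m.comap (φ.restrict V1.B V2.B hφ)) h1 ∧
      ∀ g : F1, g ≠ 0 → V1.v h1 g = 0 → V2.v h (φ g) = 0)
    (k0 : Fin 3) (r : ℕ) (hr : r ≠ 0)
    (hN : ∀ f : V2.B, ∃ g : V1.B,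
      φ g - (f : F2) ^ r = 0 ∨ 0 < V2.v (P k0) (φ g - (f : F2) ^ r))
    (m m' : Ideal V2.B) (hm : m.IsMaximal) (hm' : m'.IsMaximal)
    (hcomap : m.comap (φ.restrict V1.B V2.B hφ) = m'.comap (φ.restrict V1.B V2.B hφ))
    (x : V1.B) (hx0 : (x : F1) ≠ 0) (hxm : x ∈ m.comap (φ.restrict V1.B V2.B hφ))
    (hxv : ∀ k, k ≠ k0 → V1.v (t k) x = 0)
    (hxh : ∀ h1, Hor1 h1 → V1.Through (m.comap (φ.restrict V1.B V2.B hφ)) h1 → V1.v h1 x = 0) :
    m = m' := by
  have hmp : m.IsPrime := hm.isPrime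
  have hmp' : m'.IsPrime := hm'.isPrime
  have h0 : V2.Through m (P k0) :=
    h14_node_through V1 V2 φ hφ P Hor1 Hor2 hcase t htab m (hHC m hm) k0 x hx0 hxm hxv hxh
  have h0' : V2.Through m' (P k0) := by
    refine h14_node_through V1 V2 φ hφ P Hor1 Hor2 hcase t htab m' (hHC m' hm') k0 x hx0 ?_ hxv ?_
    · rw [← hcomap]
      exact hxm
    · rw [← hcomap]
      exact hxh
  exact h14_inj V1 V2 φ hφ (P k0) r hr hN m m' hm hm' h0 h0' hcomap

/-- **(TP)** over a `φ`-node every index `i` lying over an index `i1` through the node passes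
through the (unique) point `m` over it. -/
theorem h14_tp (hint : (φ.restrict V1.B V2.B hφ).IsIntegral)
    (P : Fin 3 → ι2) (Hor1 : ι1 → Prop) (Hor2 : ι2 → Prop)
    (hcase : ∀ i : ι2, (∃ k, i = P k) ∨ Hor2 i) (t : Fin 3 → ι1)
    (htab : ∀ k, ∀ g : V1.B, (g : F1) ≠ 0 → (0 < V2.v (P k) (φ g) ↔ 0 < V1.v (t k) g))
    (hHC : ∀ m : Ideal V2.B, m.IsMaximal → ∀ h, Hor2 h → V2.Through m h → ∃ h1, Hor1 h1 ∧
      V1.Through (m.comap (φ.restrict V1.B V2.B hφ)) h1 ∧
      ∀ g : F1, g ≠ 0 → V1.v h1 g = 0 → V2.v h (φ g) = 0)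
    (k0 : Fin 3) (r : ℕ) (hr : r ≠ 0)
    (hN : ∀ f : V2.B, ∃ g : V1.B,
      φ g - (f : F2) ^ r = 0 ∨ 0 < V2.v (P k0) (φ g - (f : F2) ^ r))
    (m : Ideal V2.B) (hm : m.IsMaximal)
    (x : V1.B) (hx0 : (x : F1) ≠ 0) (hxm : x ∈ m.comap (φ.restrict V1.B V2.B hφ))
    (hxv : ∀ k, k ≠ k0 → V1.v (t k) x = 0)
    (hxh : ∀ h1, Hor1 h1 → V1.Through (m.comap (φ.restrict V1.B V2.B hφ)) h1 → V1.v h1 x = 0)
    (i : ι2) (i1 : ι1)
    (hi : ∀ g : V1.B, (g : F1) ≠ 0 → (0 < V2.v i (φ g) ↔ 0 < V1.v i1 g))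
    (hi1 : V1.Through (m.comap (φ.restrict V1.B V2.B hφ)) i1) : V2.Through m i := by
  have hm1 : (m.comap (φ.restrict V1.B V2.B hφ)).IsMaximal :=
    Ideal.isMaximal_comap_of_isIntegral_of_isMaximal' (φ.restrict V1.B V2.B hφ) hint m
  obtain ⟨mk, hmk, hcomap, hthrk⟩ := h14_lo V1 V2 φ hφ hint i i1 hi
    (m.comap (φ.restrict V1.B V2.B hφ)) hi1
  have heq : mk = m := by
    refine h14_uniq V1 V2 φ hφ P Hor1 Hor2 hcase t htab hHC k0 r hr hN mk m hmk hm hcomap x hx0
      ?_ hxv ?_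
    · rw [hcomap]
      exact hxm
    · rw [hcomap]
      exact hxh
  rw [← heq]
  exact hthrk

/-- Over a `φ`-node all three verticals pass through the point. -/
theorem h14_all_through (hint : (φ.restrict V1.B V2.B hφ).IsIntegral)
    (P : Fin 3 → ι2) (Hor1 : ι1 → Prop) (Hor2 : ι2 → Prop)
    (hcase : ∀ i : ι2, (∃ k, i = P k) ∨ Hor2 i) (t : Fin 3 → ι1)
    (htab : ∀ k, ∀ g : V1.B, (g : F1) ≠ 0 → (0 < V2.v (P k) (φ g) ↔ 0 < V1.v (t k) g))
    (hHC : ∀ m : Ideal V2.B, m.IsMaximal → ∀ h, Hor2 h → V2.Through m h → ∃ h1, Hor1 h1 ∧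
      V1.Through (m.comap (φ.restrict V1.B V2.B hφ)) h1 ∧
      ∀ g : F1, g ≠ 0 → V1.v h1 g = 0 → V2.v h (φ g) = 0)
    (k0 : Fin 3) (r : ℕ) (hr : r ≠ 0)
    (hN : ∀ f : V2.B, ∃ g : V1.B,
      φ g - (f : F2) ^ r = 0 ∨ 0 < V2.v (P k0) (φ g - (f : F2) ^ r))
    (m : Ideal V2.B) (hm : m.IsMaximal)
    (hthr1 : ∀ k, V1.Through (m.comap (φ.restrict V1.B V2.B hφ)) (t k))
    (x : V1.B) (hx0 : (x : F1) ≠ 0) (hxm : x ∈ m.comap (φ.restrict V1.B V2.B hφ))
    (hxv : ∀ k, k ≠ k0 → V1.v (t k) x = 0)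
    (hxh : ∀ h1, Hor1 h1 → V1.Through (m.comap (φ.restrict V1.B V2.B hφ)) h1 → V1.v h1 x = 0) :
    ∀ k, V2.Through m (P k) := fun k =>
  h14_tp V1 V2 φ hφ hint P Hor1 Hor2 hcase t htab hHC k0 r hr hN m hm x hx0 hxm hxv hxh
    (P k) (t k) (htab k) (hthr1 k)

end transfer

section final

variable {F1 F2 : Type*} [Field F1] [Field F2] {ι1 ι2 : Type*}
  (V1 : h80_ValFam F1 ι1) (V2 : h80_ValFam F2 ι2)

/-- Positivity transfers along `v2 (φ g) = e * v1 g`, `e ≥ 1`. -/
theorem h14_pos_iff_of_mul (v2 : F2 → ℤ) (v1 : F1 → ℤ) (φ : F1 →+* F2) (e : ℤ) (he : 0 < e)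
    (h : ∀ g : F1, g ≠ 0 → v2 (φ g) = e * v1 g) (g : F1) (hg : g ≠ 0) :
    0 < v2 (φ g) ↔ 0 < v1 g := by
  rw [h g hg]
  constructor
  · intro h1
    by_contra h2
    have h3 : v1 g ≤ 0 := not_lt.mp h2
    have h4 : e * v1 g ≤ 0 := mul_nonpos_of_nonneg_of_nonpos he.le h3
    omega
  · intro h1
    exact mul_pos he h1

/-- **(GU)** going-up with a prescribed index, in the `e`-form of the tables: if `i` lies over
`i1` (`v_i (φ g) = e * v_i1 g`, `e ≥ 1`) and `i1` passes through the maximal ideal `s`, then some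
maximal ideal of `V2.B` over `s` has `i` through it. -/
theorem h14_gu (φ : F1 →+* F2) (hφ : ∀ g ∈ V1.B, φ g ∈ V2.B)
    (hint : (φ.restrict V1.B V2.B hφ).IsIntegral) (i : ι2) (i1 : ι1) (e : ℤ) (he : 0 < e)
    (htab : ∀ g : F1, g ≠ 0 → V2.v i (φ g) = e * V1.v i1 g)
    (s : Ideal V1.B) [hs : s.IsMaximal] (hi1 : V1.Through s i1) :
    ∃ 𝔔 : Ideal V2.B, 𝔔.IsMaximal ∧ 𝔔.comap (φ.restrict V1.B V2.B hφ) = s ∧ V2.Through 𝔔 i :=
  h14_lo V1 V2 φ hφ hint i i1
    (fun g hg => h14_pos_iff_of_mul (V2.v i) (V1.v i1) φ e he htab g hg) s hi1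

/-- At a node of `V1` with (UNIT\*), the two elements needed by `h14_class`: `aF` cuts out `wF`
only, `bV` cuts out `wV` only (among the valuations through the node). -/
theorem h14_node_elts (wF wV : ι1) (s : Ideal V1.B) [hs : s.IsPrime]
    (hF : V1.Through s wF) (hV : V1.Through s wV) (hU : h62_UnitStar V1 s) :
    ∃ aF bV : V1.B, (aF : F1) ≠ 0 ∧ (bV : F1) ≠ 0 ∧ aF ∈ s ∧ bV ∈ s ∧
      (∀ j, V1.Through s j → j ≠ wF → V1.v j aF = 0) ∧
      (∀ j, V1.Through s j → j ≠ wV → V1.v j bV = 0) := by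
  have key : ∀ w, V1.Through s w → ∃ c : V1.B, (c : F1) ≠ 0 ∧ c ∈ s ∧
      ∀ j, V1.Through s j → j ≠ w → V1.v j c = 0 := by
    intro w hw
    obtain ⟨e, he0, he1, he⟩ := hU w hw
    have hloc : V1.InLoc s e := by
      rw [h80_inLoc_iff V1 s he0]
      intro i hi
      by_cases hiw : i = w
      · rw [hiw, he1]
        exact zero_le_one
      · rw [he i hi hiw]
    obtain ⟨c, t, ht, hct⟩ := hloc
    have ht0 : (t : F1) ≠ 0 := by
      intro h
      apply ht
      have : t = 0 := Subtype.ext h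
      rw [this]
      exact s.zero_mem
    have hc0 : (c : F1) ≠ 0 := by
      rw [← hct]
      exact mul_ne_zero ht0 he0
    have htv : ∀ j, V1.Through s j → V1.v j t = 0 := by
      intro j hj
      have h1 := h80_v_nonneg V1 j t ht0
      by_contra h2
      exact ht (hj t ht0 (by omega))
    refine ⟨c, hc0, ?_, ?_⟩
    · refine hw c hc0 ?_
      rw [← hct, V1.map_mul w _ _ ht0 he0, htv w hw, he1]
      exact zero_lt_one
    · intro j hj hjw
      rw [← hct, V1.map_mul j _ _ ht0 he0, htv j hj, he j hj hjw]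
      rfl
  obtain ⟨aF, haF0, haFs, haF⟩ := key wF hF
  obtain ⟨bV, hbV0, hbVs, hbV⟩ := key wV hV
  exact ⟨aF, bV, haF0, hbV0, haFs, hbVs, haF, hbV⟩

/-- **`hclass`** (with `hsα`, `hsβ`): at a maximal ideal of the level-`q²` chart ring either all
three verticals pass, or at most one.  General form: tables as positivity transfers, `(HC)` per
point, the node elements `aF`, `bV` given. -/
theorem h14_class (wF wV : ι1) (P : Fin 3 → ι2) (Hor1 : ι1 → Prop) (Hor2 : ι2 → Prop)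
    (hcase : ∀ i : ι2, (∃ k, i = P k) ∨ Hor2 i)
    (a b : F1 →+* F2) (ha : ∀ g ∈ V1.B, a g ∈ V2.B) (hb : ∀ g ∈ V1.B, b g ∈ V2.B)
    (hia : (a.restrict V1.B V2.B ha).IsIntegral) (hib : (b.restrict V1.B V2.B hb).IsIntegral)
    (hta : ∀ k, ∀ g : V1.B, (g : F1) ≠ 0 →
      (0 < V2.v (P k) (a g) ↔ 0 < V1.v ((![wF, wF, wV] : Fin 3 → ι1) k) g))
    (htb : ∀ k, ∀ g : V1.B, (g : F1) ≠ 0 →
      (0 < V2.v (P k) (b g) ↔ 0 < V1.v ((![wF, wV, wV] : Fin 3 → ι1) k) g))
    (hHCa : ∀ m : Ideal V2.B, m.IsMaximal → ∀ h, Hor2 h → V2.Through m h → ∃ h1, Hor1 h1 ∧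
      V1.Through (m.comap (a.restrict V1.B V2.B ha)) h1 ∧
      ∀ g : F1, g ≠ 0 → V1.v h1 g = 0 → V2.v h (a g) = 0)
    (hHCb : ∀ m : Ideal V2.B, m.IsMaximal → ∀ h, Hor2 h → V2.Through m h → ∃ h1, Hor1 h1 ∧
      V1.Through (m.comap (b.restrict V1.B V2.B hb)) h1 ∧
      ∀ g : F1, g ≠ 0 → V1.v h1 g = 0 → V2.v h (b g) = 0)
    (hnode : ∀ s : Ideal V1.B, s.IsMaximal → V1.Through s wF → V1.Through s wV →
      ∃ aF bV : V1.B, (aF : F1) ≠ 0 ∧ (bV : F1) ≠ 0 ∧ aF ∈ s ∧ bV ∈ s ∧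
        V1.v wV aF = 0 ∧ V1.v wF bV = 0 ∧
        ∀ h, Hor1 h → V1.Through s h → V1.v h aF = 0 ∧ V1.v h bV = 0)
    (r : ℕ) (hr : r ≠ 0)
    (hN2 : ∀ f : V2.B, ∃ g : V1.B,
      a g - (f : F2) ^ r = 0 ∨ 0 < V2.v (P 2) (a g - (f : F2) ^ r))
    (hN3 : ∀ f : V2.B, ∃ g : V1.B,
      b g - (f : F2) ^ r = 0 ∨ 0 < V2.v (P 0) (b g - (f : F2) ^ r)) :
    (∀ m : Ideal V2.B, m.IsMaximal →
      (∀ k, V2.Through m (P k)) ∨ ∃ k0, ∀ k, V2.Through m (P k) → k = k0) ∧
    (∀ m : Ideal V2.B, m.IsMaximal → (∀ k, V2.Through m (P k)) →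
      (m.comap (a.restrict V1.B V2.B ha)).IsPrime ∧
      V1.Through (m.comap (a.restrict V1.B V2.B ha)) wF ∧
      V1.Through (m.comap (a.restrict V1.B V2.B ha)) wV) ∧
    (∀ m : Ideal V2.B, m.IsMaximal → (∀ k, V2.Through m (P k)) →
      (m.comap (b.restrict V1.B V2.B hb)).IsPrime ∧
      V1.Through (m.comap (b.restrict V1.B V2.B hb)) wF ∧
      V1.Through (m.comap (b.restrict V1.B V2.B hb)) wV) := by
  -- contraction of the verticals
  have hca : ∀ (m : Ideal V2.B) (k : Fin 3), V2.Through m (P k) →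
      V1.Through (m.comap (a.restrict V1.B V2.B ha)) ((![wF, wF, wV] : Fin 3 → ι1) k) :=
    fun m k hk => h14_through_comap V1 V2 a ha (P k) _ (hta k) m hk
  have hcb : ∀ (m : Ideal V2.B) (k : Fin 3), V2.Through m (P k) →
      V1.Through (m.comap (b.restrict V1.B V2.B hb)) ((![wF, wV, wV] : Fin 3 → ι1) k) :=
    fun m k hk => h14_through_comap V1 V2 b hb (P k) _ (htb k) m hk
  -- the `a`-direction: `P 2` and one of `P 0`, `P 1` through `m`
  have hA : ∀ m : Ideal V2.B, m.IsMaximal →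
      V1.Through (m.comap (a.restrict V1.B V2.B ha)) wF →
      V1.Through (m.comap (a.restrict V1.B V2.B ha)) wV → ∀ k, V2.Through m (P k) := by
    intro m hm hF hV
    have hs : (m.comap (a.restrict V1.B V2.B ha)).IsMaximal :=
      Ideal.isMaximal_comap_of_isIntegral_of_isMaximal' (a.restrict V1.B V2.B ha) hia m
    obtain ⟨aF, bV, -, hbV0, -, hbVs, -, hbVF, hhor⟩ := hnode _ hs hF hV
    refine h14_all_through V1 V2 a ha hia P Hor1 Hor2 hcase _ hta hHCa 2 r hr hN2 m hm ?_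
      bV hbV0 hbVs ?_ (fun h1 hh1 hthr => (hhor h1 hh1 hthr).2)
    · intro k
      fin_cases k
      · exact hF
      · exact hF
      · exact hV
    · intro k hk
      fin_cases k
      · exact hbVF
      · exact hbVF
      · exact absurd rfl hk
  -- the `b`-direction: `P 0` and one of `P 1`, `P 2` through `m`
  have hB : ∀ m : Ideal V2.B, m.IsMaximal →
      V1.Through (m.comap (b.restrict V1.B V2.B hb)) wF →
      V1.Through (m.comap (b.restrict V1.B V2.B hb)) wV → ∀ k, V2.Through m (P k) := by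
    intro m hm hF hV
    have hs : (m.comap (b.restrict V1.B V2.B hb)).IsMaximal :=
      Ideal.isMaximal_comap_of_isIntegral_of_isMaximal' (b.restrict V1.B V2.B hb) hib m
    obtain ⟨aF, bV, haF0, -, haFs, -, haFV, -, hhor⟩ := hnode _ hs hF hV
    refine h14_all_through V1 V2 b hb hib P Hor1 Hor2 hcase _ htb hHCb 0 r hr hN3 m hm ?_
      aF haF0 haFs ?_ (fun h1 hh1 hthr => (hhor h1 hh1 hthr).1)
    · intro k
      fin_cases k
      · exact hF
      · exact hV
      · exact hV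
    · intro k hk
      fin_cases k
      · exact absurd rfl hk
      · exact haFV
      · exact haFV
  refine ⟨?_, ?_, ?_⟩
  · intro m hm
    by_cases h0 : V2.Through m (P 0)
    · by_cases h1 : V2.Through m (P 1)
      · exact Or.inl (hB m hm (hcb m 0 h0) (hcb m 1 h1))
      · by_cases h2 : V2.Through m (P 2)
        · exact Or.inl (hA m hm (hca m 0 h0) (hca m 2 h2))
        · refine Or.inr ⟨0, fun k hk => ?_⟩
          fin_cases k
          · rfl
          · exact absurd hk h1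
          · exact absurd hk h2
    · by_cases h1 : V2.Through m (P 1)
      · by_cases h2 : V2.Through m (P 2)
        · exact Or.inl (hA m hm (hca m 1 h1) (hca m 2 h2))
        · refine Or.inr ⟨1, fun k hk => ?_⟩
          fin_cases k
          · exact absurd hk h0
          · rfl
          · exact absurd hk h2
      · refine Or.inr ⟨2, fun k hk => ?_⟩
        fin_cases k
        · exact absurd hk h0
        · exact absurd hk h1
        · rfl
  · intro m hm hall
    have hmp : m.IsPrime := hm.isPrime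
    exact ⟨Ideal.comap_isPrime _ m, hca m 0 (hall 0), hca m 2 (hall 2)⟩
  · intro m hm hall
    have hmp : m.IsPrime := hm.isPrime
    exact ⟨Ideal.comap_isPrime _ m, hcb m 0 (hall 0), hcb m 1 (hall 1)⟩

/-- **`hclass`**, producer form: tables `v_(P k) (φ g) = e * v_(t k) g` with `e ≥ 1`, every
horizontal index of `V2` over a horizontal index of `V1` (`(HC2)`), (UNIT\*) at the nodes of
`V1`.  Conclusions VERBATIM the binders `hclass`, `hsα`, `hsβ` of `h94_nz_charts` (one chart),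
with `sα 𝔪 = comap a 𝔪`, `sβ 𝔪 = comap b 𝔪`. -/
theorem h14_class' (wF wV : ι1) (hFV : wF ≠ wV) (P : Fin 3 → ι2)
    (Hor1 : ι1 → Prop) (Hor2 : ι2 → Prop) (hHor1 : ∀ h, Hor1 h → h ≠ wF ∧ h ≠ wV)
    (hcase : ∀ i : ι2, (∃ k, i = P k) ∨ Hor2 i)
    (a b : F1 →+* F2) (ha : ∀ g ∈ V1.B, a g ∈ V2.B) (hb : ∀ g ∈ V1.B, b g ∈ V2.B)
    (hia : (a.restrict V1.B V2.B ha).IsIntegral) (hib : (b.restrict V1.B V2.B hb).IsIntegral)
    (hta : ∀ k, ∃ e : ℤ, 0 < e ∧ ∀ g : F1, g ≠ 0 →
      V2.v (P k) (a g) = e * V1.v ((![wF, wF, wV] : Fin 3 → ι1) k) g)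
    (htb : ∀ k, ∃ e : ℤ, 0 < e ∧ ∀ g : F1, g ≠ 0 →
      V2.v (P k) (b g) = e * V1.v ((![wF, wV, wV] : Fin 3 → ι1) k) g)
    (hHCa : ∀ h, Hor2 h → ∃ h1, Hor1 h1 ∧ ∃ e : ℤ, 0 < e ∧ ∀ g : F1, g ≠ 0 →
      V2.v h (a g) = e * V1.v h1 g)
    (hHCb : ∀ h, Hor2 h → ∃ h1, Hor1 h1 ∧ ∃ e : ℤ, 0 < e ∧ ∀ g : F1, g ≠ 0 →
      V2.v h (b g) = e * V1.v h1 g)
    (hU : ∀ s : Ideal V1.B, s.IsMaximal → V1.Through s wF → V1.Through s wV →
      h62_UnitStar V1 s)
    (r : ℕ) (hr : r ≠ 0)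
    (hN2 : ∀ f : V2.B, ∃ g : V1.B,
      a g - (f : F2) ^ r = 0 ∨ 0 < V2.v (P 2) (a g - (f : F2) ^ r))
    (hN3 : ∀ f : V2.B, ∃ g : V1.B,
      b g - (f : F2) ^ r = 0 ∨ 0 < V2.v (P 0) (b g - (f : F2) ^ r)) :
    (∀ m : Ideal V2.B, m.IsMaximal →
      (∀ k, V2.Through m (P k)) ∨ ∃ k0, ∀ k, V2.Through m (P k) → k = k0) ∧
    (∀ m : Ideal V2.B, m.IsMaximal → (∀ k, V2.Through m (P k)) →
      (m.comap (a.restrict V1.B V2.B ha)).IsPrime ∧
      V1.Through (m.comap (a.restrict V1.B V2.B ha)) wF ∧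
      V1.Through (m.comap (a.restrict V1.B V2.B ha)) wV) ∧
    (∀ m : Ideal V2.B, m.IsMaximal → (∀ k, V2.Through m (P k)) →
      (m.comap (b.restrict V1.B V2.B hb)).IsPrime ∧
      V1.Through (m.comap (b.restrict V1.B V2.B hb)) wF ∧
      V1.Through (m.comap (b.restrict V1.B V2.B hb)) wV) := by
  -- (HC) per point from the global horizontal table
  have hHC : ∀ (φ : F1 →+* F2) (hφ : ∀ g ∈ V1.B, φ g ∈ V2.B),
      (∀ h, Hor2 h → ∃ h1, Hor1 h1 ∧ ∃ e : ℤ, 0 < e ∧ ∀ g : F1, g ≠ 0 →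
        V2.v h (φ g) = e * V1.v h1 g) →
      ∀ m : Ideal V2.B, m.IsMaximal → ∀ h, Hor2 h → V2.Through m h → ∃ h1, Hor1 h1 ∧
        V1.Through (m.comap (φ.restrict V1.B V2.B hφ)) h1 ∧
        ∀ g : F1, g ≠ 0 → V1.v h1 g = 0 → V2.v h (φ g) = 0 := by
    intro φ hφ hH m _ h hh hthr
    obtain ⟨h1, hh1, e, he, htab⟩ := hH h hh
    refine ⟨h1, hh1, ?_, ?_⟩
    · exact h14_through_comap V1 V2 φ hφ h h1
        (fun g hg => h14_pos_iff_of_mul (V2.v h) (V1.v h1) φ e he htab g hg) m hthr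
    · intro g hg hv
      rw [htab g hg, hv, mul_zero]
  refine h14_class V1 V2 wF wV P Hor1 Hor2 hcase a b ha hb hia hib ?_ ?_
    (hHC a ha hHCa) (hHC b hb hHCb) ?_ r hr hN2 hN3
  · intro k g hg
    obtain ⟨e, he, htab⟩ := hta k
    exact h14_pos_iff_of_mul (V2.v (P k)) (V1.v _) a e he htab g hg
  · intro k g hg
    obtain ⟨e, he, htab⟩ := htb k
    exact h14_pos_iff_of_mul (V2.v (P k)) (V1.v _) b e he htab g hg
  · intro s hs hF hV
    have hsp : s.IsPrime := hs.isPrime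
    obtain ⟨aF, bV, haF0, hbV0, haFs, hbVs, haF, hbV⟩ :=
      h14_node_elts V1 wF wV s hF hV (hU s hs hF hV)
    refine ⟨aF, bV, haF0, hbV0, haFs, hbVs, haF wV hV (Ne.symm hFV), hbV wF hF hFV, ?_⟩
    intro h hh hthr
    exact ⟨haF h hthr (hHor1 h hh).1, hbV h hthr (hHor1 h hh).2⟩

end final

end Fermat.Agent.S36
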