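import Mathlib
import Fermat.Agent.S36.h62_RowU

/-!
# S36 / I-PTS (B) (helper51): the (EQ) block at every point of the level-`q²` special fibre

`V : h80_ValFam F ι` is a chart family of level `q²`, `m` a point (a prime ideal of the chart ring
`V.B`), `q : F` the residue characteristic, `P : Fin 3 → ι` the three vertical valuations
(`P 0 = C20`, `P 1 = C11` (thick, `v q = q - 1`), `P 2 = C02`).

* `h51_exists_through_pos` : an element of `m` has positive value at some valuation through `m`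
  (so: `q ∈ m` ⟹ some vertical passes through `m`, `h51_exists_vert`).
* `h51_pullback_eq`, `h51_eq_of_node` : the image `φ b` of a local equation `b` of the branch `u`
  at a node `m₁` of the lower level is a local equation at `m` of the branch `P c` lying above `u`
  with multiplicity one, when the other verticals lie above the other branch `u'` of the node and
  the horizontals through `m` lie above horizontals through `m₁`.
* `h51_pts_eq` : from the classification (`hclass`: all three verticals pass through `m`, or at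
  most one), one element of value `1` on the thick branch, the local equation `z` of the thick
  branch at the points where it is alone, and the two pulled-back equations at the triple points:
  the **(EQ)** block `E, hE, hE1, hζ, hV` of `h62_rowU_unitStar`, verbatim.
* `h51_pts_unitStar` : `h62_rowU_unitStar ∘ h51_pts_eq`.
-/

set_option autoImplicit false

namespace Fermat.Agent.S36

universe w

variable {F : Type*} [Field F] {ι : Type*}

/-- An element of `m` has positive value at some valuation through `m`. -/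
theorem h51_exists_through_pos (V : h80_ValFam F ι) (m : Ideal V.B) [hm : m.IsPrime] (Q : V.B)
    (hQ0 : (Q : F) ≠ 0) (hQm : Q ∈ m) : ∃ i, V.Through m i ∧ 0 < V.v i (Q : F) := by
  by_contra hcon0
  have hcon : ∀ k, V.Through m k → V.v k (Q : F) ≤ 0 := fun k hk =>
    not_lt.mp fun h => hcon0 ⟨k, hk, h⟩
  have hinv0 : ((Q : F))⁻¹ ≠ 0 := inv_ne_zero hQ0
  have hL : V.InLoc m ((Q : F))⁻¹ := by
    refine (h80_inLoc_iff V m hinv0).2 fun k hk => ?_
    rw [h80_v_inv V k hQ0]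
    have h1 := hcon k hk
    have h2 := h80_v_nonneg V k Q hQ0
    omega
  obtain ⟨b, t, ht, hbt⟩ := hL
  have hbt' : (t : F) = (b : F) * (Q : F) := by
    rw [← hbt]
    field_simp
  have htb : t = b * Q := Subtype.ext (by push_cast; exact hbt')
  exact ht (htb ▸ m.mul_mem_left b hQm)

/-- `q ∈ m` ⟹ one of the vertical valuations passes through `m`. -/
theorem h51_exists_vert (V : h80_ValFam F ι) (m : Ideal V.B) [hm : m.IsPrime] (Q : V.B)
    (hQ0 : (Q : F) ≠ 0) (hQm : Q ∈ m) {κ : Type*} (P : κ → ι)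
    (hvert : ∀ k, V.Through m k → 0 < V.v k (Q : F) → ∃ c, k = P c) :
    ∃ c, V.Through m (P c) := by
  obtain ⟨i, hi, hpos⟩ := h51_exists_through_pos V m Q hQ0 hQm
  obtain ⟨c, rfl⟩ := hvert i hi hpos
  exact ⟨c, hi⟩

/-- **Pull-back of a local equation.**  `b` is a local equation of the valuation `w₁` at the point
`m₁` of the lower level; the valuation `C` restricts along `φ` to `w₁` (multiplicity one) and every
other valuation through `m` restricts to a multiple of a valuation through `m₁` different from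
`w₁`.  Then `φ b` is a local equation of `C` at `m`. -/
theorem h51_pullback_eq {F₁ : Type*} [Field F₁] {ι₁ : Type*} (V₁ : h80_ValFam F₁ ι₁)
    (V : h80_ValFam F ι) (m : Ideal V.B) (m₁ : Ideal V₁.B) (φ : F₁ →+* F) (C : ι) (w₁ : ι₁)
    (hC : ∀ g : F₁, g ≠ 0 → V.v C (φ g) = V₁.v w₁ g)
    (hres : ∀ k, V.Through m k → k ≠ C →
      ∃ (k₁ : ι₁) (e : ℤ), V₁.Through m₁ k₁ ∧ k₁ ≠ w₁ ∧
        ∀ g : F₁, g ≠ 0 → V.v k (φ g) = e * V₁.v k₁ g)
    (hU : ∃ b : F₁, b ≠ 0 ∧ V₁.v w₁ b = 1 ∧ ∀ j, V₁.Through m₁ j → j ≠ w₁ → V₁.v j b = 0) :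
    ∃ π : F, π ≠ 0 ∧ V.v C π = 1 ∧ ∀ k, V.Through m k → k ≠ C → V.v k π = 0 := by
  obtain ⟨b, hb0, hb1, hb⟩ := hU
  refine ⟨φ b, (map_ne_zero φ).2 hb0, by rw [hC b hb0, hb1], fun k hk hkC => ?_⟩
  obtain ⟨k₁, e, hk₁, hne, hval⟩ := hres k hk hkC
  rw [hval b hb0, hb k₁ hk₁ hne, mul_zero]

/-- **The equation of one branch at a multi-branch point, from a node of the lower level.**
`m₁` is a node of the lower level with branches `u, u'` and (UNIT\*); the vertical `P c` lies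
above `u` with multiplicity one, the other verticals `P c'` lie above `u'`, the horizontal
valuations through `m` lie above horizontal valuations through `m₁`.  Then `P c` has a local
equation at `m` (the image of the equation of `u` at the node). -/
theorem h51_eq_of_node {F₁ : Type*} [Field F₁] {ι₁ : Type*} (V₁ : h80_ValFam F₁ ι₁)
    (V : h80_ValFam F ι) (m : Ideal V.B) {κ : Type*} (P : κ → ι) (Hor : ι → Prop)
    (hcase : ∀ k, V.Through m k → (∃ c, k = P c) ∨ Hor k) (c : κ)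
    (u u' : ι₁) (huu' : u' ≠ u) (Hor₁ : ι₁ → Prop) (hHor₁ : ∀ k₁, Hor₁ k₁ → k₁ ≠ u)
    (φ : F₁ →+* F) (m₁ : Ideal V₁.B) (hu : V₁.Through m₁ u) (hu' : V₁.Through m₁ u')
    (hU : h62_UnitStar V₁ m₁)
    (tc : ∀ g : F₁, g ≠ 0 → V.v (P c) (φ g) = V₁.v u g)
    (tc' : ∀ c', P c' ≠ P c → ∃ e : ℤ, ∀ g : F₁, g ≠ 0 → V.v (P c') (φ g) = e * V₁.v u' g)
    (HC : ∀ k, Hor k → V.Through m k → ∃ (k₁ : ι₁) (e : ℤ), Hor₁ k₁ ∧ V₁.Through m₁ k₁ ∧
      ∀ g : F₁, g ≠ 0 → V.v k (φ g) = e * V₁.v k₁ g) :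
    ∃ π : F, π ≠ 0 ∧ V.v (P c) π = 1 ∧ ∀ k, V.Through m k → k ≠ P c → V.v k π = 0 := by
  refine h51_pullback_eq V₁ V m m₁ φ (P c) u tc (fun k hk hkC => ?_) (hU u hu)
  rcases hcase k hk with ⟨c', rfl⟩ | hH
  · obtain ⟨e, he⟩ := tc' c' hkC
    exact ⟨u', e, hu', huu', he⟩
  · obtain ⟨k₁, e, hk₁, hthr, he⟩ := HC k hH hk
    exact ⟨k₁, e, hthr, hHor₁ k₁ hk₁, he⟩

/-- **(B): the (EQ) block at every point of the level-`q²` fibre.**  `P 0, P 1, P 2` are the
vertical valuations (`v q = 1, q - 1, 1`).  Inputs: the classification `hclass` (three branches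
or at most one), one element of value `1` at the thick valuation `P 1` (`hζ2`), a local equation
of the thick branch at the points where it is the only branch (`hthick`, the conclusion of
`h62_case_thick`), and local equations of `P 0` and `P 2` at the triple points (`htri`, from
`h51_eq_of_node`).  Output: the predicate `E` and the hypotheses `hE`, `hE1`, `hζ`, `hV` of
`h62_rowU_unitStar`. -/
theorem h51_pts_eq (V : h80_ValFam F ι) (m : Ideal V.B) (q : F) (hq0 : q ≠ 0)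
    (hqn : ∀ k, V.Through m k → 0 ≤ V.v k q) (P : Fin 3 → ι)
    (hvert : ∀ k, V.Through m k → 0 < V.v k q → ∃ c, k = P c)
    (hq1 : V.v (P 0) q = 1) (hq2 : 0 < V.v (P 1) q) (hq3 : V.v (P 2) q = 1)
    (hqm : ∃ c, V.Through m (P c))
    (hclass : (∀ c, V.Through m (P c)) ∨ ∃ c0, ∀ c, V.Through m (P c) → c = c0)
    (hζ2 : V.Through m (P 1) → ∃ ζ : F, ζ ≠ 0 ∧ V.v (P 1) ζ = 1)
    (hthick : V.Through m (P 1) → (∀ c, V.Through m (P c) → c = 1) →
      ∃ z : F, z ≠ 0 ∧ V.v (P 1) z = 1 ∧ ∀ k, V.Through m k → k ≠ P 1 → V.v k z = 0)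
    (htri : (∀ c, V.Through m (P c)) →
      (∃ π : F, π ≠ 0 ∧ V.v (P 0) π = 1 ∧ ∀ k, V.Through m k → k ≠ P 0 → V.v k π = 0) ∧
      (∃ π : F, π ≠ 0 ∧ V.v (P 2) π = 1 ∧ ∀ k, V.Through m k → k ≠ P 2 → V.v k π = 0)) :
    ∃ E : ι → Prop,
      (∀ c, V.Through m c → E c →
        ∃ π : F, π ≠ 0 ∧ V.v c π = 1 ∧ ∀ k, V.Through m k → k ≠ c → V.v k π = 0) ∧
      (∀ c c', V.Through m c → V.Through m c' → 0 < V.v c q → 0 < V.v c' q → c ≠ c' →
        E c ∨ E c') ∧
      (∀ c, V.Through m c → 0 < V.v c q → ∃ ζ : F, ζ ≠ 0 ∧ V.v c ζ = 1) ∧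
      (∃ c₀, V.Through m c₀ ∧ 0 < V.v c₀ q ∧ E c₀) := by
  have h3 : ∀ i : Fin 3, i = 0 ∨ i = 1 ∨ i = 2 := by decide
  -- the value group at every vertical through `m`
  have hζ : ∀ c, V.Through m c → 0 < V.v c q → ∃ ζ : F, ζ ≠ 0 ∧ V.v c ζ = 1 := by
    intro c hc hcq
    obtain ⟨i, rfl⟩ := hvert c hc hcq
    rcases h3 i with rfl | rfl | rfl
    · exact ⟨q, hq0, hq1⟩
    · exact hζ2 hc
    · exact ⟨q, hq0, hq3⟩
  rcases hclass with hall | ⟨c0, hc0⟩
  · -- a triple point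
    obtain ⟨hπ1, hπ3⟩ := htri hall
    refine ⟨fun x => x = P 0 ∨ x = P 2, ?_, ?_, hζ, ⟨P 0, hall 0, by rw [hq1]; exact one_pos,
      Or.inl rfl⟩⟩
    · rintro c _ (rfl | rfl)
      · exact hπ1
      · exact hπ3
    · intro c c' hc hc' hcq hc'q hne
      obtain ⟨i, rfl⟩ := hvert c hc hcq
      obtain ⟨j, rfl⟩ := hvert c' hc' hc'q
      rcases h3 i with rfl | rfl | rfl
      · exact Or.inl (Or.inl rfl)
      · rcases h3 j with rfl | rfl | rfl
        · exact Or.inr (Or.inl rfl)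
        · exact absurd rfl hne
        · exact Or.inr (Or.inr rfl)
      · exact Or.inl (Or.inr rfl)
  · -- a one-branch point
    obtain ⟨c, hc⟩ := hqm
    have hcc : c = c0 := hc0 c hc
    subst hcc
    -- `q` is a unit at every valuation through `m` other than `P c`
    have hqother : ∀ k, V.Through m k → k ≠ P c → V.v k q = 0 := by
      intro k hk hkc
      have h1 := hqn k hk
      by_contra h
      obtain ⟨i, rfl⟩ := hvert k hk (lt_of_le_of_ne h1 (Ne.symm h))
      exact hkc (by rw [hc0 i hk])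
    have hcpos : 0 < V.v (P c) q := by
      rcases h3 c with rfl | rfl | rfl
      · rw [hq1]; exact one_pos
      · exact hq2
      · rw [hq3]; exact one_pos
    refine ⟨fun x => x = P c, ?_, ?_, hζ, ⟨P c, hc, hcpos, rfl⟩⟩
    · rintro x _ rfl
      rcases h3 c with rfl | rfl | rfl
      · exact ⟨q, hq0, hq1, hqother⟩
      · exact hthick hc hc0
      · exact ⟨q, hq0, hq3, hqother⟩
    · intro x x' hx hx' hxq hx'q hne
      obtain ⟨i, rfl⟩ := hvert x hx hxq
      obtain ⟨j, rfl⟩ := hvert x' hx' hx'q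
      exact absurd (by rw [hc0 i hx, hc0 j hx']) hne

/-- **(B) + row U in one call**: (K) + the inputs of `h51_pts_eq` + (RES) ⟹ (UNIT\*) at `m`. -/
theorem h51_pts_unitStar (V : h80_ValFam F ι) (m : Ideal V.B) [hm : m.IsPrime]
    [IsNoetherianRing V.B] (q : F) (hq0 : q ≠ 0) (hqn : ∀ k, V.Through m k → 0 ≤ V.v k q)
    (hunrH : ∀ i, V.Through m i → V.v i q = 0 →
      ∃ f : F, f ≠ 0 ∧ V.v i f = 1 ∧ ∀ k, V.Through m k → 0 ≤ V.v k f)
    (hsepH : ∀ i j, V.Through m i → V.Through m j → V.v i q = 0 → V.v j q = 0 → i ≠ j →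
      ∃ f : F, f ≠ 0 ∧ 0 < V.v i f ∧ V.v j f = 0 ∧ ∀ k, V.Through m k → 0 ≤ V.v k f)
    (P : Fin 3 → ι)
    (hvert : ∀ k, V.Through m k → 0 < V.v k q → ∃ c, k = P c)
    (hq1 : V.v (P 0) q = 1) (hq2 : 0 < V.v (P 1) q) (hq3 : V.v (P 2) q = 1)
    (hqm : ∃ c, V.Through m (P c))
    (hclass : (∀ c, V.Through m (P c)) ∨ ∃ c0, ∀ c, V.Through m (P c) → c = c0)
    (hζ2 : V.Through m (P 1) → ∃ ζ : F, ζ ≠ 0 ∧ V.v (P 1) ζ = 1)
    (hthick : V.Through m (P 1) → (∀ c, V.Through m (P c) → c = 1) →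
      ∃ z : F, z ≠ 0 ∧ V.v (P 1) z = 1 ∧ ∀ k, V.Through m k → k ≠ P 1 → V.v k z = 0)
    (htri : (∀ c, V.Through m (P c)) →
      (∃ π : F, π ≠ 0 ∧ V.v (P 0) π = 1 ∧ ∀ k, V.Through m k → k ≠ P 0 → V.v k π = 0) ∧
      (∃ π : F, π ≠ 0 ∧ V.v (P 2) π = 1 ∧ ∀ k, V.Through m k → k ≠ P 2 → V.v k π = 0))
    (hR : ∀ c, V.Through m c → 0 < V.v c q →
      ∃ (Fb : Type w) (_ : Field Fb), Nonempty (h62_Res V m c Fb)) :
    h62_UnitStar V m := by
  obtain ⟨E, hE, hE1, hζ, hV⟩ :=
    h51_pts_eq V m q hq0 hqn P hvert hq1 hq2 hq3 hqm hclass hζ2 hthick htri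
  exact h62_rowU_unitStar V m q hq0 hqn hunrH hsepH E hE hE1 hζ hV hR

end Fermat.Agent.S36
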