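import Mathlib
import Fermat.Agent.S36.h62_RowU

/-!
# S36 / I-PTS (helper62): producing and transferring residue data `h62_Res`

* `h62_Res.inMLoc_iff` : **centre property**: for `f` in the local ring at `m`,
  `f ∈ m B_m ⟺ ρ f = 0 ∨ 0 < o (ρ f)`  (the point `m` lies on the branch `c` at the place `o`).
* `h62_Res.ofSurj` : a residue datum from surjectivity alone: `nonneg` follows from `surj` and
  one element `s ∈ m B_m` with `v_c s = 0`.
* `h62_Res.transfer` : transfer along `φ : F₁ →+* F` (a degeneracy map) in a direction of residue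
  degree one: if `ρ ∘ φ = ψ ∘ ρ₁` with `ψ` onto the residue field, `o ∘ ψ = o₁`, and `φ` maps the
  local ring at `m₁` into the local ring at `m`, a residue datum at `(m₁, c₁)` gives one at
  `(m, c)`.
-/

set_option autoImplicit false

namespace Fermat.Agent.S36

universe w w₁

variable {F : Type*} [Field F] {ι : Type*}

namespace h62_Res

variable {V : h80_ValFam F ι} {m : Ideal V.B} {c : ι} {Fb : Type w} [Field Fb]

/-- An element of the local ring outside `m B_m` is a unit of the local ring. -/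
theorem inv_inLoc_of_not_inMLoc (V : h80_ValFam F ι) (m : Ideal V.B) {f : F}
    (hf : V.InLoc m f) (hf' : ¬ V.InMLoc m f) : f ≠ 0 ∧ V.InLoc m f⁻¹ := by
  obtain ⟨b, t, ht, hbt⟩ := hf
  have hb : b ∉ m := fun hb => hf' ⟨b, t, hb, ht, hbt⟩
  have hb0 := h80_ne_zero_of_not_mem V hb
  have hf0 : f ≠ 0 := by
    rintro rfl
    rw [mul_zero] at hbt
    exact hb0 hbt.symm
  refine ⟨hf0, t, b, hb, ?_⟩
  rw [← hbt]
  field_simp

/-- **Centre property.**  For `f` in the local ring at `m`: `f ∈ m B_m` iff its residue on the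
branch `c` vanishes at the point. -/
theorem inMLoc_iff (R : h62_Res V m c Fb) [hm : m.IsPrime] (hc : V.Through m c) (f : R.O)
    (hf : V.InLoc m (f : F)) :
    V.InMLoc m (f : F) ↔ R.ρ f = 0 ∨ 0 < R.o (R.ρ f) := by
  have hle := R.locRing_le hc
  constructor
  · intro hfm
    by_cases h0 : R.ρ f = 0
    · exact Or.inl h0
    right
    have h1 := R.nonneg f hf h0
    by_contra h2
    have h3 : R.o (R.ρ f) = 0 := by omega
    have h4 : R.o (R.ρ f)⁻¹ = 0 := by
      have := R.o_mul _ _ h0 (inv_ne_zero h0)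
      rw [mul_inv_cancel₀ h0, R.o_one] at this
      omega
    obtain ⟨f', hf'L, hf'⟩ := R.surj (R.ρ f)⁻¹ (inv_ne_zero h0) (by omega)
    -- `f * f' - 1` is a unit of the local ring with zero residue
    have h5 : R.ρ (f * f' - 1) = 0 := by
      rw [map_sub, map_mul, hf', mul_inv_cancel₀ h0, map_one, sub_self]
    set L := h62_locRing V m
    letI := h62_locRing_isLocalRing V m
    set G : L := ⟨(f : F), hf⟩ with hG
    set G' : L := ⟨(f' : F), hf'L⟩ with hG'
    have hGm : G ∈ IsLocalRing.maximalIdeal L := h62_mem_maximalIdeal_of_inMLoc V m G hfm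
    have hGG' : G * G' ∈ IsLocalRing.maximalIdeal L := Ideal.mul_mem_right _ _ hGm
    have hu : IsUnit (G * G' - 1) := by
      have h6 : G * G' - 1 ∉ IsLocalRing.maximalIdeal L := by
        intro h7
        have h8 : (1 : L) ∈ IsLocalRing.maximalIdeal L := by
          have := Ideal.sub_mem _ hGG' h7
          simpa using this
        exact (IsLocalRing.maximalIdeal.isMaximal L).ne_top ((Ideal.eq_top_iff_one _).2 h8)
      rw [IsLocalRing.mem_maximalIdeal, mem_nonunits_iff, not_not] at h6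
      exact h6
    have h9 := h62_locRing_unit V m _ hu hc
    have h10 : ((G * G' - 1 : L) : F) = ((f * f' - 1 : R.O) : F) := rfl
    have h11 : ((f * f' - 1 : R.O) : F) ≠ 0 := by
      rw [← h10]
      intro h12
      exact hu.ne_zero (Subtype.ext h12)
    have h13 := (R.ρ_eq_zero _ h11).1 h5
    rw [← h10, h9] at h13
    exact lt_irrefl _ h13
  · intro h
    by_contra hfm
    obtain ⟨hf0, hinv⟩ := inv_inLoc_of_not_inMLoc V m hf hfm
    have hvf : V.v c (f : F) = 0 := h80_through_eq_zero_of_unit V m hf0 hf hinv hc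
    have hρf : R.ρ f ≠ 0 := by
      rw [Ne, R.ρ_eq_zero f hf0, hvf]
      exact lt_irrefl _
    have hinvO : (f : F)⁻¹ ∈ R.O := hle hinv
    have hρinv : R.ρ ⟨(f : F)⁻¹, hinvO⟩ ≠ 0 := by
      rw [Ne, R.ρ_eq_zero _ (inv_ne_zero hf0)]
      show ¬ 0 < V.v c (f : F)⁻¹
      rw [h80_v_inv V c hf0, hvf]
      simp
    have hmul : R.ρ f * R.ρ ⟨(f : F)⁻¹, hinvO⟩ = 1 := by
      rw [← map_mul]
      have : f * ⟨(f : F)⁻¹, hinvO⟩ = 1 := Subtype.ext (mul_inv_cancel₀ hf0)
      rw [this, map_one]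
    have h1 := R.nonneg f hf hρf
    have h2 := R.nonneg ⟨(f : F)⁻¹, hinvO⟩ hinv hρinv
    have h3 := R.o_mul _ _ hρf hρinv
    rw [hmul, R.o_one] at h3
    rcases h with h | h
    · exact hρf h
    · omega

end h62_Res

/-- **A residue datum from surjectivity.**  `nonneg` follows from `surj` and one element
`s ∈ m B_m` with `v_c s = 0`. -/
def h62_Res.ofSurj (V : h80_ValFam F ι) (m : Ideal V.B) [hm : m.IsPrime] (c : ι)
    (hc : V.Through m c) {Fb : Type w} [Field Fb] (O : Subring F)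
    (mem_O : ∀ f : F, f ≠ 0 → 0 ≤ V.v c f → f ∈ O) (ρ : O →+* Fb)
    (ρ_eq_zero : ∀ f : O, (f : F) ≠ 0 → (ρ f = 0 ↔ 0 < V.v c (f : F)))
    (o : Fb → ℤ) (o_mul : ∀ g h : Fb, g ≠ 0 → h ≠ 0 → o (g * h) = o g + o h)
    (hs : ∃ s : F, s ≠ 0 ∧ V.InMLoc m s ∧ V.v c s = 0)
    (surj : ∀ g : Fb, g ≠ 0 → 0 ≤ o g → ∃ f : O, V.InLoc m (f : F) ∧ ρ f = g) :
    h62_Res V m c Fb where
  O := O
  mem_O := mem_O
  ρ := ρ
  ρ_eq_zero := ρ_eq_zero
  o := o
  o_mul := o_mul
  surj := surj
  nonneg := by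
    have hle : h62_locRing V m ≤ O := by
      intro f hf
      by_cases hf0 : f = 0
      · rw [hf0]
        exact O.zero_mem
      · exact mem_O f hf0 ((h80_inLoc_iff V m hf0).1 hf c hc)
    letI := h62_locRing_isLocalRing V m
    obtain ⟨s, hs0, hsm, hsc⟩ := hs
    have hsL : V.InLoc m s := by
      obtain ⟨b, t, -, ht, hbt⟩ := hsm
      exact ⟨b, t, ht, hbt⟩
    set ρ' : h62_locRing V m →+* Fb := ρ.comp (Subring.inclusion hle) with hρ'
    set S : h62_locRing V m := ⟨s, hsL⟩ with hS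
    have hSm : S ∈ IsLocalRing.maximalIdeal (h62_locRing V m) :=
      h62_mem_maximalIdeal_of_inMLoc V m S hsm
    have hρ'0 : ∀ b : h62_locRing V m, (b : F) ≠ 0 → (ρ' b = 0 ↔ 0 < V.v c (b : F)) := by
      intro b hb
      rw [hρ', RingHom.comp_apply]
      exact ρ_eq_zero _ hb
    have key := h62_residue_nonneg ρ' o o_mul
      (fun g hg0 hg => by
        obtain ⟨f, hfL, hf⟩ := surj g hg0 hg
        refine ⟨⟨(f : F), hfL⟩, ?_⟩
        rw [hρ', RingHom.comp_apply]
        have : Subring.inclusion hle ⟨(f : F), hfL⟩ = f := Subtype.ext rfl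
        rw [this, hf])
      (s := S)
      (by
        rw [Ne, hρ'0 S hs0]
        show ¬ 0 < V.v c s
        omega)
      (fun b hb => by
        have h1 : ρ' (S * b - 1) = 0 := by rw [map_sub, map_mul, hb, map_one, sub_self]
        have hSb : S * b ∈ IsLocalRing.maximalIdeal (h62_locRing V m) :=
          Ideal.mul_mem_right _ _ hSm
        have hu : IsUnit (S * b - 1) := by
          have h6 : S * b - 1 ∉ IsLocalRing.maximalIdeal (h62_locRing V m) := by
            intro h7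
            have h8 : (1 : h62_locRing V m) ∈ IsLocalRing.maximalIdeal (h62_locRing V m) := by
              have := Ideal.sub_mem _ hSb h7
              simpa using this
            exact (IsLocalRing.maximalIdeal.isMaximal _).ne_top ((Ideal.eq_top_iff_one _).2 h8)
          rw [IsLocalRing.mem_maximalIdeal, mem_nonunits_iff, not_not] at h6
          exact h6
        have h9 := h62_locRing_unit V m _ hu hc
        have h11 : ((S * b - 1 : h62_locRing V m) : F) ≠ 0 := fun h12 =>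
          hu.ne_zero (Subtype.ext h12)
        have h13 := (hρ'0 _ h11).1 h1
        rw [h9] at h13
        exact lt_irrefl _ h13)
    intro f hfL hf
    have h1 := key ⟨(f : F), hfL⟩
    have h2 : ρ' ⟨(f : F), hfL⟩ = ρ f := by
      rw [hρ', RingHom.comp_apply]
      have : Subring.inclusion hle ⟨(f : F), hfL⟩ = f := Subtype.ext rfl
      rw [this]
    rw [h2] at h1
    exact h1 hf

/-- **Transfer of a residue datum** along `φ : F₁ →+* F` in a direction of residue degree one. -/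
def h62_Res.transfer {F₁ : Type*} [Field F₁] {ι₁ : Type*} {V₁ : h80_ValFam F₁ ι₁}
    {m₁ : Ideal V₁.B} {c₁ : ι₁} {Fb₁ : Type w₁} [Field Fb₁] (R₁ : h62_Res V₁ m₁ c₁ Fb₁)
    (V : h80_ValFam F ι) (m : Ideal V.B) [hm : m.IsPrime] (c : ι) (hc : V.Through m c)
    {Fb : Type w} [Field Fb] (O : Subring F)
    (mem_O : ∀ f : F, f ≠ 0 → 0 ≤ V.v c f → f ∈ O) (ρ : O →+* Fb)
    (ρ_eq_zero : ∀ f : O, (f : F) ≠ 0 → (ρ f = 0 ↔ 0 < V.v c (f : F)))
    (o : Fb → ℤ) (o_mul : ∀ g h : Fb, g ≠ 0 → h ≠ 0 → o (g * h) = o g + o h)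
    (φ : F₁ →+* F) (ψ : Fb₁ →+* Fb) (hψ : Function.Surjective ψ)
    (ho : ∀ g : Fb₁, g ≠ 0 → o (ψ g) = R₁.o g)
    (hφO : ∀ f : R₁.O, φ (f : F₁) ∈ O)
    (hcomm : ∀ f : R₁.O, ρ ⟨φ (f : F₁), hφO f⟩ = ψ (R₁.ρ f))
    (hloc : ∀ f : F₁, V₁.InLoc m₁ f → V.InLoc m (φ f))
    (hs : ∃ s : F, s ≠ 0 ∧ V.InMLoc m s ∧ V.v c s = 0) :
    h62_Res V m c Fb :=
  h62_Res.ofSurj V m c hc O mem_O ρ ρ_eq_zero o o_mul hs (fun g hg0 hg => by
    obtain ⟨g₁, rfl⟩ := hψ g
    have hg₁0 : g₁ ≠ 0 := by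
      rintro rfl
      exact hg0 (map_zero ψ)
    rw [ho g₁ hg₁0] at hg
    obtain ⟨f₁, hf₁L, hf₁⟩ := R₁.surj g₁ hg₁0 hg
    exact ⟨⟨φ (f₁ : F₁), hφO f₁⟩, hloc _ hf₁L, by rw [hcomm f₁, hf₁]⟩)

end Fermat.Agent.S36
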