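import Mathlib
import Fermat.Agent.S36.h62_ResTransfer

/-!
# S36 / I-PTS (helper62): the residue datum of an upper level from a congruence of degree one

`V₁` (lower level) with a residue datum `R₁` of the valuation `w` at the point `m₁`;
`V` (upper level), `c` a valuation of `V` lying over `w` along `φ : F₁ →+* F`
(`v_c (φ g) = e * v_w g`, `e ≥ 1`) with **residue degree one in congruence form**:

  `deg1 : ∀ y, y ≠ 0 → v_c y = 0 → ∃ y', y - φ y' = 0 ∨ 0 < v_c (y - φ y')`

(this is (V1)/(V2) of the toric row, the binders `hV1`, `hV2` of `h70_torM`).  Then the residue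
map of `v_c` exists with values in the SAME residue field, `ρ (φ g) = ρ₁ g`, and
`h62_Res.exists_of_congr` gives the residue datum of `c` at every point `m` whose local ring
contains `φ (B_{m₁})`.  No series, no identification of residue fields.
-/

set_option autoImplicit false

namespace Fermat.Agent.S36

universe w

variable {F : Type*} [Field F] {ι : Type*}

/-! ### The valuation ring of one valuation of the family -/

theorem h62_v_neg (V : h80_ValFam F ι) (c : ι) {f : F} (hf : f ≠ 0) : V.v c (-f) = V.v c f := by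
  have h1 : V.v c (-1 : F) = 0 := by
    have h := V.map_mul c (-1) (-1) (neg_ne_zero.2 one_ne_zero) (neg_ne_zero.2 one_ne_zero)
    rw [neg_mul_neg, mul_one, h80_v_one] at h
    omega
  have h2 := V.map_mul c (-1) f (neg_ne_zero.2 one_ne_zero) hf
  rw [neg_one_mul] at h2
  rw [h2, h1, zero_add]

/-- `x = 0 ∨ 0 < v_c x` is stable under addition. -/
theorem h62_pos_add (V : h80_ValFam F ι) (c : ι) {x y : F} (hx : x = 0 ∨ 0 < V.v c x)
    (hy : y = 0 ∨ 0 < V.v c y) : x + y = 0 ∨ 0 < V.v c (x + y) := by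
  by_cases hx0 : x = 0
  · rw [hx0, zero_add]
    exact hy
  by_cases hy0 : y = 0
  · rw [hy0, add_zero]
    exact hx
  by_cases hxy : x + y = 0
  · exact Or.inl hxy
  right
  have h := V.map_add c x y hx0 hy0 hxy
  have h1 := hx.resolve_left hx0
  have h2 := hy.resolve_left hy0
  have := min_le_iff.1 h
  omega

theorem h62_pos_neg (V : h80_ValFam F ι) (c : ι) {x : F} (hx : x = 0 ∨ 0 < V.v c x) :
    -x = 0 ∨ 0 < V.v c (-x) := by
  by_cases hx0 : x = 0
  · left
    rw [hx0, neg_zero]
  · right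
    rw [h62_v_neg V c hx0]
    exact hx.resolve_left hx0

theorem h62_pos_sub (V : h80_ValFam F ι) (c : ι) {x y : F} (hx : x = 0 ∨ 0 < V.v c x)
    (hy : y = 0 ∨ 0 < V.v c y) : x - y = 0 ∨ 0 < V.v c (x - y) := by
  rw [sub_eq_add_neg]
  exact h62_pos_add V c hx (h62_pos_neg V c hy)

/-- `(x = 0 ∨ 0 ≤ v_c x)` times `(y = 0 ∨ 0 < v_c y)`. -/
theorem h62_nn_mul_pos (V : h80_ValFam F ι) (c : ι) {x y : F} (hx : x = 0 ∨ 0 ≤ V.v c x)
    (hy : y = 0 ∨ 0 < V.v c y) : x * y = 0 ∨ 0 < V.v c (x * y) := by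
  by_cases hx0 : x = 0
  · left
    rw [hx0, zero_mul]
  by_cases hy0 : y = 0
  · left
    rw [hy0, mul_zero]
  right
  rw [V.map_mul c x y hx0 hy0]
  have h1 := hx.resolve_left hx0
  have h2 := hy.resolve_left hy0
  omega

/-- The valuation ring of `v_c`. -/
def h62_valRing (V : h80_ValFam F ι) (c : ι) : Subring F where
  carrier := {f | f = 0 ∨ 0 ≤ V.v c f}
  zero_mem' := Or.inl rfl
  one_mem' := Or.inr (by rw [h80_v_one])
  add_mem' := by
    rintro x y hx hy
    by_cases hx0 : x = 0
    · rw [hx0, zero_add]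
      exact hy
    by_cases hy0 : y = 0
    · rw [hy0, add_zero]
      exact hx
    by_cases hxy : x + y = 0
    · exact Or.inl hxy
    right
    have h := V.map_add c x y hx0 hy0 hxy
    have h1 : 0 ≤ V.v c x := hx.resolve_left hx0
    have h2 : 0 ≤ V.v c y := hy.resolve_left hy0
    have := min_le_iff.1 h
    omega
  mul_mem' := by
    rintro x y hx hy
    by_cases hx0 : x = 0
    · left
      rw [hx0, zero_mul]
    by_cases hy0 : y = 0
    · left
      rw [hy0, mul_zero]
    right
    rw [V.map_mul c x y hx0 hy0]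
    have h1 : 0 ≤ V.v c x := hx.resolve_left hx0
    have h2 : 0 ≤ V.v c y := hy.resolve_left hy0
    omega
  neg_mem' := by
    rintro x hx
    by_cases hx0 : x = 0
    · left
      rw [hx0, neg_zero]
    · right
      rw [h62_v_neg V c hx0]
      exact hx.resolve_left hx0

theorem h62_mem_valRing (V : h80_ValFam F ι) (c : ι) (f : F) :
    f ∈ h62_valRing V c ↔ f = 0 ∨ 0 ≤ V.v c f := Iff.rfl

/-- The subring of a residue datum is contained in the valuation ring. -/
theorem h62_Res.nonneg_of_mem {V : h80_ValFam F ι} {m : Ideal V.B} {c : ι} {Fb : Type w}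
    [Field Fb] (R : h62_Res V m c Fb) (f : R.O) (hf : (f : F) ≠ 0) : 0 ≤ V.v c (f : F) := by
  by_contra hneg
  have hinv0 : (f : F)⁻¹ ≠ 0 := inv_ne_zero hf
  have hvinv : V.v c (f : F)⁻¹ = - V.v c (f : F) := h80_v_inv V c hf
  have hmem : (f : F)⁻¹ ∈ R.O := R.mem_O _ hinv0 (by omega)
  have h0 : R.ρ ⟨(f : F)⁻¹, hmem⟩ = 0 := (R.ρ_eq_zero _ hinv0).2 (by
    show 0 < V.v c (f : F)⁻¹
    omega)
  have h1 : R.ρ f * R.ρ ⟨(f : F)⁻¹, hmem⟩ = 1 := by
    rw [← map_mul]
    have : f * ⟨(f : F)⁻¹, hmem⟩ = 1 := Subtype.ext (mul_inv_cancel₀ hf)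
    rw [this, map_one]
  rw [h0, mul_zero] at h1
  exact zero_ne_one h1

/-! ### The residue map of the upper level -/

section Congr

variable {F₁ : Type*} [Field F₁] {ι₁ : Type*} {V₁ : h80_ValFam F₁ ι₁} {m₁ : Ideal V₁.B}
  {w₁ : ι₁} {Fb : Type w} [Field Fb]

/-- **Residue datum of the upper level from a congruence of degree one.** -/
theorem h62_Res.exists_of_congr (R₁ : h62_Res V₁ m₁ w₁ Fb) (V : h80_ValFam F ι)
    (m : Ideal V.B) [hm : m.IsPrime] (c : ι) (hc : V.Through m c) (φ : F₁ →+* F) (e : ℤ)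
    (he : 0 < e) (tab : ∀ g : F₁, g ≠ 0 → V.v c (φ g) = e * V₁.v w₁ g)
    (deg1 : ∀ y : F, y ≠ 0 → V.v c y = 0 → ∃ y' : F₁, y - φ y' = 0 ∨ 0 < V.v c (y - φ y'))
    (hloc : ∀ f : F₁, V₁.InLoc m₁ f → V.InLoc m (φ f))
    (hs : ∃ s : F, s ≠ 0 ∧ V.InMLoc m s ∧ V.v c s = 0) :
    ∃ R : h62_Res V m c Fb, R.O = h62_valRing V c ∧ R.o = R₁.o ∧
      ∀ (f : R.O) (y' : R₁.O),
        ((f : F) - φ (y' : F₁) = 0 ∨ 0 < V.v c ((f : F) - φ (y' : F₁))) → R.ρ f = R₁.ρ y' := by
  classical
  -- values of `φ` on `R₁.O`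
  have hφnn : ∀ y' : R₁.O, φ (y' : F₁) = 0 ∨ 0 ≤ V.v c (φ (y' : F₁)) := by
    intro y'
    by_cases h0 : (y' : F₁) = 0
    · left
      rw [h0, map_zero]
    · right
      rw [tab _ h0]
      exact mul_nonneg he.le (R₁.nonneg_of_mem y' h0)
  have hφpos : ∀ y' : R₁.O, (φ (y' : F₁) = 0 ∨ 0 < V.v c (φ (y' : F₁))) → R₁.ρ y' = 0 := by
    intro y' h
    by_cases h0 : (y' : F₁) = 0
    · have : y' = 0 := Subtype.ext h0
      rw [this, map_zero]
    · have h1 := h.resolve_left ((map_ne_zero φ).2 h0)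
      rw [tab _ h0] at h1
      refine (R₁.ρ_eq_zero y' h0).2 ?_
      by_contra h2
      have h3 : e * V₁.v w₁ (y' : F₁) ≤ 0 := mul_nonpos_of_nonneg_of_nonpos he.le (not_lt.1 h2)
      omega
  -- representatives
  have hrep : ∀ f : h62_valRing V c, ∃ y' : R₁.O,
      (f : F) - φ (y' : F₁) = 0 ∨ 0 < V.v c ((f : F) - φ (y' : F₁)) := by
    intro f
    by_cases hf : (f : F) = 0 ∨ 0 < V.v c (f : F)
    · refine ⟨0, ?_⟩
      simpa using hf
    · have hf0 : (f : F) ≠ 0 := fun h => hf (Or.inl h)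
      have hfv : V.v c (f : F) = 0 := by
        have h1 : 0 ≤ V.v c (f : F) := (f.2).resolve_left hf0
        have h2 : ¬ 0 < V.v c (f : F) := fun h => hf (Or.inr h)
        omega
      obtain ⟨y', hy'⟩ := deg1 (f : F) hf0 hfv
      have hy'0 : y' ≠ 0 := by
        rintro rfl
        rw [map_zero, sub_zero] at hy'
        exact hf hy'
      have hφy'0 : φ y' ≠ 0 := (map_ne_zero φ).2 hy'0
      -- `v_c (φ y') = 0`
      have hv : V.v c (φ y') = 0 := by
        by_cases hd : (f : F) - φ y' = 0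
        · rw [← sub_eq_zero.1 hd]
          exact hfv
        · have h1 := hy'.resolve_left hd
          have h2 : φ y' = (f : F) + (-((f : F) - φ y')) := by ring
          have h3 := V.map_add c (f : F) (-((f : F) - φ y')) hf0 (neg_ne_zero.2 hd)
            (by rw [← h2]; exact hφy'0)
          rw [← h2, h62_v_neg V c hd, hfv] at h3
          have h4 : (f : F) = φ y' + ((f : F) - φ y') := by ring
          have h5 := V.map_add c (φ y') ((f : F) - φ y') hφy'0 hd (by rw [← h4]; exact hf0)
          rw [← h4, hfv] at h5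
          have h6 := min_le_iff.1 h3
          have h7 := min_le_iff.1 h5
          omega
      rw [tab y' hy'0] at hv
      have hw : V₁.v w₁ y' = 0 := by
        rcases mul_eq_zero.1 hv with h | h
        · omega
        · exact h
      exact ⟨⟨y', R₁.mem_O y' hy'0 (by omega)⟩, hy'⟩
  choose rep hrep using hrep
  -- uniqueness of the residue of a representative
  have hchar : ∀ (f : h62_valRing V c) (y' : R₁.O),
      ((f : F) - φ (y' : F₁) = 0 ∨ 0 < V.v c ((f : F) - φ (y' : F₁))) →
      R₁.ρ (rep f) = R₁.ρ y' := by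
    intro f y' hy'
    have h1 := h62_pos_sub V c hy' (hrep f)
    have h2 : (f : F) - φ (y' : F₁) - ((f : F) - φ ((rep f : R₁.O) : F₁)) =
        φ (((rep f - y' : R₁.O)) : F₁) := by
      push_cast
      rw [map_sub]
      ring
    rw [h2] at h1
    have h3 := hφpos _ h1
    rw [map_sub, sub_eq_zero] at h3
    exact h3
  -- the residue map
  let ρ : h62_valRing V c →+* Fb :=
    { toFun := fun f => R₁.ρ (rep f)
      map_one' := by
        rw [hchar 1 1 (by simp), map_one]
      map_mul' := by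
        intro f g
        rw [hchar (f * g) (rep f * rep g), map_mul]
        have e1 : ((f * g : h62_valRing V c) : F) - φ (((rep f * rep g : R₁.O)) : F₁) =
            (f : F) * ((g : F) - φ ((rep g : R₁.O) : F₁)) +
              φ ((rep g : R₁.O) : F₁) * ((f : F) - φ ((rep f : R₁.O) : F₁)) := by
          push_cast
          rw [map_mul]
          ring
        rw [e1]
        exact h62_pos_add V c (h62_nn_mul_pos V c f.2 (hrep g))
          (h62_nn_mul_pos V c (hφnn (rep g)) (hrep f))
      map_zero' := by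
        rw [hchar 0 0 (by simp), map_zero]
      map_add' := by
        intro f g
        rw [hchar (f + g) (rep f + rep g), map_add]
        have e1 : ((f + g : h62_valRing V c) : F) - φ (((rep f + rep g : R₁.O)) : F₁) =
            ((f : F) - φ ((rep f : R₁.O) : F₁)) + ((g : F) - φ ((rep g : R₁.O) : F₁)) := by
          push_cast
          rw [map_add]
          ring
        rw [e1]
        exact h62_pos_add V c (hrep f) (hrep g) }
  have hρ : ∀ f : h62_valRing V c, ρ f = R₁.ρ (rep f) := fun f => rfl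
  have hρ0 : ∀ f : h62_valRing V c, (f : F) ≠ 0 → (ρ f = 0 ↔ 0 < V.v c (f : F)) := by
    intro f hf0
    constructor
    · intro h
      rw [hρ] at h
      by_cases h0 : ((rep f : R₁.O) : F₁) = 0
      · have h1 := hrep f
        rw [h0, map_zero, sub_zero] at h1
        exact h1.resolve_left hf0
      · have h1 := (R₁.ρ_eq_zero _ h0).1 h
        have h2 : φ ((rep f : R₁.O) : F₁) = 0 ∨ 0 < V.v c (φ ((rep f : R₁.O) : F₁)) := by
          right
          rw [tab _ h0]
          exact mul_pos he h1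
        have h3 := h62_pos_add V c (hrep f) h2
        rw [sub_add_cancel] at h3
        exact h3.resolve_left hf0
    · intro h
      rw [hρ, hchar f 0 (by simpa using Or.inr h), map_zero]
  refine ⟨h62_Res.ofSurj V m c hc (h62_valRing V c) (fun f _ hf => Or.inr hf) ρ hρ0 R₁.o
    R₁.o_mul hs (fun g hg0 hg => ?_), rfl, rfl, fun f y' hy' => hchar f y' hy'⟩
  obtain ⟨f₁, hf₁L, hf₁⟩ := R₁.surj g hg0 hg
  refine ⟨⟨φ (f₁ : F₁), hφnn f₁⟩, hloc _ hf₁L, ?_⟩
  rw [hρ, hchar _ f₁ (by simp), hf₁]

end Congr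

end Fermat.Agent.S36
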