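import Mathlib
import Fermat.Agent.S36.h14_Class
import Fermat.Agent.S36.h51_PtsCases
import Fermat.Agent.S36.h62_ResCongr

/-!
# S36 / I-PTS (helper62): every point `m ∋ q` of the upper level, from two-level data

`V1` (level `q`) and `V2` (level `q²`) are chart families, `a, b : F1 →+* F2` the two degeneracy
maps, `P : Fin 3 → ι2` the verticals of `V2` (`C20, C11, C02`), `wF, wV` the verticals of `V1`.
Tables: `a : (C20, C11, C02) ↦ (wF, wF, wV)`, `b : (C20, C11, C02) ↦ (wF, wV, wV)`.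

* `h62_comap_isMaximal`, `h62_inLoc_map`, `h62_inMLoc_map` : contraction of a point along an
  integral map `φ` with `φ (V1.B) ⊆ V2.B`.
* `h62_res_up_of` : the residue datum of the upper level at `m` from a residue datum `R₁` at the
  contraction of `m` whose order function takes a positive value, the table row and the
  degree-one congruence (no `hloc`, no `hs`): `h62_Res.exists_of_congr` with its
  characterisation clause.
* `h62_res_up` : the existence form, for every `m`.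
* `h62_pts_two_level` : **all of I-PTS at the points `m ∋ q` of one chart**: `hclass`,
  `h62_UnitStar V2 m`, and the residue data of the verticals through `m`.
-/

set_option autoImplicit false

namespace Fermat.Agent.S36

universe w

section contraction

variable {F1 F2 : Type*} [Field F1] [Field F2] {ι1 ι2 : Type*}
  (V1 : h80_ValFam F1 ι1) (V2 : h80_ValFam F2 ι2)
  (φ : F1 →+* F2) (hφ : ∀ g ∈ V1.B, φ g ∈ V2.B)

/-- The contraction of a maximal ideal along an integral map is maximal. -/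
theorem h62_comap_isMaximal (hint : (φ.restrict V1.B V2.B hφ).IsIntegral) (m : Ideal V2.B)
    [hm : m.IsMaximal] : (m.comap (φ.restrict V1.B V2.B hφ)).IsMaximal :=
  Ideal.isMaximal_comap_of_isIntegral_of_isMaximal' (φ.restrict V1.B V2.B hφ) hint m

/-- `φ` maps the local ring of the contraction into the local ring of `m`. -/
theorem h62_inLoc_map (m : Ideal V2.B) {f : F1}
    (hf : V1.InLoc (m.comap (φ.restrict V1.B V2.B hφ)) f) : V2.InLoc m (φ f) := by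
  obtain ⟨b, t, ht, hbt⟩ := hf
  refine ⟨φ.restrict V1.B V2.B hφ b, φ.restrict V1.B V2.B hφ t, fun h => ht (Ideal.mem_comap.2 h),
    ?_⟩
  show φ (t : F1) * φ f = φ (b : F1)
  rw [← map_mul, hbt]

/-- `φ` maps the maximal ideal of the local ring of the contraction into that of `m`. -/
theorem h62_inMLoc_map (m : Ideal V2.B) {f : F1}
    (hf : V1.InMLoc (m.comap (φ.restrict V1.B V2.B hφ)) f) : V2.InMLoc m (φ f) := by
  obtain ⟨b, t, hb, ht, hbt⟩ := hf
  refine ⟨φ.restrict V1.B V2.B hφ b, φ.restrict V1.B V2.B hφ t, Ideal.mem_comap.1 hb,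
    fun h => ht (Ideal.mem_comap.2 h), ?_⟩
  show φ (t : F1) * φ f = φ (b : F1)
  rw [← map_mul, hbt]

/-- A residue datum whose order function takes a positive value provides a function of the
maximal ideal of the point which is a unit along the valuation. -/
theorem h62_Res.exists_unit_inMLoc {F : Type*} [Field F] {ι : Type*} {V : h80_ValFam F ι}
    {m : Ideal V.B} {c : ι} {Fb : Type w} [Field Fb] (R : h62_Res V m c Fb) [hm : m.IsPrime]
    (hc : V.Through m c) (hg : ∃ g : Fb, g ≠ 0 ∧ 0 < R.o g) :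
    ∃ s : F, s ≠ 0 ∧ V.InMLoc m s ∧ V.v c s = 0 := by
  obtain ⟨g, hg0, hgo⟩ := hg
  obtain ⟨f, hfL, hfρ⟩ := R.surj g hg0 hgo.le
  have hρ0 : R.ρ f ≠ 0 := by rw [hfρ]; exact hg0
  have hf0 : (f : F) ≠ 0 := by
    intro h
    have : f = 0 := Subtype.ext h
    rw [this, map_zero] at hρ0
    exact hρ0 rfl
  refine ⟨f, hf0, (R.inMLoc_iff hc f hfL).2 (Or.inr (by rw [hfρ]; exact hgo)), ?_⟩
  have h1 := R.nonneg_of_mem f hf0
  have h2 : ¬ 0 < V.v c (f : F) := fun h => hρ0 ((R.ρ_eq_zero f hf0).2 h)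
  omega

variable {V1 V2 φ}

/-- **The residue datum of the upper level at `m`**, from a residue datum `R₁` at the contraction
of `m`: the table row `v_c (φ g) = e * v_w₁ g` and the degree-one congruence. -/
theorem h62_res_up_of (m : Ideal V2.B) [hm : m.IsPrime] (c : ι2) (hc : V2.Through m c)
    (w₁ : ι1) (hw₁ : V1.Through (m.comap (φ.restrict V1.B V2.B hφ)) w₁)
    [hm₁ : (m.comap (φ.restrict V1.B V2.B hφ)).IsPrime]
    {Fb : Type w} [Field Fb]
    (R₁ : h62_Res V1 (m.comap (φ.restrict V1.B V2.B hφ)) w₁ Fb)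
    (hg : ∃ g : Fb, g ≠ 0 ∧ 0 < R₁.o g)
    (e : ℤ) (he : 0 < e) (tab : ∀ g : F1, g ≠ 0 → V2.v c (φ g) = e * V1.v w₁ g)
    (deg1 : ∀ y : F2, y ≠ 0 → V2.v c y = 0 →
      ∃ y' : F1, y - φ y' = 0 ∨ 0 < V2.v c (y - φ y')) :
    ∃ R : h62_Res V2 m c Fb, R.O = h62_valRing V2 c ∧ R.o = R₁.o ∧
      ∀ (f : R.O) (y' : R₁.O),
        ((f : F2) - φ (y' : F1) = 0 ∨ 0 < V2.v c ((f : F2) - φ (y' : F1))) →
          R.ρ f = R₁.ρ y' := by
  obtain ⟨s, hs0, hsM, hsv⟩ := R₁.exists_unit_inMLoc hw₁ hg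
  refine R₁.exists_of_congr V2 m c hc φ e he tab deg1
    (fun f hf => h62_inLoc_map V1 V2 φ hφ m hf)
    ⟨φ s, (map_ne_zero φ).2 hs0, h62_inMLoc_map V1 V2 φ hφ m hsM, ?_⟩
  rw [tab s hs0, hsv, mul_zero]

/-- **The residue data of the upper level**, existence form: if every point of the lower level
on `w₁` has a residue datum (with a nontrivial order function), so has every point of the upper
level on `c`. -/
theorem h62_res_up (hint : (φ.restrict V1.B V2.B hφ).IsIntegral)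
    (c : ι2) (w₁ : ι1) (e : ℤ) (he : 0 < e)
    (tab : ∀ g : F1, g ≠ 0 → V2.v c (φ g) = e * V1.v w₁ g)
    (deg1 : ∀ y : F2, y ≠ 0 → V2.v c y = 0 →
      ∃ y' : F1, y - φ y' = 0 ∨ 0 < V2.v c (y - φ y'))
    (hR1 : ∀ s : Ideal V1.B, s.IsMaximal → V1.Through s w₁ →
      ∃ (Fb : Type w) (_ : Field Fb) (R : h62_Res V1 s w₁ Fb), ∃ g : Fb, g ≠ 0 ∧ 0 < R.o g)
    (m : Ideal V2.B) (hm : m.IsMaximal) (hc : V2.Through m c) :
    ∃ (Fb : Type w) (_ : Field Fb) (R : h62_Res V2 m c Fb), ∃ g : Fb, g ≠ 0 ∧ 0 < R.o g := by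
  have hmp : m.IsPrime := hm.isPrime
  have hm₁ : (m.comap (φ.restrict V1.B V2.B hφ)).IsMaximal :=
    h62_comap_isMaximal V1 V2 φ hφ hint m
  have hm₁p : (m.comap (φ.restrict V1.B V2.B hφ)).IsPrime := hm₁.isPrime
  have hw₁ : V1.Through (m.comap (φ.restrict V1.B V2.B hφ)) w₁ :=
    h14_through_comap V1 V2 φ hφ c w₁
      (fun g hg => h14_pos_iff_of_mul (V2.v c) (V1.v w₁) φ e he tab g hg) m hc
  obtain ⟨Fb, _, R₁, hg⟩ := hR1 _ hm₁ hw₁
  obtain ⟨R, _, hRo, _⟩ := h62_res_up_of (hφ := hφ) m c hc w₁ hw₁ R₁ hg e he tab deg1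
  refine ⟨Fb, inferInstance, R, ?_⟩
  rw [hRo]
  exact hg

end contraction

section twoLevel

variable {F1 F2 : Type*} [Field F1] [Field F2] {ι1 ι2 : Type*}
  (V1 : h80_ValFam F1 ι1) (V2 : h80_ValFam F2 ι2)

/-- **I-PTS at the points `m ∋ q` of one chart of the upper level.**  Inputs: the binders of
`h14_class'` (tables, (HC1)-(HC4), (UNIT\*) at the nodes of the lower level, (N2'), (N3')), the
two multiplicity-one table rows `a : C02 ↦ wV`, `b : C20 ↦ wF`, the values of `q`, `hunr`/`hsep`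
of the horizontal valuations, the residue data of the lower level, the three degree-one
congruences, and the thick branch (`hζ2`, `hthick`).  Outputs: `hclass`, (UNIT\*) and the residue
data at every maximal ideal through which a vertical passes. -/
theorem h62_pts_two_level [IsNoetherianRing V2.B]
    (wF wV : ι1) (hFV : wF ≠ wV) (P : Fin 3 → ι2)
    (Hor1 : ι1 → Prop) (Hor2 : ι2 → Prop) (hHor1 : ∀ h, Hor1 h → h ≠ wF ∧ h ≠ wV)
    (hcase : ∀ i : ι2, (∃ k, i = P k) ∨ Hor2 i)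
    (a b : F1 →+* F2) (ha : ∀ g ∈ V1.B, a g ∈ V2.B) (hb : ∀ g ∈ V1.B, b g ∈ V2.B)
    (hia : (a.restrict V1.B V2.B ha).IsIntegral) (hib : (b.restrict V1.B V2.B hb).IsIntegral)
    (hta : ∀ k, ∃ e : ℤ, 0 < e ∧ ∀ g : F1, g ≠ 0 →
      V2.v (P k) (a g) = e * V1.v ((![wF, wF, wV] : Fin 3 → ι1) k) g)
    (htb : ∀ k, ∃ e : ℤ, 0 < e ∧ ∀ g : F1, g ≠ 0 →
      V2.v (P k) (b g) = e * V1.v ((![wF, wV, wV] : Fin 3 → ι1) k) g)
    (hta2 : ∀ g : F1, g ≠ 0 → V2.v (P 2) (a g) = V1.v wV g)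
    (htb0 : ∀ g : F1, g ≠ 0 → V2.v (P 0) (b g) = V1.v wF g)
    (hHCa : ∀ h, Hor2 h → ∃ h1, Hor1 h1 ∧ ∃ e : ℤ, 0 < e ∧ ∀ g : F1, g ≠ 0 →
      V2.v h (a g) = e * V1.v h1 g)
    (hHCb : ∀ h, Hor2 h → ∃ h1, Hor1 h1 ∧ ∃ e : ℤ, 0 < e ∧ ∀ g : F1, g ≠ 0 →
      V2.v h (b g) = e * V1.v h1 g)
    (hU : ∀ s : Ideal V1.B, s.IsMaximal → V1.Through s wF → V1.Through s wV →
      h62_UnitStar V1 s)
    (r : ℕ) (hr : r ≠ 0)
    (hN2 : ∀ f : V2.B, ∃ g : V1.B,
      a g - (f : F2) ^ r = 0 ∨ 0 < V2.v (P 2) (a g - (f : F2) ^ r))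
    (hN3 : ∀ f : V2.B, ∃ g : V1.B,
      b g - (f : F2) ^ r = 0 ∨ 0 < V2.v (P 0) (b g - (f : F2) ^ r))
    -- the values of `q`
    (q : F2) (hq0 : q ≠ 0) (hq1 : V2.v (P 0) q = 1) (hq2 : 0 < V2.v (P 1) q)
    (hq3 : V2.v (P 2) q = 1) (hqH : ∀ h, Hor2 h → V2.v h q = 0)
    -- the horizontal valuations
    (hunr : ∀ i, Hor2 i → ∃ f : V2.B, (f : F2) ≠ 0 ∧ V2.v i f = 1)
    (hsep : ∀ i j, Hor2 i → Hor2 j → i ≠ j →
      ∃ f : V2.B, (f : F2) ≠ 0 ∧ 0 < V2.v i f ∧ V2.v j f = 0)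
    -- the residue data of the lower level
    (hR1F : ∀ s : Ideal V1.B, s.IsMaximal → V1.Through s wF →
      ∃ (Fb : Type w) (_ : Field Fb) (R : h62_Res V1 s wF Fb), ∃ g : Fb, g ≠ 0 ∧ 0 < R.o g)
    (hR1V : ∀ s : Ideal V1.B, s.IsMaximal → V1.Through s wV →
      ∃ (Fb : Type w) (_ : Field Fb) (R : h62_Res V1 s wV Fb), ∃ g : Fb, g ≠ 0 ∧ 0 < R.o g)
    -- degree one
    (hV1 : ∀ y : F2, y ≠ 0 → V2.v (P 0) y = 0 →
      ∃ y' : F1, y - a y' = 0 ∨ 0 < V2.v (P 0) (y - a y'))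
    (hV2 : ∀ y : F2, y ≠ 0 → V2.v (P 1) y = 0 →
      ∃ y' : F1, y - a y' = 0 ∨ 0 < V2.v (P 1) (y - a y'))
    (hV1b : ∀ y : F2, y ≠ 0 → V2.v (P 2) y = 0 →
      ∃ y' : F1, y - b y' = 0 ∨ 0 < V2.v (P 2) (y - b y'))
    -- the thick branch
    (hζ2 : ∃ ζ : F2, ζ ≠ 0 ∧ V2.v (P 1) ζ = 1)
    (hthick : ∀ m : Ideal V2.B, m.IsMaximal → V2.Through m (P 1) →
      (∀ c, V2.Through m (P c) → c = 1) →
      ∃ z : F2, z ≠ 0 ∧ V2.v (P 1) z = 1 ∧ ∀ k, V2.Through m k → k ≠ P 1 → V2.v k z = 0) :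
    (∀ m : Ideal V2.B, m.IsMaximal →
      (∀ k, V2.Through m (P k)) ∨ ∃ k0, ∀ k, V2.Through m (P k) → k = k0) ∧
    (∀ m : Ideal V2.B, m.IsMaximal → (∃ k, V2.Through m (P k)) → h62_UnitStar V2 m) ∧
    (∀ m : Ideal V2.B, m.IsMaximal → ∀ k, V2.Through m (P k) →
      ∃ (Fb : Type w) (_ : Field Fb) (R : h62_Res V2 m (P k) Fb), ∃ g : Fb, g ≠ 0 ∧ 0 < R.o g) := by
  classical
  have h3 : ∀ i : Fin 3, i = 0 ∨ i = 1 ∨ i = 2 := by decide
  obtain ⟨hclass, hnodea, hnodeb⟩ := h14_class' V1 V2 wF wV hFV P Hor1 Hor2 hHor1 hcase a b ha hb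
    hia hib hta htb hHCa hHCb hU r hr hN2 hN3
  -- the residue data
  have hRES : ∀ m : Ideal V2.B, m.IsMaximal → ∀ k, V2.Through m (P k) →
      ∃ (Fb : Type w) (_ : Field Fb) (R : h62_Res V2 m (P k) Fb),
        ∃ g : Fb, g ≠ 0 ∧ 0 < R.o g := by
    intro m hm k hk
    rcases h3 k with rfl | rfl | rfl
    · obtain ⟨e, he, tab⟩ := hta 0
      exact h62_res_up (hφ := ha) hia (P 0) wF e he tab hV1 hR1F m hm hk
    · obtain ⟨e, he, tab⟩ := hta 1
      exact h62_res_up (hφ := ha) hia (P 1) wF e he tab hV2 hR1F m hm hk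
    · obtain ⟨e, he, tab⟩ := htb 2
      exact h62_res_up (hφ := hb) hib (P 2) wV e he tab hV1b hR1V m hm hk
  refine ⟨hclass, fun m hm hqm => ?_, hRES⟩
  have hmp : m.IsPrime := hm.isPrime
  -- the values of `q`
  have hqP : ∀ k, 0 < V2.v (P k) q := by
    intro k
    rcases h3 k with rfl | rfl | rfl
    · rw [hq1]; exact one_pos
    · exact hq2
    · rw [hq3]; exact one_pos
  have hqn : ∀ k, V2.Through m k → 0 ≤ V2.v k q := by
    intro k _
    rcases hcase k with ⟨c, rfl⟩ | hH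
    · exact (hqP c).le
    · rw [hqH k hH]
  have hHor_of : ∀ i, V2.v i q = 0 → Hor2 i := by
    intro i hi
    rcases hcase i with ⟨c, rfl⟩ | hH
    · have := hqP c
      omega
    · exact hH
  have hvert : ∀ k, V2.Through m k → 0 < V2.v k q → ∃ c, k = P c := by
    intro k _ hk
    rcases hcase k with ⟨c, rfl⟩ | hH
    · exact ⟨c, rfl⟩
    · rw [hqH k hH] at hk
      exact absurd hk (lt_irrefl _)
  -- the contraction data along a map
  have hHC : ∀ (φ : F1 →+* F2) (hφ : ∀ g ∈ V1.B, φ g ∈ V2.B),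
      (∀ h, Hor2 h → ∃ h1, Hor1 h1 ∧ ∃ e : ℤ, 0 < e ∧ ∀ g : F1, g ≠ 0 →
        V2.v h (φ g) = e * V1.v h1 g) →
      ∀ k, Hor2 k → V2.Through m k → ∃ (k₁ : ι1) (e : ℤ), Hor1 k₁ ∧
        V1.Through (m.comap (φ.restrict V1.B V2.B hφ)) k₁ ∧
        ∀ g : F1, g ≠ 0 → V2.v k (φ g) = e * V1.v k₁ g := by
    intro φ hφ hH k hk hthr
    obtain ⟨h1, hh1, e, he, htab⟩ := hH k hk
    exact ⟨h1, e, hh1, h14_through_comap V1 V2 φ hφ k h1
      (fun g hg => h14_pos_iff_of_mul (V2.v k) (V1.v h1) φ e he htab g hg) m hthr, htab⟩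
  refine h51_pts_unitStar V2 m q hq0 hqn ?_ ?_ P hvert hq1 hq2 hq3 hqm (hclass m hm)
    (fun _ => hζ2) (hthick m hm) ?_ ?_
  · -- hunrH
    intro i _ hiq
    obtain ⟨f, hf0, hf1⟩ := hunr i (hHor_of i hiq)
    exact ⟨f, hf0, hf1, fun k _ => h80_v_nonneg V2 k f hf0⟩
  · -- hsepH
    intro i j _ _ hiq hjq hij
    obtain ⟨f, hf0, hf1, hf2⟩ := hsep i j (hHor_of i hiq) (hHor_of j hjq) hij
    exact ⟨f, hf0, hf1, hf2, fun k _ => h80_v_nonneg V2 k f hf0⟩
  · -- htri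
    intro hall
    obtain ⟨_, haF, haV⟩ := hnodea m hm hall
    obtain ⟨_, hbF, hbV⟩ := hnodeb m hm hall
    have hma : (m.comap (a.restrict V1.B V2.B ha)).IsMaximal :=
      h62_comap_isMaximal V1 V2 a ha hia m
    have hmb : (m.comap (b.restrict V1.B V2.B hb)).IsMaximal :=
      h62_comap_isMaximal V1 V2 b hb hib m
    constructor
    · -- the equation of `C20`: the image under `b` of the equation of `wF` at the node
      refine h51_eq_of_node V1 V2 m P Hor2 (fun k _ => hcase k) 0 wF wV (Ne.symm hFV) Hor1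
        (fun k₁ hk₁ => (hHor1 k₁ hk₁).1) b (m.comap (b.restrict V1.B V2.B hb)) hbF hbV
        (hU _ hmb hbF hbV) htb0 (fun c' hc' => ?_) (hHC b hb hHCb)
      rcases h3 c' with rfl | rfl | rfl
      · exact absurd rfl hc'
      · obtain ⟨e, _, tab⟩ := htb 1
        exact ⟨e, tab⟩
      · obtain ⟨e, _, tab⟩ := htb 2
        exact ⟨e, tab⟩
    · -- the equation of `C02`: the image under `a` of the equation of `wV` at the node
      refine h51_eq_of_node V1 V2 m P Hor2 (fun k _ => hcase k) 2 wV wF hFV Hor1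
        (fun k₁ hk₁ => (hHor1 k₁ hk₁).2) a (m.comap (a.restrict V1.B V2.B ha)) haV haF
        (hU _ hma haF haV) hta2 (fun c' hc' => ?_) (hHC a ha hHCa)
      rcases h3 c' with rfl | rfl | rfl
      · obtain ⟨e, _, tab⟩ := hta 0
        exact ⟨e, tab⟩
      · obtain ⟨e, _, tab⟩ := hta 1
        exact ⟨e, tab⟩
      · exact absurd rfl hc'
  · -- hR
    intro c hc hcq
    obtain ⟨k, rfl⟩ := hvert c hc hcq
    obtain ⟨Fb, i, R, _⟩ := hRES m hm k hc
    exact ⟨Fb, i, ⟨R⟩⟩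

end twoLevel

end Fermat.Agent.S36
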