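import Mathlib
import Fermat.Agent.S36.h62_PtsTwoLevel

/-!
# S36 / I-PTS: the two-level theorems with the WEAK node hypothesis (helper14)

`h14_class'` (`S36/h14_Class.lean`) and `h62_pts_two_level` (`S36/h62_PtsTwoLevel.lean`) take
`hU : (UNIT*)` at the nodes `s` of the lower level (`wF`, `wV` through `s`).  Only the local
equations of the two VERTICAL valuations `wF`, `wV` at `s` are ever used.  This file restates
both with

    hUw : ∀ s, s.IsMaximal → V1.Through s wF → V1.Through s wV →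
      (∃ e ≠ 0, v_wF e = 1 ∧ ∀ j through s, j ≠ wF → v_j e = 0) ∧
      (∃ e ≠ 0, v_wV e = 1 ∧ ∀ j through s, j ≠ wV → v_j e = 0)

(the node functions `a`, `b` with `a b = q ψ` of the level-`q` model), every other binder and the
conclusions verbatim.

* `h14_vert_elt`       : a local equation of `w` at `s` gives an element of `V.B ∩ s` cutting
                         out `w` only;
* `h14_class_w`        : `h14_class'` with `hUw`;
* `h14_eq_of_node_w`   : `h51_eq_of_node` with the local equation of `u` only;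
* `h14_pts_two_level_w`: `h62_pts_two_level` with `hUw` (proof of helper62, verbatim otherwise).
-/

set_option autoImplicit false

namespace Fermat.Agent.S36

universe w

section weak

variable {F1 F2 : Type*} [Field F1] [Field F2] {ι1 ι2 : Type*}
  (V1 : h80_ValFam F1 ι1) (V2 : h80_ValFam F2 ι2)

/-- A local equation `e` of the valuation `w` at the prime `s` (`v_w e = 1`, value `0` at the
other valuations through `s`) gives an element of `V1.B ∩ s` with value `0` at every valuation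
through `s` other than `w`. -/
theorem h14_vert_elt (w : ι1) (s : Ideal V1.B) [hs : s.IsPrime] (hw : V1.Through s w)
    (hU : ∃ e : F1, e ≠ 0 ∧ V1.v w e = 1 ∧ ∀ j, V1.Through s j → j ≠ w → V1.v j e = 0) :
    ∃ c : V1.B, (c : F1) ≠ 0 ∧ c ∈ s ∧ ∀ j, V1.Through s j → j ≠ w → V1.v j c = 0 := by
  obtain ⟨e, he0, he1, he⟩ := hU
  have hloc : V1.InLoc s e := by
    rw [h80_inLoc_iff V1 s he0]
    intro i hi
    by_cases hiw : i = w
    · rw [hiw, he1]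
      exact zero_le_one
    · rw [he i hi hiw]
  obtain ⟨c, t, ht, hct⟩ := hloc
  have ht0 : (t : F1) ≠ 0 := by
    intro h
    apply ht
    have : t = 0 := Subtype.ext h
    rw [this]
    exact s.zero_mem
  have hc0 : (c : F1) ≠ 0 := by
    rw [← hct]
    exact mul_ne_zero ht0 he0
  have htv : ∀ j, V1.Through s j → V1.v j t = 0 := by
    intro j hj
    have h1 := h80_v_nonneg V1 j t ht0
    by_contra h2
    exact ht (hj t ht0 (by omega))
  refine ⟨c, hc0, ?_, ?_⟩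
  · refine hw c hc0 ?_
    rw [← hct, V1.map_mul w _ _ ht0 he0, htv w hw, he1]
    exact zero_lt_one
  · intro j hj hjw
    rw [← hct, V1.map_mul j _ _ ht0 he0, htv j hj, he j hj hjw]
    rfl

/-- **`hclass`** (with `hsα`, `hsβ`) from the WEAK node hypothesis: `h14_class'` with the local
equations of the two vertical valuations at the nodes of `V1` in place of (UNIT\*). -/
theorem h14_class_w (wF wV : ι1) (hFV : wF ≠ wV) (P : Fin 3 → ι2)
    (Hor1 : ι1 → Prop) (Hor2 : ι2 → Prop) (hHor1 : ∀ h, Hor1 h → h ≠ wF ∧ h ≠ wV)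
    (hcase : ∀ i : ι2, (∃ k, i = P k) ∨ Hor2 i)
    (a b : F1 →+* F2) (ha : ∀ g ∈ V1.B, a g ∈ V2.B) (hb : ∀ g ∈ V1.B, b g ∈ V2.B)
    (hia : (a.restrict V1.B V2.B ha).IsIntegral) (hib : (b.restrict V1.B V2.B hb).IsIntegral)
    (hta : ∀ k, ∃ e : ℤ, 0 < e ∧ ∀ g : F1, g ≠ 0 →
      V2.v (P k) (a g) = e * V1.v ((![wF, wF, wV] : Fin 3 → ι1) k) g)
    (htb : ∀ k, ∃ e : ℤ, 0 < e ∧ ∀ g : F1, g ≠ 0 →
      V2.v (P k) (b g) = e * V1.v ((![wF, wV, wV] : Fin 3 → ι1) k) g)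
    (hHCa : ∀ h, Hor2 h → ∃ h1, Hor1 h1 ∧ ∃ e : ℤ, 0 < e ∧ ∀ g : F1, g ≠ 0 →
      V2.v h (a g) = e * V1.v h1 g)
    (hHCb : ∀ h, Hor2 h → ∃ h1, Hor1 h1 ∧ ∃ e : ℤ, 0 < e ∧ ∀ g : F1, g ≠ 0 →
      V2.v h (b g) = e * V1.v h1 g)
    (hUw : ∀ s : Ideal V1.B, s.IsMaximal → V1.Through s wF → V1.Through s wV →
      (∃ e : F1, e ≠ 0 ∧ V1.v wF e = 1 ∧ ∀ j, V1.Through s j → j ≠ wF → V1.v j e = 0) ∧
      (∃ e : F1, e ≠ 0 ∧ V1.v wV e = 1 ∧ ∀ j, V1.Through s j → j ≠ wV → V1.v j e = 0))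
    (r : ℕ) (hr : r ≠ 0)
    (hN2 : ∀ f : V2.B, ∃ g : V1.B,
      a g - (f : F2) ^ r = 0 ∨ 0 < V2.v (P 2) (a g - (f : F2) ^ r))
    (hN3 : ∀ f : V2.B, ∃ g : V1.B,
      b g - (f : F2) ^ r = 0 ∨ 0 < V2.v (P 0) (b g - (f : F2) ^ r)) :
    (∀ m : Ideal V2.B, m.IsMaximal →
      (∀ k, V2.Through m (P k)) ∨ ∃ k0, ∀ k, V2.Through m (P k) → k = k0) ∧
    (∀ m : Ideal V2.B, m.IsMaximal → (∀ k, V2.Through m (P k)) →
      (m.comap (a.restrict V1.B V2.B ha)).IsPrime ∧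
      V1.Through (m.comap (a.restrict V1.B V2.B ha)) wF ∧
      V1.Through (m.comap (a.restrict V1.B V2.B ha)) wV) ∧
    (∀ m : Ideal V2.B, m.IsMaximal → (∀ k, V2.Through m (P k)) →
      (m.comap (b.restrict V1.B V2.B hb)).IsPrime ∧
      V1.Through (m.comap (b.restrict V1.B V2.B hb)) wF ∧
      V1.Through (m.comap (b.restrict V1.B V2.B hb)) wV) := by
  -- (HC) per point from the global horizontal table
  have hHC : ∀ (φ : F1 →+* F2) (hφ : ∀ g ∈ V1.B, φ g ∈ V2.B),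
      (∀ h, Hor2 h → ∃ h1, Hor1 h1 ∧ ∃ e : ℤ, 0 < e ∧ ∀ g : F1, g ≠ 0 →
        V2.v h (φ g) = e * V1.v h1 g) →
      ∀ m : Ideal V2.B, m.IsMaximal → ∀ h, Hor2 h → V2.Through m h → ∃ h1, Hor1 h1 ∧
        V1.Through (m.comap (φ.restrict V1.B V2.B hφ)) h1 ∧
        ∀ g : F1, g ≠ 0 → V1.v h1 g = 0 → V2.v h (φ g) = 0 := by
    intro φ hφ hH m _ h hh hthr
    obtain ⟨h1, hh1, e, he, htab⟩ := hH h hh
    refine ⟨h1, hh1, ?_, ?_⟩
    · exact h14_through_comap V1 V2 φ hφ h h1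
        (fun g hg => h14_pos_iff_of_mul (V2.v h) (V1.v h1) φ e he htab g hg) m hthr
    · intro g hg hv
      rw [htab g hg, hv, mul_zero]
  refine h14_class V1 V2 wF wV P Hor1 Hor2 hcase a b ha hb hia hib ?_ ?_
    (hHC a ha hHCa) (hHC b hb hHCb) ?_ r hr hN2 hN3
  · intro k g hg
    obtain ⟨e, he, htab⟩ := hta k
    exact h14_pos_iff_of_mul (V2.v (P k)) (V1.v _) a e he htab g hg
  · intro k g hg
    obtain ⟨e, he, htab⟩ := htb k
    exact h14_pos_iff_of_mul (V2.v (P k)) (V1.v _) b e he htab g hg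
  · intro s hs hF hV
    have hsp : s.IsPrime := hs.isPrime
    obtain ⟨hUF, hUV⟩ := hUw s hs hF hV
    obtain ⟨aF, haF0, haFs, haF⟩ := h14_vert_elt V1 wF s hF hUF
    obtain ⟨bV, hbV0, hbVs, hbV⟩ := h14_vert_elt V1 wV s hV hUV
    refine ⟨aF, bV, haF0, hbV0, haFs, hbVs, haF wV hV (Ne.symm hFV), hbV wF hF hFV, ?_⟩
    intro h hh hthr
    exact ⟨haF h hthr (hHor1 h hh).1, hbV h hthr (hHor1 h hh).2⟩

/-- `h51_eq_of_node` with the local equation of `u` at the node only (instead of (UNIT\*)). -/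
theorem h14_eq_of_node_w (m : Ideal V2.B) {κ : Type*} (P : κ → ι2) (Hor : ι2 → Prop)
    (hcase : ∀ k, V2.Through m k → (∃ c, k = P c) ∨ Hor k) (c : κ)
    (u u' : ι1) (huu' : u' ≠ u) (Hor₁ : ι1 → Prop) (hHor₁ : ∀ k₁, Hor₁ k₁ → k₁ ≠ u)
    (φ : F1 →+* F2) (m₁ : Ideal V1.B) (hu' : V1.Through m₁ u')
    (hU : ∃ b : F1, b ≠ 0 ∧ V1.v u b = 1 ∧ ∀ j, V1.Through m₁ j → j ≠ u → V1.v j b = 0)
    (tc : ∀ g : F1, g ≠ 0 → V2.v (P c) (φ g) = V1.v u g)
    (tc' : ∀ c', P c' ≠ P c → ∃ e : ℤ, ∀ g : F1, g ≠ 0 → V2.v (P c') (φ g) = e * V1.v u' g)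
    (HC : ∀ k, Hor k → V2.Through m k → ∃ (k₁ : ι1) (e : ℤ), Hor₁ k₁ ∧ V1.Through m₁ k₁ ∧
      ∀ g : F1, g ≠ 0 → V2.v k (φ g) = e * V1.v k₁ g) :
    ∃ π : F2, π ≠ 0 ∧ V2.v (P c) π = 1 ∧ ∀ k, V2.Through m k → k ≠ P c → V2.v k π = 0 := by
  refine h51_pullback_eq V1 V2 m m₁ φ (P c) u tc (fun k hk hkC => ?_) hU
  rcases hcase k hk with ⟨c', rfl⟩ | hH
  · obtain ⟨e, he⟩ := tc' c' hkC
    exact ⟨u', e, hu', huu', he⟩
  · obtain ⟨k₁, e, hk₁, hthr, he⟩ := HC k hH hk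
    exact ⟨k₁, e, hthr, hHor₁ k₁ hk₁, he⟩

/-- **I-PTS at the points `m ∋ q` of one chart of the upper level.**  Inputs: the binders of
`h14_class'` (tables, (HC1)-(HC4), the two VERTICAL local equations at the nodes of the lower level (`hUw`), (N2'), (N3')), the
two multiplicity-one table rows `a : C02 ↦ wV`, `b : C20 ↦ wF`, the values of `q`, `hunr`/`hsep`
of the horizontal valuations, the residue data of the lower level, the three degree-one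
congruences, and the thick branch (`hζ2`, `hthick`).  Outputs: `hclass`, (UNIT\*) and the residue
data at every maximal ideal through which a vertical passes. -/
theorem h14_pts_two_level_w [IsNoetherianRing V2.B]
    (wF wV : ι1) (hFV : wF ≠ wV) (P : Fin 3 → ι2)
    (Hor1 : ι1 → Prop) (Hor2 : ι2 → Prop) (hHor1 : ∀ h, Hor1 h → h ≠ wF ∧ h ≠ wV)
    (hcase : ∀ i : ι2, (∃ k, i = P k) ∨ Hor2 i)
    (a b : F1 →+* F2) (ha : ∀ g ∈ V1.B, a g ∈ V2.B) (hb : ∀ g ∈ V1.B, b g ∈ V2.B)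
    (hia : (a.restrict V1.B V2.B ha).IsIntegral) (hib : (b.restrict V1.B V2.B hb).IsIntegral)
    (hta : ∀ k, ∃ e : ℤ, 0 < e ∧ ∀ g : F1, g ≠ 0 →
      V2.v (P k) (a g) = e * V1.v ((![wF, wF, wV] : Fin 3 → ι1) k) g)
    (htb : ∀ k, ∃ e : ℤ, 0 < e ∧ ∀ g : F1, g ≠ 0 →
      V2.v (P k) (b g) = e * V1.v ((![wF, wV, wV] : Fin 3 → ι1) k) g)
    (hta2 : ∀ g : F1, g ≠ 0 → V2.v (P 2) (a g) = V1.v wV g)
    (htb0 : ∀ g : F1, g ≠ 0 → V2.v (P 0) (b g) = V1.v wF g)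
    (hHCa : ∀ h, Hor2 h → ∃ h1, Hor1 h1 ∧ ∃ e : ℤ, 0 < e ∧ ∀ g : F1, g ≠ 0 →
      V2.v h (a g) = e * V1.v h1 g)
    (hHCb : ∀ h, Hor2 h → ∃ h1, Hor1 h1 ∧ ∃ e : ℤ, 0 < e ∧ ∀ g : F1, g ≠ 0 →
      V2.v h (b g) = e * V1.v h1 g)
    (hUw : ∀ s : Ideal V1.B, s.IsMaximal → V1.Through s wF → V1.Through s wV →
      (∃ e : F1, e ≠ 0 ∧ V1.v wF e = 1 ∧ ∀ j, V1.Through s j → j ≠ wF → V1.v j e = 0) ∧
      (∃ e : F1, e ≠ 0 ∧ V1.v wV e = 1 ∧ ∀ j, V1.Through s j → j ≠ wV → V1.v j e = 0))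
    (r : ℕ) (hr : r ≠ 0)
    (hN2 : ∀ f : V2.B, ∃ g : V1.B,
      a g - (f : F2) ^ r = 0 ∨ 0 < V2.v (P 2) (a g - (f : F2) ^ r))
    (hN3 : ∀ f : V2.B, ∃ g : V1.B,
      b g - (f : F2) ^ r = 0 ∨ 0 < V2.v (P 0) (b g - (f : F2) ^ r))
    -- the values of `q`
    (q : F2) (hq0 : q ≠ 0) (hq1 : V2.v (P 0) q = 1) (hq2 : 0 < V2.v (P 1) q)
    (hq3 : V2.v (P 2) q = 1) (hqH : ∀ h, Hor2 h → V2.v h q = 0)
    -- the horizontal valuations
    (hunr : ∀ i, Hor2 i → ∃ f : V2.B, (f : F2) ≠ 0 ∧ V2.v i f = 1)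
    (hsep : ∀ i j, Hor2 i → Hor2 j → i ≠ j →
      ∃ f : V2.B, (f : F2) ≠ 0 ∧ 0 < V2.v i f ∧ V2.v j f = 0)
    -- the residue data of the lower level
    (hR1F : ∀ s : Ideal V1.B, s.IsMaximal → V1.Through s wF →
      ∃ (Fb : Type w) (_ : Field Fb) (R : h62_Res V1 s wF Fb), ∃ g : Fb, g ≠ 0 ∧ 0 < R.o g)
    (hR1V : ∀ s : Ideal V1.B, s.IsMaximal → V1.Through s wV →
      ∃ (Fb : Type w) (_ : Field Fb) (R : h62_Res V1 s wV Fb), ∃ g : Fb, g ≠ 0 ∧ 0 < R.o g)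
    -- degree one
    (hV1 : ∀ y : F2, y ≠ 0 → V2.v (P 0) y = 0 →
      ∃ y' : F1, y - a y' = 0 ∨ 0 < V2.v (P 0) (y - a y'))
    (hV2 : ∀ y : F2, y ≠ 0 → V2.v (P 1) y = 0 →
      ∃ y' : F1, y - a y' = 0 ∨ 0 < V2.v (P 1) (y - a y'))
    (hV1b : ∀ y : F2, y ≠ 0 → V2.v (P 2) y = 0 →
      ∃ y' : F1, y - b y' = 0 ∨ 0 < V2.v (P 2) (y - b y'))
    -- the thick branch
    (hζ2 : ∃ ζ : F2, ζ ≠ 0 ∧ V2.v (P 1) ζ = 1)
    (hthick : ∀ m : Ideal V2.B, m.IsMaximal → V2.Through m (P 1) →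
      (∀ c, V2.Through m (P c) → c = 1) →
      ∃ z : F2, z ≠ 0 ∧ V2.v (P 1) z = 1 ∧ ∀ k, V2.Through m k → k ≠ P 1 → V2.v k z = 0) :
    (∀ m : Ideal V2.B, m.IsMaximal →
      (∀ k, V2.Through m (P k)) ∨ ∃ k0, ∀ k, V2.Through m (P k) → k = k0) ∧
    (∀ m : Ideal V2.B, m.IsMaximal → (∃ k, V2.Through m (P k)) → h62_UnitStar V2 m) ∧
    (∀ m : Ideal V2.B, m.IsMaximal → ∀ k, V2.Through m (P k) →
      ∃ (Fb : Type w) (_ : Field Fb) (R : h62_Res V2 m (P k) Fb), ∃ g : Fb, g ≠ 0 ∧ 0 < R.o g) := by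
  classical
  have h3 : ∀ i : Fin 3, i = 0 ∨ i = 1 ∨ i = 2 := by decide
  obtain ⟨hclass, hnodea, hnodeb⟩ := h14_class_w V1 V2 wF wV hFV P Hor1 Hor2 hHor1 hcase a b ha hb
    hia hib hta htb hHCa hHCb hUw r hr hN2 hN3
  -- the residue data
  have hRES : ∀ m : Ideal V2.B, m.IsMaximal → ∀ k, V2.Through m (P k) →
      ∃ (Fb : Type w) (_ : Field Fb) (R : h62_Res V2 m (P k) Fb),
        ∃ g : Fb, g ≠ 0 ∧ 0 < R.o g := by
    intro m hm k hk
    rcases h3 k with rfl | rfl | rfl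
    · obtain ⟨e, he, tab⟩ := hta 0
      exact h62_res_up (hφ := ha) hia (P 0) wF e he tab hV1 hR1F m hm hk
    · obtain ⟨e, he, tab⟩ := hta 1
      exact h62_res_up (hφ := ha) hia (P 1) wF e he tab hV2 hR1F m hm hk
    · obtain ⟨e, he, tab⟩ := htb 2
      exact h62_res_up (hφ := hb) hib (P 2) wV e he tab hV1b hR1V m hm hk
  refine ⟨hclass, fun m hm hqm => ?_, hRES⟩
  have hmp : m.IsPrime := hm.isPrime
  -- the values of `q`
  have hqP : ∀ k, 0 < V2.v (P k) q := by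
    intro k
    rcases h3 k with rfl | rfl | rfl
    · rw [hq1]; exact one_pos
    · exact hq2
    · rw [hq3]; exact one_pos
  have hqn : ∀ k, V2.Through m k → 0 ≤ V2.v k q := by
    intro k _
    rcases hcase k with ⟨c, rfl⟩ | hH
    · exact (hqP c).le
    · rw [hqH k hH]
  have hHor_of : ∀ i, V2.v i q = 0 → Hor2 i := by
    intro i hi
    rcases hcase i with ⟨c, rfl⟩ | hH
    · have := hqP c
      omega
    · exact hH
  have hvert : ∀ k, V2.Through m k → 0 < V2.v k q → ∃ c, k = P c := by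
    intro k _ hk
    rcases hcase k with ⟨c, rfl⟩ | hH
    · exact ⟨c, rfl⟩
    · rw [hqH k hH] at hk
      exact absurd hk (lt_irrefl _)
  -- the contraction data along a map
  have hHC : ∀ (φ : F1 →+* F2) (hφ : ∀ g ∈ V1.B, φ g ∈ V2.B),
      (∀ h, Hor2 h → ∃ h1, Hor1 h1 ∧ ∃ e : ℤ, 0 < e ∧ ∀ g : F1, g ≠ 0 →
        V2.v h (φ g) = e * V1.v h1 g) →
      ∀ k, Hor2 k → V2.Through m k → ∃ (k₁ : ι1) (e : ℤ), Hor1 k₁ ∧
        V1.Through (m.comap (φ.restrict V1.B V2.B hφ)) k₁ ∧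
        ∀ g : F1, g ≠ 0 → V2.v k (φ g) = e * V1.v k₁ g := by
    intro φ hφ hH k hk hthr
    obtain ⟨h1, hh1, e, he, htab⟩ := hH k hk
    exact ⟨h1, e, hh1, h14_through_comap V1 V2 φ hφ k h1
      (fun g hg => h14_pos_iff_of_mul (V2.v k) (V1.v h1) φ e he htab g hg) m hthr, htab⟩
  refine h51_pts_unitStar V2 m q hq0 hqn ?_ ?_ P hvert hq1 hq2 hq3 hqm (hclass m hm)
    (fun _ => hζ2) (hthick m hm) ?_ ?_
  · -- hunrH
    intro i _ hiq
    obtain ⟨f, hf0, hf1⟩ := hunr i (hHor_of i hiq)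
    exact ⟨f, hf0, hf1, fun k _ => h80_v_nonneg V2 k f hf0⟩
  · -- hsepH
    intro i j _ _ hiq hjq hij
    obtain ⟨f, hf0, hf1, hf2⟩ := hsep i j (hHor_of i hiq) (hHor_of j hjq) hij
    exact ⟨f, hf0, hf1, hf2, fun k _ => h80_v_nonneg V2 k f hf0⟩
  · -- htri
    intro hall
    obtain ⟨_, haF, haV⟩ := hnodea m hm hall
    obtain ⟨_, hbF, hbV⟩ := hnodeb m hm hall
    have hma : (m.comap (a.restrict V1.B V2.B ha)).IsMaximal :=
      h62_comap_isMaximal V1 V2 a ha hia m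
    have hmb : (m.comap (b.restrict V1.B V2.B hb)).IsMaximal :=
      h62_comap_isMaximal V1 V2 b hb hib m
    constructor
    · -- the equation of `C20`: the image under `b` of the equation of `wF` at the node
      refine h14_eq_of_node_w V1 V2 m P Hor2 (fun k _ => hcase k) 0 wF wV (Ne.symm hFV) Hor1
        (fun k₁ hk₁ => (hHor1 k₁ hk₁).1) b (m.comap (b.restrict V1.B V2.B hb)) hbV
        (hUw _ hmb hbF hbV).1 htb0 (fun c' hc' => ?_) (hHC b hb hHCb)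
      rcases h3 c' with rfl | rfl | rfl
      · exact absurd rfl hc'
      · obtain ⟨e, _, tab⟩ := htb 1
        exact ⟨e, tab⟩
      · obtain ⟨e, _, tab⟩ := htb 2
        exact ⟨e, tab⟩
    · -- the equation of `C02`: the image under `a` of the equation of `wV` at the node
      refine h14_eq_of_node_w V1 V2 m P Hor2 (fun k _ => hcase k) 2 wV wF hFV Hor1
        (fun k₁ hk₁ => (hHor1 k₁ hk₁).2) a (m.comap (a.restrict V1.B V2.B ha)) haF
        (hUw _ hma haF haV).2 hta2 (fun c' hc' => ?_) (hHC a ha hHCa)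
      rcases h3 c' with rfl | rfl | rfl
      · obtain ⟨e, _, tab⟩ := hta 0
        exact ⟨e, tab⟩
      · obtain ⟨e, _, tab⟩ := hta 1
        exact ⟨e, tab⟩
      · exact absurd rfl hc'
  · -- hR
    intro c hc hcq
    obtain ⟨k, rfl⟩ := hvert c hc hcq
    obtain ⟨Fb, i, R, _⟩ := hRES m hm k hc
    exact ⟨Fb, i, ⟨R⟩⟩

end weak

end Fermat.Agent.S36
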