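import Mathlib
import Fermat.Agent.S36.h98_W2
import Fermat.Agent.S36.h80_LocGen

/-!
# S36, row I-PTS (M2): `(N2')` / `(N3')` for ALL functions (helper14)

The inputs `hN2`, `hN3` of `h14_class'` (`S36/h14_Class.lean`) for the concrete valuations
`h98_w2` (`S36/h98_W2.lean`): for every `f` in the level-`M q²` chart ring

    a (N_a f) ≡ f ^ q   modulo the centre of `C02`,      b (N_b f) ≡ f ^ q   modulo the centre of `C20`.

* `h14_hN2_all`, `h14_hN3_all` : the congruences `h98_hN2`, `h98_hN3` WITHOUT the unit hypothesis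
  (only `0 ≤ w2 2 u`, resp. `0 ≤ w2 0 u`; nothing for `u = 0`);
* `h14_hN2_fam`, `h14_hN3_fam` : the binders `hN2`, `hN3` of `h14_class'` VERBATIM, for any pair
  of valuation families `V1`, `V2` on the inertia-fixed fields whose index `c` is `w2 2`
  (resp. `w2 0`); the only input is "the norm of a chart-regular function is chart-regular"
  (`hmem`; `h96_nr_Na_mem` / `h96_nr_Nb_mem` of `S36/h96_NormReg.lean`).
-/

set_option autoImplicit false
set_option synthInstance.maxHeartbeats 400000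
set_option linter.unusedSectionVars false

noncomputable section

open ModularCurve AlgebraicCurve

namespace Fermat.Agent.S36

open Fermat.Agent.S34 Fermat.Agent.S37 Fermat.Agent.S24 Fermat.Agent.S35 Fermat.Agent.S18
  Fermat.Agent.GAL Fermat.Agent.S40

local notation "Qb" => AlgebraicClosure ℚ

section N23

variable (M q : ℕ) [NeZero M] [NeZero q] [Fact q.Prime] (hqM : ¬ q ∣ M)
  (A : ValuationSubring Qb) (hA : A.LiesOverPrime q) (ζ : Qb) (hζ : IsPrimitiveRoot ζ q)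
  (hex : h98_Ex M q hqM A ζ hζ)

include hA in
/-- `0 ≤ v₃ f` iff the standard expansion of `W f` lies in the Gauss ring. -/
theorem h14_v3_nonneg_iff (f : h69_F0 (M * q * q) (A.inertiaSubgroupIn ℚ)) (hf : f ≠ 0) :
    0 ≤ h98_v3 M q hqM A ζ hζ hex f ↔
      ((h36_W M q hqM (f : modularFunctionFieldBar (M * q * q)) :
        modularFunctionFieldBar (M * q * q)) : LaurentSeries Qb) ∈ h60_Os A :=
  h98_gv_nonneg_iff _ (h98_q_unif q A hA).1 (h98_q_unif q A hA).2.1 (h98_q_unif q A hA).2.2 f hf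

include hA in
/-- `0 ≤ v₁ f` iff the standard expansion of `f` lies in the Gauss ring. -/
theorem h14_v1_nonneg_iff (f : h69_F0 (M * q * q) (A.inertiaSubgroupIn ℚ)) (hf : f ≠ 0) :
    0 ≤ h98_v1 M q hqM A ζ hζ hex f ↔
      ((f : modularFunctionFieldBar (M * q * q)) : LaurentSeries Qb) ∈ h60_Os A :=
  h98_gv_nonneg_iff _ (h98_q_unif q A hA).1 (h98_q_unif q A hA).2.1 (h98_q_unif q A hA).2.2 f hf

include hA in
/-- **(N2')** `a (N_a u) ≡ u ^ q` modulo the centre of `C02`, for every `u` with `0 ≤ w2 2 u`. -/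
theorem h14_hN2_all : ∀ u : h69_F0 (M * q * q) (A.inertiaSubgroupIn ℚ),
    (u ≠ 0 → 0 ≤ h98_w2 M q hqM A ζ hζ hex 2 u) →
    h70_aF0 (M * q) q (A.inertiaSubgroupIn ℚ) (h70_NaF0 (M * q) q (A.inertiaSubgroupIn ℚ) u) - u ^ q = 0 ∨
      0 < h98_w2 M q hqM A ζ hζ hex 2
        (h70_aF0 (M * q) q (A.inertiaSubgroupIn ℚ) (h70_NaF0 (M * q) q (A.inertiaSubgroupIn ℚ) u) - u ^ q) := by
  intro u hu
  have hq : q.Prime := Fact.out
  have : CharP (IsLocalRing.ResidueField A) q := h19_residueField_charP A q hA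
  by_cases hd : h70_aF0 (M * q) q (A.inertiaSubgroupIn ℚ) (h70_NaF0 (M * q) q (A.inertiaSubgroupIn ℚ) u) - u ^ q = 0
  · exact Or.inl hd
  right
  have hu0 : u ≠ 0 := by
    rintro rfl
    apply hd
    rw [map_zero, map_zero, zero_pow hq.ne_zero, sub_zero]
  have h3 : 0 ≤ h98_v3 M q hqM A ζ hζ hex u := hu hu0
  have hmem : ((h36_W M q hqM (u : modularFunctionFieldBar (M * q * q)) :
      modularFunctionFieldBar (M * q * q)) : LaurentSeries Qb) ∈ h60_Os A :=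
    (h14_v3_nonneg_iff M q hqM A hA ζ hζ hex u hu0).mp h3
  obtain ⟨h1, h2⟩ := h98_n2 (M * q) q (Dvd.intro_left M rfl) A (h60_w M q hqM)
    (h60_w_w M q hqM) (h36_W M q hqM) (h36_W_W M q hqM) (h98_hWα M q hqM)
    (u : modularFunctionFieldBar (M * q * q)) hmem
  exact (h98_v3_pos_iff M q hqM A hA ζ hζ hex _ hd).mpr ⟨h1, h2⟩

include hA in
/-- **(N3')** `b (N_b u) ≡ u ^ q` modulo the centre of `C20`, for every `u` with `0 ≤ w2 0 u`. -/
theorem h14_hN3_all : ∀ u : h69_F0 (M * q * q) (A.inertiaSubgroupIn ℚ),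
    (u ≠ 0 → 0 ≤ h98_w2 M q hqM A ζ hζ hex 0 u) →
    h70_bF0 (M * q) q (A.inertiaSubgroupIn ℚ) (h70_NbF0 (M * q) q (A.inertiaSubgroupIn ℚ) u) - u ^ q = 0 ∨
      0 < h98_w2 M q hqM A ζ hζ hex 0
        (h70_bF0 (M * q) q (A.inertiaSubgroupIn ℚ) (h70_NbF0 (M * q) q (A.inertiaSubgroupIn ℚ) u) - u ^ q) := by
  intro u hu
  have hq : q.Prime := Fact.out
  have : CharP (IsLocalRing.ResidueField A) q := h19_residueField_charP A q hA
  by_cases hd : h70_bF0 (M * q) q (A.inertiaSubgroupIn ℚ) (h70_NbF0 (M * q) q (A.inertiaSubgroupIn ℚ) u) - u ^ q = 0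
  · exact Or.inl hd
  right
  have hu0 : u ≠ 0 := by
    rintro rfl
    apply hd
    rw [map_zero, map_zero, zero_pow hq.ne_zero, sub_zero]
  have h3 : 0 ≤ h98_v1 M q hqM A ζ hζ hex u := hu hu0
  have hmem : ((u : modularFunctionFieldBar (M * q * q)) : LaurentSeries Qb) ∈ h60_Os A :=
    (h14_v1_nonneg_iff M q hqM A hA ζ hζ hex u hu0).mp h3
  obtain ⟨h1, h2⟩ := h98_n3 (M * q) q (Dvd.intro_left M rfl) A
    (u : modularFunctionFieldBar (M * q * q)) hmem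
  exact (h98_v1_pos_iff M q hqM A hA ζ hζ hex _ hd).mpr ⟨h1, h2⟩

include hA in
/-- The binder `hN2` of `h14_class'` (`φ = a`, `r = q`, `c = P 2`). -/
theorem h14_hN2_fam {ι1 ι2 : Type*}
    (V1 : h80_ValFam (h69_F0 (M * q) (A.inertiaSubgroupIn ℚ)) ι1)
    (V2 : h80_ValFam (h69_F0 (M * q * q) (A.inertiaSubgroupIn ℚ)) ι2) (c : ι2)
    (hc : ∀ f, V2.v c f = h98_w2 M q hqM A ζ hζ hex 2 f)
    (hmem : ∀ t : h69_F0 (M * q * q) (A.inertiaSubgroupIn ℚ), t ∈ V2.B →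
      h70_NaF0 (M * q) q (A.inertiaSubgroupIn ℚ) t ∈ V1.B) :
    ∀ f : V2.B, ∃ g : V1.B,
      h70_aF0 (M * q) q (A.inertiaSubgroupIn ℚ) g
          - (f : h69_F0 (M * q * q) (A.inertiaSubgroupIn ℚ)) ^ q = 0 ∨
        0 < V2.v c (h70_aF0 (M * q) q (A.inertiaSubgroupIn ℚ) g
          - (f : h69_F0 (M * q * q) (A.inertiaSubgroupIn ℚ)) ^ q) := by
  intro f
  refine ⟨⟨h70_NaF0 (M * q) q (A.inertiaSubgroupIn ℚ) f, hmem f f.2⟩, ?_⟩
  rw [hc]
  refine h14_hN2_all M q hqM A hA ζ hζ hex f (fun hf0 => ?_)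
  rw [← hc]
  exact h80_v_nonneg V2 c f hf0

include hA in
/-- The binder `hN3` of `h14_class'` (`φ = b`, `r = q`, `c = P 0`). -/
theorem h14_hN3_fam {ι1 ι2 : Type*}
    (V1 : h80_ValFam (h69_F0 (M * q) (A.inertiaSubgroupIn ℚ)) ι1)
    (V2 : h80_ValFam (h69_F0 (M * q * q) (A.inertiaSubgroupIn ℚ)) ι2) (c : ι2)
    (hc : ∀ f, V2.v c f = h98_w2 M q hqM A ζ hζ hex 0 f)
    (hmem : ∀ t : h69_F0 (M * q * q) (A.inertiaSubgroupIn ℚ), t ∈ V2.B →
      h70_NbF0 (M * q) q (A.inertiaSubgroupIn ℚ) t ∈ V1.B) :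
    ∀ f : V2.B, ∃ g : V1.B,
      h70_bF0 (M * q) q (A.inertiaSubgroupIn ℚ) g
          - (f : h69_F0 (M * q * q) (A.inertiaSubgroupIn ℚ)) ^ q = 0 ∨
        0 < V2.v c (h70_bF0 (M * q) q (A.inertiaSubgroupIn ℚ) g
          - (f : h69_F0 (M * q * q) (A.inertiaSubgroupIn ℚ)) ^ q) := by
  intro f
  refine ⟨⟨h70_NbF0 (M * q) q (A.inertiaSubgroupIn ℚ) f, hmem f f.2⟩, ?_⟩
  rw [hc]
  refine h14_hN3_all M q hqM A hA ζ hζ hex f (fun hf0 => ?_)
  rw [← hc]
  exact h80_v_nonneg V2 c f hf0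

end N23

end Fermat.Agent.S36
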