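import Mathlib
import Fermat.Agent.S36.h80_FamInst
import Fermat.Agent.S36.h70_TorInst
import Fermat.Agent.S36.h65_UnitU
import Fermat.Agent.S27.h96_Transport

/-!
# S36 / I-PTS (HC-MOD): the horizontal table between the chart families along `α` and `β`
(helper65)

`N` a level, `q` a prime, `H` a subgroup of `Gal(ℚ̄/ℚ)`; `V₁ := h80_fam1 N H w₁ ..`,
`V₂ := h80_fam1 (N * q) H w₂ ..` the chart-1 families (`j` finite) at the two levels, and
`φ ∈ {h70_aF0 N q H, h70_bF0 N q H}` the two degeneracy maps on the `H`-fixed functions.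

* `h65_chart_alpha`, `h65_chart_beta` : a place `P` of level `N q` is in chart 1 iff the place
  below it (along `α`, resp. `β`) is in chart 1 of level `N`  [(HC3); for `β` at `N = M q`,
  `q ∤ M`, through the Atkin-Lehner involution];
* `h65_hc_hor` : (HC2) every horizontal index of `V₂` lies over a horizontal index of `V₁`,
  with ramification index `e ≥ 1`;
* `h65_hc_mem` : (HC1) `φ (V₁.B) ⊆ V₂.B`, given the vertical table;
* `h65_hc_through` : an index over an index through `m` is through the contraction of `m`;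
* `h65_hc_above` : (HC3) in index form.
-/

set_option autoImplicit false
set_option linter.unusedSectionVars false

noncomputable section

open AlgebraicCurve ModularCurve

namespace Fermat.Agent.S36

open Fermat.Agent.S18 Fermat.Agent.S24 Fermat.Agent.S27 Fermat.Agent.S34 Fermat.Agent.S37
open Fermat.Agent.S19

local notation "Qb" => AlgebraicClosure ℚ

/-! ### Places along a homomorphism -/

section Along

variable {K F F' : Type*} [Field K] [Field F] [Field F'] [Algebra K F] [Algebra K F']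

theorem h65_ramAlong_pos (φ : F →ₐ[K] F') (hφ : φ.toRingHom.IsIntegral) (w : Place K F') :
    0 < Place.ramificationIndexAlong φ w := by
  letI := algebraAlong φ
  haveI := isScalarTower_along φ
  haveI := isIntegral_along φ hφ
  exact w.ramificationIndex_pos

theorem h65_ord_along_nonneg_iff (φ : F →ₐ[K] F') (hφ : φ.toRingHom.IsIntegral)
    (w : Place K F') (f : F) : 0 ≤ w.ord (φ f) ↔ 0 ≤ (w.restrictAlong φ hφ).ord f := by
  rw [Place.ord_restrictAlong φ hφ w f]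
  have he : (0 : ℤ) < (Place.ramificationIndexAlong φ w : ℤ) := by
    exact_mod_cast h65_ramAlong_pos φ hφ w
  constructor
  · intro h
    by_contra hc
    push Not at hc
    nlinarith
  · intro h
    positivity

end Along

/-! ### Chart 1 along `α` and `β` -/

section Chart

variable (N q : ℕ) [NeZero N] [NeZero q]

/-- `α J = J`. -/
theorem h65_alpha_jbar : heckeAlphaBar Qb N q (h59_jbar N) = h59_jbar (N * q) :=
  Subtype.ext rfl

/-- **Chart 1 along `α`**: `j` is finite at `P` iff it is finite at the place below `P`. -/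
theorem h65_chart_alpha (P : Place Qb ↥(modularFunctionFieldBar (N * q))) :
    0 ≤ P.ord (h59_jbar (N * q)) ↔
      0 ≤ (P.restrictAlong (heckeAlphaBar Qb N q) (h88_alphaIntegral N q)).ord (h59_jbar N) := by
  rw [← h65_alpha_jbar N q]
  exact h65_ord_along_nonneg_iff _ _ P _

end Chart

section ChartBeta

variable (M q : ℕ) [NeZero M] [NeZero q] [Fact q.Prime] (hqM : ¬ q ∣ M)

/-- `J` is regular exactly where `w J` is (level `M q`, `q ∤ M`). -/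
theorem h65_wJ_mem_iff (Q : Place Qb ↥(modularFunctionFieldBar (M * q))) :
    h60_w M q hqM (h59_jbar (M * q)) ∈ Q.toValuationSubring ↔
      h59_jbar (M * q) ∈ Q.toValuationSubring := by
  refine ⟨fun h => ?_, h65_wJ_mem M q hqM Q⟩
  have h1 : h59_jbar (M * q) ∈
      (h96_placeMap (h65_wEquiv M q hqM) Q).toValuationSubring := by
    have h2 := (h96_apply_mem_placeMap (h65_wEquiv M q hqM) Q
      (h60_w M q hqM (h59_jbar (M * q)))).mpr h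
    rwa [h65_wEquiv_apply, h60_w_w] at h2
  have h3 := h65_wJ_mem M q hqM _ h1
  rw [← h65_wEquiv_apply] at h3
  exact (h96_apply_mem_placeMap (h65_wEquiv M q hqM) Q _).mp h3

/-- `α (w J) = β J`: both are `j(Q^q)` at level `M q q`. -/
theorem h65_alpha_wJ :
    heckeAlphaBar Qb (M * q) q (h60_w M q hqM (h59_jbar (M * q))) =
      heckeBetaBar Qb (M * q) q (h59_jbar (M * q)) := by
  rw [h65_w_jbar]
  exact Subtype.ext rfl

theorem h65_jbar_ne_zero (N : ℕ) [NeZero N] : h59_jbar N ≠ 0 := (h54_isChart_jbar N).ne_zero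

include hqM in
/-- **Chart 1 along `β`** (level `M q q`, `q ∤ M`): `j` is finite at `P` iff it is finite at the
place below `P` along `β`. -/
theorem h65_chart_beta (P : Place Qb ↥(modularFunctionFieldBar (M * q * q))) :
    0 ≤ P.ord (h59_jbar (M * q * q)) ↔
      0 ≤ (P.restrictAlong (heckeBetaBar Qb (M * q) q) (h88_betaIntegral (M * q) q)).ord
        (h59_jbar (M * q)) := by
  have hJ0 := h65_jbar_ne_zero (M * q)
  have hwJ0 : h60_w M q hqM (h59_jbar (M * q)) ≠ 0 := by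
    intro h
    have h2 := h60_w_w M q hqM (h59_jbar (M * q))
    rw [h, map_zero] at h2
    exact hJ0 h2.symm
  -- along `α`: `j₀` finite iff `J` finite below iff `w J` finite below iff `β J` finite
  have hA := h65_chart_alpha (M * q) q P
  set Pa := P.restrictAlong (heckeAlphaBar Qb (M * q) q) (h88_alphaIntegral (M * q) q) with hPa
  have h1 : 0 ≤ Pa.ord (h59_jbar (M * q)) ↔ 0 ≤ Pa.ord (h60_w M q hqM (h59_jbar (M * q))) := by
    rw [← h35_mem_iff_ord_nonneg Pa hJ0, ← h35_mem_iff_ord_nonneg Pa hwJ0]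
    exact (h65_wJ_mem_iff M q hqM Pa).symm
  have h2 : 0 ≤ Pa.ord (h60_w M q hqM (h59_jbar (M * q))) ↔
      0 ≤ P.ord (heckeBetaBar Qb (M * q) q (h59_jbar (M * q))) := by
    rw [← h65_alpha_wJ M q hqM]
    exact (h65_ord_along_nonneg_iff _ (h88_alphaIntegral (M * q) q) P _).symm
  have h3 := h65_ord_along_nonneg_iff (heckeBetaBar Qb (M * q) q) (h88_betaIntegral (M * q) q) P
    (h59_jbar (M * q))
  exact hA.trans (h1.trans (h2.trans h3))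

end ChartBeta

/-! ### The table between two chart families -/

/-- An index lying over an index through `m` passes through the contraction of `m`. -/
theorem h65_hc_through {F₁ F₂ : Type*} [Field F₁] [Field F₂] {ι₁ ι₂ : Type*}
    (V1 : h80_ValFam F₁ ι₁) (V2 : h80_ValFam F₂ ι₂) (φ : F₁ →+* F₂)
    (hφB : ∀ g : V1.B, φ (g : F₁) ∈ V2.B) (m : Ideal V2.B) (m₁ : Ideal V1.B)
    (hm₁ : ∀ f : V1.B, (⟨φ (f : F₁), hφB f⟩ : V2.B) ∈ m → f ∈ m₁)
    (k : ι₂) (k₁ : ι₁) (e : ℤ) (he : 0 < e)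
    (htab : ∀ g : F₁, g ≠ 0 → V2.v k (φ g) = e * V1.v k₁ g) (hk : V2.Through m k) :
    V1.Through m₁ k₁ := by
  intro f hf0 hpos
  apply hm₁
  apply hk ⟨φ f, hφB f⟩ ((map_ne_zero φ).mpr hf0)
  show 0 < V2.v k (φ (f : F₁))
  rw [htab _ hf0]
  positivity

section Table

variable (N q : ℕ) [NeZero N] [NeZero q] (H : Subgroup (Qb ≃ₐ[ℚ] Qb))
variable {κ₁ κ₂ : Type*} [Finite κ₁] [Finite κ₂]
  (w₁ : κ₁ → h69_F0 N H → ℤ)
  (hw₁m : ∀ c (f g : h69_F0 N H), f ≠ 0 → g ≠ 0 → w₁ c (f * g) = w₁ c f + w₁ c g)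
  (hw₁a : ∀ c (f g : h69_F0 N H), f ≠ 0 → g ≠ 0 → f + g ≠ 0 →
    min (w₁ c f) (w₁ c g) ≤ w₁ c (f + g))
  (w₂ : κ₂ → h69_F0 (N * q) H → ℤ)
  (hw₂m : ∀ c (f g : h69_F0 (N * q) H), f ≠ 0 → g ≠ 0 → w₂ c (f * g) = w₂ c f + w₂ c g)
  (hw₂a : ∀ c (f g : h69_F0 (N * q) H), f ≠ 0 → g ≠ 0 → f + g ≠ 0 →
    min (w₂ c f) (w₂ c g) ≤ w₂ c (f + g))
  (ψ : modularFunctionFieldBar N →ₐ[Qb] modularFunctionFieldBar (N * q))
  (hψ : ψ.toRingHom.IsIntegral)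
  (φ : h69_F0 N H →+* h69_F0 (N * q) H)
  (hφ : ∀ g : h69_F0 N H,
    ((φ g : h69_F0 (N * q) H) : modularFunctionFieldBar (N * q)) =
      ψ (g : modularFunctionFieldBar N))
  (hchart : ∀ P : Place Qb (modularFunctionFieldBar (N * q)),
    0 ≤ P.ord (h59_jbar (N * q)) ↔ 0 ≤ (P.restrictAlong ψ hψ).ord (h59_jbar N))

local notation "V₁" => h80_fam1 N H w₁ hw₁m hw₁a
local notation "V₂" => h80_fam1 (N * q) H w₂ hw₂m hw₂a

include hφ hchart in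
/-- **(HC2)**, generic in the degeneracy map: every horizontal index of level `N q` lies over a
horizontal index of level `N`. -/
theorem h65_hc_hor_gen (k : κ₂ ⊕ h80_HorIdx (h80_horOrd (N * q) H (h59_jbar (N * q))))
    (hk : h80_IsHor k) :
    ∃ (k₁ : κ₁ ⊕ h80_HorIdx (h80_horOrd N H (h59_jbar N))) (e : ℤ), h80_IsHor k₁ ∧ 1 ≤ e ∧
      ∀ g : h69_F0 N H, (V₂).v k (φ g) = e * (V₁).v k₁ g := by
  obtain ⟨P, hP, rfl⟩ := h80_famOf_hor (N * q) H (h59_jbar (N * q)) k hk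
  have hP' := (hchart P).mp hP
  refine ⟨Sum.inr (h80_horMk (h80_horOrd N H (h59_jbar N)) ⟨P.restrictAlong ψ hψ, hP'⟩),
    (Place.ramificationIndexAlong ψ P : ℤ), h80_isHor_inr _, ?_, fun g => ?_⟩
  · exact_mod_cast h65_ramAlong_pos ψ hψ P
  · show P.ord ((φ g : h69_F0 (N * q) H) : modularFunctionFieldBar (N * q)) =
      _ * (P.restrictAlong ψ hψ).ord (g : modularFunctionFieldBar N)
    rw [hφ g]
    exact Place.ord_restrictAlong ψ hψ P _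

include hφ hchart in
/-- **(HC1)**, generic in the degeneracy map: the chart ring of level `N` maps into the chart
ring of level `N q`, given the vertical table. -/
theorem h65_hc_mem_gen
    (hvt : ∀ c : κ₂, ∃ (c₁ : κ₁) (e : ℤ), 0 ≤ e ∧
      ∀ g : h69_F0 N H, g ≠ 0 → w₂ c (φ g) = e * w₁ c₁ g)
    (g : h69_F0 N H) (hg : g ∈ (V₁).B) : φ g ∈ (V₂).B := by
  unfold h80_fam1 at hg ⊢
  rw [h80_mem_famOf_B] at hg ⊢
  by_cases hg0 : g = 0
  · left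
    rw [hg0, map_zero]
  rcases hg with h0 | ⟨hv, hh⟩
  · exact absurd h0 hg0
  right
  refine ⟨fun c => ?_, fun P hP => ?_⟩
  · obtain ⟨c₁, e, he, htab⟩ := hvt c
    rw [htab g hg0]
    exact mul_nonneg he (hv c₁)
  · rw [hφ g, Place.ord_restrictAlong ψ hψ P]
    have h1 := hh _ ((hchart P).mp hP)
    positivity

include hφ hchart in
/-- **(HC)** in the shape of `h51_eq_of_node`: a horizontal index through `m` lies over a
horizontal index through the contraction of `m`. -/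
theorem h65_hc_gen
    (hvt : ∀ c : κ₂, ∃ (c₁ : κ₁) (e : ℤ), 0 ≤ e ∧
      ∀ g : h69_F0 N H, g ≠ 0 → w₂ c (φ g) = e * w₁ c₁ g)
    (m : Ideal (V₂).B) (m₁ : Ideal (V₁).B)
    (hm₁ : ∀ f : (V₁).B, (⟨φ (f : h69_F0 N H),
      h65_hc_mem_gen N q H w₁ hw₁m hw₁a w₂ hw₂m hw₂a ψ hψ φ hφ hchart hvt f f.2⟩ : (V₂).B) ∈ m →
        f ∈ m₁)
    (k : κ₂ ⊕ h80_HorIdx (h80_horOrd (N * q) H (h59_jbar (N * q)))) (hk : h80_IsHor k)
    (hkm : (V₂).Through m k) :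
    ∃ (k₁ : κ₁ ⊕ h80_HorIdx (h80_horOrd N H (h59_jbar N))) (e : ℤ), h80_IsHor k₁ ∧
      (V₁).Through m₁ k₁ ∧ 1 ≤ e ∧ ∀ g : h69_F0 N H, g ≠ 0 → (V₂).v k (φ g) = e * (V₁).v k₁ g := by
  obtain ⟨k₁, e, hk₁, he, htab⟩ :=
    h65_hc_hor_gen N q H w₁ hw₁m hw₁a w₂ hw₂m hw₂a ψ hψ φ hφ hchart k hk
  refine ⟨k₁, e, hk₁, ?_, he, fun g _ => htab g⟩
  exact h65_hc_through (V₁) (V₂) φ
    (fun f => h65_hc_mem_gen N q H w₁ hw₁m hw₁a w₂ hw₂m hw₂a ψ hψ φ hφ hchart hvt f f.2)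
    m m₁ hm₁ k k₁ e (by omega) (fun g _ => htab g) hkm

include hchart in
/-- **(HC3)** in index form: a place above a place of chart 1 is a horizontal index of the
chart-1 family of level `N q`. -/
theorem h65_hc_above_gen (P : Place Qb (modularFunctionFieldBar (N * q)))
    (hP' : 0 ≤ (P.restrictAlong ψ hψ).ord (h59_jbar N)) :
    ∃ k : κ₂ ⊕ h80_HorIdx (h80_horOrd (N * q) H (h59_jbar (N * q))), h80_IsHor k ∧
      ∀ f : h69_F0 (N * q) H, (V₂).v k f = P.ord (f : modularFunctionFieldBar (N * q)) :=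
  ⟨Sum.inr (h80_horMk (h80_horOrd (N * q) H (h59_jbar (N * q))) ⟨P, (hchart P).mpr hP'⟩),
    h80_isHor_inr _, fun _ => rfl⟩

end Table

/-! ### The two degeneracy maps -/

section Inst

variable (N q : ℕ) [NeZero N] [NeZero q] (H : Subgroup (Qb ≃ₐ[ℚ] Qb))
variable {κ₁ κ₂ : Type*} [Finite κ₁] [Finite κ₂]
  (w₁ : κ₁ → h69_F0 N H → ℤ)
  (hw₁m : ∀ c (f g : h69_F0 N H), f ≠ 0 → g ≠ 0 → w₁ c (f * g) = w₁ c f + w₁ c g)
  (hw₁a : ∀ c (f g : h69_F0 N H), f ≠ 0 → g ≠ 0 → f + g ≠ 0 →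
    min (w₁ c f) (w₁ c g) ≤ w₁ c (f + g))
  (w₂ : κ₂ → h69_F0 (N * q) H → ℤ)
  (hw₂m : ∀ c (f g : h69_F0 (N * q) H), f ≠ 0 → g ≠ 0 → w₂ c (f * g) = w₂ c f + w₂ c g)
  (hw₂a : ∀ c (f g : h69_F0 (N * q) H), f ≠ 0 → g ≠ 0 → f + g ≠ 0 →
    min (w₂ c f) (w₂ c g) ≤ w₂ c (f + g))

local notation "V₁" => h80_fam1 N H w₁ hw₁m hw₁a
local notation "V₂" => h80_fam1 (N * q) H w₂ hw₂m hw₂a

/-- **(HC1) along `α`.** -/
theorem h65_hc_mem_a
    (hvt : ∀ c : κ₂, ∃ (c₁ : κ₁) (e : ℤ), 0 ≤ e ∧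
      ∀ g : h69_F0 N H, g ≠ 0 → w₂ c (h70_aF0 N q H g) = e * w₁ c₁ g)
    (g : h69_F0 N H) (hg : g ∈ (V₁).B) : h70_aF0 N q H g ∈ (V₂).B :=
  h65_hc_mem_gen N q H w₁ hw₁m hw₁a w₂ hw₂m hw₂a (heckeAlphaBar Qb N q) (h88_alphaIntegral N q)
    (h70_aF0 N q H) (h70_coe_aF0 N q H) (h65_chart_alpha N q) hvt g hg

/-- **(HC2) along `α`.** -/
theorem h65_hc_hor_a (k : κ₂ ⊕ h80_HorIdx (h80_horOrd (N * q) H (h59_jbar (N * q))))
    (hk : h80_IsHor k) :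
    ∃ (k₁ : κ₁ ⊕ h80_HorIdx (h80_horOrd N H (h59_jbar N))) (e : ℤ), h80_IsHor k₁ ∧ 1 ≤ e ∧
      ∀ g : h69_F0 N H, (V₂).v k (h70_aF0 N q H g) = e * (V₁).v k₁ g :=
  h65_hc_hor_gen N q H w₁ hw₁m hw₁a w₂ hw₂m hw₂a (heckeAlphaBar Qb N q) (h88_alphaIntegral N q)
    (h70_aF0 N q H) (h70_coe_aF0 N q H) (h65_chart_alpha N q) k hk

/-- **(HC) along `α`**, in the shape of `h51_eq_of_node`. -/
theorem h65_hc_a
    (hvt : ∀ c : κ₂, ∃ (c₁ : κ₁) (e : ℤ), 0 ≤ e ∧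
      ∀ g : h69_F0 N H, g ≠ 0 → w₂ c (h70_aF0 N q H g) = e * w₁ c₁ g)
    (m : Ideal (V₂).B) (m₁ : Ideal (V₁).B)
    (hm₁ : ∀ f : (V₁).B, (⟨h70_aF0 N q H (f : h69_F0 N H),
      h65_hc_mem_a N q H w₁ hw₁m hw₁a w₂ hw₂m hw₂a hvt f f.2⟩ : (V₂).B) ∈ m → f ∈ m₁)
    (k : κ₂ ⊕ h80_HorIdx (h80_horOrd (N * q) H (h59_jbar (N * q)))) (hk : h80_IsHor k)
    (hkm : (V₂).Through m k) :
    ∃ (k₁ : κ₁ ⊕ h80_HorIdx (h80_horOrd N H (h59_jbar N))) (e : ℤ), h80_IsHor k₁ ∧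
      (V₁).Through m₁ k₁ ∧ 1 ≤ e ∧
        ∀ g : h69_F0 N H, g ≠ 0 → (V₂).v k (h70_aF0 N q H g) = e * (V₁).v k₁ g :=
  h65_hc_gen N q H w₁ hw₁m hw₁a w₂ hw₂m hw₂a (heckeAlphaBar Qb N q) (h88_alphaIntegral N q)
    (h70_aF0 N q H) (h70_coe_aF0 N q H) (h65_chart_alpha N q) hvt m m₁ hm₁ k hk hkm

/-- **(HC3) along `α`.** -/
theorem h65_hc_above_a (P : Place Qb (modularFunctionFieldBar (N * q)))
    (hP' : 0 ≤ (P.restrictAlong (heckeAlphaBar Qb N q) (h88_alphaIntegral N q)).ord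
      (h59_jbar N)) :
    ∃ k : κ₂ ⊕ h80_HorIdx (h80_horOrd (N * q) H (h59_jbar (N * q))), h80_IsHor k ∧
      ∀ f : h69_F0 (N * q) H, (V₂).v k f = P.ord (f : modularFunctionFieldBar (N * q)) :=
  h65_hc_above_gen N q H w₂ hw₂m hw₂a (heckeAlphaBar Qb N q) (h88_alphaIntegral N q)
    (h65_chart_alpha N q) P hP'

end Inst

section InstBeta

variable (M q : ℕ) [NeZero M] [NeZero q] [Fact q.Prime] (hqM : ¬ q ∣ M)
  (H : Subgroup (Qb ≃ₐ[ℚ] Qb))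
variable {κ₁ κ₂ : Type*} [Finite κ₁] [Finite κ₂]
  (w₁ : κ₁ → h69_F0 (M * q) H → ℤ)
  (hw₁m : ∀ c (f g : h69_F0 (M * q) H), f ≠ 0 → g ≠ 0 → w₁ c (f * g) = w₁ c f + w₁ c g)
  (hw₁a : ∀ c (f g : h69_F0 (M * q) H), f ≠ 0 → g ≠ 0 → f + g ≠ 0 →
    min (w₁ c f) (w₁ c g) ≤ w₁ c (f + g))
  (w₂ : κ₂ → h69_F0 (M * q * q) H → ℤ)
  (hw₂m : ∀ c (f g : h69_F0 (M * q * q) H), f ≠ 0 → g ≠ 0 → w₂ c (f * g) = w₂ c f + w₂ c g)
  (hw₂a : ∀ c (f g : h69_F0 (M * q * q) H), f ≠ 0 → g ≠ 0 → f + g ≠ 0 →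
    min (w₂ c f) (w₂ c g) ≤ w₂ c (f + g))

local notation "V₁" => h80_fam1 (M * q) H w₁ hw₁m hw₁a
local notation "V₂" => h80_fam1 (M * q * q) H w₂ hw₂m hw₂a

include hqM in
/-- **(HC1) along `β`** (level `M q q`, `q ∤ M`). -/
theorem h65_hc_mem_b
    (hvt : ∀ c : κ₂, ∃ (c₁ : κ₁) (e : ℤ), 0 ≤ e ∧
      ∀ g : h69_F0 (M * q) H, g ≠ 0 → w₂ c (h70_bF0 (M * q) q H g) = e * w₁ c₁ g)
    (g : h69_F0 (M * q) H) (hg : g ∈ (V₁).B) : h70_bF0 (M * q) q H g ∈ (V₂).B :=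
  h65_hc_mem_gen (M * q) q H w₁ hw₁m hw₁a w₂ hw₂m hw₂a (heckeBetaBar Qb (M * q) q)
    (h88_betaIntegral (M * q) q) (h70_bF0 (M * q) q H) (h70_coe_bF0 (M * q) q H)
    (h65_chart_beta M q hqM) hvt g hg

include hqM in
/-- **(HC2) along `β`.** -/
theorem h65_hc_hor_b (k : κ₂ ⊕ h80_HorIdx (h80_horOrd (M * q * q) H (h59_jbar (M * q * q))))
    (hk : h80_IsHor k) :
    ∃ (k₁ : κ₁ ⊕ h80_HorIdx (h80_horOrd (M * q) H (h59_jbar (M * q)))) (e : ℤ),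
      h80_IsHor k₁ ∧ 1 ≤ e ∧
        ∀ g : h69_F0 (M * q) H, (V₂).v k (h70_bF0 (M * q) q H g) = e * (V₁).v k₁ g :=
  h65_hc_hor_gen (M * q) q H w₁ hw₁m hw₁a w₂ hw₂m hw₂a (heckeBetaBar Qb (M * q) q)
    (h88_betaIntegral (M * q) q) (h70_bF0 (M * q) q H) (h70_coe_bF0 (M * q) q H)
    (h65_chart_beta M q hqM) k hk

include hqM in
/-- **(HC) along `β`**, in the shape of `h51_eq_of_node`. -/
theorem h65_hc_b
    (hvt : ∀ c : κ₂, ∃ (c₁ : κ₁) (e : ℤ), 0 ≤ e ∧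
      ∀ g : h69_F0 (M * q) H, g ≠ 0 → w₂ c (h70_bF0 (M * q) q H g) = e * w₁ c₁ g)
    (m : Ideal (V₂).B) (m₁ : Ideal (V₁).B)
    (hm₁ : ∀ f : (V₁).B, (⟨h70_bF0 (M * q) q H (f : h69_F0 (M * q) H),
      h65_hc_mem_b M q hqM H w₁ hw₁m hw₁a w₂ hw₂m hw₂a hvt f f.2⟩ : (V₂).B) ∈ m → f ∈ m₁)
    (k : κ₂ ⊕ h80_HorIdx (h80_horOrd (M * q * q) H (h59_jbar (M * q * q)))) (hk : h80_IsHor k)
    (hkm : (V₂).Through m k) :
    ∃ (k₁ : κ₁ ⊕ h80_HorIdx (h80_horOrd (M * q) H (h59_jbar (M * q)))) (e : ℤ), h80_IsHor k₁ ∧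
      (V₁).Through m₁ k₁ ∧ 1 ≤ e ∧
        ∀ g : h69_F0 (M * q) H, g ≠ 0 → (V₂).v k (h70_bF0 (M * q) q H g) = e * (V₁).v k₁ g :=
  h65_hc_gen (M * q) q H w₁ hw₁m hw₁a w₂ hw₂m hw₂a (heckeBetaBar Qb (M * q) q)
    (h88_betaIntegral (M * q) q) (h70_bF0 (M * q) q H) (h70_coe_bF0 (M * q) q H)
    (h65_chart_beta M q hqM) hvt m m₁ hm₁ k hk hkm

include hqM in
/-- **(HC3) along `β`.** -/
theorem h65_hc_above_b (P : Place Qb (modularFunctionFieldBar (M * q * q)))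
    (hP' : 0 ≤ (P.restrictAlong (heckeBetaBar Qb (M * q) q) (h88_betaIntegral (M * q) q)).ord
      (h59_jbar (M * q))) :
    ∃ k : κ₂ ⊕ h80_HorIdx (h80_horOrd (M * q * q) H (h59_jbar (M * q * q))), h80_IsHor k ∧
      ∀ f : h69_F0 (M * q * q) H, (V₂).v k f = P.ord (f : modularFunctionFieldBar (M * q * q)) :=
  h65_hc_above_gen (M * q) q H w₂ hw₂m hw₂a (heckeBetaBar Qb (M * q) q)
    (h88_betaIntegral (M * q) q) (h65_chart_beta M q hqM) P hP'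

end InstBeta

end Fermat.Agent.S36
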