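import Mathlib

/-!
# S36 / (L1) local gluing core `(LOC)` (helper94)

Pure commutative algebra (Mathlib only).  `B` is a local domain with fraction field `F`
(in the application: the regular local ring `B_x` of the level-`q²` model at a closed point `x`
of the special fibre), `π i` are the vertical prime elements through `x` (the branches), with
multiplicities `a i`.  `h94_DivAt π a t` says `t ∈ π ^ a • B_(π)`.

Main result `h94_loc_glue`: if `e ∈ F` is integral at every branch, `w` is a unit of `B` and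
`e ^ m * w ≡ 1` modulo `π i ^ a i` on every branch, then there are `m`-th roots of unity `ζ i`
of `B` and ONE unit `y` of `B` with `e ≡ ζ i * y` modulo `π i ^ a i` on every branch: the local
generator of an `m`-torsion divisor reduces to a unit of the local ring times branchwise constant
roots of unity (the gluing constants).
-/

set_option autoImplicit false
set_option linter.unusedSectionVars false

namespace Fermat.Agent.S36

open IsLocalRing

section DivAt

variable {B : Type*} [CommRing B] [IsDomain B]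
variable {F : Type*} [Field F] [Algebra B F] [IsFractionRing B F]

/-- `t ∈ π ^ a • B_(π)` inside the fraction field: `t * d = π ^ a * c` with `π ∤ d`. -/
def h94_DivAt (π : B) (a : ℕ) (t : F) : Prop :=
  ∃ c d : B, ¬ π ∣ d ∧ t * algebraMap B F d = algebraMap B F (π ^ a * c)

theorem h94_divAt_zero {π : B} (hπ : ¬ IsUnit π) (a : ℕ) : h94_DivAt π a (0 : F) :=
  ⟨0, 1, fun h => hπ (isUnit_of_dvd_one h), by simp⟩

theorem h94_divAt_mono {π : B} {a a' : ℕ} (h : a ≤ a') {t : F} (ht : h94_DivAt π a' t) :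
    h94_DivAt π a t := by
  obtain ⟨c, d, hd, e⟩ := ht
  refine ⟨π ^ (a' - a) * c, d, hd, ?_⟩
  rw [e, ← mul_assoc, ← pow_add, Nat.add_sub_cancel' h]

theorem h94_divAt_add {π : B} (hπ : Prime π) {a : ℕ} {t t' : F} (ht : h94_DivAt π a t)
    (ht' : h94_DivAt π a t') : h94_DivAt π a (t + t') := by
  obtain ⟨c, d, hd, e⟩ := ht
  obtain ⟨c', d', hd', e'⟩ := ht'
  refine ⟨c * d' + c' * d, d * d', fun h => (hπ.dvd_or_dvd h).elim hd hd', ?_⟩
  simp only [map_mul, map_add, map_pow] at *
  linear_combination (algebraMap B F d') * e + (algebraMap B F d) * e'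

theorem h94_divAt_neg {π : B} {a : ℕ} {t : F} (ht : h94_DivAt π a t) : h94_DivAt π a (-t) := by
  obtain ⟨c, d, hd, e⟩ := ht
  refine ⟨-c, d, hd, ?_⟩
  simp only [map_mul, map_neg, map_pow] at *
  linear_combination -e

theorem h94_divAt_sub {π : B} (hπ : Prime π) {a : ℕ} {t t' : F} (ht : h94_DivAt π a t)
    (ht' : h94_DivAt π a t') : h94_DivAt π a (t - t') := by
  rw [sub_eq_add_neg]
  exact h94_divAt_add hπ ht (h94_divAt_neg ht')

theorem h94_divAt_mul {π : B} (hπ : Prime π) {a a' : ℕ} {t t' : F} (ht : h94_DivAt π a t)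
    (ht' : h94_DivAt π a' t') : h94_DivAt π (a + a') (t * t') := by
  obtain ⟨c, d, hd, e⟩ := ht
  obtain ⟨c', d', hd', e'⟩ := ht'
  refine ⟨c * c', d * d', fun h => (hπ.dvd_or_dvd h).elim hd hd', ?_⟩
  simp only [map_mul, map_pow] at *
  rw [pow_add]
  linear_combination (t' * algebraMap B F d') * e +
    ((algebraMap B F π) ^ a * algebraMap B F c) * e'

/-- Elements of `B` are integral at every branch. -/
theorem h94_divAt_algebraMap {π : B} (hπ : ¬ IsUnit π) (b : B) :
    h94_DivAt π 0 (algebraMap B F b) :=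
  ⟨b, 1, fun h => hπ (isUnit_of_dvd_one h), by simp⟩

theorem h94_divAt_of_dvd {π : B} (hπ : ¬ IsUnit π) {a : ℕ} {b : B} (h : π ^ a ∣ b) :
    h94_DivAt π a (algebraMap B F b) := by
  obtain ⟨c, rfl⟩ := h
  exact ⟨c, 1, fun h => hπ (isUnit_of_dvd_one h), by simp⟩

theorem h94_dvd_of_divAt {π : B} (hπ : Prime π) {a : ℕ} {b : B}
    (h : h94_DivAt π a (algebraMap B F b)) : π ^ a ∣ b := by
  obtain ⟨c, d, hd, e⟩ := h
  rw [← map_mul] at e
  have e' : b * d = π ^ a * c := IsFractionRing.injective B F e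
  exact hπ.pow_dvd_of_dvd_mul_right a hd ⟨c, e'⟩

theorem h94_divAt_mul_left {π : B} (hπ : Prime π) {a : ℕ} {t t' : F} (ht : h94_DivAt π a t)
    (ht' : h94_DivAt π 0 t') : h94_DivAt π a (t' * t) := by
  have := h94_divAt_mul hπ ht ht'
  rwa [add_zero, mul_comm] at this

/-- Cancel a power of `π`. -/
theorem h94_divAt_cancel {π : B} (hπ : Prime π) {a j : ℕ} {t : F}
    (h : h94_DivAt π (a + j) (algebraMap B F (π ^ a) * t)) : h94_DivAt π j t := by
  obtain ⟨c, d, hd, e⟩ := h
  refine ⟨c, d, hd, ?_⟩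
  have hne : algebraMap B F (π ^ a) ≠ 0 := by
    rw [Ne, map_eq_zero_iff _ (IsFractionRing.injective B F)]
    exact pow_ne_zero _ hπ.ne_zero
  apply mul_left_cancel₀ hne
  rw [← mul_assoc, e, pow_add]
  simp only [map_mul, map_pow]
  ring

theorem h94_divAt_one {π : B} (hπ : ¬ IsUnit π) : h94_DivAt π 0 (1 : F) := by
  have := h94_divAt_algebraMap (F := F) hπ (1 : B)
  rwa [map_one] at this

/-- The local ring `B_(π)` of the branch, as a subring of `F`. -/
def h94_Oat (π : B) (hπ : Prime π) : Subring F where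
  carrier := {t | h94_DivAt π 0 t}
  mul_mem' := fun {x y} hx hy => by
    have := h94_divAt_mul hπ hx hy
    rwa [add_zero] at this
  one_mem' := h94_divAt_one hπ.not_isUnit
  add_mem' := fun {x y} hx hy => h94_divAt_add hπ hx hy
  zero_mem' := h94_divAt_zero hπ.not_isUnit 0
  neg_mem' := fun {x} hx => h94_divAt_neg hx

theorem h94_mem_Oat {π : B} (hπ : Prime π) {t : F} : t ∈ h94_Oat (F := F) π hπ ↔ h94_DivAt π 0 t :=
  Iff.rfl

theorem h94_divAt_pow_zero {π : B} (hπ : Prime π) {t : F} (ht : h94_DivAt π 0 t) (n : ℕ) :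
    h94_DivAt π 0 (t ^ n) :=
  (h94_Oat (F := F) π hπ).pow_mem ht n

/-- Congruent elements of `B_(π)` have congruent powers. -/
theorem h94_divAt_pow_sub_pow {π : B} (hπ : Prime π) {a : ℕ} {t t' : F} (ht : h94_DivAt π 0 t)
    (ht' : h94_DivAt π 0 t') (h : h94_DivAt π a (t - t')) (n : ℕ) :
    h94_DivAt π a (t ^ n - t' ^ n) := by
  induction n with
  | zero => simpa using h94_divAt_zero (F := F) hπ.not_isUnit a
  | succ n ih =>
    have e : t ^ (n + 1) - t' ^ (n + 1) = t * (t ^ n - t' ^ n) + t' ^ n * (t - t') := by ring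
    rw [e]
    exact h94_divAt_add hπ (h94_divAt_mul_left hπ ih ht)
      (h94_divAt_mul_left hπ h (h94_divAt_pow_zero hπ ht' n))

end DivAt

section Local

variable {B : Type*} [CommRing B] [IsDomain B] [IsLocalRing B]
variable {F : Type*} [Field F] [Algebra B F] [IsFractionRing B F]

/-- In a local ring, unit plus non-unit is a unit. -/
theorem h94_isUnit_add {b x : B} (hb : IsUnit b) (hx : x ∈ maximalIdeal B) : IsUnit (b + x) := by
  by_contra h
  have h1 : b + x ∈ maximalIdeal B := (IsLocalRing.mem_maximalIdeal _).2 h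
  have h2 : b ∈ maximalIdeal B := by
    have := (maximalIdeal B).sub_mem h1 hx
    simpa using this
  exact (IsLocalRing.mem_maximalIdeal _).1 h2 hb

theorem h94_prime_mem_max {π : B} (hπ : Prime π) : π ∈ maximalIdeal B :=
  (IsLocalRing.mem_maximalIdeal _).2 hπ.not_isUnit

/-- Lemma C (rigidity of roots of unity): if `c ≡ 1` modulo the maximal ideal and `c ^ m ≡ 1`
modulo `J`, then `c ≡ 1` modulo `J`. -/
theorem h94_lemC {m : ℕ} (hm : IsUnit (m : B)) (J : Ideal B) {c : B}
    (hc : c - 1 ∈ maximalIdeal B) (h : c ^ m - 1 ∈ J) : c - 1 ∈ J := by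
  obtain ⟨k, hk⟩ := Polynomial.powAddExpansion (1 : B) (c - 1) m
  have e : c ^ m - 1 = (c - 1) * ((m : B) + k * (c - 1)) := by
    have h1 : (1 : B) + (c - 1) = c := by ring
    rw [h1, one_pow, one_pow, mul_one] at hk
    rw [hk]; ring
  have hu : IsUnit ((m : B) + k * (c - 1)) :=
    h94_isUnit_add hm ((maximalIdeal B).mul_mem_left k hc)
  obtain ⟨v, hv⟩ := hu.exists_right_inv
  have e2 : c - 1 = (c ^ m - 1) * v := by rw [e, mul_assoc, hv, mul_one]
  rw [e2]
  exact J.mul_mem_right v h

/-- Lemma B (Hensel modulo powers of the maximal ideal): units have `m`-th roots modulo every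
power of the maximal ideal as soon as they have one modulo the maximal ideal. -/
theorem h94_lemB {m : ℕ} (hm : IsUnit (m : B))
    (H2 : ∀ s : B, IsUnit s → ∃ κ : B, κ ^ m - s ∈ maximalIdeal B)
    (s : B) (hs : IsUnit s) (N : ℕ) :
    ∃ ω : B, IsUnit ω ∧ ω ^ m - s ∈ maximalIdeal B ^ (N + 1) := by
  have hm0 : m ≠ 0 := by
    rintro rfl
    simp at hm
  induction N with
  | zero =>
    obtain ⟨κ, hκ⟩ := H2 s hs
    refine ⟨κ, ?_, by simpa using hκ⟩
    have h1 : IsUnit (κ ^ m) := by
      have := h94_isUnit_add hs hκ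
      rwa [add_sub_cancel] at this
    exact (isUnit_pow_iff hm0).1 h1
  | succ N ih =>
    obtain ⟨ω, hω, hδ⟩ := ih
    have hu : IsUnit ((m : B) * ω ^ (m - 1)) := hm.mul (hω.pow _)
    obtain ⟨v, hv⟩ := hu.exists_right_inv
    obtain ⟨k, hk⟩ := Polynomial.powAddExpansion ω (-((ω ^ m - s) * v)) m
    have hδmax : ω ^ m - s ∈ maximalIdeal B :=
      Ideal.pow_le_self (Nat.succ_ne_zero N) hδ
    refine ⟨ω + -((ω ^ m - s) * v), ?_, ?_⟩
    · exact h94_isUnit_add hω ((maximalIdeal B).neg_mem ((maximalIdeal B).mul_mem_right v hδmax))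
    · have e : (ω + -((ω ^ m - s) * v)) ^ m - s = (k * v ^ 2) * ((ω ^ m - s) * (ω ^ m - s)) := by
        rw [hk]
        linear_combination (-(ω ^ m - s)) * hv
      rw [e]
      have h2 : (ω ^ m - s) * (ω ^ m - s) ∈ maximalIdeal B ^ (N + 1 + 1) := by
        have h3 : (ω ^ m - s) * (ω ^ m - s) ∈ maximalIdeal B ^ (N + 1) * maximalIdeal B ^ (N + 1) :=
          Ideal.mul_mem_mul hδ hδ
        rw [← pow_add] at h3
        exact Ideal.pow_le_pow_right (by omega) h3
      exact Ideal.mul_mem_left _ _ h2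

/-- Lemma A (one branch): an element of `B_(π)` whose `m`-th power is congruent to a unit of `B`
modulo `π ^ (a + 1)` is itself congruent to a unit of `B` modulo `π ^ (a + 1)`. -/
theorem h94_lemA {π : B} (hπ : Prime π) {m : ℕ} (hm : IsUnit (m : B))
    (H4 : ∀ c d s : B, ¬ π ∣ d → IsUnit s → π ∣ c ^ m - s * d ^ m → ∃ b : B, π ∣ c - b * d)
    (t : F) (ht : h94_DivAt π 0 t) (s : B) (hs : IsUnit s) (a : ℕ)
    (h : h94_DivAt π (a + 1) (t ^ m - algebraMap B F s)) :
    ∃ b : B, IsUnit b ∧ h94_DivAt π (a + 1) (t - algebraMap B F b) := by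
  have hm0 : m ≠ 0 := by
    rintro rfl
    simp at hm
  have hinj := IsFractionRing.injective B F
  induction a with
  | zero =>
    obtain ⟨c, d, hd, e⟩ := ht
    obtain ⟨c', d', hd', e'⟩ := h
    simp only [pow_zero, one_mul, zero_add, pow_one, map_mul] at e e'
    have key : π ∣ (c ^ m - s * d ^ m) * d' := by
      refine ⟨c' * d ^ m, ?_⟩
      apply hinj
      simp only [map_mul, map_sub, map_pow]
      rw [← e]
      linear_combination (algebraMap B F d) ^ m * e'
    have key2 : π ∣ c ^ m - s * d ^ m := (hπ.dvd_or_dvd key).resolve_right hd'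
    obtain ⟨b, hb⟩ := H4 c d s hd hs key2
    have hbu : IsUnit b := by
      have h1 : π ∣ c ^ m - (b * d) ^ m := dvd_trans hb (sub_dvd_pow_sub_pow c (b * d) m)
      have h2 : π ∣ (b ^ m - s) * d ^ m := by
        have e3 : (b ^ m - s) * d ^ m = (c ^ m - s * d ^ m) - (c ^ m - (b * d) ^ m) := by ring
        rw [e3]
        exact dvd_sub key2 h1
      have h3 : π ∣ b ^ m - s :=
        (hπ.dvd_or_dvd h2).resolve_right fun h4 => hd (hπ.dvd_of_dvd_pow h4)
      have h5 : IsUnit (b ^ m) := by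
        have := h94_isUnit_add hs
          ((maximalIdeal B).mem_of_dvd h3 (h94_prime_mem_max hπ))
        rwa [add_sub_cancel] at this
      exact (isUnit_pow_iff hm0).1 h5
    refine ⟨b, hbu, ?_⟩
    obtain ⟨c2, hc2⟩ := hb
    refine ⟨c2, d, hd, ?_⟩
    rw [pow_one, ← hc2]
    simp only [map_sub, map_mul]
    rw [← e]; ring
  | succ a ih =>
    obtain ⟨b, hbu, hr⟩ := ih (h94_divAt_mono (Nat.le_succ _) h)
    -- `r = t - b`, expansion inside the subring `B_(π)`
    have hbO : algebraMap B F b ∈ h94_Oat (F := F) π hπ := h94_divAt_algebraMap hπ.not_isUnit b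
    have hrO : t - algebraMap B F b ∈ h94_Oat (F := F) π hπ :=
      (h94_Oat (F := F) π hπ).sub_mem ht hbO
    obtain ⟨k, hk⟩ := Polynomial.powAddExpansion
      (⟨algebraMap B F b, hbO⟩ : h94_Oat (F := F) π hπ) ⟨t - algebraMap B F b, hrO⟩ m
    have hk' : t ^ m = (algebraMap B F b) ^ m +
        (m : F) * (algebraMap B F b) ^ (m - 1) * (t - algebraMap B F b) +
        (k : F) * (t - algebraMap B F b) ^ 2 := by
      have := congrArg (fun z : h94_Oat (F := F) π hπ => (z : F)) hk
      simp only [Subring.coe_pow, Subring.coe_add, Subring.coe_mul, Subring.coe_natCast] at this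
      rw [← this]; congr 1; ring
    -- `k * r ^ 2 ∈ π ^ (a + 2)`
    have hkr : h94_DivAt π (a + 1 + 1) ((k : F) * (t - algebraMap B F b) ^ 2) := by
      have h1 : h94_DivAt π ((a + 1) + (a + 1)) ((t - algebraMap B F b) ^ 2) := by
        rw [pow_two]; exact h94_divAt_mul hπ hr hr
      exact h94_divAt_mul_left hπ (h94_divAt_mono (by omega) h1) k.2
    -- `(b ^ m - s) + m b ^ (m-1) r ∈ π ^ (a + 2)`
    have h3 : h94_DivAt π (a + 1 + 1) (algebraMap B F (b ^ m - s) +
        algebraMap B F ((m : B) * b ^ (m - 1)) * (t - algebraMap B F b)) := by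
      have e3 : algebraMap B F (b ^ m - s) +
          algebraMap B F ((m : B) * b ^ (m - 1)) * (t - algebraMap B F b) =
          (t ^ m - algebraMap B F s) - (k : F) * (t - algebraMap B F b) ^ 2 := by
        rw [hk']
        simp only [map_sub, map_mul, map_pow, map_natCast]
        ring
      rw [e3]
      exact h94_divAt_sub hπ h hkr
    -- `b ^ m - s ∈ π ^ (a + 1) B`
    have h4 : π ^ (a + 1) ∣ b ^ m - s := by
      apply h94_dvd_of_divAt (F := F) hπ
      have e4 : algebraMap B F (b ^ m - s) = (algebraMap B F (b ^ m - s) +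
          algebraMap B F ((m : B) * b ^ (m - 1)) * (t - algebraMap B F b)) -
          algebraMap B F ((m : B) * b ^ (m - 1)) * (t - algebraMap B F b) := by ring
      rw [e4]
      exact h94_divAt_sub hπ (h94_divAt_mono (Nat.le_succ _) h3)
        (h94_divAt_mul_left hπ hr (h94_divAt_algebraMap hπ.not_isUnit _))
    obtain ⟨c0, hc0⟩ := h4
    obtain ⟨c1, d, hd, e1⟩ := hr
    -- multiply `h3` by `d`
    have h5 : h94_DivAt π (a + 1 + 1)
        (algebraMap B F (π ^ (a + 1) * (c0 * d + (m : B) * b ^ (m - 1) * c1))) := by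
      have e5 : algebraMap B F (π ^ (a + 1) * (c0 * d + (m : B) * b ^ (m - 1) * c1)) =
          algebraMap B F d * (algebraMap B F (b ^ m - s) +
            algebraMap B F ((m : B) * b ^ (m - 1)) * (t - algebraMap B F b)) := by
        rw [hc0]
        simp only [map_mul, map_add] at e1 ⊢
        linear_combination (-(algebraMap B F (m : B) * algebraMap B F (b ^ (m - 1)))) * e1
      rw [e5]
      exact h94_divAt_mul_left hπ h3 (h94_divAt_algebraMap hπ.not_isUnit d)
    have h6 : π ∣ c0 * d + (m : B) * b ^ (m - 1) * c1 := by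
      have h7 := h94_dvd_of_divAt (F := F) hπ h5
      rw [pow_succ] at h7
      exact (mul_dvd_mul_iff_left (pow_ne_zero _ hπ.ne_zero)).1 h7
    have hu : IsUnit ((m : B) * b ^ (m - 1)) := hm.mul (hbu.pow _)
    obtain ⟨v, hv⟩ := hu.exists_right_inv
    have h8 : π ∣ c1 + v * c0 * d := by
      have e8 : c1 + v * c0 * d = v * (c0 * d + (m : B) * b ^ (m - 1) * c1) := by
        linear_combination (-c1) * hv
      rw [e8]
      exact Dvd.dvd.mul_left h6 v
    obtain ⟨c3, hc3⟩ := h8
    refine ⟨b - π ^ (a + 1) * v * c0, ?_, c3, d, hd, ?_⟩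
    · rw [sub_eq_add_neg]
      refine h94_isUnit_add hbu ((maximalIdeal B).neg_mem ?_)
      have e10 : π ^ (a + 1) * v * c0 = (π ^ a * (v * c0)) * π := by ring
      rw [e10]
      exact (maximalIdeal B).mul_mem_left _ (h94_prime_mem_max hπ)
    · have e9 : (t - algebraMap B F (b - π ^ (a + 1) * v * c0)) * algebraMap B F d =
          (t - algebraMap B F b) * algebraMap B F d +
            algebraMap B F (π ^ (a + 1) * (v * c0 * d)) := by
        simp only [map_sub, map_mul]
        ring
      rw [e9, e1, ← map_add]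
      congr 1
      have : c1 + v * c0 * d = π * c3 := hc3
      rw [pow_succ (n := a + 1)]
      linear_combination (π ^ (a + 1)) * this

/-- **(LOC)**: local generators of `m`-torsion divisors reduce to a unit of the local ring times
branchwise constant `m`-th roots of unity.

`π i` are pairwise non-associated prime elements of the local domain `B` (the branches through
the point), `a i ≥ 1` their multiplicities.  Hypotheses: `m` is a unit of `B`; `(H2)` units are
`m`-th powers modulo the maximal ideal; `(H3)` roots of unity of the residue field lift to roots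
of unity of `B`; `(H4)` `B / π i` is `m`-root closed (e.g. integrally closed); `(H5)` a power of
the maximal ideal lies in the ideal generated by the complementary products
`∏ j ≠ i, π j ^ a j`. -/
theorem h94_loc_glue {ι : Type*} [Fintype ι] [DecidableEq ι] (π : ι → B) (a : ι → ℕ)
    (hπ : ∀ i, Prime (π i)) (ha : ∀ i, 1 ≤ a i)
    {m : ℕ} (hm : IsUnit (m : B))
    (H2 : ∀ s : B, IsUnit s → ∃ κ : B, κ ^ m - s ∈ maximalIdeal B)
    (H3 : ∀ c : B, c ^ m - 1 ∈ maximalIdeal B →
      ∃ ζ : B, ζ ^ m = 1 ∧ c - ζ ∈ maximalIdeal B)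
    (H4 : ∀ i, ∀ c d s : B, ¬ π i ∣ d → IsUnit s → π i ∣ c ^ m - s * d ^ m →
      ∃ b : B, π i ∣ c - b * d)
    (H5 : ∃ N : ℕ, maximalIdeal B ^ N ≤
      Ideal.span (Set.range fun i => ∏ j ∈ Finset.univ.erase i, π j ^ a j))
    (e : F) (he : ∀ i, h94_DivAt (π i) 0 e) (w : B) (hw : IsUnit w)
    (hew : ∀ i, h94_DivAt (π i) (a i) (e ^ m * algebraMap B F w - 1)) :
    ∃ (ζ : ι → B) (y : B), (∀ i, ζ i ^ m = 1) ∧ IsUnit y ∧
      ∀ i, h94_DivAt (π i) (a i) (e - algebraMap B F (ζ i * y)) := by
  classical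
  have hm0 : m ≠ 0 := by
    rintro rfl
    simp at hm
  obtain ⟨w', hw'⟩ := hw.exists_right_inv
  have hw'u : IsUnit w' := IsUnit.of_mul_eq_one _ (by rw [mul_comm]; exact hw')
  set qf : ι → B := fun i => ∏ j ∈ Finset.univ.erase i, π j ^ a j with hqf
  -- Step 1: one unit per branch
  have step1 : ∀ i, ∃ b : B, IsUnit b ∧ h94_DivAt (π i) (a i) (e - algebraMap B F b) := by
    intro i
    have h1 : h94_DivAt (π i) (a i - 1 + 1) (e ^ m - algebraMap B F w') := by
      rw [Nat.sub_add_cancel (ha i)]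
      have e1 : e ^ m - algebraMap B F w' =
          algebraMap B F w' * (e ^ m * algebraMap B F w - 1) := by
        have : algebraMap B F w * algebraMap B F w' = 1 := by rw [← map_mul, hw', map_one]
        linear_combination (-(e ^ m)) * this
      rw [e1]
      exact h94_divAt_mul_left (hπ i) (hew i) (h94_divAt_algebraMap (hπ i).not_isUnit w')
    have := h94_lemA (hπ i) hm (H4 i) e (he i) w' hw'u (a i - 1) h1
    rwa [Nat.sub_add_cancel (ha i)] at this
  choose yb hybu hyb using step1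
  -- Step 2: `yb i ^ m * w ≡ 1` modulo `π i ^ a i`
  have step2 : ∀ i, π i ^ a i ∣ yb i ^ m * w - 1 := by
    intro i
    apply h94_dvd_of_divAt (F := F) (hπ i)
    have e2 : algebraMap B F (yb i ^ m * w - 1) =
        (e ^ m * algebraMap B F w - 1) -
          algebraMap B F w * (e ^ m - (algebraMap B F (yb i)) ^ m) := by
      simp only [map_sub, map_mul, map_pow, map_one]
      ring
    rw [e2]
    exact h94_divAt_sub (hπ i) (hew i)
      (h94_divAt_mul_left (hπ i)
        (h94_divAt_pow_sub_pow (hπ i) (he i) (h94_divAt_algebraMap (hπ i).not_isUnit _)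
          (hyb i) m)
        (h94_divAt_algebraMap (hπ i).not_isUnit w))
  -- Step 3: a global `m`-th root of `w⁻¹` modulo a power of the maximal ideal
  obtain ⟨N, hN⟩ := H5
  obtain ⟨ω, hωu, hω⟩ := h94_lemB hm H2 w' hw'u N
  obtain ⟨ω', hω'⟩ := hωu.exists_right_inv
  have hωI : ω ^ m - w' ∈ Ideal.span (Set.range qf) :=
    hN (Ideal.pow_le_pow_right (Nat.le_succ N) hω)
  have hωmax : ω ^ m - w' ∈ maximalIdeal B := Ideal.pow_le_self (Nat.succ_ne_zero N) hω
  -- the ideals `J i = (π i ^ a i, qf i)`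
  have hIJ : ∀ i, Ideal.span (Set.range qf) ≤ Ideal.span {π i ^ a i, qf i} := by
    intro i
    rw [Ideal.span_le]
    rintro _ ⟨j, rfl⟩
    by_cases hji : j = i
    · subst hji
      exact Ideal.subset_span (by simp)
    · have hdvd : π i ^ a i ∣ qf j :=
        Finset.dvd_prod_of_mem (fun j => π j ^ a j)
          (Finset.mem_erase.2 ⟨fun h => hji h.symm, Finset.mem_univ i⟩)
      exact Ideal.mem_span_pair.2 (by
        obtain ⟨c, hc⟩ := hdvd
        exact ⟨c, 0, by rw [hc]; ring⟩)
  -- Step 4: roots of unity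
  have step4 : ∀ i, ∃ ζ : B, ζ ^ m = 1 ∧ yb i - ω * ζ ∈ Ideal.span {π i ^ a i, qf i} := by
    intro i
    -- `c = yb i * ω'`
    have hpow : (ω * ω') ^ m = 1 := by rw [hω', one_pow]
    have hc1 : (yb i * ω') ^ m - 1 = ω' ^ m * w' * ((yb i ^ m * w - 1) - (ω ^ m - w') * w) := by
      have h1 : ω ^ m * ω' ^ m = 1 := by rw [← mul_pow]; exact hpow
      linear_combination (-(ω' ^ m * yb i ^ m) - ω' ^ m * w' + 1) * hw' + (w * w') * h1
    have hπmax : π i ^ a i ∈ maximalIdeal B :=
      Ideal.pow_mem_of_mem _ (h94_prime_mem_max (hπ i)) _ (ha i)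
    have hcJ : (yb i * ω') ^ m - 1 ∈ Ideal.span {π i ^ a i, qf i} := by
      rw [hc1]
      refine Ideal.mul_mem_left _ _ (Ideal.sub_mem _ ?_ (Ideal.mul_mem_right _ _ (hIJ i hωI)))
      exact Ideal.mem_of_dvd _ (step2 i) (Ideal.subset_span (by simp))
    have hcmax : (yb i * ω') ^ m - 1 ∈ maximalIdeal B := by
      rw [hc1]
      refine Ideal.mul_mem_left _ _ (Ideal.sub_mem _ ?_ (Ideal.mul_mem_right _ _ hωmax))
      exact Ideal.mem_of_dvd _ (step2 i) hπmax
    obtain ⟨ζ, hζ, hcζ⟩ := H3 _ hcmax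
    refine ⟨ζ, hζ, ?_⟩
    have hζ1 : ζ ^ (m - 1) * ζ = 1 := by rw [pow_sub_one_mul hm0, hζ]
    have hC := h94_lemC hm (Ideal.span {π i ^ a i, qf i}) (c := yb i * ω' * ζ ^ (m - 1))
      (by
        have e1 : yb i * ω' * ζ ^ (m - 1) - 1 = ζ ^ (m - 1) * (yb i * ω' - ζ) := by
          linear_combination hζ1
        rw [e1]
        exact Ideal.mul_mem_left _ _ hcζ)
      (by
        have e2 : (ζ ^ (m - 1)) ^ m = 1 := by
          rw [← pow_mul, mul_comm, pow_mul, hζ, one_pow]
        have e3 : (yb i * ω' * ζ ^ (m - 1)) ^ m - 1 = (yb i * ω') ^ m - 1 := by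
          rw [mul_pow (yb i * ω'), e2, mul_one]
        rw [e3]
        exact hcJ)
    have e4 : yb i - ω * ζ = (ω * ζ) * (yb i * ω' * ζ ^ (m - 1) - 1) := by
      linear_combination (-(yb i)) * hω' + (-(yb i * ω * ω')) * hζ1
    rw [e4]
    exact Ideal.mul_mem_left _ _ hC
  choose ζ hζ hζJ using step4
  have step5 : ∀ i, ∃ α β : B, α * π i ^ a i + β * qf i = yb i - ω * ζ i :=
    fun i => Ideal.mem_span_pair.1 (hζJ i)
  choose α β hαβ using step5
  have hm1 : ∀ i, ζ i * ζ i ^ (m - 1) = 1 := fun i => by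
    rw [mul_comm, pow_sub_one_mul hm0, hζ]
  set y : B := ω + ∑ j, ζ j ^ (m - 1) * (β j * qf j) with hy
  have key : ∀ i, π i ^ a i ∣ ζ i * y - yb i := by
    intro i
    have hsplit : ∑ j, ζ j ^ (m - 1) * (β j * qf j) =
        ζ i ^ (m - 1) * (β i * qf i) +
          ∑ j ∈ Finset.univ.erase i, ζ j ^ (m - 1) * (β j * qf j) :=
      (Finset.add_sum_erase Finset.univ _ (Finset.mem_univ i)).symm
    have e5 : ζ i * y - yb i =
        ζ i * ∑ j ∈ Finset.univ.erase i, ζ j ^ (m - 1) * (β j * qf j) - α i * π i ^ a i := by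
      rw [hy, hsplit]
      linear_combination (β i * qf i) * hm1 i + hαβ i
    rw [e5]
    refine dvd_sub (Dvd.dvd.mul_left (Finset.dvd_sum fun j hj => ?_) _) (Dvd.intro_left _ rfl)
    have hdvd : π i ^ a i ∣ qf j :=
      Finset.dvd_prod_of_mem (fun j => π j ^ a j)
        (Finset.mem_erase.2 ⟨fun h => (Finset.mem_erase.1 hj).1 h.symm, Finset.mem_univ i⟩)
    exact Dvd.dvd.mul_left (Dvd.dvd.mul_left hdvd _) _
  refine ⟨ζ, y, hζ, ?_, fun i => ?_⟩
  · rcases isEmpty_or_nonempty ι with hι | hι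
    · have : y = ω := by
        rw [hy, Finset.univ_eq_empty, Finset.sum_empty, add_zero]
      rw [this]; exact hωu
    · obtain ⟨i⟩ := hι
      have h1 : IsUnit (ζ i * y) := by
        have h2 : ζ i * y = yb i + (ζ i * y - yb i) := by ring
        rw [h2]
        exact h94_isUnit_add (hybu i) (Ideal.mem_of_dvd _ (key i)
          (Ideal.pow_mem_of_mem _ (h94_prime_mem_max (hπ i)) _ (ha i)))
      exact isUnit_of_mul_isUnit_right h1
  · have e6 : e - algebraMap B F (ζ i * y) =
        (e - algebraMap B F (yb i)) - algebraMap B F (ζ i * y - yb i) := by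
      simp only [map_sub]
      ring
    rw [e6]
    exact h94_divAt_sub (hπ i) (hyb i) (h94_divAt_of_dvd (hπ i).not_isUnit (key i))

/-- Consequence `(a)` of `(LOC)`: every multiple `e * b` (`b ∈ B`) of the local generator is,
branch by branch, `ζ i` times the ONE element `y * b` of `B`. -/
theorem h94_loc_glue_mul {ι : Type*} (π : ι → B) (a : ι → ℕ) (hπ : ∀ i, Prime (π i))
    (e : F) (ζ : ι → B) (y : B)
    (h : ∀ i, h94_DivAt (π i) (a i) (e - algebraMap B F (ζ i * y))) (b : B) (i : ι) :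
    h94_DivAt (π i) (a i) (e * algebraMap B F b - algebraMap B F (ζ i * (y * b))) := by
  have e1 : e * algebraMap B F b - algebraMap B F (ζ i * (y * b)) =
      algebraMap B F b * (e - algebraMap B F (ζ i * y)) := by
    simp only [map_mul]
    ring
  rw [e1]
  exact h94_divAt_mul_left (hπ i) (h i) (h94_divAt_algebraMap (hπ i).not_isUnit b)

/-- `(H4)` holds when `B / π` is integrally closed (e.g. a discrete valuation ring). -/
theorem h94_H4_of_integrallyClosed {π : B} (hπ : Prime π)
    [IsIntegrallyClosed (B ⧸ Ideal.span {π})] {m : ℕ} (hm0 : m ≠ 0)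
    (c d s : B) (hd : ¬ π ∣ d) (h : π ∣ c ^ m - s * d ^ m) : ∃ b : B, π ∣ c - b * d := by
  have : (Ideal.span {π}).IsPrime := (Ideal.span_singleton_prime hπ.ne_zero).2 hπ
  set R := B ⧸ Ideal.span {π}
  set K := FractionRing R
  have hd0 : (Ideal.Quotient.mk (Ideal.span {π}) d : R) ≠ 0 := by
    rw [Ne, Ideal.Quotient.eq_zero_iff_mem, Ideal.mem_span_singleton]
    exact hd
  have hdK : algebraMap R K (Ideal.Quotient.mk (Ideal.span {π}) d) ≠ 0 := by
    rw [Ne, map_eq_zero_iff _ (IsFractionRing.injective R K)]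
    exact hd0
  have hrel : (Ideal.Quotient.mk (Ideal.span {π}) c : R) ^ m =
      Ideal.Quotient.mk (Ideal.span {π}) s * (Ideal.Quotient.mk (Ideal.span {π}) d) ^ m := by
    rw [← map_pow, ← map_pow, ← map_mul, Ideal.Quotient.eq, Ideal.mem_span_singleton]
    exact h
  set x : K := algebraMap R K (Ideal.Quotient.mk (Ideal.span {π}) c) /
    algebraMap R K (Ideal.Quotient.mk (Ideal.span {π}) d) with hx
  have hxm : x ^ m = algebraMap R K (Ideal.Quotient.mk (Ideal.span {π}) s) := by
    rw [hx, div_pow, ← map_pow, hrel, map_mul, map_pow, mul_div_assoc,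
      div_self (pow_ne_zero _ hdK), mul_one]
  have hint : IsIntegral R x := by
    refine ⟨Polynomial.X ^ m - Polynomial.C (Ideal.Quotient.mk (Ideal.span {π}) s),
      Polynomial.monic_X_pow_sub_C _ hm0, ?_⟩
    simp [hxm]
  obtain ⟨bq, hbq⟩ := IsIntegrallyClosed.isIntegral_iff.1 hint
  obtain ⟨b, rfl⟩ := Ideal.Quotient.mk_surjective bq
  refine ⟨b, ?_⟩
  rw [← Ideal.mem_span_singleton, ← Ideal.Quotient.eq, map_mul]
  apply IsFractionRing.injective R K
  rw [map_mul, hbq, hx, div_mul_cancel₀ _ hdK]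

end Local

section Tube

variable {B : Type*} [CommRing B] [IsDomain B] [UniqueFactorizationMonoid B]
variable {F : Type*} [Field F] [Algebra B F] [IsFractionRing B F]

/-- `(TUBE)(i)`, abstract form: in a UFD, an element of the fraction field which is integral at
every prime element lies in the ring. -/
theorem h94_mem_of_divAt_all (g : F) (h : ∀ p : B, Prime p → h94_DivAt p 0 g) :
    ∃ b : B, algebraMap B F b = g := by
  obtain ⟨c, d, hrel, hx⟩ := IsFractionRing.exists_reduced_fraction (A := B) (K := F) g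
  have hd0 : algebraMap B F (d : B) ≠ 0 := by
    rw [Ne, map_eq_zero_iff _ (IsFractionRing.injective B F)]
    exact nonZeroDivisors.ne_zero d.2
  have hgd : g * algebraMap B F (d : B) = algebraMap B F c := by
    rw [← hx]
    exact IsLocalization.mk'_spec F c d
  by_cases hu : IsUnit (d : B)
  · obtain ⟨v, hv⟩ := hu.exists_right_inv
    refine ⟨c * v, ?_⟩
    have hv' : algebraMap B F (d : B) * algebraMap B F v = 1 := by
      rw [← map_mul, hv, map_one]
    rw [map_mul, ← hgd, mul_assoc, hv', mul_one]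
  · exfalso
    obtain ⟨p, hp, hpd⟩ := WfDvdMonoid.exists_irreducible_factor hu (nonZeroDivisors.ne_zero d.2)
    have hpp : Prime p := UniqueFactorizationMonoid.irreducible_iff_prime.1 hp
    obtain ⟨c', d', hd', e'⟩ := h p hpp
    rw [pow_zero, one_mul] at e'
    have e2 : c * d' = c' * (d : B) := by
      apply IsFractionRing.injective B F
      rw [map_mul, map_mul, ← hgd, ← e']
      ring
    have h1 : p ∣ c * d' := by rw [e2]; exact Dvd.dvd.mul_left hpd c'
    have h2 : p ∣ c := (hpp.dvd_or_dvd h1).resolve_right hd'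
    exact hpp.not_isUnit (hrel h2 hpd)

end Tube

section LocalGlobal

/-- `(LG)`: an element `a` of an `R`-algebra `Q` that is, at every maximal ideal `𝔪` of `R`, a
fraction `r / t` with `r, t ∈ R`, `t ∉ 𝔪` (i.e. `t • a` lies in the image of `R`), lies in the
image of `R`. -/
theorem h94_mem_of_forall_maximal {R Q : Type*} [CommRing R] [CommRing Q] [Algebra R Q] (a : Q)
    (h : ∀ 𝔪 : Ideal R, 𝔪.IsMaximal → ∃ t : R, t ∉ 𝔪 ∧ ∃ r : R, t • a = algebraMap R Q r) :
    ∃ r : R, algebraMap R Q r = a := by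
  classical
  let D : Ideal R :=
    { carrier := {t | ∃ r : R, t • a = algebraMap R Q r}
      add_mem' := by
        rintro t t' ⟨r, hr⟩ ⟨r', hr'⟩
        exact ⟨r + r', by rw [add_smul, hr, hr', map_add]⟩
      zero_mem' := ⟨0, by simp⟩
      smul_mem' := by
        rintro c t ⟨r, hr⟩
        exact ⟨c * r, by rw [smul_eq_mul, mul_smul, hr, map_mul, Algebra.smul_def]⟩ }
  have hD : D = ⊤ := by
    by_contra hne
    obtain ⟨𝔪, hm, hle⟩ := Ideal.exists_le_maximal D hne
    obtain ⟨t, ht, r, hr⟩ := h 𝔪 hm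
    exact ht (hle ⟨r, hr⟩)
  have h1 : (1 : R) ∈ D := by rw [hD]; trivial
  obtain ⟨r, hr⟩ := h1
  exact ⟨r, by rw [← hr, one_smul]⟩

end LocalGlobal

end Fermat.Agent.S36
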