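import Mathlib
import Fermat.Agent.S36.h80_LocGen
import Fermat.Agent.S36.h80_LocUnit
import Fermat.Agent.S36.h94_LocGlue

/-!
# S36 / (L1-c') bridge: `(LOC)` in the valuation language of `h80_ValFam` (helper94)

`V : h80_ValFam F ι` is a family of `ℤ`-valued valuations of `F` with ring of integers `V.B`,
`m` a maximal ideal of `V.B` (a closed point of the special fibre).  The local ring `B_m` is
realised as the subring `h94_Bm V m` of `F`.  `h94_loc_glue_val` is `h94_loc_glue` for `B_m`,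
stated with valuations only; `h94_hloc_of_glue` is the local hypothesis consumed by the generic
local-global lemma (row (L1-d)).
-/

set_option autoImplicit false
set_option linter.unusedSectionVars false

namespace Fermat.Agent.S36

open IsLocalRing

variable {F : Type*} [Field F] {ι : Type*} (V : h80_ValFam F ι)

/-! ### The local ring `B_m` as a subring of `F` -/

theorem h94_one_not_mem (m : Ideal V.B) [hm : m.IsPrime] : (1 : V.B) ∉ m :=
  fun h => hm.ne_top ((Ideal.eq_top_iff_one m).mpr h)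

/-- The local ring `B_m`, inside `F`. -/
def h94_Bm (m : Ideal V.B) [hm : m.IsPrime] : Subring F where
  carrier := {f | V.InLoc m f}
  mul_mem' := by
    rintro x y ⟨b, t, ht, hbt⟩ ⟨b', t', ht', hbt'⟩
    refine ⟨b * b', t * t', fun h => (hm.mem_or_mem h).elim ht ht', ?_⟩
    push_cast
    rw [← hbt, ← hbt']
    ring
  one_mem' := ⟨1, 1, h94_one_not_mem V m, by simp⟩
  add_mem' := by
    rintro x y ⟨b, t, ht, hbt⟩ ⟨b', t', ht', hbt'⟩
    refine ⟨t' * b + t * b', t * t', fun h => (hm.mem_or_mem h).elim ht ht', ?_⟩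
    push_cast
    rw [← hbt, ← hbt']
    ring
  zero_mem' := ⟨0, 1, h94_one_not_mem V m, by simp⟩
  neg_mem' := by
    rintro x ⟨b, t, ht, hbt⟩
    refine ⟨-b, t, ht, ?_⟩
    push_cast
    rw [← hbt]
    ring

theorem h94_mem_Bm (m : Ideal V.B) [m.IsPrime] {f : F} : f ∈ h94_Bm V m ↔ V.InLoc m f := Iff.rfl

theorem h94_B_le_Bm (m : Ideal V.B) [m.IsPrime] (b : V.B) : (b : F) ∈ h94_Bm V m :=
  ⟨b, 1, h94_one_not_mem V m, by simp⟩

/-- Units of `B_m`: both the element and its inverse are in `B_m`. -/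
theorem h94_isUnit_Bm_iff (m : Ideal V.B) [m.IsPrime] (x : h94_Bm V m) :
    IsUnit x ↔ V.InLoc m ((x : F)⁻¹) ∧ (x : F) ≠ 0 := by
  constructor
  · intro h
    obtain ⟨y, hy⟩ := h.exists_right_inv
    have hy' : (x : F) * (y : F) = 1 := by
      have := congrArg (fun z : h94_Bm V m => (z : F)) hy
      simpa using this
    have hx0 : (x : F) ≠ 0 := left_ne_zero_of_mul_eq_one hy'
    refine ⟨?_, hx0⟩
    have : (x : F)⁻¹ = (y : F) := by
      rw [← mul_one (x : F)⁻¹, ← hy', ← mul_assoc, inv_mul_cancel₀ hx0, one_mul]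
    rw [this]
    exact y.2
  · rintro ⟨h, hx0⟩
    refine isUnit_iff_exists_inv.2 ⟨⟨(x : F)⁻¹, h⟩, ?_⟩
    apply Subtype.ext
    simp [mul_inv_cancel₀ hx0]

/-- Elements `b / t` with `b ∉ m` are units of `B_m`. -/
theorem h94_inv_inLoc (m : Ideal V.B) [hm : m.IsPrime] {f : F} {b t : V.B} (hb : b ∉ m)
    (ht : t ∉ m) (hbt : (t : F) * f = (b : F)) : V.InLoc m f⁻¹ ∧ f ≠ 0 := by
  have hb0 := h80_ne_zero_of_not_mem V hb
  have hf0 : f ≠ 0 := by
    rintro rfl
    rw [mul_zero] at hbt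
    exact hb0 hbt.symm
  refine ⟨⟨t, b, hb, ?_⟩, hf0⟩
  rw [← hbt]
  field_simp

instance h94_Bm_isLocalRing (m : Ideal V.B) [hm : m.IsPrime] : IsLocalRing (h94_Bm V m) := by
  refine IsLocalRing.of_isUnit_or_isUnit_one_sub_self fun a => ?_
  obtain ⟨b, t, ht, hbt⟩ := a.2
  by_cases hb : b ∈ m
  · right
    rw [h94_isUnit_Bm_iff]
    have h1 : t - b ∉ m := fun h => ht (by simpa using m.add_mem h hb)
    have h2 : (t : F) * ((1 - a : h94_Bm V m) : F) = ((t - b : V.B) : F) := by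
      push_cast
      rw [mul_sub, mul_one, hbt]
    exact h94_inv_inLoc V m h1 ht h2
  · left
    rw [h94_isUnit_Bm_iff]
    exact h94_inv_inLoc V m hb ht hbt

/-- The maximal ideal of `B_m` is `m B_m`. -/
theorem h94_mem_max_Bm_iff (m : Ideal V.B) [hm : m.IsPrime] (x : h94_Bm V m) :
    x ∈ maximalIdeal (h94_Bm V m) ↔ V.InMLoc m (x : F) := by
  rw [IsLocalRing.mem_maximalIdeal, mem_nonunits_iff]
  constructor
  · intro h
    obtain ⟨b, t, ht, hbt⟩ := x.2
    refine ⟨b, t, ?_, ht, hbt⟩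
    by_contra hb
    exact h ((h94_isUnit_Bm_iff V m x).2 (h94_inv_inLoc V m hb ht hbt))
  · rintro ⟨b, t, hb, ht, hbt⟩ hu
    obtain ⟨⟨b', t', ht', hbt'⟩, hx0⟩ := (h94_isUnit_Bm_iff V m x).1 hu
    have h1 : ((t * t' : V.B) : F) = ((b * b' : V.B) : F) := by
      push_cast
      rw [← hbt, ← hbt']
      field_simp
    have h2 : t * t' = b * b' := Subtype.ext h1
    exact (hm.mem_or_mem (h2 ▸ m.mul_mem_right b' hb)).elim ht ht'

/-- `F` is the fraction field of `B_m` as soon as it is the fraction field of `V.B`. -/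
theorem h94_Bm_isFractionRing (m : Ideal V.B) [hm : m.IsPrime]
    (hfrac : ∀ f : F, ∃ c d : V.B, (d : F) ≠ 0 ∧ f * (d : F) = (c : F)) :
    IsFractionRing (h94_Bm V m) F := by
  refine IsFractionRing.of_field (h94_Bm V m) F fun z => ?_
  obtain ⟨c, d, hd, hcd⟩ := hfrac z
  refine ⟨⟨c, h94_B_le_Bm V m c⟩, ⟨d, h94_B_le_Bm V m d⟩, ?_⟩
  show z = (c : F) / (d : F)
  rw [eq_div_iff hd, hcd]

/-- A power of an ideal lies in `J` as soon as all products of `N` of its elements do. -/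
theorem h94_pow_le_of_prod_mem {R : Type*} [CommRing R] (I : Ideal R) :
    ∀ (N : ℕ) (J : Ideal R), (∀ g : Fin N → R, (∀ i, g i ∈ I) → ∏ i, g i ∈ J) → I ^ N ≤ J := by
  intro N
  induction N with
  | zero =>
    intro J h
    have h1 : (1 : R) ∈ J := by simpa using h Fin.elim0 (fun i => i.elim0)
    rw [(Ideal.eq_top_iff_one J).2 h1]
    exact le_top
  | succ N ih =>
    intro J h
    rw [pow_succ, Ideal.mul_le]
    intro r hr s hs
    have h2 : I ^ N ≤ Submodule.comap (LinearMap.mulRight R s) J := by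
      apply ih
      intro g hg
      show (∏ i, g i) * s ∈ J
      have := h (Fin.snoc g s) (fun i => by
        refine Fin.lastCases ?_ (fun j => ?_) i
        · simpa using hs
        · simpa using hg j)
      rwa [Fin.prod_snoc] at this
    exact h2 hr

/-! ### Valuation dictionary at a vertical index through `m` -/

section Dict

variable (m : Ideal V.B) [hm : m.IsPrime] (i0 : ι) (hi0 : V.Through m i0) (p : F) (hp0 : p ≠ 0)
  (hp1 : V.v i0 p = 1) (hp2 : ∀ j, V.Through m j → j ≠ i0 → V.v j p = 0)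

include hi0 hp0 hp1 hp2

theorem h94_p_inLoc : V.InLoc m p := by
  rw [h80_inLoc_iff V m hp0]
  intro j hj
  by_cases h : j = i0
  · subst h; rw [hp1]; exact zero_le_one
  · rw [hp2 j hj h]

/-- Divisibility by the local equation `p` in `B_m` is `v ≥ 1`. -/
theorem h94_p_dvd_iff (x : h94_Bm V m) :
    (⟨p, h94_p_inLoc V m i0 hi0 p hp0 hp1 hp2⟩ : h94_Bm V m) ∣ x ↔
      (x : F) = 0 ∨ 1 ≤ V.v i0 (x : F) := by
  constructor
  · rintro ⟨y, rfl⟩
    by_cases hy : (y : F) = 0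
    · left; simp [hy]
    · right
      show 1 ≤ V.v i0 (p * (y : F))
      rw [V.map_mul i0 _ _ hp0 hy, hp1]
      have := (h80_inLoc_iff V m hy).1 y.2 i0 hi0
      omega
  · rintro (h | h)
    · have : x = 0 := Subtype.ext h
      rw [this]; exact dvd_zero _
    · by_cases hx0 : (x : F) = 0
      · have : x = 0 := Subtype.ext hx0
        rw [this]; exact dvd_zero _
      have hq : V.InLoc m ((x : F) / p) := by
        rw [h80_inLoc_iff V m (div_ne_zero hx0 hp0)]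
        intro j hj
        rw [h80_v_div V j hx0 hp0]
        by_cases hj0 : j = i0
        · subst hj0; rw [hp1]; omega
        · rw [hp2 j hj hj0]
          have := (h80_inLoc_iff V m hx0).1 x.2 j hj
          omega
      refine ⟨⟨(x : F) / p, hq⟩, ?_⟩
      apply Subtype.ext
      show (x : F) = p * ((x : F) / p)
      field_simp

theorem h94_p_prime : Prime (⟨p, h94_p_inLoc V m i0 hi0 p hp0 hp1 hp2⟩ : h94_Bm V m) := by
  refine ⟨fun h => hp0 (congrArg Subtype.val h), ?_, ?_⟩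
  · intro hu
    obtain ⟨hinv, -⟩ := (h94_isUnit_Bm_iff V m _).1 hu
    have := (h80_inLoc_iff V m (inv_ne_zero hp0)).1 hinv i0 hi0
    rw [h80_v_inv V i0 hp0, hp1] at this
    omega
  · intro x y hxy
    rw [h94_p_dvd_iff V m i0 hi0 p hp0 hp1 hp2] at hxy ⊢
    rw [h94_p_dvd_iff V m i0 hi0 p hp0 hp1 hp2]
    by_cases hx : (x : F) = 0
    · exact Or.inl (Or.inl hx)
    by_cases hy : (y : F) = 0
    · exact Or.inr (Or.inl hy)
    have hxy0 : ((x * y : h94_Bm V m) : F) ≠ 0 := by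
      push_cast; exact mul_ne_zero hx hy
    have h1 := hxy.resolve_left hxy0
    have e1 : ((x * y : h94_Bm V m) : F) = (x : F) * (y : F) := by push_cast; rfl
    rw [e1, V.map_mul i0 _ _ hx hy] at h1
    have hxn := (h80_inLoc_iff V m hx).1 x.2 i0 hi0
    have hyn := (h80_inLoc_iff V m hy).1 y.2 i0 hi0
    by_cases h2 : 1 ≤ V.v i0 (x : F)
    · exact Or.inl (Or.inr h2)
    · exact Or.inr (Or.inr (by omega))

/-- Valuation `≥ a` implies membership in `p ^ a • (B_m)_(p)` (needs (UNIT*) at the other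
valuations through `m` to clear denominators inside `B_m`). -/
theorem h94_divAt_of_val (hunit : ∀ j, V.Through m j → V.UnitStar m j) (aa : ℕ) (t : F)
    (ht : t = 0 ∨ (aa : ℤ) ≤ V.v i0 t) :
    h94_DivAt (⟨p, h94_p_inLoc V m i0 hi0 p hp0 hp1 hp2⟩ : h94_Bm V m) aa t := by
  classical
  have hprime := h94_p_prime V m i0 hi0 p hp0 hp1 hp2
  by_cases ht0 : t = 0
  · subst ht0
    exact ⟨0, 1, fun h => hprime.not_isUnit (isUnit_of_dvd_one h), by simp⟩
  have ht' := ht.resolve_left ht0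
  set E : ι → ℤ := fun j => if j = i0 then 0 else max 0 (-(V.v j t)) with hEdef
  have hE : {j | E j ≠ 0}.Finite := by
    refine (V.finite_supp t ht0).subset fun j hj => ?_
    have hj' : E j ≠ 0 := hj
    show V.v j t ≠ 0
    intro h0
    apply hj'
    simp only [hEdef]
    split_ifs
    · rfl
    · rw [h0]; simp
  obtain ⟨d, hd0, hd⟩ := h80_exists_localEq V m E hE (fun i hi _ => hunit i hi)
  have hEi0 : E i0 = 0 := by simp [hEdef]
  have hEnn : ∀ j, 0 ≤ E j := by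
    intro j
    simp only [hEdef]
    split_ifs
    · exact le_rfl
    · exact le_max_left _ _
  have hdB : V.InLoc m d := by
    rw [h80_inLoc_iff V m hd0]
    intro j hj
    rw [hd j hj]; exact hEnn j
  have hcc0 : t * d / p ^ aa ≠ 0 := div_ne_zero (mul_ne_zero ht0 hd0) (pow_ne_zero _ hp0)
  have hccB : V.InLoc m (t * d / p ^ aa) := by
    rw [h80_inLoc_iff V m hcc0]
    intro j hj
    rw [h80_v_div V j (mul_ne_zero ht0 hd0) (pow_ne_zero _ hp0), V.map_mul j _ _ ht0 hd0,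
      h80_v_pow V j hp0, hd j hj]
    by_cases hj0 : j = i0
    · subst hj0
      rw [hp1, hEi0]; omega
    · rw [hp2 j hj hj0]
      have h1 : E j = max 0 (-(V.v j t)) := by simp [hEdef, hj0]
      have h2 := le_max_right 0 (-(V.v j t))
      rw [h1]; omega
  refine ⟨⟨t * d / p ^ aa, hccB⟩, ⟨d, hdB⟩, ?_, ?_⟩
  · rw [h94_p_dvd_iff V m i0 hi0 p hp0 hp1 hp2]
    rintro (h | h)
    · exact hd0 h
    · have : V.v i0 d = 0 := by rw [hd i0 hi0, hEi0]
      change 1 ≤ V.v i0 d at h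
      omega
  · show t * d = ((⟨p, h94_p_inLoc V m i0 hi0 p hp0 hp1 hp2⟩ ^ aa *
        ⟨t * d / p ^ aa, hccB⟩ : h94_Bm V m) : F)
    simp only [Subring.coe_mul, Subring.coe_pow]
    field_simp

/-- Membership in `p ^ a • (B_m)_(p)` implies valuation `≥ a`. -/
theorem h94_val_of_divAt (aa : ℕ) (t : F)
    (h : h94_DivAt (⟨p, h94_p_inLoc V m i0 hi0 p hp0 hp1 hp2⟩ : h94_Bm V m) aa t) :
    t = 0 ∨ (aa : ℤ) ≤ V.v i0 t := by
  by_cases ht0 : t = 0
  · exact Or.inl ht0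
  right
  obtain ⟨cc, d, hd, e⟩ := h
  rw [h94_p_dvd_iff V m i0 hi0 p hp0 hp1 hp2] at hd
  have hd0 : (d : F) ≠ 0 := fun h => hd (Or.inl h)
  have hd1 : ¬ 1 ≤ V.v i0 (d : F) := fun h => hd (Or.inr h)
  have hd2 := (h80_inLoc_iff V m hd0).1 d.2 i0 hi0
  have e' : t * (d : F) = p ^ aa * (cc : F) := by
    have : algebraMap (h94_Bm V m) F (⟨p, h94_p_inLoc V m i0 hi0 p hp0 hp1 hp2⟩ ^ aa * cc) =
        p ^ aa * (cc : F) := by
      show ((⟨p, h94_p_inLoc V m i0 hi0 p hp0 hp1 hp2⟩ ^ aa * cc : h94_Bm V m) : F) = _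
      simp only [Subring.coe_mul, Subring.coe_pow]
    rw [← this]
    exact e
  have hcc0 : (cc : F) ≠ 0 := by
    intro h0
    rw [h0, mul_zero] at e'
    exact mul_ne_zero ht0 hd0 e'
  have hcc1 := (h80_inLoc_iff V m hcc0).1 cc.2 i0 hi0
  have h3 := congrArg (V.v i0) e'
  rw [V.map_mul i0 _ _ ht0 hd0, V.map_mul i0 _ _ (pow_ne_zero _ hp0) hcc0, h80_v_pow V i0 hp0,
    hp1] at h3
  omega

end Dict

/-! ### `(LOC)` in valuation language -/

section Main

variable (m : Ideal V.B) [hmax : m.IsMaximal]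

/-- **(LOC), valuation form.**  `c k` are the vertical valuations through the closed point `m`
(the branches), `p k` local equations, `a k` multiplicities.  If `e` is a local equation of an
`n`-torsion divisor (`e ^ n * w ≡ 1` modulo `p k ^ a k` on every branch, `w` a unit of `B_m`),
then `e ≡ ζ k * y` modulo `p k ^ a k` on every branch for `n`-th roots of unity `ζ k ∈ B_m` and
ONE unit `y` of `B_m`. -/
theorem h94_loc_glue_val {κ : Type*} [Fintype κ] [DecidableEq κ] (c : κ → ι) (a : κ → ℕ)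
    (p : κ → F) (hc : ∀ k, V.Through m (c k)) (ha : ∀ k, 1 ≤ a k)
    (hp0 : ∀ k, p k ≠ 0) (hp1 : ∀ k, V.v (c k) (p k) = 1)
    (hp2 : ∀ k j, V.Through m j → j ≠ c k → V.v j (p k) = 0)
    (hfrac : ∀ f : F, ∃ c d : V.B, (d : F) ≠ 0 ∧ f * (d : F) = (c : F))
    (hunit : ∀ j, V.Through m j → V.UnitStar m j)
    {n : ℕ} (H1 : (n : F) ≠ 0 ∧ ∀ j, V.Through m j → V.v j (n : F) = 0)
    (H2 : ∀ s : V.B, s ∉ m → ∃ r : V.B, r ^ n - s ∈ m)
    (H3 : ∀ c0 : V.B, c0 ^ n - 1 ∈ m → ∃ ζ : V.B, ζ ^ n = 1 ∧ c0 - ζ ∈ m)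
    (H4 : ∀ k, ∀ t s : F, t ≠ 0 → 0 ≤ V.v (c k) t → V.InLoc m s → V.InLoc m s⁻¹ → s ≠ 0 →
      (t ^ n = s ∨ 1 ≤ V.v (c k) (t ^ n - s)) →
      ∃ b : F, V.InLoc m b ∧ (t = b ∨ 1 ≤ V.v (c k) (t - b)))
    (H5 : ∃ N : ℕ, ∀ g : Fin N → F, (∀ i, V.InMLoc m (g i)) →
      ∃ h : κ → F, (∀ k, V.InLoc m (h k)) ∧
        ∏ i, g i = ∑ k, h k * ∏ k' ∈ Finset.univ.erase k, p k' ^ a k')
    (e : F) (he : ∀ k, 0 ≤ V.v (c k) e)
    (w : F) (hw0 : w ≠ 0) (hw : V.InLoc m w) (hw' : V.InLoc m w⁻¹)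
    (hew : ∀ k, e ^ n * w = 1 ∨ (a k : ℤ) ≤ V.v (c k) (e ^ n * w - 1)) :
    ∃ (ζ : κ → F) (y : F), (∀ k, V.InLoc m (ζ k) ∧ ζ k ^ n = 1) ∧
      y ≠ 0 ∧ V.InLoc m y ∧ V.InLoc m y⁻¹ ∧
      ∀ k, (e = ζ k * y ∨ (a k : ℤ) ≤ V.v (c k) (e - ζ k * y)) := by
  classical
  have hprime : m.IsPrime := hmax.isPrime
  have hFR : IsFractionRing (h94_Bm V m) F := h94_Bm_isFractionRing V m hfrac
  have hn0 : n ≠ 0 := by
    rintro rfl
    exact H1.1 (by simp)
  set π : κ → h94_Bm V m := fun k =>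
    ⟨p k, h94_p_inLoc V m (c k) (hc k) (p k) (hp0 k) (hp1 k) (hp2 k)⟩ with hπdef
  have hπ : ∀ k, Prime (π k) := fun k =>
    h94_p_prime V m (c k) (hc k) (p k) (hp0 k) (hp1 k) (hp2 k)
  have hdvd : ∀ k (x : h94_Bm V m), π k ∣ x ↔ (x : F) = 0 ∨ 1 ≤ V.v (c k) (x : F) := fun k x =>
    h94_p_dvd_iff V m (c k) (hc k) (p k) (hp0 k) (hp1 k) (hp2 k) x
  have hto : ∀ k (aa : ℕ) t, (t = 0 ∨ (aa : ℤ) ≤ V.v (c k) t) → h94_DivAt (π k) aa t := fun k aa t =>
    h94_divAt_of_val V m (c k) (hc k) (p k) (hp0 k) (hp1 k) (hp2 k) hunit aa t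
  have hfrom : ∀ k (aa : ℕ) t, h94_DivAt (π k) aa t → (t = 0 ∨ (aa : ℤ) ≤ V.v (c k) t) :=
    fun k aa t => h94_val_of_divAt V m (c k) (hc k) (p k) (hp0 k) (hp1 k) (hp2 k) aa t
  -- (H1)
  have hm : IsUnit ((n : ℕ) : h94_Bm V m) := by
    rw [h94_isUnit_Bm_iff]
    have e1 : (((n : ℕ) : h94_Bm V m) : F) = (n : F) := by push_cast; rfl
    rw [e1]
    exact ⟨(h80_inLoc_of_through_zero V m H1.1 H1.2).2, H1.1⟩
  -- (H2)
  have H2' : ∀ s : h94_Bm V m, IsUnit s →
      ∃ r : h94_Bm V m, r ^ n - s ∈ maximalIdeal (h94_Bm V m) := by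
    intro s hs
    obtain ⟨bs, ts, hts, hbt⟩ := s.2
    have hbs : bs ∉ m := by
      intro hb
      have : s ∈ maximalIdeal (h94_Bm V m) :=
        (h94_mem_max_Bm_iff V m s).2 ⟨bs, ts, hb, hts, hbt⟩
      exact (IsLocalRing.mem_maximalIdeal _).1 this hs
    obtain ⟨rb, hrb⟩ := H2 bs hbs
    obtain ⟨rt, hrt⟩ := H2 ts hts
    have hrtm : rt ∉ m := by
      intro h
      have h1 : rt ^ n ∈ m := Ideal.pow_mem_of_mem m h n (Nat.pos_of_ne_zero hn0)
      have h2 : ts ∈ m := by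
        have := m.sub_mem h1 hrt
        simpa using this
      exact hts h2
    have hrt0 := h80_ne_zero_of_not_mem V hrtm
    have hrB : V.InLoc m ((rb : F) / (rt : F)) := ⟨rb, rt, hrtm, by field_simp⟩
    refine ⟨⟨(rb : F) / (rt : F), hrB⟩, ?_⟩
    rw [h94_mem_max_Bm_iff]
    refine ⟨(rb ^ n - bs) * ts - (rt ^ n - ts) * bs, rt ^ n * ts, ?_, ?_, ?_⟩
    · exact m.sub_mem (m.mul_mem_right _ hrb) (m.mul_mem_right _ hrt)
    · intro h
      rcases hprime.mem_or_mem h with h | h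
      · exact hrtm (hprime.mem_of_pow_mem n h)
      · exact hts h
    · have e2 : ((⟨(rb : F) / (rt : F), hrB⟩ ^ n - s : h94_Bm V m) : F) =
          ((rb : F) / (rt : F)) ^ n - (s : F) := by push_cast; rfl
      have h1 : (rt : F) ^ n * ((rb : F) / (rt : F)) ^ n = (rb : F) ^ n := by
        rw [← mul_pow, mul_div_cancel₀ _ hrt0]
      rw [e2]
      push_cast
      linear_combination (ts : F) * h1 - (rt : F) ^ n * hbt
  -- (H3)
  have H3' : ∀ x : h94_Bm V m, x ^ n - 1 ∈ maximalIdeal (h94_Bm V m) →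
      ∃ ζ : h94_Bm V m, ζ ^ n = 1 ∧ x - ζ ∈ maximalIdeal (h94_Bm V m) := by
    intro x hx
    obtain ⟨bc, tc, htc, hbt⟩ := x.2
    obtain ⟨s', i', hi', hs'⟩ := hmax.exists_inv htc
    have hs'F : (s' : F) * (tc : F) + (i' : F) = 1 := by
      have := congrArg (fun z : V.B => (z : F)) hs'
      simpa using this
    have h1 : x - ⟨((bc * s' : V.B) : F), h94_B_le_Bm V m (bc * s')⟩ ∈
        maximalIdeal (h94_Bm V m) := by
      rw [h94_mem_max_Bm_iff]
      refine ⟨bc * i', tc, m.mul_mem_left _ hi', htc, ?_⟩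
      have e3 : ((x - ⟨((bc * s' : V.B) : F), h94_B_le_Bm V m (bc * s')⟩ : h94_Bm V m) : F) =
          (x : F) - (bc : F) * (s' : F) := by push_cast; rfl
      rw [e3]
      push_cast
      linear_combination hbt - (bc : F) * hs'F
    have h2 : (⟨((bc * s' : V.B) : F), h94_B_le_Bm V m (bc * s')⟩ : h94_Bm V m) ^ n - 1 ∈
        maximalIdeal (h94_Bm V m) := by
      have e4 : (⟨((bc * s' : V.B) : F), h94_B_le_Bm V m (bc * s')⟩ : h94_Bm V m) ^ n - 1 =
          (x ^ n - 1) - (x ^ n - (⟨((bc * s' : V.B) : F), h94_B_le_Bm V m (bc * s')⟩ :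
            h94_Bm V m) ^ n) := by ring
      rw [e4]
      exact Ideal.sub_mem _ hx (Ideal.mem_of_dvd _ (sub_dvd_pow_sub_pow _ _ n) h1)
    have h3 : (bc * s') ^ n - 1 ∈ m := by
      obtain ⟨b, t, hb, ht, hbt'⟩ := (h94_mem_max_Bm_iff V m _).1 h2
      have e5 : t * ((bc * s') ^ n - 1) = b := by
        apply Subtype.ext
        have e6 : ((⟨((bc * s' : V.B) : F), h94_B_le_Bm V m (bc * s')⟩ ^ n - 1 :
            h94_Bm V m) : F) = ((bc * s' : V.B) : F) ^ n - 1 := by push_cast; rfl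
        rw [e6] at hbt'
        push_cast
        push_cast at hbt'
        exact hbt'
      exact (hprime.mem_or_mem (e5 ▸ hb)).resolve_left ht
    obtain ⟨ζ, hζ, hζm⟩ := H3 (bc * s') h3
    refine ⟨⟨(ζ : F), h94_B_le_Bm V m ζ⟩, ?_, ?_⟩
    · apply Subtype.ext
      have := congrArg (fun z : V.B => (z : F)) hζ
      simpa using this
    · have h4 : (⟨((bc * s' : V.B) : F), h94_B_le_Bm V m (bc * s')⟩ -
          ⟨(ζ : F), h94_B_le_Bm V m ζ⟩ : h94_Bm V m) ∈ maximalIdeal (h94_Bm V m) := by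
        rw [h94_mem_max_Bm_iff]
        refine ⟨bc * s' - ζ, 1, hζm, h94_one_not_mem V m, ?_⟩
        have e7 : ((⟨((bc * s' : V.B) : F), h94_B_le_Bm V m (bc * s')⟩ -
            ⟨(ζ : F), h94_B_le_Bm V m ζ⟩ : h94_Bm V m) : F) =
            ((bc * s' : V.B) : F) - (ζ : F) := by push_cast; rfl
        rw [e7]
        push_cast
        ring
      have e8 : x - ⟨(ζ : F), h94_B_le_Bm V m ζ⟩ =
          (x - ⟨((bc * s' : V.B) : F), h94_B_le_Bm V m (bc * s')⟩) +
          (⟨((bc * s' : V.B) : F), h94_B_le_Bm V m (bc * s')⟩ -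
            ⟨(ζ : F), h94_B_le_Bm V m ζ⟩) := by ring
      rw [e8]
      exact Ideal.add_mem _ h1 h4
  -- (H4)
  have H4' : ∀ k, ∀ cc d s : h94_Bm V m, ¬ π k ∣ d → IsUnit s → π k ∣ cc ^ n - s * d ^ n →
      ∃ b : h94_Bm V m, π k ∣ cc - b * d := by
    intro k cc d s hd hs hdiv
    rw [hdvd] at hd
    have hd0 : (d : F) ≠ 0 := fun h => hd (Or.inl h)
    have hd1 : V.v (c k) (d : F) = 0 := by
      have := (h80_inLoc_iff V m hd0).1 d.2 (c k) (hc k)
      have h' : ¬ 1 ≤ V.v (c k) (d : F) := fun h => hd (Or.inr h)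
      omega
    by_cases hcc : (cc : F) = 0
    · refine ⟨0, ?_⟩
      rw [zero_mul, sub_zero, hdvd]
      exact Or.inl hcc
    obtain ⟨hsinv, hs0⟩ := (h94_isUnit_Bm_iff V m s).1 hs
    have ht0 : (cc : F) / (d : F) ≠ 0 := div_ne_zero hcc hd0
    have htv : 0 ≤ V.v (c k) ((cc : F) / (d : F)) := by
      rw [h80_v_div V _ hcc hd0, hd1]
      have := (h80_inLoc_iff V m hcc).1 cc.2 (c k) (hc k)
      omega
    have e2 : ((cc : F) / (d : F)) ^ n - (s : F) =
        ((cc : F) ^ n - (s : F) * (d : F) ^ n) / (d : F) ^ n := by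
      rw [eq_div_iff (pow_ne_zero n hd0), sub_mul, div_pow,
        div_mul_cancel₀ _ (pow_ne_zero n hd0)]
    have hrel : ((cc : F) / (d : F)) ^ n = (s : F) ∨
        1 ≤ V.v (c k) (((cc : F) / (d : F)) ^ n - (s : F)) := by
      rw [hdvd] at hdiv
      have e1 : ((cc ^ n - s * d ^ n : h94_Bm V m) : F) =
          (cc : F) ^ n - (s : F) * (d : F) ^ n := by push_cast; rfl
      rw [e1] at hdiv
      by_cases hz : (cc : F) ^ n - (s : F) * (d : F) ^ n = 0
      · left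
        rw [← sub_eq_zero, e2, hz, zero_div]
      · right
        have h := hdiv.resolve_left hz
        rw [e2, h80_v_div V _ hz (pow_ne_zero n hd0), h80_v_pow V _ hd0, hd1, mul_zero, sub_zero]
        exact h
    obtain ⟨b, hbB, hb⟩ := H4 k _ (s : F) ht0 htv s.2 hsinv hs0 hrel
    refine ⟨⟨b, hbB⟩, ?_⟩
    rw [hdvd]
    have e3 : ((cc - ⟨b, hbB⟩ * d : h94_Bm V m) : F) = ((cc : F) / (d : F) - b) * (d : F) := by
      have : ((cc - ⟨b, hbB⟩ * d : h94_Bm V m) : F) = (cc : F) - b * (d : F) := by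
        push_cast; rfl
      rw [this]
      field_simp
    by_cases hz : (cc : F) / (d : F) - b = 0
    · left
      rw [e3, hz, zero_mul]
    · right
      have hb' := hb.resolve_left (fun h => hz (sub_eq_zero.2 h))
      rw [e3, V.map_mul _ _ _ hz hd0, hd1]
      omega
  -- (H5)
  have H5' : ∃ N : ℕ, maximalIdeal (h94_Bm V m) ^ N ≤
      Ideal.span (Set.range fun k => ∏ k' ∈ Finset.univ.erase k, π k' ^ a k') := by
    obtain ⟨N, hN⟩ := H5
    refine ⟨N, h94_pow_le_of_prod_mem _ N _ fun g hg => ?_⟩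
    obtain ⟨h, hhB, hh⟩ := hN (fun i => (g i : F))
      (fun i => (h94_mem_max_Bm_iff V m (g i)).1 (hg i))
    have e1 : ∏ i, g i =
        ∑ k, (⟨h k, hhB k⟩ : h94_Bm V m) * ∏ k' ∈ Finset.univ.erase k, π k' ^ a k' := by
      apply Subtype.ext
      push_cast
      exact hh
    rw [e1]
    exact Ideal.sum_mem _ fun k _ => Ideal.mul_mem_left _ _ (Ideal.subset_span ⟨k, rfl⟩)
  -- apply `(LOC)`
  have he' : ∀ k, h94_DivAt (π k) 0 e := fun k => hto k 0 e (Or.inr (by exact_mod_cast he k))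
  have hwu : IsUnit (⟨w, hw⟩ : h94_Bm V m) := (h94_isUnit_Bm_iff V m _).2 ⟨hw', hw0⟩
  have hew' : ∀ k, h94_DivAt (π k) (a k)
      (e ^ n * algebraMap (h94_Bm V m) F ⟨w, hw⟩ - 1) := by
    intro k
    apply hto
    rcases hew k with h | h
    · left
      show e ^ n * w - 1 = 0
      rw [h, sub_self]
    · right
      exact h
  obtain ⟨ζ, y, hζ, hy, hglue⟩ :=
    h94_loc_glue π a hπ ha hm H2' H3' H4' H5' e he' ⟨w, hw⟩ hwu hew'
  obtain ⟨hyinv, hy0⟩ := (h94_isUnit_Bm_iff V m y).1 hy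
  refine ⟨fun k => (ζ k : F), (y : F), fun k => ⟨(ζ k).2, ?_⟩, hy0, y.2, hyinv, fun k => ?_⟩
  · have := congrArg (fun z : h94_Bm V m => (z : F)) (hζ k)
    simpa using this
  · have h1 := hfrom k (a k) _ (hglue k)
    have e9 : e - algebraMap (h94_Bm V m) F (ζ k * y) = e - (ζ k : F) * (y : F) := rfl
    rw [e9] at h1
    rcases h1 with h | h
    · left
      exact sub_eq_zero.1 h
    · right
      exact h

/-- The local hypothesis of the generic local-global lemma (row (L1-d)): every `f` divisible by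
the local equation `e` in `B_m` is, on each branch, `ζ k` times ONE fraction `b / t` with
`b, t ∈ V.B`, `t ∉ m`. -/
theorem h94_hloc_of_glue {κ : Type*} (c : κ → ι) (a : κ → ℕ) (hc : ∀ k, V.Through m (c k))
    (e : F) (he0 : e ≠ 0) (ζ : κ → F) (y : F) (hy : V.InLoc m y)
    (hglue : ∀ k, (e = ζ k * y ∨ (a k : ℤ) ≤ V.v (c k) (e - ζ k * y)))
    (f : F) (hf : V.InLoc m (f / e)) :
    ∃ t b : V.B, t ∉ m ∧ ∀ k, ((t : F) * f = ζ k * (b : F) ∨
      (a k : ℤ) ≤ V.v (c k) ((t : F) * f - ζ k * (b : F))) := by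
  have hprime : m.IsPrime := hmax.isPrime
  obtain ⟨b, t, ht, hbt⟩ := (h94_Bm V m).mul_mem hy hf
  refine ⟨t, b, ht, fun k => ?_⟩
  have ht0 := h80_ne_zero_of_not_mem V ht
  have key : (t : F) * f - ζ k * (b : F) = (t : F) * ((f / e) * (e - ζ k * y)) := by
    rw [← hbt]
    field_simp
  by_cases hz : e - ζ k * y = 0
  · left
    rw [← sub_eq_zero, key, hz, mul_zero, mul_zero]
  by_cases hf0 : f = 0
  · left
    rw [← sub_eq_zero, key, hf0, zero_div, zero_mul, mul_zero]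
  right
  have h1 := (hglue k).resolve_left (fun h => hz (sub_eq_zero.2 h))
  have hfe0 : f / e ≠ 0 := div_ne_zero hf0 he0
  have h2 := (h80_inLoc_iff V m hfe0).1 hf (c k) (hc k)
  rw [key, V.map_mul _ _ _ ht0 (mul_ne_zero hfe0 hz), V.map_mul _ _ _ hfe0 hz,
    h80_through_eq_zero V (hc k) ht]
  omega

end Main

end Fermat.Agent.S36
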