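import Mathlib
import Fermat.Agent.S36.h80_LocGen
import Fermat.Agent.S36.h80_LocUnit
import Fermat.Agent.S36.h94_LocGlueVal

/-!
# S36 / row NZ, generic part (helper94)

Valuation-language lemmas for the gluing constants `ζ` of `(LOC)`:

* `h94_Vge V i a x` : `x = 0 ∨ a ≤ V.v i x` ("`x ∈ p ^ a` at the valuation `i`") and its calculus;
* `h94_root_rigid` : `n`-th roots of unity congruent modulo a valuation with `v n = 0` are equal;
* `h94_node_compare` (NZ-B): an element of the local ring at a point through which two valuations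
  `wF, wV` pass, congruent to constants `d1` at `wF` and `d2` at `wV`, forces `d1 ≡ d2`;
* `h94_gamma_twist` (NZ-C): if `e ≡ ζ y`, `Γ ≡ cc` and `ζ ^ N = lam * cc`, then
  `e ^ N / Γ ≡ lam * y ^ N`.
-/

set_option autoImplicit false
set_option linter.unusedSectionVars false

namespace Fermat.Agent.S36

variable {F : Type*} [Field F] {ι : Type*} (V : h80_ValFam F ι)

/-- `x ∈ p ^ a` at the valuation `i` (with the convention that `0` has infinite valuation). -/
def h94_Vge (i : ι) (a : ℤ) (x : F) : Prop := x = 0 ∨ a ≤ V.v i x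

theorem h94_vge_zero (i : ι) (a : ℤ) : h94_Vge V i a 0 := Or.inl rfl

theorem h94_vge_iff (i : ι) (a : ℤ) {x : F} (hx : x ≠ 0) : h94_Vge V i a x ↔ a ≤ V.v i x :=
  ⟨fun h => h.resolve_left hx, Or.inr⟩

theorem h94_vge_mono (i : ι) {a a' : ℤ} (h : a' ≤ a) {x : F} (hx : h94_Vge V i a x) :
    h94_Vge V i a' x := by
  rcases hx with hx | hx
  · exact Or.inl hx
  · exact Or.inr (h.trans hx)

theorem h94_v_neg_one (i : ι) : V.v i (-1 : F) = 0 := by
  have h := V.map_mul i (-1) (-1) (by simp) (by simp)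
  rw [neg_one_mul, neg_neg, h80_v_one] at h
  omega

theorem h94_v_neg (i : ι) {x : F} (hx : x ≠ 0) : V.v i (-x) = V.v i x := by
  have h := V.map_mul i (-1) x (by simp) hx
  rw [neg_one_mul, h94_v_neg_one] at h
  omega

theorem h94_vge_neg (i : ι) {a : ℤ} {x : F} (hx : h94_Vge V i a x) : h94_Vge V i a (-x) := by
  rcases hx with hx | hx
  · exact Or.inl (by rw [hx, neg_zero])
  · by_cases h0 : x = 0
    · exact Or.inl (by rw [h0, neg_zero])
    · exact Or.inr (by rw [h94_v_neg V i h0]; exact hx)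

theorem h94_vge_add (i : ι) {a : ℤ} {x y : F} (hx : h94_Vge V i a x) (hy : h94_Vge V i a y) :
    h94_Vge V i a (x + y) := by
  by_cases hx0 : x = 0
  · rw [hx0, zero_add]; exact hy
  by_cases hy0 : y = 0
  · rw [hy0, add_zero]; exact hx
  by_cases hxy : x + y = 0
  · exact Or.inl hxy
  right
  have h := V.map_add i x y hx0 hy0 hxy
  have h1 := hx.resolve_left hx0
  have h2 := hy.resolve_left hy0
  exact (le_min h1 h2).trans h

theorem h94_vge_sub (i : ι) {a : ℤ} {x y : F} (hx : h94_Vge V i a x) (hy : h94_Vge V i a y) :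
    h94_Vge V i a (x - y) := by
  rw [sub_eq_add_neg]
  exact h94_vge_add V i hx (h94_vge_neg V i hy)

theorem h94_vge_mul (i : ι) {a b : ℤ} {x y : F} (hx : h94_Vge V i a x) (hy : h94_Vge V i b y) :
    h94_Vge V i (a + b) (x * y) := by
  by_cases hx0 : x = 0
  · rw [hx0, zero_mul]; exact Or.inl rfl
  by_cases hy0 : y = 0
  · rw [hy0, mul_zero]; exact Or.inl rfl
  right
  rw [V.map_mul i x y hx0 hy0]
  have h1 := hx.resolve_left hx0
  have h2 := hy.resolve_left hy0
  omega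

theorem h94_vge_mul_left (i : ι) {a : ℤ} {x y : F} (hx : h94_Vge V i a x)
    (hy : h94_Vge V i 0 y) : h94_Vge V i a (y * x) := by
  have := h94_vge_mul V i hx hy
  rwa [add_zero, mul_comm] at this

theorem h94_vge_pow (i : ι) {x : F} (hx : h94_Vge V i 0 x) (n : ℕ) : h94_Vge V i 0 (x ^ n) := by
  induction n with
  | zero =>
    rw [pow_zero]
    exact Or.inr (by rw [h80_v_one])
  | succ n ih =>
    rw [pow_succ]
    have := h94_vge_mul V i ih hx
    rwa [add_zero] at this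

theorem h94_vge_of_unit (i : ι) {x : F} (hx : V.v i x = 0) : h94_Vge V i 0 x :=
  Or.inr (by rw [hx])

/-- Division by a unit of the valuation. -/
theorem h94_vge_div_unit (i : ι) {a : ℤ} {x h : F} (hx : h94_Vge V i a x) (hh0 : h ≠ 0)
    (hh : V.v i h = 0) : h94_Vge V i a (x / h) := by
  by_cases hx0 : x = 0
  · rw [hx0, zero_div]; exact Or.inl rfl
  right
  rw [h80_v_div V i hx0 hh0, hh, sub_zero]
  exact hx.resolve_left hx0

/-- Congruent elements of the valuation ring have congruent powers. -/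
theorem h94_vge_pow_sub_pow (i : ι) {a : ℤ} {f g : F} (hf : h94_Vge V i 0 f)
    (hg : h94_Vge V i 0 g) (h : h94_Vge V i a (f - g)) (n : ℕ) :
    h94_Vge V i a (f ^ n - g ^ n) := by
  induction n with
  | zero => simpa using h94_vge_zero V i a
  | succ n ih =>
    have e : f ^ (n + 1) - g ^ (n + 1) = f * (f ^ n - g ^ n) + g ^ n * (f - g) := by ring
    rw [e]
    exact h94_vge_add V i (h94_vge_mul_left V i ih hf)
      (h94_vge_mul_left V i h (h94_vge_pow V i hg n))

/-- A root of unity is a unit of every valuation. -/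
theorem h94_v_root (i : ι) {ξ : F} {n : ℕ} (hn : n ≠ 0) (hξ : ξ ^ n = 1) : V.v i ξ = 0 := by
  have hξ0 : ξ ≠ 0 := by
    rintro rfl
    rw [zero_pow hn] at hξ
    exact zero_ne_one hξ
  have h := h80_v_pow V i hξ0 n
  rw [hξ, h80_v_one] at h
  have hn' : (n : ℤ) ≠ 0 := by exact_mod_cast hn
  rcases mul_eq_zero.1 h.symm with h1 | h1
  · exact absurd h1 hn'
  · exact h1

/-- Rigidity: `n`-th roots of unity congruent modulo a valuation at which `n` is a unit are
equal. -/
theorem h94_root_rigid (i : ι) {n : ℕ} (hn : (n : F) ≠ 0) (hnv : V.v i (n : F) = 0)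
    {ξ ξ' : F} (hξ : ξ ^ n = 1) (hξ' : ξ' ^ n = 1) (h : h94_Vge V i 1 (ξ - ξ')) : ξ = ξ' := by
  have hn0 : n ≠ 0 := by
    rintro rfl
    exact hn (by simp)
  have hξ'0 : ξ' ≠ 0 := by
    rintro rfl
    rw [zero_pow hn0] at hξ'
    exact zero_ne_one hξ'
  by_contra hne
  set ω : F := ξ / ξ' with hω
  have hω1 : ω ≠ 1 := by
    intro h1
    exact hne ((div_eq_one_iff_eq hξ'0).1 h1)
  have hωn : ω ^ n = 1 := by rw [hω, div_pow, hξ, hξ', div_one]
  have hωv : h94_Vge V i 1 (ω - 1) := by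
    have e : ω - 1 = (ξ - ξ') / ξ' := by
      rw [hω]; field_simp
    rw [e]
    exact h94_vge_div_unit V i h hξ'0 (h94_v_root V i hn0 hξ')
  have hω0v : h94_Vge V i 0 ω := h94_vge_of_unit V i (h94_v_root V i hn0 hωn)
  -- the geometric sum vanishes
  have hsum : (∑ j ∈ Finset.range n, ω ^ j) = 0 := by
    have := geom_sum_mul ω n
    rw [hωn, sub_self] at this
    exact (mul_eq_zero.1 this).resolve_right (sub_ne_zero.2 hω1)
  -- but it is congruent to `n`
  have hcong : ∀ N : ℕ, h94_Vge V i 1 ((∑ j ∈ Finset.range N, ω ^ j) - (N : F)) := by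
    intro N
    induction N with
    | zero => simpa using h94_vge_zero V i 1
    | succ N ih =>
      have e : (∑ j ∈ Finset.range (N + 1), ω ^ j) - ((N + 1 : ℕ) : F) =
          ((∑ j ∈ Finset.range N, ω ^ j) - (N : F)) + (ω ^ N - 1 ^ N) := by
        rw [Finset.sum_range_succ]; push_cast; ring
      rw [e]
      exact h94_vge_add V i ih
        (h94_vge_pow_sub_pow V i hω0v (Or.inr (by rw [h80_v_one])) hωv N)
  have h1 := hcong n
  rw [hsum, zero_sub] at h1
  have h2 := (h94_vge_neg V i h1)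
  rw [neg_neg] at h2
  have h3 := h2.resolve_left hn
  omega

/-! ### NZ-B: comparison of constants at a node -/

/-- An element of `B_m` of positive valuation at a valuation through `m` lies in `m B_m`. -/
theorem h94_inMLoc_of_vge (m : Ideal V.B) [hm : m.IsPrime] {i : ι} (hi : V.Through m i) {x : F}
    (hx : V.InLoc m x) (h : h94_Vge V i 1 x) : V.InMLoc m x := by
  by_cases hx0 : x = 0
  · rw [hx0]; exact h80_inMLoc_zero V m
  obtain ⟨b, t, ht, hbt⟩ := hx
  have ht0 := h80_ne_zero_of_not_mem V ht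
  have hb0 : (b : F) ≠ 0 := by
    rw [← hbt]; exact mul_ne_zero ht0 hx0
  refine ⟨b, t, hi b hb0 ?_, ht, hbt⟩
  rw [← hbt, V.map_mul i _ _ ht0 hx0, h80_through_eq_zero V hi ht]
  have := h.resolve_left hx0
  omega

/-- **NZ-B (node comparison).**  If `t ∈ B_s` is congruent to `d1` at `wF` and to `d2` at `wV`
(both valuations through `s`), `d1, d2 ∈ B_s`, and `d1 - d2` is zero, a unit of `B_s`, or of
positive `wF`-valuation (true for constants), then `d1 ≡ d2` at `wF`. -/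
theorem h94_node_compare (s : Ideal V.B) [hs : s.IsPrime] (wF wV : ι) (hF : V.Through s wF)
    (hV : V.Through s wV) (t d1 d2 : F) (ht : V.InLoc s t) (hd1 : V.InLoc s d1)
    (hd2 : V.InLoc s d2) (h1 : h94_Vge V wF 1 (t - d1)) (h2 : h94_Vge V wV 1 (t - d2))
    (hconst : d1 - d2 = 0 ∨ V.InLoc s (d1 - d2)⁻¹ ∨ 1 ≤ V.v wF (d1 - d2)) :
    h94_Vge V wF 1 (d1 - d2) := by
  by_cases hd0 : d1 - d2 = 0
  · exact Or.inl hd0
  rcases hconst with h0 | hinv | hv
  · exact Or.inl h0
  · exfalso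
    have m1 : V.InMLoc s (t - d1) :=
      h94_inMLoc_of_vge V s hF ((h94_Bm V s).sub_mem ht hd1) h1
    have m2 : V.InMLoc s (t - d2) :=
      h94_inMLoc_of_vge V s hV ((h94_Bm V s).sub_mem ht hd2) h2
    have hx1 : (⟨t - d1, (h94_Bm V s).sub_mem ht hd1⟩ : h94_Bm V s) ∈
        IsLocalRing.maximalIdeal (h94_Bm V s) := (h94_mem_max_Bm_iff V s _).2 m1
    have hx2 : (⟨t - d2, (h94_Bm V s).sub_mem ht hd2⟩ : h94_Bm V s) ∈
        IsLocalRing.maximalIdeal (h94_Bm V s) := (h94_mem_max_Bm_iff V s _).2 m2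
    have hx3 := Ideal.mul_mem_left _ (⟨(d1 - d2)⁻¹, hinv⟩ : h94_Bm V s) (Ideal.sub_mem _ hx2 hx1)
    have h4 : (⟨(d1 - d2)⁻¹, hinv⟩ : h94_Bm V s) *
        ((⟨t - d2, (h94_Bm V s).sub_mem ht hd2⟩ : h94_Bm V s) -
          ⟨t - d1, (h94_Bm V s).sub_mem ht hd1⟩) = 1 := by
      apply Subtype.ext
      show (d1 - d2)⁻¹ * ((t - d2) - (t - d1)) = 1
      have : (t - d2) - (t - d1) = d1 - d2 := by ring
      rw [this, inv_mul_cancel₀ hd0]
    rw [h4] at hx3
    exact (IsLocalRing.maximalIdeal.isMaximal (h94_Bm V s)).ne_top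
      ((Ideal.eq_top_iff_one _).2 hx3)
  · exact Or.inr hv

/-! ### NZ-C: the `Γ`-twist -/

/-- **NZ-C (Γ-twist).**  At a valuation `i`: if `e ≡ ζ y` and `Γ ≡ cc` modulo `p ^ a`, all of
`y, ζ, Γ, cc, lam` are units of `i`, and `ζ ^ N = lam * cc`, then
`e ^ N / Γ ≡ lam * y ^ N` modulo `p ^ a`. -/
theorem h94_gamma_twist (i : ι) {a : ℤ} (ha : 0 ≤ a) (e y ζ Γ cc lam : F) (N : ℕ)
    (hy0 : y ≠ 0) (hy : V.v i y = 0) (hζ0 : ζ ≠ 0) (hζ : V.v i ζ = 0)
    (hΓ0 : Γ ≠ 0) (hΓv : V.v i Γ = 0) (hlam0 : lam ≠ 0) (hlam : V.v i lam = 0)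
    (hglue : h94_Vge V i a (e - ζ * y)) (hΓ : h94_Vge V i a (Γ - cc)) (hpow : ζ ^ N = lam * cc) :
    h94_Vge V i a (e ^ N / Γ - lam * y ^ N) := by
  have hζy0 : h94_Vge V i 0 (ζ * y) :=
    Or.inr (by rw [V.map_mul i _ _ hζ0 hy0, hζ, hy]; exact le_rfl)
  have he0 : h94_Vge V i 0 e := by
    have : e = (e - ζ * y) + ζ * y := by ring
    rw [this]
    exact h94_vge_add V i (h94_vge_mono V i ha hglue) hζy0
  have h1 : h94_Vge V i a (e ^ N - (ζ * y) ^ N) := h94_vge_pow_sub_pow V i he0 hζy0 hglue N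
  have hlamy : h94_Vge V i 0 (lam * y ^ N) := by
    have := h94_vge_mul V i (h94_vge_of_unit V i hlam) (h94_vge_pow V i (h94_vge_of_unit V i hy) N)
    rwa [add_zero] at this
  have key : e ^ N / Γ - lam * y ^ N =
      ((e ^ N - (ζ * y) ^ N) - lam * y ^ N * (Γ - cc)) / Γ := by
    rw [mul_pow, hpow]
    field_simp
    ring
  rw [key]
  exact h94_vge_div_unit V i (h94_vge_sub V i h1 (h94_vge_mul_left V i hΓ hlamy)) hΓ0 hΓv

/-- From the `(LOC)` congruence `e ≡ ζ y` to `e / y ≡ ζ`. -/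
theorem h94_vge_glue_div (i : ι) {a : ℤ} (e y ζ : F) (hy0 : y ≠ 0) (hy : V.v i y = 0)
    (hglue : e = ζ * y ∨ a ≤ V.v i (e - ζ * y)) : h94_Vge V i a (e / y - ζ) := by
  have h : h94_Vge V i a (e - ζ * y) := by
    rcases hglue with h | h
    · exact Or.inl (sub_eq_zero.2 h)
    · exact Or.inr h
  have e1 : e / y - ζ = (e - ζ * y) / y := by field_simp
  rw [e1]
  exact h94_vge_div_unit V i h hy0 hy

end Fermat.Agent.S36
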