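import Mathlib

/-!
# S36 / (EASY): the norm half of (GEOM-N), group-theoretic core (helper98)

Mathlib-only.  Everything here is abstract commutative group theory; the modular input is the
"norm table" (NR) of the two degeneracy maps `α, β : X₀(q² M) → X₀(q M)`.

Dictionary.  `G₂` / `G₁` : the multiplicative groups of the `K₀`-rational functions of level
`q² M` / `q M`; `a, b, c` : the vertical orders along the three components `C₂₀, C₁₁, C₀₂` of the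
fibre (normalised so that `(a, b, c)(q) = (1, q - 1, 1)`); `v₁, v₂` : the vertical orders at level
`q M`; `Nα, Nβ` : the two norms; `C₁` : the constants of level `q M`; `ρ₂₀, ρ₁₁, ρ₀₂` and
`r₁, r₂` : the leading residues of vertical units, with values in the multiplicative group `Λ` of
the residue function field; `φ` : the Frobenius substitution of `Λ`; `U¹` : the units that reduce
to `1` in the (non-reduced) fibre.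

* `h98_easy_units` — steps (V) + (R): if both norms of `u` are (constant) × (`m`-th power), then
  `u ^ ((q+1)(q-1)) * q ^ j * h ^ m` reduces to `1` for suitable `j`, `h`: the vertical part and
  the Kummer residues of a `q`-new `m`-torsion class are killed by `q² - 1` after moving the
  divisor inside its class.
* `h98_easy_const` — step (Z): the gluing constants `ζ_x` at the triple points satisfy the two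
  norm relations, hence `ζ_x ^ (q² - 1)` is, up to a common factor, independent of `x`.
-/

set_option autoImplicit false

namespace Fermat.Agent.S36

/-- An additive `ℤ`-valued function on a commutative group (a "vertical order"). -/
structure h98_Ord (G : Type*) [CommGroup G] where
  /-- the order function -/
  ord : G → ℤ
  map_mul : ∀ x y : G, ord (x * y) = ord x + ord y

namespace h98_Ord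

variable {G : Type*} [CommGroup G] (v : h98_Ord G)

theorem map_one : v.ord 1 = 0 := by
  have h := v.map_mul 1 1
  rw [mul_one] at h
  omega

theorem map_inv (x : G) : v.ord x⁻¹ = - v.ord x := by
  have h := v.map_mul x x⁻¹
  rw [mul_inv_cancel, v.map_one] at h
  omega

theorem map_div (x y : G) : v.ord (x / y) = v.ord x - v.ord y := by
  rw [div_eq_mul_inv, v.map_mul, v.map_inv]
  ring

theorem map_pow (x : G) (n : ℕ) : v.ord (x ^ n) = n * v.ord x := by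
  induction n with
  | zero => simp [v.map_one]
  | succ n ih =>
    rw [pow_succ, v.map_mul, ih]
    push_cast
    ring

theorem map_zpow (x : G) (n : ℤ) : v.ord (x ^ n) = n * v.ord x := by
  obtain ⟨k, rfl | rfl⟩ := n.eq_nat_or_neg
  · rw [zpow_natCast, v.map_pow]
  · rw [zpow_neg, zpow_natCast, v.map_inv, v.map_pow]
    ring

end h98_Ord

/-- The common kernel of three orders: the vertical units of level `q² M`. -/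
def h98_U3 {G : Type*} [CommGroup G] (a b c : h98_Ord G) : Subgroup G where
  carrier := {x | a.ord x = 0 ∧ b.ord x = 0 ∧ c.ord x = 0}
  mul_mem' := by
    rintro x y ⟨h1, h2, h3⟩ ⟨h4, h5, h6⟩
    refine ⟨?_, ?_, ?_⟩
    · rw [a.map_mul, h1, h4]; rfl
    · rw [b.map_mul, h2, h5]; rfl
    · rw [c.map_mul, h3, h6]; rfl
  one_mem' := ⟨a.map_one, b.map_one, c.map_one⟩
  inv_mem' := by
    rintro x ⟨h1, h2, h3⟩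
    refine ⟨?_, ?_, ?_⟩
    · rw [a.map_inv, h1]; rfl
    · rw [b.map_inv, h2]; rfl
    · rw [c.map_inv, h3]; rfl

theorem h98_mem_U3 {G : Type*} [CommGroup G] {a b c : h98_Ord G} {x : G} :
    x ∈ h98_U3 a b c ↔ a.ord x = 0 ∧ b.ord x = 0 ∧ c.ord x = 0 := Iff.rfl

/-- The common kernel of two orders: the vertical units of level `q M`. -/
def h98_U2 {G : Type*} [CommGroup G] (v₁ v₂ : h98_Ord G) : Subgroup G where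
  carrier := {x | v₁.ord x = 0 ∧ v₂.ord x = 0}
  mul_mem' := by
    rintro x y ⟨h1, h2⟩ ⟨h4, h5⟩
    refine ⟨?_, ?_⟩
    · rw [v₁.map_mul, h1, h4]; rfl
    · rw [v₂.map_mul, h2, h5]; rfl
  one_mem' := ⟨v₁.map_one, v₂.map_one⟩
  inv_mem' := by
    rintro x ⟨h1, h2⟩
    refine ⟨?_, ?_⟩
    · rw [v₁.map_inv, h1]; rfl
    · rw [v₂.map_inv, h2]; rfl

theorem h98_mem_U2 {G : Type*} [CommGroup G] {v₁ v₂ : h98_Ord G} {x : G} :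
    x ∈ h98_U2 v₁ v₂ ↔ v₁.ord x = 0 ∧ v₂.ord x = 0 := Iff.rfl

/-- "`q`-new": both norms are a constant times an `m`-th power. -/
def h98_New {G₂ G₁ : Type*} [CommGroup G₂] [CommGroup G₁] (C₁ : Subgroup G₁)
    (Nα Nβ : G₂ →* G₁) (m : ℕ) (u : G₂) : Prop :=
  (∃ κ ∈ C₁, ∃ φ : G₁, Nα u = κ * φ ^ m) ∧ ∃ κ ∈ C₁, ∃ φ : G₁, Nβ u = κ * φ ^ m

section New

variable {G₂ G₁ : Type*} [CommGroup G₂] [CommGroup G₁] {C₁ : Subgroup G₁}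
  {Nα Nβ : G₂ →* G₁} {m : ℕ}

theorem h98_new_mul {u u' : G₂} (h : h98_New C₁ Nα Nβ m u) (h' : h98_New C₁ Nα Nβ m u') :
    h98_New C₁ Nα Nβ m (u * u') := by
  obtain ⟨⟨κ, hκ, φ, e⟩, ⟨κ₂, hκ₂, φ₂, e₂⟩⟩ := h
  obtain ⟨⟨κ', hκ', φ', e'⟩, ⟨κ₂', hκ₂', φ₂', e₂'⟩⟩ := h'
  refine ⟨⟨κ * κ', C₁.mul_mem hκ hκ', φ * φ', ?_⟩, ⟨κ₂ * κ₂', C₁.mul_mem hκ₂ hκ₂', φ₂ * φ₂', ?_⟩⟩
  · rw [map_mul, e, e', mul_pow, mul_mul_mul_comm]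
  · rw [map_mul, e₂, e₂', mul_pow, mul_mul_mul_comm]

theorem h98_new_pow {u : G₂} (h : h98_New C₁ Nα Nβ m u) (n : ℕ) :
    h98_New C₁ Nα Nβ m (u ^ n) := by
  obtain ⟨⟨κ, hκ, φ, e⟩, ⟨κ₂, hκ₂, φ₂, e₂⟩⟩ := h
  refine ⟨⟨κ ^ n, C₁.pow_mem hκ n, φ ^ n, ?_⟩, ⟨κ₂ ^ n, C₁.pow_mem hκ₂ n, φ₂ ^ n, ?_⟩⟩
  · rw [map_pow, e, mul_pow, ← pow_mul, ← pow_mul, mul_comm m n]
  · rw [map_pow, e₂, mul_pow, ← pow_mul, ← pow_mul, mul_comm m n]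

theorem h98_new_const_zpow {ϖ : G₂} (hα : Nα ϖ ∈ C₁) (hβ : Nβ ϖ ∈ C₁) (j : ℤ) :
    h98_New C₁ Nα Nβ m (ϖ ^ j) := by
  refine ⟨⟨Nα ϖ ^ j, C₁.zpow_mem hα j, 1, ?_⟩, ⟨Nβ ϖ ^ j, C₁.zpow_mem hβ j, 1, ?_⟩⟩
  · rw [map_zpow, one_pow, mul_one]
  · rw [map_zpow, one_pow, mul_one]

theorem h98_new_mth (h : G₂) : h98_New C₁ Nα Nβ m (h ^ m) := by
  refine ⟨⟨1, C₁.one_mem, Nα h, ?_⟩, ⟨1, C₁.one_mem, Nβ h, ?_⟩⟩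
  · rw [map_pow, one_mul]
  · rw [map_pow, one_mul]

end New

/-- A coprime power that is an `m`-th power comes from an `m`-th power. -/
theorem h98_isPow_of_coprime {Λ : Type*} [CommGroup Λ] {q m : ℕ} (hqm : q.Coprime m) {ρ g : Λ}
    (h : ρ ^ q = g ^ m) : ∃ t : Λ, ρ = t ^ m := by
  have hb : ((Nat.gcd q m : ℕ) : ℤ) = q * Nat.gcdA q m + m * Nat.gcdB q m := Nat.gcd_eq_gcd_ab q m
  rw [Nat.Coprime.gcd_eq_one hqm] at hb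
  refine ⟨g ^ Nat.gcdA q m * ρ ^ Nat.gcdB q m, ?_⟩
  have h1 : ρ = ρ ^ ((q : ℤ) * Nat.gcdA q m + m * Nat.gcdB q m) := by
    rw [← hb]
    simp
  rw [mul_pow, ← zpow_natCast (g ^ Nat.gcdA q m) m, ← zpow_mul,
    ← zpow_natCast (ρ ^ Nat.gcdB q m) m, ← zpow_mul]
  conv_lhs => rw [h1]
  rw [zpow_add, zpow_mul, zpow_natCast, h, ← zpow_natCast g m, ← zpow_mul, mul_comm (m : ℤ) (Nat.gcdA q m),
    mul_comm (m : ℤ) (Nat.gcdB q m)]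

section Normalise

variable {G₁ : Type*} [CommGroup G₁] (v₁ v₂ : h98_Ord G₁) (C₁ : Subgroup G₁)

/-- A vertical unit which is (constant) × (`m`-th power) is (unit constant) × (`m`-th power of a
vertical unit): this uses that the two vertical orders agree on constants. -/
theorem h98_normalise (hC : ∀ κ ∈ C₁, v₁.ord κ = v₂.ord κ)
    (ϖ₁ : G₁) (hϖ₁ : ϖ₁ ∈ C₁) (hϖ₁v : v₁.ord ϖ₁ = 1) {m : ℕ} (hm : 0 < m)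
    {g : G₁} (hg : g ∈ h98_U2 v₁ v₂) (h : ∃ κ ∈ C₁, ∃ φ : G₁, g = κ * φ ^ m) :
    ∃ κ ∈ C₁, ∃ φ : G₁, κ ∈ h98_U2 v₁ v₂ ∧ φ ∈ h98_U2 v₁ v₂ ∧ g = κ * φ ^ m := by
  obtain ⟨κ, hκ, φ, rfl⟩ := h
  obtain ⟨h1, h2⟩ := h98_mem_U2.1 hg
  rw [v₁.map_mul, v₁.map_pow] at h1
  rw [v₂.map_mul, v₂.map_pow] at h2
  have hκv := hC κ hκ
  have hϖ₂v : v₂.ord ϖ₁ = 1 := by rw [← hC ϖ₁ hϖ₁, hϖ₁v]
  have hm' : (m : ℤ) ≠ 0 := by exact_mod_cast hm.ne'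
  have hφ : v₁.ord φ = v₂.ord φ := by
    have : (m : ℤ) * v₁.ord φ = m * v₂.ord φ := by omega
    exact mul_left_cancel₀ hm' this
  set σ : ℤ := - v₁.ord φ with hσ
  refine ⟨κ * ϖ₁ ^ (-((m : ℤ) * σ)), C₁.mul_mem hκ (C₁.zpow_mem hϖ₁ _), φ * ϖ₁ ^ σ, ?_, ?_, ?_⟩
  · refine h98_mem_U2.2 ⟨?_, ?_⟩
    · rw [v₁.map_mul, v₁.map_zpow, hϖ₁v, hσ]
      linarith
    · rw [v₂.map_mul, v₂.map_zpow, hϖ₂v, hσ]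
      linarith
  · refine h98_mem_U2.2 ⟨?_, ?_⟩
    · rw [v₁.map_mul, v₁.map_zpow, hϖ₁v, hσ]
      ring
    · rw [v₂.map_mul, v₂.map_zpow, hϖ₂v, hσ, hφ]
      ring
  · have e1 : ϖ₁ ^ (-((m : ℤ) * σ)) * (ϖ₁ ^ σ) ^ m = 1 := by
      rw [← zpow_natCast (ϖ₁ ^ σ) m, ← zpow_mul, ← zpow_add]
      have : -((m : ℤ) * σ) + σ * m = 0 := by ring
      rw [this, zpow_zero]
    calc κ * φ ^ m = κ * φ ^ m * (ϖ₁ ^ (-((m : ℤ) * σ)) * (ϖ₁ ^ σ) ^ m) := by rw [e1, mul_one]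
      _ = κ * ϖ₁ ^ (-((m : ℤ) * σ)) * (φ * ϖ₁ ^ σ) ^ m := by
        rw [mul_pow]
        exact mul_mul_mul_comm _ _ _ _

variable {Λ : Type*} [CommGroup Λ]

/-- The residue of a vertical unit which is (constant) × (`m`-th power) is an `m`-th power. -/
theorem h98_res_isPow (hC : ∀ κ ∈ C₁, v₁.ord κ = v₂.ord κ)
    (ϖ₁ : G₁) (hϖ₁ : ϖ₁ ∈ C₁) (hϖ₁v : v₁.ord ϖ₁ = 1) {m : ℕ} (hm : 0 < m)
    (r : ↥(h98_U2 v₁ v₂) →* Λ)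
    (hrC : ∀ κ : ↥(h98_U2 v₁ v₂), (κ : G₁) ∈ C₁ → ∃ t : Λ, r κ = t ^ m)
    (g : ↥(h98_U2 v₁ v₂)) (h : ∃ κ ∈ C₁, ∃ φ : G₁, (g : G₁) = κ * φ ^ m) :
    ∃ t : Λ, r g = t ^ m := by
  obtain ⟨κ, hκ, φ, hκU, hφU, e⟩ := h98_normalise v₁ v₂ C₁ hC ϖ₁ hϖ₁ hϖ₁v hm g.2 h
  obtain ⟨t, ht⟩ := hrC ⟨κ, hκU⟩ hκ
  have e' : g = ⟨κ, hκU⟩ * ⟨φ, hφU⟩ ^ m := Subtype.ext (by simpa using e)
  exact ⟨t * r ⟨φ, hφU⟩, by rw [e', map_mul, map_pow, ht, mul_pow]⟩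

end Normalise

/-- A rearrangement in a commutative group. -/
theorem h98_rearr {G : Type*} [CommGroup G] (x y z w d : G) (k n m : ℕ) (J : ℤ) :
    x ^ (k * n) * y ^ (J * (n : ℤ)) * (z ^ n * w⁻¹ * d) ^ m =
      (x ^ k * y ^ J * z ^ m) ^ n * (w ^ m)⁻¹ * d ^ m := by
  rw [mul_pow, mul_pow, mul_pow, mul_pow, inv_pow, pow_mul, zpow_mul, zpow_natCast,
    ← pow_mul z n m, ← pow_mul z m n, mul_comm n m]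
  simp only [mul_comm, mul_left_comm, mul_assoc]

section Units

variable {G₂ G₁ Λ : Type*} [CommGroup G₂] [CommGroup G₁] [CommGroup Λ]

/-- The norm of a vertical unit is a vertical unit (from the valuation rows of the norm table). -/
theorem h98_norm_mem (a b c : h98_Ord G₂) (v₁ v₂ : h98_Ord G₁) (N : G₂ →* G₁)
    (x y z x' y' z' : ℤ)
    (h₁ : ∀ f, v₁.ord (N f) = x * a.ord f + y * b.ord f + z * c.ord f)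
    (h₂ : ∀ f, v₂.ord (N f) = x' * a.ord f + y' * b.ord f + z' * c.ord f)
    {f : G₂} (hf : f ∈ h98_U3 a b c) : N f ∈ h98_U2 v₁ v₂ := by
  obtain ⟨h1, h2, h3⟩ := h98_mem_U3.1 hf
  refine h98_mem_U2.2 ⟨?_, ?_⟩
  · rw [h₁, h1, h2, h3]; ring
  · rw [h₂, h1, h2, h3]; ring

/-- **(EASY), steps (V) + (R).**  If both norms of `u` are a constant times an `m`-th power
(`u` is `q`-new), then `u ^ ((q + 1) (q - 1)) * ϖ₂ ^ j * h ^ m` reduces to `1`, for some `j`, `h`: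
after multiplying the class by `q² - 1` and moving the divisor inside its class by `div h`, the
function has no vertical part and trivial Kummer residues on the three components. -/
theorem h98_easy_units
    {q m : ℕ} (hm : 0 < m) (hqm : q.Coprime m)
    (a b c : h98_Ord G₂) (v₁ v₂ : h98_Ord G₁)
    (ϖ₂ : G₂) (hϖa : a.ord ϖ₂ = 1) (hϖb : b.ord ϖ₂ = (q : ℤ) - 1) (hϖc : c.ord ϖ₂ = 1)
    (C₁ : Subgroup G₁) (hC : ∀ κ ∈ C₁, v₁.ord κ = v₂.ord κ)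
    (ϖ₁ : G₁) (hϖ₁ : ϖ₁ ∈ C₁) (hϖ₁v : v₁.ord ϖ₁ = 1)
    (Nα Nβ : G₂ →* G₁) (hNαϖ : Nα ϖ₂ ∈ C₁) (hNβϖ : Nβ ϖ₂ ∈ C₁)
    (hα₁ : ∀ f, v₁.ord (Nα f) = a.ord f + b.ord f) (hα₂ : ∀ f, v₂.ord (Nα f) = q * c.ord f)
    (hβ₁ : ∀ f, v₁.ord (Nβ f) = q * a.ord f) (hβ₂ : ∀ f, v₂.ord (Nβ f) = b.ord f + c.ord f)
    (p₁ p₂ : G₂) (hp₁ : a.ord p₁ = 1 ∧ b.ord p₁ = 0 ∧ c.ord p₁ = 0)
    (hp₂ : a.ord p₂ = 0 ∧ b.ord p₂ = 1 ∧ c.ord p₂ = 0)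
    (ρ₂₀ ρ₁₁ ρ₀₂ : ↥(h98_U3 a b c) →* Λ) (r₁ r₂ : ↥(h98_U2 v₁ v₂) →* Λ) (φ : Λ →* Λ)
    (hNRα : ∀ (f : ↥(h98_U3 a b c)) (h : Nα f ∈ h98_U2 v₁ v₂),
      r₁ ⟨Nα f, h⟩ = ρ₂₀ f * ρ₁₁ f ^ (q - 1) ∧ φ (r₂ ⟨Nα f, h⟩) = ρ₀₂ f ^ q)
    (hNRβ : ∀ (f : ↥(h98_U3 a b c)) (h : Nβ f ∈ h98_U2 v₁ v₂),
      φ (r₁ ⟨Nβ f, h⟩) = ρ₂₀ f ^ q ∧ r₂ ⟨Nβ f, h⟩ = ρ₁₁ f ^ (q - 1) * ρ₀₂ f)
    (hrC₁ : ∀ κ : ↥(h98_U2 v₁ v₂), (κ : G₁) ∈ C₁ → ∃ t : Λ, r₁ κ = t ^ m)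
    (hrC₂ : ∀ κ : ↥(h98_U2 v₁ v₂), (κ : G₁) ∈ C₁ → ∃ t : Λ, r₂ κ = t ^ m)
    (hlift : ∀ g₁ g₂ g₃ : Λ, ∃ γ : ↥(h98_U3 a b c), ρ₂₀ γ = g₁ ∧ ρ₁₁ γ = g₂ ∧ ρ₀₂ γ = g₃)
    (U1 : Subgroup G₂)
    (hdiv : ∀ f : ↥(h98_U3 a b c), ρ₂₀ f = 1 → ρ₁₁ f = 1 → ρ₀₂ f = 1 →
      ∃ δ : G₂, (f : G₂) * δ ^ m ∈ U1)
    (u : G₂) (hu : h98_New C₁ Nα Nβ m u) :
    ∃ (j : ℤ) (h : G₂), u ^ ((q + 1) * (q - 1)) * ϖ₂ ^ j * h ^ m ∈ U1 := by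
  have hm' : (m : ℤ) ≠ 0 := by exact_mod_cast hm.ne'
  -- (V): the vertical part
  obtain ⟨⟨κa, hκa, φa, ea⟩, ⟨κb, hκb, φb, eb⟩⟩ := id hu
  have e1 := hα₁ u
  have e2 := hα₂ u
  have e3 := hβ₁ u
  have e4 := hβ₂ u
  rw [ea, v₁.map_mul, v₁.map_pow] at e1
  rw [ea, v₂.map_mul, v₂.map_pow] at e2
  rw [eb, v₁.map_mul, v₁.map_pow] at e3
  rw [eb, v₂.map_mul, v₂.map_pow] at e4
  have hκa' := hC κa hκa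
  have hκb' := hC κb hκb
  set s : ℤ := v₁.ord φa - v₂.ord φa with hs
  set t : ℤ := v₁.ord φb - v₂.ord φb with ht
  have hs' : a.ord u + b.ord u - q * c.ord u = m * s := by rw [hs]; linarith
  have ht' : q * a.ord u - b.ord u - c.ord u = m * t := by rw [ht]; linarith
  set u₁ : G₂ := u ^ (q + 1) * ϖ₂ ^ (-(((q : ℤ) + 1) * c.ord u)) with hu₁
  set h₀ : G₂ := p₁ ^ (-(s + t)) * p₂ ^ (-((q : ℤ) * s - t)) with hh₀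
  set u₂ : G₂ := u₁ * h₀ ^ m with hu₂
  have hu₁a : a.ord u₁ = m * (s + t) := by
    rw [hu₁, a.map_mul, a.map_pow, a.map_zpow, hϖa]
    push_cast
    linarith
  have hu₁b : b.ord u₁ = m * (q * s - t) := by
    rw [hu₁, b.map_mul, b.map_pow, b.map_zpow, hϖb]
    push_cast
    linear_combination (q : ℤ) * hs' - ht'
  have hu₁c : c.ord u₁ = 0 := by
    rw [hu₁, c.map_mul, c.map_pow, c.map_zpow, hϖc]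
    push_cast
    ring
  have hu₂U : u₂ ∈ h98_U3 a b c := by
    refine h98_mem_U3.2 ⟨?_, ?_, ?_⟩
    · rw [hu₂, a.map_mul, a.map_pow, hu₁a, hh₀, a.map_mul, a.map_zpow, a.map_zpow, hp₁.1, hp₂.1]
      ring
    · rw [hu₂, b.map_mul, b.map_pow, hu₁b, hh₀, b.map_mul, b.map_zpow, b.map_zpow, hp₁.2.1,
        hp₂.2.1]
      ring
    · rw [hu₂, c.map_mul, c.map_pow, hu₁c, hh₀, c.map_mul, c.map_zpow, c.map_zpow, hp₁.2.2,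
        hp₂.2.2]
      ring
  have hu₂new : h98_New C₁ Nα Nβ m u₂ :=
    h98_new_mul (h98_new_mul (h98_new_pow hu _) (h98_new_const_zpow hNαϖ hNβϖ _)) (h98_new_mth _)
  -- (R): the residues
  have hNα : Nα u₂ ∈ h98_U2 v₁ v₂ :=
    h98_norm_mem a b c v₁ v₂ Nα 1 1 0 0 0 q (fun f => by rw [hα₁]; ring)
      (fun f => by rw [hα₂]; ring) hu₂U
  have hNβ : Nβ u₂ ∈ h98_U2 v₁ v₂ :=
    h98_norm_mem a b c v₁ v₂ Nβ q 0 0 0 1 1 (fun f => by rw [hβ₁]; ring)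
      (fun f => by rw [hβ₂]; ring) hu₂U
  set U₂ : ↥(h98_U3 a b c) := ⟨u₂, hu₂U⟩ with hU₂
  obtain ⟨tα₁, hα₁'⟩ := h98_res_isPow v₁ v₂ C₁ hC ϖ₁ hϖ₁ hϖ₁v hm r₁ hrC₁ ⟨Nα u₂, hNα⟩ hu₂new.1
  obtain ⟨tα₂, hα₂'⟩ := h98_res_isPow v₁ v₂ C₁ hC ϖ₁ hϖ₁ hϖ₁v hm r₂ hrC₂ ⟨Nα u₂, hNα⟩ hu₂new.1
  obtain ⟨tβ₁, hβ₁'⟩ := h98_res_isPow v₁ v₂ C₁ hC ϖ₁ hϖ₁ hϖ₁v hm r₁ hrC₁ ⟨Nβ u₂, hNβ⟩ hu₂new.2
  obtain ⟨tβ₂, hβ₂'⟩ := h98_res_isPow v₁ v₂ C₁ hC ϖ₁ hϖ₁ hϖ₁v hm r₂ hrC₂ ⟨Nβ u₂, hNβ⟩ hu₂new.2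
  obtain ⟨nα₁, nα₂⟩ := hNRα U₂ hNα
  obtain ⟨nβ₁, nβ₂⟩ := hNRβ U₂ hNβ
  -- `ρ₂₀` and `ρ₀₂` are `m`-th powers
  obtain ⟨g₁, hg₁⟩ : ∃ g : Λ, ρ₂₀ U₂ = g ^ m :=
    h98_isPow_of_coprime hqm (g := φ tβ₁) (by rw [← nβ₁, hβ₁', map_pow])
  obtain ⟨g₃, hg₃⟩ : ∃ g : Λ, ρ₀₂ U₂ = g ^ m :=
    h98_isPow_of_coprime hqm (g := φ tα₂) (by rw [← nα₂, hα₂', map_pow])
  -- `ρ₁₁ ^ (q - 1)` is an `m`-th power
  have hg₂ : ρ₁₁ U₂ ^ (q - 1) = (tβ₂ * g₃⁻¹) ^ m := by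
    rw [mul_pow, inv_pow, ← hg₃, ← hβ₂', nβ₂, mul_inv_cancel_right]
  obtain ⟨γ, hγ₁, hγ₂, hγ₃⟩ := hlift (g₁ ^ (q - 1)) (tβ₂ * g₃⁻¹) (g₃ ^ (q - 1))
  set u₄ : ↥(h98_U3 a b c) := U₂ ^ (q - 1) * (γ ^ m)⁻¹ with hu₄
  have h41 : ρ₂₀ u₄ = 1 := by
    rw [hu₄, map_mul, map_pow, map_inv, map_pow, hγ₁, hg₁, ← pow_mul, ← pow_mul, mul_comm m,
      mul_inv_cancel]
  have h42 : ρ₁₁ u₄ = 1 := by
    rw [hu₄, map_mul, map_pow, map_inv, map_pow, hγ₂, hg₂, mul_inv_cancel]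
  have h43 : ρ₀₂ u₄ = 1 := by
    rw [hu₄, map_mul, map_pow, map_inv, map_pow, hγ₃, hg₃, ← pow_mul, ← pow_mul, mul_comm m,
      mul_inv_cancel]
  obtain ⟨δ, hδ⟩ := hdiv u₄ h41 h42 h43
  refine ⟨-(((q : ℤ) + 1) * c.ord u) * ((q - 1 : ℕ) : ℤ), h₀ ^ (q - 1) * (γ : G₂)⁻¹ * δ, ?_⟩
  have key : u ^ ((q + 1) * (q - 1)) * ϖ₂ ^ (-(((q : ℤ) + 1) * c.ord u) * ((q - 1 : ℕ) : ℤ)) *
      (h₀ ^ (q - 1) * (γ : G₂)⁻¹ * δ) ^ m = (u₄ : G₂) * δ ^ m := by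
    have e5 : (u₄ : G₂) = u₂ ^ (q - 1) * ((γ : G₂) ^ m)⁻¹ := by
      rw [hu₄, hU₂]
      simp
    rw [e5, hu₂, hu₁]
    exact h98_rearr u ϖ₂ h₀ (γ : G₂) δ (q + 1) (q - 1) m _
  rw [key]
  exact hδ

end Units

/-! ### Step (Z): the gluing constants -/

theorem h98_add_alg {M : Type*} [AddCommGroup M] (z₁ z₂ z₃ cα cβ : M) (n : ℕ)
    (h1 : z₁ + n • z₂ = cα + (n + 1) • z₃) (h2 : (n + 1) • z₁ = cβ + (n • z₂ + z₃)) :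
    (n ^ 2 + 2 * n) • z₁ = ((n + 1) • cβ - cα) + (n ^ 2 + 2 * n) • z₂ ∧
      (n ^ 2 + 2 * n) • z₃ = (cβ - (n + 1) • cα) + (n ^ 2 + 2 * n) • z₂ := by
  constructor
  · linear_combination (norm := module) (n + 1) • h2 - h1
  · linear_combination (norm := module) h2 - (n + 1) • h1

/-- The two norm relations `A = c_α C^q`, `A^q = c_β C` (`A = ζ₁/ζ₂`, `C = ζ₃/ζ₂`) give
`A ^ (q² - 1) = c_β^q / c_α` and `C ^ (q² - 1) = c_β / c_α^q`. -/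
theorem h98_mul_alg {Λ : Type*} [CommGroup Λ] (ζ₁ ζ₂ ζ₃ cα cβ : Λ) {q : ℕ} (hq : 1 ≤ q)
    (h1 : ζ₁ * ζ₂ ^ (q - 1) = cα * ζ₃ ^ q) (h2 : ζ₁ ^ q = cβ * (ζ₂ ^ (q - 1) * ζ₃)) :
    ζ₁ ^ (q ^ 2 - 1) = (cβ ^ q * cα⁻¹) * ζ₂ ^ (q ^ 2 - 1) ∧
      ζ₃ ^ (q ^ 2 - 1) = (cβ * (cα ^ q)⁻¹) * ζ₂ ^ (q ^ 2 - 1) := by
  obtain ⟨n, rfl⟩ : ∃ n, q = n + 1 := ⟨q - 1, by omega⟩
  have e : (n + 1) ^ 2 - 1 = n ^ 2 + 2 * n := by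
    have : (n + 1) ^ 2 = n ^ 2 + 2 * n + 1 := by ring
    omega
  rw [e]
  rw [Nat.add_sub_cancel] at h1 h2
  have h := h98_add_alg (M := Additive Λ) (Additive.ofMul ζ₁) (Additive.ofMul ζ₂)
    (Additive.ofMul ζ₃) (Additive.ofMul cα) (Additive.ofMul cβ) n
    (congrArg Additive.ofMul h1) (congrArg Additive.ofMul h2)
  constructor
  · have := congrArg Additive.toMul h.1
    simpa [div_eq_mul_inv] using this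
  · have := congrArg Additive.toMul h.2
    simpa [div_eq_mul_inv] using this

section Const

variable {G₂ G₁ Λ : Type*} [CommGroup G₂] [CommGroup G₁] [CommGroup Λ]

/-- **One norm relation for the gluing constants** (abstract form, used for `α` and for `β`).
`N` is a norm, `R₁, R₂` the two residue functionals computing `φ₁ ∘ r₁ ∘ N` and `φ₂ ∘ r₂ ∘ N`,
`T` the constants of the residue field, `G x` the units of the node ring below the point `x`.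
If the local generators `e x` of the divisor have residues `Z₁ x`, `Z₂ x` times those of units
`y x`, then `Z₁ x = c * Z₂ x` with ONE constant `c`. -/
theorem h98_const_rel
    {m : ℕ} (hm : 0 < m)
    (a b c : h98_Ord G₂) (v₁ v₂ : h98_Ord G₁)
    (C₁ : Subgroup G₁) (hC : ∀ κ ∈ C₁, v₁.ord κ = v₂.ord κ)
    (ϖ₁ : G₁) (hϖ₁ : ϖ₁ ∈ C₁) (hϖ₁v : v₁.ord ϖ₁ = 1)
    (N : G₂ →* G₁) (hN : ∀ f ∈ h98_U3 a b c, N f ∈ h98_U2 v₁ v₂)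
    (R₁ R₂ : ↥(h98_U3 a b c) →* Λ) (r₁ r₂ : ↥(h98_U2 v₁ v₂) →* Λ) (φ₁ φ₂ : Λ →* Λ)
    (hφ₁ : Function.Injective φ₁) (hφ₂ : Function.Injective φ₂)
    (hNR : ∀ (f : ↥(h98_U3 a b c)) (h : N f ∈ h98_U2 v₁ v₂),
      φ₁ (r₁ ⟨N f, h⟩) = R₁ f ∧ φ₂ (r₂ ⟨N f, h⟩) = R₂ f)
    (T : Subgroup Λ) (hφ₁T : ∀ t ∈ T, φ₁ t = t) (hφ₂T : ∀ t ∈ T, φ₂ t = t)
    (hTroot : ∀ s : Λ, s ^ m ∈ T → s ∈ T)
    (hrC₁ : ∀ κ : ↥(h98_U2 v₁ v₂), (κ : G₁) ∈ C₁ → r₁ κ ∈ T)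
    (hrC₂ : ∀ κ : ↥(h98_U2 v₁ v₂), (κ : G₁) ∈ C₁ → r₂ κ ∈ T)
    (u : ↥(h98_U3 a b c)) (hu₁ : R₁ u = 1) (hu₂ : R₂ u = 1)
    (hnew : ∃ κ ∈ C₁, ∃ φ : G₁, N (u : G₂) = κ * φ ^ m)
    {X : Type*} (e y : X → ↥(h98_U3 a b c)) (ω : X → G₂)
    (hfac : ∀ x, (u : G₂) = (e x : G₂) ^ m * ω x)
    (Z₁ Z₂ : X → Λ) (hZ₁ : ∀ x, Z₁ x ∈ T) (hZ₂ : ∀ x, Z₂ x ∈ T)
    (he₁ : ∀ x, R₁ (e x) = Z₁ x * R₁ (y x)) (he₂ : ∀ x, R₂ (e x) = Z₂ x * R₂ (y x))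
    (G : X → Subgroup G₁)
    (hGroot : ∀ x t, t ^ m ∈ G x → t ∈ G x)
    (hGC : ∀ x, ∀ κ ∈ C₁, κ ∈ h98_U2 v₁ v₂ → κ ∈ G x)
    (hGω : ∀ x, N (ω x) ∈ G x) (hGy : ∀ x, N (y x : G₂) ∈ G x)
    (hnode : ∀ x (t : ↥(h98_U2 v₁ v₂)), (t : G₁) ∈ G x → r₁ t ∈ T → r₂ t ∈ T → r₁ t = r₂ t) :
    ∃ c ∈ T, ∀ x, Z₁ x = c * Z₂ x := by
  have hNu : N (u : G₂) ∈ h98_U2 v₁ v₂ := hN _ u.2
  obtain ⟨κ, hκ, φN, hκU, hφU, eN⟩ := h98_normalise v₁ v₂ C₁ hC ϖ₁ hϖ₁ hϖ₁v hm hNu hnew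
  set K : ↥(h98_U2 v₁ v₂) := ⟨κ, hκU⟩ with hK
  set Φ : ↥(h98_U2 v₁ v₂) := ⟨φN, hφU⟩ with hΦ
  have eN' : (⟨N (u : G₂), hNu⟩ : ↥(h98_U2 v₁ v₂)) = K * Φ ^ m := Subtype.ext (by simpa using eN)
  -- the residues of `φN` are constants
  have hr₁u : r₁ ⟨N (u : G₂), hNu⟩ = 1 := by
    apply hφ₁
    rw [(hNR u hNu).1, hu₁, map_one]
  have hr₂u : r₂ ⟨N (u : G₂), hNu⟩ = 1 := by
    apply hφ₂
    rw [(hNR u hNu).2, hu₂, map_one]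
  have hf₁ : r₁ Φ ∈ T := by
    apply hTroot
    have h1 : r₁ K * r₁ Φ ^ m = 1 := by rw [← map_pow, ← map_mul, ← eN', hr₁u]
    have h2 : r₁ Φ ^ m = (r₁ K)⁻¹ := eq_inv_of_mul_eq_one_right h1
    rw [h2]
    exact T.inv_mem (hrC₁ K hκ)
  have hf₂ : r₂ Φ ∈ T := by
    apply hTroot
    have h1 : r₂ K * r₂ Φ ^ m = 1 := by rw [← map_pow, ← map_mul, ← eN', hr₂u]
    have h2 : r₂ Φ ^ m = (r₂ K)⁻¹ := eq_inv_of_mul_eq_one_right h1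
    rw [h2]
    exact T.inv_mem (hrC₂ K hκ)
  refine ⟨r₁ Φ * (r₂ Φ)⁻¹, T.mul_mem hf₁ (T.inv_mem hf₂), fun x => ?_⟩
  have hNe : N (e x : G₂) ∈ h98_U2 v₁ v₂ := hN _ (e x).2
  have hNy : N (y x : G₂) ∈ h98_U2 v₁ v₂ := hN _ (y x).2
  set Ne : ↥(h98_U2 v₁ v₂) := ⟨N (e x : G₂), hNe⟩ with hNe'
  set Ny : ↥(h98_U2 v₁ v₂) := ⟨N (y x : G₂), hNy⟩ with hNy'
  set t : ↥(h98_U2 v₁ v₂) := Ne * Φ⁻¹ * Ny⁻¹ with ht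
  -- `t` is a unit of the node ring
  have ht₀ : N (e x : G₂) * φN⁻¹ ∈ G x := by
    apply hGroot
    have h1 : N (u : G₂) = N (e x : G₂) ^ m * N (ω x) := by rw [hfac x, map_mul, map_pow]
    have h2 : (N (e x : G₂) * φN⁻¹) ^ m = κ * (N (ω x))⁻¹ := by
      rw [mul_pow, inv_pow]
      have h3 : N (e x : G₂) ^ m * N (ω x) = κ * φN ^ m := by rw [← h1, eN]
      rw [eq_mul_inv_iff_mul_eq, mul_right_comm, h3, mul_inv_cancel_right]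
    rw [h2]
    exact (G x).mul_mem (hGC x κ hκ hκU) ((G x).inv_mem (hGω x))
  have htG : (t : G₁) ∈ G x := by
    have : (t : G₁) = N (e x : G₂) * φN⁻¹ * (N (y x : G₂))⁻¹ := by
      rw [ht, hNe', hNy', hΦ]
      simp
    rw [this]
    exact (G x).mul_mem ht₀ ((G x).inv_mem (hGy x))
  -- its residues
  have hr₁e : r₁ Ne = Z₁ x * r₁ Ny := by
    apply hφ₁
    rw [map_mul, hφ₁T _ (hZ₁ x), (hNR (e x) hNe).1, (hNR (y x) hNy).1, he₁ x]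
  have hr₂e : r₂ Ne = Z₂ x * r₂ Ny := by
    apply hφ₂
    rw [map_mul, hφ₂T _ (hZ₂ x), (hNR (e x) hNe).2, (hNR (y x) hNy).2, he₂ x]
  have hr₁t : r₁ t = Z₁ x * (r₁ Φ)⁻¹ := by
    rw [ht, map_mul, map_mul, map_inv, map_inv, hr₁e]
    rw [mul_right_comm, mul_inv_cancel_right]
  have hr₂t : r₂ t = Z₂ x * (r₂ Φ)⁻¹ := by
    rw [ht, map_mul, map_mul, map_inv, map_inv, hr₂e]
    rw [mul_right_comm, mul_inv_cancel_right]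
  have hnd := hnode x t htG (by rw [hr₁t]; exact T.mul_mem (hZ₁ x) (T.inv_mem hf₁))
    (by rw [hr₂t]; exact T.mul_mem (hZ₂ x) (T.inv_mem hf₂))
  rw [hr₁t, hr₂t] at hnd
  -- `Z₁ / f₁ = Z₂ / f₂`
  calc Z₁ x = Z₁ x * (r₁ Φ)⁻¹ * r₁ Φ := by rw [inv_mul_cancel_right]
    _ = Z₂ x * (r₂ Φ)⁻¹ * r₁ Φ := by rw [hnd]
    _ = r₁ Φ * (r₂ Φ)⁻¹ * Z₂ x := by
      rw [mul_comm (Z₂ x), mul_comm _ (r₁ Φ), mul_assoc]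

/-- **(EASY), step (Z).**  The gluing constants `(ζ₁, ζ₂, ζ₃)(x)` of the local generators at the
triple points `x` satisfy the two norm relations; hence `ζ₁ ^ (q² - 1) / ζ₂ ^ (q² - 1)` and
`ζ₃ ^ (q² - 1) / ζ₂ ^ (q² - 1)` are constants of `T` independent of `x`. -/
theorem h98_easy_const
    {q m : ℕ} (hq : 1 ≤ q) (hm : 0 < m)
    (a b c : h98_Ord G₂) (v₁ v₂ : h98_Ord G₁)
    (C₁ : Subgroup G₁) (hC : ∀ κ ∈ C₁, v₁.ord κ = v₂.ord κ)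
    (ϖ₁ : G₁) (hϖ₁ : ϖ₁ ∈ C₁) (hϖ₁v : v₁.ord ϖ₁ = 1)
    (Nα Nβ : G₂ →* G₁)
    (hα₁ : ∀ f, v₁.ord (Nα f) = a.ord f + b.ord f) (hα₂ : ∀ f, v₂.ord (Nα f) = q * c.ord f)
    (hβ₁ : ∀ f, v₁.ord (Nβ f) = q * a.ord f) (hβ₂ : ∀ f, v₂.ord (Nβ f) = b.ord f + c.ord f)
    (ρ₂₀ ρ₁₁ ρ₀₂ : ↥(h98_U3 a b c) →* Λ) (r₁ r₂ : ↥(h98_U2 v₁ v₂) →* Λ) (φ : Λ →* Λ)
    (hφ : Function.Injective φ)
    (hNRα : ∀ (f : ↥(h98_U3 a b c)) (h : Nα f ∈ h98_U2 v₁ v₂),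
      r₁ ⟨Nα f, h⟩ = ρ₂₀ f * ρ₁₁ f ^ (q - 1) ∧ φ (r₂ ⟨Nα f, h⟩) = ρ₀₂ f ^ q)
    (hNRβ : ∀ (f : ↥(h98_U3 a b c)) (h : Nβ f ∈ h98_U2 v₁ v₂),
      φ (r₁ ⟨Nβ f, h⟩) = ρ₂₀ f ^ q ∧ r₂ ⟨Nβ f, h⟩ = ρ₁₁ f ^ (q - 1) * ρ₀₂ f)
    (T : Subgroup Λ) (hφT : ∀ t ∈ T, φ t = t) (hTroot : ∀ s : Λ, s ^ m ∈ T → s ∈ T)
    (hrC₁ : ∀ κ : ↥(h98_U2 v₁ v₂), (κ : G₁) ∈ C₁ → r₁ κ ∈ T)
    (hrC₂ : ∀ κ : ↥(h98_U2 v₁ v₂), (κ : G₁) ∈ C₁ → r₂ κ ∈ T)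
    (u : ↥(h98_U3 a b c)) (hu₁ : ρ₂₀ u = 1) (hu₂ : ρ₁₁ u = 1) (hu₃ : ρ₀₂ u = 1)
    (hnew : h98_New C₁ Nα Nβ m (u : G₂))
    {X : Type*} (e y : X → ↥(h98_U3 a b c)) (ω : X → G₂)
    (hfac : ∀ x, (u : G₂) = (e x : G₂) ^ m * ω x)
    (ζ₁ ζ₂ ζ₃ : X → Λ) (hζ₁ : ∀ x, ζ₁ x ∈ T) (hζ₂ : ∀ x, ζ₂ x ∈ T) (hζ₃ : ∀ x, ζ₃ x ∈ T)
    (he₁ : ∀ x, ρ₂₀ (e x) = ζ₁ x * ρ₂₀ (y x)) (he₂ : ∀ x, ρ₁₁ (e x) = ζ₂ x * ρ₁₁ (y x))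
    (he₃ : ∀ x, ρ₀₂ (e x) = ζ₃ x * ρ₀₂ (y x))
    (Gα Gβ : X → Subgroup G₁)
    (hGrootα : ∀ x t, t ^ m ∈ Gα x → t ∈ Gα x) (hGrootβ : ∀ x t, t ^ m ∈ Gβ x → t ∈ Gβ x)
    (hGCα : ∀ x, ∀ κ ∈ C₁, κ ∈ h98_U2 v₁ v₂ → κ ∈ Gα x)
    (hGCβ : ∀ x, ∀ κ ∈ C₁, κ ∈ h98_U2 v₁ v₂ → κ ∈ Gβ x)
    (hGωα : ∀ x, Nα (ω x) ∈ Gα x) (hGyα : ∀ x, Nα (y x : G₂) ∈ Gα x)
    (hGωβ : ∀ x, Nβ (ω x) ∈ Gβ x) (hGyβ : ∀ x, Nβ (y x : G₂) ∈ Gβ x)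
    (hnodeα : ∀ x (t : ↥(h98_U2 v₁ v₂)), (t : G₁) ∈ Gα x → r₁ t ∈ T → r₂ t ∈ T → r₁ t = r₂ t)
    (hnodeβ : ∀ x (t : ↥(h98_U2 v₁ v₂)), (t : G₁) ∈ Gβ x → r₁ t ∈ T → r₂ t ∈ T → r₁ t = r₂ t) :
    ∃ c₁ ∈ T, ∃ c₃ ∈ T, ∀ x, ζ₁ x ^ (q ^ 2 - 1) = c₁ * ζ₂ x ^ (q ^ 2 - 1) ∧
      ζ₃ x ^ (q ^ 2 - 1) = c₃ * ζ₂ x ^ (q ^ 2 - 1) := by
  have hNα : ∀ f ∈ h98_U3 a b c, Nα f ∈ h98_U2 v₁ v₂ := fun f hf =>
    h98_norm_mem a b c v₁ v₂ Nα 1 1 0 0 0 q (fun f => by rw [hα₁]; ring)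
      (fun f => by rw [hα₂]; ring) hf
  have hNβ : ∀ f ∈ h98_U3 a b c, Nβ f ∈ h98_U2 v₁ v₂ := fun f hf =>
    h98_norm_mem a b c v₁ v₂ Nβ q 0 0 0 1 1 (fun f => by rw [hβ₁]; ring)
      (fun f => by rw [hβ₂]; ring) hf
  obtain ⟨cα, hcα, hα⟩ := h98_const_rel hm a b c v₁ v₂ C₁ hC ϖ₁ hϖ₁ hϖ₁v Nα hNα
    (ρ₂₀ * ρ₁₁ ^ (q - 1)) (ρ₀₂ ^ q) r₁ r₂ (MonoidHom.id Λ) φ Function.injective_id hφ
    (fun f h => ⟨by simpa using (hNRα f h).1, by simpa using (hNRα f h).2⟩)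
    T (fun t _ => rfl) hφT hTroot hrC₁ hrC₂ u (by simp [hu₁, hu₂]) (by simp [hu₃]) hnew.1
    e y ω hfac (fun x => ζ₁ x * ζ₂ x ^ (q - 1)) (fun x => ζ₃ x ^ q)
    (fun x => T.mul_mem (hζ₁ x) (T.pow_mem (hζ₂ x) _)) (fun x => T.pow_mem (hζ₃ x) _)
    (fun x => by simp [he₁ x, he₂ x, mul_pow, mul_mul_mul_comm])
    (fun x => by simp [he₃ x, mul_pow])
    Gα hGrootα hGCα hGωα hGyα hnodeα
  obtain ⟨cβ, hcβ, hβ⟩ := h98_const_rel hm a b c v₁ v₂ C₁ hC ϖ₁ hϖ₁ hϖ₁v Nβ hNβ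
    (ρ₂₀ ^ q) (ρ₁₁ ^ (q - 1) * ρ₀₂) r₁ r₂ φ (MonoidHom.id Λ) hφ Function.injective_id
    (fun f h => ⟨by simpa using (hNRβ f h).1, by simpa using (hNRβ f h).2⟩)
    T hφT (fun t _ => rfl) hTroot hrC₁ hrC₂ u (by simp [hu₁]) (by simp [hu₂, hu₃]) hnew.2
    e y ω hfac (fun x => ζ₁ x ^ q) (fun x => ζ₂ x ^ (q - 1) * ζ₃ x)
    (fun x => T.pow_mem (hζ₁ x) _) (fun x => T.mul_mem (T.pow_mem (hζ₂ x) _) (hζ₃ x))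
    (fun x => by simp [he₁ x, mul_pow])
    (fun x => by simp [he₂ x, he₃ x, mul_pow, mul_mul_mul_comm])
    Gβ hGrootβ hGCβ hGωβ hGyβ hnodeβ
  refine ⟨cβ ^ q * cα⁻¹, T.mul_mem (T.pow_mem hcβ _) (T.inv_mem hcα), cβ * (cα ^ q)⁻¹,
    T.mul_mem hcβ (T.inv_mem (T.pow_mem hcα _)), fun x => ?_⟩
  exact h98_mul_alg (ζ₁ x) (ζ₂ x) (ζ₃ x) cα cβ hq (hα x) (hβ x)

end Const

end Fermat.Agent.S36
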