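import Mathlib
import Fermat.Agent.S36.h80_LocGen
import Fermat.Agent.S36.h80_LocUnit
import Fermat.Agent.S36.h94_LocGlueVal
import Fermat.Agent.S36.h94_NZGeneric
import Fermat.Agent.S36.h98_EasyCore

/-!
# S36 / row NZ, assembly (helper94)

Generic (valuation-language) form of step NZ-D.  `K` is the field of constants, `F` a function
field with a valuation family `V`.

* `h94_root_const` : if `K` contains a primitive `n`-th root of unity and `t ^ n ≡ 1` at a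
  valuation, then `t ≡ ξ` for a constant `n`-th root of unity `ξ`;
* `h94_nz_phi` : normalisation of `φ` with `N u = κ φ ^ n`, `N u ≡ 1`: after dividing by a power
  of a uniformising constant, `φ` is congruent to unit constants on both components;
* `h94_nz_node_ratio` : at a node, `T / φ ∈ B_s`, `T ≡ d1, d2`, `φ ≡ f1, f2` on the two
  components (constants) forces `d1 / d2 ≡ f1 / f2`;
* `h94_nz_ratio_const` : hence the root of unity `d1 x / d2 x` does not depend on the node `x`;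
* `h94_nz_const` : the two relations (for the two degeneracy maps) give constants `c1, c3` with
  `z1 x ^ (q ^ 2 - 1) = c1 * z2 x ^ (q ^ 2 - 1)` and `z3 x ^ (q ^ 2 - 1) = c3 * z2 x ^ (q ^ 2 - 1)`
  at every triple point `x`;
* `h94_nz_twist` : the `Γ`-twist on all branches through a point;
* `h94_nz_triple` : the assembled statement at the triple points.
-/

set_option autoImplicit false
set_option linter.unusedSectionVars false
set_option linter.unusedVariables false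

namespace Fermat.Agent.S36

section OneField

variable {F : Type*} [Field F] {ι : Type*} (V : h80_ValFam F ι)

/-- An element congruent to a unit of the valuation is a unit of the valuation. -/
theorem h94_v_eq_zero_of_cong (i : ι) {φ f : F} (hf0 : f ≠ 0) (hf : V.v i f = 0)
    (h : h94_Vge V i 1 (φ - f)) : φ ≠ 0 ∧ V.v i φ = 0 := by
  have hφ0 : φ ≠ 0 := by
    rintro rfl
    rw [zero_sub] at h
    have h' := h94_vge_neg V i h
    rw [neg_neg] at h'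
    have := h'.resolve_left hf0
    omega
  refine ⟨hφ0, ?_⟩
  by_cases hd : φ - f = 0
  · rw [sub_eq_zero.1 hd]; exact hf
  have hd1 := h.resolve_left hd
  have h1 := V.map_add i f (φ - f) hf0 hd (by rw [add_sub_cancel]; exact hφ0)
  rw [add_sub_cancel] at h1
  have hnd : -(φ - f) ≠ 0 := neg_ne_zero.2 hd
  have h2 := V.map_add i φ (-(φ - f)) hφ0 hnd
    (by rw [← sub_eq_add_neg, sub_sub_cancel]; exact hf0)
  rw [← sub_eq_add_neg, sub_sub_cancel, h94_v_neg V i hd] at h2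
  omega

/-- `T / φ ∈ B_s` as soon as `v φ ≤ v T` at all valuations through `s`. -/
theorem h94_inLoc_div_of_val (s : Ideal V.B) [s.IsPrime] {T φ : F} (hT : T ≠ 0) (hφ : φ ≠ 0)
    (h : ∀ i, V.Through s i → V.v i φ ≤ V.v i T) : V.InLoc s (T / φ) := by
  rw [h80_inLoc_iff V s (div_ne_zero hT hφ)]
  intro i hi
  rw [h80_v_div V i hT hφ]
  have := h i hi
  omega

variable {K : Type*} [Field K] [Algebra K F]

/-- If the constants contain a primitive `n`-th root of unity, an element with `t ^ n ≡ 1` at a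
valuation is congruent to a constant `n`-th root of unity. -/
theorem h94_root_const (i : ι) {n : ℕ} (hn : 0 < n) (hprim : ∃ ω : K, IsPrimitiveRoot ω n)
    (t : F) (h : h94_Vge V i 1 (t ^ n - 1)) :
    ∃ ξ : K, ξ ^ n = 1 ∧ h94_Vge V i 1 (t - algebraMap K F ξ) := by
  classical
  obtain ⟨ω, hω⟩ := hprim
  have hpoly := Polynomial.X_pow_sub_one_eq_prod hn hω
  have hev : t ^ n - 1 = ∏ ξ ∈ Polynomial.nthRootsFinset n (1 : K), (t - algebraMap K F ξ) := by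
    have h1 := congrArg (fun p : Polynomial K => Polynomial.aeval t p) hpoly
    simp only [map_sub, map_pow, Polynomial.aeval_X, map_one, map_prod, Polynomial.aeval_C]
      at h1
    exact h1
  by_contra hcon
  push Not at hcon
  have hne : ∀ ξ ∈ Polynomial.nthRootsFinset n (1 : K), t - algebraMap K F ξ ≠ 0 := by
    intro ξ hξ h0
    exact hcon ξ ((Polynomial.mem_nthRootsFinset hn 1).1 hξ) (Or.inl h0)
  have hlt : ∀ ξ ∈ Polynomial.nthRootsFinset n (1 : K), V.v i (t - algebraMap K F ξ) ≤ 0 := by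
    intro ξ hξ
    by_contra h1
    exact hcon ξ ((Polynomial.mem_nthRootsFinset hn 1).1 hξ) (Or.inr (by omega))
  have hprod0 : (∏ ξ ∈ Polynomial.nthRootsFinset n (1 : K), (t - algebraMap K F ξ)) ≠ 0 :=
    Finset.prod_ne_zero_iff.2 hne
  have hv := h80_v_prod V i (Polynomial.nthRootsFinset n (1 : K))
    (fun ξ => t - algebraMap K F ξ) hne
  have hle : ∑ ξ ∈ Polynomial.nthRootsFinset n (1 : K), V.v i (t - algebraMap K F ξ) ≤ 0 :=
    Finset.sum_nonpos hlt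
  rw [hev] at h
  have := h.resolve_left hprod0
  omega

/-- **Normalisation of `φ`.**  If `Tu = κ φ ^ n` with `κ` a constant and `Tu ≡ 1` on both
components `wF, wV`, then `φ / π ^ j` is congruent to unit constants on both components. -/
theorem h94_nz_phi (wF wV : ι) {n : ℕ} (hn : 0 < n) (hprim : ∃ ω : K, IsPrimitiveRoot ω n)
    (hroot : ∀ c : K, c ≠ 0 → V.v wF (algebraMap K F c) = 0 → ∃ b : K, b ^ n = c)
    (hconstV : ∀ c : K, c ≠ 0 → V.v wV (algebraMap K F c) = V.v wF (algebraMap K F c))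
    (π : K) (hπ0 : π ≠ 0) (hπ : V.v wF (algebraMap K F π) = 1)
    (Tu φ : F) (κ : K) (hκ : κ ≠ 0) (hφ0 : φ ≠ 0) (hTu : Tu = algebraMap K F κ * φ ^ n)
    (h1 : h94_Vge V wF 1 (Tu - 1)) (h2 : h94_Vge V wV 1 (Tu - 1)) :
    ∃ (j : ℤ) (f1 f2 : K), f1 ≠ 0 ∧ f2 ≠ 0 ∧ V.v wF (algebraMap K F f1) = 0 ∧
      V.v wF (algebraMap K F f2) = 0 ∧
      h94_Vge V wF 1 (φ / algebraMap K F π ^ j - algebraMap K F f1) ∧
      h94_Vge V wV 1 (φ / algebraMap K F π ^ j - algebraMap K F f2) := by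
  have hinj : Function.Injective (algebraMap K F) := (algebraMap K F).injective
  have ha0 : ∀ c : K, c ≠ 0 → algebraMap K F c ≠ 0 := fun c hc =>
    (map_ne_zero (algebraMap K F)).2 hc
  have hκF := ha0 κ hκ
  have hπF := ha0 π hπ0
  have hn' : (n : ℤ) ≠ 0 := by exact_mod_cast hn.ne'
  -- valuations of `Tu`
  have hTu1 := (h94_v_eq_zero_of_cong V wF one_ne_zero (h80_v_one V wF) h1)
  have hTu2 := (h94_v_eq_zero_of_cong V wV one_ne_zero (h80_v_one V wV) h2)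
  have e1 : V.v wF (algebraMap K F κ) + n * V.v wF φ = 0 := by
    have := hTu1.2
    rw [hTu, V.map_mul wF _ _ hκF (pow_ne_zero n hφ0), h80_v_pow V wF hφ0] at this
    exact this
  have e2 : V.v wF (algebraMap K F κ) + n * V.v wV φ = 0 := by
    have := hTu2.2
    rw [hTu, V.map_mul wV _ _ hκF (pow_ne_zero n hφ0), h80_v_pow V wV hφ0, hconstV κ hκ] at this
    exact this
  have e3 : V.v wV φ = V.v wF φ := by
    have : (n : ℤ) * V.v wV φ = n * V.v wF φ := by omega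
    exact mul_left_cancel₀ hn' this
  set j : ℤ := V.v wF φ with hj
  have hπV : V.v wV (algebraMap K F π) = 1 := by rw [hconstV π hπ0, hπ]
  have hπj0 : algebraMap K F π ^ j ≠ 0 := zpow_ne_zero j hπF
  set φ' : F := φ / algebraMap K F π ^ j with hφ'
  have hφ'0 : φ' ≠ 0 := div_ne_zero hφ0 hπj0
  have hφ'F : V.v wF φ' = 0 := by
    rw [hφ', h80_v_div V wF hφ0 hπj0, h80_v_zpow V wF hπF, hπ]; omega
  have hφ'V : V.v wV φ' = 0 := by
    rw [hφ', h80_v_div V wV hφ0 hπj0, h80_v_zpow V wV hπF, hπV, e3]; omega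
  -- the constant `κ' = κ π ^ (n j)`
  set κ' : K := κ * π ^ (n * j) with hκ'
  have hκ'0 : κ' ≠ 0 := mul_ne_zero hκ (zpow_ne_zero _ hπ0)
  have hκ'v : V.v wF (algebraMap K F κ') = 0 := by
    rw [hκ', map_mul, map_zpow₀, V.map_mul wF _ _ hκF (zpow_ne_zero _ hπF),
      h80_v_zpow V wF hπF, hπ]
    have : (n : ℤ) * j * 1 = n * V.v wF φ := by rw [hj]; ring
    omega
  obtain ⟨b, hb⟩ := hroot κ' hκ'0 hκ'v
  have hb0 : b ≠ 0 := by
    rintro rfl
    rw [zero_pow hn.ne'] at hb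
    exact hκ'0 hb.symm
  have hbF := ha0 b hb0
  have hbv : V.v wF (algebraMap K F b) = 0 := by
    have h3 := h80_v_pow V wF hbF n
    rw [← map_pow, hb, hκ'v] at h3
    rcases mul_eq_zero.1 h3.symm with h4 | h4
    · exact absurd h4 hn'
    · exact h4
  have hbvV : V.v wV (algebraMap K F b) = 0 := by rw [hconstV b hb0, hbv]
  -- `(b φ') ^ n = Tu`
  have hpow : (algebraMap K F b * φ') ^ n = Tu := by
    rw [mul_pow, ← map_pow, hb, hκ', map_mul, map_zpow₀, hφ', div_pow, hTu, ← zpow_natCast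
      (algebraMap K F π ^ j) n, ← zpow_mul, zpow_mul, zpow_natCast, zpow_mul, zpow_natCast]
    have h5 : ((algebraMap K F π ^ j) ^ n) ≠ 0 := pow_ne_zero n hπj0
    have h6 : (algebraMap K F π ^ (n : ℤ)) ^ j = (algebraMap K F π ^ j) ^ n := by
      rw [← zpow_mul, mul_comm, zpow_mul, zpow_natCast]
    rw [zpow_natCast] at h6
    rw [h6]
    field_simp
  have hc1 : h94_Vge V wF 1 ((algebraMap K F b * φ') ^ n - 1) := by rw [hpow]; exact h1
  have hc2 : h94_Vge V wV 1 ((algebraMap K F b * φ') ^ n - 1) := by rw [hpow]; exact h2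
  obtain ⟨ξ1, hξ1, hξ1c⟩ := h94_root_const V wF hn hprim _ hc1
  obtain ⟨ξ2, hξ2, hξ2c⟩ := h94_root_const V wV hn hprim _ hc2
  have hξ10 : ξ1 ≠ 0 := by
    rintro rfl
    rw [zero_pow hn.ne'] at hξ1
    exact zero_ne_one hξ1
  have hξ20 : ξ2 ≠ 0 := by
    rintro rfl
    rw [zero_pow hn.ne'] at hξ2
    exact zero_ne_one hξ2
  have hξ1v : V.v wF (algebraMap K F ξ1) = 0 :=
    h94_v_root V wF hn.ne' (by rw [← map_pow, hξ1, map_one])
  have hξ2v : V.v wF (algebraMap K F ξ2) = 0 :=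
    h94_v_root V wF hn.ne' (by rw [← map_pow, hξ2, map_one])
  refine ⟨j, ξ1 / b, ξ2 / b, div_ne_zero hξ10 hb0, div_ne_zero hξ20 hb0, ?_, ?_, ?_, ?_⟩
  · rw [map_div₀, h80_v_div V wF (ha0 ξ1 hξ10) hbF, hξ1v, hbv]; rfl
  · rw [map_div₀, h80_v_div V wF (ha0 ξ2 hξ20) hbF, hξ2v, hbv]; rfl
  · have e : φ' - algebraMap K F (ξ1 / b) =
        (algebraMap K F b * φ' - algebraMap K F ξ1) / algebraMap K F b := by
      rw [map_div₀]; field_simp
    rw [e]
    exact h94_vge_div_unit V wF hξ1c hbF hbv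
  · have e : φ' - algebraMap K F (ξ2 / b) =
        (algebraMap K F b * φ' - algebraMap K F ξ2) / algebraMap K F b := by
      rw [map_div₀]; field_simp
    rw [e]
    exact h94_vge_div_unit V wV hξ2c hbF hbvV

/-- **Node ratio.**  At a point `s` on both components `wF, wV`: if `T / φ ∈ B_s`, `T ≡ d1` and
`φ ≡ f1` on `wF`, `T ≡ d2` and `φ ≡ f2` on `wV` (all four unit constants), then
`d1 / d2 ≡ f1 / f2`. -/
theorem h94_nz_node_ratio (s : Ideal V.B) [s.IsPrime] (wF wV : ι) (hF : V.Through s wF)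
    (hV : V.Through s wV)
    (hconst : ∀ c : K, c ≠ 0 → V.v wF (algebraMap K F c) = 0 →
      ∀ i, V.Through s i → V.v i (algebraMap K F c) = 0)
    (T φ : F) (hmem : V.InLoc s (T / φ))
    (f1 f2 d1 d2 : K) (hf1 : f1 ≠ 0) (hf2 : f2 ≠ 0) (hd1 : d1 ≠ 0) (hd2 : d2 ≠ 0)
    (hf1v : V.v wF (algebraMap K F f1) = 0) (hf2v : V.v wF (algebraMap K F f2) = 0)
    (hd1v : V.v wF (algebraMap K F d1) = 0) (hd2v : V.v wF (algebraMap K F d2) = 0)
    (hφ1 : h94_Vge V wF 1 (φ - algebraMap K F f1))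
    (hφ2 : h94_Vge V wV 1 (φ - algebraMap K F f2))
    (hT1 : h94_Vge V wF 1 (T - algebraMap K F d1))
    (hT2 : h94_Vge V wV 1 (T - algebraMap K F d2)) :
    h94_Vge V wF 1 (algebraMap K F (d1 * d2⁻¹ - f1 * f2⁻¹)) := by
  have ha0 : ∀ c : K, c ≠ 0 → algebraMap K F c ≠ 0 := fun c hc =>
    (map_ne_zero (algebraMap K F)).2 hc
  have hf1F := ha0 f1 hf1
  have hf2F := ha0 f2 hf2
  have hd1F := ha0 d1 hd1
  have hd2F := ha0 d2 hd2
  have hf2vV := hconst f2 hf2 hf2v wV hV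
  have hd2vV := hconst d2 hd2 hd2v wV hV
  obtain ⟨hφ0, hφF⟩ := h94_v_eq_zero_of_cong V wF hf1F hf1v hφ1
  obtain ⟨-, hφV⟩ := h94_v_eq_zero_of_cong V wV hf2F hf2vV hφ2
  -- the two congruences for `t = T / φ`
  have key : ∀ (w : ι) (d f : K), d ≠ 0 → f ≠ 0 → V.v w (algebraMap K F d) = 0 →
      V.v w (algebraMap K F f) = 0 → V.v w φ = 0 →
      h94_Vge V w 1 (φ - algebraMap K F f) → h94_Vge V w 1 (T - algebraMap K F d) →
      h94_Vge V w 1 (T / φ - algebraMap K F (d * f⁻¹)) := by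
    intro w d f hd hf hdv hfv hφv hφc hTc
    have hfF := ha0 f hf
    have hdF := ha0 d hd
    have e : T / φ - algebraMap K F (d * f⁻¹) =
        (algebraMap K F f * (T - algebraMap K F d) - algebraMap K F d * (φ - algebraMap K F f)) /
          (φ * algebraMap K F f) := by
      rw [map_mul, map_inv₀]; field_simp; ring
    rw [e]
    refine h94_vge_div_unit V w (h94_vge_sub V w
      (h94_vge_mul_left V w hTc (h94_vge_of_unit V w hfv))
      (h94_vge_mul_left V w hφc (h94_vge_of_unit V w hdv))) (mul_ne_zero hφ0 hfF) ?_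
    rw [V.map_mul w _ _ hφ0 hfF, hφv, hfv]; rfl
  have k1 := key wF d1 f1 hd1 hf1 hd1v hf1v hφF hφ1 hT1
  have k2 := key wV d2 f2 hd2 hf2 hd2vV hf2vV hφV hφ2 hT2
  -- the constants `d1 / f1`, `d2 / f2` are units of `B_s`
  have hc1 : d1 * f1⁻¹ ≠ 0 := mul_ne_zero hd1 (inv_ne_zero hf1)
  have hc2 : d2 * f2⁻¹ ≠ 0 := mul_ne_zero hd2 (inv_ne_zero hf2)
  have hc1v : V.v wF (algebraMap K F (d1 * f1⁻¹)) = 0 := by
    rw [map_mul, map_inv₀, V.map_mul wF _ _ hd1F (inv_ne_zero hf1F), h80_v_inv V wF hf1F,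
      hd1v, hf1v]; rfl
  have hc2v : V.v wF (algebraMap K F (d2 * f2⁻¹)) = 0 := by
    rw [map_mul, map_inv₀, V.map_mul wF _ _ hd2F (inv_ne_zero hf2F), h80_v_inv V wF hf2F,
      hd2v, hf2v]; rfl
  have hin1 := (h80_inLoc_of_through_zero V s (ha0 _ hc1) (hconst _ hc1 hc1v)).1
  have hin2 := (h80_inLoc_of_through_zero V s (ha0 _ hc2) (hconst _ hc2 hc2v)).1
  have hcmp : h94_Vge V wF 1 (algebraMap K F (d1 * f1⁻¹) - algebraMap K F (d2 * f2⁻¹)) := by
    refine h94_node_compare V s wF wV hF hV (T / φ) _ _ hmem hin1 hin2 k1 k2 ?_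
    by_cases hz : d1 * f1⁻¹ - d2 * f2⁻¹ = 0
    · left
      rw [← map_sub, hz, map_zero]
    have hzF := ha0 _ hz
    have hge : h94_Vge V wF 0 (algebraMap K F (d1 * f1⁻¹) - algebraMap K F (d2 * f2⁻¹)) :=
      h94_vge_sub V wF (h94_vge_of_unit V wF hc1v) (h94_vge_of_unit V wF hc2v)
    rw [← map_sub] at hge ⊢
    have hge' := hge.resolve_left hzF
    rcases hge'.lt_or_eq with hlt | heq
    · right; right; omega
    · right; left
      exact (h80_inLoc_of_through_zero V s hzF (hconst _ hz heq.symm)).2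
  -- multiply by the unit constant `f1 / d2`
  have hu : V.v wF (algebraMap K F (f1 * d2⁻¹)) = 0 := by
    rw [map_mul, map_inv₀, V.map_mul wF _ _ hf1F (inv_ne_zero hd2F), h80_v_inv V wF hd2F,
      hd2v, hf1v]; rfl
  have hfin := h94_vge_mul_left V wF hcmp (h94_vge_of_unit V wF hu)
  have e : algebraMap K F (f1 * d2⁻¹) *
      (algebraMap K F (d1 * f1⁻¹) - algebraMap K F (d2 * f2⁻¹)) =
      algebraMap K F (d1 * d2⁻¹ - f1 * f2⁻¹) := by
    rw [← map_sub, ← map_mul]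
    congr 1
    field_simp
  rw [e] at hfin
  exact hfin

/-- **The ratio is the same root of unity at all nodes.** -/
theorem h94_nz_ratio_const {X : Type*} (s : X → Ideal V.B) [∀ x, (s x).IsPrime] (wF wV : ι)
    (hF : ∀ x, V.Through (s x) wF) (hV : ∀ x, V.Through (s x) wV)
    (hconst : ∀ x, ∀ c : K, c ≠ 0 → V.v wF (algebraMap K F c) = 0 →
      ∀ i, V.Through (s x) i → V.v i (algebraMap K F c) = 0)
    {n : ℕ} (hn : (n : F) ≠ 0) (hnv : V.v wF (n : F) = 0)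
    (T : X → F) (φ : F) (hmem : ∀ x, V.InLoc (s x) (T x / φ))
    (f1 f2 : K) (hf1 : f1 ≠ 0) (hf2 : f2 ≠ 0)
    (hf1v : V.v wF (algebraMap K F f1) = 0) (hf2v : V.v wF (algebraMap K F f2) = 0)
    (hφ1 : h94_Vge V wF 1 (φ - algebraMap K F f1))
    (hφ2 : h94_Vge V wV 1 (φ - algebraMap K F f2))
    (d1 d2 : X → K) (hd1 : ∀ x, d1 x ^ n = 1) (hd2 : ∀ x, d2 x ^ n = 1)
    (hT1 : ∀ x, h94_Vge V wF 1 (T x - algebraMap K F (d1 x)))
    (hT2 : ∀ x, h94_Vge V wV 1 (T x - algebraMap K F (d2 x))) :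
    ∀ x x', d1 x * (d2 x)⁻¹ = d1 x' * (d2 x')⁻¹ := by
  have hn0 : n ≠ 0 := by
    rintro rfl
    exact hn (by simp)
  have hne : ∀ (d : X → K), (∀ x, d x ^ n = 1) → ∀ x, d x ≠ 0 := by
    intro d hd x h0
    have := hd x
    rw [h0, zero_pow hn0] at this
    exact zero_ne_one this
  have hv : ∀ (d : X → K), (∀ x, d x ^ n = 1) → ∀ x, V.v wF (algebraMap K F (d x)) = 0 := by
    intro d hd x
    exact h94_v_root V wF hn0 (by rw [← map_pow, hd x, map_one])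
  have hcong : ∀ x, h94_Vge V wF 1 (algebraMap K F (d1 x * (d2 x)⁻¹ - f1 * f2⁻¹)) := fun x =>
    h94_nz_node_ratio V (s x) wF wV (hF x) (hV x) (hconst x) (T x) φ (hmem x) f1 f2 (d1 x) (d2 x)
      hf1 hf2 (hne d1 hd1 x) (hne d2 hd2 x) hf1v hf2v (hv d1 hd1 x) (hv d2 hd2 x) hφ1 hφ2
      (hT1 x) (hT2 x)
  intro x x'
  have h := h94_vge_sub V wF (hcong x) (hcong x')
  rw [← map_sub] at h
  have e : d1 x * (d2 x)⁻¹ - f1 * f2⁻¹ - (d1 x' * (d2 x')⁻¹ - f1 * f2⁻¹) =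
      d1 x * (d2 x)⁻¹ - d1 x' * (d2 x')⁻¹ := by ring
  rw [e, map_sub] at h
  have hr : ∀ x, (algebraMap K F (d1 x * (d2 x)⁻¹)) ^ n = 1 := by
    intro x
    rw [← map_pow, mul_pow, inv_pow, hd1 x, hd2 x, inv_one, mul_one, map_one]
  exact (algebraMap K F).injective (h94_root_rigid V wF hn hnv (hr x) (hr x') h)

/-- **NZ-D, constants.**  `z1, z2, z3` the gluing roots of unity at the triple points `x`,
`Tα x, Tβ x` the two norms of `g x ≡ (z1 x, z2 x, z3 x)`, with the residue table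
`Tα ≡ z1 z2 ^ (q-1)` (on `wF`), `≡ z3 ^ q` (on `wV`), `Tβ ≡ z1 ^ q` (on `wF`),
`≡ z2 ^ (q-1) z3` (on `wV`), and `Tα x / φα ∈ B_(sα x)`, `Tβ x / φβ ∈ B_(sβ x)` with `φα, φβ`
congruent to unit constants on both components.  Then there are constants `c1, c3` with
`z1 ^ (q²-1) = c1 z2 ^ (q²-1)` and `z3 ^ (q²-1) = c3 z2 ^ (q²-1)` at every `x`. -/
theorem h94_nz_const {X : Type*} (sα sβ : X → Ideal V.B) [∀ x, (sα x).IsPrime]
    [∀ x, (sβ x).IsPrime] (wF wV : ι)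
    (hαF : ∀ x, V.Through (sα x) wF) (hαV : ∀ x, V.Through (sα x) wV)
    (hβF : ∀ x, V.Through (sβ x) wF) (hβV : ∀ x, V.Through (sβ x) wV)
    (hconstα : ∀ x, ∀ c : K, c ≠ 0 → V.v wF (algebraMap K F c) = 0 →
      ∀ i, V.Through (sα x) i → V.v i (algebraMap K F c) = 0)
    (hconstβ : ∀ x, ∀ c : K, c ≠ 0 → V.v wF (algebraMap K F c) = 0 →
      ∀ i, V.Through (sβ x) i → V.v i (algebraMap K F c) = 0)
    {q n : ℕ} (hq : 1 ≤ q) (hn : (n : F) ≠ 0) (hnv : V.v wF (n : F) = 0)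
    (Tα Tβ : X → F) (φα φβ : F)
    (hmemα : ∀ x, V.InLoc (sα x) (Tα x / φα)) (hmemβ : ∀ x, V.InLoc (sβ x) (Tβ x / φβ))
    (f1α f2α f1β f2β : K) (hf1α : f1α ≠ 0) (hf2α : f2α ≠ 0) (hf1β : f1β ≠ 0) (hf2β : f2β ≠ 0)
    (hf1αv : V.v wF (algebraMap K F f1α) = 0) (hf2αv : V.v wF (algebraMap K F f2α) = 0)
    (hf1βv : V.v wF (algebraMap K F f1β) = 0) (hf2βv : V.v wF (algebraMap K F f2β) = 0)
    (hφα1 : h94_Vge V wF 1 (φα - algebraMap K F f1α))
    (hφα2 : h94_Vge V wV 1 (φα - algebraMap K F f2α))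
    (hφβ1 : h94_Vge V wF 1 (φβ - algebraMap K F f1β))
    (hφβ2 : h94_Vge V wV 1 (φβ - algebraMap K F f2β))
    (z1 z2 z3 : X → K) (hz1 : ∀ x, z1 x ^ n = 1) (hz2 : ∀ x, z2 x ^ n = 1)
    (hz3 : ∀ x, z3 x ^ n = 1)
    (hTα1 : ∀ x, h94_Vge V wF 1 (Tα x - algebraMap K F (z1 x * z2 x ^ (q - 1))))
    (hTα2 : ∀ x, h94_Vge V wV 1 (Tα x - algebraMap K F (z3 x ^ q)))
    (hTβ1 : ∀ x, h94_Vge V wF 1 (Tβ x - algebraMap K F (z1 x ^ q)))
    (hTβ2 : ∀ x, h94_Vge V wV 1 (Tβ x - algebraMap K F (z2 x ^ (q - 1) * z3 x))) :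
    ∃ c1 c3 : K, c1 ^ n = 1 ∧ c3 ^ n = 1 ∧
      ∀ x, z1 x ^ (q ^ 2 - 1) = c1 * z2 x ^ (q ^ 2 - 1) ∧
        z3 x ^ (q ^ 2 - 1) = c3 * z2 x ^ (q ^ 2 - 1) := by
  have hn0 : n ≠ 0 := by
    rintro rfl
    exact hn (by simp)
  rcases isEmpty_or_nonempty X with hX | ⟨⟨x0⟩⟩
  · exact ⟨1, 1, one_pow n, one_pow n, fun x => (hX.false x).elim⟩
  have hne : ∀ (d : X → K), (∀ x, d x ^ n = 1) → ∀ x, d x ≠ 0 := by
    intro d hd x h0
    have := hd x
    rw [h0, zero_pow hn0] at this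
    exact zero_ne_one this
  have hz10 := hne z1 hz1
  have hz20 := hne z2 hz2
  have hz30 := hne z3 hz3
  -- the two ratios are independent of `x`
  have rα := h94_nz_ratio_const V sα wF wV hαF hαV hconstα hn hnv Tα φα hmemα f1α f2α hf1α hf2α
    hf1αv hf2αv hφα1 hφα2 (fun x => z1 x * z2 x ^ (q - 1)) (fun x => z3 x ^ q)
    (fun x => by rw [mul_pow, ← pow_mul, mul_comm (q - 1) n, pow_mul, hz1 x, hz2 x, one_pow,
      mul_one])
    (fun x => by rw [← pow_mul, mul_comm q n, pow_mul, hz3 x, one_pow]) hTα1 hTα2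
  have rβ := h94_nz_ratio_const V sβ wF wV hβF hβV hconstβ hn hnv Tβ φβ hmemβ f1β f2β hf1β hf2β
    hf1βv hf2βv hφβ1 hφβ2 (fun x => z1 x ^ q) (fun x => z2 x ^ (q - 1) * z3 x)
    (fun x => by rw [← pow_mul, mul_comm q n, pow_mul, hz1 x, one_pow])
    (fun x => by rw [mul_pow, ← pow_mul, mul_comm (q - 1) n, pow_mul, hz2 x, hz3 x, one_pow,
      mul_one]) hTβ1 hTβ2
  set cα : K := z1 x0 * z2 x0 ^ (q - 1) * (z3 x0 ^ q)⁻¹ with hcα
  set cβ : K := z1 x0 ^ q * (z2 x0 ^ (q - 1) * z3 x0)⁻¹ with hcβ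
  have hp : ∀ (w : K) (k : ℕ), w ^ n = 1 → (w ^ k) ^ n = 1 := by
    intro w k hw
    rw [← pow_mul, mul_comm, pow_mul, hw, one_pow]
  have hcαn : cα ^ n = 1 := by
    rw [hcα, mul_pow, mul_pow, inv_pow, hp _ _ (hz2 x0), hp _ _ (hz3 x0), hz1 x0, inv_one,
      mul_one, mul_one]
  have hcβn : cβ ^ n = 1 := by
    rw [hcβ, mul_pow, inv_pow, mul_pow, hp _ _ (hz1 x0), hp _ _ (hz2 x0), hz3 x0, mul_one,
      inv_one, mul_one]
  have hcα0 : cα ≠ 0 := by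
    rintro h0
    rw [h0, zero_pow hn0] at hcαn
    exact zero_ne_one hcαn
  have hcβ0 : cβ ≠ 0 := by
    rintro h0
    rw [h0, zero_pow hn0] at hcβn
    exact zero_ne_one hcβn
  refine ⟨cβ ^ q * cα⁻¹, cβ * (cα ^ q)⁻¹, ?_, ?_, fun x => ?_⟩
  · rw [mul_pow, inv_pow, ← pow_mul, mul_comm q n, pow_mul, hcαn, hcβn, one_pow, inv_one, mul_one]
  · rw [mul_pow, inv_pow, ← pow_mul, mul_comm q n, pow_mul, hcαn, hcβn, one_pow, inv_one, mul_one]
  · have h1 : z1 x * z2 x ^ (q - 1) = cα * z3 x ^ q := by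
      have := rα x x0
      rw [hcα, ← this]
      have h3 : z3 x ^ q ≠ 0 := pow_ne_zero q (hz30 x)
      rw [inv_mul_cancel_right₀ h3]
    have h2 : z1 x ^ q = cβ * (z2 x ^ (q - 1) * z3 x) := by
      have := rβ x x0
      rw [hcβ, ← this]
      have h3 : z2 x ^ (q - 1) * z3 x ≠ 0 := mul_ne_zero (pow_ne_zero _ (hz20 x)) (hz30 x)
      rw [inv_mul_cancel_right₀ h3]
    have h := h98_mul_alg (Units.mk0 (z1 x) (hz10 x)) (Units.mk0 (z2 x) (hz20 x))
      (Units.mk0 (z3 x) (hz30 x)) (Units.mk0 cα hcα0) (Units.mk0 cβ hcβ0) hq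
      (Units.ext (by simpa using h1)) (Units.ext (by simpa using h2))
    constructor
    · have := congrArg Units.val h.1
      simpa using this
    · have := congrArg Units.val h.2
      simpa using this

/-- **NZ-C on all branches through a point.**  `e ≡ ζ k * y` and `Γ ≡ cc k` on the branch `k`
(modulo `p_k ^ a k`), all `ζ k, cc k, lam` roots of unity, `ζ k ^ N = lam * cc k`: then
`e ^ N / Γ ≡ y'` on every branch for ONE unit `y'` of `B_m`. -/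
theorem h94_nz_twist (m : Ideal V.B) [m.IsPrime] {κ : Type*} (c : κ → ι) (a : κ → ℕ)
    (hc : ∀ k, V.Through m (c k)) (ha : ∀ k, 1 ≤ a k)
    (e y Γ lam : F) (ζ cc : κ → F) (N : ℕ) {n : ℕ} (hn : n ≠ 0)
    (hy0 : y ≠ 0) (hy : V.InLoc m y) (hy' : V.InLoc m y⁻¹)
    (hζ : ∀ k, ζ k ^ n = 1) (hcc : ∀ k, cc k ^ n = 1) (hlam : lam ^ n = 1)
    (hΓ0 : Γ ≠ 0)
    (hglue : ∀ k, (e = ζ k * y ∨ (a k : ℤ) ≤ V.v (c k) (e - ζ k * y)))
    (hΓ : ∀ k, h94_Vge V (c k) (a k) (Γ - cc k))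
    (hpow : ∀ k, ζ k ^ N = lam * cc k) :
    ∃ y' : F, y' ≠ 0 ∧ V.InLoc m y' ∧ V.InLoc m y'⁻¹ ∧
      ∀ k, (e ^ N / Γ = y' ∨ (a k : ℤ) ≤ V.v (c k) (e ^ N / Γ - y')) := by
  have hr0 : ∀ ξ : F, ξ ^ n = 1 → ξ ≠ 0 := by
    intro ξ hξ h0
    rw [h0, zero_pow hn] at hξ
    exact zero_ne_one hξ
  have hlam0 := hr0 lam hlam
  have hyv : ∀ i, V.Through m i → V.v i y = 0 := fun i hi =>
    h80_through_eq_zero_of_unit V m hy0 hy hy' hi
  have hy'0 : lam * y ^ N ≠ 0 := mul_ne_zero hlam0 (pow_ne_zero N hy0)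
  have hunit := h80_inLoc_of_through_zero V m hy'0 (fun i hi => by
    rw [V.map_mul i _ _ hlam0 (pow_ne_zero N hy0), h94_v_root V i hn hlam,
      h80_v_pow V i hy0, hyv i hi]; ring)
  refine ⟨lam * y ^ N, hy'0, hunit.1, hunit.2, fun k => ?_⟩
  have hcck0 := hr0 (cc k) (hcc k)
  have hcckv := h94_v_root V (c k) hn (hcc k)
  have hΓ1 : h94_Vge V (c k) 1 (Γ - cc k) :=
    h94_vge_mono V (c k) (by exact_mod_cast ha k) (hΓ k)
  have hΓv := (h94_v_eq_zero_of_cong V (c k) hcck0 hcckv hΓ1).2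
  have hg : h94_Vge V (c k) (a k) (e - ζ k * y) := by
    rcases hglue k with h | h
    · exact Or.inl (sub_eq_zero.2 h)
    · exact Or.inr h
  have h := h94_gamma_twist V (c k) (Int.natCast_nonneg _) e y (ζ k) Γ (cc k) lam N hy0
    (hyv _ (hc k)) (hr0 _ (hζ k)) (h94_v_root V (c k) hn (hζ k)) hΓ0 hΓv hlam0
    (h94_v_root V (c k) hn hlam) hg (hΓ k) (hpow k)
  rcases h with h | h
  · exact Or.inl (sub_eq_zero.1 h)
  · exact Or.inr h

/-- **NZ-C at a point with a single branch.** -/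
theorem h94_nz_single (m : Ideal V.B) [m.IsPrime] (i : ι) (a : ℕ) (hi : V.Through m i)
    (ha : 1 ≤ a) (e y Γ ζ cc : F) (N : ℕ) {n : ℕ} (hn : n ≠ 0)
    (hy0 : y ≠ 0) (hy : V.InLoc m y) (hy' : V.InLoc m y⁻¹)
    (hζ : ζ ^ n = 1) (hcc : cc ^ n = 1)
    (hglue : e = ζ * y ∨ (a : ℤ) ≤ V.v i (e - ζ * y))
    (hΓ : h94_Vge V i a (Γ - cc)) :
    ∃ y' : F, y' ≠ 0 ∧ V.InLoc m y' ∧ V.InLoc m y'⁻¹ ∧
      (e ^ N / Γ = y' ∨ (a : ℤ) ≤ V.v i (e ^ N / Γ - y')) := by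
  have hcc0 : cc ≠ 0 := by
    rintro rfl
    rw [zero_pow hn] at hcc
    exact zero_ne_one hcc
  have hΓ0 : Γ ≠ 0 := (h94_v_eq_zero_of_cong V i hcc0 (h94_v_root V i hn hcc)
    (h94_vge_mono V i (by exact_mod_cast ha) hΓ)).1
  have hlam : (ζ ^ N * cc⁻¹) ^ n = 1 := by
    rw [mul_pow, inv_pow, hcc, inv_one, mul_one, ← pow_mul, mul_comm, pow_mul, hζ, one_pow]
  obtain ⟨y', h1, h2, h3, h4⟩ := h94_nz_twist V m (fun _ : Unit => i) (fun _ => a)
    (fun _ => hi) (fun _ => ha) e y Γ (ζ ^ N * cc⁻¹) (fun _ => ζ) (fun _ => cc) N hn hy0 hy hy'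
    (fun _ => hζ) (fun _ => hcc) hlam hΓ0 (fun _ => hglue) (fun _ => hΓ)
    (fun _ => by rw [inv_mul_cancel_right₀ hcc0])
  exact ⟨y', h1, h2, h3, h4 ()⟩

end OneField

/-! ### The assembled statement at the triple points -/

section Triple

variable {F2 F1 K : Type*} [Field F2] [Field F1] [Field K] [Algebra K F2] [Algebra K F1]
  {ι2 ι1 : Type*} (V2 : h80_ValFam F2 ι2) (V1 : h80_ValFam F1 ι1)

/-- **NZ-D at the triple points.**  `P 0, P 1, P 2` are the three vertical valuations of level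
`q²` (`C20, C11, C02`), `a k` their multiplicities, `wF, wV` the two vertical valuations of level
`q`; `m x` the triple points, `sα x`, `sβ x` their images; `Nα, Nβ` the two norms with the
residue table `hNR`; `e x` the local equations, glued by `(LOC)` (`hLOC`).  Then there are
constant roots of unity `c1, c3` such that for every `Γ ≡ (c1, 1, c3)` the twisted local
equations `e x ^ (q²-1) / Γ` are congruent to ONE unit `y'` of `B_(m x)` on all three branches.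
-/
theorem h94_nz_triple (P : Fin 3 → ι2) (a : Fin 3 → ℕ) (ha : ∀ k, 1 ≤ a k) (wF wV : ι1)
    {q n : ℕ} (hq : 1 ≤ q)
    {X : Type*} (m : X → Ideal V2.B) [∀ x, (m x).IsPrime] (hP : ∀ x k, V2.Through (m x) (P k))
    (sα sβ : X → Ideal V1.B) [∀ x, (sα x).IsPrime] [∀ x, (sβ x).IsPrime]
    (hαF : ∀ x, V1.Through (sα x) wF) (hαV : ∀ x, V1.Through (sα x) wV)
    (hβF : ∀ x, V1.Through (sβ x) wF) (hβV : ∀ x, V1.Through (sβ x) wV)
    (hconstα : ∀ x, ∀ c : K, c ≠ 0 → V1.v wF (algebraMap K F1 c) = 0 →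
      ∀ i, V1.Through (sα x) i → V1.v i (algebraMap K F1 c) = 0)
    (hconstβ : ∀ x, ∀ c : K, c ≠ 0 → V1.v wF (algebraMap K F1 c) = 0 →
      ∀ i, V1.Through (sβ x) i → V1.v i (algebraMap K F1 c) = 0)
    (hn : (n : F1) ≠ 0) (hnv : V1.v wF (n : F1) = 0)
    (hroots : ∀ ξ : F2, ξ ^ n = 1 → ∃ z : K, algebraMap K F2 z = ξ)
    (Nα Nβ : F2 → F1)
    (hNR : ∀ (g : F2) (z : Fin 3 → K), (∀ k, z k ^ n = 1) →
      (∀ k, h94_Vge V2 (P k) 1 (g - algebraMap K F2 (z k))) →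
        h94_Vge V1 wF 1 (Nα g - algebraMap K F1 (z 0 * z 1 ^ (q - 1))) ∧
        h94_Vge V1 wV 1 (Nα g - algebraMap K F1 (z 2 ^ q)) ∧
        h94_Vge V1 wF 1 (Nβ g - algebraMap K F1 (z 0 ^ q)) ∧
        h94_Vge V1 wV 1 (Nβ g - algebraMap K F1 (z 1 ^ (q - 1) * z 2)))
    (φα φβ : F1)
    (f1α f2α f1β f2β : K) (hf1α : f1α ≠ 0) (hf2α : f2α ≠ 0) (hf1β : f1β ≠ 0) (hf2β : f2β ≠ 0)
    (hf1αv : V1.v wF (algebraMap K F1 f1α) = 0) (hf2αv : V1.v wF (algebraMap K F1 f2α) = 0)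
    (hf1βv : V1.v wF (algebraMap K F1 f1β) = 0) (hf2βv : V1.v wF (algebraMap K F1 f2β) = 0)
    (hφα1 : h94_Vge V1 wF 1 (φα - algebraMap K F1 f1α))
    (hφα2 : h94_Vge V1 wV 1 (φα - algebraMap K F1 f2α))
    (hφβ1 : h94_Vge V1 wF 1 (φβ - algebraMap K F1 f1β))
    (hφβ2 : h94_Vge V1 wV 1 (φβ - algebraMap K F1 f2β))
    (e : X → F2)
    (hmemα : ∀ x (y : F2), y ≠ 0 → V2.InLoc (m x) y → V2.InLoc (m x) y⁻¹ →
      V1.InLoc (sα x) (Nα (e x / y) / φα))
    (hmemβ : ∀ x (y : F2), y ≠ 0 → V2.InLoc (m x) y → V2.InLoc (m x) y⁻¹ →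
      V1.InLoc (sβ x) (Nβ (e x / y) / φβ))
    (hLOC : ∀ x, ∃ (ζ : Fin 3 → F2) (y : F2), (∀ k, V2.InLoc (m x) (ζ k) ∧ ζ k ^ n = 1) ∧
      y ≠ 0 ∧ V2.InLoc (m x) y ∧ V2.InLoc (m x) y⁻¹ ∧
      ∀ k, (e x = ζ k * y ∨ (a k : ℤ) ≤ V2.v (P k) (e x - ζ k * y))) :
    ∃ c1 c3 : K, c1 ^ n = 1 ∧ c3 ^ n = 1 ∧ ∀ Γ : F2,
      h94_Vge V2 (P 0) (a 0) (Γ - algebraMap K F2 c1) →
      h94_Vge V2 (P 1) (a 1) (Γ - 1) →
      h94_Vge V2 (P 2) (a 2) (Γ - algebraMap K F2 c3) →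
      ∀ x, ∃ y' : F2, y' ≠ 0 ∧ V2.InLoc (m x) y' ∧ V2.InLoc (m x) y'⁻¹ ∧
        ∀ k, (e x ^ (q ^ 2 - 1) / Γ = y' ∨
          (a k : ℤ) ≤ V2.v (P k) (e x ^ (q ^ 2 - 1) / Γ - y')) := by
  classical
  have hn0 : n ≠ 0 := by
    rintro rfl
    exact hn (by simp)
  choose ζ y hζ' hy0 hy hy' hglue using hLOC
  have hζ : ∀ x k, ζ x k ^ n = 1 := fun x k => (hζ' x k).2
  have hz : ∀ x k, ∃ z : K, algebraMap K F2 z = ζ x k := fun x k => hroots _ (hζ x k)
  choose z hzζ using hz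
  have hzn : ∀ x k, z x k ^ n = 1 := by
    intro x k
    apply (algebraMap K F2).injective
    rw [map_pow, hzζ, hζ x k, map_one]
  -- `g x = e x / y x ≡ z x k` on the branch `k`
  have hg : ∀ x k, h94_Vge V2 (P k) 1 (e x / y x - algebraMap K F2 (z x k)) := by
    intro x k
    rw [hzζ]
    exact h94_vge_mono V2 (P k) (by exact_mod_cast ha k)
      (h94_vge_glue_div V2 (P k) (e x) (y x) (ζ x k) (hy0 x)
        (h80_through_eq_zero_of_unit V2 (m x) (hy0 x) (hy x) (hy' x) (hP x k)) (hglue x k))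
  have hT := fun x => hNR (e x / y x) (z x) (hzn x) (hg x)
  obtain ⟨c1, c3, hc1, hc3, hrel⟩ := h94_nz_const V1 sα sβ wF wV hαF hαV hβF hβV hconstα hconstβ
    hq hn hnv (fun x => Nα (e x / y x)) (fun x => Nβ (e x / y x)) φα φβ
    (fun x => hmemα x (y x) (hy0 x) (hy x) (hy' x))
    (fun x => hmemβ x (y x) (hy0 x) (hy x) (hy' x))
    f1α f2α f1β f2β hf1α hf2α hf1β hf2β hf1αv hf2αv hf1βv hf2βv hφα1 hφα2 hφβ1 hφβ2
    (fun x => z x 0) (fun x => z x 1) (fun x => z x 2) (fun x => hzn x 0) (fun x => hzn x 1)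
    (fun x => hzn x 2) (fun x => (hT x).1) (fun x => (hT x).2.1) (fun x => (hT x).2.2.1)
    (fun x => (hT x).2.2.2)
  refine ⟨c1, c3, hc1, hc3, fun Γ hΓ1 hΓ2 hΓ3 x => ?_⟩
  have hΓ0 : Γ ≠ 0 := (h94_v_eq_zero_of_cong V2 (P 1) one_ne_zero (h80_v_one V2 (P 1))
    (h94_vge_mono V2 (P 1) (by exact_mod_cast ha 1) hΓ2)).1
  -- the constants `cc k` that `Γ` is congruent to
  set cc : Fin 3 → F2 := ![algebraMap K F2 c1, 1, algebraMap K F2 c3] with hccdef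
  have hccn : ∀ k, cc k ^ n = 1 := by
    intro k
    fin_cases k
    · show (algebraMap K F2 c1) ^ n = 1
      rw [← map_pow, hc1, map_one]
    · show (1 : F2) ^ n = 1
      exact one_pow n
    · show (algebraMap K F2 c3) ^ n = 1
      rw [← map_pow, hc3, map_one]
  have hΓ : ∀ k, h94_Vge V2 (P k) (a k) (Γ - cc k) := by
    intro k
    fin_cases k
    · exact hΓ1
    · exact hΓ2
    · exact hΓ3
  have hpow : ∀ k, ζ x k ^ (q ^ 2 - 1) = ζ x 1 ^ (q ^ 2 - 1) * cc k := by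
    intro k
    fin_cases k
    · show ζ x 0 ^ (q ^ 2 - 1) = ζ x 1 ^ (q ^ 2 - 1) * algebraMap K F2 c1
      rw [← hzζ, ← hzζ, ← map_pow, ← map_pow, ← map_mul, (hrel x).1, mul_comm]
    · show ζ x 1 ^ (q ^ 2 - 1) = ζ x 1 ^ (q ^ 2 - 1) * 1
      rw [mul_one]
    · show ζ x 2 ^ (q ^ 2 - 1) = ζ x 1 ^ (q ^ 2 - 1) * algebraMap K F2 c3
      rw [← hzζ, ← hzζ, ← map_pow, ← map_pow, ← map_mul, (hrel x).2, mul_comm]
  exact h94_nz_twist V2 (m x) P a (hP x) ha (e x) (y x) Γ (ζ x 1 ^ (q ^ 2 - 1)) (ζ x) cc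
    (q ^ 2 - 1) hn0 (hy0 x) (hy x) (hy' x) (hζ x) hccn
    (by rw [← pow_mul, mul_comm, pow_mul, hζ x 1, one_pow]) hΓ0 (hglue x) hΓ hpow

end Triple

end Fermat.Agent.S36
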