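import Mathlib
import Fermat.Agent.S36.h94_NZAssembly
import Fermat.Agent.GAL.h67_CorrPrincipal

/-!
# S36 / row NZ: (NZ-MEM) (helper96)

The hypotheses `hmemα`, `hmemβ` of `h94_nz_triple` / `h94_nz_charts`:
`N (e / y) / φ` lies in the local ring `B_s` of the node `s` below the triple point `m`
(`e` a local equation at `m`, `y` a unit of `B_m`, `N` the norm, `φ` with `div φ = N_* div e`
near `s`).

* `h96_FibDatum` : the fibre datum at an index `i'` of the lower family: finitely many indices of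
  the upper family through `m`, with integer multiplicities, computing `v i' ∘ N` and matching
  `v i' φ` against `e`;
* `h96_nz_mem` : a fibre datum at every index through `s` gives `N (e / y) / φ ∈ B_s`;
* `h96_fibDatum_of_finset`, `h96_fibDatum_one`, `h96_fibDatum_two` : producers (vertical rows);
* `h96_nz_mem_fib` : the same with global functions `fib`, `mult`;
* `h96_pushforwardAlong_eq_sum_fiber`, `h96_ord_normAlong` : the push-forward of a divisor and the
  order of a norm as sums over the fibre of a place;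
* `h96_fibDatum_hor` : the fibre datum at a horizontal index (a place `P'` of the lower function
  field), from the norm formula of the Prelude, `(TP)` and `div φ = ψ_* E` at `P'`.
-/

set_option autoImplicit false

noncomputable section

namespace Fermat.Agent.S36

open AlgebraicCurve Fermat.Agent.GAL

section Generic

variable {F2 F1 : Type*} [Field F2] [Field F1] {ι2 ι1 : Type*}
  (V2 : h80_ValFam F2 ι2) (V1 : h80_ValFam F1 ι1)

/-- **Fibre datum** at the index `i'` of the lower family `V1`, relative to the point `m` of the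
upper family `V2`: a finite list of indices of `V2` through `m` with integer multiplicities such
that `v i' (N g) = ∑ mult * v i g` for all `g ≠ 0`, and `v i' φ = ∑ mult * v i e`. -/
def h96_FibDatum (m : Ideal V2.B) (N : F2 → F1) (e : F2) (φ : F1) (i' : ι1) : Prop :=
  ∃ l : List (ℤ × ι2), (∀ p ∈ l, V2.Through m p.2) ∧
    (∀ g : F2, g ≠ 0 → V1.v i' (N g) = (l.map fun p => p.1 * V2.v p.2 g).sum) ∧
    V1.v i' φ = (l.map fun p => p.1 * V2.v p.2 e).sum

/-- A fibre datum from a finite set (of any type) of indices with multiplicities. -/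
theorem h96_fibDatum_of_finset {τ : Type*} (m : Ideal V2.B) (N : F2 → F1) (e : F2) (φ : F1)
    (i' : ι1) (T : Finset τ) (c : τ → ι2) (mult : τ → ℤ) (hthr : ∀ t ∈ T, V2.Through m (c t))
    (hN : ∀ g : F2, g ≠ 0 → V1.v i' (N g) = ∑ t ∈ T, mult t * V2.v (c t) g)
    (hφ : V1.v i' φ = ∑ t ∈ T, mult t * V2.v (c t) e) :
    h96_FibDatum V2 V1 m N e φ i' := by
  refine ⟨T.toList.map fun t => (mult t, c t), ?_, ?_, ?_⟩
  · intro p hp
    obtain ⟨t, ht, rfl⟩ := List.mem_map.1 hp
    exact hthr t (Finset.mem_toList.1 ht)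
  · intro g hg
    rw [hN g hg, List.map_map]
    exact (Finset.sum_map_toList T _).symm
  · rw [hφ, List.map_map]
    exact (Finset.sum_map_toList T _).symm

/-- A fibre datum with one index. -/
theorem h96_fibDatum_one (m : Ideal V2.B) (N : F2 → F1) (e : F2) (φ : F1) (i' : ι1)
    (c : ι2) (a : ℤ) (hc : V2.Through m c)
    (hN : ∀ g : F2, g ≠ 0 → V1.v i' (N g) = a * V2.v c g)
    (hφ : V1.v i' φ = a * V2.v c e) : h96_FibDatum V2 V1 m N e φ i' := by
  refine ⟨[(a, c)], ?_, ?_, ?_⟩
  · intro p hp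
    rw [List.mem_singleton] at hp
    rw [hp]
    exact hc
  · intro g hg
    rw [hN g hg]
    simp
  · rw [hφ]
    simp

/-- A fibre datum with two indices. -/
theorem h96_fibDatum_two (m : Ideal V2.B) (N : F2 → F1) (e : F2) (φ : F1) (i' : ι1)
    (c1 c2 : ι2) (a1 a2 : ℤ) (hc1 : V2.Through m c1) (hc2 : V2.Through m c2)
    (hN : ∀ g : F2, g ≠ 0 → V1.v i' (N g) = a1 * V2.v c1 g + a2 * V2.v c2 g)
    (hφ : V1.v i' φ = a1 * V2.v c1 e + a2 * V2.v c2 e) : h96_FibDatum V2 V1 m N e φ i' := by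
  refine ⟨[(a1, c1), (a2, c2)], ?_, ?_, ?_⟩
  · intro p hp
    rcases List.mem_pair.1 hp with h | h
    · rw [h]; exact hc1
    · rw [h]; exact hc2
  · intro g hg
    rw [hN g hg]
    simp
  · rw [hφ]
    simp

/-- **(NZ-MEM).**  `m` a point of the upper family, `s` a point of the lower family, `N` a
(norm-like) map, `e` an element of the upper field, `φ` of the lower field.  If at every index
`i'` through `s` there is a fibre datum, then for every unit `y` of `B_m` the quotient
`N (e / y) / φ` lies in `B_s`. -/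
theorem h96_nz_mem (m : Ideal V2.B) [m.IsPrime] (s : Ideal V1.B) [s.IsPrime] (N : F2 → F1)
    (hN0 : ∀ g : F2, g ≠ 0 → N g ≠ 0) (e : F2) (he0 : e ≠ 0) (φ : F1) (hφ0 : φ ≠ 0)
    (hfib : ∀ i', V1.Through s i' → h96_FibDatum V2 V1 m N e φ i')
    (y : F2) (hy0 : y ≠ 0) (hy : V2.InLoc m y) (hy' : V2.InLoc m y⁻¹) :
    V1.InLoc s (N (e / y) / φ) := by
  have hey : e / y ≠ 0 := div_ne_zero he0 hy0
  refine h94_inLoc_div_of_val V1 s (hN0 _ hey) hφ0 fun i' hi' => ?_
  obtain ⟨l, hthr, hN, hφ⟩ := hfib i' hi'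
  rw [hN _ hey, hφ]
  apply le_of_eq
  congr 1
  apply List.map_congr_left
  intro p hp
  rw [h80_v_div V2 p.2 he0 hy0, h80_through_eq_zero_of_unit V2 m hy0 hy hy' (hthr p hp), sub_zero]

/-- **(NZ-MEM), functional form**: the fibres and multiplicities are given by global functions
`fib`, `mult`. -/
theorem h96_nz_mem_fib (m : Ideal V2.B) [m.IsPrime] (s : Ideal V1.B) [s.IsPrime] (N : F2 → F1)
    (hN0 : ∀ g : F2, g ≠ 0 → N g ≠ 0) (fib : ι1 → Finset ι2) (mult : ι1 → ι2 → ℕ)
    (hNV : ∀ i', V1.Through s i' → ∀ g : F2, g ≠ 0 →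
      V1.v i' (N g) = ∑ i ∈ fib i', (mult i' i : ℤ) * V2.v i g)
    (hTP : ∀ i', V1.Through s i' → ∀ i ∈ fib i', V2.Through m i)
    (e y : F2) (he0 : e ≠ 0) (hy0 : y ≠ 0) (hy : V2.InLoc m y) (hy' : V2.InLoc m y⁻¹)
    (φ : F1) (hφ0 : φ ≠ 0)
    (hφ : ∀ i', V1.Through s i' → V1.v i' φ = ∑ i ∈ fib i', (mult i' i : ℤ) * V2.v i e) :
    V1.InLoc s (N (e / y) / φ) :=
  h96_nz_mem V2 V1 m s N hN0 e he0 φ hφ0
    (fun i' hi' => h96_fibDatum_of_finset V2 V1 m N e φ i' (fib i') id
      (fun i => (mult i' i : ℤ)) (hTP i' hi') (hNV i' hi') (hφ i' hi')) y hy0 hy hy'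

end Generic

section Places

variable {K F F' : Type*} [Field K] [Field F] [Field F'] [Algebra K F] [Algebra K F']

/-- The push-forward of a divisor, evaluated at a place, as a sum over the fibre. -/
theorem h96_pushforward_eq_sum_fiber [Algebra F F'] [IsScalarTower K F F']
    [Algebra.IsIntegral F F'] [HasPrincipalDivisors K F'] (D : Divisor K F') (v : Place K F) :
    Divisor.pushforward F D v = ∑ w ∈ v.fiber F', D w * (w.inertiaDeg F : ℤ) := by
  classical
  rw [Divisor.pushforward_apply, ← Finset.sum_filter]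
  apply Finset.sum_subset
  · intro w hw
    exact Place.mem_fiber.2 (Finset.mem_filter.1 hw).2
  · intro w hw hw'
    have h0 : D w = 0 := by
      by_contra h
      exact hw' (Finset.mem_filter.2 ⟨Finsupp.mem_support_iff.2 h, Place.mem_fiber.1 hw⟩)
    rw [h0, zero_mul]

/-- The same along a homomorphism of function fields. -/
theorem h96_pushforwardAlong_eq_sum_fiber [HasPrincipalDivisors K F'] (ψ : F →ₐ[K] F')
    (hψ : ψ.toRingHom.IsIntegral) (D : Divisor K F') (v : Place K F) :
    Divisor.pushforwardAlong ψ hψ D v =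
      ∑ w ∈ Place.fiberAlong ψ hψ v, D w * (w.inertiaDegAlong ψ hψ : ℤ) := by
  letI := algebraAlong ψ
  haveI := isScalarTower_along ψ
  haveI := isIntegral_along ψ hψ
  exact h96_pushforward_eq_sum_fiber D v

/-- **Order of a norm** as a sum over the fibre: `ord_v (N g) = ∑_{w | v} f(w | v) ord_w g`. -/
theorem h96_ord_normAlong [HasPrincipalDivisors K F'] (ψ : F →ₐ[K] F')
    (hψ : ψ.toRingHom.IsIntegral) (hfin : FiniteAlong K ψ) (hNF : NormFormulaAlong K ψ hfin)
    {g : F'} (hg : g ≠ 0) (v : Place K F) :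
    v.ord (h67_normAlong ψ g) =
      ∑ w ∈ Place.fiberAlong ψ hψ v, w.ord g * (w.inertiaDegAlong ψ hψ : ℤ) := by
  obtain ⟨E, hE, -⟩ := HasPrincipalDivisors.exists_divisor (K := K) g hg
  rw [← h67_pushforwardAlong_principal ψ hψ hfin hNF hg hE v,
    h96_pushforwardAlong_eq_sum_fiber ψ hψ E v]
  exact Finset.sum_congr rfl fun w _ => by rw [hE w]

/-- **Fibre datum at a horizontal index.**  `ψ : F → F'` a finite morphism of function fields
with the norm formula; `F1 ⊆ F`, `F2 ⊆ F'` (embeddings `emb1`, `emb2`) carry the valuation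
families `V1`, `V2`, and `N : F2 → F1` is the restriction of the norm.  The index `i'` of `V1` is
the place `P'` of `F` (`hi'`).  `(TP)`: every place `P` of `F'` above `P'` is an index of `V2`
through `m`, at which `e` has order `E P` (`E` a divisor of `F'`); and `φ` has order
`(ψ_* E)(P')` at `P'`.  Then there is a fibre datum at `i'`. -/
theorem h96_fibDatum_hor [HasPrincipalDivisors K F'] (ψ : F →ₐ[K] F')
    (hψ : ψ.toRingHom.IsIntegral) (hfin : FiniteAlong K ψ) (hNF : NormFormulaAlong K ψ hfin)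
    {F1 F2 : Type*} [Field F1] [Field F2] (emb1 : F1 →+* F) (emb2 : F2 →+* F')
    {ι1 ι2 : Type*} (V1 : h80_ValFam F1 ι1) (V2 : h80_ValFam F2 ι2) (m : Ideal V2.B)
    (N : F2 → F1) (hN : ∀ g : F2, emb1 (N g) = h67_normAlong ψ (emb2 g))
    (e : F2) (he0 : e ≠ 0) (φ : F1) (hφ0 : φ ≠ 0) (i' : ι1) (P' : Place K F)
    (hi' : ∀ f : F1, f ≠ 0 → V1.v i' f = P'.ord (emb1 f))
    (E : Divisor K F')
    (hTP : ∀ P ∈ Place.fiberAlong ψ hψ P', ∃ i : ι2, V2.Through m i ∧
      (∀ f : F2, f ≠ 0 → V2.v i f = P.ord (emb2 f)) ∧ P.ord (emb2 e) = E P)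
    (hφ : P'.ord (emb1 φ) = Divisor.pushforwardAlong ψ hψ E P') :
    h96_FibDatum V2 V1 m N e φ i' := by
  classical
  have hex : ∀ P : {P // P ∈ Place.fiberAlong ψ hψ P'}, ∃ i : ι2, V2.Through m i ∧
      (∀ f : F2, f ≠ 0 → V2.v i f = P.1.ord (emb2 f)) ∧ P.1.ord (emb2 e) = E P.1 :=
    fun P => hTP P.1 P.2
  choose c hc1 hc2 hc3 using hex
  refine h96_fibDatum_of_finset V2 V1 m N e φ i' (Place.fiberAlong ψ hψ P').attach c
    (fun P => (P.1.inertiaDegAlong ψ hψ : ℤ)) (fun P _ => hc1 P) ?_ ?_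
  · intro g hg
    have hg' : emb2 g ≠ 0 := (map_ne_zero emb2).2 hg
    have hNg : N g ≠ 0 := by
      intro h0
      have h1 := hN g
      rw [h0, map_zero] at h1
      exact h67_normAlong_ne_zero ψ hfin hg' h1.symm
    rw [hi' _ hNg, hN g, h96_ord_normAlong ψ hψ hfin hNF hg' P', ← Finset.sum_attach]
    refine Finset.sum_congr rfl fun P _ => ?_
    rw [hc2 P g hg, mul_comm]
  · rw [hi' _ hφ0, hφ, h96_pushforwardAlong_eq_sum_fiber ψ hψ E P', ← Finset.sum_attach]
    refine Finset.sum_congr rfl fun P _ => ?_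
    rw [hc2 P e he0, hc3 P, mul_comm]

end Places

end Fermat.Agent.S36
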