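import Mathlib
import Fermat.Agent.S36.h98_W2
import Fermat.Agent.S36.h96_NZMem
import Fermat.Agent.S36.h65_HorTable
import Fermat.Agent.S33.h52_Degen

/-!
# S36, row I-PTS (M8 input): the norm of a chart-regular function is chart-regular (helper14)

`V₁`, `V₂` the chart-1 families (`h80_fam1`, chart function `j`) of the levels `M q`, `M q²` with
the vertical valuations `h98_w1`, `h98_w2`.  The norms along `α` and `β` map the chart ring
`V₂.B` into the chart ring `V₁.B`: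

* `h14_norm_mem_gen` : generic in the levels `(N, N q)`, the vertical valuations and the map
  `ψ` (`α` or `β`): verticals from a hypothesis `hvert` (the rows (N1)), horizontals from the
  norm formula `h96_ord_normAlong` and "a place above a chart place is a chart place";
* `h14_hNa`, `h14_hNb` : the binders `hNa`, `hNb` of `h62_pts_mod`, = `hmem` of
  `h14_hN2_fam` / `h14_hN3_fam` and `hNB` of `h80_HC4_alpha_inertia` / `h80_HC4_beta_inertia`.
-/

set_option autoImplicit false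
set_option synthInstance.maxHeartbeats 400000
set_option linter.unusedSectionVars false

noncomputable section

open ModularCurve AlgebraicCurve

namespace Fermat.Agent.S36

open Fermat.Agent.S34 Fermat.Agent.S37 Fermat.Agent.S24 Fermat.Agent.S35 Fermat.Agent.S18
  Fermat.Agent.GAL Fermat.Agent.S40 Fermat.Agent.S33

local notation "Qb" => AlgebraicClosure ℚ

section Gen

variable (N q : ℕ) [NeZero N] [NeZero q] (H : Subgroup (Qb ≃ₐ[ℚ] Qb))
variable {κ₁ κ₂ : Type*} [Finite κ₁] [Finite κ₂]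
  (w₁ : κ₁ → h69_F0 N H → ℤ)
  (hw₁m : ∀ c (f g : h69_F0 N H), f ≠ 0 → g ≠ 0 → w₁ c (f * g) = w₁ c f + w₁ c g)
  (hw₁a : ∀ c (f g : h69_F0 N H), f ≠ 0 → g ≠ 0 → f + g ≠ 0 →
    min (w₁ c f) (w₁ c g) ≤ w₁ c (f + g))
  (w₂ : κ₂ → h69_F0 (N * q) H → ℤ)
  (hw₂m : ∀ c (f g : h69_F0 (N * q) H), f ≠ 0 → g ≠ 0 → w₂ c (f * g) = w₂ c f + w₂ c g)
  (hw₂a : ∀ c (f g : h69_F0 (N * q) H), f ≠ 0 → g ≠ 0 → f + g ≠ 0 →
    min (w₂ c f) (w₂ c g) ≤ w₂ c (f + g))

/-- **The norm maps the chart ring into the chart ring**, generic form. -/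
theorem h14_norm_mem_gen
    (ψ : modularFunctionFieldBar N →ₐ[Qb] modularFunctionFieldBar (N * q))
    (hψ : ψ.toRingHom.IsIntegral) (hfin : FiniteAlong Qb ψ) (hNF : NormFormulaAlong Qb ψ hfin)
    (Nm : h69_F0 (N * q) H → h69_F0 N H) (hNm0 : Nm 0 = 0)
    (hNm : ∀ u : h69_F0 (N * q) H, ((Nm u : h69_F0 N H) : modularFunctionFieldBar N)
      = h67_normAlong ψ (u : modularFunctionFieldBar (N * q)))
    (hchart : ∀ P : Place Qb (modularFunctionFieldBar (N * q)),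
      0 ≤ P.ord (h59_jbar (N * q)) ↔ 0 ≤ (P.restrictAlong ψ hψ).ord (h59_jbar N))
    (hvert : ∀ u : h69_F0 (N * q) H, u ≠ 0 → (∀ c, 0 ≤ w₂ c u) → ∀ c, 0 ≤ w₁ c (Nm u))
    (t : h69_F0 (N * q) H) (ht : t ∈ (h80_fam1 (N * q) H w₂ hw₂m hw₂a).B) :
    Nm t ∈ (h80_fam1 N H w₁ hw₁m hw₁a).B := by
  have : HasPrincipalDivisors Qb (modularFunctionFieldBar (N * q)) :=
    h88_hasPrincipalDivisors (N * q)
  by_cases ht0 : t = 0
  · rw [ht0, hNm0]
    exact Subring.zero_mem _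
  have ht' := (h80_mem_famOf_B (N * q) H w₂ hw₂m hw₂a (h59_jbar (N * q))
    (h54_isChart_jbar (N * q)) t).1 ht
  obtain ⟨hv, hh⟩ := ht'.resolve_left ht0
  refine (h80_mem_famOf_B N H w₁ hw₁m hw₁a (h59_jbar N) (h54_isChart_jbar N) (Nm t)).2
    (Or.inr ⟨hvert t ht0 hv, fun P' hP' => ?_⟩)
  have htF : (t : modularFunctionFieldBar (N * q)) ≠ 0 := fun h => ht0 (Subtype.ext h)
  rw [hNm t, h96_ord_normAlong ψ hψ hfin hNF htF P']
  refine Finset.sum_nonneg fun Q hQ => ?_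
  have hQ' : Q.restrictAlong ψ hψ = P' := Place.mem_fiberAlong.1 hQ
  have hQj : 0 ≤ Q.ord (h59_jbar (N * q)) := by
    rw [hchart Q, hQ']
    exact hP'
  exact mul_nonneg (hh Q hQj) (Int.natCast_nonneg _)

end Gen

section Mod

variable (M q : ℕ) [NeZero M] [NeZero q] [Fact q.Prime] (hqM : ¬ q ∣ M)
  (A : ValuationSubring Qb) (hA : A.LiesOverPrime q) (ζ : Qb) (hζ : IsPrimitiveRoot ζ q)
  (hex : h98_Ex M q hqM A ζ hζ)

include hA in
/-- **`hNa`**: the norm along `α` maps the level-`M q²` chart ring into the level-`M q` chart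
ring. -/
theorem h14_hNa : ∀ t : h69_F0 (M * q * q) (A.inertiaSubgroupIn ℚ),
    t ∈ (h80_fam1 (M * q * q) (A.inertiaSubgroupIn ℚ) (h98_w2 M q hqM A ζ hζ hex)
      (h98_hw2mul M q hqM A hA ζ hζ hex) (h98_hw2add M q hqM A hA ζ hζ hex)).B →
    h70_NaF0 (M * q) q (A.inertiaSubgroupIn ℚ) t ∈
      (h80_fam1 (M * q) (A.inertiaSubgroupIn ℚ) (h98_w1 M q hqM A ζ hζ hex)
        (h98_hw1mul M q hqM A hA ζ hζ hex) (h98_hw1add M q hqM A hA ζ hζ hex)).B := by
  intro t ht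
  refine h14_norm_mem_gen (M * q) q (A.inertiaSubgroupIn ℚ) (h98_w1 M q hqM A ζ hζ hex)
    (h98_hw1mul M q hqM A hA ζ hζ hex) (h98_hw1add M q hqM A hA ζ hζ hex)
    (h98_w2 M q hqM A ζ hζ hex) (h98_hw2mul M q hqM A hA ζ hζ hex)
    (h98_hw2add M q hqM A hA ζ hζ hex)
    (heckeAlphaBar Qb (M * q) q) (h88_alphaIntegral (M * q) q) (h88_finiteAlong_alpha (M * q) q)
    (h52_NF_alpha (M * q) q) (h70_NaF0 (M * q) q (A.inertiaSubgroupIn ℚ)) (map_zero _)
    (fun u => rfl) (h65_chart_alpha (M * q) q) ?_ t ht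
  intro u hu hv c
  have h0 := hv 0
  have h1 := hv 1
  have h2 := hv 2
  fin_cases c
  · show 0 ≤ h98_w1 M q hqM A ζ hζ hex 0 (h70_NaF0 (M * q) q (A.inertiaSubgroupIn ℚ) u)
    rw [h98_hN1aF M q hqM A hA ζ hζ hex u hu]
    exact add_nonneg h0 h1
  · show 0 ≤ h98_w1 M q hqM A ζ hζ hex 1 (h70_NaF0 (M * q) q (A.inertiaSubgroupIn ℚ) u)
    rw [h98_hN1aV M q hqM A hA ζ hζ hex u hu]
    exact mul_nonneg (Int.natCast_nonneg _) h2

include hA in
/-- **`hNb`**: the norm along `β` maps the level-`M q²` chart ring into the level-`M q` chart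
ring. -/
theorem h14_hNb : ∀ t : h69_F0 (M * q * q) (A.inertiaSubgroupIn ℚ),
    t ∈ (h80_fam1 (M * q * q) (A.inertiaSubgroupIn ℚ) (h98_w2 M q hqM A ζ hζ hex)
      (h98_hw2mul M q hqM A hA ζ hζ hex) (h98_hw2add M q hqM A hA ζ hζ hex)).B →
    h70_NbF0 (M * q) q (A.inertiaSubgroupIn ℚ) t ∈
      (h80_fam1 (M * q) (A.inertiaSubgroupIn ℚ) (h98_w1 M q hqM A ζ hζ hex)
        (h98_hw1mul M q hqM A hA ζ hζ hex) (h98_hw1add M q hqM A hA ζ hζ hex)).B := by
  intro t ht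
  refine h14_norm_mem_gen (M * q) q (A.inertiaSubgroupIn ℚ) (h98_w1 M q hqM A ζ hζ hex)
    (h98_hw1mul M q hqM A hA ζ hζ hex) (h98_hw1add M q hqM A hA ζ hζ hex)
    (h98_w2 M q hqM A ζ hζ hex) (h98_hw2mul M q hqM A hA ζ hζ hex)
    (h98_hw2add M q hqM A hA ζ hζ hex)
    (heckeBetaBar Qb (M * q) q) (h88_betaIntegral (M * q) q) (h88_finiteAlong_beta (M * q) q)
    (h52_NF_beta (M * q) q) (h70_NbF0 (M * q) q (A.inertiaSubgroupIn ℚ)) (map_zero _)
    (fun u => rfl) (h65_chart_beta M q hqM) ?_ t ht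
  intro u hu hv c
  have h0 := hv 0
  have h1 := hv 1
  have h2 := hv 2
  fin_cases c
  · show 0 ≤ h98_w1 M q hqM A ζ hζ hex 0 (h70_NbF0 (M * q) q (A.inertiaSubgroupIn ℚ) u)
    rw [h98_hN1bF M q hqM A hA ζ hζ hex u hu]
    exact mul_nonneg (Int.natCast_nonneg _) h0
  · show 0 ≤ h98_w1 M q hqM A ζ hζ hex 1 (h70_NbF0 (M * q) q (A.inertiaSubgroupIn ℚ) u)
    rw [h98_hN1bV M q hqM A hA ζ hζ hex u hu]
    exact add_nonneg h1 h2

end Mod

end Fermat.Agent.S36
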