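import Mathlib
import Fermat.Agent.S36.h62_BranchCases

/-!
# S36 / I-CUSP (helper16): the abstract lemmas at a cusp point

Language: `V : h80_ValFam F ι` (helper80), `m` a prime ideal of the chart ring `V.B`.

* `h16_cyclo_shift`, `h16_sigma_decomp` : `1 + (1+x) + ⋯ + (1+x)^(p-1) = x^(p-1) + p (1 + x h)`
  (Eisenstein form of the `p`-th cyclotomic polynomial at `1 + x`).
* `h16_sub_one_mem`, `h16_mem_of_pow_sub`, `h16_branch_excl` : **one branch through a cusp point**:
  a chart function `G` which is `1` on the branch `i₁` and whose power `G ^ r` equals, on the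
  branch `i₂`, an element `E ∈ m`, shows that `i₁` and `i₂` do not both pass through `m`.
* `h16_unit_of_ratio` : a ratio of two chart functions outside `m` is a unit at `m`.
* `h16_exists_through_pos` : a nonzero element of `m` has positive value at some valuation
  through `m`.
* `h16_not_inMLoc_of_sigma` : if `1 + x + ⋯` (the cyclotomic sum of `1 + x`) vanishes at a
  horizontal valuation through `m`, then `x ^ (p - 1) / p` is not in `m B_m`.
* `h16_mid_local_eq` : **the local equation at a middle cusp point**: `ζ̃ - 1` is a local equation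
  of the thick branch `c` (`v_c p = p - 1`) at `m`, as soon as `ζ̃` is a unit at `m`,
  `v_c (ζ̃ - 1) = 1`, and the cyclotomic sum of `ζ̃` vanishes at one horizontal valuation
  through `m`.
-/

set_option autoImplicit false

namespace Fermat.Agent.S36

open Polynomial

/-! ### The cyclotomic identity -/

/-- `Φ_p(X + 1) = X ^ (p - 1) + p (1 + X h)` in `ℤ[X]`. -/
theorem h16_cyclo_shift (p : ℕ) (hp : p.Prime) :
    ∃ h : Polynomial ℤ, (Polynomial.cyclotomic p ℤ).comp (Polynomial.X + 1)
      = Polynomial.X ^ (p - 1) + Polynomial.C (p : ℤ) * (1 + Polynomial.X * h) := by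
  have hfact : Fact p.Prime := ⟨hp⟩
  set f := (Polynomial.cyclotomic p ℤ).comp (Polynomial.X + 1) with hf
  have hE : f.IsEisensteinAt (Submodule.span ℤ {(p : ℤ)}) :=
    cyclotomic_comp_X_add_one_isEisensteinAt p
  have hmon : f.Monic := by
    have h1 : (X + 1 : Polynomial ℤ) = X + C 1 := by simp
    rw [hf, h1]
    exact (Polynomial.cyclotomic.monic p ℤ).comp_X_add_C 1
  have hdeg : f.natDegree = p - 1 := by
    have h1 : (X + 1 : Polynomial ℤ) = X + C 1 := by simp
    rw [hf, h1, Polynomial.natDegree_comp, Polynomial.natDegree_X_add_C, mul_one,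
      Polynomial.natDegree_cyclotomic, Nat.totient_prime hp]
  have hcoeff : ∀ n, (p : ℤ) ∣ (f - X ^ (p - 1)).coeff n := by
    intro n
    rw [Polynomial.coeff_sub, Polynomial.coeff_X_pow]
    rcases lt_trichotomy n (p - 1) with h | h | h
    · rw [if_neg (ne_of_lt h), sub_zero]
      have := hE.mem (n := n) (by rw [hdeg]; exact h)
      exact Ideal.mem_span_singleton.mp this
    · subst h
      have : f.coeff (p - 1) = 1 := by
        have := hmon.coeff_natDegree
        rwa [hdeg] at this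
      rw [this, if_pos rfl, sub_self]
      exact dvd_zero _
    · rw [if_neg (ne_of_gt h), sub_zero,
        Polynomial.coeff_eq_zero_of_natDegree_lt (by rw [hdeg]; exact h)]
      exact dvd_zero _
  obtain ⟨g, hg⟩ := (Polynomial.C_dvd_iff_dvd_coeff (p : ℤ) (f - X ^ (p - 1))).mpr hcoeff
  have hp2 : 2 ≤ p := hp.two_le
  have hg0 : g.coeff 0 = 1 := by
    have h1 : (f - X ^ (p - 1)).coeff 0 = (p : ℤ) := by
      rw [Polynomial.coeff_sub, Polynomial.coeff_X_pow, if_neg (by omega), sub_zero,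
        Polynomial.coeff_zero_eq_eval_zero, hf, Polynomial.eval_comp]
      simp [Polynomial.eval_one_cyclotomic_prime]
    rw [hg, Polynomial.coeff_C_mul] at h1
    have hp0 : (p : ℤ) ≠ 0 := by exact_mod_cast hp.ne_zero
    exact mul_left_cancel₀ hp0 (by rw [h1, mul_one])
  refine ⟨g.divX, ?_⟩
  have h2 : g = 1 + X * g.divX := by
    conv_lhs => rw [← Polynomial.divX_mul_X_add g, hg0]
    simp [add_comm, mul_comm]
  rw [← h2, ← hg]
  ring

/-- `∑_{i < p} (1 + x)^i = x ^ (p - 1) + p (1 + x h)` in every commutative ring. -/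
theorem h16_sigma_decomp (p : ℕ) (hp : p.Prime) {R : Type*} [CommRing R] (x : R) :
    ∃ h : R, (∑ i ∈ Finset.range p, (1 + x) ^ i) = x ^ (p - 1) + (p : R) * (1 + x * h) := by
  obtain ⟨h, hh⟩ := h16_cyclo_shift p hp
  refine ⟨Polynomial.aeval x h, ?_⟩
  have h1 := congrArg (Polynomial.aeval x) hh
  rw [Polynomial.aeval_comp] at h1
  have hfact : Fact p.Prime := ⟨hp⟩
  rw [Polynomial.cyclotomic_prime] at h1
  simp only [map_sum, map_pow, map_add, map_mul, map_one, Polynomial.aeval_X,
    map_natCast] at h1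
  rw [← h1]
  refine Finset.sum_congr rfl fun i _ => ?_
  ring

variable {F : Type*} [Field F] {ι : Type*}

/-! ### One branch through a cusp point -/

/-- A chart function which is `1` on a branch through `m` is `≡ 1` modulo `m`. -/
theorem h16_sub_mem (V : h80_ValFam F ι) (m : Ideal V.B) {i : ι} (hi : V.Through m i)
    (G E : V.B) (hG : (G : F) = (E : F) ∨ 0 < V.v i ((G : F) - (E : F))) : G - E ∈ m := by
  by_cases h : (G : F) = (E : F)
  · have : G - E = 0 := by
      apply Subtype.ext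
      push_cast
      rw [h, sub_self]
    rw [this]
    exact m.zero_mem
  · have h0 : ((G - E : V.B) : F) ≠ 0 := by
      push_cast
      exact sub_ne_zero.mpr h
    refine hi (G - E) h0 ?_
    push_cast
    exact hG.resolve_left h

/-- If `G ^ r` equals `E ∈ m` on a branch through `m`, then `G ∈ m`. -/
theorem h16_mem_of_pow_sub (V : h80_ValFam F ι) (m : Ideal V.B) [hm : m.IsPrime] {i : ι}
    (hi : V.Through m i) (G E : V.B) (r : ℕ) (hE : E ∈ m)
    (hG : (G : F) ^ r = (E : F) ∨ 0 < V.v i ((G : F) ^ r - (E : F))) : G ∈ m := by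
  have h1 : G ^ r - E ∈ m := h16_sub_mem V m hi (G ^ r) E (by push_cast; exact hG)
  have h2 : G ^ r ∈ m := by
    have := m.add_mem h1 hE
    simpa using this
  exact hm.mem_of_pow_mem r h2

/-- **One branch.**  `G = 1` on the branch `i₁`, `G ^ r = E` on the branch `i₂`, `E ∈ m`: the
two branches do not both pass through `m`. -/
theorem h16_branch_excl (V : h80_ValFam F ι) (m : Ideal V.B) [hm : m.IsPrime] {i₁ i₂ : ι}
    (h1 : V.Through m i₁) (h2 : V.Through m i₂) (G E : V.B) (r : ℕ) (hE : E ∈ m)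
    (hG1 : (G : F) = 1 ∨ 0 < V.v i₁ ((G : F) - 1))
    (hG2 : (G : F) ^ r = (E : F) ∨ 0 < V.v i₂ ((G : F) ^ r - (E : F))) : False := by
  have ha : G - 1 ∈ m := h16_sub_mem V m h1 G 1 (by push_cast; exact hG1)
  have hb : G ∈ m := h16_mem_of_pow_sub V m h2 G E r hE hG2
  have hc : (1 : V.B) ∈ m := by
    have := m.sub_mem hb ha
    simpa using this
  exact hm.ne_top ((Ideal.eq_top_iff_one m).mpr hc)

/-- An element `≡ 1` modulo `m` is not in `m`. -/
theorem h16_not_mem_of_sub_one (V : h80_ValFam F ι) (m : Ideal V.B) [hm : m.IsPrime]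
    {G : V.B} (hG : G - 1 ∈ m) : G ∉ m := by
  intro hb
  have hc : (1 : V.B) ∈ m := by
    have := m.sub_mem hb hG
    simpa using this
  exact hm.ne_top ((Ideal.eq_top_iff_one m).mpr hc)

/-- `1 - E ∉ m` for `E ∈ m`. -/
theorem h16_one_sub_not_mem (V : h80_ValFam F ι) (m : Ideal V.B) [hm : m.IsPrime]
    {E : V.B} (hE : E ∈ m) : 1 - E ∉ m := by
  intro hb
  have hc : (1 : V.B) ∈ m := by
    have := m.add_mem hb hE
    simpa using this
  exact hm.ne_top ((Ideal.eq_top_iff_one m).mpr hc)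

/-! ### Units and zeros at the point -/

/-- A ratio of two chart functions outside `m` is a unit at `m`. -/
theorem h16_unit_of_ratio (V : h80_ValFam F ι) (m : Ideal V.B) {z : F} (b t : V.B)
    (hb : b ∉ m) (ht : t ∉ m) (hz : (t : F) * z = (b : F)) :
    z ≠ 0 ∧ ∀ k, V.Through m k → V.v k z = 0 := by
  have hb0 := h80_ne_zero_of_not_mem V hb
  have ht0 := h80_ne_zero_of_not_mem V ht
  have hz0 : z ≠ 0 := by
    rintro rfl
    rw [mul_zero] at hz
    exact hb0 hz.symm
  refine ⟨hz0, fun k hk => ?_⟩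
  have h1 := V.map_mul k _ _ ht0 hz0
  rw [hz, h80_through_eq_zero V hk hb, h80_through_eq_zero V hk ht] at h1
  omega

/-- A nonzero element of `m` has positive value at some valuation through `m`
(otherwise it would be a unit of the local ring). -/
theorem h16_exists_through_pos (V : h80_ValFam F ι) (m : Ideal V.B) [hm : m.IsPrime]
    (a : V.B) (ha : a ∈ m) (ha0 : (a : F) ≠ 0) :
    ∃ k, V.Through m k ∧ 0 < V.v k (a : F) := by
  by_contra hcon
  push Not at hcon
  have hzero : ∀ k, V.Through m k → V.v k (a : F) = 0 := fun k hk =>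
    le_antisymm (hcon k hk) (h80_v_nonneg V k a ha0)
  have hinv : V.InLoc m (a : F)⁻¹ := by
    refine (h80_inLoc_iff V m (inv_ne_zero ha0)).2 fun k hk => ?_
    rw [h80_v_inv V k ha0, hzero k hk]
    simp
  obtain ⟨b, t, ht, hbt⟩ := hinv
  apply ht
  have h1 : t = a * b := by
    apply Subtype.ext
    push_cast
    rw [← hbt]
    field_simp
  rw [h1]
  exact m.mul_mem_right b ha

theorem h16_inLoc_of_inMLoc (V : h80_ValFam F ι) (m : Ideal V.B) {x : F}
    (hx : V.InMLoc m x) : V.InLoc m x := by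
  obtain ⟨b, t, _, ht, hbt⟩ := hx
  exact ⟨b, t, ht, hbt⟩

theorem h16_inMLoc_mul_inLoc (V : h80_ValFam F ι) (m : Ideal V.B) [hm : m.IsPrime] {x y : F}
    (hx : V.InMLoc m x) (hy : V.InLoc m y) : V.InMLoc m (x * y) := by
  obtain ⟨b, t, hb, ht, hbt⟩ := hx
  obtain ⟨b', t', ht', hbt'⟩ := hy
  refine ⟨b * b', t * t', m.mul_mem_right _ hb, fun h => (hm.mem_or_mem h).elim ht ht', ?_⟩
  push_cast
  rw [← hbt, ← hbt']
  ring

/-- An element of the local ring with positive value at a valuation through `m` lies in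
`m B_m`. -/
theorem h16_inMLoc_of_pos (V : h80_ValFam F ι) (m : Ideal V.B) {x : F} (hx0 : x ≠ 0)
    (hx : V.InLoc m x) {c : ι} (hc : V.Through m c) (hpos : 0 < V.v c x) : V.InMLoc m x := by
  obtain ⟨b, t, ht, hbt⟩ := hx
  have ht0 := h80_ne_zero_of_not_mem V ht
  have hb0 : (b : F) ≠ 0 := by
    rw [← hbt]
    exact mul_ne_zero ht0 hx0
  refine ⟨b, t, hc b hb0 ?_, ht, hbt⟩
  rw [← hbt, V.map_mul c _ _ ht0 hx0, h80_through_eq_zero V hc ht]
  omega

theorem h16_v_neg_one (V : h80_ValFam F ι) (i : ι) : V.v i (-1 : F) = 0 := by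
  have h := V.map_mul i (-1) (-1) (by norm_num) (by norm_num)
  have h1 : (-1 : F) * (-1) = 1 := by ring
  rw [h1, h80_v_one] at h
  omega

/-! ### The cyclotomic sum and the unit `x ^ (p - 1) / p` -/

/-- If the cyclotomic sum of `1 + x` vanishes at a horizontal valuation `k` through `m`, then
`x ^ (p - 1) / p` is not in `m B_m`. -/
theorem h16_not_inMLoc_of_sigma (V : h80_ValFam F ι) (m : Ideal V.B) [hm : m.IsPrime]
    (p : ℕ) (hp : p.Prime) (hp0 : (p : F) ≠ 0) {x : F} (hxM : V.InMLoc m x)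
    {k : ι} (hk : V.Through m k) (hkp : V.v k (p : F) = 0)
    (hkS : 0 < V.v k (∑ i ∈ Finset.range p, (1 + x) ^ i)) :
    ¬ V.InMLoc m (x ^ (p - 1) / (p : F)) := by
  intro hη
  have hxL : V.InLoc m x := h16_inLoc_of_inMLoc V m hxM
  obtain ⟨h, hh⟩ := h16_sigma_decomp p hp (⟨x, hxL⟩ : h62_locRing V m)
  have hh' : (∑ i ∈ Finset.range p, (1 + x) ^ i) = x ^ (p - 1) + (p : F) * (1 + x * (h : F)) := by
    have := congrArg (Subtype.val : h62_locRing V m → F) hh
    simpa using this
  have hz : V.InMLoc m (x ^ (p - 1) / (p : F) + x * (h : F)) :=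
    h80_inMLoc_add V m hη (h16_inMLoc_mul_inLoc V m hxM h.2)
  have hone : (1 : V.B) ∉ m := fun h1 => hm.ne_top ((Ideal.eq_top_iff_one m).mpr h1)
  obtain ⟨hu0, hu⟩ := h80_unit_add V m hone hz
  have hfac : (∑ i ∈ Finset.range p, (1 + x) ^ i)
      = (p : F) * (((1 : V.B) : F) + (x ^ (p - 1) / (p : F) + x * (h : F))) := by
    rw [hh']
    push_cast
    field_simp
    ring
  rw [hfac, V.map_mul k _ _ hp0 hu0, hkp, hu k hk] at hkS
  exact lt_irrefl _ hkS

/-! ### The local equation at a middle cusp point -/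

/-- **The local equation of the thick branch at a middle cusp point.**  `c` is the only vertical
valuation through `m`, `v_c p = p - 1`; `ζ̃` is a unit at `m` with `v_c (ζ̃ - 1) = 1`, and the
cyclotomic sum `1 + ζ̃ + ⋯ + ζ̃ ^ (p - 1)` vanishes at a horizontal valuation `k` through `m`
(a middle cusp, where `ζ̃` is a primitive `p`-th root of unity).  Then `ζ̃ - 1` is a local
equation of `c` at `m`. -/
theorem h16_mid_local_eq (V : h80_ValFam F ι) (m : Ideal V.B) [hm : m.IsPrime]
    (p : ℕ) (hp : p.Prime) (Q : V.B) (hQ : (Q : F) = (p : F)) (hQ0 : (Q : F) ≠ 0)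
    {c : ι} (hc : V.Through m c) (hvq : V.v c (Q : F) = ((p - 1 : ℕ) : ℤ))
    (hvert : ∀ i, V.Through m i → 0 < V.v i (Q : F) → i = c)
    {zt : F} (hzt0 : zt ≠ 0) (hzt : ∀ j, V.Through m j → V.v j zt = 0)
    (hx0 : zt - 1 ≠ 0) (hvx : V.v c (zt - 1) = 1)
    {k : ι} (hk : V.Through m k) (hkq : V.v k (Q : F) = 0)
    (hkS : 0 < V.v k (∑ i ∈ Finset.range p, zt ^ i)) :
    V.v c (zt - 1) = 1 ∧ ∀ j, V.Through m j → j ≠ c → V.v j (zt - 1) = 0 := by
  have hp1 : 0 < p - 1 := by have := hp.two_le; omega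
  have hxL : V.InLoc m (zt - 1) := by
    refine (h80_inLoc_iff V m hx0).2 fun i hi => ?_
    have h1 := V.map_add i zt (-1) hzt0 (by norm_num) (by rw [← sub_eq_add_neg]; exact hx0)
    rw [hzt i hi, h16_v_neg_one, ← sub_eq_add_neg] at h1
    simpa using h1
  have hxM : V.InMLoc m (zt - 1) := h16_inMLoc_of_pos V m hx0 hxL hc (by rw [hvx]; norm_num)
  have hp0 : (p : F) ≠ 0 := by rw [← hQ]; exact hQ0
  have hres : ¬ V.InMLoc m ((zt - 1) ^ (p - 1) / (Q : F)) := by
    rw [hQ]
    refine h16_not_inMLoc_of_sigma V m p hp hp0 hxM hk (by rw [← hQ]; exact hkq) ?_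
    have : (1 : F) + (zt - 1) = zt := by ring
    rw [this]
    exact hkS
  have hη : V.v c ((zt - 1) ^ (p - 1) / (Q : F)) = 0 := by
    rw [h80_v_div V c (pow_ne_zero _ hx0) hQ0, h80_v_pow V c hx0, hvx, hvq]
    ring
  exact h62_case_thick V m Q hQ0 hc hp1 hvq hvert hx0 hxL hη hres

end Fermat.Agent.S36
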