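import Mathlib
import Fermat.Agent.S36.h80_LocGen
import Fermat.Agent.S36.h97_Noeth
import Fermat.Agent.S36.h5_ResK0
import Fermat.Agent.S36.h69_K0Inst

/-!
# S36 / row I-PTS, item (E) (helper75): the residue field of a closed point of a chart ring

`(H1)`, `(H2)`, `(H3)` of `h94_loc_glue_val` / `h62_loc_glue_point` at every maximal ideal `m`
of a chart ring `B`, with no reduction datum and no place in the statement.

* Generic (Mathlib only): `B` a commutative ring, `m` maximal, `φ : A0 →+* B` the constants,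
  `x : B` such that every element of `B` is integral over `φ(A0)[x]`.  If the image of `A0` in
  `B / m` is an algebraically closed field (`hfield`, `hclosed`), then `B / m` is that image:
  `h75_pt_resk`.  Consequences `h75_pt_H2` (`n`-th roots modulo `m`) and `h75_pt_H3` (roots of
  unity lift).
* `h80_ValFam` form: `h75_pt_fam_resk`, `h75_pt_fam_H2`, `h75_pt_fam_H3`, `h75_pt_fam_H1`.
* Constants at the modular level (`A` over `q`, `A0 = h69_A0 A`): `h75_A0_closed`,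
  `h75_A0_root`, `h75_A0_field`.
-/

set_option autoImplicit false

noncomputable section

open Polynomial Fermat.Agent.S05

namespace Fermat.Agent.S36

section Core

variable {A0 κ : Type*} [CommRing A0] [Field κ]

/-- **The core**: a field `κ` which is integral over `ψ(A0)[x]`, where the image of `A0` is an
algebraically closed field, is the image of `A0`. -/
theorem h75_pt_core (ψ : A0 →+* κ) (x : κ)
    (hint : ∀ t : κ, (Polynomial.eval₂RingHom ψ x).IsIntegralElem t)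
    (hfield : ∀ a : A0, ψ a ≠ 0 → ∃ b : A0, ψ a * ψ b = 1)
    (hclosed : ∀ p : Polynomial A0, p.Monic → 0 < p.natDegree → ∃ a : A0, ψ (p.eval a) = 0) :
    Function.Surjective ψ := by
  classical
  have hmax : (RingHom.ker ψ).IsMaximal := by
    refine Ideal.isMaximal_iff.mpr ⟨fun h => ?_, fun J a hJ haI haJ => ?_⟩
    · have h1 : ψ 1 = 0 := RingHom.mem_ker.mp h
      rw [map_one] at h1
      exact one_ne_zero h1
    · obtain ⟨b, hb⟩ := hfield a (fun h => haI (RingHom.mem_ker.mpr h))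
      have h1 : a * b - 1 ∈ RingHom.ker ψ := by
        rw [RingHom.mem_ker, map_sub, map_mul, hb, map_one, sub_self]
      have h2 : (1 : A0) = a * b - (a * b - 1) := by ring
      rw [h2]
      exact J.sub_mem (J.mul_mem_right b haJ) (hJ h1)
  let _ : Field (A0 ⧸ RingHom.ker ψ) := Ideal.Quotient.field _
  let _ : Algebra (A0 ⧸ RingHom.ker ψ) κ := (RingHom.kerLift ψ).toAlgebra
  have hcomp : (algebraMap (A0 ⧸ RingHom.ker ψ) κ).comp (Ideal.Quotient.mk (RingHom.ker ψ)) = ψ := by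
    ext a
    rfl
  have : IsAlgClosed (A0 ⧸ RingHom.ker ψ) := by
    refine IsAlgClosed.of_exists_root _ fun p hp hirr => ?_
    obtain ⟨P, hPmap, hPdeg, hPmonic⟩ :=
      Polynomial.lifts_and_natDegree_eq_and_monic
        (f := Ideal.Quotient.mk (RingHom.ker ψ))
        ((Polynomial.mem_lifts p).mpr
          (Polynomial.map_surjective _ Ideal.Quotient.mk_surjective p)) hp
    obtain ⟨a, ha⟩ := hclosed P hPmonic (by rw [hPdeg]; exact hirr.natDegree_pos)
    refine ⟨Ideal.Quotient.mk _ a, ?_⟩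
    rw [← hPmap, Polynomial.eval_map, Polynomial.eval₂_at_apply]
    exact Ideal.Quotient.eq_zero_iff_mem.mpr (RingHom.mem_ker.mpr ha)
  -- an element integral over the residue field of the constants is a constant
  have key : ∀ t : κ, IsIntegral (A0 ⧸ RingHom.ker ψ) t → ∃ a, ψ a = t := by
    intro t ht
    have h2 : (minpoly (A0 ⧸ RingHom.ker ψ) t).degree = 1 :=
      IsAlgClosed.degree_eq_one_of_irreducible _ (minpoly.irreducible ht)
    obtain ⟨c, hc⟩ := minpoly.mem_range_of_degree_eq_one _ t h2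
    obtain ⟨a, rfl⟩ := Ideal.Quotient.mk_surjective c
    exact ⟨a, hc⟩
  -- the range of the evaluation is a field
  set ev : Polynomial A0 →+* κ := Polynomial.eval₂RingHom ψ x with hev
  have hevC : ∀ a : A0, ev (C a) = ψ a := fun a => by simp [hev]
  have hevX : ev X = x := by simp [hev]
  have hRint : Algebra.IsIntegral ev.range κ := by
    refine ⟨fun t => ?_⟩
    obtain ⟨P, hP, he⟩ := hint t
    refine ⟨P.map ev.rangeRestrict, hP.map _, ?_⟩
    rw [Polynomial.eval₂_map]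
    exact he
  have hRfield : IsField ev.range :=
    isField_of_isIntegral_of_isField (R := ev.range) (S := κ) Subtype.val_injective
      (Field.toIsField κ)
  -- `x` is a constant
  obtain ⟨c, hc⟩ : ∃ c, ψ c = x := by
    by_cases hx0 : x = 0
    · exact ⟨0, by rw [map_zero, hx0]⟩
    · have hxR : x ∈ ev.range := ⟨X, hevX⟩
      have hne : (⟨x, hxR⟩ : ev.range) ≠ 0 := fun h => hx0 (congrArg Subtype.val h)
      obtain ⟨y, hy⟩ := hRfield.mul_inv_cancel hne
      obtain ⟨g, hg⟩ := y.2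
      have hxy : x * ev g = 1 := by
        have h1 : (x : κ) * (y : κ) = 1 := congrArg Subtype.val hy
        rw [hg]
        exact h1
      refine key x (IsAlgebraic.isIntegral ⟨(X * g - 1).map (Ideal.Quotient.mk _), ?_, ?_⟩)
      · intro h0
        have h1 := congrArg (fun r => r.coeff 0) h0
        simp only [Polynomial.coeff_map, Polynomial.coeff_sub, Polynomial.mul_coeff_zero,
          Polynomial.coeff_X_zero, zero_mul, Polynomial.coeff_one_zero, zero_sub, map_neg,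
          map_one, Polynomial.coeff_zero] at h1
        exact one_ne_zero (neg_eq_zero.mp h1)
      · rw [Polynomial.aeval_def, Polynomial.eval₂_map, hcomp]
        have h1 : Polynomial.eval₂ ψ x (X * g - 1) = ev (X * g - 1) := rfl
        rw [h1, map_sub, map_mul, hevX, hxy, map_one, sub_self]
  -- hence every element is a constant
  have hevc : ev = ψ.comp (Polynomial.evalRingHom c) := by
    apply Polynomial.ringHom_ext
    · intro a
      rw [hevC]
      simp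
    · rw [hevX]
      simp [hc]
  intro t
  obtain ⟨P, hP, he⟩ := hint t
  refine key t ⟨P.map ((Ideal.Quotient.mk (RingHom.ker ψ)).comp (Polynomial.evalRingHom c)),
    hP.map _, ?_⟩
  rw [Polynomial.eval₂_map, ← RingHom.comp_assoc, hcomp, ← hevc]
  exact he

end Core

section Ring

variable {A0 B : Type*} [CommRing A0] [CommRing B]

/-- **(RESK)**: the residue field of a closed point of `B` is the residue field of the
constants. -/
theorem h75_pt_resk (m : Ideal B) [hm : m.IsMaximal] (φ : A0 →+* B) (x : B)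
    (hint : ∀ b : B, (Polynomial.eval₂RingHom φ x).IsIntegralElem b)
    (hfield : ∀ a : A0, φ a ∉ m → ∃ b : A0, φ a * φ b - 1 ∈ m)
    (hclosed : ∀ p : Polynomial A0, p.Monic → 0 < p.natDegree → ∃ a : A0, φ (p.eval a) ∈ m)
    (s : B) : ∃ l : A0, s - φ l ∈ m := by
  let _ : Field (B ⧸ m) := Ideal.Quotient.field m
  have hsurj := h75_pt_core ((Ideal.Quotient.mk m).comp φ) (Ideal.Quotient.mk m x) (fun t => ?_)
    (fun a ha => ?_) (fun p hp hd => ?_)
  · obtain ⟨l, hl⟩ := hsurj (Ideal.Quotient.mk m s)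
    refine ⟨l, Ideal.Quotient.eq_zero_iff_mem.mp ?_⟩
    rw [map_sub, ← hl]
    exact sub_self _
  · obtain ⟨b, rfl⟩ := Ideal.Quotient.mk_surjective t
    obtain ⟨P, hP, he⟩ := hint b
    refine ⟨P, hP, ?_⟩
    have h1 : (Ideal.Quotient.mk m).comp (Polynomial.eval₂RingHom φ x) =
        Polynomial.eval₂RingHom ((Ideal.Quotient.mk m).comp φ) (Ideal.Quotient.mk m x) := by
      apply Polynomial.ringHom_ext <;> simp
    rw [← h1, ← Polynomial.hom_eval₂, he, map_zero]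
  · obtain ⟨b, hb⟩ := hfield a (fun h => ha (Ideal.Quotient.eq_zero_iff_mem.mpr h))
    refine ⟨b, ?_⟩
    have h1 := Ideal.Quotient.eq_zero_iff_mem.mpr hb
    rw [map_sub, map_mul, map_one, sub_eq_zero] at h1
    exact h1
  · obtain ⟨a, ha⟩ := hclosed p hp hd
    exact ⟨a, Ideal.Quotient.eq_zero_iff_mem.mpr ha⟩

/-- **(H2)**: every element of `B` is an `n`-th power modulo `m`. -/
theorem h75_pt_H2 (m : Ideal B) [hm : m.IsMaximal] (φ : A0 →+* B) (x : B)
    (hint : ∀ b : B, (Polynomial.eval₂RingHom φ x).IsIntegralElem b)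
    (hfield : ∀ a : A0, φ a ∉ m → ∃ b : A0, φ a * φ b - 1 ∈ m)
    (hclosed : ∀ p : Polynomial A0, p.Monic → 0 < p.natDegree → ∃ a : A0, φ (p.eval a) ∈ m)
    {n : ℕ} (hn : n ≠ 0) (s : B) : ∃ r : B, r ^ n - s ∈ m := by
  obtain ⟨l, hl⟩ := h75_pt_resk m φ x hint hfield hclosed s
  have : Nontrivial A0 := nontrivial_of_ne (1 : A0) 0 fun h => hm.ne_top (by
    rw [Ideal.eq_top_iff_one]
    have h1 : (1 : B) = 0 := by rw [← map_one φ, h, map_zero]
    rw [h1]
    exact m.zero_mem)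
  obtain ⟨a, ha⟩ := hclosed (X ^ n - C l) (monic_X_pow_sub_C l hn)
    (by rw [natDegree_X_pow_sub_C]; exact Nat.pos_of_ne_zero hn)
  refine ⟨φ a, ?_⟩
  have h1 : φ a ^ n - s = φ ((X ^ n - C l).eval a) - (s - φ l) := by
    rw [Polynomial.eval_sub, Polynomial.eval_pow, Polynomial.eval_X, Polynomial.eval_C, map_sub,
      map_pow]
    ring
  rw [h1]
  exact m.sub_mem ha hl

/-- **(H3)**: roots of unity lift from `B / m` to `B`, if they lift for the constants. -/
theorem h75_pt_H3 (m : Ideal B) [hm : m.IsMaximal] (φ : A0 →+* B) (x : B)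
    (hint : ∀ b : B, (Polynomial.eval₂RingHom φ x).IsIntegralElem b)
    (hfield : ∀ a : A0, φ a ∉ m → ∃ b : A0, φ a * φ b - 1 ∈ m)
    (hclosed : ∀ p : Polynomial A0, p.Monic → 0 < p.natDegree → ∃ a : A0, φ (p.eval a) ∈ m)
    {n : ℕ} (hroot : ∀ l : A0, φ (l ^ n - 1) ∈ m → ∃ ζ : A0, ζ ^ n = 1 ∧ φ (l - ζ) ∈ m)
    (c0 : B) (hc : c0 ^ n - 1 ∈ m) : ∃ ζ : B, ζ ^ n = 1 ∧ c0 - ζ ∈ m := by
  obtain ⟨l, hl⟩ := h75_pt_resk m φ x hint hfield hclosed c0
  have h1 : φ (l ^ n - 1) ∈ m := by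
    have h2 : c0 ^ n - φ l ^ n ∈ m := by
      obtain ⟨d, hd⟩ := sub_dvd_pow_sub_pow c0 (φ l) n
      rw [hd]
      exact m.mul_mem_right d hl
    have h3 : φ (l ^ n - 1) = (c0 ^ n - 1) - (c0 ^ n - φ l ^ n) := by
      rw [map_sub, map_pow, map_one]
      ring
    rw [h3]
    exact m.sub_mem hc h2
  obtain ⟨ζ, hζ, hζl⟩ := hroot l h1
  refine ⟨φ ζ, by rw [← map_pow, hζ, map_one], ?_⟩
  have h4 : c0 - φ ζ = (c0 - φ l) + φ (l - ζ) := by
    rw [map_sub]
    ring
  rw [h4]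
  exact m.add_mem hl hζl

end Ring

section Fam

variable {K0 F : Type*} [Field K0] [Field F] [Algebra K0 F] {ι : Type*}

/-- the constants, as a ring homomorphism into the chart ring -/
def h75_pt_const (V : h80_ValFam F ι) (A0 : Subring K0)
    (hAB : ∀ a : A0, algebraMap K0 F a ∈ V.B) : A0 →+* V.B :=
  ((algebraMap K0 F).comp A0.subtype).codRestrict V.B hAB

theorem h75_pt_const_coe (V : h80_ValFam F ι) (A0 : Subring K0)
    (hAB : ∀ a : A0, algebraMap K0 F a ∈ V.B) (a : A0) :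
    ((h75_pt_const V A0 hAB a : V.B) : F) = algebraMap K0 F a := rfl

/-- the integrality hypothesis of the chart ring, in ring form -/
theorem h75_pt_fam_int (V : h80_ValFam F ι) (A0 : Subring K0)
    (hAB : ∀ a : A0, algebraMap K0 F a ∈ V.B) (x0 : F) (hxB : x0 ∈ V.B)
    (hint : ∀ f ∈ V.B, (h97_ev A0 x0).IsIntegralElem f) (b : V.B) :
    (Polynomial.eval₂RingHom (h75_pt_const V A0 hAB) (⟨x0, hxB⟩ : V.B)).IsIntegralElem b := by
  obtain ⟨P, hP, he⟩ := hint b b.2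
  refine ⟨P, hP, ?_⟩
  have h1 : V.B.subtype.comp
      (Polynomial.eval₂RingHom (h75_pt_const V A0 hAB) (⟨x0, hxB⟩ : V.B)) = h97_ev A0 x0 := by
    apply Polynomial.ringHom_ext
    · intro a
      rw [h97_ev_C]
      simp only [RingHom.comp_apply, Polynomial.coe_eval₂RingHom, Polynomial.eval₂_C]
      rfl
    · rw [h97_ev_X]
      simp
  apply V.B.subtype_injective
  rw [Polynomial.hom_eval₂, h1, map_zero]
  exact he

/-- **(H1)**: an integer prime to `q` is a unit at every valuation through a point over `q`. -/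
theorem h75_pt_fam_H1 [CharZero F] (V : h80_ValFam F ι) (m : Ideal V.B) [hm : m.IsMaximal]
    {q n : ℕ} (hq : q.Prime) (hqm : ((q : ℕ) : V.B) ∈ m) (hn : ¬ q ∣ n) :
    ((n : ℕ) : F) ≠ 0 ∧ ∀ j, V.Through m j → V.v j ((n : ℕ) : F) = 0 := by
  have hn0 : n ≠ 0 := fun h => hn (h ▸ dvd_zero q)
  have hnF : ((n : ℕ) : F) ≠ 0 := Nat.cast_ne_zero.mpr hn0
  refine ⟨hnF, fun j hj => ?_⟩
  have hnm : ((n : ℕ) : V.B) ∉ m := by
    intro h
    have hcop : IsCoprime (q : ℤ) (n : ℤ) :=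
      Nat.isCoprime_iff_coprime.mpr ((Nat.Prime.coprime_iff_not_dvd hq).mpr hn)
    obtain ⟨a, b, hab⟩ := hcop
    have h1 : ((a : ℤ) : V.B) * ((q : ℕ) : V.B) + ((b : ℤ) : V.B) * ((n : ℕ) : V.B) = 1 := by
      have := congrArg (fun z : ℤ => (z : V.B)) hab
      push_cast at this
      exact this
    apply hm.ne_top
    rw [Ideal.eq_top_iff_one, ← h1]
    exact m.add_mem (m.mul_mem_left _ hqm) (m.mul_mem_left _ h)
  have hge : 0 ≤ V.v j ((n : ℕ) : F) := (V.mem_B _ hnF).mp (natCast_mem V.B n) j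
  by_contra hne
  have hpos : 0 < V.v j ((n : ℕ) : F) := lt_of_le_of_ne hge (Ne.symm hne)
  exact hnm (hj ((n : ℕ) : V.B) (by rw [Subring.coe_natCast]; exact hnF)
    (by rw [Subring.coe_natCast]; exact hpos))

/-- a point through which a valuation positive at `q` passes lies over `q` -/
theorem h75_pt_fam_q_mem (V : h80_ValFam F ι) (m : Ideal V.B) {q : ℕ}
    (hq0 : ((q : ℕ) : F) ≠ 0) (hqm : ∃ c, V.Through m c ∧ 0 < V.v c ((q : ℕ) : F)) :
    ((q : ℕ) : V.B) ∈ m := by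
  obtain ⟨c, hc, hpos⟩ := hqm
  exact hc ((q : ℕ) : V.B) (by rw [Subring.coe_natCast]; exact hq0)
    (by rw [Subring.coe_natCast]; exact hpos)

end Fam

section Val

variable {L : Type*} [Field L]

theorem h75_pow_sub_pow_mem_nonunits (A : ValuationSubring L) {x y : L} (hx : x ∈ A)
    (hy : y ∈ A) (h : x - y ∈ A.nonunits) (n : ℕ) : x ^ n - y ^ n ∈ A.nonunits := by
  obtain ⟨d, hd⟩ := sub_dvd_pow_sub_pow (⟨x, hx⟩ : A) ⟨y, hy⟩ n
  have h1 : x ^ n - y ^ n = (x - y) * (d : L) := congrArg Subtype.val hd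
  rw [h1]
  exact h26_mul_mem_nonunits_right A h d.2

theorem h75_eval_sub_mem_nonunits (A : ValuationSubring L) (P : Polynomial A) (a b : A)
    (h : (a : L) - (b : L) ∈ A.nonunits) :
    ((P.eval a : A) : L) - ((P.eval b : A) : L) ∈ A.nonunits := by
  obtain ⟨d, hd⟩ := Polynomial.sub_dvd_eval_sub a b P
  have h1 : ((P.eval a : A) : L) - ((P.eval b : A) : L) = ((a : L) - (b : L)) * (d : L) :=
    congrArg Subtype.val hd
  rw [h1]
  exact h26_mul_mem_nonunits_right A h d.2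

end Val

section Const

local notation "Qb" => AlgebraicClosure ℚ

variable (q : ℕ) [Fact q.Prime] (A : ValuationSubring Qb)

/-- an element of `A0` which is a unit of `A` is a unit of `A0` -/
theorem h75_A0_field (a : ↥(h69_A0 A).toSubring)
    (ha : ((a : h69_K0 (A.inertiaSubgroupIn ℚ)) : Qb) ∉ A.nonunits) :
    ∃ b : ↥(h69_A0 A).toSubring, a * b = 1 := by
  have ha0 : (a : h69_K0 (A.inertiaSubgroupIn ℚ)) ≠ 0 := by
    intro h
    apply ha
    rw [h]
    exact h5_zero_mem_nonunits A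
  have hinv : ((a : h69_K0 (A.inertiaSubgroupIn ℚ))⁻¹ : h69_K0 (A.inertiaSubgroupIn ℚ)) ∈
      h69_A0 A := by
    rw [h69_mem_A0]
    by_contra hni
    exact ha ((ValuationSubring.mem_nonunits_iff_or (A := A)).mpr (Or.inr hni))
  exact ⟨⟨_, hinv⟩, Subtype.ext (mul_inv_cancel₀ ha0)⟩

/-- the nonunits of `A0` are the multiples of `q` -/
theorem h75_A0_nonunit (hA : A.LiesOverPrime q) (a : ↥(h69_A0 A).toSubring)
    (ha : ((a : h69_K0 (A.inertiaSubgroupIn ℚ)) : Qb) ∈ A.nonunits) :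
    ∃ b : ↥(h69_A0 A).toSubring, a = ((q : ℕ) : ↥(h69_A0 A).toSubring) * b := by
  have hq : q.Prime := Fact.out
  by_cases ha0 : (a : h69_K0 (A.inertiaSubgroupIn ℚ)) = 0
  · exact ⟨0, by rw [mul_zero]; exact Subtype.ext ha0⟩
  · obtain ⟨n, u, hu, huA, huA'⟩ := h69_inst_dv q A hA (a : h69_K0 (A.inertiaSubgroupIn ℚ)) ha0
    have hq0 : ((q : ℕ) : h69_K0 (A.inertiaSubgroupIn ℚ)) ≠ 0 := Nat.cast_ne_zero.mpr hq.ne_zero
    have hqA : ((q : ℕ) : h69_K0 (A.inertiaSubgroupIn ℚ)) ∈ h69_A0 A := natCast_mem _ q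
    have hn : 1 ≤ n := by
      by_contra hlt
      obtain ⟨k, hk⟩ : ∃ k : ℕ, n = -(k : ℤ) := ⟨(-n).toNat, by omega⟩
      have hainv : (a : h69_K0 (A.inertiaSubgroupIn ℚ))⁻¹ ∈ h69_A0 A := by
        rw [hu, hk, zpow_neg, zpow_natCast, mul_inv, inv_inv]
        exact mul_mem (pow_mem hqA k) huA'
      rcases (ValuationSubring.mem_nonunits_iff_or (A := A)).mp ha with h | h
      · exact ha0 (Subtype.ext h)
      · exact h hainv
    obtain ⟨k, hk⟩ : ∃ k : ℕ, n = (k : ℤ) + 1 := ⟨(n - 1).toNat, by omega⟩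
    refine ⟨⟨(q : h69_K0 (A.inertiaSubgroupIn ℚ)) ^ k * u, mul_mem (pow_mem hqA k) huA⟩,
      Subtype.ext ?_⟩
    show (a : h69_K0 (A.inertiaSubgroupIn ℚ)) =
      ((q : ℕ) : h69_K0 (A.inertiaSubgroupIn ℚ)) * ((q : h69_K0 (A.inertiaSubgroupIn ℚ)) ^ k * u)
    rw [hu, hk, zpow_add_one₀ hq0, zpow_natCast]
    ring

/-- **the residue field of `A0` is algebraically closed**: a monic polynomial over `A0` of
positive degree has a root modulo the maximal ideal. -/
theorem h75_A0_closed (hA : A.LiesOverPrime q) (p : Polynomial ↥(h69_A0 A).toSubring)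
    (hp : p.Monic) (hd : 0 < p.natDegree) :
    ∃ a : ↥(h69_A0 A).toSubring,
      (((p.eval a : ↥(h69_A0 A).toSubring) : h69_K0 (A.inertiaSubgroupIn ℚ)) : Qb) ∈
        A.nonunits := by
  have hq : q.Prime := Fact.out
  let j : ↥(h69_A0 A).toSubring →+* A :=
    ((algebraMap (h69_K0 (A.inertiaSubgroupIn ℚ)) Qb).comp
      (h69_A0 A).toSubring.subtype).codRestrict A (fun a => a.2)
  have hP : (p.map j).Monic := hp.map j
  have hPQ : ((p.map j).map (algebraMap A Qb)).Monic := hP.map _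
  have hdeg : ((p.map j).map (algebraMap A Qb)).degree ≠ 0 := by
    rw [Polynomial.degree_eq_natDegree hPQ.ne_zero, hP.natDegree_map, hp.natDegree_map]
    exact_mod_cast hd.ne'
  obtain ⟨y, hy⟩ := IsAlgClosed.exists_root _ hdeg
  have hyint : IsIntegral A y := ⟨p.map j, hP, by rw [← Polynomial.eval_map]; exact hy⟩
  obtain ⟨y', hy'⟩ := IsIntegrallyClosed.isIntegral_iff.mp hyint
  obtain ⟨a0, ha0A, ha0fix, hnear⟩ := h5_res_K0 q hq A hA y (hy' ▸ y'.2)
  refine ⟨⟨⟨a0, (h69_mem_K0 _ a0).mpr ha0fix⟩, ha0A⟩, ?_⟩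
  have hPy : (p.map j).eval y' = 0 := by
    have h0 : (algebraMap A Qb) ((p.map j).eval y') = 0 := by
      rw [← Polynomial.eval₂_at_apply, ← Polynomial.eval_map, hy']
      exact hy
    exact Subtype.val_injective h0
  have h1 := h75_eval_sub_mem_nonunits A (p.map j)
    (j ⟨⟨a0, (h69_mem_K0 _ a0).mpr ha0fix⟩, ha0A⟩) y' (by
      have h2 : ((y' : A) : Qb) = y := hy'
      rw [h2]
      show a0 - y ∈ A.nonunits
      have h3 : a0 - y = -(y - a0) := by ring
      rw [h3]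
      exact h5_neg_mem_nonunits A hnear)
  rw [hPy, ZeroMemClass.coe_zero, sub_zero, Polynomial.eval_map, Polynomial.eval₂_at_apply] at h1
  exact h1

/-- **roots of unity of order prime to `q` lift to `A0`.** -/
theorem h75_A0_root (hA : A.LiesOverPrime q) {n : ℕ} (hn : ¬ q ∣ n)
    (l : ↥(h69_A0 A).toSubring)
    (hl : (((l ^ n - 1 : ↥(h69_A0 A).toSubring) : h69_K0 (A.inertiaSubgroupIn ℚ)) : Qb) ∈
      A.nonunits) :
    ∃ ζ : ↥(h69_A0 A).toSubring, ζ ^ n = 1 ∧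
      (((l - ζ : ↥(h69_A0 A).toSubring) : h69_K0 (A.inertiaSubgroupIn ℚ)) : Qb) ∈ A.nonunits := by
  have hq : q.Prime := Fact.out
  have hn0 : n ≠ 0 := fun h => hn (h ▸ dvd_zero q)
  have hlA : ((l : h69_K0 (A.inertiaSubgroupIn ℚ)) : Qb) ∈ A := l.2
  have hl1 : ((l : h69_K0 (A.inertiaSubgroupIn ℚ)) : Qb) ^ n - 1 ∈ A.nonunits := hl
  have hlu : ((l : h69_K0 (A.inertiaSubgroupIn ℚ)) : Qb) ∉ A.nonunits := by
    intro h
    have h1 := h5_pow_mem_nonunits A h hn0
    have h2 : (1 : Qb) = ((l : h69_K0 (A.inertiaSubgroupIn ℚ)) : Qb) ^ n +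
        -(((l : h69_K0 (A.inertiaSubgroupIn ℚ)) : Qb) ^ n - 1) := by ring
    apply h26_one_not_mem_nonunits A
    rw [h2]
    exact h5_add_mem_nonunits A h1 (h5_neg_mem_nonunits A hl1)
  obtain ⟨n', ζ, hn'0, hn', hζn, hζA, hζfix, hnear⟩ := h5_teich_K0 q hq A hA _ hlA hlu
  have hζ1 : ζ ^ n = 1 := by
    refine h5_root_eq_one A hq hA hn' (ξ := ζ ^ n) ?_ ?_
    · rw [← pow_mul, mul_comm, pow_mul, hζn, one_pow]
    · have h1 : ζ ^ n - 1 = -(((l : h69_K0 (A.inertiaSubgroupIn ℚ)) : Qb) ^ n - ζ ^ n) +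
          (((l : h69_K0 (A.inertiaSubgroupIn ℚ)) : Qb) ^ n - 1) := by ring
      rw [h1]
      exact h5_add_mem_nonunits A
        (h5_neg_mem_nonunits A (h75_pow_sub_pow_mem_nonunits A hlA hζA hnear n)) hl1
  refine ⟨⟨⟨ζ, (h69_mem_K0 _ ζ).mpr hζfix⟩, hζA⟩, ?_, hnear⟩
  apply Subtype.ext
  apply Subtype.ext
  exact hζ1

end Const

section Mod

local notation "Qb" => AlgebraicClosure ℚ

variable (q : ℕ) [Fact q.Prime] (A : ValuationSubring Qb) (hA : A.LiesOverPrime q) (N : ℕ)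
  {ι : Type*} (V : h80_ValFam ↥(h69_F0 N (A.inertiaSubgroupIn ℚ)) ι) (m : Ideal V.B)
  (hAB : ∀ a : ↥(h69_A0 A).toSubring,
    algebraMap (h69_K0 (A.inertiaSubgroupIn ℚ)) ↥(h69_F0 N (A.inertiaSubgroupIn ℚ)) a ∈ V.B)

include hA in
/-- the nonunits of `A0` lie in every point over `q` -/
theorem h75_pt_mod_nonunit (hqm : ((q : ℕ) : V.B) ∈ m) (a : ↥(h69_A0 A).toSubring)
    (ha : ((a : h69_K0 (A.inertiaSubgroupIn ℚ)) : Qb) ∈ A.nonunits) :
    h75_pt_const V (h69_A0 A).toSubring hAB a ∈ m := by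
  obtain ⟨b, rfl⟩ := h75_A0_nonunit q A hA a ha
  rw [map_mul, map_natCast]
  exact m.mul_mem_right _ hqm

include hA in
theorem h75_pt_mod_hfield (hqm : ((q : ℕ) : V.B) ∈ m)
    (a : ↥(h69_A0 A).toSubring) (ha : h75_pt_const V (h69_A0 A).toSubring hAB a ∉ m) :
    ∃ b : ↥(h69_A0 A).toSubring, h75_pt_const V (h69_A0 A).toSubring hAB a *
      h75_pt_const V (h69_A0 A).toSubring hAB b - 1 ∈ m := by
  have h1 : ((a : h69_K0 (A.inertiaSubgroupIn ℚ)) : Qb) ∉ A.nonunits := fun h =>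
    ha (h75_pt_mod_nonunit q A hA N V m hAB hqm a h)
  obtain ⟨b, hb⟩ := h75_A0_field A a h1
  refine ⟨b, ?_⟩
  rw [← map_mul, hb, map_one, sub_self]
  exact m.zero_mem

include hA in
theorem h75_pt_mod_hclosed (hqm : ((q : ℕ) : V.B) ∈ m)
    (p : Polynomial ↥(h69_A0 A).toSubring) (hp : p.Monic) (hd : 0 < p.natDegree) :
    ∃ a : ↥(h69_A0 A).toSubring, h75_pt_const V (h69_A0 A).toSubring hAB (p.eval a) ∈ m := by
  obtain ⟨a, ha⟩ := h75_A0_closed q A hA p hp hd
  exact ⟨a, h75_pt_mod_nonunit q A hA N V m hAB hqm _ ha⟩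

include hA in
theorem h75_pt_mod_hroot [hm : m.IsMaximal] (hqm : ((q : ℕ) : V.B) ∈ m) {n : ℕ}
    (hn : ¬ q ∣ n) (l : ↥(h69_A0 A).toSubring)
    (hl : h75_pt_const V (h69_A0 A).toSubring hAB (l ^ n - 1) ∈ m) :
    ∃ ζ : ↥(h69_A0 A).toSubring, ζ ^ n = 1 ∧
      h75_pt_const V (h69_A0 A).toSubring hAB (l - ζ) ∈ m := by
  have h1 : (((l ^ n - 1 : ↥(h69_A0 A).toSubring) : h69_K0 (A.inertiaSubgroupIn ℚ)) : Qb) ∈
      A.nonunits := by
    by_contra h
    obtain ⟨b, hb⟩ := h75_A0_field A _ h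
    apply hm.ne_top
    rw [Ideal.eq_top_iff_one, ← map_one (h75_pt_const V (h69_A0 A).toSubring hAB), ← hb,
      map_mul]
    exact m.mul_mem_right _ hl
  obtain ⟨ζ, hζ, hζl⟩ := h75_A0_root q A hA hn l h1
  exact ⟨ζ, hζ, h75_pt_mod_nonunit q A hA N V m hAB hqm _ hζl⟩

variable (x0 : ↥(h69_F0 N (A.inertiaSubgroupIn ℚ))) (hxB : x0 ∈ V.B)
  (hint : ∀ f ∈ V.B, (h97_ev (h69_A0 A).toSubring x0).IsIntegralElem f)

include hA hxB hint in
/-- **(RESK)** at the modular level: every element of the chart ring is congruent to a constant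
of `A0` modulo a closed point over `q`. -/
theorem h75_pt_mod_resk [hm : m.IsMaximal] (hqm : ((q : ℕ) : V.B) ∈ m) (s : V.B) :
    ∃ l : ↥(h69_A0 A).toSubring, s - h75_pt_const V (h69_A0 A).toSubring hAB l ∈ m :=
  h75_pt_resk m (h75_pt_const V (h69_A0 A).toSubring hAB) ⟨x0, hxB⟩
    (h75_pt_fam_int V _ hAB x0 hxB hint)
    (h75_pt_mod_hfield q A hA N V m hAB hqm)
    (h75_pt_mod_hclosed q A hA N V m hAB hqm) s

include hA hAB hxB hint in
/-- **(H2)** at the modular level. -/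
theorem h75_pt_mod_H2 [hm : m.IsMaximal] (hqm : ((q : ℕ) : V.B) ∈ m) {n : ℕ} (hn : n ≠ 0) :
    ∀ s : V.B, s ∉ m → ∃ r : V.B, r ^ n - s ∈ m := fun s _ =>
  h75_pt_H2 m (h75_pt_const V (h69_A0 A).toSubring hAB) ⟨x0, hxB⟩
    (h75_pt_fam_int V _ hAB x0 hxB hint)
    (h75_pt_mod_hfield q A hA N V m hAB hqm)
    (h75_pt_mod_hclosed q A hA N V m hAB hqm) hn s

include hA hAB hxB hint in
/-- **(H3)** at the modular level. -/
theorem h75_pt_mod_H3 [hm : m.IsMaximal] (hqm : ((q : ℕ) : V.B) ∈ m) {n : ℕ} (hn : ¬ q ∣ n) :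
    ∀ c0 : V.B, c0 ^ n - 1 ∈ m → ∃ ζ : V.B, ζ ^ n = 1 ∧ c0 - ζ ∈ m :=
  h75_pt_H3 m (h75_pt_const V (h69_A0 A).toSubring hAB) ⟨x0, hxB⟩
    (h75_pt_fam_int V _ hAB x0 hxB hint)
    (h75_pt_mod_hfield q A hA N V m hAB hqm)
    (h75_pt_mod_hclosed q A hA N V m hAB hqm)
    (h75_pt_mod_hroot q A hA N V m hAB hqm hn)

/-- **(H1)** at the modular level. -/
theorem h75_pt_mod_H1 [hm : m.IsMaximal] (hqm : ((q : ℕ) : V.B) ∈ m) {n : ℕ} (hn : ¬ q ∣ n) :
    ((n : ℕ) : ↥(h69_F0 N (A.inertiaSubgroupIn ℚ))) ≠ 0 ∧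
      ∀ j, V.Through m j → V.v j ((n : ℕ) : ↥(h69_F0 N (A.inertiaSubgroupIn ℚ))) = 0 :=
  h75_pt_fam_H1 V m (Fact.out : q.Prime) hqm hn

end Mod

end Fermat.Agent.S36
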