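import Mathlib
import Fermat.Agent.S36.h80_ChartInv
import Fermat.Agent.S36.h69_K0
import Fermat.Agent.S18.h54_ModLevel
import Fermat.Agent.S19.h2_ModChartJ

/-!
# S36 / row I-FAM: the chart valuation families at a modular level (helper89)

Level `N`, `H` a subgroup of `Gal(ℚ̄/ℚ)` (in use: the inertia group of `A`), `F₀ = h69_F0 N H`
the field of `H`-invariant functions of `F̄(N)`, `x ∈ F₀` a chart function (in use: `j` and
`1/j`), `w c : F₀ → ℤ` finitely many vertical valuations (a parameter: row I-VAL).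

* `h89_fam` : the valuation family `h80_placeFam` of the chart `{P | 0 ≤ ord_P x}` on `F₀`.
* `h89_mem_fam_B` : its chart ring.
* `h89_fam_hq`, `h89_fam_hunr`, `h89_fam_hsep` : the three horizontal inputs of the (UNIT*)
  criteria, with no open hypothesis (vector-space descent (K3), finiteness of Galois orbits of
  places and the polar divisor of `x` are discharged here).
* `h89_fam_exists_vert`, `h89_fam_q_mem` : a point contains `q` iff it lies on a vertical
  component.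
* `h89_fam_hfrac` : `F₀` is the field of fractions of the chart ring.
* `h89_jbar_mem_F0`, `h89_jbar_inv_mem_F0`, `h89_isChart_jbar_inv`, `h89_mem_chartSet_jbar`,
  `h89_mem_chartSet_jbar_inv` : the two charts `j`, `1/j`.
-/

set_option autoImplicit false
set_option linter.unusedSectionVars false

namespace Fermat.Agent.S36

open AlgebraicCurve ModularCurve Fermat.Agent.S18 Fermat.Agent.S24

local notation "Qb" => AlgebraicClosure ℚ

/-! ### Generic: fractions of the chart ring of a chart family -/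

section GenericFrac

variable {F : Type*} [Field F] {κ P : Type*} [Finite κ] (w : κ → F → ℤ) (h : P → F → ℤ)
  (hw_mul : ∀ c (f g : F), f ≠ 0 → g ≠ 0 → w c (f * g) = w c f + w c g)
  (hw_add : ∀ c (f g : F), f ≠ 0 → g ≠ 0 → f + g ≠ 0 → min (w c f) (w c g) ≤ w c (f + g))
  (hh_mul : ∀ p (f g : F), f ≠ 0 → g ≠ 0 → h p (f * g) = h p f + h p g)
  (hh_add : ∀ p (f g : F), f ≠ 0 → g ≠ 0 → f + g ≠ 0 → min (h p f) (h p g) ≤ h p (f + g))
  (hh_fin : ∀ f : F, f ≠ 0 → {p | h p f ≠ 0}.Finite)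

local notation "VV" => h80_chartFam w h hw_mul hw_add hh_mul hh_add hh_fin

/-- `q₀` lies in the chart ring. -/
theorem h89_chartFam_q_mem_B {q0 : F} (hqh : ∀ p, h p q0 = 0) (hqw : ∀ c, 0 < w c q0) :
    q0 ∈ (VV).B := by
  rw [h80_mem_chartFam_B]
  exact Or.inr ⟨fun c => (hqw c).le, fun p => (hqh p).ge⟩

/-- **Fractions.**  Every element of `F` is a quotient of two elements of the chart ring: the
horizontal poles are cleared by a product of horizontal uniformisers, the vertical ones by a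
power of `q₀`. -/
theorem h89_chartFam_hfrac {q0 : F} (hq0 : q0 ≠ 0) (hqh : ∀ p, h p q0 = 0)
    (hqw : ∀ c, 0 < w c q0)
    (hunr : ∀ p, ∃ t : F, t ≠ 0 ∧ (∀ p', 0 ≤ h p' t) ∧ h p t = 1) (f : F) :
    ∃ c d : (VV).B, (d : F) ≠ 0 ∧ f * (d : F) = (c : F) := by
  classical
  by_cases hf : f = 0
  · refine ⟨0, 1, ?_, ?_⟩
    · exact one_ne_zero
    · rw [hf]
      simp
  choose t ht0 htreg ht1 using hunr
  let S : Finset P := (hh_fin f hf).toFinset
  let d0 : F := ∏ p ∈ S, t p ^ (-(h p f)).toNat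
  have hd0 : d0 ≠ 0 := Finset.prod_ne_zero_iff.2 (fun p _ => pow_ne_zero _ (ht0 p))
  have hval : ∀ p', h p' d0 = ∑ p ∈ S, ((-(h p f)).toNat : ℤ) * h p' (t p) := by
    intro p'
    have h1 := h80_v_prod (VV) (Sum.inr (h80_horMk h p')) S (fun p => t p ^ (-(h p f)).toNat)
      (fun p _ => pow_ne_zero _ (ht0 p))
    have h2 : (VV).v (Sum.inr (h80_horMk h p')) (∏ p ∈ S, t p ^ (-(h p f)).toNat) = h p' d0 :=
      rfl
    rw [← h2, h1]
    refine Finset.sum_congr rfl (fun p _ => ?_)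
    exact h80_v_pow (VV) (Sum.inr (h80_horMk h p')) (ht0 p) _
  have hterm : ∀ p' p, 0 ≤ ((-(h p f)).toNat : ℤ) * h p' (t p) := fun p' p =>
    mul_nonneg (Int.natCast_nonneg _) (htreg p p')
  have hd0nn : ∀ p', 0 ≤ h p' d0 := by
    intro p'
    rw [hval]
    exact Finset.sum_nonneg (fun p _ => hterm p' p)
  have hd0f : ∀ p', 0 ≤ h p' (d0 * f) := by
    intro p'
    rw [hh_mul p' d0 f hd0 hf]
    by_cases hp : p' ∈ S
    · have h1 : ((-(h p' f)).toNat : ℤ) * h p' (t p') ≤ h p' d0 := by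
        rw [hval]
        exact Finset.single_le_sum (f := fun p => ((-(h p f)).toNat : ℤ) * h p' (t p))
          (fun p _ => hterm p' p) hp
      rw [ht1 p', mul_one] at h1
      have h2 : -(h p' f) ≤ ((-(h p' f)).toNat : ℤ) := Int.self_le_toNat _
      omega
    · have h0 : h p' f = 0 := by
        by_contra hne
        exact hp ((Set.Finite.mem_toFinset _).2 hne)
      have := hd0nn p'
      omega
  obtain ⟨n1, hm1, hne1, -⟩ :=
    h80_chartFam_scale w h hw_mul hw_add hh_mul hh_add hh_fin hq0 hqh hqw hd0 hd0nn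
  obtain ⟨n2, hm2, -, -⟩ :=
    h80_chartFam_scale w h hw_mul hw_add hh_mul hh_add hh_fin hq0 hqh hqw (mul_ne_zero hd0 hf)
      hd0f
  have hqB : q0 ∈ (VV).B := h89_chartFam_q_mem_B w h hw_mul hw_add hh_mul hh_add hh_fin hqh hqw
  refine ⟨⟨q0 ^ n1, pow_mem hqB n1⟩ * ⟨q0 ^ n2 * (d0 * f), hm2⟩,
    ⟨q0 ^ n2, pow_mem hqB n2⟩ * ⟨q0 ^ n1 * d0, hm1⟩, ?_, ?_⟩
  · show q0 ^ n2 * (q0 ^ n1 * d0) ≠ 0
    exact mul_ne_zero (pow_ne_zero _ hq0) hne1
  · show f * (q0 ^ n2 * (q0 ^ n1 * d0)) = q0 ^ n1 * (q0 ^ n2 * (d0 * f))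
    ring

end GenericFrac

/-! ### Generic: the polar divisor of a chart function -/

section Polar

variable {K F : Type*} [Field K] [Field F] [Algebra K F] [IsAlgClosed K]

/-- The polar divisor of a chart function. -/
theorem h89_exists_polar {x : F} (hx : h75_IsChart K x) :
    ∃ D0 : Divisor K F, ∀ v : Place K F, D0 v = max 0 (-v.ord x) := by
  classical
  have hfin : (Function.support fun P : Place K F => max 0 (-P.ord x)).Finite := by
    refine (h75_finite_ord_ne hx x hx.ne_zero).subset ?_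
    intro P hP h0
    apply hP
    show max 0 (-P.ord x) = 0
    rw [h0]
    simp
  exact ⟨Finsupp.ofSupportFinite (fun P : Place K F => max 0 (-P.ord x)) hfin, fun v => rfl⟩

end Polar

/-! ### The modular instance -/

section Modular

variable (N : ℕ) [NeZero N] (H : Subgroup (Qb ≃ₐ[ℚ] Qb))

/-- `j` is `H`-invariant. -/
theorem h89_jbar_mem_F0 : h59_jbar N ∈ h69_F0 N H :=
  (h69_mem_F0 N H _).2 (fun σ _ => Fermat.Agent.S19.h2_jbar_fix N σ)

/-- `1/j` is `H`-invariant. -/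
theorem h89_jbar_inv_mem_F0 : (h59_jbar N)⁻¹ ∈ h69_F0 N H :=
  (h69_F0 N H).inv_mem (h89_jbar_mem_F0 N H)

/-- `1/j` is a chart function. -/
theorem h89_isChart_jbar_inv : h75_IsChart Qb (h59_jbar N)⁻¹ :=
  h75_isChart_inv (h54_isChart_jbar N)

/-- Chart 1 (`j` finite). -/
theorem h89_mem_chartSet_jbar (P : Place Qb (modularFunctionFieldBar N)) :
    P ∈ h80_chartSet Qb (h59_jbar N) ↔ 0 ≤ P.ord (h59_jbar N) := Iff.rfl

/-- Chart 2 (`1/j` finite; it contains all the cusps). -/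
theorem h89_mem_chartSet_jbar_inv (P : Place Qb (modularFunctionFieldBar N)) :
    P ∈ h80_chartSet Qb (h59_jbar N)⁻¹ ↔ P.ord (h59_jbar N) ≤ 0 := by
  show 0 ≤ P.ord (h59_jbar N)⁻¹ ↔ P.ord (h59_jbar N) ≤ 0
  rw [P.ord_inv]
  omega

/-- A natural number has order `0` at every place. -/
theorem h89_ord_natCast (n : ℕ) (P : Place Qb (modularFunctionFieldBar N)) :
    P.ord (((n : ↥(h69_F0 N H)) : modularFunctionFieldBar N)) = 0 := by
  have h1 : ((n : ↥(h69_F0 N H)) : modularFunctionFieldBar N) =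
      algebraMap Qb (modularFunctionFieldBar N) (n : Qb) := by
    rw [map_natCast]
    exact map_natCast (h69_F0 N H).subtype n
  rw [h1]
  exact h35_ord_algebraMap P _

/-- A nonzero natural number is nonzero in `F₀`. -/
theorem h89_natCast_ne_zero {n : ℕ} (hn : n ≠ 0) : ((n : ℕ) : ↥(h69_F0 N H)) ≠ 0 := by
  intro h0
  have h1 : ((n : ↥(h69_F0 N H)) : modularFunctionFieldBar N) =
      algebraMap Qb (modularFunctionFieldBar N) (n : Qb) := by
    rw [map_natCast]
    exact map_natCast (h69_F0 N H).subtype n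
  rw [h0] at h1
  have h2 : algebraMap Qb (modularFunctionFieldBar N) (n : Qb) = 0 := by
    rw [← h1]
    rfl
  have h3 : (n : Qb) = 0 :=
    (map_eq_zero_iff _ (algebraMap Qb (modularFunctionFieldBar N)).injective).1 h2
  exact hn (Nat.cast_eq_zero.1 h3)

/-- The finiteness binder of `h80_placeFam`. -/
theorem h89_chart_fin {x : modularFunctionFieldBar N} (hx : h75_IsChart Qb x)
    (f : modularFunctionFieldBar N) (hf : f ≠ 0) :
    {P : Place Qb (modularFunctionFieldBar N) | P ∈ h80_chartSet Qb x ∧ P.ord f ≠ 0}.Finite :=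
  (h75_finite_ord_ne hx f hf).subset (fun _ hP => hP.2)

variable {κ : Type*} [Finite κ] {x : modularFunctionFieldBar N} (hx : h75_IsChart Qb x)
  (w : κ → ↥(h69_F0 N H) → ℤ)
  (hw_mul : ∀ c (f g : ↥(h69_F0 N H)), f ≠ 0 → g ≠ 0 → w c (f * g) = w c f + w c g)
  (hw_add : ∀ c (f g : ↥(h69_F0 N H)), f ≠ 0 → g ≠ 0 → f + g ≠ 0 →
    min (w c f) (w c g) ≤ w c (f + g))

/-- **The valuation family of the chart `{P | 0 ≤ ord_P x}` on the `H`-invariant functions of
level `N`**: vertical valuations `w c`, horizontal valuations the restrictions of the places of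
the chart. -/
noncomputable def h89_fam :
    h80_ValFam ↥(h69_F0 N H)
      (κ ⊕ h80_HorIdx (h80_placeOrd (h69_F0 N H).subtype (h80_chartSet Qb x))) :=
  h80_placeFam (h69_F0 N H).subtype (h80_chartSet Qb x) w hw_mul hw_add (h89_chart_fin N hx)

local notation "VF" => h89_fam N H hx w hw_mul hw_add

theorem h89_fam_v_inl (c : κ) (f : ↥(h69_F0 N H)) : (VF).v (Sum.inl c) f = w c f := rfl

theorem h89_fam_v_mk (P : Place Qb (modularFunctionFieldBar N)) (hP : 0 ≤ P.ord x)
    (f : ↥(h69_F0 N H)) :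
    (VF).v (Sum.inr (h80_horMk (h80_placeOrd (h69_F0 N H).subtype (h80_chartSet Qb x)) ⟨P, hP⟩))
      f = P.ord (f : modularFunctionFieldBar N) := rfl

/-- Every horizontal index is the restriction of a place of the chart. -/
theorem h89_fam_hor
    (i : κ ⊕ h80_HorIdx (h80_placeOrd (h69_F0 N H).subtype (h80_chartSet Qb x)))
    (hi : h80_IsHor i) :
    ∃ (P : Place Qb (modularFunctionFieldBar N)) (hP : 0 ≤ P.ord x),
      i = Sum.inr (h80_horMk (h80_placeOrd (h69_F0 N H).subtype (h80_chartSet Qb x)) ⟨P, hP⟩) := by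
  obtain ⟨j, rfl⟩ := hi
  obtain ⟨⟨P, hP⟩, rfl⟩ := h80_horMk_surj _ j
  exact ⟨P, hP, rfl⟩

/-- **The chart ring.** -/
theorem h89_mem_fam_B (f : ↥(h69_F0 N H)) :
    f ∈ (VF).B ↔ f = 0 ∨ ((∀ c, 0 ≤ w c f) ∧
      ∀ P : Place Qb (modularFunctionFieldBar N), 0 ≤ P.ord x →
        0 ≤ P.ord (f : modularFunctionFieldBar N)) := by
  have h := h80_mem_placeFam_B (h69_F0 N H).subtype (h80_chartSet Qb x) w hw_mul hw_add
    (h89_chart_fin N hx) f
  constructor
  · intro hf
    rcases h.1 hf with h0 | ⟨h1, h2⟩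
    · exact Or.inl h0
    · exact Or.inr ⟨h1, fun P hP => h2 P hP⟩
  · rintro (h0 | ⟨h1, h2⟩)
    · exact h.2 (Or.inl h0)
    · exact h.2 (Or.inr ⟨h1, fun P hP => h2 P hP⟩)

/-- (hq): a natural number is a unit at the horizontal valuations. -/
theorem h89_fam_hq (q : ℕ)
    (i : κ ⊕ h80_HorIdx (h80_placeOrd (h69_F0 N H).subtype (h80_chartSet Qb x)))
    (hi : h80_IsHor i) : (VF).v i ((q : ℕ) : ↥(h69_F0 N H)) = 0 := by
  obtain ⟨P, hP, rfl⟩ := h89_fam_hor N H i hi
  rw [h89_fam_v_mk]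
  exact h89_ord_natCast N H q P

/-- **(hunr)**: every horizontal valuation has an element of the chart ring of valuation `1`. -/
theorem h89_fam_hunr (hxF0 : x ∈ h69_F0 N H) {q : ℕ} (hq : q ≠ 0)
    (hqw : ∀ c, 0 < w c ((q : ℕ) : ↥(h69_F0 N H)))
    (i : κ ⊕ h80_HorIdx (h80_placeOrd (h69_F0 N H).subtype (h80_chartSet Qb x)))
    (hi : h80_IsHor i) : ∃ f : (VF).B, (f : ↥(h69_F0 N H)) ≠ 0 ∧ (VF).v i f = 1 := by
  obtain ⟨D0, hD0⟩ := h89_exists_polar hx
  exact h80_chartFam_hunr w (h80_placeOrd (h69_F0 N H).subtype (h80_chartSet Qb x)) hw_mul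
    hw_add (h80_placeOrd_mul _ _) (h80_placeOrd_add _ _)
    (h80_placeOrd_fin _ _ (h89_chart_fin N hx)) (h89_natCast_ne_zero N H hq)
    (fun p => h89_ord_natCast N H q p.1) hqw
    (fun p => h80_inv_hunr (arithmeticGalois (modularFunctionFieldFull N)) H (h69_F0 N H)
      (h69_mem_F0 N H) hx hxF0 D0 hD0 (h69_K3 N H) (h89_orbit_finite_modular N H) p) i hi

/-- **(hsep)**: two different horizontal valuations are separated by an element of the chart
ring. -/
theorem h89_fam_hsep (hxF0 : x ∈ h69_F0 N H) {q : ℕ} (hq : q ≠ 0)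
    (hqw : ∀ c, 0 < w c ((q : ℕ) : ↥(h69_F0 N H)))
    (i j : κ ⊕ h80_HorIdx (h80_placeOrd (h69_F0 N H).subtype (h80_chartSet Qb x)))
    (hi : h80_IsHor i) (hj : h80_IsHor j) (hij : i ≠ j) :
    ∃ f : (VF).B, (f : ↥(h69_F0 N H)) ≠ 0 ∧ 0 < (VF).v i f ∧ (VF).v j f = 0 := by
  obtain ⟨D0, hD0⟩ := h89_exists_polar hx
  exact h80_chartFam_hsep w (h80_placeOrd (h69_F0 N H).subtype (h80_chartSet Qb x)) hw_mul
    hw_add (h80_placeOrd_mul _ _) (h80_placeOrd_add _ _)
    (h80_placeOrd_fin _ _ (h89_chart_fin N hx)) (h89_natCast_ne_zero N H hq)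
    (fun p => h89_ord_natCast N H q p.1) hqw
    (fun p p' hpp => h80_inv_hsep (arithmeticGalois (modularFunctionFieldFull N)) H
      (h69_F0 N H) (h69_mem_F0 N H) hx hxF0 D0 hD0 (h69_K3 N H) (h89_orbit_finite_modular N H)
      p p' hpp) i j hi hj hij

/-- `q` lies in every point on a vertical component. -/
theorem h89_fam_q_mem {q : ℕ} (hq : q ≠ 0) (hqw : ∀ c, 0 < w c ((q : ℕ) : ↥(h69_F0 N H)))
    (m : Ideal (VF).B) (c : κ) (hc : (VF).Through m (Sum.inl c)) : ((q : ℕ) : (VF).B) ∈ m :=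
  hc (q : (VF).B) (h89_natCast_ne_zero N H hq) (hqw c)

/-- **A point containing `q` lies on a vertical component.** -/
theorem h89_fam_exists_vert [Nonempty κ] {q : ℕ} (hq : q ≠ 0) (m : Ideal (VF).B)
    [hm : m.IsPrime] (hqm : ((q : ℕ) : (VF).B) ∈ m) : ∃ c : κ, (VF).Through m (Sum.inl c) :=
  h80_chartFam_exists_vert (hm := hm) w (h80_placeOrd (h69_F0 N H).subtype (h80_chartSet Qb x)) hw_mul
    hw_add (h80_placeOrd_mul _ _) (h80_placeOrd_add _ _)
    (h80_placeOrd_fin _ _ (h89_chart_fin N hx)) (h89_natCast_ne_zero N H hq)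
    (fun p => h89_ord_natCast N H q p.1) (natCast_mem (VF).B q) m hqm

/-- **Fractions**: `F₀` is the field of fractions of the chart ring. -/
theorem h89_fam_hfrac (hxF0 : x ∈ h69_F0 N H) {q : ℕ} (hq : q ≠ 0)
    (hqw : ∀ c, 0 < w c ((q : ℕ) : ↥(h69_F0 N H))) (f : ↥(h69_F0 N H)) :
    ∃ c d : (VF).B, (d : ↥(h69_F0 N H)) ≠ 0 ∧ f * (d : ↥(h69_F0 N H)) = (c : ↥(h69_F0 N H)) := by
  obtain ⟨D0, hD0⟩ := h89_exists_polar hx
  exact h89_chartFam_hfrac w (h80_placeOrd (h69_F0 N H).subtype (h80_chartSet Qb x)) hw_mul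
    hw_add (h80_placeOrd_mul _ _) (h80_placeOrd_add _ _)
    (h80_placeOrd_fin _ _ (h89_chart_fin N hx)) (h89_natCast_ne_zero N H hq)
    (fun p => h89_ord_natCast N H q p.1) hqw
    (fun p => h80_inv_hunr (arithmeticGalois (modularFunctionFieldFull N)) H (h69_F0 N H)
      (h69_mem_F0 N H) hx hxF0 D0 hD0 (h69_K3 N H) (h89_orbit_finite_modular N H) p) f

end Modular

end Fermat.Agent.S36
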