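import Mathlib
import Fermat.Agent.S36.h89_FamInst
import Fermat.Agent.S36.h69_K0Inst
import Fermat.Agent.S18.h19_ResField

/-!
# S36 / row I-PTS, inputs (H1)-(H3): the residue field of a closed point is `k` (helper89)

* `h89_residue_const` (Mathlib only): `S` a ring containing constants `R0` and an element `x`,
  integral over `R0[x]`; `m` a maximal ideal of `S`; `res : R0 → k` onto an algebraically closed
  field with kernel mapped into `m`.  Then every element of `S` is congruent to a constant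
  modulo `m`.
* Instance: level `N`, `A` a valuation subring of `ℚ̄` over `q`, `V = h89_fam` the chart family
  on the inertia-invariant functions, `m` a maximal ideal of the chart ring containing `q`:
  * `h89_resK` : every element of the chart ring is congruent modulo `m` to a constant of
    `A0 = A ∩ K0`;
  * `h89_H2` : every unit at `m` is an `n`-th power modulo `m`;
  * `h89_H3` : an element whose `n`-th power is `1` modulo `m` is congruent to an `n`-th root of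
    unity of the chart ring;
  * `h89_H1` : a natural number which is a unit at the vertical valuations is a unit at all
    valuations.
  These are the hypotheses (H1), (H2), (H3) of `h94_loc_glue_val` / `h62_loc_glue_point`.
  The only input from the other rows is the integrality of the chart ring over `A0[x]`.
-/

set_option autoImplicit false
set_option linter.unusedSectionVars false
set_option linter.style.haveILetI false

namespace Fermat.Agent.S36

open AlgebraicCurve ModularCurve Polynomial Fermat.Agent.S18 Fermat.Agent.S24 Fermat.Agent.S05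

local notation "Qb" => AlgebraicClosure ℚ

/-! ### The generic core -/

/-- A polynomial evaluation lands in a subring containing the constants and the variable. -/
theorem h89_ev_mem {R0 F' : Type*} [CommRing R0] [CommRing F'] (ev0 : R0[X] →+* F')
    (S : Subring F') (hC : ∀ a : R0, ev0 (C a) ∈ S) (hX : ev0 X ∈ S) (p : R0[X]) :
    ev0 p ∈ S := by
  induction p using Polynomial.induction_on with
  | C a => exact hC a
  | add p q hp hq =>
    rw [map_add]
    exact S.add_mem hp hq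
  | monomial n a _ =>
    rw [map_mul, map_pow]
    exact S.mul_mem (hC a) (S.pow_mem hX _)

/-- **(RESK), core.**  `S` a subring of `F'` containing the constants `ev0 (C a)` and
`x = ev0 X`, all of whose elements are integral over `R0[x]`; `m` a maximal ideal of `S`;
`res : R0 → k` onto an algebraically closed field whose kernel is mapped into `m`.  Then every
element of `S` is congruent to a constant modulo `m`: the residue field `S/m` is `k`. -/
theorem h89_residue_const {R0 F' k : Type*} [CommRing R0] [CommRing F'] [Field k]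
    [IsAlgClosed k] (ev0 : R0[X] →+* F') (S : Subring F')
    (hC : ∀ a : R0, ev0 (C a) ∈ S) (hX : ev0 X ∈ S)
    (hint : ∀ b ∈ S, ev0.IsIntegralElem b)
    (m : Ideal S) [hm : m.IsMaximal] (res : R0 →+* k) (hres : Function.Surjective res)
    (hker : ∀ a : R0, res a = 0 → (⟨ev0 (C a), hC a⟩ : S) ∈ m) (b : S) :
    ∃ a : R0, b - ⟨ev0 (C a), hC a⟩ ∈ m := by
  classical
  -- the evaluation with values in `S`
  let evS : R0[X] →+* S := ev0.codRestrict S (h89_ev_mem ev0 S hC hX)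
  have hevS : ∀ p, ((evS p : S) : F') = ev0 p := fun p => rfl
  -- the residue field of the point
  let _ : Field (S ⧸ m) := Ideal.Quotient.field m
  let π : S →+* S ⧸ m := Ideal.Quotient.mk m
  -- the constants `k → S/m`
  let g : R0 →+* S ⧸ m := π.comp (evS.comp C)
  have hle : RingHom.ker res ≤ RingHom.ker g := by
    intro a ha
    rw [RingHom.mem_ker] at ha ⊢
    show π (evS (C a)) = 0
    rw [Ideal.Quotient.eq_zero_iff_mem]
    have h1 := hker a ha
    have h2 : evS (C a) = ⟨ev0 (C a), hC a⟩ := Subtype.ext rfl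
    rw [h2]
    exact h1
  let φ : k →+* S ⧸ m :=
    res.liftOfRightInverse (Function.surjInv hres) (Function.rightInverse_surjInv hres) ⟨g, hle⟩
  have hφ : ∀ a : R0, φ (res a) = π (evS (C a)) := fun a =>
    RingHom.liftOfRightInverse_comp_apply res (Function.surjInv hres)
      (Function.rightInverse_surjInv hres) ⟨g, hle⟩ a
  -- the evaluation `k[X] → S/m`
  let xb : S ⧸ m := π (evS X)
  let θ : k[X] →+* S ⧸ m := Polynomial.eval₂RingHom φ xb
  have hcomp : π.comp evS = θ.comp (Polynomial.mapRingHom res) := by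
    apply Polynomial.ringHom_ext
    · intro a
      show π (evS (C a)) = θ ((C a).map res)
      rw [Polynomial.map_C]
      show π (evS (C a)) = Polynomial.eval₂ φ xb (C (res a))
      rw [Polynomial.eval₂_C, hφ]
    · show π (evS X) = θ ((X : R0[X]).map res)
      rw [Polynomial.map_X]
      show π (evS X) = Polynomial.eval₂ φ xb X
      rw [Polynomial.eval₂_X]
  -- `S/m` is integral over `k[X]`
  have hθint : θ.IsIntegral := by
    intro l
    obtain ⟨b', rfl⟩ := Ideal.Quotient.mk_surjective l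
    obtain ⟨P, hPm, hP0⟩ := hint b' b'.2
    have h1 : Polynomial.eval₂ evS b' P = 0 := by
      apply Subtype.ext
      have h2 := Polynomial.hom_eval₂ P evS S.subtype b'
      rw [show S.subtype.comp evS = ev0 from rfl] at h2
      rw [show ((Polynomial.eval₂ evS b' P : S) : F') = S.subtype (Polynomial.eval₂ evS b' P)
        from rfl, h2]
      exact hP0
    refine ⟨P.map (Polynomial.mapRingHom res), hPm.map _, ?_⟩
    rw [Polynomial.eval₂_map, ← hcomp]
    have h3 := Polynomial.hom_eval₂ P evS π b'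
    rw [← h3, h1, map_zero]
  -- the kernel of `θ` is a maximal ideal, hence nonzero
  have hmax : ((⊥ : Ideal (S ⧸ m)).comap θ).IsMaximal := by
    have : (⊥ : Ideal (S ⧸ m)).IsMaximal := Ideal.bot_isMaximal
    exact Ideal.isMaximal_comap_of_isIntegral_of_isMaximal' θ hθint ⊥
  have hne : (⊥ : Ideal (S ⧸ m)).comap θ ≠ ⊥ := by
    intro h0
    rw [h0] at hmax
    exact Polynomial.not_isField k (Ring.isField_iff_maximal_bot.mpr hmax)
  obtain ⟨p, hpmem, hp0⟩ := Submodule.exists_mem_ne_zero_of_ne_bot hne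
  have hpθ : θ p = 0 := by
    have := Ideal.mem_comap.mp hpmem
    simpa using this
  -- `x̄` is a constant
  let _ : Algebra k (S ⧸ m) := φ.toAlgebra
  have halg : algebraMap k (S ⧸ m) = φ := rfl
  have hconst : ∀ l : S ⧸ m, IsIntegral k l → ∃ c : k, φ c = l := by
    intro l hl
    have hdeg := IsAlgClosed.degree_eq_one_of_irreducible k (minpoly.irreducible hl)
    obtain ⟨c, hc⟩ := minpoly.mem_range_of_degree_eq_one k l hdeg
    exact ⟨c, hc⟩
  have hxb : IsIntegral k xb := by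
    refine (isAlgebraic_iff_isIntegral).1 ⟨p, hp0, ?_⟩
    rw [Polynomial.aeval_def, halg]
    exact hpθ
  obtain ⟨c, hc⟩ := hconst xb hxb
  -- every element is integral over `k`
  have hθ : ∀ r : k[X], θ r = φ (r.eval c) := by
    intro r
    show Polynomial.eval₂ φ xb r = φ (r.eval c)
    rw [← hc, Polynomial.eval₂_at_apply]
  have hall : ∀ l : S ⧸ m, IsIntegral k l := by
    intro l
    obtain ⟨P, hPm, hP0⟩ := hθint l
    refine ⟨P.map (Polynomial.evalRingHom c), hPm.map _, ?_⟩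
    rw [halg, Polynomial.eval₂_map]
    have h1 : φ.comp (Polynomial.evalRingHom c) = θ := by
      apply RingHom.ext
      intro r
      rw [hθ]
      rfl
    rw [h1]
    exact hP0
  obtain ⟨cb, hcb⟩ := hconst (π b) (hall (π b))
  obtain ⟨a, rfl⟩ := hres cb
  refine ⟨a, ?_⟩
  rw [← Ideal.Quotient.eq]
  have h2 : evS (C a) = ⟨ev0 (C a), hC a⟩ := Subtype.ext rfl
  rw [← h2]
  show π b = π (evS (C a))
  rw [← hφ, hcb]


/-! ### The modular instance -/

section Inst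

variable (N : ℕ) [NeZero N] (q : ℕ) [Fact q.Prime] (A : ValuationSubring Qb)

variable {κ : Type*} [Finite κ] (x0 : ↥(h69_F0 N (A.inertiaSubgroupIn ℚ)))
  (hx : h75_IsChart Qb (x0 : modularFunctionFieldBar N))
  (w : κ → ↥(h69_F0 N (A.inertiaSubgroupIn ℚ)) → ℤ)
  (hw_mul : ∀ c (f g : ↥(h69_F0 N (A.inertiaSubgroupIn ℚ))), f ≠ 0 → g ≠ 0 → w c (f * g) = w c f + w c g)
  (hw_add : ∀ c (f g : ↥(h69_F0 N (A.inertiaSubgroupIn ℚ))), f ≠ 0 → g ≠ 0 → f + g ≠ 0 →
    min (w c f) (w c g) ≤ w c (f + g))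

local notation "VF" => h89_fam N (A.inertiaSubgroupIn ℚ) hx w hw_mul hw_add

/-- The constants of `A0` lie in the chart ring. -/
theorem h89_const_mem_B
    (hwA : ∀ c (a : ↥(h69_K0 (A.inertiaSubgroupIn ℚ))), a ∈ h69_A0 A → a ≠ 0 →
      0 ≤ w c (algebraMap (h69_K0 (A.inertiaSubgroupIn ℚ)) (h69_F0 N (A.inertiaSubgroupIn ℚ)) a))
    (a : ↥(h69_K0 (A.inertiaSubgroupIn ℚ))) (ha : a ∈ h69_A0 A) :
    algebraMap (h69_K0 (A.inertiaSubgroupIn ℚ)) (h69_F0 N (A.inertiaSubgroupIn ℚ)) a ∈ (VF).B := by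
  rw [h89_mem_fam_B]
  by_cases h0 : a = 0
  · left
    rw [h0, map_zero]
  · right
    refine ⟨fun c => hwA c a ha h0, fun P _ => ?_⟩
    have h1 : ((algebraMap (h69_K0 (A.inertiaSubgroupIn ℚ)) (h69_F0 N (A.inertiaSubgroupIn ℚ)) a : h69_F0 N (A.inertiaSubgroupIn ℚ)) :
        modularFunctionFieldBar N) = algebraMap Qb (modularFunctionFieldBar N) (a : Qb) :=
      h69_inst_comm N (A.inertiaSubgroupIn ℚ) a
    rw [h1, h35_ord_algebraMap]

/-- The chart function lies in the chart ring. -/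
theorem h89_x0_mem_B (hwx : ∀ c, 0 ≤ w c x0) : x0 ∈ (VF).B := by
  rw [h89_mem_fam_B]
  exact Or.inr ⟨hwx, fun _ hP => hP⟩

/-- A constant of `A0` which is a non-unit of `A` lies in every point containing `q`. -/
theorem h89_nonunit_const_mem (hA : A.LiesOverPrime q)
    (hwA : ∀ c (a : ↥(h69_K0 (A.inertiaSubgroupIn ℚ))), a ∈ h69_A0 A → a ≠ 0 →
      0 ≤ w c (algebraMap (h69_K0 (A.inertiaSubgroupIn ℚ)) (h69_F0 N (A.inertiaSubgroupIn ℚ)) a))
    (m : Ideal (VF).B) (hqm : ((q : ℕ) : (VF).B) ∈ m)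
    (a : ↥(h69_K0 (A.inertiaSubgroupIn ℚ))) (ha : a ∈ h69_A0 A) (hnu : (a : Qb) ∈ A.nonunits) :
    (⟨algebraMap (h69_K0 (A.inertiaSubgroupIn ℚ)) (h69_F0 N (A.inertiaSubgroupIn ℚ)) a,
      h89_const_mem_B N A x0 hx w hw_mul hw_add hwA a ha⟩ : (VF).B) ∈ m := by
  by_cases h0 : a = 0
  · have e : (⟨algebraMap (h69_K0 (A.inertiaSubgroupIn ℚ)) (h69_F0 N (A.inertiaSubgroupIn ℚ)) a,
        h89_const_mem_B N A x0 hx w hw_mul hw_add hwA a ha⟩ : (VF).B) = 0 := by
      apply Subtype.ext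
      show algebraMap (h69_K0 (A.inertiaSubgroupIn ℚ)) (h69_F0 N (A.inertiaSubgroupIn ℚ)) a = 0
      rw [h0, map_zero]
    rw [e]
    exact m.zero_mem
  obtain ⟨n, u, hu, huA, huA'⟩ := h69_inst_dv q A hA a h0
  have hq0 : ((q : ℕ) : ↥(h69_K0 (A.inertiaSubgroupIn ℚ))) ≠ 0 :=
    Nat.cast_ne_zero.2 (Fact.out : q.Prime).ne_zero
  have hqA0 : ((q : ℕ) : ↥(h69_K0 (A.inertiaSubgroupIn ℚ))) ∈ h69_A0 A := natCast_mem _ q
  have hn1 : 1 ≤ n := by
    by_contra hcon
    push Not at hcon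
    have hinv : a⁻¹ ∈ h69_A0 A := by
      have e : a⁻¹ = ((q : ℕ) : ↥(h69_K0 (A.inertiaSubgroupIn ℚ))) ^ (-n).toNat * u⁻¹ := by
        rw [hu, mul_inv, ← zpow_neg, ← zpow_natCast, Int.toNat_of_nonneg (by omega)]
      rw [e]
      exact (h69_A0 A).mul_mem _ _ ((h69_A0 A).pow_mem hqA0 _) huA'
    have h3 : (((a⁻¹ * a : ↥(h69_K0 (A.inertiaSubgroupIn ℚ))) : ↥(h69_K0 (A.inertiaSubgroupIn ℚ))) : Qb) ∈ A.nonunits :=
      h26_mul_mem_nonunits_left A hinv hnu
    rw [inv_mul_cancel₀ h0] at h3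
    exact h26_one_not_mem_nonunits A h3
  obtain ⟨k, hk⟩ := Int.eq_ofNat_of_zero_le (show 0 ≤ n - 1 by omega)
  have hn : n = (k : ℤ) + 1 := by omega
  have ha' : a = ((q : ℕ) : ↥(h69_K0 (A.inertiaSubgroupIn ℚ))) * (((q : ℕ) : ↥(h69_K0 (A.inertiaSubgroupIn ℚ))) ^ k * u) := by
    rw [hu, hn, zpow_add_one₀ hq0, zpow_natCast]
    ring
  have hmem' : ((q : ℕ) : ↥(h69_K0 (A.inertiaSubgroupIn ℚ))) ^ k * u ∈ h69_A0 A :=
    (h69_A0 A).mul_mem _ _ ((h69_A0 A).pow_mem hqA0 _) huA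
  have e : (⟨algebraMap (h69_K0 (A.inertiaSubgroupIn ℚ)) (h69_F0 N (A.inertiaSubgroupIn ℚ)) a,
      h89_const_mem_B N A x0 hx w hw_mul hw_add hwA a ha⟩ : (VF).B) =
      ((q : ℕ) : (VF).B) * ⟨algebraMap (h69_K0 (A.inertiaSubgroupIn ℚ)) (h69_F0 N (A.inertiaSubgroupIn ℚ))
        (((q : ℕ) : ↥(h69_K0 (A.inertiaSubgroupIn ℚ))) ^ k * u),
        h89_const_mem_B N A x0 hx w hw_mul hw_add hwA _ hmem'⟩ := by
    apply Subtype.ext
    show algebraMap (h69_K0 (A.inertiaSubgroupIn ℚ)) (h69_F0 N (A.inertiaSubgroupIn ℚ)) a =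
      ((q : ℕ) : ↥(h69_F0 N (A.inertiaSubgroupIn ℚ))) * algebraMap (h69_K0 (A.inertiaSubgroupIn ℚ)) (h69_F0 N (A.inertiaSubgroupIn ℚ))
        (((q : ℕ) : ↥(h69_K0 (A.inertiaSubgroupIn ℚ))) ^ k * u)
    conv_lhs => rw [ha']
    rw [map_mul, map_natCast]
  rw [e]
  exact m.mul_mem_right _ hqm

/-- **(RESK)**: the residue field of a closed point of the special fibre is `k`: every element
of the chart ring is congruent modulo `m` to a constant of `A0`. -/
theorem h89_resK (hA : A.LiesOverPrime q)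
    (hwA : ∀ c (a : ↥(h69_K0 (A.inertiaSubgroupIn ℚ))), a ∈ h69_A0 A → a ≠ 0 →
      0 ≤ w c (algebraMap (h69_K0 (A.inertiaSubgroupIn ℚ)) (h69_F0 N (A.inertiaSubgroupIn ℚ)) a))
    (hwx : ∀ c, 0 ≤ w c x0)
    (hint : ∀ f ∈ (VF).B, (h97_ev (h69_A0 A).toSubring x0).IsIntegralElem f)
    (m : Ideal (VF).B) [m.IsMaximal] (hqm : ((q : ℕ) : (VF).B) ∈ m) (b : (VF).B) :
    ∃ (a : ↥(h69_K0 (A.inertiaSubgroupIn ℚ))) (ha : a ∈ h69_A0 A),
      b - ⟨algebraMap (h69_K0 (A.inertiaSubgroupIn ℚ)) (h69_F0 N (A.inertiaSubgroupIn ℚ)) a,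
        h89_const_mem_B N A x0 hx w hw_mul hw_add hwA a ha⟩ ∈ m := by
  haveI : IsAlgClosed (IsLocalRing.ResidueField A) := h19_residueField_isAlgClosed A
  have hq : q.Prime := Fact.out
  have hC : ∀ a : ↥(h69_A0 A).toSubring,
      h97_ev (h69_A0 A).toSubring x0 (C a) ∈ (VF).B := by
    intro a
    rw [h97_ev_C]
    exact h89_const_mem_B N A x0 hx w hw_mul hw_add hwA a.1 a.2
  have hX : h97_ev (h69_A0 A).toSubring x0 X ∈ (VF).B := by
    rw [h97_ev_X]
    exact h89_x0_mem_B N A x0 hx w hw_mul hw_add hwx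
  let incl : ↥(h69_A0 A).toSubring →+* ↥A :=
    ((algebraMap ↥(h69_K0 (A.inertiaSubgroupIn ℚ)) Qb).comp (h69_A0 A).toSubring.subtype).codRestrict A
      (fun a => a.2)
  let res : ↥(h69_A0 A).toSubring →+* IsLocalRing.ResidueField A :=
    (IsLocalRing.residue A).comp incl
  have hres : Function.Surjective res := by
    intro y
    obtain ⟨⟨a, ha⟩, rfl⟩ := IsLocalRing.residue_surjective y
    obtain ⟨a0, ha0, hfix, hnear⟩ := h5_res_K0 q hq A hA a ha
    refine ⟨⟨⟨a0, (h69_mem_K0 _ a0).2 hfix⟩, ha0⟩, ?_⟩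
    show IsLocalRing.residue A ⟨a0, ha0⟩ = IsLocalRing.residue A ⟨a, ha⟩
    rw [eq_comm, ← sub_eq_zero, ← map_sub, IsLocalRing.residue_eq_zero_iff]
    obtain ⟨h1, h2⟩ := ValuationSubring.mem_nonunits_iff_exists_mem_maximalIdeal.1 hnear
    exact h2
  have hker : ∀ a : ↥(h69_A0 A).toSubring, res a = 0 →
      (⟨h97_ev (h69_A0 A).toSubring x0 (C a), hC a⟩ : (VF).B) ∈ m := by
    intro a ha0
    have h1 : incl a ∈ IsLocalRing.maximalIdeal A := (IsLocalRing.residue_eq_zero_iff _).1 ha0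
    have h2 : ((a : ↥(h69_K0 (A.inertiaSubgroupIn ℚ))) : Qb) ∈ A.nonunits :=
      ValuationSubring.mem_nonunits_iff_exists_mem_maximalIdeal.2 ⟨a.2, h1⟩
    have h3 := h89_nonunit_const_mem N q A x0 hx w hw_mul hw_add hA hwA m hqm a.1 a.2 h2
    have e : (⟨h97_ev (h69_A0 A).toSubring x0 (C a), hC a⟩ : (VF).B) =
        ⟨algebraMap (h69_K0 (A.inertiaSubgroupIn ℚ)) (h69_F0 N (A.inertiaSubgroupIn ℚ)) a.1,
          h89_const_mem_B N A x0 hx w hw_mul hw_add hwA a.1 a.2⟩ :=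
      Subtype.ext (h97_ev_C _ _ a)
    rw [e]
    exact h3
  obtain ⟨a, ha⟩ := h89_residue_const (h97_ev (h69_A0 A).toSubring x0) (VF).B hC hX hint m res
    hres hker b
  refine ⟨a.1, a.2, ?_⟩
  have e : (⟨h97_ev (h69_A0 A).toSubring x0 (C a), hC a⟩ : (VF).B) =
      ⟨algebraMap (h69_K0 (A.inertiaSubgroupIn ℚ)) (h69_F0 N (A.inertiaSubgroupIn ℚ)) a.1,
        h89_const_mem_B N A x0 hx w hw_mul hw_add hwA a.1 a.2⟩ :=
    Subtype.ext (h97_ev_C _ _ a)
  rw [← e]
  exact ha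

/-- **(H2)**: every element of the chart ring outside `m` is an `n`-th power modulo `m`. -/
theorem h89_H2 (hA : A.LiesOverPrime q)
    (hwA : ∀ c (a : ↥(h69_K0 (A.inertiaSubgroupIn ℚ))), a ∈ h69_A0 A → a ≠ 0 →
      0 ≤ w c (algebraMap (h69_K0 (A.inertiaSubgroupIn ℚ)) (h69_F0 N (A.inertiaSubgroupIn ℚ)) a))
    (hwx : ∀ c, 0 ≤ w c x0)
    (hint : ∀ f ∈ (VF).B, (h97_ev (h69_A0 A).toSubring x0).IsIntegralElem f)
    (m : Ideal (VF).B) [m.IsMaximal] (hqm : ((q : ℕ) : (VF).B) ∈ m) {n : ℕ} (hn : n ≠ 0)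
    (s : (VF).B) (hs : s ∉ m) : ∃ r : (VF).B, r ^ n - s ∈ m := by
  obtain ⟨a, ha, hsa⟩ := h89_resK N q A x0 hx w hw_mul hw_add hA hwA hwx hint m hqm s
  have hnu : (a : Qb) ∉ A.nonunits := by
    intro hnu
    have h1 := h89_nonunit_const_mem N q A x0 hx w hw_mul hw_add hA hwA m hqm a ha hnu
    apply hs
    have h2 := m.add_mem hsa h1
    rwa [sub_add_cancel] at h2
  obtain ⟨c, hcA, -, hcfix, hnear⟩ := h69_unit_root q A hA n hn (a : Qb) ha hnu
  let c' : ↥(h69_K0 (A.inertiaSubgroupIn ℚ)) := ⟨c, (h69_mem_K0 _ c).2 hcfix⟩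
  have hc' : c' ∈ h69_A0 A := hcA
  refine ⟨⟨algebraMap (h69_K0 (A.inertiaSubgroupIn ℚ)) (h69_F0 N (A.inertiaSubgroupIn ℚ)) c',
    h89_const_mem_B N A x0 hx w hw_mul hw_add hwA c' hc'⟩, ?_⟩
  have hd : c' ^ n - a ∈ h69_A0 A := (h69_A0 A).sub_mem ((h69_A0 A).pow_mem hc' n) ha
  have hdnu : ((c' ^ n - a : ↥(h69_K0 (A.inertiaSubgroupIn ℚ))) : Qb) ∈ A.nonunits := by
    show c ^ n - (a : Qb) ∈ A.nonunits
    have e : c ^ n - (a : Qb) = -((a : Qb) - c ^ n) := by ring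
    rw [e]
    exact h5_neg_mem_nonunits A hnear
  have h2 := h89_nonunit_const_mem N q A x0 hx w hw_mul hw_add hA hwA m hqm _ hd hdnu
  have e : (⟨algebraMap (h69_K0 (A.inertiaSubgroupIn ℚ)) (h69_F0 N (A.inertiaSubgroupIn ℚ)) c',
      h89_const_mem_B N A x0 hx w hw_mul hw_add hwA c' hc'⟩ : (VF).B) ^ n - s =
      ⟨algebraMap (h69_K0 (A.inertiaSubgroupIn ℚ)) (h69_F0 N (A.inertiaSubgroupIn ℚ))
        (c' ^ n - a), h89_const_mem_B N A x0 hx w hw_mul hw_add hwA _ hd⟩ -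
      (s - ⟨algebraMap (h69_K0 (A.inertiaSubgroupIn ℚ)) (h69_F0 N (A.inertiaSubgroupIn ℚ)) a,
        h89_const_mem_B N A x0 hx w hw_mul hw_add hwA a ha⟩) := by
    apply Subtype.ext
    show (algebraMap (h69_K0 (A.inertiaSubgroupIn ℚ)) (h69_F0 N (A.inertiaSubgroupIn ℚ)) c') ^ n
        - (s : ↥(h69_F0 N (A.inertiaSubgroupIn ℚ))) =
      algebraMap (h69_K0 (A.inertiaSubgroupIn ℚ)) (h69_F0 N (A.inertiaSubgroupIn ℚ)) (c' ^ n - a)
        - ((s : ↥(h69_F0 N (A.inertiaSubgroupIn ℚ))) -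
          algebraMap (h69_K0 (A.inertiaSubgroupIn ℚ)) (h69_F0 N (A.inertiaSubgroupIn ℚ)) a)
    rw [map_sub, map_pow]
    ring
  rw [e]
  exact m.sub_mem h2 hsa

/-- **(H3)**: an element of the chart ring whose `n`-th power is `1` modulo `m` is congruent
modulo `m` to an `n`-th root of unity of the chart ring (a Teichmüller constant). -/
theorem h89_H3 (hA : A.LiesOverPrime q)
    (hwA : ∀ c (a : ↥(h69_K0 (A.inertiaSubgroupIn ℚ))), a ∈ h69_A0 A → a ≠ 0 →
      0 ≤ w c (algebraMap (h69_K0 (A.inertiaSubgroupIn ℚ)) (h69_F0 N (A.inertiaSubgroupIn ℚ)) a))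
    (hwx : ∀ c, 0 ≤ w c x0)
    (hint : ∀ f ∈ (VF).B, (h97_ev (h69_A0 A).toSubring x0).IsIntegralElem f)
    (m : Ideal (VF).B) [hm : m.IsMaximal] (hqm : ((q : ℕ) : (VF).B) ∈ m) {n : ℕ} (hn : n ≠ 0)
    (c0 : (VF).B) (hc0 : c0 ^ n - 1 ∈ m) : ∃ ζ : (VF).B, ζ ^ n = 1 ∧ c0 - ζ ∈ m := by
  have hq : q.Prime := Fact.out
  have hm1 : (1 : (VF).B) ∉ m := fun h => hm.ne_top ((Ideal.eq_top_iff_one m).2 h)
  obtain ⟨a, ha, hca⟩ := h89_resK N q A x0 hx w hw_mul hw_add hA hwA hwx hint m hqm c0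
  have hc0m : c0 ∉ m := by
    intro h
    have h1 : c0 ^ n ∈ m := Ideal.pow_mem_of_mem m h n (Nat.pos_of_ne_zero hn)
    have h2 := m.sub_mem h1 hc0
    rw [sub_sub_cancel] at h2
    exact hm1 h2
  have hnu : (a : Qb) ∉ A.nonunits := by
    intro hnu
    have h1 := h89_nonunit_const_mem N q A x0 hx w hw_mul hw_add hA hwA m hqm a ha hnu
    apply hc0m
    have h2 := m.add_mem hca h1
    rwa [sub_add_cancel] at h2
  obtain ⟨n', ζ, -, hqn', hζn', hζA, hζfix, hnear⟩ := h5_teich_K0 q hq A hA (a : Qb) ha hnu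
  let ζ' : ↥(h69_K0 (A.inertiaSubgroupIn ℚ)) := ⟨ζ, (h69_mem_K0 _ ζ).2 hζfix⟩
  have hζ' : ζ' ∈ h69_A0 A := hζA
  have hZB := h89_const_mem_B N A x0 hx w hw_mul hw_add hwA ζ' hζ'
  have hd : a - ζ' ∈ h69_A0 A := (h69_A0 A).sub_mem ha hζ'
  have hdnu : ((a - ζ' : ↥(h69_K0 (A.inertiaSubgroupIn ℚ))) : Qb) ∈ A.nonunits := hnear
  have h2 := h89_nonunit_const_mem N q A x0 hx w hw_mul hw_add hA hwA m hqm _ hd hdnu
  have hcZ : c0 - (⟨algebraMap (h69_K0 (A.inertiaSubgroupIn ℚ))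
      (h69_F0 N (A.inertiaSubgroupIn ℚ)) ζ', hZB⟩ : (VF).B) ∈ m := by
    have e : c0 - (⟨algebraMap (h69_K0 (A.inertiaSubgroupIn ℚ))
        (h69_F0 N (A.inertiaSubgroupIn ℚ)) ζ', hZB⟩ : (VF).B) =
        (c0 - ⟨algebraMap (h69_K0 (A.inertiaSubgroupIn ℚ)) (h69_F0 N (A.inertiaSubgroupIn ℚ)) a,
          h89_const_mem_B N A x0 hx w hw_mul hw_add hwA a ha⟩) +
        ⟨algebraMap (h69_K0 (A.inertiaSubgroupIn ℚ)) (h69_F0 N (A.inertiaSubgroupIn ℚ)) (a - ζ'),
          h89_const_mem_B N A x0 hx w hw_mul hw_add hwA _ hd⟩ := by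
      apply Subtype.ext
      show (c0 : ↥(h69_F0 N (A.inertiaSubgroupIn ℚ))) -
          algebraMap (h69_K0 (A.inertiaSubgroupIn ℚ)) (h69_F0 N (A.inertiaSubgroupIn ℚ)) ζ' =
        ((c0 : ↥(h69_F0 N (A.inertiaSubgroupIn ℚ))) -
          algebraMap (h69_K0 (A.inertiaSubgroupIn ℚ)) (h69_F0 N (A.inertiaSubgroupIn ℚ)) a) +
          algebraMap (h69_K0 (A.inertiaSubgroupIn ℚ)) (h69_F0 N (A.inertiaSubgroupIn ℚ)) (a - ζ')
      rw [map_sub]
      ring
    rw [e]
    exact m.add_mem hca h2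
  set Z : (VF).B := ⟨algebraMap (h69_K0 (A.inertiaSubgroupIn ℚ))
      (h69_F0 N (A.inertiaSubgroupIn ℚ)) ζ', hZB⟩ with hZdef
  have hZn : Z ^ n - 1 ∈ m := by
    have h3 : Z ^ n - c0 ^ n ∈ m := by
      obtain ⟨t, ht⟩ := sub_dvd_pow_sub_pow Z c0 n
      rw [ht]
      have h4 : Z - c0 ∈ m := by
        have h5 := m.neg_mem hcZ
        rwa [neg_sub] at h5
      exact m.mul_mem_right _ h4
    have h6 := m.add_mem h3 hc0
    rwa [sub_add_sub_cancel] at h6
  have hζn : ζ ^ n = 1 := by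
    refine h5_root_eq_one A hq hA hqn' (ξ := ζ ^ n) ?_ ?_
    · rw [← pow_mul, mul_comm, pow_mul, hζn', one_pow]
    · by_contra hnot
      have hne : ζ' ^ n - 1 ≠ 0 := by
        intro h0
        apply hnot
        have h7 : ζ ^ n - 1 = 0 :=
          congrArg (fun z : ↥(h69_K0 (A.inertiaSubgroupIn ℚ)) => (z : Qb)) h0
        rw [h7]
        exact h5_zero_mem_nonunits A
      have he' : (ζ' ^ n - 1)⁻¹ ∈ h69_A0 A := by
        show (ζ ^ n - 1)⁻¹ ∈ A
        exact h26_inv_mem_of_not_mem_nonunits A hnot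
      have h4 : (Z ^ n - 1) * ⟨algebraMap (h69_K0 (A.inertiaSubgroupIn ℚ))
          (h69_F0 N (A.inertiaSubgroupIn ℚ)) (ζ' ^ n - 1)⁻¹,
          h89_const_mem_B N A x0 hx w hw_mul hw_add hwA _ he'⟩ = 1 := by
        apply Subtype.ext
        show ((algebraMap (h69_K0 (A.inertiaSubgroupIn ℚ)) (h69_F0 N (A.inertiaSubgroupIn ℚ)) ζ')
            ^ n - 1) * algebraMap (h69_K0 (A.inertiaSubgroupIn ℚ))
              (h69_F0 N (A.inertiaSubgroupIn ℚ)) (ζ' ^ n - 1)⁻¹ = 1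
        have h8 : (algebraMap (h69_K0 (A.inertiaSubgroupIn ℚ))
            (h69_F0 N (A.inertiaSubgroupIn ℚ)) ζ') ^ n - 1 =
            algebraMap (h69_K0 (A.inertiaSubgroupIn ℚ)) (h69_F0 N (A.inertiaSubgroupIn ℚ))
              (ζ' ^ n - 1) := by
          rw [map_sub, map_pow, map_one]
        rw [h8, ← map_mul, mul_inv_cancel₀ hne, map_one]
      apply hm1
      rw [← h4]
      exact m.mul_mem_right _ hZn
  refine ⟨Z, ?_, hcZ⟩
  apply Subtype.ext
  show (algebraMap (h69_K0 (A.inertiaSubgroupIn ℚ)) (h69_F0 N (A.inertiaSubgroupIn ℚ)) ζ') ^ n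
    = 1
  have h9 : ζ' ^ n = 1 := Subtype.ext hζn
  rw [← map_pow, h9, map_one]

/-- **(H1)**: a natural number which is a unit at the vertical valuations is a unit at every
valuation (in particular at those through a point). -/
theorem h89_H1 {n : ℕ} (hn : n ≠ 0)
    (hwn : ∀ c, w c ((n : ℕ) : ↥(h69_F0 N (A.inertiaSubgroupIn ℚ))) = 0) (m : Ideal (VF).B) :
    ((n : ℕ) : ↥(h69_F0 N (A.inertiaSubgroupIn ℚ))) ≠ 0 ∧
      ∀ j, (VF).Through m j → (VF).v j ((n : ℕ) : ↥(h69_F0 N (A.inertiaSubgroupIn ℚ))) = 0 := by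
  refine ⟨h89_natCast_ne_zero N _ hn, fun j _ => ?_⟩
  by_cases hj : h80_IsHor j
  · exact h89_fam_hq N _ hx w hw_mul hw_add n j hj
  · obtain ⟨c, rfl⟩ := (h80_not_isHor_iff j).1 hj
    exact hwn c

end Inst


end Fermat.Agent.S36
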