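import Mathlib
import Fermat.Agent.S36.h62_RowU
import Fermat.Agent.S36.h94_LocGlueVal

/-!
# S36 / row U (helper62): `(LOC)` at a point from (UNIT\*) and (RES)

`h62_loc_glue_point` : the conclusion of helper94's `h94_loc_glue_val` at the point `m`, indexed by
the vertical valuations through `m` (`0 < v_c q`) with multiplicities `v_c q`, from

* `h62_UnitStar V m`  (row U, `h62_rowU_unitStar`),
* the residue data `h62_Res V m c Fb` of the vertical valuations through `m`  (row U / VAL),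
* `hfrac`, (H1), (H2), (H3)  (the chart ring has fraction field `F`; `n` is a unit at `m`; the
  residue field of `m` has `n`-th roots; roots of unity lift).

No index type, no branch equations and no (H4)/(H5) appear in the statement.
-/

set_option autoImplicit false

namespace Fermat.Agent.S36

universe w

variable {F : Type*} [Field F] {ι : Type*}

/-- **(LOC) at a point.** -/
theorem h62_loc_glue_point (V : h80_ValFam F ι) (m : Ideal V.B) [hmax : m.IsMaximal]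
    [IsNoetherianRing V.B] (q : F) (hq0 : q ≠ 0)
    (hqm : ∃ c, V.Through m c ∧ 0 < V.v c q)
    (hunit : h62_UnitStar V m)
    (hR : ∀ c, V.Through m c → 0 < V.v c q →
      ∃ (Fb : Type w) (_ : Field Fb), Nonempty (h62_Res V m c Fb))
    (hfrac : ∀ f : F, ∃ c d : V.B, (d : F) ≠ 0 ∧ f * (d : F) = (c : F))
    {n : ℕ} (H1 : (n : F) ≠ 0 ∧ ∀ j, V.Through m j → V.v j (n : F) = 0)
    (H2 : ∀ s : V.B, s ∉ m → ∃ r : V.B, r ^ n - s ∈ m)
    (H3 : ∀ c0 : V.B, c0 ^ n - 1 ∈ m → ∃ ζ : V.B, ζ ^ n = 1 ∧ c0 - ζ ∈ m)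
    (e : F) (he : ∀ c, V.Through m c → 0 < V.v c q → 0 ≤ V.v c e)
    (w : F) (hw0 : w ≠ 0) (hw : V.InLoc m w) (hw' : V.InLoc m w⁻¹)
    (hew : ∀ c, V.Through m c → 0 < V.v c q →
      (e ^ n * w = 1 ∨ V.v c q ≤ V.v c (e ^ n * w - 1))) :
    ∃ (ζ : ι → F) (y : F),
      (∀ c, V.Through m c → 0 < V.v c q → V.InLoc m (ζ c) ∧ ζ c ^ n = 1) ∧
      y ≠ 0 ∧ V.InLoc m y ∧ V.InLoc m y⁻¹ ∧
      ∀ c, V.Through m c → 0 < V.v c q → (e = ζ c * y ∨ V.v c q ≤ V.v c (e - ζ c * y)) := by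
  classical
  have hprime : m.IsPrime := hmax.isPrime
  have hn : n ≠ 0 := by
    rintro rfl
    exact H1.1 (by simp)
  have hfin : {c : ι | V.Through m c ∧ 0 < V.v c q}.Finite :=
    (V.finite_supp q hq0).subset fun c hc => by
      have h1 : 0 < V.v c q := hc.2
      show V.v c q ≠ 0
      omega
  letI : Fintype {c : ι | V.Through m c ∧ 0 < V.v c q} := hfin.fintype
  haveI : Nonempty {c : ι | V.Through m c ∧ 0 < V.v c q} := by
    obtain ⟨c, hc⟩ := hqm
    exact ⟨⟨c, hc⟩⟩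
  have hloc : ∀ k : {c : ι | V.Through m c ∧ 0 < V.v c q},
      ∃ π : F, π ≠ 0 ∧ V.v k.1 π = 1 ∧ ∀ j, V.Through m j → j ≠ k.1 → V.v j π = 0 :=
    fun k => hunit k.1 k.2.1
  choose p hp0 hp1 hp2 using hloc
  have hcast : ∀ k : {c : ι | V.Through m c ∧ 0 < V.v c q},
      (((V.v k.1 q).toNat : ℕ) : ℤ) = V.v k.1 q := fun k =>
    Int.toNat_of_nonneg (le_of_lt k.2.2)
  obtain ⟨ζ', y, hζ', hy0, hy, hy', hglue⟩ := h94_loc_glue_val V m
    (κ := {c : ι | V.Through m c ∧ 0 < V.v c q}) (fun k => k.1) (fun k => (V.v k.1 q).toNat) p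
    (fun k => k.2.1)
    (fun k => by
      have h1 := hcast k
      have h2 : 0 < V.v k.1 q := k.2.2
      omega)
    hp0 hp1 (fun k j hj hjk => hp2 k j hj hjk) hfrac (fun j hj => hunit j hj) H1 H2 H3
    (fun k t s ht0 htc hs hs' hs0 h =>
      h62_rowU_h4 V m q hR k.2.1 k.2.2 hn t s ht0 htc hs hs' hs0 h)
    (h62_rowU_h5 V m q hR (fun k => k.1) Subtype.val_injective _ p (fun k => k.2.1)
      (fun k => k.2.2) hp0 hp1 (fun k j hj hjk => hp2 k j hj hjk))
    e (fun k => he k.1 k.2.1 k.2.2) w hw0 hw hw'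
    (fun k => by
      rw [hcast k]
      exact hew k.1 k.2.1 k.2.2)
  set ζ : ι → F := fun c => if h : V.Through m c ∧ 0 < V.v c q then ζ' ⟨c, h⟩ else 1 with hζdef
  have hζeq : ∀ c (h : V.Through m c ∧ 0 < V.v c q), ζ c = ζ' ⟨c, h⟩ := fun c h => dif_pos h
  refine ⟨ζ, y, fun c hc hcq => ?_, hy0, hy, hy', fun c hc hcq => ?_⟩
  · rw [hζeq c ⟨hc, hcq⟩]
    exact hζ' ⟨c, hc, hcq⟩
  · rw [hζeq c ⟨hc, hcq⟩]
    have h1 := hglue ⟨c, hc, hcq⟩
    rw [hcast ⟨c, hc, hcq⟩] at h1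
    exact h1

end Fermat.Agent.S36
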