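import Fermat.Agent.S36.h46_Bridge
import Fermat.Agent.S36.h94_NZGeneric

/-!
# S36 / row E (helper61): the final engine in contract form

`h46_principal_of_valFam` (helper46) asks, for every `(j, n)`, every `g ∈ G0 j n` and every closed
point `𝔪` of the special fibre of the two chart rings, for a local equation `e` of `g` glued by a
unit `y`.  Here this is derived from ONE datum per closed point, independent of `(j, n, g)`:

  `(LOC-δ)`  a local equation `e` of the divisor `Ez` at `𝔪` (`v_i e = Ez P` at the horizontal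
  valuations through `𝔪`) and a unit `y` of the local ring with `e ≡ y` modulo `a C` at every
  vertical valuation `C` through `𝔪`.

* `h61_zpow_glue` : `(e, y) ↦ (e ^ j, y ^ j)` preserves the glue congruence (`j : ℤ`).
* `h61_principal_of_loc` : `(LG)` with `G0 j n := {g | ψ g ∈ L(n E1 + j Ez) ∩ O}` and `(LOC-δ)` at
  every closed point of both charts  ⟹  `Ez` principal.
-/

set_option autoImplicit false

namespace Fermat.Agent.S36

open AlgebraicCurve Fermat.Agent.S24 Fermat.Agent.S18 Fermat.Agent.S34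

section Glue

variable {F0 : Type*} [Field F0] {ι : Type*} (V : h80_ValFam F0 ι)

/-- The valuation of `e` vanishes when `e ≡ y` modulo `a ≥ 1` and `y` is a unit of the
valuation. -/
theorem h61_v_eq_zero_of_glue (C : ι) {a : ℤ} (ha : 1 ≤ a) {e y : F0} (he0 : e ≠ 0) (hy0 : y ≠ 0)
    (hy : V.v C y = 0) (h : e = y ∨ a ≤ V.v C (e - y)) : V.v C e = 0 := by
  rcases h with h | h
  · rw [h]; exact hy
  · by_cases hey : e - y = 0
    · rw [sub_eq_zero.1 hey]; exact hy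
    · have h1 := V.map_add C (e - y) y hey hy0 (by rw [sub_add_cancel]; exact he0)
      rw [sub_add_cancel] at h1
      have h2 := V.map_add C e (-(e - y)) he0 (neg_ne_zero.2 hey)
        (by rw [← sub_eq_add_neg, sub_sub_cancel]; exact hy0)
      rw [← sub_eq_add_neg, sub_sub_cancel, h94_v_neg V C hey] at h2
      have h3 : min (V.v C e) (V.v C (e - y)) ≤ 0 := by rw [← hy]; exact h2
      have h4 : min (V.v C (e - y)) (V.v C y) ≤ V.v C e := h1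
      rw [hy] at h4
      rcases min_le_iff.1 h3 with h5 | h5
      · have h6 : 0 ≤ V.v C e := le_trans (le_min (by omega) (le_refl 0)) h4
        omega
      · omega

/-- **Integer powers preserve the glue congruence.** -/
theorem h61_zpow_glue (C : ι) {a : ℤ} (ha : 1 ≤ a) {e y : F0} (he0 : e ≠ 0) (hy0 : y ≠ 0)
    (hy : V.v C y = 0) (h : e = y ∨ a ≤ V.v C (e - y)) (j : ℤ) :
    e ^ j = y ^ j ∨ a ≤ V.v C (e ^ j - y ^ j) := by
  have hev : V.v C e = 0 := h61_v_eq_zero_of_glue V C ha he0 hy0 hy h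
  have hge : h94_Vge V C a (e - y) := by
    rcases h with h | h
    · left; rw [h, sub_self]
    · by_cases hey : e - y = 0
      · left; exact hey
      · right; exact h
  have hnat : ∀ n : ℕ, h94_Vge V C a (e ^ n - y ^ n) := fun n =>
    h94_vge_pow_sub_pow V C (h94_vge_of_unit V C hev) (h94_vge_of_unit V C hy) hge n
  have hres : h94_Vge V C a (e ^ j - y ^ j) := by
    cases j with
    | ofNat n =>
      simpa using hnat n
    | negSucc n =>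
      rw [zpow_negSucc, zpow_negSucc]
      have hen : e ^ (n + 1) ≠ 0 := pow_ne_zero _ he0
      have hyn : y ^ (n + 1) ≠ 0 := pow_ne_zero _ hy0
      have e1 : (e ^ (n + 1))⁻¹ - (y ^ (n + 1))⁻¹ =
          (-(e ^ (n + 1) - y ^ (n + 1))) / (e ^ (n + 1) * y ^ (n + 1)) := by
        field_simp
        ring
      rw [e1]
      refine h94_vge_div_unit V C (h94_vge_neg V C (hnat (n + 1))) (mul_ne_zero hen hyn) ?_
      rw [V.map_mul C _ _ hen hyn, h80_v_pow V C he0, h80_v_pow V C hy0, hev, hy]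
      simp
  rcases hres with h0 | h0
  · left; exact sub_eq_zero.1 h0
  · right; exact h0

end Glue

variable {K F k Rb : Type*} [Field K] [Field F] [Algebra K F] [Field k] [CommRing Rb]
  [Algebra k Rb]

/-- **The local data of `h46_principal_of_valFam` at one chart** from `(LOC-δ)`: a local equation
`e` of `Ez` at `𝔪` glued to a unit `y`; `f` is a function of `F0` in `O` whose horizontal orders
on the chart are `≥ - j Ez`. -/
theorem h61_local_of_loc {F0 : Type*} [Field F0] (ψ : F0 →+* F) {ι : Type*}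
    (V : h80_ValFam F0 ι) (D : h22_Lat K F k Rb)
    (vert : Set ι) (a : ι → ℕ) (ha : ∀ C ∈ vert, 1 ≤ a C)
    (hvertO : ∀ g : F0, g ≠ 0 → ψ g ∈ D.O → ∀ C ∈ vert, 0 ≤ V.v C g)
    (𝔪 : Ideal V.B) [h𝔪 : 𝔪.IsPrime] (e y : F0) (he0 : e ≠ 0) (hy0 : y ≠ 0)
    (hy : V.InLoc 𝔪 y) (hy' : V.InLoc 𝔪 y⁻¹)
    (hglue : ∀ C ∈ vert, V.Through 𝔪 C → (e = y ∨ (a C : ℤ) ≤ V.v C (e - y)))
    (j : ℤ) (f : F0) (hfO : ψ f ∈ D.O)
    (hhor : f ≠ 0 → ∀ i, i ∉ vert → V.Through 𝔪 i → 0 ≤ V.v i f + j * V.v i e) :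
    ∃ e' y' : F0, e' ≠ 0 ∧ V.InLoc 𝔪 y' ∧ V.InLoc 𝔪 (f / e') ∧
      ∀ C ∈ vert, V.Through 𝔪 C → (e' = y' ∨ (a C : ℤ) ≤ V.v C (e' - y')) := by
  have hyv : ∀ i, V.Through 𝔪 i → V.v i y = 0 := fun i hi =>
    h80_through_eq_zero_of_unit V 𝔪 hy0 hy hy' hi
  have hev : ∀ C ∈ vert, V.Through 𝔪 C → V.v C e = 0 := fun C hC hthr =>
    h61_v_eq_zero_of_glue V C (by exact_mod_cast ha C hC) he0 hy0 (hyv C hthr) (hglue C hC hthr)
  have hej0 : e ^ (-j) ≠ 0 := zpow_ne_zero _ he0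
  have hyj0 : y ^ (-j) ≠ 0 := zpow_ne_zero _ hy0
  refine ⟨e ^ (-j), y ^ (-j), hej0, ?_, ?_, ?_⟩
  · refine (h80_inLoc_of_through_zero V 𝔪 hyj0 fun i hi => ?_).1
    rw [h80_v_zpow V i hy0, hyv i hi, mul_zero]
  · by_cases hf0 : f = 0
    · rw [hf0, zero_div]
      exact ⟨0, 1, fun h1 => h𝔪.ne_top ((Ideal.eq_top_iff_one 𝔪).2 h1), by simp⟩
    · refine (h80_inLoc_iff V 𝔪 (div_ne_zero hf0 hej0)).2 fun i hi => ?_
      rw [h80_v_div V i hf0 hej0, h80_v_zpow V i he0]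
      by_cases hiv : i ∈ vert
      · have h1 := hvertO f hf0 hfO i hiv
        rw [hev i hiv hi, mul_zero, sub_zero]
        exact h1
      · have h1 := hhor hf0 i hiv hi
        linarith
  · intro C hC hthr
    exact h61_zpow_glue V C (by exact_mod_cast ha C hC) he0 hy0 (hyv C hthr) (hglue C hC hthr) (-j)

/-- **(LG), contract form (row E engine).** All binders of `h46_principal_of_valFam` up to the
valuation families, with

* `G0 j n := {g : F0 | ψ g ∈ L(n E1 + j Ez) ∧ ψ g ∈ O}` (so `hspan` is the `(SPAN)` row),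
* `ha`, `hvertO` : the vertical multiplicities are `≥ 1`, and elements of `F0 ∩ O` have
  nonnegative vertical valuations,
* `hhor` : every non-vertical index of `V1` (resp. `V2`) is the order at a place of the chart
  `0 ≤ ord x` (resp. `ord x ≤ 0`),
* `hnz` : **(LOC-δ)** at every closed point `𝔪` of the special fibre of each chart: a local
  equation `e` of `Ez` (horizontal orders `= Ez`) and a unit `y` of the local ring with `e ≡ y`
  modulo `a C` on the vertical branches through `𝔪`.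

Then `Ez` is principal. -/
theorem h61_principal_of_loc [IsAlgClosed K] [HasPrincipalDivisors K F] [Nontrivial Rb]
    (D : h22_Lat K F k Rb) (hON : h22_ON D)
    (hinv : ∀ (f : F) (hf : f ∈ D.O), IsUnit (D.red ⟨f, hf⟩) → f⁻¹ ∈ D.O)
    (hrank : h39_RankOne D.A)
    (hfin : ∀ D' : Divisor K F, FiniteDimensional K (riemannRochSpace D'))
    (hdeg1 : ∀ P : Place K F, P.deg = 1)
    (x : F) (hx0 : x ≠ 0) (hx : x ∈ D.O) (hxi : x⁻¹ ∈ D.O)
    (E1 E2 : Divisor K F) (hE1 : ∀ v : Place K F, 0 ≤ E1 v) (hE2 : ∀ v : Place K F, 0 ≤ E2 v)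
    (hdisj : ∀ v : Place K F, E1 v = 0 ∨ E2 v = 0)
    (hdivx : ∀ v : Place K F, v.ord x = E2 v - E1 v) (N0 : ℕ)
    (hgen : ∀ n, N0 ≤ n → ∀ a ∈ h51_Rd D ((n + 1) • E1), ∃ b ∈ h51_Rd D (n • E1),
      ∃ c ∈ h51_Rd D (n • E1), a = b + D.redF x * c)
    (m : ℕ) (hm : (m : k) ≠ 0)
    (Ez : Divisor K F) (uz : F) (hdeg : Divisor.degree Ez = 0) (huz0 : uz ≠ 0)
    (hdivz : ∀ v : Place K F, (m : ℤ) * Ez v = v.ord uz)
    (huz : ∃ h : uz ∈ D.O, D.red ⟨uz, h⟩ = 1)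
    (hdim : ∀ (j : ℤ) (n : ℕ), N0 ≤ n →
      Module.finrank K (riemannRochSpace (n • E1 + j • Ez)) =
        Module.finrank K (riemannRochSpace (n • E1)))
    {F0 : Type*} [Field F0] (ψ : F0 →+* F) (x0 : F0) (hψx : ψ x0 = x)
    {ι1 ι2 : Type*} (V1 : h80_ValFam F0 ι1) (V2 : h80_ValFam F0 ι2)
    (hB1 : ∀ b : V1.B, ψ (b : F0) ∈ D.O ∧
      ∀ v : Place K F, 0 ≤ v.ord x → 0 ≤ v.ord (ψ (b : F0)))
    (hB2 : ∀ b : V2.B, ψ (b : F0) ∈ D.O ∧
      ∀ v : Place K F, v.ord x ≤ 0 → 0 ≤ v.ord (ψ (b : F0)))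
    (vert1 : Set ι1) (hvert1 : vert1.Finite) (a1 : ι1 → ℕ) (ha1 : ∀ C ∈ vert1, 1 ≤ a1 C)
    (hVAL1 : ∀ h : F0, h ≠ 0 → (∀ C ∈ vert1, (a1 C : ℤ) ≤ V1.v C h) →
      ψ h ∈ D.O ∧ D.redF (ψ h) = 0)
    (hvertO1 : ∀ g : F0, g ≠ 0 → ψ g ∈ D.O → ∀ C ∈ vert1, 0 ≤ V1.v C g)
    (hhor1 : ∀ i, i ∉ vert1 → ∃ P : Place K F, 0 ≤ P.ord x ∧
      ∀ f : F0, f ≠ 0 → V1.v i f = P.ord (ψ f))
    (vert2 : Set ι2) (hvert2 : vert2.Finite) (a2 : ι2 → ℕ) (ha2 : ∀ C ∈ vert2, 1 ≤ a2 C)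
    (hVAL2 : ∀ h : F0, h ≠ 0 → (∀ C ∈ vert2, (a2 C : ℤ) ≤ V2.v C h) →
      ψ h ∈ D.O ∧ D.redF (ψ h) = 0)
    (hvertO2 : ∀ g : F0, g ≠ 0 → ψ g ∈ D.O → ∀ C ∈ vert2, 0 ≤ V2.v C g)
    (hhor2 : ∀ i, i ∉ vert2 → ∃ P : Place K F, P.ord x ≤ 0 ∧
      ∀ f : F0, f ≠ 0 → V2.v i f = P.ord (ψ f))
    (hspan : ∀ (j : ℤ) (n : ℕ), N0 ≤ n → ∀ a ∈ h51_Rd D (n • E1 + j • Ez),
      a ∈ Submodule.span k
        (D.redF '' (ψ '' {g : F0 | ψ g ∈ riemannRochSpace (n • E1 + j • Ez) ∧ ψ g ∈ D.O})))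
    (hnz1 : ∀ 𝔪 : Ideal V1.B, 𝔪.IsMaximal → (∀ t : V1.B, D.redF (ψ (t : F0)) = 0 → t ∈ 𝔪) →
      ∃ e y : F0, e ≠ 0 ∧ y ≠ 0 ∧ V1.InLoc 𝔪 y ∧ V1.InLoc 𝔪 y⁻¹ ∧
        (∀ i, i ∉ vert1 → V1.Through 𝔪 i → ∀ P : Place K F,
          (∀ f : F0, f ≠ 0 → V1.v i f = P.ord (ψ f)) → V1.v i e = Ez P) ∧
        ∀ C ∈ vert1, V1.Through 𝔪 C → (e = y ∨ (a1 C : ℤ) ≤ V1.v C (e - y)))
    (hnz2 : ∀ 𝔪 : Ideal V2.B, 𝔪.IsMaximal → (∀ t : V2.B, D.redF (ψ (t : F0)) = 0 → t ∈ 𝔪) →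
      ∃ e y : F0, e ≠ 0 ∧ y ≠ 0 ∧ V2.InLoc 𝔪 y ∧ V2.InLoc 𝔪 y⁻¹ ∧
        (∀ i, i ∉ vert2 → V2.Through 𝔪 i → ∀ P : Place K F,
          (∀ f : F0, f ≠ 0 → V2.v i f = P.ord (ψ f)) → V2.v i e = Ez P) ∧
        ∀ C ∈ vert2, V2.Through 𝔪 C → (e = y ∨ (a2 C : ℤ) ≤ V2.v C (e - y))) :
    Ez ∈ Divisor.principal (K := K) (F := F) := by
  have hψinj : Function.Injective ψ := ψ.injective
  have hψ0 : ∀ f : F0, f ≠ 0 → ψ f ≠ 0 := fun f hf h => hf (hψinj (by rw [h, map_zero]))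
  have hx00 : x0 ≠ 0 := by
    rintro rfl
    rw [map_zero] at hψx
    exact hx0 hψx.symm
  -- the orders of an element of `L(n E1 + j Ez)`
  have hord : ∀ (j : ℤ) (n : ℕ) (g : F0), g ≠ 0 →
      ψ g ∈ riemannRochSpace (n • E1 + j • Ez) → ∀ P : Place K F,
      -((n : ℤ) * E1 P + j * Ez P) ≤ P.ord (ψ g) := by
    intro j n g hg0 hgL P
    rw [h50_mem_rr_iff] at hgL
    rcases hgL P with h | h
    · exact absurd h (hψ0 g hg0)
    · have e1 : (n • E1 + j • Ez) P = (n : ℤ) * E1 P + j * Ez P := by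
        rw [Finsupp.add_apply, Finsupp.smul_apply, Finsupp.smul_apply, nsmul_eq_mul,
          smul_eq_mul]
      rw [e1] at h
      exact h
  have hordpow : ∀ (P : Place K F) (n : ℕ), P.ord (x⁻¹ ^ n) = (n : ℤ) * P.ord x⁻¹ := by
    intro P n
    induction n with
    | zero => simp [P.ord_one]
    | succ n ih =>
      rw [pow_succ, P.ord_mul (pow_ne_zero n (inv_ne_zero hx0)) (inv_ne_zero hx0), ih]
      push_cast
      ring
  refine h46_principal_of_valFam D hON hinv hrank hfin hdeg1 x hx0 hx hxi E1 E2 hE1 hE2 hdisj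
    hdivx N0 hgen m hm Ez uz hdeg huz0 hdivz huz hdim ψ x0 hψx V1 V2 hB1 hB2 vert1 hvert1 a1
    hVAL1 vert2 hvert2 a2 hVAL2
    (fun j n => {g : F0 | ψ g ∈ riemannRochSpace (n • E1 + j • Ez) ∧ ψ g ∈ D.O})
    (fun j n g hg => hg.2) hspan ?_ ?_
  · intro j n _ g hg 𝔪 h𝔪 hker
    obtain ⟨e, y, he0, hy0, hy, hy', hhorE, hglue⟩ := hnz1 𝔪 h𝔪 hker
    have hprime : 𝔪.IsPrime := h𝔪.isPrime
    refine h61_local_of_loc ψ V1 D vert1 a1 ha1 hvertO1 𝔪 e y he0 hy0 hy hy' hglue j g hg.2 ?_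
    intro hg0 i hiv hthr
    obtain ⟨P, hPx, hP⟩ := hhor1 i hiv
    rw [hP g hg0, hhorE i hiv hthr P hP]
    have h1 := hord j n g hg0 hg.1 P
    have h2 : E1 P = 0 := by
      rcases hdisj P with h | h
      · exact h
      · have := hdivx P
        have := hE1 P
        omega
    rw [h2, mul_zero, zero_add] at h1
    linarith
  · intro j n _ g hg 𝔪 h𝔪 hker
    obtain ⟨e, y, he0, hy0, hy, hy', hhorE, hglue⟩ := hnz2 𝔪 h𝔪 hker
    have hprime : 𝔪.IsPrime := h𝔪.isPrime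
    have hxin : ψ (x0⁻¹ ^ n * g) = x⁻¹ ^ n * ψ g := by
      rw [map_mul, map_pow, map_inv₀, hψx]
    have hgO : ψ (x0⁻¹ ^ n * g) ∈ D.O := by
      rw [hxin]
      exact D.O.mul_mem (D.O.pow_mem hxi n) hg.2
    refine h61_local_of_loc ψ V2 D vert2 a2 ha2 hvertO2 𝔪 e y he0 hy0 hy hy' hglue j
      (x0⁻¹ ^ n * g) hgO ?_
    intro hg0' i hiv hthr
    have hg0 : g ≠ 0 := by
      rintro rfl
      exact hg0' (mul_zero _)
    obtain ⟨P, hPx, hP⟩ := hhor2 i hiv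
    rw [hP _ hg0', hhorE i hiv hthr P hP, hxin,
      P.ord_mul (pow_ne_zero n (inv_ne_zero hx0)) (hψ0 g hg0)]
    have h1 := hord j n g hg0 hg.1 P
    have h2 : E2 P = 0 := by
      rcases hdisj P with h | h
      · have := hdivx P
        have := hE2 P
        omega
      · exact h
    have h3 : P.ord (x⁻¹ ^ n) = (n : ℤ) * E1 P := by
      have h4 : P.ord (x⁻¹ ^ n) = (n : ℤ) * P.ord x⁻¹ := hordpow P n
      have h5 : P.ord x⁻¹ = - P.ord x := by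
        have h6 := P.ord_mul hx0 (inv_ne_zero hx0)
        rw [mul_inv_cancel₀ hx0, P.ord_one] at h6
        omega
      rw [h4, h5, hdivx P, h2]
      ring
    rw [h3]
    linarith

end Fermat.Agent.S36
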