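import Mathlib
import Fermat.Agent.S36.h80_LocGen
import Fermat.Agent.S36.h80_LocUnit
import Fermat.Agent.S36.h94_LocGlueVal
import Fermat.Agent.S36.h94_NZGeneric
import Fermat.Agent.S36.h94_NZAssembly

/-!
# S36 / row NZ: chart-family form of the export (helper94)

* `h94_vge_zpow_sub_zpow`, `h94_locdelta_zpow` : (ZPOW) from the pair `(e*, y*)` at a point (local
  equation of `E*` glued by one unit) to the pair `(e* ^ (-j), y* ^ (-j))` for a section `g` of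
  `j E*` — the binder shape of `hloc1`/`hloc2` of `h46_principal_of_valFam`.
* `h94_nz_triple_fam` : `h94_nz_triple` for a family `V2 x` of valuation families depending on
  the point (several charts), the three vertical valuations being given by plain functions
  `w : Fin 3 → F2 → ℤ`.
* `h94_nz_charts` : the export at EVERY maximal ideal of every chart, from the classification
  "one vertical branch or all three".
-/

set_option autoImplicit false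
set_option linter.unusedSectionVars false
set_option linter.unusedVariables false

namespace Fermat.Agent.S36

section Zpow

variable {F : Type*} [Field F] {ι : Type*} (V : h80_ValFam F ι)

/-- `V.InLoc m 0`. -/
theorem h94_inLoc_zero (m : Ideal V.B) [hm : m.IsPrime] : V.InLoc m 0 :=
  ⟨0, 1, fun h => hm.ne_top ((Ideal.eq_top_iff_one m).2 h), by simp⟩

/-- Congruent units have congruent inverses. -/
theorem h94_vge_inv_sub_inv (i : ι) {a : ℤ} (ha : 1 ≤ a) {e y : F} (hy0 : y ≠ 0)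
    (hy : V.v i y = 0) (h : h94_Vge V i a (e - y)) : h94_Vge V i a (e⁻¹ - y⁻¹) := by
  obtain ⟨he0, he⟩ := h94_v_eq_zero_of_cong V i hy0 hy (h94_vge_mono V i ha h)
  have e1 : e⁻¹ - y⁻¹ = -(e - y) / (e * y) := by field_simp; ring
  rw [e1]
  refine h94_vge_div_unit V i (h94_vge_neg V i h) (mul_ne_zero he0 hy0) ?_
  rw [V.map_mul i _ _ he0 hy0, he, hy]; rfl

/-- Congruent units have congruent integer powers. -/
theorem h94_vge_zpow_sub_zpow (i : ι) {a : ℤ} (ha : 1 ≤ a) {e y : F} (hy0 : y ≠ 0)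
    (hy : V.v i y = 0) (h : h94_Vge V i a (e - y)) (j : ℤ) : h94_Vge V i a (e ^ j - y ^ j) := by
  obtain ⟨he0, he⟩ := h94_v_eq_zero_of_cong V i hy0 hy (h94_vge_mono V i ha h)
  obtain ⟨n, rfl | rfl⟩ := Int.eq_nat_or_neg j
  · rw [zpow_natCast, zpow_natCast]
    exact h94_vge_pow_sub_pow V i (h94_vge_of_unit V i he) (h94_vge_of_unit V i hy) h n
  · rw [zpow_neg, zpow_neg, zpow_natCast, zpow_natCast, ← inv_pow, ← inv_pow]
    have hinv := h94_vge_inv_sub_inv V i ha hy0 hy h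
    have hei : V.v i e⁻¹ = 0 := by rw [h80_v_inv V i he0, he]; rfl
    have hyi : V.v i y⁻¹ = 0 := by rw [h80_v_inv V i hy0, hy]; rfl
    exact h94_vge_pow_sub_pow V i (h94_vge_of_unit V i hei) (h94_vge_of_unit V i hyi) hinv n

/-- **(ZPOW).**  From the pair `(es, ys)` at `m` (`es` a local equation of `E*`, `ys` a unit of
`B_m`, `es ≡ ys` on the vertical branches through `m`) to the data that the local hypothesis of
the local-global lemma wants for a section `g` of `j E*` (`0 ≤ v g + j * v es` at all valuations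
through `m`): `e := es ^ (-j)`, `y := ys ^ (-j)`. -/
theorem h94_locdelta_zpow (m : Ideal V.B) [m.IsPrime] (vert : Set ι) (a : ι → ℕ)
    (ha : ∀ C ∈ vert, V.Through m C → 1 ≤ a C)
    (es ys : F) (hes0 : es ≠ 0) (hys0 : ys ≠ 0) (hys : V.InLoc m ys) (hys' : V.InLoc m ys⁻¹)
    (hglue : ∀ C ∈ vert, V.Through m C → (es = ys ∨ (a C : ℤ) ≤ V.v C (es - ys)))
    (j : ℤ) (g : F) (hg : g = 0 ∨ ∀ i, V.Through m i → 0 ≤ V.v i g + j * V.v i es) :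
    ∃ e y : F, e ≠ 0 ∧ V.InLoc m y ∧ V.InLoc m (g / e) ∧
      ∀ C ∈ vert, V.Through m C → (e = y ∨ (a C : ℤ) ≤ V.v C (e - y)) := by
  have hyv : ∀ i, V.Through m i → V.v i ys = 0 := fun i hi =>
    h80_through_eq_zero_of_unit V m hys0 hys hys' hi
  have he0 : es ^ (-j) ≠ 0 := zpow_ne_zero _ hes0
  have hy0 : ys ^ (-j) ≠ 0 := zpow_ne_zero _ hys0
  refine ⟨es ^ (-j), ys ^ (-j), he0, ?_, ?_, fun C hC hthr => ?_⟩
  · exact (h80_inLoc_of_through_zero V m hy0 (fun i hi => by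
      rw [h80_v_zpow V i hys0, hyv i hi, mul_zero])).1
  · rcases hg with rfl | hg
    · rw [zero_div]; exact h94_inLoc_zero V m
    · by_cases hg0 : g = 0
      · rw [hg0, zero_div]; exact h94_inLoc_zero V m
      rw [h80_inLoc_iff V m (div_ne_zero hg0 he0)]
      intro i hi
      rw [h80_v_div V i hg0 he0, h80_v_zpow V i hes0]
      have := hg i hi
      have e1 : V.v i g - -j * V.v i es = V.v i g + j * V.v i es := by ring
      rw [e1]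
      exact this
  · have h1 : h94_Vge V C (a C) (es - ys) := by
      rcases hglue C hC hthr with h | h
      · exact Or.inl (sub_eq_zero.2 h)
      · exact Or.inr h
    have h2 := h94_vge_zpow_sub_zpow V C (by exact_mod_cast ha C hC hthr) hys0 (hyv C hthr) h1 (-j)
    rcases h2 with h | h
    · exact Or.inl (sub_eq_zero.1 h)
    · exact Or.inr h

end Zpow

/-! ### The family form of `h94_nz_triple` -/

section Fam

variable {F2 F1 K : Type*} [Field F2] [Field F1] [Field K] [Algebra K F2] [Algebra K F1]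
  {ι1 : Type*} (V1 : h80_ValFam F1 ι1)

/-- **NZ-D at the triple points, family form.**  As `h94_nz_triple`, but the valuation family
`V2 x` (chart ring) may depend on the triple point `x`; the three vertical valuations are the
plain functions `w k`, with `(V2 x).v (P x k) = w k`. -/
theorem h94_nz_triple_fam (w : Fin 3 → F2 → ℤ) (a : Fin 3 → ℕ) (ha : ∀ k, 1 ≤ a k)
    (wF wV : ι1) {q n : ℕ} (hq : 1 ≤ q)
    {X : Type*} {ι2 : X → Type*} (V2 : ∀ x, h80_ValFam F2 (ι2 x)) (P : ∀ x, Fin 3 → ι2 x)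
    (hw : ∀ x k f, (V2 x).v (P x k) f = w k f)
    (m : ∀ x, Ideal (V2 x).B) [∀ x, (m x).IsPrime]
    (hP : ∀ x k, (V2 x).Through (m x) (P x k))
    (sα sβ : X → Ideal V1.B) [∀ x, (sα x).IsPrime] [∀ x, (sβ x).IsPrime]
    (hαF : ∀ x, V1.Through (sα x) wF) (hαV : ∀ x, V1.Through (sα x) wV)
    (hβF : ∀ x, V1.Through (sβ x) wF) (hβV : ∀ x, V1.Through (sβ x) wV)
    (hconstα : ∀ x, ∀ c : K, c ≠ 0 → V1.v wF (algebraMap K F1 c) = 0 →
      ∀ i, V1.Through (sα x) i → V1.v i (algebraMap K F1 c) = 0)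
    (hconstβ : ∀ x, ∀ c : K, c ≠ 0 → V1.v wF (algebraMap K F1 c) = 0 →
      ∀ i, V1.Through (sβ x) i → V1.v i (algebraMap K F1 c) = 0)
    (hn : (n : F1) ≠ 0) (hnv : V1.v wF (n : F1) = 0)
    (hroots : ∀ ξ : F2, ξ ^ n = 1 → ∃ z : K, algebraMap K F2 z = ξ)
    (Nα Nβ : F2 → F1)
    (hNR : ∀ (g : F2) (z : Fin 3 → K), (∀ k, z k ^ n = 1) →
      (∀ k, g - algebraMap K F2 (z k) = 0 ∨ 1 ≤ w k (g - algebraMap K F2 (z k))) →
        h94_Vge V1 wF 1 (Nα g - algebraMap K F1 (z 0 * z 1 ^ (q - 1))) ∧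
        h94_Vge V1 wV 1 (Nα g - algebraMap K F1 (z 2 ^ q)) ∧
        h94_Vge V1 wF 1 (Nβ g - algebraMap K F1 (z 0 ^ q)) ∧
        h94_Vge V1 wV 1 (Nβ g - algebraMap K F1 (z 1 ^ (q - 1) * z 2)))
    (φα φβ : F1)
    (f1α f2α f1β f2β : K) (hf1α : f1α ≠ 0) (hf2α : f2α ≠ 0) (hf1β : f1β ≠ 0) (hf2β : f2β ≠ 0)
    (hf1αv : V1.v wF (algebraMap K F1 f1α) = 0) (hf2αv : V1.v wF (algebraMap K F1 f2α) = 0)
    (hf1βv : V1.v wF (algebraMap K F1 f1β) = 0) (hf2βv : V1.v wF (algebraMap K F1 f2β) = 0)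
    (hφα1 : h94_Vge V1 wF 1 (φα - algebraMap K F1 f1α))
    (hφα2 : h94_Vge V1 wV 1 (φα - algebraMap K F1 f2α))
    (hφβ1 : h94_Vge V1 wF 1 (φβ - algebraMap K F1 f1β))
    (hφβ2 : h94_Vge V1 wV 1 (φβ - algebraMap K F1 f2β))
    (e : X → F2)
    (hmemα : ∀ x (y : F2), y ≠ 0 → (V2 x).InLoc (m x) y → (V2 x).InLoc (m x) y⁻¹ →
      V1.InLoc (sα x) (Nα (e x / y) / φα))
    (hmemβ : ∀ x (y : F2), y ≠ 0 → (V2 x).InLoc (m x) y → (V2 x).InLoc (m x) y⁻¹ →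
      V1.InLoc (sβ x) (Nβ (e x / y) / φβ))
    (hLOC : ∀ x, ∃ (ζ : Fin 3 → F2) (y : F2),
      (∀ k, (V2 x).InLoc (m x) (ζ k) ∧ ζ k ^ n = 1) ∧
      y ≠ 0 ∧ (V2 x).InLoc (m x) y ∧ (V2 x).InLoc (m x) y⁻¹ ∧
      ∀ k, (e x = ζ k * y ∨ (a k : ℤ) ≤ (V2 x).v (P x k) (e x - ζ k * y))) :
    ∃ c1 c3 : K, c1 ^ n = 1 ∧ c3 ^ n = 1 ∧ ∀ Γ : F2,
      (Γ - algebraMap K F2 c1 = 0 ∨ (a 0 : ℤ) ≤ w 0 (Γ - algebraMap K F2 c1)) →
      (Γ - 1 = 0 ∨ (a 1 : ℤ) ≤ w 1 (Γ - 1)) →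
      (Γ - algebraMap K F2 c3 = 0 ∨ (a 2 : ℤ) ≤ w 2 (Γ - algebraMap K F2 c3)) →
      ∀ x, ∃ y' : F2, y' ≠ 0 ∧ (V2 x).InLoc (m x) y' ∧ (V2 x).InLoc (m x) y'⁻¹ ∧
        ∀ k, (e x ^ (q ^ 2 - 1) / Γ = y' ∨
          (a k : ℤ) ≤ (V2 x).v (P x k) (e x ^ (q ^ 2 - 1) / Γ - y')) := by
  classical
  have hn0 : n ≠ 0 := by
    rintro rfl
    exact hn (by simp)
  have hVge : ∀ x k (b : ℤ) (f : F2), h94_Vge (V2 x) (P x k) b f ↔ (f = 0 ∨ b ≤ w k f) := by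
    intro x k b f
    unfold h94_Vge
    rw [hw]
  choose ζ y hζ' hy0 hy hy' hglue using hLOC
  have hζ : ∀ x k, ζ x k ^ n = 1 := fun x k => (hζ' x k).2
  have hz : ∀ x k, ∃ z : K, algebraMap K F2 z = ζ x k := fun x k => hroots _ (hζ x k)
  choose z hzζ using hz
  have hzn : ∀ x k, z x k ^ n = 1 := by
    intro x k
    apply (algebraMap K F2).injective
    rw [map_pow, hzζ, hζ x k, map_one]
  -- `g x = e x / y x ≡ z x k` on the branch `k`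
  have hg : ∀ x k, e x / y x - algebraMap K F2 (z x k) = 0 ∨
      1 ≤ w k (e x / y x - algebraMap K F2 (z x k)) := by
    intro x k
    rw [← hVge x k, hzζ]
    exact h94_vge_mono (V2 x) (P x k) (by exact_mod_cast ha k)
      (h94_vge_glue_div (V2 x) (P x k) (e x) (y x) (ζ x k) (hy0 x)
        (h80_through_eq_zero_of_unit (V2 x) (m x) (hy0 x) (hy x) (hy' x) (hP x k)) (hglue x k))
  have hT := fun x => hNR (e x / y x) (z x) (hzn x) (hg x)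
  obtain ⟨c1, c3, hc1, hc3, hrel⟩ := h94_nz_const V1 sα sβ wF wV hαF hαV hβF hβV hconstα hconstβ
    hq hn hnv (fun x => Nα (e x / y x)) (fun x => Nβ (e x / y x)) φα φβ
    (fun x => hmemα x (y x) (hy0 x) (hy x) (hy' x))
    (fun x => hmemβ x (y x) (hy0 x) (hy x) (hy' x))
    f1α f2α f1β f2β hf1α hf2α hf1β hf2β hf1αv hf2αv hf1βv hf2βv hφα1 hφα2 hφβ1 hφβ2
    (fun x => z x 0) (fun x => z x 1) (fun x => z x 2) (fun x => hzn x 0) (fun x => hzn x 1)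
    (fun x => hzn x 2) (fun x => (hT x).1) (fun x => (hT x).2.1) (fun x => (hT x).2.2.1)
    (fun x => (hT x).2.2.2)
  refine ⟨c1, c3, hc1, hc3, fun Γ hΓ1 hΓ2 hΓ3 x => ?_⟩
  have hΓ2' : h94_Vge (V2 x) (P x 1) (a 1) (Γ - 1) := (hVge x 1 _ _).2 hΓ2
  have hΓ0 : Γ ≠ 0 := (h94_v_eq_zero_of_cong (V2 x) (P x 1) one_ne_zero
    (h80_v_one (V2 x) (P x 1))
    (h94_vge_mono (V2 x) (P x 1) (by exact_mod_cast ha 1) hΓ2')).1
  -- the constants `cc k` that `Γ` is congruent to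
  set cc : Fin 3 → F2 := ![algebraMap K F2 c1, 1, algebraMap K F2 c3] with hccdef
  have hccn : ∀ k, cc k ^ n = 1 := by
    intro k
    fin_cases k
    · show (algebraMap K F2 c1) ^ n = 1
      rw [← map_pow, hc1, map_one]
    · show (1 : F2) ^ n = 1
      exact one_pow n
    · show (algebraMap K F2 c3) ^ n = 1
      rw [← map_pow, hc3, map_one]
  have hΓ : ∀ k, h94_Vge (V2 x) (P x k) (a k) (Γ - cc k) := by
    intro k
    fin_cases k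
    · exact (hVge x 0 _ _).2 hΓ1
    · exact hΓ2'
    · exact (hVge x 2 _ _).2 hΓ3
  have hpow : ∀ k, ζ x k ^ (q ^ 2 - 1) = ζ x 1 ^ (q ^ 2 - 1) * cc k := by
    intro k
    fin_cases k
    · show ζ x 0 ^ (q ^ 2 - 1) = ζ x 1 ^ (q ^ 2 - 1) * algebraMap K F2 c1
      rw [← hzζ, ← hzζ, ← map_pow, ← map_pow, ← map_mul, (hrel x).1, mul_comm]
    · show ζ x 1 ^ (q ^ 2 - 1) = ζ x 1 ^ (q ^ 2 - 1) * 1
      rw [mul_one]
    · show ζ x 2 ^ (q ^ 2 - 1) = ζ x 1 ^ (q ^ 2 - 1) * algebraMap K F2 c3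
      rw [← hzζ, ← hzζ, ← map_pow, ← map_pow, ← map_mul, (hrel x).2, mul_comm]
  exact h94_nz_twist (V2 x) (m x) (P x) a (hP x) ha (e x) (y x) Γ (ζ x 1 ^ (q ^ 2 - 1)) (ζ x) cc
    (q ^ 2 - 1) hn0 (hy0 x) (hy x) (hy' x) (hζ x) hccn
    (by rw [← pow_mul, mul_comm, pow_mul, hζ x 1, one_pow]) hΓ0 (hglue x) hΓ hpow

/-- **The NZ export at every closed point of every chart.**  `V2 j` the chart families of level
`q²` (`j` the chart), `P j k` the three vertical valuations (`= w k`), every maximal ideal lies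
on all three branches (triple point) or on at most one; `e j 𝔪` local equations, glued by
`(LOC)` (`hLOC3` at triple points, `hLOC1` at the others).  Then there are constant roots of
unity `c1, c3` such that for every `Γ ≡ (c1, 1, c3)` and EVERY maximal ideal `𝔪` of every chart
the twisted local equation `e j 𝔪 ^ (q²-1) / Γ` is congruent to ONE unit of `B_𝔪` on all the
vertical branches through `𝔪`. -/
theorem h94_nz_charts (w : Fin 3 → F2 → ℤ) (a : Fin 3 → ℕ) (ha : ∀ k, 1 ≤ a k)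
    (wF wV : ι1) {q n : ℕ} (hq : 1 ≤ q)
    {J : Type*} {ι2 : J → Type*} (V2 : ∀ j, h80_ValFam F2 (ι2 j)) (P : ∀ j, Fin 3 → ι2 j)
    (hw : ∀ j k f, (V2 j).v (P j k) f = w k f)
    (hclass : ∀ j (𝔪 : Ideal (V2 j).B), 𝔪.IsMaximal →
      (∀ k, (V2 j).Through 𝔪 (P j k)) ∨ ∃ k0, ∀ k, (V2 j).Through 𝔪 (P j k) → k = k0)
    (sα sβ : ∀ j, Ideal (V2 j).B → Ideal V1.B)
    (hsα : ∀ j (𝔪 : Ideal (V2 j).B), 𝔪.IsMaximal → (∀ k, (V2 j).Through 𝔪 (P j k)) →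
      (sα j 𝔪).IsPrime ∧ V1.Through (sα j 𝔪) wF ∧ V1.Through (sα j 𝔪) wV)
    (hsβ : ∀ j (𝔪 : Ideal (V2 j).B), 𝔪.IsMaximal → (∀ k, (V2 j).Through 𝔪 (P j k)) →
      (sβ j 𝔪).IsPrime ∧ V1.Through (sβ j 𝔪) wF ∧ V1.Through (sβ j 𝔪) wV)
    (hconst : ∀ c : K, c ≠ 0 → V1.v wF (algebraMap K F1 c) = 0 →
      ∀ i, V1.v i (algebraMap K F1 c) = 0)
    (hn : (n : F1) ≠ 0) (hnv : V1.v wF (n : F1) = 0)
    (hroots : ∀ ξ : F2, ξ ^ n = 1 → ∃ z : K, algebraMap K F2 z = ξ)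
    (Nα Nβ : F2 → F1)
    (hNR : ∀ (g : F2) (z : Fin 3 → K), (∀ k, z k ^ n = 1) →
      (∀ k, g - algebraMap K F2 (z k) = 0 ∨ 1 ≤ w k (g - algebraMap K F2 (z k))) →
        h94_Vge V1 wF 1 (Nα g - algebraMap K F1 (z 0 * z 1 ^ (q - 1))) ∧
        h94_Vge V1 wV 1 (Nα g - algebraMap K F1 (z 2 ^ q)) ∧
        h94_Vge V1 wF 1 (Nβ g - algebraMap K F1 (z 0 ^ q)) ∧
        h94_Vge V1 wV 1 (Nβ g - algebraMap K F1 (z 1 ^ (q - 1) * z 2)))
    (φα φβ : F1)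
    (f1α f2α f1β f2β : K) (hf1α : f1α ≠ 0) (hf2α : f2α ≠ 0) (hf1β : f1β ≠ 0) (hf2β : f2β ≠ 0)
    (hf1αv : V1.v wF (algebraMap K F1 f1α) = 0) (hf2αv : V1.v wF (algebraMap K F1 f2α) = 0)
    (hf1βv : V1.v wF (algebraMap K F1 f1β) = 0) (hf2βv : V1.v wF (algebraMap K F1 f2β) = 0)
    (hφα1 : h94_Vge V1 wF 1 (φα - algebraMap K F1 f1α))
    (hφα2 : h94_Vge V1 wV 1 (φα - algebraMap K F1 f2α))
    (hφβ1 : h94_Vge V1 wF 1 (φβ - algebraMap K F1 f1β))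
    (hφβ2 : h94_Vge V1 wV 1 (φβ - algebraMap K F1 f2β))
    (e : ∀ j, Ideal (V2 j).B → F2)
    (hmemα : ∀ j (𝔪 : Ideal (V2 j).B), 𝔪.IsMaximal → (∀ k, (V2 j).Through 𝔪 (P j k)) →
      ∀ y : F2, y ≠ 0 → (V2 j).InLoc 𝔪 y → (V2 j).InLoc 𝔪 y⁻¹ →
        V1.InLoc (sα j 𝔪) (Nα (e j 𝔪 / y) / φα))
    (hmemβ : ∀ j (𝔪 : Ideal (V2 j).B), 𝔪.IsMaximal → (∀ k, (V2 j).Through 𝔪 (P j k)) →
      ∀ y : F2, y ≠ 0 → (V2 j).InLoc 𝔪 y → (V2 j).InLoc 𝔪 y⁻¹ →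
        V1.InLoc (sβ j 𝔪) (Nβ (e j 𝔪 / y) / φβ))
    (hLOC3 : ∀ j (𝔪 : Ideal (V2 j).B), 𝔪.IsMaximal → (∀ k, (V2 j).Through 𝔪 (P j k)) →
      ∃ (ζ : Fin 3 → F2) (y : F2), (∀ k, (V2 j).InLoc 𝔪 (ζ k) ∧ ζ k ^ n = 1) ∧
        y ≠ 0 ∧ (V2 j).InLoc 𝔪 y ∧ (V2 j).InLoc 𝔪 y⁻¹ ∧
        ∀ k, (e j 𝔪 = ζ k * y ∨ (a k : ℤ) ≤ (V2 j).v (P j k) (e j 𝔪 - ζ k * y)))
    (hLOC1 : ∀ j (𝔪 : Ideal (V2 j).B), 𝔪.IsMaximal → ∀ k0, (V2 j).Through 𝔪 (P j k0) →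
      (∀ k, (V2 j).Through 𝔪 (P j k) → k = k0) →
      ∃ (ζ y : F2), ζ ^ n = 1 ∧ y ≠ 0 ∧ (V2 j).InLoc 𝔪 y ∧ (V2 j).InLoc 𝔪 y⁻¹ ∧
        (e j 𝔪 = ζ * y ∨ (a k0 : ℤ) ≤ (V2 j).v (P j k0) (e j 𝔪 - ζ * y))) :
    ∃ c1 c3 : K, c1 ^ n = 1 ∧ c3 ^ n = 1 ∧ ∀ Γ : F2,
      (Γ - algebraMap K F2 c1 = 0 ∨ (a 0 : ℤ) ≤ w 0 (Γ - algebraMap K F2 c1)) →
      (Γ - 1 = 0 ∨ (a 1 : ℤ) ≤ w 1 (Γ - 1)) →
      (Γ - algebraMap K F2 c3 = 0 ∨ (a 2 : ℤ) ≤ w 2 (Γ - algebraMap K F2 c3)) →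
      ∀ j (𝔪 : Ideal (V2 j).B), 𝔪.IsMaximal →
        ∃ y' : F2, y' ≠ 0 ∧ (V2 j).InLoc 𝔪 y' ∧ (V2 j).InLoc 𝔪 y'⁻¹ ∧
          ∀ k, (V2 j).Through 𝔪 (P j k) → (e j 𝔪 ^ (q ^ 2 - 1) / Γ = y' ∨
            (a k : ℤ) ≤ (V2 j).v (P j k) (e j 𝔪 ^ (q ^ 2 - 1) / Γ - y')) := by
  classical
  have hn0 : n ≠ 0 := by
    rintro rfl
    exact hn (by simp)
  -- the type of triple points
  let X : Type _ := Σ j, {𝔪 : Ideal (V2 j).B // 𝔪.IsMaximal ∧ ∀ k, (V2 j).Through 𝔪 (P j k)}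
  have hmP : ∀ x : X, (x.2.1).IsPrime := fun x => x.2.2.1.isPrime
  have hαP : ∀ x : X, (sα x.1 x.2.1).IsPrime := fun x => (hsα x.1 x.2.1 x.2.2.1 x.2.2.2).1
  have hβP : ∀ x : X, (sβ x.1 x.2.1).IsPrime := fun x => (hsβ x.1 x.2.1 x.2.2.1 x.2.2.2).1
  obtain ⟨c1, c3, hc1, hc3, htriple⟩ := h94_nz_triple_fam V1 w a ha wF wV hq
    (X := X) (ι2 := fun x => ι2 x.1) (fun x => V2 x.1) (fun x => P x.1)
    (fun x k f => hw x.1 k f) (fun x => x.2.1) (fun x k => x.2.2.2 k)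
    (fun x => sα x.1 x.2.1) (fun x => sβ x.1 x.2.1)
    (fun x => (hsα x.1 x.2.1 x.2.2.1 x.2.2.2).2.1) (fun x => (hsα x.1 x.2.1 x.2.2.1 x.2.2.2).2.2)
    (fun x => (hsβ x.1 x.2.1 x.2.2.1 x.2.2.2).2.1) (fun x => (hsβ x.1 x.2.1 x.2.2.1 x.2.2.2).2.2)
    (fun x c hc hcv i _ => hconst c hc hcv i) (fun x c hc hcv i _ => hconst c hc hcv i)
    hn hnv hroots Nα Nβ hNR φα φβ f1α f2α f1β f2β hf1α hf2α hf1β hf2β hf1αv hf2αv hf1βv hf2βv
    hφα1 hφα2 hφβ1 hφβ2 (fun x => e x.1 x.2.1)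
    (fun x => hmemα x.1 x.2.1 x.2.2.1 x.2.2.2) (fun x => hmemβ x.1 x.2.1 x.2.2.1 x.2.2.2)
    (fun x => hLOC3 x.1 x.2.1 x.2.2.1 x.2.2.2)
  refine ⟨c1, c3, hc1, hc3, fun Γ hΓ1 hΓ2 hΓ3 j 𝔪 h𝔪 => ?_⟩
  have : 𝔪.IsPrime := h𝔪.isPrime
  rcases hclass j 𝔪 h𝔪 with h3 | ⟨k0, hk0⟩
  · -- triple point
    obtain ⟨y', h1, h2, h3', h4⟩ := htriple Γ hΓ1 hΓ2 hΓ3 ⟨j, ⟨𝔪, h𝔪, h3⟩⟩
    exact ⟨y', h1, h2, h3', fun k _ => h4 k⟩
  · by_cases hthr : (V2 j).Through 𝔪 (P j k0)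
    · obtain ⟨ζ, y, hζ, hy0, hy, hy', hglue⟩ := hLOC1 j 𝔪 h𝔪 k0 hthr hk0
      -- the constant on the branch `k0`
      set cc : Fin 3 → F2 := ![algebraMap K F2 c1, 1, algebraMap K F2 c3] with hccdef
      have hccn : ∀ k, cc k ^ n = 1 := by
        intro k
        fin_cases k
        · show (algebraMap K F2 c1) ^ n = 1
          rw [← map_pow, hc1, map_one]
        · show (1 : F2) ^ n = 1
          exact one_pow n
        · show (algebraMap K F2 c3) ^ n = 1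
          rw [← map_pow, hc3, map_one]
      have hΓ : ∀ k, h94_Vge (V2 j) (P j k) (a k) (Γ - cc k) := by
        intro k
        unfold h94_Vge
        rw [hw]
        fin_cases k
        · exact hΓ1
        · exact hΓ2
        · exact hΓ3
      obtain ⟨y', h1, h2, h3', h4⟩ := h94_nz_single (V2 j) 𝔪 (P j k0) (a k0) hthr (ha k0)
        (e j 𝔪) y Γ ζ (cc k0) (q ^ 2 - 1) hn0 hy0 hy hy' hζ (hccn k0) hglue (hΓ k0)
      refine ⟨y', h1, h2, h3', fun k hk => ?_⟩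
      rw [hk0 k hk]
      exact h4
    · refine ⟨1, one_ne_zero, ?_, ?_, fun k hk => absurd (hk0 k hk ▸ hk) hthr⟩
      · exact (h80_inLoc_of_through_zero (V2 j) 𝔪 one_ne_zero
          (fun i _ => h80_v_one (V2 j) i)).1
      · rw [inv_one]
        exact (h80_inLoc_of_through_zero (V2 j) 𝔪 one_ne_zero
          (fun i _ => h80_v_one (V2 j) i)).1

end Fam

end Fermat.Agent.S36
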