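import Mathlib
import Fermat.Agent.S36.h80_LocGen
import Fermat.Agent.S36.h80_LocUnit
import Fermat.Agent.S36.h94_LocGlueVal
import Fermat.Agent.S36.h94_NZGeneric
import Fermat.Agent.S36.h94_NZAssembly
import Fermat.Agent.S36.h94_NZFam

/-!
# S36 / row NZ: the export with NO level-`q` family (helper94)

The comparison of the gluing constants is done at the triple point itself, between the branches
`P 0` (`C20`) and `P 2` (`C02`), with the "norm followed by pull-back" maps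
`Mα = α^* ∘ N_α`, `Mβ = β^* ∘ N_β : F → F` (`F` the function field of level `q²`).  The modular
inputs are:

* `hMres` : the residue table of `Mα, Mβ` for functions congruent to constant roots of unity;
* `hNU`   : `Mα`, `Mβ` map units of the local ring at a triple point into the local ring;
* `hTα, hTβ` : `Mα u = κα Φα ^ n`, `Mβ u = κβ Φβ ^ n` (the class of `u` is `q`-new).

No valuation family, point or local ring of level `q` is needed.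

* `h94_inLoc_of_pow` : the local rings are root closed;
* `h94_nz_ratio_const_fam`, `h94_nz_const_of_ratio` : the family forms of the constants lemma;
* `h94_nz_triple_self` : the triple points;
* `h94_nz_charts_self` : the export at every maximal ideal of every chart.
-/

set_option autoImplicit false
set_option linter.unusedSectionVars false
set_option linter.unusedVariables false

namespace Fermat.Agent.S36

section Pow

variable {F : Type*} [Field F] {ι : Type*} (V : h80_ValFam F ι)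

/-- The local ring `B_m` is root closed in `F`. -/
theorem h94_inLoc_of_pow (m : Ideal V.B) [m.IsPrime] {t : F} {n : ℕ} (hn : n ≠ 0)
    (h : V.InLoc m (t ^ n)) : V.InLoc m t := by
  by_cases ht : t = 0
  · rw [ht]; exact h94_inLoc_zero V m
  rw [h80_inLoc_iff V m ht]
  intro i hi
  have h1 := (h80_inLoc_iff V m (pow_ne_zero n ht)).1 h i hi
  rw [h80_v_pow V i ht] at h1
  have hn' : (0 : ℤ) < n := by exact_mod_cast Nat.pos_of_ne_zero hn
  by_contra hneg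
  have h2 : V.v i t ≤ -1 := by omega
  have h3 : (n : ℤ) * V.v i t ≤ n * (-1) := mul_le_mul_of_nonneg_left h2 hn'.le
  omega

/-- **(NU) from the residue congruence.**  `M : F → F` multiplicative (norm followed by
pull-back), `i` a valuation through `m` at which `M t ≡ t ^ qq` for `t ∈ B ∖ m` (the residue
extension along `i` is purely inseparable of degree `qq`, or trivial), and `M` maps `B` into
`B_m`.  Then `M` maps the local ring `B_m` into itself. -/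
theorem h94_nu_of_cong (m : Ideal V.B) [hm : m.IsPrime] (i : ι) (hi : V.Through m i)
    (M : F → F) (qq : ℕ) (hmul : ∀ f g, M (f * g) = M f * M g) (hne : ∀ f, f ≠ 0 → M f ≠ 0)
    (hint : ∀ t : V.B, V.InLoc m (M (t : F)))
    (hcong : ∀ t : V.B, t ∉ m → h94_Vge V i 1 (M (t : F) - (t : F) ^ qq))
    (y : F) (hy : V.InLoc m y) : V.InLoc m (M y) := by
  obtain ⟨b, t, ht, hbt⟩ := hy
  have ht0 : (t : F) ≠ 0 := h80_ne_zero_of_not_mem V ht
  have hMt0 : M (t : F) ≠ 0 := hne _ ht0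
  have hyb : y = (b : F) / (t : F) := by
    rw [eq_div_iff ht0, mul_comm]; exact hbt
  have hMy : M y = M (b : F) * (M (t : F))⁻¹ := by
    have h := hmul y (t : F)
    rw [mul_comm y, hbt] at h
    rw [h, mul_assoc, mul_inv_cancel₀ hMt0, mul_one]
  -- `M t` is a unit of `B_m`
  have htB : V.InLoc m (t : F) := h94_B_le_Bm V m t
  have htinv : V.InLoc m ((t : F)⁻¹) := ⟨1, t, ht, by simp [ht0]⟩
  have hδ : V.InMLoc m (M (t : F) - (t : F) ^ qq) :=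
    h94_inMLoc_of_vge V m hi ((h94_Bm V m).sub_mem (hint t) ((h94_Bm V m).pow_mem htB qq))
      (hcong t ht)
  have hunit : IsUnit (⟨M (t : F), hint t⟩ : h94_Bm V m) := by
    by_contra hnu
    have h1 : (⟨M (t : F), hint t⟩ : h94_Bm V m) ∈ IsLocalRing.maximalIdeal (h94_Bm V m) := by
      rw [IsLocalRing.mem_maximalIdeal]; exact hnu
    have h2 : (⟨M (t : F) - (t : F) ^ qq,
        (h94_Bm V m).sub_mem (hint t) ((h94_Bm V m).pow_mem htB qq)⟩ : h94_Bm V m) ∈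
        IsLocalRing.maximalIdeal (h94_Bm V m) := (h94_mem_max_Bm_iff V m _).2 hδ
    have h3 := Ideal.sub_mem _ h1 h2
    have h4 : (⟨M (t : F), hint t⟩ : h94_Bm V m) - ⟨M (t : F) - (t : F) ^ qq,
        (h94_Bm V m).sub_mem (hint t) ((h94_Bm V m).pow_mem htB qq)⟩ =
        (⟨(t : F), htB⟩ : h94_Bm V m) ^ qq := by
      apply Subtype.ext
      show M (t : F) - (M (t : F) - (t : F) ^ qq) = (t : F) ^ qq
      ring
    rw [h4] at h3
    have h5 : IsUnit (⟨(t : F), htB⟩ : h94_Bm V m) :=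
      (h94_isUnit_Bm_iff V m _).2 ⟨htinv, ht0⟩
    have h6 : (⟨(t : F), htB⟩ : h94_Bm V m) ^ qq ∈ nonunits (h94_Bm V m) :=
      (IsLocalRing.mem_maximalIdeal _).1 h3
    exact h6 (h5.pow qq)
  have hMtinv := ((h94_isUnit_Bm_iff V m _).1 hunit).1
  rw [hMy]
  exact (h94_Bm V m).mul_mem (hint b) hMtinv

end Pow

section Alg

variable {K : Type*} [Field K]

/-- The algebra of the constants: if the two ratios `z1 z2 ^ (q-1) / z3 ^ q` and
`z1 ^ q / (z2 ^ (q-1) z3)` do not depend on the point, then `z1 ^ (q²-1) = c1 z2 ^ (q²-1)` and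
`z3 ^ (q²-1) = c3 z2 ^ (q²-1)` with constants `c1, c3` (roots of unity). -/
theorem h94_nz_const_of_ratio {X : Type*} {q n : ℕ} (hq : 1 ≤ q) (hn0 : n ≠ 0)
    (z1 z2 z3 : X → K) (hz1 : ∀ x, z1 x ^ n = 1) (hz2 : ∀ x, z2 x ^ n = 1)
    (hz3 : ∀ x, z3 x ^ n = 1)
    (rα : ∀ x x', z1 x * z2 x ^ (q - 1) * (z3 x ^ q)⁻¹ =
      z1 x' * z2 x' ^ (q - 1) * (z3 x' ^ q)⁻¹)
    (rβ : ∀ x x', z1 x ^ q * (z2 x ^ (q - 1) * z3 x)⁻¹ =
      z1 x' ^ q * (z2 x' ^ (q - 1) * z3 x')⁻¹) :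
    ∃ c1 c3 : K, c1 ^ n = 1 ∧ c3 ^ n = 1 ∧
      ∀ x, z1 x ^ (q ^ 2 - 1) = c1 * z2 x ^ (q ^ 2 - 1) ∧
        z3 x ^ (q ^ 2 - 1) = c3 * z2 x ^ (q ^ 2 - 1) := by
  rcases isEmpty_or_nonempty X with hX | ⟨⟨x0⟩⟩
  · exact ⟨1, 1, one_pow n, one_pow n, fun x => (hX.false x).elim⟩
  have hne : ∀ (d : X → K), (∀ x, d x ^ n = 1) → ∀ x, d x ≠ 0 := by
    intro d hd x h0
    have := hd x
    rw [h0, zero_pow hn0] at this
    exact zero_ne_one this
  have hz10 := hne z1 hz1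
  have hz20 := hne z2 hz2
  have hz30 := hne z3 hz3
  set cα : K := z1 x0 * z2 x0 ^ (q - 1) * (z3 x0 ^ q)⁻¹ with hcα
  set cβ : K := z1 x0 ^ q * (z2 x0 ^ (q - 1) * z3 x0)⁻¹ with hcβ
  have hp : ∀ (w : K) (k : ℕ), w ^ n = 1 → (w ^ k) ^ n = 1 := by
    intro w k hw
    rw [← pow_mul, mul_comm, pow_mul, hw, one_pow]
  have hcαn : cα ^ n = 1 := by
    rw [hcα, mul_pow, mul_pow, inv_pow, hp _ _ (hz2 x0), hp _ _ (hz3 x0), hz1 x0, inv_one,
      mul_one, mul_one]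
  have hcβn : cβ ^ n = 1 := by
    rw [hcβ, mul_pow, inv_pow, mul_pow, hp _ _ (hz1 x0), hp _ _ (hz2 x0), hz3 x0, mul_one,
      inv_one, mul_one]
  have hcα0 : cα ≠ 0 := by
    rintro h0
    rw [h0, zero_pow hn0] at hcαn
    exact zero_ne_one hcαn
  have hcβ0 : cβ ≠ 0 := by
    rintro h0
    rw [h0, zero_pow hn0] at hcβn
    exact zero_ne_one hcβn
  refine ⟨cβ ^ q * cα⁻¹, cβ * (cα ^ q)⁻¹, ?_, ?_, fun x => ?_⟩
  · rw [mul_pow, inv_pow, ← pow_mul, mul_comm q n, pow_mul, hcαn, hcβn, one_pow, inv_one, mul_one]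
  · rw [mul_pow, inv_pow, ← pow_mul, mul_comm q n, pow_mul, hcαn, hcβn, one_pow, inv_one, mul_one]
  · have h1 : z1 x * z2 x ^ (q - 1) = cα * z3 x ^ q := by
      have := rα x x0
      rw [hcα, ← this]
      have h3 : z3 x ^ q ≠ 0 := pow_ne_zero q (hz30 x)
      rw [inv_mul_cancel_right₀ h3]
    have h2 : z1 x ^ q = cβ * (z2 x ^ (q - 1) * z3 x) := by
      have := rβ x x0
      rw [hcβ, ← this]
      have h3 : z2 x ^ (q - 1) * z3 x ≠ 0 := mul_ne_zero (pow_ne_zero _ (hz20 x)) (hz30 x)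
      rw [inv_mul_cancel_right₀ h3]
    have h := h98_mul_alg (Units.mk0 (z1 x) (hz10 x)) (Units.mk0 (z2 x) (hz20 x))
      (Units.mk0 (z3 x) (hz30 x)) (Units.mk0 cα hcα0) (Units.mk0 cβ hcβ0) hq
      (Units.ext (by simpa using h1)) (Units.ext (by simpa using h2))
    constructor
    · have := congrArg Units.val h.1
      simpa using this
    · have := congrArg Units.val h.2
      simpa using this

end Alg

section Self

variable {F K : Type*} [Field F] [Field K] [Algebra K F]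

/-- **Normalisation of `φ`, approximate-root form.**  As `h94_nz_phi`, but unit constants are
only required to be `n`-th powers of constants modulo the valuation. -/
theorem h94_nz_phi_approx {ι : Type*} (V : h80_ValFam F ι) (wF wV : ι) {n : ℕ} (hn : 0 < n)
    (hprim : ∃ ω : K, IsPrimitiveRoot ω n)
    (hroot : ∀ c : K, c ≠ 0 → V.v wF (algebraMap K F c) = 0 →
      ∃ b : K, b ≠ 0 ∧ h94_Vge V wF 1 (algebraMap K F (b ^ n - c)))
    (hconstV : ∀ c : K, c ≠ 0 → V.v wV (algebraMap K F c) = V.v wF (algebraMap K F c))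
    (π : K) (hπ0 : π ≠ 0) (hπ : V.v wF (algebraMap K F π) = 1)
    (Tu φ : F) (κ : K) (hκ : κ ≠ 0) (hφ0 : φ ≠ 0) (hTu : Tu = algebraMap K F κ * φ ^ n)
    (h1 : h94_Vge V wF 1 (Tu - 1)) (h2 : h94_Vge V wV 1 (Tu - 1)) :
    ∃ (j : ℤ) (f1 f2 : K), f1 ≠ 0 ∧ f2 ≠ 0 ∧ V.v wF (algebraMap K F f1) = 0 ∧
      V.v wF (algebraMap K F f2) = 0 ∧
      h94_Vge V wF 1 (φ / algebraMap K F π ^ j - algebraMap K F f1) ∧
      h94_Vge V wV 1 (φ / algebraMap K F π ^ j - algebraMap K F f2) := by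
  have ha0 : ∀ c : K, c ≠ 0 → algebraMap K F c ≠ 0 := fun c hc =>
    (map_ne_zero (algebraMap K F)).2 hc
  have hκF := ha0 κ hκ
  have hπF := ha0 π hπ0
  have hn' : (n : ℤ) ≠ 0 := by exact_mod_cast hn.ne'
  have hTu1 := (h94_v_eq_zero_of_cong V wF one_ne_zero (h80_v_one V wF) h1)
  have hTu2 := (h94_v_eq_zero_of_cong V wV one_ne_zero (h80_v_one V wV) h2)
  have e1 : V.v wF (algebraMap K F κ) + n * V.v wF φ = 0 := by
    have := hTu1.2
    rw [hTu, V.map_mul wF _ _ hκF (pow_ne_zero n hφ0), h80_v_pow V wF hφ0] at this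
    exact this
  have e2 : V.v wF (algebraMap K F κ) + n * V.v wV φ = 0 := by
    have := hTu2.2
    rw [hTu, V.map_mul wV _ _ hκF (pow_ne_zero n hφ0), h80_v_pow V wV hφ0, hconstV κ hκ] at this
    exact this
  have e3 : V.v wV φ = V.v wF φ := by
    have : (n : ℤ) * V.v wV φ = n * V.v wF φ := by omega
    exact mul_left_cancel₀ hn' this
  set j : ℤ := V.v wF φ with hj
  have hπV : V.v wV (algebraMap K F π) = 1 := by rw [hconstV π hπ0, hπ]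
  have hπj0 : algebraMap K F π ^ j ≠ 0 := zpow_ne_zero j hπF
  set φ' : F := φ / algebraMap K F π ^ j with hφ'
  have hφ'0 : φ' ≠ 0 := div_ne_zero hφ0 hπj0
  have hφ'F : V.v wF φ' = 0 := by
    rw [hφ', h80_v_div V wF hφ0 hπj0, h80_v_zpow V wF hπF, hπ]; omega
  have hφ'V : V.v wV φ' = 0 := by
    rw [hφ', h80_v_div V wV hφ0 hπj0, h80_v_zpow V wV hπF, hπV, e3]; omega
  -- the unit constant `κ' = κ (π ^ j) ^ n`
  set κ' : K := κ * (π ^ j) ^ n with hκ'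
  have hκ'0 : κ' ≠ 0 := mul_ne_zero hκ (pow_ne_zero n (zpow_ne_zero j hπ0))
  have hκ'F := ha0 κ' hκ'0
  have hT' : Tu = algebraMap K F κ' * φ' ^ n := by
    rw [hTu, hκ', hφ', map_mul, map_pow, map_zpow₀, div_pow]
    have h5 : (algebraMap K F π ^ j) ^ n ≠ 0 := pow_ne_zero n hπj0
    field_simp
  have hκ'v : V.v wF (algebraMap K F κ') = 0 := by
    have hv1 := hTu1.2
    rw [hT', V.map_mul wF _ _ hκ'F (pow_ne_zero n hφ'0), h80_v_pow V wF hφ'0, hφ'F, mul_zero,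
      add_zero] at hv1
    exact hv1
  have hκ'vV : V.v wV (algebraMap K F κ') = 0 := by rw [hconstV κ' hκ'0, hκ'v]
  obtain ⟨b, hb0, hb⟩ := hroot κ' hκ'0 hκ'v
  have hbF := ha0 b hb0
  have hbnF : algebraMap K F (b ^ n) ≠ 0 := ha0 _ (pow_ne_zero n hb0)
  have hbV : h94_Vge V wV 1 (algebraMap K F (b ^ n - κ')) := by
    by_cases hz : b ^ n - κ' = 0
    · left; rw [hz, map_zero]
    · right
      rw [hconstV _ hz]
      exact hb.resolve_left (ha0 _ hz)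
  have hbn : ∀ w : ι, V.v w (algebraMap K F κ') = 0 →
      h94_Vge V w 1 (algebraMap K F (b ^ n - κ')) → V.v w (algebraMap K F b) = 0 := by
    intro w hκw hw
    rw [map_sub] at hw
    have h3 := (h94_v_eq_zero_of_cong V w hκ'F hκw hw).2
    rw [map_pow, h80_v_pow V w hbF] at h3
    rcases mul_eq_zero.1 h3 with h4 | h4
    · exact absurd h4 hn'
    · exact h4
  have hbv := hbn wF hκ'v hb
  have hbvV := hbn wV hκ'vV hbV
  -- `(b φ') ^ n ≡ 1`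
  have hcong : ∀ w : ι, V.v w (algebraMap K F κ') = 0 → V.v w (algebraMap K F b) = 0 →
      h94_Vge V w 1 (algebraMap K F (b ^ n - κ')) → h94_Vge V w 1 (Tu - 1) →
      h94_Vge V w 1 ((algebraMap K F b * φ') ^ n - 1) := by
    intro w hκw hbw hw hT1
    have e5 : (algebraMap K F b * φ') ^ n - 1 =
        (algebraMap K F (b ^ n) * (Tu - 1) + algebraMap K F (b ^ n - κ')) / algebraMap K F κ' := by
      rw [hT', mul_pow, map_sub, map_pow]
      field_simp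
      ring
    rw [e5]
    have hbnw : V.v w (algebraMap K F (b ^ n)) = 0 := by
      rw [map_pow, h80_v_pow V w hbF, hbw, mul_zero]
    exact h94_vge_div_unit V w (h94_vge_add V w
      (h94_vge_mul_left V w hT1 (h94_vge_of_unit V w hbnw)) hw) hκ'F hκw
  have hc1 := hcong wF hκ'v hbv hb h1
  have hc2 := hcong wV hκ'vV hbvV hbV h2
  obtain ⟨ξ1, hξ1, hξ1c⟩ := h94_root_const V wF hn hprim _ hc1
  obtain ⟨ξ2, hξ2, hξ2c⟩ := h94_root_const V wV hn hprim _ hc2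
  have hξ10 : ξ1 ≠ 0 := by
    rintro rfl
    rw [zero_pow hn.ne'] at hξ1
    exact zero_ne_one hξ1
  have hξ20 : ξ2 ≠ 0 := by
    rintro rfl
    rw [zero_pow hn.ne'] at hξ2
    exact zero_ne_one hξ2
  have hξ1v : V.v wF (algebraMap K F ξ1) = 0 :=
    h94_v_root V wF hn.ne' (by rw [← map_pow, hξ1, map_one])
  have hξ2v : V.v wF (algebraMap K F ξ2) = 0 :=
    h94_v_root V wF hn.ne' (by rw [← map_pow, hξ2, map_one])
  refine ⟨j, ξ1 / b, ξ2 / b, div_ne_zero hξ10 hb0, div_ne_zero hξ20 hb0, ?_, ?_, ?_, ?_⟩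
  · rw [map_div₀, h80_v_div V wF (ha0 ξ1 hξ10) hbF, hξ1v, hbv]; rfl
  · rw [map_div₀, h80_v_div V wF (ha0 ξ2 hξ20) hbF, hξ2v, hbv]; rfl
  · have e : φ' - algebraMap K F (ξ1 / b) =
        (algebraMap K F b * φ' - algebraMap K F ξ1) / algebraMap K F b := by
      rw [map_div₀]; field_simp
    rw [e]
    exact h94_vge_div_unit V wF hξ1c hbF hbv
  · have e : φ' - algebraMap K F (ξ2 / b) =
        (algebraMap K F b * φ' - algebraMap K F ξ2) / algebraMap K F b := by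
      rw [map_div₀]; field_simp
    rw [e]
    exact h94_vge_div_unit V wV hξ2c hbF hbvV

/-- **The ratio is the same root of unity at all points, family form**: the valuation family
`V x` and the point `s x` depend on `x`; the valuation `wF x` is the plain function `w0`. -/
theorem h94_nz_ratio_const_fam (w0 : F → ℤ) {X : Type*} {ι : X → Type*}
    (V : ∀ x, h80_ValFam F (ι x)) (wF wV : ∀ x, ι x)
    (hw0 : ∀ x f, (V x).v (wF x) f = w0 f)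
    (s : ∀ x, Ideal (V x).B) [∀ x, (s x).IsPrime]
    (hF : ∀ x, (V x).Through (s x) (wF x)) (hV : ∀ x, (V x).Through (s x) (wV x))
    (hconst : ∀ x, ∀ c : K, c ≠ 0 → w0 (algebraMap K F c) = 0 →
      ∀ i, (V x).Through (s x) i → (V x).v i (algebraMap K F c) = 0)
    {n : ℕ} (hn : (n : F) ≠ 0) (hnv : w0 (n : F) = 0)
    (T : X → F) (φ : F) (hmem : ∀ x, (V x).InLoc (s x) (T x / φ))
    (f1 f2 : K) (hf1 : f1 ≠ 0) (hf2 : f2 ≠ 0)
    (hf1v : w0 (algebraMap K F f1) = 0) (hf2v : w0 (algebraMap K F f2) = 0)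
    (hφ1 : ∀ x, h94_Vge (V x) (wF x) 1 (φ - algebraMap K F f1))
    (hφ2 : ∀ x, h94_Vge (V x) (wV x) 1 (φ - algebraMap K F f2))
    (d1 d2 : X → K) (hd1 : ∀ x, d1 x ^ n = 1) (hd2 : ∀ x, d2 x ^ n = 1)
    (hT1 : ∀ x, h94_Vge (V x) (wF x) 1 (T x - algebraMap K F (d1 x)))
    (hT2 : ∀ x, h94_Vge (V x) (wV x) 1 (T x - algebraMap K F (d2 x))) :
    ∀ x x', d1 x * (d2 x)⁻¹ = d1 x' * (d2 x')⁻¹ := by
  have hn0 : n ≠ 0 := by
    rintro rfl
    exact hn (by simp)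
  have hne : ∀ (d : X → K), (∀ x, d x ^ n = 1) → ∀ x, d x ≠ 0 := by
    intro d hd x h0
    have := hd x
    rw [h0, zero_pow hn0] at this
    exact zero_ne_one this
  have hv : ∀ (d : X → K), (∀ x, d x ^ n = 1) → ∀ x y, (V y).v (wF y) (algebraMap K F (d x)) = 0 := by
    intro d hd x y
    exact h94_v_root (V y) (wF y) hn0 (by rw [← map_pow, hd x, map_one])
  have hcong : ∀ x, algebraMap K F (d1 x * (d2 x)⁻¹ - f1 * f2⁻¹) = 0 ∨
      1 ≤ w0 (algebraMap K F (d1 x * (d2 x)⁻¹ - f1 * f2⁻¹)) := by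
    intro x
    have h := h94_nz_node_ratio (V x) (s x) (wF x) (wV x) (hF x) (hV x)
      (fun c hc hcv i hi => hconst x c hc (by rw [← hw0 x]; exact hcv) i hi)
      (T x) φ (hmem x) f1 f2 (d1 x) (d2 x) hf1 hf2 (hne d1 hd1 x) (hne d2 hd2 x)
      (by rw [hw0]; exact hf1v) (by rw [hw0]; exact hf2v) (hv d1 hd1 x x) (hv d2 hd2 x x)
      (hφ1 x) (hφ2 x) (hT1 x) (hT2 x)
    unfold h94_Vge at h
    rw [hw0] at h
    exact h
  intro x x'
  have h1 : h94_Vge (V x) (wF x) 1 (algebraMap K F (d1 x * (d2 x)⁻¹ - f1 * f2⁻¹)) := by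
    unfold h94_Vge
    rw [hw0]
    exact hcong x
  have h2 : h94_Vge (V x) (wF x) 1 (algebraMap K F (d1 x' * (d2 x')⁻¹ - f1 * f2⁻¹)) := by
    unfold h94_Vge
    rw [hw0]
    exact hcong x'
  have h := h94_vge_sub (V x) (wF x) h1 h2
  rw [← map_sub] at h
  have e : d1 x * (d2 x)⁻¹ - f1 * f2⁻¹ - (d1 x' * (d2 x')⁻¹ - f1 * f2⁻¹) =
      d1 x * (d2 x)⁻¹ - d1 x' * (d2 x')⁻¹ := by ring
  rw [e, map_sub] at h
  have hr : ∀ y, (algebraMap K F (d1 y * (d2 y)⁻¹)) ^ n = 1 := by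
    intro y
    rw [← map_pow, mul_pow, inv_pow, hd1 y, hd2 y, inv_one, mul_one, map_one]
  exact (algebraMap K F).injective
    (h94_root_rigid (V x) (wF x) hn (by rw [hw0]; exact hnv) (hr x) (hr x') h)

/-- **NZ-D at the triple points, with no level-`q` family.**  `Mα, Mβ : F → F` are the norms
along the two degeneracy maps followed by the pull-backs; `u` the Kummer function of the class
(`u ≡ 1` on the three components, `Mα u = κα Φα ^ n`, `Mβ u = κβ Φβ ^ n`); `e x` local equations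
at the triple points `m x` (`u / e x ^ n` a unit of `B_(m x)`), glued by `(LOC)`.  The node
comparison is made at `m x` itself, between the branches `P x 0` and `P x 2`. -/
theorem h94_nz_triple_self (w : Fin 3 → F → ℤ) (a : Fin 3 → ℕ) (ha : ∀ k, 1 ≤ a k)
    {q n : ℕ} (hq : 1 ≤ q)
    {X : Type*} {ι : X → Type*} (V : ∀ x, h80_ValFam F (ι x)) (P : ∀ x, Fin 3 → ι x)
    (hw : ∀ x k f, (V x).v (P x k) f = w k f)
    (m : ∀ x, Ideal (V x).B) [∀ x, (m x).IsPrime]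
    (hP : ∀ x k, (V x).Through (m x) (P x k))
    (hconst : ∀ c : K, c ≠ 0 → w 0 (algebraMap K F c) = 0 →
      ∀ x i, (V x).Through (m x) i → (V x).v i (algebraMap K F c) = 0)
    (hn : (n : F) ≠ 0) (hnv : w 0 (n : F) = 0)
    (hroots : ∀ ξ : F, ξ ^ n = 1 → ∃ z : K, algebraMap K F z = ξ)
    (hprim : ∃ ω : K, IsPrimitiveRoot ω n)
    (hroot : ∀ c : K, c ≠ 0 → w 0 (algebraMap K F c) = 0 → ∃ b : K, b ≠ 0 ∧
      (algebraMap K F (b ^ n - c) = 0 ∨ 1 ≤ w 0 (algebraMap K F (b ^ n - c))))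
    (hw02 : ∀ c : K, c ≠ 0 → w 2 (algebraMap K F c) = w 0 (algebraMap K F c))
    (π : K) (hπ0 : π ≠ 0) (hπ : w 0 (algebraMap K F π) = 1)
    (Mα Mβ : F → F)
    (hMα : ∀ f g, Mα (f * g) = Mα f * Mα g) (hMα0 : ∀ f, f ≠ 0 → Mα f ≠ 0)
    (hMβ : ∀ f g, Mβ (f * g) = Mβ f * Mβ g) (hMβ0 : ∀ f, f ≠ 0 → Mβ f ≠ 0)
    (hMres : ∀ (g : F) (z : Fin 3 → K), (∀ k, z k ^ n = 1) →
      (∀ k, g - algebraMap K F (z k) = 0 ∨ 1 ≤ w k (g - algebraMap K F (z k))) →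
        (Mα g - algebraMap K F (z 0 * z 1 ^ (q - 1)) = 0 ∨
          1 ≤ w 0 (Mα g - algebraMap K F (z 0 * z 1 ^ (q - 1)))) ∧
        (Mα g - algebraMap K F (z 2 ^ q) = 0 ∨ 1 ≤ w 2 (Mα g - algebraMap K F (z 2 ^ q))) ∧
        (Mβ g - algebraMap K F (z 0 ^ q) = 0 ∨ 1 ≤ w 0 (Mβ g - algebraMap K F (z 0 ^ q))) ∧
        (Mβ g - algebraMap K F (z 1 ^ (q - 1) * z 2) = 0 ∨
          1 ≤ w 2 (Mβ g - algebraMap K F (z 1 ^ (q - 1) * z 2))))
    (hNU : ∀ x (y : F), y ≠ 0 → (V x).InLoc (m x) y → (V x).InLoc (m x) y⁻¹ →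
      (V x).InLoc (m x) (Mα y) ∧ (V x).InLoc (m x) (Mβ y))
    (u : F) (hu0 : u ≠ 0) (hu : ∀ k, u - 1 = 0 ∨ 1 ≤ w k (u - 1))
    (κα κβ : K) (hκα : κα ≠ 0) (hκβ : κβ ≠ 0) (Φα Φβ : F) (hΦα0 : Φα ≠ 0) (hΦβ0 : Φβ ≠ 0)
    (hTα : Mα u = algebraMap K F κα * Φα ^ n) (hTβ : Mβ u = algebraMap K F κβ * Φβ ^ n)
    (e : X → F) (he0 : ∀ x, e x ≠ 0)
    (hε : ∀ x, (V x).InLoc (m x) (u / e x ^ n) ∧ (V x).InLoc (m x) (e x ^ n / u))
    (hLOC : ∀ x, ∃ (ζ : Fin 3 → F) (y : F),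
      (∀ k, (V x).InLoc (m x) (ζ k) ∧ ζ k ^ n = 1) ∧
      y ≠ 0 ∧ (V x).InLoc (m x) y ∧ (V x).InLoc (m x) y⁻¹ ∧
      ∀ k, (e x = ζ k * y ∨ (a k : ℤ) ≤ (V x).v (P x k) (e x - ζ k * y))) :
    ∃ c1 c3 : K, c1 ^ n = 1 ∧ c3 ^ n = 1 ∧ ∀ Γ : F,
      (Γ - algebraMap K F c1 = 0 ∨ (a 0 : ℤ) ≤ w 0 (Γ - algebraMap K F c1)) →
      (Γ - 1 = 0 ∨ (a 1 : ℤ) ≤ w 1 (Γ - 1)) →
      (Γ - algebraMap K F c3 = 0 ∨ (a 2 : ℤ) ≤ w 2 (Γ - algebraMap K F c3)) →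
      ∀ x, ∃ y' : F, y' ≠ 0 ∧ (V x).InLoc (m x) y' ∧ (V x).InLoc (m x) y'⁻¹ ∧
        ∀ k, (e x ^ (q ^ 2 - 1) / Γ = y' ∨
          (a k : ℤ) ≤ (V x).v (P x k) (e x ^ (q ^ 2 - 1) / Γ - y')) := by
  classical
  have hn0 : n ≠ 0 := by
    rintro rfl
    exact hn (by simp)
  rcases isEmpty_or_nonempty X with hX | ⟨⟨x0⟩⟩
  · exact ⟨1, 1, one_pow n, one_pow n, fun Γ _ _ _ x => (hX.false x).elim⟩
  have hVge : ∀ x k (b : ℤ) (f : F), h94_Vge (V x) (P x k) b f ↔ (f = 0 ∨ b ≤ w k f) := by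
    intro x k b f
    unfold h94_Vge
    rw [hw]
  have ha0 : ∀ c : K, c ≠ 0 → algebraMap K F c ≠ 0 := fun c hc =>
    (map_ne_zero (algebraMap K F)).2 hc
  -- general facts on a multiplicative map
  have hM : ∀ (M : F → F), (∀ f g, M (f * g) = M f * M g) → (∀ f, f ≠ 0 → M f ≠ 0) →
      M 1 = 1 ∧ (∀ (f : F) (k : ℕ), M (f ^ k) = M f ^ k) ∧
      (∀ f g : F, g ≠ 0 → M (f / g) = M f / M g) := by
    intro M hmul hne
    have h1 : M 1 = 1 := by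
      have h := hmul 1 1
      rw [mul_one] at h
      have h0 := hne 1 one_ne_zero
      have h' : (1 : F) * M 1 = M 1 * M 1 := by rw [one_mul]; exact h
      exact (mul_right_cancel₀ h0 h').symm
    refine ⟨h1, ?_, ?_⟩
    · intro f k
      induction k with
      | zero => rw [pow_zero, pow_zero, h1]
      | succ k ih => rw [pow_succ, pow_succ, hmul, ih]
    · intro f g hg
      have h := hmul (f / g) g
      rw [div_mul_cancel₀ f hg] at h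
      rw [h, mul_div_assoc, div_self (hne g hg), mul_one]
  -- the data of one degeneracy map: normalisation of `Φ` and membership
  have key : ∀ (M : F → F), (∀ f g, M (f * g) = M f * M g) → (∀ f, f ≠ 0 → M f ≠ 0) →
      (∀ x (y : F), y ≠ 0 → (V x).InLoc (m x) y → (V x).InLoc (m x) y⁻¹ →
        (V x).InLoc (m x) (M y)) →
      (M u - 1 = 0 ∨ 1 ≤ w 0 (M u - 1)) → (M u - 1 = 0 ∨ 1 ≤ w 2 (M u - 1)) →
      ∀ (κ : K) (Φ : F), κ ≠ 0 → Φ ≠ 0 → M u = algebraMap K F κ * Φ ^ n →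
      ∃ (Φ' : F) (f1 f2 : K), f1 ≠ 0 ∧ f2 ≠ 0 ∧ w 0 (algebraMap K F f1) = 0 ∧
        w 0 (algebraMap K F f2) = 0 ∧
        (∀ x, h94_Vge (V x) (P x 0) 1 (Φ' - algebraMap K F f1)) ∧
        (∀ x, h94_Vge (V x) (P x 2) 1 (Φ' - algebraMap K F f2)) ∧
        ∀ x (y : F), y ≠ 0 → (V x).InLoc (m x) y → (V x).InLoc (m x) y⁻¹ →
          (V x).InLoc (m x) (M (e x / y) / Φ') := by
    intro M hmul hne hNUM hu1 hu2 κ Φ hκ hΦ0 hT
    obtain ⟨hM1, hMpow, hMdiv⟩ := hM M hmul hne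
    have hc1 : h94_Vge (V x0) (P x0 0) 1 (M u - 1) := (hVge x0 0 _ _).2 hu1
    have hc2 : h94_Vge (V x0) (P x0 2) 1 (M u - 1) := (hVge x0 2 _ _).2 hu2
    obtain ⟨j, f1, f2, hf1, hf2, hf1v, hf2v, hφ1, hφ2⟩ := h94_nz_phi_approx (V x0) (P x0 0)
      (P x0 2) (Nat.pos_of_ne_zero hn0) hprim
      (fun c hc h => by
        obtain ⟨b, hb0, hb⟩ := hroot c hc (by rw [← hw x0 0]; exact h)
        exact ⟨b, hb0, (hVge x0 0 _ _).2 hb⟩)
      (fun c hc => by rw [hw, hw]; exact hw02 c hc) π hπ0 (by rw [hw]; exact hπ)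
      (M u) Φ κ hκ hΦ0 hT hc1 hc2
    have hπF := ha0 π hπ0
    have hπj0 : algebraMap K F π ^ j ≠ 0 := zpow_ne_zero j hπF
    set Φ' : F := Φ / algebraMap K F π ^ j with hΦ'
    have hf1w : w 0 (algebraMap K F f1) = 0 := by rw [← hw x0 0]; exact hf1v
    have hf2w : w 0 (algebraMap K F f2) = 0 := by rw [← hw x0 0]; exact hf2v
    have hΦ'0 : Φ' ≠ 0 := div_ne_zero hΦ0 hπj0
    -- the unit constant `κ' = κ (π ^ j) ^ n`
    set κ' : K := κ * (π ^ j) ^ n with hκ'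
    have hκ'0 : κ' ≠ 0 := mul_ne_zero hκ (pow_ne_zero n (zpow_ne_zero j hπ0))
    have hT' : M u = algebraMap K F κ' * Φ' ^ n := by
      rw [hT, hκ', hΦ', map_mul, map_pow, map_zpow₀, div_pow]
      have h5 : (algebraMap K F π ^ j) ^ n ≠ 0 := pow_ne_zero n hπj0
      field_simp
    have hκ'v : w 0 (algebraMap K F κ') = 0 := by
      have hv1 := (h94_v_eq_zero_of_cong (V x0) (P x0 0) one_ne_zero
        (h80_v_one (V x0) (P x0 0)) hc1).2
      have hv2 := (h94_v_eq_zero_of_cong (V x0) (P x0 0) (ha0 f1 hf1) hf1v hφ1).2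
      rw [hT', (V x0).map_mul (P x0 0) _ _ (ha0 κ' hκ'0) (pow_ne_zero n hΦ'0),
        h80_v_pow (V x0) (P x0 0) hΦ'0, hv2, mul_zero, add_zero] at hv1
      rw [← hw x0 0]
      exact hv1
    refine ⟨Φ', f1, f2, hf1, hf2, hf1w, hf2w, fun x => (hVge x 0 _ _).2 ((hVge x0 0 _ _).1 hφ1),
      fun x => (hVge x 2 _ _).2 ((hVge x0 2 _ _).1 hφ2), fun x y hy0 hy hy' => ?_⟩
    -- membership: the `n`-th power is `κ' * M (unit)`
    apply h94_inLoc_of_pow (V x) (m x) hn0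
    have hMu0 : M u ≠ 0 := hne u hu0
    have hκ'F := ha0 κ' hκ'0
    have hyn0 : y ^ n ≠ 0 := pow_ne_zero n hy0
    have hen0 : e x ^ n ≠ 0 := pow_ne_zero n (he0 x)
    have e1 : (M (e x / y) / Φ') ^ n =
        algebraMap K F κ' * M (e x ^ n / u * y⁻¹ ^ n) := by
      have e2 : e x ^ n / u * y⁻¹ ^ n = (e x / y) ^ n / u := by
        rw [div_pow, inv_pow]
        field_simp
      rw [e2, hMdiv _ _ hu0, hMpow, div_pow, hT']
      have h6 : Φ' ^ n ≠ 0 := pow_ne_zero n hΦ'0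
      field_simp
    rw [e1]
    have hB := h94_Bm (V x) (m x)
    have hunit1 : (V x).InLoc (m x) (e x ^ n / u * y⁻¹ ^ n) :=
      (h94_Bm (V x) (m x)).mul_mem (hε x).2 ((h94_Bm (V x) (m x)).pow_mem hy' n)
    have hunit2 : (V x).InLoc (m x) (e x ^ n / u * y⁻¹ ^ n)⁻¹ := by
      have e3 : (e x ^ n / u * y⁻¹ ^ n)⁻¹ = u / e x ^ n * y ^ n := by
        rw [inv_pow]
        field_simp
      rw [e3]
      exact (h94_Bm (V x) (m x)).mul_mem (hε x).1 ((h94_Bm (V x) (m x)).pow_mem hy n)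
    have hunit0 : e x ^ n / u * y⁻¹ ^ n ≠ 0 :=
      mul_ne_zero (div_ne_zero hen0 hu0) (pow_ne_zero n (inv_ne_zero hy0))
    have h7 := hNUM x _ hunit0 hunit1 hunit2
    have h8 : (V x).InLoc (m x) (algebraMap K F κ') :=
      (h80_inLoc_of_through_zero (V x) (m x) hκ'F
        (fun i hi => hconst κ' hκ'0 hκ'v x i hi)).1
    exact (h94_Bm (V x) (m x)).mul_mem h8 h7
  -- the residues of `Mα u`, `Mβ u`
  have hres1 := hMres u (fun _ => 1) (fun _ => one_pow n)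
    (fun k => by rw [map_one]; exact hu k)
  simp only [one_pow, mul_one, map_one] at hres1
  obtain ⟨Φα', f1α, f2α, hf1α, hf2α, hf1αv, hf2αv, hφα1, hφα2, hmemα⟩ :=
    key Mα hMα hMα0 (fun x y hy0 hy hy' => (hNU x y hy0 hy hy').1) hres1.1 hres1.2.1
      κα Φα hκα hΦα0 hTα
  obtain ⟨Φβ', f1β, f2β, hf1β, hf2β, hf1βv, hf2βv, hφβ1, hφβ2, hmemβ⟩ :=
    key Mβ hMβ hMβ0 (fun x y hy0 hy hy' => (hNU x y hy0 hy hy').2) hres1.2.2.1 hres1.2.2.2
      κβ Φβ hκβ hΦβ0 hTβ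
  -- the gluing data
  choose ζ y hζ' hy0 hy hy' hglue using hLOC
  have hζ : ∀ x k, ζ x k ^ n = 1 := fun x k => (hζ' x k).2
  have hz : ∀ x k, ∃ z : K, algebraMap K F z = ζ x k := fun x k => hroots _ (hζ x k)
  choose z hzζ using hz
  have hzn : ∀ x k, z x k ^ n = 1 := by
    intro x k
    apply (algebraMap K F).injective
    rw [map_pow, hzζ, hζ x k, map_one]
  have hg : ∀ x k, e x / y x - algebraMap K F (z x k) = 0 ∨
      1 ≤ w k (e x / y x - algebraMap K F (z x k)) := by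
    intro x k
    rw [← hVge x k, hzζ]
    exact h94_vge_mono (V x) (P x k) (by exact_mod_cast ha k)
      (h94_vge_glue_div (V x) (P x k) (e x) (y x) (ζ x k) (hy0 x)
        (h80_through_eq_zero_of_unit (V x) (m x) (hy0 x) (hy x) (hy' x) (hP x k)) (hglue x k))
  have hT := fun x => hMres (e x / y x) (z x) (hzn x) (hg x)
  have hp : ∀ (c : K) (k : ℕ), c ^ n = 1 → (c ^ k) ^ n = 1 := by
    intro c k hc
    rw [← pow_mul, mul_comm, pow_mul, hc, one_pow]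
  have rα := h94_nz_ratio_const_fam (w 0) V (fun x => P x 0) (fun x => P x 2)
    (fun x f => hw x 0 f) m (fun x => hP x 0) (fun x => hP x 2)
    (fun x c hc hcv i hi => hconst c hc hcv x i hi) hn hnv
    (fun x => Mα (e x / y x)) Φα' (fun x => hmemα x (y x) (hy0 x) (hy x) (hy' x))
    f1α f2α hf1α hf2α hf1αv hf2αv hφα1 hφα2
    (fun x => z x 0 * z x 1 ^ (q - 1)) (fun x => z x 2 ^ q)
    (fun x => by rw [mul_pow, hp _ _ (hzn x 1), hzn x 0, mul_one])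
    (fun x => hp _ _ (hzn x 2))
    (fun x => (hVge x 0 _ _).2 (hT x).1) (fun x => (hVge x 2 _ _).2 (hT x).2.1)
  have rβ := h94_nz_ratio_const_fam (w 0) V (fun x => P x 0) (fun x => P x 2)
    (fun x f => hw x 0 f) m (fun x => hP x 0) (fun x => hP x 2)
    (fun x c hc hcv i hi => hconst c hc hcv x i hi) hn hnv
    (fun x => Mβ (e x / y x)) Φβ' (fun x => hmemβ x (y x) (hy0 x) (hy x) (hy' x))
    f1β f2β hf1β hf2β hf1βv hf2βv hφβ1 hφβ2
    (fun x => z x 0 ^ q) (fun x => z x 1 ^ (q - 1) * z x 2)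
    (fun x => hp _ _ (hzn x 0))
    (fun x => by rw [mul_pow, hp _ _ (hzn x 1), hzn x 2, mul_one])
    (fun x => (hVge x 0 _ _).2 (hT x).2.2.1) (fun x => (hVge x 2 _ _).2 (hT x).2.2.2)
  obtain ⟨c1, c3, hc1, hc3, hrel⟩ := h94_nz_const_of_ratio hq hn0 (fun x => z x 0)
    (fun x => z x 1) (fun x => z x 2) (fun x => hzn x 0) (fun x => hzn x 1) (fun x => hzn x 2)
    rα rβ
  refine ⟨c1, c3, hc1, hc3, fun Γ hΓ1 hΓ2 hΓ3 x => ?_⟩
  have hΓ2' : h94_Vge (V x) (P x 1) (a 1) (Γ - 1) := (hVge x 1 _ _).2 hΓ2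
  have hΓ0 : Γ ≠ 0 := (h94_v_eq_zero_of_cong (V x) (P x 1) one_ne_zero
    (h80_v_one (V x) (P x 1))
    (h94_vge_mono (V x) (P x 1) (by exact_mod_cast ha 1) hΓ2')).1
  set cc : Fin 3 → F := ![algebraMap K F c1, 1, algebraMap K F c3] with hccdef
  have hccn : ∀ k, cc k ^ n = 1 := by
    intro k
    fin_cases k
    · show (algebraMap K F c1) ^ n = 1
      rw [← map_pow, hc1, map_one]
    · show (1 : F) ^ n = 1
      exact one_pow n
    · show (algebraMap K F c3) ^ n = 1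
      rw [← map_pow, hc3, map_one]
  have hΓ : ∀ k, h94_Vge (V x) (P x k) (a k) (Γ - cc k) := by
    intro k
    fin_cases k
    · exact (hVge x 0 _ _).2 hΓ1
    · exact hΓ2'
    · exact (hVge x 2 _ _).2 hΓ3
  have hpow : ∀ k, ζ x k ^ (q ^ 2 - 1) = ζ x 1 ^ (q ^ 2 - 1) * cc k := by
    intro k
    fin_cases k
    · show ζ x 0 ^ (q ^ 2 - 1) = ζ x 1 ^ (q ^ 2 - 1) * algebraMap K F c1
      rw [← hzζ, ← hzζ, ← map_pow, ← map_pow, ← map_mul, (hrel x).1, mul_comm]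
    · show ζ x 1 ^ (q ^ 2 - 1) = ζ x 1 ^ (q ^ 2 - 1) * 1
      rw [mul_one]
    · show ζ x 2 ^ (q ^ 2 - 1) = ζ x 1 ^ (q ^ 2 - 1) * algebraMap K F c3
      rw [← hzζ, ← hzζ, ← map_pow, ← map_pow, ← map_mul, (hrel x).2, mul_comm]
  exact h94_nz_twist (V x) (m x) (P x) a (hP x) ha (e x) (y x) Γ (ζ x 1 ^ (q ^ 2 - 1)) (ζ x) cc
    (q ^ 2 - 1) hn0 (hy0 x) (hy x) (hy' x) (hζ x) hccn
    (by rw [← pow_mul, mul_comm, pow_mul, hζ x 1, one_pow]) hΓ0 (hglue x) hΓ hpow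

/-- **The NZ export at every closed point of every chart, with no level-`q` family.** -/
theorem h94_nz_charts_self (w : Fin 3 → F → ℤ) (a : Fin 3 → ℕ) (ha : ∀ k, 1 ≤ a k)
    {q n : ℕ} (hq : 1 ≤ q)
    {J : Type*} {ι : J → Type*} (V : ∀ j, h80_ValFam F (ι j)) (P : ∀ j, Fin 3 → ι j)
    (hw : ∀ j k f, (V j).v (P j k) f = w k f)
    (hclass : ∀ j (𝔪 : Ideal (V j).B), 𝔪.IsMaximal →
      (∀ k, (V j).Through 𝔪 (P j k)) ∨ ∃ k0, ∀ k, (V j).Through 𝔪 (P j k) → k = k0)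
    (hconst : ∀ c : K, c ≠ 0 → w 0 (algebraMap K F c) = 0 →
      ∀ j i, (V j).v i (algebraMap K F c) = 0)
    (hn : (n : F) ≠ 0) (hnv : w 0 (n : F) = 0)
    (hroots : ∀ ξ : F, ξ ^ n = 1 → ∃ z : K, algebraMap K F z = ξ)
    (hprim : ∃ ω : K, IsPrimitiveRoot ω n)
    (hroot : ∀ c : K, c ≠ 0 → w 0 (algebraMap K F c) = 0 → ∃ b : K, b ≠ 0 ∧
      (algebraMap K F (b ^ n - c) = 0 ∨ 1 ≤ w 0 (algebraMap K F (b ^ n - c))))
    (hw02 : ∀ c : K, c ≠ 0 → w 2 (algebraMap K F c) = w 0 (algebraMap K F c))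
    (π : K) (hπ0 : π ≠ 0) (hπ : w 0 (algebraMap K F π) = 1)
    (Mα Mβ : F → F)
    (hMα : ∀ f g, Mα (f * g) = Mα f * Mα g) (hMα0 : ∀ f, f ≠ 0 → Mα f ≠ 0)
    (hMβ : ∀ f g, Mβ (f * g) = Mβ f * Mβ g) (hMβ0 : ∀ f, f ≠ 0 → Mβ f ≠ 0)
    (hMres : ∀ (g : F) (z : Fin 3 → K), (∀ k, z k ^ n = 1) →
      (∀ k, g - algebraMap K F (z k) = 0 ∨ 1 ≤ w k (g - algebraMap K F (z k))) →
        (Mα g - algebraMap K F (z 0 * z 1 ^ (q - 1)) = 0 ∨
          1 ≤ w 0 (Mα g - algebraMap K F (z 0 * z 1 ^ (q - 1)))) ∧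
        (Mα g - algebraMap K F (z 2 ^ q) = 0 ∨ 1 ≤ w 2 (Mα g - algebraMap K F (z 2 ^ q))) ∧
        (Mβ g - algebraMap K F (z 0 ^ q) = 0 ∨ 1 ≤ w 0 (Mβ g - algebraMap K F (z 0 ^ q))) ∧
        (Mβ g - algebraMap K F (z 1 ^ (q - 1) * z 2) = 0 ∨
          1 ≤ w 2 (Mβ g - algebraMap K F (z 1 ^ (q - 1) * z 2))))
    (hNU : ∀ j (𝔪 : Ideal (V j).B), 𝔪.IsMaximal → (∀ k, (V j).Through 𝔪 (P j k)) →
      ∀ y : F, y ≠ 0 → (V j).InLoc 𝔪 y → (V j).InLoc 𝔪 y⁻¹ →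
        (V j).InLoc 𝔪 (Mα y) ∧ (V j).InLoc 𝔪 (Mβ y))
    (u : F) (hu0 : u ≠ 0) (hu : ∀ k, u - 1 = 0 ∨ 1 ≤ w k (u - 1))
    (κα κβ : K) (hκα : κα ≠ 0) (hκβ : κβ ≠ 0) (Φα Φβ : F) (hΦα0 : Φα ≠ 0) (hΦβ0 : Φβ ≠ 0)
    (hTα : Mα u = algebraMap K F κα * Φα ^ n) (hTβ : Mβ u = algebraMap K F κβ * Φβ ^ n)
    (e : ∀ j, Ideal (V j).B → F)
    (hε : ∀ j (𝔪 : Ideal (V j).B), 𝔪.IsMaximal → (∀ k, (V j).Through 𝔪 (P j k)) →
      e j 𝔪 ≠ 0 ∧ (V j).InLoc 𝔪 (u / e j 𝔪 ^ n) ∧ (V j).InLoc 𝔪 (e j 𝔪 ^ n / u))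
    (hLOC3 : ∀ j (𝔪 : Ideal (V j).B), 𝔪.IsMaximal → (∀ k, (V j).Through 𝔪 (P j k)) →
      ∃ (ζ : Fin 3 → F) (y : F), (∀ k, (V j).InLoc 𝔪 (ζ k) ∧ ζ k ^ n = 1) ∧
        y ≠ 0 ∧ (V j).InLoc 𝔪 y ∧ (V j).InLoc 𝔪 y⁻¹ ∧
        ∀ k, (e j 𝔪 = ζ k * y ∨ (a k : ℤ) ≤ (V j).v (P j k) (e j 𝔪 - ζ k * y)))
    (hLOC1 : ∀ j (𝔪 : Ideal (V j).B), 𝔪.IsMaximal → ∀ k0, (V j).Through 𝔪 (P j k0) →
      (∀ k, (V j).Through 𝔪 (P j k) → k = k0) →
      ∃ (ζ y : F), ζ ^ n = 1 ∧ y ≠ 0 ∧ (V j).InLoc 𝔪 y ∧ (V j).InLoc 𝔪 y⁻¹ ∧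
        (e j 𝔪 = ζ * y ∨ (a k0 : ℤ) ≤ (V j).v (P j k0) (e j 𝔪 - ζ * y))) :
    ∃ c1 c3 : K, c1 ^ n = 1 ∧ c3 ^ n = 1 ∧ ∀ Γ : F,
      (Γ - algebraMap K F c1 = 0 ∨ (a 0 : ℤ) ≤ w 0 (Γ - algebraMap K F c1)) →
      (Γ - 1 = 0 ∨ (a 1 : ℤ) ≤ w 1 (Γ - 1)) →
      (Γ - algebraMap K F c3 = 0 ∨ (a 2 : ℤ) ≤ w 2 (Γ - algebraMap K F c3)) →
      ∀ j (𝔪 : Ideal (V j).B), 𝔪.IsMaximal →
        ∃ y' : F, y' ≠ 0 ∧ (V j).InLoc 𝔪 y' ∧ (V j).InLoc 𝔪 y'⁻¹ ∧
          ∀ k, (V j).Through 𝔪 (P j k) → (e j 𝔪 ^ (q ^ 2 - 1) / Γ = y' ∨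
            (a k : ℤ) ≤ (V j).v (P j k) (e j 𝔪 ^ (q ^ 2 - 1) / Γ - y')) := by
  classical
  have hn0 : n ≠ 0 := by
    rintro rfl
    exact hn (by simp)
  let X : Type _ := Σ j, {𝔪 : Ideal (V j).B // 𝔪.IsMaximal ∧ ∀ k, (V j).Through 𝔪 (P j k)}
  have hmP : ∀ x : X, (x.2.1).IsPrime := fun x => x.2.2.1.isPrime
  obtain ⟨c1, c3, hc1, hc3, htriple⟩ := h94_nz_triple_self (K := K) w a ha hq
    (X := X) (ι := fun x => ι x.1) (fun x => V x.1) (fun x => P x.1)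
    (fun x k f => hw x.1 k f) (fun x => x.2.1) (fun x k => x.2.2.2 k)
    (fun c hc hcv x i _ => hconst c hc hcv x.1 i) hn hnv hroots hprim hroot hw02 π hπ0 hπ
    Mα Mβ hMα hMα0 hMβ hMβ0 hMres
    (fun x => hNU x.1 x.2.1 x.2.2.1 x.2.2.2) u hu0 hu κα κβ hκα hκβ Φα Φβ hΦα0 hΦβ0 hTα hTβ
    (fun x => e x.1 x.2.1) (fun x => (hε x.1 x.2.1 x.2.2.1 x.2.2.2).1)
    (fun x => (hε x.1 x.2.1 x.2.2.1 x.2.2.2).2)
    (fun x => hLOC3 x.1 x.2.1 x.2.2.1 x.2.2.2)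
  refine ⟨c1, c3, hc1, hc3, fun Γ hΓ1 hΓ2 hΓ3 j 𝔪 h𝔪 => ?_⟩
  have : 𝔪.IsPrime := h𝔪.isPrime
  rcases hclass j 𝔪 h𝔪 with h3 | ⟨k0, hk0⟩
  · obtain ⟨y', h1, h2, h3', h4⟩ := htriple Γ hΓ1 hΓ2 hΓ3 ⟨j, ⟨𝔪, h𝔪, h3⟩⟩
    exact ⟨y', h1, h2, h3', fun k _ => h4 k⟩
  · by_cases hthr : (V j).Through 𝔪 (P j k0)
    · obtain ⟨ζ, y, hζ, hy0, hy, hy', hglue⟩ := hLOC1 j 𝔪 h𝔪 k0 hthr hk0
      set cc : Fin 3 → F := ![algebraMap K F c1, 1, algebraMap K F c3] with hccdef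
      have hccn : ∀ k, cc k ^ n = 1 := by
        intro k
        fin_cases k
        · show (algebraMap K F c1) ^ n = 1
          rw [← map_pow, hc1, map_one]
        · show (1 : F) ^ n = 1
          exact one_pow n
        · show (algebraMap K F c3) ^ n = 1
          rw [← map_pow, hc3, map_one]
      have hΓ : ∀ k, h94_Vge (V j) (P j k) (a k) (Γ - cc k) := by
        intro k
        unfold h94_Vge
        rw [hw]
        fin_cases k
        · exact hΓ1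
        · exact hΓ2
        · exact hΓ3
      obtain ⟨y', h1, h2, h3', h4⟩ := h94_nz_single (V j) 𝔪 (P j k0) (a k0) hthr (ha k0)
        (e j 𝔪) y Γ ζ (cc k0) (q ^ 2 - 1) hn0 hy0 hy hy' hζ (hccn k0) hglue (hΓ k0)
      refine ⟨y', h1, h2, h3', fun k hk => ?_⟩
      rw [hk0 k hk]
      exact h4
    · refine ⟨1, one_ne_zero, ?_, ?_, fun k hk => absurd (hk0 k hk ▸ hk) hthr⟩
      · exact (h80_inLoc_of_through_zero (V j) 𝔪 one_ne_zero
          (fun i _ => h80_v_one (V j) i)).1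
      · rw [inv_one]
        exact (h80_inLoc_of_through_zero (V j) 𝔪 one_ne_zero
          (fun i _ => h80_v_one (V j) i)).1

end Self

end Fermat.Agent.S36
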