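import Mathlib
import Fermat.Agent.S36.h94_NZSelf
import Fermat.Agent.S36.h61_Asm

/-!
# S36 / row NZ: two charts, the twist `Γ`, and the binders `hnz1`, `hnz2` of row E (helper94)

* `h94_nz_two` : `h94_nz_charts_self` for two chart families `V1, V2` (explicitly, no index
  type of charts);
* `h94_twist_cong` : `u ≡ 1`, `Γ ≡ cc` with `cc ^ n = 1`  ⟹  `u ^ N / Γ ^ n ≡ 1`;
* `h94_hnz_two` : with `Γ` chosen by the Chinese remainder theorem: the `(LOC-δ)` data of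
  `h61_principal_of_loc` (binders `hnz1`, `hnz2`) for `Ez = (q² - 1) E4 - div Γ`, and the
  congruence `u ^ (q² - 1) / Γ ^ n ≡ 1`.
-/

set_option autoImplicit false
set_option linter.unusedSectionVars false
set_option linter.unusedVariables false

universe u

namespace Fermat.Agent.S36

open AlgebraicCurve

section Two

variable {F K : Type*} [Field F] [Field K] [Algebra K F]

/-- **The NZ export for two charts.** -/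
theorem h94_nz_two (w : Fin 3 → F → ℤ) (a : Fin 3 → ℕ) (ha : ∀ k, 1 ≤ a k)
    {q n : ℕ} (hq : 1 ≤ q)
    {ι1 ι2 : Type u} (V1 : h80_ValFam F ι1) (V2 : h80_ValFam F ι2)
    (P1 : Fin 3 → ι1) (P2 : Fin 3 → ι2)
    (hw1 : ∀ k f, V1.v (P1 k) f = w k f) (hw2 : ∀ k f, V2.v (P2 k) f = w k f)
    (hclass1 : ∀ 𝔪 : Ideal V1.B, 𝔪.IsMaximal →
      (∀ k, V1.Through 𝔪 (P1 k)) ∨ ∃ k0, ∀ k, V1.Through 𝔪 (P1 k) → k = k0)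
    (hclass2 : ∀ 𝔪 : Ideal V2.B, 𝔪.IsMaximal →
      (∀ k, V2.Through 𝔪 (P2 k)) ∨ ∃ k0, ∀ k, V2.Through 𝔪 (P2 k) → k = k0)
    (hconst1 : ∀ c : K, c ≠ 0 → w 0 (algebraMap K F c) = 0 →
      ∀ i, V1.v i (algebraMap K F c) = 0)
    (hconst2 : ∀ c : K, c ≠ 0 → w 0 (algebraMap K F c) = 0 →
      ∀ i, V2.v i (algebraMap K F c) = 0)
    (hn : (n : F) ≠ 0) (hnv : w 0 (n : F) = 0)
    (hroots : ∀ ξ : F, ξ ^ n = 1 → ∃ z : K, algebraMap K F z = ξ)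
    (hprim : ∃ ω : K, IsPrimitiveRoot ω n)
    (hroot : ∀ c : K, c ≠ 0 → w 0 (algebraMap K F c) = 0 → ∃ b : K, b ≠ 0 ∧
      (algebraMap K F (b ^ n - c) = 0 ∨ 1 ≤ w 0 (algebraMap K F (b ^ n - c))))
    (hw02 : ∀ c : K, c ≠ 0 → w 2 (algebraMap K F c) = w 0 (algebraMap K F c))
    (π : K) (hπ0 : π ≠ 0) (hπ : w 0 (algebraMap K F π) = 1)
    (Mα Mβ : F → F)
    (hMα : ∀ f g, Mα (f * g) = Mα f * Mα g) (hMα0 : ∀ f, f ≠ 0 → Mα f ≠ 0)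
    (hMβ : ∀ f g, Mβ (f * g) = Mβ f * Mβ g) (hMβ0 : ∀ f, f ≠ 0 → Mβ f ≠ 0)
    (hMres : ∀ (g : F) (z : Fin 3 → K), (∀ k, z k ^ n = 1) →
      (∀ k, g - algebraMap K F (z k) = 0 ∨ 1 ≤ w k (g - algebraMap K F (z k))) →
        (Mα g - algebraMap K F (z 0 * z 1 ^ (q - 1)) = 0 ∨
          1 ≤ w 0 (Mα g - algebraMap K F (z 0 * z 1 ^ (q - 1)))) ∧
        (Mα g - algebraMap K F (z 2 ^ q) = 0 ∨ 1 ≤ w 2 (Mα g - algebraMap K F (z 2 ^ q))) ∧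
        (Mβ g - algebraMap K F (z 0 ^ q) = 0 ∨ 1 ≤ w 0 (Mβ g - algebraMap K F (z 0 ^ q))) ∧
        (Mβ g - algebraMap K F (z 1 ^ (q - 1) * z 2) = 0 ∨
          1 ≤ w 2 (Mβ g - algebraMap K F (z 1 ^ (q - 1) * z 2))))
    (hNU1 : ∀ 𝔪 : Ideal V1.B, 𝔪.IsMaximal → (∀ k, V1.Through 𝔪 (P1 k)) →
      ∀ y : F, y ≠ 0 → V1.InLoc 𝔪 y → V1.InLoc 𝔪 y⁻¹ →
        V1.InLoc 𝔪 (Mα y) ∧ V1.InLoc 𝔪 (Mβ y))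
    (hNU2 : ∀ 𝔪 : Ideal V2.B, 𝔪.IsMaximal → (∀ k, V2.Through 𝔪 (P2 k)) →
      ∀ y : F, y ≠ 0 → V2.InLoc 𝔪 y → V2.InLoc 𝔪 y⁻¹ →
        V2.InLoc 𝔪 (Mα y) ∧ V2.InLoc 𝔪 (Mβ y))
    (u : F) (hu0 : u ≠ 0) (hu : ∀ k, u - 1 = 0 ∨ 1 ≤ w k (u - 1))
    (κα κβ : K) (hκα : κα ≠ 0) (hκβ : κβ ≠ 0) (Φα Φβ : F) (hΦα0 : Φα ≠ 0) (hΦβ0 : Φβ ≠ 0)
    (hTα : Mα u = algebraMap K F κα * Φα ^ n) (hTβ : Mβ u = algebraMap K F κβ * Φβ ^ n)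
    (e1 : Ideal V1.B → F) (e2 : Ideal V2.B → F)
    (hε1 : ∀ 𝔪 : Ideal V1.B, 𝔪.IsMaximal → (∀ k, V1.Through 𝔪 (P1 k)) →
      e1 𝔪 ≠ 0 ∧ V1.InLoc 𝔪 (u / e1 𝔪 ^ n) ∧ V1.InLoc 𝔪 (e1 𝔪 ^ n / u))
    (hε2 : ∀ 𝔪 : Ideal V2.B, 𝔪.IsMaximal → (∀ k, V2.Through 𝔪 (P2 k)) →
      e2 𝔪 ≠ 0 ∧ V2.InLoc 𝔪 (u / e2 𝔪 ^ n) ∧ V2.InLoc 𝔪 (e2 𝔪 ^ n / u))
    (hLOC3_1 : ∀ 𝔪 : Ideal V1.B, 𝔪.IsMaximal → (∀ k, V1.Through 𝔪 (P1 k)) →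
      ∃ (ζ : Fin 3 → F) (y : F), (∀ k, V1.InLoc 𝔪 (ζ k) ∧ ζ k ^ n = 1) ∧
        y ≠ 0 ∧ V1.InLoc 𝔪 y ∧ V1.InLoc 𝔪 y⁻¹ ∧
        ∀ k, (e1 𝔪 = ζ k * y ∨ (a k : ℤ) ≤ V1.v (P1 k) (e1 𝔪 - ζ k * y)))
    (hLOC3_2 : ∀ 𝔪 : Ideal V2.B, 𝔪.IsMaximal → (∀ k, V2.Through 𝔪 (P2 k)) →
      ∃ (ζ : Fin 3 → F) (y : F), (∀ k, V2.InLoc 𝔪 (ζ k) ∧ ζ k ^ n = 1) ∧
        y ≠ 0 ∧ V2.InLoc 𝔪 y ∧ V2.InLoc 𝔪 y⁻¹ ∧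
        ∀ k, (e2 𝔪 = ζ k * y ∨ (a k : ℤ) ≤ V2.v (P2 k) (e2 𝔪 - ζ k * y)))
    (hLOC1_1 : ∀ 𝔪 : Ideal V1.B, 𝔪.IsMaximal → ∀ k0, V1.Through 𝔪 (P1 k0) →
      (∀ k, V1.Through 𝔪 (P1 k) → k = k0) →
      ∃ (ζ y : F), ζ ^ n = 1 ∧ y ≠ 0 ∧ V1.InLoc 𝔪 y ∧ V1.InLoc 𝔪 y⁻¹ ∧
        (e1 𝔪 = ζ * y ∨ (a k0 : ℤ) ≤ V1.v (P1 k0) (e1 𝔪 - ζ * y)))
    (hLOC1_2 : ∀ 𝔪 : Ideal V2.B, 𝔪.IsMaximal → ∀ k0, V2.Through 𝔪 (P2 k0) →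
      (∀ k, V2.Through 𝔪 (P2 k) → k = k0) →
      ∃ (ζ y : F), ζ ^ n = 1 ∧ y ≠ 0 ∧ V2.InLoc 𝔪 y ∧ V2.InLoc 𝔪 y⁻¹ ∧
        (e2 𝔪 = ζ * y ∨ (a k0 : ℤ) ≤ V2.v (P2 k0) (e2 𝔪 - ζ * y))) :
    ∃ c1 c3 : K, c1 ^ n = 1 ∧ c3 ^ n = 1 ∧ ∀ Γ : F,
      (Γ - algebraMap K F c1 = 0 ∨ (a 0 : ℤ) ≤ w 0 (Γ - algebraMap K F c1)) →
      (Γ - 1 = 0 ∨ (a 1 : ℤ) ≤ w 1 (Γ - 1)) →
      (Γ - algebraMap K F c3 = 0 ∨ (a 2 : ℤ) ≤ w 2 (Γ - algebraMap K F c3)) →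
      (∀ 𝔪 : Ideal V1.B, 𝔪.IsMaximal →
        ∃ y' : F, y' ≠ 0 ∧ V1.InLoc 𝔪 y' ∧ V1.InLoc 𝔪 y'⁻¹ ∧
          ∀ k, V1.Through 𝔪 (P1 k) → (e1 𝔪 ^ (q ^ 2 - 1) / Γ = y' ∨
            (a k : ℤ) ≤ V1.v (P1 k) (e1 𝔪 ^ (q ^ 2 - 1) / Γ - y'))) ∧
      (∀ 𝔪 : Ideal V2.B, 𝔪.IsMaximal →
        ∃ y' : F, y' ≠ 0 ∧ V2.InLoc 𝔪 y' ∧ V2.InLoc 𝔪 y'⁻¹ ∧
          ∀ k, V2.Through 𝔪 (P2 k) → (e2 𝔪 ^ (q ^ 2 - 1) / Γ = y' ∨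
            (a k : ℤ) ≤ V2.v (P2 k) (e2 𝔪 ^ (q ^ 2 - 1) / Γ - y'))) := by
  classical
  let ι : Bool → Type u := fun b => cond b ι1 ι2
  let V : ∀ b, h80_ValFam F (ι b) := fun b =>
    Bool.rec (motive := fun b => h80_ValFam F (ι b)) V2 V1 b
  let P : ∀ b, Fin 3 → ι b := fun b => Bool.rec (motive := fun b => Fin 3 → ι b) P2 P1 b
  let e : ∀ b, Ideal (V b).B → F := fun b =>
    Bool.rec (motive := fun b => Ideal (V b).B → F) e2 e1 b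
  obtain ⟨c1, c3, hc1, hc3, h⟩ := h94_nz_charts_self (K := K) w a ha hq (J := Bool) (ι := ι) V P
    (fun j => Bool.rec (motive := fun j => ∀ k f, (V j).v (P j k) f = w k f) hw2 hw1 j)
    (fun j => Bool.rec (motive := fun j => ∀ 𝔪 : Ideal (V j).B, 𝔪.IsMaximal →
      (∀ k, (V j).Through 𝔪 (P j k)) ∨ ∃ k0, ∀ k, (V j).Through 𝔪 (P j k) → k = k0)
      hclass2 hclass1 j)
    (fun c hc hcv j => Bool.rec (motive := fun j => ∀ i, (V j).v i (algebraMap K F c) = 0)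
      (hconst2 c hc hcv) (hconst1 c hc hcv) j)
    hn hnv hroots hprim hroot hw02 π hπ0 hπ Mα Mβ hMα hMα0 hMβ hMβ0 hMres
    (fun j => Bool.rec (motive := fun j => ∀ 𝔪 : Ideal (V j).B, 𝔪.IsMaximal →
      (∀ k, (V j).Through 𝔪 (P j k)) → ∀ y : F, y ≠ 0 → (V j).InLoc 𝔪 y → (V j).InLoc 𝔪 y⁻¹ →
        (V j).InLoc 𝔪 (Mα y) ∧ (V j).InLoc 𝔪 (Mβ y)) hNU2 hNU1 j)
    u hu0 hu κα κβ hκα hκβ Φα Φβ hΦα0 hΦβ0 hTα hTβ e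
    (fun j => Bool.rec (motive := fun j => ∀ 𝔪 : Ideal (V j).B, 𝔪.IsMaximal →
      (∀ k, (V j).Through 𝔪 (P j k)) →
      e j 𝔪 ≠ 0 ∧ (V j).InLoc 𝔪 (u / e j 𝔪 ^ n) ∧ (V j).InLoc 𝔪 (e j 𝔪 ^ n / u)) hε2 hε1 j)
    (fun j => Bool.rec (motive := fun j => ∀ 𝔪 : Ideal (V j).B, 𝔪.IsMaximal →
      (∀ k, (V j).Through 𝔪 (P j k)) →
      ∃ (ζ : Fin 3 → F) (y : F), (∀ k, (V j).InLoc 𝔪 (ζ k) ∧ ζ k ^ n = 1) ∧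
        y ≠ 0 ∧ (V j).InLoc 𝔪 y ∧ (V j).InLoc 𝔪 y⁻¹ ∧
        ∀ k, (e j 𝔪 = ζ k * y ∨ (a k : ℤ) ≤ (V j).v (P j k) (e j 𝔪 - ζ k * y)))
      hLOC3_2 hLOC3_1 j)
    (fun j => Bool.rec (motive := fun j => ∀ 𝔪 : Ideal (V j).B, 𝔪.IsMaximal →
      ∀ k0, (V j).Through 𝔪 (P j k0) → (∀ k, (V j).Through 𝔪 (P j k) → k = k0) →
      ∃ (ζ y : F), ζ ^ n = 1 ∧ y ≠ 0 ∧ (V j).InLoc 𝔪 y ∧ (V j).InLoc 𝔪 y⁻¹ ∧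
        (e j 𝔪 = ζ * y ∨ (a k0 : ℤ) ≤ (V j).v (P j k0) (e j 𝔪 - ζ * y)))
      hLOC1_2 hLOC1_1 j)
  exact ⟨c1, c3, hc1, hc3, fun Γ h1 h2 h3 => ⟨h Γ h1 h2 h3 true, h Γ h1 h2 h3 false⟩⟩

end Two

section Twist

variable {F : Type*} [Field F] {ι : Type*} (V : h80_ValFam F ι)

/-- `u ≡ 1` and `Γ ≡ cc` modulo `p ^ a` with `cc ^ n = 1`  ⟹  `u ^ N / Γ ^ n ≡ 1`. -/
theorem h94_twist_cong (i : ι) {a : ℤ} (ha : 1 ≤ a) (u Γ cc : F) (N : ℕ) {n : ℕ} (hn : n ≠ 0)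
    (hcc : cc ^ n = 1) (hu : h94_Vge V i a (u - 1)) (hΓ : h94_Vge V i a (Γ - cc)) :
    h94_Vge V i a (u ^ N / Γ ^ n - 1) := by
  have hcc0 : cc ≠ 0 := by
    rintro rfl
    rw [zero_pow hn] at hcc
    exact zero_ne_one hcc
  have hccv := h94_v_root V i hn hcc
  obtain ⟨hΓ0, hΓv⟩ := h94_v_eq_zero_of_cong V i hcc0 hccv (h94_vge_mono V i ha hΓ)
  obtain ⟨hu0, huv⟩ := h94_v_eq_zero_of_cong V i one_ne_zero (h80_v_one V i)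
    (h94_vge_mono V i ha hu)
  have h1 : h94_Vge V i a (u ^ N - 1 ^ N) :=
    h94_vge_pow_sub_pow V i (h94_vge_of_unit V i huv) (h94_vge_of_unit V i (h80_v_one V i)) hu N
  have h2 : h94_Vge V i a (Γ ^ n - cc ^ n) :=
    h94_vge_pow_sub_pow V i (h94_vge_of_unit V i hΓv) (h94_vge_of_unit V i hccv) hΓ n
  rw [one_pow] at h1
  rw [hcc] at h2
  have hΓn0 : Γ ^ n ≠ 0 := pow_ne_zero n hΓ0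
  have e1 : u ^ N / Γ ^ n - 1 = ((u ^ N - 1) - (Γ ^ n - 1)) / Γ ^ n := by
    field_simp
    ring
  rw [e1]
  refine h94_vge_div_unit V i (h94_vge_sub V i h1 h2) hΓn0 ?_
  rw [h80_v_pow V i hΓ0, hΓv, mul_zero]

end Twist

section Hnz

variable {Kc Fc : Type*} [Field Kc] [Field Fc] [Algebra Kc Fc]
variable {F K : Type*} [Field F] [Field K] [Algebra K F]

/-- **NZ-M, generic form: the binders `hnz1`, `hnz2` of `h61_principal_of_loc`.**  On top of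
`h94_nz_two`: `hCRT` provides `Γ`; `ψ : F →+* Fc` is the inclusion of the carrier; the local
equations `e1 𝔪`, `e2 𝔪` have the horizontal orders of the divisor `E4`.  For
`Ez = (q² - 1) E4 - div Γ` the `(LOC-δ)` data exist at every maximal ideal of both charts, and
`u ^ (q² - 1) / Γ ^ n ≡ 1` on the three components. -/
theorem h94_hnz_two (ψ : F →+* Fc) (E4 : Divisor Kc Fc)
    (w : Fin 3 → F → ℤ) (a : Fin 3 → ℕ) (ha : ∀ k, 1 ≤ a k)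
    {q n : ℕ} (hq : 1 ≤ q)
    {ι1 ι2 : Type u} (V1 : h80_ValFam F ι1) (V2 : h80_ValFam F ι2)
    (P1 : Fin 3 → ι1) (P2 : Fin 3 → ι2)
    (hw1 : ∀ k f, V1.v (P1 k) f = w k f) (hw2 : ∀ k f, V2.v (P2 k) f = w k f)
    (vert1 : Set ι1) (av1 : ι1 → ℕ) (hvert1 : ∀ C ∈ vert1, ∃ k, C = P1 k)
    (hav1 : ∀ k, av1 (P1 k) = a k)
    (vert2 : Set ι2) (av2 : ι2 → ℕ) (hvert2 : ∀ C ∈ vert2, ∃ k, C = P2 k)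
    (hav2 : ∀ k, av2 (P2 k) = a k)
    (hCRT : ∀ t : Fin 3 → F, (∀ c, t c ≠ 0) → ∀ N : ℤ,
      ∃ g : F, g ≠ 0 ∧ ∀ c, (g - t c = 0 ∨ N ≤ w c (g - t c)))
    (hclass1 : ∀ 𝔪 : Ideal V1.B, 𝔪.IsMaximal →
      (∀ k, V1.Through 𝔪 (P1 k)) ∨ ∃ k0, ∀ k, V1.Through 𝔪 (P1 k) → k = k0)
    (hclass2 : ∀ 𝔪 : Ideal V2.B, 𝔪.IsMaximal →
      (∀ k, V2.Through 𝔪 (P2 k)) ∨ ∃ k0, ∀ k, V2.Through 𝔪 (P2 k) → k = k0)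
    (hconst1 : ∀ c : K, c ≠ 0 → w 0 (algebraMap K F c) = 0 →
      ∀ i, V1.v i (algebraMap K F c) = 0)
    (hconst2 : ∀ c : K, c ≠ 0 → w 0 (algebraMap K F c) = 0 →
      ∀ i, V2.v i (algebraMap K F c) = 0)
    (hn : (n : F) ≠ 0) (hnv : w 0 (n : F) = 0)
    (hroots : ∀ ξ : F, ξ ^ n = 1 → ∃ z : K, algebraMap K F z = ξ)
    (hprim : ∃ ω : K, IsPrimitiveRoot ω n)
    (hroot : ∀ c : K, c ≠ 0 → w 0 (algebraMap K F c) = 0 → ∃ b : K, b ≠ 0 ∧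
      (algebraMap K F (b ^ n - c) = 0 ∨ 1 ≤ w 0 (algebraMap K F (b ^ n - c))))
    (hw02 : ∀ c : K, c ≠ 0 → w 2 (algebraMap K F c) = w 0 (algebraMap K F c))
    (π : K) (hπ0 : π ≠ 0) (hπ : w 0 (algebraMap K F π) = 1)
    (Mα Mβ : F → F)
    (hMα : ∀ f g, Mα (f * g) = Mα f * Mα g) (hMα0 : ∀ f, f ≠ 0 → Mα f ≠ 0)
    (hMβ : ∀ f g, Mβ (f * g) = Mβ f * Mβ g) (hMβ0 : ∀ f, f ≠ 0 → Mβ f ≠ 0)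
    (hMres : ∀ (g : F) (z : Fin 3 → K), (∀ k, z k ^ n = 1) →
      (∀ k, g - algebraMap K F (z k) = 0 ∨ 1 ≤ w k (g - algebraMap K F (z k))) →
        (Mα g - algebraMap K F (z 0 * z 1 ^ (q - 1)) = 0 ∨
          1 ≤ w 0 (Mα g - algebraMap K F (z 0 * z 1 ^ (q - 1)))) ∧
        (Mα g - algebraMap K F (z 2 ^ q) = 0 ∨ 1 ≤ w 2 (Mα g - algebraMap K F (z 2 ^ q))) ∧
        (Mβ g - algebraMap K F (z 0 ^ q) = 0 ∨ 1 ≤ w 0 (Mβ g - algebraMap K F (z 0 ^ q))) ∧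
        (Mβ g - algebraMap K F (z 1 ^ (q - 1) * z 2) = 0 ∨
          1 ≤ w 2 (Mβ g - algebraMap K F (z 1 ^ (q - 1) * z 2))))
    (hNU1 : ∀ 𝔪 : Ideal V1.B, 𝔪.IsMaximal → (∀ k, V1.Through 𝔪 (P1 k)) →
      ∀ y : F, y ≠ 0 → V1.InLoc 𝔪 y → V1.InLoc 𝔪 y⁻¹ →
        V1.InLoc 𝔪 (Mα y) ∧ V1.InLoc 𝔪 (Mβ y))
    (hNU2 : ∀ 𝔪 : Ideal V2.B, 𝔪.IsMaximal → (∀ k, V2.Through 𝔪 (P2 k)) →
      ∀ y : F, y ≠ 0 → V2.InLoc 𝔪 y → V2.InLoc 𝔪 y⁻¹ →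
        V2.InLoc 𝔪 (Mα y) ∧ V2.InLoc 𝔪 (Mβ y))
    (u : F) (hu0 : u ≠ 0) (hu : ∀ k, u - 1 = 0 ∨ (a k : ℤ) ≤ w k (u - 1))
    (κα κβ : K) (hκα : κα ≠ 0) (hκβ : κβ ≠ 0) (Φα Φβ : F) (hΦα0 : Φα ≠ 0) (hΦβ0 : Φβ ≠ 0)
    (hTα : Mα u = algebraMap K F κα * Φα ^ n) (hTβ : Mβ u = algebraMap K F κβ * Φβ ^ n)
    (e1 : Ideal V1.B → F) (e2 : Ideal V2.B → F)
    (he1 : ∀ 𝔪 : Ideal V1.B, 𝔪.IsMaximal → e1 𝔪 ≠ 0 ∧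
      ∀ i, i ∉ vert1 → V1.Through 𝔪 i → ∀ Pl : Place Kc Fc,
        (∀ f : F, f ≠ 0 → V1.v i f = Pl.ord (ψ f)) → V1.v i (e1 𝔪) = E4 Pl)
    (he2 : ∀ 𝔪 : Ideal V2.B, 𝔪.IsMaximal → e2 𝔪 ≠ 0 ∧
      ∀ i, i ∉ vert2 → V2.Through 𝔪 i → ∀ Pl : Place Kc Fc,
        (∀ f : F, f ≠ 0 → V2.v i f = Pl.ord (ψ f)) → V2.v i (e2 𝔪) = E4 Pl)
    (hε1 : ∀ 𝔪 : Ideal V1.B, 𝔪.IsMaximal → (∀ k, V1.Through 𝔪 (P1 k)) →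
      V1.InLoc 𝔪 (u / e1 𝔪 ^ n) ∧ V1.InLoc 𝔪 (e1 𝔪 ^ n / u))
    (hε2 : ∀ 𝔪 : Ideal V2.B, 𝔪.IsMaximal → (∀ k, V2.Through 𝔪 (P2 k)) →
      V2.InLoc 𝔪 (u / e2 𝔪 ^ n) ∧ V2.InLoc 𝔪 (e2 𝔪 ^ n / u))
    (hLOC3_1 : ∀ 𝔪 : Ideal V1.B, 𝔪.IsMaximal → (∀ k, V1.Through 𝔪 (P1 k)) →
      ∃ (ζ : Fin 3 → F) (y : F), (∀ k, V1.InLoc 𝔪 (ζ k) ∧ ζ k ^ n = 1) ∧
        y ≠ 0 ∧ V1.InLoc 𝔪 y ∧ V1.InLoc 𝔪 y⁻¹ ∧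
        ∀ k, (e1 𝔪 = ζ k * y ∨ (a k : ℤ) ≤ V1.v (P1 k) (e1 𝔪 - ζ k * y)))
    (hLOC3_2 : ∀ 𝔪 : Ideal V2.B, 𝔪.IsMaximal → (∀ k, V2.Through 𝔪 (P2 k)) →
      ∃ (ζ : Fin 3 → F) (y : F), (∀ k, V2.InLoc 𝔪 (ζ k) ∧ ζ k ^ n = 1) ∧
        y ≠ 0 ∧ V2.InLoc 𝔪 y ∧ V2.InLoc 𝔪 y⁻¹ ∧
        ∀ k, (e2 𝔪 = ζ k * y ∨ (a k : ℤ) ≤ V2.v (P2 k) (e2 𝔪 - ζ k * y)))
    (hLOC1_1 : ∀ 𝔪 : Ideal V1.B, 𝔪.IsMaximal → ∀ k0, V1.Through 𝔪 (P1 k0) →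
      (∀ k, V1.Through 𝔪 (P1 k) → k = k0) →
      ∃ (ζ y : F), ζ ^ n = 1 ∧ y ≠ 0 ∧ V1.InLoc 𝔪 y ∧ V1.InLoc 𝔪 y⁻¹ ∧
        (e1 𝔪 = ζ * y ∨ (a k0 : ℤ) ≤ V1.v (P1 k0) (e1 𝔪 - ζ * y)))
    (hLOC1_2 : ∀ 𝔪 : Ideal V2.B, 𝔪.IsMaximal → ∀ k0, V2.Through 𝔪 (P2 k0) →
      (∀ k, V2.Through 𝔪 (P2 k) → k = k0) →
      ∃ (ζ y : F), ζ ^ n = 1 ∧ y ≠ 0 ∧ V2.InLoc 𝔪 y ∧ V2.InLoc 𝔪 y⁻¹ ∧
        (e2 𝔪 = ζ * y ∨ (a k0 : ℤ) ≤ V2.v (P2 k0) (e2 𝔪 - ζ * y))) :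
    ∃ Γ : F, Γ ≠ 0 ∧
      (∀ k, u ^ (q ^ 2 - 1) / Γ ^ n - 1 = 0 ∨ (a k : ℤ) ≤ w k (u ^ (q ^ 2 - 1) / Γ ^ n - 1)) ∧
      ∀ Ez : Divisor Kc Fc,
        (∀ Pl : Place Kc Fc, Ez Pl = ((q ^ 2 - 1 : ℕ) : ℤ) * E4 Pl - Pl.ord (ψ Γ)) →
        (∀ 𝔪 : Ideal V1.B, 𝔪.IsMaximal →
          ∃ e y : F, e ≠ 0 ∧ y ≠ 0 ∧ V1.InLoc 𝔪 y ∧ V1.InLoc 𝔪 y⁻¹ ∧
            (∀ i, i ∉ vert1 → V1.Through 𝔪 i → ∀ Pl : Place Kc Fc,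
              (∀ f : F, f ≠ 0 → V1.v i f = Pl.ord (ψ f)) → V1.v i e = Ez Pl) ∧
            ∀ C ∈ vert1, V1.Through 𝔪 C → (e = y ∨ (av1 C : ℤ) ≤ V1.v C (e - y))) ∧
        (∀ 𝔪 : Ideal V2.B, 𝔪.IsMaximal →
          ∃ e y : F, e ≠ 0 ∧ y ≠ 0 ∧ V2.InLoc 𝔪 y ∧ V2.InLoc 𝔪 y⁻¹ ∧
            (∀ i, i ∉ vert2 → V2.Through 𝔪 i → ∀ Pl : Place Kc Fc,
              (∀ f : F, f ≠ 0 → V2.v i f = Pl.ord (ψ f)) → V2.v i e = Ez Pl) ∧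
            ∀ C ∈ vert2, V2.Through 𝔪 C → (e = y ∨ (av2 C : ℤ) ≤ V2.v C (e - y))) := by
  classical
  have hn0 : n ≠ 0 := by
    rintro rfl
    exact hn (by simp)
  have hu1 : ∀ k, u - 1 = 0 ∨ 1 ≤ w k (u - 1) := by
    intro k
    rcases hu k with h | h
    · exact Or.inl h
    · right
      have : (1 : ℤ) ≤ a k := by exact_mod_cast ha k
      omega
  obtain ⟨c1, c3, hc1, hc3, hcore⟩ := h94_nz_two (K := K) w a ha hq V1 V2 P1 P2 hw1 hw2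
    hclass1 hclass2 hconst1 hconst2 hn hnv hroots hprim hroot hw02 π hπ0 hπ Mα Mβ hMα hMα0
    hMβ hMβ0 hMres hNU1 hNU2 u hu0 hu1 κα κβ hκα hκβ Φα Φβ hΦα0 hΦβ0 hTα hTβ e1 e2
    (fun 𝔪 h𝔪 h3 => ⟨(he1 𝔪 h𝔪).1, hε1 𝔪 h𝔪 h3⟩) (fun 𝔪 h𝔪 h3 => ⟨(he2 𝔪 h𝔪).1, hε2 𝔪 h𝔪 h3⟩)
    hLOC3_1 hLOC3_2 hLOC1_1 hLOC1_2
  -- the constants `cc k` and `Γ`
  have hr0 : ∀ c : K, c ^ n = 1 → algebraMap K F c ≠ 0 := by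
    intro c hc h0
    have h1 : c = 0 := (map_eq_zero (algebraMap K F)).1 h0
    rw [h1, zero_pow hn0] at hc
    exact zero_ne_one hc
  set cc : Fin 3 → F := ![algebraMap K F c1, 1, algebraMap K F c3] with hccdef
  have hcc0 : ∀ k, cc k ≠ 0 := by
    intro k
    fin_cases k
    · exact hr0 c1 hc1
    · exact one_ne_zero
    · exact hr0 c3 hc3
  have hccn : ∀ k, cc k ^ n = 1 := by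
    intro k
    fin_cases k
    · show (algebraMap K F c1) ^ n = 1
      rw [← map_pow, hc1, map_one]
    · show (1 : F) ^ n = 1
      exact one_pow n
    · show (algebraMap K F c3) ^ n = 1
      rw [← map_pow, hc3, map_one]
  obtain ⟨Γ, hΓ0, hΓ⟩ := hCRT cc hcc0 ((a 0 : ℤ) + a 1 + a 2)
  have hΓk : ∀ k, Γ - cc k = 0 ∨ (a k : ℤ) ≤ w k (Γ - cc k) := by
    intro k
    rcases hΓ k with h | h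
    · exact Or.inl h
    · right
      have h0 : (0 : ℤ) ≤ a 0 := Int.natCast_nonneg _
      have h1 : (0 : ℤ) ≤ a 1 := Int.natCast_nonneg _
      have h2 : (0 : ℤ) ≤ a 2 := Int.natCast_nonneg _
      fin_cases k
      · show (a 0 : ℤ) ≤ w 0 (Γ - cc 0)
        have h' : (a 0 : ℤ) + a 1 + a 2 ≤ w 0 (Γ - cc 0) := h
        omega
      · show (a 1 : ℤ) ≤ w 1 (Γ - cc 1)
        have h' : (a 0 : ℤ) + a 1 + a 2 ≤ w 1 (Γ - cc 1) := h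
        omega
      · show (a 2 : ℤ) ≤ w 2 (Γ - cc 2)
        have h' : (a 0 : ℤ) + a 1 + a 2 ≤ w 2 (Γ - cc 2) := h
        omega
  obtain ⟨hA, hB⟩ := hcore Γ (hΓk 0) (hΓk 1) (hΓk 2)
  refine ⟨Γ, hΓ0, fun k => ?_, fun Ez hEz => ⟨fun 𝔪 h𝔪 => ?_, fun 𝔪 h𝔪 => ?_⟩⟩
  · -- `u ^ (q² - 1) / Γ ^ n ≡ 1`
    have h1 : h94_Vge V1 (P1 k) (a k) (u - 1) := by
      unfold h94_Vge
      rw [hw1]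
      exact hu k
    have h2 : h94_Vge V1 (P1 k) (a k) (Γ - cc k) := by
      unfold h94_Vge
      rw [hw1]
      exact hΓk k
    have h3 := h94_twist_cong V1 (P1 k) (by exact_mod_cast ha k) u Γ (cc k) (q ^ 2 - 1) hn0
      (hccn k) h1 h2
    unfold h94_Vge at h3
    rw [hw1] at h3
    exact h3
  · obtain ⟨y', hy'0, hy', hy'inv, hglue⟩ := hA 𝔪 h𝔪
    obtain ⟨he0, hhor⟩ := he1 𝔪 h𝔪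
    have hE0 : e1 𝔪 ^ (q ^ 2 - 1) / Γ ≠ 0 := div_ne_zero (pow_ne_zero _ he0) hΓ0
    refine ⟨e1 𝔪 ^ (q ^ 2 - 1) / Γ, y', hE0, hy'0, hy', hy'inv, ?_, ?_⟩
    · intro i hiv hthr Pl hPl
      rw [h80_v_div V1 i (pow_ne_zero _ he0) hΓ0, h80_v_pow V1 i he0, hhor i hiv hthr Pl hPl,
        hPl Γ hΓ0, hEz Pl]
    · intro C hC hthr
      obtain ⟨k, rfl⟩ := hvert1 C hC
      rw [hav1 k]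
      exact hglue k hthr
  · obtain ⟨y', hy'0, hy', hy'inv, hglue⟩ := hB 𝔪 h𝔪
    obtain ⟨he0, hhor⟩ := he2 𝔪 h𝔪
    have hE0 : e2 𝔪 ^ (q ^ 2 - 1) / Γ ≠ 0 := div_ne_zero (pow_ne_zero _ he0) hΓ0
    refine ⟨e2 𝔪 ^ (q ^ 2 - 1) / Γ, y', hE0, hy'0, hy', hy'inv, ?_, ?_⟩
    · intro i hiv hthr Pl hPl
      rw [h80_v_div V2 i (pow_ne_zero _ he0) hΓ0, h80_v_pow V2 i he0, hhor i hiv hthr Pl hPl,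
        hPl Γ hΓ0, hEz Pl]
    · intro C hC hthr
      obtain ⟨k, rfl⟩ := hvert2 C hC
      rw [hav2 k]
      exact hglue k hthr

end Hnz

end Fermat.Agent.S36
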