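import Mathlib
import Fermat.Agent.S36.h94_NZTwo
import Fermat.Agent.S36.h62_RowULoc

/-!
# S36 / row NZ: from the point data of I-PTS / I-CUSP to the binders `hnz1`, `hnz2` (helper94)

Chart 1 is treated at the points of the special fibre (`fib1`), chart 2 only at the cusp points
(`cusp2`, all one-branch); the other points of chart 2 are transported from chart 1
(`h96_hnz2_of_hnz1`, `h62_chart_change`).

* `h94_exists_indexDiv` : the divisor `E4` in index form (`E i = E4 P` for every place `P`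
  inducing the horizontal index `i`, `E = 0` on the vertical indices), from `n E4 = div u`;
* `h94_hnz_pts` : the local equations of `E4` are CONSTRUCTED here from (UNIT\*) (`hU1`, `hU2`),
  glued by the `(LOC)` scheme `hLG1`, `hLG2` (= the statement of `h62_loc_glue_point` at the
  point), and twisted by `Γ` (Chinese remainder theorem): the conclusion is the `(LOC-δ)` datum
  of `h61_principal_of_loc` for `Ez = (q² - 1) E4 - div Γ` at the points of `fib1` (chart 1) and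
  of `cusp2` (chart 2), and `u ^ (q² - 1) / Γ ^ n ≡ 1`;
* `h94_hLG_of_point` : the scheme `hLG` from the hypotheses of `h62_loc_glue_point`.
-/

set_option autoImplicit false
set_option linter.unusedSectionVars false
set_option linter.unusedVariables false

namespace Fermat.Agent.S36

open AlgebraicCurve

section IndexDiv

variable {Kc Fc : Type*} [Field Kc] [Field Fc] [Algebra Kc Fc]
variable {F : Type*} [Field F] {ι : Type*} (V : h80_ValFam F ι)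

/-- **The divisor `E4` in index form.** -/
theorem h94_exists_indexDiv (ψ : F →+* Fc) (E4 : Divisor Kc Fc) (vert : Set ι)
    (hhor : ∀ i, i ∉ vert → ∃ Pl : Place Kc Fc, ∀ f : F, f ≠ 0 → V.v i f = Pl.ord (ψ f))
    (u : F) (hu0 : u ≠ 0) {n : ℕ} (hn : n ≠ 0)
    (hord : ∀ Pl : Place Kc Fc, (n : ℤ) * E4 Pl = Pl.ord (ψ u))
    (huv : ∀ C ∈ vert, V.v C u = 0) :
    ∃ E : ι → ℤ, {i | E i ≠ 0}.Finite ∧ (∀ C ∈ vert, E C = 0) ∧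
      (∀ i, i ∉ vert → ∀ Pl : Place Kc Fc,
        (∀ f : F, f ≠ 0 → V.v i f = Pl.ord (ψ f)) → E i = E4 Pl) ∧
      ∀ i, V.v i u = n * E i := by
  classical
  choose Pl hPl using hhor
  set E : ι → ℤ := fun i => if h : i ∈ vert then 0 else E4 (Pl i h) with hEdef
  have hn' : (n : ℤ) ≠ 0 := by exact_mod_cast hn
  have hEu : ∀ i, V.v i u = n * E i := by
    intro i
    by_cases h : i ∈ vert
    · have : E i = 0 := dif_pos h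
      rw [this, mul_zero]
      exact huv i h
    · have : E i = E4 (Pl i h) := dif_neg h
      rw [this, hPl i h u hu0, hord]
  refine ⟨E, ?_, fun C hC => dif_pos hC, ?_, hEu⟩
  · refine (V.finite_supp u hu0).subset fun i hi => ?_
    show V.v i u ≠ 0
    rw [hEu i]
    exact mul_ne_zero hn' hi
  · intro i hi Pl' hPl'
    have h1 : (n : ℤ) * E i = n * E4 Pl' := by
      rw [← hEu i, hPl' u hu0, hord]
    exact mul_left_cancel₀ hn' h1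

end IndexDiv

section Pts

variable {Kc Fc : Type*} [Field Kc] [Field Fc] [Algebra Kc Fc]
variable {F K : Type*} [Field F] [Field K] [Algebra K F]

/-- **NZ-M from the point data.**  See the file header. -/
theorem h94_hnz_pts (ψ : F →+* Fc) (E4 : Divisor Kc Fc)
    (w : Fin 3 → F → ℤ) (a : Fin 3 → ℕ) (ha : ∀ k, 1 ≤ a k)
    {q n : ℕ} (hq : 1 ≤ q)
    {ι1 ι2 : Type*} (V1 : h80_ValFam F ι1) (V2 : h80_ValFam F ι2)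
    (P1 : Fin 3 → ι1) (P2 : Fin 3 → ι2)
    (hw1 : ∀ k f, V1.v (P1 k) f = w k f) (hw2 : ∀ k f, V2.v (P2 k) f = w k f)
    (vert1 : Set ι1) (av1 : ι1 → ℕ) (hvert1 : ∀ C, C ∈ vert1 ↔ ∃ k, C = P1 k)
    (hav1 : ∀ k, av1 (P1 k) = a k)
    (vert2 : Set ι2) (av2 : ι2 → ℕ) (hvert2 : ∀ C, C ∈ vert2 ↔ ∃ k, C = P2 k)
    (hav2 : ∀ k, av2 (P2 k) = a k)
    (hhor1 : ∀ i, i ∉ vert1 → ∃ Pl : Place Kc Fc, ∀ f : F, f ≠ 0 → V1.v i f = Pl.ord (ψ f))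
    (hhor2 : ∀ i, i ∉ vert2 → ∃ Pl : Place Kc Fc, ∀ f : F, f ≠ 0 → V2.v i f = Pl.ord (ψ f))
    (q0 : F) (hq00 : q0 ≠ 0) (hwq : ∀ k, w k q0 = a k)
    (hq0h1 : ∀ i, i ∉ vert1 → V1.v i q0 = 0) (hq0h2 : ∀ i, i ∉ vert2 → V2.v i q0 = 0)
    (hCRT : ∀ t : Fin 3 → F, (∀ c, t c ≠ 0) → ∀ N : ℤ,
      ∃ g : F, g ≠ 0 ∧ ∀ c, (g - t c = 0 ∨ N ≤ w c (g - t c)))
    (fib1 : Ideal V1.B → Prop)
    (hfib1 : ∀ 𝔪 : Ideal V1.B, 𝔪.IsMaximal → ∀ k, V1.Through 𝔪 (P1 k) → fib1 𝔪)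
    (cusp2 : Ideal V2.B → Prop)
    (hclass1 : ∀ 𝔪 : Ideal V1.B, 𝔪.IsMaximal → fib1 𝔪 →
      (∀ k, V1.Through 𝔪 (P1 k)) ∨ ∃ k0, ∀ k, V1.Through 𝔪 (P1 k) → k = k0)
    (hone2 : ∀ 𝔪 : Ideal V2.B, 𝔪.IsMaximal → cusp2 𝔪 →
      ∃ k0, ∀ k, V2.Through 𝔪 (P2 k) → k = k0)
    (hconst1 : ∀ c : K, c ≠ 0 → w 0 (algebraMap K F c) = 0 →
      ∀ i, V1.v i (algebraMap K F c) = 0)
    (hn : (n : F) ≠ 0) (hnv : w 0 (n : F) = 0)
    (hroots : ∀ ξ : F, ξ ^ n = 1 → ∃ z : K, algebraMap K F z = ξ)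
    (hprim : ∃ ω : K, IsPrimitiveRoot ω n)
    (hroot : ∀ c : K, c ≠ 0 → w 0 (algebraMap K F c) = 0 → ∃ b : K, b ≠ 0 ∧
      (algebraMap K F (b ^ n - c) = 0 ∨ 1 ≤ w 0 (algebraMap K F (b ^ n - c))))
    (hw02 : ∀ c : K, c ≠ 0 → w 2 (algebraMap K F c) = w 0 (algebraMap K F c))
    (π : K) (hπ0 : π ≠ 0) (hπ : w 0 (algebraMap K F π) = 1)
    (Mα Mβ : F → F)
    (hMα : ∀ f g, Mα (f * g) = Mα f * Mα g) (hMα0 : ∀ f, f ≠ 0 → Mα f ≠ 0)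
    (hMβ : ∀ f g, Mβ (f * g) = Mβ f * Mβ g) (hMβ0 : ∀ f, f ≠ 0 → Mβ f ≠ 0)
    (hMres : ∀ (g : F) (z : Fin 3 → K), (∀ k, z k ^ n = 1) →
      (∀ k, g - algebraMap K F (z k) = 0 ∨ 1 ≤ w k (g - algebraMap K F (z k))) →
        (Mα g - algebraMap K F (z 0 * z 1 ^ (q - 1)) = 0 ∨
          1 ≤ w 0 (Mα g - algebraMap K F (z 0 * z 1 ^ (q - 1)))) ∧
        (Mα g - algebraMap K F (z 2 ^ q) = 0 ∨ 1 ≤ w 2 (Mα g - algebraMap K F (z 2 ^ q))) ∧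
        (Mβ g - algebraMap K F (z 0 ^ q) = 0 ∨ 1 ≤ w 0 (Mβ g - algebraMap K F (z 0 ^ q))) ∧
        (Mβ g - algebraMap K F (z 1 ^ (q - 1) * z 2) = 0 ∨
          1 ≤ w 2 (Mβ g - algebraMap K F (z 1 ^ (q - 1) * z 2))))
    (hNU1 : ∀ 𝔪 : Ideal V1.B, 𝔪.IsMaximal → (∀ k, V1.Through 𝔪 (P1 k)) →
      ∀ y : F, y ≠ 0 → V1.InLoc 𝔪 y → V1.InLoc 𝔪 y⁻¹ →
        V1.InLoc 𝔪 (Mα y) ∧ V1.InLoc 𝔪 (Mβ y))
    (u : F) (hu0 : u ≠ 0) (hu : ∀ k, u - 1 = 0 ∨ (a k : ℤ) ≤ w k (u - 1))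
    (hord : ∀ Pl : Place Kc Fc, (n : ℤ) * E4 Pl = Pl.ord (ψ u))
    (κα κβ : K) (hκα : κα ≠ 0) (hκβ : κβ ≠ 0) (Φα Φβ : F) (hΦα0 : Φα ≠ 0) (hΦβ0 : Φβ ≠ 0)
    (hTα : Mα u = algebraMap K F κα * Φα ^ n) (hTβ : Mβ u = algebraMap K F κβ * Φβ ^ n)
    (hU1 : ∀ 𝔪 : Ideal V1.B, 𝔪.IsMaximal → fib1 𝔪 → ∀ i, V1.Through 𝔪 i →
      ∃ e : F, e ≠ 0 ∧ V1.v i e = 1 ∧ ∀ j, V1.Through 𝔪 j → j ≠ i → V1.v j e = 0)
    (hU2 : ∀ 𝔪 : Ideal V2.B, 𝔪.IsMaximal → cusp2 𝔪 → ∀ i, V2.Through 𝔪 i →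
      ∃ e : F, e ≠ 0 ∧ V2.v i e = 1 ∧ ∀ j, V2.Through 𝔪 j → j ≠ i → V2.v j e = 0)
    (hLG1 : ∀ 𝔪 : Ideal V1.B, 𝔪.IsMaximal → fib1 𝔪 → ∀ e ω : F,
      (∀ c, V1.Through 𝔪 c → 0 < V1.v c q0 → 0 ≤ V1.v c e) →
      ω ≠ 0 → V1.InLoc 𝔪 ω → V1.InLoc 𝔪 ω⁻¹ →
      (∀ c, V1.Through 𝔪 c → 0 < V1.v c q0 →
        (e ^ n * ω = 1 ∨ V1.v c q0 ≤ V1.v c (e ^ n * ω - 1))) →
      ∃ (ζ : ι1 → F) (y : F),
        (∀ c, V1.Through 𝔪 c → 0 < V1.v c q0 → V1.InLoc 𝔪 (ζ c) ∧ ζ c ^ n = 1) ∧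
        y ≠ 0 ∧ V1.InLoc 𝔪 y ∧ V1.InLoc 𝔪 y⁻¹ ∧
        ∀ c, V1.Through 𝔪 c → 0 < V1.v c q0 →
          (e = ζ c * y ∨ V1.v c q0 ≤ V1.v c (e - ζ c * y)))
    (hLG2 : ∀ 𝔪 : Ideal V2.B, 𝔪.IsMaximal → cusp2 𝔪 → ∀ e ω : F,
      (∀ c, V2.Through 𝔪 c → 0 < V2.v c q0 → 0 ≤ V2.v c e) →
      ω ≠ 0 → V2.InLoc 𝔪 ω → V2.InLoc 𝔪 ω⁻¹ →
      (∀ c, V2.Through 𝔪 c → 0 < V2.v c q0 →
        (e ^ n * ω = 1 ∨ V2.v c q0 ≤ V2.v c (e ^ n * ω - 1))) →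
      ∃ (ζ : ι2 → F) (y : F),
        (∀ c, V2.Through 𝔪 c → 0 < V2.v c q0 → V2.InLoc 𝔪 (ζ c) ∧ ζ c ^ n = 1) ∧
        y ≠ 0 ∧ V2.InLoc 𝔪 y ∧ V2.InLoc 𝔪 y⁻¹ ∧
        ∀ c, V2.Through 𝔪 c → 0 < V2.v c q0 →
          (e = ζ c * y ∨ V2.v c q0 ≤ V2.v c (e - ζ c * y))) :
    ∃ Γ : F, Γ ≠ 0 ∧
      (∀ k, u ^ (q ^ 2 - 1) / Γ ^ n - 1 = 0 ∨ (a k : ℤ) ≤ w k (u ^ (q ^ 2 - 1) / Γ ^ n - 1)) ∧
      ∀ Ez : Divisor Kc Fc,
        (∀ Pl : Place Kc Fc, Ez Pl = ((q ^ 2 - 1 : ℕ) : ℤ) * E4 Pl - Pl.ord (ψ Γ)) →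
        (∀ 𝔪 : Ideal V1.B, 𝔪.IsMaximal → fib1 𝔪 →
          ∃ e y : F, e ≠ 0 ∧ y ≠ 0 ∧ V1.InLoc 𝔪 y ∧ V1.InLoc 𝔪 y⁻¹ ∧
            (∀ i, i ∉ vert1 → V1.Through 𝔪 i → ∀ Pl : Place Kc Fc,
              (∀ f : F, f ≠ 0 → V1.v i f = Pl.ord (ψ f)) → V1.v i e = Ez Pl) ∧
            ∀ C ∈ vert1, V1.Through 𝔪 C → (e = y ∨ (av1 C : ℤ) ≤ V1.v C (e - y))) ∧
        (∀ 𝔪 : Ideal V2.B, 𝔪.IsMaximal → cusp2 𝔪 →
          ∃ e y : F, e ≠ 0 ∧ y ≠ 0 ∧ V2.InLoc 𝔪 y ∧ V2.InLoc 𝔪 y⁻¹ ∧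
            (∀ i, i ∉ vert2 → V2.Through 𝔪 i → ∀ Pl : Place Kc Fc,
              (∀ f : F, f ≠ 0 → V2.v i f = Pl.ord (ψ f)) → V2.v i e = Ez Pl) ∧
            ∀ C ∈ vert2, V2.Through 𝔪 C → (e = y ∨ (av2 C : ℤ) ≤ V2.v C (e - y))) := by
  classical
  have hn0 : n ≠ 0 := by
    rintro rfl
    exact hn (by simp)
  have ha1 : ∀ k, (1 : ℤ) ≤ a k := fun k => by exact_mod_cast ha k
  have hu1 : ∀ k, u - 1 = 0 ∨ 1 ≤ w k (u - 1) := by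
    intro k
    rcases hu k with h | h
    · exact Or.inl h
    · right
      have := ha1 k
      omega
  -- `u` is a unit on the vertical valuations
  have hwu : ∀ k, w k u = 0 := by
    intro k
    have h1 : h94_Vge V1 (P1 k) 1 (u - 1) := by
      unfold h94_Vge
      rw [hw1]
      exact hu1 k
    have h2 := (h94_v_eq_zero_of_cong V1 (P1 k) one_ne_zero (h80_v_one V1 (P1 k)) h1).2
    rw [hw1] at h2
    exact h2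
  have huv1 : ∀ C ∈ vert1, V1.v C u = 0 := by
    intro C hC
    obtain ⟨k, rfl⟩ := (hvert1 C).1 hC
    rw [hw1]
    exact hwu k
  have huv2 : ∀ C ∈ vert2, V2.v C u = 0 := by
    intro C hC
    obtain ⟨k, rfl⟩ := (hvert2 C).1 hC
    rw [hw2]
    exact hwu k
  -- the divisor in index form
  obtain ⟨E1, hE1fin, hE1v, hE1h, hE1u⟩ :=
    h94_exists_indexDiv V1 ψ E4 vert1 hhor1 u hu0 hn0 hord huv1
  obtain ⟨E2, hE2fin, hE2v, hE2h, hE2u⟩ :=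
    h94_exists_indexDiv V2 ψ E4 vert2 hhor2 u hu0 hn0 hord huv2
  -- the local equations in chart 1
  have key1 : ∀ 𝔪 : Ideal V1.B, ∃ e : F, e ≠ 0 ∧
      (𝔪.IsMaximal → fib1 𝔪 → ∀ i, V1.Through 𝔪 i → V1.v i e = E1 i) := by
    intro 𝔪
    by_cases h : 𝔪.IsMaximal ∧ fib1 𝔪
    · obtain ⟨e, he0, he⟩ := h80_exists_localEq V1 𝔪 E1 hE1fin
        (fun i hi _ => hU1 𝔪 h.1 h.2 i hi)
      exact ⟨e, he0, fun _ _ => he⟩
    · exact ⟨1, one_ne_zero, fun h1 h2 => absurd ⟨h1, h2⟩ h⟩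
  choose e1 he10 he1 using key1
  -- generic consequences of a local equation
  have hunitω1 : ∀ 𝔪 : Ideal V1.B, 𝔪.IsMaximal → fib1 𝔪 →
      u / e1 𝔪 ^ n ≠ 0 ∧ V1.InLoc 𝔪 (u / e1 𝔪 ^ n) ∧ V1.InLoc 𝔪 (u / e1 𝔪 ^ n)⁻¹ := by
    intro 𝔪 h𝔪 hf
    have : 𝔪.IsPrime := h𝔪.isPrime
    have h0 : u / e1 𝔪 ^ n ≠ 0 := div_ne_zero hu0 (pow_ne_zero n (he10 𝔪))
    have h1 := h80_inLoc_of_through_zero V1 𝔪 h0 (fun i hi => by
      rw [h80_v_div V1 i hu0 (pow_ne_zero n (he10 𝔪)), h80_v_pow V1 i (he10 𝔪),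
        he1 𝔪 h𝔪 hf i hi, hE1u i]
      ring)
    exact ⟨h0, h1.1, h1.2⟩
  have hq0pos1 : ∀ k, 0 < V1.v (P1 k) q0 := by
    intro k
    rw [hw1, hwq]
    have := ha1 k
    omega
  have hq0vert1 : ∀ c, 0 < V1.v c q0 → ∃ k, c = P1 k := by
    intro c hc
    by_contra hne
    have hcv : c ∉ vert1 := fun h => hne ((hvert1 c).1 h)
    rw [hq0h1 c hcv] at hc
    exact lt_irrefl _ hc
  -- the `(LOC)` datum in chart 1
  have hLOC1' : ∀ 𝔪 : Ideal V1.B, 𝔪.IsMaximal → fib1 𝔪 →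
      ∃ (ζ : ι1 → F) (y : F),
        (∀ k, V1.Through 𝔪 (P1 k) → V1.InLoc 𝔪 (ζ (P1 k)) ∧ ζ (P1 k) ^ n = 1) ∧
        y ≠ 0 ∧ V1.InLoc 𝔪 y ∧ V1.InLoc 𝔪 y⁻¹ ∧
        ∀ k, V1.Through 𝔪 (P1 k) →
          (e1 𝔪 = ζ (P1 k) * y ∨ (a k : ℤ) ≤ V1.v (P1 k) (e1 𝔪 - ζ (P1 k) * y)) := by
    intro 𝔪 h𝔪 hf
    obtain ⟨hω0, hω, hω'⟩ := hunitω1 𝔪 h𝔪 hf
    have hmul : e1 𝔪 ^ n * (u / e1 𝔪 ^ n) = u := by
      field_simp [pow_ne_zero n (he10 𝔪)]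
    obtain ⟨ζ, y, hζ, hy0, hy, hy', hglue⟩ := hLG1 𝔪 h𝔪 hf (e1 𝔪) (u / e1 𝔪 ^ n)
      (fun c hc hcq => by
        obtain ⟨k, rfl⟩ := hq0vert1 c hcq
        rw [he1 𝔪 h𝔪 hf _ hc, hE1v _ ((hvert1 _).2 ⟨k, rfl⟩)])
      hω0 hω hω'
      (fun c hc hcq => by
        obtain ⟨k, rfl⟩ := hq0vert1 c hcq
        rw [hmul, hw1, hw1, hwq]
        rcases hu k with h | h
        · exact Or.inl (sub_eq_zero.1 h)
        · exact Or.inr h)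
    refine ⟨ζ, y, fun k hk => hζ (P1 k) hk (hq0pos1 k), hy0, hy, hy', fun k hk => ?_⟩
    have h := hglue (P1 k) hk (hq0pos1 k)
    rw [hw1 k q0, hwq] at h
    exact h
  -- the core
  obtain ⟨c1, c3, hc1, hc3, hcore⟩ := h94_nz_charts_self (K := K) w a ha hq
    (J := PUnit.{1}) (ι := fun _ => ι1) (fun _ => V1) (fun _ => P1) (fun _ => hw1)
    (fun _ 𝔪 h𝔪 => by
      by_cases hf : fib1 𝔪
      · exact hclass1 𝔪 h𝔪 hf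
      · exact Or.inr ⟨0, fun k hk => absurd (hfib1 𝔪 h𝔪 k hk) hf⟩)
    (fun c hc hcv _ i => hconst1 c hc hcv i)
    hn hnv hroots hprim hroot hw02 π hπ0 hπ Mα Mβ hMα hMα0 hMβ hMβ0 hMres
    (fun _ => hNU1) u hu0 hu1 κα κβ hκα hκβ Φα Φβ hΦα0 hΦβ0 hTα hTβ (fun _ => e1)
    (fun _ 𝔪 h𝔪 h3 => by
      have hf := hfib1 𝔪 h𝔪 0 (h3 0)
      obtain ⟨hω0, hω, hω'⟩ := hunitω1 𝔪 h𝔪 hf
      rw [inv_div] at hω'
      exact ⟨he10 𝔪, hω, hω'⟩)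
    (fun _ 𝔪 h𝔪 h3 => by
      have hf := hfib1 𝔪 h𝔪 0 (h3 0)
      obtain ⟨ζ, y, hζ, hy0, hy, hy', hglue⟩ := hLOC1' 𝔪 h𝔪 hf
      exact ⟨fun k => ζ (P1 k), y, fun k => hζ k (h3 k), hy0, hy, hy', fun k => hglue k (h3 k)⟩)
    (fun _ 𝔪 h𝔪 k0 hthr hk0 => by
      have hf := hfib1 𝔪 h𝔪 k0 hthr
      obtain ⟨ζ, y, hζ, hy0, hy, hy', hglue⟩ := hLOC1' 𝔪 h𝔪 hf
      exact ⟨ζ (P1 k0), y, (hζ k0 hthr).2, hy0, hy, hy', hglue k0 hthr⟩)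
  -- the constants `cc k` and `Γ`
  have hr0 : ∀ c : K, c ^ n = 1 → algebraMap K F c ≠ 0 := by
    intro c hc h0
    have h1 : c = 0 := (map_eq_zero (algebraMap K F)).1 h0
    rw [h1, zero_pow hn0] at hc
    exact zero_ne_one hc
  set cc : Fin 3 → F := ![algebraMap K F c1, 1, algebraMap K F c3] with hccdef
  have hcc0 : ∀ k, cc k ≠ 0 := by
    intro k
    fin_cases k
    · exact hr0 c1 hc1
    · exact one_ne_zero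
    · exact hr0 c3 hc3
  have hccn : ∀ k, cc k ^ n = 1 := by
    intro k
    fin_cases k
    · show (algebraMap K F c1) ^ n = 1
      rw [← map_pow, hc1, map_one]
    · show (1 : F) ^ n = 1
      exact one_pow n
    · show (algebraMap K F c3) ^ n = 1
      rw [← map_pow, hc3, map_one]
  obtain ⟨Γ, hΓ0, hΓ⟩ := hCRT cc hcc0 ((a 0 : ℤ) + a 1 + a 2)
  have hΓk : ∀ k, Γ - cc k = 0 ∨ (a k : ℤ) ≤ w k (Γ - cc k) := by
    intro k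
    rcases hΓ k with h | h
    · exact Or.inl h
    · right
      have h0 : (0 : ℤ) ≤ a 0 := Int.natCast_nonneg _
      have h1 : (0 : ℤ) ≤ a 1 := Int.natCast_nonneg _
      have h2 : (0 : ℤ) ≤ a 2 := Int.natCast_nonneg _
      fin_cases k
      · show (a 0 : ℤ) ≤ w 0 (Γ - cc 0)
        have h' : (a 0 : ℤ) + a 1 + a 2 ≤ w 0 (Γ - cc 0) := h
        omega
      · show (a 1 : ℤ) ≤ w 1 (Γ - cc 1)
        have h' : (a 0 : ℤ) + a 1 + a 2 ≤ w 1 (Γ - cc 1) := h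
        omega
      · show (a 2 : ℤ) ≤ w 2 (Γ - cc 2)
        have h' : (a 0 : ℤ) + a 1 + a 2 ≤ w 2 (Γ - cc 2) := h
        omega
  have hA := hcore Γ (hΓk 0) (hΓk 1) (hΓk 2) PUnit.unit
  refine ⟨Γ, hΓ0, fun k => ?_, fun Ez hEz => ⟨fun 𝔪 h𝔪 hf => ?_, fun 𝔪 h𝔪 hcusp => ?_⟩⟩
  · -- `u ^ (q² - 1) / Γ ^ n ≡ 1`
    have h1 : h94_Vge V1 (P1 k) (a k) (u - 1) := by
      unfold h94_Vge
      rw [hw1]
      exact hu k
    have h2 : h94_Vge V1 (P1 k) (a k) (Γ - cc k) := by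
      unfold h94_Vge
      rw [hw1]
      exact hΓk k
    have h3 := h94_twist_cong V1 (P1 k) (ha1 k) u Γ (cc k) (q ^ 2 - 1) hn0 (hccn k) h1 h2
    unfold h94_Vge at h3
    rw [hw1] at h3
    exact h3
  · -- chart 1
    obtain ⟨y', hy'0, hy', hy'inv, hglue⟩ := hA 𝔪 h𝔪
    have he0 := he10 𝔪
    have hE0 : e1 𝔪 ^ (q ^ 2 - 1) / Γ ≠ 0 := div_ne_zero (pow_ne_zero _ he0) hΓ0
    refine ⟨e1 𝔪 ^ (q ^ 2 - 1) / Γ, y', hE0, hy'0, hy', hy'inv, ?_, ?_⟩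
    · intro i hiv hthr Pl hPl
      rw [h80_v_div V1 i (pow_ne_zero _ he0) hΓ0, h80_v_pow V1 i he0, he1 𝔪 h𝔪 hf i hthr,
        hE1h i hiv Pl hPl, hPl Γ hΓ0, hEz Pl]
    · intro C hC hthr
      obtain ⟨k, rfl⟩ := (hvert1 C).1 hC
      rw [hav1 k]
      exact hglue k hthr
  · -- chart 2, cusp points
    have : 𝔪.IsPrime := h𝔪.isPrime
    obtain ⟨e, he0, he⟩ := h80_exists_localEq V2 𝔪 E2 hE2fin
      (fun i hi _ => hU2 𝔪 h𝔪 hcusp i hi)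
    have hE0 : e ^ (q ^ 2 - 1) / Γ ≠ 0 := div_ne_zero (pow_ne_zero _ he0) hΓ0
    have hhorz : ∀ i, i ∉ vert2 → V2.Through 𝔪 i → ∀ Pl : Place Kc Fc,
        (∀ f : F, f ≠ 0 → V2.v i f = Pl.ord (ψ f)) → V2.v i (e ^ (q ^ 2 - 1) / Γ) = Ez Pl := by
      intro i hiv hthr Pl hPl
      rw [h80_v_div V2 i (pow_ne_zero _ he0) hΓ0, h80_v_pow V2 i he0, he i hthr,
        hE2h i hiv Pl hPl, hPl Γ hΓ0, hEz Pl]
    obtain ⟨k0, hk0⟩ := hone2 𝔪 h𝔪 hcusp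
    by_cases hthr0 : V2.Through 𝔪 (P2 k0)
    · -- one branch
      have h0 : u / e ^ n ≠ 0 := div_ne_zero hu0 (pow_ne_zero n he0)
      have hωu := h80_inLoc_of_through_zero V2 𝔪 h0 (fun i hi => by
        rw [h80_v_div V2 i hu0 (pow_ne_zero n he0), h80_v_pow V2 i he0, he i hi, hE2u i]
        ring)
      have hmul : e ^ n * (u / e ^ n) = u := by
        field_simp [pow_ne_zero n he0]
      have hq0vert2 : ∀ c, 0 < V2.v c q0 → ∃ k, c = P2 k := by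
        intro c hc
        by_contra hne
        have hcv : c ∉ vert2 := fun h => hne ((hvert2 c).1 h)
        rw [hq0h2 c hcv] at hc
        exact lt_irrefl _ hc
      have hq0pos2 : 0 < V2.v (P2 k0) q0 := by
        rw [hw2, hwq]
        have := ha1 k0
        omega
      obtain ⟨ζ, y, hζ, hy0, hy, hy', hglue⟩ := hLG2 𝔪 h𝔪 hcusp e (u / e ^ n)
        (fun c hc hcq => by
          obtain ⟨k, rfl⟩ := hq0vert2 c hcq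
          rw [he _ hc, hE2v _ ((hvert2 _).2 ⟨k, rfl⟩)])
        h0 hωu.1 hωu.2
        (fun c hc hcq => by
          obtain ⟨k, rfl⟩ := hq0vert2 c hcq
          rw [hmul, hw2, hw2, hwq]
          rcases hu k with h | h
          · exact Or.inl (sub_eq_zero.1 h)
          · exact Or.inr h)
      have hg := hglue (P2 k0) hthr0 hq0pos2
      rw [hw2 k0 q0, hwq] at hg
      have hΓ2 : h94_Vge V2 (P2 k0) (a k0) (Γ - cc k0) := by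
        unfold h94_Vge
        rw [hw2]
        exact hΓk k0
      obtain ⟨y', hy'0, hy'L, hy'inv, hfin⟩ := h94_nz_single V2 𝔪 (P2 k0) (a k0) hthr0 (ha k0)
        e y Γ (ζ (P2 k0)) (cc k0) (q ^ 2 - 1) hn0 hy0 hy hy' (hζ (P2 k0) hthr0 hq0pos2).2
        (hccn k0) hg hΓ2
      refine ⟨e ^ (q ^ 2 - 1) / Γ, y', hE0, hy'0, hy'L, hy'inv, hhorz, ?_⟩
      intro C hC hthr
      obtain ⟨k, rfl⟩ := (hvert2 C).1 hC
      have hkk : k = k0 := hk0 k hthr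
      subst hkk
      rw [hav2 k]
      exact hfin
    · -- no vertical valuation through the point
      have h1 : V2.InLoc 𝔪 (1 : F) := ⟨1, 1, h94_one_not_mem V2 𝔪, by simp⟩
      refine ⟨e ^ (q ^ 2 - 1) / Γ, 1, hE0, one_ne_zero, h1, by rw [inv_one]; exact h1, hhorz, ?_⟩
      intro C hC hthr
      obtain ⟨k, rfl⟩ := (hvert2 C).1 hC
      have hkk : k = k0 := hk0 k hthr
      subst hkk
      exact absurd hthr hthr0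

end Pts

section Scheme

universe w

variable {F : Type*} [Field F] {ι : Type*}

/-- The `(LOC)` scheme `hLG` of `h94_hnz_pts` at a point, from the hypotheses of
`h62_loc_glue_point`. -/
theorem h94_hLG_of_point (V : h80_ValFam F ι) (m : Ideal V.B) [hmax : m.IsMaximal]
    [IsNoetherianRing V.B] (q : F) (hq0 : q ≠ 0)
    (hqm : ∃ c, V.Through m c ∧ 0 < V.v c q)
    (hunit : h62_UnitStar V m)
    (hR : ∀ c, V.Through m c → 0 < V.v c q →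
      ∃ (Fb : Type w) (_ : Field Fb), Nonempty (h62_Res V m c Fb))
    (hfrac : ∀ f : F, ∃ c d : V.B, (d : F) ≠ 0 ∧ f * (d : F) = (c : F))
    {n : ℕ} (H1 : (n : F) ≠ 0 ∧ ∀ j, V.Through m j → V.v j (n : F) = 0)
    (H2 : ∀ s : V.B, s ∉ m → ∃ r : V.B, r ^ n - s ∈ m)
    (H3 : ∀ c0 : V.B, c0 ^ n - 1 ∈ m → ∃ ζ : V.B, ζ ^ n = 1 ∧ c0 - ζ ∈ m) :
    ∀ e ω : F,
      (∀ c, V.Through m c → 0 < V.v c q → 0 ≤ V.v c e) →
      ω ≠ 0 → V.InLoc m ω → V.InLoc m ω⁻¹ →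
      (∀ c, V.Through m c → 0 < V.v c q →
        (e ^ n * ω = 1 ∨ V.v c q ≤ V.v c (e ^ n * ω - 1))) →
      ∃ (ζ : ι → F) (y : F),
        (∀ c, V.Through m c → 0 < V.v c q → V.InLoc m (ζ c) ∧ ζ c ^ n = 1) ∧
        y ≠ 0 ∧ V.InLoc m y ∧ V.InLoc m y⁻¹ ∧
        ∀ c, V.Through m c → 0 < V.v c q →
          (e = ζ c * y ∨ V.v c q ≤ V.v c (e - ζ c * y)) :=
  fun e ω he hω0 hω hω' hew =>
    h62_loc_glue_point V m q hq0 hqm hunit hR hfrac H1 H2 H3 e he ω hω0 hω hω' hew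

end Scheme

end Fermat.Agent.S36
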