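import Mathlib
import Fermat.Agent.S36.h97_Noeth
import Fermat.Agent.S36.h94_NZPts
import Fermat.Agent.S36.h62_RowU
import Fermat.Agent.S36.h75_PtRes
import Fermat.Agent.S36.h89_ResK
import Fermat.Agent.S36.h80_FamInst
import Fermat.Agent.S36.h16_CuspGen

/-!
# S36 / I-CUSP, consumer side (helper46): the point output at a closed point of a chart

* `h46_hvert_inv` (HVERT-INV, Mathlib + `h97_ev` only): the vertical integrality statement
  `hvert` (binder of helper80's `h80_famOf_noeth`) for a chart function `x` gives the same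
  statement for `x⁻¹`.  Hence the chart ring of chart 2 (`1/j`) is noetherian and integral over
  `A0[1/j]` as soon as `hvert` is known for chart 1 (`j`): `h46_fam2_noeth`.
* `h46_point_unitStar`, `h46_point_out` (generic, any `h80_ValFam`): at a closed point `m`
  containing `q`, local equations of the vertical valuations through `m` (X2) and residue data
  (X3) give `(UNIT*)` (`h62_UnitStar`) and the `(LOC)` scheme `hLG` of `h94_hnz_pts`.
* `h46_chart_point_out` : the same at the modular level for the chart family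
  `h80_famOf N I w .. x0 hx` (every I-FAM input discharged: `hunr`, `hsep`, `hfrac`, noetherian,
  (H1)-(H3)).
* `h46_cusp_out` : the binders `hone2`, `hU2`, `hLG2` of `h94_hnz_pts` for
  `V2 := h80_fam2 N I w ..` from the per-point statements (X1), (X2), (X3) of I-CUSP.
-/

set_option autoImplicit false

open AlgebraicCurve ModularCurve

namespace Fermat.Agent.S36

open Polynomial Fermat.Agent.S18 Fermat.Agent.S24

local notation "Qb" => AlgebraicClosure ℚ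

section HvertInv

variable {K0 F0 : Type*} [Field K0] [Field F0] [Algebra K0 F0]

/-- Evaluation at `x⁻¹` of the reflected polynomial. -/
theorem h46_ev_reflect (A0 : Subring K0) (x : F0) (hx : x ≠ 0) (d : ℕ) (g : Polynomial A0)
    (hg : g.natDegree ≤ d) :
    h97_ev A0 x⁻¹ (g.reflect d) = (x⁻¹) ^ d * h97_ev A0 x g := by
  let _ : Invertible x := invertibleOfNonzero hx
  have h := Polynomial.eval₂_reflect_mul_pow ((algebraMap K0 F0).comp A0.subtype) x d g hg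
  rw [invOf_eq_inv] at h
  have h1 : h97_ev A0 x⁻¹ (g.reflect d) =
      Polynomial.eval₂ ((algebraMap K0 F0).comp A0.subtype) x⁻¹ (g.reflect d) := rfl
  have h2 : h97_ev A0 x g = Polynomial.eval₂ ((algebraMap K0 F0).comp A0.subtype) x g := rfl
  rw [h1, h2, ← h, inv_pow]
  field_simp

/-- **(HVERT-INV), integrality part.**  If `s(x) f` is integral over `A0[x]`, then for all large
`d` the element `(X^d s(1/X))(x⁻¹) f = x⁻ᵈ s(x) f` is integral over `A0[x⁻¹]`. -/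
theorem h46_integral_inv (A0 : Subring K0) (x : F0) (hx : x ≠ 0) (s : Polynomial A0) (f : F0)
    (h : (h97_ev A0 x).IsIntegralElem (h97_ev A0 x s * f)) :
    ∃ d : ℕ, s.natDegree ≤ d ∧
      (h97_ev A0 x⁻¹).IsIntegralElem (h97_ev A0 x⁻¹ (s.reflect d) * f) := by
  classical
  obtain ⟨p, hpm, hp0⟩ := h
  set n := p.natDegree with hn
  set d := s.natDegree + (Finset.range (n + 1)).sup (fun i => (p.coeff i).natDegree) with hd
  have hsd : s.natDegree ≤ d := Nat.le_add_right _ _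
  have hcd : ∀ i ∈ Finset.range (n + 1), (p.coeff i).natDegree ≤ d := fun i hi =>
    (Finset.le_sup (f := fun i => (p.coeff i).natDegree) hi).trans (Nat.le_add_left _ _)
  refine ⟨d, hsd, ?_⟩
  set y := h97_ev A0 x s * f with hy
  have hy' : h97_ev A0 x⁻¹ (s.reflect d) * f = (x⁻¹) ^ d * y := by
    rw [h46_ev_reflect A0 x hx d s hsd, hy, mul_assoc]
  rw [hy']
  -- the new monic polynomial
  set R : Polynomial (Polynomial A0) :=
    ∑ i ∈ Finset.range n, C (X ^ (d * (n - 1 - i)) * (p.coeff i).reflect d) * X ^ i with hR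
  have hRdeg : R.degree < (n : WithBot ℕ) := by
    rw [Polynomial.degree_lt_iff_coeff_zero]
    intro m hm
    rw [hR, Polynomial.finsetSum_coeff]
    refine Finset.sum_eq_zero fun i hi => ?_
    have hin : i < n := Finset.mem_range.mp hi
    rw [Polynomial.coeff_C_mul_X_pow, if_neg (by omega)]
  refine ⟨X ^ n + R, Polynomial.monic_X_pow_add hRdeg, ?_⟩
  rw [Polynomial.eval₂_add, Polynomial.eval₂_pow, Polynomial.eval₂_X, hR,
    Polynomial.eval₂_finsetSum]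
  have hterm : ∀ i ∈ Finset.range n,
      Polynomial.eval₂ (h97_ev A0 x⁻¹) ((x⁻¹) ^ d * y)
        (C (X ^ (d * (n - 1 - i)) * (p.coeff i).reflect d) * X ^ i) =
      (x⁻¹) ^ (d * n) * (h97_ev A0 x (p.coeff i) * y ^ i) := by
    intro i hi
    have hin : i < n := Finset.mem_range.mp hi
    rw [Polynomial.eval₂_mul, Polynomial.eval₂_C, Polynomial.eval₂_pow, Polynomial.eval₂_X,
      map_mul, map_pow, h97_ev_X,
      h46_ev_reflect A0 x hx d (p.coeff i) (hcd i (Finset.mem_range.mpr (by omega)))]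
    have e1 : d * n = d * (n - 1 - i) + d + d * i := by
      have : n = (n - 1 - i) + 1 + i := by omega
      calc d * n = d * ((n - 1 - i) + 1 + i) := by rw [← this]
        _ = d * (n - 1 - i) + d + d * i := by ring
    rw [e1, mul_pow, ← pow_mul, pow_add, pow_add]
    ring
  rw [Finset.sum_congr rfl hterm, ← Finset.mul_sum]
  have hmain : y ^ n + ∑ i ∈ Finset.range n, h97_ev A0 x (p.coeff i) * y ^ i = 0 := by
    have h1 := hp0
    rw [Polynomial.eval₂_eq_sum_range, Finset.sum_range_succ, ← hn, hpm.coeff_natDegree,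
      map_one, one_mul] at h1
    rw [add_comm]
    exact h1
  have e2 : ((x⁻¹) ^ d * y) ^ n = (x⁻¹) ^ (d * n) * y ^ n := by
    rw [mul_pow, ← pow_mul]
  rw [e2, ← mul_add, hmain, mul_zero]

/-- **(HVERT-INV).**  The vertical integrality statement `hvert` (binder of `h80_famOf_noeth`)
for the chart function `x` gives the same statement for `x⁻¹` (`Pc` is any condition on a
coefficient, e.g. "is a unit of `A0`"). -/
theorem h46_hvert_inv (A0 : Subring K0) (x : F0) (hx : x ≠ 0) (f : F0) (Pc : A0 → Prop)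
    (h : ∃ s : Polynomial A0, (∃ i, Pc (s.coeff i) ∧ s.coeff i ≠ 0) ∧
      (h97_ev A0 x).IsIntegralElem (h97_ev A0 x s * f)) :
    ∃ s : Polynomial A0, (∃ i, Pc (s.coeff i) ∧ s.coeff i ≠ 0) ∧
      (h97_ev A0 x⁻¹).IsIntegralElem (h97_ev A0 x⁻¹ s * f) := by
  obtain ⟨s, ⟨i, hi1, hi2⟩, hint⟩ := h
  obtain ⟨d, hsd, hd⟩ := h46_integral_inv A0 x hx s f hint
  refine ⟨s.reflect d, ⟨d - i, ?_⟩, hd⟩
  have hid : i ≤ d := (Polynomial.le_natDegree_of_ne_zero hi2).trans hsd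
  have hc : (s.reflect d).coeff (d - i) = s.coeff i := by
    rw [Polynomial.coeff_reflect, Polynomial.revAt_le (Nat.sub_le d i)]
    congr 1
    omega
  rw [hc]
  exact ⟨hi1, hi2⟩

end HvertInv


section Point

universe u

variable {F : Type*} [Field F] {ι : Type*}

/-- **(UNIT\*) at a closed point containing `q`**, from local equations (X2) and residue data
(X3) of the vertical valuations through the point. -/
theorem h46_point_unitStar (V : h80_ValFam F ι) (m : Ideal V.B) [hm : m.IsPrime]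
    [IsNoetherianRing V.B] (q : V.B) (hq0 : (q : F) ≠ 0) (hqm : q ∈ m)
    (hunr : ∀ i, V.v i (q : F) = 0 → ∃ f : V.B, (f : F) ≠ 0 ∧ V.v i f = 1)
    (hsep : ∀ i j, V.v i (q : F) = 0 → V.v j (q : F) = 0 → i ≠ j →
      ∃ f : V.B, (f : F) ≠ 0 ∧ 0 < V.v i f ∧ V.v j f = 0)
    (hX2 : ∀ c, V.Through m c → 0 < V.v c (q : F) →
      ∃ π : F, π ≠ 0 ∧ V.v c π = 1 ∧ ∀ k, V.Through m k → k ≠ c → V.v k π = 0)
    (hX3 : ∀ c, V.Through m c → 0 < V.v c (q : F) →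
      ∃ (Fb : Type u) (_ : Field Fb), Nonempty (h62_Res V m c Fb)) :
    h62_UnitStar V m := by
  obtain ⟨c₀, hc₀, hc₀q⟩ := h16_exists_through_pos V m q hqm hq0
  refine h62_rowU_unitStar V m (q : F) hq0 (fun k _ => h80_v_nonneg V k q hq0)
    (fun i _ hi => ?_) (fun i j _ _ hi hj hij => ?_) (fun c => 0 < V.v c (q : F))
    (fun c hc hE => hX2 c hc hE) (fun c c' _ _ hcq _ _ => Or.inl hcq)
    (fun c hc hcq => ?_) ⟨c₀, hc₀, hc₀q, hc₀q⟩ hX3
  · obtain ⟨f, hf0, hf1⟩ := hunr i hi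
    exact ⟨f, hf0, hf1, fun k _ => h80_v_nonneg V k f hf0⟩
  · obtain ⟨f, hf0, hf1, hf2⟩ := hsep i j hi hj hij
    exact ⟨f, hf0, hf1, hf2, fun k _ => h80_v_nonneg V k f hf0⟩
  · obtain ⟨π, hπ0, hπ1, -⟩ := hX2 c hc hcq
    exact ⟨π, hπ0, hπ1⟩

/-- **The point output**: `(UNIT*)` and the `(LOC)` scheme `hLG` of `h94_hnz_pts` at a closed
point containing `q`. -/
theorem h46_point_out (V : h80_ValFam F ι) (m : Ideal V.B) [hmax : m.IsMaximal]
    [IsNoetherianRing V.B] (q : V.B) (hq0 : (q : F) ≠ 0) (hqm : q ∈ m)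
    (hunr : ∀ i, V.v i (q : F) = 0 → ∃ f : V.B, (f : F) ≠ 0 ∧ V.v i f = 1)
    (hsep : ∀ i j, V.v i (q : F) = 0 → V.v j (q : F) = 0 → i ≠ j →
      ∃ f : V.B, (f : F) ≠ 0 ∧ 0 < V.v i f ∧ V.v j f = 0)
    (hX2 : ∀ c, V.Through m c → 0 < V.v c (q : F) →
      ∃ π : F, π ≠ 0 ∧ V.v c π = 1 ∧ ∀ k, V.Through m k → k ≠ c → V.v k π = 0)
    (hX3 : ∀ c, V.Through m c → 0 < V.v c (q : F) →
      ∃ (Fb : Type u) (_ : Field Fb), Nonempty (h62_Res V m c Fb))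
    (hfrac : ∀ f : F, ∃ c d : V.B, (d : F) ≠ 0 ∧ f * (d : F) = (c : F))
    {n : ℕ} (H1 : (n : F) ≠ 0 ∧ ∀ j, V.Through m j → V.v j (n : F) = 0)
    (H2 : ∀ s : V.B, s ∉ m → ∃ r : V.B, r ^ n - s ∈ m)
    (H3 : ∀ c0 : V.B, c0 ^ n - 1 ∈ m → ∃ ζ : V.B, ζ ^ n = 1 ∧ c0 - ζ ∈ m) :
    h62_UnitStar V m ∧
    ∀ e ω : F,
      (∀ c, V.Through m c → 0 < V.v c (q : F) → 0 ≤ V.v c e) →
      ω ≠ 0 → V.InLoc m ω → V.InLoc m ω⁻¹ →
      (∀ c, V.Through m c → 0 < V.v c (q : F) →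
        (e ^ n * ω = 1 ∨ V.v c (q : F) ≤ V.v c (e ^ n * ω - 1))) →
      ∃ (ζ : ι → F) (y : F),
        (∀ c, V.Through m c → 0 < V.v c (q : F) → V.InLoc m (ζ c) ∧ ζ c ^ n = 1) ∧
        y ≠ 0 ∧ V.InLoc m y ∧ V.InLoc m y⁻¹ ∧
        ∀ c, V.Through m c → 0 < V.v c (q : F) →
          (e = ζ c * y ∨ V.v c (q : F) ≤ V.v c (e - ζ c * y)) := by
  have hprime : m.IsPrime := hmax.isPrime
  have hU : h62_UnitStar V m := h46_point_unitStar V m q hq0 hqm hunr hsep hX2 hX3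
  exact ⟨hU, h94_hLG_of_point V m (q : F) hq0 (h16_exists_through_pos V m q hqm hq0) hU hX3 hfrac
    H1 H2 H3⟩

end Point

section Mod

universe u

variable (N : ℕ) [NeZero N] (q : ℕ) [Fact q.Prime] (A : ValuationSubring Qb)
  (hA : A.LiesOverPrime q)
variable {κ : Type*} [Finite κ] (w : κ → h69_F0 N (A.inertiaSubgroupIn ℚ) → ℤ)
  (hw_mul : ∀ c (f g : h69_F0 N (A.inertiaSubgroupIn ℚ)), f ≠ 0 → g ≠ 0 →
    w c (f * g) = w c f + w c g)
  (hw_add : ∀ c (f g : h69_F0 N (A.inertiaSubgroupIn ℚ)), f ≠ 0 → g ≠ 0 → f + g ≠ 0 →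
    min (w c f) (w c g) ≤ w c (f + g))
  (x0 : h69_F0 N (A.inertiaSubgroupIn ℚ))
  (hx : h75_IsChart Qb (x0 : modularFunctionFieldBar N))

local notation "VX" =>
  h80_famOf N (A.inertiaSubgroupIn ℚ) w hw_mul hw_add (x0 : modularFunctionFieldBar N) hx

include hA in
/-- **The point output at the modular level**: at a closed point `m ∋ q` of the chart ring of
the chart function `x0`, local equations (X2) and residue data (X3) of the vertical valuations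
through `m` give `(UNIT*)` and the `(LOC)` scheme for every `n` prime to `q`.  Inputs from the
other rows: `hwA`, `hwx` (I-VAL), noetherianity and the integrality `hint` (the two conclusions
of `h80_famOf_noeth`). -/
theorem h46_chart_point_out
    (hwA : ∀ c (a : h69_K0 (A.inertiaSubgroupIn ℚ)), a ∈ h69_A0 A → a ≠ 0 →
      0 ≤ w c (algebraMap (h69_K0 (A.inertiaSubgroupIn ℚ)) (h69_F0 N (A.inertiaSubgroupIn ℚ)) a))
    (hwx : ∀ c, 0 ≤ w c x0)
    (hqw : ∀ c, 0 < w c ((q : ℕ) : h69_F0 N (A.inertiaSubgroupIn ℚ)))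
    [IsNoetherianRing (VX).B]
    (hint : ∀ f ∈ (VX).B, (h97_ev (h69_A0 A).toSubring x0).IsIntegralElem f)
    (m : Ideal (VX).B) [hmax : m.IsMaximal] (hqm : ((q : ℕ) : (VX).B) ∈ m)
    (hX2 : ∀ c : κ, (VX).Through m (Sum.inl c) →
      ∃ π : h69_F0 N (A.inertiaSubgroupIn ℚ), π ≠ 0 ∧ (VX).v (Sum.inl c) π = 1 ∧
        ∀ k, (VX).Through m k → k ≠ Sum.inl c → (VX).v k π = 0)
    (hX3 : ∀ c : κ, (VX).Through m (Sum.inl c) →
      ∃ (Fb : Type u) (_ : Field Fb), Nonempty (h62_Res (VX) m (Sum.inl c) Fb))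
    {n : ℕ} (hn : ¬ q ∣ n) :
    h62_UnitStar (VX) m ∧
    ∀ e ω : h69_F0 N (A.inertiaSubgroupIn ℚ),
      (∀ c, (VX).Through m c → 0 < (VX).v c ((q : ℕ) : h69_F0 N (A.inertiaSubgroupIn ℚ)) →
        0 ≤ (VX).v c e) →
      ω ≠ 0 → (VX).InLoc m ω → (VX).InLoc m ω⁻¹ →
      (∀ c, (VX).Through m c → 0 < (VX).v c ((q : ℕ) : h69_F0 N (A.inertiaSubgroupIn ℚ)) →
        (e ^ n * ω = 1 ∨
          (VX).v c ((q : ℕ) : h69_F0 N (A.inertiaSubgroupIn ℚ)) ≤ (VX).v c (e ^ n * ω - 1))) →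
      ∃ (ζ : κ ⊕ h80_HorIdx (h80_horOrd N (A.inertiaSubgroupIn ℚ)
            (x0 : modularFunctionFieldBar N)) → h69_F0 N (A.inertiaSubgroupIn ℚ))
          (y : h69_F0 N (A.inertiaSubgroupIn ℚ)),
        (∀ c, (VX).Through m c → 0 < (VX).v c ((q : ℕ) : h69_F0 N (A.inertiaSubgroupIn ℚ)) →
          (VX).InLoc m (ζ c) ∧ ζ c ^ n = 1) ∧
        y ≠ 0 ∧ (VX).InLoc m y ∧ (VX).InLoc m y⁻¹ ∧
        ∀ c, (VX).Through m c → 0 < (VX).v c ((q : ℕ) : h69_F0 N (A.inertiaSubgroupIn ℚ)) →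
          (e = ζ c * y ∨
            (VX).v c ((q : ℕ) : h69_F0 N (A.inertiaSubgroupIn ℚ)) ≤ (VX).v c (e - ζ c * y)) := by
  have hq : q.Prime := Fact.out
  have hq0 : ((q : ℕ) : h69_F0 N (A.inertiaSubgroupIn ℚ)) ≠ 0 :=
    h89_natCast_ne_zero N (A.inertiaSubgroupIn ℚ) hq.ne_zero
  have hqh : ∀ P : Place Qb (modularFunctionFieldBar N),
      0 ≤ P.ord (x0 : modularFunctionFieldBar N) →
      P.ord (((q : ℕ) : h69_F0 N (A.inertiaSubgroupIn ℚ)) : modularFunctionFieldBar N) = 0 :=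
    fun P _ => h89_ord_natCast N (A.inertiaSubgroupIn ℚ) q P
  -- an index with `v q = 0` is horizontal, an index with `v q > 0` is vertical
  have hhor : ∀ i, (VX).v i ((q : ℕ) : h69_F0 N (A.inertiaSubgroupIn ℚ)) = 0 → h80_IsHor i := by
    intro i hi
    by_contra hcon
    obtain ⟨c, rfl⟩ := (h80_not_isHor_iff i).1 hcon
    have := hqw c
    rw [show (VX).v (Sum.inl c) ((q : ℕ) : h69_F0 N (A.inertiaSubgroupIn ℚ)) =
      w c ((q : ℕ) : h69_F0 N (A.inertiaSubgroupIn ℚ)) from rfl] at hi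
    omega
  have hver : ∀ i, 0 < (VX).v i ((q : ℕ) : h69_F0 N (A.inertiaSubgroupIn ℚ)) →
      ∃ c, i = Sum.inl c := by
    intro i hi
    rw [← h80_not_isHor_iff]
    intro hcon
    have h0 : (VX).v i ((q : ℕ) : h69_F0 N (A.inertiaSubgroupIn ℚ)) = 0 :=
      h89_fam_hq N (A.inertiaSubgroupIn ℚ) hx w hw_mul hw_add q i hcon
    omega
  have hAB : ∀ a : ↥(h69_A0 A).toSubring,
      algebraMap (h69_K0 (A.inertiaSubgroupIn ℚ)) (h69_F0 N (A.inertiaSubgroupIn ℚ)) a ∈ (VX).B :=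
    fun a => h89_const_mem_B N A x0 hx w hw_mul hw_add hwA a a.2
  have hxB : x0 ∈ (VX).B := h89_x0_mem_B N A x0 hx w hw_mul hw_add hwx
  have hn0 : n ≠ 0 := fun h => hn (h ▸ dvd_zero q)
  have key := h46_point_out (VX) m ((q : ℕ) : (VX).B) hq0 hqm
    (fun i hi => h80_famOf_hunr N (A.inertiaSubgroupIn ℚ) w hw_mul hw_add
      (x0 : modularFunctionFieldBar N) hx x0.2 _ hq0 hqh hqw i (hhor i hi))
    (fun i j hi hj hij => h80_famOf_hsep N (A.inertiaSubgroupIn ℚ) w hw_mul hw_add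
      (x0 : modularFunctionFieldBar N) hx x0.2 _ hq0 hqh hqw i j (hhor i hi) (hhor j hj) hij)
    (fun c hc hcq => by
      obtain ⟨c', rfl⟩ := hver c hcq
      exact hX2 c' hc)
    (fun c hc hcq => by
      obtain ⟨c', rfl⟩ := hver c hcq
      exact hX3 c' hc)
    (fun f => h89_fam_hfrac N (A.inertiaSubgroupIn ℚ) hx w hw_mul hw_add x0.2 hq.ne_zero hqw f)
    (n := n)
    (h75_pt_mod_H1 q A N (VX) m hqm hn)
    (h75_pt_mod_H2 q A hA N (VX) m hAB x0 hxB hint hqm hn0)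
    (h75_pt_mod_H3 q A hA N (VX) m hAB x0 hxB hint hqm hn)
  exact key

end Mod

section Chart2

universe u

variable (N : ℕ) [NeZero N] (q : ℕ) [Fact q.Prime] (A : ValuationSubring Qb)
  (hA : A.LiesOverPrime q)
variable {κ : Type*} [Finite κ] (w : κ → h69_F0 N (A.inertiaSubgroupIn ℚ) → ℤ)
  (hw_mul : ∀ c (f g : h69_F0 N (A.inertiaSubgroupIn ℚ)), f ≠ 0 → g ≠ 0 →
    w c (f * g) = w c f + w c g)
  (hw_add : ∀ c (f g : h69_F0 N (A.inertiaSubgroupIn ℚ)), f ≠ 0 → g ≠ 0 → f + g ≠ 0 →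
    min (w c f) (w c g) ≤ w c (f + g))

include hw_mul in
omit [NeZero N] [Fact q.Prime] [Finite κ] in
/-- A vertical unit has a vertical unit as inverse. -/
theorem h46_w_inv (x0 : h69_F0 N (A.inertiaSubgroupIn ℚ)) (hx0 : x0 ≠ 0) (c : κ)
    (h : w c x0 = 0) : w c x0⁻¹ = 0 := by
  have h1 : w c (1 : h69_F0 N (A.inertiaSubgroupIn ℚ)) = 0 := by
    have := hw_mul c 1 1 one_ne_zero one_ne_zero
    rw [mul_one] at this
    omega
  have h2 := hw_mul c x0 x0⁻¹ hx0 (inv_ne_zero hx0)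
  rw [mul_inv_cancel₀ hx0, h1, h] at h2
  omega

include hA in
/-- **The chart ring of the inverse chart is noetherian and integral over `A0[1/x0]`**, from
the vertical integrality `hvert` for the chart function `x0` itself (`w c x0 = 0`): the two
conclusions of `h80_famOf_noeth` for the chart function `x0⁻¹`. -/
theorem h46_inv_noeth (x0 : h69_F0 N (A.inertiaSubgroupIn ℚ))
    (hx' : h75_IsChart Qb ((x0⁻¹ : h69_F0 N (A.inertiaSubgroupIn ℚ)) : modularFunctionFieldBar N))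
    (hwA : ∀ c (a : h69_K0 (A.inertiaSubgroupIn ℚ)), a ∈ h69_A0 A → a ≠ 0 →
      0 ≤ w c (algebraMap (h69_K0 (A.inertiaSubgroupIn ℚ)) (h69_F0 N (A.inertiaSubgroupIn ℚ)) a))
    (hwx : ∀ c, w c x0 = 0)
    (hvert : ∀ f : h69_F0 N (A.inertiaSubgroupIn ℚ), f ≠ 0 → (∀ c, 0 ≤ w c f) →
      ∃ s : Polynomial (h69_A0 A).toSubring,
        (∃ i, (s.coeff i : h69_K0 (A.inertiaSubgroupIn ℚ))⁻¹ ∈ h69_A0 A ∧ s.coeff i ≠ 0) ∧
        (h97_ev (h69_A0 A).toSubring x0).IsIntegralElem (h97_ev (h69_A0 A).toSubring x0 s * f)) :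
    IsNoetherianRing
      (h80_famOf N (A.inertiaSubgroupIn ℚ) w hw_mul hw_add
        ((x0⁻¹ : h69_F0 N (A.inertiaSubgroupIn ℚ)) : modularFunctionFieldBar N) hx').B ∧
    ∀ f ∈ (h80_famOf N (A.inertiaSubgroupIn ℚ) w hw_mul hw_add
        ((x0⁻¹ : h69_F0 N (A.inertiaSubgroupIn ℚ)) : modularFunctionFieldBar N) hx').B,
      (h97_ev (h69_A0 A).toSubring x0⁻¹).IsIntegralElem f := by
  have hx0 : x0 ≠ 0 := by
    rintro rfl
    have h1 := hx'.ne_zero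
    rw [inv_zero] at h1
    exact h1 rfl
  exact h80_famOf_noeth N q A hA w hw_mul hw_add x0⁻¹ hx' hwA
    (fun c => (h46_w_inv N A w hw_mul x0 hx0 c (hwx c)).ge)
    (fun f hf hw => h46_hvert_inv (h69_A0 A).toSubring x0 hx0 f
      (fun a => (a : h69_K0 (A.inertiaSubgroupIn ℚ))⁻¹ ∈ h69_A0 A) (hvert f hf hw))

local notation "V2" => h80_fam2 N (A.inertiaSubgroupIn ℚ) w hw_mul hw_add

include hA in
/-- **Chart 2 is noetherian and integral over `A0[1/j]`**, from `hvert` for chart 1. -/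
theorem h46_fam2_noeth
    (hwA : ∀ c (a : h69_K0 (A.inertiaSubgroupIn ℚ)), a ∈ h69_A0 A → a ≠ 0 →
      0 ≤ w c (algebraMap (h69_K0 (A.inertiaSubgroupIn ℚ)) (h69_F0 N (A.inertiaSubgroupIn ℚ)) a))
    (hwj : ∀ c, w c ⟨h59_jbar N, h80_jbar_mem_F0 N (A.inertiaSubgroupIn ℚ)⟩ = 0)
    (hvert : ∀ f : h69_F0 N (A.inertiaSubgroupIn ℚ), f ≠ 0 → (∀ c, 0 ≤ w c f) →
      ∃ s : Polynomial (h69_A0 A).toSubring,
        (∃ i, (s.coeff i : h69_K0 (A.inertiaSubgroupIn ℚ))⁻¹ ∈ h69_A0 A ∧ s.coeff i ≠ 0) ∧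
        (h97_ev (h69_A0 A).toSubring
          (⟨h59_jbar N, h80_jbar_mem_F0 N (A.inertiaSubgroupIn ℚ)⟩ :
            h69_F0 N (A.inertiaSubgroupIn ℚ))).IsIntegralElem
          (h97_ev (h69_A0 A).toSubring
            (⟨h59_jbar N, h80_jbar_mem_F0 N (A.inertiaSubgroupIn ℚ)⟩ :
              h69_F0 N (A.inertiaSubgroupIn ℚ)) s * f)) :
    IsNoetherianRing (V2).B ∧
    ∀ f ∈ (V2).B, (h97_ev (h69_A0 A).toSubring
      (⟨h59_jbar N, h80_jbar_mem_F0 N (A.inertiaSubgroupIn ℚ)⟩ :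
        h69_F0 N (A.inertiaSubgroupIn ℚ))⁻¹).IsIntegralElem f :=
  h46_inv_noeth N q A hA w hw_mul hw_add
    ⟨h59_jbar N, h80_jbar_mem_F0 N (A.inertiaSubgroupIn ℚ)⟩
    (h75_isChart_inv (h54_isChart_jbar N)) hwA hwj hvert

include hA in
/-- **(CUSP-OUT)**: the binders `hU2` and `hLG2` of `h94_hnz_pts` for chart 2
(`V2 := h80_fam2 N I w ..`, `q0 := (q : F0)`), at every closed point of a class `cusp2` of points
containing `q`, from the per-point statements of I-CUSP: (X2) a local equation of every vertical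
valuation through the point, (X3) its residue datum.  (`hone2` of `h94_hnz_pts` is (X1) itself.)
`hvert` is the vertical integrality for chart 1 (binder of `h80_famOf_noeth` at `x0 = j`). -/
theorem h46_cusp_out
    (hwA : ∀ c (a : h69_K0 (A.inertiaSubgroupIn ℚ)), a ∈ h69_A0 A → a ≠ 0 →
      0 ≤ w c (algebraMap (h69_K0 (A.inertiaSubgroupIn ℚ)) (h69_F0 N (A.inertiaSubgroupIn ℚ)) a))
    (hwj : ∀ c, w c ⟨h59_jbar N, h80_jbar_mem_F0 N (A.inertiaSubgroupIn ℚ)⟩ = 0)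
    (hqw : ∀ c, 0 < w c ((q : ℕ) : h69_F0 N (A.inertiaSubgroupIn ℚ)))
    (hvert : ∀ f : h69_F0 N (A.inertiaSubgroupIn ℚ), f ≠ 0 → (∀ c, 0 ≤ w c f) →
      ∃ s : Polynomial (h69_A0 A).toSubring,
        (∃ i, (s.coeff i : h69_K0 (A.inertiaSubgroupIn ℚ))⁻¹ ∈ h69_A0 A ∧ s.coeff i ≠ 0) ∧
        (h97_ev (h69_A0 A).toSubring
          (⟨h59_jbar N, h80_jbar_mem_F0 N (A.inertiaSubgroupIn ℚ)⟩ :
            h69_F0 N (A.inertiaSubgroupIn ℚ))).IsIntegralElem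
          (h97_ev (h69_A0 A).toSubring
            (⟨h59_jbar N, h80_jbar_mem_F0 N (A.inertiaSubgroupIn ℚ)⟩ :
              h69_F0 N (A.inertiaSubgroupIn ℚ)) s * f))
    (cusp2 : Ideal (V2).B → Prop)
    (hcq : ∀ 𝔪 : Ideal (V2).B, 𝔪.IsMaximal → cusp2 𝔪 → ((q : ℕ) : (V2).B) ∈ 𝔪)
    (hX2 : ∀ 𝔪 : Ideal (V2).B, 𝔪.IsMaximal → cusp2 𝔪 → ∀ c : κ, (V2).Through 𝔪 (Sum.inl c) →
      ∃ π : h69_F0 N (A.inertiaSubgroupIn ℚ), π ≠ 0 ∧ (V2).v (Sum.inl c) π = 1 ∧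
        ∀ k, (V2).Through 𝔪 k → k ≠ Sum.inl c → (V2).v k π = 0)
    (hX3 : ∀ 𝔪 : Ideal (V2).B, 𝔪.IsMaximal → cusp2 𝔪 → ∀ c : κ, (V2).Through 𝔪 (Sum.inl c) →
      ∃ (Fb : Type u) (_ : Field Fb), Nonempty (h62_Res (V2) 𝔪 (Sum.inl c) Fb))
    {n : ℕ} (hn : ¬ q ∣ n) :
    (∀ 𝔪 : Ideal (V2).B, 𝔪.IsMaximal → cusp2 𝔪 → ∀ i, (V2).Through 𝔪 i →
      ∃ e : h69_F0 N (A.inertiaSubgroupIn ℚ), e ≠ 0 ∧ (V2).v i e = 1 ∧
        ∀ j, (V2).Through 𝔪 j → j ≠ i → (V2).v j e = 0) ∧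
    (∀ 𝔪 : Ideal (V2).B, 𝔪.IsMaximal → cusp2 𝔪 →
      ∀ e ω : h69_F0 N (A.inertiaSubgroupIn ℚ),
      (∀ c, (V2).Through 𝔪 c → 0 < (V2).v c ((q : ℕ) : h69_F0 N (A.inertiaSubgroupIn ℚ)) →
        0 ≤ (V2).v c e) →
      ω ≠ 0 → (V2).InLoc 𝔪 ω → (V2).InLoc 𝔪 ω⁻¹ →
      (∀ c, (V2).Through 𝔪 c → 0 < (V2).v c ((q : ℕ) : h69_F0 N (A.inertiaSubgroupIn ℚ)) →
        (e ^ n * ω = 1 ∨
          (V2).v c ((q : ℕ) : h69_F0 N (A.inertiaSubgroupIn ℚ)) ≤ (V2).v c (e ^ n * ω - 1))) →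
      ∃ (ζ : κ ⊕ h80_HorIdx (h80_horOrd N (A.inertiaSubgroupIn ℚ) (h59_jbar N)⁻¹) →
            h69_F0 N (A.inertiaSubgroupIn ℚ))
          (y : h69_F0 N (A.inertiaSubgroupIn ℚ)),
        (∀ c, (V2).Through 𝔪 c → 0 < (V2).v c ((q : ℕ) : h69_F0 N (A.inertiaSubgroupIn ℚ)) →
          (V2).InLoc 𝔪 (ζ c) ∧ ζ c ^ n = 1) ∧
        y ≠ 0 ∧ (V2).InLoc 𝔪 y ∧ (V2).InLoc 𝔪 y⁻¹ ∧
        ∀ c, (V2).Through 𝔪 c → 0 < (V2).v c ((q : ℕ) : h69_F0 N (A.inertiaSubgroupIn ℚ)) →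
          (e = ζ c * y ∨
            (V2).v c ((q : ℕ) : h69_F0 N (A.inertiaSubgroupIn ℚ)) ≤ (V2).v c (e - ζ c * y))) := by
  obtain ⟨hnoeth, hint⟩ := h46_inv_noeth N q A hA w hw_mul hw_add
    ⟨h59_jbar N, h80_jbar_mem_F0 N (A.inertiaSubgroupIn ℚ)⟩
    (h75_isChart_inv (h54_isChart_jbar N)) hwA hwj hvert
  have hj0 : (⟨h59_jbar N, h80_jbar_mem_F0 N (A.inertiaSubgroupIn ℚ)⟩ :
      h69_F0 N (A.inertiaSubgroupIn ℚ)) ≠ 0 := by
    intro h
    exact (h54_isChart_jbar N).ne_zero (congrArg Subtype.val h)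
  have hwx : ∀ c, 0 ≤ w c (⟨h59_jbar N, h80_jbar_mem_F0 N (A.inertiaSubgroupIn ℚ)⟩ :
      h69_F0 N (A.inertiaSubgroupIn ℚ))⁻¹ := fun c =>
    (h46_w_inv N A w hw_mul _ hj0 c (hwj c)).ge
  have key : ∀ 𝔪 : Ideal (V2).B, 𝔪.IsMaximal → cusp2 𝔪 → _ := fun 𝔪 hmax hc =>
    h46_chart_point_out N q A hA w hw_mul hw_add
      (⟨h59_jbar N, h80_jbar_mem_F0 N (A.inertiaSubgroupIn ℚ)⟩ :
        h69_F0 N (A.inertiaSubgroupIn ℚ))⁻¹
      (h75_isChart_inv (h54_isChart_jbar N)) hwA hwx hqw hint 𝔪 (hmax := hmax)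
      (hcq 𝔪 hmax hc) (hX2 𝔪 hmax hc) (hX3 𝔪 hmax hc) hn
  exact ⟨fun 𝔪 hmax hc => (key 𝔪 hmax hc).1, fun 𝔪 hmax hc => (key 𝔪 hmax hc).2⟩

end Chart2

end Fermat.Agent.S36
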