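import Mathlib
import Fermat.Agent.S36.h65_HorTable
import Fermat.Agent.S36.h89_ResK
import Fermat.Agent.S36.h97_Noeth

/-!
# S36 / I-PTS (HC-MOD), (HC4): the chart ring of level `N q` is integral over the image of the
chart ring of level `N` (helper65)

`A` a valuation subring of `ℚ̄` over `q`, `I` its inertia group, `K₀ = h69_K0 I`, `A₀ = h69_A0 A`;
`V₁ := h80_fam1 N I w₁ ..`, `V₂ := h80_fam1 (N * q) I w₂ ..`.

Generic (evaluation homs `h97_ev A0 x : A0[X] →+* F`):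

* `h65_ev_map`  : integrality over `A₀[x]` is transported by a ring hom fixing the constants;
* `h65_ev_to_subring` : integral over `A₀[φ x₁]` ⟹ integral over `φ(B₁)` when `B₁ ∋ x₁, A₀`;
* `h65_ev_trans` : transitivity.

Modular:

* `h65_hc_integral_a` : (HC4) along `α`, from `hint₂` = the second conclusion of
  `h80_famOf_noeth` at level `N q`;
* `h65_wJ_integral` : `w J` is integral over `A₀[J]` at level `M q`, from the second conclusion of
  `h80_famOf_noeth` at level `M q`;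
* `h65_j_integral_beta` : `j` is integral over `A₀[β J]` at level `M q q`;
* `h65_hc_integral_b` : (HC4) along `β`.
-/

set_option autoImplicit false
set_option linter.unusedSectionVars false

noncomputable section

open AlgebraicCurve ModularCurve Polynomial

namespace Fermat.Agent.S36

open Fermat.Agent.S18 Fermat.Agent.S24 Fermat.Agent.S27 Fermat.Agent.S34 Fermat.Agent.S37
open Fermat.Agent.S19

local notation "Qb" => AlgebraicClosure ℚ

/-! ### Generic: integrality over `A₀[x]` -/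

section Generic

variable {K0 F₁ F₂ : Type*} [Field K0] [Field F₁] [Field F₂] [Algebra K0 F₁] [Algebra K0 F₂]

/-- Integrality over `A₀[x]` is transported by a ring homomorphism fixing the constants. -/
theorem h65_ev_map (A0 : Subring K0) (σ : F₁ →+* F₂)
    (hσ : ∀ a : K0, σ (algebraMap K0 F₁ a) = algebraMap K0 F₂ a) (x f : F₁)
    (hf : (h97_ev A0 x).IsIntegralElem f) : (h97_ev A0 (σ x)).IsIntegralElem (σ f) := by
  obtain ⟨p, hp, hpf⟩ := hf
  refine ⟨p, hp, ?_⟩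
  have hcomp : σ.comp (h97_ev A0 x) = h97_ev A0 (σ x) := by
    apply Polynomial.ringHom_ext
    · intro a
      rw [RingHom.comp_apply, h97_ev_C, h97_ev_C, hσ]
    · rw [RingHom.comp_apply, h97_ev_X, h97_ev_X]
  rw [← hcomp, ← Polynomial.hom_eval₂, hpf, map_zero]

/-- An element integral over `A₀[φ x₁]` is integral over `φ(B₁)`, for a subring `B₁` containing
`x₁` and the constants of `A₀`. -/
theorem h65_ev_to_subring (A0 : Subring K0) (φ : F₁ →+* F₂)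
    (hφ : ∀ a : K0, φ (algebraMap K0 F₁ a) = algebraMap K0 F₂ a) (B₁ : Subring F₁)
    (hc : ∀ a : A0, algebraMap K0 F₁ (a : K0) ∈ B₁) (x₁ : F₁) (hx₁ : x₁ ∈ B₁) {f : F₂}
    (hf : (h97_ev A0 (φ x₁)).IsIntegralElem f) : (φ.comp B₁.subtype).IsIntegralElem f := by
  let cst : A0 →+* B₁ := ((algebraMap K0 F₁).comp A0.subtype).codRestrict B₁ hc
  let ρ : Polynomial A0 →+* B₁ := Polynomial.eval₂RingHom cst ⟨x₁, hx₁⟩
  have hcomp : (φ.comp B₁.subtype).comp ρ = h97_ev A0 (φ x₁) := by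
    apply Polynomial.ringHom_ext
    · intro a
      rw [RingHom.comp_apply, h97_ev_C]
      show φ (B₁.subtype (Polynomial.eval₂ cst ⟨x₁, hx₁⟩ (C a))) = _
      rw [Polynomial.eval₂_C]
      exact hφ a
    · rw [RingHom.comp_apply, h97_ev_X]
      show φ (B₁.subtype (Polynomial.eval₂ cst ⟨x₁, hx₁⟩ X)) = _
      rw [Polynomial.eval₂_X]
      rfl
  rw [← hcomp] at hf
  exact RingHom.IsIntegralElem.of_comp hf

/-- Transitivity: if `x` is integral over `A₀[y]` and `f` is integral over `A₀[x]`, then `f` is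
integral over `A₀[y]`. -/
theorem h65_ev_trans (A0 : Subring K0) (x y f : F₂) (hx : (h97_ev A0 y).IsIntegralElem x)
    (hf : (h97_ev A0 x).IsIntegralElem f) : (h97_ev A0 y).IsIntegralElem f := by
  letI : Algebra (Polynomial A0) F₂ := (h97_ev A0 y).toAlgebra
  have hx' : IsIntegral (Polynomial A0) x := hx
  have hcS : ∀ a : A0, algebraMap K0 F₂ (a : K0) ∈ integralClosure (Polynomial A0) F₂ := by
    intro a
    have h1 : algebraMap (Polynomial A0) F₂ (C a) = algebraMap K0 F₂ (a : K0) := h97_ev_C A0 y a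
    rw [← h1]
    exact Subalgebra.algebraMap_mem _ _
  have hev : ∀ p : Polynomial A0, h97_ev A0 x p ∈ integralClosure (Polynomial A0) F₂ := by
    intro p
    induction p using Polynomial.induction_on' with
    | add p q hp hq =>
      rw [map_add]
      exact Subalgebra.add_mem _ hp hq
    | monomial n a =>
      rw [← Polynomial.C_mul_X_pow_eq_monomial, map_mul, map_pow, h97_ev_C, h97_ev_X]
      exact Subalgebra.mul_mem _ (hcS a) (Subalgebra.pow_mem _ hx' n)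
  obtain ⟨P, hP, hPf⟩ := hf
  have hfS : IsIntegral (integralClosure (Polynomial A0) F₂) f := by
    let evS : Polynomial A0 →+* integralClosure (Polynomial A0) F₂ :=
      (h97_ev A0 x).codRestrict (integralClosure (Polynomial A0) F₂).toSubring hev
    refine ⟨P.map evS, hP.map evS, ?_⟩
    rw [Polynomial.eval₂_map]
    have h2 : (algebraMap (integralClosure (Polynomial A0) F₂) F₂).comp evS = h97_ev A0 x :=
      RingHom.ext fun p => rfl
    rw [h2]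
    exact hPf
  exact isIntegral_trans f hfS

end Generic

/-! ### The constants and `j` under the degeneracy maps -/

section Maps

variable (N q : ℕ) [NeZero N] [NeZero q] (H : Subgroup (Qb ≃ₐ[ℚ] Qb))

/-- `j` as an `H`-fixed function. -/
def h65_J0 : h69_F0 N H := ⟨h59_jbar N, h80_jbar_mem_F0 N H⟩

theorem h65_coe_J0 : ((h65_J0 N H : h69_F0 N H) : modularFunctionFieldBar N) = h59_jbar N := rfl

theorem h65_aF0_const (a : h69_K0 H) :
    h70_aF0 N q H (algebraMap (h69_K0 H) (h69_F0 N H) a) =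
      algebraMap (h69_K0 H) (h69_F0 (N * q) H) a :=
  Subtype.ext (AlgHom.commutes (heckeAlphaBar Qb N q) (a : Qb))

theorem h65_bF0_const (a : h69_K0 H) :
    h70_bF0 N q H (algebraMap (h69_K0 H) (h69_F0 N H) a) =
      algebraMap (h69_K0 H) (h69_F0 (N * q) H) a :=
  Subtype.ext (AlgHom.commutes (heckeBetaBar Qb N q) (a : Qb))

theorem h65_aF0_J0 : h70_aF0 N q H (h65_J0 N H) = h65_J0 (N * q) H :=
  Subtype.ext (h65_alpha_jbar N q)

end Maps

section Swap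

variable (M q : ℕ) [NeZero M] [NeZero q] [Fact q.Prime] (hqM : ¬ q ∣ M)
  (H : Subgroup (Qb ≃ₐ[ℚ] Qb))

/-- The Atkin-Lehner swap on `H`-fixed functions of level `M q`. -/
def h65_wF0 : h69_F0 (M * q) H →+* h69_F0 (M * q) H :=
  ((h60_w M q hqM).comp (h69_F0 (M * q) H).subtype).codRestrict (h69_F0 (M * q) H)
    (fun x σ hσ => by
      have h1 := h60_w_galois M q hqM σ (x : modularFunctionFieldBar (M * q))
      have h2 : arithmeticRingAut (modularFunctionFieldFull (M * q)) σ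
          (x : modularFunctionFieldBar (M * q)) = x := x.2 σ hσ
      rw [h2] at h1
      exact h1.symm)

theorem h65_coe_wF0 (g : h69_F0 (M * q) H) :
    ((h65_wF0 M q hqM H g : h69_F0 (M * q) H) : modularFunctionFieldBar (M * q)) =
      h60_w M q hqM (g : modularFunctionFieldBar (M * q)) := rfl

theorem h65_wF0_wF0 (g : h69_F0 (M * q) H) : h65_wF0 M q hqM H (h65_wF0 M q hqM H g) = g :=
  Subtype.ext (h60_w_w M q hqM _)

theorem h65_wF0_const (a : h69_K0 H) :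
    h65_wF0 M q hqM H (algebraMap (h69_K0 H) (h69_F0 (M * q) H) a) =
      algebraMap (h69_K0 H) (h69_F0 (M * q) H) a :=
  Subtype.ext (h60_w_algebraMap M q hqM (a : Qb))

/-- `α (w J) = β J` on `H`-fixed functions. -/
theorem h65_aF0_wJ0 :
    h70_aF0 (M * q) q H (h65_wF0 M q hqM H (h65_J0 (M * q) H)) =
      h70_bF0 (M * q) q H (h65_J0 (M * q) H) :=
  Subtype.ext (h65_alpha_wJ M q hqM)

end Swap

/-! ### (HC4) along `α` -/

section IntAlpha

variable (N q : ℕ) [NeZero N] [NeZero q] (A : ValuationSubring Qb)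
variable {κ₁ κ₂ : Type*} [Finite κ₁] [Finite κ₂]
  (w₁ : κ₁ → h69_F0 N (A.inertiaSubgroupIn ℚ) → ℤ)
  (hw₁m : ∀ c (f g : h69_F0 N (A.inertiaSubgroupIn ℚ)), f ≠ 0 → g ≠ 0 →
    w₁ c (f * g) = w₁ c f + w₁ c g)
  (hw₁a : ∀ c (f g : h69_F0 N (A.inertiaSubgroupIn ℚ)), f ≠ 0 → g ≠ 0 → f + g ≠ 0 →
    min (w₁ c f) (w₁ c g) ≤ w₁ c (f + g))
  (w₂ : κ₂ → h69_F0 (N * q) (A.inertiaSubgroupIn ℚ) → ℤ)
  (hw₂m : ∀ c (f g : h69_F0 (N * q) (A.inertiaSubgroupIn ℚ)), f ≠ 0 → g ≠ 0 →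
    w₂ c (f * g) = w₂ c f + w₂ c g)
  (hw₂a : ∀ c (f g : h69_F0 (N * q) (A.inertiaSubgroupIn ℚ)), f ≠ 0 → g ≠ 0 → f + g ≠ 0 →
    min (w₂ c f) (w₂ c g) ≤ w₂ c (f + g))

local notation "V₁" => h80_fam1 N (A.inertiaSubgroupIn ℚ) w₁ hw₁m hw₁a
local notation "V₂" => h80_fam1 (N * q) (A.inertiaSubgroupIn ℚ) w₂ hw₂m hw₂a

/-- The constants of `A₀` lie in the chart-1 ring. -/
theorem h65_const_mem_fam1
    (hwA₁ : ∀ c (a : h69_K0 (A.inertiaSubgroupIn ℚ)), a ∈ h69_A0 A → a ≠ 0 →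
      0 ≤ w₁ c (algebraMap (h69_K0 (A.inertiaSubgroupIn ℚ))
        (h69_F0 N (A.inertiaSubgroupIn ℚ)) a))
    (a : h69_K0 (A.inertiaSubgroupIn ℚ)) (ha : a ∈ h69_A0 A) :
    algebraMap (h69_K0 (A.inertiaSubgroupIn ℚ)) (h69_F0 N (A.inertiaSubgroupIn ℚ)) a ∈ (V₁).B :=
  h89_const_mem_B N A (h65_J0 N (A.inertiaSubgroupIn ℚ)) (h54_isChart_jbar N) w₁ hw₁m hw₁a
    hwA₁ a ha

/-- `j` lies in the chart-1 ring. -/
theorem h65_J0_mem_fam1 (hwx₁ : ∀ c, 0 ≤ w₁ c (h65_J0 N (A.inertiaSubgroupIn ℚ))) :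
    h65_J0 N (A.inertiaSubgroupIn ℚ) ∈ (V₁).B :=
  h89_x0_mem_B N A (h65_J0 N (A.inertiaSubgroupIn ℚ)) (h54_isChart_jbar N) w₁ hw₁m hw₁a hwx₁

/-- **(HC4), generic in the degeneracy map**: an element integral over `A₀[φ j]` is integral over
`φ(V₁.B)`. -/
theorem h65_hc_integral_gen
    (φ : h69_F0 N (A.inertiaSubgroupIn ℚ) →+* h69_F0 (N * q) (A.inertiaSubgroupIn ℚ))
    (hφc : ∀ a : h69_K0 (A.inertiaSubgroupIn ℚ),
      φ (algebraMap (h69_K0 (A.inertiaSubgroupIn ℚ)) (h69_F0 N (A.inertiaSubgroupIn ℚ)) a) =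
        algebraMap (h69_K0 (A.inertiaSubgroupIn ℚ)) (h69_F0 (N * q) (A.inertiaSubgroupIn ℚ)) a)
    (hwA₁ : ∀ c (a : h69_K0 (A.inertiaSubgroupIn ℚ)), a ∈ h69_A0 A → a ≠ 0 →
      0 ≤ w₁ c (algebraMap (h69_K0 (A.inertiaSubgroupIn ℚ))
        (h69_F0 N (A.inertiaSubgroupIn ℚ)) a))
    (hwx₁ : ∀ c, 0 ≤ w₁ c (h65_J0 N (A.inertiaSubgroupIn ℚ)))
    (f : h69_F0 (N * q) (A.inertiaSubgroupIn ℚ))
    (hf : (h97_ev (h69_A0 A).toSubring (φ (h65_J0 N (A.inertiaSubgroupIn ℚ)))).IsIntegralElem f) :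
    (φ.comp (V₁).B.subtype).IsIntegralElem f :=
  h65_ev_to_subring (h69_A0 A).toSubring φ hφc (V₁).B
    (fun a => h65_const_mem_fam1 N A w₁ hw₁m hw₁a hwA₁ a a.2)
    (h65_J0 N (A.inertiaSubgroupIn ℚ)) (h65_J0_mem_fam1 N A w₁ hw₁m hw₁a hwx₁) hf

/-- **(HC4) along `α`**: the chart ring of level `N q` is integral over the image of the chart
ring of level `N`; `hint₂` is the second conclusion of `h80_famOf_noeth` at level `N q`. -/
theorem h65_hc_integral_a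
    (hwA₁ : ∀ c (a : h69_K0 (A.inertiaSubgroupIn ℚ)), a ∈ h69_A0 A → a ≠ 0 →
      0 ≤ w₁ c (algebraMap (h69_K0 (A.inertiaSubgroupIn ℚ))
        (h69_F0 N (A.inertiaSubgroupIn ℚ)) a))
    (hwx₁ : ∀ c, 0 ≤ w₁ c (h65_J0 N (A.inertiaSubgroupIn ℚ)))
    (hint₂ : ∀ f ∈ (V₂).B, (h97_ev (h69_A0 A).toSubring
      (h65_J0 (N * q) (A.inertiaSubgroupIn ℚ))).IsIntegralElem f)
    (f : h69_F0 (N * q) (A.inertiaSubgroupIn ℚ)) (hf : f ∈ (V₂).B) :
    ((h70_aF0 N q (A.inertiaSubgroupIn ℚ)).comp (V₁).B.subtype).IsIntegralElem f := by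
  refine h65_hc_integral_gen N q A w₁ hw₁m hw₁a (h70_aF0 N q (A.inertiaSubgroupIn ℚ))
    (h65_aF0_const N q (A.inertiaSubgroupIn ℚ)) hwA₁ hwx₁ f ?_
  rw [h65_aF0_J0]
  exact hint₂ f hf

end IntAlpha

/-! ### (HC4) along `β` -/

section IntBeta

variable (M q : ℕ) [NeZero M] [NeZero q] [Fact q.Prime] (hqM : ¬ q ∣ M)
  (A : ValuationSubring Qb)
variable {κ₁ κ₂ : Type*} [Finite κ₁] [Finite κ₂]
  (w₁ : κ₁ → h69_F0 (M * q) (A.inertiaSubgroupIn ℚ) → ℤ)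
  (hw₁m : ∀ c (f g : h69_F0 (M * q) (A.inertiaSubgroupIn ℚ)), f ≠ 0 → g ≠ 0 →
    w₁ c (f * g) = w₁ c f + w₁ c g)
  (hw₁a : ∀ c (f g : h69_F0 (M * q) (A.inertiaSubgroupIn ℚ)), f ≠ 0 → g ≠ 0 → f + g ≠ 0 →
    min (w₁ c f) (w₁ c g) ≤ w₁ c (f + g))
  (w₂ : κ₂ → h69_F0 (M * q * q) (A.inertiaSubgroupIn ℚ) → ℤ)
  (hw₂m : ∀ c (f g : h69_F0 (M * q * q) (A.inertiaSubgroupIn ℚ)), f ≠ 0 → g ≠ 0 →
    w₂ c (f * g) = w₂ c f + w₂ c g)
  (hw₂a : ∀ c (f g : h69_F0 (M * q * q) (A.inertiaSubgroupIn ℚ)), f ≠ 0 → g ≠ 0 → f + g ≠ 0 →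
    min (w₂ c f) (w₂ c g) ≤ w₂ c (f + g))

local notation "V₁" => h80_fam1 (M * q) (A.inertiaSubgroupIn ℚ) w₁ hw₁m hw₁a
local notation "V₂" => h80_fam1 (M * q * q) (A.inertiaSubgroupIn ℚ) w₂ hw₂m hw₂a

/-- `w J` lies in the chart-1 ring of level `M q`. -/
theorem h65_wJ0_mem_fam1
    (hww₁ : ∀ c, 0 ≤ w₁ c (h65_wF0 M q hqM (A.inertiaSubgroupIn ℚ)
      (h65_J0 (M * q) (A.inertiaSubgroupIn ℚ)))) :
    h65_wF0 M q hqM (A.inertiaSubgroupIn ℚ) (h65_J0 (M * q) (A.inertiaSubgroupIn ℚ)) ∈ (V₁).B := by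
  unfold h80_fam1
  rw [h80_mem_famOf_B]
  right
  refine ⟨hww₁, fun P hP => ?_⟩
  have hJ0 := h65_jbar_ne_zero (M * q)
  have hwJ0 : h60_w M q hqM (h59_jbar (M * q)) ≠ 0 := by
    intro h
    have h2 := h60_w_w M q hqM (h59_jbar (M * q))
    rw [h, map_zero] at h2
    exact hJ0 h2.symm
  have h1 := h65_wJ_mem M q hqM P ((h35_mem_iff_ord_nonneg P hJ0).mpr hP)
  exact (h35_mem_iff_ord_nonneg P hwJ0).mp h1

/-- `w J` is integral over `A₀[J]` at level `M q`; `hint₁` is the second conclusion of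
`h80_famOf_noeth` at level `M q`. -/
theorem h65_wJ_integral
    (hww₁ : ∀ c, 0 ≤ w₁ c (h65_wF0 M q hqM (A.inertiaSubgroupIn ℚ)
      (h65_J0 (M * q) (A.inertiaSubgroupIn ℚ))))
    (hint₁ : ∀ f ∈ (V₁).B, (h97_ev (h69_A0 A).toSubring
      (h65_J0 (M * q) (A.inertiaSubgroupIn ℚ))).IsIntegralElem f) :
    (h97_ev (h69_A0 A).toSubring (h65_J0 (M * q) (A.inertiaSubgroupIn ℚ))).IsIntegralElem
      (h65_wF0 M q hqM (A.inertiaSubgroupIn ℚ) (h65_J0 (M * q) (A.inertiaSubgroupIn ℚ))) :=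
  hint₁ _ (h65_wJ0_mem_fam1 M q hqM A w₁ hw₁m hw₁a hww₁)

/-- `j` is integral over `A₀[β J]` at level `M q q`, if `w J` is integral over `A₀[J]` at level
`M q`. -/
theorem h65_j_integral_beta
    (hq : (h97_ev (h69_A0 A).toSubring (h65_J0 (M * q) (A.inertiaSubgroupIn ℚ))).IsIntegralElem
      (h65_wF0 M q hqM (A.inertiaSubgroupIn ℚ) (h65_J0 (M * q) (A.inertiaSubgroupIn ℚ)))) :
    (h97_ev (h69_A0 A).toSubring
      (h70_bF0 (M * q) q (A.inertiaSubgroupIn ℚ) (h65_J0 (M * q) (A.inertiaSubgroupIn ℚ)))).IsIntegralElem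
      (h65_J0 (M * q * q) (A.inertiaSubgroupIn ℚ)) := by
  have h1 := h65_ev_map (h69_A0 A).toSubring (h65_wF0 M q hqM (A.inertiaSubgroupIn ℚ))
    (h65_wF0_const M q hqM (A.inertiaSubgroupIn ℚ)) _ _ hq
  rw [h65_wF0_wF0] at h1
  have h2 := h65_ev_map (h69_A0 A).toSubring (h70_aF0 (M * q) q (A.inertiaSubgroupIn ℚ))
    (h65_aF0_const (M * q) q (A.inertiaSubgroupIn ℚ)) _ _ h1
  rw [h65_aF0_wJ0, h65_aF0_J0] at h2
  exact h2

/-- **(HC4) along `β`** (level `M q q`, `q ∤ M`): the chart ring of level `M q q` is integral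
over the image under `β` of the chart ring of level `M q`. -/
theorem h65_hc_integral_b
    (hwA₁ : ∀ c (a : h69_K0 (A.inertiaSubgroupIn ℚ)), a ∈ h69_A0 A → a ≠ 0 →
      0 ≤ w₁ c (algebraMap (h69_K0 (A.inertiaSubgroupIn ℚ))
        (h69_F0 (M * q) (A.inertiaSubgroupIn ℚ)) a))
    (hwx₁ : ∀ c, 0 ≤ w₁ c (h65_J0 (M * q) (A.inertiaSubgroupIn ℚ)))
    (hq : (h97_ev (h69_A0 A).toSubring (h65_J0 (M * q) (A.inertiaSubgroupIn ℚ))).IsIntegralElem
      (h65_wF0 M q hqM (A.inertiaSubgroupIn ℚ) (h65_J0 (M * q) (A.inertiaSubgroupIn ℚ))))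
    (hint₂ : ∀ f ∈ (V₂).B, (h97_ev (h69_A0 A).toSubring
      (h65_J0 (M * q * q) (A.inertiaSubgroupIn ℚ))).IsIntegralElem f)
    (f : h69_F0 (M * q * q) (A.inertiaSubgroupIn ℚ)) (hf : f ∈ (V₂).B) :
    ((h70_bF0 (M * q) q (A.inertiaSubgroupIn ℚ)).comp (V₁).B.subtype).IsIntegralElem f := by
  refine h65_hc_integral_gen (M * q) q A w₁ hw₁m hw₁a (h70_bF0 (M * q) q (A.inertiaSubgroupIn ℚ))
    (h65_bF0_const (M * q) q (A.inertiaSubgroupIn ℚ)) hwA₁ hwx₁ f ?_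
  exact h65_ev_trans (h69_A0 A).toSubring _ _ f (h65_j_integral_beta M q hqM A hq) (hint₂ f hf)

end IntBeta

end Fermat.Agent.S36
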