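import Mathlib
import Fermat.Agent.S34.h22_LatON

/-!
# S36 / lattice object (helper75): finitely generated lattices over a Gauss ring

`K` a field, `A` a valuation ring of `K`, `F` a field over `K`, `y ∈ F`, `V ⊆ K(y)` a *Gauss
ring* for `(A, y)` (`h75_Gauss`: a polynomial in `y` lies in `V` iff its coefficients lie in `A`,
and every nonzero polynomial in `y` is a constant times a unit of `V`).  Let `O` be a subring of
`F` which is a finitely generated `V`-module spanning `F` over `K(y)`.  Then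

* `h75_exists_fgFrame` : `O` is `V`-free: there is a `K(y)`-basis `b` of `F` with
  `f ∈ O ↔` all `b`-coordinates of `f` lie in `V`;
* `h75_lat` : for any reduction map `red : O →+* Rb` with kernel `𝔪_A O`, a lattice datum
  `h22_Lat K F k Rb` with `.A = A`, `.O = O`, `.red = red` (definitionally);
* `h75_lat_on` : it has orthonormal bases (`h22_ON`);
* `h75_lat_hinv` : an element of `O` with unit reduction is a unit of `O` (Nakayama).

No valuation on `F`, no reducedness of `Rb`, no rank-one or completeness hypothesis.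
-/

set_option autoImplicit false

noncomputable section

open IntermediateField Polynomial Module
open Fermat.Agent.S34

namespace Fermat.Agent.S36

variable {K F : Type*} [Field K] [Field F] [Algebra K F]

/-- `V` is a Gauss ring for `(A, y)`: `V ⊆ K(y)`, a polynomial in `y` is in `V` iff its
coefficients are in `A`, and every nonzero polynomial in `y` is a constant times a unit of `V`. -/
structure h75_Gauss (A : ValuationSubring K) (y : F) (V : Subring F) : Prop where
  sub : ∀ c : F, c ∈ V → c ∈ K⟮y⟯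
  gauss : ∀ p : K[X], aeval y p ∈ V ↔ ∀ i, p.coeff i ∈ A
  unit : ∀ p : K[X], aeval y p ≠ 0 → ∃ c : K, c ≠ 0 ∧ algebraMap K F c * aeval y p ∈ V ∧
    (algebraMap K F c * aeval y p)⁻¹ ∈ V

section Gauss

variable {A : ValuationSubring K} {y : F} {V : Subring F}

theorem h75_Gauss.const_mem_iff (hV : h75_Gauss A y V) (a : K) :
    algebraMap K F a ∈ V ↔ a ∈ A := by
  have h := hV.gauss (C a)
  rw [aeval_C] at h
  rw [h]
  constructor
  · intro h0
    simpa using h0 0
  · intro ha i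
    rw [coeff_C]
    split_ifs
    · exact ha
    · exact A.zero_mem

/-- every nonzero element of `K(y)` is a constant times a unit of `V` -/
theorem h75_Gauss.exists_const_unit (hV : h75_Gauss A y V) {c : F} (hc : c ∈ K⟮y⟯)
    (hc0 : c ≠ 0) :
    ∃ a : K, a ≠ 0 ∧ algebraMap K F a * c ∈ V ∧ (algebraMap K F a * c)⁻¹ ∈ V := by
  obtain ⟨r, s, rfl⟩ := (IntermediateField.mem_adjoin_simple_iff K c).mp hc
  have hr : aeval y r ≠ 0 := by
    intro h
    apply hc0
    rw [h, zero_div]
  have hs : aeval y s ≠ 0 := by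
    intro h
    apply hc0
    rw [h, div_zero]
  obtain ⟨a₁, ha₁, h1, h1'⟩ := hV.unit r hr
  obtain ⟨a₂, ha₂, h2, h2'⟩ := hV.unit s hs
  have ha₁F : algebraMap K F a₁ ≠ 0 := by
    rw [Ne, map_eq_zero]
    exact ha₁
  have ha₂F : algebraMap K F a₂ ≠ 0 := by
    rw [Ne, map_eq_zero]
    exact ha₂
  refine ⟨a₁ / a₂, div_ne_zero ha₁ ha₂, ?_, ?_⟩
  · have h3 : algebraMap K F (a₁ / a₂) * (aeval y r / aeval y s) =
        (algebraMap K F a₁ * aeval y r) * (algebraMap K F a₂ * aeval y s)⁻¹ := by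
      rw [map_div₀]
      field_simp
    rw [h3]
    exact V.mul_mem h1 h2'
  · have h3 : (algebraMap K F (a₁ / a₂) * (aeval y r / aeval y s))⁻¹ =
        (algebraMap K F a₁ * aeval y r)⁻¹ * (algebraMap K F a₂ * aeval y s) := by
      rw [map_div₀]
      field_simp
    rw [h3]
    exact V.mul_mem h1' h2

/-- `V` is a valuation ring of `K(y)` -/
theorem h75_Gauss.mem_or_inv_mem (hV : h75_Gauss A y V) {c : F} (hc : c ∈ K⟮y⟯) :
    c ∈ V ∨ c⁻¹ ∈ V := by
  by_cases hc0 : c = 0
  · left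
    rw [hc0]
    exact V.zero_mem
  obtain ⟨a, ha, h1, h2⟩ := hV.exists_const_unit hc hc0
  have haF : algebraMap K F a ≠ 0 := by
    rw [Ne, map_eq_zero]
    exact ha
  rcases A.mem_or_inv_mem a with h | h
  · right
    have h3 : c⁻¹ = algebraMap K F a * (algebraMap K F a * c)⁻¹ := by
      field_simp
    rw [h3]
    exact V.mul_mem ((hV.const_mem_iff a).mpr h) h2
  · left
    have h3 : c = algebraMap K F a⁻¹ * (algebraMap K F a * c) := by
      rw [map_inv₀]
      field_simp
    rw [h3]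
    exact V.mul_mem ((hV.const_mem_iff a⁻¹).mpr h) h1

/-- `V` as a valuation subring of `K(y)` -/
def h75_Gauss.val (hV : h75_Gauss A y V) : ValuationSubring K⟮y⟯ where
  carrier := {c | (c : F) ∈ V}
  mul_mem' := fun {a b} ha hb => by
    show ((a * b : K⟮y⟯) : F) ∈ V
    push_cast
    exact V.mul_mem ha hb
  one_mem' := by
    show ((1 : K⟮y⟯) : F) ∈ V
    push_cast
    exact V.one_mem
  add_mem' := fun {a b} ha hb => by
    show ((a + b : K⟮y⟯) : F) ∈ V
    push_cast
    exact V.add_mem ha hb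
  zero_mem' := by
    show ((0 : K⟮y⟯) : F) ∈ V
    push_cast
    exact V.zero_mem
  neg_mem' := fun {a} ha => by
    show ((-a : K⟮y⟯) : F) ∈ V
    push_cast
    exact V.neg_mem ha
  mem_or_inv_mem' := fun c => by
    rcases hV.mem_or_inv_mem c.2 with h | h
    · exact Or.inl h
    · right
      show ((c⁻¹ : K⟮y⟯) : F) ∈ V
      push_cast
      exact h

theorem h75_Gauss.mem_val (hV : h75_Gauss A y V) (c : K⟮y⟯) : c ∈ hV.val ↔ (c : F) ∈ V :=
  Iff.rfl

end Gauss

/-! ### The frame: a finitely generated lattice is free -/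

section Frame

variable {A : ValuationSubring K} {y : F} {V : Subring F}

/-- smul by `K(y)` is multiplication -/
theorem h75_smul_eq (c : K⟮y⟯) (f : F) : c • f = (c : F) * f := by
  rw [Algebra.smul_def, IntermediateField.algebraMap_apply]

/-- a pivot for a family in `K(y)`: an index whose coefficient divides all the others in `V` -/
theorem h75_exists_pivot (hV : h75_Gauss A y V) {n : ℕ} (c : Fin n → K⟮y⟯) (i₁ : Fin n)
    (hi₁ : c i₁ ≠ 0) :
    ∃ i₀ : Fin n, c i₀ ≠ 0 ∧ ∀ i, ((c i / c i₀ : K⟮y⟯) : F) ∈ V := by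
  obtain ⟨i₀, -, hi₀⟩ := Finset.exists_max_image Finset.univ (fun i => hV.val.valuation (c i))
    ⟨i₁, Finset.mem_univ _⟩
  have h0 : c i₀ ≠ 0 := by
    intro h
    have h1 := hi₀ i₁ (Finset.mem_univ _)
    rw [h, map_zero] at h1
    exact hi₁ ((map_eq_zero _).mp (le_antisymm h1 zero_le))
  refine ⟨i₀, h0, fun i => ?_⟩
  have h2 : hV.val.valuation (c i / c i₀) ≤ 1 := by
    rw [map_div₀]
    exact (div_le_one₀ (zero_lt_iff.mpr ((_root_.map_ne_zero _).mpr h0))).mpr (hi₀ i (Finset.mem_univ _))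
  exact (hV.mem_val _).mp ((hV.val.valuation_le_one_iff _).mp h2)

/-- the generating property of a family `e` for the `V`-module `O` -/
def h75_Gen (V O : Subring F) (y : F) (n : ℕ) : Prop :=
  ∃ e : Fin n → F, (∀ i, e i ∈ O) ∧
    ∀ f, f ∈ O → ∃ c : Fin n → K⟮y⟯, (∀ j, (c j : F) ∈ V) ∧ f = ∑ j, (c j : F) * e j

/-- **The frame of a finitely generated lattice**: if the subring `O` of `F` is generated as a
`V`-module by finitely many elements spanning `F` over `K(y)`, then there is a `K(y)`-basis `b`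
of `F` such that `f ∈ O` iff all `b`-coordinates of `f` lie in `V`. -/
theorem h75_exists_fgFrame (hV : h75_Gauss A y V) (O : Subring F) {ι : Type*} [Fintype ι]
    (g : ι → F)
    (hO : ∀ f, f ∈ O ↔ ∃ v : ι → F, (∀ j, v j ∈ V) ∧ f = ∑ j, v j * g j)
    (hspan : ∀ f : F, ∃ c : ι → F, (∀ j, c j ∈ K⟮y⟯) ∧ f = ∑ j, c j * g j) :
    ∃ (n : ℕ) (b : Module.Basis (Fin n) K⟮y⟯ F),
      ∀ f : F, f ∈ O ↔ ∀ i, ((b.repr f i : K⟮y⟯) : F) ∈ V := by
  classical
  have hgO : ∀ j, g j ∈ O := by
    intro j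
    rw [hO]
    refine ⟨fun i => if i = j then 1 else 0, fun i => ?_, ?_⟩
    · show (if i = j then (1 : F) else 0) ∈ V
      split_ifs
      · exact V.one_mem
      · exact V.zero_mem
    · simp
  have hVO : ∀ v, v ∈ V → v ∈ O := by
    intro v hv
    obtain ⟨w, hw, h1⟩ := (hO 1).mp O.one_mem
    rw [hO]
    refine ⟨fun j => v * w j, fun j => V.mul_mem hv (hw j), ?_⟩
    show v = ∑ j, v * w j * g j
    have h2 : ∑ j, v * w j * g j = v * ∑ j, w j * g j := by
      rw [Finset.mul_sum]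
      exact Finset.sum_congr rfl fun j _ => by ring
    rw [h2, ← h1, mul_one]
  -- a generating family exists
  have hex : ∃ n, h75_Gen (K := K) V O y n := by
    refine ⟨Fintype.card ι, fun i => g ((Fintype.equivFin ι).symm i), fun i => hgO _, ?_⟩
    intro f hf
    obtain ⟨v, hv, h1⟩ := (hO f).mp hf
    refine ⟨fun i => ⟨v ((Fintype.equivFin ι).symm i), hV.sub _ (hv _)⟩, fun i => hv _, ?_⟩
    rw [h1]
    exact (Equiv.sum_comp (Fintype.equivFin ι).symm (fun j => v j * g j)).symm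
  obtain ⟨n, hn, hmin⟩ : ∃ n, h75_Gen (K := K) V O y n ∧
      ∀ m, m < n → ¬ h75_Gen (K := K) V O y m :=
    ⟨Nat.find hex, Nat.find_spec hex, fun m hm => Nat.find_min hex hm⟩
  obtain ⟨e, heO, hgen⟩ := hn
  -- linear independence of a minimal generating family
  have hli : LinearIndependent K⟮y⟯ e := by
    rw [Fintype.linearIndependent_iff]
    intro c hc
    by_contra hne
    obtain ⟨i₁, hi₁⟩ := not_forall.mp hne
    obtain ⟨i₀, h0, hpiv⟩ := h75_exists_pivot hV c i₁ hi₁
    rcases n with _ | m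
    · exact i₀.elim0
    refine hmin m (Nat.lt_succ_self m) ⟨fun j => e (i₀.succAbove j), fun j => heO _, ?_⟩
    intro f hf
    obtain ⟨d, hd, hfd⟩ := hgen f hf
    refine ⟨fun j => d (i₀.succAbove j) - d i₀ * (c (i₀.succAbove j) / c i₀), fun j => ?_, ?_⟩
    · push_cast
      refine V.sub_mem (hd _) (V.mul_mem (hd _) ?_)
      have := hpiv (i₀.succAbove j)
      push_cast at this
      exact this
    · have h0F : (c i₀ : F) ≠ 0 := by
        intro h
        exact h0 (Subtype.ext h)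
      have hrel : (c i₀ : F) * e i₀ + ∑ j, (c (i₀.succAbove j) : F) * e (i₀.succAbove j) = 0 := by
        rw [← hc, Fin.sum_univ_succAbove _ i₀]
        simp only [h75_smul_eq]
      have he0 : e i₀ = -(∑ j, (c (i₀.succAbove j) : F) * e (i₀.succAbove j)) / (c i₀ : F) := by
        rw [eq_div_iff h0F]
        linear_combination hrel
      rw [hfd, Fin.sum_univ_succAbove _ i₀, he0]
      push_cast
      simp only [sub_mul, Finset.sum_sub_distrib]
      have h5 : ∑ j, (d i₀ : F) * ((c (i₀.succAbove j) : F) / (c i₀ : F)) * e (i₀.succAbove j) =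
          (d i₀ : F) / (c i₀ : F) * ∑ j, (c (i₀.succAbove j) : F) * e (i₀.succAbove j) := by
        rw [Finset.mul_sum]
        refine Finset.sum_congr rfl fun j _ => ?_
        ring
      rw [h5]
      ring
  -- spanning
  have hsp : ⊤ ≤ Submodule.span K⟮y⟯ (Set.range e) := by
    intro f _
    obtain ⟨c, hc, rfl⟩ := hspan f
    refine Submodule.sum_mem _ fun j _ => ?_
    obtain ⟨d, -, hd⟩ := hgen (g j) (hgO j)
    have h1 : c j * g j = (⟨c j, hc j⟩ : K⟮y⟯) • ∑ i, d i • e i := by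
      rw [h75_smul_eq, hd]
      simp only [h75_smul_eq]
    rw [h1]
    exact Submodule.smul_mem _ _ (Submodule.sum_mem _ fun i _ =>
      Submodule.smul_mem _ _ (Submodule.subset_span ⟨i, rfl⟩))
  refine ⟨n, Module.Basis.mk hli hsp, fun f => ⟨fun hf i => ?_, fun h => ?_⟩⟩
  · obtain ⟨d, hd, hfd⟩ := hgen f hf
    have h1 : f = ∑ i, d i • (Module.Basis.mk hli hsp) i := by
      rw [hfd]
      simp only [h75_smul_eq, Module.Basis.coe_mk]
    have h2 : ⇑((Module.Basis.mk hli hsp).repr f) = d := by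
      rw [h1]
      exact (Module.Basis.mk hli hsp).repr_sum_self d
    rw [congrFun h2 i]
    exact hd i
  · rw [← (Module.Basis.mk hli hsp).sum_repr f]
    refine O.sum_mem fun i _ => ?_
    rw [h75_smul_eq, Module.Basis.coe_mk]
    exact O.mul_mem (hVO _ (h i)) (heO i)

end Frame

/-! ### Consequences of a frame -/

section FrameCalc

variable {A : ValuationSubring K} {y : F} {V : Subring F}

theorem h75_aeval_mem (y : F) (p : K[X]) : aeval y p ∈ K⟮y⟯ := by
  rw [IntermediateField.mem_adjoin_simple_iff]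
  exact ⟨p, 1, by rw [map_one, div_one]⟩

theorem h75_algebraMap_mem (y : F) (a : K) : algebraMap K F a ∈ K⟮y⟯ :=
  K⟮y⟯.algebraMap_mem a

theorem h75_frame_repr_mul {n : ℕ} (b : Module.Basis (Fin n) K⟮y⟯ F) (c : K⟮y⟯) (f : F)
    (i : Fin n) : b.repr ((c : F) * f) i = c * b.repr f i := by
  rw [← h75_smul_eq, map_smul, Finsupp.smul_apply, smul_eq_mul]

/-- a nonunit constant does not divide a unit of `V` in `V` -/
theorem h75_nonunit_not_dvd (hV : h75_Gauss A y V) {a : K} (ha : a ∈ A.nonunits) {u v : F}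
    (hu : u⁻¹ ∈ V) (hv : v ∈ V) (hu0 : u ≠ 0) (h : u = algebraMap K F a * v) : False := by
  have ha0 : a ≠ 0 := by
    rintro rfl
    rw [map_zero, zero_mul] at h
    exact hu0 h
  have hv0 : v ≠ 0 := by
    rintro rfl
    rw [mul_zero] at h
    exact hu0 h
  have haF : algebraMap K F a ≠ 0 := by
    rw [Ne, map_eq_zero]
    exact ha0
  have h1 : algebraMap K F a⁻¹ = v * u⁻¹ := by
    rw [map_inv₀, h]
    field_simp
  have h2 : a⁻¹ ∈ A := by
    rw [← hV.const_mem_iff, h1]
    exact V.mul_mem hv hu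
  rw [ValuationSubring.mem_nonunits_iff_exists_mem_maximalIdeal] at ha
  obtain ⟨haA, ha⟩ := ha
  apply ha
  exact isUnit_iff_exists_inv.mpr ⟨⟨a⁻¹, h2⟩, Subtype.ext (mul_inv_cancel₀ ha0)⟩

variable (hV : h75_Gauss A y V) (O : Subring F) {n : ℕ} (b : Module.Basis (Fin n) K⟮y⟯ F)
  (hb : ∀ f : F, f ∈ O ↔ ∀ i, ((b.repr f i : K⟮y⟯) : F) ∈ V)

include hV hb

/-- `V ⊆ O` -/
theorem h75_frame_V_le {v : F} (hv : v ∈ V) : v ∈ O := by
  rw [hb]
  intro i
  have h1 := h75_frame_repr_mul b ⟨v, hV.sub v hv⟩ 1 i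
  rw [mul_one] at h1
  rw [h1]
  push_cast
  exact V.mul_mem hv ((hb 1).mp O.one_mem i)

/-- `V · O ⊆ O` -/
theorem h75_frame_V_mul {v f : F} (hv : v ∈ V) (hf : f ∈ O) : v * f ∈ O :=
  O.mul_mem (h75_frame_V_le hV O b hb hv) hf

omit hV in
/-- the frame lies in `O` -/
theorem h75_frame_basis_mem (i : Fin n) : b i ∈ O := by
  rw [hb]
  intro j
  rw [b.repr_self, Finsupp.single_apply]
  split_ifs
  · push_cast
    exact V.one_mem
  · push_cast
    exact V.zero_mem

omit hV in
/-- `O ∩ K(y) ⊆ V` -/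
theorem h75_frame_mem_V {c : F} (hc : c ∈ K⟮y⟯) (hcO : c ∈ O) : c ∈ V := by
  obtain ⟨i⟩ := b.index_nonempty
  have h1 := (hb (c * b i)).mp (O.mul_mem hcO (h75_frame_basis_mem O b hb i)) i
  have h2 := h75_frame_repr_mul b ⟨c, hc⟩ (b i) i
  rw [b.repr_self, Finsupp.single_eq_same, mul_one] at h2
  rw [h2] at h1
  exact h1

theorem h75_frame_mem_iff {c : F} (hc : c ∈ K⟮y⟯) : c ∈ O ↔ c ∈ V :=
  ⟨h75_frame_mem_V O b hb hc, h75_frame_V_le hV O b hb⟩

/-- the Gauss lemma for `O` -/
theorem h75_frame_gauss (p : K[X]) : aeval y p ∈ O ↔ ∀ i, p.coeff i ∈ A := by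
  rw [h75_frame_mem_iff hV O b hb (h75_aeval_mem y p)]
  exact hV.gauss p

/-- every nonzero polynomial in `y` is a constant times a unit of `O` -/
theorem h75_frame_unit (p : K[X]) (hp : aeval y p ≠ 0) :
    ∃ c : K, c ≠ 0 ∧ algebraMap K F c * aeval y p ∈ O ∧
      (algebraMap K F c * aeval y p)⁻¹ ∈ O := by
  obtain ⟨c, hc, h1, h2⟩ := hV.unit p hp
  exact ⟨c, hc, h75_frame_V_le hV O b hb h1, h75_frame_V_le hV O b hb h2⟩

/-- `O ∩ K = A` -/
theorem h75_frame_const_mem_iff (a : K) : a ∈ A ↔ algebraMap K F a ∈ O := by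
  rw [h75_frame_mem_iff hV O b hb (h75_algebraMap_mem y a)]
  exact (hV.const_mem_iff a).symm

/-- coordinates are integral on `O` -/
theorem h75_frame_coord_mem_iff (f : F) :
    f ∈ O ↔ ∀ i, ((b.repr f i : K⟮y⟯) : F) ∈ O := by
  rw [hb]
  exact forall_congr' fun i => (h75_frame_mem_iff hV O b hb (b.repr f i).2).symm

/-- the sup-norm is attained on `O` -/
theorem h75_frame_exists_scale (f : F) (hf : f ≠ 0) :
    ∃ c : K, c ≠ 0 ∧ algebraMap K F c * f ∈ O ∧
      ¬ ∃ a : K, a ∈ A.nonunits ∧ ∃ g : F, g ∈ O ∧ algebraMap K F c * f = algebraMap K F a * g := by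
  have hex : ∃ i₁, b.repr f i₁ ≠ 0 := by
    by_contra h
    apply hf
    have h0 : b.repr f = 0 := Finsupp.ext fun i => not_not.mp fun hi => h ⟨i, hi⟩
    exact (LinearEquiv.map_eq_zero_iff b.repr).mp h0
  obtain ⟨i₁, hi₁⟩ := hex
  obtain ⟨i₀, h0, hpiv⟩ := h75_exists_pivot hV (fun i => b.repr f i) i₁ hi₁
  have h0F : ((b.repr f i₀ : K⟮y⟯) : F) ≠ 0 := by
    intro h
    exact h0 (Subtype.ext h)
  obtain ⟨a, ha, hu, hu'⟩ := hV.exists_const_unit (b.repr f i₀).2 h0F
  have hcoord : ∀ i, ((b.repr (algebraMap K F a * f) i : K⟮y⟯) : F) =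
      algebraMap K F a * ((b.repr f i : K⟮y⟯) : F) := by
    intro i
    have h1 := h75_frame_repr_mul b ⟨algebraMap K F a, h75_algebraMap_mem y a⟩ f i
    rw [h1]
    push_cast
    rfl
  have haf : algebraMap K F a * f ∈ O := by
    rw [hb]
    intro i
    rw [hcoord]
    have h2 : algebraMap K F a * ((b.repr f i : K⟮y⟯) : F) =
        (algebraMap K F a * ((b.repr f i₀ : K⟮y⟯) : F)) *
          (((b.repr f i / b.repr f i₀ : K⟮y⟯) : K⟮y⟯) : F) := by
      push_cast
      field_simp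
    rw [h2]
    exact V.mul_mem hu (hpiv i)
  refine ⟨a, ha, haf, ?_⟩
  rintro ⟨a', ha', g, hg, hfg⟩
  have h3 : ((b.repr (algebraMap K F a * f) i₀ : K⟮y⟯) : F) =
      algebraMap K F a' * ((b.repr g i₀ : K⟮y⟯) : F) := by
    rw [hfg]
    have h1 := h75_frame_repr_mul b ⟨algebraMap K F a', h75_algebraMap_mem y a'⟩ g i₀
    rw [h1]
    push_cast
    rfl
  rw [hcoord] at h3
  refine h75_nonunit_not_dvd hV ha' hu' ((hb g).mp hg i₀) ?_ h3
  have haF : algebraMap K F a ≠ 0 := by
    rw [Ne, map_eq_zero]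
    exact ha
  exact mul_ne_zero haF h0F

end FrameCalc

/-! ### The lattice datum -/

section Lat

variable {A : ValuationSubring K} {y : F} {V : Subring F}
variable {k Rb : Type*} [Field k] [CommRing Rb] [Algebra k Rb]

/-- **The lattice datum of a finitely generated lattice** `O` over the Gauss ring `V`, for a
reduction map `red` with kernel `𝔪_A O`.  The fields `A`, `O`, `res`, `red` are the given ones
(definitionally). -/
def h75_lat (hV : h75_Gauss A y V) (O : Subring F)
    (hfr : ∃ (n : ℕ) (b : Module.Basis (Fin n) K⟮y⟯ F),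
      ∀ f : F, f ∈ O ↔ ∀ i, ((b.repr f i : K⟮y⟯) : F) ∈ V)
    (res : A →+* k) (hres : Function.Surjective res) (red : O →+* Rb)
    (hred : ∀ (a : K) (ha : a ∈ A) (ha' : algebraMap K F a ∈ O),
      red ⟨algebraMap K F a, ha'⟩ = algebraMap k Rb (res ⟨a, ha⟩))
    (hker : ∀ (f : F) (hf : f ∈ O), red ⟨f, hf⟩ = 0 →
      ∃ a : K, a ∈ A.nonunits ∧ ∃ g : F, g ∈ O ∧ f = algebraMap K F a * g) :
    h22_Lat K F k Rb where
  A := A
  O := O
  res := res
  red := red
  res_surjective := hres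
  mem_iff := fun a => by
    obtain ⟨n, b, hb⟩ := hfr
    exact h75_frame_const_mem_iff hV O b hb a
  red_algebraMap := hred
  exists_scale := fun f hf => by
    obtain ⟨n, b, hb⟩ := hfr
    obtain ⟨c, hc, h1, h2⟩ := h75_frame_exists_scale hV O b hb f hf
    exact ⟨c, hc, h1, fun h0 => h2 (hker _ h1 h0)⟩
  ker := hker

variable (hV : h75_Gauss A y V) (O : Subring F)
  (hfr : ∃ (n : ℕ) (b : Module.Basis (Fin n) K⟮y⟯ F),
    ∀ f : F, f ∈ O ↔ ∀ i, ((b.repr f i : K⟮y⟯) : F) ∈ V)
  (res : A →+* k) (hres : Function.Surjective res) (red : O →+* Rb)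
  (hred : ∀ (a : K) (ha : a ∈ A) (ha' : algebraMap K F a ∈ O),
    red ⟨algebraMap K F a, ha'⟩ = algebraMap k Rb (res ⟨a, ha⟩))
  (hker : ∀ (f : F) (hf : f ∈ O), red ⟨f, hf⟩ = 0 →
    ∃ a : K, a ∈ A.nonunits ∧ ∃ g : F, g ∈ O ∧ f = algebraMap K F a * g)

theorem h75_lat_A : (h75_lat hV O hfr res hres red hred hker).A = A := rfl

theorem h75_lat_O : (h75_lat hV O hfr res hres red hred hker).O = O := rfl

theorem h75_lat_res : (h75_lat hV O hfr res hres red hred hker).res = res := rfl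

theorem h75_lat_red : (h75_lat hV O hfr res hres red hred hker).red = red := rfl

/-- **(ON)** for a finitely generated lattice. -/
theorem h75_lat_on : h22_ON (h75_lat hV O hfr res hres red hred hker) := by
  obtain ⟨n, b, hb⟩ := id hfr
  exact h22_on_of_basis (h75_lat hV O hfr res hres red hred hker)
    (x := y) (h75_frame_gauss hV O b hb) (h75_frame_unit hV O b hb) b
    (h75_frame_coord_mem_iff hV O b hb)

end Lat

/-! ### `hinv`: Nakayama -/

section Inv

variable {A : ValuationSubring K} {y : F} {V : Subring F}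

/-- `1 + a v` is a unit of `V` for a nonunit constant `a` and `v ∈ V` -/
theorem h75_Gauss.one_add_inv_mem (hV : h75_Gauss A y V) {a : K} (ha : a ∈ A.nonunits) {v : F}
    (hv : v ∈ V) : (algebraMap K F a * v + 1)⁻¹ ∈ V := by
  have haV : algebraMap K F a ∈ V :=
    (hV.const_mem_iff a).mpr (ValuationSubring.mem_nonunits_iff_exists_mem_maximalIdeal.mp ha).1
  have hav : algebraMap K F a * v ∈ V := V.mul_mem haV hv
  set c : K⟮y⟯ := ⟨algebraMap K F a * v, hV.sub _ hav⟩ with hc
  have h1 : hV.val.valuation c < 1 := by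
    refine lt_of_le_of_ne ((hV.val.valuation_le_one_iff c).mpr hav) fun h => ?_
    have hc0 : c ≠ 0 := by
      intro h0
      rw [h0, map_zero] at h
      exact zero_ne_one h
    have h2 : hV.val.valuation c⁻¹ ≤ 1 := by
      rw [map_inv₀, h, inv_one]
    have h3 : ((c⁻¹ : K⟮y⟯) : F) ∈ V := (hV.val.valuation_le_one_iff _).mp h2
    push_cast at h3
    refine h75_nonunit_not_dvd hV ha h3 hv (fun h0 => hc0 (Subtype.ext h0)) rfl
  have h4 : hV.val.valuation (1 + c) = 1 := Valuation.map_one_add_of_lt _ h1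
  have h5 : hV.val.valuation (1 + c)⁻¹ ≤ 1 := by
    rw [map_inv₀, h4, inv_one]
  have h6 : (((1 + c)⁻¹ : K⟮y⟯) : F) ∈ V := (hV.val.valuation_le_one_iff _).mp h5
  push_cast at h6
  rw [add_comm]
  exact h6

variable (hV : h75_Gauss A y V) (O : Subring F) {n : ℕ} (b : Module.Basis (Fin n) K⟮y⟯ F)
  (hb : ∀ f : F, f ∈ O ↔ ∀ i, ((b.repr f i : K⟮y⟯) : F) ∈ V)

include hV hb

/-- **Nakayama**: `1 + a h` is a unit of `O` for a nonunit constant `a` and `h ∈ O`. -/
theorem h75_frame_one_add_unit {a : K} (ha : a ∈ A.nonunits) {h : F} (hh : h ∈ O) :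
    ∃ w : F, w ∈ O ∧ (1 + algebraMap K F a * h) * w = 1 := by
  have haV : algebraMap K F a ∈ V :=
    (hV.const_mem_iff a).mpr (ValuationSubring.mem_nonunits_iff_exists_mem_maximalIdeal.mp ha).1
  -- `O` as a `V`-submodule of `F`
  let N' : Submodule V F :=
    { carrier := O
      add_mem' := fun hx hy => O.add_mem hx hy
      zero_mem' := O.zero_mem
      smul_mem' := fun c x hx => by
        show c • x ∈ O
        rw [Subring.smul_def, smul_eq_mul]
        exact h75_frame_V_mul hV O b hb c.2 hx }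
  have hN'mem : ∀ x, x ∈ N' ↔ x ∈ O := fun x => Iff.rfl
  have hfg : N'.FG := by
    rw [Submodule.fg_def]
    refine ⟨Set.range b, Set.finite_range b, le_antisymm ?_ ?_⟩
    · rw [Submodule.span_le]
      rintro _ ⟨i, rfl⟩
      exact h75_frame_basis_mem O b hb i
    · intro f hf
      rw [← b.sum_repr f]
      refine Submodule.sum_mem _ fun i _ => ?_
      have h1 : b.repr f i • b i = (⟨((b.repr f i : K⟮y⟯) : F), (hb f).mp hf i⟩ : V) • b i := by
        rw [h75_smul_eq, Subring.smul_def, smul_eq_mul]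
      rw [h1]
      exact Submodule.smul_mem _ _ (Submodule.subset_span ⟨i, rfl⟩)
  let u : F := 1 + algebraMap K F a * h
  let N : Submodule V F := Submodule.map (LinearMap.mulLeft V u) N'
  let I : Ideal V := Ideal.span {(⟨algebraMap K F a, haV⟩ : V)}
  have hI : I ≤ (⊥ : Ideal V).jacobson := by
    rw [Ideal.span_singleton_le_iff_mem, Ideal.mem_jacobson_bot]
    intro v
    refine isUnit_iff_exists_inv.mpr ⟨⟨_, hV.one_add_inv_mem ha v.2⟩, Subtype.ext ?_⟩
    have h0 : algebraMap K F a * (v : F) + 1 ≠ 0 := by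
      intro h0
      have h1 : (-1 : F) = algebraMap K F a * (v : F) := by linear_combination -h0
      refine h75_nonunit_not_dvd hV ha ?_ v.2 (neg_ne_zero.mpr one_ne_zero) h1
      rw [inv_neg, inv_one]
      exact V.neg_mem V.one_mem
    push_cast
    exact mul_inv_cancel₀ h0
  have hN : N' ≤ N ⊔ I • N' := by
    intro x hx
    have h1 : x = LinearMap.mulLeft V u x + (⟨algebraMap K F a, haV⟩ : V) • (-(h * x)) := by
      rw [LinearMap.mulLeft_apply, Subring.smul_def, smul_eq_mul]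
      show x = (1 + algebraMap K F a * h) * x + algebraMap K F a * (-(h * x))
      ring
    rw [h1]
    exact Submodule.add_mem_sup (Submodule.mem_map_of_mem hx)
      (Submodule.smul_mem_smul (Ideal.mem_span_singleton_self _)
        (N'.neg_mem ((hN'mem _).mpr (O.mul_mem hh hx))))
  have h2 := Submodule.le_of_le_smul_of_le_jacobson_bot hfg hI hN ((hN'mem 1).mpr O.one_mem)
  obtain ⟨w, hw, hw1⟩ := Submodule.mem_map.mp h2
  exact ⟨w, hw, hw1⟩

end Inv

section LatInv

variable {A : ValuationSubring K} {y : F} {V : Subring F}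
variable {k Rb : Type*} [Field k] [CommRing Rb] [Algebra k Rb]
variable (hV : h75_Gauss A y V) (O : Subring F)
  (hfr : ∃ (n : ℕ) (b : Module.Basis (Fin n) K⟮y⟯ F),
    ∀ f : F, f ∈ O ↔ ∀ i, ((b.repr f i : K⟮y⟯) : F) ∈ V)
  (res : A →+* k) (hres : Function.Surjective res) (red : O →+* Rb)
  (hred : ∀ (a : K) (ha : a ∈ A) (ha' : algebraMap K F a ∈ O),
    red ⟨algebraMap K F a, ha'⟩ = algebraMap k Rb (res ⟨a, ha⟩))
  (hker : ∀ (f : F) (hf : f ∈ O), red ⟨f, hf⟩ = 0 →
    ∃ a : K, a ∈ A.nonunits ∧ ∃ g : F, g ∈ O ∧ f = algebraMap K F a * g)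

/-- **`hinv`** for a finitely generated lattice (the reduction ring may be non-reduced): an
element of `O` whose reduction is a unit is a unit of `O`. -/
theorem h75_lat_hinv (hsurj : Function.Surjective red) (f : F)
    (hf : f ∈ (h75_lat hV O hfr res hres red hred hker).O)
    (hu : IsUnit ((h75_lat hV O hfr res hres red hred hker).red ⟨f, hf⟩)) :
    f⁻¹ ∈ (h75_lat hV O hfr res hres red hred hker).O := by
  obtain ⟨n, b, hb⟩ := id hfr
  change f ∈ O at hf
  change IsUnit (red ⟨f, hf⟩) at hu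
  show f⁻¹ ∈ O
  obtain ⟨r, hr⟩ := hu.exists_right_inv
  obtain ⟨g, rfl⟩ := hsurj r
  have h1 : red (⟨f, hf⟩ * g - 1) = 0 := by
    rw [map_sub, map_mul, map_one, hr, sub_self]
  obtain ⟨a, ha, h', hh', h2⟩ := hker _ (⟨f, hf⟩ * g - 1).2 h1
  obtain ⟨w, hw, hw1⟩ := h75_frame_one_add_unit hV O b hb ha hh'
  have h3 : f * ((g : F) * w) = 1 := by
    have h4 : f * (g : F) = 1 + algebraMap K F a * h' := by
      push_cast at h2
      linear_combination h2
    rw [← mul_assoc, h4]
    exact hw1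
  rw [← eq_inv_of_mul_eq_one_right h3]
  exact O.mul_mem g.2 hw

end LatInv

/-! ### The canonical fibre `O / 𝔪_A O` -/

section Fibre

variable (A : ValuationSubring K) (O : Subring F)

/-- the ideal `𝔪_A O` of `O` -/
def h75_fibreIdeal : Ideal O :=
  Ideal.span {f : O | ∃ a : K, a ∈ A.nonunits ∧ ∃ g : F, g ∈ O ∧ (f : F) = algebraMap K F a * g}

variable {A O}

theorem h75_fibre_add_aux (hAO : ∀ a : K, a ∈ A → algebraMap K F a ∈ O) {a₁ a₂ : K}
    (ha₂ : a₂ ∈ A.nonunits) (h : A.valuation a₁ ≤ A.valuation a₂) {g₁ g₂ : F} (hg₁ : g₁ ∈ O)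
    (hg₂ : g₂ ∈ O) :
    ∃ a : K, a ∈ A.nonunits ∧ ∃ g : F, g ∈ O ∧
      algebraMap K F a₁ * g₁ + algebraMap K F a₂ * g₂ = algebraMap K F a * g := by
  by_cases h0 : a₂ = 0
  · have h1 : a₁ = 0 := by
      rw [h0, map_zero] at h
      exact (map_eq_zero _).mp (le_antisymm h zero_le)
    refine ⟨a₂, ha₂, 0, O.zero_mem, ?_⟩
    rw [h0, h1]
    simp
  · have h1 : a₁ / a₂ ∈ A := by
      rw [← ValuationSubring.valuation_le_one_iff, map_div₀]
      exact (div_le_one₀ (zero_lt_iff.mpr ((_root_.map_ne_zero _).mpr h0))).mpr h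
    refine ⟨a₂, ha₂, algebraMap K F (a₁ / a₂) * g₁ + g₂,
      O.add_mem (O.mul_mem (hAO _ h1) hg₁) hg₂, ?_⟩
    have h2 : algebraMap K F a₂ ≠ 0 := by
      rw [Ne, map_eq_zero]
      exact h0
    rw [map_div₀]
    field_simp

theorem h75_mem_fibreIdeal (hAO : ∀ a : K, a ∈ A → algebraMap K F a ∈ O) (f : O) :
    f ∈ h75_fibreIdeal A O ↔
      ∃ a : K, a ∈ A.nonunits ∧ ∃ g : F, g ∈ O ∧ (f : F) = algebraMap K F a * g := by
  constructor
  · intro hf
    unfold h75_fibreIdeal at hf
    induction hf using Submodule.span_induction with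
    | mem x hx => exact hx
    | zero =>
      refine ⟨0, ?_, 0, O.zero_mem, by simp⟩
      rw [ValuationSubring.mem_nonunits_iff, map_zero]
      exact zero_lt_one
    | add x z _ _ hx hz =>
      obtain ⟨a₁, ha₁, g₁, hg₁, h1⟩ := hx
      obtain ⟨a₂, ha₂, g₂, hg₂, h2⟩ := hz
      rcases le_total (A.valuation a₁) (A.valuation a₂) with h | h
      · obtain ⟨a, ha, g, hg, h3⟩ := h75_fibre_add_aux hAO ha₂ h hg₁ hg₂
        refine ⟨a, ha, g, hg, ?_⟩
        rw [← h3, ← h1, ← h2]
        rfl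
      · obtain ⟨a, ha, g, hg, h3⟩ := h75_fibre_add_aux hAO ha₁ h hg₂ hg₁
        refine ⟨a, ha, g, hg, ?_⟩
        rw [← h3, ← h1, ← h2, add_comm]
        rfl
    | smul r x _ hx =>
      obtain ⟨a, ha, g, hg, h1⟩ := hx
      refine ⟨a, ha, (r : F) * g, O.mul_mem r.2 hg, ?_⟩
      rw [smul_eq_mul]
      push_cast
      rw [h1]
      ring
  · intro hf
    exact Ideal.subset_span hf

variable (A O)

/-- **The canonical fibre** `O / 𝔪_A O` of a lattice `O ⊇ A` (possibly non-reduced). -/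
def h75_Fibre (_hAO : ∀ a : K, a ∈ A → algebraMap K F a ∈ O) : Type _ :=
  O ⧸ h75_fibreIdeal A O

variable {A O}
variable (hAO : ∀ a : K, a ∈ A → algebraMap K F a ∈ O)

instance h75_Fibre.instCommRing : CommRing (h75_Fibre A O hAO) :=
  inferInstanceAs (CommRing (O ⧸ h75_fibreIdeal A O))

/-- the inclusion `A → O` -/
def h75_incl : A →+* O :=
  RingHom.codRestrict ((algebraMap K F).comp A.subtype) O (fun a => hAO a a.2)

theorem h75_incl_coe (a : A) : ((h75_incl hAO a : O) : F) = algebraMap K F a := rfl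

/-- the reduction map `O → O / 𝔪_A O` -/
def h75_fibreRed : O →+* h75_Fibre A O hAO :=
  Ideal.Quotient.mk (h75_fibreIdeal A O)

theorem h75_fibreRed_surjective : Function.Surjective (h75_fibreRed hAO) :=
  Ideal.Quotient.mk_surjective

theorem h75_fibreRed_eq_zero_iff (f : O) :
    h75_fibreRed hAO f = 0 ↔
      ∃ a : K, a ∈ A.nonunits ∧ ∃ g : F, g ∈ O ∧ (f : F) = algebraMap K F a * g := by
  rw [← h75_mem_fibreIdeal hAO f]
  exact Ideal.Quotient.eq_zero_iff_mem

/-- the structure map `k_A → O / 𝔪_A O` -/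
def h75_fibreMap : IsLocalRing.ResidueField A →+* h75_Fibre A O hAO :=
  Ideal.Quotient.lift (IsLocalRing.maximalIdeal A) ((h75_fibreRed hAO).comp (h75_incl hAO))
    (fun a ha => by
      rw [RingHom.comp_apply, h75_fibreRed_eq_zero_iff]
      refine ⟨a, ?_, 1, O.one_mem, ?_⟩
      · rw [ValuationSubring.mem_nonunits_iff_exists_mem_maximalIdeal]
        exact ⟨a.2, ha⟩
      · rw [mul_one]
        rfl)

instance h75_Fibre.instAlgebra : Algebra (IsLocalRing.ResidueField A) (h75_Fibre A O hAO) :=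
  (h75_fibreMap hAO).toAlgebra

theorem h75_fibre_algebraMap_residue (a : A) :
    algebraMap (IsLocalRing.ResidueField A) (h75_Fibre A O hAO) (IsLocalRing.residue A a) =
      h75_fibreRed hAO (h75_incl hAO a) := rfl

end Fibre

/-! ### The canonical lattice datum of a finitely generated lattice -/

section FibreLat

variable {A : ValuationSubring K} {y : F} {V : Subring F}

/-- `A ⊆ O` for a framed lattice -/
theorem h75_frame_A_le (hV : h75_Gauss A y V) (O : Subring F)
    (hfr : ∃ (n : ℕ) (b : Module.Basis (Fin n) K⟮y⟯ F),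
      ∀ f : F, f ∈ O ↔ ∀ i, ((b.repr f i : K⟮y⟯) : F) ∈ V) :
    ∀ a : K, a ∈ A → algebraMap K F a ∈ O := by
  obtain ⟨n, b, hb⟩ := hfr
  exact fun a ha => (h75_frame_const_mem_iff hV O b hb a).mp ha

variable (hV : h75_Gauss A y V) (O : Subring F)
  (hfr : ∃ (n : ℕ) (b : Module.Basis (Fin n) K⟮y⟯ F),
    ∀ f : F, f ∈ O ↔ ∀ i, ((b.repr f i : K⟮y⟯) : F) ∈ V)

/-- **The canonical lattice datum** of a finitely generated lattice `O` over a Gauss ring:
`k` the residue field of `A`, `Rb = O / 𝔪_A O`, `red` the quotient map. -/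
def h75_fibreLat : h22_Lat K F (IsLocalRing.ResidueField A)
    (h75_Fibre A O (h75_frame_A_le hV O hfr)) :=
  h75_lat hV O hfr (IsLocalRing.residue A) IsLocalRing.residue_surjective
    (h75_fibreRed (h75_frame_A_le hV O hfr))
    (fun _ _ _ => rfl)
    (fun f hf h => (h75_fibreRed_eq_zero_iff (h75_frame_A_le hV O hfr) ⟨f, hf⟩).mp h)

theorem h75_fibreLat_A : (h75_fibreLat hV O hfr).A = A := rfl

theorem h75_fibreLat_O : (h75_fibreLat hV O hfr).O = O := rfl

theorem h75_fibreLat_res : (h75_fibreLat hV O hfr).res = IsLocalRing.residue A := rfl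

theorem h75_fibreLat_red :
    (h75_fibreLat hV O hfr).red = h75_fibreRed (h75_frame_A_le hV O hfr) := rfl

/-- **(ON)** for the canonical lattice datum. -/
theorem h75_fibreLat_on : h22_ON (h75_fibreLat hV O hfr) :=
  h75_lat_on hV O hfr _ _ _ _ _

/-- **`hinv`** for the canonical lattice datum. -/
theorem h75_fibreLat_hinv (f : F) (hf : f ∈ (h75_fibreLat hV O hfr).O)
    (hu : IsUnit ((h75_fibreLat hV O hfr).red ⟨f, hf⟩)) : f⁻¹ ∈ (h75_fibreLat hV O hfr).O :=
  h75_lat_hinv hV O hfr _ _ _ _ _ (h75_fibreRed_surjective _) f hf hu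

theorem h75_fibreLat_red_surjective : Function.Surjective (h75_fibreLat hV O hfr).red :=
  h75_fibreRed_surjective _

/-- the kernel of the canonical reduction is `𝔪_A O` -/
theorem h75_fibreLat_red_eq_zero_iff (f : F) (hf : f ∈ (h75_fibreLat hV O hfr).O) :
    (h75_fibreLat hV O hfr).red ⟨f, hf⟩ = 0 ↔
      ∃ a : K, a ∈ A.nonunits ∧ ∃ g : F, g ∈ O ∧ f = algebraMap K F a * g :=
  h75_fibreRed_eq_zero_iff (h75_frame_A_le hV O hfr) ⟨f, hf⟩

/-- the canonical fibre is a nontrivial ring -/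
theorem h75_fibre_nontrivial : Nontrivial (h75_Fibre A O (h75_frame_A_le hV O hfr)) := by
  refine ⟨⟨1, 0, fun h => ?_⟩⟩
  have h1 : h75_fibreRed (h75_frame_A_le hV O hfr) 1 = 0 := by
    rw [map_one]
    exact h
  obtain ⟨a, ha, g, hg, h2⟩ := (h75_fibreRed_eq_zero_iff _ _).mp h1
  obtain ⟨n, b, hb⟩ := hfr
  have h3 : g ∈ K⟮y⟯ := by
    have ha0 : a ≠ 0 := by
      rintro rfl
      rw [map_zero, zero_mul] at h2
      exact one_ne_zero h2
    have h4 : g = algebraMap K F a⁻¹ := by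
      have haF : algebraMap K F a ≠ 0 := by
        rw [Ne, map_eq_zero]
        exact ha0
      rw [map_inv₀]
      exact eq_inv_of_mul_eq_one_right h2.symm
    rw [h4]
    exact h75_algebraMap_mem y _
  exact h75_nonunit_not_dvd hV ha (by rw [inv_one]; exact V.one_mem)
    (h75_frame_mem_V O b hb h3 hg) one_ne_zero h2

end FibreLat

end Fermat.Agent.S36
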