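import Mathlib
import Fermat.Agent.S36.h75_LatFG

/-!
# S36 / lattice object (helper75): the Gauss ring of `K(x)`

`A` a valuation ring of `K`, `x ∈ F` transcendental over `K`.  The *Gauss ring*
`h75_gaussRing A x = {P(x)/S(x) : P, S ∈ A[X], S mod 𝔪_A ≠ 0}` is a subring of `F`, and
`h75_gaussRing_gauss` : it is a Gauss ring for `(A, x)` in the sense of `h75_Gauss`
(contained in `K(x)`; a polynomial in `x` lies in it iff its coefficients lie in `A`; every
nonzero polynomial in `x` is a constant times a unit).  The Gauss lemma is proved by reduction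
`A[X] → k[X]`.
-/

set_option autoImplicit false

noncomputable section

open IntermediateField Polynomial

namespace Fermat.Agent.S36

variable {K F : Type*} [Field K] [Field F] [Algebra K F]

/-- **The Gauss ring** of `(A, x)`: quotients `P(x)/S(x)` of polynomials over `A` with `S`
primitive (nonzero modulo `𝔪_A`). -/
def h75_gaussRing (A : ValuationSubring K) (x : F) : Subring F where
  carrier := {f | ∃ P S : Polynomial A, S.map (IsLocalRing.residue A) ≠ 0 ∧
    f * aeval x (S.map A.subtype) = aeval x (P.map A.subtype)}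
  mul_mem' := by
    rintro f g ⟨P, S, hS, h⟩ ⟨P', S', hS', h'⟩
    refine ⟨P * P', S * S', ?_, ?_⟩
    · rw [Polynomial.map_mul]
      exact mul_ne_zero hS hS'
    · rw [Polynomial.map_mul, Polynomial.map_mul, map_mul, map_mul, ← h, ← h']
      ring
  one_mem' := ⟨1, 1, by rw [Polynomial.map_one]; exact one_ne_zero, by simp⟩
  add_mem' := by
    rintro f g ⟨P, S, hS, h⟩ ⟨P', S', hS', h'⟩
    refine ⟨P * S' + P' * S, S * S', ?_, ?_⟩
    · rw [Polynomial.map_mul]
      exact mul_ne_zero hS hS'
    · rw [Polynomial.map_add, Polynomial.map_mul, Polynomial.map_mul, Polynomial.map_mul,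
        map_add, map_mul, map_mul, map_mul, ← h, ← h']
      ring
  zero_mem' := ⟨0, 1, by rw [Polynomial.map_one]; exact one_ne_zero, by simp⟩
  neg_mem' := by
    rintro f ⟨P, S, hS, h⟩
    refine ⟨-P, S, hS, ?_⟩
    rw [Polynomial.map_neg, map_neg, ← h]
    ring

theorem h75_mem_gaussRing (A : ValuationSubring K) (x : F) (f : F) :
    f ∈ h75_gaussRing A x ↔ ∃ P S : Polynomial A, S.map (IsLocalRing.residue A) ≠ 0 ∧
      f * aeval x (S.map A.subtype) = aeval x (P.map A.subtype) := Iff.rfl

/-- lifting a polynomial with integral coefficients -/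
theorem h75_exists_lift (A : ValuationSubring K) (p : K[X]) (hp : ∀ i, p.coeff i ∈ A) :
    ∃ P : Polynomial A, P.map A.subtype = p := by
  have h : p ∈ Polynomial.lifts A.subtype := by
    rw [Polynomial.lifts_iff_coeff_lifts]
    intro n
    exact ⟨⟨p.coeff n, hp n⟩, rfl⟩
  exact (Polynomial.mem_lifts p).mp h

theorem h75_map_subtype_injective (A : ValuationSubring K) :
    Function.Injective (Polynomial.map A.subtype) :=
  Polynomial.map_injective _ Subtype.val_injective

/-- normalisation: dividing a nonzero polynomial by a coefficient of largest valuation gives a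
primitive polynomial over `A` -/
theorem h75_exists_normalise (A : ValuationSubring K) (p : K[X]) (hp : p ≠ 0) :
    ∃ j, p.coeff j ≠ 0 ∧ (∀ i, A.valuation (p.coeff i) ≤ A.valuation (p.coeff j)) ∧
      ∃ P : Polynomial A, P.map A.subtype = C (p.coeff j)⁻¹ * p ∧
        P.map (IsLocalRing.residue A) ≠ 0 := by
  obtain ⟨j, hj, hmax⟩ := Finset.exists_max_image p.support (fun i => A.valuation (p.coeff i))
    (Polynomial.nonempty_support_iff.mpr hp)
  have hj0 : p.coeff j ≠ 0 := Polynomial.mem_support_iff.mp hj
  have hmax' : ∀ i, A.valuation (p.coeff i) ≤ A.valuation (p.coeff j) := by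
    intro i
    by_cases hi : i ∈ p.support
    · exact hmax i hi
    · rw [Polynomial.notMem_support_iff.mp hi, map_zero]
      exact zero_le
  have hcoef : ∀ i, (C (p.coeff j)⁻¹ * p).coeff i ∈ A := by
    intro i
    rw [Polynomial.coeff_C_mul, ← ValuationSubring.valuation_le_one_iff, map_mul, map_inv₀]
    rw [inv_mul_le_iff₀ (zero_lt_iff.mpr ((_root_.map_ne_zero _).mpr hj0)), mul_one]
    exact hmax' i
  obtain ⟨P, hP⟩ := h75_exists_lift A _ hcoef
  refine ⟨j, hj0, hmax', P, hP, fun h0 => ?_⟩
  have h1 : (P.map (IsLocalRing.residue A)).coeff j = 0 := by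
    rw [h0, Polynomial.coeff_zero]
  rw [Polynomial.coeff_map] at h1
  have h2 : P.coeff j = 1 := by
    apply Subtype.ext
    have h3 : (P.map A.subtype).coeff j = (C (p.coeff j)⁻¹ * p).coeff j := by rw [hP]
    rw [Polynomial.coeff_map, Polynomial.coeff_C_mul, inv_mul_cancel₀ hj0] at h3
    exact h3
  rw [h2, map_one] at h1
  exact one_ne_zero h1

/-- **The Gauss lemma**: if `p * S = P` with `S` primitive and `P` integral then `p` is
integral. -/
theorem h75_gauss_lemma (A : ValuationSubring K) (p : K[X]) (P S : Polynomial A)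
    (hS : S.map (IsLocalRing.residue A) ≠ 0) (h : p * S.map A.subtype = P.map A.subtype) :
    ∀ i, p.coeff i ∈ A := by
  by_contra hne
  obtain ⟨i, hi⟩ := not_forall.mp hne
  have hp : p ≠ 0 := by
    rintro rfl
    exact hi (by rw [Polynomial.coeff_zero]; exact A.zero_mem)
  obtain ⟨j, hj0, hmax, P₁, hP₁, hP₁'⟩ := h75_exists_normalise A p hp
  -- the largest coefficient is not integral, so its inverse is a nonunit
  have hjA : (p.coeff j)⁻¹ ∈ A.nonunits := by
    rw [ValuationSubring.mem_nonunits_iff, map_inv₀]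
    have h1 : 1 < A.valuation (p.coeff i) := by
      by_contra h1
      exact hi ((A.valuation_le_one_iff _).mp (not_lt.mp h1))
    exact inv_lt_one_of_one_lt₀ (lt_of_lt_of_le h1 (hmax i))
  obtain ⟨hcA, hcm⟩ := ValuationSubring.mem_nonunits_iff_exists_mem_maximalIdeal.mp hjA
  have h2 : P₁ * S = C (⟨(p.coeff j)⁻¹, hcA⟩ : A) * P := by
    apply h75_map_subtype_injective A
    rw [Polynomial.map_mul, Polynomial.map_mul, hP₁, Polynomial.map_C, ← h]
    show C (p.coeff j)⁻¹ * p * Polynomial.map A.subtype S =
      C (p.coeff j)⁻¹ * (p * Polynomial.map A.subtype S)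
    ring
  have h3 : P₁.map (IsLocalRing.residue A) * S.map (IsLocalRing.residue A) = 0 := by
    rw [← Polynomial.map_mul, h2, Polynomial.map_mul, Polynomial.map_C,
      (IsLocalRing.residue_eq_zero_iff _).mpr hcm, map_zero, zero_mul]
  exact mul_ne_zero hP₁' hS h3

/-- **The Gauss ring is a Gauss ring** for `(A, x)`, `x` transcendental over `K`. -/
theorem h75_gaussRing_gauss (A : ValuationSubring K) {x : F} (hx : Transcendental K x) :
    h75_Gauss A x (h75_gaussRing A x) := by
  have hinj : ∀ p : K[X], aeval x p = 0 → p = 0 := transcendental_iff.mp hx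
  refine ⟨?_, ?_, ?_⟩
  · rintro f ⟨P, S, hS, h⟩
    have hS0 : aeval x (S.map A.subtype) ≠ 0 := by
      intro h0
      have h1 := hinj _ h0
      apply hS
      have h2 : S = 0 := by
        apply h75_map_subtype_injective A
        rw [h1, Polynomial.map_zero]
      rw [h2, Polynomial.map_zero]
    rw [IntermediateField.mem_adjoin_simple_iff]
    exact ⟨P.map A.subtype, S.map A.subtype, by rw [← h, mul_div_cancel_right₀ _ hS0]⟩
  · intro p
    constructor
    · rintro ⟨P, S, hS, h⟩
      refine h75_gauss_lemma A p P S hS ?_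
      have h1 : aeval x (p * S.map A.subtype - P.map A.subtype) = 0 := by
        rw [map_sub, map_mul, h, sub_self]
      exact sub_eq_zero.mp (hinj _ h1)
    · intro hp
      obtain ⟨P, hP⟩ := h75_exists_lift A p hp
      refine ⟨P, 1, by rw [Polynomial.map_one]; exact one_ne_zero, ?_⟩
      rw [hP, Polynomial.map_one, map_one, mul_one]
  · intro p hp
    have hp0 : p ≠ 0 := by
      rintro rfl
      exact hp (map_zero _)
    obtain ⟨j, hj0, -, P, hP, hP'⟩ := h75_exists_normalise A p hp0
    have h1 : algebraMap K F (p.coeff j)⁻¹ * aeval x p = aeval x (P.map A.subtype) := by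
      rw [hP, map_mul, aeval_C]
    have hcF : algebraMap K F (p.coeff j)⁻¹ ≠ 0 := by
      rw [Ne, map_eq_zero]
      exact inv_ne_zero hj0
    refine ⟨(p.coeff j)⁻¹, inv_ne_zero hj0, ?_, ?_⟩
    · refine ⟨P, 1, by rw [Polynomial.map_one]; exact one_ne_zero, ?_⟩
      rw [h1, Polynomial.map_one, map_one, mul_one]
    · refine ⟨1, P, hP', ?_⟩
      rw [h1, Polynomial.map_one, map_one]
      refine inv_mul_cancel₀ ?_
      rw [← h1]
      exact mul_ne_zero hcF hp

/-- `x` and `x⁻¹` lie in the Gauss ring -/
theorem h75_gaussRing_x (A : ValuationSubring K) (x : F) : x ∈ h75_gaussRing A x := by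
  refine ⟨X, 1, by rw [Polynomial.map_one]; exact one_ne_zero, ?_⟩
  simp

theorem h75_gaussRing_x_inv (A : ValuationSubring K) {x : F} (hx : x ≠ 0) :
    x⁻¹ ∈ h75_gaussRing A x := by
  refine ⟨1, X, ?_, ?_⟩
  · rw [Polynomial.map_X]
    exact X_ne_zero
  · simp [hx]

end Fermat.Agent.S36
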