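import Mathlib
import Fermat.Agent.S36.h75_LatFG
import Fermat.Agent.S36.h75_GaussRing

/-!
# S36 / lattice object (helper75): the lattice `V · B` spanned by a finite family

* `h75_exists_fgFrame_sub` : the frame of a finitely generated lattice can be chosen INSIDE the
  given generating family (a generating subfamily of minimal cardinality is `K(y)`-independent).
* `h75_spanRing V β` : the `V`-span of a finite family `β` closed under multiplication, as a
  subring of `F`.
* `h75_chartLat A hx β ..` : **the lattice datum** of `O := V · β`, `V` the Gauss ring of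
  `(A, x)`: an `h22_Lat K F k_A (O / 𝔪_A O)` with `h22_ON` (`h75_chartLat_on`), `hinv`
  (`h75_chartLat_hinv`), `x, x⁻¹ ∈ O`, and a frame consisting of members of `β`
  (`h75_chartO_frame`).

In the application `β` are the `A₀[x]`-module generators of the integral closure `B₁` of `A₀[x]`
in the `K₀`-rational function field, so `O = A · R₀ · B₁` is the base change of the normal model.
-/

set_option autoImplicit false

noncomputable section

open IntermediateField Polynomial Module
open Fermat.Agent.S34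

namespace Fermat.Agent.S36

variable {K F : Type*} [Field K] [Field F] [Algebra K F]

section FrameSub

variable {A : ValuationSubring K} {y : F} {V : Subring F}

/-- a pivot on a finite set of indices -/
theorem h75_exists_pivot_finset (hV : h75_Gauss A y V) {ι : Type*} (s : Finset ι)
    (c : ι → K⟮y⟯) (i₁ : ι) (hi₁s : i₁ ∈ s) (hi₁ : c i₁ ≠ 0) :
    ∃ i₀ ∈ s, c i₀ ≠ 0 ∧ ∀ i ∈ s, ((c i / c i₀ : K⟮y⟯) : F) ∈ V := by
  obtain ⟨i₀, hi₀s, hi₀⟩ := Finset.exists_max_image s (fun i => hV.val.valuation (c i))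
    ⟨i₁, hi₁s⟩
  have h0 : c i₀ ≠ 0 := by
    intro h
    have h1 := hi₀ i₁ hi₁s
    rw [h, map_zero] at h1
    exact hi₁ ((map_eq_zero _).mp (le_antisymm h1 zero_le))
  refine ⟨i₀, hi₀s, h0, fun i hi => ?_⟩
  have h2 : hV.val.valuation (c i / c i₀) ≤ 1 := by
    rw [map_div₀]
    exact (div_le_one₀ (zero_lt_iff.mpr ((_root_.map_ne_zero _).mpr h0))).mpr (hi₀ i hi)
  exact (hV.mem_val _).mp ((hV.val.valuation_le_one_iff _).mp h2)

/-- the generating property of a subfamily -/
def h75_GenOn (V O : Subring F) (y : F) {ι : Type*} (g : ι → F) (s : Finset ι) : Prop :=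
  ∀ f, f ∈ O → ∃ c : ι → K⟮y⟯, (∀ j, (c j : F) ∈ V) ∧ f = ∑ j ∈ s, (c j : F) * g j

/-- **The frame inside the generators**: if the subring `O` is generated as a `V`-module by the
finite family `g`, which spans `F` over `K(y)`, then a subfamily of `g` is a `K(y)`-basis `b` of
`F` with `f ∈ O ↔` all `b`-coordinates of `f` lie in `V`. -/
theorem h75_exists_fgFrame_sub (hV : h75_Gauss A y V) (O : Subring F) {ι : Type*} [Fintype ι]
    (g : ι → F)
    (hO : ∀ f, f ∈ O ↔ ∃ v : ι → F, (∀ j, v j ∈ V) ∧ f = ∑ j, v j * g j)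
    (hspan : ∀ f : F, ∃ c : ι → F, (∀ j, c j ∈ K⟮y⟯) ∧ f = ∑ j, c j * g j) :
    ∃ (s : Finset ι) (b : Module.Basis s K⟮y⟯ F), (∀ i : s, b i = g i) ∧
      ∀ f : F, f ∈ O ↔ ∀ i, ((b.repr f i : K⟮y⟯) : F) ∈ V := by
  classical
  have hgO : ∀ j, g j ∈ O := by
    intro j
    rw [hO]
    refine ⟨fun i => if i = j then 1 else 0, fun i => ?_, ?_⟩
    · show (if i = j then (1 : F) else 0) ∈ V
      split_ifs
      · exact V.one_mem
      · exact V.zero_mem
    · simp
  have hVO : ∀ v, v ∈ V → v ∈ O := by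
    intro v hv
    obtain ⟨w, hw, h1⟩ := (hO 1).mp O.one_mem
    rw [hO]
    refine ⟨fun j => v * w j, fun j => V.mul_mem hv (hw j), ?_⟩
    show v = ∑ j, v * w j * g j
    have h2 : ∑ j, v * w j * g j = v * ∑ j, w j * g j := by
      rw [Finset.mul_sum]
      exact Finset.sum_congr rfl fun j _ => by ring
    rw [h2, ← h1, mul_one]
  -- the full family generates
  have huniv : h75_GenOn (K := K) V O y g Finset.univ := by
    intro f hf
    obtain ⟨v, hv, h1⟩ := (hO f).mp hf
    exact ⟨fun i => ⟨v i, hV.sub _ (hv _)⟩, fun i => hv _, h1⟩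
  -- a generating subfamily of minimal cardinality
  obtain ⟨s, hs, hmin⟩ : ∃ s : Finset ι, h75_GenOn (K := K) V O y g s ∧
      ∀ s' : Finset ι, h75_GenOn (K := K) V O y g s' → s.card ≤ s'.card := by
    obtain ⟨s, hs, hmin⟩ := Finset.exists_min_image
      (Finset.univ.filter fun s : Finset ι => h75_GenOn (K := K) V O y g s) Finset.card
      ⟨Finset.univ, Finset.mem_filter.mpr ⟨Finset.mem_univ _, huniv⟩⟩
    exact ⟨s, (Finset.mem_filter.mp hs).2, fun s' hs' =>
      hmin s' (Finset.mem_filter.mpr ⟨Finset.mem_univ _, hs'⟩)⟩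
  -- linear independence
  have hli : LinearIndependent K⟮y⟯ (fun i : s => g i) := by
    rw [Fintype.linearIndependent_iff]
    intro c hc
    by_contra hne
    obtain ⟨i₁, hi₁⟩ := not_forall.mp hne
    -- extend the coefficients by zero
    let c' : ι → K⟮y⟯ := fun j => if h : j ∈ s then c ⟨j, h⟩ else 0
    have hc'i : ∀ i : s, c' i = c i := by
      intro i
      show (if h : (i : ι) ∈ s then c ⟨i, h⟩ else 0) = c i
      rw [dif_pos i.2]
    have hc' : ∑ j ∈ s, c' j • g j = 0 := by
      rw [← hc, ← Finset.sum_coe_sort s (fun j => c' j • g j)]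
      exact Finset.sum_congr rfl fun i _ => by rw [hc'i]
    obtain ⟨i₀, hi₀s, h0, hpiv⟩ := h75_exists_pivot_finset hV s c' i₁ i₁.2
      (by rw [hc'i]; exact hi₁)
    have hcard : (s.erase i₀).card < s.card := Finset.card_erase_lt_of_mem hi₀s
    refine absurd (hmin (s.erase i₀) ?_) (not_le.mpr hcard)
    intro f hf
    obtain ⟨d, hd, hfd⟩ := hs f hf
    refine ⟨fun j => d j - d i₀ * (c' j / c' i₀), fun j => ?_, ?_⟩
    · by_cases hj : j ∈ s
      · push_cast
        refine V.sub_mem (hd _) (V.mul_mem (hd _) ?_)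
        have := hpiv j hj
        push_cast at this
        exact this
      · have h1 : c' j = 0 := by
          show (if h : j ∈ s then c ⟨j, h⟩ else 0) = 0
          rw [dif_neg hj]
        show ((d j - d i₀ * (c' j / c' i₀) : K⟮y⟯) : F) ∈ V
        rw [h1, zero_div, mul_zero, sub_zero]
        exact hd j
    · have h0F : (c' i₀ : F) ≠ 0 := by
        intro h
        exact h0 (Subtype.ext h)
      have hrel : (c' i₀ : F) * g i₀ + ∑ j ∈ s.erase i₀, (c' j : F) * g j = 0 := by
        rw [← hc', ← Finset.add_sum_erase s _ hi₀s]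
        simp only [h75_smul_eq]
      have he0 : g i₀ = -(∑ j ∈ s.erase i₀, (c' j : F) * g j) / (c' i₀ : F) := by
        rw [eq_div_iff h0F]
        linear_combination hrel
      rw [hfd, ← Finset.add_sum_erase s _ hi₀s, he0]
      push_cast
      simp only [sub_mul, Finset.sum_sub_distrib]
      have h5 : ∑ j ∈ s.erase i₀, (d i₀ : F) * ((c' j : F) / (c' i₀ : F)) * g j =
          (d i₀ : F) / (c' i₀ : F) * ∑ j ∈ s.erase i₀, (c' j : F) * g j := by
        rw [Finset.mul_sum]
        refine Finset.sum_congr rfl fun j _ => ?_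
        ring
      rw [h5]
      ring
  -- spanning
  have hsp : ⊤ ≤ Submodule.span K⟮y⟯ (Set.range fun i : s => g i) := by
    intro f _
    obtain ⟨c, hc, rfl⟩ := hspan f
    refine Submodule.sum_mem _ fun j _ => ?_
    obtain ⟨d, -, hd⟩ := hs (g j) (hgO j)
    have h1 : c j * g j = (⟨c j, hc j⟩ : K⟮y⟯) • ∑ i ∈ s, d i • g i := by
      rw [h75_smul_eq, hd]
      simp only [h75_smul_eq]
    rw [h1]
    exact Submodule.smul_mem _ _ (Submodule.sum_mem _ fun i hi =>
      Submodule.smul_mem _ _ (Submodule.subset_span ⟨⟨i, hi⟩, rfl⟩))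
  refine ⟨s, Module.Basis.mk hli hsp, fun i => by rw [Module.Basis.coe_mk],
    fun f => ⟨fun hf i => ?_, fun h => ?_⟩⟩
  · obtain ⟨d, hd, hfd⟩ := hs f hf
    have h1 : f = ∑ i : s, d i • (Module.Basis.mk hli hsp) i := by
      rw [hfd, ← Finset.sum_coe_sort s (fun j => (d j : F) * g j)]
      refine Finset.sum_congr rfl fun i _ => ?_
      rw [h75_smul_eq, Module.Basis.coe_mk]
    have h2 : ⇑((Module.Basis.mk hli hsp).repr f) = fun i : s => d i := by
      rw [h1]
      exact (Module.Basis.mk hli hsp).repr_sum_self fun i : s => d i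
    rw [congrFun h2 i]
    exact hd i
  · rw [← (Module.Basis.mk hli hsp).sum_repr f]
    refine O.sum_mem fun i _ => ?_
    rw [h75_smul_eq, Module.Basis.coe_mk]
    exact O.mul_mem (hVO _ (h i)) (hgO i)

/-- the same frame indexed by `Fin n` -/
theorem h75_exists_fgFrame_fin (hV : h75_Gauss A y V) (O : Subring F) {ι : Type*} [Fintype ι]
    (g : ι → F)
    (hO : ∀ f, f ∈ O ↔ ∃ v : ι → F, (∀ j, v j ∈ V) ∧ f = ∑ j, v j * g j)
    (hspan : ∀ f : F, ∃ c : ι → F, (∀ j, c j ∈ K⟮y⟯) ∧ f = ∑ j, c j * g j) :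
    ∃ (n : ℕ) (b : Module.Basis (Fin n) K⟮y⟯ F), (∀ i, ∃ j, b i = g j) ∧
      ∀ f : F, f ∈ O ↔ ∀ i, ((b.repr f i : K⟮y⟯) : F) ∈ V := by
  obtain ⟨s, b, hb, hfr⟩ := h75_exists_fgFrame_sub hV O g hO hspan
  refine ⟨s.card, b.reindex s.equivFin, fun i => ⟨(s.equivFin.symm i : ι), ?_⟩, fun f => ?_⟩
  · rw [Module.Basis.reindex_apply, hb]
  · rw [hfr]
    constructor
    · intro h i
      rw [Module.Basis.repr_reindex_apply]
      exact h _
    · intro h i
      have h1 := h (s.equivFin i)
      rw [Module.Basis.repr_reindex_apply, Equiv.symm_apply_apply] at h1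
      exact h1

end FrameSub

/-! ### The `V`-span of a multiplicatively closed finite family -/

section SpanRing

variable (V : Subring F) {ι : Type*} [Fintype ι] (β : ι → F)

/-- **The `V`-span** of a finite family `β` with `1 ∈ V·β` and `β i * β j ∈ V·β`, as a subring
of `F`. -/
def h75_spanRing (hone : ∃ v : ι → F, (∀ j, v j ∈ V) ∧ 1 = ∑ j, v j * β j)
    (hmul : ∀ i j, ∃ v : ι → F, (∀ l, v l ∈ V) ∧ β i * β j = ∑ l, v l * β l) : Subring F where
  carrier := {f | ∃ v : ι → F, (∀ j, v j ∈ V) ∧ f = ∑ j, v j * β j}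
  mul_mem' := by
    rintro f g ⟨v, hv, rfl⟩ ⟨w, hw, rfl⟩
    choose u hu hu' using hmul
    refine ⟨fun l => ∑ i, ∑ j, v i * w j * u i j l,
      fun l => V.sum_mem fun i _ => V.sum_mem fun j _ =>
        V.mul_mem (V.mul_mem (hv i) (hw j)) (hu i j l), ?_⟩
    have h1 : (∑ i, v i * β i) * ∑ j, w j * β j = ∑ i, ∑ j, v i * w j * (β i * β j) := by
      rw [Finset.sum_mul_sum]
      refine Finset.sum_congr rfl fun i _ => Finset.sum_congr rfl fun j _ => ?_
      ring
    rw [h1]
    have h2 : ∀ i j, v i * w j * (β i * β j) = ∑ l, v i * w j * u i j l * β l := by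
      intro i j
      rw [hu' i j, Finset.mul_sum]
      refine Finset.sum_congr rfl fun l _ => ?_
      ring
    simp only [h2]
    have h3 : ∀ l, (∑ i, ∑ j, v i * w j * u i j l) * β l =
        ∑ i, ∑ j, v i * w j * u i j l * β l := by
      intro l
      rw [Finset.sum_mul]
      exact Finset.sum_congr rfl fun i _ => Finset.sum_mul _ _ _
    simp only [h3]
    symm
    rw [Finset.sum_comm]
    refine Finset.sum_congr rfl fun i _ => ?_
    rw [Finset.sum_comm]
  one_mem' := hone
  add_mem' := by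
    rintro f g ⟨v, hv, rfl⟩ ⟨w, hw, rfl⟩
    refine ⟨fun j => v j + w j, fun j => V.add_mem (hv j) (hw j), ?_⟩
    rw [← Finset.sum_add_distrib]
    exact Finset.sum_congr rfl fun j _ => by ring
  zero_mem' := ⟨fun _ => 0, fun _ => V.zero_mem, by simp⟩
  neg_mem' := by
    rintro f ⟨v, hv, rfl⟩
    refine ⟨fun j => -v j, fun j => V.neg_mem (hv j), ?_⟩
    rw [← Finset.sum_neg_distrib]
    exact Finset.sum_congr rfl fun j _ => by ring

variable (hone : ∃ v : ι → F, (∀ j, v j ∈ V) ∧ 1 = ∑ j, v j * β j)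
  (hmul : ∀ i j, ∃ v : ι → F, (∀ l, v l ∈ V) ∧ β i * β j = ∑ l, v l * β l)

theorem h75_mem_spanRing (f : F) :
    f ∈ h75_spanRing V β hone hmul ↔ ∃ v : ι → F, (∀ j, v j ∈ V) ∧ f = ∑ j, v j * β j :=
  Iff.rfl

theorem h75_spanRing_gen_mem (i : ι) : β i ∈ h75_spanRing V β hone hmul := by
  classical
  refine ⟨fun j => if j = i then 1 else 0, fun j => ?_, ?_⟩
  · show (if j = i then (1 : F) else 0) ∈ V
    split_ifs
    · exact V.one_mem
    · exact V.zero_mem
  · simp

theorem h75_spanRing_V_le {v : F} (hv : v ∈ V) : v ∈ h75_spanRing V β hone hmul := by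
  obtain ⟨w, hw, h1⟩ := hone
  refine ⟨fun j => v * w j, fun j => V.mul_mem hv (hw j), ?_⟩
  show v = ∑ j, v * w j * β j
  have h2 : ∑ j, v * w j * β j = v * ∑ j, w j * β j := by
    rw [Finset.mul_sum]
    exact Finset.sum_congr rfl fun j _ => by ring
  rw [h2, ← h1, mul_one]

end SpanRing

/-! ### The chart lattice `O = V · β`, `V` the Gauss ring of `(A, x)` -/

section ChartLat

variable (A : ValuationSubring K) {x : F} (hx : Transcendental K x) {ι : Type*} [Fintype ι]
  (β : ι → F)
  (hone : ∃ v : ι → F, (∀ j, v j ∈ h75_gaussRing A x) ∧ 1 = ∑ j, v j * β j)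
  (hmul : ∀ i j, ∃ v : ι → F, (∀ l, v l ∈ h75_gaussRing A x) ∧ β i * β j = ∑ l, v l * β l)
  (hspan : ∀ f : F, ∃ c : ι → F, (∀ j, c j ∈ K⟮x⟯) ∧ f = ∑ j, c j * β j)

/-- the integral elements `O = V · β` of the chart lattice -/
def h75_chartO : Subring F := h75_spanRing (h75_gaussRing A x) β hone hmul

theorem h75_mem_chartO (f : F) :
    f ∈ h75_chartO A β hone hmul ↔
      ∃ v : ι → F, (∀ j, v j ∈ h75_gaussRing A x) ∧ f = ∑ j, v j * β j :=
  Iff.rfl

include hx hspan in
/-- **The frame of the chart lattice**, consisting of members of `β`. -/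
theorem h75_chartO_frame :
    ∃ (n : ℕ) (b : Module.Basis (Fin n) K⟮x⟯ F), (∀ i, ∃ j, b i = β j) ∧
      ∀ f : F, f ∈ h75_chartO A β hone hmul ↔
        ∀ i, ((b.repr f i : K⟮x⟯) : F) ∈ h75_gaussRing A x :=
  h75_exists_fgFrame_fin (h75_gaussRing_gauss A hx) (h75_chartO A β hone hmul) β
    (fun _ => Iff.rfl) hspan

include hx hspan in
theorem h75_chartO_hfr :
    ∃ (n : ℕ) (b : Module.Basis (Fin n) K⟮x⟯ F),
      ∀ f : F, f ∈ h75_chartO A β hone hmul ↔
        ∀ i, ((b.repr f i : K⟮x⟯) : F) ∈ h75_gaussRing A x := by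
  obtain ⟨n, b, -, hb⟩ := h75_chartO_frame A hx β hone hmul hspan
  exact ⟨n, b, hb⟩

/-- **The chart lattice datum** `D## = (A, O = V·β, O → O/𝔪_A O)`. -/
def h75_chartLat : h22_Lat K F (IsLocalRing.ResidueField A)
    (h75_Fibre A (h75_chartO A β hone hmul)
      (h75_frame_A_le (h75_gaussRing_gauss A hx) (h75_chartO A β hone hmul)
        (h75_chartO_hfr A hx β hone hmul hspan))) :=
  h75_fibreLat (h75_gaussRing_gauss A hx) (h75_chartO A β hone hmul)
    (h75_chartO_hfr A hx β hone hmul hspan)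

theorem h75_chartLat_A : (h75_chartLat A hx β hone hmul hspan).A = A := rfl

theorem h75_chartLat_O :
    (h75_chartLat A hx β hone hmul hspan).O = h75_chartO A β hone hmul := rfl

theorem h75_chartLat_res :
    (h75_chartLat A hx β hone hmul hspan).res = IsLocalRing.residue A := rfl

/-- **(ON)** for the chart lattice. -/
theorem h75_chartLat_on : h22_ON (h75_chartLat A hx β hone hmul hspan) :=
  h75_fibreLat_on _ _ _

/-- **`hinv`** for the chart lattice. -/
theorem h75_chartLat_hinv (f : F) (hf : f ∈ (h75_chartLat A hx β hone hmul hspan).O)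
    (hu : IsUnit ((h75_chartLat A hx β hone hmul hspan).red ⟨f, hf⟩)) :
    f⁻¹ ∈ (h75_chartLat A hx β hone hmul hspan).O :=
  h75_fibreLat_hinv _ _ _ f hf hu

theorem h75_chartLat_red_surjective :
    Function.Surjective (h75_chartLat A hx β hone hmul hspan).red :=
  h75_fibreLat_red_surjective _ _ _

/-- the kernel of the reduction of the chart lattice is `𝔪_A O` -/
theorem h75_chartLat_red_eq_zero_iff (f : F)
    (hf : f ∈ (h75_chartLat A hx β hone hmul hspan).O) :
    (h75_chartLat A hx β hone hmul hspan).red ⟨f, hf⟩ = 0 ↔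
      ∃ a : K, a ∈ A.nonunits ∧ ∃ g : F, g ∈ h75_chartO A β hone hmul ∧
        f = algebraMap K F a * g :=
  h75_fibreLat_red_eq_zero_iff _ _ _ f hf

theorem h75_chartLat_nontrivial :
    Nontrivial (h75_Fibre A (h75_chartO A β hone hmul)
      (h75_frame_A_le (h75_gaussRing_gauss A hx) (h75_chartO A β hone hmul)
        (h75_chartO_hfr A hx β hone hmul hspan))) :=
  h75_fibre_nontrivial (h75_gaussRing_gauss A hx) (h75_chartO A β hone hmul)
    (h75_chartO_hfr A hx β hone hmul hspan)

/-- the Gauss ring lies in `O` -/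
theorem h75_chartO_gauss_le {v : F} (hv : v ∈ h75_gaussRing A x) :
    v ∈ h75_chartO A β hone hmul :=
  h75_spanRing_V_le _ β hone hmul hv

theorem h75_chartO_x_mem : x ∈ h75_chartO A β hone hmul :=
  h75_chartO_gauss_le A β hone hmul (h75_gaussRing_x A x)

theorem h75_chartO_x_inv_mem (hx0 : x ≠ 0) : x⁻¹ ∈ h75_chartO A β hone hmul :=
  h75_chartO_gauss_le A β hone hmul (h75_gaussRing_x_inv A hx0)

theorem h75_chartO_gen_mem (i : ι) : β i ∈ h75_chartO A β hone hmul :=
  h75_spanRing_gen_mem _ β hone hmul i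

include hx hspan in
/-- `O ∩ K(x) = V` for the chart lattice -/
theorem h75_chartO_mem_iff {c : F} (hc : c ∈ K⟮x⟯) :
    c ∈ h75_chartO A β hone hmul ↔ c ∈ h75_gaussRing A x := by
  obtain ⟨n, b, hb⟩ := h75_chartO_hfr A hx β hone hmul hspan
  exact h75_frame_mem_iff (h75_gaussRing_gauss A hx) _ b hb hc

end ChartLat

end Fermat.Agent.S36
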