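import Mathlib
import Fermat.Agent.S27.h44_RedConstr
import Fermat.Agent.S36.h75_LatFG

/-!
# S36 / (L2a-OBJ): the D4 lattice as a frame lattice (helper97)

Generic.  `K0 ⊆ K` constants, `F0 ⊆ F` function fields (abstract carriers with compatible
embeddings `jK`, `jF`), `A` a valuation subring of `K`, `A0` one of `K0` with `jK A0 ⊆ A`,
`x0 ∈ F0` transcendental over `K0`, `x = jF x0` transcendental over `K`.

* `h97_exists_intBasis` : (FREE) the integral closure of a discrete valuation ring in a finite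
  extension has a basis which is a basis of the field extension; integral iff coordinates
  integral.
* `h97_gaussVal A x hx : ValuationSubring K⟮x⟯`, `h97_gaussRing A x hx : Subring F` : the Gauss
  ring of `(A, x)`; `h97_gaussRing_h75 : h75_Gauss A x _`; `h97_gaussVal_dvr` : it is a discrete
  valuation ring when `A` is one (hypothesis (DV)).
* `h97_latO` : the D4 lattice `O` = ring generated by the Gauss ring of `(A, x)` and the image
  of `O_0` = integral closure of the Gauss ring of `(A0, x0)` in `F0`.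
* `h97_latO_mem_iff` : `O` is the span of the image of an integral basis over the Gauss ring.
* `h97_latD4_frame` : `O` is a frame lattice (input shape of helper75's `h75_fibreLat`).
* `h97_D4` : the lattice datum `D##` with `h97_D4_on`, `h97_D4_hinv`.
-/

set_option autoImplicit false
set_option linter.style.haveILetI false

open Polynomial IntermediateField
open Fermat.Agent.S34

namespace Fermat.Agent.S36

section IntBasis

variable {L0 F0 : Type*} [Field L0] [Field F0] [Algebra L0 F0]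

/-- Integrality over a valuation subring `R0` of `L0`, for elements of an extension `F0`. -/
def h97_IsInt (R0 : ValuationSubring L0) (g : F0) : Prop :=
  ((algebraMap L0 F0).comp R0.subtype).IsIntegralElem g

/-- **(FREE)**: the integral closure of a discrete valuation ring `R0` (fraction field `L0`) in a
finite extension `F0` (characteristic zero) has an `R0`-basis which is an `L0`-basis of `F0`:
an element is integral iff all its coordinates lie in `R0`. -/
theorem h97_exists_intBasis [CharZero L0] [FiniteDimensional L0 F0] (R0 : ValuationSubring L0)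
    [IsDiscreteValuationRing R0] :
    ∃ (d : ℕ) (t : Module.Basis (Fin d) L0 F0),
      ∀ g : F0, h97_IsInt R0 g ↔ ∀ i, t.repr g i ∈ R0 := by
  classical
  letI alg : Algebra R0 F0 := ((algebraMap L0 F0).comp R0.subtype).toAlgebra
  haveI : IsScalarTower R0 L0 F0 := IsScalarTower.of_algebraMap_eq (fun _ => rfl)
  haveI : Algebra.IsSeparable L0 F0 := inferInstance
  haveI hfin : Module.Finite R0 (integralClosure R0 F0) :=
    IsIntegralClosure.finite R0 L0 F0 (integralClosure R0 F0)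
  haveI : Module.IsTorsionFree R0 F0 := .trans_faithfulSMul R0 L0 F0
  haveI hfree : Module.Free R0 (integralClosure R0 F0) :=
    IsIntegralClosure.module_free R0 L0 F0 (integralClosure R0 F0)
  haveI hloc : IsLocalization
      (Algebra.algebraMapSubmonoid (integralClosure R0 F0) (nonZeroDivisors R0)) F0 :=
    IsIntegralClosure.isLocalization R0 L0 F0 (integralClosure R0 F0)
  let b := Module.finBasis R0 (integralClosure R0 F0)
  let t := b.localizationLocalization L0 (nonZeroDivisors R0) F0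
  refine ⟨_, t, fun g => ⟨fun hg => ?_, fun hc => ?_⟩⟩
  · intro i
    have hg' : IsIntegral R0 g := hg
    have h1 := Module.Basis.localizationLocalization_repr_algebraMap L0 (nonZeroDivisors R0) F0 b
      ⟨g, hg'⟩ i
    have h2 : t.repr g i = algebraMap R0 L0 (b.repr ⟨g, hg'⟩ i) := h1
    rw [h2]
    exact (b.repr ⟨g, hg'⟩ i).2
  · have hsum : g = ∑ i, (t.repr g i) • t i := (t.sum_repr g).symm
    have hint : IsIntegral R0 g := by
      rw [hsum]
      refine IsIntegral.sum _ fun i _ => ?_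
      have hti : t i = algebraMap (integralClosure R0 F0) F0 (b i) :=
        Module.Basis.localizationLocalization_apply L0 (nonZeroDivisors R0) F0 b i
      have h3 : (t.repr g i) • t i = algebraMap R0 F0 ⟨t.repr g i, hc i⟩ * t i := by
        rw [Algebra.smul_def]
        rfl
      rw [h3]
      refine IsIntegral.mul isIntegral_algebraMap ?_
      rw [hti]
      exact (b i).2
    exact hint

end IntBasis

section Gauss

open Fermat.Agent.S27

variable {K F : Type*} [Field K] [Field F] [Algebra K F]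

/-- Membership in the Gauss ring of `(A, x)`: a quotient `P(x)/Q(x)` with `P, Q ∈ A[X]` and
`Q` having a coefficient which is a unit of `A`. -/
def h97_InGauss (A : ValuationSubring K) (x : F) (f : F) : Prop :=
  ∃ P Q : K[X], (∀ i, P.coeff i ∈ A) ∧ (∀ i, Q.coeff i ∈ A) ∧
    (∃ i, Q.coeff i ≠ 0 ∧ (Q.coeff i)⁻¹ ∈ A) ∧ f * aeval x Q = aeval x P

theorem h97_exists_gaussVal (A : ValuationSubring K) (x : F) (hx : Transcendental K x) :
    ∃ V : ValuationSubring K⟮x⟯, (∀ c : K⟮x⟯, c ∈ V ↔ h97_InGauss A x (c : F)) ∧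
      (∀ a : K, algebraMap K K⟮x⟯ a ∈ V ↔ a ∈ A) ∧
      (∀ f : K⟮x⟯, f ≠ 0 → ∃ c : K, c ≠ 0 ∧ algebraMap K K⟮x⟯ c * f ∈ V ∧
        (algebraMap K K⟮x⟯ c * f)⁻¹ ∈ V) := by
  classical
  obtain ⟨V, resV, -, h1, -, h4, h5⟩ := h44_gauss A (AdjoinSimple.gen K x)
    (h44_gen_transcendental x hx) (h44_adjoin_gen x) (IsLocalRing.residue A)
    IsLocalRing.residue_surjective
  refine ⟨V, fun c => ?_, h4, h5⟩
  rw [h1]
  constructor
  · rintro ⟨P, Q, hQ, h⟩
    refine ⟨P.map A.subtype, Q.map A.subtype, fun i => ?_, fun i => ?_, ?_, ?_⟩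
    · rw [coeff_map]; exact (P.coeff i).2
    · rw [coeff_map]; exact (Q.coeff i).2
    · obtain ⟨i, hi⟩ : ∃ i, IsLocalRing.residue A (Q.coeff i) ≠ 0 := by
        by_contra hcon
        simp only [not_exists, not_not] at hcon
        apply hQ
        ext i
        rw [coeff_map, hcon i, coeff_zero]
      have hu : IsUnit (Q.coeff i) := by
        by_contra hnu
        exact hi ((IsLocalRing.residue_eq_zero_iff _).mpr
          ((IsLocalRing.mem_maximalIdeal _).mpr hnu))
      obtain ⟨v, hv⟩ := hu.exists_right_inv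
      have hv' : ((Q.coeff i : A) : K) * (v : K) = 1 := congrArg Subtype.val hv
      refine ⟨i, ?_, ?_⟩
      · rw [coeff_map]
        intro h0
        have h0' : ((Q.coeff i : A) : K) = 0 := h0
        rw [h0', zero_mul] at hv'
        exact zero_ne_one hv'
      · rw [coeff_map]
        show (((Q.coeff i : A) : K))⁻¹ ∈ A
        rw [inv_eq_of_mul_eq_one_right hv']
        exact v.2
    · have h' := congrArg (fun z : K⟮x⟯ => (z : F)) h
      simp only [IntermediateField.coe_mul, h44_coe_aeval_gen] at h'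
      exact h'
  · rintro ⟨P, Q, hP, hQ, ⟨i, hi0, hi⟩, h⟩
    have hPl : P ∈ Polynomial.lifts A.subtype := by
      rw [Polynomial.lifts_iff_coeff_lifts]
      exact fun n => ⟨⟨_, hP n⟩, rfl⟩
    have hQl : Q ∈ Polynomial.lifts A.subtype := by
      rw [Polynomial.lifts_iff_coeff_lifts]
      exact fun n => ⟨⟨_, hQ n⟩, rfl⟩
    obtain ⟨P', hP'⟩ := hPl
    obtain ⟨Q', hQ'⟩ := hQl
    have hP'' : P'.map A.subtype = P := hP'
    have hQ'' : Q'.map A.subtype = Q := hQ'
    refine ⟨P', Q', ?_, ?_⟩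
    · intro h0
      have h1 := congrArg (fun p => p.coeff i) h0
      simp only [coeff_map, coeff_zero] at h1
      have h2 : Q'.coeff i ∈ IsLocalRing.maximalIdeal A :=
        (IsLocalRing.residue_eq_zero_iff _).mp h1
      have hval : ((Q'.coeff i : A) : K) = Q.coeff i := by
        rw [← hQ'', coeff_map]; rfl
      apply (IsLocalRing.mem_maximalIdeal _).mp h2
      refine isUnit_iff_exists_inv.mpr ⟨⟨(Q.coeff i)⁻¹, hi⟩, Subtype.ext ?_⟩
      show ((Q'.coeff i : A) : K) * (Q.coeff i)⁻¹ = 1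
      rw [hval, mul_inv_cancel₀ hi0]
    · apply Subtype.ext
      simp only [IntermediateField.coe_mul, h44_coe_aeval_gen]
      rw [hP'', hQ'']
      exact h

/-- The Gauss valuation ring of `K(x)` attached to the valuation ring `A` of `K`. -/
noncomputable def h97_gaussVal (A : ValuationSubring K) (x : F) (hx : Transcendental K x) :
    ValuationSubring K⟮x⟯ :=
  Classical.choose (h97_exists_gaussVal A x hx)

theorem h97_mem_gaussVal (A : ValuationSubring K) (x : F) (hx : Transcendental K x) (c : K⟮x⟯) :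
    c ∈ h97_gaussVal A x hx ↔ h97_InGauss A x (c : F) :=
  (Classical.choose_spec (h97_exists_gaussVal A x hx)).1 c

theorem h97_gaussVal_const (A : ValuationSubring K) (x : F) (hx : Transcendental K x) (a : K) :
    algebraMap K K⟮x⟯ a ∈ h97_gaussVal A x hx ↔ a ∈ A :=
  (Classical.choose_spec (h97_exists_gaussVal A x hx)).2.1 a

theorem h97_gaussVal_scale (A : ValuationSubring K) (x : F) (hx : Transcendental K x)
    (f : K⟮x⟯) (hf : f ≠ 0) :
    ∃ c : K, c ≠ 0 ∧ algebraMap K K⟮x⟯ c * f ∈ h97_gaussVal A x hx ∧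
      (algebraMap K K⟮x⟯ c * f)⁻¹ ∈ h97_gaussVal A x hx :=
  (Classical.choose_spec (h97_exists_gaussVal A x hx)).2.2 f hf

theorem h97_inGauss_mem_adjoin (A : ValuationSubring K) (x : F) (hx : Transcendental K x)
    {f : F} (hf : h97_InGauss A x f) : f ∈ K⟮x⟯ := by
  obtain ⟨P, Q, -, -, ⟨i, hi0, -⟩, h⟩ := hf
  have hQ0 : aeval x Q ≠ 0 := by
    intro h0
    have : Q = 0 := (transcendental_iff_injective.mp hx) (by rw [h0, map_zero])
    rw [this, coeff_zero] at hi0
    exact hi0 rfl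
  rw [mem_adjoin_simple_iff]
  exact ⟨P, Q, by rw [← h, mul_div_cancel_right₀ _ hQ0]⟩

/-- The Gauss ring of `(A, x)` as a subring of `F`. -/
noncomputable def h97_gaussRing (A : ValuationSubring K) (x : F) (hx : Transcendental K x) :
    Subring F :=
  (h97_gaussVal A x hx).toSubring.map (algebraMap K⟮x⟯ F)

theorem h97_mem_gaussRing (A : ValuationSubring K) (x : F) (hx : Transcendental K x) (f : F) :
    f ∈ h97_gaussRing A x hx ↔ h97_InGauss A x f := by
  constructor
  · rintro ⟨c, hc, rfl⟩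
    exact (h97_mem_gaussVal A x hx c).mp hc
  · intro hf
    exact ⟨⟨f, h97_inGauss_mem_adjoin A x hx hf⟩, (h97_mem_gaussVal A x hx _).mpr hf, rfl⟩

theorem h97_gaussRing_const (A : ValuationSubring K) (x : F) (hx : Transcendental K x) (a : K) :
    algebraMap K F a ∈ h97_gaussRing A x hx ↔ a ∈ A := by
  rw [← h97_gaussVal_const A x hx a, h97_mem_gaussRing, h97_mem_gaussVal]
  rfl

theorem h97_gaussRing_scale (A : ValuationSubring K) (x : F) (hx : Transcendental K x)
    {f : F} (hfK : f ∈ K⟮x⟯) (hf : f ≠ 0) :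
    ∃ c : K, c ≠ 0 ∧ algebraMap K F c * f ∈ h97_gaussRing A x hx ∧
      (algebraMap K F c * f)⁻¹ ∈ h97_gaussRing A x hx := by
  obtain ⟨c, hc, h1, h2⟩ := h97_gaussVal_scale A x hx ⟨f, hfK⟩
    (fun h => hf (congrArg Subtype.val h))
  exact ⟨c, hc, ⟨_, h1, rfl⟩, ⟨_, h2, by simp⟩⟩

/-- The Gauss ring is a Gauss ring in the sense of `h75_Gauss`. -/
theorem h97_gaussRing_h75 (A : ValuationSubring K) (x : F) (hx : Transcendental K x) :
    h75_Gauss A x (h97_gaussRing A x hx) where
  sub := fun c hc => h97_inGauss_mem_adjoin A x hx ((h97_mem_gaussRing A x hx c).mp hc)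
  gauss := by
    intro p
    constructor
    · intro hp
      by_cases hp0 : p = 0
      · intro i; rw [hp0, coeff_zero]; exact A.zero_mem
      obtain ⟨a, P, ha, hpP, j, hj⟩ := h44_exists_primitive A p hp0
      have hu0 : aeval x (P.map A.subtype) ≠ 0 := by
        intro h0
        have h1 : P.map A.subtype = 0 :=
          (transcendental_iff_injective.mp hx) (by rw [h0, map_zero])
        have h2 := congrArg (fun q => q.coeff j) h1
        simp only [coeff_map, coeff_zero] at h2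
        rw [hj] at h2
        exact one_ne_zero h2
      have hui : (aeval x (P.map A.subtype))⁻¹ ∈ h97_gaussRing A x hx := by
        rw [h97_mem_gaussRing]
        refine ⟨1, P.map A.subtype, fun i => ?_, fun i => ?_, ⟨j, ?_, ?_⟩, ?_⟩
        · rw [coeff_one]; split_ifs
          · exact A.one_mem
          · exact A.zero_mem
        · rw [coeff_map]; exact (P.coeff i).2
        · rw [coeff_map, hj]; exact one_ne_zero
        · rw [coeff_map, hj]
          show ((1 : A) : K)⁻¹ ∈ A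
          simp [A.one_mem]
        · rw [inv_mul_cancel₀ hu0, map_one]
      have haV : algebraMap K F a ∈ h97_gaussRing A x hx := by
        have h1 : algebraMap K F a = aeval x p * (aeval x (P.map A.subtype))⁻¹ := by
          rw [hpP, map_mul, aeval_C, mul_assoc, mul_inv_cancel₀ hu0, mul_one]
        rw [h1]
        exact (h97_gaussRing A x hx).mul_mem hp hui
      have haA : a ∈ A := (h97_gaussRing_const A x hx a).mp haV
      intro i
      rw [hpP, coeff_C_mul, coeff_map]
      exact A.mul_mem _ _ haA (P.coeff i).2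
    · intro hp
      rw [h97_mem_gaussRing]
      refine ⟨p, 1, hp, fun i => ?_, ⟨0, ?_, ?_⟩, ?_⟩
      · rw [coeff_one]; split_ifs
        · exact A.one_mem
        · exact A.zero_mem
      · simp
      · simp [A.one_mem]
      · rw [map_one, mul_one]
  unit := by
    intro p hp
    have hmem : aeval x p ∈ K⟮x⟯ := (mem_adjoin_simple_iff K _).mpr ⟨p, 1, by simp⟩
    exact h97_gaussRing_scale A x hx hmem hp

/-- **The Gauss ring of a discrete valuation ring is a discrete valuation ring.**  Hypothesis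
(DV): `w` is a uniformiser of `A`, i.e. every nonzero constant is `w ^ n` times a unit of `A`. -/
theorem h97_gaussVal_dvr (A : ValuationSubring K) (x : F) (hx : Transcendental K x)
    (w : K) (hwA : w ∈ A) (hwi : w⁻¹ ∉ A)
    (hDV : ∀ c : K, c ≠ 0 → ∃ (n : ℤ) (u : K), u ∈ A ∧ u⁻¹ ∈ A ∧ c = w ^ n * u) :
    IsDiscreteValuationRing (h97_gaussVal A x hx) := by
  classical
  have hw0 : w ≠ 0 := by
    rintro rfl
    exact hwi (by rw [inv_zero]; exact A.zero_mem)
  set R := h97_gaussVal A x hx with hR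
  have hconst := h97_gaussVal_const A x hx
  set p : R := ⟨algebraMap K K⟮x⟯ w, (hconst w).mpr hwA⟩ with hp
  have hpval : (p : K⟮x⟯) = algebraMap K K⟮x⟯ w := rfl
  have hp0 : p ≠ 0 := by
    intro h
    have h1 : algebraMap K K⟮x⟯ w = 0 := congrArg Subtype.val h
    exact hw0 ((_root_.map_eq_zero _).mp h1)
  have hpnu : ¬ IsUnit p := by
    intro hu
    obtain ⟨v, hv⟩ := hu.exists_right_inv
    have hv' : algebraMap K K⟮x⟯ w * (v : K⟮x⟯) = 1 := congrArg Subtype.val hv
    have h1 : (v : K⟮x⟯) = algebraMap K K⟮x⟯ w⁻¹ := by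
      rw [map_inv₀]
      exact (inv_eq_of_mul_eq_one_right hv').symm
    apply hwi
    rw [← hconst, ← h1]
    exact v.2
  -- every nonzero element is a power of `p` times a unit
  have key : ∀ y : R, y ≠ 0 → ∃ (n : ℕ) (v : Rˣ), y = p ^ n * v := by
    intro y hy
    have hy' : (y : K⟮x⟯) ≠ 0 := fun h => hy (Subtype.ext h)
    obtain ⟨c, hc, h1, h2⟩ := h97_gaussVal_scale A x hx (y : K⟮x⟯) hy'
    obtain ⟨n, u, hu, hui, hcu⟩ := hDV c⁻¹ (inv_ne_zero hc)
    have hu0 : u ≠ 0 := by
      rintro rfl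
      rw [mul_zero] at hcu
      exact inv_ne_zero hc hcu
    set v0 : R := ⟨algebraMap K K⟮x⟯ u * (algebraMap K K⟮x⟯ c * y), R.mul_mem _ _ ((hconst u).mpr hu) h1⟩
      with hv0
    set v1 : R := ⟨algebraMap K K⟮x⟯ u⁻¹ * (algebraMap K K⟮x⟯ c * y)⁻¹,
      R.mul_mem _ _ ((hconst _).mpr hui) h2⟩ with hv1
    have hcy : algebraMap K K⟮x⟯ c * (y : K⟮x⟯) ≠ 0 :=
      mul_ne_zero ((_root_.map_ne_zero _).mpr hc) hy'
    have hu' : algebraMap K K⟮x⟯ u ≠ 0 := (_root_.map_ne_zero _).mpr hu0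
    have hv01 : v0 * v1 = 1 := by
      apply Subtype.ext
      show algebraMap K K⟮x⟯ u * (algebraMap K K⟮x⟯ c * y) *
        (algebraMap K K⟮x⟯ u⁻¹ * (algebraMap K K⟮x⟯ c * y)⁻¹) = 1
      rw [map_inv₀, mul_mul_mul_comm, mul_inv_cancel₀ hu', mul_inv_cancel₀ hcy, one_mul]
    have hyeq : (y : K⟮x⟯) = algebraMap K K⟮x⟯ w ^ n * (v0 : K⟮x⟯) := by
      show (y : K⟮x⟯) = algebraMap K K⟮x⟯ w ^ n * (algebraMap K K⟮x⟯ u * (algebraMap K K⟮x⟯ c * y))
      have h3 : algebraMap K K⟮x⟯ c⁻¹ = algebraMap K K⟮x⟯ w ^ n * algebraMap K K⟮x⟯ u := by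
        rw [hcu, map_mul, map_zpow₀]
      have hc' : algebraMap K K⟮x⟯ c ≠ 0 := (_root_.map_ne_zero _).mpr hc
      rw [← mul_assoc, ← h3, map_inv₀, ← mul_assoc, inv_mul_cancel₀ hc', one_mul]
    have hw' : algebraMap K K⟮x⟯ w ≠ 0 := (_root_.map_ne_zero _).mpr hw0
    have hn : 0 ≤ n := by
      by_contra hneg
      rw [not_le] at hneg
      obtain ⟨m, hm⟩ : ∃ m : ℕ, -n = (m : ℤ) + 1 := ⟨(-n - 1).toNat, by omega⟩
      apply hwi
      rw [← hconst]
      have h4 : algebraMap K K⟮x⟯ w⁻¹ = algebraMap K K⟮x⟯ w ^ m * (y : K⟮x⟯) * (v1 : K⟮x⟯) := by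
        have hv01' : (v0 : K⟮x⟯) * (v1 : K⟮x⟯) = 1 := congrArg Subtype.val hv01
        have hneq : n = -((m : ℤ) + 1) := by omega
        rw [hyeq, hneq, map_inv₀, zpow_neg, zpow_add₀ hw', zpow_natCast, zpow_one]
        calc (algebraMap K K⟮x⟯ w)⁻¹
            = (algebraMap K K⟮x⟯ w)⁻¹ * ((v0 : K⟮x⟯) * (v1 : K⟮x⟯)) := by rw [hv01', mul_one]
          _ = _ := by field_simp
      rw [h4]
      exact R.mul_mem _ _ (R.mul_mem _ _ (R.pow_mem p.2 m) y.2) v1.2
    obtain ⟨m, rfl⟩ := Int.eq_ofNat_of_zero_le hn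
    refine ⟨m, ⟨v0, v1, hv01, by rw [mul_comm]; exact hv01⟩, ?_⟩
    apply Subtype.ext
    rw [hyeq, zpow_natCast]
    rfl
  apply IsDiscreteValuationRing.ofHasUnitMulPowIrreducibleFactorization
  refine ⟨p, ⟨hpnu, ?_⟩, ?_⟩
  · intro a b hab
    have ha0 : a ≠ 0 := by
      rintro rfl
      rw [zero_mul] at hab
      exact hp0 hab
    have hb0 : b ≠ 0 := by
      rintro rfl
      rw [mul_zero] at hab
      exact hp0 hab
    obtain ⟨i, u1, rfl⟩ := key a ha0
    obtain ⟨j, u2, rfl⟩ := key b hb0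
    rcases Nat.eq_zero_or_pos i with hi | hi
    · left
      rw [hi, pow_zero, one_mul]
      exact u1.isUnit
    rcases Nat.eq_zero_or_pos j with hj | hj
    · right
      rw [hj, pow_zero, one_mul]
      exact u2.isUnit
    exfalso
    apply hpnu
    obtain ⟨i', rfl⟩ : ∃ i', i = i' + 1 := ⟨i - 1, by omega⟩
    obtain ⟨j', rfl⟩ : ∃ j', j = j' + 1 := ⟨j - 1, by omega⟩
    have h5 : p * 1 = p * (p ^ (i' + j') * p * (u1 * u2)) := by
      rw [mul_one]
      calc p = p ^ (i' + 1) * ↑u1 * (p ^ (j' + 1) * ↑u2) := hab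
        _ = _ := by ring
    have h6 := mul_left_cancel₀ hp0 h5
    refine isUnit_iff_exists_inv.mpr ⟨p ^ (i' + j') * (u1 * u2), ?_⟩
    rw [h6]
    ring
  · intro y hy
    obtain ⟨n, v, hv⟩ := key y hy
    exact ⟨n, ⟨v, hv.symm⟩⟩

end Gauss

section Transfer

variable {K0 K F0 F : Type*} [Field K0] [Field K] [Field F0] [Field F]
  [Algebra K0 F0] [Algebra K F]

theorem h97_map_aeval (jK : K0 →+* K) (jF : F0 →+* F)
    (hcomm : ∀ c : K0, jF (algebraMap K0 F0 c) = algebraMap K F (jK c)) (x0 : F0) (p : K0[X]) :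
    jF (aeval x0 p) = aeval (jF x0) (p.map jK) := by
  rw [aeval_def, aeval_def, hom_eval₂, eval₂_map]
  congr 1
  ext c
  exact hcomm c

/-- The Gauss ring of `(A0, x0)` maps into the Gauss ring of `(A, jF x0)`. -/
theorem h97_inGauss_map (jK : K0 →+* K) (jF : F0 →+* F)
    (hcomm : ∀ c : K0, jF (algebraMap K0 F0 c) = algebraMap K F (jK c))
    (A0 : ValuationSubring K0) (A : ValuationSubring K) (hA0 : ∀ a ∈ A0, jK a ∈ A)
    (x0 : F0) {g : F0} (hg : h97_InGauss A0 x0 g) : h97_InGauss A (jF x0) (jF g) := by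
  obtain ⟨P, Q, hP, hQ, ⟨i, hi0, hi⟩, h⟩ := hg
  refine ⟨P.map jK, Q.map jK, fun n => ?_, fun n => ?_, ⟨i, ?_, ?_⟩, ?_⟩
  · rw [coeff_map]; exact hA0 _ (hP n)
  · rw [coeff_map]; exact hA0 _ (hQ n)
  · rw [coeff_map]; exact (_root_.map_ne_zero jK).mpr hi0
  · rw [coeff_map, ← map_inv₀]; exact hA0 _ hi
  · rw [← h97_map_aeval jK jF hcomm, ← h97_map_aeval jK jF hcomm, ← map_mul, h]

theorem h97_map_mem_adjoin (jK : K0 →+* K) (jF : F0 →+* F)
    (hcomm : ∀ c : K0, jF (algebraMap K0 F0 c) = algebraMap K F (jK c)) (x0 : F0)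
    (c : K0⟮x0⟯) : jF (c : F0) ∈ K⟮jF x0⟯ := by
  obtain ⟨r, s, hrs⟩ := (mem_adjoin_simple_iff K0 (c : F0)).mp c.2
  rw [hrs, map_div₀, h97_map_aeval jK jF hcomm, h97_map_aeval jK jF hcomm, mem_adjoin_simple_iff]
  exact ⟨_, _, rfl⟩

end Transfer

section LatD4

variable {K0 K F0 F : Type*} [Field K0] [Field K] [Field F0] [Field F]
  [Algebra K0 F0] [Algebra K F]

/-- **The D4 lattice**: the subring of `F` generated by the Gauss ring of `(A, x)` and the
image of the integral closure `O_0` of the Gauss ring of `(A0, x0)` in `F0`. -/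
noncomputable def h97_latO (jF : F0 →+* F) (A0 : ValuationSubring K0) (A : ValuationSubring K)
    (x0 : F0) (hx0 : Transcendental K0 x0) (x : F) (hx : Transcendental K x) : Subring F :=
  Subring.closure ((h97_gaussRing A x hx : Set F) ∪
    jF '' {g | h97_IsInt (h97_gaussVal A0 x0 hx0) g})

variable (jK : K0 →+* K) (jF : F0 →+* F)
  (hcomm : ∀ c : K0, jF (algebraMap K0 F0 c) = algebraMap K F (jK c))
  (A0 : ValuationSubring K0) (A : ValuationSubring K) (hA0 : ∀ a ∈ A0, jK a ∈ A)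
  (x0 : F0) (hx0 : Transcendental K0 x0) (x : F) (hjx : jF x0 = x) (hx : Transcendental K x)

include hcomm hA0 hjx in
/-- `jF` maps the Gauss ring `R0` into the Gauss ring `V`. -/
theorem h97_map_R0_mem (c : K0⟮x0⟯) (hc : c ∈ h97_gaussVal A0 x0 hx0) :
    jF (c : F0) ∈ h97_gaussRing A x hx := by
  rw [h97_mem_gaussRing, ← hjx]
  exact h97_inGauss_map jK jF hcomm A0 A hA0 x0 ((h97_mem_gaussVal A0 x0 hx0 c).mp hc)

include hcomm hA0 hjx in
/-- **(b1)**: the D4 lattice is the `V`-span of the image of an integral basis. -/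
theorem h97_latO_mem_iff {d : ℕ} (t : Module.Basis (Fin d) K0⟮x0⟯ F0)
    (ht : ∀ g : F0, h97_IsInt (h97_gaussVal A0 x0 hx0) g ↔
      ∀ i, t.repr g i ∈ h97_gaussVal A0 x0 hx0) (f : F) :
    f ∈ h97_latO jF A0 A x0 hx0 x hx ↔
      ∃ v : Fin d → F, (∀ j, v j ∈ h97_gaussRing A x hx) ∧ f = ∑ j, v j * jF (t j) := by
  classical
  set V := h97_gaussRing A x hx with hV
  set R0 := h97_gaussVal A0 x0 hx0 with hR0
  have hsum : ∀ g : F0, g = ∑ j, ((t.repr g j : K0⟮x0⟯) : F0) * t j := by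
    intro g
    conv_lhs => rw [← t.sum_repr g]
    refine Finset.sum_congr rfl fun j _ => ?_
    rw [Algebra.smul_def]
    rfl
  -- integral elements map into the span
  have hint : ∀ g : F0, h97_IsInt R0 g →
      ∃ v : Fin d → F, (∀ j, v j ∈ V) ∧ jF g = ∑ j, v j * jF (t j) := by
    intro g hg
    refine ⟨fun j => jF ((t.repr g j : K0⟮x0⟯) : F0), fun j => ?_, ?_⟩
    · exact h97_map_R0_mem jK jF hcomm A0 A hA0 x0 hx0 x hjx hx _ ((ht g).mp hg j)
    · conv_lhs => rw [hsum g]
      rw [map_sum]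
      exact Finset.sum_congr rfl fun j _ => by rw [map_mul]
  have htint : ∀ j, h97_IsInt R0 (t j) := by
    intro j
    rw [ht]
    intro i
    rw [t.repr_self, Finsupp.single_apply]
    split_ifs
    · exact R0.one_mem
    · exact R0.zero_mem
  constructor
  · intro hf
    induction hf using Subring.closure_induction with
    | mem y hy =>
      rcases hy with hy | ⟨g, hg, rfl⟩
      · -- `y ∈ V`: write `1` in the basis
        obtain ⟨v, hv, h1⟩ := hint 1 (by
          show ((algebraMap K0⟮x0⟯ F0).comp R0.subtype).IsIntegralElem 1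
          simpa using ((algebraMap K0⟮x0⟯ F0).comp R0.subtype).isIntegralElem_map (x := 1))
        refine ⟨fun j => y * v j, fun j => V.mul_mem hy (hv j), ?_⟩
        rw [map_one] at h1
        calc y = y * 1 := (mul_one y).symm
          _ = y * ∑ j, v j * jF (t j) := by rw [← h1]
          _ = _ := by rw [Finset.mul_sum]; exact Finset.sum_congr rfl fun j _ => by ring
      · exact hint g hg
    | zero => exact ⟨fun _ => 0, fun _ => V.zero_mem, by simp⟩
    | one =>
      obtain ⟨v, hv, h1⟩ := hint 1 (by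
        show ((algebraMap K0⟮x0⟯ F0).comp R0.subtype).IsIntegralElem 1
        simpa using ((algebraMap K0⟮x0⟯ F0).comp R0.subtype).isIntegralElem_map (x := 1))
      rw [map_one] at h1
      exact ⟨v, hv, h1⟩
    | add y z _ _ hy hz =>
      obtain ⟨v, hv, rfl⟩ := hy
      obtain ⟨v', hv', rfl⟩ := hz
      refine ⟨fun j => v j + v' j, fun j => V.add_mem (hv j) (hv' j), ?_⟩
      rw [← Finset.sum_add_distrib]
      exact Finset.sum_congr rfl fun j _ => by ring
    | neg y _ hy =>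
      obtain ⟨v, hv, rfl⟩ := hy
      refine ⟨fun j => - v j, fun j => V.neg_mem (hv j), ?_⟩
      rw [← Finset.sum_neg_distrib]
      exact Finset.sum_congr rfl fun j _ => by ring
    | mul y z _ _ hy hz =>
      obtain ⟨v, hv, rfl⟩ := hy
      obtain ⟨v', hv', rfl⟩ := hz
      -- products of basis elements
      have hprod : ∀ i j, ∃ r : Fin d → F, (∀ l, r l ∈ V) ∧
          jF (t i) * jF (t j) = ∑ l, r l * jF (t l) := by
        intro i j
        have hij : h97_IsInt R0 (t i * t j) :=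
          RingHom.IsIntegralElem.mul _ (htint i) (htint j)
        obtain ⟨r, hr, h⟩ := hint _ hij
        exact ⟨r, hr, by rw [← map_mul]; exact h⟩
      choose r hr hrj using hprod
      refine ⟨fun l => ∑ i, ∑ j, v i * v' j * r i j l, fun l => ?_, ?_⟩
      · exact V.sum_mem fun i _ => V.sum_mem fun j _ =>
          V.mul_mem (V.mul_mem (hv i) (hv' j)) (hr i j l)
      · rw [Finset.sum_mul_sum]
        have h1 : ∀ i j, v i * jF (t i) * (v' j * jF (t j)) =
            ∑ l, v i * v' j * r i j l * jF (t l) := by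
          intro i j
          rw [mul_mul_mul_comm, hrj, Finset.mul_sum]
          exact Finset.sum_congr rfl fun l _ => by ring
        simp_rw [h1]
        have h2 : ∑ i, ∑ j, ∑ l, v i * v' j * r i j l * jF (t l) =
            ∑ l, ∑ i, ∑ j, v i * v' j * r i j l * jF (t l) := by
          rw [Finset.sum_congr rfl (fun i _ => Finset.sum_comm (s := Finset.univ)
            (t := Finset.univ) (f := fun j l => v i * v' j * r i j l * jF (t l)))]
          exact Finset.sum_comm
        rw [h2]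
        refine Finset.sum_congr rfl fun l _ => ?_
        rw [Finset.sum_mul]
        exact Finset.sum_congr rfl fun i _ => by rw [Finset.sum_mul]
  · rintro ⟨v, hv, rfl⟩
    refine Subring.sum_mem _ fun j _ => Subring.mul_mem _ ?_ ?_
    · exact Subring.subset_closure (Or.inl (hv j))
    · exact Subring.subset_closure (Or.inr ⟨t j, htint j, rfl⟩)

include hcomm hjx in
/-- **(b2)**: the image of a `K0(x0)`-basis of `F0` spans `F` over `K(x)`, given (SP). -/
theorem h97_latD4_span {d : ℕ} (t : Module.Basis (Fin d) K0⟮x0⟯ F0)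
    (hSP : ∀ f : F, f ∈ Submodule.span K (Set.range jF)) (f : F) :
    ∃ c : Fin d → F, (∀ j, c j ∈ K⟮x⟯) ∧ f = ∑ j, c j * jF (t j) := by
  classical
  have hsum : ∀ g : F0, g = ∑ j, ((t.repr g j : K0⟮x0⟯) : F0) * t j := by
    intro g
    conv_lhs => rw [← t.sum_repr g]
    refine Finset.sum_congr rfl fun j _ => ?_
    rw [Algebra.smul_def]
    rfl
  have hf := hSP f
  induction hf using Submodule.span_induction with
  | mem y hy =>
    obtain ⟨g, rfl⟩ := hy
    refine ⟨fun j => jF ((t.repr g j : K0⟮x0⟯) : F0), fun j => ?_, ?_⟩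
    · have := h97_map_mem_adjoin jK jF hcomm x0 (t.repr g j)
      rw [hjx] at this
      exact this
    · conv_lhs => rw [hsum g]
      rw [map_sum]
      exact Finset.sum_congr rfl fun j _ => by rw [map_mul]
  | zero => exact ⟨fun _ => 0, fun _ => K⟮x⟯.zero_mem, by simp⟩
  | add y z _ _ hy hz =>
    obtain ⟨c, hc, rfl⟩ := hy
    obtain ⟨c', hc', rfl⟩ := hz
    refine ⟨fun j => c j + c' j, fun j => K⟮x⟯.add_mem (hc j) (hc' j), ?_⟩
    rw [← Finset.sum_add_distrib]
    exact Finset.sum_congr rfl fun j _ => by ring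
  | smul a y _ hy =>
    obtain ⟨c, hc, rfl⟩ := hy
    refine ⟨fun j => algebraMap K F a * c j,
      fun j => K⟮x⟯.mul_mem (K⟮x⟯.algebraMap_mem a) (hc j), ?_⟩
    rw [Algebra.smul_def, Finset.mul_sum]
    exact Finset.sum_congr rfl fun j _ => by ring

include hcomm hA0 hjx in
/-- **(L2a-OBJ), frame form.**  The D4 lattice is a frame lattice over the Gauss ring of
`(A, x)`: there is a `K(x)`-basis `b` of `F` such that `f ∈ O` iff all `b`-coordinates of `f`
lie in the Gauss ring.  Inputs: (DV) `A0` is a discrete valuation ring with uniformiser `w`;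
(SP) `F` is spanned over `K` by the image of `F0`. -/
theorem h97_latD4_frame [CharZero K0] [FiniteDimensional K0⟮x0⟯ F0]
    (w : K0) (hw : w ∈ A0) (hwi : w⁻¹ ∉ A0)
    (hDV : ∀ c : K0, c ≠ 0 → ∃ (n : ℤ) (u : K0), u ∈ A0 ∧ u⁻¹ ∈ A0 ∧ c = w ^ n * u)
    (hSP : ∀ f : F, f ∈ Submodule.span K (Set.range jF)) :
    ∃ (n : ℕ) (b : Module.Basis (Fin n) K⟮x⟯ F),
      ∀ f : F, f ∈ h97_latO jF A0 A x0 hx0 x hx ↔
        ∀ i, ((b.repr f i : K⟮x⟯) : F) ∈ h97_gaussRing A x hx := by
  haveI := h97_gaussVal_dvr A0 x0 hx0 w hw hwi hDV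
  haveI : CharZero K0⟮x0⟯ := charZero_of_injective_algebraMap (algebraMap K0 K0⟮x0⟯).injective
  obtain ⟨d, t, ht⟩ := h97_exists_intBasis (F0 := F0) (h97_gaussVal A0 x0 hx0)
  exact h75_exists_fgFrame (h97_gaussRing_h75 A x hx) _ (fun j => jF (t j))
    (h97_latO_mem_iff jK jF hcomm A0 A hA0 x0 hx0 x hjx hx t ht)
    (h97_latD4_span jK jF hcomm x0 x hjx t hSP)

/-- **The D4 lattice datum** `D##`: `A`, `O = h97_latO`, residue field of `A`,
`Rb = O / 𝔪_A O` (helper75's canonical fibre of a frame lattice). -/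
noncomputable def h97_D4 [CharZero K0] [FiniteDimensional K0⟮x0⟯ F0]
    (w : K0) (hw : w ∈ A0) (hwi : w⁻¹ ∉ A0)
    (hDV : ∀ c : K0, c ≠ 0 → ∃ (n : ℤ) (u : K0), u ∈ A0 ∧ u⁻¹ ∈ A0 ∧ c = w ^ n * u)
    (hSP : ∀ f : F, f ∈ Submodule.span K (Set.range jF)) :
    h22_Lat K F (IsLocalRing.ResidueField A)
      (h75_Fibre A (h97_latO jF A0 A x0 hx0 x hx)
        (h75_frame_A_le (h97_gaussRing_h75 A x hx) _
          (h97_latD4_frame jK jF hcomm A0 A hA0 x0 hx0 x hjx hx w hw hwi hDV hSP))) :=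
  h75_fibreLat (h97_gaussRing_h75 A x hx) _
    (h97_latD4_frame jK jF hcomm A0 A hA0 x0 hx0 x hjx hx w hw hwi hDV hSP)

theorem h97_D4_A [CharZero K0] [FiniteDimensional K0⟮x0⟯ F0]
    (w : K0) (hw : w ∈ A0) (hwi : w⁻¹ ∉ A0)
    (hDV : ∀ c : K0, c ≠ 0 → ∃ (n : ℤ) (u : K0), u ∈ A0 ∧ u⁻¹ ∈ A0 ∧ c = w ^ n * u)
    (hSP : ∀ f : F, f ∈ Submodule.span K (Set.range jF)) :
    (h97_D4 jK jF hcomm A0 A hA0 x0 hx0 x hjx hx w hw hwi hDV hSP).A = A := rfl

theorem h97_D4_O [CharZero K0] [FiniteDimensional K0⟮x0⟯ F0]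
    (w : K0) (hw : w ∈ A0) (hwi : w⁻¹ ∉ A0)
    (hDV : ∀ c : K0, c ≠ 0 → ∃ (n : ℤ) (u : K0), u ∈ A0 ∧ u⁻¹ ∈ A0 ∧ c = w ^ n * u)
    (hSP : ∀ f : F, f ∈ Submodule.span K (Set.range jF)) :
    (h97_D4 jK jF hcomm A0 A hA0 x0 hx0 x hjx hx w hw hwi hDV hSP).O =
      h97_latO jF A0 A x0 hx0 x hx := rfl

/-- (ON) for the D4 lattice datum. -/
theorem h97_D4_on [CharZero K0] [FiniteDimensional K0⟮x0⟯ F0]
    (w : K0) (hw : w ∈ A0) (hwi : w⁻¹ ∉ A0)
    (hDV : ∀ c : K0, c ≠ 0 → ∃ (n : ℤ) (u : K0), u ∈ A0 ∧ u⁻¹ ∈ A0 ∧ c = w ^ n * u)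
    (hSP : ∀ f : F, f ∈ Submodule.span K (Set.range jF)) :
    h22_ON (h97_D4 jK jF hcomm A0 A hA0 x0 hx0 x hjx hx w hw hwi hDV hSP) :=
  h75_fibreLat_on _ _ _

/-- `hinv` for the D4 lattice datum. -/
theorem h97_D4_hinv [CharZero K0] [FiniteDimensional K0⟮x0⟯ F0]
    (w : K0) (hw : w ∈ A0) (hwi : w⁻¹ ∉ A0)
    (hDV : ∀ c : K0, c ≠ 0 → ∃ (n : ℤ) (u : K0), u ∈ A0 ∧ u⁻¹ ∈ A0 ∧ c = w ^ n * u)
    (hSP : ∀ f : F, f ∈ Submodule.span K (Set.range jF)) (f : F)
    (hf : f ∈ (h97_D4 jK jF hcomm A0 A hA0 x0 hx0 x hjx hx w hw hwi hDV hSP).O)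
    (hu : IsUnit ((h97_D4 jK jF hcomm A0 A hA0 x0 hx0 x hjx hx w hw hwi hDV hSP).red ⟨f, hf⟩)) :
    f⁻¹ ∈ (h97_D4 jK jF hcomm A0 A hA0 x0 hx0 x hjx hx w hw hwi hDV hSP).O :=
  h75_fibreLat_hinv _ _ _ f hf hu

/-- The chart function and the image of every integral element lie in the D4 lattice. -/
theorem h97_latO_of_int {g : F0} (hg : h97_IsInt (h97_gaussVal A0 x0 hx0) g) :
    jF g ∈ h97_latO jF A0 A x0 hx0 x hx :=
  Subring.subset_closure (Or.inr ⟨g, hg, rfl⟩)

theorem h97_latO_of_gauss {v : F} (hv : v ∈ h97_gaussRing A x hx) :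
    v ∈ h97_latO jF A0 A x0 hx0 x hx :=
  Subring.subset_closure (Or.inl hv)

end LatD4

end Fermat.Agent.S36
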