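import Mathlib
import Fermat.Agent.S36.h97_LatD4
import Fermat.Agent.S36.h75_LatChart

/-!
# S36 / I-LAT: (COORD) and (hdiv) for the D4 lattice (helper97)

Same setting as `h97_LatD4`: `K0 ⊆ K`, `F0 ⊆ F` with embeddings `jK`, `jF`, valuation rings
`A0 = A ∩ K0`, chart `x = jF x0`, `R0` = Gauss ring of `(A0, x0)`, `O_0` = integral closure of
`R0` in `F0`, `O = h97_latO` = the D4 lattice.

* `h97_gaussRing_eq` : `h97_gaussRing A x hx = h75_gaussRing A x`.
* `h97_hone`, `h97_hmul` (+ `h97_latD4_span`) : the three binders of helper75's `h75_chartO` /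
  `h75_chartLat` for `β = jF ∘ t`, `t` an integral basis; `h97_chartO_eq` : that chart lattice
  is `h97_latO`.
* `h97_frame_li` : (LD) in `K(x)`-form.
* `h97_D4_coord` / `h97_latO_coord` / `h97_chartO_coord` : (COORD) `jF g ∈ O ↔ g ∈ O_0`.
* `h97_D4_hdiv` / `h97_latO_hdiv` / `h97_chartO_hdiv` / `h97_D4_red_eq_zero` : (hdiv)
  `𝔪_A O ∩ F0 = w O_0`.
* `h97_latO_x_mem`, `h97_latO_x_inv_mem`.
-/

set_option autoImplicit false
set_option linter.style.haveILetI false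

open Polynomial IntermediateField
open Fermat.Agent.S34

namespace Fermat.Agent.S36

section GaussEq

variable {K F : Type*} [Field K] [Field F] [Algebra K F]

/-- The two descriptions of the Gauss ring agree. -/
theorem h97_inGauss_iff (A : ValuationSubring K) (x : F) (f : F) :
    h97_InGauss A x f ↔ ∃ P S : Polynomial A, S.map (IsLocalRing.residue A) ≠ 0 ∧
      f * aeval x (S.map A.subtype) = aeval x (P.map A.subtype) := by
  constructor
  · rintro ⟨P, Q, hP, hQ, ⟨i, hi0, hi⟩, h⟩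
    obtain ⟨P', hP'⟩ := h75_exists_lift A P hP
    obtain ⟨Q', hQ'⟩ := h75_exists_lift A Q hQ
    refine ⟨P', Q', ?_, by rw [hP', hQ']; exact h⟩
    intro h0
    have h1 := congrArg (fun p => p.coeff i) h0
    simp only [coeff_map, coeff_zero] at h1
    have h2 : Q'.coeff i ∈ IsLocalRing.maximalIdeal A :=
      (IsLocalRing.residue_eq_zero_iff _).mp h1
    have hval : ((Q'.coeff i : A) : K) = Q.coeff i := by
      rw [← hQ', coeff_map]; rfl
    apply (IsLocalRing.mem_maximalIdeal _).mp h2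
    refine isUnit_iff_exists_inv.mpr ⟨⟨(Q.coeff i)⁻¹, hi⟩, Subtype.ext ?_⟩
    show ((Q'.coeff i : A) : K) * (Q.coeff i)⁻¹ = 1
    rw [hval, mul_inv_cancel₀ hi0]
  · rintro ⟨P, Q, hQ, h⟩
    refine ⟨P.map A.subtype, Q.map A.subtype, fun i => ?_, fun i => ?_, ?_, h⟩
    · rw [coeff_map]; exact (P.coeff i).2
    · rw [coeff_map]; exact (Q.coeff i).2
    · obtain ⟨i, hi⟩ : ∃ i, IsLocalRing.residue A (Q.coeff i) ≠ 0 := by
        by_contra hcon
        simp only [not_exists, not_not] at hcon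
        apply hQ
        ext i
        rw [coeff_map, hcon i, coeff_zero]
      have hu : IsUnit (Q.coeff i) := by
        by_contra hnu
        exact hi ((IsLocalRing.residue_eq_zero_iff _).mpr
          ((IsLocalRing.mem_maximalIdeal _).mpr hnu))
      obtain ⟨v, hv⟩ := hu.exists_right_inv
      have hv' : ((Q.coeff i : A) : K) * (v : K) = 1 := congrArg Subtype.val hv
      refine ⟨i, ?_, ?_⟩
      · rw [coeff_map]
        intro h0
        have h0' : ((Q.coeff i : A) : K) = 0 := h0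
        rw [h0', zero_mul] at hv'
        exact zero_ne_one hv'
      · rw [coeff_map]
        show (((Q.coeff i : A) : K))⁻¹ ∈ A
        rw [inv_eq_of_mul_eq_one_right hv']
        exact v.2

/-- `h97_gaussRing` is helper75's `h75_gaussRing`. -/
theorem h97_gaussRing_eq (A : ValuationSubring K) (x : F) (hx : Transcendental K x) :
    h97_gaussRing A x hx = h75_gaussRing A x := by
  ext f
  rw [h97_mem_gaussRing, h97_inGauss_iff, h75_mem_gaussRing]

end GaussEq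

section Coord

variable {K0 K F0 F : Type*} [Field K0] [Field K] [Field F0] [Field F]
  [Algebra K0 F0] [Algebra K F]
  (jK : K0 →+* K) (jF : F0 →+* F)
  (hcomm : ∀ c : K0, jF (algebraMap K0 F0 c) = algebraMap K F (jK c))
  (A0 : ValuationSubring K0) (A : ValuationSubring K) (hA0 : ∀ a ∈ A0, jK a ∈ A)
  (hA0' : ∀ a : K0, jK a ∈ A → a ∈ A0)
  (x0 : F0) (hx0 : Transcendental K0 x0) (x : F) (hjx : jF x0 = x) (hx : Transcendental K x)
  {d : ℕ} (t : Module.Basis (Fin d) K0⟮x0⟯ F0)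
  (ht : ∀ g : F0, h97_IsInt (h97_gaussVal A0 x0 hx0) g ↔
    ∀ i, t.repr g i ∈ h97_gaussVal A0 x0 hx0)

include hcomm hA0 hjx hx ht in
/-- the image of an integral element has coordinates in the Gauss ring of `(A, x)` -/
theorem h97_int_coord {g : F0} (hg : h97_IsInt (h97_gaussVal A0 x0 hx0) g) :
    ∃ v : Fin d → F, (∀ j, v j ∈ h75_gaussRing A x) ∧ jF g = ∑ j, v j * jF (t j) := by
  have h := (h97_latO_mem_iff jK jF hcomm A0 A hA0 x0 hx0 x hjx hx t ht (jF g)).mp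
    (h97_latO_of_int jF A0 A x0 hx0 x hx hg)
  rw [h97_gaussRing_eq] at h
  exact h

include hcomm hA0 hjx hx ht in
/-- **`hone`** of `h75_chartO` for `β = jF ∘ t`. -/
theorem h97_hone :
    ∃ v : Fin d → F, (∀ j, v j ∈ h75_gaussRing A x) ∧ 1 = ∑ j, v j * jF (t j) := by
  have h1 : h97_IsInt (h97_gaussVal A0 x0 hx0) (1 : F0) := by
    show ((algebraMap K0⟮x0⟯ F0).comp (h97_gaussVal A0 x0 hx0).subtype).IsIntegralElem 1
    simpa using ((algebraMap K0⟮x0⟯ F0).comp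
      (h97_gaussVal A0 x0 hx0).subtype).isIntegralElem_map (x := 1)
  obtain ⟨v, hv, h⟩ := h97_int_coord jK jF hcomm A0 A hA0 x0 hx0 x hjx hx t ht h1
  rw [map_one] at h
  exact ⟨v, hv, h⟩

include ht in
theorem h97_basis_int (j : Fin d) : h97_IsInt (h97_gaussVal A0 x0 hx0) (t j) := by
  classical
  rw [ht]
  intro i
  rw [t.repr_self, Finsupp.single_apply]
  split_ifs
  · exact (h97_gaussVal A0 x0 hx0).one_mem
  · exact (h97_gaussVal A0 x0 hx0).zero_mem

include hcomm hA0 hjx hx ht in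
/-- **`hmul`** of `h75_chartO` for `β = jF ∘ t`. -/
theorem h97_hmul (i j : Fin d) :
    ∃ v : Fin d → F, (∀ l, v l ∈ h75_gaussRing A x) ∧
      jF (t i) * jF (t j) = ∑ l, v l * jF (t l) := by
  have hij : h97_IsInt (h97_gaussVal A0 x0 hx0) (t i * t j) :=
    RingHom.IsIntegralElem.mul _ (h97_basis_int A0 x0 hx0 t ht i) (h97_basis_int A0 x0 hx0 t ht j)
  obtain ⟨v, hv, h⟩ := h97_int_coord jK jF hcomm A0 A hA0 x0 hx0 x hjx hx t ht hij
  exact ⟨v, hv, by rw [← map_mul]; exact h⟩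

include hcomm hA0 hjx ht in
/-- helper75's chart lattice on the image of an integral basis is the D4 lattice `h97_latO`. -/
theorem h97_chartO_eq
    (hone : ∃ v : Fin d → F, (∀ j, v j ∈ h75_gaussRing A x) ∧ 1 = ∑ j, v j * jF (t j))
    (hmul : ∀ i j, ∃ v : Fin d → F, (∀ l, v l ∈ h75_gaussRing A x) ∧
      jF (t i) * jF (t j) = ∑ l, v l * jF (t l)) :
    h75_chartO A (fun j => jF (t j)) hone hmul = h97_latO jF A0 A x0 hx0 x hx := by
  ext f
  rw [h75_mem_chartO, h97_latO_mem_iff jK jF hcomm A0 A hA0 x0 hx0 x hjx hx t ht f,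
    h97_gaussRing_eq]

include hcomm hA0 hA0' hjx in
/-- **(iii)** `V ∩ jF(K0(x0)) = jF(R0)`. -/
theorem h97_R0_of_map_mem (c : K0⟮x0⟯) (hc : jF (c : F0) ∈ h97_gaussRing A x hx) :
    c ∈ h97_gaussVal A0 x0 hx0 := by
  by_cases hc0 : c = 0
  · rw [hc0]; exact (h97_gaussVal A0 x0 hx0).zero_mem
  obtain ⟨c0, hc00, h1, h2⟩ := h97_gaussVal_scale A0 x0 hx0 c hc0
  set u : K0⟮x0⟯ := algebraMap K0 K0⟮x0⟯ c0 * c with hu
  have hu0 : u ≠ 0 := mul_ne_zero ((_root_.map_ne_zero _).mpr hc00) hc0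
  have hjui := h97_map_R0_mem jK jF hcomm A0 A hA0 x0 hx0 x hjx hx u⁻¹ h2
  -- `jK c0⁻¹ = jF c * jF u⁻¹`
  have h3 : algebraMap K F (jK c0⁻¹) = jF (c : F0) * jF ((u⁻¹ : K0⟮x0⟯) : F0) := by
    rw [← hcomm, ← map_mul]
    congr 1
    have : (algebraMap K0 K0⟮x0⟯ c0⁻¹ : K0⟮x0⟯) = c * u⁻¹ := by
      rw [hu, map_inv₀, mul_inv, mul_comm c, mul_assoc, inv_mul_cancel₀ hc0, mul_one]
    exact congrArg (fun z : K0⟮x0⟯ => (z : F0)) this
  have h4 : jK c0⁻¹ ∈ A := by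
    rw [← h97_gaussRing_const A x hx, h3]
    exact (h97_gaussRing A x hx).mul_mem hc hjui
  have h5 : c0⁻¹ ∈ A0 := hA0' _ h4
  have h6 : c = algebraMap K0 K0⟮x0⟯ c0⁻¹ * u := by
    rw [hu, map_inv₀, ← mul_assoc, inv_mul_cancel₀ ((_root_.map_ne_zero _).mpr hc00), one_mul]
  rw [h6]
  exact (h97_gaussVal A0 x0 hx0).mul_mem _ _ ((h97_gaussVal_const A0 x0 hx0 _).mpr h5) h1

/-- (DV) consequence: an element of `A0` which is not a unit is a multiple of `w`. -/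
theorem h97_dv_dvd (w : K0) (hw : w ∈ A0) (hwi : w⁻¹ ∉ A0)
    (hDV : ∀ c : K0, c ≠ 0 → ∃ (n : ℤ) (u : K0), u ∈ A0 ∧ u⁻¹ ∈ A0 ∧ c = w ^ n * u)
    (e : K0) (hei : e⁻¹ ∉ A0) : ∃ e' : K0, e' ∈ A0 ∧ e = w * e' := by
  have hw0 : w ≠ 0 := by
    rintro rfl
    exact hwi (by rw [inv_zero]; exact A0.zero_mem)
  by_cases he0 : e = 0
  · exact ⟨0, A0.zero_mem, by rw [he0, mul_zero]⟩
  obtain ⟨n, u, hu, hui, heq⟩ := hDV e he0
  have hn : 1 ≤ n := by
    by_contra hneg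
    rw [not_le] at hneg
    apply hei
    obtain ⟨m, hm⟩ : ∃ m : ℕ, -n = (m : ℤ) := ⟨(-n).toNat, by omega⟩
    have h1 : e⁻¹ = w ^ m * u⁻¹ := by
      rw [heq, mul_inv, ← zpow_neg, hm, zpow_natCast]
    rw [h1]
    exact A0.mul_mem _ _ (A0.pow_mem hw m) hui
  obtain ⟨m, hm⟩ : ∃ m : ℕ, n = (m : ℤ) + 1 := ⟨(n - 1).toNat, by omega⟩
  refine ⟨w ^ m * u, A0.mul_mem _ _ (A0.pow_mem hw m) hu, ?_⟩
  rw [heq, hm, zpow_add₀ hw0, zpow_natCast, zpow_one]
  ring

include hcomm hA0 hA0' hjx in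
/-- **(iii')** `𝔪_A V ∩ jF(K0(x0)) = w · jF(R0)`. -/
theorem h97_wR0_of_map_mem (w : K0) (hw : w ∈ A0) (hwi : w⁻¹ ∉ A0)
    (hDV : ∀ c : K0, c ≠ 0 → ∃ (n : ℤ) (u : K0), u ∈ A0 ∧ u⁻¹ ∈ A0 ∧ c = w ^ n * u)
    (c : K0⟮x0⟯) (a : K) (ha : a ∈ A.nonunits) (v : F) (hv : v ∈ h97_gaussRing A x hx)
    (hc : jF (c : F0) = algebraMap K F a * v) :
    ∃ c' : K0⟮x0⟯, c' ∈ h97_gaussVal A0 x0 hx0 ∧ c = algebraMap K0 K0⟮x0⟯ w * c' := by
  by_cases hc0 : c = 0
  · exact ⟨0, (h97_gaussVal A0 x0 hx0).zero_mem, by rw [hc0, mul_zero]⟩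
  have hjc0 : jF (c : F0) ≠ 0 := by
    rw [Ne, _root_.map_eq_zero]
    exact fun h => hc0 (Subtype.ext h)
  have ha0 : a ≠ 0 := by
    rintro rfl
    rw [map_zero, zero_mul] at hc
    exact hjc0 hc
  have hv0 : v ≠ 0 := by
    rintro rfl
    rw [mul_zero] at hc
    exact hjc0 hc
  obtain ⟨c0, hc00, h1, h2⟩ := h97_gaussVal_scale A0 x0 hx0 c hc0
  set u : K0⟮x0⟯ := algebraMap K0 K0⟮x0⟯ c0 * c with hu
  have hu0 : u ≠ 0 := mul_ne_zero ((_root_.map_ne_zero _).mpr hc00) hc0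
  have hjui := h97_map_R0_mem jK jF hcomm A0 A hA0 x0 hx0 x hjx hx u⁻¹ h2
  have hju : jF (u : F0) = algebraMap K F (jK c0) * (algebraMap K F a * v) := by
    rw [← hc, ← hcomm, ← map_mul]
    rfl
  have hju0 : jF (u : F0) ≠ 0 := by
    rw [Ne, _root_.map_eq_zero]
    exact fun h => hu0 (Subtype.ext h)
  have hjuinv : jF ((u⁻¹ : K0⟮x0⟯) : F0) = (jF (u : F0))⁻¹ := by
    rw [← map_inv₀]
    rfl
  -- `b := (jK c0 * a)⁻¹ ∈ A`
  have hb : (jK c0 * a)⁻¹ ∈ A := by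
    rw [← h97_gaussRing_const A x hx]
    have h3 : algebraMap K F (jK c0 * a)⁻¹ = v * jF ((u⁻¹ : K0⟮x0⟯) : F0) := by
      rw [hjuinv, hju, map_inv₀, map_mul]
      have hca : algebraMap K F (jK c0) * algebraMap K F a ≠ 0 :=
        mul_ne_zero ((_root_.map_ne_zero _).mpr ((_root_.map_ne_zero _).mpr hc00))
          ((_root_.map_ne_zero _).mpr ha0)
      field_simp
    rw [h3]
    exact (h97_gaussRing A x hx).mul_mem hv hjui
  -- `e := c0⁻¹` is a nonunit of `A0`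
  have hjc00 : jK c0 ≠ 0 := (_root_.map_ne_zero _).mpr hc00
  have he_eq : jK c0⁻¹ = a * (jK c0 * a)⁻¹ := by
    rw [map_inv₀, mul_inv]
    field_simp
  have he_nu : jK c0⁻¹ ∈ A.nonunits := by
    rw [he_eq, A.mem_nonunits_iff, map_mul]
    calc A.valuation a * A.valuation (jK c0 * a)⁻¹ ≤ A.valuation a * 1 :=
          mul_le_mul_right ((A.valuation_le_one_iff _).mpr hb) _
      _ = A.valuation a := mul_one _
      _ < 1 := A.mem_nonunits_iff.mp ha
  have he : c0⁻¹ ∈ A0 := hA0' _ (A.nonunits_subset he_nu)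
  have hei : (c0⁻¹)⁻¹ ∉ A0 := by
    intro h
    have h4 : jK (c0⁻¹)⁻¹ ∈ A := hA0 _ h
    rw [A.mem_nonunits_iff_or] at he_nu
    rcases he_nu with h5 | h5
    · exact inv_ne_zero hc00 ((_root_.map_eq_zero _).mp h5)
    · apply h5
      rw [← map_inv₀]
      exact h4
  obtain ⟨e', he', hee'⟩ := h97_dv_dvd A0 w hw hwi hDV c0⁻¹ hei
  refine ⟨algebraMap K0 K0⟮x0⟯ e' * u, (h97_gaussVal A0 x0 hx0).mul_mem _ _
    ((h97_gaussVal_const A0 x0 hx0 _).mpr he') h1, ?_⟩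
  have h6 : c = algebraMap K0 K0⟮x0⟯ c0⁻¹ * u := by
    rw [hu, map_inv₀, ← mul_assoc, inv_mul_cancel₀ ((_root_.map_ne_zero _).mpr hc00), one_mul]
  rw [h6, hee', map_mul, mul_assoc]

include hjx hx0 hx in
/-- **Linear disjointness in `K(x)`-form**: the image of a `K0(x0)`-basis of `F0` is linearly
independent over `K(x)`, given (LD) (independence over `K0` is preserved by `jF`). -/
theorem h97_frame_li
    (hLD : ∀ {ι : Type} [Fintype ι] (g : ι → F0), LinearIndependent K0 g →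
      LinearIndependent K (fun i => jF (g i)))
    (e : Fin d → F) (he : ∀ j, e j ∈ K⟮x⟯) (hrel : ∑ j, e j * jF (t j) = 0) : ∀ j, e j = 0 := by
  classical
  have hinj := transcendental_iff_injective.mp hx
  have hrep : ∀ j, ∃ r s : K[X], s ≠ 0 ∧ e j * aeval x s = aeval x r := by
    intro j
    obtain ⟨r, s, h⟩ := (mem_adjoin_simple_iff K _).mp (he j)
    by_cases hs : aeval x s = 0
    · exact ⟨0, 1, one_ne_zero, by rw [h, hs, div_zero, zero_mul, map_zero]⟩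
    · exact ⟨r, s, fun h0 => hs (by rw [h0, map_zero]), by rw [h, div_mul_cancel₀ _ hs]⟩
  choose r s hs hrs using hrep
  set S : K[X] := ∏ j, s j with hS
  have hS0 : aeval x S ≠ 0 := by
    intro h0
    have : S = 0 := hinj (by rw [h0, map_zero])
    exact (Finset.prod_ne_zero_iff.mpr fun j _ => hs j) this
  set p : Fin d → K[X] := fun j => r j * ∏ i ∈ Finset.univ.erase j, s i with hp
  have hpj : ∀ j, e j * aeval x S = aeval x (p j) := by
    intro j
    have h1 : S = s j * ∏ i ∈ Finset.univ.erase j, s i :=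
      (Finset.mul_prod_erase _ _ (Finset.mem_univ j)).symm
    rw [h1, map_mul, ← mul_assoc, hrs, hp, map_mul]
  have hrel2 : ∑ j, aeval x (p j) * jF (t j) = 0 := by
    have h1 : ∑ j, aeval x (p j) * jF (t j) = aeval x S * ∑ j, e j * jF (t j) := by
      rw [Finset.mul_sum]
      refine Finset.sum_congr rfl fun j _ => ?_
      rw [← hpj]
      ring
    rw [h1, hrel, mul_zero]
  -- degree bound
  set M : ℕ := (Finset.univ.sup fun j => (p j).natDegree) + 1 with hM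
  have hMj : ∀ j, (p j).natDegree < M := fun j =>
    Nat.lt_succ_of_le (Finset.le_sup (f := fun j => (p j).natDegree) (Finset.mem_univ j))
  -- the independent family `x0 ^ m * t j`
  let φ : Fin d × Fin M → F0 := fun jm => x0 ^ (jm.2 : ℕ) * t jm.1
  have hφ : LinearIndependent K0 φ := by
    rw [Fintype.linearIndependent_iff]
    intro a ha jm
    rw [Fintype.sum_prod_type] at ha
    have hc : ∀ j, (∑ m : Fin M, algebraMap K0 F0 (a (j, m)) * x0 ^ (m : ℕ)) ∈ K0⟮x0⟯ :=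
      fun j => K0⟮x0⟯.sum_mem fun m _ => K0⟮x0⟯.mul_mem (K0⟮x0⟯.algebraMap_mem _)
        (pow_mem (mem_adjoin_simple_self K0 x0) _)
    have h1 : ∑ j, (⟨_, hc j⟩ : K0⟮x0⟯) • t j = 0 := by
      rw [← ha]
      refine Finset.sum_congr rfl fun j _ => ?_
      show (∑ m : Fin M, algebraMap K0 F0 (a (j, m)) * x0 ^ (m : ℕ)) * t j =
        ∑ m : Fin M, a (j, m) • (x0 ^ (m : ℕ) * t j)
      rw [Finset.sum_mul]
      refine Finset.sum_congr rfl fun m _ => ?_
      rw [Algebra.smul_def]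
      ring
    have h2 := Fintype.linearIndependent_iff.mp t.linearIndependent _ h1 jm.1
    have h3 : ∑ m : Fin M, algebraMap K0 F0 (a (jm.1, m)) * x0 ^ (m : ℕ) = 0 :=
      congrArg Subtype.val h2
    have hP : aeval x0 (∑ m : Fin M, C (a (jm.1, m)) * X ^ (m : ℕ)) = 0 := by
      rw [map_sum, ← h3]
      refine Finset.sum_congr rfl fun m _ => ?_
      rw [map_mul, aeval_C, map_pow, aeval_X]
    have hP0 : (∑ m : Fin M, C (a (jm.1, m)) * X ^ (m : ℕ)) = 0 :=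
      (transcendental_iff_injective.mp hx0) (by rw [hP, map_zero])
    have h4 := congrArg (fun q : K0[X] => q.coeff (jm.2 : ℕ)) hP0
    simp only [finsetSum_coeff, coeff_C_mul, coeff_X_pow, coeff_zero] at h4
    rw [Finset.sum_eq_single jm.2] at h4
    · simpa using h4
    · intro m _ hm
      have : ¬ ((jm.2 : ℕ) = (m : ℕ)) := fun h => hm (Fin.ext h.symm)
      simp [this]
    · intro h
      exact absurd (Finset.mem_univ _) h
  have hψ := hLD φ hφ
  have hrel3 : ∑ jm : Fin d × Fin M, (p jm.1).coeff (jm.2 : ℕ) • jF (φ jm) = 0 := by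
    rw [Fintype.sum_prod_type, ← hrel2]
    refine Finset.sum_congr rfl fun j _ => ?_
    rw [Polynomial.aeval_eq_sum_range' (hMj j), Finset.sum_mul,
      ← Fin.sum_univ_eq_sum_range (fun m => (p j).coeff m • x ^ m * jF (t j)) M]
    refine Finset.sum_congr rfl fun m _ => ?_
    show (p j).coeff (m : ℕ) • jF (x0 ^ (m : ℕ) * t j) = (p j).coeff (m : ℕ) • x ^ (m : ℕ) * jF (t j)
    rw [map_mul, map_pow, hjx, smul_mul_assoc]
  have h5 := Fintype.linearIndependent_iff.mp hψ _ hrel3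
  have hp0 : ∀ j, p j = 0 := by
    intro j
    ext m
    rw [coeff_zero]
    by_cases hm : m < M
    · exact h5 (j, ⟨m, hm⟩)
    · exact coeff_eq_zero_of_natDegree_lt (lt_of_lt_of_le (hMj j) (not_lt.mp hm))
  intro j
  have h6 := hpj j
  rw [hp0 j, map_zero] at h6
  exact (mul_eq_zero.mp h6).resolve_right hS0

theorem h97_map_sum_repr (g : F0) :
    jF g = ∑ j, jF ((t.repr g j : K0⟮x0⟯) : F0) * jF (t j) := by
  have hsum : g = ∑ j, ((t.repr g j : K0⟮x0⟯) : F0) * t j := by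
    conv_lhs => rw [← t.sum_repr g]
    refine Finset.sum_congr rfl fun j _ => ?_
    rw [Algebra.smul_def]
    rfl
  conv_lhs => rw [hsum]
  rw [map_sum]
  exact Finset.sum_congr rfl fun j _ => by rw [map_mul]

include hcomm hA0 hA0' hjx ht in
/-- **(COORD)**: `O ∩ F0 = O_0`: the image of `g ∈ F0` lies in the D4 lattice iff `g` is
integral over the Gauss ring `R0` of `(A0, x0)`.  Uses (LD). -/
theorem h97_latO_coord
    (hLD : ∀ {ι : Type} [Fintype ι] (g : ι → F0), LinearIndependent K0 g →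
      LinearIndependent K (fun i => jF (g i)))
    (g : F0) :
    jF g ∈ h97_latO jF A0 A x0 hx0 x hx ↔ h97_IsInt (h97_gaussVal A0 x0 hx0) g := by
  refine ⟨fun hg => ?_, h97_latO_of_int jF A0 A x0 hx0 x hx⟩
  obtain ⟨v, hv, hgv⟩ :=
    (h97_latO_mem_iff jK jF hcomm A0 A hA0 x0 hx0 x hjx hx t ht (jF g)).mp hg
  have hsum := h97_map_sum_repr jF x0 t g
  have hrel : ∑ j, (v j - jF ((t.repr g j : K0⟮x0⟯) : F0)) * jF (t j) = 0 := by
    simp only [sub_mul]
    rw [Finset.sum_sub_distrib, ← hgv, ← hsum, sub_self]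
  have hmemK : ∀ j, jF ((t.repr g j : K0⟮x0⟯) : F0) ∈ K⟮x⟯ := by
    intro j
    have := h97_map_mem_adjoin jK jF hcomm x0 (t.repr g j)
    rw [hjx] at this
    exact this
  have h0 := h97_frame_li jF x0 hx0 x hjx hx t hLD _
    (fun j => K⟮x⟯.sub_mem ((h97_gaussRing_h75 A x hx).sub _ (hv j)) (hmemK j)) hrel
  rw [ht]
  intro i
  apply h97_R0_of_map_mem jK jF hcomm A0 A hA0 hA0' x0 hx0 x hjx hx
  rw [← sub_eq_zero.mp (h0 i)]
  exact hv i

include hcomm hA0 hA0' hjx ht in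
/-- **(hdiv)**: `𝔪_A O ∩ F0 = w O_0`: if the image of `g ∈ F0` is a nonunit constant times an
element of the D4 lattice, then `g = w g'` with `g'` integral over `R0`.  Uses (LD), (DV). -/
theorem h97_latO_hdiv (w : K0) (hw : w ∈ A0) (hwi : w⁻¹ ∉ A0)
    (hDV : ∀ c : K0, c ≠ 0 → ∃ (n : ℤ) (u : K0), u ∈ A0 ∧ u⁻¹ ∈ A0 ∧ c = w ^ n * u)
    (hLD : ∀ {ι : Type} [Fintype ι] (g : ι → F0), LinearIndependent K0 g →
      LinearIndependent K (fun i => jF (g i)))
    (g : F0)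
    (hker : ∃ a : K, a ∈ A.nonunits ∧ ∃ h : F, h ∈ h97_latO jF A0 A x0 hx0 x hx ∧
      jF g = algebraMap K F a * h) :
    ∃ g' : F0, h97_IsInt (h97_gaussVal A0 x0 hx0) g' ∧ g = algebraMap K0 F0 w * g' := by
  classical
  obtain ⟨a, ha, h, hh, hgh⟩ := hker
  obtain ⟨v, hv, hhv⟩ :=
    (h97_latO_mem_iff jK jF hcomm A0 A hA0 x0 hx0 x hjx hx t ht h).mp hh
  have hsum := h97_map_sum_repr jF x0 t g
  have hrel : ∑ j, (algebraMap K F a * v j - jF ((t.repr g j : K0⟮x0⟯) : F0)) * jF (t j) = 0 := by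
    simp only [sub_mul]
    rw [Finset.sum_sub_distrib, ← hsum, hgh, hhv, Finset.mul_sum]
    rw [sub_eq_zero]
    exact Finset.sum_congr rfl fun j _ => by ring
  have hmemK : ∀ j, jF ((t.repr g j : K0⟮x0⟯) : F0) ∈ K⟮x⟯ := by
    intro j
    have := h97_map_mem_adjoin jK jF hcomm x0 (t.repr g j)
    rw [hjx] at this
    exact this
  have h0 := h97_frame_li jF x0 hx0 x hjx hx t hLD _
    (fun j => K⟮x⟯.sub_mem (K⟮x⟯.mul_mem (K⟮x⟯.algebraMap_mem a)
      ((h97_gaussRing_h75 A x hx).sub _ (hv j))) (hmemK j)) hrel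
  have hc : ∀ j, ∃ c' : K0⟮x0⟯, c' ∈ h97_gaussVal A0 x0 hx0 ∧
      t.repr g j = algebraMap K0 K0⟮x0⟯ w * c' := fun j =>
    h97_wR0_of_map_mem jK jF hcomm A0 A hA0 hA0' x0 hx0 x hjx hx w hw hwi hDV (t.repr g j)
      a ha (v j) (hv j) (sub_eq_zero.mp (h0 j)).symm
  choose c' hc' hcc' using hc
  refine ⟨∑ j, c' j • t j, ?_, ?_⟩
  · rw [ht]
    intro i
    rw [t.repr_sum_self]
    exact hc' i
  · conv_lhs => rw [← t.sum_repr g]
    rw [Finset.mul_sum]
    refine Finset.sum_congr rfl fun j _ => ?_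
    rw [hcc' j, mul_smul, Algebra.smul_def (algebraMap K0 K0⟮x0⟯ w)]
    rfl

include hcomm hA0 hA0' hjx hx ht in
/-- (COORD) for helper75's chart lattice on the image of an integral basis. -/
theorem h97_chartO_coord
    (hone : ∃ v : Fin d → F, (∀ j, v j ∈ h75_gaussRing A x) ∧ 1 = ∑ j, v j * jF (t j))
    (hmul : ∀ i j, ∃ v : Fin d → F, (∀ l, v l ∈ h75_gaussRing A x) ∧
      jF (t i) * jF (t j) = ∑ l, v l * jF (t l))
    (hLD : ∀ {ι : Type} [Fintype ι] (g : ι → F0), LinearIndependent K0 g →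
      LinearIndependent K (fun i => jF (g i)))
    (g : F0) :
    jF g ∈ h75_chartO A (fun j => jF (t j)) hone hmul ↔
      h97_IsInt (h97_gaussVal A0 x0 hx0) g := by
  rw [h97_chartO_eq jK jF hcomm A0 A hA0 x0 hx0 x hjx hx t ht hone hmul]
  exact h97_latO_coord jK jF hcomm A0 A hA0 hA0' x0 hx0 x hjx hx t ht hLD g

include hcomm hA0 hA0' hjx hx ht in
/-- (hdiv) for helper75's chart lattice on the image of an integral basis. -/
theorem h97_chartO_hdiv
    (hone : ∃ v : Fin d → F, (∀ j, v j ∈ h75_gaussRing A x) ∧ 1 = ∑ j, v j * jF (t j))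
    (hmul : ∀ i j, ∃ v : Fin d → F, (∀ l, v l ∈ h75_gaussRing A x) ∧
      jF (t i) * jF (t j) = ∑ l, v l * jF (t l))
    (w : K0) (hw : w ∈ A0) (hwi : w⁻¹ ∉ A0)
    (hDV : ∀ c : K0, c ≠ 0 → ∃ (n : ℤ) (u : K0), u ∈ A0 ∧ u⁻¹ ∈ A0 ∧ c = w ^ n * u)
    (hLD : ∀ {ι : Type} [Fintype ι] (g : ι → F0), LinearIndependent K0 g →
      LinearIndependent K (fun i => jF (g i)))
    (g : F0)
    (hker : ∃ a : K, a ∈ A.nonunits ∧ ∃ h : F,
      h ∈ h75_chartO A (fun j => jF (t j)) hone hmul ∧ jF g = algebraMap K F a * h) :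
    ∃ g' : F0, jF g' ∈ h75_chartO A (fun j => jF (t j)) hone hmul ∧
      g = algebraMap K0 F0 w * g' := by
  rw [h97_chartO_eq jK jF hcomm A0 A hA0 x0 hx0 x hjx hx t ht hone hmul] at hker ⊢
  obtain ⟨g', hg', hgg'⟩ :=
    h97_latO_hdiv jK jF hcomm A0 A hA0 hA0' x0 hx0 x hjx hx t ht w hw hwi hDV hLD g hker
  exact ⟨g', h97_latO_of_int jF A0 A x0 hx0 x hx hg', hgg'⟩

end Coord

section Final

variable {K0 K F0 F : Type*} [Field K0] [Field K] [Field F0] [Field F]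
  [Algebra K0 F0] [Algebra K F]
  (jK : K0 →+* K) (jF : F0 →+* F)
  (hcomm : ∀ c : K0, jF (algebraMap K0 F0 c) = algebraMap K F (jK c))
  (A0 : ValuationSubring K0) (A : ValuationSubring K) (hA0 : ∀ a ∈ A0, jK a ∈ A)
  (hA0' : ∀ a : K0, jK a ∈ A → a ∈ A0)
  (x0 : F0) (hx0 : Transcendental K0 x0) (x : F) (hjx : jF x0 = x) (hx : Transcendental K x)
  [CharZero K0] [FiniteDimensional K0⟮x0⟯ F0]
  (w : K0) (hw : w ∈ A0) (hwi : w⁻¹ ∉ A0)
  (hDV : ∀ c : K0, c ≠ 0 → ∃ (n : ℤ) (u : K0), u ∈ A0 ∧ u⁻¹ ∈ A0 ∧ c = w ^ n * u)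
  (hLD : ∀ {ι : Type} [Fintype ι] (g : ι → F0), LinearIndependent K0 g →
    LinearIndependent K (fun i => jF (g i)))

include hcomm hA0 hA0' hjx hw hwi hDV hLD in
/-- **(COORD)** for the D4 lattice (no basis in the statement): `O ∩ F0 = O_0`. -/
theorem h97_D4_coord (g : F0) :
    jF g ∈ h97_latO jF A0 A x0 hx0 x hx ↔ h97_IsInt (h97_gaussVal A0 x0 hx0) g := by
  haveI := h97_gaussVal_dvr A0 x0 hx0 w hw hwi hDV
  haveI : CharZero K0⟮x0⟯ := charZero_of_injective_algebraMap (algebraMap K0 K0⟮x0⟯).injective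
  obtain ⟨d, t, ht⟩ := h97_exists_intBasis (F0 := F0) (h97_gaussVal A0 x0 hx0)
  exact h97_latO_coord jK jF hcomm A0 A hA0 hA0' x0 hx0 x hjx hx t ht hLD g

include hcomm hA0 hA0' hjx hw hwi hDV hLD in
/-- **(hdiv)** for the D4 lattice: `𝔪_A O ∩ F0 = w O_0`. -/
theorem h97_D4_hdiv (g : F0)
    (hker : ∃ a : K, a ∈ A.nonunits ∧ ∃ h : F, h ∈ h97_latO jF A0 A x0 hx0 x hx ∧
      jF g = algebraMap K F a * h) :
    ∃ g' : F0, h97_IsInt (h97_gaussVal A0 x0 hx0) g' ∧ g = algebraMap K0 F0 w * g' := by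
  haveI := h97_gaussVal_dvr A0 x0 hx0 w hw hwi hDV
  haveI : CharZero K0⟮x0⟯ := charZero_of_injective_algebraMap (algebraMap K0 K0⟮x0⟯).injective
  obtain ⟨d, t, ht⟩ := h97_exists_intBasis (F0 := F0) (h97_gaussVal A0 x0 hx0)
  exact h97_latO_hdiv jK jF hcomm A0 A hA0 hA0' x0 hx0 x hjx hx t ht w hw hwi hDV hLD g hker

include hA0' hLD in
/-- **(hdiv), reduction form**: an element of `F0` whose image lies in the D4 lattice with zero
reduction is `w` times an element of `F0` whose image lies in the lattice. -/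
theorem h97_D4_red_eq_zero (hSP : ∀ f : F, f ∈ Submodule.span K (Set.range jF)) (g : F0)
    (hg : jF g ∈ (h97_D4 jK jF hcomm A0 A hA0 x0 hx0 x hjx hx w hw hwi hDV hSP).O)
    (hred : (h97_D4 jK jF hcomm A0 A hA0 x0 hx0 x hjx hx w hw hwi hDV hSP).red ⟨jF g, hg⟩ = 0) :
    ∃ g' : F0, jF g' ∈ (h97_D4 jK jF hcomm A0 A hA0 x0 hx0 x hjx hx w hw hwi hDV hSP).O ∧
      g = algebraMap K0 F0 w * g' := by
  have hker := (h75_fibreLat_red_eq_zero_iff (h97_gaussRing_h75 A x hx) _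
    (h97_latD4_frame jK jF hcomm A0 A hA0 x0 hx0 x hjx hx w hw hwi hDV hSP) (jF g) hg).mp hred
  obtain ⟨g', hg', hgg'⟩ :=
    h97_D4_hdiv jK jF hcomm A0 A hA0 hA0' x0 hx0 x hjx hx w hw hwi hDV hLD g hker
  exact ⟨g', h97_latO_of_int jF A0 A x0 hx0 x hx hg', hgg'⟩

omit [CharZero K0] [FiniteDimensional K0⟮x0⟯ F0] in
/-- the chart function lies in the D4 lattice -/
theorem h97_latO_x_mem : x ∈ h97_latO jF A0 A x0 hx0 x hx :=
  h97_latO_of_gauss jF A0 A x0 hx0 x hx (by rw [h97_gaussRing_eq]; exact h75_gaussRing_x A x)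

omit [CharZero K0] [FiniteDimensional K0⟮x0⟯ F0] in
/-- the inverse of the chart function lies in the D4 lattice -/
theorem h97_latO_x_inv_mem : x⁻¹ ∈ h97_latO jF A0 A x0 hx0 x hx :=
  h97_latO_of_gauss jF A0 A x0 hx0 x hx (by
    rw [h97_gaussRing_eq]
    exact h75_gaussRing_x_inv A (fun h => by
      rw [h] at hx
      exact hx (isAlgebraic_zero)))

end Final

end Fermat.Agent.S36
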