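import Mathlib
import Fermat.Agent.S36.h97_LatD4Coord
import Fermat.Agent.S36.h99_FundEq

/-!
# S36 / I-LAT ∘ I-VAL : the D4 lattice is cut out by the vertical valuations (helper97)

Generic.  The carrier of "the Gauss ring `R0` of `(A0, x0)`" is the valuation subring
`h97_gaussVal A0 x0 hx0 : ValuationSubring K0⟮x0⟯`; Mathlib's instances give
`Algebra ↥R0 F0`, `IsFractionRing ↥R0 K0⟮x0⟯`, `IsScalarTower ↥R0 K0⟮x0⟯ F0`, and
`h97_IsInt R0 g ↔ IsIntegral ↥R0 g` holds by `Iff.rfl`.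

* `h97_gaussUnif`, `h97_gauss_hDVR`, `h97_gauss_rank_le`, `h97_gaussMap_injective`: the inputs
  `π`, `hπ0`, `hπu`, `hDVR`, `hrank`, `hinj` of helper99's `h99_integral_iff` for `R := ↥R0`.
* `h97_gauss_hR` : the input `hR` from: nonnegative on `A0`, on `x0`, and `≤ 0` on primitive
  polynomials in `x0`.
* `h97_D4_iff_val` : **(C3a) ∧ (C3b) as one iff**: for `g : F0`,
  `jF g ∈ O ↔ ∀ c, g = 0 ∨ 0 ≤ v c g`.
-/

set_option autoImplicit false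
set_option linter.style.haveILetI false

open Polynomial IntermediateField

namespace Fermat.Agent.S36

section GaussCarrier

variable {K0 F0 : Type*} [Field K0] [Field F0] [Algebra K0 F0]
  (A0 : ValuationSubring K0) (x0 : F0) (hx0 : Transcendental K0 x0)

/-- `h97_IsInt` is integrality over the Gauss valuation ring for Mathlib's algebra structure. -/
theorem h97_isInt_iff (g : F0) :
    h97_IsInt (h97_gaussVal A0 x0 hx0) g ↔ IsIntegral ↥(h97_gaussVal A0 x0 hx0) g := Iff.rfl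

theorem h97_gaussMap_apply (r : ↥(h97_gaussVal A0 x0 hx0)) :
    algebraMap ↥(h97_gaussVal A0 x0 hx0) F0 r = ((r : K0⟮x0⟯) : F0) := rfl

theorem h97_gaussMap_injective :
    Function.Injective (algebraMap ↥(h97_gaussVal A0 x0 hx0) F0) := by
  intro a b h
  apply Subtype.ext
  apply Subtype.ext
  exact h

/-- The image of the Gauss valuation ring in `F0` is the set of Gauss quotients. -/
theorem h97_gaussMap_inGauss (r : ↥(h97_gaussVal A0 x0 hx0)) :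
    h97_InGauss A0 x0 (algebraMap ↥(h97_gaussVal A0 x0 hx0) F0 r) :=
  (h97_mem_gaussVal A0 x0 hx0 (r : K0⟮x0⟯)).mp r.2

theorem h97_exists_gaussMap {f : F0} (hf : h97_InGauss A0 x0 f) :
    ∃ r : ↥(h97_gaussVal A0 x0 hx0), algebraMap ↥(h97_gaussVal A0 x0 hx0) F0 r = f :=
  ⟨⟨⟨f, h97_inGauss_mem_adjoin A0 x0 hx0 hf⟩, (h97_mem_gaussVal A0 x0 hx0 _).mpr hf⟩, rfl⟩

/-- The uniformiser `w` of `A0` as an element of the Gauss valuation ring. -/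
noncomputable def h97_gaussUnif (w : K0) (hw : w ∈ A0) : ↥(h97_gaussVal A0 x0 hx0) :=
  ⟨algebraMap K0 K0⟮x0⟯ w, (h97_gaussVal_const A0 x0 hx0 w).mpr hw⟩

theorem h97_gaussUnif_map (w : K0) (hw : w ∈ A0) :
    algebraMap ↥(h97_gaussVal A0 x0 hx0) F0 (h97_gaussUnif A0 x0 hx0 w hw) =
      algebraMap K0 F0 w := rfl

theorem h97_gaussUnif_ne_zero (w : K0) (hw : w ∈ A0) (hwi : w⁻¹ ∉ A0) :
    h97_gaussUnif A0 x0 hx0 w hw ≠ 0 := by
  have hw0 : w ≠ 0 := by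
    rintro rfl
    exact hwi (by rw [inv_zero]; exact A0.zero_mem)
  intro h
  have h1 : algebraMap K0 K0⟮x0⟯ w = 0 := congrArg Subtype.val h
  exact hw0 ((_root_.map_eq_zero _).mp h1)

theorem h97_gaussUnif_not_isUnit (w : K0) (hw : w ∈ A0) (hwi : w⁻¹ ∉ A0) :
    ¬ IsUnit (h97_gaussUnif A0 x0 hx0 w hw) := by
  intro hu
  obtain ⟨v, hv⟩ := hu.exists_right_inv
  have hv' : algebraMap K0 K0⟮x0⟯ w * (v : K0⟮x0⟯) = 1 := congrArg Subtype.val hv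
  have h1 : (v : K0⟮x0⟯) = algebraMap K0 K0⟮x0⟯ w⁻¹ := by
    rw [map_inv₀]
    exact (inv_eq_of_mul_eq_one_right hv').symm
  apply hwi
  rw [← h97_gaussVal_const A0 x0 hx0, ← h1]
  exact v.2

/-- **The Gauss valuation ring is a discrete valuation ring with uniformiser `w`**, in the
shape of the hypothesis `hDVR` of `h99_integral_iff`. -/
theorem h97_gauss_hDVR (w : K0) (hw : w ∈ A0) (hwi : w⁻¹ ∉ A0)
    (hDV : ∀ c : K0, c ≠ 0 → ∃ (n : ℤ) (u : K0), u ∈ A0 ∧ u⁻¹ ∈ A0 ∧ c = w ^ n * u) :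
    ∀ r : ↥(h97_gaussVal A0 x0 hx0), r ≠ 0 →
      ∃ (k : ℕ) (u : (↥(h97_gaussVal A0 x0 hx0))ˣ), r = h97_gaussUnif A0 x0 hx0 w hw ^ k * u := by
  classical
  have hw0 : w ≠ 0 := by
    rintro rfl
    exact hwi (by rw [inv_zero]; exact A0.zero_mem)
  set R := h97_gaussVal A0 x0 hx0 with hR
  have hconst := h97_gaussVal_const A0 x0 hx0
  set p : R := h97_gaussUnif A0 x0 hx0 w hw with hp
  have hpval : (p : K0⟮x0⟯) = algebraMap K0 K0⟮x0⟯ w := rfl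
  intro y hy
  have hy' : (y : K0⟮x0⟯) ≠ 0 := fun h => hy (Subtype.ext h)
  obtain ⟨c, hc, h1, h2⟩ := h97_gaussVal_scale A0 x0 hx0 (y : K0⟮x0⟯) hy'
  obtain ⟨n, u, hu, hui, hcu⟩ := hDV c⁻¹ (inv_ne_zero hc)
  have hu0 : u ≠ 0 := by
    rintro rfl
    rw [mul_zero] at hcu
    exact inv_ne_zero hc hcu
  set v0 : R := ⟨algebraMap K0 K0⟮x0⟯ u * (algebraMap K0 K0⟮x0⟯ c * y),
    R.mul_mem _ _ ((hconst u).mpr hu) h1⟩ with hv0
  set v1 : R := ⟨algebraMap K0 K0⟮x0⟯ u⁻¹ * (algebraMap K0 K0⟮x0⟯ c * y)⁻¹,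
    R.mul_mem _ _ ((hconst _).mpr hui) h2⟩ with hv1
  have hcy : algebraMap K0 K0⟮x0⟯ c * (y : K0⟮x0⟯) ≠ 0 :=
    mul_ne_zero ((_root_.map_ne_zero _).mpr hc) hy'
  have hu' : algebraMap K0 K0⟮x0⟯ u ≠ 0 := (_root_.map_ne_zero _).mpr hu0
  have hv01 : v0 * v1 = 1 := by
    apply Subtype.ext
    show algebraMap K0 K0⟮x0⟯ u * (algebraMap K0 K0⟮x0⟯ c * y) *
      (algebraMap K0 K0⟮x0⟯ u⁻¹ * (algebraMap K0 K0⟮x0⟯ c * y)⁻¹) = 1
    rw [map_inv₀, mul_mul_mul_comm, mul_inv_cancel₀ hu', mul_inv_cancel₀ hcy, one_mul]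
  have hyeq : (y : K0⟮x0⟯) = algebraMap K0 K0⟮x0⟯ w ^ n * (v0 : K0⟮x0⟯) := by
    show (y : K0⟮x0⟯) =
      algebraMap K0 K0⟮x0⟯ w ^ n * (algebraMap K0 K0⟮x0⟯ u * (algebraMap K0 K0⟮x0⟯ c * y))
    have h3 : algebraMap K0 K0⟮x0⟯ c⁻¹ =
        algebraMap K0 K0⟮x0⟯ w ^ n * algebraMap K0 K0⟮x0⟯ u := by
      rw [hcu, map_mul, map_zpow₀]
    have hc' : algebraMap K0 K0⟮x0⟯ c ≠ 0 := (_root_.map_ne_zero _).mpr hc
    rw [← mul_assoc, ← h3, map_inv₀, ← mul_assoc, inv_mul_cancel₀ hc', one_mul]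
  have hw' : algebraMap K0 K0⟮x0⟯ w ≠ 0 := (_root_.map_ne_zero _).mpr hw0
  have hn : 0 ≤ n := by
    by_contra hneg
    rw [not_le] at hneg
    obtain ⟨m, hm⟩ : ∃ m : ℕ, -n = (m : ℤ) + 1 := ⟨(-n - 1).toNat, by omega⟩
    apply hwi
    rw [← hconst]
    have h4 : algebraMap K0 K0⟮x0⟯ w⁻¹ =
        algebraMap K0 K0⟮x0⟯ w ^ m * (y : K0⟮x0⟯) * (v1 : K0⟮x0⟯) := by
      have hv01' : (v0 : K0⟮x0⟯) * (v1 : K0⟮x0⟯) = 1 := congrArg Subtype.val hv01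
      have hneq : n = -((m : ℤ) + 1) := by omega
      rw [hyeq, hneq, map_inv₀, zpow_neg, zpow_add₀ hw', zpow_natCast, zpow_one]
      calc (algebraMap K0 K0⟮x0⟯ w)⁻¹
          = (algebraMap K0 K0⟮x0⟯ w)⁻¹ * ((v0 : K0⟮x0⟯) * (v1 : K0⟮x0⟯)) := by
            rw [hv01', mul_one]
        _ = _ := by field_simp
    rw [h4]
    exact R.mul_mem _ _ (R.mul_mem _ _ (R.pow_mem p.2 m) y.2) v1.2
  obtain ⟨m, rfl⟩ := Int.eq_ofNat_of_zero_le hn
  refine ⟨m, ⟨v0, v1, hv01, by rw [mul_comm]; exact hv01⟩, ?_⟩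
  apply Subtype.ext
  rw [hyeq, zpow_natCast]
  rfl

/-- The rank hypothesis of `h99_integral_iff` for the Gauss valuation ring. -/
theorem h97_gauss_rank_le [FiniteDimensional K0⟮x0⟯ F0] :
    Module.rank ↥(h97_gaussVal A0 x0 hx0) F0 ≤ (Module.finrank K0⟮x0⟯ F0 : Cardinal) :=
  h99_rank_le_of_finrank K0⟮x0⟯

/-- The hypothesis `hR` of `h99_integral_iff` for the Gauss valuation ring: a valuation which is
nonnegative on `A0` and on `x0`, and `≤ 0` on the values at `x0` of the polynomials over `A0`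
having a unit coefficient, is nonnegative on the Gauss ring. -/
theorem h97_gauss_hR (v : F0 → ℤ) (hv : h99_IsVal v)
    (hA : ∀ a : K0, a ∈ A0 → a ≠ 0 → 0 ≤ v (algebraMap K0 F0 a)) (hx : 0 ≤ v x0)
    (hQ : ∀ Q : K0[X], (∀ i, Q.coeff i ∈ A0) → (∃ i, Q.coeff i ≠ 0 ∧ (Q.coeff i)⁻¹ ∈ A0) →
      v (aeval x0 Q) ≤ 0) :
    ∀ r : ↥(h97_gaussVal A0 x0 hx0), algebraMap ↥(h97_gaussVal A0 x0 hx0) F0 r ≠ 0 →
      0 ≤ v (algebraMap ↥(h97_gaussVal A0 x0 hx0) F0 r) := by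
  intro r hr
  obtain ⟨P, Q, hP, hQc, hQu, h⟩ := h97_gaussMap_inGauss A0 x0 hx0 r
  set f : F0 := algebraMap ↥(h97_gaussVal A0 x0 hx0) F0 r with hf
  have hx00 : x0 ≠ 0 := by
    rintro rfl
    exact hx0 (isAlgebraic_zero)
  have hQ0 : aeval x0 Q ≠ 0 := by
    intro h0
    have : Q = 0 := (transcendental_iff_injective.mp hx0) (by rw [h0, map_zero])
    obtain ⟨i, hi0, -⟩ := hQu
    rw [this, coeff_zero] at hi0
    exact hi0 rfl
  have hP0 : aeval x0 P ≠ 0 := by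
    rw [← h]
    exact mul_ne_zero hr hQ0
  have hPge : h99_Ge v 0 (aeval x0 P) := by
    rw [aeval_eq_sum_range]
    refine h99_ge_sum hv _ _ fun i _ => ?_
    by_cases hc : P.coeff i = 0
    · left
      rw [hc, zero_smul]
    · right
      rw [Algebra.smul_def, hv.map_mul _ _ ((_root_.map_ne_zero _).mpr hc) (pow_ne_zero _ hx00),
        h99_w_pow hv hx00]
      have h1 := hA _ (hP i) hc
      positivity
  have h1 : 0 ≤ v (aeval x0 P) := hPge.resolve_left hP0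
  have h2 := hQ Q hQc hQu
  rw [← h, hv.map_mul _ _ hr hQ0] at h1
  omega

end GaussCarrier

section Bridge

variable {K0 K F0 F : Type*} [Field K0] [Field K] [Field F0] [Field F]
  [Algebra K0 F0] [Algebra K F]
  (jK : K0 →+* K) (jF : F0 →+* F)
  (hcomm : ∀ c : K0, jF (algebraMap K0 F0 c) = algebraMap K F (jK c))
  (A0 : ValuationSubring K0) (A : ValuationSubring K) (hA0 : ∀ a ∈ A0, jK a ∈ A)
  (hA0' : ∀ a : K0, jK a ∈ A → a ∈ A0)
  (x0 : F0) (hx0 : Transcendental K0 x0) (x : F) (hjx : jF x0 = x) (hx : Transcendental K x)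
  [CharZero K0] [FiniteDimensional K0⟮x0⟯ F0]
  (w : K0) (hw : w ∈ A0) (hwi : w⁻¹ ∉ A0)
  (hDV : ∀ c : K0, c ≠ 0 → ∃ (n : ℤ) (u : K0), u ∈ A0 ∧ u⁻¹ ∈ A0 ∧ c = w ^ n * u)
  (hLD : ∀ {ι : Type} [Fintype ι] (g : ι → F0), LinearIndependent K0 g →
    LinearIndependent K (fun i => jF (g i)))

include hcomm hA0 hA0' hjx hw hwi hDV hLD in
/-- **(C3a) ∧ (C3b) as one iff, literal `h99_integral_iff` binders** (`R := ↥R0`, the Gauss
valuation ring of `(A0, x0)`, `π := h97_gaussUnif ..`): an element of `F0` lies in the D4 lattice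
iff all the vertical valuations are nonnegative on it. -/
theorem h97_D4_iff_val' {κ : Type*} [Fintype κ] (v : κ → F0 → ℤ) (hv : ∀ c, h99_IsVal (v c))
    (hR : ∀ c (r : ↥(h97_gaussVal A0 x0 hx0)),
      algebraMap ↥(h97_gaussVal A0 x0 hx0) F0 r ≠ 0 →
        0 ≤ v c (algebraMap ↥(h97_gaussVal A0 x0 hx0) F0 r))
    (e : κ → ℕ) (he : ∀ c, v c (algebraMap K0 F0 w) = e c)
    (hnorm : ∀ c, ∃ z : F0, z ≠ 0 ∧ v c z = 1)
    (hne : ∀ c c', c ≠ c' → ∃ g : F0, g ≠ 0 ∧ v c g ≠ v c' g)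
    (f : κ → ℕ) (b : (c : κ) → Fin (f c) → F0)
    (hb : ∀ c (r : Fin (f c) → ↥(h97_gaussVal A0 x0 hx0)), (∃ j, IsUnit (r j)) →
      ∑ j, r j • b c j ≠ 0 ∧ v c (∑ j, r j • b c j) = 0)
    (hn : Module.finrank K0⟮x0⟯ F0 ≤ ∑ c, e c * f c) (g : F0) :
    jF g ∈ h97_latO jF A0 A x0 hx0 x hx ↔ ∀ c, h99_Ge (v c) 0 g := by
  rw [h97_D4_coord jK jF hcomm A0 A hA0 hA0' x0 hx0 x hjx hx w hw hwi hDV hLD g,
    h97_isInt_iff]
  exact h99_integral_iff v hv (h97_gaussMap_injective A0 x0 hx0) hR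
    (h97_gaussUnif A0 x0 hx0 w hw) (h97_gaussUnif_ne_zero A0 x0 hx0 w hw hwi)
    (h97_gaussUnif_not_isUnit A0 x0 hx0 w hw hwi) (h97_gauss_hDVR A0 x0 hx0 w hw hwi hDV)
    e he hnorm hne f b hb (Module.finrank K0⟮x0⟯ F0) (h97_gauss_rank_le A0 x0 hx0) hn g

include hcomm hA0 hA0' hjx hw hwi hDV hLD in
/-- **(C3a) ∧ (C3b) as one iff, elementary binders**: no mention of the carrier of the Gauss
ring.  `hA`, `hx`, `hQ`: the valuations are nonnegative on `A0` and `x0` and vanish on primitive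
polynomials in `x0`; `hb`: the residue families, with coefficients Gauss quotients. -/
theorem h97_D4_iff_val {κ : Type*} [Fintype κ] (v : κ → F0 → ℤ) (hv : ∀ c, h99_IsVal (v c))
    (hA : ∀ c (a : K0), a ∈ A0 → a ≠ 0 → 0 ≤ v c (algebraMap K0 F0 a)) (hx00 : ∀ c, 0 ≤ v c x0)
    (hQ : ∀ c (Q : K0[X]), (∀ i, Q.coeff i ∈ A0) → (∃ i, Q.coeff i ≠ 0 ∧ (Q.coeff i)⁻¹ ∈ A0) →
      v c (aeval x0 Q) ≤ 0)
    (e : κ → ℕ) (he : ∀ c, v c (algebraMap K0 F0 w) = e c)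
    (hnorm : ∀ c, ∃ z : F0, z ≠ 0 ∧ v c z = 1)
    (hne : ∀ c c', c ≠ c' → ∃ g : F0, g ≠ 0 ∧ v c g ≠ v c' g)
    (f : κ → ℕ) (b : (c : κ) → Fin (f c) → F0)
    (hb : ∀ c (r : Fin (f c) → F0), (∀ j, h97_InGauss A0 x0 (r j)) →
      (∃ j, r j ≠ 0 ∧ h97_InGauss A0 x0 (r j)⁻¹) →
      ∑ j, r j * b c j ≠ 0 ∧ v c (∑ j, r j * b c j) = 0)
    (hn : Module.finrank K0⟮x0⟯ F0 ≤ ∑ c, e c * f c) (g : F0) :
    jF g ∈ h97_latO jF A0 A x0 hx0 x hx ↔ ∀ c, h99_Ge (v c) 0 g := by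
  refine h97_D4_iff_val' jK jF hcomm A0 A hA0 hA0' x0 hx0 x hjx hx w hw hwi hDV hLD v hv
    (fun c => h97_gauss_hR A0 x0 hx0 (v c) (hv c) (hA c) (hx00 c) (hQ c)) e he hnorm hne f b
    ?_ hn g
  intro c r ⟨j, hj⟩
  have h1 := hb c (fun j => algebraMap ↥(h97_gaussVal A0 x0 hx0) F0 (r j))
    (fun j => h97_gaussMap_inGauss A0 x0 hx0 (r j)) ⟨j, ?_, ?_⟩
  · exact h1
  · intro h0
    have : r j = 0 := h97_gaussMap_injective A0 x0 hx0 (by rw [h0, map_zero])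
    rw [this] at hj
    exact not_isUnit_zero hj
  · obtain ⟨u, hu⟩ := hj
    have h2 : algebraMap ↥(h97_gaussVal A0 x0 hx0) F0 (r j) *
        algebraMap ↥(h97_gaussVal A0 x0 hx0) F0 (↑u⁻¹ : ↥(h97_gaussVal A0 x0 hx0)) = 1 := by
      rw [← map_mul, ← hu, Units.mul_inv, map_one]
    rw [inv_eq_of_mul_eq_one_right h2]
    exact h97_gaussMap_inGauss A0 x0 hx0 _

end Bridge

end Fermat.Agent.S36
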