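import Mathlib
import Fermat.Agent.S36.h97_IntBridge
import Fermat.Agent.S36.h97_Noeth
import Fermat.Agent.S36.h80_ScaleInt

/-!
# S36 / I-VAL → I-FAM : integral over the Gauss ring ⟹ scaled integral over `A0[x0]` (helper97)

Generic.  `R0 = h97_gaussVal A0 x0 hx0` is the Gauss valuation ring of `(A0, x0)`.

* `h97_scaled_of_isInt` : an element of `F0` integral over `R0` becomes integral over `A0[x0]`
  after multiplication by `s(x0)` for some `s ∈ A0[X]` having a unit coefficient.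
* `h97_hvert` : the `hvert` binder of helper80's `h80_famOf_noeth`, from the hypotheses of
  helper99's fundamental equality (`h99_integral_of_nonneg`) at `R := ↥R0`.
-/

set_option autoImplicit false
set_option linter.style.haveILetI false

open Polynomial IntermediateField

namespace Fermat.Agent.S36

section Scale

variable {K0 F0 : Type*} [Field K0] [Field F0] [Algebra K0 F0]
  (A0 : ValuationSubring K0) (x0 : F0) (hx0 : Transcendental K0 x0)

/-- A coefficient of a polynomial over `A0` whose residue is nonzero is a unit of `A0`. -/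
theorem h97_unit_of_residue_ne_zero (a : A0) (ha : IsLocalRing.residue A0 a ≠ 0) :
    ((a : K0))⁻¹ ∈ A0 ∧ a ≠ 0 := by
  have hu : IsUnit a := by
    by_contra hnu
    exact ha ((IsLocalRing.residue_eq_zero_iff _).mpr ((IsLocalRing.mem_maximalIdeal _).mpr hnu))
  obtain ⟨v, hv⟩ := hu.exists_right_inv
  have hv' : (a : K0) * (v : K0) = 1 := congrArg Subtype.val hv
  refine ⟨?_, ?_⟩
  · rw [inv_eq_of_mul_eq_one_right hv']
    exact v.2
  · rintro rfl
    have h0 : ((0 : A0) : K0) = 0 := rfl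
    rw [h0, zero_mul] at hv'
    exact zero_ne_one hv'

include hx0 in
/-- **Scaling**: an element integral over the Gauss valuation ring of `(A0, x0)` is, after
multiplication by the value at `x0` of a polynomial over `A0` with a unit coefficient, integral
over `A0[x0]`. -/
theorem h97_scaled_of_isInt {f : F0} (hf : h97_IsInt (h97_gaussVal A0 x0 hx0) f) :
    ∃ s : Polynomial A0.toSubring, (∃ i, ((s.coeff i : K0))⁻¹ ∈ A0 ∧ s.coeff i ≠ 0) ∧
      (h97_ev A0.toSubring x0).IsIntegralElem (h97_ev A0.toSubring x0 s * f) := by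
  classical
  -- the residue map on coefficients
  let ρ : A0.toSubring →+* IsLocalRing.ResidueField A0 := IsLocalRing.residue A0
  let M : Submonoid (Polynomial A0.toSubring) :=
    (nonZeroDivisors (Polynomial (IsLocalRing.ResidueField A0))).comap (Polynomial.mapRingHom ρ)
  have hM : ∀ s : Polynomial A0.toSubring, s ∈ M ↔ s.map ρ ≠ 0 := by
    intro s
    show Polynomial.mapRingHom ρ s ∈ nonZeroDivisors _ ↔ _
    rw [mem_nonZeroDivisors_iff_ne_zero, Polynomial.coe_mapRingHom]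
  have hMunit : ∀ s : Polynomial A0.toSubring, s ∈ M →
      ∃ i, ((s.coeff i : K0))⁻¹ ∈ A0 ∧ s.coeff i ≠ 0 := by
    intro s hs
    rw [hM] at hs
    obtain ⟨i, hi⟩ : ∃ i, ρ (s.coeff i) ≠ 0 := by
      by_contra hcon
      simp only [not_exists, not_not] at hcon
      apply hs
      ext i
      rw [coeff_map, hcon i, coeff_zero]
    exact ⟨i, h97_unit_of_residue_ne_zero A0 (s.coeff i) hi⟩
  have hfrac : ∀ v : ↥(h97_gaussVal A0 x0 hx0), ∃ m ∈ M, ∃ r : Polynomial A0.toSubring,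
      h97_ev A0.toSubring x0 m *
        ((algebraMap K0⟮x0⟯ F0).comp (h97_gaussVal A0 x0 hx0).subtype) v =
          h97_ev A0.toSubring x0 r := by
    intro v
    obtain ⟨P, Q, hP, hQ, ⟨i, hi0, hi⟩, h⟩ := h97_gaussMap_inGauss A0 x0 hx0 v
    have hPl : P ∈ Polynomial.lifts A0.toSubring.subtype := by
      rw [Polynomial.lifts_iff_coeff_lifts]
      exact fun n => ⟨⟨_, hP n⟩, rfl⟩
    have hQl : Q ∈ Polynomial.lifts A0.toSubring.subtype := by
      rw [Polynomial.lifts_iff_coeff_lifts]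
      exact fun n => ⟨⟨_, hQ n⟩, rfl⟩
    obtain ⟨P', hP'⟩ := hPl
    obtain ⟨Q', hQ'⟩ := hQl
    have hP'' : P'.map A0.toSubring.subtype = P := hP'
    have hQ'' : Q'.map A0.toSubring.subtype = Q := hQ'
    refine ⟨Q', ?_, P', ?_⟩
    · rw [hM]
      intro h0
      have h1 := congrArg (fun p => p.coeff i) h0
      simp only [coeff_map, coeff_zero] at h1
      have hc : ∃ c : A0, (c : K0) = Q.coeff i ∧ IsLocalRing.residue A0 c = 0 := by
        refine ⟨Q'.coeff i, ?_, h1⟩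
        rw [← hQ'', coeff_map]; rfl
      obtain ⟨c, hcval, hc0⟩ := hc
      have h2 : c ∈ IsLocalRing.maximalIdeal A0 := (IsLocalRing.residue_eq_zero_iff _).mp hc0
      apply (IsLocalRing.mem_maximalIdeal _).mp h2
      refine isUnit_iff_exists_inv.mpr ⟨⟨(Q.coeff i)⁻¹, hi⟩, Subtype.ext ?_⟩
      show (c : K0) * (Q.coeff i)⁻¹ = 1
      rw [hcval, mul_inv_cancel₀ hi0]
    · rw [h97_ev_eq_aeval, h97_ev_eq_aeval, hP'', hQ'', mul_comm]
      exact h
  obtain ⟨m, hm, hint⟩ := h80_exists_scaled_integralElem (h97_ev A0.toSubring x0)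
    ((algebraMap K0⟮x0⟯ F0).comp (h97_gaussVal A0 x0 hx0).subtype) M hfrac hf
  exact ⟨m, hMunit m hm, hint⟩

/-- **`hvert`** (I-VAL → I-FAM contract of `h80_famOf_noeth`): under the hypotheses of the
fundamental equality for the Gauss valuation ring, an element of `F0` on which all the vertical
valuations are nonnegative is, after scaling by a primitive polynomial in `x0`, integral over
`A0[x0]`. -/
theorem h97_hvert [FiniteDimensional K0⟮x0⟯ F0]
    (w : K0) (hw : w ∈ A0) (hwi : w⁻¹ ∉ A0)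
    (hDV : ∀ c : K0, c ≠ 0 → ∃ (n : ℤ) (u : K0), u ∈ A0 ∧ u⁻¹ ∈ A0 ∧ c = w ^ n * u)
    {κ : Type*} [Fintype κ] (v : κ → F0 → ℤ) (hv : ∀ c, h99_IsVal (v c))
    (hR : ∀ c (r : ↥(h97_gaussVal A0 x0 hx0)),
      algebraMap ↥(h97_gaussVal A0 x0 hx0) F0 r ≠ 0 →
        0 ≤ v c (algebraMap ↥(h97_gaussVal A0 x0 hx0) F0 r))
    (e : κ → ℕ) (he : ∀ c, v c (algebraMap K0 F0 w) = e c)
    (hnorm : ∀ c, ∃ z : F0, z ≠ 0 ∧ v c z = 1)
    (hne : ∀ c c', c ≠ c' → ∃ g : F0, g ≠ 0 ∧ v c g ≠ v c' g)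
    (f : κ → ℕ) (b : (c : κ) → Fin (f c) → F0)
    (hb : ∀ c (r : Fin (f c) → ↥(h97_gaussVal A0 x0 hx0)), (∃ j, IsUnit (r j)) →
      ∑ j, r j • b c j ≠ 0 ∧ v c (∑ j, r j • b c j) = 0)
    (hn : Module.finrank K0⟮x0⟯ F0 ≤ ∑ c, e c * f c) :
    ∀ g : F0, g ≠ 0 → (∀ c, 0 ≤ v c g) → ∃ s : Polynomial A0.toSubring,
      (∃ i, ((s.coeff i : K0))⁻¹ ∈ A0 ∧ s.coeff i ≠ 0) ∧
        (h97_ev A0.toSubring x0).IsIntegralElem (h97_ev A0.toSubring x0 s * g) := by
  intro g _ hg
  refine h97_scaled_of_isInt A0 x0 hx0 ((h97_isInt_iff A0 x0 hx0 g).mpr ?_)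
  exact h99_integral_of_nonneg v hv (h97_gaussMap_injective A0 x0 hx0) hR
    (h97_gaussUnif A0 x0 hx0 w hw) (h97_gaussUnif_ne_zero A0 x0 hx0 w hw hwi)
    (h97_gaussUnif_not_isUnit A0 x0 hx0 w hw hwi) (h97_gauss_hDVR A0 x0 hx0 w hw hwi hDV)
    e he hnorm hne f b hb (Module.finrank K0⟮x0⟯ F0) (h97_gauss_rank_le A0 x0 hx0) hn g
    (fun c => Or.inr (hg c))

end Scale

end Fermat.Agent.S36
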