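import Mathlib
import Fermat.Agent.S36.h97_IntScale

/-!
# S36 / COMP3-M : the two carriers of the Gauss ring (helper97)

`R := ↥(h97_gaussVal A0 x0 hx0)` (a valuation subring of `K0⟮x0⟯`, helper97) and
`R' := ↥(h75_gaussRing A0 x0)` (a subring of `F0`, helper75 / helper91) are the same ring:
`h97_gauss75 : R →+* R'` is bijective and commutes with the maps to `F0`.

* `h97_hR_of_h75`, `h97_hb_of_h75` : the inputs `hR`, `hb` of `h99_integral_iff` stated over `R'`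
  (the shape of helper91's `h91_hb_mod`) give the same inputs over `R`.
* `h97_D4_iff_val75`, `h97_hvert75` : the bridge theorems with `hR`, `hb` over `R'`.
-/

set_option autoImplicit false
set_option linter.style.haveILetI false

open Polynomial IntermediateField

namespace Fermat.Agent.S36

section Carrier

variable {K0 F0 : Type*} [Field K0] [Field F0] [Algebra K0 F0]
  (A0 : ValuationSubring K0) (x0 : F0) (hx0 : Transcendental K0 x0)

include hx0 in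
theorem h97_mem_gauss75 (r : F0) : r ∈ h75_gaussRing A0 x0 ↔ h97_InGauss A0 x0 r := by
  rw [← h97_gaussRing_eq A0 x0 hx0, h97_mem_gaussRing]

/-- The identification of the two carriers of the Gauss ring. -/
noncomputable def h97_gauss75 : ↥(h97_gaussVal A0 x0 hx0) →+* ↥(h75_gaussRing A0 x0) :=
  (algebraMap ↥(h97_gaussVal A0 x0 hx0) F0).codRestrict (h75_gaussRing A0 x0)
    (fun r => (h97_mem_gauss75 A0 x0 hx0 _).mpr (h97_gaussMap_inGauss A0 x0 hx0 r))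

theorem h97_gauss75_coe (r : ↥(h97_gaussVal A0 x0 hx0)) :
    ((h97_gauss75 A0 x0 hx0 r : ↥(h75_gaussRing A0 x0)) : F0) =
      algebraMap ↥(h97_gaussVal A0 x0 hx0) F0 r := rfl

theorem h97_gauss75_injective : Function.Injective (h97_gauss75 A0 x0 hx0) := by
  intro a b h
  have h1 := congrArg (fun z : ↥(h75_gaussRing A0 x0) => (z : F0)) h
  exact h97_gaussMap_injective A0 x0 hx0 h1

theorem h97_gauss75_surjective : Function.Surjective (h97_gauss75 A0 x0 hx0) := by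
  intro r
  obtain ⟨s, hs⟩ := h97_exists_gaussMap A0 x0 hx0 ((h97_mem_gauss75 A0 x0 hx0 _).mp r.2)
  exact ⟨s, Subtype.ext hs⟩

/-- `hR` over helper75's carrier gives `hR` over the Gauss valuation ring. -/
theorem h97_hR_of_h75 (v : F0 → ℤ)
    (hR : ∀ r : ↥(h75_gaussRing A0 x0), algebraMap ↥(h75_gaussRing A0 x0) F0 r ≠ 0 →
      0 ≤ v (algebraMap ↥(h75_gaussRing A0 x0) F0 r)) :
    ∀ r : ↥(h97_gaussVal A0 x0 hx0), algebraMap ↥(h97_gaussVal A0 x0 hx0) F0 r ≠ 0 →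
      0 ≤ v (algebraMap ↥(h97_gaussVal A0 x0 hx0) F0 r) :=
  fun r hr => hR (h97_gauss75 A0 x0 hx0 r) hr

/-- `hb` over helper75's carrier gives `hb` over the Gauss valuation ring. -/
theorem h97_hb_of_h75 (v : F0 → ℤ) {n : ℕ} (b : Fin n → F0)
    (hb : ∀ r : Fin n → ↥(h75_gaussRing A0 x0), (∃ j, IsUnit (r j)) →
      ∑ j, r j • b j ≠ 0 ∧ v (∑ j, r j • b j) = 0) :
    ∀ r : Fin n → ↥(h97_gaussVal A0 x0 hx0), (∃ j, IsUnit (r j)) →
      ∑ j, r j • b j ≠ 0 ∧ v (∑ j, r j • b j) = 0 := by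
  intro r ⟨j, hj⟩
  exact hb (fun j => h97_gauss75 A0 x0 hx0 (r j)) ⟨j, hj.map (h97_gauss75 A0 x0 hx0)⟩

/-- Integrality over the two carriers is the same. -/
theorem h97_isIntegral75_iff (g : F0) :
    IsIntegral ↥(h75_gaussRing A0 x0) g ↔ h97_IsInt (h97_gaussVal A0 x0 hx0) g := by
  constructor
  · rintro ⟨p, hp, hpg⟩
    have hl : ∀ i, ∃ s : ↥(h97_gaussVal A0 x0 hx0), h97_gauss75 A0 x0 hx0 s = p.coeff i :=
      fun i => h97_gauss75_surjective A0 x0 hx0 _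
    have hpl : p ∈ Polynomial.lifts (h97_gauss75 A0 x0 hx0) := by
      rw [Polynomial.lifts_iff_coeff_lifts]
      exact fun i => hl i
    obtain ⟨p', hp', -, hp'm⟩ := Polynomial.lifts_and_degree_eq_and_monic hpl hp
    refine ⟨p', hp'm, ?_⟩
    rw [← hpg, ← hp', Polynomial.eval₂_map]
    rfl
  · rintro ⟨p, hp, hpg⟩
    refine ⟨p.map (h97_gauss75 A0 x0 hx0), hp.map _, ?_⟩
    rw [Polynomial.eval₂_map]
    exact hpg

end Carrier

section Bridge75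

variable {K0 K F0 F : Type*} [Field K0] [Field K] [Field F0] [Field F]
  [Algebra K0 F0] [Algebra K F]
  (jK : K0 →+* K) (jF : F0 →+* F)
  (hcomm : ∀ c : K0, jF (algebraMap K0 F0 c) = algebraMap K F (jK c))
  (A0 : ValuationSubring K0) (A : ValuationSubring K) (hA0 : ∀ a ∈ A0, jK a ∈ A)
  (hA0' : ∀ a : K0, jK a ∈ A → a ∈ A0)
  (x0 : F0) (hx0 : Transcendental K0 x0) (x : F) (hjx : jF x0 = x) (hx : Transcendental K x)
  [CharZero K0] [FiniteDimensional K0⟮x0⟯ F0]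
  (w : K0) (hw : w ∈ A0) (hwi : w⁻¹ ∉ A0)
  (hDV : ∀ c : K0, c ≠ 0 → ∃ (n : ℤ) (u : K0), u ∈ A0 ∧ u⁻¹ ∈ A0 ∧ c = w ^ n * u)
  (hLD : ∀ {ι : Type} [Fintype ι] (g : ι → F0), LinearIndependent K0 g →
    LinearIndependent K (fun i => jF (g i)))

include hcomm hA0 hA0' hjx hw hwi hDV hLD in
/-- **(C3a) ∧ (C3b) as one iff, `hR` / `hb` over `R' := ↥(h75_gaussRing A0 x0)`** (the shape of
helper91's `h91_hb_mod`). -/
theorem h97_D4_iff_val75 {κ : Type*} [Fintype κ] (v : κ → F0 → ℤ) (hv : ∀ c, h99_IsVal (v c))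
    (hR : ∀ c (r : ↥(h75_gaussRing A0 x0)), algebraMap ↥(h75_gaussRing A0 x0) F0 r ≠ 0 →
      0 ≤ v c (algebraMap ↥(h75_gaussRing A0 x0) F0 r))
    (e : κ → ℕ) (he : ∀ c, v c (algebraMap K0 F0 w) = e c)
    (hnorm : ∀ c, ∃ z : F0, z ≠ 0 ∧ v c z = 1)
    (hne : ∀ c c', c ≠ c' → ∃ g : F0, g ≠ 0 ∧ v c g ≠ v c' g)
    (f : κ → ℕ) (b : (c : κ) → Fin (f c) → F0)
    (hb : ∀ c (r : Fin (f c) → ↥(h75_gaussRing A0 x0)), (∃ j, IsUnit (r j)) →
      ∑ j, r j • b c j ≠ 0 ∧ v c (∑ j, r j • b c j) = 0)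
    (hn : Module.finrank K0⟮x0⟯ F0 ≤ ∑ c, e c * f c) (g : F0) :
    jF g ∈ h97_latO jF A0 A x0 hx0 x hx ↔ ∀ c, h99_Ge (v c) 0 g :=
  h97_D4_iff_val' jK jF hcomm A0 A hA0 hA0' x0 hx0 x hjx hx w hw hwi hDV hLD v hv
    (fun c => h97_hR_of_h75 A0 x0 hx0 (v c) (hR c)) e he hnorm hne f b
    (fun c => h97_hb_of_h75 A0 x0 hx0 (v c) (b c) (hb c)) hn g

omit [CharZero K0] in
include hx0 hw hwi hDV in
/-- **`hvert`**, with `hR` / `hb` over `R' := ↥(h75_gaussRing A0 x0)`. -/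
theorem h97_hvert75 {κ : Type*} [Fintype κ] (v : κ → F0 → ℤ) (hv : ∀ c, h99_IsVal (v c))
    (hR : ∀ c (r : ↥(h75_gaussRing A0 x0)), algebraMap ↥(h75_gaussRing A0 x0) F0 r ≠ 0 →
      0 ≤ v c (algebraMap ↥(h75_gaussRing A0 x0) F0 r))
    (e : κ → ℕ) (he : ∀ c, v c (algebraMap K0 F0 w) = e c)
    (hnorm : ∀ c, ∃ z : F0, z ≠ 0 ∧ v c z = 1)
    (hne : ∀ c c', c ≠ c' → ∃ g : F0, g ≠ 0 ∧ v c g ≠ v c' g)
    (f : κ → ℕ) (b : (c : κ) → Fin (f c) → F0)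
    (hb : ∀ c (r : Fin (f c) → ↥(h75_gaussRing A0 x0)), (∃ j, IsUnit (r j)) →
      ∑ j, r j • b c j ≠ 0 ∧ v c (∑ j, r j • b c j) = 0)
    (hn : Module.finrank K0⟮x0⟯ F0 ≤ ∑ c, e c * f c) :
    ∀ g : F0, g ≠ 0 → (∀ c, 0 ≤ v c g) → ∃ s : Polynomial A0.toSubring,
      (∃ i, ((s.coeff i : K0))⁻¹ ∈ A0 ∧ s.coeff i ≠ 0) ∧
        (h97_ev A0.toSubring x0).IsIntegralElem (h97_ev A0.toSubring x0 s * g) :=
  h97_hvert A0 x0 hx0 w hw hwi hDV v hv
    (fun c => h97_hR_of_h75 A0 x0 hx0 (v c) (hR c)) e he hnorm hne f b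
    (fun c => h97_hb_of_h75 A0 x0 hx0 (v c) (b c) (hb c)) hn

end Bridge75

end Fermat.Agent.S36
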