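import Mathlib
import Fermat.Agent.S36.h97_Gauss75
import Fermat.Agent.S36.h69_K0Inst

/-!
# S36 / COMP3-M : the comparison `(C3)` at helper69's modular carriers (helper97)

`N` a level, `A` a valuation subring of `ℚ̄` over `q`, `I = A.inertiaSubgroupIn ℚ`,
`K0 = h69_K0 I`, `F0 = h69_F0 N I`, `A0 = h69_A0 A`, `x0 : F0` a chart of `F = F̄(N)`.
`h97_O2 N A x0 hx` is the D4 lattice ring at these carriers (`= (h97_D4 ..).O` by `rfl`).

From the inputs of helper99's fundamental equality for the vertical valuations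
`w : κ → F0 → ℤ` (over either carrier of the Gauss ring):

* `h97_C3_mod` / `h97_C3_mod75` : `(C3)  ∀ g : F0, g ≠ 0 → ((g : F) ∈ O ↔ ∀ c, 0 ≤ w c g)`
  (the hypothesis `hC3` of helper46's `h46_EBinders`);
* `h97_hvert_mod` / `h97_hvert_mod75` : the binder `hvert` of helper80's `h80_famOf_noeth`.
-/

set_option autoImplicit false
set_option linter.style.haveILetI false

open AlgebraicCurve ModularCurve IntermediateField Polynomial
open Fermat.Agent.S18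

namespace Fermat.Agent.S36

local notation "Qb" => AlgebraicClosure ℚ

section Mod

variable (N : ℕ) (q : ℕ) [Fact q.Prime] (A : ValuationSubring Qb)
  (x0 : h69_F0 N (A.inertiaSubgroupIn ℚ))
  (hx : h75_IsChart Qb (x0 : modularFunctionFieldBar N))

/-- **The D4 lattice ring at the modular carriers** (`K0 = h69_K0 I`, `F0 = h69_F0 N I`,
`A0 = h69_A0 A`, chart `x0`). -/
noncomputable def h97_O2 : Subring (modularFunctionFieldBar N) :=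
  h97_latO (h69_F0 N (A.inertiaSubgroupIn ℚ)).subtype (h69_A0 A) A x0
    (h69_inst_transcendental N (A.inertiaSubgroupIn ℚ) x0 hx.tr)
    (x0 : modularFunctionFieldBar N) hx.tr

theorem h97_O2_def :
    h97_O2 N A x0 hx = h97_latO (h69_F0 N (A.inertiaSubgroupIn ℚ)).subtype (h69_A0 A) A x0
      (h69_inst_transcendental N (A.inertiaSubgroupIn ℚ) x0 hx.tr)
      (x0 : modularFunctionFieldBar N) hx.tr := rfl

omit [Fact q.Prime] in
/-- The uniformiser `q` of `A0`. -/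
theorem h97_mod_hw : (q : h69_K0 (A.inertiaSubgroupIn ℚ)) ∈ h69_A0 A :=
  natCast_mem (h69_A0 A) q

theorem h97_mod_hwi (hA : A.LiesOverPrime q) :
    ((q : h69_K0 (A.inertiaSubgroupIn ℚ)))⁻¹ ∉ h69_A0 A := by
  have hq : q.Prime := Fact.out
  have h1 := (ValuationSubring.mem_nonunits_iff_or (A := h69_A0 A)).mp (h69_q_mem_nonunits q A hA)
  refine h1.resolve_left ?_
  exact_mod_cast hq.ne_zero

theorem h97_mod_hDV (hA : A.LiesOverPrime q) :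
    ∀ c : h69_K0 (A.inertiaSubgroupIn ℚ), c ≠ 0 →
      ∃ (n : ℤ) (u : h69_K0 (A.inertiaSubgroupIn ℚ)), u ∈ h69_A0 A ∧ u⁻¹ ∈ h69_A0 A ∧
        c = (q : h69_K0 (A.inertiaSubgroupIn ℚ)) ^ n * u := by
  intro c hc
  obtain ⟨n, u, h1, h2, h3⟩ := h69_inst_dv q A hA c hc
  exact ⟨n, u, h2, h3, h1⟩

omit [Fact q.Prime] in
theorem h97_mod_natCast :
    algebraMap (h69_K0 (A.inertiaSubgroupIn ℚ)) (h69_F0 N (A.inertiaSubgroupIn ℚ))
      (q : h69_K0 (A.inertiaSubgroupIn ℚ)) = (q : h69_F0 N (A.inertiaSubgroupIn ℚ)) :=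
  map_natCast _ q

include hx in
/-- **(C3) at the modular carriers**, `hR` / `hb` over `R := ↥(h97_gaussVal A0 x0 _)`. -/
theorem h97_C3_mod (hA : A.LiesOverPrime q) {κ : Type*} [Fintype κ]
    (w : κ → h69_F0 N (A.inertiaSubgroupIn ℚ) → ℤ) (hw : ∀ c, h99_IsVal (w c))
    (hR : ∀ c (r : ↥(h97_gaussVal (h69_A0 A) x0
        (h69_inst_transcendental N (A.inertiaSubgroupIn ℚ) x0 hx.tr))),
      algebraMap _ (h69_F0 N (A.inertiaSubgroupIn ℚ)) r ≠ 0 →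
        0 ≤ w c (algebraMap _ (h69_F0 N (A.inertiaSubgroupIn ℚ)) r))
    (e : κ → ℕ) (he : ∀ c, w c (q : h69_F0 N (A.inertiaSubgroupIn ℚ)) = e c)
    (hnorm : ∀ c, ∃ z : h69_F0 N (A.inertiaSubgroupIn ℚ), z ≠ 0 ∧ w c z = 1)
    (hne : ∀ c c', c ≠ c' → ∃ g : h69_F0 N (A.inertiaSubgroupIn ℚ), g ≠ 0 ∧ w c g ≠ w c' g)
    (f : κ → ℕ) (b : (c : κ) → Fin (f c) → h69_F0 N (A.inertiaSubgroupIn ℚ))
    (hb : ∀ c (r : Fin (f c) → ↥(h97_gaussVal (h69_A0 A) x0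
        (h69_inst_transcendental N (A.inertiaSubgroupIn ℚ) x0 hx.tr))), (∃ j, IsUnit (r j)) →
      ∑ j, r j • b c j ≠ 0 ∧ w c (∑ j, r j • b c j) = 0)
    (hn : Module.finrank (h69_K0 (A.inertiaSubgroupIn ℚ))⟮x0⟯ (h69_F0 N (A.inertiaSubgroupIn ℚ)) ≤
      ∑ c, e c * f c) :
    ∀ g : h69_F0 N (A.inertiaSubgroupIn ℚ), g ≠ 0 →
      ((h69_F0 N (A.inertiaSubgroupIn ℚ)).subtype g ∈ h97_O2 N A x0 hx ↔ ∀ c, 0 ≤ w c g) := by
  intro g hg
  haveI := h69_inst_finite_of_chart N (A.inertiaSubgroupIn ℚ) x0 hx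
  have key := h97_D4_iff_val' (algebraMap (h69_K0 (A.inertiaSubgroupIn ℚ)) Qb)
    (h69_F0 N (A.inertiaSubgroupIn ℚ)).subtype (fun c => h69_inst_comm N _ c) (h69_A0 A) A
    (fun a ha => ha) (fun a ha => ha) x0
    (h69_inst_transcendental N (A.inertiaSubgroupIn ℚ) x0 hx.tr)
    (x0 : modularFunctionFieldBar N) rfl hx.tr
    (q : h69_K0 (A.inertiaSubgroupIn ℚ)) (h97_mod_hw q A) (h97_mod_hwi q A hA)
    (h97_mod_hDV q A hA) (fun g hli => h69_inst_ld N _ g hli) w hw hR e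
    (fun c => by rw [h97_mod_natCast]; exact he c) hnorm hne f b hb hn g
  rw [h97_O2_def, key]
  exact ⟨fun h c => (h c).resolve_left hg, fun h c => Or.inr (h c)⟩

include hx in
/-- **(C3) at the modular carriers**, `hR` / `hb` over `R' := ↥(h75_gaussRing A0 x0)` (the shape
of helper91's `h91_hb_mod`). -/
theorem h97_C3_mod75 (hA : A.LiesOverPrime q) {κ : Type*} [Fintype κ]
    (w : κ → h69_F0 N (A.inertiaSubgroupIn ℚ) → ℤ) (hw : ∀ c, h99_IsVal (w c))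
    (hR : ∀ c (r : ↥(h75_gaussRing (h69_A0 A) x0)),
      algebraMap _ (h69_F0 N (A.inertiaSubgroupIn ℚ)) r ≠ 0 →
        0 ≤ w c (algebraMap _ (h69_F0 N (A.inertiaSubgroupIn ℚ)) r))
    (e : κ → ℕ) (he : ∀ c, w c (q : h69_F0 N (A.inertiaSubgroupIn ℚ)) = e c)
    (hnorm : ∀ c, ∃ z : h69_F0 N (A.inertiaSubgroupIn ℚ), z ≠ 0 ∧ w c z = 1)
    (hne : ∀ c c', c ≠ c' → ∃ g : h69_F0 N (A.inertiaSubgroupIn ℚ), g ≠ 0 ∧ w c g ≠ w c' g)
    (f : κ → ℕ) (b : (c : κ) → Fin (f c) → h69_F0 N (A.inertiaSubgroupIn ℚ))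
    (hb : ∀ c (r : Fin (f c) → ↥(h75_gaussRing (h69_A0 A) x0)), (∃ j, IsUnit (r j)) →
      ∑ j, r j • b c j ≠ 0 ∧ w c (∑ j, r j • b c j) = 0)
    (hn : Module.finrank (h69_K0 (A.inertiaSubgroupIn ℚ))⟮x0⟯ (h69_F0 N (A.inertiaSubgroupIn ℚ)) ≤
      ∑ c, e c * f c) :
    ∀ g : h69_F0 N (A.inertiaSubgroupIn ℚ), g ≠ 0 →
      ((h69_F0 N (A.inertiaSubgroupIn ℚ)).subtype g ∈ h97_O2 N A x0 hx ↔ ∀ c, 0 ≤ w c g) :=
  h97_C3_mod N q A x0 hx hA w hw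
    (fun c => h97_hR_of_h75 (h69_A0 A) x0 _ (w c) (hR c)) e he hnorm hne f b
    (fun c => h97_hb_of_h75 (h69_A0 A) x0 _ (w c) (b c) (hb c)) hn

include hx in
/-- **`hvert` at the modular carriers** (the binder of helper80's `h80_famOf_noeth`), `hR` / `hb`
over `R := ↥(h97_gaussVal A0 x0 _)`. -/
theorem h97_hvert_mod (hA : A.LiesOverPrime q) {κ : Type*} [Fintype κ]
    (w : κ → h69_F0 N (A.inertiaSubgroupIn ℚ) → ℤ) (hw : ∀ c, h99_IsVal (w c))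
    (hR : ∀ c (r : ↥(h97_gaussVal (h69_A0 A) x0
        (h69_inst_transcendental N (A.inertiaSubgroupIn ℚ) x0 hx.tr))),
      algebraMap _ (h69_F0 N (A.inertiaSubgroupIn ℚ)) r ≠ 0 →
        0 ≤ w c (algebraMap _ (h69_F0 N (A.inertiaSubgroupIn ℚ)) r))
    (e : κ → ℕ) (he : ∀ c, w c (q : h69_F0 N (A.inertiaSubgroupIn ℚ)) = e c)
    (hnorm : ∀ c, ∃ z : h69_F0 N (A.inertiaSubgroupIn ℚ), z ≠ 0 ∧ w c z = 1)
    (hne : ∀ c c', c ≠ c' → ∃ g : h69_F0 N (A.inertiaSubgroupIn ℚ), g ≠ 0 ∧ w c g ≠ w c' g)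
    (f : κ → ℕ) (b : (c : κ) → Fin (f c) → h69_F0 N (A.inertiaSubgroupIn ℚ))
    (hb : ∀ c (r : Fin (f c) → ↥(h97_gaussVal (h69_A0 A) x0
        (h69_inst_transcendental N (A.inertiaSubgroupIn ℚ) x0 hx.tr))), (∃ j, IsUnit (r j)) →
      ∑ j, r j • b c j ≠ 0 ∧ w c (∑ j, r j • b c j) = 0)
    (hn : Module.finrank (h69_K0 (A.inertiaSubgroupIn ℚ))⟮x0⟯ (h69_F0 N (A.inertiaSubgroupIn ℚ)) ≤
      ∑ c, e c * f c) :
    ∀ g : h69_F0 N (A.inertiaSubgroupIn ℚ), g ≠ 0 → (∀ c, 0 ≤ w c g) →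
      ∃ s : Polynomial (h69_A0 A).toSubring,
        (∃ i, (s.coeff i : h69_K0 (A.inertiaSubgroupIn ℚ))⁻¹ ∈ h69_A0 A ∧ s.coeff i ≠ 0) ∧
          (h97_ev (h69_A0 A).toSubring x0).IsIntegralElem
            (h97_ev (h69_A0 A).toSubring x0 s * g) := by
  haveI := h69_inst_finite_of_chart N (A.inertiaSubgroupIn ℚ) x0 hx
  exact h97_hvert (h69_A0 A) x0 (h69_inst_transcendental N (A.inertiaSubgroupIn ℚ) x0 hx.tr)
    (q : h69_K0 (A.inertiaSubgroupIn ℚ)) (h97_mod_hw q A) (h97_mod_hwi q A hA)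
    (h97_mod_hDV q A hA) w hw hR e
    (fun c => by rw [h97_mod_natCast]; exact he c) hnorm hne f b hb hn

include hx in
/-- **`hvert` at the modular carriers**, `hR` / `hb` over `R' := ↥(h75_gaussRing A0 x0)`. -/
theorem h97_hvert_mod75 (hA : A.LiesOverPrime q) {κ : Type*} [Fintype κ]
    (w : κ → h69_F0 N (A.inertiaSubgroupIn ℚ) → ℤ) (hw : ∀ c, h99_IsVal (w c))
    (hR : ∀ c (r : ↥(h75_gaussRing (h69_A0 A) x0)),
      algebraMap _ (h69_F0 N (A.inertiaSubgroupIn ℚ)) r ≠ 0 →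
        0 ≤ w c (algebraMap _ (h69_F0 N (A.inertiaSubgroupIn ℚ)) r))
    (e : κ → ℕ) (he : ∀ c, w c (q : h69_F0 N (A.inertiaSubgroupIn ℚ)) = e c)
    (hnorm : ∀ c, ∃ z : h69_F0 N (A.inertiaSubgroupIn ℚ), z ≠ 0 ∧ w c z = 1)
    (hne : ∀ c c', c ≠ c' → ∃ g : h69_F0 N (A.inertiaSubgroupIn ℚ), g ≠ 0 ∧ w c g ≠ w c' g)
    (f : κ → ℕ) (b : (c : κ) → Fin (f c) → h69_F0 N (A.inertiaSubgroupIn ℚ))
    (hb : ∀ c (r : Fin (f c) → ↥(h75_gaussRing (h69_A0 A) x0)), (∃ j, IsUnit (r j)) →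
      ∑ j, r j • b c j ≠ 0 ∧ w c (∑ j, r j • b c j) = 0)
    (hn : Module.finrank (h69_K0 (A.inertiaSubgroupIn ℚ))⟮x0⟯ (h69_F0 N (A.inertiaSubgroupIn ℚ)) ≤
      ∑ c, e c * f c) :
    ∀ g : h69_F0 N (A.inertiaSubgroupIn ℚ), g ≠ 0 → (∀ c, 0 ≤ w c g) →
      ∃ s : Polynomial (h69_A0 A).toSubring,
        (∃ i, (s.coeff i : h69_K0 (A.inertiaSubgroupIn ℚ))⁻¹ ∈ h69_A0 A ∧ s.coeff i ≠ 0) ∧
          (h97_ev (h69_A0 A).toSubring x0).IsIntegralElem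
            (h97_ev (h69_A0 A).toSubring x0 s * g) :=
  h97_hvert_mod N q A x0 hx hA w hw
    (fun c => h97_hR_of_h75 (h69_A0 A) x0 _ (w c) (hR c)) e he hnorm hne f b
    (fun c => h97_hb_of_h75 (h69_A0 A) x0 _ (w c) (b c) (hb c)) hn

end Mod

end Fermat.Agent.S36
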