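import Mathlib
import Fermat.Agent.S36.h36_MidEmb
import Fermat.Agent.S36.h98_GaussFun
import Fermat.Agent.S36.h22_IntSer
import Fermat.Agent.S36.h49_MidGal

/-!
# S36, row I-VAL: the three vertical valuations `h36_w2` at level `L q²`

`q ∤ L` prime, `A` a valuation subring of `ℚ̄` over `q`, `I` its inertia group,
`F = F(L q q)` (`modularFunctionFieldBar`), `F0 = h69_F0 (L q q) I`.

* `h36_zeta q`   : a fixed primitive `q`-th root of unity of `ℚ̄`;
* `h36_emb c`      : the three expansion embeddings `F →+* ℚ̄((t))`, `c : Fin 3`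
  (`0` = the expansion at `∞` (component `C20`), `1` = the middle embedding `h36_mid ζ` (`C11`),
  `2` = the expansion at `∞` after the swap `h36_W` (`C02`));
* `h36_pi c`     : the uniformisers `q, ζ - 1, q`;  `h36_e c = 1, q - 1, 1`;
* `h36_w2F c : F → ℤ`, `h36_w2 c : F0 → ℤ` : the Gauss orders (`h98_GV`) of the three expansions,
  in the respective uniformiser (value `0` when there is none);
* `h36_w1 c : F0(Lq) → ℤ`, `c : Fin 2` : the two Gauss orders at level `L q` (`0` = `Z_F`, `1` = `Z_V`);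
* `h36_EX c` : the existence statement "every nonzero element of `F0` has a Gauss order in the
  expansion `c`"; proved here for `c = 0, 2` (`h36_ex0`, `h36_ex2`);
* the calculus of `h36_w2` from `h36_EX c`, the values on constants, the table (V0).
-/

set_option autoImplicit false
set_option synthInstance.maxHeartbeats 400000
set_option linter.style.haveILetI false
set_option linter.unusedSectionVars false

noncomputable section

open ModularCurve AlgebraicCurve

namespace Fermat.Agent.S36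

open Fermat.Agent.S34 Fermat.Agent.S37 Fermat.Agent.S24 Fermat.Agent.S35 Fermat.Agent.S18
  Fermat.Agent.GAL Fermat.Agent.S40

local notation "Qb" => AlgebraicClosure ℚ

/-! ## The Gauss order of a series (value `0` when there is none) -/

section Gord

variable {K : Type*} [Field K] (A : ValuationSubring K)

/-- The `π`-adic Gauss order of a Laurent series (`0` if it has none). -/
def h36_gord (π : K) (s : LaurentSeries K) : ℤ := by
  classical
  exact if h : ∃ n : ℤ, h98_GV A π s n then h.choose else 0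

theorem h36_gord_spec {π : K} {s : LaurentSeries K} (h : ∃ n : ℤ, h98_GV A π s n) :
    h98_GV A π s (h36_gord A π s) := by
  classical
  unfold h36_gord
  rw [dif_pos h]
  exact h.choose_spec

theorem h36_gord_eq {π : K} (hπ0 : π ≠ 0) (hπA : π ∈ A) (hπn : π⁻¹ ∉ A) {s : LaurentSeries K}
    {n : ℤ} (h : h98_GV A π s n) : h36_gord A π s = n :=
  h98_GV_unique hπ0 hπA hπn (h36_gord_spec A ⟨n, h⟩) h

theorem h36_gord_zero (π : K) : h36_gord A π 0 = 0 := by
  classical
  unfold h36_gord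
  rw [dif_neg]
  rintro ⟨n, hn⟩
  exact h98_GV_ne_zero hn rfl

/-- `q ↦ q^d` preserves the Gauss order. -/
theorem h36_GV_qExpand (d : ℕ) [NeZero d] {π : K} {s : LaurentSeries K} {n : ℤ}
    (h : h98_GV A π s n) : h98_GV A π (qExpand K d s) n := by
  obtain ⟨h1, h2⟩ := h
  have h3 := h60_qExpand_mem A d h1
  have h4 := h60_rs_qExpand A d ⟨_, h1⟩
  refine h98_GV_of_eq h3 ?_ ?_
  · rw [h4]
    intro h0
    exact h2 (qExpand_injective (R := IsLocalRing.ResidueField A) d (by rw [h0, map_zero]))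
  · rw [map_mul]
    congr 1
    ext k
    by_cases hk : (d : ℤ) ∣ k
    · obtain ⟨m, rfl⟩ := hk
      rw [qExpand_coeff_mul, algebraMap_laurentSeries_eq_single]
      by_cases hm : m = 0
      · subst hm
        simp
      · rw [HahnSeries.coeff_single_of_ne, HahnSeries.coeff_single_of_ne hm]
        intro h0
        rcases mul_eq_zero.mp h0 with h0 | h0
        · exact (NeZero.ne d) (by exact_mod_cast h0)
        · exact hm h0
    · rw [qExpand_coeff_of_not_dvd d _ hk, algebraMap_laurentSeries_eq_single,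
        HahnSeries.coeff_single_of_ne]
      rintro rfl
      exact hk (dvd_zero _)

end Gord

/-! ## The data at level `L q²` -/

section Zeta

variable (q : ℕ) [NeZero q]

theorem h36_exists_zeta : ∃ ζ : Qb, IsPrimitiveRoot ζ q := by
  haveI : NeZero ((q : ℕ) : Qb) := ⟨Nat.cast_ne_zero.mpr (NeZero.ne q)⟩
  exact HasEnoughRootsOfUnity.exists_primitiveRoot Qb q

/-- A fixed primitive `q`-th root of unity. -/
def h36_zeta : Qb := (h36_exists_zeta q).choose

theorem h36_zeta_prim : IsPrimitiveRoot (h36_zeta q) q := (h36_exists_zeta q).choose_spec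

theorem h36_zeta_pow : h36_zeta q ^ q = 1 := (h36_zeta_prim q).pow_eq_one

theorem h36_zeta_ne_one [Fact q.Prime] : h36_zeta q ≠ 1 :=
  (h36_zeta_prim q).ne_one (Fact.out : q.Prime).one_lt

/-- The uniformisers of the three expansions: `q, ζ - 1, q`. -/
def h36_pi : Fin 3 → Qb := ![(q : Qb), h36_zeta q - 1, (q : Qb)]

/-- The ramification indices `1, q - 1, 1`. -/
def h36_e : Fin 3 → ℕ := ![1, q - 1, 1]

@[simp] theorem h36_pi_zero : h36_pi q 0 = (q : Qb) := rfl
@[simp] theorem h36_pi_one : h36_pi q 1 = h36_zeta q - 1 := rfl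
@[simp] theorem h36_pi_two : h36_pi q 2 = (q : Qb) := rfl
@[simp] theorem h36_e_zero : h36_e q 0 = 1 := rfl
@[simp] theorem h36_e_one : h36_e q 1 = q - 1 := rfl
@[simp] theorem h36_e_two : h36_e q 2 = 1 := rfl

variable [Fact q.Prime] (A : ValuationSubring Qb) (hA : A.LiesOverPrime q)

include hA in
theorem h36_q_spec : (q : Qb) ≠ 0 ∧ (q : Qb) ∈ A ∧ ((q : Qb))⁻¹ ∉ A := by
  have hq : q.Prime := Fact.out
  have h0 : (q : Qb) ≠ 0 := Nat.cast_ne_zero.mpr hq.ne_zero
  refine ⟨h0, natCast_mem A q, fun h => ?_⟩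
  have h1 : A.valuation (q : Qb) < 1 := h8_val_p_lt q A hA
  have h2 : A.valuation ((q : Qb))⁻¹ ≤ 1 := (A.valuation_le_one_iff _).2 h
  rw [map_inv₀] at h2
  have h3 : A.valuation (q : Qb) ≠ 0 := (map_ne_zero _).2 h0
  have h4 : 1 ≤ A.valuation (q : Qb) := (inv_le_one₀ (zero_lt_iff.mpr h3)).mp h2
  exact absurd h1 (not_lt.mpr h4)

include hA in
theorem h36_zeta_sub_one_spec :
    h36_zeta q - 1 ≠ 0 ∧ h36_zeta q - 1 ∈ A ∧ (h36_zeta q - 1)⁻¹ ∉ A := by
  have hq : q.Prime := Fact.out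
  have h0 : h36_zeta q - 1 ≠ 0 := h8_zeta_sub_one_ne q _ (h36_zeta_prim q)
  have hmem : h36_zeta q - 1 ∈ A := sub_mem (h8_zeta_mem q A _ (h36_zeta_prim q)) (one_mem A)
  refine ⟨h0, hmem, fun h => ?_⟩
  have h1 : A.valuation (q : Qb) < 1 := h8_val_p_lt q A hA
  rw [h8_val_p q A _ (h36_zeta_prim q)] at h1
  have h2 : A.valuation (h36_zeta q - 1)⁻¹ ≤ 1 := (A.valuation_le_one_iff _).2 h
  rw [map_inv₀] at h2
  have h3 : A.valuation (h36_zeta q - 1) ≠ 0 := (map_ne_zero _).2 h0
  have h4 : 1 ≤ A.valuation (h36_zeta q - 1) := (inv_le_one₀ (zero_lt_iff.mpr h3)).mp h2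
  have h5 : 1 ≤ A.valuation (h36_zeta q - 1) ^ (q - 1) := one_le_pow_of_one_le' h4 _
  exact absurd h1 (not_lt.mpr h5)

include hA in
/-- Each `h36_pi c` is a nonzero non-unit of `A`. -/
theorem h36_pi_spec (c : Fin 3) :
    h36_pi q c ≠ 0 ∧ h36_pi q c ∈ A ∧ (h36_pi q c)⁻¹ ∉ A := by
  fin_cases c
  · exact h36_q_spec q A hA
  · exact h36_zeta_sub_one_spec q A hA
  · exact h36_q_spec q A hA

/-- `π_c ^ e_c = q * ε_c` with `ε_c` a unit of `A`. -/
theorem h36_pi_pow (c : Fin 3) :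
    ∃ ε : Qb, ε ∈ A ∧ ε⁻¹ ∈ A ∧ ε ≠ 0 ∧ h36_pi q c ^ h36_e q c = (q : Qb) * ε := by
  have hq : q.Prime := Fact.out
  have hq0 : (q : Qb) ≠ 0 := Nat.cast_ne_zero.mpr hq.ne_zero
  have hone : ∃ ε : Qb, ε ∈ A ∧ ε⁻¹ ∈ A ∧ ε ≠ 0 ∧ (q : Qb) ^ 1 = (q : Qb) * ε :=
    ⟨1, one_mem A, by rw [inv_one]; exact one_mem A, one_ne_zero, by rw [pow_one, mul_one]⟩
  fin_cases c
  · exact hone
  · have h0 : h36_zeta q - 1 ≠ 0 := h8_zeta_sub_one_ne q _ (h36_zeta_prim q)
    have hv : A.valuation ((h36_zeta q - 1) ^ (q - 1) / (q : Qb)) = 1 := by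
      rw [map_div₀, map_pow, ← h8_val_p q A _ (h36_zeta_prim q)]
      exact div_self ((map_ne_zero _).2 hq0)
    obtain ⟨h1, h2⟩ := h8_unit_of_val_one A _ hv
    refine ⟨(h36_zeta q - 1) ^ (q - 1) / (q : Qb), h1, h2,
      div_ne_zero (pow_ne_zero _ h0) hq0, ?_⟩
    show (h36_zeta q - 1) ^ (q - 1) = _
    field_simp
  · exact hone

end Zeta

section W2

variable (L q : ℕ) [NeZero L] [NeZero q] [Fact q.Prime] (hqL : ¬ q ∣ L)

/-- **The three expansion embeddings** of `F(L q q)`. -/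
def h36_emb : Fin 3 → (↥(modularFunctionFieldBar (L * q * q)) →+* LaurentSeries Qb) :=
  ![(modularFunctionFieldBar (L * q * q)).val.toRingHom,
    h36_mid L q hqL (h36_zeta q) (h36_zeta_pow q) (h36_zeta_ne_one q),
    ((modularFunctionFieldBar (L * q * q)).val.toRingHom).comp (h36_W L q hqL)]

theorem h36_emb_zero (f : ↥(modularFunctionFieldBar (L * q * q))) :
    h36_emb L q hqL 0 f = (f : LaurentSeries Qb) := rfl

theorem h36_emb_one (f : ↥(modularFunctionFieldBar (L * q * q))) :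
    h36_emb L q hqL 1 f = h36_mid L q hqL (h36_zeta q) (h36_zeta_pow q) (h36_zeta_ne_one q) f := rfl

theorem h36_emb_two (f : ↥(modularFunctionFieldBar (L * q * q))) :
    h36_emb L q hqL 2 f = ((h36_W L q hqL f : ↥(modularFunctionFieldBar (L * q * q))) :
      LaurentSeries Qb) := rfl

/-- The three embeddings are the identity on constants. -/
theorem h36_emb_algebraMap (c : Fin 3) (a : Qb) :
    h36_emb L q hqL c (algebraMap Qb ↥(modularFunctionFieldBar (L * q * q)) a) =
      algebraMap Qb (LaurentSeries Qb) a := by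
  fin_cases c
  · rfl
  · exact h36_mid_algebraMap L q hqL (h36_zeta q) (h36_zeta_pow q) (h36_zeta_ne_one q) a
  · show ((h36_W L q hqL (algebraMap Qb ↥(modularFunctionFieldBar (L * q * q)) a) :
      ↥(modularFunctionFieldBar (L * q * q))) : LaurentSeries Qb) = _
    rw [h36_W_algebraMap]
    rfl

variable (A : ValuationSubring Qb)

/-- **The three vertical valuations on `F(L q q)`** (Gauss order of the expansion `c` in the
uniformiser `h36_pi c`; `0` when there is none). -/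
def h36_w2F (c : Fin 3) (f : ↥(modularFunctionFieldBar (L * q * q))) : ℤ :=
  h36_gord A (h36_pi q c) (h36_emb L q hqL c f)

/-- **The three vertical valuations on `F0 = h69_F0 (L q q) I`.** -/
def h36_w2 (c : Fin 3) (f : ↥(h69_F0 (L * q * q) (A.inertiaSubgroupIn ℚ))) : ℤ :=
  h36_w2F L q hqL A c (f : ↥(modularFunctionFieldBar (L * q * q)))

/-- The existence statement for the expansion `c`. -/
abbrev h36_EX (c : Fin 3) : Prop :=
  ∀ f : ↥(h69_F0 (L * q * q) (A.inertiaSubgroupIn ℚ)), f ≠ 0 →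
    ∃ n : ℤ, h98_GV A (h36_pi q c)
      (h36_emb L q hqL c (f : ↥(modularFunctionFieldBar (L * q * q)))) n

theorem h36_w2_zero (c : Fin 3) : h36_w2 L q hqL A c 0 = 0 := by
  show h36_gord A (h36_pi q c) (h36_emb L q hqL c (0 : ↥(modularFunctionFieldBar (L * q * q)))) = 0
  rw [map_zero]
  exact h36_gord_zero A _

variable (hA : A.LiesOverPrime q)

include hA in
/-- **Uniqueness**: a Gauss order of the expansion `c` of `f` is the value `h36_w2F c f`. -/
theorem h36_w2F_eq (c : Fin 3) (f : ↥(modularFunctionFieldBar (L * q * q))) (n : ℤ)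
    (h : h98_GV A (h36_pi q c) (h36_emb L q hqL c f) n) : h36_w2F L q hqL A c f = n :=
  h36_gord_eq A (h36_pi_spec q A hA c).1 (h36_pi_spec q A hA c).2.1 (h36_pi_spec q A hA c).2.2 h

include hA in
theorem h36_w2_eq (c : Fin 3) (f : ↥(h69_F0 (L * q * q) (A.inertiaSubgroupIn ℚ))) (n : ℤ)
    (h : h98_GV A (h36_pi q c)
      (h36_emb L q hqL c (f : ↥(modularFunctionFieldBar (L * q * q)))) n) :
    h36_w2 L q hqL A c f = n :=
  h36_w2F_eq L q hqL A hA c _ n h

/-- **Specification**: `h36_w2 c f` is the Gauss order of the expansion `c` of `f`. -/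
theorem h36_w2_gv (c : Fin 3) (hex : h36_EX L q hqL A c)
    (f : ↥(h69_F0 (L * q * q) (A.inertiaSubgroupIn ℚ))) (hf : f ≠ 0) :
    h98_GV A (h36_pi q c) (h36_emb L q hqL c (f : ↥(modularFunctionFieldBar (L * q * q))))
      (h36_w2 L q hqL A c f) :=
  h36_gord_spec A (hex f hf)

include hA in
/-- `h36_w2 c` agrees with helper98's `h98_gv`. -/
theorem h36_w2_eq_gv (c : Fin 3) (hex : h36_EX L q hqL A c) :
    h36_w2 L q hqL A c =
      h98_gv (h36_emb L q hqL c) (h69_F0 (L * q * q) (A.inertiaSubgroupIn ℚ)) (h36_pi q c) hex := by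
  funext f
  by_cases hf : f = 0
  · rw [hf, h36_w2_zero, h98_gv_zero]
  · exact h36_w2_eq L q hqL A hA c f _ (h98_gv_spec _ _ _ hex f hf)

include hA in
/-- `h36_w2 c` is a `ℤ`-valued valuation on the nonzero elements of `F0`. -/
theorem h36_w2_isVal (c : Fin 3) (hex : h36_EX L q hqL A c) :
    h99_IsVal (h36_w2 L q hqL A c) := by
  rw [h36_w2_eq_gv L q hqL A hA c hex]
  exact h98_gv_isVal hex (h36_pi_spec q A hA c).1 (h36_pi_spec q A hA c).2.1
    (h36_pi_spec q A hA c).2.2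

include hA in
theorem h36_w2_nonneg_iff (c : Fin 3) (hex : h36_EX L q hqL A c)
    (f : ↥(h69_F0 (L * q * q) (A.inertiaSubgroupIn ℚ))) (hf : f ≠ 0) :
    0 ≤ h36_w2 L q hqL A c f ↔
      h36_emb L q hqL c (f : ↥(modularFunctionFieldBar (L * q * q))) ∈ h60_Os A := by
  rw [h36_w2_eq_gv L q hqL A hA c hex]
  exact h98_gv_nonneg_iff hex (h36_pi_spec q A hA c).1 (h36_pi_spec q A hA c).2.1
    (h36_pi_spec q A hA c).2.2 f hf

include hA in
theorem h36_w2_pos_iff (c : Fin 3) (hex : h36_EX L q hqL A c)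
    (f : ↥(h69_F0 (L * q * q) (A.inertiaSubgroupIn ℚ))) (hf : f ≠ 0) :
    0 < h36_w2 L q hqL A c f ↔
      ∃ h : h36_emb L q hqL c (f : ↥(modularFunctionFieldBar (L * q * q))) ∈ h60_Os A,
        h60_rs A ⟨_, h⟩ = 0 := by
  rw [h36_w2_eq_gv L q hqL A hA c hex]
  exact h98_gv_pos_iff hex (h36_pi_spec q A hA c).1 (h36_pi_spec q A hA c).2.1
    (h36_pi_spec q A hA c).2.2 f hf

include hA in
theorem h36_w2_eq_zero_iff (c : Fin 3) (hex : h36_EX L q hqL A c)
    (f : ↥(h69_F0 (L * q * q) (A.inertiaSubgroupIn ℚ))) (hf : f ≠ 0) :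
    h36_w2 L q hqL A c f = 0 ↔
      ∃ h : h36_emb L q hqL c (f : ↥(modularFunctionFieldBar (L * q * q))) ∈ h60_Os A,
        h60_rs A ⟨_, h⟩ ≠ 0 := by
  rw [h36_w2_eq_gv L q hqL A hA c hex]
  exact h98_gv_eq_zero_iff hex (h36_pi_spec q A hA c).1 (h36_pi_spec q A hA c).2.1
    (h36_pi_spec q A hA c).2.2 f hf

/-! ### Constants -/

include hA in
/-- The Gauss order of a constant: `a = q ^ m * u`, `u` a unit of `A`, has `w2 c a = e_c * m`. -/
theorem h36_w2F_const (c : Fin 3) (a u : Qb) (m : ℤ) (hu : u ∈ A) (hu' : u⁻¹ ∈ A) (hu0 : u ≠ 0)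
    (ha : a = (q : Qb) ^ m * u) :
    h98_GV A (h36_pi q c)
      (h36_emb L q hqL c (algebraMap Qb ↥(modularFunctionFieldBar (L * q * q)) a))
      ((h36_e q c : ℤ) * m) := by
  have hq0 : (q : Qb) ≠ 0 := (h36_q_spec q A hA).1
  obtain ⟨ε, hε, hε', hε0, hpow⟩ := h36_pi_pow q A c
  rw [h36_emb_algebraMap]
  have h1 : h98_GV A (q : Qb) (algebraMap Qb (LaurentSeries Qb) a) m := by
    have h2 := h98_GV_unit_mul (A := A) hq0 hu hu' hu0 (h98_GV_pi_zpow (A := A) hq0 m)
    rw [← map_mul, mul_comm, ← ha] at h2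
    exact h2
  exact h98_GV_change hε hε' hε0 hpow h1

include hA in
/-- `w2 c q = e_c`. -/
theorem h36_w2_q (c : Fin 3) :
    h36_w2 L q hqL A c ((q : ℕ) : ↥(h69_F0 (L * q * q) (A.inertiaSubgroupIn ℚ))) = h36_e q c := by
  have h := h36_w2F_const L q hqL A hA c (q : Qb) 1 1 (one_mem A) (by rw [inv_one]; exact one_mem A)
    one_ne_zero (by rw [zpow_one, mul_one])
  rw [mul_one] at h
  refine h36_w2_eq L q hqL A hA c _ _ ?_
  have e : (((q : ℕ) : ↥(h69_F0 (L * q * q) (A.inertiaSubgroupIn ℚ))) :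
      ↥(modularFunctionFieldBar (L * q * q))) =
      algebraMap Qb ↥(modularFunctionFieldBar (L * q * q)) (q : Qb) := by
    rw [map_natCast]
    rfl
  rw [e]
  exact h

end W2

end Fermat.Agent.S36
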