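import Mathlib
import Fermat.Agent.S36.h69_K0Inst

/-!
# S36 / row K, (K-DEG): `[F0 : K0(x0)] = [F : ℚ̄(x0)]`

`H` a subgroup of `Gal(ℚ̄/ℚ)`, `K0 = h69_K0 H`, `F0 = h69_F0 N H`, `F = modularFunctionFieldBar N`,
`x0 ∈ F0` transcendental over `ℚ̄` with `F` finite over `ℚ̄(x0)`.

* `h69_rank_le_of_dep` (generic): bounded polynomial dependence gives `Module.rank K0⟮x⟯ F0 ≤ n`.
* `h69_inst_finrank_le` : `[F0 : K0(x0)] ≤ [F : ℚ̄(x0)]`.
* `h69_inst_span_top` : a `K0(x0)`-spanning family of `F0` spans `F` over `ℚ̄(x0)`.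
* `h69_inst_finrank_ge`, `h69_inst_finrank_eq` : the equality of degrees.
-/

set_option autoImplicit false

noncomputable section

open AlgebraicCurve ModularCurve IntermediateField Polynomial

namespace Fermat.Agent.S36

local notation "Qb" => AlgebraicClosure ℚ

section Generic

variable {K0 F0 : Type*} [Field K0] [Field F0] [Algebra K0 F0]

/-- Bounded polynomial dependence gives the rank bound over `K0(x)`. -/
theorem h69_rank_le_of_dep (x : F0) (hx : Transcendental K0 x) (n : ℕ)
    (hn : ∀ f : Fin (n + 1) → F0, ∃ p : Fin (n + 1) → K0[X],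
      p ≠ 0 ∧ ∑ i, aeval x (p i) * f i = 0) :
    Module.rank K0⟮x⟯ F0 ≤ n := by
  classical
  apply rank_le
  intro s hs
  by_contra hlt
  rw [not_le] at hlt
  have hcard : Fintype.card (Fin (n + 1)) ≤ Fintype.card s := by
    rw [Fintype.card_fin, Fintype.card_coe]
    omega
  obtain ⟨e⟩ := Function.Embedding.nonempty_of_card_le hcard
  obtain ⟨p, hp0, hp⟩ := hn (fun i => ((e i : s) : F0))
  have hli : LinearIndependent K0⟮x⟯ (fun i : Fin (n + 1) => ((e i : s) : F0)) :=
    hs.comp e e.injective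
  have hmem : ∀ i, aeval x (p i) ∈ K0⟮x⟯ := fun i =>
    (mem_adjoin_simple_iff K0 _).mpr ⟨p i, 1, by simp⟩
  have h0 := Fintype.linearIndependent_iff.mp hli (fun i => ⟨aeval x (p i), hmem i⟩) (by
    rw [← hp]
    exact Finset.sum_congr rfl fun i _ => rfl)
  apply hp0
  funext i
  have h1 : aeval x (p i) = 0 := congrArg (fun z : K0⟮x⟯ => (z : F0)) (h0 i)
  exact (transcendental_iff_injective.mp hx) (by rw [h1]; simp)

end Generic

section Carrier

variable (N : ℕ) (H : Subgroup (Qb ≃ₐ[ℚ] Qb))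

/-- **`[F0 : K0(x0)] ≤ [F : ℚ̄(x0)]`** (as a rank bound). -/
theorem h69_inst_rank_le (x0 : h69_F0 N H)
    (hx : Transcendental Qb (x0 : modularFunctionFieldBar N))
    [FiniteDimensional Qb⟮(x0 : modularFunctionFieldBar N)⟯ (modularFunctionFieldBar N)] :
    Module.rank (h69_K0 H)⟮x0⟯ (h69_F0 N H) ≤
      (Module.finrank Qb⟮(x0 : modularFunctionFieldBar N)⟯ (modularFunctionFieldBar N) : ℕ) := by
  classical
  refine h69_rank_le_of_dep x0 (h69_inst_transcendental N H x0 hx) _ fun f => ?_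
  obtain ⟨d, c, hc, ⟨i1, j1, hne⟩, hrel⟩ := h69_poly_dep N H
    (x0 : modularFunctionFieldBar N) x0.2
    (fun i => ((f i : h69_F0 N H) : modularFunctionFieldBar N)) (fun i => (f i).2)
  refine ⟨fun i => ∑ j : Fin (d + 1), Polynomial.monomial (j : ℕ)
    (⟨c i j, (h69_mem_K0 H _).mpr (hc i j)⟩ : h69_K0 H), fun h0 => ?_, ?_⟩
  · have h1 := congrArg (fun p : Polynomial (h69_K0 H) => p.coeff (j1 : ℕ)) (congrFun h0 i1)
    simp only [Pi.zero_apply, Polynomial.coeff_zero, Polynomial.finsetSum_coeff,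
      Polynomial.coeff_monomial] at h1
    rw [Finset.sum_eq_single j1 (fun j _ hj => if_neg (fun h => hj (Fin.ext h)))
      (fun h => absurd (Finset.mem_univ _) h), if_pos rfl] at h1
    exact hne (congrArg Subtype.val h1)
  · apply Subtype.ext
    change (h69_F0 N H).subtype _ = (0 : modularFunctionFieldBar N)
    rw [map_sum]
    refine Eq.trans (Finset.sum_congr rfl fun i _ => ?_) hrel
    rw [map_mul, map_sum, map_sum]
    congr 1
    refine Finset.sum_congr rfl fun j _ => ?_
    rw [Polynomial.aeval_monomial, map_mul, map_pow, Subfield.coe_subtype, Algebra.smul_def]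
    rfl

/-- **`[F0 : K0(x0)] ≤ [F : ℚ̄(x0)]`.** -/
theorem h69_inst_finrank_le (x0 : h69_F0 N H)
    (hx : Transcendental Qb (x0 : modularFunctionFieldBar N))
    [FiniteDimensional Qb⟮(x0 : modularFunctionFieldBar N)⟯ (modularFunctionFieldBar N)] :
    Module.finrank (h69_K0 H)⟮x0⟯ (h69_F0 N H) ≤
      Module.finrank Qb⟮(x0 : modularFunctionFieldBar N)⟯ (modularFunctionFieldBar N) := by
  haveI := h69_inst_finite N H x0 hx
  have h := h69_inst_rank_le N H x0 hx
  rw [← Module.finrank_eq_rank] at h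
  exact_mod_cast h

/-- The image in `F` of an element of `K0(x0)` lies in `ℚ̄(x0)`. -/
theorem h69_inst_adjoin_mem (x0 : h69_F0 N H) (r : (h69_K0 H)⟮x0⟯) :
    (((r : h69_F0 N H)) : modularFunctionFieldBar N) ∈
      Qb⟮(x0 : modularFunctionFieldBar N)⟯ := by
  obtain ⟨r, hr⟩ := r
  obtain ⟨p, q, rfl⟩ := (mem_adjoin_simple_iff (h69_K0 H) _).mp hr
  have key : ∀ p : Polynomial (h69_K0 H),
      (((aeval x0 p : h69_F0 N H)) : modularFunctionFieldBar N) =
        aeval (x0 : modularFunctionFieldBar N) (p.map (algebraMap (h69_K0 H) Qb)) := by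
    intro p
    change (h69_F0 N H).subtype (aeval x0 p) = _
    rw [aeval_def, aeval_def, Polynomial.eval₂_map, Polynomial.hom_eval₂]
    rfl
  change (h69_F0 N H).subtype (aeval x0 p / aeval x0 q) ∈ _
  rw [map_div₀]
  change (((aeval x0 p : h69_F0 N H)) : modularFunctionFieldBar N) /
    (((aeval x0 q : h69_F0 N H)) : modularFunctionFieldBar N) ∈ _
  rw [key, key]
  exact (mem_adjoin_simple_iff Qb _).mpr ⟨_, _, rfl⟩

/-- **A `K0(x0)`-spanning family of `F0` spans `F` over `ℚ̄(x0)`.** -/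
theorem h69_inst_span_top (x0 : h69_F0 N H) {ι : Type*} (b : ι → h69_F0 N H)
    (hb : Submodule.span (h69_K0 H)⟮x0⟯ (Set.range b) = ⊤) :
    Submodule.span Qb⟮(x0 : modularFunctionFieldBar N)⟯
      (Set.range fun i => (b i : modularFunctionFieldBar N)) = ⊤ := by
  classical
  rw [eq_top_iff]
  intro f _
  have hf := h69_inst_span N H f
  -- the target span, as a `ℚ̄`-submodule
  let S : Submodule Qb (modularFunctionFieldBar N) :=
    (Submodule.span Qb⟮(x0 : modularFunctionFieldBar N)⟯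
      (Set.range fun i => (b i : modularFunctionFieldBar N))).restrictScalars Qb
  suffices h : Submodule.span Qb (Set.range (h69_F0 N H).subtype) ≤ S from h hf
  rw [Submodule.span_le]
  rintro _ ⟨g, rfl⟩
  have hg : g ∈ Submodule.span (h69_K0 H)⟮x0⟯ (Set.range b) := by rw [hb]; trivial
  change ((g : h69_F0 N H) : modularFunctionFieldBar N) ∈
    Submodule.span Qb⟮(x0 : modularFunctionFieldBar N)⟯
      (Set.range fun i => (b i : modularFunctionFieldBar N))
  induction hg using Submodule.span_induction with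
  | mem y hy =>
    obtain ⟨i, rfl⟩ := hy
    exact Submodule.subset_span ⟨i, rfl⟩
  | zero =>
    exact Submodule.zero_mem _
  | add y z _ _ hy hz =>
    have : ((y + z : h69_F0 N H) : modularFunctionFieldBar N) =
        (y : modularFunctionFieldBar N) + (z : modularFunctionFieldBar N) := rfl
    rw [this]
    exact Submodule.add_mem _ hy hz
  | smul r y _ hy =>
    have h1 : ((r • y : h69_F0 N H) : modularFunctionFieldBar N) =
        (⟨((r : h69_F0 N H) : modularFunctionFieldBar N), h69_inst_adjoin_mem N H x0 r⟩ :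
          Qb⟮(x0 : modularFunctionFieldBar N)⟯) • (y : modularFunctionFieldBar N) := rfl
    rw [h1]
    exact Submodule.smul_mem _ _ hy

/-- **`[F : ℚ̄(x0)] ≤ [F0 : K0(x0)]`.** -/
theorem h69_inst_finrank_ge (x0 : h69_F0 N H)
    (hx : Transcendental Qb (x0 : modularFunctionFieldBar N))
    [FiniteDimensional Qb⟮(x0 : modularFunctionFieldBar N)⟯ (modularFunctionFieldBar N)] :
    Module.finrank Qb⟮(x0 : modularFunctionFieldBar N)⟯ (modularFunctionFieldBar N) ≤
      Module.finrank (h69_K0 H)⟮x0⟯ (h69_F0 N H) := by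
  classical
  haveI := h69_inst_finite N H x0 hx
  let b := Module.finBasis (h69_K0 H)⟮x0⟯ (h69_F0 N H)
  have h := h69_inst_span_top N H x0 b b.span_eq
  have h2 := finrank_le_of_span_eq_top (R := Qb⟮(x0 : modularFunctionFieldBar N)⟯)
    (v := fun i => ((b i : h69_F0 N H) : modularFunctionFieldBar N)) h
  simpa using h2

/-- **(K-DEG)** `[F0 : K0(x0)] = [F : ℚ̄(x0)]`. -/
theorem h69_inst_finrank_eq (x0 : h69_F0 N H)
    (hx : Transcendental Qb (x0 : modularFunctionFieldBar N))
    [FiniteDimensional Qb⟮(x0 : modularFunctionFieldBar N)⟯ (modularFunctionFieldBar N)] :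
    Module.finrank (h69_K0 H)⟮x0⟯ (h69_F0 N H) =
      Module.finrank Qb⟮(x0 : modularFunctionFieldBar N)⟯ (modularFunctionFieldBar N) :=
  le_antisymm (h69_inst_finrank_le N H x0 hx) (h69_inst_finrank_ge N H x0 hx)

/-- (K-DEG) for a chart `x0 ∈ F0`. -/
theorem h69_inst_finrank_eq_of_chart (x0 : h69_F0 N H)
    (hx : Fermat.Agent.S18.h75_IsChart Qb (x0 : modularFunctionFieldBar N)) :
    Module.finrank (h69_K0 H)⟮x0⟯ (h69_F0 N H) =
      Module.finrank Qb⟮(x0 : modularFunctionFieldBar N)⟯ (modularFunctionFieldBar N) :=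
  haveI := hx.fin
  h69_inst_finrank_eq N H x0 hx.tr

end Carrier

end Fermat.Agent.S36
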