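import Mathlib
import Fermat.Agent.S36.h69_K0Deg
import Fermat.Agent.S19.h2_ModChartJ
import Fermat.Agent.S24.h78_Fibres
import Fermat.Agent.S24.h29_Index
import Fermat.Agent.S18.h54_Mod

/-!
# S36 / row K, (K-COUNT): the degree count of (COMP3-M) at level `L q²`

* `h69_jF0 N H` : the chart `j` as an element of `F0 = h69_F0 N H`.
* `h69_F0_finrank` : `[F0(N) : K0(j)] = ψ(N)`.
* `h69_F0_finrank_q2` : `[F0(L q²) : K0(j)] = q (q + 1) ψ(L)`.
* `h69_finrank_fb_psi` : `[Fb(L) : k(j̄)] = ψ(L)` (good reduction level).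
* `h69_count_q2` : `q (q + 1) ψ = 1 * ψ + (q - 1) * ψ + 1 * (q² ψ)`, in the `Fin 3`-sum shape of
  `h99_integral_iff` (`e = ![1, q - 1, 1]`, `f = ![ψ, ψ, q * q * ψ]`).
-/

set_option autoImplicit false

noncomputable section

open AlgebraicCurve ModularCurve IntermediateField Polynomial CongruenceSubgroup
open scoped MatrixGroups

namespace Fermat.Agent.S36

open Fermat.Agent.S18 Fermat.Agent.S19 Fermat.Agent.S24

local notation "Qb" => AlgebraicClosure ℚ

section Chart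

variable (N : ℕ) (H : Subgroup (Qb ≃ₐ[ℚ] Qb))

/-- **The chart `j` as an element of `F0`.** -/
def h69_jF0 : h69_F0 N H := ⟨h59_jbar N, fun σ _ => h2_jbar_fix N σ⟩

theorem h69_coe_jF0 :
    ((h69_jF0 N H : h69_F0 N H) : modularFunctionFieldBar N) = h59_jbar N := rfl

/-- `1 / j` as an element of `F0`. -/
theorem h69_coe_jF0_inv :
    (((h69_jF0 N H)⁻¹ : h69_F0 N H) : modularFunctionFieldBar N) = (h59_jbar N)⁻¹ := rfl

theorem h69_jF0_transcendental : Transcendental (h69_K0 H) (h69_jF0 N H) :=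
  h69_inst_transcendental N H (h69_jF0 N H) (h59_jbar_transcendental N)

/-- `[F̄(N) : ℚ̄(j)] = ψ(N)`. -/
theorem h69_finrank_jbar [NeZero N] :
    Module.finrank Qb⟮h59_jbar N⟯ (modularFunctionFieldBar N) = ModularCurve.dedekindPsi N := by
  rw [h78_finrank N, h29_card_quotient_Gamma0 N]

/-- **`[F0(N) : K0(j)] = ψ(N)`.** -/
theorem h69_F0_finrank [NeZero N] :
    Module.finrank (h69_K0 H)⟮h69_jF0 N H⟯ (h69_F0 N H) = ModularCurve.dedekindPsi N := by
  haveI : FiniteDimensional Qb⟮((h69_jF0 N H : h69_F0 N H) : modularFunctionFieldBar N)⟯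
      (modularFunctionFieldBar N) := h78_finiteDimensional N
  rw [h69_inst_finrank_eq N H (h69_jF0 N H) (h59_jbar_transcendental N)]
  exact h69_finrank_jbar N

/-- `F0(N)` is finite over `K0(j)`. -/
theorem h69_F0_finite [NeZero N] :
    FiniteDimensional (h69_K0 H)⟮h69_jF0 N H⟯ (h69_F0 N H) := by
  haveI : FiniteDimensional Qb⟮((h69_jF0 N H : h69_F0 N H) : modularFunctionFieldBar N)⟯
      (modularFunctionFieldBar N) := h78_finiteDimensional N
  exact h69_inst_finite N H (h69_jF0 N H) (h59_jbar_transcendental N)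

end Chart

section Count

/-- `ψ(L q²) = q (q + 1) ψ(L)` for a prime `q ∤ L`. -/
theorem h69_psi_q2 (L q : ℕ) (hL : 0 < L) (hq : q.Prime) (hqL : ¬ q ∣ L) :
    ModularCurve.dedekindPsi (L * q * q) = q * (q + 1) * ModularCurve.dedekindPsi L := by
  have h1 : ModularCurve.dedekindPsi (q * L) = (q + 1) * ModularCurve.dedekindPsi L :=
    h29_psi_mul_of_not_dvd q L hq hL hqL
  have h2 : ModularCurve.dedekindPsi (q * (q * L)) = q * ModularCurve.dedekindPsi (q * L) :=
    h29_psi_mul_of_dvd q (q * L) hq (Nat.mul_pos hq.pos hL) (dvd_mul_right q L)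
  have h3 : L * q * q = q * (q * L) := by ring
  rw [h3, h2, h1]
  ring

/-- **`[F0(L q²) : K0(j)] = q (q + 1) ψ(L)`.** -/
theorem h69_F0_finrank_q2 (L q : ℕ) [NeZero L] [NeZero q] (hq : q.Prime) (hqL : ¬ q ∣ L)
    (H : Subgroup (Qb ≃ₐ[ℚ] Qb)) :
    Module.finrank (h69_K0 H)⟮h69_jF0 (L * q * q) H⟯ (h69_F0 (L * q * q) H) =
      q * (q + 1) * ModularCurve.dedekindPsi L := by
  rw [h69_F0_finrank (L * q * q) H,
    h69_psi_q2 L q (Nat.pos_of_ne_zero (NeZero.ne L)) hq hqL]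

/-- `[Fb(L) : k(j̄)] = ψ(L)` at a level `L` prime to the residue characteristic. -/
theorem h69_finrank_fb_psi (L : ℕ) [NeZero L] {q : ℕ} [Fact q.Prime] (hqL : ¬ q ∣ L)
    (A : ValuationSubring Qb) (hA : A.LiesOverPrime q) :
    Module.finrank (IsLocalRing.ResidueField A)⟮h54_jk (IsLocalRing.ResidueField A) L⟯
        ↥(modularFunctionFieldFullC (IsLocalRing.ResidueField A) L)
      = ModularCurve.dedekindPsi L := by
  rw [h54_finrank_fb L hqL A hA, h29_card_quotient_Gamma0 L]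

/-- The count `q (q + 1) ψ = 1 * ψ + (q - 1) * ψ + 1 * (q² ψ)` in the `Fin 3`-sum shape. -/
theorem h69_count_q2 (q ψ : ℕ) (hq : 0 < q) :
    q * (q + 1) * ψ = ∑ c : Fin 3, (![1, q - 1, 1] : Fin 3 → ℕ) c * (![ψ, ψ, q * q * ψ] : Fin 3 → ℕ) c := by
  obtain ⟨m, rfl⟩ : ∃ m, q = m + 1 := ⟨q - 1, by omega⟩
  simp only [Fin.sum_univ_three, Matrix.cons_val_zero, Matrix.cons_val_one, Matrix.cons_val_two,
    Matrix.head_cons, Matrix.tail_cons, Nat.add_sub_cancel]
  ring

/-- **(K-COUNT)** the `hrank`/`hn` numerics of `h99_integral_iff` at level `L q²`: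
`[F0 : K0(j)] = ∑ c, e c * f c` with `e = ![1, q - 1, 1]`, `f = ![ψ, ψ, q * q * ψ]`,
`ψ = [Fb(L) : k(j̄)]`. -/
theorem h69_F0_count_q2 (L q : ℕ) [NeZero L] [NeZero q] [Fact q.Prime] (hqL : ¬ q ∣ L)
    (H : Subgroup (Qb ≃ₐ[ℚ] Qb)) (A : ValuationSubring Qb) (hA : A.LiesOverPrime q) :
    Module.finrank (h69_K0 H)⟮h69_jF0 (L * q * q) H⟯ (h69_F0 (L * q * q) H) =
      ∑ c : Fin 3, (![1, q - 1, 1] : Fin 3 → ℕ) c *
        (![Module.finrank (IsLocalRing.ResidueField A)⟮h54_jk (IsLocalRing.ResidueField A) L⟯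
            ↥(modularFunctionFieldFullC (IsLocalRing.ResidueField A) L),
          Module.finrank (IsLocalRing.ResidueField A)⟮h54_jk (IsLocalRing.ResidueField A) L⟯
            ↥(modularFunctionFieldFullC (IsLocalRing.ResidueField A) L),
          q * q * Module.finrank (IsLocalRing.ResidueField A)⟮h54_jk (IsLocalRing.ResidueField A) L⟯
            ↥(modularFunctionFieldFullC (IsLocalRing.ResidueField A) L)] : Fin 3 → ℕ) c := by
  have hq : q.Prime := Fact.out
  rw [h69_F0_finrank_q2 L q hq hqL H, h69_finrank_fb_psi L hqL A hA]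
  exact h69_count_q2 q _ hq.pos

end Count

end Fermat.Agent.S36
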