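/-
(RES-FAM), generic part.  Residue-degree families for the fundamental count.

* `h91_indep_pow`        : `1, J, …, J^(m-1)` are linearly independent over `k⟮J^m⟯`
                           (`J` transcendental over `k`);
* `h91_indep_pow_tower`  : if `β` is linearly independent over `k⟮J⟯`, the products
                           `J^a * β b` (`a < m`) are linearly independent over `k⟮J^m⟯`;
* `h91_hindep`           : the same as a statement on sums with coefficients in `k⟮J^m⟯`;
* `h91_gauss_red_mem`    : a ring hom `ρ` extending the residue map of the constants sends the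
                           Gauss ring of `(A, y)` into `k⟮ρ y⟯`.

Mathlib + `h75_GaussRing` only.
-/
import Mathlib
import Fermat.Agent.S36.h75_GaussRing

namespace Fermat.Agent.S36

open Polynomial IntermediateField

/-- `1, J, …, J^(m-1)` are linearly independent over `k⟮J^m⟯` when `J` is transcendental. -/
theorem h91_indep_pow {k E : Type*} [Field k] [Field E] [Algebra k E] (J : E)
    (hJ : Transcendental k J) (m : ℕ) (hm : 0 < m) :
    LinearIndependent k⟮J ^ m⟯ (fun a : Fin m => J ^ (a : ℕ)) := by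
  classical
  rw [Fintype.linearIndependent_iff]
  intro g hg
  have hcl : ∀ a, ∃ r s : k[X], aeval (J ^ m) s ≠ 0 ∧
      (g a : E) * aeval (J ^ m) s = aeval (J ^ m) r := by
    intro a
    obtain ⟨r, s, hrs⟩ := (IntermediateField.mem_adjoin_simple_iff k (g a : E)).mp (g a).2
    by_cases hs : aeval (J ^ m) s = 0
    · refine ⟨0, 1, by simp, ?_⟩
      rw [hrs, hs]; simp
    · exact ⟨r, s, hs, by rw [hrs, div_mul_cancel₀ _ hs]⟩
  choose r s hs hrs using hcl
  have hS : aeval (J ^ m) (∏ a, s a) ≠ 0 := by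
    rw [map_prod]; exact Finset.prod_ne_zero_iff.mpr (fun a _ => hs a)
  let Rr : Fin m → k[X] := fun a => r a * ∏ b ∈ Finset.univ.erase a, s b
  have hR : ∀ a, (g a : E) * aeval (J ^ m) (∏ a, s a) = aeval (J ^ m) (Rr a) := by
    intro a
    have : (∏ a, s a) = s a * ∏ b ∈ Finset.univ.erase a, s b :=
      (Finset.mul_prod_erase _ _ (Finset.mem_univ a)).symm
    rw [this, map_mul, ← mul_assoc, hrs a, map_mul]
  have hT : aeval J (∑ a : Fin m, Polynomial.expand k m (Rr a) * X ^ (a : ℕ)) = 0 := by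
    simp only [map_sum, map_mul, Polynomial.expand_aeval, map_pow, aeval_X]
    calc ∑ a, aeval (J ^ m) (Rr a) * J ^ (a : ℕ)
        = aeval (J ^ m) (∏ a, s a) * ∑ a, g a • J ^ (a : ℕ) := by
          rw [Finset.mul_sum]
          refine Finset.sum_congr rfl fun a _ => ?_
          rw [← hR a, IntermediateField.smul_def, smul_eq_mul]
          ring
      _ = 0 := by rw [hg, mul_zero]
  have hT0 : (∑ a : Fin m, Polynomial.expand k m (Rr a) * X ^ (a : ℕ)) = 0 := by
    by_contra h
    exact hJ ⟨_, h, hT⟩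
  have hcoef : ∀ a0 : Fin m, ∀ i, (Rr a0).coeff i = 0 := by
    intro a0 i
    have h1 := congrArg (fun p => p.coeff (m * i + a0)) hT0
    simp only [Polynomial.finsetSum_coeff, Polynomial.coeff_zero] at h1
    rw [Finset.sum_eq_single a0] at h1
    · rw [Polynomial.coeff_mul_X_pow, Polynomial.coeff_expand_mul' hm] at h1
      exact h1
    · intro a _ hne
      rw [Polynomial.coeff_mul_X_pow']
      split_ifs with hle
      · rw [Polynomial.coeff_expand hm, if_neg]
        intro hdvd
        obtain ⟨t, ht⟩ := hdvd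
        have h2 : m * i + a0 = m * t + a := by omega
        have h3 := congrArg (· % m) h2
        simp only [Nat.mul_add_mod, Nat.mod_eq_of_lt a0.2, Nat.mod_eq_of_lt a.2] at h3
        exact hne (Fin.ext h3.symm)
      · rfl
    · intro h; exact absurd (Finset.mem_univ _) h
  have hRr0 : ∀ a, Rr a = 0 := fun a => Polynomial.ext (fun i => by simp [hcoef a i])
  intro a
  have h1 := hR a
  rw [hRr0 a, map_zero] at h1
  exact Subtype.ext ((mul_eq_zero.mp h1).resolve_right hS)

/-- Tower form: `J^a * β b` (`a < m`) are linearly independent over `k⟮J^m⟯` when `β` is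
linearly independent over `k⟮J⟯`. -/
theorem h91_indep_pow_tower {k E : Type*} [Field k] [Field E] [Algebra k E] (J : E)
    (hJ : Transcendental k J) (m : ℕ) (hm : 0 < m) {ι : Type*} (β : ι → E)
    (hβ : LinearIndependent k⟮J⟯ β) :
    LinearIndependent k⟮J ^ m⟯ (fun p : Fin m × ι => J ^ (p.1 : ℕ) * β p.2) := by
  have hle : k⟮J ^ m⟯ ≤ k⟮J⟯ := by
    rw [IntermediateField.adjoin_simple_le_iff]
    exact pow_mem (IntermediateField.mem_adjoin_simple_self k J) m
  letI : Algebra k⟮J ^ m⟯ k⟮J⟯ := (IntermediateField.inclusion hle).toRingHom.toAlgebra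
  haveI : IsScalarTower k⟮J ^ m⟯ k⟮J⟯ E := IsScalarTower.of_algebraMap_eq (fun x => rfl)
  let Jm : k⟮J⟯ := ⟨J, IntermediateField.mem_adjoin_simple_self k J⟩
  have hb : LinearIndependent k⟮J ^ m⟯ (fun a : Fin m => Jm ^ (a : ℕ)) := by
    have h1 := h91_indep_pow J hJ m hm
    rw [Fintype.linearIndependent_iff] at h1 ⊢
    intro g hg a
    refine h1 g ?_ a
    have h2 : ((∑ i, g i • Jm ^ (i : ℕ) : k⟮J⟯) : E) = 0 := by rw [hg]; rfl
    refine Eq.trans ?_ h2
    rw [AddSubmonoidClass.coe_finsetSum]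
    refine Finset.sum_congr rfl fun a _ => ?_
    rw [IntermediateField.smul_def, smul_eq_mul]
    rfl
  have h2 := linearIndependent_smul hb hβ
  have h3 : (fun p : Fin m × ι => Jm ^ (p.1 : ℕ) • β p.2) =
      fun p : Fin m × ι => J ^ (p.1 : ℕ) * β p.2 := by
    funext p
    rw [IntermediateField.smul_def, smul_eq_mul]
    rfl
  rw [h3] at h2
  exact h2

/-- Sum form of `h91_indep_pow_tower`. -/
theorem h91_hindep {k E : Type*} [Field k] [Field E] [Algebra k E] (J : E)
    (hJ : Transcendental k J) (m : ℕ) (hm : 0 < m) {ι : Type*} [Fintype ι] (β : ι → E)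
    (hβ : LinearIndependent k⟮J⟯ β) (c : Fin m × ι → E) (hc : ∀ p, c p ∈ k⟮J ^ m⟯)
    (h : ∑ p, c p * (J ^ (p.1 : ℕ) * β p.2) = 0) : ∀ p, c p = 0 := by
  have hli := h91_indep_pow_tower J hJ m hm β hβ
  rw [Fintype.linearIndependent_iff] at hli
  intro p
  have := hli (fun p => ⟨c p, hc p⟩) (by
    rw [← h]
    refine Finset.sum_congr rfl fun p _ => ?_
    rw [IntermediateField.smul_def, smul_eq_mul]) p
  exact congrArg Subtype.val this

/-- A ring hom `ρ` on a subring `O` of `F` that restricts to a residue map `res : A →+* k`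
on the constants (`res a = 0` only on the maximal ideal) sends the Gauss ring of `(A, y)`
into `k⟮ρ y⟯`. -/
theorem h91_gauss_red_mem {K F : Type*} [Field K] [Field F] [Algebra K F]
    (A : ValuationSubring K) (y : F) {k E : Type*} [Field k] [Field E] [Algebra k E]
    (res : A →+* k) (hres : ∀ a : A, res a = 0 → a ∈ IsLocalRing.maximalIdeal A)
    (O : Subring F) (ρ : O →+* E)
    (hconst : ∀ a : A, ∃ h : algebraMap K F (a : K) ∈ O,
      ρ ⟨algebraMap K F (a : K), h⟩ = algebraMap k E (res a))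
    (hy : y ∈ O) (hY : Transcendental k (ρ ⟨y, hy⟩))
    (r : F) (hr : r ∈ h75_gaussRing A y) (hrO : r ∈ O) :
    ρ ⟨r, hrO⟩ ∈ k⟮ρ ⟨y, hy⟩⟯ := by
  let φ : A →+* O := ((algebraMap K F).comp A.subtype).codRestrict O (fun a => (hconst a).1)
  have hφ : ρ.comp φ = (algebraMap k E).comp res := by
    ext a
    exact (hconst a).2
  have hcoe : ∀ P : Polynomial A,
      ((Polynomial.eval₂ φ ⟨y, hy⟩ P : O) : F) = aeval y (P.map A.subtype) := by
    intro P
    have h1 := Polynomial.hom_eval₂ P φ O.subtype ⟨y, hy⟩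
    rw [Polynomial.aeval_def, Polynomial.eval₂_map]
    exact h1
  have hρ : ∀ P : Polynomial A,
      ρ (Polynomial.eval₂ φ ⟨y, hy⟩ P) = aeval (ρ ⟨y, hy⟩) (P.map res) := by
    intro P
    rw [Polynomial.hom_eval₂, hφ, Polynomial.aeval_def, Polynomial.eval₂_map]
  obtain ⟨P, S, hS, hPS⟩ := hr
  have hS' : S.map res ≠ 0 := by
    intro h
    apply hS
    ext i
    rw [Polynomial.coeff_map, Polynomial.coeff_zero, IsLocalRing.residue_eq_zero_iff]
    apply hres
    rw [← Polynomial.coeff_map, h, Polynomial.coeff_zero]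
  have h1 : (⟨r, hrO⟩ : O) * Polynomial.eval₂ φ ⟨y, hy⟩ S = Polynomial.eval₂ φ ⟨y, hy⟩ P := by
    apply Subtype.ext
    rw [Subring.coe_mul, hcoe, hcoe]
    exact hPS
  have h2 := congrArg ρ h1
  rw [map_mul, hρ, hρ] at h2
  have hS0 : aeval (ρ ⟨y, hy⟩) (S.map res) ≠ 0 :=
    fun h => hS' (transcendental_iff.mp hY _ h)
  rw [IntermediateField.mem_adjoin_simple_iff]
  exact ⟨P.map res, S.map res, by rw [← h2, mul_div_cancel_right₀ _ hS0]⟩

/-- **(RES-FAM), packaged `hindep`.**  `ρ : O →+* E` a reduction map extending the residue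
map `res` of the constants, with `ρ y = J ^ m` (`J` transcendental over `k`), `β` a
`k⟮J⟯`-independent family of size `ψ`, and `b : Fin (m * ψ) → O` lifts of the products
`J ^ a * β c`.  Then the residues of `b` are independent over the residues of the Gauss ring
of `(A, y)`: this is the hypothesis `hindep` of `h99_hb_of_red` for `R := h75_gaussRing A y`,
with `f = m * ψ`. -/
theorem h91_hindep_gauss {K F : Type*} [Field K] [Field F] [Algebra K F]
    (A : ValuationSubring K) (y : F) {k E : Type*} [Field k] [Field E] [Algebra k E]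
    (res : A →+* k) (hres : ∀ a : A, res a = 0 → a ∈ IsLocalRing.maximalIdeal A)
    (O : Subring F) (ρ : O →+* E)
    (hconst : ∀ a : A, ∃ h : algebraMap K F (a : K) ∈ O,
      ρ ⟨algebraMap K F (a : K), h⟩ = algebraMap k E (res a))
    (hy : y ∈ O) (J : E) (hJ : Transcendental k J) (m : ℕ) (hm : 0 < m)
    (hyJ : ρ ⟨y, hy⟩ = J ^ m) {ψ : ℕ} (β : Fin ψ → E) (hβ : LinearIndependent k⟮J⟯ β)
    (b : Fin (m * ψ) → O)
    (hb : ∀ j, ρ (b j) = J ^ ((finProdFinEquiv.symm j).1 : ℕ) * β (finProdFinEquiv.symm j).2)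
    (hRO : ∀ r : h75_gaussRing A y, (r : F) ∈ O)
    (a : Fin (m * ψ) → h75_gaussRing A y)
    (h : ∑ j, ρ ⟨(a j : F), hRO (a j)⟩ * ρ (b j) = 0) :
    ∀ j, ρ ⟨(a j : F), hRO (a j)⟩ = 0 := by
  have hY : Transcendental k (ρ ⟨y, hy⟩) := by rw [hyJ]; exact hJ.pow hm
  have hmem : ∀ j, ρ ⟨(a j : F), hRO (a j)⟩ ∈ k⟮J ^ m⟯ := by
    intro j
    have := h91_gauss_red_mem A y res hres O ρ hconst hy hY (a j : F) (a j).2 (hRO (a j))
    rw [hyJ] at this
    exact this
  have key := h91_hindep J hJ m hm β hβ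
    (fun p => ρ ⟨(a (finProdFinEquiv p) : F), hRO (a (finProdFinEquiv p))⟩)
    (fun p => hmem (finProdFinEquiv p)) (by
      rw [← h]
      refine Fintype.sum_equiv finProdFinEquiv _ _ (fun p => ?_)
      rw [hb (finProdFinEquiv p), Equiv.symm_apply_apply])
  intro j
  have := key (finProdFinEquiv.symm j)
  rw [Equiv.apply_symm_apply] at this
  exact this

end Fermat.Agent.S36
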