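/-
(RES-FAM), modular wrapper.  The residue-degree family of one vertical component, in the
exact shape of the hypothesis `hb` of `h99_integral_iff` for the base ring
`R := h75_gaussRing A y`.

Input: a valuation `w` on `F`, a subring `O` of its valuation ring with a reduction map
`ρ : O →+* k((q))` (killing positive valuation, inverting elements of nonzero reduction,
restricting to a residue map on the constants), such that
`ρ y = j̄ ^ m`, and lifts `u, t ∈ O` of `j̄` and of `j̄(q^L)`.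
Output: the `m * [SL₂(ℤ) : Γ₀(L)]` elements `u^a * t^c` have residues independent over the
residues of the Gauss ring.  (`m = 1` on the components `C20, C11`; `m = q^2` on `C02`.)
-/
import Mathlib
import Fermat.Agent.S36.h91_ResFam
import Fermat.Agent.S36.h99_FundEq
import Fermat.Agent.S18.h84_IgusaLinInd
import Fermat.Agent.S18.h59_HauptFull

namespace Fermat.Agent.S36

open Polynomial IntermediateField ModularCurve CongruenceSubgroup
open scoped MatrixGroups

/-- Polynomials over `A` evaluated at `y` lie in `O`, and `ρ` reduces them coefficientwise. -/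
theorem h91_gauss_poly {K F : Type*} [Field K] [Field F] [Algebra K F]
    (A : ValuationSubring K) (y : F) {k E : Type*} [Field k] [Field E] [Algebra k E]
    (res : A →+* k) (O : Subring F) (ρ : O →+* E)
    (hconst : ∀ a : A, ∃ h : algebraMap K F (a : K) ∈ O,
      ρ ⟨algebraMap K F (a : K), h⟩ = algebraMap k E (res a))
    (hy : y ∈ O) (P : Polynomial A) :
    ∃ g : O, (g : F) = aeval y (P.map A.subtype) ∧ ρ g = aeval (ρ ⟨y, hy⟩) (P.map res) := by
  let φ : A →+* O := ((algebraMap K F).comp A.subtype).codRestrict O (fun a => (hconst a).1)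
  have hφ : ρ.comp φ = (algebraMap k E).comp res := by
    ext a
    exact (hconst a).2
  refine ⟨Polynomial.eval₂ φ ⟨y, hy⟩ P, ?_, ?_⟩
  · have h1 := Polynomial.hom_eval₂ P φ O.subtype ⟨y, hy⟩
    rw [Polynomial.aeval_def, Polynomial.eval₂_map]
    exact h1
  · rw [Polynomial.hom_eval₂, hφ, Polynomial.aeval_def, Polynomial.eval₂_map]

/-- The Gauss ring of `(A, y)` lies in `O` as soon as `O` contains the inverses of its
elements of nonzero reduction. -/
theorem h91_gauss_mem {K F : Type*} [Field K] [Field F] [Algebra K F]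
    (A : ValuationSubring K) (y : F) {k E : Type*} [Field k] [Field E] [Algebra k E]
    (res : A →+* k) (hres : ∀ a : A, res a = 0 → a ∈ IsLocalRing.maximalIdeal A)
    (O : Subring F) (ρ : O →+* E) (hinv : ∀ f : O, ρ f ≠ 0 → (f : F)⁻¹ ∈ O)
    (hconst : ∀ a : A, ∃ h : algebraMap K F (a : K) ∈ O,
      ρ ⟨algebraMap K F (a : K), h⟩ = algebraMap k E (res a))
    (hy : y ∈ O) (hY : Transcendental k (ρ ⟨y, hy⟩))
    (r : F) (hr : r ∈ h75_gaussRing A y) : r ∈ O := by
  obtain ⟨P, S, hS, hPS⟩ := hr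
  have hS' : S.map res ≠ 0 := by
    intro h
    apply hS
    ext i
    rw [Polynomial.coeff_map, Polynomial.coeff_zero, IsLocalRing.residue_eq_zero_iff]
    apply hres
    rw [← Polynomial.coeff_map, h, Polynomial.coeff_zero]
  obtain ⟨gP, hgP, -⟩ := h91_gauss_poly A y res O ρ hconst hy P
  obtain ⟨gS, hgS, hρS⟩ := h91_gauss_poly A y res O ρ hconst hy S
  have hρS0 : ρ gS ≠ 0 := by
    rw [hρS]
    exact fun h => hS' (transcendental_iff.mp hY _ h)
  have hgS0 : (gS : F) ≠ 0 := by
    intro h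
    apply hρS0
    have : gS = 0 := Subtype.ext h
    rw [this, map_zero]
  have hr' : r = (gP : F) * (gS : F)⁻¹ := by
    rw [hgP, ← hPS, ← hgS, mul_inv_cancel_right₀ hgS0]
  rw [hr']
  exact O.mul_mem gP.2 (hinv gS hρS0)

/-- **(RES-FAM), one component.**  The hypothesis `hb` of `h99_integral_iff` for the family
`u ^ a * t ^ c`, `a < m`, `c < [SL₂(ℤ) : Γ₀(L)]`, over the base ring `h75_gaussRing A y`. -/
theorem h91_hb_mod {K F : Type*} [Field K] [Field F] [Algebra K F]
    (A : ValuationSubring K) (y : F) {k : Type} [Field k]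
    (res : A →+* k) (hres : ∀ a : A, res a = 0 → a ∈ IsLocalRing.maximalIdeal A)
    (w : F → ℤ) (O : Subring F) (hO : ∀ f : F, f ∈ O → h99_Ge w 0 f)
    (ρ : O →+* LaurentSeries k)
    (hker : ∀ f : O, (f : F) ≠ 0 → 0 < w f → ρ f = 0)
    (hinv : ∀ f : O, ρ f ≠ 0 → (f : F)⁻¹ ∈ O)
    (hconst : ∀ a : A, ∃ h : algebraMap K F (a : K) ∈ O,
      ρ ⟨algebraMap K F (a : K), h⟩ = algebraMap k (LaurentSeries k) (res a))
    (hy : y ∈ O) (L : ℕ) [NeZero L] (ℓ : ℕ) [Fact ℓ.Prime] (hℓL : ¬ ℓ ∣ L) [CharP k ℓ]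
    (m : ℕ) (hm : 0 < m) (hyJ : ρ ⟨y, hy⟩ = jqModC k ^ m)
    (u t : O) (hu : ρ u = jqModC k) (ht : ρ t = qExpand k L (jqModC k))
    (r : Fin (m * Nat.card (SL(2, ℤ) ⧸ Gamma0 L)) → h75_gaussRing A y)
    (hr : ∃ j, IsUnit (r j)) :
    ∑ j, r j • ((u ^ ((finProdFinEquiv.symm j).1 : ℕ) *
        t ^ ((finProdFinEquiv.symm j).2 : ℕ) : O) : F) ≠ 0 ∧
      w (∑ j, r j • ((u ^ ((finProdFinEquiv.symm j).1 : ℕ) *
        t ^ ((finProdFinEquiv.symm j).2 : ℕ) : O) : F)) = 0 := by
  have hJ : Transcendental k (jqModC k) := Fermat.Agent.S18.h59_jqModC_transcendental k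
  have hY : Transcendental k (ρ ⟨y, hy⟩) := by rw [hyJ]; exact hJ.pow hm
  have hRO : ∀ r : h75_gaussRing A y, (r : F) ∈ O := fun r =>
    h91_gauss_mem A y res hres O ρ hinv hconst hy hY r r.2
  have hβ := Fermat.Agent.S18.h84_igusa_linearIndependent L ℓ hℓL k
  refine h99_hb_of_red (R := h75_gaussRing A y) O hO ρ hker hRO
    (fun j => u ^ ((finProdFinEquiv.symm j).1 : ℕ) * t ^ ((finProdFinEquiv.symm j).2 : ℕ))
    ?_ r hr
  intro a h
  exact h91_hindep_gauss A y res hres O ρ hconst hy (jqModC k) hJ m hm hyJ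
    (fun c : Fin (Nat.card (SL(2, ℤ) ⧸ Gamma0 L)) => qExpand k L (jqModC k) ^ (c : ℕ)) hβ
    (fun j => u ^ ((finProdFinEquiv.symm j).1 : ℕ) * t ^ ((finProdFinEquiv.symm j).2 : ℕ))
    (fun j => by rw [map_mul, map_pow, map_pow, hu, ht]) hRO a h

end Fermat.Agent.S36
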