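/-
(RES-FAM-INST).

Part A (`h91_hRb_E`): the hypotheses `hR` and `hb` of `h99_latO_iff_h75` for ONE Gauss
valuation `h98_gv E (h69_F0 N H) π hsc` of the carrier `F0 = h69_F0 N H`
(`H = A.inertiaSubgroupIn ℚ`, base `A0 = h69_A0 A`, chart `h69_jF0 N H`), from the values of
the reduction of `E` on four elements: the chart `j` (`= j̄ ^ m`), `u` (`= j̄`) and
`t` (`= j̄(q^L)`), and the constants.
-/
import Mathlib
import Fermat.Agent.S36.h91_ResFamMod
import Fermat.Agent.S36.h98_GaussFun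
import Fermat.Agent.S36.h69_DegQ2
import Fermat.Agent.S36.h98_W2
import Fermat.Agent.S36.h36_W2

set_option autoImplicit false
set_option synthInstance.maxHeartbeats 400000
set_option linter.unusedSectionVars false

noncomputable section

namespace Fermat.Agent.S36

open Polynomial IntermediateField ModularCurve CongruenceSubgroup AlgebraicCurve
open scoped MatrixGroups
open Fermat.Agent.S34 Fermat.Agent.S18 Fermat.Agent.S19 Fermat.Agent.S24 Fermat.Agent.S37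
  Fermat.Agent.S35

local notation "Qb" => AlgebraicClosure ℚ

/-- The residue map of `A` restricted to `A0 = A ∩ K0`. -/
def h91_res0 (A : ValuationSubring Qb) : h69_A0 A →+* IsLocalRing.ResidueField A :=
  (IsLocalRing.residue A).comp
    (((algebraMap (h69_K0 (A.inertiaSubgroupIn ℚ)) Qb).comp (h69_A0 A).subtype).codRestrict
      A.toSubring (fun a => (h69_mem_A0 A a).mp a.2))

theorem h91_res0_apply (A : ValuationSubring Qb) (a : h69_A0 A) :
    h91_res0 A a = IsLocalRing.residue A ⟨((a : h69_K0 (A.inertiaSubgroupIn ℚ)) : Qb),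
      (h69_mem_A0 A a).mp a.2⟩ := rfl

theorem h91_res0_ker (A : ValuationSubring Qb) (a : h69_A0 A) (h : h91_res0 A a = 0) :
    a ∈ IsLocalRing.maximalIdeal (h69_A0 A) := by
  rw [IsLocalRing.mem_maximalIdeal, mem_nonunits_iff]
  intro hu
  have h1 : IsUnit (h91_res0 A a) := hu.map (h91_res0 A)
  rw [h] at h1
  exact not_isUnit_zero h1

/-- **(RES-FAM-INST), part A.**  For one embedding `E` of the function field of level `N` in
`ℚ̄((t))`, constant on `ℚ̄`, with Gauss valuation `h98_gv E F0 π hsc` on `F0 = h69_F0 N H`: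
if the reduction of `E` sends the chart `j` to `j̄ ^ m`, `u` to `j̄` and `t` to `j̄(q^L)`, then
the Gauss ring of `(A0, j)` has nonnegative valuation and the `m ψ(L)` elements `u^a t^b` are
a residue-degree family over it. -/
theorem h91_hRb_E (N : ℕ) (A : ValuationSubring Qb)
    (E : modularFunctionFieldBar N →+* LaurentSeries Qb)
    (hEc : ∀ c : Qb, E (algebraMap Qb (modularFunctionFieldBar N) c) =
      algebraMap Qb (LaurentSeries Qb) c)
    (π : Qb) (hπ0 : π ≠ 0) (hπA : π ∈ A) (hπn : π⁻¹ ∉ A)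
    (hsc : ∀ f : h69_F0 N (A.inertiaSubgroupIn ℚ), f ≠ 0 →
      ∃ n : ℤ, h98_GV A π (E (f : modularFunctionFieldBar N)) n)
    (L : ℕ) [NeZero L] (ℓ : ℕ) [Fact ℓ.Prime] (hℓL : ¬ ℓ ∣ L)
    [CharP (IsLocalRing.ResidueField A) ℓ] (m : ℕ) (hm : 0 < m)
    (hEy : ∃ h : E (h59_jbar N) ∈ h60_Os A,
      h60_rs A ⟨_, h⟩ = jqModC (IsLocalRing.ResidueField A) ^ m)
    (u t : h69_F0 N (A.inertiaSubgroupIn ℚ))
    (hEu : ∃ h : E (u : modularFunctionFieldBar N) ∈ h60_Os A,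
      h60_rs A ⟨_, h⟩ = jqModC (IsLocalRing.ResidueField A))
    (hEt : ∃ h : E (t : modularFunctionFieldBar N) ∈ h60_Os A,
      h60_rs A ⟨_, h⟩ = qExpand (IsLocalRing.ResidueField A) L
        (jqModC (IsLocalRing.ResidueField A))) :
    (∀ r : h69_F0 N (A.inertiaSubgroupIn ℚ),
      r ∈ h75_gaussRing (h69_A0 A) (h69_jF0 N (A.inertiaSubgroupIn ℚ)) → r ≠ 0 →
        0 ≤ h98_gv E (h69_F0 N (A.inertiaSubgroupIn ℚ)) π hsc r) ∧
    (∀ r : Fin (m * Nat.card (SL(2, ℤ) ⧸ Gamma0 L)) →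
        ↥(h75_gaussRing (h69_A0 A) (h69_jF0 N (A.inertiaSubgroupIn ℚ))),
      (∃ j, IsUnit (r j)) →
        ∑ j, r j • (u ^ ((finProdFinEquiv.symm j).1 : ℕ) * t ^ ((finProdFinEquiv.symm j).2 : ℕ))
          ≠ 0 ∧
        h98_gv E (h69_F0 N (A.inertiaSubgroupIn ℚ)) π hsc
          (∑ j, r j • (u ^ ((finProdFinEquiv.symm j).1 : ℕ) *
            t ^ ((finProdFinEquiv.symm j).2 : ℕ))) = 0) := by
  classical
  have hOge : ∀ f : h69_F0 N (A.inertiaSubgroupIn ℚ),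
      f ∈ h98_gvRing A E (h69_F0 N (A.inertiaSubgroupIn ℚ)) →
        h99_Ge (h98_gv E (h69_F0 N (A.inertiaSubgroupIn ℚ)) π hsc) 0 f :=
    fun f hf => h98_gvRing_ge hsc hπ0 hπA hπn f hf
  have hker : ∀ f : h98_gvRing A E (h69_F0 N (A.inertiaSubgroupIn ℚ)),
      (f : h69_F0 N (A.inertiaSubgroupIn ℚ)) ≠ 0 →
      0 < h98_gv E (h69_F0 N (A.inertiaSubgroupIn ℚ)) π hsc
        (f : h69_F0 N (A.inertiaSubgroupIn ℚ)) →
      h98_gvRed A E (h69_F0 N (A.inertiaSubgroupIn ℚ)) f = 0 :=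
    fun f hf0 hf => h98_gvRed_ker hsc hπ0 hπA hπn f hf0 hf
  have hinv : ∀ f : h98_gvRing A E (h69_F0 N (A.inertiaSubgroupIn ℚ)),
      h98_gvRed A E (h69_F0 N (A.inertiaSubgroupIn ℚ)) f ≠ 0 →
      ((f : h69_F0 N (A.inertiaSubgroupIn ℚ)))⁻¹ ∈
        h98_gvRing A E (h69_F0 N (A.inertiaSubgroupIn ℚ)) := by
    intro f hf
    have h1 : E ((f : h69_F0 N (A.inertiaSubgroupIn ℚ)) : modularFunctionFieldBar N) ∈
        h60_Os A := h98_mem_gvRing.mp f.2
    have h2 := h60_inv_mem A ⟨_, h1⟩ hf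
    have h3 : E ((((f : h69_F0 N (A.inertiaSubgroupIn ℚ)))⁻¹ :
        h69_F0 N (A.inertiaSubgroupIn ℚ)) : modularFunctionFieldBar N) =
        (E ((f : h69_F0 N (A.inertiaSubgroupIn ℚ)) : modularFunctionFieldBar N))⁻¹ := by
      rw [← map_inv₀]
      rfl
    apply h98_mem_gvRing.mpr
    rw [h3]
    exact h2
  have hconst : ∀ a : h69_A0 A,
      ∃ h : algebraMap (h69_K0 (A.inertiaSubgroupIn ℚ)) (h69_F0 N (A.inertiaSubgroupIn ℚ))
          (a : h69_K0 (A.inertiaSubgroupIn ℚ)) ∈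
            h98_gvRing A E (h69_F0 N (A.inertiaSubgroupIn ℚ)),
        h98_gvRed A E (h69_F0 N (A.inertiaSubgroupIn ℚ)) ⟨_, h⟩ =
          algebraMap (IsLocalRing.ResidueField A)
            (LaurentSeries (IsLocalRing.ResidueField A)) (h91_res0 A a) := by
    intro a
    have haA : ((a : h69_K0 (A.inertiaSubgroupIn ℚ)) : Qb) ∈ A := (h69_mem_A0 A a).mp a.2
    have h1 : E ((algebraMap (h69_K0 (A.inertiaSubgroupIn ℚ))
        (h69_F0 N (A.inertiaSubgroupIn ℚ))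
        (a : h69_K0 (A.inertiaSubgroupIn ℚ)) : h69_F0 N (A.inertiaSubgroupIn ℚ)) :
          modularFunctionFieldBar N) =
        algebraMap Qb (LaurentSeries Qb) ((a : h69_K0 (A.inertiaSubgroupIn ℚ)) : Qb) := by
      rw [h69_inst_comm, hEc]
    obtain ⟨h2, h3⟩ := h98_rs_congr (h60_const_mem A haA) h1.symm
    refine ⟨h98_mem_gvRing.mpr h2, ?_⟩
    rw [h98_gvRed_apply]
    rw [h3, h60_rs_const A haA]
    rfl
  obtain ⟨hy1, hy2⟩ := hEy
  obtain ⟨hu1, hu2⟩ := hEu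
  obtain ⟨ht1, ht2⟩ := hEt
  have hy : h69_jF0 N (A.inertiaSubgroupIn ℚ) ∈
      h98_gvRing A E (h69_F0 N (A.inertiaSubgroupIn ℚ)) := h98_mem_gvRing.mpr hy1
  have hyJ : h98_gvRed A E (h69_F0 N (A.inertiaSubgroupIn ℚ))
      ⟨h69_jF0 N (A.inertiaSubgroupIn ℚ), hy⟩ =
      jqModC (IsLocalRing.ResidueField A) ^ m := hy2
  have hJ : Transcendental (IsLocalRing.ResidueField A) (jqModC (IsLocalRing.ResidueField A)) :=
    Fermat.Agent.S18.h59_jqModC_transcendental _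
  have hY : Transcendental (IsLocalRing.ResidueField A)
      (h98_gvRed A E (h69_F0 N (A.inertiaSubgroupIn ℚ))
        ⟨h69_jF0 N (A.inertiaSubgroupIn ℚ), hy⟩) := by
    rw [hyJ]
    exact hJ.pow hm
  refine ⟨?_, ?_⟩
  · intro r hr hr0
    have h1 : r ∈ h98_gvRing A E (h69_F0 N (A.inertiaSubgroupIn ℚ)) :=
      h91_gauss_mem (h69_A0 A) (h69_jF0 N (A.inertiaSubgroupIn ℚ))
        (h91_res0 A) (h91_res0_ker A) _ _ hinv hconst hy hY r hr
    rcases hOge r h1 with h | h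
    · exact absurd h hr0
    · exact h
  · intro r hr
    exact h91_hb_mod (h69_A0 A) (h69_jF0 N (A.inertiaSubgroupIn ℚ)) (h91_res0 A)
      (h91_res0_ker A) (h98_gv E (h69_F0 N (A.inertiaSubgroupIn ℚ)) π hsc) _ hOge _ hker hinv
      hconst hy L ℓ hℓL m hm hyJ
      ⟨u, h98_mem_gvRing.mpr hu1⟩ ⟨t, h98_mem_gvRing.mpr ht1⟩ hu2 ht2 r hr

/-! ### Part B: the values on the three components of level `M q²` -/

section Values

variable (A : ValuationSubring Qb)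

/-- `j` is in the Gauss ring and reduces to `j̄`. -/
theorem h91_J_val :
    ∃ h : coeffEmb Qb jq ∈ h60_Os A,
      h60_rs A ⟨_, h⟩ = jqModC (IsLocalRing.ResidueField A) := by
  obtain ⟨h1, h2⟩ := h98_rs_congr (h60_JOs A).2 (h60_coe_JOs A)
  exact ⟨h1, h2.trans (h60_rs_JOs A)⟩

/-- `j(t^L)` is in the Gauss ring and reduces to `j̄(t^L)`. -/
theorem h91_JL_val (L : ℕ) [NeZero L] :
    ∃ h : qExpand Qb L (coeffEmb Qb jq) ∈ h60_Os A,
      h60_rs A ⟨_, h⟩ = qExpand (IsLocalRing.ResidueField A) L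
        (jqModC (IsLocalRing.ResidueField A)) := by
  obtain ⟨h1, h2⟩ := h91_J_val A
  refine ⟨h60_qExpand_mem A L h1, ?_⟩
  rw [h60_rs_qExpand A L ⟨_, h1⟩, h2]

/-- `j(t^(q²))` is in the Gauss ring and reduces to `j̄ ^ (q²)`. -/
theorem h91_Jqq_val (q : ℕ) [NeZero q] [Fact q.Prime] [CharP (IsLocalRing.ResidueField A) q] :
    ∃ h : qExpand Qb q (qExpand Qb q (coeffEmb Qb jq)) ∈ h60_Os A,
      h60_rs A ⟨_, h⟩ = jqModC (IsLocalRing.ResidueField A) ^ (q * q) := by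
  obtain ⟨h1, h2⟩ := h91_JL_val A q
  refine ⟨h60_qExpand_mem A q h1, ?_⟩
  rw [h60_rs_qExpand A q ⟨_, h1⟩, h2, ← h60_jq_pow, map_pow, ← h60_jq_pow, ← pow_mul]

end Values

section Elements

variable (N : ℕ) (H : Subgroup (Qb ≃ₐ[ℚ] Qb))

/-- `j(t^L)` as an element of `F0` at a level `N` divisible by `L`. -/
def h91_tF0 (L : ℕ) [NeZero L] (hL : L ∣ N) : h69_F0 N H :=
  ⟨⟨qExpand Qb L (coeffEmb Qb jq), h59_gen_mem_bar hL⟩,
    fun σ _ => h2_gal_fix_of_rat N _ (qExpand ℚ L jq) (coeffMap_qExpand _ _ _).symm σ⟩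

theorem h91_coe_tF0 (L : ℕ) [NeZero L] (hL : L ∣ N) :
    (((h91_tF0 N H L hL : h69_F0 N H) : modularFunctionFieldBar N) : LaurentSeries Qb) =
      qExpand Qb L (coeffEmb Qb jq) := rfl

end Elements

/-- The pair `(hR, hb)` of `h99_latO_iff_h75` for ONE valuation `v` of `F0 = h69_F0 N H`,
base `A0 = h69_A0 A`, chart `h69_jF0 N H`, and the family `u ^ a * t ^ b`, `a < m`,
`b < [SL₂(ℤ) : Γ₀(L)]`. -/
def h91_RB (N : ℕ) (A : ValuationSubring Qb)
    (v : h69_F0 N (A.inertiaSubgroupIn ℚ) → ℤ) (L m : ℕ)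
    (u t : h69_F0 N (A.inertiaSubgroupIn ℚ)) : Prop :=
  (∀ r : h69_F0 N (A.inertiaSubgroupIn ℚ),
    r ∈ h75_gaussRing (h69_A0 A) (h69_jF0 N (A.inertiaSubgroupIn ℚ)) → r ≠ 0 → 0 ≤ v r) ∧
  (∀ r : Fin (m * Nat.card (SL(2, ℤ) ⧸ Gamma0 L)) →
      ↥(h75_gaussRing (h69_A0 A) (h69_jF0 N (A.inertiaSubgroupIn ℚ))),
    (∃ j, IsUnit (r j)) →
      ∑ j, r j • (u ^ ((finProdFinEquiv.symm j).1 : ℕ) * t ^ ((finProdFinEquiv.symm j).2 : ℕ))
        ≠ 0 ∧
      v (∑ j, r j • (u ^ ((finProdFinEquiv.symm j).1 : ℕ) *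
          t ^ ((finProdFinEquiv.symm j).2 : ℕ))) = 0)

/-- transport of a value of the reduction along an equality of series. -/
theorem h91_val_congr {A : ValuationSubring Qb} {s t : LaurentSeries Qb}
    {x : LaurentSeries (IsLocalRing.ResidueField A)}
    (h : ∃ hs : s ∈ h60_Os A, h60_rs A ⟨s, hs⟩ = x) (e : t = s) :
    ∃ ht : t ∈ h60_Os A, h60_rs A ⟨t, ht⟩ = x := by
  subst e
  exact h

/-- **C20-type component**: the standard expansion at any level `N`, `L ∣ N`. -/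
theorem h91_RB_std (N : ℕ) (A : ValuationSubring Qb)
    (π : Qb) (hπ0 : π ≠ 0) (hπA : π ∈ A) (hπn : π⁻¹ ∉ A)
    (hsc : ∀ f : h69_F0 N (A.inertiaSubgroupIn ℚ), f ≠ 0 →
      ∃ n : ℤ, h98_GV A π (h98_coe N (f : modularFunctionFieldBar N)) n)
    (L : ℕ) [NeZero L] (hL : L ∣ N) (ℓ : ℕ) [Fact ℓ.Prime] (hℓL : ¬ ℓ ∣ L)
    [CharP (IsLocalRing.ResidueField A) ℓ] :
    h91_RB N A (h98_gv (h98_coe N) (h69_F0 N (A.inertiaSubgroupIn ℚ)) π hsc) L 1
      (h69_jF0 N (A.inertiaSubgroupIn ℚ)) (h91_tF0 N (A.inertiaSubgroupIn ℚ) L hL) :=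
  h91_hRb_E N A (h98_coe N) (fun _ => rfl) π hπ0 hπA hπn hsc L ℓ hℓL 1 one_pos
    (by
      obtain ⟨h1, h2⟩ := h91_J_val A
      exact ⟨h1, by rw [pow_one]; exact h2⟩)
    _ _ (h91_J_val A) (h91_JL_val A L)

section Comp

variable (M q : ℕ) [NeZero M] [NeZero q] [Fact q.Prime] (hqM : ¬ q ∣ M)
  (A : ValuationSubring Qb)

theorem h91_dvd_q2 : M ∣ M * q * q := ⟨q * q, by ring⟩

/-- `j(t^M)` as an element of `F0` at level `M q²`. -/
def h91_tM : h69_F0 (M * q * q) (A.inertiaSubgroupIn ℚ) :=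
  h91_tF0 (M * q * q) (A.inertiaSubgroupIn ℚ) M (h91_dvd_q2 M q)

/-- `W j` as an element of `F0` at level `M q²`. -/
def h91_Wj : h69_F0 (M * q * q) (A.inertiaSubgroupIn ℚ) :=
  ⟨h36_W M q hqM (h69_jF0 (M * q * q) (A.inertiaSubgroupIn ℚ) :
      modularFunctionFieldBar (M * q * q)),
    h98_fix2W M q hqM A (h69_jF0 (M * q * q) (A.inertiaSubgroupIn ℚ))⟩

/-- `W (j(t^M))` as an element of `F0` at level `M q²`. -/
def h91_WtM : h69_F0 (M * q * q) (A.inertiaSubgroupIn ℚ) :=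
  ⟨h36_W M q hqM (h91_tM M q A : modularFunctionFieldBar (M * q * q)),
    h98_fix2W M q hqM A (h91_tM M q A)⟩

/-- `j` at level `M q²` comes from level `M q`. -/
theorem h91_jbar_i0 : h59_jbar (M * q * q) = h36_i0 M q (h59_jbar (M * q)) :=
  Subtype.ext (h36_coe_i0 M q (h59_jbar (M * q))).symm

/-- `j(t^M)` at level `M q²` comes from level `M q`. -/
theorem h91_tM_i0 :
    ((h91_tM M q A : h69_F0 (M * q * q) (A.inertiaSubgroupIn ℚ)) :
        modularFunctionFieldBar (M * q * q)) =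
      h36_i0 M q ⟨qExpand Qb M (coeffEmb Qb jq), h59_gen_mem_bar ⟨q, rfl⟩⟩ := by
  apply Subtype.ext
  rw [h36_coe_i0]
  rfl

/-- `j` at level `M q` comes from level `M`. -/
theorem h91_jbar_alpha : h59_jbar (M * q) = heckeAlphaBar Qb M q (h59_jbar M) :=
  Subtype.ext (coe_heckeAlphaBar M q (h59_jbar M)).symm

/-- The expansion of `W j` is `j(t^(q²))`. -/
theorem h91_coe_W_jbar :
    ((h36_W M q hqM (h59_jbar (M * q * q)) : modularFunctionFieldBar (M * q * q)) :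
      LaurentSeries Qb) = qExpand Qb q (qExpand Qb q (coeffEmb Qb jq)) := by
  rw [h91_jbar_i0, h36_W_i0, h36_coe_i2, h91_jbar_alpha, h60_w_alpha]
  rfl

/-- **C11 component**: the middle expansion. -/
theorem h91_RB_mid (ζ : Qb) (hζ : ζ ^ q = 1) (hζ1 : ζ ≠ 1)
    (π : Qb) (hπ0 : π ≠ 0) (hπA : π ∈ A) (hπn : π⁻¹ ∉ A)
    (hsc : ∀ f : h69_F0 (M * q * q) (A.inertiaSubgroupIn ℚ), f ≠ 0 →
      ∃ n : ℤ, h98_GV A π
        (h36_mid M q hqM ζ hζ hζ1 (f : modularFunctionFieldBar (M * q * q))) n)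
    (ℓ : ℕ) [Fact ℓ.Prime] (hℓM : ¬ ℓ ∣ M) [CharP (IsLocalRing.ResidueField A) ℓ] :
    h91_RB (M * q * q) A
      (h98_gv (h36_mid M q hqM ζ hζ hζ1) (h69_F0 (M * q * q) (A.inertiaSubgroupIn ℚ)) π hsc)
      M 1 (h69_jF0 (M * q * q) (A.inertiaSubgroupIn ℚ)) (h91_tM M q A) := by
  have e1 : h36_mid M q hqM ζ hζ hζ1 (h59_jbar (M * q * q)) = coeffEmb Qb jq := by
    rw [h91_jbar_i0, h36_mid_i0]
    rfl
  have e2 : h36_mid M q hqM ζ hζ hζ1
      ((h91_tM M q A : h69_F0 (M * q * q) (A.inertiaSubgroupIn ℚ)) :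
        modularFunctionFieldBar (M * q * q)) = qExpand Qb M (coeffEmb Qb jq) := by
    rw [h91_tM_i0, h36_mid_i0]
  refine h91_hRb_E (M * q * q) A (h36_mid M q hqM ζ hζ hζ1)
    (h36_mid_algebraMap M q hqM ζ hζ hζ1) π hπ0 hπA hπn hsc M ℓ hℓM 1 one_pos
    ?_ _ _ (h91_val_congr (h91_J_val A) e1) (h91_val_congr (h91_JL_val A M) e2)
  obtain ⟨h1, h2⟩ := h91_val_congr (h91_J_val A) e1
  exact ⟨h1, by rw [pow_one]; exact h2⟩

/-- **C02 component**: the standard expansion after the swap `W`. -/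
theorem h91_RB_W (π : Qb) (hπ0 : π ≠ 0) (hπA : π ∈ A) (hπn : π⁻¹ ∉ A)
    (hsc : ∀ f : h69_F0 (M * q * q) (A.inertiaSubgroupIn ℚ), f ≠ 0 →
      ∃ n : ℤ, h98_GV A π
        (((h98_coe (M * q * q)).comp (h36_W M q hqM))
          (f : modularFunctionFieldBar (M * q * q))) n)
    [CharP (IsLocalRing.ResidueField A) q] :
    h91_RB (M * q * q) A
      (h98_gv ((h98_coe (M * q * q)).comp (h36_W M q hqM))
        (h69_F0 (M * q * q) (A.inertiaSubgroupIn ℚ)) π hsc)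
      M (q * q) (h91_Wj M q hqM A) (h91_WtM M q hqM A) := by
  have hq : q.Prime := Fact.out
  have e1 : ((h98_coe (M * q * q)).comp (h36_W M q hqM)) (h59_jbar (M * q * q)) =
      qExpand Qb q (qExpand Qb q (coeffEmb Qb jq)) := h91_coe_W_jbar M q hqM
  have e2 : ((h98_coe (M * q * q)).comp (h36_W M q hqM))
      ((h91_Wj M q hqM A : h69_F0 (M * q * q) (A.inertiaSubgroupIn ℚ)) :
        modularFunctionFieldBar (M * q * q)) = coeffEmb Qb jq := by
    show ((h36_W M q hqM (h36_W M q hqM (h59_jbar (M * q * q))) :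
      modularFunctionFieldBar (M * q * q)) : LaurentSeries Qb) = _
    rw [h36_W_W]
    rfl
  have e3 : ((h98_coe (M * q * q)).comp (h36_W M q hqM))
      ((h91_WtM M q hqM A : h69_F0 (M * q * q) (A.inertiaSubgroupIn ℚ)) :
        modularFunctionFieldBar (M * q * q)) = qExpand Qb M (coeffEmb Qb jq) := by
    show ((h36_W M q hqM (h36_W M q hqM
      ((h91_tM M q A : h69_F0 (M * q * q) (A.inertiaSubgroupIn ℚ)) :
        modularFunctionFieldBar (M * q * q))) :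
      modularFunctionFieldBar (M * q * q)) : LaurentSeries Qb) = _
    rw [h36_W_W]
    rfl
  exact h91_hRb_E (M * q * q) A ((h98_coe (M * q * q)).comp (h36_W M q hqM))
    (fun c => by
      show ((h36_W M q hqM (algebraMap Qb (modularFunctionFieldBar (M * q * q)) c) :
        modularFunctionFieldBar (M * q * q)) : LaurentSeries Qb) = _
      rw [h36_W_algebraMap]
      rfl)
    π hπ0 hπA hπn hsc M q hqM (q * q) (Nat.mul_pos hq.pos hq.pos)
    (h91_val_congr (h91_Jqq_val A q) e1) _ _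
    (h91_val_congr (h91_J_val A) e2) (h91_val_congr (h91_JL_val A M) e3)

/-! ### The three components together -/

/-- The exponents `m = (1, 1, q²)` of the chart on the three components. -/
def h91_mRes : Fin 3 → ℕ := ![1, 1, q * q]

/-- The lifts of `j̄` on the three components: `j, j, W j`. -/
def h91_uRes : Fin 3 → h69_F0 (M * q * q) (A.inertiaSubgroupIn ℚ) :=
  ![h69_jF0 (M * q * q) (A.inertiaSubgroupIn ℚ), h69_jF0 (M * q * q) (A.inertiaSubgroupIn ℚ),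
    h91_Wj M q hqM A]

/-- The lifts of `j̄(t^M)` on the three components: `j_M, j_M, W j_M`. -/
def h91_tRes : Fin 3 → h69_F0 (M * q * q) (A.inertiaSubgroupIn ℚ) :=
  ![h91_tM M q A, h91_tM M q A, h91_WtM M q hqM A]

/-- The residue degrees `f c = m c * [SL₂(ℤ) : Γ₀(M)]`. -/
def h91_fRes (c : Fin 3) : ℕ := h91_mRes q c * Nat.card (SL(2, ℤ) ⧸ Gamma0 M)

/-- The residue-degree families `b c j = u_c ^ a * t_c ^ b`. -/
def h91_bRes (c : Fin 3) (j : Fin (h91_fRes M q c)) : h69_F0 (M * q * q) (A.inertiaSubgroupIn ℚ) :=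
  h91_uRes M q hqM A c ^ (((finProdFinEquiv (m := h91_mRes q c)
      (n := Nat.card (SL(2, ℤ) ⧸ Gamma0 M))).symm j).1 : ℕ) *
    h91_tRes M q hqM A c ^ (((finProdFinEquiv (m := h91_mRes q c)
      (n := Nat.card (SL(2, ℤ) ⧸ Gamma0 M))).symm j).2 : ℕ)

/-- `(hR, hb)` for a family of three valuations given componentwise. -/
theorem h91_RB_split (v : Fin 3 → h69_F0 (M * q * q) (A.inertiaSubgroupIn ℚ) → ℤ)
    (h : ∀ c, h91_RB (M * q * q) A (v c) M (h91_mRes q c) (h91_uRes M q hqM A c)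
      (h91_tRes M q hqM A c)) :
    (∀ (c : Fin 3) (r : h69_F0 (M * q * q) (A.inertiaSubgroupIn ℚ)),
      r ∈ h75_gaussRing (h69_A0 A) (h69_jF0 (M * q * q) (A.inertiaSubgroupIn ℚ)) → r ≠ 0 →
        0 ≤ v c r) ∧
    (∀ (c : Fin 3) (r : Fin (h91_fRes M q c) →
        ↥(h75_gaussRing (h69_A0 A) (h69_jF0 (M * q * q) (A.inertiaSubgroupIn ℚ)))),
      (∃ j, IsUnit (r j)) →
        ∑ j, r j • h91_bRes M q hqM A c j ≠ 0 ∧ v c (∑ j, r j • h91_bRes M q hqM A c j) = 0) :=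
  ⟨fun c => (h c).1, fun c => (h c).2⟩

/-- **(RES-FAM-INST) for helper98's `h98_w2`**, componentwise. -/
theorem h91_RB_w98 (hA : A.LiesOverPrime q) (ζ : Qb) (hζ : IsPrimitiveRoot ζ q)
    (hex : h98_Ex M q hqM A ζ hζ) (c : Fin 3) :
    h91_RB (M * q * q) A (h98_w2 M q hqM A ζ hζ hex c) M (h91_mRes q c) (h91_uRes M q hqM A c)
      (h91_tRes M q hqM A c) := by
  have : CharP (IsLocalRing.ResidueField A) q := h19_residueField_charP A q hA
  obtain ⟨hq0, hqA, hqn⟩ := h98_q_unif q A hA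
  obtain ⟨hz0, hzA, hzn, -⟩ := h98_zeta_unif q A hA ζ hζ
  fin_cases c
  · exact h91_RB_std (M * q * q) A (q : Qb) hq0 hqA hqn _ M (h91_dvd_q2 M q) q hqM
  · exact h91_RB_mid M q hqM A ζ hζ.pow_eq_one (hζ.ne_one (Fact.out : q.Prime).one_lt)
      (ζ - 1) hz0 hzA hzn _ q hqM
  · exact h91_RB_W M q hqM A (q : Qb) hq0 hqA hqn _

/-- **`hR` of `h99_latO_iff_h75` for `h98_w2`.** -/
theorem h91_hR_w98 (hA : A.LiesOverPrime q) (ζ : Qb) (hζ : IsPrimitiveRoot ζ q)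
    (hex : h98_Ex M q hqM A ζ hζ) :
    ∀ (c : Fin 3) (r : h69_F0 (M * q * q) (A.inertiaSubgroupIn ℚ)),
      r ∈ h75_gaussRing (h69_A0 A) (h69_jF0 (M * q * q) (A.inertiaSubgroupIn ℚ)) → r ≠ 0 →
        0 ≤ h98_w2 M q hqM A ζ hζ hex c r :=
  (h91_RB_split M q hqM A _ (h91_RB_w98 M q hqM A hA ζ hζ hex)).1

/-- **`hb` of `h99_latO_iff_h75` for `h98_w2`**, with `f := h91_fRes M q`, `b := h91_bRes M q hqM A`. -/
theorem h91_hb_w98 (hA : A.LiesOverPrime q) (ζ : Qb) (hζ : IsPrimitiveRoot ζ q)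
    (hex : h98_Ex M q hqM A ζ hζ) :
    ∀ (c : Fin 3) (r : Fin (h91_fRes M q c) →
        ↥(h75_gaussRing (h69_A0 A) (h69_jF0 (M * q * q) (A.inertiaSubgroupIn ℚ)))),
      (∃ j, IsUnit (r j)) →
        ∑ j, r j • h91_bRes M q hqM A c j ≠ 0 ∧
          h98_w2 M q hqM A ζ hζ hex c (∑ j, r j • h91_bRes M q hqM A c j) = 0 :=
  (h91_RB_split M q hqM A _ (h91_RB_w98 M q hqM A hA ζ hζ hex)).2

/-- **(RES-FAM-INST) for helper36's `h36_w2`**, componentwise. -/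
theorem h91_RB_w36 (hA : A.LiesOverPrime q) (hex : ∀ c, h36_EX M q hqM A c) (c : Fin 3) :
    h91_RB (M * q * q) A (h36_w2 M q hqM A c) M (h91_mRes q c) (h91_uRes M q hqM A c)
      (h91_tRes M q hqM A c) := by
  have : CharP (IsLocalRing.ResidueField A) q := h19_residueField_charP A q hA
  rw [h36_w2_eq_gv M q hqM A hA c (hex c)]
  obtain ⟨h0, hA', hn⟩ := h36_pi_spec q A hA c
  revert h0 hA' hn
  generalize hex c = hx
  revert hx
  fin_cases c
  · intro hx h0 hA' hn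
    exact h91_RB_std (M * q * q) A _ h0 hA' hn hx M (h91_dvd_q2 M q) q hqM
  · intro hx h0 hA' hn
    exact h91_RB_mid M q hqM A (h36_zeta q) (h36_zeta_pow q) (h36_zeta_ne_one q) _ h0 hA' hn
      hx q hqM
  · intro hx h0 hA' hn
    exact h91_RB_W M q hqM A _ h0 hA' hn hx

/-- **`hR` of `h99_latO_iff_h75` for `h36_w2`.** -/
theorem h91_hR_w36 (hA : A.LiesOverPrime q) (hex : ∀ c, h36_EX M q hqM A c) :
    ∀ (c : Fin 3) (r : h69_F0 (M * q * q) (A.inertiaSubgroupIn ℚ)),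
      r ∈ h75_gaussRing (h69_A0 A) (h69_jF0 (M * q * q) (A.inertiaSubgroupIn ℚ)) → r ≠ 0 →
        0 ≤ h36_w2 M q hqM A c r :=
  (h91_RB_split M q hqM A _ (h91_RB_w36 M q hqM A hA hex)).1

/-- **`hb` of `h99_latO_iff_h75` for `h36_w2`**, with `f := h91_fRes M q`, `b := h91_bRes M q hqM A`. -/
theorem h91_hb_w36 (hA : A.LiesOverPrime q) (hex : ∀ c, h36_EX M q hqM A c) :
    ∀ (c : Fin 3) (r : Fin (h91_fRes M q c) →
        ↥(h75_gaussRing (h69_A0 A) (h69_jF0 (M * q * q) (A.inertiaSubgroupIn ℚ)))),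
      (∃ j, IsUnit (r j)) →
        ∑ j, r j • h91_bRes M q hqM A c j ≠ 0 ∧
          h36_w2 M q hqM A c (∑ j, r j • h91_bRes M q hqM A c j) = 0 :=
  (h91_RB_split M q hqM A _ (h91_RB_w36 M q hqM A hA hex)).2

/-- The degree count: `∑ e c * f c = (1 + (q - 1) + q²) ψ(M)`-shape, in terms of `h91_fRes`. -/
theorem h91_fRes_zero : h91_fRes M q 0 = Nat.card (SL(2, ℤ) ⧸ Gamma0 M) := by
  show 1 * Nat.card (SL(2, ℤ) ⧸ Gamma0 M) = _
  rw [one_mul]

theorem h91_fRes_one : h91_fRes M q 1 = Nat.card (SL(2, ℤ) ⧸ Gamma0 M) := by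
  show 1 * Nat.card (SL(2, ℤ) ⧸ Gamma0 M) = _
  rw [one_mul]

theorem h91_fRes_two : h91_fRes M q 2 = q * q * Nat.card (SL(2, ℤ) ⧸ Gamma0 M) := rfl

end Comp

end Fermat.Agent.S36
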