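import Fermat.Agent.S36.h41_TwistTheta
import Fermat.Agent.S36.h98_W2
import Fermat.Agent.S36.h20_Theta

/-!
# S36, row I-VAL, (MID-4) for the middle embedding (helper41)

Level `M q²`, `q ∤ M`, `A` over `q`, `ζ` a primitive `q`-th root of unity,
`mid = h98_midP M q hqM ζ hζ` (`= h36_mid`), `i0 = h36_i0`, `i2 = h36_i2`, `θ = h20_thetaFun`.
For `s ∈ F(M q)` with expansion in `h60_Os A` (i.e. `s ∈ (h60_R1 M q hqM A hA).O`) and
`z := i2 s - i0 s`:

* `h41_mid_sub`       : `mid z = s(ζ t) - s(t)`;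
* `h41_mid_theta`     : `(ζ - 1)⁻¹ mid z ∈ h60_Os A` with reduction `θ (s̄)`;
* `h41_mid_GV`        : if `θ (s̄) ≠ 0` then `mid z` has Gauss order `1` w.r.t. `ζ - 1`;
* `h41_mid_theta_pow` : `mid (z^(q-1) / q) ∈ h60_Os A` with reduction `ε̄ (θ s̄)^(q-1)`, where
  `(ζ - 1)^(q-1) = q ε`, `ε ∈ Aˣ`;
* `h41_mid_pow_GV`    : if `θ (s̄) ≠ 0` then `mid (z^(q-1) / q)` has Gauss order `0`.
-/

set_option autoImplicit false
set_option synthInstance.maxHeartbeats 400000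

noncomputable section

open ModularCurve AlgebraicCurve

namespace Fermat.Agent.S36

open Fermat.Agent.S34 Fermat.Agent.S37 Fermat.Agent.S24 Fermat.Agent.S35 Fermat.Agent.S18
  Fermat.Agent.GAL Fermat.Agent.S40

local notation "Qb" => AlgebraicClosure ℚ

section Unit

variable (q : ℕ) [Fact q.Prime] (A : ValuationSubring Qb)

/-- A primitive `q`-th root of unity as a unit of `A`. -/
def h41_zetaU (ζ : Qb) (hζ : IsPrimitiveRoot ζ q) : Aˣ where
  val := ⟨ζ, h8_zeta_mem q A ζ hζ⟩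
  inv := ⟨ζ⁻¹, h8_zeta_mem q A ζ⁻¹ hζ.inv⟩
  val_inv := Subtype.ext (mul_inv_cancel₀ (hζ.ne_zero (Fact.out : q.Prime).ne_zero))
  inv_val := Subtype.ext (inv_mul_cancel₀ (hζ.ne_zero (Fact.out : q.Prime).ne_zero))

theorem h41_zetaU_val (ζ : Qb) (hζ : IsPrimitiveRoot ζ q) :
    (((h41_zetaU q A ζ hζ : Aˣ) : A) : Qb) = ζ := rfl

theorem h41_zetaU_pow (ζ : Qb) (hζ : IsPrimitiveRoot ζ q) : h41_zetaU q A ζ hζ ^ q = 1 := by
  apply Units.ext
  apply Subtype.ext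
  rw [Units.val_pow_eq_pow_val, Units.val_one]
  show ζ ^ q = 1
  exact hζ.pow_eq_one

/-- The two twists agree. -/
theorem h41_twist_eq (ζ : Qb) (hζ : IsPrimitiveRoot ζ q) (f : LaurentSeries Qb) :
    h87_twist (Units.map ((A.subtype : A →+* Qb) : A →* Qb) (h41_zetaU q A ζ hζ)) f
      = h64_twist ζ f := by
  ext n
  rw [h87_twist_coeff, h64_twist_coeff, Units.val_zpow_eq_zpow_val, mul_comm]
  rfl

end Unit

section Mid

variable (M q : ℕ) [NeZero M] [NeZero q] [Fact q.Prime] (hqM : ¬ q ∣ M)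
  (A : ValuationSubring Qb) (hA : A.LiesOverPrime q) (ζ : Qb) (hζ : IsPrimitiveRoot ζ q)

/-- `mid (i2 s - i0 s) = s(ζ t) - s(t)`. -/
theorem h41_mid_sub (s : modularFunctionFieldBar (M * q)) :
    h98_midP M q hqM ζ hζ (h36_i2 M q hqM s - h36_i0 M q s)
      = h64_twist ζ (s : LaurentSeries Qb) - (s : LaurentSeries Qb) := by
  rw [map_sub, h98_midP_i0, h98_midP, h36_mid_i2]

include hA in
/-- **(MID-4)**: `(ζ - 1)⁻¹ mid (i2 s - i0 s)` is integral with reduction `θ (s̄)`. -/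
theorem h41_mid_theta (s : modularFunctionFieldBar (M * q))
    (hs : (s : LaurentSeries Qb) ∈ h60_Os A) :
    ∃ h : algebraMap Qb (LaurentSeries Qb) ((ζ - 1)⁻¹)
        * h98_midP M q hqM ζ hζ (h36_i2 M q hqM s - h36_i0 M q s) ∈ h60_Os A,
      h60_rs A ⟨_, h⟩ = h20_thetaFun (h60_rs A ⟨_, hs⟩) := by
  have hq : q.Prime := Fact.out
  have : CharP (IsLocalRing.ResidueField A) q := h19_residueField_charP A q hA
  have hres : IsLocalRing.residue A ((h41_zetaU q A ζ hζ : Aˣ) : A) = 1 := by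
    have h1 := h60_units_map_residue A q (h41_zetaU q A ζ hζ) (h41_zetaU_pow q A ζ hζ)
    exact congrArg Units.val h1
  have hne : (((h41_zetaU q A ζ hζ : Aˣ) : A) : Qb) ≠ 1 := by
    rw [h41_zetaU_val]
    exact hζ.ne_one hq.one_lt
  obtain ⟨h, hrs⟩ := h41_twist_theta A (h41_zetaU q A ζ hζ) hres hne h20_thetaFun
    (fun f n => h20_thetaFun_coeff f n) (fun f g => h20_thetaFun_mul f g) ⟨_, hs⟩
  rw [h41_twist_eq, h41_zetaU_val] at h
  have e : algebraMap Qb (LaurentSeries Qb) ((ζ - 1)⁻¹)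
        * h98_midP M q hqM ζ hζ (h36_i2 M q hqM s - h36_i0 M q s)
      = algebraMap Qb (LaurentSeries Qb) ((ζ - 1)⁻¹)
        * (h64_twist ζ (s : LaurentSeries Qb) - (s : LaurentSeries Qb)) := by
    rw [h41_mid_sub]
  refine ⟨by rw [e]; exact h, ?_⟩
  rw [← hrs]
  congr 1
  apply Subtype.ext
  show _ = algebraMap Qb (LaurentSeries Qb)
      (((((h41_zetaU q A ζ hζ : Aˣ) : A) : Qb) - 1)⁻¹)
    * (h87_twist (Units.map ((A.subtype : A →+* Qb) : A →* Qb) (h41_zetaU q A ζ hζ))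
        (s : LaurentSeries Qb) - (s : LaurentSeries Qb))
  rw [h41_twist_eq, h41_zetaU_val]
  exact e

include hA in
/-- If `θ (s̄) ≠ 0`, then `mid (i2 s - i0 s)` has Gauss order `1` with respect to `ζ - 1`. -/
theorem h41_mid_GV (s : modularFunctionFieldBar (M * q))
    (hs : (s : LaurentSeries Qb) ∈ h60_Os A)
    (hθ : h20_thetaFun (h60_rs A ⟨_, hs⟩) ≠ 0) :
    h98_GV A (ζ - 1) (h98_midP M q hqM ζ hζ (h36_i2 M q hqM s - h36_i0 M q s)) 1 := by
  obtain ⟨h, hrs⟩ := h41_mid_theta M q hqM A hA ζ hζ s hs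
  refine h98_GV_of_eq h (by rw [hrs]; exact hθ) ?_
  rw [zpow_neg_one]

include hA in
/-- **(MID-4), power form**: with `(ζ - 1)^(q-1) = q ε`, `ε ∈ A`, the expansion
`mid ((i2 s - i0 s)^(q-1) / q)` is integral with reduction `ε̄ (θ s̄)^(q-1)`. -/
theorem h41_mid_theta_pow (s : modularFunctionFieldBar (M * q))
    (hs : (s : LaurentSeries Qb) ∈ h60_Os A) (ε : Qb) (hε : ε ∈ A)
    (hεq : (ζ - 1) ^ (q - 1) = (q : Qb) * ε) :
    ∃ h : h98_midP M q hqM ζ hζ ((h36_i2 M q hqM s - h36_i0 M q s) ^ (q - 1)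
        / (q : modularFunctionFieldBar (M * q * q))) ∈ h60_Os A,
      h60_rs A ⟨_, h⟩ = algebraMap (IsLocalRing.ResidueField A)
          (LaurentSeries (IsLocalRing.ResidueField A)) (IsLocalRing.residue A ⟨ε, hε⟩)
        * h20_thetaFun (h60_rs A ⟨_, hs⟩) ^ (q - 1) := by
  have hq : q.Prime := Fact.out
  have hq0 : (q : Qb) ≠ 0 := Nat.cast_ne_zero.mpr hq.ne_zero
  have hz0 : ζ - 1 ≠ 0 := sub_ne_zero.mpr (hζ.ne_one hq.one_lt)
  have hε0 : ε ≠ 0 := by
    rintro rfl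
    rw [mul_zero] at hεq
    exact pow_ne_zero _ hz0 hεq
  obtain ⟨hX, hrs⟩ := h41_mid_theta M q hqM A hA ζ hζ s hs
  set Z : LaurentSeries Qb := h98_midP M q hqM ζ hζ (h36_i2 M q hqM s - h36_i0 M q s) with hZ
  set X : h60_Os A := ⟨algebraMap Qb (LaurentSeries Qb) ((ζ - 1)⁻¹) * Z, hX⟩ with hXdef
  set Y : h60_Os A := ⟨algebraMap Qb (LaurentSeries Qb) ε, h60_const_mem A hε⟩ * X ^ (q - 1)
    with hY
  have hYcoe : (Y : LaurentSeries Qb) = h98_midP M q hqM ζ hζ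
      ((h36_i2 M q hqM s - h36_i0 M q s) ^ (q - 1)
        / (q : modularFunctionFieldBar (M * q * q))) := by
    have h1 : (Y : LaurentSeries Qb) = algebraMap Qb (LaurentSeries Qb) ε
        * (algebraMap Qb (LaurentSeries Qb) ((ζ - 1)⁻¹) * Z) ^ (q - 1) := rfl
    have h2 : h98_midP M q hqM ζ hζ (q : modularFunctionFieldBar (M * q * q))
        = algebraMap Qb (LaurentSeries Qb) (q : Qb) := by
      rw [map_natCast, map_natCast]
    rw [h1, map_div₀, map_pow, ← hZ, h2, mul_pow, ← map_pow, ← mul_assoc, ← map_mul, inv_pow,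
      hεq, div_eq_mul_inv, mul_comm (Z ^ (q - 1)), ← map_inv₀]
    congr 2
    field_simp
  have hmem : h98_midP M q hqM ζ hζ ((h36_i2 M q hqM s - h36_i0 M q s) ^ (q - 1)
      / (q : modularFunctionFieldBar (M * q * q))) ∈ h60_Os A := by
    rw [← hYcoe]
    exact Y.2
  refine ⟨hmem, ?_⟩
  have e : (⟨_, hmem⟩ : h60_Os A) = Y := Subtype.ext hYcoe.symm
  rw [e, hY, map_mul, map_pow, h60_rs_const A hε, hrs]

include hA in
/-- **(MID-4), power form, existential constant**: `mid ((i2 s - i0 s)^(q-1) / q)` is integral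
with reduction `u (θ s̄)^(q-1)` for a nonzero constant `u`. -/
theorem h41_mid_theta_pow' (s : modularFunctionFieldBar (M * q))
    (hs : (s : LaurentSeries Qb) ∈ h60_Os A) :
    ∃ u : IsLocalRing.ResidueField A, u ≠ 0 ∧
      ∃ h : h98_midP M q hqM ζ hζ ((h36_i2 M q hqM s - h36_i0 M q s) ^ (q - 1)
          / (q : modularFunctionFieldBar (M * q * q))) ∈ h60_Os A,
        h60_rs A ⟨_, h⟩ = algebraMap (IsLocalRing.ResidueField A)
            (LaurentSeries (IsLocalRing.ResidueField A)) u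
          * h20_thetaFun (h60_rs A ⟨_, hs⟩) ^ (q - 1) := by
  obtain ⟨-, -, -, ε, hε, hε', hε0, hϖ⟩ := h98_zeta_unif q A hA ζ hζ
  refine ⟨IsLocalRing.residue A ⟨ε, hε⟩, ?_, h41_mid_theta_pow M q hqM A hA ζ hζ s hs ε hε hϖ⟩
  intro h0
  rw [IsLocalRing.residue_eq_zero_iff, IsLocalRing.mem_maximalIdeal, mem_nonunits_iff] at h0
  apply h0
  refine ⟨⟨⟨ε, hε⟩, ⟨ε⁻¹, hε'⟩, Subtype.ext (mul_inv_cancel₀ hε0),
    Subtype.ext (inv_mul_cancel₀ hε0)⟩, rfl⟩

include hA in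
/-- If `θ (s̄) ≠ 0`, then `mid ((i2 s - i0 s)^(q-1) / q)` has Gauss order `0`. -/
theorem h41_mid_pow_GV (s : modularFunctionFieldBar (M * q))
    (hs : (s : LaurentSeries Qb) ∈ h60_Os A)
    (hθ : h20_thetaFun (h60_rs A ⟨_, hs⟩) ≠ 0) :
    h98_GV A (ζ - 1) (h98_midP M q hqM ζ hζ ((h36_i2 M q hqM s - h36_i0 M q s) ^ (q - 1)
      / (q : modularFunctionFieldBar (M * q * q)))) 0 := by
  obtain ⟨u, hu, h, hrs⟩ := h41_mid_theta_pow' M q hqM A hA ζ hζ s hs
  refine h98_GV_of_eq h ?_ (by simp)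
  rw [hrs]
  refine mul_ne_zero ?_ (pow_ne_zero _ hθ)
  intro h0
  exact hu ((map_eq_zero_iff _ (algebraMap (IsLocalRing.ResidueField A)
    (LaurentSeries (IsLocalRing.ResidueField A))).injective).mp h0)

end Mid

end Fermat.Agent.S36

end
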