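/-
S36 / I-VAL, (GV-EX) (helper49): existence of the ℤ-valued Gauss orders of inertia-fixed modular
functions along the expansion embeddings, in the `h98_GV` language of `S36/h98_NRVal`.

`h98_GV A π s n` : `π ^ (-n) * s` is a unit of the Gauss ring `h60_Os A` (it lies in it and has
nonzero reduction).

* `h49_GV_of_content` : a nonzero series with bounded denominators whose nonzero coefficients have
  valuations in `v(π)^ℤ` has a Gauss order;
* `h49_BD A` : the `ℚ̄`-subalgebra of series with bounded denominators; it contains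
  `h78_AN ℚ̄ N = ℚ̄[j(t^d) : d ∣ N]` and is stable under twists by units;
* `h49_exists_fixed_frac` : an `H`-fixed `f ∈ F(N)` is `P / Q` with `P, Q` both `H`-fixed with
  expansions in `h78_AN ℚ̄ N` (norm trick, `h69_norm`);
* `h49_GV_exists_std` : **(GV-EX-std)** at ANY level `N`: an inertia-fixed `f ≠ 0` has a `q`-adic
  Gauss order along the standard expansion;
* `h49_W_galois` : an involution `W` with `W ∘ i0 = i2`, `W ∘ i2 = i0` commutes with Galois;
* `h49_GV_exists_W`, `h49_GV_exists_w` : the same along `coe ∘ W` (level `M q²`) and `coe ∘ w`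
  (level `M q`);
* `h49_GV_exists_mid` : **(GV-EX-mid)** an inertia-fixed `f ≠ 0` of level `M q²` has a
  `(ζ - 1)`-adic Gauss order along a middle embedding for `ζ`.
-/
import Mathlib
import Fermat.Agent.S36.h49_MidGal
import Fermat.Agent.S36.h98_NRVal
import Fermat.Agent.S36.h69_K0
import Fermat.Agent.S34.h11_IntQ
import Fermat.Agent.S18.h64_RankOne

set_option autoImplicit false
set_option synthInstance.maxHeartbeats 400000
set_option linter.style.haveILetI false

noncomputable section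

open ModularCurve AlgebraicCurve

namespace Fermat.Agent.S36

open Fermat.Agent.S34 Fermat.Agent.S37 Fermat.Agent.S24 Fermat.Agent.S35 Fermat.Agent.S18
  Fermat.Agent.GAL Fermat.Agent.S40

local notation "Qb" => AlgebraicClosure ℚ

/-! ## The content lemma -/

/-- Coefficients of a constant multiple. -/
theorem h49_coeff_const_mul (a : Qb) (x : LaurentSeries Qb) (k : ℤ) :
    (algebraMap Qb (LaurentSeries Qb) a * x).coeff k = a * x.coeff k := by
  rw [algebraMap_laurentSeries_eq_single, HahnSeries.single_zero_mul_eq_smul,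
    HahnSeries.coeff_smul, smul_eq_mul]

/-- **Content.** A nonzero Laurent series with bounded denominators all of whose nonzero
coefficients have valuation in `v(π)^ℤ` (`π` a nonzero non-unit, rank one) has a `π`-adic Gauss
order. -/
theorem h49_GV_of_content (A : ValuationSubring Qb) (π : Qb) (hπ0 : π ≠ 0)
    (hπ1 : A.valuation π < 1)
    (hrank : ∀ δ : Qb, δ ≠ 0 → ∃ n : ℕ, A.valuation π ^ n ≤ A.valuation δ)
    (x : LaurentSeries Qb) (hx0 : x ≠ 0)
    (hval : ∀ k : ℤ, x.coeff k ≠ 0 → ∃ m : ℤ, A.valuation (x.coeff k) = A.valuation π ^ m)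
    (hbd : ∃ c : Qb, c ≠ 0 ∧ ∀ k : ℤ, c * x.coeff k ∈ A) :
    ∃ n : ℤ, h98_GV A π x n := by
  have hπpos : 0 < A.valuation π := zero_lt_iff.2 ((map_ne_zero _).2 hπ0)
  set P : ℤ → Prop := fun m =>
    ∃ k : ℤ, x.coeff k ≠ 0 ∧ A.valuation (x.coeff k) = A.valuation π ^ m with hP
  have hne : ∃ m, P m := by
    obtain ⟨k, hk⟩ : ∃ k, x.coeff k ≠ 0 := by
      by_contra hcon
      push Not at hcon
      exact hx0 (HahnSeries.ext (funext hcon))
    obtain ⟨m, hm⟩ := hval k hk
    exact ⟨m, k, hk, hm⟩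
  have hbdd : ∃ b : ℤ, ∀ m, P m → b ≤ m := by
    obtain ⟨c, hc0, hc⟩ := hbd
    obtain ⟨n0, hn0⟩ := hrank c hc0
    refine ⟨-(n0 : ℤ), ?_⟩
    rintro m ⟨k, hk, hkm⟩
    have h1 : A.valuation (c * x.coeff k) ≤ 1 := (A.valuation_le_one_iff _).2 (hc k)
    rw [map_mul, hkm] at h1
    have h2 : A.valuation π ^ ((n0 : ℤ) + m) ≤ 1 := by
      rw [zpow_add₀ hπpos.ne', zpow_natCast]
      exact (mul_le_mul_left hn0 _).trans h1
    have h3 := (zpow_le_one_iff_right_of_lt_one₀ hπpos hπ1).1 h2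
    omega
  obtain ⟨n, ⟨k0, hk0, hk0n⟩, hmin⟩ := Int.exists_least_of_bdd hbdd hne
  have hint : ∀ k : ℤ, π ^ (-n) * x.coeff k ∈ A := by
    intro k
    by_cases hk : x.coeff k = 0
    · rw [hk, mul_zero]
      exact zero_mem _
    · obtain ⟨m, hm⟩ := hval k hk
      have hnm : n ≤ m := hmin m ⟨k, hk, hm⟩
      rw [← A.valuation_le_one_iff, map_mul, map_zpow₀, hm, ← zpow_add₀ hπpos.ne']
      exact (zpow_le_one_iff_right_of_lt_one₀ hπpos hπ1).2 (by omega)
  have hmem : algebraMap Qb (LaurentSeries Qb) (π ^ (-n)) * x ∈ (coeffMap A.subtype).range := by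
    rw [h11_mem_range_iff]
    intro k
    rw [h49_coeff_const_mul]
    exact hint k
  obtain ⟨y, hy⟩ := hmem
  refine ⟨n, h98_GV_of_eq (t := coeffMap A.subtype y) (h60_int_mem A y) ?_ hy.symm⟩
  rw [h60_rs_int]
  intro h0
  have h1 : (coeffMap (IsLocalRing.residue A) y).coeff k0 = 0 := by
    rw [h0]
    rfl
  rw [coeffMap_coeff] at h1
  have h2 : ((y.coeff k0 : A) : Qb) = π ^ (-n) * x.coeff k0 := by
    have h3 := congrArg (fun s : LaurentSeries Qb => s.coeff k0) hy
    simp only [coeffMap_coeff, h49_coeff_const_mul] at h3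
    exact h3
  have h3 : A.valuation ((y.coeff k0 : A) : Qb) = 1 := by
    rw [h2, map_mul, map_zpow₀, hk0n, ← zpow_add₀ hπpos.ne', neg_add_cancel, zpow_zero]
  have h4 : y.coeff k0 ∈ IsLocalRing.maximalIdeal A := (IsLocalRing.residue_eq_zero_iff _).1 h1
  have h5 := (A.valuation_lt_one_iff _).1 h4
  rw [h3] at h5
  exact lt_irrefl _ h5

/-! ## Bounded denominators -/

theorem h49_const_mem_range (A : ValuationSubring Qb) {a : Qb} (ha : a ∈ A) :
    algebraMap Qb (LaurentSeries Qb) a ∈ (coeffMap A.subtype).range := by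
  rw [h11_mem_range_iff]
  intro k
  have h1 := h49_coeff_const_mul a 1 k
  rw [mul_one] at h1
  rw [h1, HahnSeries.coeff_one]
  split_ifs
  · rw [mul_one]
    exact ha
  · rw [mul_zero]
    exact zero_mem _

/-- The `ℚ̄`-algebra of Laurent series with bounded denominators at `A`. -/
def h49_BD (A : ValuationSubring Qb) : Subalgebra Qb (LaurentSeries Qb) where
  carrier := {x | ∃ c : Qb, c ≠ 0 ∧ c ∈ A ∧
    algebraMap Qb (LaurentSeries Qb) c * x ∈ (coeffMap A.subtype).range}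
  mul_mem' := by
    rintro x x' ⟨c, hc0, hcA, hc⟩ ⟨c', hc0', hcA', hc'⟩
    refine ⟨c * c', mul_ne_zero hc0 hc0', A.mul_mem _ _ hcA hcA', ?_⟩
    have e : algebraMap Qb (LaurentSeries Qb) (c * c') * (x * x')
        = (algebraMap Qb (LaurentSeries Qb) c * x) * (algebraMap Qb (LaurentSeries Qb) c' * x') := by
      rw [map_mul]
      ring
    rw [e]
    exact mul_mem hc hc'
  add_mem' := by
    rintro x x' ⟨c, hc0, hcA, hc⟩ ⟨c', hc0', hcA', hc'⟩
    refine ⟨c * c', mul_ne_zero hc0 hc0', A.mul_mem _ _ hcA hcA', ?_⟩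
    have e : algebraMap Qb (LaurentSeries Qb) (c * c') * (x + x')
        = algebraMap Qb (LaurentSeries Qb) c' * (algebraMap Qb (LaurentSeries Qb) c * x)
          + algebraMap Qb (LaurentSeries Qb) c * (algebraMap Qb (LaurentSeries Qb) c' * x') := by
      rw [map_mul]
      ring
    rw [e]
    exact add_mem (mul_mem (h49_const_mem_range A hcA') hc)
      (mul_mem (h49_const_mem_range A hcA) hc')
  algebraMap_mem' := by
    intro a
    rcases A.mem_or_inv_mem a with ha | ha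
    · refine ⟨1, one_ne_zero, A.one_mem, ?_⟩
      rw [map_one, one_mul]
      exact h49_const_mem_range A ha
    · by_cases ha0 : a = 0
      · subst ha0
        refine ⟨1, one_ne_zero, A.one_mem, ?_⟩
        rw [map_zero, mul_zero]
        exact zero_mem _
      · refine ⟨a⁻¹, inv_ne_zero ha0, ha, ?_⟩
        rw [← map_mul, inv_mul_cancel₀ ha0, map_one]
        exact one_mem _

theorem h49_mem_BD_iff (A : ValuationSubring Qb) (x : LaurentSeries Qb) :
    x ∈ h49_BD A ↔ ∃ c : Qb, c ≠ 0 ∧ ∀ k : ℤ, c * x.coeff k ∈ A := by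
  constructor
  · rintro ⟨c, hc0, -, hc⟩
    refine ⟨c, hc0, fun k => ?_⟩
    rw [h11_mem_range_iff] at hc
    have := hc k
    rwa [h49_coeff_const_mul] at this
  · rintro ⟨c, hc0, hc⟩
    rcases A.mem_or_inv_mem c with hcA | hcA
    · refine ⟨c, hc0, hcA, ?_⟩
      rw [h11_mem_range_iff]
      intro k
      rw [h49_coeff_const_mul]
      exact hc k
    · refine ⟨1, one_ne_zero, A.one_mem, ?_⟩
      rw [map_one, one_mul, h11_mem_range_iff]
      intro k
      have h1 : x.coeff k = c⁻¹ * (c * x.coeff k) := by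
        rw [← mul_assoc, inv_mul_cancel₀ hc0, one_mul]
      rw [h1]
      exact A.mul_mem _ _ hcA (hc k)

/-- The generators `j(t^d)` are integral series. -/
theorem h49_gen_mem_range (A : ValuationSubring Qb) (d : ℕ) [NeZero d] :
    coeffEmb Qb (qExpand ℚ d jq) ∈ (coeffMap A.subtype).range := by
  refine ⟨qExpand A d (jqModC A), ?_⟩
  rw [coeffMap_qExpand, coeffMap_jqModC, coeffEmb, coeffMap_qExpand, ← jqModC_rat,
    coeffMap_jqModC]

theorem h49_gen_mem_BD (A : ValuationSubring Qb) (d : ℕ) [NeZero d] :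
    coeffEmb Qb (qExpand ℚ d jq) ∈ h49_BD A := by
  refine ⟨1, one_ne_zero, A.one_mem, ?_⟩
  rw [map_one, one_mul]
  exact h49_gen_mem_range A d

/-- `ℚ̄[j(t^d) : d ∣ N]` consists of series with bounded denominators. -/
theorem h49_AN_le_BD (A : ValuationSubring Qb) (N : ℕ) : h78_AN Qb N ≤ h49_BD A := by
  refine Algebra.adjoin_le ?_
  rintro _ ⟨d, hd, -, rfl⟩
  exact h49_gen_mem_BD A d

/-- Twists by units of `A` preserve bounded denominators. -/
theorem h49_twist_mem_BD (A : ValuationSubring Qb) (ζ : Qb) (hζ0 : ζ ≠ 0) (hζ : ζ ∈ A)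
    (hζ' : ζ⁻¹ ∈ A) {x : LaurentSeries Qb} (hx : x ∈ h49_BD A) :
    h59_twistHom ζ hζ0 x ∈ h49_BD A := by
  rw [h49_mem_BD_iff] at hx ⊢
  obtain ⟨c, hc0, hc⟩ := hx
  refine ⟨c, hc0, fun k => ?_⟩
  rw [h59_twistHom_apply, h64_twist_coeff, ← mul_assoc]
  exact A.mul_mem _ _ (hc k) (h98_unit_zpow_mem hζ hζ' k)

/-! ## The norm trick: fixed numerators and denominators -/

/-- The coefficientwise Galois action preserves `ℚ̄[j(t^d) : d ∣ N]`. -/
theorem h49_coeffMap_mem_AN (N : ℕ) (σ : Qb ≃ₐ[ℚ] Qb) {x : LaurentSeries Qb}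
    (hx : x ∈ h78_AN Qb N) :
    coeffMap ((σ : Qb ≃ₐ[ℚ] Qb) : Qb →+* Qb) x ∈ h78_AN Qb N := by
  induction hx using Algebra.adjoin_induction with
  | mem y hy =>
    obtain ⟨d, hd, hdN, rfl⟩ := hy
    have e : coeffMap ((σ : Qb ≃ₐ[ℚ] Qb) : Qb →+* Qb) (coeffEmb Qb (qExpand ℚ d jq))
        = coeffEmb Qb (qExpand ℚ d jq) := by
      rw [coeffEmb, coeffMap_coeffMap]
      exact coeffMap_congr (RingHom.ext fun a => σ.commutes a) _
    rw [e]
    exact Algebra.subset_adjoin ⟨d, hd, hdN, rfl⟩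
  | algebraMap c =>
    rw [coeffMap_algebraMap]
    exact Subalgebra.algebraMap_mem _ _
  | add y z _ _ hy hz =>
    rw [map_add]
    exact add_mem hy hz
  | mul y z _ _ hy hz =>
    rw [map_mul]
    exact mul_mem hy hz

/-- The two forms of "fixed by `σ`" agree. -/
theorem h49_galois_smul_eq (N : ℕ) (σ : Qb ≃ₐ[ℚ] Qb) (f : modularFunctionFieldBar N) :
    arithmeticGalois (modularFunctionFieldFull N) σ • f
      = arithmeticRingAut (modularFunctionFieldFull N) σ f := rfl

/-- **Norm trick.** An `H`-fixed `f ∈ F(N)` is a quotient `P / Q` of `H`-fixed elements whose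
expansions lie in `ℚ̄[j(t^d) : d ∣ N]`. -/
theorem h49_exists_fixed_frac (N : ℕ) (H : Subgroup (Qb ≃ₐ[ℚ] Qb))
    (f : modularFunctionFieldBar N)
    (hfix : ∀ σ ∈ H, arithmeticRingAut (modularFunctionFieldFull N) σ f = f) :
    ∃ P Q : modularFunctionFieldBar N, Q ≠ 0 ∧ P = f * Q ∧
      (P : LaurentSeries Qb) ∈ h78_AN Qb N ∧ (Q : LaurentSeries Qb) ∈ h78_AN Qb N ∧
      (∀ σ ∈ H, arithmeticRingAut (modularFunctionFieldFull N) σ P = P) ∧
      (∀ σ ∈ H, arithmeticRingAut (modularFunctionFieldFull N) σ Q = Q) := by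
  obtain ⟨a, ha, b, hb, hb0, hfb⟩ := h78_exists_frac Qb f.2
  set B : modularFunctionFieldBar N := ⟨b, h78_mem_of_mem_AN Qb hb⟩ with hB
  have hB0 : B ≠ 0 := fun h => hb0 (congrArg Subtype.val h)
  obtain ⟨g', hg', hfixBg⟩ := h69_norm N H B
  have hg1 : (g' : LaurentSeries Qb) ∈ h78_AN Qb N := by
    have h1 : g' ∈ (h78_ANF Qb N).toSubmonoid := hg' _ (fun σ _ => by
      show ((arithmeticGalois (modularFunctionFieldFull N) σ • B : modularFunctionFieldBar N) :
        LaurentSeries Qb) ∈ h78_AN Qb N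
      rw [coe_arithmeticGalois_smul]
      exact h49_coeffMap_mem_AN N σ hb)
    exact h1
  have hg0 : g' ≠ 0 := by
    have h1 : g' ∈ nonZeroDivisors (modularFunctionFieldBar N) := hg' _ (fun σ _ => by
      rw [mem_nonZeroDivisors_iff_ne_zero, h49_galois_smul_eq]
      exact (map_ne_zero _).2 hB0)
    exact nonZeroDivisors.ne_zero h1
  have hQfix : ∀ σ ∈ H, arithmeticRingAut (modularFunctionFieldFull N) σ (B * g') = B * g' :=
    fun σ hσ => hfixBg σ hσ
  refine ⟨f * (B * g'), B * g', mul_ne_zero hB0 hg0, rfl, ?_, ?_, ?_, hQfix⟩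
  · have e : ((f * (B * g') : modularFunctionFieldBar N) : LaurentSeries Qb)
        = a * (g' : LaurentSeries Qb) := by
      show (f : LaurentSeries Qb) * (b * (g' : LaurentSeries Qb)) = _
      rw [← mul_assoc, hfb]
    rw [e]
    exact mul_mem ha hg1
  · exact mul_mem hb hg1
  · intro σ hσ
    rw [map_mul, hfix σ hσ, hQfix σ hσ]

/-! ## (GV-EX-std) -/

/-- Coefficients of the expansion of a fixed function are fixed. -/
theorem h49_coeff_fixed (N : ℕ) (σ : Qb ≃ₐ[ℚ] Qb) (f : modularFunctionFieldBar N)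
    (hfix : arithmeticRingAut (modularFunctionFieldFull N) σ f = f) (k : ℤ) :
    σ ((f : LaurentSeries Qb).coeff k) = (f : LaurentSeries Qb).coeff k := by
  have h1 := congrArg (fun g : modularFunctionFieldBar N => (g : LaurentSeries Qb).coeff k) hfix
  simp only [coe_arithmeticRingAut_apply, coeffMap_coeff] at h1
  exact h1

/-- Rank one at a prime, for a non-unit. -/
theorem h49_rank (q : ℕ) [Fact q.Prime] (A : ValuationSubring Qb) (hA : A.LiesOverPrime q)
    (π : Qb) (hπ1 : A.valuation π < 1) (δ : Qb) (hδ : δ ≠ 0) :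
    ∃ n : ℕ, A.valuation π ^ n ≤ A.valuation δ :=
  h64_rankOne_val A h64_isAlgebraic_int (Fact.out : q.Prime) hA π
    ((ValuationSubring.mem_nonunits_iff A).2 hπ1) δ hδ

/-- An inertia-fixed nonzero element with expansion in `ℚ̄[j(t^d)]` has a `q`-adic Gauss order. -/
theorem h49_GV_exists_AN (N q : ℕ) [Fact q.Prime] (A : ValuationSubring Qb)
    (hA : A.LiesOverPrime q) (P : modularFunctionFieldBar N) (hP0 : P ≠ 0)
    (hPAN : (P : LaurentSeries Qb) ∈ h78_AN Qb N)
    (hfix : ∀ σ ∈ A.inertiaSubgroupIn ℚ,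
      arithmeticRingAut (modularFunctionFieldFull N) σ P = P) :
    ∃ n : ℤ, h98_GV A (q : Qb) (P : LaurentSeries Qb) n := by
  have hq : q.Prime := Fact.out
  have hqv : A.valuation (q : Qb) < 1 := h8_val_p_lt q A hA
  have hq0 : (q : Qb) ≠ 0 := Nat.cast_ne_zero.mpr hq.ne_zero
  refine h49_GV_of_content A q hq0 hqv (h49_rank q A hA _ hqv) _ ?_ ?_ ?_
  · intro h
    exact hP0 (Subtype.ext h)
  · intro k hk
    exact h8_val_unr q A hA _ hk (fun σ hσ => h49_coeff_fixed N σ P (hfix σ hσ) k)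
  · exact (h49_mem_BD_iff A _).1 (h49_AN_le_BD A N hPAN)

/-- **(GV-EX-std)** At any level `N`: a nonzero function fixed by the inertia group of `A ∣ q`
has a `q`-adic Gauss order along the standard expansion. -/
theorem h49_GV_exists_std (N q : ℕ) [Fact q.Prime] (A : ValuationSubring Qb)
    (hA : A.LiesOverPrime q) (f : modularFunctionFieldBar N) (hf0 : f ≠ 0)
    (hfix : ∀ σ ∈ A.inertiaSubgroupIn ℚ,
      arithmeticRingAut (modularFunctionFieldFull N) σ f = f) :
    ∃ n : ℤ, h98_GV A (q : Qb) (f : LaurentSeries Qb) n := by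
  have hq : q.Prime := Fact.out
  have hq0 : (q : Qb) ≠ 0 := Nat.cast_ne_zero.mpr hq.ne_zero
  obtain ⟨P, Q, hQ0, hPQ, hPAN, hQAN, hPfix, hQfix⟩ := h49_exists_fixed_frac N _ f hfix
  have hP0 : P ≠ 0 := by
    rw [hPQ]
    exact mul_ne_zero hf0 hQ0
  obtain ⟨n1, h1⟩ := h49_GV_exists_AN N q A hA P hP0 hPAN hPfix
  obtain ⟨n2, h2⟩ := h49_GV_exists_AN N q A hA Q hQ0 hQAN hQfix
  refine ⟨n1 + -n2, ?_⟩
  have hQ0' : (Q : LaurentSeries Qb) ≠ 0 := fun h => hQ0 (Subtype.ext h)
  have e : (f : LaurentSeries Qb) = (P : LaurentSeries Qb) * (Q : LaurentSeries Qb)⁻¹ := by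
    rw [hPQ]
    show _ = (f : LaurentSeries Qb) * (Q : LaurentSeries Qb) * _
    rw [mul_assoc, mul_inv_cancel₀ hQ0', mul_one]
  rw [e]
  exact h98_GV_mul hq0 h1 (h98_GV_inv h2)

/-! ## Along `coe ∘ W` and `coe ∘ w` -/

/-- A ring endomorphism `W` of `F(L')` with `W ∘ i0 = i2`, `W ∘ i2 = i0` commutes with the Galois
action (`i0`, `i2` commuting with it and generating). -/
theorem h49_W_galois {L L' : ℕ} [NeZero L] [NeZero L']
    (i0 i2 : modularFunctionFieldBar L →+* modularFunctionFieldBar L')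
    (hgen : Subfield.closure (Set.range i0 ∪ Set.range i2) = ⊤)
    (τ : Qb ≃ₐ[ℚ] Qb)
    (hi0 : ∀ g, i0 (arithmeticRingAut (modularFunctionFieldFull L) τ g)
      = arithmeticRingAut (modularFunctionFieldFull L') τ (i0 g))
    (hi2 : ∀ g, i2 (arithmeticRingAut (modularFunctionFieldFull L) τ g)
      = arithmeticRingAut (modularFunctionFieldFull L') τ (i2 g))
    (W : modularFunctionFieldBar L' →+* modularFunctionFieldBar L')
    (hW0 : ∀ g, W (i0 g) = i2 g) (hW2 : ∀ g, W (i2 g) = i0 g)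
    (f : modularFunctionFieldBar L') :
    W (arithmeticRingAut (modularFunctionFieldFull L') τ f)
      = arithmeticRingAut (modularFunctionFieldFull L') τ (W f) := by
  set T : modularFunctionFieldBar L' →+* modularFunctionFieldBar L' :=
    ((arithmeticRingAut (modularFunctionFieldFull L') τ :
      modularFunctionFieldBar L' ≃+* modularFunctionFieldBar L') :
        modularFunctionFieldBar L' →+* modularFunctionFieldBar L') with hT
  have hTa : ∀ x, T x = arithmeticRingAut (modularFunctionFieldFull L') τ x := fun _ => rfl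
  have key : W.comp T = T.comp W := by
    refine RingHom.eq_of_eqOn_of_field_closure_eq_top hgen ?_
    rintro x (⟨g, rfl⟩ | ⟨g, rfl⟩)
    · show W (T (i0 g)) = T (W (i0 g))
      rw [hTa, hTa, ← hi0, hW0, hW0, hi2]
    · show W (T (i2 g)) = T (W (i2 g))
      rw [hTa, hTa, ← hi2, hW2, hW2, hi0]
  exact RingHom.congr_fun key f

/-- **(GV-EX-W)** along `coe ∘ W` at level `M q²`. -/
theorem h49_GV_exists_W (M q : ℕ) [NeZero M] [NeZero q] [Fact q.Prime] (hqM : ¬ q ∣ M)
    (A : ValuationSubring Qb) (hA : A.LiesOverPrime q)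
    (i0 i2 : modularFunctionFieldBar (M * q) →+* modularFunctionFieldBar (M * q * q))
    (hi0 : ∀ g, i0 g = heckeAlphaBar Qb (M * q) q g)
    (hi2 : ∀ g, i2 g = heckeBetaBar Qb (M * q) q (h60_w M q hqM g))
    (hgen : Subfield.closure (Set.range i0 ∪ Set.range i2) = ⊤)
    (W : modularFunctionFieldBar (M * q * q) →+* modularFunctionFieldBar (M * q * q))
    (hW0 : ∀ g, W (i0 g) = i2 g) (hW2 : ∀ g, W (i2 g) = i0 g)
    (f : modularFunctionFieldBar (M * q * q)) (hf0 : f ≠ 0)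
    (hfix : ∀ σ ∈ A.inertiaSubgroupIn ℚ,
      arithmeticRingAut (modularFunctionFieldFull (M * q * q)) σ f = f) :
    ∃ n : ℤ, h98_GV A (q : Qb) ((W f : modularFunctionFieldBar (M * q * q)) :
      LaurentSeries Qb) n := by
  refine h49_GV_exists_std (M * q * q) q A hA (W f) ((map_ne_zero W).2 hf0) (fun σ hσ => ?_)
  rw [← h49_W_galois i0 i2 hgen σ ?_ ?_ W hW0 hW2 f, hfix σ hσ]
  · intro g
    rw [hi0, hi0, h49_alpha_galois]
  · intro g
    rw [hi2, hi2, h60_w_galois, h49_beta_galois]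

/-- **(GV-EX-w)** along `coe ∘ w` at level `M q`. -/
theorem h49_GV_exists_w (M q : ℕ) [NeZero M] [NeZero q] [Fact q.Prime] (hqM : ¬ q ∣ M)
    (A : ValuationSubring Qb) (hA : A.LiesOverPrime q)
    (g : modularFunctionFieldBar (M * q)) (hg0 : g ≠ 0)
    (hfix : ∀ σ ∈ A.inertiaSubgroupIn ℚ,
      arithmeticRingAut (modularFunctionFieldFull (M * q)) σ g = g) :
    ∃ n : ℤ, h98_GV A (q : Qb) ((h60_w M q hqM g : modularFunctionFieldBar (M * q)) :
      LaurentSeries Qb) n := by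
  refine h49_GV_exists_std (M * q) q A hA (h60_w M q hqM g) ((map_ne_zero _).2 hg0)
    (fun σ hσ => ?_)
  rw [← h60_w_galois, hfix σ hσ]

/-! ## (GV-EX-mid) -/

/-- The generator `j(t^d)`, `d ∣ N`, as an element of `F(N)`. -/
def h49_genF (N d : ℕ) [NeZero d] (hd : d ∣ N) : modularFunctionFieldBar N :=
  ⟨coeffEmb Qb (qExpand ℚ d jq),
    h78_mem_of_mem_AN Qb (h78_gens_subset_AN Qb N (h78_mem_gens Qb hd))⟩

theorem h49_coe_genF (N d : ℕ) [NeZero d] (hd : d ∣ N) :
    ((h49_genF N d hd : modularFunctionFieldBar N) : LaurentSeries Qb)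
      = coeffEmb Qb (qExpand ℚ d jq) := rfl

theorem h49_alpha_genF (N q d : ℕ) [NeZero N] [NeZero q] [NeZero d] (hd : d ∣ N) :
    heckeAlphaBar Qb N q (h49_genF N d hd) = h49_genF (N * q) d (Dvd.dvd.mul_right hd q) :=
  Subtype.ext (by rw [coe_heckeAlphaBar]; rfl)

theorem h49_beta_genF (N q d : ℕ) [NeZero N] [NeZero q] [NeZero d] (hd : d ∣ N)
    [NeZero (q * d)] :
    heckeBetaBar Qb N q (h49_genF N d hd)
      = h49_genF (N * q) (q * d) (by rw [mul_comm N q]; exact Nat.mul_dvd_mul_left q hd) := by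
  apply Subtype.ext
  rw [coe_heckeBetaBar, h49_coe_genF, h49_coe_genF, ← qExpand_qExpand d q jq]
  exact (coeffMap_qExpand _ q _).symm

/-- The swap `w` of `F(M q)` permutes the generators `j(t^d)`. -/
theorem h49_w_genF (M q : ℕ) [NeZero M] [NeZero q] [Fact q.Prime] (hqM : ¬ q ∣ M)
    (d : ℕ) [NeZero d] (hd : d ∣ M * q) :
    ∃ (e : ℕ) (_ : NeZero e) (he : e ∣ M * q),
      h60_w M q hqM (h49_genF (M * q) d hd) = h49_genF (M * q) e he := by
  have hq : q.Prime := Fact.out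
  by_cases hdM : d ∣ M
  · haveI : NeZero (q * d) := ⟨mul_ne_zero (NeZero.ne q) (NeZero.ne d)⟩
    refine ⟨q * d, inferInstance, by rw [mul_comm M q]; exact Nat.mul_dvd_mul_left q hdM, ?_⟩
    have e1 : h49_genF (M * q) d hd = heckeAlphaBar Qb M q (h49_genF M d hdM) :=
      (h49_alpha_genF M q d hdM).symm
    rw [e1, h60_w_alpha, h49_beta_genF M q d hdM]
  · have hqd : q ∣ d := by
      rcases Nat.coprime_or_dvd_of_prime hq d with hc | hc
      · exact absurd (Nat.Coprime.dvd_of_dvd_mul_right hc.symm hd) hdM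
      · exact hc
    obtain ⟨d', rfl⟩ := hqd
    have hd'M : d' ∣ M := Nat.dvd_of_mul_dvd_mul_left hq.pos (by rwa [mul_comm M q] at hd)
    haveI : NeZero d' := ⟨fun h0 => by subst h0; exact NeZero.ne (q * 0) (by simp)⟩
    refine ⟨d', inferInstance, Dvd.dvd.mul_right hd'M q, ?_⟩
    have e1 : h49_genF (M * q) (q * d') hd = heckeBetaBar Qb M q (h49_genF M d' hd'M) :=
      (h49_beta_genF M q d' hd'M).symm
    rw [e1, h60_w_beta, h49_alpha_genF M q d' hd'M]

/-- A middle embedding maps `ℚ̄[j(t^d) : d ∣ M q²]` into series with bounded denominators. -/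
theorem h49_mid_mem_BD (M q : ℕ) [NeZero M] [NeZero q] [Fact q.Prime] (hqM : ¬ q ∣ M)
    (A : ValuationSubring Qb)
    (i0 i2 : modularFunctionFieldBar (M * q) →+* modularFunctionFieldBar (M * q * q))
    (hi0 : ∀ g, i0 g = heckeAlphaBar Qb (M * q) q g)
    (hi2 : ∀ g, i2 g = heckeBetaBar Qb (M * q) q (h60_w M q hqM g))
    (ζ : Qb) (hζ0 : ζ ≠ 0) (hζA : ζ ∈ A) (hζA' : ζ⁻¹ ∈ A)
    (E : modularFunctionFieldBar (M * q * q) →+* LaurentSeries Qb)
    (hE0 : ∀ g, E (i0 g) = (g : LaurentSeries Qb))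
    (hE2 : ∀ g, E (i2 g) = h59_twistHom ζ hζ0 (g : LaurentSeries Qb))
    {x : LaurentSeries Qb} (hx : x ∈ h78_AN Qb (M * q * q))
    (hx' : x ∈ modularFunctionFieldBar (M * q * q)) :
    E ⟨x, hx'⟩ ∈ h49_BD A := by
  have hq : q.Prime := Fact.out
  revert hx'
  refine Algebra.adjoin_induction
    (p := fun x _ => ∀ hx' : x ∈ modularFunctionFieldBar (M * q * q), E ⟨x, hx'⟩ ∈ h49_BD A)
    ?_ ?_ ?_ ?_ hx
  · rintro y ⟨d, hd, hdN, rfl⟩ hx'
    haveI := hd
    by_cases hdN' : d ∣ M * q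
    · have e1 : (⟨coeffEmb Qb (qExpand ℚ d jq), hx'⟩ : modularFunctionFieldBar (M * q * q))
          = i0 (h49_genF (M * q) d hdN') := by
        rw [hi0, h49_alpha_genF]
        rfl
      rw [e1, hE0]
      exact h49_gen_mem_BD A d
    · have hqd : q ∣ d := by
        rcases Nat.coprime_or_dvd_of_prime hq d with hc | hc
        · exact absurd (Nat.Coprime.dvd_of_dvd_mul_right hc.symm hdN) hdN'
        · exact hc
      obtain ⟨d', rfl⟩ := hqd
      have hd'N : d' ∣ M * q :=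
        Nat.dvd_of_mul_dvd_mul_left hq.pos (by rwa [mul_comm (M * q) q] at hdN)
      haveI : NeZero d' := ⟨fun h0 => by subst h0; exact NeZero.ne (q * 0) (by simp)⟩
      obtain ⟨e, he, hedvd, hw⟩ := h49_w_genF M q hqM d' hd'N
      haveI := he
      have e2 : (⟨coeffEmb Qb (qExpand ℚ (q * d') jq), hx'⟩ :
          modularFunctionFieldBar (M * q * q))
          = i2 (h60_w M q hqM (h49_genF (M * q) d' hd'N)) := by
        rw [hi2, h60_w_w, h49_beta_genF]
        rfl
      rw [e2, hE2, hw, h49_coe_genF]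
      exact h49_twist_mem_BD A ζ hζ0 hζA hζA' (h49_gen_mem_BD A e)
  · intro c hx'
    have e3 : (⟨algebraMap Qb (LaurentSeries Qb) c, hx'⟩ : modularFunctionFieldBar (M * q * q))
        = algebraMap Qb (modularFunctionFieldBar (M * q * q)) c := rfl
    rw [e3, h49_E_const (M * q) q E (fun e => by rw [← hi0]; exact hE0 e) c]
    exact Subalgebra.algebraMap_mem _ _
  · intro y z hy hz iy iz hx'
    have hy' := h78_mem_of_mem_AN Qb hy
    have hz' := h78_mem_of_mem_AN Qb hz
    have e4 : (⟨y + z, hx'⟩ : modularFunctionFieldBar (M * q * q)) = ⟨y, hy'⟩ + ⟨z, hz'⟩ := rfl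
    rw [e4, map_add]
    exact add_mem (iy hy') (iz hz')
  · intro y z hy hz iy iz hx'
    have hy' := h78_mem_of_mem_AN Qb hy
    have hz' := h78_mem_of_mem_AN Qb hz
    have e4 : (⟨y * z, hx'⟩ : modularFunctionFieldBar (M * q * q)) = ⟨y, hy'⟩ * ⟨z, hz'⟩ := rfl
    rw [e4, map_mul]
    exact mul_mem (iy hy') (iz hz')

/-- **(GV-EX-mid)** `q ∤ M`: a nonzero function of level `M q²` fixed by the inertia group of
`A ∣ q` has a `(ζ - 1)`-adic Gauss order along a middle embedding for `ζ`. -/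
theorem h49_GV_exists_mid (M q : ℕ) [NeZero M] [NeZero q] [Fact q.Prime] (hqM : ¬ q ∣ M)
    (A : ValuationSubring Qb) (hA : A.LiesOverPrime q)
    (i0 i2 : modularFunctionFieldBar (M * q) →+* modularFunctionFieldBar (M * q * q))
    (hi0 : ∀ g, i0 g = heckeAlphaBar Qb (M * q) q g)
    (hi2 : ∀ g, i2 g = heckeBetaBar Qb (M * q) q (h60_w M q hqM g))
    (hgen : Subfield.closure (Set.range i0 ∪ Set.range i2) = ⊤)
    (ζ : Qb) (hζ : IsPrimitiveRoot ζ q)
    (E : modularFunctionFieldBar (M * q * q) →+* LaurentSeries Qb)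
    (hE0 : ∀ g, E (i0 g) = (g : LaurentSeries Qb))
    (hE2 : ∀ g, E (i2 g) = h59_twistHom ζ (hζ.ne_zero (NeZero.ne q)) (g : LaurentSeries Qb))
    (f : modularFunctionFieldBar (M * q * q)) (hf0 : f ≠ 0)
    (hfix : ∀ σ ∈ A.inertiaSubgroupIn ℚ,
      arithmeticRingAut (modularFunctionFieldFull (M * q * q)) σ f = f) :
    ∃ n : ℤ, h98_GV A (ζ - 1) (E f) n := by
  have hq : q.Prime := Fact.out
  have hζ0 : ζ ≠ 0 := hζ.ne_zero (NeZero.ne q)
  have hπ0 : ζ - 1 ≠ 0 := h8_zeta_sub_one_ne q ζ hζ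
  have hπ1 : A.valuation (ζ - 1) < 1 := by
    by_contra hcon
    push Not at hcon
    have h1 := h8_val_p q A ζ hζ
    have h2 : A.valuation (q : Qb) < 1 := h8_val_p_lt q A hA
    rw [h1] at h2
    exact absurd (one_le_pow₀ hcon) (not_le.2 h2)
  have hζA : ζ ∈ A := h8_zeta_mem q A ζ hζ
  have hζA' : ζ⁻¹ ∈ A := by
    have e : ζ⁻¹ = ζ ^ (q - 1) := by
      rw [eq_comm, ← mul_right_inj' hζ0, ← pow_succ', Nat.sub_add_cancel hq.one_le,
        hζ.pow_eq_one, mul_inv_cancel₀ hζ0]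
    rw [e]
    exact pow_mem hζA _
  have key : ∀ R : modularFunctionFieldBar (M * q * q), R ≠ 0 →
      (R : LaurentSeries Qb) ∈ h78_AN Qb (M * q * q) →
      (∀ σ ∈ A.inertiaSubgroupIn ℚ,
        arithmeticRingAut (modularFunctionFieldFull (M * q * q)) σ R = R) →
      ∃ n : ℤ, h98_GV A (ζ - 1) (E R) n := by
    intro R hR0 hRAN hRfix
    refine h49_GV_of_content A (ζ - 1) hπ0 hπ1 (h49_rank q A hA _ hπ1) _
      ((map_ne_zero E).2 hR0) ?_ ?_
    · intro k hk
      have hcfix : ∀ σ ∈ A.inertiaSubgroupIn ℚ, σ ζ = ζ →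
          σ ((E R).coeff k) = (E R).coeff k := by
        intro σ hσ hσζ
        have h1 := h49_mid_galois_mod M q hqM i0 i2 hi0 hi2 hgen σ ζ hζ0 ζ hζ0 hσζ E E
          hE0 hE2 hE0 hE2 R
        rw [hRfix σ hσ] at h1
        have h2 := congrArg (fun s : LaurentSeries Qb => s.coeff k) h1
        simp only [coeffMap_coeff] at h2
        exact h2.symm
      by_cases hq2 : q = 2
      · have hζ2 : IsPrimitiveRoot ζ 2 := hq2 ▸ hζ
        have hζm : ζ = -1 := hζ2.eq_neg_one_of_two_right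
        obtain ⟨m, hm⟩ := h8_val_unr q A hA _ hk
          (fun σ hσ => hcfix σ hσ (by rw [hζm, map_neg, map_one]))
        refine ⟨m, ?_⟩
        rw [hm, h8_val_p q A ζ hζ, hq2]
        norm_num
      · exact h8_val_tame q hq2 A hA ζ hζ _ hk hcfix
    · exact (h49_mem_BD_iff A _).1
        (h49_mid_mem_BD M q hqM A i0 i2 hi0 hi2 ζ hζ0 hζA hζA' E hE0 hE2 hRAN R.2)
  obtain ⟨P, Q, hQ0, hPQ, hPAN, hQAN, hPfix, hQfix⟩ :=
    h49_exists_fixed_frac (M * q * q) _ f hfix
  have hP0 : P ≠ 0 := by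
    rw [hPQ]
    exact mul_ne_zero hf0 hQ0
  obtain ⟨n1, h1⟩ := key P hP0 hPAN hPfix
  obtain ⟨n2, h2⟩ := key Q hQ0 hQAN hQfix
  refine ⟨n1 + -n2, ?_⟩
  have hEQ0 : E Q ≠ 0 := (map_ne_zero E).2 hQ0
  have hEP : E P = E f * E Q := (congrArg E hPQ).trans (map_mul E f Q)
  have e : E f = E P * (E Q)⁻¹ := by
    rw [hEP, mul_assoc (E f), mul_inv_cancel₀ hEQ0, mul_one]
  rw [e]
  exact h98_GV_mul hπ0 h1 (h98_GV_inv h2)

end Fermat.Agent.S36
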