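/-
S36 / I-VAL (helper49): the existence input `h98_Ex` of `S36/h98_W2` is a theorem
(`h49_ex`), from (GV-EX) `S36/h49_GVEx` and the middle embeddings of `S36/h36_MidEmb`.
So `h98_w2 M q hqM A ζ hζ (h49_ex M q hqM A hA ζ hζ)` and
`h98_w1 M q hqM A ζ hζ (h49_ex M q hqM A hA ζ hζ)` are the unconditional vertical valuations
of D7.
-/
import Mathlib
import Fermat.Agent.S36.h49_GVEx
import Fermat.Agent.S36.h98_W2

set_option autoImplicit false
set_option synthInstance.maxHeartbeats 400000

noncomputable section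

open ModularCurve AlgebraicCurve

namespace Fermat.Agent.S36

open Fermat.Agent.S34 Fermat.Agent.S37 Fermat.Agent.S24 Fermat.Agent.S35 Fermat.Agent.S18
  Fermat.Agent.GAL Fermat.Agent.S40

local notation "Qb" => AlgebraicClosure ℚ

/-- **The existence input of `h98_W2` holds**: Gauss orders of inertia-fixed functions exist
along the standard expansions (levels `M q`, `M q²`) and along the middle expansion. -/
theorem h49_ex (M q : ℕ) [NeZero M] [NeZero q] [Fact q.Prime] (hqM : ¬ q ∣ M)
    (A : ValuationSubring Qb) (hA : A.LiesOverPrime q) (ζ : Qb) (hζ : IsPrimitiveRoot ζ q) :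
    h98_Ex M q hqM A ζ hζ where
  std1 := fun g hg hfix => h49_GV_exists_std (M * q) q A hA g hg hfix
  std2 := fun f hf hfix => h49_GV_exists_std (M * q * q) q A hA f hf hfix
  mid := fun f hf hfix =>
    h49_GV_exists_mid M q hqM A hA (h36_i0 M q) (h36_i2 M q hqM) (fun _ => rfl) (fun _ => rfl)
      (h36_i02_gen M q hqM) ζ hζ (h98_midP M q hqM ζ hζ) (h98_midP_i0 M q hqM ζ hζ)
      (h98_midP_i2 M q hqM ζ hζ) f hf hfix

end Fermat.Agent.S36
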