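import Fermat.Agent.S36.h60_HasseCharted
import Fermat.Agent.S36.h20_Theta

/-!
# S36 / (HASSE) row (O) = H(b) with `θ = h20_thetaFun` (helper60)

* `h60_thetaFun_jq_ne_zero` : `θ j̄ ≠ 0` over any field;
* `h60_deriv_ext` : a derivation of a function field into an extension is `(d/dJ) · (value at J)`;
* `h60_DJ` : **(DJ)** at level `M`: `θ f = (df/dJ) · θ J` for `f ∈ F(M)`;
* `h60_hasse_theta` : `h60_hasse_fb_charted` with helper20's `θ` plugged in.
-/

set_option autoImplicit false

noncomputable section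

open AlgebraicCurve KaehlerDifferential ModularCurve
open Fermat.Agent.S18 Fermat.Agent.S24

namespace Fermat.Agent.S36

theorem h60_thetaFun_jq_ne_zero (k : Type*) [Field k] : h20_thetaFun (jqModC k) ≠ 0 := by
  intro h
  have h1 := congrArg (fun f : LaurentSeries k => f.coeff (-1)) h
  simp only [h20_thetaFun_coeff, coeff_jqModC_neg_one, HahnSeries.coeff_zero, mul_one] at h1
  norm_num at h1

/-- A `K`-derivation `θ` of a function field `F` into an `F`-algebra `E` is `(d/dJ) · θ J`. -/
theorem h60_deriv_ext {K F E : Type*} [Field K] [Field F] [Algebra K F] [CommRing E]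
    [Algebra K E] [Algebra F E] [IsScalarTower K F E]
    (J : F) (δ : Derivation K F F) (hδ : ∀ f : F, D K F f = δ f • D K F J)
    (θ : F → E) (hadd : ∀ f g : F, θ (f + g) = θ f + θ g)
    (hsmul : ∀ (c : K) (f : F), θ (c • f) = c • θ f)
    (hmul : ∀ f g : F, θ (f * g) = algebraMap F E f * θ g + algebraMap F E g * θ f)
    (f : F) : θ f = algebraMap F E (δ f) * θ J := by
  let d : Derivation K F E := Derivation.mk'
    { toFun := θ
      map_add' := hadd
      map_smul' := hsmul }
    (fun a b => by
      show θ (a * b) = a • θ b + b • θ a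
      rw [hmul, Algebra.smul_def, Algebra.smul_def])
  have h := congrArg d.liftKaehlerDifferential (hδ f)
  rw [Derivation.liftKaehlerDifferential_comp_D, map_smul,
    Derivation.liftKaehlerDifferential_comp_D, Algebra.smul_def] at h
  exact h

section Der

local notation "Qb" => AlgebraicClosure ℚ

variable (M : ℕ) [NeZero M]

omit [NeZero M] in
/-- **(DJ)**: `θ f = (df/dJ) · θ J` on `F(M)`, for every derivation `δ` with the Kähler
relation `d f = δ f • d J`. -/
theorem h60_DJ_of (δ : Derivation Qb ↥(modularFunctionFieldBar M) ↥(modularFunctionFieldBar M))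
    (hδ : ∀ f : ↥(modularFunctionFieldBar M),
      D Qb ↥(modularFunctionFieldBar M) f = δ f • D Qb ↥(modularFunctionFieldBar M) (h59_jbar M))
    (f : ↥(modularFunctionFieldBar M)) :
    h20_thetaFun (f : LaurentSeries Qb)
      = ((δ f : ↥(modularFunctionFieldBar M)) : LaurentSeries Qb)
        * h20_thetaFun ((h59_jbar M : ↥(modularFunctionFieldBar M)) : LaurentSeries Qb) :=
  h60_deriv_ext (K := Qb) (F := ↥(modularFunctionFieldBar M)) (E := LaurentSeries Qb)
    (h59_jbar M) δ hδ (fun f => h20_thetaFun (f : LaurentSeries Qb))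
    (fun f g => by
      show h20_thetaFun (((f + g : ↥(modularFunctionFieldBar M)) : LaurentSeries Qb)) = _
      rw [IntermediateField.coe_add, h20_thetaFun_add])
    (fun c f => by
      show h20_thetaFun (((c • f : ↥(modularFunctionFieldBar M)) : LaurentSeries Qb)) = _
      rw [IntermediateField.coe_smul, Algebra.smul_def, Algebra.smul_def, h20_thetaFun_mul,
        h20_thetaFun_algebraMap, zero_mul, zero_add])
    (fun f g => by
      show h20_thetaFun (((f * g : ↥(modularFunctionFieldBar M)) : LaurentSeries Qb)) = _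
      rw [IntermediateField.coe_mul, h20_thetaFun_mul, IntermediateField.algebraMap_apply,
        IntermediateField.algebraMap_apply]
      ring) f

/-- **(DJ)**, existence form. -/
theorem h60_DJ :
    ∃ δ : Derivation Qb ↥(modularFunctionFieldBar M) ↥(modularFunctionFieldBar M),
      δ (h59_jbar M) = 1 ∧ ∀ f : ↥(modularFunctionFieldBar M),
        h20_thetaFun (f : LaurentSeries Qb)
          = ((δ f : ↥(modularFunctionFieldBar M)) : LaurentSeries Qb)
            * h20_thetaFun ((h59_jbar M : ↥(modularFunctionFieldBar M)) : LaurentSeries Qb) := by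
  obtain ⟨δ, h1, h2⟩ := h60_exists_dJ M (h59_jbar_transcendental M)
  exact ⟨δ, h1, h60_DJ_of M δ h2⟩

/-- **(O) = H(b) at every charted level, with `θ = h20_thetaFun`.**  `y` a non-cusp place of
the special fibre `Fb(M)`, `t ∈ Fb(M)` regular off the cusps with `t - c₀` a uniformiser at `y`;
`Rρ, W ∈ Fb(M)` with `Rρ = (θ j̄)^n` and `Rρ^6 = W (j̄^4 (j̄ - 1728)^3)^n` (helper20's (RHO), (U)
with `n = q - 1`).  Then `(θ t)^n` is (the series of) a nonzero `c ∈ Fb(M)` with
`6 ord_y c = ord_y W`. -/
theorem h60_hasse_theta (q : ℕ) [Fact q.Prime] (hqM : ¬ q ∣ M)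
    (hch : 5 ≤ q ∨ 2 ∣ M ∨ 3 ∣ M) (A : ValuationSubring Qb) (hA : A.LiesOverPrime q)
    (h2 : nuTwo M = 0) (h3 : nuThree M = 0)
    (y : Place (IsLocalRing.ResidueField A)
      ↥(modularFunctionFieldFullC (IsLocalRing.ResidueField A) M))
    (hy : h54_jk (IsLocalRing.ResidueField A) M ∈ y.toValuationSubring)
    (t : ↥(modularFunctionFieldFullC (IsLocalRing.ResidueField A) M))
    (ht : ∀ Q : Place (IsLocalRing.ResidueField A)
        ↥(modularFunctionFieldFullC (IsLocalRing.ResidueField A) M),
      h54_jk (IsLocalRing.ResidueField A) M ∈ Q.toValuationSubring → t ∈ Q.toValuationSubring)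
    (c₀ : IsLocalRing.ResidueField A)
    (hs1 : y.ord (t - algebraMap (IsLocalRing.ResidueField A)
      ↥(modularFunctionFieldFullC (IsLocalRing.ResidueField A) M) c₀) = 1)
    (n : ℕ) (W Rρ : ↥(modularFunctionFieldFullC (IsLocalRing.ResidueField A) M)) (hW : W ≠ 0)
    (hRρ : (Rρ : LaurentSeries (IsLocalRing.ResidueField A))
      = h20_thetaFun (jqModC (IsLocalRing.ResidueField A)) ^ n)
    (hU : Rρ ^ 6 = W * (h54_jk (IsLocalRing.ResidueField A) M ^ 4
      * (h54_jk (IsLocalRing.ResidueField A) M - 1728) ^ 3) ^ n) :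
    ∃ c : ↥(modularFunctionFieldFullC (IsLocalRing.ResidueField A) M),
      (c : LaurentSeries (IsLocalRing.ResidueField A))
        = h20_thetaFun (t : LaurentSeries (IsLocalRing.ResidueField A)) ^ n ∧
      c ≠ 0 ∧ 6 * y.ord c = y.ord W :=
  h60_hasse_fb_charted M q hqM hch A hA h2 h3 h20_thetaFun h20_thetaFun h20_thetaFun
    h20_thetaFun_mul h20_thetaFun_mul (fun y => h20_thetaFun_coeffMap A.subtype y)
    (fun y => h20_thetaFun_coeffMap (IsLocalRing.residue A) y)
    (h60_thetaFun_jq_ne_zero _) (h60_DJ M) y hy t ht c₀ hs1 n W Rρ hW hRρ hU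

end Der

end Fermat.Agent.S36

end
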