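import Mathlib

/-!
# S36 / (L2): a filtered Hilbert basis lemma (helper17)

`h17_noeth_filt` : let `k` be a field, `Rb` a commutative `k`-algebra, `xb : Rb`, and `G n` an
increasing sequence of `k`-subspaces of `Rb` with `xb * G n ⊆ G (n + 1)`.  If there are finitely
many `w l : Rb` and `m : ℕ` with `G n ⊆ ∑ l, k[xb]_{≤ n + m} * w l` for every `n`, then
`G (n + 1) = G n + xb * G n` for all large `n`.

This is the residue-side core of (FRAME ⟹ GEN): the Rees module `⊕ G n Tⁿ` is a submodule of a
finitely generated module over the noetherian ring `k[T, xb T] ⊆ Rb[T]`, hence finitely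
generated, hence generated in bounded degree.  Nothing is assumed on `Rb` (it may be
non-reduced).
-/

set_option autoImplicit false

noncomputable section

open Polynomial

namespace Fermat.Agent.S36

variable {k Rb : Type*} [Field k] [CommRing Rb] [Algebra k Rb]

/-- The subalgebra `k[T, xb T]` of `Rb[T]`. -/
def h17_rees (k : Type*) {Rb : Type*} [Field k] [CommRing Rb] [Algebra k Rb] (xb : Rb) :
    Subalgebra k Rb[X] :=
  Algebra.adjoin k {(X : Rb[X]), C xb * X}

theorem h17_rees_noeth (xb : Rb) : IsNoetherianRing (h17_rees k xb) := by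
  classical
  have hfg : (h17_rees k xb).FG := by
    have h := Subalgebra.fg_adjoin_finset (R := k) ({(X : Rb[X]), C xb * X} : Finset Rb[X])
    have e : ((({(X : Rb[X]), C xb * X} : Finset Rb[X]) : Set Rb[X])) =
        {(X : Rb[X]), C xb * X} := by
      simp
    rw [e] at h
    exact h
  have : Algebra.FiniteType k (h17_rees k xb) := ⟨(Subalgebra.fg_top _).2 hfg⟩
  exact Algebra.FiniteType.isNoetherianRing k (h17_rees k xb)

/-- Coefficientwise conditions given by an increasing, `xb`-stable family of subspaces are stable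
under multiplication by `k[T, xb T]`. -/
theorem h17_rees_mul_coeff (xb : Rb) (V : ℕ → Submodule k Rb) (hmono : ∀ n, V n ≤ V (n + 1))
    (hx : ∀ n, ∀ a ∈ V n, xb * a ∈ V (n + 1)) {r : Rb[X]} (hr : r ∈ h17_rees k xb) :
    ∀ p : Rb[X], (∀ n, p.coeff n ∈ V n) → ∀ n, (r * p).coeff n ∈ V n := by
  unfold h17_rees at hr
  induction hr using Algebra.adjoin_induction with
  | mem y hy =>
    intro p hp n
    rcases hy with rfl | hy
    · cases n with
      | zero =>
        rw [coeff_X_mul_zero]
        exact (V 0).zero_mem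
      | succ n =>
        rw [coeff_X_mul]
        exact hmono n (hp n)
    · rw [Set.mem_singleton_iff] at hy
      subst hy
      rw [mul_assoc, coeff_C_mul]
      cases n with
      | zero =>
        rw [coeff_X_mul_zero, mul_zero]
        exact (V 0).zero_mem
      | succ n =>
        rw [coeff_X_mul]
        exact hx n _ (hp n)
  | algebraMap c =>
    intro p hp n
    rw [← Algebra.smul_def, coeff_smul]
    exact (V n).smul_mem c (hp n)
  | add y z _ _ hy hz =>
    intro p hp n
    rw [add_mul, coeff_add]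
    exact (V n).add_mem (hy p hp n) (hz p hp n)
  | mul y z _ _ hy hz =>
    intro p hp n
    rw [mul_assoc]
    exact hy (z * p) (hz p hp) n

/-- The `k[T, xb T]`-submodule of `Rb[T]` cut out by coefficientwise conditions. -/
def h17_coeffMod (xb : Rb) (V : ℕ → Submodule k Rb) (hmono : ∀ n, V n ≤ V (n + 1))
    (hx : ∀ n, ∀ a ∈ V n, xb * a ∈ V (n + 1)) : Submodule (h17_rees k xb) Rb[X] where
  carrier := {p | ∀ n, p.coeff n ∈ V n}
  add_mem' := by
    intro p p' hp hp' n
    rw [coeff_add]
    exact (V n).add_mem (hp n) (hp' n)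
  zero_mem' := by
    intro n
    rw [coeff_zero]
    exact (V n).zero_mem
  smul_mem' := by
    intro r p hp n
    exact h17_rees_mul_coeff xb V hmono hx r.2 p hp n

theorem h17_mem_coeffMod (xb : Rb) (V : ℕ → Submodule k Rb) (hmono : ∀ n, V n ≤ V (n + 1))
    (hx : ∀ n, ∀ a ∈ V n, xb * a ∈ V (n + 1)) (p : Rb[X]) :
    p ∈ h17_coeffMod xb V hmono hx ↔ ∀ n, p.coeff n ∈ V n := Iff.rfl

/-- `a Tⁿ` with `a = xb ^ i * w`, `i ≤ n + m`, is a `k[T, xb T]`-multiple of a constant
`xb ^ j * w` with `j ≤ m`. -/
theorem h17_monomial_pow_mem (xb : Rb) (w : Rb) (m n i : ℕ) (hi : i ≤ n + m)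
    (W : Submodule (h17_rees k xb) Rb[X])
    (hW : ∀ j, j ≤ m → C (xb ^ j * w) ∈ W) :
    monomial n (xb ^ i * w) ∈ W := by
  have hX : (X : Rb[X]) ∈ h17_rees k xb := Algebra.subset_adjoin (Set.mem_insert _ _)
  have hY : C xb * (X : Rb[X]) ∈ h17_rees k xb :=
    Algebra.subset_adjoin (Set.mem_insert_of_mem _ rfl)
  set i' : ℕ := min i n with hi'
  have h1 : i' ≤ i := min_le_left _ _
  have h2 : i' ≤ n := min_le_right _ _
  have h3 : i - i' ≤ m := by
    rcases le_total i n with h | h
    · rw [hi', min_eq_left h]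
      omega
    · rw [hi', min_eq_right h]
      omega
  have hr : (C xb * (X : Rb[X])) ^ i' * X ^ (n - i') ∈ h17_rees k xb :=
    (h17_rees k xb).mul_mem ((h17_rees k xb).pow_mem hY _) ((h17_rees k xb).pow_mem hX _)
  have key : monomial n (xb ^ i * w) =
      ((C xb * (X : Rb[X])) ^ i' * X ^ (n - i')) * C (xb ^ (i - i') * w) := by
    have e1 : xb ^ i = xb ^ i' * xb ^ (i - i') := by
      rw [← pow_add]
      congr 1
      omega
    have e2 : (X : Rb[X]) ^ n = X ^ i' * X ^ (n - i') := by
      rw [← pow_add]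
      congr 1
      omega
    rw [← C_mul_X_pow_eq_monomial, e1, e2, mul_pow, mul_assoc (xb ^ i'), C_mul, C_pow]
    ring
  rw [key]
  exact W.smul_mem ⟨_, hr⟩ (hW _ h3)

/-- **Filtered Hilbert basis lemma.** -/
theorem h17_noeth_filt (xb : Rb) (G : ℕ → Submodule k Rb) (hmono : ∀ n, G n ≤ G (n + 1))
    (hx : ∀ n, ∀ a ∈ G n, xb * a ∈ G (n + 1))
    {s : ℕ} (w : Fin s → Rb) (m : ℕ)
    (hbound : ∀ n, ∀ a ∈ G n, ∃ P : Fin s → k[X], (∀ l, (P l).natDegree ≤ n + m) ∧
      a = ∑ l, aeval xb (P l) * w l) :
    ∃ N : ℕ, ∀ n, N ≤ n → ∀ a ∈ G (n + 1), ∃ b ∈ G n, ∃ c ∈ G n, a = b + xb * c := by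
  classical
  have := h17_rees_noeth (k := k) xb
  -- the finitely generated ambient module
  set gens : Set Rb[X] := {p | ∃ (l : Fin s) (j : ℕ), j ≤ m ∧ p = C (xb ^ j * w l)} with hgens
  have hgfin : gens.Finite := by
    have : gens ⊆ Set.range (fun lj : Fin s × Fin (m + 1) => C (xb ^ (lj.2 : ℕ) * w lj.1)) := by
      rintro p ⟨l, j, hj, rfl⟩
      exact ⟨(l, ⟨j, by omega⟩), rfl⟩
    exact (Set.finite_range _).subset this
  set MΨ : Submodule (h17_rees k xb) Rb[X] := Submodule.span (h17_rees k xb) gens with hMΨ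
  have hMΨfg : MΨ.FG := Submodule.fg_span hgfin
  have : IsNoetherian (h17_rees k xb) MΨ := isNoetherian_of_fg_of_noetherian MΨ hMΨfg
  set MG : Submodule (h17_rees k xb) Rb[X] := h17_coeffMod xb G hmono hx with hMG
  -- `MG ≤ MΨ`
  have hmonoΨ : ∀ n, ∀ a ∈ G n, monomial n a ∈ MΨ := by
    intro n a ha
    obtain ⟨P, hP, rfl⟩ := hbound n a ha
    rw [map_sum]
    refine MΨ.sum_mem fun l _ => ?_
    -- expand the polynomial `P l`
    have e : aeval xb (P l) = ∑ i ∈ Finset.range ((P l).natDegree + 1),
        algebraMap k Rb ((P l).coeff i) * xb ^ i := by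
      rw [aeval_eq_sum_range]
      refine Finset.sum_congr rfl fun i _ => ?_
      rw [Algebra.smul_def]
    rw [e, Finset.sum_mul, map_sum]
    refine MΨ.sum_mem fun i hi => ?_
    have hi' : i ≤ n + m := by
      have := Finset.mem_range.mp hi
      have := hP l
      omega
    have e2 : monomial n (algebraMap k Rb ((P l).coeff i) * xb ^ i * w l) =
        (algebraMap k (h17_rees k xb) ((P l).coeff i)) • monomial n (xb ^ i * w l) := by
      show _ = ((algebraMap k (h17_rees k xb) ((P l).coeff i) : h17_rees k xb) : Rb[X]) *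
        monomial n (xb ^ i * w l)
      rw [Subalgebra.coe_algebraMap]
      have h1 : algebraMap k Rb[X] ((P l).coeff i) * monomial n (xb ^ i * w l) =
          (P l).coeff i • monomial n (xb ^ i * w l) := (Algebra.smul_def _ _).symm
      rw [h1, smul_monomial, mul_assoc, Algebra.smul_def]
    rw [e2]
    refine MΨ.smul_mem _ ?_
    exact h17_monomial_pow_mem xb (w l) m n i hi' MΨ
      (fun j hj => Submodule.subset_span ⟨l, j, hj, rfl⟩)
  have hle : MG ≤ MΨ := by
    intro p hp
    rw [p.as_sum_range]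
    exact MΨ.sum_mem fun n _ => hmonoΨ n _ (hp n)
  -- `MG` is finitely generated
  have hMGfg : MG.FG := (isNoetherian_submodule.mp inferInstance) MG hle
  obtain ⟨S, hS⟩ := hMGfg
  set N : ℕ := S.sup natDegree with hN
  refine ⟨N, fun n hn a ha => ?_⟩
  -- the refined coefficient conditions
  let H : ℕ → Submodule k Rb := fun j => G j ⊔ (G j).map (LinearMap.mulLeft k xb)
  have hGH : ∀ j, G j ≤ H j := fun j => le_sup_left
  have hHG : ∀ j, H j ≤ G (j + 1) := by
    intro j
    refine sup_le (hmono j) ?_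
    rintro _ ⟨c, hc, rfl⟩
    exact hx j c hc
  have hxH : ∀ j, ∀ c ∈ G j, xb * c ∈ H j := fun j c hc =>
    Submodule.mem_sup_right ⟨c, hc, rfl⟩
  let V : ℕ → Submodule k Rb := fun j => if j ≤ N then G j else H (j - 1)
  have hVG : ∀ j, V j ≤ G j := by
    intro j
    by_cases hj : j ≤ N
    · simp only [V, if_pos hj]
      exact le_rfl
    · simp only [V, if_neg hj]
      have h := hHG (j - 1)
      have e : j - 1 + 1 = j := by omega
      rwa [e] at h
  have hVmono : ∀ j, V j ≤ V (j + 1) := by
    intro j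
    by_cases hj : j + 1 ≤ N
    · have hj' : j ≤ N := by omega
      simp only [V, if_pos hj, if_pos hj']
      exact hmono j
    · have e : V (j + 1) = H j := by
        simp only [V, if_neg hj]
        rfl
      rw [e]
      exact (hVG j).trans (hGH j)
  have hVx : ∀ j, ∀ a ∈ V j, xb * a ∈ V (j + 1) := by
    intro j a ha
    by_cases hj : j + 1 ≤ N
    · have hj' : j ≤ N := by omega
      simp only [V, if_pos hj]
      simp only [V, if_pos hj'] at ha
      exact hx j a ha
    · have e : V (j + 1) = H j := by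
        simp only [V, if_neg hj]
        rfl
      rw [e]
      exact hxH j a (hVG j ha)
  set MV : Submodule (h17_rees k xb) Rb[X] := h17_coeffMod xb V hVmono hVx with hMV
  have hSV : MG ≤ MV := by
    rw [← hS, Submodule.span_le]
    intro p hp
    have hpG : p ∈ MG := by
      rw [← hS]
      exact Submodule.subset_span hp
    intro j
    by_cases hj : j ≤ N
    · simp only [V, if_pos hj]
      exact hpG j
    · have hdeg : p.natDegree < j := by
        have h1 : p.natDegree ≤ N := Finset.le_sup (f := natDegree) hp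
        omega
      rw [coeff_eq_zero_of_natDegree_lt hdeg]
      exact (V j).zero_mem
  have hmem : monomial (n + 1) a ∈ MG := by
    intro j
    rw [coeff_monomial]
    split_ifs with h
    · rw [← h]
      exact ha
    · exact (G j).zero_mem
  have h1 := hSV hmem (n + 1)
  rw [coeff_monomial, if_pos rfl] at h1
  have e : V (n + 1) = H n := by
    have hj : ¬ (n + 1 ≤ N) := by omega
    simp only [V, if_neg hj]
    rfl
  rw [e] at h1
  obtain ⟨b, hb, c', ⟨c, hc, rfl⟩, rfl⟩ := Submodule.mem_sup.mp h1
  exact ⟨b, hb, c, hc, rfl⟩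

end Fermat.Agent.S36

end
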