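import Mathlib

/-!
# S36 / (L2): the coefficient bound of (FRAME ⟹ GEN) on the generic fibre (helper17)

* `h17_trace_denom` : `R` an integrally closed domain with fraction field `L`, `F / L` finite,
  `d j : F` finitely many elements: there is `r ≠ 0` in `R` with
  `r * Tr_{F/L}(f * d j) ∈ R` for every `f` integral over `R`.
* `h17_chart_coord` : `y` transcendental over `K`, `E = K(y)`, `F / E` finite separable and `b` an
  `E`-basis of `F`: there is `r ≠ 0` in `K[X]` with `r(y) * (b-coordinates of f) ∈ K[y]` for every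
  `f` integral over `K[y]`.
* `h17_coord_bound` : **(CB)** for a chart `x` and a `K(x)`-basis `b` of `F` there are
  `r ≠ 0` in `K[X]` and `m` such that for every `f` with `f` integral over `K[x]` and `x⁻ⁿ f`
  integral over `K[x⁻¹]`, the coordinates satisfy `r(x) * repr_j(f) = p_j(x)` with
  `deg p_j ≤ n + m`.
-/

set_option autoImplicit false

noncomputable section

open Polynomial IntermediateField

open scoped IntermediateField.algebraAdjoinAdjoin

namespace Fermat.Agent.S36

/-- Denominators of traces against finitely many fixed elements. -/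
theorem h17_trace_denom {R L F : Type*} [CommRing R] [IsDomain R] [IsIntegrallyClosed R]
    [Field L] [Field F] [Algebra R L] [IsFractionRing R L] [Algebra L F] [Algebra R F]
    [IsScalarTower R L F] [FiniteDimensional L F] {ι : Type*} [Finite ι] (d : ι → F) :
    ∃ r : R, r ≠ 0 ∧ ∀ f : F, IsIntegral R f → ∀ j, ∃ p : R,
      algebraMap R L r * Algebra.trace L F (f * d j) = algebraMap R L p := by
  classical
  cases nonempty_fintype ι
  have halg : Algebra.IsAlgebraic R F :=
    (IsFractionRing.comap_isAlgebraic_iff (A := R) (K := L) (C := F)).mpr inferInstance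
  obtain ⟨y, hy0, hyI⟩ :=
    Algebra.IsAlgebraic.exists_integral_multiples R (Finset.univ.image d)
  refine ⟨y, hy0, fun f hf j => ?_⟩
  have h1 : IsIntegral R (y • d j) := hyI _ (Finset.mem_image_of_mem d (Finset.mem_univ j))
  have h2 : IsIntegral R (f * (y • d j)) := hf.mul h1
  have h3 : IsIntegral R (Algebra.trace L F (f * (y • d j))) := Algebra.isIntegral_trace h2
  obtain ⟨p, hp⟩ := IsIntegrallyClosed.isIntegral_iff.mp h3
  refine ⟨p, ?_⟩
  rw [hp]
  have e : f * (y • d j) = (algebraMap R L y) • (f * d j) := by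
    rw [algebraMap_smul, mul_smul_comm]
  rw [e, map_smul, smul_eq_mul]

variable {K F : Type*} [Field K] [Field F] [Algebra K F]

/-- Coordinates of elements integral over `K[y]` with respect to a `K(y)`-basis have a common
denominator in `K[y]`. -/
theorem h17_chart_coord (E : IntermediateField K F) [FiniteDimensional E F]
    [Algebra.IsSeparable E F] {ι : Type*} [Fintype ι] (b : Module.Basis ι E F) (y : F)
    (hy : Transcendental K y) (hE : E = K⟮y⟯) :
    ∃ r : K[X], r ≠ 0 ∧ ∀ f : F, IsIntegral (Algebra.adjoin K {y}) f → ∀ j, ∃ p : K[X],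
      aeval y r * ((b.repr f j : E) : F) = aeval y p := by
  classical
  subst hE
  have hIC : IsIntegrallyClosed (Algebra.adjoin K {y}) :=
    IsIntegrallyClosed.of_equiv (Polynomial.algEquivOfTranscendental K y hy).toRingEquiv
  -- the trace-dual basis
  have hB := traceForm_nondegenerate K⟮y⟯ F
  set d : Module.Basis ι K⟮y⟯ F := (Algebra.traceForm K⟮y⟯ F).dualBasis hB b with hd
  have hrepr : ∀ (f : F) (j : ι), b.repr f j = Algebra.trace K⟮y⟯ F (f * d j) := by
    intro f j
    have h1 : (Algebra.traceForm K⟮y⟯ F).dualBasis hB d = b :=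
      LinearMap.BilinForm.dualBasis_dualBasis hB (Algebra.traceForm_isSymm K⟮y⟯) b
    have h2 := LinearMap.BilinForm.dualBasis_repr_apply hB d f j
    rw [h1] at h2
    rw [h2, Algebra.traceForm_apply]
  obtain ⟨r, hr0, hr⟩ := h17_trace_denom (R := Algebra.adjoin K {y}) (L := K⟮y⟯) (F := F)
    (fun j => d j)
  -- `r` is a polynomial in `y`
  have hrmem : (r : F) ∈ (aeval y : K[X] →ₐ[K] F).range := by
    rw [← Algebra.adjoin_singleton_eq_range_aeval]
    exact r.2
  obtain ⟨ρ, hρ⟩ := hrmem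
  refine ⟨ρ, ?_, fun f hf j => ?_⟩
  · rintro rfl
    have hρ' : aeval y (0 : K[X]) = (r : F) := hρ
    rw [map_zero] at hρ'
    exact hr0 (Subtype.ext hρ'.symm)
  · obtain ⟨p, hp⟩ := hr f hf j
    have hpmem : (p : F) ∈ (aeval y : K[X] →ₐ[K] F).range := by
      rw [← Algebra.adjoin_singleton_eq_range_aeval]
      exact p.2
    obtain ⟨π, hπ⟩ := hpmem
    refine ⟨π, ?_⟩
    have h3 : ((algebraMap (Algebra.adjoin K {y}) K⟮y⟯ r *
        Algebra.trace K⟮y⟯ F (f * d j) : K⟮y⟯) : F) =
        ((algebraMap (Algebra.adjoin K {y}) K⟮y⟯ p : K⟮y⟯) : F) := by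
      rw [hp]
    rw [hrepr f j]
    have e1 : ((algebraMap (Algebra.adjoin K {y}) K⟮y⟯ r : K⟮y⟯) : F) = (r : F) := rfl
    have e2 : ((algebraMap (Algebra.adjoin K {y}) K⟮y⟯ p : K⟮y⟯) : F) = (p : F) := rfl
    rw [MulMemClass.coe_mul, e1, e2] at h3
    have hρ' : aeval y ρ = (r : F) := hρ
    have hπ' : aeval y π = (p : F) := hπ
    rw [hρ', hπ']
    exact h3

/-- `K(x⁻¹) = K(x)`. -/
theorem h17_adjoin_inv_eq (x : F) : K⟮x⁻¹⟯ = K⟮x⟯ := by
  apply le_antisymm
  · rw [IntermediateField.adjoin_simple_le_iff]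
    exact inv_mem (IntermediateField.mem_adjoin_simple_self K x)
  · rw [IntermediateField.adjoin_simple_le_iff]
    have := inv_mem (IntermediateField.mem_adjoin_simple_self K x⁻¹)
    rwa [inv_inv] at this

/-- `g(x⁻¹) = rev(g)(x) * x⁻¹ ^ deg g`. -/
theorem h17_aeval_inv (x : F) (hx0 : x ≠ 0) (g : K[X]) :
    aeval x⁻¹ g = aeval x g.reverse * x⁻¹ ^ g.natDegree := by
  have h1 : aeval x⁻¹ g = eval₂ (algebraMap K F) x⁻¹ g := rfl
  have h2 : aeval x g.reverse = eval₂ (algebraMap K F) x g.reverse := rfl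
  rw [h1, h2]
  let _ : Invertible x⁻¹ := invertibleOfNonzero (inv_ne_zero hx0)
  have h3 := eval₂_reverse_mul_pow (algebraMap K F) x⁻¹ g
  rw [invOf_eq_inv, inv_inv] at h3
  exact h3.symm

/-- **(CB): the coefficient bound.** -/
theorem h17_coord_bound {x : F} (hx : Transcendental K x) [FiniteDimensional K⟮x⟯ F]
    [Algebra.IsSeparable K⟮x⟯ F] {ι : Type*} [Fintype ι] (b : Module.Basis ι K⟮x⟯ F) :
    ∃ (r : K[X]) (m : ℕ), r ≠ 0 ∧ ∀ (n : ℕ) (f : F), IsIntegral (Algebra.adjoin K {x}) f →
      IsIntegral (Algebra.adjoin K {x⁻¹}) (x⁻¹ ^ n * f) →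
      ∀ j, ∃ p : K[X], p.natDegree ≤ n + m ∧
        aeval x r * ((b.repr f j : K⟮x⟯) : F) = aeval x p := by
  classical
  have hx0 : x ≠ 0 := by
    rintro rfl
    exact hx isAlgebraic_zero
  have hxi : Transcendental K x⁻¹ := by
    intro h
    exact hx (by simpa using h.inv)
  obtain ⟨r1, hr10, h1⟩ := h17_chart_coord K⟮x⟯ b x hx rfl
  obtain ⟨r2, hr20, h2⟩ := h17_chart_coord K⟮x⟯ b x⁻¹ hxi (h17_adjoin_inv_eq x).symm
  refine ⟨r1, r1.natDegree + r2.natDegree, hr10, fun n f hf hg j => ?_⟩
  obtain ⟨p, hp⟩ := h1 f hf j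
  obtain ⟨s, hs⟩ := h2 (x⁻¹ ^ n * f) hg j
  refine ⟨p, ?_, hp⟩
  by_cases hp0 : p = 0
  · rw [hp0, natDegree_zero]
    exact Nat.zero_le _
  set c : F := ((b.repr f j : K⟮x⟯) : F) with hc
  -- the coordinate of `x⁻ⁿ f`
  have hxmem : x⁻¹ ^ n ∈ K⟮x⟯ :=
    pow_mem (inv_mem (IntermediateField.mem_adjoin_simple_self K x)) n
  have hcg : ((b.repr (x⁻¹ ^ n * f) j : K⟮x⟯) : F) = x⁻¹ ^ n * c := by
    have e : x⁻¹ ^ n * f = (⟨x⁻¹ ^ n, hxmem⟩ : K⟮x⟯) • f := rfl
    rw [e, map_smul, Finsupp.smul_apply, smul_eq_mul, MulMemClass.coe_mul]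
  rw [hcg] at hs
  -- the polynomial identity
  have hxn : ∀ k : ℕ, x ^ k * x⁻¹ ^ k = 1 := fun k => by
    rw [← mul_pow, mul_inv_cancel₀ hx0, one_pow]
  have key : aeval x (p * r2.reverse * X ^ s.natDegree) =
      aeval x (r1 * s.reverse * X ^ (r2.natDegree + n)) := by
    simp only [map_mul, map_pow, aeval_X]
    rw [h17_aeval_inv x hx0 r2, h17_aeval_inv x hx0 s] at hs
    have h3 := hxn r2.natDegree
    have h4 := hxn n
    have h5 := hxn s.natDegree
    have h6 : aeval x r2.reverse * c * x ^ s.natDegree =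
        aeval x s.reverse * x ^ (r2.natDegree + n) := by
      calc aeval x r2.reverse * c * x ^ s.natDegree
          = (aeval x r2.reverse * x⁻¹ ^ r2.natDegree * (x⁻¹ ^ n * c)) *
              (x ^ r2.natDegree * x ^ n * x ^ s.natDegree) := by
            linear_combination (-(aeval x r2.reverse * c * x ^ s.natDegree)) * h3 -
              (aeval x r2.reverse * c * x ^ s.natDegree *
                (x ^ r2.natDegree * x⁻¹ ^ r2.natDegree)) * h4
        _ = (aeval x s.reverse * x⁻¹ ^ s.natDegree) *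
              (x ^ r2.natDegree * x ^ n * x ^ s.natDegree) := by rw [hs]
        _ = aeval x s.reverse * x ^ (r2.natDegree + n) := by
            rw [pow_add]
            linear_combination (aeval x s.reverse * x ^ r2.natDegree * x ^ n) * h5
    linear_combination (-(aeval x r2.reverse * x ^ s.natDegree)) * hp + aeval x r1 * h6
  have hinj : Function.Injective (aeval x : K[X] →ₐ[K] F) :=
    transcendental_iff_injective.mp hx
  have hpoly := hinj key
  have hrev : r2.reverse ≠ 0 := fun h => hr20 (reverse_eq_zero.mp h)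
  have hL : (p * r2.reverse * X ^ s.natDegree).natDegree =
      p.natDegree + r2.reverse.natDegree + s.natDegree := by
    rw [natDegree_mul (mul_ne_zero hp0 hrev) (pow_ne_zero _ X_ne_zero),
      natDegree_mul hp0 hrev, natDegree_X_pow]
  have hR : (r1 * s.reverse * X ^ (r2.natDegree + n)).natDegree ≤
      r1.natDegree + s.natDegree + (r2.natDegree + n) := by
    refine natDegree_mul_le.trans ?_
    rw [natDegree_X_pow]
    have h6 : (r1 * s.reverse).natDegree ≤ r1.natDegree + s.natDegree :=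
      natDegree_mul_le.trans (Nat.add_le_add_left (reverse_natDegree_le s) _)
    omega
  rw [hpoly] at hL
  omega

end Fermat.Agent.S36

end
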