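import Mathlib
import Fermat.Agent.S34.h51_Last
import Fermat.Agent.S18.RR_Chart
import Fermat.Agent.S24.h35_PlaceBasic
import Fermat.Agent.S36.h17_NoethFilt
import Fermat.Agent.S36.h17_TraceBound

/-!
# S36 / (L2): (FRAME ⟹ GEN) (helper17)

`h17_gen_of_frame` : let `D : h22_Lat K F k Rb` be a lattice datum (no hypothesis on `Rb`; it
may be non-reduced), `x` a chart of `F / K` and `b` a `K(x)`-frame of `F` on which integrality
is detected coordinatewise (the hypotheses `hG`, `hU`, `b`, `hb` of `h22_on_of_basis`).  Let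
`E1` be the polar divisor of `x`.  Then there is `N0` with

  `red (L((n+1) E1) ∩ O) = red (L(n E1) ∩ O) + x̄ · red (L(n E1) ∩ O)`   for all `n ≥ N0`,

i.e. the hypothesis `hstrict` of `h42_last_of_L` / `h50_lastStep` / `h63_lastStep`.

Proof: the coefficient bound `h17_coord_bound` on the generic fibre (trace duals in the two
charts) puts `red (L(n E1) ∩ O)` inside `∑_j k[x̄]_{≤ n+m} w_j`, and the filtered Hilbert basis
lemma `h17_noeth_filt` concludes.
-/

set_option autoImplicit false

noncomputable section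

open AlgebraicCurve Polynomial IntermediateField
open Fermat.Agent.S18 Fermat.Agent.S24 Fermat.Agent.S34

namespace Fermat.Agent.S36

variable {K F k Rb : Type*} [Field K] [Field F] [Algebra K F] [Field k] [CommRing Rb]
  [Algebra k Rb]

/-- `redF` of a finite sum of integral elements. -/
theorem h17_redF_sum (D : h22_Lat K F k Rb) {ι : Type*} (s : Finset ι) (e : ι → F)
    (he : ∀ i, e i ∈ D.O) : D.redF (∑ i ∈ s, e i) = ∑ i ∈ s, D.redF (e i) := by
  classical
  induction s using Finset.induction_on with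
  | empty =>
    rw [Finset.sum_empty, Finset.sum_empty, D.redF_of_mem D.O.zero_mem]
    exact map_zero D.red
  | insert i s hi ih =>
    rw [Finset.sum_insert hi, Finset.sum_insert hi,
      h51_redF_add D (he i) (sum_mem fun j _ => he j), ih]

/-- The coefficientwise residue of a polynomial (`resK` is `0` outside `A`). -/
def h17_resPoly (D : h22_Lat K F k Rb) (P : K[X]) : k[X] :=
  ∑ i ∈ Finset.range (P.natDegree + 1), monomial i (D.resK (P.coeff i))

theorem h17_resPoly_natDegree_le (D : h22_Lat K F k Rb) (P : K[X]) :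
    (h17_resPoly D P).natDegree ≤ P.natDegree := by
  unfold h17_resPoly
  refine natDegree_sum_le_of_forall_le _ _ fun i hi => ?_
  refine (natDegree_monomial_le _).trans ?_
  have := Finset.mem_range.mp hi
  omega

/-- The reduction of `P(x)` for `P ∈ A[X]`, `x ∈ O`. -/
theorem h17_redF_aeval (D : h22_Lat K F k Rb) {x : F} (hxO : x ∈ D.O) (P : K[X])
    (hP : ∀ i, P.coeff i ∈ D.A) :
    D.redF (aeval x P) = aeval (D.redF x) (h17_resPoly D P) := by
  have e1 : aeval x P = ∑ i ∈ Finset.range (P.natDegree + 1), P.coeff i • x ^ i :=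
    aeval_eq_sum_range x
  rw [e1, h22_redF_sum_smul D _ _ _ hP (fun i => D.O.pow_mem hxO i)]
  unfold h17_resPoly
  rw [map_sum]
  refine Finset.sum_congr rfl fun i _ => ?_
  rw [aeval_monomial, h51_redF_pow D hxO, Algebra.smul_def]

/-- **(FRAME ⟹ GEN).** -/
theorem h17_gen_of_frame (D : h22_Lat K F k Rb) {x : F} (hx : h75_IsChart K x)
    (hG : ∀ p : K[X], aeval x p ∈ D.O ↔ ∀ i, p.coeff i ∈ D.A)
    (hU : ∀ p : K[X], aeval x p ≠ 0 → ∃ c : K, c ≠ 0 ∧ algebraMap K F c * aeval x p ∈ D.O ∧
      (algebraMap K F c * aeval x p)⁻¹ ∈ D.O)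
    {ι : Type*} [Fintype ι] (b : Module.Basis ι K⟮x⟯ F)
    (hb : ∀ f : F, f ∈ D.O ↔ ∀ i, ((b.repr f i : K⟮x⟯) : F) ∈ D.O)
    (E1 : Divisor K F) (hE1 : ∀ v : Place K F, E1 v = max 0 (-v.ord x)) :
    ∃ N0 : ℕ, ∀ n, N0 ≤ n → ∀ a ∈ h51_Rd D ((n + 1) • E1), ∃ b' ∈ h51_Rd D (n • E1),
      ∃ c' ∈ h51_Rd D (n • E1), a = b' + D.redF x * c' := by
  classical
  have hfin := hx.fin
  have hsep := hx.sep
  have hx0 : x ≠ 0 := hx.ne_zero
  have hxi : h75_IsChart K x⁻¹ := h75_isChart_inv hx
  -- `x ∈ O`
  have hxO : x ∈ D.O := by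
    have h := (hG X).mpr (fun i => by
      rw [coeff_X]
      split_ifs
      · exact D.A.one_mem
      · exact D.A.zero_mem)
    rwa [aeval_X] at h
  -- the coefficient bound
  obtain ⟨r, m, hr0, hCB⟩ := h17_coord_bound hx.tr b
  have hrx : aeval x r ≠ 0 := fun h =>
    hr0 ((transcendental_iff_injective.mp hx.tr) (by rw [h, map_zero]))
  obtain ⟨c, hc0, huO, huinv⟩ := hU r hrx
  set u : F := algebraMap K F c * aeval x r with hu
  have hu0 : u ≠ 0 := mul_ne_zero (by rw [Ne, map_eq_zero]; exact hc0) hrx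
  have huu : D.redF u⁻¹ * D.redF u = 1 := by
    rw [← h51_redF_mul D huinv huO, inv_mul_cancel₀ hu0, h51_redF_one]
  -- the frame is integral
  have hbO : ∀ j, b j ∈ D.O := by
    intro j
    rw [hb]
    intro i
    rw [Module.Basis.repr_self, Finsupp.single_apply]
    split_ifs
    · exact D.O.one_mem
    · exact D.O.zero_mem
  -- `E1 ≥ 0`, `x ∈ L(E1)`
  have hE10 : ∀ v, 0 ≤ E1 v := fun v => by
    rw [hE1 v]
    exact le_max_left _ _
  have hxL : x ∈ riemannRochSpace E1 := by
    rw [mem_riemannRochSpace_iff]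
    intro v
    right
    rw [hE1 v]
    have := le_max_right (0 : ℤ) (-v.ord x)
    omega
  have hxbar : D.redF x ∈ h51_Rd D E1 := ⟨x, hxL, hxO, rfl⟩
  -- the filtration
  let G : ℕ → Submodule k Rb := fun n => h51_Rd D (n • E1)
  have hmono : ∀ n, G n ≤ G (n + 1) := by
    intro n
    refine h51_Rd_mono D fun v => ?_
    rw [Finsupp.smul_apply, Finsupp.smul_apply, nsmul_eq_mul, nsmul_eq_mul]
    have := hE10 v
    push_cast
    nlinarith
  have hxG : ∀ n, ∀ a ∈ G n, D.redF x * a ∈ G (n + 1) := by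
    intro n a ha
    have h := h51_Rd_mul D hxbar ha
    have e : E1 + n • E1 = (n + 1) • E1 := by
      rw [succ_nsmul, add_comm]
    rw [e] at h
    exact h
  -- reindexing of the frame
  let e := Fintype.equivFin ι
  let w : Fin (Fintype.card ι) → Rb := fun l => D.redF u⁻¹ * D.redF (b (e.symm l))
  have hbound : ∀ n, ∀ a ∈ G n, ∃ P : Fin (Fintype.card ι) → k[X],
      (∀ l, (P l).natDegree ≤ n + m) ∧ a = ∑ l, aeval (D.redF x) (P l) * w l := by
    rintro n a ⟨f, hfL, hfO, rfl⟩
    rw [mem_riemannRochSpace_iff] at hfL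
    -- `f` is regular on the chart `x`
    have hf1 : IsIntegral (Algebra.adjoin K {x}) f := by
      rw [h75_isIntegral_iff hx]
      intro P hP
      by_cases hf0 : f = 0
      · rw [hf0]
        exact P.toValuationSubring.zero_mem
      rw [h35_mem_iff_ord_nonneg P hx0] at hP
      rw [h35_mem_iff_ord_nonneg P hf0]
      have h1 := (hfL P).resolve_left hf0
      rw [Finsupp.smul_apply, nsmul_eq_mul, hE1 P, max_eq_left (by omega), mul_zero,
        neg_zero] at h1
      exact h1
    -- `x⁻ⁿ f` is regular on the chart `x⁻¹`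
    have hf2 : IsIntegral (Algebra.adjoin K {x⁻¹}) (x⁻¹ ^ n * f) := by
      rw [h75_isIntegral_iff hxi]
      intro P hP
      by_cases hf0 : f = 0
      · rw [hf0, mul_zero]
        exact P.toValuationSubring.zero_mem
      have hne : x⁻¹ ^ n * f ≠ 0 := mul_ne_zero (pow_ne_zero _ (inv_ne_zero hx0)) hf0
      rw [h35_mem_iff_ord_nonneg P (inv_ne_zero hx0), P.ord_inv] at hP
      rw [h35_mem_iff_ord_nonneg P hne, P.ord_mul (pow_ne_zero _ (inv_ne_zero hx0)) hf0,
        ← zpow_natCast, P.ord_zpow, P.ord_inv]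
      have h1 := (hfL P).resolve_left hf0
      rw [Finsupp.smul_apply, nsmul_eq_mul, hE1 P, max_eq_right (by omega)] at h1
      linarith
    choose p hpdeg hp using hCB n f hf1 hf2
    -- the integral polynomials `P j = c p j`
    let P : ι → K[X] := fun j => C c * p j
    have hPx : ∀ j, aeval x (P j) = u * ((b.repr f j : K⟮x⟯) : F) := by
      intro j
      show aeval x (C c * p j) = u * _
      rw [map_mul, aeval_C, ← hp j, hu]
      ring
    have hPO : ∀ j, aeval x (P j) ∈ D.O := fun j => by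
      rw [hPx j]
      exact D.O.mul_mem huO ((hb f).mp hfO j)
    have hPA : ∀ j i, (P j).coeff i ∈ D.A := fun j => (hG (P j)).mp (hPO j)
    have hPdeg : ∀ j, (P j).natDegree ≤ n + m := fun j =>
      (natDegree_C_mul_le c (p j)).trans (hpdeg j)
    -- `u f = ∑ P j (x) b j`
    have huf : u * f = ∑ j, aeval x (P j) * b j := by
      have h1 : f = ∑ j, b.repr f j • b j := (b.sum_repr f).symm
      conv_lhs => rw [h1]
      rw [Finset.mul_sum]
      refine Finset.sum_congr rfl fun j _ => ?_
      rw [hPx j, IntermediateField.smul_def, smul_eq_mul, mul_assoc]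
      rw [hu]
      ring
    have hred : D.redF u * D.redF f =
        ∑ j, aeval (D.redF x) (h17_resPoly D (P j)) * D.redF (b j) := by
      rw [← h51_redF_mul D huO hfO, huf,
        h17_redF_sum D _ _ (fun j => D.O.mul_mem (hPO j) (hbO j))]
      refine Finset.sum_congr rfl fun j _ => ?_
      rw [h51_redF_mul D (hPO j) (hbO j), h17_redF_aeval D hxO (P j) (hPA j)]
    refine ⟨fun l => h17_resPoly D (P (e.symm l)), fun l =>
      (h17_resPoly_natDegree_le D _).trans (hPdeg _), ?_⟩
    have h2 : D.redF f = D.redF u⁻¹ * (D.redF u * D.redF f) := by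
      rw [← mul_assoc, huu, one_mul]
    rw [h2, hred, Finset.mul_sum]
    rw [← Equiv.sum_comp e.symm]
    refine Finset.sum_congr rfl fun l _ => ?_
    show _ = aeval (D.redF x) (h17_resPoly D (P (e.symm l))) *
      (D.redF u⁻¹ * D.redF (b (e.symm l)))
    ring
  exact h17_noeth_filt (D.redF x) G hmono hxG w m hbound

end Fermat.Agent.S36

end
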