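import Mathlib
import Fermat.Agent.S34.h50_LastStep
import Fermat.Agent.S34.h42_LastFinal
import Fermat.Agent.S36.h17_FrameGen

/-!
# S36 / (L2): the E-short inputs from a frame (helper17)

Consumers' forms of (FRAME ⟹ GEN) (`h17_gen_of_frame`).  `D : h22_Lat K F k Rb` (any `Rb`),
`x` a chart with a coordinatewise `K(x)`-frame (`hG`, `hU`, `b`, `hb` as in `h22_on_of_basis`),
`E1` the polar divisor of `x`.

* `h17_frame_unit` : `x` and `x⁻¹` lie in `O`.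
* `h17_exists_zero_divisor` : the zero divisor `E2` of `x` (`div x = E2 - E1`, disjoint).
* `h17_lastStep_of_frame` : `∃ N0, h51_LastStep D E1 N0 m` for `m` invertible in `k`
  (via `h42_last_of_L`).
* `h17_genup_of_frame` : upstairs generation
  `L((n+1)E1) ∩ O = L(nE1) ∩ O + x (L(nE1) ∩ O)` for `n ≥ N0` (via `h50_gen_up`).
* `h17_eshort_inputs` : the hypotheses `hxO`, `hxiO`, `hEV`, `hstrict` of `h50_eshort_h22`,
  verbatim (via `h50_ev_of_gen`, `h50_strict_of_gen`).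
-/

set_option autoImplicit false

noncomputable section

open AlgebraicCurve Polynomial IntermediateField
open Fermat.Agent.S18 Fermat.Agent.S24 Fermat.Agent.S34

namespace Fermat.Agent.S36

variable {K F k Rb : Type*} [Field K] [Field F] [Algebra K F] [Field k] [CommRing Rb]
  [Algebra k Rb]

/-- The chart function of a frame is a unit of `O`. -/
theorem h17_frame_unit (D : h22_Lat K F k Rb) {x : F} (hx0 : x ≠ 0)
    (hG : ∀ p : K[X], aeval x p ∈ D.O ↔ ∀ i, p.coeff i ∈ D.A)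
    (hU : ∀ p : K[X], aeval x p ≠ 0 → ∃ c : K, c ≠ 0 ∧ algebraMap K F c * aeval x p ∈ D.O ∧
      (algebraMap K F c * aeval x p)⁻¹ ∈ D.O) :
    x ∈ D.O ∧ x⁻¹ ∈ D.O := by
  have hxO : x ∈ D.O := by
    have h := (hG X).mpr (fun i => by
      rw [coeff_X]
      split_ifs
      · exact D.A.one_mem
      · exact D.A.zero_mem)
    rwa [aeval_X] at h
  refine ⟨hxO, ?_⟩
  obtain ⟨c, hc0, hcO, hcinv⟩ := hU X (by rwa [aeval_X])
  rw [aeval_X] at hcO hcinv
  have hcA : c ∈ D.A := by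
    have h1 : aeval x (C c * X) ∈ D.O := by
      rw [map_mul, aeval_C, aeval_X]
      exact hcO
    have h2 := (hG (C c * X)).mp h1 1
    rwa [coeff_C_mul, coeff_X_one, mul_one] at h2
  have e : x⁻¹ = algebraMap K F c * (algebraMap K F c * x)⁻¹ := by
    have hc' : algebraMap K F c ≠ 0 := by rw [Ne, map_eq_zero]; exact hc0
    field_simp
  rw [e]
  exact D.O.mul_mem ((D.mem_iff c).mp hcA) hcinv

/-- The zero divisor of `x`. -/
theorem h17_exists_zero_divisor [HasPrincipalDivisors K F] (x : F) (hx0 : x ≠ 0)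
    (E1 : Divisor K F) (hE1 : ∀ v : Place K F, E1 v = max 0 (-v.ord x)) :
    ∃ E2 : Divisor K F, (∀ v, 0 ≤ E2 v) ∧ (∀ v, E1 v = 0 ∨ E2 v = 0) ∧
      ∀ v : Place K F, v.ord x = E2 v - E1 v := by
  obtain ⟨Dx, hDx, -⟩ := HasPrincipalDivisors.exists_divisor (K := K) x hx0
  refine ⟨Dx + E1, fun v => ?_, fun v => ?_, fun v => ?_⟩
  · rw [Finsupp.add_apply, hDx v, hE1 v]
    rcases le_total (0 : ℤ) (-v.ord x) with h | h
    · rw [max_eq_right h]
      omega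
    · rw [max_eq_left h]
      omega
  · rw [Finsupp.add_apply, hDx v, hE1 v]
    rcases le_total (0 : ℤ) (-v.ord x) with h | h
    · right
      rw [max_eq_right h]
      omega
    · left
      exact max_eq_left h
  · rw [Finsupp.add_apply, hDx v]
    omega

/-- **The last-step statement from a frame.** -/
theorem h17_lastStep_of_frame [HasPrincipalDivisors K F] [Nontrivial Rb]
    (D : h22_Lat K F k Rb) {x : F} (hx : h75_IsChart K x)
    (hG : ∀ p : K[X], aeval x p ∈ D.O ↔ ∀ i, p.coeff i ∈ D.A)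
    (hU : ∀ p : K[X], aeval x p ≠ 0 → ∃ c : K, c ≠ 0 ∧ algebraMap K F c * aeval x p ∈ D.O ∧
      (algebraMap K F c * aeval x p)⁻¹ ∈ D.O)
    {ι : Type*} [Fintype ι] (b : Module.Basis ι K⟮x⟯ F)
    (hb : ∀ f : F, f ∈ D.O ↔ ∀ i, ((b.repr f i : K⟮x⟯) : F) ∈ D.O)
    (hinv : ∀ (f : F) (hf : f ∈ D.O), IsUnit (D.red ⟨f, hf⟩) → f⁻¹ ∈ D.O)
    (hrank : h39_RankOne D.A)
    (hfin : ∀ D' : Divisor K F, FiniteDimensional K (riemannRochSpace D'))
    (E1 : Divisor K F) (hE1 : ∀ v : Place K F, E1 v = max 0 (-v.ord x))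
    (m : ℕ) (hm : (m : k) ≠ 0) : ∃ N0 : ℕ, h51_LastStep D E1 N0 m := by
  obtain ⟨N0, hgen⟩ := h17_gen_of_frame D hx hG hU b hb E1 hE1
  obtain ⟨hxO, hxi⟩ := h17_frame_unit D hx.ne_zero hG hU
  obtain ⟨E2, hE2, hdisj, hdivx⟩ := h17_exists_zero_divisor x hx.ne_zero E1 hE1
  have hE10 : ∀ v, 0 ≤ E1 v := fun v => by
    rw [hE1 v]
    exact le_max_left _ _
  exact ⟨N0, h42_last_of_L D (h22_on_of_basis D hG hU b hb) hinv hrank hfin x hx.ne_zero hxO hxi
    E1 E2 hE10 hE2 hdisj hdivx N0 hgen m hm⟩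

/-- **Upstairs generation from a frame.** -/
theorem h17_genup_of_frame (D : h22_Lat K F k Rb) {x : F} (hx : h75_IsChart K x)
    (hG : ∀ p : K[X], aeval x p ∈ D.O ↔ ∀ i, p.coeff i ∈ D.A)
    (hU : ∀ p : K[X], aeval x p ≠ 0 → ∃ c : K, c ≠ 0 ∧ algebraMap K F c * aeval x p ∈ D.O ∧
      (algebraMap K F c * aeval x p)⁻¹ ∈ D.O)
    {ι : Type*} [Fintype ι] (b : Module.Basis ι K⟮x⟯ F)
    (hb : ∀ f : F, f ∈ D.O ↔ ∀ i, ((b.repr f i : K⟮x⟯) : F) ∈ D.O)
    (hfin : ∀ E' : Divisor K F, Module.Finite K (riemannRochSpace E'))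
    (E1 : Divisor K F) (hE1 : ∀ v : Place K F, E1 v = max 0 (-v.ord x)) :
    ∃ N0 : ℕ, ∀ n, N0 ≤ n → ∀ f : F, f ∈ riemannRochSpace ((n + 1) • E1) → f ∈ D.O →
      ∃ b' c' : F, b' ∈ riemannRochSpace (n • E1) ∧ b' ∈ D.O ∧
        c' ∈ riemannRochSpace (n • E1) ∧ c' ∈ D.O ∧ f = b' + x * c' := by
  obtain ⟨N0, hgen⟩ := h17_gen_of_frame D hx hG hU b hb E1 hE1
  obtain ⟨hxO, -⟩ := h17_frame_unit D hx.ne_zero hG hU
  have hE10 : ∀ v, 0 ≤ E1 v := fun v => by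
    rw [hE1 v]
    exact le_max_left _ _
  have hxL : x ∈ riemannRochSpace E1 := by
    rw [mem_riemannRochSpace_iff]
    intro v
    right
    rw [hE1 v]
    have := le_max_right (0 : ℤ) (-v.ord x)
    omega
  exact ⟨N0, fun n hn f hfL hfO =>
    h50_gen_up D (h22_on_of_basis D hG hU b hb) hfin x hxO E1 hE10 hxL n (hgen n hn) f hfL hfO⟩

/-- **The E-short inputs from a frame**: `x, x⁻¹ ∈ O`, `hEV` and `hstrict` of `h50_eshort_h22`,
verbatim. -/
theorem h17_eshort_inputs [HasPrincipalDivisors K F]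
    (D : h22_Lat K F k Rb) {x : F} (hx : h75_IsChart K x)
    (hG : ∀ p : K[X], aeval x p ∈ D.O ↔ ∀ i, p.coeff i ∈ D.A)
    (hU : ∀ p : K[X], aeval x p ≠ 0 → ∃ c : K, c ≠ 0 ∧ algebraMap K F c * aeval x p ∈ D.O ∧
      (algebraMap K F c * aeval x p)⁻¹ ∈ D.O)
    {ι : Type*} [Fintype ι] (b : Module.Basis ι K⟮x⟯ F)
    (hb : ∀ f : F, f ∈ D.O ↔ ∀ i, ((b.repr f i : K⟮x⟯) : F) ∈ D.O)
    (hfin : ∀ E' : Divisor K F, Module.Finite K (riemannRochSpace E'))
    (hdeg1 : ∀ P : Place K F, P.deg = 1)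
    (D0 : Divisor K F) (hD0 : ∀ v : Place K F, D0 v = max 0 (-v.ord x)) :
    x ∈ D.O ∧ x⁻¹ ∈ D.O ∧
    (∀ y : F, (y = x ∨ y = x⁻¹) → ∀ f : F, f ∈ D.O →
        (∀ v : Place K F, 0 ≤ v.ord y → 0 ≤ v.ord f) →
        ∀ (v : Place K F) (c : K), c ∈ D.A → 0 < v.ord (y - algebraMap K F c) →
        ∃ d : K, d ∈ D.A ∧ (f = algebraMap K F d ∨ 0 < v.ord (f - algebraMap K F d))) ∧
    ∃ n2 : ℕ, ∀ n, n2 ≤ n → ∀ a b : F, a ∈ D.O → b ∈ D.O →
        (∀ v : Place K F, 0 ≤ v.ord x → 0 ≤ v.ord a) →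
        (∀ v : Place K F, v.ord x ≤ 0 → 0 ≤ v.ord b) →
        D.redF a = D.redF x ^ n * D.redF b →
        ∃ f : F, f ∈ riemannRochSpace (n • D0) ∧ f ∈ D.O ∧ D.redF f = D.redF a := by
  classical
  have hx0 : x ≠ 0 := hx.ne_zero
  have hON : h22_ON D := h22_on_of_basis D hG hU b hb
  obtain ⟨hxO, hxi⟩ := h17_frame_unit D hx0 hG hU
  obtain ⟨N0, hgenup⟩ := h17_genup_of_frame D hx hG hU b hb hfin D0 hD0
  obtain ⟨E2, hE2, hdisj, hdivx⟩ := h17_exists_zero_divisor x hx0 D0 hD0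
  have hE1 : ∀ v, 0 ≤ D0 v := fun v => by
    rw [hD0 v]
    exact le_max_left _ _
  -- values
  have hvalue : ∀ (v : Place K F) (f : F), h53_OrdGE v f 0 →
      ∃ a : K, h53_OrdGE v (f - algebraMap K F a) 1 :=
    fun v f hf => h50_exists_value_of_deg v (hdeg1 v) f hf
  have hE1z : ∀ v : Place K F, 0 ≤ v.ord x → D0 v = 0 := by
    intro v hv
    rw [hdivx v] at hv
    rcases hdisj v with h | h
    · exact h
    · have := hE1 v
      omega
  have hE1z' : ∀ v : Place K F, D0 v = 0 → 0 ≤ v.ord x := by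
    intro v hv
    rw [hdivx v, hv]
    have := hE2 v
    omega
  have hE2z : ∀ v : Place K F, 0 ≤ v.ord x⁻¹ → E2 v = 0 := by
    intro v hv
    rw [v.ord_inv, hdivx v] at hv
    rcases hdisj v with h | h
    · have := hE2 v
      omega
    · exact h
  have hE2z' : ∀ v : Place K F, E2 v = 0 → 0 ≤ v.ord x⁻¹ := by
    intro v hv
    rw [v.ord_inv, hdivx v, hv]
    have := hE1 v
    omega
  have hshift1 : ∀ (n : ℕ) (g : F), g ∈ riemannRochSpace (n • D0) →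
      x⁻¹ ^ n * g ∈ riemannRochSpace (n • E2) := by
    intro n g hg
    rw [h50_mem_rr_iff] at hg ⊢
    intro v
    have h1 : h53_OrdGE v (x⁻¹) (-v.ord x) := Or.inr (v.ord_inv x).ge
    have h2 := (h1.pow n).mul (hg v)
    refine h2.mono ?_
    rw [Finsupp.smul_apply, Finsupp.smul_apply, nsmul_eq_mul, nsmul_eq_mul, hdivx v]
    linarith
  have hshift2 : ∀ (n : ℕ) (f : F), f ∈ riemannRochSpace (n • E2) →
      x ^ n * f ∈ riemannRochSpace (n • D0) := by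
    intro n f hf
    rw [h50_mem_rr_iff] at hf ⊢
    intro v
    have h1 : h53_OrdGE v x (v.ord x) := Or.inr le_rfl
    have h2 := (h1.pow n).mul (hf v)
    refine h2.mono ?_
    rw [Finsupp.smul_apply, Finsupp.smul_apply, nsmul_eq_mul, nsmul_eq_mul, hdivx v]
    linarith
  have hgenup' : ∀ n, N0 ≤ n → ∀ f : F, f ∈ riemannRochSpace ((n + 1) • E2) → f ∈ D.O →
      ∃ b c : F, b ∈ riemannRochSpace (n • E2) ∧ b ∈ D.O ∧ c ∈ riemannRochSpace (n • E2) ∧
        c ∈ D.O ∧ f = b + x⁻¹ * c := by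
    intro n hn f hfL hfO
    obtain ⟨b, c, hbL, hbO, hcL, hcO, e⟩ := hgenup n hn (x ^ (n + 1) * f)
      (hshift2 (n + 1) f hfL) (D.O.mul_mem (D.O.pow_mem hxO _) hfO)
    refine ⟨x⁻¹ ^ n * c, x⁻¹ ^ n * b, hshift1 n c hcL, D.O.mul_mem (D.O.pow_mem hxi n) hcO,
      hshift1 n b hbL, D.O.mul_mem (D.O.pow_mem hxi n) hbO, ?_⟩
    have hxn : x ^ (n + 1) ≠ 0 := pow_ne_zero _ hx0
    apply mul_left_cancel₀ hxn
    rw [e]
    have h1 : x ^ n * x⁻¹ ^ n = 1 := by rw [← mul_pow, mul_inv_cancel₀ hx0, one_pow]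
    have h2 : x * x⁻¹ = 1 := mul_inv_cancel₀ hx0
    linear_combination (-(x * c) - b * (x * x⁻¹)) * h1 - b * h2
  refine ⟨hxO, hxi, ?_, N0, ?_⟩
  · intro y hy
    rcases hy with hy | hy
    · rw [hy]
      exact fun f hfO hreg v c hc hv =>
        h50_ev_of_gen D hON hfin x D0 hE1 hE1z hE1z' N0 hgenup hvalue f hfO hreg v c hc hv
    · rw [hy]
      exact fun f hfO hreg v c hc hv =>
        h50_ev_of_gen D hON hfin x⁻¹ E2 hE2 hE2z hE2z' N0 hgenup' hvalue f hfO hreg v c hc hv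
  · intro n hn a b' haO hbO ha hb' hred
    exact h50_strict_of_gen D x hx0 hxO hxi D0 E2 hE1 hE2 hdisj hdivx N0 hgenup n hn a b' haO
      hbO ha hb' hred

end Fermat.Agent.S36

end
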