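import Mathlib
import Fermat.Agent.S36.h75_LatFG
import Fermat.Agent.S36.h17_FrameLast

/-!
# S36 / (L2): the canonical lattice of a frame satisfies all lattice hypotheses of E-short
(helper17)

`hV : h75_Gauss A y V` (a Gauss ring of `K(y)` inside `F`), `O` a subring of `F` with a
`K(y)`-frame on which membership in `O` is detected coordinatewise in `V` (`hfr`, the shape
produced by `h75_exists_fgFrame`), `y` a chart.  For the canonical lattice datum
`h75_fibreLat hV O hfr` (`Rb = O / 𝔪_A O`, possibly non-reduced):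

* `h17_fibreLat_eshort` : `h22_ON`, `hinv`, `y, y⁻¹ ∈ O`, `hEV` and `hstrict` in the verbatim
  binder shapes of `h50_eshort_h22` (`D0` = polar divisor of `y`);
* `h17_fibreLat_gen` : the generation statement (GEN);
* `h17_fibreLat_lastStep` : `∃ N0, h51_LastStep (h75_fibreLat hV O hfr) E1 N0 m` for `m`
  invertible in the residue field.
-/

set_option autoImplicit false

noncomputable section

open AlgebraicCurve Polynomial IntermediateField
open Fermat.Agent.S18 Fermat.Agent.S24 Fermat.Agent.S34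

namespace Fermat.Agent.S36

variable {K F : Type*} [Field K] [Field F] [Algebra K F] {A : ValuationSubring K} {y : F}
  {V : Subring F}

/-- **(GEN) for the canonical lattice of a frame.** -/
theorem h17_fibreLat_gen (hV : h75_Gauss A y V) (O : Subring F)
    (hfr : ∃ (n : ℕ) (b : Module.Basis (Fin n) K⟮y⟯ F),
      ∀ f : F, f ∈ O ↔ ∀ i, ((b.repr f i : K⟮y⟯) : F) ∈ V)
    (hy : h75_IsChart K y)
    (E1 : Divisor K F) (hE1 : ∀ v : Place K F, E1 v = max 0 (-v.ord y)) :
    ∃ N0 : ℕ, ∀ n, N0 ≤ n → ∀ a ∈ h51_Rd (h75_fibreLat hV O hfr) ((n + 1) • E1),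
      ∃ b' ∈ h51_Rd (h75_fibreLat hV O hfr) (n • E1),
      ∃ c' ∈ h51_Rd (h75_fibreLat hV O hfr) (n • E1),
        a = b' + (h75_fibreLat hV O hfr).redF y * c' := by
  have hfr' := hfr
  obtain ⟨n, b, hb⟩ := hfr'
  exact h17_gen_of_frame (h75_fibreLat hV O hfr) hy
    (fun p => h75_frame_gauss hV O b hb p) (fun p hp => h75_frame_unit hV O b hb p hp) b
    (fun f => h75_frame_coord_mem_iff hV O b hb f) E1 hE1

/-- **All lattice hypotheses of `h50_eshort_h22` for the canonical lattice of a frame.** -/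
theorem h17_fibreLat_eshort [HasPrincipalDivisors K F] (hV : h75_Gauss A y V) (O : Subring F)
    (hfr : ∃ (n : ℕ) (b : Module.Basis (Fin n) K⟮y⟯ F),
      ∀ f : F, f ∈ O ↔ ∀ i, ((b.repr f i : K⟮y⟯) : F) ∈ V)
    (hy : h75_IsChart K y)
    (hfin : ∀ E' : Divisor K F, Module.Finite K (riemannRochSpace E'))
    (hdeg1 : ∀ P : Place K F, P.deg = 1)
    (D0 : Divisor K F) (hD0 : ∀ v : Place K F, D0 v = max 0 (-v.ord y)) :
    h22_ON (h75_fibreLat hV O hfr) ∧
    (∀ (f : F) (hf : f ∈ (h75_fibreLat hV O hfr).O),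
      IsUnit ((h75_fibreLat hV O hfr).red ⟨f, hf⟩) → f⁻¹ ∈ (h75_fibreLat hV O hfr).O) ∧
    y ∈ (h75_fibreLat hV O hfr).O ∧ y⁻¹ ∈ (h75_fibreLat hV O hfr).O ∧
    (∀ z : F, (z = y ∨ z = y⁻¹) → ∀ f : F, f ∈ (h75_fibreLat hV O hfr).O →
        (∀ v : Place K F, 0 ≤ v.ord z → 0 ≤ v.ord f) →
        ∀ (v : Place K F) (c : K), c ∈ (h75_fibreLat hV O hfr).A →
        0 < v.ord (z - algebraMap K F c) →
        ∃ d : K, d ∈ (h75_fibreLat hV O hfr).A ∧
          (f = algebraMap K F d ∨ 0 < v.ord (f - algebraMap K F d))) ∧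
    ∃ n2 : ℕ, ∀ n, n2 ≤ n → ∀ a b : F, a ∈ (h75_fibreLat hV O hfr).O →
        b ∈ (h75_fibreLat hV O hfr).O →
        (∀ v : Place K F, 0 ≤ v.ord y → 0 ≤ v.ord a) →
        (∀ v : Place K F, v.ord y ≤ 0 → 0 ≤ v.ord b) →
        (h75_fibreLat hV O hfr).redF a =
          (h75_fibreLat hV O hfr).redF y ^ n * (h75_fibreLat hV O hfr).redF b →
        ∃ f : F, f ∈ riemannRochSpace (n • D0) ∧ f ∈ (h75_fibreLat hV O hfr).O ∧
          (h75_fibreLat hV O hfr).redF f = (h75_fibreLat hV O hfr).redF a := by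
  have hfr' := hfr
  obtain ⟨n, b, hb⟩ := hfr'
  obtain ⟨h1, h2, h3, h4⟩ := h17_eshort_inputs (h75_fibreLat hV O hfr) hy
    (fun p => h75_frame_gauss hV O b hb p) (fun p hp => h75_frame_unit hV O b hb p hp) b
    (fun f => h75_frame_coord_mem_iff hV O b hb f) hfin hdeg1 D0 hD0
  exact ⟨h75_fibreLat_on hV O hfr, fun f hf hu => h75_fibreLat_hinv hV O hfr f hf hu,
    h1, h2, h3, h4⟩

/-- **The last-step statement for the canonical lattice of a frame.** -/
theorem h17_fibreLat_lastStep [HasPrincipalDivisors K F] (hV : h75_Gauss A y V)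
    (O : Subring F)
    (hfr : ∃ (n : ℕ) (b : Module.Basis (Fin n) K⟮y⟯ F),
      ∀ f : F, f ∈ O ↔ ∀ i, ((b.repr f i : K⟮y⟯) : F) ∈ V)
    (hy : h75_IsChart K y) (hrank : h39_RankOne A)
    (hfin : ∀ D' : Divisor K F, FiniteDimensional K (riemannRochSpace D'))
    (E1 : Divisor K F) (hE1 : ∀ v : Place K F, E1 v = max 0 (-v.ord y))
    (m : ℕ) (hm : (m : IsLocalRing.ResidueField A) ≠ 0) :
    ∃ N0 : ℕ, h51_LastStep (h75_fibreLat hV O hfr) E1 N0 m := by
  have hfr' := hfr
  obtain ⟨n, b, hb⟩ := hfr'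
  have := h75_fibre_nontrivial hV O hfr
  exact h17_lastStep_of_frame (h75_fibreLat hV O hfr) hy
    (fun p => h75_frame_gauss hV O b hb p) (fun p hp => h75_frame_unit hV O b hb p hp) b
    (fun f => h75_frame_coord_mem_iff hV O b hb f)
    (fun f hf hu => h75_fibreLat_hinv hV O hfr f hf hu) hrank hfin E1 hE1 m hm

end Fermat.Agent.S36

end
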