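import Mathlib
import Fermat.Agent.S36.h97_LatD4Coord
import Fermat.Agent.S36.h69_K0Inst
import Fermat.Agent.S36.h17_FibreLat
import Fermat.Agent.S18.h54_ModLevel
import Fermat.Agent.S18.h64_RankOneW
import Fermat.Agent.S19.h2_ModChartJ
import Fermat.Agent.S36.h5_ChartDiv

/-!
# S36 / row I-LAT: the modular instance of the D4 lattice (helper17)

`N` a level, `A` a valuation ring of `ℚ̄` over the prime `q`, `H = A.inertiaSubgroupIn ℚ`,
`K0 = h69_K0 H = ℚ̄^H`, `F0 = h69_F0 N H` the `H`-fixed modular functions, `A0 = h69_A0 A`,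
`x0 ∈ F0` a chart of `F = F̄(N)` (in use: `x0 = j`, `h17_jbar0`).

`h17_D2 N q A hA x0 hx` is helper97's D4 lattice `h97_D4` at these carriers, written directly
as helper75's canonical lattice of a frame (`h75_fibreLat`), so that every generic result on
frame lattices applies verbatim.  The file exports the lattice binders of
`h46_principal_of_local_hom` and of `h46_span_Rd_of_form` for it:

* `h17_D2_on`, `h17_D2_hinv`, `h17_D2_rank`, `h17_D2_nontrivial`, `h17_D2_x_mem`,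
  `h17_D2_x_inv_mem`, `h17_D2_gen` (GEN), `h17_D2_lastStep`, `h17_D2_eshort`;
* `h17_D2_q_mem`, `h17_D2_q_inv_not_mem`, `h17_D2_hdiv` (the `hdiv` binder);
* `h17_D2_coord` (COORD): `F0 ∩ O` is the integral closure of the Gauss ring of `(A0, x0)`;
* `h17_D2_eq_h97` : the datum is `h97_D4` (by `rfl`).
-/

set_option autoImplicit false
set_option linter.style.haveILetI false
set_option linter.unusedSectionVars false

noncomputable section

open AlgebraicCurve ModularCurve IntermediateField Polynomial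
open Fermat.Agent.S18 Fermat.Agent.S24 Fermat.Agent.S34

namespace Fermat.Agent.S36

local notation "Qb" => AlgebraicClosure ℚ

section Mod

variable (N : ℕ) (q : ℕ) [Fact q.Prime] (A : ValuationSubring Qb)

/-- `q` lies in `A0`. -/
theorem h17_mod_hw : (q : h69_K0 (A.inertiaSubgroupIn ℚ)) ∈ h69_A0 A := by
  rw [h69_mem_A0]
  have h : ((q : h69_K0 (A.inertiaSubgroupIn ℚ)) : Qb) = (q : Qb) := by
    rw [← IntermediateField.algebraMap_apply, map_natCast]
  rw [h]
  exact natCast_mem A q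

/-- `q⁻¹` does not lie in `A0`. -/
theorem h17_mod_hwi (hA : A.LiesOverPrime q) :
    (q : h69_K0 (A.inertiaSubgroupIn ℚ))⁻¹ ∉ h69_A0 A := by
  have hq : q.Prime := Fact.out
  have h1 := (ValuationSubring.mem_nonunits_iff_or (A := h69_A0 A)).mp (h69_q_mem_nonunits q A hA)
  refine h1.resolve_left ?_
  exact_mod_cast hq.ne_zero

/-- (DV) in the binder shape of `h97_D4`. -/
theorem h17_mod_dv (hA : A.LiesOverPrime q) :
    ∀ c : h69_K0 (A.inertiaSubgroupIn ℚ), c ≠ 0 →
      ∃ (n : ℤ) (u : h69_K0 (A.inertiaSubgroupIn ℚ)), u ∈ h69_A0 A ∧ u⁻¹ ∈ h69_A0 A ∧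
        c = (q : h69_K0 (A.inertiaSubgroupIn ℚ)) ^ n * u := by
  intro c hc
  obtain ⟨n, u, h1, h2, h3⟩ := h69_inst_dv q A hA c hc
  exact ⟨n, u, h2, h3, h1⟩

variable (hA : A.LiesOverPrime q) (x0 : h69_F0 N (A.inertiaSubgroupIn ℚ))
  (hx : h75_IsChart Qb (x0 : modularFunctionFieldBar N))

/-- **The lattice subring** `O` of the modular D4 lattice: the subring of `F̄(N)` generated by
the Gauss ring of `(A, x0)` and the elements of `F0` integral over the Gauss ring of
`(A0, x0)`. -/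
abbrev h17_D2O : Subring (modularFunctionFieldBar N) :=
  h97_latO (h69_F0 N (A.inertiaSubgroupIn ℚ)).subtype (h69_A0 A) A x0
    (h69_inst_transcendental N (A.inertiaSubgroupIn ℚ) x0 hx.tr)
    (x0 : modularFunctionFieldBar N) hx.tr

include hA in
/-- the frame of the modular D4 lattice -/
theorem h17_D2_frame :
    ∃ (n : ℕ) (b : Module.Basis (Fin n) Qb⟮(x0 : modularFunctionFieldBar N)⟯
        (modularFunctionFieldBar N)),
      ∀ f : modularFunctionFieldBar N, f ∈ h17_D2O N A x0 hx ↔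
        ∀ i, ((b.repr f i : Qb⟮(x0 : modularFunctionFieldBar N)⟯) : modularFunctionFieldBar N) ∈
          h97_gaussRing A (x0 : modularFunctionFieldBar N) hx.tr := by
  haveI := h69_inst_finite_of_chart N (A.inertiaSubgroupIn ℚ) x0 hx
  exact h97_latD4_frame (algebraMap (h69_K0 (A.inertiaSubgroupIn ℚ)) Qb)
    (h69_F0 N (A.inertiaSubgroupIn ℚ)).subtype
    (h69_inst_comm N (A.inertiaSubgroupIn ℚ)) (h69_A0 A) A (fun _ ha => ha) x0
    (h69_inst_transcendental N (A.inertiaSubgroupIn ℚ) x0 hx.tr)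
    (x0 : modularFunctionFieldBar N) rfl hx.tr
    (q : h69_K0 (A.inertiaSubgroupIn ℚ)) (h17_mod_hw q A) (h17_mod_hwi q A hA)
    (h17_mod_dv q A hA) (h69_inst_span N (A.inertiaSubgroupIn ℚ))

/-- the special fibre `O / 𝔪_A O` of the modular D4 lattice -/
abbrev h17_D2Rb : Type :=
  h75_Fibre A (h17_D2O N A x0 hx)
    (h75_frame_A_le (h97_gaussRing_h75 A (x0 : modularFunctionFieldBar N) hx.tr) _
      (h17_D2_frame N q A hA x0 hx))

/-- **The modular D4 lattice datum** at level `N` for the chart `x0 ∈ F0`. -/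
def h17_D2 : h22_Lat Qb (modularFunctionFieldBar N) (IsLocalRing.ResidueField A)
    (h17_D2Rb N q A hA x0 hx) :=
  h75_fibreLat (h97_gaussRing_h75 A (x0 : modularFunctionFieldBar N) hx.tr) (h17_D2O N A x0 hx)
    (h17_D2_frame N q A hA x0 hx)

theorem h17_D2_A : (h17_D2 N q A hA x0 hx).A = A := rfl

theorem h17_D2_O : (h17_D2 N q A hA x0 hx).O = h17_D2O N A x0 hx := rfl

theorem h17_D2_res : (h17_D2 N q A hA x0 hx).res = IsLocalRing.residue A := rfl

/-- The datum is helper97's `h97_D4` at the carriers of row K. -/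
theorem h17_D2_eq_h97 :
    haveI := h69_inst_finite_of_chart N (A.inertiaSubgroupIn ℚ) x0 hx
    h17_D2 N q A hA x0 hx =
      h97_D4 (algebraMap (h69_K0 (A.inertiaSubgroupIn ℚ)) Qb)
        (h69_F0 N (A.inertiaSubgroupIn ℚ)).subtype
        (h69_inst_comm N (A.inertiaSubgroupIn ℚ)) (h69_A0 A) A (fun _ ha => ha) x0
        (h69_inst_transcendental N (A.inertiaSubgroupIn ℚ) x0 hx.tr)
        (x0 : modularFunctionFieldBar N) rfl hx.tr
        (q : h69_K0 (A.inertiaSubgroupIn ℚ)) (h17_mod_hw q A) (h17_mod_hwi q A hA)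
        (h17_mod_dv q A hA) (h69_inst_span N (A.inertiaSubgroupIn ℚ)) := rfl

/-- (ON) -/
theorem h17_D2_on : h22_ON (h17_D2 N q A hA x0 hx) := h75_fibreLat_on _ _ _

/-- (hinv) -/
theorem h17_D2_hinv (f : modularFunctionFieldBar N) (hf : f ∈ (h17_D2 N q A hA x0 hx).O)
    (hu : IsUnit ((h17_D2 N q A hA x0 hx).red ⟨f, hf⟩)) : f⁻¹ ∈ (h17_D2 N q A hA x0 hx).O :=
  h75_fibreLat_hinv _ _ _ f hf hu

/-- the special fibre is a nontrivial ring -/
theorem h17_D2_nontrivial : Nontrivial (h17_D2Rb N q A hA x0 hx) :=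
  h75_fibre_nontrivial (h97_gaussRing_h75 A (x0 : modularFunctionFieldBar N) hx.tr)
    (h17_D2O N A x0 hx) (h17_D2_frame N q A hA x0 hx)

include hA in
/-- (rank one) -/
theorem h17_D2_rank : h39_RankOne (h17_D2 N q A hA x0 hx).A :=
  h64_rankOne_h39 (Fact.out : q.Prime) A hA

/-- the chart lies in the lattice -/
theorem h17_D2_x_mem : (x0 : modularFunctionFieldBar N) ∈ (h17_D2 N q A hA x0 hx).O :=
  h97_latO_x_mem _ _ _ _ _ _ _

/-- the inverse of the chart lies in the lattice -/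
theorem h17_D2_x_inv_mem : (x0 : modularFunctionFieldBar N)⁻¹ ∈ (h17_D2 N q A hA x0 hx).O :=
  h97_latO_x_inv_mem _ _ _ _ _ _ _

/-- `q ∈ A` (the `hqA` binder of `h46_span_Rd_of_form`). -/
theorem h17_D2_q_mem : (q : Qb) ∈ (h17_D2 N q A hA x0 hx).A := natCast_mem A q

include hA in
/-- `q⁻¹ ∉ A` (the `hqi` binder of `h46_span_Rd_of_form`). -/
theorem h17_D2_q_inv_not_mem : (q : Qb)⁻¹ ∉ (h17_D2 N q A hA x0 hx).A := by
  have hq : q.Prime := Fact.out
  have h1 := (ValuationSubring.mem_nonunits_iff_or (A := A)).mp hA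
  refine h1.resolve_left ?_
  exact_mod_cast hq.ne_zero

/-- **(GEN)**: the `hgen` binder of `h46_principal_of_local_hom` / `hstrict` of `h50_lastStep`,
for the polar divisor `E1` of the chart. -/
theorem h17_D2_gen (E1 : Divisor Qb (modularFunctionFieldBar N))
    (hE1 : ∀ v : Place Qb (modularFunctionFieldBar N),
      E1 v = max 0 (-v.ord (x0 : modularFunctionFieldBar N))) :
    ∃ N0 : ℕ, ∀ n, N0 ≤ n → ∀ a ∈ h51_Rd (h17_D2 N q A hA x0 hx) ((n + 1) • E1),
      ∃ b ∈ h51_Rd (h17_D2 N q A hA x0 hx) (n • E1),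
      ∃ c ∈ h51_Rd (h17_D2 N q A hA x0 hx) (n • E1),
        a = b + (h17_D2 N q A hA x0 hx).redF (x0 : modularFunctionFieldBar N) * c :=
  h17_fibreLat_gen _ _ _ hx E1 hE1

/-- **The last-step statement** `h51_LastStep` for the modular D4 lattice. -/
theorem h17_D2_lastStep [HasPrincipalDivisors Qb (modularFunctionFieldBar N)]
    (hfin : ∀ D' : Divisor Qb (modularFunctionFieldBar N),
      FiniteDimensional Qb (riemannRochSpace D'))
    (E1 : Divisor Qb (modularFunctionFieldBar N))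
    (hE1 : ∀ v : Place Qb (modularFunctionFieldBar N),
      E1 v = max 0 (-v.ord (x0 : modularFunctionFieldBar N)))
    (m : ℕ) (hm : (m : IsLocalRing.ResidueField A) ≠ 0) :
    ∃ N0 : ℕ, h51_LastStep (h17_D2 N q A hA x0 hx) E1 N0 m :=
  h17_fibreLat_lastStep _ _ _ hx (h17_D2_rank N q A hA x0 hx) hfin E1 hE1 m hm

/-- **All lattice hypotheses of `h50_eshort_h22`** for the modular D4 lattice. -/
theorem h17_D2_eshort [HasPrincipalDivisors Qb (modularFunctionFieldBar N)]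
    (hfin : ∀ E' : Divisor Qb (modularFunctionFieldBar N),
      Module.Finite Qb (riemannRochSpace E'))
    (D0 : Divisor Qb (modularFunctionFieldBar N))
    (hD0 : ∀ v : Place Qb (modularFunctionFieldBar N),
      D0 v = max 0 (-v.ord (x0 : modularFunctionFieldBar N))) :
    h22_ON (h17_D2 N q A hA x0 hx) ∧
    (∀ (f : modularFunctionFieldBar N) (hf : f ∈ (h17_D2 N q A hA x0 hx).O),
      IsUnit ((h17_D2 N q A hA x0 hx).red ⟨f, hf⟩) → f⁻¹ ∈ (h17_D2 N q A hA x0 hx).O) ∧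
    (x0 : modularFunctionFieldBar N) ∈ (h17_D2 N q A hA x0 hx).O ∧
    (x0 : modularFunctionFieldBar N)⁻¹ ∈ (h17_D2 N q A hA x0 hx).O ∧
    (∀ z : modularFunctionFieldBar N, (z = (x0 : modularFunctionFieldBar N) ∨
        z = (x0 : modularFunctionFieldBar N)⁻¹) →
        ∀ f : modularFunctionFieldBar N, f ∈ (h17_D2 N q A hA x0 hx).O →
        (∀ v : Place Qb (modularFunctionFieldBar N), 0 ≤ v.ord z → 0 ≤ v.ord f) →
        ∀ (v : Place Qb (modularFunctionFieldBar N)) (c : Qb), c ∈ (h17_D2 N q A hA x0 hx).A →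
        0 < v.ord (z - algebraMap Qb (modularFunctionFieldBar N) c) →
        ∃ d : Qb, d ∈ (h17_D2 N q A hA x0 hx).A ∧
          (f = algebraMap Qb (modularFunctionFieldBar N) d ∨
            0 < v.ord (f - algebraMap Qb (modularFunctionFieldBar N) d))) ∧
    ∃ n2 : ℕ, ∀ n, n2 ≤ n → ∀ a b : modularFunctionFieldBar N,
        a ∈ (h17_D2 N q A hA x0 hx).O → b ∈ (h17_D2 N q A hA x0 hx).O →
        (∀ v : Place Qb (modularFunctionFieldBar N),
          0 ≤ v.ord (x0 : modularFunctionFieldBar N) → 0 ≤ v.ord a) →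
        (∀ v : Place Qb (modularFunctionFieldBar N),
          v.ord (x0 : modularFunctionFieldBar N) ≤ 0 → 0 ≤ v.ord b) →
        (h17_D2 N q A hA x0 hx).redF a =
          (h17_D2 N q A hA x0 hx).redF (x0 : modularFunctionFieldBar N) ^ n *
            (h17_D2 N q A hA x0 hx).redF b →
        ∃ f : modularFunctionFieldBar N, f ∈ riemannRochSpace (n • D0) ∧
          f ∈ (h17_D2 N q A hA x0 hx).O ∧
          (h17_D2 N q A hA x0 hx).redF f = (h17_D2 N q A hA x0 hx).redF a :=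
  h17_fibreLat_eshort _ _ _ hx hfin (fun P => h75_deg_eq_one hx P) D0 hD0

/-- **(COORD)**: an `H`-fixed function lies in the lattice iff it is integral over the Gauss
ring of `(A0, x0)`:  `F0 ∩ O = O_0`. -/
theorem h17_D2_coord (g : h69_F0 N (A.inertiaSubgroupIn ℚ)) :
    (g : modularFunctionFieldBar N) ∈ (h17_D2 N q A hA x0 hx).O ↔
      h97_IsInt (h97_gaussVal (h69_A0 A) x0
        (h69_inst_transcendental N (A.inertiaSubgroupIn ℚ) x0 hx.tr)) g := by
  haveI := h69_inst_finite_of_chart N (A.inertiaSubgroupIn ℚ) x0 hx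
  exact h97_D4_coord (algebraMap (h69_K0 (A.inertiaSubgroupIn ℚ)) Qb)
    (h69_F0 N (A.inertiaSubgroupIn ℚ)).subtype
    (h69_inst_comm N (A.inertiaSubgroupIn ℚ)) (h69_A0 A) A (fun _ ha => ha) (fun _ ha => ha) x0
    (h69_inst_transcendental N (A.inertiaSubgroupIn ℚ) x0 hx.tr)
    (x0 : modularFunctionFieldBar N) rfl hx.tr
    (q : h69_K0 (A.inertiaSubgroupIn ℚ)) (h17_mod_hw q A) (h17_mod_hwi q A hA)
    (h17_mod_dv q A hA)
    (fun {ι} _ g hli => h69_inst_ld N (A.inertiaSubgroupIn ℚ) g hli) g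

/-- **(hdiv)**, element form: an `H`-fixed function of the lattice with zero reduction is `q`
times an `H`-fixed function of the lattice. -/
theorem h17_D2_hdiv_elt (g : h69_F0 N (A.inertiaSubgroupIn ℚ))
    (hg : (g : modularFunctionFieldBar N) ∈ (h17_D2 N q A hA x0 hx).O)
    (hred : (h17_D2 N q A hA x0 hx).red ⟨(g : modularFunctionFieldBar N), hg⟩ = 0) :
    ∃ g' : h69_F0 N (A.inertiaSubgroupIn ℚ),
      (g' : modularFunctionFieldBar N) ∈ (h17_D2 N q A hA x0 hx).O ∧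
      (g : modularFunctionFieldBar N) = (q : Qb) • (g' : modularFunctionFieldBar N) := by
  haveI := h69_inst_finite_of_chart N (A.inertiaSubgroupIn ℚ) x0 hx
  obtain ⟨g', hg', hgg'⟩ := h97_D4_red_eq_zero (algebraMap (h69_K0 (A.inertiaSubgroupIn ℚ)) Qb)
    (h69_F0 N (A.inertiaSubgroupIn ℚ)).subtype
    (h69_inst_comm N (A.inertiaSubgroupIn ℚ)) (h69_A0 A) A (fun _ ha => ha) (fun _ ha => ha) x0
    (h69_inst_transcendental N (A.inertiaSubgroupIn ℚ) x0 hx.tr)
    (x0 : modularFunctionFieldBar N) rfl hx.tr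
    (q : h69_K0 (A.inertiaSubgroupIn ℚ)) (h17_mod_hw q A) (h17_mod_hwi q A hA)
    (h17_mod_dv q A hA)
    (fun {ι} _ g hli => h69_inst_ld N (A.inertiaSubgroupIn ℚ) g hli)
    (h69_inst_span N (A.inertiaSubgroupIn ℚ)) g hg hred
  refine ⟨g', hg', ?_⟩
  have h1 := congrArg (fun t : h69_F0 N (A.inertiaSubgroupIn ℚ) =>
    (t : modularFunctionFieldBar N)) hgg'
  rw [h1, Algebra.smul_def]
  show ((algebraMap (h69_K0 (A.inertiaSubgroupIn ℚ)) (h69_F0 N (A.inertiaSubgroupIn ℚ))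
    (q : h69_K0 (A.inertiaSubgroupIn ℚ)) : h69_F0 N (A.inertiaSubgroupIn ℚ)) :
      modularFunctionFieldBar N) * (g' : modularFunctionFieldBar N) = _
  rw [h69_inst_comm]
  congr 2

/-- **(hdiv)**: the `hdiv` binder of `h46_span_Rd_of_form` for the `H`-fixed functions. -/
theorem h17_D2_hdiv (f : modularFunctionFieldBar N) (hf0 : f ∈ h69_F0 N (A.inertiaSubgroupIn ℚ))
    (hfO : f ∈ (h17_D2 N q A hA x0 hx).O) (hred : (h17_D2 N q A hA x0 hx).redF f = 0) :
    (q : Qb)⁻¹ • f ∈ h69_F0 N (A.inertiaSubgroupIn ℚ) ∧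
      (q : Qb)⁻¹ • f ∈ (h17_D2 N q A hA x0 hx).O := by
  have hq : q.Prime := Fact.out
  have hq0 : (q : Qb) ≠ 0 := by exact_mod_cast hq.ne_zero
  rw [h22_Lat.redF_of_mem _ hfO] at hred
  obtain ⟨g', hg', hgg'⟩ := h17_D2_hdiv_elt N q A hA x0 hx ⟨f, hf0⟩ hfO hred
  have h1 : (q : Qb)⁻¹ • f = (g' : modularFunctionFieldBar N) := by
    have h2 : f = (q : Qb) • (g' : modularFunctionFieldBar N) := hgg'
    rw [h2, smul_smul, inv_mul_cancel₀ hq0, one_smul]
  rw [h1]
  exact ⟨g'.2, hg'⟩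

include hA in
/-- `q` reduces to zero: multiples of `q` in the lattice have zero reduction. -/
theorem h17_D2_redF_q_smul (g : modularFunctionFieldBar N)
    (hg : g ∈ (h17_D2 N q A hA x0 hx).O) :
    (q : Qb) • g ∈ (h17_D2 N q A hA x0 hx).O ∧
      (h17_D2 N q A hA x0 hx).redF ((q : Qb) • g) = 0 := by
  have hqA : (q : Qb) ∈ (h17_D2 N q A hA x0 hx).A := natCast_mem A q
  have hqO : algebraMap Qb (modularFunctionFieldBar N) (q : Qb) ∈ (h17_D2 N q A hA x0 hx).O :=
    ((h17_D2 N q A hA x0 hx).mem_iff _).mp hqA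
  have hmem : (q : Qb) • g ∈ (h17_D2 N q A hA x0 hx).O := by
    rw [Algebra.smul_def]
    exact Subring.mul_mem _ hqO hg
  refine ⟨hmem, ?_⟩
  rw [h22_Lat.redF_of_mem _ hmem]
  have h1 : (⟨(q : Qb) • g, hmem⟩ : (h17_D2 N q A hA x0 hx).O) =
      ⟨algebraMap Qb (modularFunctionFieldBar N) (q : Qb), hqO⟩ * ⟨g, hg⟩ := by
    apply Subtype.ext
    show (q : Qb) • g = algebraMap Qb (modularFunctionFieldBar N) (q : Qb) * g
    rw [Algebra.smul_def]
  rw [h1, map_mul, (h17_D2 N q A hA x0 hx).red_algebraMap _ hqA hqO]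
  have h2 : (h17_D2 N q A hA x0 hx).res ⟨(q : Qb), hqA⟩ = 0 := by
    show IsLocalRing.residue A ⟨(q : Qb), hqA⟩ = 0
    rw [IsLocalRing.residue_eq_zero_iff]
    obtain ⟨h3, h4⟩ := ValuationSubring.mem_nonunits_iff_exists_mem_maximalIdeal.mp hA
    exact h4
  rw [h2, map_zero, zero_mul]

end Mod

/-! ### The chart `j` -/

section Jbar

variable (N : ℕ) (H : Subgroup (Qb ≃ₐ[ℚ] Qb))

/-- `j` as an element of `F0`. -/
def h17_jbar0 : h69_F0 N H :=
  ⟨h59_jbar N, (h69_mem_F0 N H _).mpr fun σ _ => Fermat.Agent.S19.h2_jbar_fix N σ⟩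

theorem h17_jbar0_coe : ((h17_jbar0 N H : h69_F0 N H) : modularFunctionFieldBar N) =
    h59_jbar N := rfl

theorem h17_jbar0_chart [NeZero N] :
    h75_IsChart Qb ((h17_jbar0 N H : h69_F0 N H) : modularFunctionFieldBar N) :=
  h54_isChart_jbar N

end Jbar

/-! ### The lattice of level `N` for the chart `j`, with its chart divisors -/

section JbarLat

variable (N : ℕ) [NeZero N] (q : ℕ) [Fact q.Prime] (A : ValuationSubring Qb)
  (hA : A.LiesOverPrime q)

/-- **The polar divisor of `j`** at level `N`. -/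
def h17_E1 : Divisor Qb (modularFunctionFieldBar N) :=
  haveI := h75_hasPrincipalDivisors (h54_isChart_jbar N)
  (h5_jbar_chart_divisors N).choose

/-- **The zero divisor of `j`** at level `N`. -/
def h17_E2 : Divisor Qb (modularFunctionFieldBar N) :=
  haveI := h75_hasPrincipalDivisors (h54_isChart_jbar N)
  (h5_jbar_chart_divisors N).choose_spec.choose

/-- The chart binders of `h46_principal_of_local_hom` / `h29_geomN_of_loc_jbar` for
`x = j`, `E1 = h17_E1 N`, `E2 = h17_E2 N`, and their Galois invariance. -/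
theorem h17_E_spec :
    (∀ v : Place Qb (modularFunctionFieldBar N), h17_E1 N v = max 0 (-v.ord (h59_jbar N))) ∧
    (∀ v : Place Qb (modularFunctionFieldBar N), 0 ≤ h17_E1 N v) ∧
    (∀ v : Place Qb (modularFunctionFieldBar N), 0 ≤ h17_E2 N v) ∧
    (∀ v : Place Qb (modularFunctionFieldBar N), h17_E1 N v = 0 ∨ h17_E2 N v = 0) ∧
    (∀ v : Place Qb (modularFunctionFieldBar N),
      v.ord (h59_jbar N) = h17_E2 N v - h17_E1 N v) ∧
    (∀ σ : Qb ≃ₐ[ℚ] Qb, arithmeticGalois (modularFunctionFieldFull N) σ • h17_E1 N = h17_E1 N) ∧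
    (∀ σ : Qb ≃ₐ[ℚ] Qb, arithmeticGalois (modularFunctionFieldFull N) σ • h17_E2 N = h17_E2 N) :=
  haveI := h75_hasPrincipalDivisors (h54_isChart_jbar N)
  (h5_jbar_chart_divisors N).choose_spec.choose_spec

/-- **THE lattice of level `N`** (chart `j`, valuation ring `A` over `q`): the D4 lattice. -/
abbrev h17_D2j : h22_Lat Qb (modularFunctionFieldBar N) (IsLocalRing.ResidueField A)
    (h17_D2Rb N q A hA (h17_jbar0 N (A.inertiaSubgroupIn ℚ))
      (h17_jbar0_chart N (A.inertiaSubgroupIn ℚ))) :=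
  h17_D2 N q A hA (h17_jbar0 N (A.inertiaSubgroupIn ℚ))
    (h17_jbar0_chart N (A.inertiaSubgroupIn ℚ))

/-- `j` lies in the lattice. -/
theorem h17_D2j_x_mem : h59_jbar N ∈ (h17_D2j N q A hA).O :=
  h17_D2_x_mem N q A hA _ _

/-- `j⁻¹` lies in the lattice. -/
theorem h17_D2j_x_inv_mem : (h59_jbar N)⁻¹ ∈ (h17_D2j N q A hA).O :=
  h17_D2_x_inv_mem N q A hA _ _

/-- **(GEN)** for the lattice of level `N` and `E1 = h17_E1 N`: the `hgen` binder of
`h46_principal_of_local_hom` / `h61_principal_of_loc` / `h29_geomN_of_loc_jbar`. -/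
theorem h17_D2j_gen :
    ∃ N0 : ℕ, ∀ n, N0 ≤ n → ∀ a ∈ h51_Rd (h17_D2j N q A hA) ((n + 1) • h17_E1 N),
      ∃ b ∈ h51_Rd (h17_D2j N q A hA) (n • h17_E1 N),
      ∃ c ∈ h51_Rd (h17_D2j N q A hA) (n • h17_E1 N),
        a = b + (h17_D2j N q A hA).redF (h59_jbar N) * c :=
  h17_D2_gen N q A hA _ _ (h17_E1 N) (h17_E_spec N).1

end JbarLat

end Fermat.Agent.S36

end
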