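import Mathlib
import Fermat.Agent.S36.h98_NRVal
import Fermat.Agent.S34.h60_ValPB
import Fermat.Agent.S34.h60_R2
import Fermat.Agent.S36.h69_K0
import Fermat.Agent.S19.h2_ModChartJ
import Fermat.Agent.S36.h22_IntSer
import Fermat.Agent.S36.h98_GaussFun

/-!
# S36 / I-VAL, (VAL-TABLE): the restriction table of the three Gauss orders at level `M q²`

Parametric in the embeddings (binder shapes of `S36/h49_MidGal`): `i0 = α`, `i2 = β ∘ w` from
`F(M q)` to `F(M q²)`, the swap `W` of `F(M q²)` (`W ∘ i0 = i2`, `W ∘ i2 = i0`) and a middle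
embedding `mid` (`mid ∘ i0 = coe`, `mid ∘ i2 = twist_ζ ∘ coe`).  In the language of `h98_GV`.

* `h69_GV_qExpand`, `h69_GV_twist`, `h69_GV_twistHom` : Gauss orders are invariant under
  `t ↦ t^m` and under `t ↦ ζ t` (`ζ` a `q`-th root of unity, residue characteristic `q`).
* `h69_tab_std_i0`, `h69_tab_std_i2`, `h69_tab_std_beta` : the table on `C20`.
* `h69_tab_mid_i0`, `h69_tab_mid_i2` : the table on `C11`.
* `h69_tab_conj_i0`, `h69_tab_conj_i2` : the table on `C02`.
* `h69_tab_sep` : orders `(0, 0, m)` of `i0 h0` and `(m, 0, 0)` of `i2 h0` for a level-`q`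
  separator `h0`.
-/

set_option autoImplicit false
set_option synthInstance.maxHeartbeats 400000

noncomputable section

open ModularCurve AlgebraicCurve

namespace Fermat.Agent.S36

open Fermat.Agent.S34 Fermat.Agent.S37 Fermat.Agent.S24 Fermat.Agent.S18

local notation "Qb" => AlgebraicClosure ℚ

/-! ## Series level -/

section Series

variable {K : Type*} [Field K] {A : ValuationSubring K}

/-- The structure map of `K((t))` is the constant-series map. -/
theorem h69_algebraMap_eq_single (c : K) :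
    algebraMap K (LaurentSeries K) c = HahnSeries.single 0 c := by
  have h1 : algebraMap K (PowerSeries K) c = PowerSeries.C c := by simp
  rw [HahnSeries.algebraMap_apply', h1, HahnSeries.ofPowerSeries_C]
  rfl

/-- `t ↦ t^m` fixes constants. -/
theorem h69_qExpand_algebraMap (m : ℕ) [NeZero m] (c : K) :
    qExpand K m (algebraMap K (LaurentSeries K) c) = algebraMap K (LaurentSeries K) c := by
  rw [h69_algebraMap_eq_single]
  exact qExpand_C (R := K) (N := m) c

/-- **Gauss orders are invariant under `t ↦ t^m`.** -/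
theorem h69_GV_qExpand (m : ℕ) [NeZero m] {π : K} {s : LaurentSeries K} {n : ℤ}
    (h : h98_GV A π s n) : h98_GV A π (qExpand K m s) n := by
  obtain ⟨h1, h2⟩ := h
  refine h98_GV_of_eq (h60_qExpand_mem A m h1) ?_ ?_
  · have h3 := h60_rs_qExpand A m ⟨_, h1⟩
    rw [h3]
    intro h0
    exact h2 (qExpand_injective (R := IsLocalRing.ResidueField A) m (by rw [h0, map_zero]))
  · rw [map_mul, h69_qExpand_algebraMap]

/-- The twist by a unit fixes constants. -/
theorem h69_twist_algebraMap (c : Kˣ) (a : K) :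
    h87_twist c (algebraMap K (LaurentSeries K) a) = algebraMap K (LaurentSeries K) a := by
  ext n
  rw [h87_twist_coeff]
  rw [h69_algebraMap_eq_single]
  by_cases hn : n = 0
  · subst hn
    simp
  · rw [HahnSeries.coeff_single_of_ne hn, mul_zero]

/-- **Gauss orders are invariant under `t ↦ ζ t`**, `ζ` a unit of `A` reducing to `1`. -/
theorem h69_GV_twist (ζ : Aˣ)
    (hζ : Units.map ((IsLocalRing.residue A : A →+* IsLocalRing.ResidueField A) :
      A →* IsLocalRing.ResidueField A) ζ = 1)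
    {π : K} {s : LaurentSeries K} {n : ℤ} (h : h98_GV A π s n) :
    h98_GV A π (h87_twist (Units.map ((A.subtype : A →+* K) : A →* K) ζ) s) n := by
  obtain ⟨h1, h2⟩ := h
  refine h98_GV_of_eq (h60_twist_mem A ζ h1) ?_ ?_
  · have h3 := h60_rs_twist A ζ hζ ⟨_, h1⟩
    rw [h3]
    exact h2
  · rw [map_mul, h69_twist_algebraMap]

/-- A root of unity lies in every valuation subring. -/
theorem h69_root_mem (A : ValuationSubring K) {ζ : K} {m : ℕ} (hm : m ≠ 0) (h : ζ ^ m = 1) :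
    ζ ∈ A := by
  rcases A.mem_or_inv_mem ζ with h1 | h1
  · exact h1
  · have h2 : ζ = ζ⁻¹ ^ (m - 1) := by
      have hζ0 : ζ ≠ 0 := by
        rintro rfl
        rw [zero_pow hm] at h
        exact zero_ne_one h
      have h3 : ζ ^ (m - 1) * ζ = 1 := by
        rw [← pow_succ, Nat.sub_add_cancel (Nat.pos_of_ne_zero hm), h]
      rw [inv_pow]
      exact eq_inv_of_mul_eq_one_right h3
    rw [h2]
    exact pow_mem h1 _

end Series

section SeriesQb

variable {A : ValuationSubring Qb}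

/-- **Gauss orders are invariant under `t ↦ ζ t`** for a `q`-th root of unity `ζ`, in residue
characteristic `q` (`h59_twistHom` form). -/
theorem h69_GV_twistHom (q : ℕ) [Fact q.Prime] [CharP (IsLocalRing.ResidueField A) q]
    (ζ : Qb) (hζ0 : ζ ≠ 0) (hζ : ζ ^ q = 1)
    {π : Qb} {s : LaurentSeries Qb} {n : ℤ} (h : h98_GV A π s n) :
    h98_GV A π (h59_twistHom ζ hζ0 s) n := by
  have hq0 : q ≠ 0 := (Fact.out : q.Prime).ne_zero
  have hζA : ζ ∈ A := h69_root_mem A hq0 hζ
  have hζ' : ζ⁻¹ ^ q = 1 := by rw [inv_pow, hζ, inv_one]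
  have hζA' : ζ⁻¹ ∈ A := h69_root_mem A hq0 hζ'
  let u : Aˣ := ⟨⟨ζ, hζA⟩, ⟨ζ⁻¹, hζA'⟩, Subtype.ext (mul_inv_cancel₀ hζ0),
    Subtype.ext (inv_mul_cancel₀ hζ0)⟩
  have hu : u ^ q = 1 := by
    apply Units.ext
    apply Subtype.ext
    show ((u ^ q : Aˣ) : A).1 = 1
    rw [Units.val_pow_eq_pow_val]
    exact hζ
  have h1 := h69_GV_twist u (h60_units_map_residue A q u hu) h
  have h2 : h87_twist (Units.map ((A.subtype : A →+* Qb) : A →* Qb) u) s
      = h59_twistHom ζ hζ0 s := by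
    rw [h49_twist_eq]
    rfl
  rw [h2] at h1
  exact h1

end SeriesQb

/-! ## The table -/

section Table

variable (M q : ℕ) [NeZero M] [NeZero q] [Fact q.Prime] (hqM : ¬ q ∣ M)
  (A : ValuationSubring Qb)
  (i0 i2 : modularFunctionFieldBar (M * q) →+* modularFunctionFieldBar (M * q * q))
  (hi0 : ∀ g, i0 g = heckeAlphaBar Qb (M * q) q g)
  (hi2 : ∀ g, i2 g = heckeBetaBar Qb (M * q) q (h60_w M q hqM g))

include hi0 in
/-- The expansion of `i0 g` is the expansion of `g`. -/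
theorem h69_coe_i0 (g : modularFunctionFieldBar (M * q)) :
    ((i0 g : modularFunctionFieldBar (M * q * q)) : LaurentSeries Qb) = (g : LaurentSeries Qb) := by
  rw [hi0, coe_heckeAlphaBar]

include hi2 in
/-- The expansion of `i2 g` is the expansion of `w g` in `t^q`. -/
theorem h69_coe_i2 (g : modularFunctionFieldBar (M * q)) :
    ((i2 g : modularFunctionFieldBar (M * q * q)) : LaurentSeries Qb) =
      qExpand Qb q ((h60_w M q hqM g : modularFunctionFieldBar (M * q)) : LaurentSeries Qb) := by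
  rw [hi2, coe_heckeBetaBar]

include hi0 in
/-- **C20, `i0`**: `w2 0 ∘ i0 = wF`. -/
theorem h69_tab_std_i0 (π : Qb) (g : modularFunctionFieldBar (M * q)) (n : ℤ)
    (h : h98_GV A π (g : LaurentSeries Qb) n) :
    h98_GV A π ((i0 g : modularFunctionFieldBar (M * q * q)) : LaurentSeries Qb) n := by
  rw [h69_coe_i0 M q i0 hi0]
  exact h

include hi2 in
/-- **C20, `i2`**: `w2 0 ∘ i2 = wV`. -/
theorem h69_tab_std_i2 (π : Qb) (g : modularFunctionFieldBar (M * q)) (n : ℤ)
    (h : h98_GV A π ((h60_w M q hqM g : modularFunctionFieldBar (M * q)) : LaurentSeries Qb) n) :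
    h98_GV A π ((i2 g : modularFunctionFieldBar (M * q * q)) : LaurentSeries Qb) n := by
  rw [h69_coe_i2 M q hqM i2 hi2]
  exact h69_GV_qExpand q h

omit [Fact q.Prime] in
/-- **C20, `β`** (any level `N`): the Gauss order of `β g` is the Gauss order of `g`. -/
theorem h69_tab_std_beta (N : ℕ) [NeZero N] (π : Qb) (g : modularFunctionFieldBar N) (n : ℤ)
    (h : h98_GV A π (g : LaurentSeries Qb) n) :
    h98_GV A π ((heckeBetaBar Qb N q g : modularFunctionFieldBar (N * q)) : LaurentSeries Qb) n := by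
  rw [coe_heckeBetaBar]
  exact h69_GV_qExpand q h

omit [Fact q.Prime] in
/-- **C20, `α`** (any level `N`): the Gauss order of `α g` is the Gauss order of `g`. -/
theorem h69_tab_std_alpha (N : ℕ) [NeZero N] (π : Qb) (g : modularFunctionFieldBar N) (n : ℤ)
    (h : h98_GV A π (g : LaurentSeries Qb) n) :
    h98_GV A π ((heckeAlphaBar Qb N q g : modularFunctionFieldBar (N * q)) : LaurentSeries Qb)
      n := by
  rw [coe_heckeAlphaBar]
  exact h

section Mid

variable (ζ : Qb) (hζ0 : ζ ≠ 0) (hζ : ζ ^ q = 1)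
  (mid : modularFunctionFieldBar (M * q * q) →+* LaurentSeries Qb)
  (hmid0 : ∀ g : modularFunctionFieldBar (M * q), mid (i0 g) = (g : LaurentSeries Qb))
  (hmid2 : ∀ g : modularFunctionFieldBar (M * q),
    mid (i2 g) = h59_twistHom ζ hζ0 (g : LaurentSeries Qb))
  (π ϖ ε : Qb) (hε : ε ∈ A) (hε' : ε⁻¹ ∈ A) (hε0 : ε ≠ 0) (hϖ : ϖ ^ (q - 1) = π * ε)

include hmid0 hε hε' hε0 hϖ in
omit [Fact q.Prime] in
/-- **C11, `i0`**: `w2 1 ∘ i0 = (q - 1) wF`. -/
theorem h69_tab_mid_i0 (g : modularFunctionFieldBar (M * q)) (n : ℤ)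
    (h : h98_GV A π (g : LaurentSeries Qb) n) :
    h98_GV A ϖ (mid (i0 g)) (((q - 1 : ℕ) : ℤ) * n) := by
  rw [hmid0]
  exact h98_GV_change hε hε' hε0 hϖ h

include hζ hmid2 hε hε' hε0 hϖ in
/-- **C11, `i2`**: `w2 1 ∘ i2 = (q - 1) wF`. -/
theorem h69_tab_mid_i2 [CharP (IsLocalRing.ResidueField A) q]
    (g : modularFunctionFieldBar (M * q)) (n : ℤ)
    (h : h98_GV A π (g : LaurentSeries Qb) n) :
    h98_GV A ϖ (mid (i2 g)) (((q - 1 : ℕ) : ℤ) * n) := by
  rw [hmid2]
  exact h69_GV_twistHom q ζ hζ0 hζ (h98_GV_change hε hε' hε0 hϖ h)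

end Mid

section Conj

variable (W : modularFunctionFieldBar (M * q * q) →+* modularFunctionFieldBar (M * q * q))
  (hW0 : ∀ g : modularFunctionFieldBar (M * q), W (i0 g) = i2 g)
  (hW2 : ∀ g : modularFunctionFieldBar (M * q), W (i2 g) = i0 g)

include hi2 hW0 in
/-- **C02, `i0`**: `w2 2 ∘ i0 = wV`. -/
theorem h69_tab_conj_i0 (π : Qb) (g : modularFunctionFieldBar (M * q)) (n : ℤ)
    (h : h98_GV A π ((h60_w M q hqM g : modularFunctionFieldBar (M * q)) : LaurentSeries Qb) n) :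
    h98_GV A π ((W (i0 g) : modularFunctionFieldBar (M * q * q)) : LaurentSeries Qb) n := by
  rw [hW0]
  exact h69_tab_std_i2 M q hqM A i2 hi2 π g n h

include hi0 hW2 in
/-- **C02, `i2`**: `w2 2 ∘ i2 = wF`. -/
theorem h69_tab_conj_i2 (π : Qb) (g : modularFunctionFieldBar (M * q)) (n : ℤ)
    (h : h98_GV A π (g : LaurentSeries Qb) n) :
    h98_GV A π ((W (i2 g) : modularFunctionFieldBar (M * q * q)) : LaurentSeries Qb) n := by
  rw [hW2]
  exact h69_tab_std_i0 M q A i0 hi0 π g n h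

end Conj

end Table

/-! ## A level-`q` separator -/

section Sep

variable (M q : ℕ) [NeZero M] [NeZero q]

/-- **The level-`q` separator** `h0 = j - (β j)^q`, with expansion `j(t) - j(t^q)^q`: a unit on
the standard expansion, of positive order after the swap `w`. -/
def h69_sep : modularFunctionFieldBar (M * q) :=
  h59_jbar (M * q) - heckeBetaBar Qb M q (h59_jbar M) ^ q

theorem h69_coe_sep :
    ((h69_sep M q : modularFunctionFieldBar (M * q)) : LaurentSeries Qb) =
      coeffEmb Qb jq - qExpand Qb q (coeffEmb Qb jq) ^ q := by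
  show ((h59_jbar (M * q) : modularFunctionFieldBar (M * q)) : LaurentSeries Qb) -
      ((heckeBetaBar Qb M q (h59_jbar M) : modularFunctionFieldBar (M * q)) :
        LaurentSeries Qb) ^ q = _
  rw [h59_coe_jbar, coe_heckeBetaBar, h59_coe_jbar]

/-- The separator is fixed by the whole Galois group. -/
theorem h69_sep_mem_F0 (H : Subgroup (Qb ≃ₐ[ℚ] Qb)) : h69_sep M q ∈ h69_F0 (M * q) H := by
  intro σ _
  refine Fermat.Agent.S19.h2_gal_fix_of_rat (M * q) _ (jq - qExpand ℚ q jq ^ q) ?_ σ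
  rw [h69_coe_sep, map_sub, map_pow, coeffMap_qExpand]
  rfl

variable [Fact q.Prime] (hqM : ¬ q ∣ M)

theorem h69_w_sep :
    h60_w M q hqM (h69_sep M q) =
      heckeBetaBar Qb M q (h59_jbar M) - h59_jbar (M * q) ^ q := by
  rw [h69_sep, map_sub, map_pow, h60_w_beta, ← h19_heckeAlphaBar_jbar M q, h60_w_alpha]

theorem h69_coe_w_sep :
    ((h60_w M q hqM (h69_sep M q) : modularFunctionFieldBar (M * q)) : LaurentSeries Qb) =
      qExpand Qb q (coeffEmb Qb jq) - coeffEmb Qb jq ^ q := by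
  rw [h69_w_sep]
  show ((heckeBetaBar Qb M q (h59_jbar M) : modularFunctionFieldBar (M * q)) :
      LaurentSeries Qb) - ((h59_jbar (M * q) : modularFunctionFieldBar (M * q)) :
        LaurentSeries Qb) ^ q = _
  rw [h59_coe_jbar, coe_heckeBetaBar, h59_coe_jbar]

variable (A : ValuationSubring Qb)

/-- **(S1)** the separator is a Gauss unit on the standard expansion. -/
theorem h69_sep_unit :
    ∃ h : ((h69_sep M q : modularFunctionFieldBar (M * q)) : LaurentSeries Qb) ∈ h60_Os A,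
      h60_rs A ⟨_, h⟩ ≠ 0 := by
  set J : h60_Os A := h60_JOs A with hJ
  set x : h60_Os A :=
    J - ⟨qExpand Qb q (J : LaurentSeries Qb), h60_qExpand_mem A q J.2⟩ ^ q with hx
  have hxc : (x : LaurentSeries Qb) =
      ((h69_sep M q : modularFunctionFieldBar (M * q)) : LaurentSeries Qb) := by
    rw [h69_coe_sep, ← h60_coe_JOs A]
    rfl
  have hrs : h60_rs A x = jqModC (IsLocalRing.ResidueField A) -
      qExpand (IsLocalRing.ResidueField A) q (jqModC (IsLocalRing.ResidueField A)) ^ q := by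
    rw [hx, map_sub, map_pow, h60_rs_qExpand, hJ, h60_rs_JOs]
  obtain ⟨ht, hrt⟩ := h98_rs_congr x.2 hxc
  refine ⟨ht, ?_⟩
  rw [hrt]
  show h60_rs A x ≠ 0
  rw [hrs]
  intro h0
  have h1 := congrArg (fun z : LaurentSeries (IsLocalRing.ResidueField A) => z.coeff (-1)) h0
  simp only [HahnSeries.coeff_sub, HahnSeries.coeff_zero] at h1
  rw [← map_pow, qExpand_coeff_of_not_dvd q _ (h60_not_dvd_neg_one q), coeff_jqModC_neg_one,
    sub_zero] at h1
  exact one_ne_zero h1

/-- **(S2)** after the swap `w` the separator is Gauss-integral with reduction `0`. -/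
theorem h69_w_sep_red [CharP (IsLocalRing.ResidueField A) q] :
    ∃ h : ((h60_w M q hqM (h69_sep M q) : modularFunctionFieldBar (M * q)) :
        LaurentSeries Qb) ∈ h60_Os A, h60_rs A ⟨_, h⟩ = 0 := by
  set J : h60_Os A := h60_JOs A with hJ
  set x : h60_Os A :=
    ⟨qExpand Qb q (J : LaurentSeries Qb), h60_qExpand_mem A q J.2⟩ - J ^ q with hx
  have hxc : (x : LaurentSeries Qb) =
      ((h60_w M q hqM (h69_sep M q) : modularFunctionFieldBar (M * q)) : LaurentSeries Qb) := by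
    rw [h69_coe_w_sep, ← h60_coe_JOs A]
    rfl
  have hrs : h60_rs A x = 0 := by
    rw [hx, map_sub, map_pow, h60_rs_qExpand, hJ, h60_rs_JOs,
      h60_jq_pow (IsLocalRing.ResidueField A) q, sub_self]
  obtain ⟨ht, hrt⟩ := h98_rs_congr x.2 hxc
  exact ⟨ht, hrt.trans hrs⟩

/-- The separator has Gauss order `0` on the standard expansion. -/
theorem h69_sep_GV (π : Qb) :
    h98_GV A π ((h69_sep M q : modularFunctionFieldBar (M * q)) : LaurentSeries Qb) 0 := by
  obtain ⟨h1, h2⟩ := h69_sep_unit M q A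
  refine h98_GV_of_eq h1 h2 ?_
  rw [neg_zero, zpow_zero, map_one, one_mul]

/-- After the swap `w` every Gauss order of the separator is positive. -/
theorem h69_w_sep_GV_pos [CharP (IsLocalRing.ResidueField A) q] {π : Qb} (hπ0 : π ≠ 0)
    (hπA : π ∈ A) (hπn : π⁻¹ ∉ A) (m : ℤ)
    (h : h98_GV A π ((h60_w M q hqM (h69_sep M q) : modularFunctionFieldBar (M * q)) :
      LaurentSeries Qb) m) : 0 < m :=
  (h98_GV_pos_iff hπ0 hπA hπn h).mpr (h69_w_sep_red M q hqM A)

end Sep

/-! ## Existence of the standard Gauss order, `F0`-membership, and the separator orders -/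

section Orders

/-- **(GV-EX-std)** every nonzero inertia-fixed function of level `N` has a `q`-adic Gauss order
on the standard expansion (`h22_int_ser` in the `h98_GV` language). -/
theorem h69_gv_ex_std (q : ℕ) [Fact q.Prime] (A : ValuationSubring Qb) (hA : A.LiesOverPrime q)
    (N : ℕ) [NeZero N] (f : modularFunctionFieldBar N) (hf : f ≠ 0)
    (hfix : f ∈ h69_F0 N (A.inertiaSubgroupIn ℚ)) :
    ∃ n : ℤ, h98_GV A (q : Qb) (f : LaurentSeries Qb) n := by
  obtain ⟨n, y₁, y₂, hy1, hy2, h⟩ := h22_int_ser q A hA N f hf hfix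
  have hq0 : (q : Qb) ≠ 0 := by exact_mod_cast (Fact.out : q.Prime).ne_zero
  have hc : (((algebraMap Qb (modularFunctionFieldBar N) ((q : Qb) ^ n))⁻¹ * f :
      modularFunctionFieldBar N) : LaurentSeries Qb) =
      algebraMap Qb (LaurentSeries Qb) ((q : Qb) ^ (-n)) * (f : LaurentSeries Qb) := by
    rw [zpow_neg, ← map_inv₀]
    rfl
  rw [hc] at h
  have hmem : algebraMap Qb (LaurentSeries Qb) ((q : Qb) ^ (-n)) * (f : LaurentSeries Qb)
      ∈ h60_Os A := ⟨y₁, y₂, hy2, h⟩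
  refine ⟨n, hmem, fun h0 => hy1 ?_⟩
  have h1 := h60_rs_spec A ⟨_, hmem⟩ y₁ y₂ h
  rw [h0, zero_mul] at h1
  exact h1.symm

variable (M q : ℕ) [NeZero M] [NeZero q] [Fact q.Prime] (hqM : ¬ q ∣ M)
  (i0 i2 : modularFunctionFieldBar (M * q) →+* modularFunctionFieldBar (M * q * q))
  (hi0 : ∀ g, i0 g = heckeAlphaBar Qb (M * q) q g)
  (hi2 : ∀ g, i2 g = heckeBetaBar Qb (M * q) q (h60_w M q hqM g))

/-- `F0`-membership read on the expansion. -/
theorem h69_mem_F0_iff_coeff (N : ℕ) (H : Subgroup (Qb ≃ₐ[ℚ] Qb))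
    (f : modularFunctionFieldBar N) :
    f ∈ h69_F0 N H ↔
      ∀ σ ∈ H, coeffMap ((σ : Qb ≃ₐ[ℚ] Qb) : Qb →+* Qb) (f : LaurentSeries Qb) =
        (f : LaurentSeries Qb) := by
  constructor
  · intro h σ hσ
    have h1 := congrArg (fun z : modularFunctionFieldBar N => (z : LaurentSeries Qb)) (h σ hσ)
    exact h1
  · intro h σ hσ
    exact Subtype.ext (h σ hσ)

include hi0 in
omit [Fact q.Prime] in
/-- `i0` preserves the fixed functions. -/
theorem h69_i0_mem_F0 (H : Subgroup (Qb ≃ₐ[ℚ] Qb)) (g : modularFunctionFieldBar (M * q))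
    (hg : g ∈ h69_F0 (M * q) H) : i0 g ∈ h69_F0 (M * q * q) H := by
  rw [h69_mem_F0_iff_coeff] at hg ⊢
  intro σ hσ
  rw [hi0, coe_heckeAlphaBar]
  exact hg σ hσ

include hi2 in
/-- `i2` preserves the fixed functions. -/
theorem h69_i2_mem_F0 (H : Subgroup (Qb ≃ₐ[ℚ] Qb)) (g : modularFunctionFieldBar (M * q))
    (hg : g ∈ h69_F0 (M * q) H) : i2 g ∈ h69_F0 (M * q * q) H := by
  have hw : h60_w M q hqM g ∈ h69_F0 (M * q) H := by
    intro σ hσ
    have h1 := h60_w_galois M q hqM σ g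
    have h2 : arithmeticRingAut (modularFunctionFieldFull (M * q)) σ g = g := hg σ hσ
    rw [h2] at h1
    exact h1.symm
  rw [h69_mem_F0_iff_coeff] at hw ⊢
  intro σ hσ
  rw [hi2, coe_heckeBetaBar, coeffMap_qExpand, hw σ hσ]

/-- The swap `w` preserves the fixed functions. -/
theorem h69_w_mem_F0 (H : Subgroup (Qb ≃ₐ[ℚ] Qb)) (g : modularFunctionFieldBar (M * q))
    (hg : g ∈ h69_F0 (M * q) H) : h60_w M q hqM g ∈ h69_F0 (M * q) H := by
  intro σ hσ
  have h1 := h60_w_galois M q hqM σ g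
  have h2 : arithmeticRingAut (modularFunctionFieldFull (M * q)) σ g = g := hg σ hσ
  rw [h2] at h1
  exact h1.symm

variable (A : ValuationSubring Qb) (hA : A.LiesOverPrime q)
  (ζ : Qb) (hζ0 : ζ ≠ 0) (hζ : ζ ^ q = 1)
  (mid : modularFunctionFieldBar (M * q * q) →+* LaurentSeries Qb)
  (hmid0 : ∀ g : modularFunctionFieldBar (M * q), mid (i0 g) = (g : LaurentSeries Qb))
  (hmid2 : ∀ g : modularFunctionFieldBar (M * q),
    mid (i2 g) = h59_twistHom ζ hζ0 (g : LaurentSeries Qb))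
  (ϖ ε : Qb) (hε : ε ∈ A) (hε' : ε⁻¹ ∈ A) (hε0 : ε ≠ 0) (hϖ : ϖ ^ (q - 1) = (q : Qb) * ε)
  (W : modularFunctionFieldBar (M * q * q) →+* modularFunctionFieldBar (M * q * q))
  (hW0 : ∀ g : modularFunctionFieldBar (M * q), W (i0 g) = i2 g)
  (hW2 : ∀ g : modularFunctionFieldBar (M * q), W (i2 g) = i0 g)

include hA hi0 hi2 hζ hmid0 hmid2 hε hε' hε0 hϖ hW0 hW2 in
/-- **The separator orders.**  `i0 h0` has Gauss orders `(0, 0, m)` and `i2 h0` has Gauss orders
`(m, 0, 0)` on `(C20, C11, C02)`, with `m > 0`; `h0 = h69_sep M q`. -/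
theorem h69_tab_sep [CharP (IsLocalRing.ResidueField A) q] (hqA : (q : Qb)⁻¹ ∉ A) :
    ∃ m : ℤ, 0 < m ∧
      h98_GV A (q : Qb) ((i0 (h69_sep M q) : modularFunctionFieldBar (M * q * q)) :
        LaurentSeries Qb) 0 ∧
      h98_GV A ϖ (mid (i0 (h69_sep M q))) 0 ∧
      h98_GV A (q : Qb) ((W (i0 (h69_sep M q)) : modularFunctionFieldBar (M * q * q)) :
        LaurentSeries Qb) m ∧
      h98_GV A (q : Qb) ((i2 (h69_sep M q) : modularFunctionFieldBar (M * q * q)) :
        LaurentSeries Qb) m ∧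
      h98_GV A ϖ (mid (i2 (h69_sep M q))) 0 ∧
      h98_GV A (q : Qb) ((W (i2 (h69_sep M q)) : modularFunctionFieldBar (M * q * q)) :
        LaurentSeries Qb) 0 := by
  have hq0 : (q : Qb) ≠ 0 := by exact_mod_cast (Fact.out : q.Prime).ne_zero
  have hqmem : (q : Qb) ∈ A := natCast_mem A q
  have h1 := h69_sep_GV M q A (q : Qb)
  have hne : h69_sep M q ≠ 0 := by
    rintro h
    apply h98_GV_ne_zero h1
    rw [h]
    rfl
  have hwne : h60_w M q hqM (h69_sep M q) ≠ 0 := (map_ne_zero _).mpr hne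
  obtain ⟨m, hm⟩ := h69_gv_ex_std q A hA (M * q) _ hwne
    (h69_w_mem_F0 M q hqM _ _ (h69_sep_mem_F0 M q _))
  have hmpos : 0 < m := h69_w_sep_GV_pos M q hqM A hq0 hqmem hqA m hm
  refine ⟨m, hmpos, h69_tab_std_i0 M q A i0 hi0 _ _ _ h1, ?_,
    h69_tab_conj_i0 M q hqM A i0 i2 hi2 W hW0 _ _ _ hm,
    h69_tab_std_i2 M q hqM A i2 hi2 _ _ _ hm, ?_,
    h69_tab_conj_i2 M q A i0 i2 hi0 W hW2 _ _ _ h1⟩
  · have h2 := h69_tab_mid_i0 M q A i0 mid hmid0 (q : Qb) ϖ ε hε hε' hε0 hϖ _ _ h1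
    rwa [mul_zero] at h2
  · have h2 := h69_tab_mid_i2 M q A i2 ζ hζ0 hζ mid hmid2 (q : Qb) ϖ ε hε hε' hε0 hϖ _ _ h1
    rwa [mul_zero] at h2

end Orders

end Fermat.Agent.S36
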