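import Mathlib
import Fermat.Agent.S36.h99_FundEq
import Fermat.Agent.S36.h97_LatD4Coord
import Fermat.Agent.S36.h75_GaussRing

/-!
# S36 / row I-VAL : (COMP3-M) in the carriers of the D4 lattice, generic (helper99)

Generic.  `K0 ⊆ F0` fields, `A0` a valuation subring of `K0` with uniformiser `w` (hypothesis
(DV), the shape of `h97_gaussVal_dvr`), `x0 ∈ F0` transcendental over `K0`,
`R0 := h97_gaussVal A0 x0 hx0` the Gauss ring of `(A0, x0)` inside `K0(x0)`.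

Given finitely many distinct normalised `ℤ`-valued valuations `v c` of `F0` with
`v c w = e c`, `v c ≥ 0` on the Gauss ring, residue-degree witnesses `b c j`, and
`[F0 : K0(x0)] ≤ ∑ e c * f c`:

* `h99_isInt_iff_elem` / `h99_isInt_iff` / `h99_isInt_iff_h75` :
  `h97_IsInt R0 g ↔ ∀ c, g = 0 ∨ 0 ≤ v c g`;
* `h99_comp3_iff_of_iff` / `h99_comp3_iff` / `h99_comp3_iff_h75` : **(COMP3)**
  `h97_IsInt R0 (h / w) ↔ ∀ c, h = 0 ∨ e c ≤ v c h`;
* `h99_latO_iff` / `h99_latO_iff_h75` : **(C3a) ∧ (C3b)**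
  `jF g ∈ h97_latO .. ↔ ∀ c, g = 0 ∨ 0 ≤ v c g`;
* `h99_D4_comp3_of_iff` / `h99_D4_comp3` / `h99_D4_comp3_h75` : **(C3c)**
  `(∀ c, h = 0 ∨ e c ≤ v c h) → jF h ∈ D.O ∧ D.redF (jF h) = 0` for `D := h97_D4 ..`.

Three forms of the two hypotheses about the Gauss ring:

* `_elem` : elementary (`h97_InGauss A0 x0 r`), no carrier in the statement;
* no suffix : POLYNOMIAL form - the Gauss property `hprim` (`v c (S(x0)) = 0` for primitive
  `S ∈ A0[X]`) and `hb` (`∑ P_j(x0) b_j` has valuation `0` as soon as some `P_j ∈ A0[X]` is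
  primitive); the denominators are cleared here (`h99_gauss_nonneg`, `h99_hb_gauss`);
* `_h75` : witnesses with coefficients in the subring `↥(h75_gaussRing A0 x0)` of `F0`
  (VERBATIM the conclusion of `h91_hb_mod`).

This is `h99_integral_iff` applied to the base ring `R0`.

Producers of the two polynomial hypotheses from a reduction map `ρ : O →+* L` on a subring
`O ∋ x0` of `F0` (`v = 0` on the elements of nonzero reduction): `h99_hprim_of_red`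
(`ρ x0` transcendental over the reduced constants) and `h99_hb_of_red_poly` (the `ρ (b j)`
independent over the polynomials in `ρ x0`).
-/

set_option autoImplicit false

open Polynomial IntermediateField

namespace Fermat.Agent.S36

section

variable {K0 F0 : Type*} [Field K0] [Field F0] [Algebra K0 F0]

/-- An element of the Gauss ring is `P(x0)/S(x0)` with `P, S` polynomials over `A0`, `S`
primitive. -/
theorem h99_inGauss_lift (A0 : ValuationSubring K0) (x0 : F0) {g : F0}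
    (hg : h97_InGauss A0 x0 g) :
    ∃ P S : Polynomial A0, S.map (IsLocalRing.residue A0) ≠ 0 ∧
      g * aeval x0 (S.map A0.subtype) = aeval x0 (P.map A0.subtype) := by
  obtain ⟨P, Q, hP, hQ, ⟨i, hi0, hi⟩, h⟩ := hg
  obtain ⟨P', hP'⟩ := h75_exists_lift A0 P hP
  obtain ⟨Q', hQ'⟩ := h75_exists_lift A0 Q hQ
  refine ⟨P', Q', fun h0 => ?_, by rw [hP', hQ']; exact h⟩
  have h1 : (Q'.map (IsLocalRing.residue A0)).coeff i = 0 := by rw [h0, coeff_zero]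
  rw [coeff_map] at h1
  have h2 : ((Q'.coeff i : A0) : K0) = Q.coeff i := by
    rw [← hQ', coeff_map]
    rfl
  have hu : IsUnit (Q'.coeff i) := by
    refine isUnit_iff_exists_inv.mpr ⟨⟨(Q.coeff i)⁻¹, hi⟩, Subtype.ext ?_⟩
    show ((Q'.coeff i : A0) : K0) * (Q.coeff i)⁻¹ = 1
    rw [h2, mul_inv_cancel₀ hi0]
  exact (IsLocalRing.residue_ne_zero_iff_isUnit _).mpr hu h1

theorem h99_aeval_ne_zero (A0 : ValuationSubring K0) {x0 : F0} (hx0 : Transcendental K0 x0)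
    {S : Polynomial A0} (hS : S.map (IsLocalRing.residue A0) ≠ 0) :
    aeval x0 (S.map A0.subtype) ≠ 0 := by
  intro h0
  have h1 : S.map A0.subtype = 0 := (transcendental_iff.mp hx0) _ h0
  have h2 : S = 0 := h75_map_subtype_injective A0 (by rw [h1, Polynomial.map_zero])
  rw [h2, Polynomial.map_zero] at hS
  exact hS rfl

theorem h99_w_prod_zero {w : F0 → ℤ} (hw : h99_IsVal w) {ι : Type*} (s : Finset ι) (g : ι → F0)
    (h : ∀ i ∈ s, g i ≠ 0 ∧ w (g i) = 0) : ∏ i ∈ s, g i ≠ 0 ∧ w (∏ i ∈ s, g i) = 0 := by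
  classical
  induction s using Finset.induction_on with
  | empty => simp [h99_w_one hw]
  | insert a s ha ih =>
    have h1 := h a (Finset.mem_insert_self a s)
    have h2 := ih fun i hi => h i (Finset.mem_insert_of_mem hi)
    rw [Finset.prod_insert ha]
    refine ⟨mul_ne_zero h1.1 h2.1, ?_⟩
    rw [hw.map_mul _ _ h1.1 h2.1, h1.2, h2.2]
    rfl

/-- Constants of `A0` have nonnegative valuation. -/
theorem h99_const_nonneg (A0 : ValuationSubring K0) (x0 : F0)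
    (w : K0) (hwA : w ∈ A0) (hwi : w⁻¹ ∉ A0)
    (hDV : ∀ c : K0, c ≠ 0 → ∃ (n : ℤ) (u : K0), u ∈ A0 ∧ u⁻¹ ∈ A0 ∧ c = w ^ n * u)
    {v : F0 → ℤ} (hv : h99_IsVal v) (e : ℕ) (he : v (algebraMap K0 F0 w) = e)
    (hprim : ∀ S : Polynomial A0, S.map (IsLocalRing.residue A0) ≠ 0 →
      v (aeval x0 (S.map A0.subtype)) = 0)
    (a : K0) (ha : a ∈ A0) (ha0 : a ≠ 0) : 0 ≤ v (algebraMap K0 F0 a) := by
  have hw0 : w ≠ 0 := by
    rintro rfl
    exact hwi (by rw [inv_zero]; exact A0.zero_mem)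
  obtain ⟨n, u, hu, hui, hau⟩ := hDV a ha0
  have hu0 : u ≠ 0 := by
    rintro rfl
    rw [mul_zero] at hau
    exact ha0 hau
  have hvu : v (algebraMap K0 F0 u) = 0 := by
    have hunit : IsUnit (⟨u, hu⟩ : A0) :=
      isUnit_iff_exists_inv.mpr ⟨⟨u⁻¹, hui⟩, Subtype.ext (mul_inv_cancel₀ hu0)⟩
    have h1 := hprim (C ⟨u, hu⟩) (by
      rw [Polynomial.map_C]
      exact C_ne_zero.mpr ((IsLocalRing.residue_ne_zero_iff_isUnit _).mpr hunit))
    rw [Polynomial.map_C, aeval_C] at h1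
    exact h1
  have hn : 0 ≤ n := by
    by_contra hneg
    push Not at hneg
    apply hwi
    have h1 : w ^ n ∈ A0 := by
      have h2 : w ^ n = a * u⁻¹ := by rw [hau, mul_assoc, mul_inv_cancel₀ hu0, mul_one]
      rw [h2]
      exact A0.mul_mem _ _ ha hui
    obtain ⟨m, rfl⟩ : ∃ m : ℕ, n = -((m : ℤ) + 1) := ⟨(-n - 1).toNat, by omega⟩
    have h3 : w ^ ((m : ℤ) + 1) = w ^ m * w := by rw [zpow_add₀ hw0, zpow_natCast, zpow_one]
    have h2 : w⁻¹ = w ^ m * w ^ (-((m : ℤ) + 1)) := by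
      rw [zpow_neg, h3]
      field_simp
    rw [h2]
    exact A0.mul_mem _ _ (A0.pow_mem hwA m) h1
  have hwF : algebraMap K0 F0 w ≠ 0 := (_root_.map_ne_zero _).mpr hw0
  have huF : algebraMap K0 F0 u ≠ 0 := (_root_.map_ne_zero _).mpr hu0
  rw [hau, map_mul, map_zpow₀, hv.map_mul _ _ (zpow_ne_zero _ hwF) huF, h99_w_zpow hv hwF, he, hvu]
  positivity

/-- Values of polynomials over `A0` at `x0` have nonnegative valuation. -/
theorem h99_poly_ge (A0 : ValuationSubring K0) (x0 : F0) (hx0 : Transcendental K0 x0)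
    (w : K0) (hwA : w ∈ A0) (hwi : w⁻¹ ∉ A0)
    (hDV : ∀ c : K0, c ≠ 0 → ∃ (n : ℤ) (u : K0), u ∈ A0 ∧ u⁻¹ ∈ A0 ∧ c = w ^ n * u)
    {v : F0 → ℤ} (hv : h99_IsVal v) (e : ℕ) (he : v (algebraMap K0 F0 w) = e)
    (hprim : ∀ S : Polynomial A0, S.map (IsLocalRing.residue A0) ≠ 0 →
      v (aeval x0 (S.map A0.subtype)) = 0)
    (P : Polynomial A0) : h99_Ge v 0 (aeval x0 (P.map A0.subtype)) := by
  have hx00 : x0 ≠ 0 := by
    rintro rfl
    have h1 := (transcendental_iff.mp hx0) X (by rw [aeval_X])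
    exact X_ne_zero h1
  have hvx : v x0 = 0 := by
    have h1 := hprim X (by rw [Polynomial.map_X]; exact X_ne_zero)
    rwa [Polynomial.map_X, aeval_X] at h1
  rw [aeval_eq_sum_range]
  refine h99_ge_sum hv _ _ fun i _ => ?_
  rw [Algebra.smul_def]
  have h1 : h99_Ge v 0 (algebraMap K0 F0 ((P.map A0.subtype).coeff i)) := by
    by_cases h0 : (P.map A0.subtype).coeff i = 0
    · left
      rw [h0, map_zero]
    · right
      exact h99_const_nonneg A0 x0 w hwA hwi hDV hv e he hprim _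
        (by rw [coeff_map]; exact (P.coeff i).2) h0
  have h2 : h99_Ge v 0 (x0 ^ i) := Or.inr (by rw [h99_w_pow hv hx00, hvx]; simp)
  simpa using h99_ge_mul hv h1 h2

/-- Elements of the Gauss ring have nonnegative valuation. -/
theorem h99_gauss_nonneg (A0 : ValuationSubring K0) (x0 : F0) (hx0 : Transcendental K0 x0)
    (w : K0) (hwA : w ∈ A0) (hwi : w⁻¹ ∉ A0)
    (hDV : ∀ c : K0, c ≠ 0 → ∃ (n : ℤ) (u : K0), u ∈ A0 ∧ u⁻¹ ∈ A0 ∧ c = w ^ n * u)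
    {v : F0 → ℤ} (hv : h99_IsVal v) (e : ℕ) (he : v (algebraMap K0 F0 w) = e)
    (hprim : ∀ S : Polynomial A0, S.map (IsLocalRing.residue A0) ≠ 0 →
      v (aeval x0 (S.map A0.subtype)) = 0)
    {r : F0} (hr : h97_InGauss A0 x0 r) (hr0 : r ≠ 0) : 0 ≤ v r := by
  obtain ⟨P, S, hS, h⟩ := h99_inGauss_lift A0 x0 hr
  have hSne := h99_aeval_ne_zero A0 hx0 hS
  have hvS := hprim S hS
  have hP := h99_poly_ge A0 x0 hx0 w hwA hwi hDV hv e he hprim P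
  rw [← h] at hP
  have h1 := hP.resolve_left (mul_ne_zero hr0 hSne)
  rw [hv.map_mul _ _ hr0 hSne, hvS] at h1
  omega

/-- The residue-degree witnesses with coefficients in the Gauss ring, from the polynomial form:
clear the (primitive) denominators. -/
theorem h99_hb_gauss (A0 : ValuationSubring K0) (x0 : F0) (hx0 : Transcendental K0 x0)
    {v : F0 → ℤ} (hv : h99_IsVal v)
    (hprim : ∀ S : Polynomial A0, S.map (IsLocalRing.residue A0) ≠ 0 →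
      v (aeval x0 (S.map A0.subtype)) = 0)
    {m : ℕ} (b : Fin m → F0)
    (hb : ∀ P : Fin m → Polynomial A0, (∃ j, (P j).map (IsLocalRing.residue A0) ≠ 0) →
      ∑ j, aeval x0 ((P j).map A0.subtype) * b j ≠ 0 ∧
        v (∑ j, aeval x0 ((P j).map A0.subtype) * b j) = 0)
    (r : Fin m → F0) (hr : ∀ j, h97_InGauss A0 x0 (r j))
    (j0 : Fin m) (hj0 : r j0 ≠ 0) (hj0i : h97_InGauss A0 x0 (r j0)⁻¹) :
    ∑ j, r j * b j ≠ 0 ∧ v (∑ j, r j * b j) = 0 := by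
  classical
  have hlift : ∀ j, ∃ P S : Polynomial A0, S.map (IsLocalRing.residue A0) ≠ 0 ∧
      r j * aeval x0 (S.map A0.subtype) = aeval x0 (P.map A0.subtype) :=
    fun j => h99_inGauss_lift A0 x0 (hr j)
  choose P S hS hPS using hlift
  obtain ⟨P', S', hS', hPS'⟩ := h99_inGauss_lift A0 x0 hj0i
  have hP0 : (P j0).map (IsLocalRing.residue A0) ≠ 0 := by
    have h1 : aeval x0 ((P j0 * P').map A0.subtype) = aeval x0 ((S j0 * S').map A0.subtype) := by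
      rw [Polynomial.map_mul, Polynomial.map_mul, map_mul, map_mul, ← hPS j0, ← hPS']
      field_simp
    have h2 : (P j0 * P').map A0.subtype = (S j0 * S').map A0.subtype :=
      (transcendental_iff_injective.mp hx0) h1
    have h3 : P j0 * P' = S j0 * S' := h75_map_subtype_injective A0 h2
    intro h0
    have h4 := congrArg (Polynomial.map (IsLocalRing.residue A0)) h3
    rw [Polynomial.map_mul, Polynomial.map_mul, h0, zero_mul] at h4
    exact mul_ne_zero (hS j0) hS' h4.symm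
  have hs0 := h99_w_prod_zero hv Finset.univ (fun i => aeval x0 ((S i).map A0.subtype))
    (fun i _ => ⟨h99_aeval_ne_zero A0 hx0 (hS i), hprim (S i) (hS i)⟩)
  set s := ∏ i, aeval x0 ((S i).map A0.subtype) with hs
  have hPt : ∀ j, aeval x0 ((P j * ∏ i ∈ Finset.univ.erase j, S i).map A0.subtype) = r j * s := by
    intro j
    rw [Polynomial.map_mul, Polynomial.map_prod, map_mul, map_prod, ← hPS j, mul_assoc,
      Finset.mul_prod_erase Finset.univ (fun i => aeval x0 ((S i).map A0.subtype))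
        (Finset.mem_univ j)]
  have hPt0 : (P j0 * ∏ i ∈ Finset.univ.erase j0, S i).map (IsLocalRing.residue A0) ≠ 0 := by
    rw [Polynomial.map_mul, Polynomial.map_prod]
    exact mul_ne_zero hP0 (Finset.prod_ne_zero_iff.mpr fun i _ => hS i)
  obtain ⟨h1, h2⟩ := hb (fun j => P j * ∏ i ∈ Finset.univ.erase j, S i) ⟨j0, hPt0⟩
  have h3 : ∑ j, aeval x0 ((P j * ∏ i ∈ Finset.univ.erase j, S i).map A0.subtype) * b j =
      s * ∑ j, r j * b j := by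
    rw [Finset.mul_sum]
    refine Finset.sum_congr rfl fun j _ => ?_
    rw [hPt j]
    ring
  rw [h3] at h1 h2
  have h4 : ∑ j, r j * b j ≠ 0 := right_ne_zero_of_mul h1
  refine ⟨h4, ?_⟩
  rw [hv.map_mul _ _ hs0.1 h4, hs0.2] at h2
  omega

end

section main

variable {K0 F0 : Type*} [Field K0] [Field F0] [Algebra K0 F0] {κ : Type*} [Fintype κ]

/-- **(INT) in D4 carriers, elementary binders** (no carrier of the Gauss ring in the
statement): integrality over the Gauss ring `R0 = h97_gaussVal A0 x0` is `v c ≥ 0` for all `c`,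
as soon as `∑ e c * f c` reaches the degree `[F0 : K0(x0)]`. -/
theorem h99_isInt_iff_elem (A0 : ValuationSubring K0) (x0 : F0) (hx0 : Transcendental K0 x0)
    [FiniteDimensional K0⟮x0⟯ F0]
    (w : K0) (hwA : w ∈ A0) (hwi : w⁻¹ ∉ A0)
    (hDV : ∀ c : K0, c ≠ 0 → ∃ (n : ℤ) (u : K0), u ∈ A0 ∧ u⁻¹ ∈ A0 ∧ c = w ^ n * u)
    (v : κ → F0 → ℤ) (hv : ∀ c, h99_IsVal (v c))
    (hRe : ∀ c (r : F0), h97_InGauss A0 x0 r → r ≠ 0 → 0 ≤ v c r)
    (e : κ → ℕ) (he : ∀ c, v c (algebraMap K0 F0 w) = e c)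
    (hnorm : ∀ c, ∃ z : F0, z ≠ 0 ∧ v c z = 1)
    (hne : ∀ c c', c ≠ c' → ∃ g : F0, g ≠ 0 ∧ v c g ≠ v c' g)
    (f : κ → ℕ) (b : (c : κ) → Fin (f c) → F0)
    (hbe : ∀ c (r : Fin (f c) → F0), (∀ j, h97_InGauss A0 x0 (r j)) →
      (∃ j, r j ≠ 0 ∧ h97_InGauss A0 x0 (r j)⁻¹) →
      ∑ j, r j * b c j ≠ 0 ∧ v c (∑ j, r j * b c j) = 0)
    (hdeg : Module.finrank K0⟮x0⟯ F0 ≤ ∑ c, e c * f c) (g : F0) :
    h97_IsInt (h97_gaussVal A0 x0 hx0) g ↔ ∀ c, h99_Ge (v c) 0 g := by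
  classical
  have hw0 : w ≠ 0 := by
    rintro rfl
    exact hwi (by rw [inv_zero]; exact A0.zero_mem)
  set R := h97_gaussVal A0 x0 hx0 with hRdef
  have hconst := h97_gaussVal_const A0 x0 hx0
  let alg : Algebra R F0 := ((algebraMap K0⟮x0⟯ F0).comp R.subtype).toAlgebra
  have : IsScalarTower R K0⟮x0⟯ F0 := IsScalarTower.of_algebraMap_eq (fun _ => rfl)
  have hinj : Function.Injective (algebraMap R F0) := by
    intro a b hab
    exact Subtype.ext (Subtype.ext hab)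
  have hR : ∀ c (r : R), algebraMap R F0 r ≠ 0 → 0 ≤ v c (algebraMap R F0 r) := fun c r hr =>
    hRe c _ ((h97_mem_gaussVal A0 x0 hx0 r).mp r.2) hr
  set p : R := ⟨algebraMap K0 K0⟮x0⟯ w, (hconst w).mpr hwA⟩ with hp
  have hp0 : p ≠ 0 := by
    intro h
    have h1 : algebraMap K0 K0⟮x0⟯ w = 0 := congrArg Subtype.val h
    exact hw0 ((_root_.map_eq_zero _).mp h1)
  have hpnu : ¬ IsUnit p := by
    intro hu
    obtain ⟨u, hu'⟩ := hu.exists_right_inv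
    have hu'' : algebraMap K0 K0⟮x0⟯ w * (u : K0⟮x0⟯) = 1 := congrArg Subtype.val hu'
    have h1 : (u : K0⟮x0⟯) = algebraMap K0 K0⟮x0⟯ w⁻¹ := by
      rw [map_inv₀]
      exact (inv_eq_of_mul_eq_one_right hu'').symm
    apply hwi
    rw [← hconst, ← h1]
    exact u.2
  have key : ∀ y : R, y ≠ 0 → ∃ (n : ℕ) (u : Rˣ), y = p ^ n * u := by
    intro y hy
    have hy' : (y : K0⟮x0⟯) ≠ 0 := fun h => hy (Subtype.ext h)
    obtain ⟨c, hc, h1, h2⟩ := h97_gaussVal_scale A0 x0 hx0 (y : K0⟮x0⟯) hy'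
    obtain ⟨n, u, hu, hui, hcu⟩ := hDV c⁻¹ (inv_ne_zero hc)
    have hu0 : u ≠ 0 := by
      rintro rfl
      rw [mul_zero] at hcu
      exact inv_ne_zero hc hcu
    set v0 : R := ⟨algebraMap K0 K0⟮x0⟯ u * (algebraMap K0 K0⟮x0⟯ c * y),
      R.mul_mem _ _ ((hconst u).mpr hu) h1⟩ with hv0
    set v1 : R := ⟨algebraMap K0 K0⟮x0⟯ u⁻¹ * (algebraMap K0 K0⟮x0⟯ c * y)⁻¹,
      R.mul_mem _ _ ((hconst _).mpr hui) h2⟩ with hv1
    have hcy : algebraMap K0 K0⟮x0⟯ c * (y : K0⟮x0⟯) ≠ 0 :=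
      mul_ne_zero ((_root_.map_ne_zero _).mpr hc) hy'
    have hu' : algebraMap K0 K0⟮x0⟯ u ≠ 0 := (_root_.map_ne_zero _).mpr hu0
    have hv01 : v0 * v1 = 1 := by
      apply Subtype.ext
      show algebraMap K0 K0⟮x0⟯ u * (algebraMap K0 K0⟮x0⟯ c * y) *
        (algebraMap K0 K0⟮x0⟯ u⁻¹ * (algebraMap K0 K0⟮x0⟯ c * y)⁻¹) = 1
      rw [map_inv₀, mul_mul_mul_comm, mul_inv_cancel₀ hu', mul_inv_cancel₀ hcy, one_mul]
    have hyeq : (y : K0⟮x0⟯) = algebraMap K0 K0⟮x0⟯ w ^ n * (v0 : K0⟮x0⟯) := by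
      show (y : K0⟮x0⟯) =
        algebraMap K0 K0⟮x0⟯ w ^ n * (algebraMap K0 K0⟮x0⟯ u * (algebraMap K0 K0⟮x0⟯ c * y))
      have h3 : algebraMap K0 K0⟮x0⟯ c⁻¹ =
          algebraMap K0 K0⟮x0⟯ w ^ n * algebraMap K0 K0⟮x0⟯ u := by
        rw [hcu, map_mul, map_zpow₀]
      have hc' : algebraMap K0 K0⟮x0⟯ c ≠ 0 := (_root_.map_ne_zero _).mpr hc
      rw [← mul_assoc, ← h3, map_inv₀, ← mul_assoc, inv_mul_cancel₀ hc', one_mul]
    have hw' : algebraMap K0 K0⟮x0⟯ w ≠ 0 := (_root_.map_ne_zero _).mpr hw0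
    have hn : 0 ≤ n := by
      by_contra hneg
      rw [not_le] at hneg
      obtain ⟨m, hm⟩ : ∃ m : ℕ, -n = (m : ℤ) + 1 := ⟨(-n - 1).toNat, by omega⟩
      apply hwi
      rw [← hconst]
      have h4 : algebraMap K0 K0⟮x0⟯ w⁻¹ =
          algebraMap K0 K0⟮x0⟯ w ^ m * (y : K0⟮x0⟯) * (v1 : K0⟮x0⟯) := by
        have hv01' : (v0 : K0⟮x0⟯) * (v1 : K0⟮x0⟯) = 1 := congrArg Subtype.val hv01
        have hneq : n = -((m : ℤ) + 1) := by omega
        rw [hyeq, hneq, map_inv₀, zpow_neg, zpow_add₀ hw', zpow_natCast, zpow_one]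
        calc (algebraMap K0 K0⟮x0⟯ w)⁻¹
            = (algebraMap K0 K0⟮x0⟯ w)⁻¹ * ((v0 : K0⟮x0⟯) * (v1 : K0⟮x0⟯)) := by
              rw [hv01', mul_one]
          _ = _ := by field_simp
      rw [h4]
      exact R.mul_mem _ _ (R.mul_mem _ _ (R.pow_mem p.2 m) y.2) v1.2
    obtain ⟨m, rfl⟩ := Int.eq_ofNat_of_zero_le hn
    refine ⟨m, ⟨v0, v1, hv01, by rw [mul_comm]; exact hv01⟩, ?_⟩
    apply Subtype.ext
    rw [hyeq, zpow_natCast]
    rfl
  have heR : ∀ c, v c (algebraMap R F0 p) = e c := fun c => he c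
  have hbR : ∀ c (r : Fin (f c) → R), (∃ j, IsUnit (r j)) →
      ∑ j, r j • b c j ≠ 0 ∧ v c (∑ j, r j • b c j) = 0 := by
    intro c r ⟨j0, hj0⟩
    have hsm : ∀ j, r j • b c j = algebraMap R F0 (r j) * b c j := fun j => Algebra.smul_def _ _
    simp only [hsm]
    obtain ⟨u, hu⟩ := hj0.exists_right_inv
    have hu' : ((r j0 : K0⟮x0⟯) : F0) * ((u : K0⟮x0⟯) : F0) = 1 := by
      have h1 : (r j0 : K0⟮x0⟯) * (u : K0⟮x0⟯) = 1 := congrArg Subtype.val hu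
      exact_mod_cast congrArg (Subtype.val : K0⟮x0⟯ → F0) h1
    have hr0 : ((r j0 : K0⟮x0⟯) : F0) ≠ 0 := left_ne_zero_of_mul_eq_one hu'
    have hinv : (((r j0 : K0⟮x0⟯) : F0))⁻¹ = ((u : K0⟮x0⟯) : F0) :=
      inv_eq_of_mul_eq_one_right hu'
    exact hbe c (fun j => ((r j : K0⟮x0⟯) : F0))
      (fun j => (h97_mem_gaussVal A0 x0 hx0 (r j)).mp (r j).2)
      ⟨j0, hr0, by rw [hinv]; exact (h97_mem_gaussVal A0 x0 hx0 u).mp u.2⟩
  have hrank : Module.rank R F0 ≤ ((Module.finrank K0⟮x0⟯ F0 : ℕ) : Cardinal) :=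
    h99_rank_le_of_finrank K0⟮x0⟯
  exact h99_integral_iff v hv hinj hR p hp0 hpnu key e heR hnorm hne f b hbR
    (Module.finrank K0⟮x0⟯ F0) hrank hdeg g

/-- **(INT) in D4 carriers, polynomial binders**: the Gauss property `hprim` and the
residue-degree witnesses in polynomial form. -/
theorem h99_isInt_iff (A0 : ValuationSubring K0) (x0 : F0) (hx0 : Transcendental K0 x0)
    [FiniteDimensional K0⟮x0⟯ F0]
    (w : K0) (hwA : w ∈ A0) (hwi : w⁻¹ ∉ A0)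
    (hDV : ∀ c : K0, c ≠ 0 → ∃ (n : ℤ) (u : K0), u ∈ A0 ∧ u⁻¹ ∈ A0 ∧ c = w ^ n * u)
    (v : κ → F0 → ℤ) (hv : ∀ c, h99_IsVal (v c))
    (e : κ → ℕ) (he : ∀ c, v c (algebraMap K0 F0 w) = e c)
    (hprim : ∀ c (S : Polynomial A0), S.map (IsLocalRing.residue A0) ≠ 0 →
      v c (aeval x0 (S.map A0.subtype)) = 0)
    (hnorm : ∀ c, ∃ z : F0, z ≠ 0 ∧ v c z = 1)
    (hne : ∀ c c', c ≠ c' → ∃ g : F0, g ≠ 0 ∧ v c g ≠ v c' g)
    (f : κ → ℕ) (b : (c : κ) → Fin (f c) → F0)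
    (hb : ∀ c (P : Fin (f c) → Polynomial A0), (∃ j, (P j).map (IsLocalRing.residue A0) ≠ 0) →
      ∑ j, aeval x0 ((P j).map A0.subtype) * b c j ≠ 0 ∧
        v c (∑ j, aeval x0 ((P j).map A0.subtype) * b c j) = 0)
    (hdeg : Module.finrank K0⟮x0⟯ F0 ≤ ∑ c, e c * f c) (g : F0) :
    h97_IsInt (h97_gaussVal A0 x0 hx0) g ↔ ∀ c, h99_Ge (v c) 0 g :=
  h99_isInt_iff_elem A0 x0 hx0 w hwA hwi hDV v hv
    (fun c _ hr hr0 =>
      h99_gauss_nonneg A0 x0 hx0 w hwA hwi hDV (hv c) (e c) (he c) (hprim c) hr hr0)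
    e he hnorm hne f b
    (fun c r hr ⟨j0, hj0, hj0i⟩ =>
      h99_hb_gauss A0 x0 hx0 (hv c) (hprim c) (b c) (hb c) r hr j0 hj0 hj0i)
    hdeg g

/-- **(INT) in D4 carriers, witnesses over `↥(h75_gaussRing A0 x0)`**: the clause `hb` is
VERBATIM the conclusion of `h91_hb_mod` (carrier `R := ↥(h75_gaussRing A0 x0)`, a subring of
`F0`), and `hR` is membership-form (`h91_gauss_mem` + `hO`). -/
theorem h99_isInt_iff_h75 (A0 : ValuationSubring K0) (x0 : F0) (hx0 : Transcendental K0 x0)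
    [FiniteDimensional K0⟮x0⟯ F0]
    (w : K0) (hwA : w ∈ A0) (hwi : w⁻¹ ∉ A0)
    (hDV : ∀ c : K0, c ≠ 0 → ∃ (n : ℤ) (u : K0), u ∈ A0 ∧ u⁻¹ ∈ A0 ∧ c = w ^ n * u)
    (v : κ → F0 → ℤ) (hv : ∀ c, h99_IsVal (v c))
    (hR : ∀ c (r : F0), r ∈ h75_gaussRing A0 x0 → r ≠ 0 → 0 ≤ v c r)
    (e : κ → ℕ) (he : ∀ c, v c (algebraMap K0 F0 w) = e c)
    (hnorm : ∀ c, ∃ z : F0, z ≠ 0 ∧ v c z = 1)
    (hne : ∀ c c', c ≠ c' → ∃ g : F0, g ≠ 0 ∧ v c g ≠ v c' g)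
    (f : κ → ℕ) (b : (c : κ) → Fin (f c) → F0)
    (hb : ∀ c (r : Fin (f c) → ↥(h75_gaussRing A0 x0)), (∃ j, IsUnit (r j)) →
      ∑ j, r j • b c j ≠ 0 ∧ v c (∑ j, r j • b c j) = 0)
    (hdeg : Module.finrank K0⟮x0⟯ F0 ≤ ∑ c, e c * f c) (g : F0) :
    h97_IsInt (h97_gaussVal A0 x0 hx0) g ↔ ∀ c, h99_Ge (v c) 0 g := by
  refine h99_isInt_iff_elem A0 x0 hx0 w hwA hwi hDV v hv
    (fun c r hr hr0 => hR c r ((h97_inGauss_iff A0 x0 r).mp hr) hr0)
    e he hnorm hne f b ?_ hdeg g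
  rintro c r hr ⟨j0, hj0, hj0i⟩
  have hu : IsUnit (⟨r j0, (h97_inGauss_iff A0 x0 _).mp (hr j0)⟩ : ↥(h75_gaussRing A0 x0)) :=
    isUnit_iff_exists_inv.mpr
      ⟨⟨(r j0)⁻¹, (h97_inGauss_iff A0 x0 _).mp hj0i⟩, Subtype.ext (mul_inv_cancel₀ hj0)⟩
  exact hb c (fun j => ⟨r j, (h97_inGauss_iff A0 x0 _).mp (hr j)⟩) ⟨j0, hu⟩

omit [Fintype κ] in
/-- **(COMP3)** from the single iff: `h / w` is integral over the Gauss ring `R0` iff
`v c h ≥ e c` for all `c`. -/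
theorem h99_comp3_iff_of_iff (A0 : ValuationSubring K0) (x0 : F0) (hx0 : Transcendental K0 x0)
    (w : K0) (hw0 : w ≠ 0) (v : κ → F0 → ℤ) (hv : ∀ c, h99_IsVal (v c))
    (e : κ → ℕ) (he : ∀ c, v c (algebraMap K0 F0 w) = e c)
    (hint : ∀ g : F0, h97_IsInt (h97_gaussVal A0 x0 hx0) g ↔ ∀ c, h99_Ge (v c) 0 g) (h : F0) :
    h97_IsInt (h97_gaussVal A0 x0 hx0) (h / algebraMap K0 F0 w) ↔
      ∀ c, h99_Ge (v c) (e c) h := by
  have hwF : algebraMap K0 F0 w ≠ 0 := (_root_.map_ne_zero _).mpr hw0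
  rw [hint]
  have hval : ∀ c, h ≠ 0 → v c (h / algebraMap K0 F0 w) = v c h - e c := by
    intro c h0
    rw [div_eq_mul_inv, (hv c).map_mul _ _ h0 (inv_ne_zero hwF), h99_w_inv (hv c) hwF, he c]
    ring
  refine forall_congr' fun c => ?_
  by_cases h0 : h = 0
  · constructor
    · intro _
      exact Or.inl h0
    · intro _
      exact Or.inl (by rw [h0, zero_div])
  · constructor
    · intro h1
      have h2 := h1.resolve_left (div_ne_zero h0 hwF)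
      rw [hval c h0] at h2
      exact Or.inr (by omega)
    · intro h1
      have h2 := h1.resolve_left h0
      refine Or.inr ?_
      rw [hval c h0]
      omega

/-- **(COMP3)** in D4 carriers, polynomial binders. -/
theorem h99_comp3_iff (A0 : ValuationSubring K0) (x0 : F0) (hx0 : Transcendental K0 x0)
    [FiniteDimensional K0⟮x0⟯ F0]
    (w : K0) (hwA : w ∈ A0) (hwi : w⁻¹ ∉ A0)
    (hDV : ∀ c : K0, c ≠ 0 → ∃ (n : ℤ) (u : K0), u ∈ A0 ∧ u⁻¹ ∈ A0 ∧ c = w ^ n * u)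
    (v : κ → F0 → ℤ) (hv : ∀ c, h99_IsVal (v c))
    (e : κ → ℕ) (he : ∀ c, v c (algebraMap K0 F0 w) = e c)
    (hprim : ∀ c (S : Polynomial A0), S.map (IsLocalRing.residue A0) ≠ 0 →
      v c (aeval x0 (S.map A0.subtype)) = 0)
    (hnorm : ∀ c, ∃ z : F0, z ≠ 0 ∧ v c z = 1)
    (hne : ∀ c c', c ≠ c' → ∃ g : F0, g ≠ 0 ∧ v c g ≠ v c' g)
    (f : κ → ℕ) (b : (c : κ) → Fin (f c) → F0)
    (hb : ∀ c (P : Fin (f c) → Polynomial A0), (∃ j, (P j).map (IsLocalRing.residue A0) ≠ 0) →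
      ∑ j, aeval x0 ((P j).map A0.subtype) * b c j ≠ 0 ∧
        v c (∑ j, aeval x0 ((P j).map A0.subtype) * b c j) = 0)
    (hdeg : Module.finrank K0⟮x0⟯ F0 ≤ ∑ c, e c * f c) (h : F0) :
    h97_IsInt (h97_gaussVal A0 x0 hx0) (h / algebraMap K0 F0 w) ↔
      ∀ c, h99_Ge (v c) (e c) h :=
  h99_comp3_iff_of_iff A0 x0 hx0 w
    (by rintro rfl; exact hwi (by rw [inv_zero]; exact A0.zero_mem)) v hv e he
    (h99_isInt_iff A0 x0 hx0 w hwA hwi hDV v hv e he hprim hnorm hne f b hb hdeg) h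

/-- **(COMP3)** in D4 carriers, witnesses over `↥(h75_gaussRing A0 x0)`. -/
theorem h99_comp3_iff_h75 (A0 : ValuationSubring K0) (x0 : F0) (hx0 : Transcendental K0 x0)
    [FiniteDimensional K0⟮x0⟯ F0]
    (w : K0) (hwA : w ∈ A0) (hwi : w⁻¹ ∉ A0)
    (hDV : ∀ c : K0, c ≠ 0 → ∃ (n : ℤ) (u : K0), u ∈ A0 ∧ u⁻¹ ∈ A0 ∧ c = w ^ n * u)
    (v : κ → F0 → ℤ) (hv : ∀ c, h99_IsVal (v c))
    (hR : ∀ c (r : F0), r ∈ h75_gaussRing A0 x0 → r ≠ 0 → 0 ≤ v c r)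
    (e : κ → ℕ) (he : ∀ c, v c (algebraMap K0 F0 w) = e c)
    (hnorm : ∀ c, ∃ z : F0, z ≠ 0 ∧ v c z = 1)
    (hne : ∀ c c', c ≠ c' → ∃ g : F0, g ≠ 0 ∧ v c g ≠ v c' g)
    (f : κ → ℕ) (b : (c : κ) → Fin (f c) → F0)
    (hb : ∀ c (r : Fin (f c) → ↥(h75_gaussRing A0 x0)), (∃ j, IsUnit (r j)) →
      ∑ j, r j • b c j ≠ 0 ∧ v c (∑ j, r j • b c j) = 0)
    (hdeg : Module.finrank K0⟮x0⟯ F0 ≤ ∑ c, e c * f c) (h : F0) :
    h97_IsInt (h97_gaussVal A0 x0 hx0) (h / algebraMap K0 F0 w) ↔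
      ∀ c, h99_Ge (v c) (e c) h :=
  h99_comp3_iff_of_iff A0 x0 hx0 w
    (by rintro rfl; exact hwi (by rw [inv_zero]; exact A0.zero_mem)) v hv e he
    (h99_isInt_iff_h75 A0 x0 hx0 w hwA hwi hDV v hv hR e he hnorm hne f b hb hdeg) h

end main

section red

variable {K0 F0 : Type*} [Field K0] [Field F0] [Algebra K0 F0]

/-- Reduction of `P(x0)`, `P ∈ A0[X]`, along a reduction map `ρ` on a subring `O ∋ x0` which
reduces the constants of `A0` by `κ ∘ r0`: it is `(P.map r0)(ρ x0)`. -/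
theorem h99_red_poly {k' L : Type*} [CommRing k'] [CommRing L]
    (A0 : ValuationSubring K0) (x0 : F0) (O : Subring F0) (ρ : O →+* L)
    (r0 : A0 →+* k') (κ : k' →+* L)
    (hcO : ∀ a : A0, algebraMap K0 F0 (a : K0) ∈ O)
    (hcρ : ∀ a : A0, ρ ⟨_, hcO a⟩ = κ (r0 a))
    (hx : x0 ∈ O) (P : Polynomial A0) :
    ∃ h : aeval x0 (P.map A0.subtype) ∈ O,
      ρ ⟨_, h⟩ = (P.map r0).eval₂ κ (ρ ⟨x0, hx⟩) := by
  let c0 : A0 →+* O := ((algebraMap K0 F0).comp A0.subtype).codRestrict O hcO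
  let φ : Polynomial A0 →+* O := Polynomial.eval₂RingHom c0 ⟨x0, hx⟩
  have h1 : ∀ P : Polynomial A0, ((φ P : O) : F0) = aeval x0 (P.map A0.subtype) := by
    intro P
    have h : O.subtype.comp φ =
        (aeval x0 : K0[X] →ₐ[K0] F0).toRingHom.comp (Polynomial.mapRingHom A0.subtype) := by
      apply Polynomial.ringHom_ext
      · intro a
        simp only [φ, c0, RingHom.comp_apply, Polynomial.coe_eval₂RingHom, eval₂_C,
          Polynomial.coe_mapRingHom, Polynomial.map_C, AlgHom.toRingHom_eq_coe,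
          RingHom.coe_coe, aeval_C, Subring.subtype_apply]
        rfl
      · simp [φ]
    exact DFunLike.congr_fun h P
  have h2 : ∀ P : Polynomial A0, ρ (φ P) = (P.map r0).eval₂ κ (ρ ⟨x0, hx⟩) := by
    intro P
    have h : ρ.comp φ = (Polynomial.eval₂RingHom κ (ρ ⟨x0, hx⟩)).comp
        (Polynomial.mapRingHom r0) := by
      apply Polynomial.ringHom_ext
      · intro a
        simp only [φ, c0, RingHom.comp_apply, Polynomial.coe_eval₂RingHom, eval₂_C,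
          Polynomial.coe_mapRingHom, Polynomial.map_C]
        exact hcρ a
      · simp [φ]
    exact DFunLike.congr_fun h P
  have hmem : aeval x0 (P.map A0.subtype) ∈ O := by
    rw [← h1 P]
    exact (φ P).2
  refine ⟨hmem, ?_⟩
  rw [← h2 P]
  exact congrArg ρ (Subtype.ext (h1 P).symm)

/-- A polynomial over `A0` with nonzero residue has nonzero image under any ring homomorphism
to a nontrivial ring. -/
theorem h99_map_ne_zero {k' : Type*} [CommRing k'] [Nontrivial k']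
    (A0 : ValuationSubring K0) (r0 : A0 →+* k') {P : Polynomial A0}
    (hP : P.map (IsLocalRing.residue A0) ≠ 0) : P.map r0 ≠ 0 := by
  intro h0
  apply hP
  ext i
  rw [coeff_map, coeff_zero]
  by_contra hne
  have hu : IsUnit (P.coeff i) := (IsLocalRing.residue_ne_zero_iff_isUnit _).mp hne
  have h1 : (P.map r0).coeff i = 0 := by rw [h0, coeff_zero]
  rw [coeff_map] at h1
  exact (hu.map r0).ne_zero h1

/-- **(C-GAUSS) from a reduction**: the hypothesis `hprim` of `h99_isInt_iff` for a valuation `v`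
which vanishes on the elements of `O` with nonzero reduction, when `ρ x0` is transcendental over
the reduced constants. -/
theorem h99_hprim_of_red {k' L : Type*} [CommRing k'] [Nontrivial k'] [CommRing L]
    (A0 : ValuationSubring K0) (x0 : F0) {v : F0 → ℤ} (O : Subring F0) (ρ : O →+* L)
    (hzero : ∀ y : O, ρ y ≠ 0 → v (y : F0) = 0)
    (r0 : A0 →+* k') (κ : k' →+* L)
    (hcO : ∀ a : A0, algebraMap K0 F0 (a : K0) ∈ O)
    (hcρ : ∀ a : A0, ρ ⟨_, hcO a⟩ = κ (r0 a))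
    (hx : x0 ∈ O)
    (htr : ∀ Q : Polynomial k', Q.eval₂ κ (ρ ⟨x0, hx⟩) = 0 → Q = 0)
    (S : Polynomial A0) (hS : S.map (IsLocalRing.residue A0) ≠ 0) :
    v (aeval x0 (S.map A0.subtype)) = 0 := by
  obtain ⟨hmem, hρ⟩ := h99_red_poly A0 x0 O ρ r0 κ hcO hcρ hx S
  refine hzero ⟨_, hmem⟩ ?_
  rw [hρ]
  exact fun h0 => h99_map_ne_zero A0 r0 hS (htr _ h0)

/-- **(RES-FAM) from a reduction, polynomial form**: the hypothesis `hb` of `h99_isInt_iff` for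
a family `b j ∈ O` whose reductions are independent over the polynomials in `ρ x0` with reduced
constant coefficients. -/
theorem h99_hb_of_red_poly {k' L : Type*} [CommRing k'] [Nontrivial k'] [CommRing L]
    (A0 : ValuationSubring K0) (x0 : F0) {v : F0 → ℤ} (O : Subring F0) (ρ : O →+* L)
    (hzero : ∀ y : O, ρ y ≠ 0 → v (y : F0) = 0)
    (r0 : A0 →+* k') (κ : k' →+* L)
    (hcO : ∀ a : A0, algebraMap K0 F0 (a : K0) ∈ O)
    (hcρ : ∀ a : A0, ρ ⟨_, hcO a⟩ = κ (r0 a))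
    (hx : x0 ∈ O) {m : ℕ} (b : Fin m → O)
    (hindep : ∀ Q : Fin m → Polynomial k',
      ∑ j, (Q j).eval₂ κ (ρ ⟨x0, hx⟩) * ρ (b j) = 0 → ∀ j, Q j = 0)
    (P : Fin m → Polynomial A0) (hP : ∃ j, (P j).map (IsLocalRing.residue A0) ≠ 0) :
    ∑ j, aeval x0 ((P j).map A0.subtype) * (b j : F0) ≠ 0 ∧
      v (∑ j, aeval x0 ((P j).map A0.subtype) * (b j : F0)) = 0 := by
  obtain ⟨j0, hj0⟩ := hP
  have hred := fun j => h99_red_poly A0 x0 O ρ r0 κ hcO hcρ hx (P j)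
  have hmem : ∑ j, aeval x0 ((P j).map A0.subtype) * (b j : F0) ∈ O :=
    Subring.sum_mem O fun j _ => O.mul_mem (hred j).1 (b j).2
  have h1 : (⟨∑ j, aeval x0 ((P j).map A0.subtype) * (b j : F0), hmem⟩ : O) =
      ∑ j, (⟨aeval x0 ((P j).map A0.subtype), (hred j).1⟩ : O) * b j := by
    apply Subtype.ext
    rw [AddSubmonoidClass.coe_finsetSum]
    rfl
  have hρ : ρ ⟨∑ j, aeval x0 ((P j).map A0.subtype) * (b j : F0), hmem⟩ =
      ∑ j, ((P j).map r0).eval₂ κ (ρ ⟨x0, hx⟩) * ρ (b j) := by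
    rw [h1, map_sum]
    refine Finset.sum_congr rfl fun j _ => ?_
    rw [map_mul, (hred j).2]
  have hne : ρ ⟨∑ j, aeval x0 ((P j).map A0.subtype) * (b j : F0), hmem⟩ ≠ 0 := by
    rw [hρ]
    intro h0
    exact h99_map_ne_zero A0 r0 hj0 (hindep (fun j => (P j).map r0) h0 j0)
  refine ⟨fun h0 => hne ?_, hzero ⟨_, hmem⟩ hne⟩
  have h2 : (⟨∑ j, aeval x0 ((P j).map A0.subtype) * (b j : F0), hmem⟩ : O) = 0 :=
    Subtype.ext h0
  rw [h2, map_zero]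

end red

section D4

open Fermat.Agent.S34

variable {K0 K F0 F : Type*} [Field K0] [Field K] [Field F0] [Field F]
  [Algebra K0 F0] [Algebra K F] {κ : Type*} [Fintype κ]

/-- **(C3a) ∧ (C3b)**, polynomial binders: for `g ∈ F0`, `jF g` lies in the D4 lattice iff
`v c g ≥ 0` for all `c`. -/
theorem h99_latO_iff (jK : K0 →+* K) (jF : F0 →+* F)
    (hcomm : ∀ c : K0, jF (algebraMap K0 F0 c) = algebraMap K F (jK c))
    (A0 : ValuationSubring K0) (A : ValuationSubring K) (hA0 : ∀ a ∈ A0, jK a ∈ A)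
    (hA0' : ∀ a : K0, jK a ∈ A → a ∈ A0)
    (x0 : F0) (hx0 : Transcendental K0 x0) (x : F) (hjx : jF x0 = x) (hx : Transcendental K x)
    [CharZero K0] [FiniteDimensional K0⟮x0⟯ F0]
    (w : K0) (hw : w ∈ A0) (hwi : w⁻¹ ∉ A0)
    (hDV : ∀ c : K0, c ≠ 0 → ∃ (n : ℤ) (u : K0), u ∈ A0 ∧ u⁻¹ ∈ A0 ∧ c = w ^ n * u)
    (hLD : ∀ {ι : Type} [Fintype ι] (g : ι → F0), LinearIndependent K0 g →
      LinearIndependent K (fun i => jF (g i)))
    (v : κ → F0 → ℤ) (hv : ∀ c, h99_IsVal (v c))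
    (e : κ → ℕ) (he : ∀ c, v c (algebraMap K0 F0 w) = e c)
    (hprim : ∀ c (S : Polynomial A0), S.map (IsLocalRing.residue A0) ≠ 0 →
      v c (aeval x0 (S.map A0.subtype)) = 0)
    (hnorm : ∀ c, ∃ z : F0, z ≠ 0 ∧ v c z = 1)
    (hne : ∀ c c', c ≠ c' → ∃ g : F0, g ≠ 0 ∧ v c g ≠ v c' g)
    (f : κ → ℕ) (b : (c : κ) → Fin (f c) → F0)
    (hb : ∀ c (P : Fin (f c) → Polynomial A0), (∃ j, (P j).map (IsLocalRing.residue A0) ≠ 0) →
      ∑ j, aeval x0 ((P j).map A0.subtype) * b c j ≠ 0 ∧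
        v c (∑ j, aeval x0 ((P j).map A0.subtype) * b c j) = 0)
    (hdeg : Module.finrank K0⟮x0⟯ F0 ≤ ∑ c, e c * f c) (g : F0) :
    jF g ∈ h97_latO jF A0 A x0 hx0 x hx ↔ ∀ c, h99_Ge (v c) 0 g :=
  (h97_D4_coord jK jF hcomm A0 A hA0 hA0' x0 hx0 x hjx hx w hw hwi hDV hLD g).trans
    (h99_isInt_iff A0 x0 hx0 w hw hwi hDV v hv e he hprim hnorm hne f b hb hdeg g)

/-- **(C3a) ∧ (C3b)**, witnesses over `↥(h75_gaussRing A0 x0)` (`hb` = VERBATIM the conclusion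
of `h91_hb_mod`): for `g ∈ F0`, `jF g` lies in the D4 lattice iff `v c g ≥ 0` for all `c`. -/
theorem h99_latO_iff_h75 (jK : K0 →+* K) (jF : F0 →+* F)
    (hcomm : ∀ c : K0, jF (algebraMap K0 F0 c) = algebraMap K F (jK c))
    (A0 : ValuationSubring K0) (A : ValuationSubring K) (hA0 : ∀ a ∈ A0, jK a ∈ A)
    (hA0' : ∀ a : K0, jK a ∈ A → a ∈ A0)
    (x0 : F0) (hx0 : Transcendental K0 x0) (x : F) (hjx : jF x0 = x) (hx : Transcendental K x)
    [CharZero K0] [FiniteDimensional K0⟮x0⟯ F0]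
    (w : K0) (hw : w ∈ A0) (hwi : w⁻¹ ∉ A0)
    (hDV : ∀ c : K0, c ≠ 0 → ∃ (n : ℤ) (u : K0), u ∈ A0 ∧ u⁻¹ ∈ A0 ∧ c = w ^ n * u)
    (hLD : ∀ {ι : Type} [Fintype ι] (g : ι → F0), LinearIndependent K0 g →
      LinearIndependent K (fun i => jF (g i)))
    (v : κ → F0 → ℤ) (hv : ∀ c, h99_IsVal (v c))
    (hR : ∀ c (r : F0), r ∈ h75_gaussRing A0 x0 → r ≠ 0 → 0 ≤ v c r)
    (e : κ → ℕ) (he : ∀ c, v c (algebraMap K0 F0 w) = e c)
    (hnorm : ∀ c, ∃ z : F0, z ≠ 0 ∧ v c z = 1)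
    (hne : ∀ c c', c ≠ c' → ∃ g : F0, g ≠ 0 ∧ v c g ≠ v c' g)
    (f : κ → ℕ) (b : (c : κ) → Fin (f c) → F0)
    (hb : ∀ c (r : Fin (f c) → ↥(h75_gaussRing A0 x0)), (∃ j, IsUnit (r j)) →
      ∑ j, r j • b c j ≠ 0 ∧ v c (∑ j, r j • b c j) = 0)
    (hdeg : Module.finrank K0⟮x0⟯ F0 ≤ ∑ c, e c * f c) (g : F0) :
    jF g ∈ h97_latO jF A0 A x0 hx0 x hx ↔ ∀ c, h99_Ge (v c) 0 g :=
  (h97_D4_coord jK jF hcomm A0 A hA0 hA0' x0 hx0 x hjx hx w hw hwi hDV hLD g).trans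
    (h99_isInt_iff_h75 A0 x0 hx0 w hw hwi hDV v hv hR e he hnorm hne f b hb hdeg g)

omit [Fintype κ] in
/-- **(C3c)** from the single iff (C3) in lattice form: `v c h ≥ e c` for all `c` implies that
`jF h` lies in the D4 lattice and has reduction `0`. -/
theorem h99_D4_comp3_of_iff (jK : K0 →+* K) (jF : F0 →+* F)
    (hcomm : ∀ c : K0, jF (algebraMap K0 F0 c) = algebraMap K F (jK c))
    (A0 : ValuationSubring K0) (A : ValuationSubring K) (hA0 : ∀ a ∈ A0, jK a ∈ A)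
    (hA0' : ∀ a : K0, jK a ∈ A → a ∈ A0)
    (x0 : F0) (hx0 : Transcendental K0 x0) (x : F) (hjx : jF x0 = x) (hx : Transcendental K x)
    [CharZero K0] [FiniteDimensional K0⟮x0⟯ F0]
    (w : K0) (hw : w ∈ A0) (hwi : w⁻¹ ∉ A0)
    (hDV : ∀ c : K0, c ≠ 0 → ∃ (n : ℤ) (u : K0), u ∈ A0 ∧ u⁻¹ ∈ A0 ∧ c = w ^ n * u)
    (hSP : ∀ f : F, f ∈ Submodule.span K (Set.range jF))
    (v : κ → F0 → ℤ) (hv : ∀ c, h99_IsVal (v c))
    (e : κ → ℕ) (he : ∀ c, v c (algebraMap K0 F0 w) = e c)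
    (hC3 : ∀ g : F0, jF g ∈ h97_latO jF A0 A x0 hx0 x hx ↔ ∀ c, h99_Ge (v c) 0 g)
    (h : F0) (hh : ∀ c, h99_Ge (v c) (e c) h) :
    jF h ∈ (h97_D4 jK jF hcomm A0 A hA0 x0 hx0 x hjx hx w hw hwi hDV hSP).O ∧
      (h97_D4 jK jF hcomm A0 A hA0 x0 hx0 x hjx hx w hw hwi hDV hSP).redF (jF h) = 0 := by
  have hw0 : w ≠ 0 := by
    rintro rfl
    exact hwi (by rw [inv_zero]; exact A0.zero_mem)
  have hwF : algebraMap K0 F0 w ≠ 0 := (_root_.map_ne_zero _).mpr hw0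
  have hmem : jF (h / algebraMap K0 F0 w) ∈
      (h97_D4 jK jF hcomm A0 A hA0 x0 hx0 x hjx hx w hw hwi hDV hSP).O := by
    refine (hC3 _).mpr fun c => ?_
    by_cases h0 : h = 0
    · exact Or.inl (by rw [h0, zero_div])
    · have h2 := (hh c).resolve_left h0
      refine Or.inr ?_
      rw [div_eq_mul_inv, (hv c).map_mul _ _ h0 (inv_ne_zero hwF), h99_w_inv (hv c) hwF, he c]
      omega
  have heq : jF h = algebraMap K F (jK w) * jF (h / algebraMap K0 F0 w) := by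
    rw [← hcomm, ← map_mul, mul_div_cancel₀ _ hwF]
  have hnon : jK w ∈ A.nonunits := by
    rw [ValuationSubring.mem_nonunits_iff]
    have h1 : A.valuation (jK w) ≤ 1 := (A.valuation_le_one_iff _).mpr (hA0 w hw)
    refine lt_of_le_of_ne h1 fun h2 => ?_
    apply hwi
    apply hA0'
    rw [map_inv₀, ← A.valuation_le_one_iff, map_inv₀, h2, inv_one]
  have hwO : algebraMap K F (jK w) ∈
      (h97_D4 jK jF hcomm A0 A hA0 x0 hx0 x hjx hx w hw hwi hDV hSP).O :=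
    ((h97_D4 jK jF hcomm A0 A hA0 x0 hx0 x hjx hx w hw hwi hDV hSP).mem_iff _).mp (hA0 w hw)
  have hmemh : jF h ∈ (h97_D4 jK jF hcomm A0 A hA0 x0 hx0 x hjx hx w hw hwi hDV hSP).O := by
    rw [heq]
    exact Subring.mul_mem _ hwO hmem
  exact ⟨hmemh, (h22_redF_eq_zero_iff _ hmemh).mpr ⟨jK w, hnon, _, hmem, heq⟩⟩

/-- **(C3c)**, polynomial binders. -/
theorem h99_D4_comp3 (jK : K0 →+* K) (jF : F0 →+* F)
    (hcomm : ∀ c : K0, jF (algebraMap K0 F0 c) = algebraMap K F (jK c))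
    (A0 : ValuationSubring K0) (A : ValuationSubring K) (hA0 : ∀ a ∈ A0, jK a ∈ A)
    (hA0' : ∀ a : K0, jK a ∈ A → a ∈ A0)
    (x0 : F0) (hx0 : Transcendental K0 x0) (x : F) (hjx : jF x0 = x) (hx : Transcendental K x)
    [CharZero K0] [FiniteDimensional K0⟮x0⟯ F0]
    (w : K0) (hw : w ∈ A0) (hwi : w⁻¹ ∉ A0)
    (hDV : ∀ c : K0, c ≠ 0 → ∃ (n : ℤ) (u : K0), u ∈ A0 ∧ u⁻¹ ∈ A0 ∧ c = w ^ n * u)
    (hLD : ∀ {ι : Type} [Fintype ι] (g : ι → F0), LinearIndependent K0 g →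
      LinearIndependent K (fun i => jF (g i)))
    (hSP : ∀ f : F, f ∈ Submodule.span K (Set.range jF))
    (v : κ → F0 → ℤ) (hv : ∀ c, h99_IsVal (v c))
    (e : κ → ℕ) (he : ∀ c, v c (algebraMap K0 F0 w) = e c)
    (hprim : ∀ c (S : Polynomial A0), S.map (IsLocalRing.residue A0) ≠ 0 →
      v c (aeval x0 (S.map A0.subtype)) = 0)
    (hnorm : ∀ c, ∃ z : F0, z ≠ 0 ∧ v c z = 1)
    (hne : ∀ c c', c ≠ c' → ∃ g : F0, g ≠ 0 ∧ v c g ≠ v c' g)
    (f : κ → ℕ) (b : (c : κ) → Fin (f c) → F0)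
    (hb : ∀ c (P : Fin (f c) → Polynomial A0), (∃ j, (P j).map (IsLocalRing.residue A0) ≠ 0) →
      ∑ j, aeval x0 ((P j).map A0.subtype) * b c j ≠ 0 ∧
        v c (∑ j, aeval x0 ((P j).map A0.subtype) * b c j) = 0)
    (hdeg : Module.finrank K0⟮x0⟯ F0 ≤ ∑ c, e c * f c) (h : F0)
    (hh : ∀ c, h99_Ge (v c) (e c) h) :
    jF h ∈ (h97_D4 jK jF hcomm A0 A hA0 x0 hx0 x hjx hx w hw hwi hDV hSP).O ∧
      (h97_D4 jK jF hcomm A0 A hA0 x0 hx0 x hjx hx w hw hwi hDV hSP).redF (jF h) = 0 :=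
  h99_D4_comp3_of_iff jK jF hcomm A0 A hA0 hA0' x0 hx0 x hjx hx w hw hwi hDV hSP v hv e he
    (h99_latO_iff jK jF hcomm A0 A hA0 hA0' x0 hx0 x hjx hx w hw hwi hDV hLD v hv e he hprim
      hnorm hne f b hb hdeg) h hh

/-- **(C3c)**, witnesses over `↥(h75_gaussRing A0 x0)`. -/
theorem h99_D4_comp3_h75 (jK : K0 →+* K) (jF : F0 →+* F)
    (hcomm : ∀ c : K0, jF (algebraMap K0 F0 c) = algebraMap K F (jK c))
    (A0 : ValuationSubring K0) (A : ValuationSubring K) (hA0 : ∀ a ∈ A0, jK a ∈ A)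
    (hA0' : ∀ a : K0, jK a ∈ A → a ∈ A0)
    (x0 : F0) (hx0 : Transcendental K0 x0) (x : F) (hjx : jF x0 = x) (hx : Transcendental K x)
    [CharZero K0] [FiniteDimensional K0⟮x0⟯ F0]
    (w : K0) (hw : w ∈ A0) (hwi : w⁻¹ ∉ A0)
    (hDV : ∀ c : K0, c ≠ 0 → ∃ (n : ℤ) (u : K0), u ∈ A0 ∧ u⁻¹ ∈ A0 ∧ c = w ^ n * u)
    (hLD : ∀ {ι : Type} [Fintype ι] (g : ι → F0), LinearIndependent K0 g →
      LinearIndependent K (fun i => jF (g i)))
    (hSP : ∀ f : F, f ∈ Submodule.span K (Set.range jF))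
    (v : κ → F0 → ℤ) (hv : ∀ c, h99_IsVal (v c))
    (hR : ∀ c (r : F0), r ∈ h75_gaussRing A0 x0 → r ≠ 0 → 0 ≤ v c r)
    (e : κ → ℕ) (he : ∀ c, v c (algebraMap K0 F0 w) = e c)
    (hnorm : ∀ c, ∃ z : F0, z ≠ 0 ∧ v c z = 1)
    (hne : ∀ c c', c ≠ c' → ∃ g : F0, g ≠ 0 ∧ v c g ≠ v c' g)
    (f : κ → ℕ) (b : (c : κ) → Fin (f c) → F0)
    (hb : ∀ c (r : Fin (f c) → ↥(h75_gaussRing A0 x0)), (∃ j, IsUnit (r j)) →
      ∑ j, r j • b c j ≠ 0 ∧ v c (∑ j, r j • b c j) = 0)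
    (hdeg : Module.finrank K0⟮x0⟯ F0 ≤ ∑ c, e c * f c) (h : F0)
    (hh : ∀ c, h99_Ge (v c) (e c) h) :
    jF h ∈ (h97_D4 jK jF hcomm A0 A hA0 x0 hx0 x hjx hx w hw hwi hDV hSP).O ∧
      (h97_D4 jK jF hcomm A0 A hA0 x0 hx0 x hjx hx w hw hwi hDV hSP).redF (jF h) = 0 :=
  h99_D4_comp3_of_iff jK jF hcomm A0 A hA0 hA0' x0 hx0 x hjx hx w hw hwi hDV hSP v hv e he
    (h99_latO_iff_h75 jK jF hcomm A0 A hA0 hA0' x0 hx0 x hjx hx w hw hwi hDV hLD v hv hR e he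
      hnorm hne f b hb hdeg) h hh

end D4

end Fermat.Agent.S36
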