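import Mathlib
import Fermat.Agent.S36.h99_Comp3Gauss
import Fermat.Agent.S36.h98_W2
import Fermat.Agent.S36.h69_DegQ2
import Fermat.Agent.S36.h69_ValTable
import Fermat.Agent.S36.h36_W2
import Fermat.Agent.S36.h17_LatMod

/-!
# S36 / COMP3-M : the single iff at level `L q²` for `h98_w2` (helper99)

Level `N = L q²`, `q ∤ L`, `A` a valuation ring of `ℚ̄` over `q`, `I` its inertia group,
`K0 = h69_K0 I`, `F0 = h69_F0 N I`, `A0 = h69_A0 A`, chart `x0 = h69_jF0 N I` (`= j`),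
uniformiser `q`, vertical valuations `w2 = h98_w2 L q hqL A ζ hζ hex`.

* `h99_count_m` : the count `q (q + 1) ψ(L) ≤ ∑ c, e c * (m c * [SL₂(ℤ) : Γ₀(L)])`,
  `e = ![1, q - 1, 1]`, `m = ![1, 1, q * q]`.
* `h99_w2_hne` : (SEP) the three valuations `h98_w2` are pairwise distinct (all `q`).
* `h99_hC3_inst` / `h99_hC3_of_blocks` / `h99_hC3_of_resFam` : **(C3)**
  `∀ g : F0, g ≠ 0 → (g ∈ O ↔ ∀ c, 0 ≤ w2 c g)` for the D4 lattice `O = h97_latO ..` at the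
  `h69` carriers, in the binder shape `hC3` of `h46_EBinders`.
  Remaining hypotheses of `h99_hC3_of_resFam`: `hnorm1` (an element with `w2 1 = 1`) and the
  residue-degree blocks `hR`, `hb` (the `h75` form of `h99_latO_iff_h75`; producer:
  `h91_ResFamInst`).
* `h99_w2_36_eq_98` : the two definitions of `w2` on main agree,
  `h36_w2 L q hqL A = h98_w2 L q hqL A (h36_zeta q) (h36_zeta_prim q) hex`; `h99_EX_of_Ex`;
  `h99_hC3_36` : (C3) for `h36_w2`.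
* `h99_hC3_D2j_98` / `h99_hC3_D2j_36` : the same at THE lattice `h17_D2j (L * q * q) q A hA`
  = VERBATIM the binder `hC3` of `h29_final_plug` / `h46_EBinders`.
-/

set_option autoImplicit false
set_option synthInstance.maxHeartbeats 400000

noncomputable section

open ModularCurve AlgebraicCurve CongruenceSubgroup Polynomial IntermediateField
open scoped MatrixGroups

namespace Fermat.Agent.S36

open Fermat.Agent.S34 Fermat.Agent.S37 Fermat.Agent.S24 Fermat.Agent.S35 Fermat.Agent.S18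

local notation "Qb" => AlgebraicClosure ℚ

/-- The count of (COMP3-M) for the families `u ^ a * t ^ b` of `h91_hb_mod`. -/
theorem h99_count_m (L q : ℕ) [NeZero L] (hq : 0 < q) :
    q * (q + 1) * ModularCurve.dedekindPsi L ≤
      ∑ c : Fin 3, (![1, q - 1, 1] : Fin 3 → ℕ) c *
        ((![1, 1, q * q] : Fin 3 → ℕ) c * Nat.card (SL(2, ℤ) ⧸ Gamma0 L)) := by
  rw [h29_card_quotient_Gamma0 L]
  obtain ⟨m, rfl⟩ : ∃ m, q = m + 1 := ⟨q - 1, by omega⟩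
  simp only [Fin.sum_univ_three, Matrix.cons_val_zero, Matrix.cons_val_one, Matrix.cons_val_two,
    Matrix.head_cons, Matrix.tail_cons, Nat.add_sub_cancel]
  apply le_of_eq
  ring

section Inst

variable (L q : ℕ) [NeZero L] [NeZero q] [Fact q.Prime] (hqL : ¬ q ∣ L)
  (A : ValuationSubring Qb) (hA : A.LiesOverPrime q)
  (ζ : Qb) (hζ : IsPrimitiveRoot ζ q) (hex : h98_Ex L q hqL A ζ hζ)

include hA in
/-- **(C3) = COMP3-M at level `L q²`**, in the binder shape `hC3` of `h46_EBinders`. -/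
theorem h99_hC3_inst
    (hx0 : Transcendental (h69_K0 (A.inertiaSubgroupIn ℚ))
      (h69_jF0 (L * q * q) (A.inertiaSubgroupIn ℚ)))
    (hx : Transcendental Qb (h59_jbar (L * q * q)))
    (hnorm1 : ∃ z : h69_F0 (L * q * q) (A.inertiaSubgroupIn ℚ),
      z ≠ 0 ∧ h98_w2 L q hqL A ζ hζ hex 1 z = 1)
    (hne : ∀ c c' : Fin 3, c ≠ c' → ∃ g : h69_F0 (L * q * q) (A.inertiaSubgroupIn ℚ),
      g ≠ 0 ∧ h98_w2 L q hqL A ζ hζ hex c g ≠ h98_w2 L q hqL A ζ hζ hex c' g)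
    (hR : ∀ (c : Fin 3) (r : h69_F0 (L * q * q) (A.inertiaSubgroupIn ℚ)),
      r ∈ h75_gaussRing (h69_A0 A) (h69_jF0 (L * q * q) (A.inertiaSubgroupIn ℚ)) → r ≠ 0 →
      0 ≤ h98_w2 L q hqL A ζ hζ hex c r)
    (f : Fin 3 → ℕ) (b : (c : Fin 3) → Fin (f c) → h69_F0 (L * q * q) (A.inertiaSubgroupIn ℚ))
    (hb : ∀ (c : Fin 3) (r : Fin (f c) →
        ↥(h75_gaussRing (h69_A0 A) (h69_jF0 (L * q * q) (A.inertiaSubgroupIn ℚ)))),
      (∃ j, IsUnit (r j)) →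
      ∑ j, r j • b c j ≠ 0 ∧ h98_w2 L q hqL A ζ hζ hex c (∑ j, r j • b c j) = 0)
    (hcount : q * (q + 1) * ModularCurve.dedekindPsi L ≤
      ∑ c : Fin 3, (![1, q - 1, 1] : Fin 3 → ℕ) c * f c) :
    ∀ g : h69_F0 (L * q * q) (A.inertiaSubgroupIn ℚ), g ≠ 0 →
      ((h69_F0 (L * q * q) (A.inertiaSubgroupIn ℚ)).subtype g ∈
          h97_latO (h69_F0 (L * q * q) (A.inertiaSubgroupIn ℚ)).subtype (h69_A0 A) A
            (h69_jF0 (L * q * q) (A.inertiaSubgroupIn ℚ)) hx0 (h59_jbar (L * q * q)) hx ↔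
        ∀ c, 0 ≤ h98_w2 L q hqL A ζ hζ hex c g) := by
  have hq : q.Prime := Fact.out
  have : FiniteDimensional
      (h69_K0 (A.inertiaSubgroupIn ℚ))⟮h69_jF0 (L * q * q) (A.inertiaSubgroupIn ℚ)⟯
      (h69_F0 (L * q * q) (A.inertiaSubgroupIn ℚ)) :=
    h69_F0_finite (L * q * q) (A.inertiaSubgroupIn ℚ)
  have hq0K : (q : h69_K0 (A.inertiaSubgroupIn ℚ)) ≠ 0 := by exact_mod_cast hq.ne_zero
  have hnon := h69_q_mem_nonunits q A hA
  have hwA : (q : h69_K0 (A.inertiaSubgroupIn ℚ)) ∈ h69_A0 A := (h69_A0 A).nonunits_le hnon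
  have hwi : (q : h69_K0 (A.inertiaSubgroupIn ℚ))⁻¹ ∉ h69_A0 A :=
    ((ValuationSubring.mem_nonunits_iff_or (A := h69_A0 A)).mp hnon).resolve_left hq0K
  have hDV : ∀ c : h69_K0 (A.inertiaSubgroupIn ℚ), c ≠ 0 →
      ∃ (n : ℤ) (u : h69_K0 (A.inertiaSubgroupIn ℚ)), u ∈ h69_A0 A ∧ u⁻¹ ∈ h69_A0 A ∧
        c = (q : h69_K0 (A.inertiaSubgroupIn ℚ)) ^ n * u := by
    intro c hc
    obtain ⟨n, u, h1, h2, h3⟩ := h69_inst_dv q A hA c hc
    exact ⟨n, u, h2, h3, h1⟩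
  have hqF : algebraMap (h69_K0 (A.inertiaSubgroupIn ℚ))
      (h69_F0 (L * q * q) (A.inertiaSubgroupIn ℚ)) (q : h69_K0 (A.inertiaSubgroupIn ℚ)) =
      (q : h69_F0 (L * q * q) (A.inertiaSubgroupIn ℚ)) := map_natCast _ q
  have hq0F : (q : h69_F0 (L * q * q) (A.inertiaSubgroupIn ℚ)) ≠ 0 := by
    exact_mod_cast hq.ne_zero
  have he : ∀ c : Fin 3, h98_w2 L q hqL A ζ hζ hex c
      (algebraMap (h69_K0 (A.inertiaSubgroupIn ℚ))
        (h69_F0 (L * q * q) (A.inertiaSubgroupIn ℚ)) (q : h69_K0 (A.inertiaSubgroupIn ℚ))) =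
      ((![1, q - 1, 1] : Fin 3 → ℕ) c : ℤ) := by
    intro c
    rw [hqF]
    fin_cases c
    · simpa using h98_hq0 L q hqL A hA ζ hζ hex
    · have h1 := h98_hq1 L q hqL A hA ζ hζ hex
      show h98_w2 L q hqL A ζ hζ hex 1 (q : h69_F0 (L * q * q) (A.inertiaSubgroupIn ℚ)) =
        ((q - 1 : ℕ) : ℤ)
      rw [h1, Nat.cast_sub hq.one_le, Nat.cast_one]
    · simpa using h98_hq2 L q hqL A hA ζ hζ hex
  have hnorm : ∀ c : Fin 3, ∃ z : h69_F0 (L * q * q) (A.inertiaSubgroupIn ℚ),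
      z ≠ 0 ∧ h98_w2 L q hqL A ζ hζ hex c z = 1 := by
    intro c
    fin_cases c
    · exact ⟨_, hq0F, h98_hq0 L q hqL A hA ζ hζ hex⟩
    · exact hnorm1
    · exact ⟨_, hq0F, h98_hq2 L q hqL A hA ζ hζ hex⟩
  have hdeg : Module.finrank
      (h69_K0 (A.inertiaSubgroupIn ℚ))⟮h69_jF0 (L * q * q) (A.inertiaSubgroupIn ℚ)⟯
      (h69_F0 (L * q * q) (A.inertiaSubgroupIn ℚ)) ≤
      ∑ c : Fin 3, (![1, q - 1, 1] : Fin 3 → ℕ) c * f c := by
    rw [h69_F0_finrank_q2 L q hq hqL (A.inertiaSubgroupIn ℚ)]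
    exact hcount
  intro g hg
  have key := h99_latO_iff_h75 (algebraMap (h69_K0 (A.inertiaSubgroupIn ℚ)) Qb)
    (h69_F0 (L * q * q) (A.inertiaSubgroupIn ℚ)).subtype
    (h69_inst_comm (L * q * q) (A.inertiaSubgroupIn ℚ)) (h69_A0 A) A
    (fun a ha => ha) (fun a ha => ha)
    (h69_jF0 (L * q * q) (A.inertiaSubgroupIn ℚ)) hx0 (h59_jbar (L * q * q)) rfl hx
    (q : h69_K0 (A.inertiaSubgroupIn ℚ)) hwA hwi hDV
    (fun g hg => h69_inst_ld (L * q * q) (A.inertiaSubgroupIn ℚ) g hg)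
    (h98_w2 L q hqL A ζ hζ hex) (h98_w2_isVal L q hqL A hA ζ hζ hex) hR
    (![1, q - 1, 1] : Fin 3 → ℕ) he hnorm hne f b hb hdeg g
  rw [key]
  exact forall_congr' fun c => ⟨fun h => h.resolve_left hg, fun h => Or.inr h⟩

include hA in
/-- **(SEP)**: the three vertical valuations `h98_w2` are pairwise distinct (all primes `q`);
separators `i0 (h69_sep)` with orders `(0, 0, m)` and `i2 (h69_sep)` with orders `(m, 0, 0)`,
`m > 0` (`h69_tab_sep`). -/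
theorem h99_w2_hne :
    ∀ c c' : Fin 3, c ≠ c' → ∃ g : h69_F0 (L * q * q) (A.inertiaSubgroupIn ℚ),
      g ≠ 0 ∧ h98_w2 L q hqL A ζ hζ hex c g ≠ h98_w2 L q hqL A ζ hζ hex c' g := by
  have hq : q.Prime := Fact.out
  have : CharP (IsLocalRing.ResidueField A) q := h19_residueField_charP A q hA
  obtain ⟨-, -, -, ε, hε, hε', hε0, hϖ⟩ := h98_zeta_unif q A hA ζ hζ
  obtain ⟨m, hm, h1, h2, h3, h4, h5, h6⟩ := h69_tab_sep L q hqL (h36_i0 L q) (h36_i2 L q hqL)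
    (h98_hi0 L q) (h98_hi2 L q hqL) A hA ζ (hζ.ne_zero hq.ne_zero) hζ.pow_eq_one
    (h98_midP L q hqL ζ hζ) (h98_midP_i0 L q hqL ζ hζ) (h98_midP_i2 L q hqL ζ hζ)
    (ζ - 1) ε hε hε' hε0 hϖ (h36_W L q hqL) (h36_W_i0 L q hqL) (h36_W_i2 L q hqL)
    (h98_q_unif q A hA).2.2
  let a : h69_F0 (L * q * q) (A.inertiaSubgroupIn ℚ) :=
    ⟨h36_i0 L q (h69_sep L q), h69_i0_mem_F0 L q (h36_i0 L q) (h98_hi0 L q) _ _
      (h69_sep_mem_F0 L q _)⟩
  let b' : h69_F0 (L * q * q) (A.inertiaSubgroupIn ℚ) :=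
    ⟨h36_i2 L q hqL (h69_sep L q), h69_i2_mem_F0 L q hqL (h36_i2 L q hqL) (h98_hi2 L q hqL) _ _
      (h69_sep_mem_F0 L q _)⟩
  have ha1 : h98_w2 L q hqL A ζ hζ hex 0 a = 0 := h98_v1_eq L q hqL A hA ζ hζ hex a 0 h1
  have ha2 : h98_w2 L q hqL A ζ hζ hex 1 a = 0 := h98_v2_eq L q hqL A hA ζ hζ hex a 0 h2
  have ha3 : h98_w2 L q hqL A ζ hζ hex 2 a = m := h98_v3_eq L q hqL A hA ζ hζ hex a m h3
  have hb1 : h98_w2 L q hqL A ζ hζ hex 0 b' = m := h98_v1_eq L q hqL A hA ζ hζ hex b' m h4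
  have hb2 : h98_w2 L q hqL A ζ hζ hex 1 b' = 0 := h98_v2_eq L q hqL A hA ζ hζ hex b' 0 h5
  have hb3 : h98_w2 L q hqL A ζ hζ hex 2 b' = 0 := h98_v3_eq L q hqL A hA ζ hζ hex b' 0 h6
  have ha0 : a ≠ 0 := by
    intro h
    exact h98_GV_ne_zero h1 (by
      have h' : (a : modularFunctionFieldBar (L * q * q)) = 0 := congrArg Subtype.val h
      show ((h36_i0 L q (h69_sep L q) : modularFunctionFieldBar (L * q * q)) :
        LaurentSeries Qb) = 0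
      rw [show h36_i0 L q (h69_sep L q) = 0 from h']
      rfl)
  have hb0 : b' ≠ 0 := by
    intro h
    exact h98_GV_ne_zero h4 (by
      have h' : (b' : modularFunctionFieldBar (L * q * q)) = 0 := congrArg Subtype.val h
      show ((h36_i2 L q hqL (h69_sep L q) : modularFunctionFieldBar (L * q * q)) :
        LaurentSeries Qb) = 0
      rw [show h36_i2 L q hqL (h69_sep L q) = 0 from h']
      rfl)
  intro c c' hcc
  fin_cases c <;> fin_cases c'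
  · exact absurd rfl hcc
  · exact ⟨b', hb0, by show h98_w2 L q hqL A ζ hζ hex 0 b' ≠ h98_w2 L q hqL A ζ hζ hex 1 b'; omega⟩
  · exact ⟨a, ha0, by show h98_w2 L q hqL A ζ hζ hex 0 a ≠ h98_w2 L q hqL A ζ hζ hex 2 a; omega⟩
  · exact ⟨b', hb0, by show h98_w2 L q hqL A ζ hζ hex 1 b' ≠ h98_w2 L q hqL A ζ hζ hex 0 b'; omega⟩
  · exact absurd rfl hcc
  · exact ⟨a, ha0, by show h98_w2 L q hqL A ζ hζ hex 1 a ≠ h98_w2 L q hqL A ζ hζ hex 2 a; omega⟩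
  · exact ⟨a, ha0, by show h98_w2 L q hqL A ζ hζ hex 2 a ≠ h98_w2 L q hqL A ζ hζ hex 0 a; omega⟩
  · exact ⟨a, ha0, by show h98_w2 L q hqL A ζ hζ hex 2 a ≠ h98_w2 L q hqL A ζ hζ hex 1 a; omega⟩
  · exact absurd rfl hcc

include hA in
/-- **(C3) = COMP3-M at level `L q²`**, with (SEP) and the two transcendence binders discharged:
the only remaining inputs are `hnorm1` and the residue-degree blocks `hR`, `hb`. -/
theorem h99_hC3_of_blocks
    (hnorm1 : ∃ z : h69_F0 (L * q * q) (A.inertiaSubgroupIn ℚ),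
      z ≠ 0 ∧ h98_w2 L q hqL A ζ hζ hex 1 z = 1)
    (hR : ∀ (c : Fin 3) (r : h69_F0 (L * q * q) (A.inertiaSubgroupIn ℚ)),
      r ∈ h75_gaussRing (h69_A0 A) (h69_jF0 (L * q * q) (A.inertiaSubgroupIn ℚ)) → r ≠ 0 →
      0 ≤ h98_w2 L q hqL A ζ hζ hex c r)
    (f : Fin 3 → ℕ) (b : (c : Fin 3) → Fin (f c) → h69_F0 (L * q * q) (A.inertiaSubgroupIn ℚ))
    (hb : ∀ (c : Fin 3) (r : Fin (f c) →
        ↥(h75_gaussRing (h69_A0 A) (h69_jF0 (L * q * q) (A.inertiaSubgroupIn ℚ)))),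
      (∃ j, IsUnit (r j)) →
      ∑ j, r j • b c j ≠ 0 ∧ h98_w2 L q hqL A ζ hζ hex c (∑ j, r j • b c j) = 0)
    (hcount : q * (q + 1) * ModularCurve.dedekindPsi L ≤
      ∑ c : Fin 3, (![1, q - 1, 1] : Fin 3 → ℕ) c * f c) :
    ∀ g : h69_F0 (L * q * q) (A.inertiaSubgroupIn ℚ), g ≠ 0 →
      ((h69_F0 (L * q * q) (A.inertiaSubgroupIn ℚ)).subtype g ∈
          h97_latO (h69_F0 (L * q * q) (A.inertiaSubgroupIn ℚ)).subtype (h69_A0 A) A
            (h69_jF0 (L * q * q) (A.inertiaSubgroupIn ℚ))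
            (h69_jF0_transcendental (L * q * q) (A.inertiaSubgroupIn ℚ))
            (h59_jbar (L * q * q)) (h59_jbar_transcendental (L * q * q)) ↔
        ∀ c, 0 ≤ h98_w2 L q hqL A ζ hζ hex c g) :=
  h99_hC3_inst L q hqL A hA ζ hζ hex _ _ hnorm1 (h99_w2_hne L q hqL A hA ζ hζ hex) hR f b hb
    hcount

include hA in
/-- **(C3) = COMP3-M at level `L q²`** for the residue-degree families of `h91_hb_mod`
(`f c = m c * [SL₂(ℤ) : Γ₀(L)]`, `m = ![1, 1, q * q]`): the count is discharged. -/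
theorem h99_hC3_of_resFam
    (hnorm1 : ∃ z : h69_F0 (L * q * q) (A.inertiaSubgroupIn ℚ),
      z ≠ 0 ∧ h98_w2 L q hqL A ζ hζ hex 1 z = 1)
    (hR : ∀ (c : Fin 3) (r : h69_F0 (L * q * q) (A.inertiaSubgroupIn ℚ)),
      r ∈ h75_gaussRing (h69_A0 A) (h69_jF0 (L * q * q) (A.inertiaSubgroupIn ℚ)) → r ≠ 0 →
      0 ≤ h98_w2 L q hqL A ζ hζ hex c r)
    (b : (c : Fin 3) → Fin ((![1, 1, q * q] : Fin 3 → ℕ) c * Nat.card (SL(2, ℤ) ⧸ Gamma0 L)) →
      h69_F0 (L * q * q) (A.inertiaSubgroupIn ℚ))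
    (hb : ∀ (c : Fin 3)
        (r : Fin ((![1, 1, q * q] : Fin 3 → ℕ) c * Nat.card (SL(2, ℤ) ⧸ Gamma0 L)) →
          ↥(h75_gaussRing (h69_A0 A) (h69_jF0 (L * q * q) (A.inertiaSubgroupIn ℚ)))),
      (∃ j, IsUnit (r j)) →
      ∑ j, r j • b c j ≠ 0 ∧ h98_w2 L q hqL A ζ hζ hex c (∑ j, r j • b c j) = 0) :
    ∀ g : h69_F0 (L * q * q) (A.inertiaSubgroupIn ℚ), g ≠ 0 →
      ((h69_F0 (L * q * q) (A.inertiaSubgroupIn ℚ)).subtype g ∈
          h97_latO (h69_F0 (L * q * q) (A.inertiaSubgroupIn ℚ)).subtype (h69_A0 A) A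
            (h69_jF0 (L * q * q) (A.inertiaSubgroupIn ℚ))
            (h69_jF0_transcendental (L * q * q) (A.inertiaSubgroupIn ℚ))
            (h59_jbar (L * q * q)) (h59_jbar_transcendental (L * q * q)) ↔
        ∀ c, 0 ≤ h98_w2 L q hqL A ζ hζ hex c g) :=
  h99_hC3_of_blocks L q hqL A hA ζ hζ hex hnorm1 hR _ b hb
    (h99_count_m L q (Fact.out : q.Prime).pos)

end Inst

section Bridge

variable (L q : ℕ) [NeZero L] [NeZero q] [Fact q.Prime] (hqL : ¬ q ∣ L)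
  (A : ValuationSubring Qb) (hA : A.LiesOverPrime q)
  (hex : h98_Ex L q hqL A (h36_zeta q) (h36_zeta_prim q))

include hA in
theorem h99_w2_36_eq_98_zero (f : h69_F0 (L * q * q) (A.inertiaSubgroupIn ℚ)) :
    h36_w2 L q hqL A 0 f = h98_v1 L q hqL A (h36_zeta q) (h36_zeta_prim q) hex f := by
  by_cases hf : f = 0
  · rw [hf, h36_w2_zero]
    unfold h98_v1
    exact (h98_gv_zero _ _ _ _).symm
  · exact h36_w2_eq L q hqL A hA 0 f _
      (h98_v1_spec L q hqL A (h36_zeta q) (h36_zeta_prim q) hex f hf)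

include hA in
theorem h99_w2_36_eq_98_one (f : h69_F0 (L * q * q) (A.inertiaSubgroupIn ℚ)) :
    h36_w2 L q hqL A 1 f = h98_v2 L q hqL A (h36_zeta q) (h36_zeta_prim q) hex f := by
  by_cases hf : f = 0
  · rw [hf, h36_w2_zero]
    unfold h98_v2
    exact (h98_gv_zero _ _ _ _).symm
  · exact h36_w2_eq L q hqL A hA 1 f _
      (h98_v2_spec L q hqL A (h36_zeta q) (h36_zeta_prim q) hex f hf)

include hA in
theorem h99_w2_36_eq_98_two (f : h69_F0 (L * q * q) (A.inertiaSubgroupIn ℚ)) :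
    h36_w2 L q hqL A 2 f = h98_v3 L q hqL A (h36_zeta q) (h36_zeta_prim q) hex f := by
  by_cases hf : f = 0
  · rw [hf, h36_w2_zero]
    unfold h98_v3
    exact (h98_gv_zero _ _ _ _).symm
  · exact h36_w2_eq L q hqL A hA 2 f _
      (h98_v3_spec L q hqL A (h36_zeta q) (h36_zeta_prim q) hex f hf)

include hA in
/-- **The two definitions of `w2` agree**: `h36_w2` (value `0` without a Gauss order) is
`h98_w2` at `ζ := h36_zeta q`. -/
theorem h99_w2_36_eq_98 (c : Fin 3) (f : h69_F0 (L * q * q) (A.inertiaSubgroupIn ℚ)) :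
    h36_w2 L q hqL A c f = h98_w2 L q hqL A (h36_zeta q) (h36_zeta_prim q) hex c f :=
  match c with
  | 0 => h99_w2_36_eq_98_zero L q hqL A hA hex f
  | 1 => h99_w2_36_eq_98_one L q hqL A hA hex f
  | 2 => h99_w2_36_eq_98_two L q hqL A hA hex f

include hA in
/-- Function form of `h99_w2_36_eq_98`. -/
theorem h99_w2_36_eq_98_fun :
    h36_w2 L q hqL A = h98_w2 L q hqL A (h36_zeta q) (h36_zeta_prim q) hex :=
  funext fun c => funext fun f => h99_w2_36_eq_98 L q hqL A hA hex c f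

include hex in
/-- The existence hypothesis of `h36_W2` from that of `h98_W2`. -/
theorem h99_EX_of_Ex (c : Fin 3) : h36_EX L q hqL A c :=
  match c with
  | 0 => fun f hf => ⟨_, h98_v1_spec L q hqL A (h36_zeta q) (h36_zeta_prim q) hex f hf⟩
  | 1 => fun f hf => ⟨_, h98_v2_spec L q hqL A (h36_zeta q) (h36_zeta_prim q) hex f hf⟩
  | 2 => fun f hf => ⟨_, h98_v3_spec L q hqL A (h36_zeta q) (h36_zeta_prim q) hex f hf⟩

include hA in
/-- **(C3) = COMP3-M at level `L q²` for `h36_w2`** (same remaining inputs as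
`h99_hC3_of_resFam`, stated for `h98_w2` at `ζ := h36_zeta q`). -/
theorem h99_hC3_36
    (hnorm1 : ∃ z : h69_F0 (L * q * q) (A.inertiaSubgroupIn ℚ),
      z ≠ 0 ∧ h98_w2 L q hqL A (h36_zeta q) (h36_zeta_prim q) hex 1 z = 1)
    (hR : ∀ (c : Fin 3) (r : h69_F0 (L * q * q) (A.inertiaSubgroupIn ℚ)),
      r ∈ h75_gaussRing (h69_A0 A) (h69_jF0 (L * q * q) (A.inertiaSubgroupIn ℚ)) → r ≠ 0 →
      0 ≤ h98_w2 L q hqL A (h36_zeta q) (h36_zeta_prim q) hex c r)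
    (b : (c : Fin 3) → Fin ((![1, 1, q * q] : Fin 3 → ℕ) c * Nat.card (SL(2, ℤ) ⧸ Gamma0 L)) →
      h69_F0 (L * q * q) (A.inertiaSubgroupIn ℚ))
    (hb : ∀ (c : Fin 3)
        (r : Fin ((![1, 1, q * q] : Fin 3 → ℕ) c * Nat.card (SL(2, ℤ) ⧸ Gamma0 L)) →
          ↥(h75_gaussRing (h69_A0 A) (h69_jF0 (L * q * q) (A.inertiaSubgroupIn ℚ)))),
      (∃ j, IsUnit (r j)) →
      ∑ j, r j • b c j ≠ 0 ∧
        h98_w2 L q hqL A (h36_zeta q) (h36_zeta_prim q) hex c (∑ j, r j • b c j) = 0) :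
    ∀ g : h69_F0 (L * q * q) (A.inertiaSubgroupIn ℚ), g ≠ 0 →
      ((h69_F0 (L * q * q) (A.inertiaSubgroupIn ℚ)).subtype g ∈
          h97_latO (h69_F0 (L * q * q) (A.inertiaSubgroupIn ℚ)).subtype (h69_A0 A) A
            (h69_jF0 (L * q * q) (A.inertiaSubgroupIn ℚ))
            (h69_jF0_transcendental (L * q * q) (A.inertiaSubgroupIn ℚ))
            (h59_jbar (L * q * q)) (h59_jbar_transcendental (L * q * q)) ↔
        ∀ c, 0 ≤ h36_w2 L q hqL A c g) := by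
  intro g hg
  rw [h99_hC3_of_resFam L q hqL A hA (h36_zeta q) (h36_zeta_prim q) hex hnorm1 hR b hb g hg]
  exact forall_congr' fun c => by rw [h99_w2_36_eq_98 L q hqL A hA hex c g]

end Bridge

section D2j

variable (L q : ℕ) [NeZero L] [NeZero q] [Fact q.Prime] (hqL : ¬ q ∣ L)
  (A : ValuationSubring Qb) (hA : A.LiesOverPrime q)

/-- **(C3) for THE lattice `h17_D2j` and `h98_w2`**: the binder `hC3` of `h29_final_plug` /
`h46_EBinders` with `D := h17_D2j (L * q * q) q A hA`, `w := h98_w2 ..`. -/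
theorem h99_hC3_D2j_98 (ζ : Qb) (hζ : IsPrimitiveRoot ζ q) (hex : h98_Ex L q hqL A ζ hζ)
    (hnorm1 : ∃ z : h69_F0 (L * q * q) (A.inertiaSubgroupIn ℚ),
      z ≠ 0 ∧ h98_w2 L q hqL A ζ hζ hex 1 z = 1)
    (hR : ∀ (c : Fin 3) (r : h69_F0 (L * q * q) (A.inertiaSubgroupIn ℚ)),
      r ∈ h75_gaussRing (h69_A0 A) (h69_jF0 (L * q * q) (A.inertiaSubgroupIn ℚ)) → r ≠ 0 →
      0 ≤ h98_w2 L q hqL A ζ hζ hex c r)
    (b : (c : Fin 3) → Fin ((![1, 1, q * q] : Fin 3 → ℕ) c * Nat.card (SL(2, ℤ) ⧸ Gamma0 L)) →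
      h69_F0 (L * q * q) (A.inertiaSubgroupIn ℚ))
    (hb : ∀ (c : Fin 3)
        (r : Fin ((![1, 1, q * q] : Fin 3 → ℕ) c * Nat.card (SL(2, ℤ) ⧸ Gamma0 L)) →
          ↥(h75_gaussRing (h69_A0 A) (h69_jF0 (L * q * q) (A.inertiaSubgroupIn ℚ)))),
      (∃ j, IsUnit (r j)) →
      ∑ j, r j • b c j ≠ 0 ∧ h98_w2 L q hqL A ζ hζ hex c (∑ j, r j • b c j) = 0) :
    ∀ f : h69_F0 (L * q * q) (A.inertiaSubgroupIn ℚ), f ≠ 0 →
      ((f : modularFunctionFieldBar (L * q * q)) ∈ (h17_D2j (L * q * q) q A hA).O ↔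
        ∀ c, 0 ≤ h98_w2 L q hqL A ζ hζ hex c f) :=
  h99_hC3_of_resFam L q hqL A hA ζ hζ hex hnorm1 hR b hb

/-- **(C3) for THE lattice `h17_D2j` and `h36_w2`**. -/
theorem h99_hC3_D2j_36 (hex : h98_Ex L q hqL A (h36_zeta q) (h36_zeta_prim q))
    (hnorm1 : ∃ z : h69_F0 (L * q * q) (A.inertiaSubgroupIn ℚ),
      z ≠ 0 ∧ h98_w2 L q hqL A (h36_zeta q) (h36_zeta_prim q) hex 1 z = 1)
    (hR : ∀ (c : Fin 3) (r : h69_F0 (L * q * q) (A.inertiaSubgroupIn ℚ)),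
      r ∈ h75_gaussRing (h69_A0 A) (h69_jF0 (L * q * q) (A.inertiaSubgroupIn ℚ)) → r ≠ 0 →
      0 ≤ h98_w2 L q hqL A (h36_zeta q) (h36_zeta_prim q) hex c r)
    (b : (c : Fin 3) → Fin ((![1, 1, q * q] : Fin 3 → ℕ) c * Nat.card (SL(2, ℤ) ⧸ Gamma0 L)) →
      h69_F0 (L * q * q) (A.inertiaSubgroupIn ℚ))
    (hb : ∀ (c : Fin 3)
        (r : Fin ((![1, 1, q * q] : Fin 3 → ℕ) c * Nat.card (SL(2, ℤ) ⧸ Gamma0 L)) →
          ↥(h75_gaussRing (h69_A0 A) (h69_jF0 (L * q * q) (A.inertiaSubgroupIn ℚ)))),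
      (∃ j, IsUnit (r j)) →
      ∑ j, r j • b c j ≠ 0 ∧
        h98_w2 L q hqL A (h36_zeta q) (h36_zeta_prim q) hex c (∑ j, r j • b c j) = 0) :
    ∀ f : h69_F0 (L * q * q) (A.inertiaSubgroupIn ℚ), f ≠ 0 →
      ((f : modularFunctionFieldBar (L * q * q)) ∈ (h17_D2j (L * q * q) q A hA).O ↔
        ∀ c, 0 ≤ h36_w2 L q hqL A c f) :=
  h99_hC3_36 L q hqL A hA hex hnorm1 hR b hb

end D2j

end Fermat.Agent.S36
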