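import Mathlib
import Fermat.Agent.S36.h99_Comp3Inst
import Fermat.Agent.S36.h49_ExInst
import Fermat.Agent.S36.h41_MidTheta
import Fermat.Agent.S36.h60_HasseTheta

/-!
# S36 / COMP3-M : the single iff at level `L q²`, residue blocks as the only inputs (helper99)

On top of `h99_Comp3Inst`: the existence input `hex` is `h49_ex`, and the normalisation of the
middle valuation (`hnorm1`) is `z = i2 j - i0 j` (`j = h59_jbar (L q)`), of `w2`-order `1` on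
`C11` by (MID-4) `h41_mid_GV` and `θ(j̄) ≠ 0`.

* `h99_w2_hnorm1` : `∃ z : F0, z ≠ 0 ∧ h98_w2 .. 1 z = 1` (every prime `q`).
* `h99_hC3_fin_98` / `h99_hC3_fin_36` : **(C3)**
  `∀ f : F0, f ≠ 0 → (f ∈ (h17_D2j (L*q*q) q A hA).O ↔ ∀ c, 0 ≤ w2 c f)` for `w2 = h98_w2`
  (any `ζ`) resp. `h36_w2`, with ONLY the residue-degree blocks `hR`, `hb` as hypotheses.
-/

set_option autoImplicit false
set_option synthInstance.maxHeartbeats 400000

noncomputable section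

open ModularCurve AlgebraicCurve CongruenceSubgroup Polynomial IntermediateField
open scoped MatrixGroups

namespace Fermat.Agent.S36

open Fermat.Agent.S34 Fermat.Agent.S37 Fermat.Agent.S24 Fermat.Agent.S35 Fermat.Agent.S18

local notation "Qb" => AlgebraicClosure ℚ

section Fin

variable (L q : ℕ) [NeZero L] [NeZero q] [Fact q.Prime] (hqL : ¬ q ∣ L)
  (A : ValuationSubring Qb) (hA : A.LiesOverPrime q)
  (ζ : Qb) (hζ : IsPrimitiveRoot ζ q) (hex : h98_Ex L q hqL A ζ hζ)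

include hA in
/-- **(MID-4) as `hnorm` for `C11`**: `z = i2 j - i0 j` has `w2 1 z = 1`. -/
theorem h99_w2_hnorm1 :
    ∃ z : h69_F0 (L * q * q) (A.inertiaSubgroupIn ℚ),
      z ≠ 0 ∧ h98_w2 L q hqL A ζ hζ hex 1 z = 1 := by
  have hs : ((h59_jbar (L * q) : modularFunctionFieldBar (L * q)) : LaurentSeries Qb) ∈
      h60_Os A := by
    rw [h59_coe_jbar, ← h60_coe_JOs A]
    exact (h60_JOs A).2
  have hrs : h60_rs A ⟨_, hs⟩ = jqModC (IsLocalRing.ResidueField A) := by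
    rw [← h60_rs_JOs A]
    congr 1
    apply Subtype.ext
    show ((h59_jbar (L * q) : modularFunctionFieldBar (L * q)) : LaurentSeries Qb) =
      ((h60_JOs A : h60_Os A) : LaurentSeries Qb)
    rw [h59_coe_jbar, h60_coe_JOs A]
  have hθ : h20_thetaFun (h60_rs A ⟨_, hs⟩) ≠ 0 := by
    rw [hrs]
    exact h60_thetaFun_jq_ne_zero _
  have hGV := h41_mid_GV L q hqL A hA ζ hζ (h59_jbar (L * q)) hs hθ
  have hj : h59_jbar (L * q) ∈ h69_F0 (L * q) (A.inertiaSubgroupIn ℚ) :=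
    (h69_jF0 (L * q) (A.inertiaSubgroupIn ℚ)).2
  let z : h69_F0 (L * q * q) (A.inertiaSubgroupIn ℚ) :=
    ⟨h36_i2 L q hqL (h59_jbar (L * q)) - h36_i0 L q (h59_jbar (L * q)),
      sub_mem (h69_i2_mem_F0 L q hqL (h36_i2 L q hqL) (h98_hi2 L q hqL) _ _ hj)
        (h69_i0_mem_F0 L q (h36_i0 L q) (h98_hi0 L q) _ _ hj)⟩
  refine ⟨z, ?_, h98_v2_eq L q hqL A hA ζ hζ hex z 1 hGV⟩
  intro h
  apply h98_GV_ne_zero hGV
  have h' : (z : modularFunctionFieldBar (L * q * q)) = 0 := congrArg Subtype.val h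
  show h98_midP L q hqL ζ hζ
    (h36_i2 L q hqL (h59_jbar (L * q)) - h36_i0 L q (h59_jbar (L * q))) = 0
  rw [show h36_i2 L q hqL (h59_jbar (L * q)) - h36_i0 L q (h59_jbar (L * q)) = 0 from h',
    map_zero]

/-- **(C3) = COMP3-M for THE lattice `h17_D2j` and `h98_w2`** (`hex := h49_ex`), with only the
residue-degree blocks as hypotheses. -/
theorem h99_hC3_fin_98
    (hR : ∀ (c : Fin 3) (r : h69_F0 (L * q * q) (A.inertiaSubgroupIn ℚ)),
      r ∈ h75_gaussRing (h69_A0 A) (h69_jF0 (L * q * q) (A.inertiaSubgroupIn ℚ)) → r ≠ 0 →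
      0 ≤ h98_w2 L q hqL A ζ hζ (h49_ex L q hqL A hA ζ hζ) c r)
    (b : (c : Fin 3) → Fin ((![1, 1, q * q] : Fin 3 → ℕ) c * Nat.card (SL(2, ℤ) ⧸ Gamma0 L)) →
      h69_F0 (L * q * q) (A.inertiaSubgroupIn ℚ))
    (hb : ∀ (c : Fin 3)
        (r : Fin ((![1, 1, q * q] : Fin 3 → ℕ) c * Nat.card (SL(2, ℤ) ⧸ Gamma0 L)) →
          ↥(h75_gaussRing (h69_A0 A) (h69_jF0 (L * q * q) (A.inertiaSubgroupIn ℚ)))),
      (∃ j, IsUnit (r j)) →
      ∑ j, r j • b c j ≠ 0 ∧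
        h98_w2 L q hqL A ζ hζ (h49_ex L q hqL A hA ζ hζ) c (∑ j, r j • b c j) = 0) :
    ∀ f : h69_F0 (L * q * q) (A.inertiaSubgroupIn ℚ), f ≠ 0 →
      ((f : modularFunctionFieldBar (L * q * q)) ∈ (h17_D2j (L * q * q) q A hA).O ↔
        ∀ c, 0 ≤ h98_w2 L q hqL A ζ hζ (h49_ex L q hqL A hA ζ hζ) c f) :=
  h99_hC3_D2j_98 L q hqL A hA ζ hζ (h49_ex L q hqL A hA ζ hζ)
    (h99_w2_hnorm1 L q hqL A hA ζ hζ _) hR b hb

/-- **(C3) = COMP3-M for THE lattice `h17_D2j` and `h36_w2`**, with only the residue-degree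
blocks (stated for `h98_w2` at `ζ := h36_zeta q`, `hex := h49_ex`) as hypotheses. -/
theorem h99_hC3_fin_36
    (hR : ∀ (c : Fin 3) (r : h69_F0 (L * q * q) (A.inertiaSubgroupIn ℚ)),
      r ∈ h75_gaussRing (h69_A0 A) (h69_jF0 (L * q * q) (A.inertiaSubgroupIn ℚ)) → r ≠ 0 →
      0 ≤ h98_w2 L q hqL A (h36_zeta q) (h36_zeta_prim q)
        (h49_ex L q hqL A hA (h36_zeta q) (h36_zeta_prim q)) c r)
    (b : (c : Fin 3) → Fin ((![1, 1, q * q] : Fin 3 → ℕ) c * Nat.card (SL(2, ℤ) ⧸ Gamma0 L)) →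
      h69_F0 (L * q * q) (A.inertiaSubgroupIn ℚ))
    (hb : ∀ (c : Fin 3)
        (r : Fin ((![1, 1, q * q] : Fin 3 → ℕ) c * Nat.card (SL(2, ℤ) ⧸ Gamma0 L)) →
          ↥(h75_gaussRing (h69_A0 A) (h69_jF0 (L * q * q) (A.inertiaSubgroupIn ℚ)))),
      (∃ j, IsUnit (r j)) →
      ∑ j, r j • b c j ≠ 0 ∧
        h98_w2 L q hqL A (h36_zeta q) (h36_zeta_prim q)
          (h49_ex L q hqL A hA (h36_zeta q) (h36_zeta_prim q)) c (∑ j, r j • b c j) = 0) :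
    ∀ f : h69_F0 (L * q * q) (A.inertiaSubgroupIn ℚ), f ≠ 0 →
      ((f : modularFunctionFieldBar (L * q * q)) ∈ (h17_D2j (L * q * q) q A hA).O ↔
        ∀ c, 0 ≤ h36_w2 L q hqL A c f) :=
  h99_hC3_D2j_36 L q hqL A hA (h49_ex L q hqL A hA (h36_zeta q) (h36_zeta_prim q))
    (h99_w2_hnorm1 L q hqL A hA (h36_zeta q) (h36_zeta_prim q) _) hR b hb

end Fin

end Fermat.Agent.S36
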