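import Mathlib
import Fermat.Agent.S36.h99_Comp3Fin
import Fermat.Agent.S36.h91_ResFamInst

/-!
# S36 / COMP3-M CLOSED : (C3) at level `L q²` with no hypothesis (helper99)

`h99_hC3_fin_98` / `h99_hC3_fin_36` (S36/h99_Comp3Fin.lean) applied to helper91's residue-degree
blocks `h91_hR_w98`, `h91_bRes`, `h91_hb_w98` (S36/h91_ResFamInst.lean).  No hypothesis beyond
`hqL : ¬ q ∣ L` and `hA : A.LiesOverPrime q`; every prime `q`.

* `h99_hC3_closed_98` : for every `ζ`, `hζ`, `hex : h98_Ex L q hqL A ζ hζ`,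
  `∀ f : F0, f ≠ 0 → (f ∈ (h17_D2j (L*q*q) q A hA).O ↔ ∀ c, 0 ≤ h98_w2 L q hqL A ζ hζ hex c f)`.
* `h99_hC3_closed_36` : the same for `h36_w2 L q hqL A`.
-/

set_option autoImplicit false
set_option synthInstance.maxHeartbeats 400000

noncomputable section

open ModularCurve AlgebraicCurve CongruenceSubgroup Polynomial IntermediateField
open scoped MatrixGroups

namespace Fermat.Agent.S36

open Fermat.Agent.S34 Fermat.Agent.S37 Fermat.Agent.S24 Fermat.Agent.S35 Fermat.Agent.S18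

local notation "Qb" => AlgebraicClosure ℚ

section Closed

variable (L q : ℕ) [NeZero L] [NeZero q] [Fact q.Prime] (hqL : ¬ q ∣ L)
  (A : ValuationSubring Qb) (hA : A.LiesOverPrime q)

/-- **COMP3-M CLOSED for `h98_w2`** (any `ζ`, any existence proof `hex`): a nonzero `f : F0` at
level `L q²` lies in the lattice `(h17_D2j (L*q*q) q A hA).O` iff its three vertical orders are
`≥ 0`. -/
theorem h99_hC3_closed_98 (ζ : Qb) (hζ : IsPrimitiveRoot ζ q) (hex : h98_Ex L q hqL A ζ hζ) :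
    ∀ f : h69_F0 (L * q * q) (A.inertiaSubgroupIn ℚ), f ≠ 0 →
      ((f : modularFunctionFieldBar (L * q * q)) ∈ (h17_D2j (L * q * q) q A hA).O ↔
        ∀ c, 0 ≤ h98_w2 L q hqL A ζ hζ hex c f) :=
  h99_hC3_fin_98 L q hqL A hA ζ hζ
    (h91_hR_w98 L q hqL A hA ζ hζ (h49_ex L q hqL A hA ζ hζ))
    (h91_bRes L q hqL A)
    (h91_hb_w98 L q hqL A hA ζ hζ (h49_ex L q hqL A hA ζ hζ))

/-- **COMP3-M CLOSED for `h36_w2`**. -/
theorem h99_hC3_closed_36 :
    ∀ f : h69_F0 (L * q * q) (A.inertiaSubgroupIn ℚ), f ≠ 0 →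
      ((f : modularFunctionFieldBar (L * q * q)) ∈ (h17_D2j (L * q * q) q A hA).O ↔
        ∀ c, 0 ≤ h36_w2 L q hqL A c f) :=
  h99_hC3_fin_36 L q hqL A hA
    (h91_hR_w98 L q hqL A hA (h36_zeta q) (h36_zeta_prim q)
      (h49_ex L q hqL A hA (h36_zeta q) (h36_zeta_prim q)))
    (h91_bRes L q hqL A)
    (h91_hb_w98 L q hqL A hA (h36_zeta q) (h36_zeta_prim q)
      (h49_ex L q hqL A hA (h36_zeta q) (h36_zeta_prim q)))

end Closed

end Fermat.Agent.S36
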