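import Mathlib
import Fermat.Agent.S36.h99_Comp3Closed
import Fermat.Agent.S36.h97_C3Mod
import Fermat.Agent.S36.h80_FamInst
import Fermat.Agent.S36.h65_HorInt

/-!
# S36 / (NOETH-CLOSED) at level `M q²`, chart 1 (helper65)

The closed instance of helper80's `h80_famOf_noeth` for the chart `j` at level `M q²` and the
vertical valuations `h98_w2`:

* `h65_const_mem_gauss`, `h65_hwA_of_hR`, `h65_hwx_of_hR` : the binders `hwA`, `hwx` of
  `h80_famOf_noeth` from the Gauss-ring binder `hR` (any level, any family of valuations).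
* `h65_hvert_q2` : the binder `hvert` of `h80_famOf_noeth`, VERBATIM, at `N := M * q * q`,
  `w := h98_w2 ..`, `x0 := h69_jF0 (M * q * q) I` (`= h65_J0 (M * q * q) I` by `rfl`).
* `h65_noeth_q2` : `IsNoetherianRing (h80_fam1 (M * q * q) I (h98_w2 ..) ..).B` and every element
  of that chart ring is integral over `A₀[j]`.
-/

set_option autoImplicit false
set_option synthInstance.maxHeartbeats 400000

noncomputable section

open ModularCurve AlgebraicCurve CongruenceSubgroup Polynomial IntermediateField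
open scoped MatrixGroups

namespace Fermat.Agent.S36

open Fermat.Agent.S34 Fermat.Agent.S37 Fermat.Agent.S24 Fermat.Agent.S35 Fermat.Agent.S18

local notation "Qb" => AlgebraicClosure ℚ

section Generic

variable {K F : Type*} [Field K] [Field F] [Algebra K F]

/-- Constants of `A` lie in the Gauss ring of `(A, x)`. -/
theorem h65_const_mem_gauss (A : ValuationSubring K) (x : F) (a : K) (ha : a ∈ A) :
    algebraMap K F a ∈ h75_gaussRing A x := by
  refine ⟨C ⟨a, ha⟩, 1, ?_, ?_⟩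
  · rw [Polynomial.map_one]
    exact one_ne_zero
  · rw [Polynomial.map_one, map_one, mul_one, Polynomial.map_C, aeval_C]
    rfl

end Generic

section Binders

variable (N : ℕ) (A : ValuationSubring Qb) {κ : Type*}
  (w : κ → h69_F0 N (A.inertiaSubgroupIn ℚ) → ℤ) (x0 : h69_F0 N (A.inertiaSubgroupIn ℚ))
  (hR : ∀ (c : κ) (r : h69_F0 N (A.inertiaSubgroupIn ℚ)),
    r ∈ h75_gaussRing (h69_A0 A) x0 → r ≠ 0 → 0 ≤ w c r)

include hR in
/-- The binder `hwA` of `h80_famOf_noeth` from the Gauss-ring binder `hR`. -/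
theorem h65_hwA_of_hR :
    ∀ c (a : h69_K0 (A.inertiaSubgroupIn ℚ)), a ∈ h69_A0 A → a ≠ 0 →
      0 ≤ w c (algebraMap (h69_K0 (A.inertiaSubgroupIn ℚ))
        (h69_F0 N (A.inertiaSubgroupIn ℚ)) a) :=
  fun c a ha ha0 => hR c _ (h65_const_mem_gauss (h69_A0 A) x0 a ha)
    ((_root_.map_ne_zero _).mpr ha0)

include hR in
/-- The binder `hwx` of `h80_famOf_noeth` from the Gauss-ring binder `hR`. -/
theorem h65_hwx_of_hR (hx0 : x0 ≠ 0) : ∀ c, 0 ≤ w c x0 :=
  fun c => hR c x0 (h75_gaussRing_x (h69_A0 A) x0) hx0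

end Binders

section Q2

variable (M q : ℕ) [NeZero M] [NeZero q] [Fact q.Prime] (hqM : ¬ q ∣ M)
  (A : ValuationSubring Qb) (hA : A.LiesOverPrime q)
  (ζ : Qb) (hζ : IsPrimitiveRoot ζ q) (hex : h98_Ex M q hqM A ζ hζ)

include hA in
/-- **`hvert` at level `M q²`, chart `j`** : the binder of `h80_famOf_noeth`, closed. -/
theorem h65_hvert_q2 :
    ∀ g : h69_F0 (M * q * q) (A.inertiaSubgroupIn ℚ), g ≠ 0 →
      (∀ c, 0 ≤ h98_w2 M q hqM A ζ hζ hex c g) →
      ∃ s : Polynomial (h69_A0 A).toSubring,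
        (∃ i, (s.coeff i : h69_K0 (A.inertiaSubgroupIn ℚ))⁻¹ ∈ h69_A0 A ∧ s.coeff i ≠ 0) ∧
          (h97_ev (h69_A0 A).toSubring
            (h69_jF0 (M * q * q) (A.inertiaSubgroupIn ℚ))).IsIntegralElem
            (h97_ev (h69_A0 A).toSubring (h69_jF0 (M * q * q) (A.inertiaSubgroupIn ℚ)) s * g) := by
  have hq : q.Prime := Fact.out
  have hq0F : (q : h69_F0 (M * q * q) (A.inertiaSubgroupIn ℚ)) ≠ 0 := by
    exact_mod_cast hq.ne_zero
  refine h97_hvert_mod75 (M * q * q) q A (h69_jF0 (M * q * q) (A.inertiaSubgroupIn ℚ))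
    (h54_isChart_jbar (M * q * q)) hA (h98_w2 M q hqM A ζ hζ hex)
    (h98_w2_isVal M q hqM A hA ζ hζ hex)
    (fun c r hr => h91_hR_w98 M q hqM A hA ζ hζ hex c _ r.2 hr)
    (![1, q - 1, 1] : Fin 3 → ℕ) ?_ ?_
    (h99_w2_hne M q hqM A hA ζ hζ hex) (h91_fRes M q) (h91_bRes M q hqM A)
    (h91_hb_w98 M q hqM A hA ζ hζ hex) ?_
  · intro c
    fin_cases c
    · simpa using h98_hq0 M q hqM A hA ζ hζ hex
    · have h1 := h98_hq1 M q hqM A hA ζ hζ hex
      show h98_w2 M q hqM A ζ hζ hex 1 (q : h69_F0 (M * q * q) (A.inertiaSubgroupIn ℚ)) =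
        ((q - 1 : ℕ) : ℤ)
      rw [h1, Nat.cast_sub hq.one_le, Nat.cast_one]
    · simpa using h98_hq2 M q hqM A hA ζ hζ hex
  · intro c
    fin_cases c
    · exact ⟨_, hq0F, h98_hq0 M q hqM A hA ζ hζ hex⟩
    · exact h99_w2_hnorm1 M q hqM A hA ζ hζ hex
    · exact ⟨_, hq0F, h98_hq2 M q hqM A hA ζ hζ hex⟩
  · rw [h69_F0_finrank_q2 M q hq hqM (A.inertiaSubgroupIn ℚ)]
    exact h99_count_m M q hq.pos

include hA in
/-- **(NOETH-CLOSED), level `M q²`, chart 1**: the chart ring of `h80_fam1` for `h98_w2` is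
noetherian, and each of its elements is integral over `A₀[j]`. -/
theorem h65_noeth_q2 :
    IsNoetherianRing
      (h80_fam1 (M * q * q) (A.inertiaSubgroupIn ℚ) (h98_w2 M q hqM A ζ hζ hex)
        (h98_hw2mul M q hqM A hA ζ hζ hex) (h98_hw2add M q hqM A hA ζ hζ hex)).B ∧
    ∀ f ∈ (h80_fam1 (M * q * q) (A.inertiaSubgroupIn ℚ) (h98_w2 M q hqM A ζ hζ hex)
        (h98_hw2mul M q hqM A hA ζ hζ hex) (h98_hw2add M q hqM A hA ζ hζ hex)).B,
      (h97_ev (h69_A0 A).toSubring (h65_J0 (M * q * q) (A.inertiaSubgroupIn ℚ))).IsIntegralElem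
        f := by
  have hx0 : h69_jF0 (M * q * q) (A.inertiaSubgroupIn ℚ) ≠ 0 := fun h =>
    h59_jbar_transcendental (M * q * q)
      (by rw [show h59_jbar (M * q * q) = 0 from congrArg Subtype.val h]; exact isAlgebraic_zero)
  exact h80_famOf_noeth (M * q * q) q A hA (h98_w2 M q hqM A ζ hζ hex)
    (h98_hw2mul M q hqM A hA ζ hζ hex) (h98_hw2add M q hqM A hA ζ hζ hex)
    (h69_jF0 (M * q * q) (A.inertiaSubgroupIn ℚ)) (h54_isChart_jbar (M * q * q))
    (h65_hwA_of_hR (M * q * q) A _ _ (h91_hR_w98 M q hqM A hA ζ hζ hex))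
    (h65_hwx_of_hR (M * q * q) A _ _ (h91_hR_w98 M q hqM A hA ζ hζ hex) hx0)
    (h65_hvert_q2 M q hqM A hA ζ hζ hex)

end Q2

end Fermat.Agent.S36
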