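import Fermat.Agent.S36.h99_FundEq

/-!
# S36 / row VAL : weak approximation for finitely many normalised `ℤ`-valued valuations (helper88)

On top of `h99_FundEq` (same encoding `h99_IsVal`, `h99_Ge`).  For finitely many pairwise distinct
normalised valuations `w c` of a field `F`:

* `h88_exists_idem_one` : approximate idempotents `t` with `t ≡ 1` at `c`, `t ≡ 0` elsewhere;
* `h88_crt`             : Chinese remainder theorem, `∃ g, ∀ c, g ≡ t c` to precision `N` at `w c`;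
* `h88_approx`          : `∃ g ≠ 0, ∀ c, w c g = a c` for arbitrary `a : κ → ℤ`;
* `h88_exists_unif`     : uniformisers `π c` with `w j (π c) = δ_{jc}`;
* `h88_crt_val`         : CRT with prescribed targets and exact valuations.
-/

set_option autoImplicit false

namespace Fermat.Agent.S36

section h88approx

variable {F : Type*} [Field F] {κ : Type*} [Finite κ]

/-- Approximate idempotents: `t ≡ 1` at `c` and `t ≡ 0` at the other valuations, to
precision `M`. -/
theorem h88_exists_idem_one (w : κ → F → ℤ) (hw : ∀ c, h99_IsVal (w c))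
    (hnorm : ∀ c, ∃ z : F, z ≠ 0 ∧ w c z = 1)
    (hne : ∀ c c', c ≠ c' → ∃ g : F, g ≠ 0 ∧ w c g ≠ w c' g) (c : κ) (M : ℤ) :
    ∃ t : F, h99_Ge (w c) M (t - 1) ∧ ∀ j, j ≠ c → h99_Ge (w j) M t := by
  obtain ⟨a, ha0, hac, haj⟩ := h99_exists_sep w hw hnorm hne c
  obtain ⟨N, hN1, hNM⟩ : ∃ N : ℕ, (1 : ℤ) ≤ N ∧ M ≤ N :=
    ⟨(max M 1).toNat, by omega, by omega⟩
  have haN : a ^ N ≠ 0 := pow_ne_zero _ ha0
  have hwN : ∀ j, w j (a ^ N) = N * w j a := fun j => h99_w_pow (hw j) ha0 N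
  have h1 := h99_w_add_eq (hw c) haN (g := 1)
    (Or.inr (by rw [h99_w_one (hw c), hwN]; nlinarith))
  refine ⟨a ^ N / (a ^ N + 1), Or.inr ?_, fun j hj => Or.inr ?_⟩
  · have h2 : a ^ N / (a ^ N + 1) - 1 = -(a ^ N + 1)⁻¹ := by
      have := h1.1
      field_simp
      ring
    rw [h2, h99_w_neg (hw c) (inv_ne_zero h1.1), h99_w_inv (hw c) h1.1, h1.2, hwN]
    nlinarith
  · have hj' := haj j hj
    have h2 := h99_w_add_eq (hw j) one_ne_zero (g := a ^ N)
      (Or.inr (by rw [h99_w_one (hw j), hwN]; nlinarith))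
    have h3 : a ^ N + 1 ≠ 0 := by rw [add_comm]; exact h2.1
    rw [div_eq_mul_inv, (hw j).map_mul _ _ haN (inv_ne_zero h3), h99_w_inv (hw j) h3,
      add_comm (a ^ N) 1, h2.2, h99_w_one (hw j), hwN]
    nlinarith

/-- Chinese remainder theorem for finitely many distinct normalised valuations: arbitrary targets
`t c` are simultaneously approximated to precision `N`. -/
theorem h88_crt (w : κ → F → ℤ) (hw : ∀ c, h99_IsVal (w c))
    (hnorm : ∀ c, ∃ z : F, z ≠ 0 ∧ w c z = 1)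
    (hne : ∀ c c', c ≠ c' → ∃ g : F, g ≠ 0 ∧ w c g ≠ w c' g) (t : κ → F) (N : ℤ) :
    ∃ g : F, ∀ c, h99_Ge (w c) N (g - t c) := by
  classical
  cases nonempty_fintype κ
  set M : ℤ := N + ∑ i, ∑ c, |w i (t c)| with hM
  have hMle : ∀ i c, N - w i (t c) ≤ M := by
    intro i c
    have h1 : |w i (t c)| ≤ ∑ c', |w i (t c')| :=
      Finset.single_le_sum (f := fun c' => |w i (t c')|) (fun _ _ => abs_nonneg _)
        (Finset.mem_univ c)
    have h2 : ∑ c', |w i (t c')| ≤ ∑ i', ∑ c', |w i' (t c')| :=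
      Finset.single_le_sum (f := fun i' => ∑ c', |w i' (t c')|)
        (fun _ _ => Finset.sum_nonneg (fun _ _ => abs_nonneg _)) (Finset.mem_univ i)
    have h3 := neg_abs_le (w i (t c))
    omega
  choose ε hε1 hε0 using fun c => h88_exists_idem_one w hw hnorm hne c M
  refine ⟨∑ c, t c * ε c, fun i => ?_⟩
  have hsplit : ∑ c, t c * ε c - t i
      = t i * (ε i - 1) + ∑ c ∈ Finset.univ.erase i, t c * ε c := by
    rw [← Finset.add_sum_erase _ _ (Finset.mem_univ i)]
    ring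
  rw [hsplit]
  refine h99_ge_add (hw i) ?_ (h99_ge_sum (hw i) _ _ fun c hc => ?_)
  · by_cases hti : t i = 0
    · left; simp [hti]
    · have h := h99_ge_mul (hw i) (Or.inr le_rfl : h99_Ge (w i) (w i (t i)) (t i)) (hε1 i)
      exact h.mono (by have := hMle i i; omega)
  · by_cases htc : t c = 0
    · left; simp [htc]
    · have h := h99_ge_mul (hw i) (Or.inr le_rfl : h99_Ge (w i) (w i (t c)) (t c))
        (hε0 c i (Finset.ne_of_mem_erase hc).symm)
      exact h.mono (by have := hMle i c; omega)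

/-- CRT with exact valuations: if the targets are nonzero, the approximating element can be taken
with `w c g = w c (t c)` (and nonzero). -/
theorem h88_crt_val (w : κ → F → ℤ) (hw : ∀ c, h99_IsVal (w c))
    (hnorm : ∀ c, ∃ z : F, z ≠ 0 ∧ w c z = 1)
    (hne : ∀ c c', c ≠ c' → ∃ g : F, g ≠ 0 ∧ w c g ≠ w c' g) (t : κ → F) (ht : ∀ c, t c ≠ 0)
    (N : ℤ) :
    ∃ g : F, g ≠ 0 ∧ ∀ c, h99_Ge (w c) N (g - t c) ∧ w c g = w c (t c) := by
  classical
  cases nonempty_fintype κ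
  rcases isEmpty_or_nonempty κ with hκ | hκ
  · exact ⟨1, one_ne_zero, fun c => isEmptyElim c⟩
  set M : ℤ := |N| + ∑ c, |w c (t c)| + 1 with hM
  have hMle : ∀ c, N ≤ M ∧ w c (t c) + 1 ≤ M := by
    intro c
    have h0 := le_abs_self N
    have h0' := abs_nonneg N
    have h1 : |w c (t c)| ≤ ∑ c', |w c' (t c')| :=
      Finset.single_le_sum (f := fun c' => |w c' (t c')|) (fun _ _ => abs_nonneg _)
        (Finset.mem_univ c)
    have h2 := le_abs_self (w c (t c))
    have h3 : 0 ≤ ∑ c', |w c' (t c')| := Finset.sum_nonneg (fun _ _ => abs_nonneg _)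
    have h4 := abs_nonneg (w c (t c))
    constructor <;> omega
  obtain ⟨g, hg⟩ := h88_crt w hw hnorm hne t M
  have key : ∀ c, g ≠ 0 ∧ w c g = w c (t c) := by
    intro c
    have h1 := h99_w_add_eq (hw c) (ht c) (g := g - t c) ((hg c).mono (hMle c).2)
    rw [add_sub_cancel] at h1
    exact h1
  exact ⟨g, (key (Classical.arbitrary κ)).1, fun c => ⟨(hg c).mono (hMle c).1, (key c).2⟩⟩

/-- Approximation: any vector of integers is the valuation vector of a nonzero element. -/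
theorem h88_approx (w : κ → F → ℤ) (hw : ∀ c, h99_IsVal (w c))
    (hnorm : ∀ c, ∃ z : F, z ≠ 0 ∧ w c z = 1)
    (hne : ∀ c c', c ≠ c' → ∃ g : F, g ≠ 0 ∧ w c g ≠ w c' g) (a : κ → ℤ) :
    ∃ g : F, g ≠ 0 ∧ ∀ c, w c g = a c := by
  choose z hz0 hz1 using hnorm
  have hx : ∀ c, w c (z c ^ a c) = a c := fun c => by
    rw [h99_w_zpow (hw c) (hz0 c), hz1]; ring
  obtain ⟨g, hg0, hg⟩ := h88_crt_val w hw (fun c => ⟨z c, hz0 c, hz1 c⟩) hne
    (fun c => z c ^ a c) (fun c => zpow_ne_zero _ (hz0 c)) 0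
  exact ⟨g, hg0, fun c => ((hg c).2).trans (hx c)⟩

/-- Uniformisers: `π c` has valuation `1` at `c` and `0` at the other valuations. -/
theorem h88_exists_unif (w : κ → F → ℤ) (hw : ∀ c, h99_IsVal (w c))
    (hnorm : ∀ c, ∃ z : F, z ≠ 0 ∧ w c z = 1)
    (hne : ∀ c c', c ≠ c' → ∃ g : F, g ≠ 0 ∧ w c g ≠ w c' g) :
    ∃ π : κ → F, ∀ c, π c ≠ 0 ∧ w c (π c) = 1 ∧ ∀ j, j ≠ c → w j (π c) = 0 := by
  classical
  choose π hπ0 hπ using fun c => h88_approx w hw hnorm hne (fun j => if j = c then 1 else 0)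
  exact ⟨π, fun c => ⟨hπ0 c, by simpa using hπ c c, fun j hj => by simpa [hj] using hπ c j⟩⟩

/-- Every nonzero element is a unit at all `w c` times a monomial in uniformisers. -/
theorem h88_exists_unit_part (w : κ → F → ℤ) (hw : ∀ c, h99_IsVal (w c))
    (hnorm : ∀ c, ∃ z : F, z ≠ 0 ∧ w c z = 1)
    (hne : ∀ c c', c ≠ c' → ∃ g : F, g ≠ 0 ∧ w c g ≠ w c' g) (f : F) (hf : f ≠ 0) :
    ∃ m u : F, m ≠ 0 ∧ u ≠ 0 ∧ f = m * u ∧ (∀ c, w c m = w c f) ∧ ∀ c, w c u = 0 := by
  obtain ⟨m, hm0, hm⟩ := h88_approx w hw hnorm hne (fun c => w c f)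
  refine ⟨m, f / m, hm0, div_ne_zero hf hm0, by field_simp, hm, fun c => ?_⟩
  rw [div_eq_mul_inv, (hw c).map_mul _ _ hf (inv_ne_zero hm0), h99_w_inv (hw c) hm0, hm]
  ring

end h88approx

end Fermat.Agent.S36
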