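/-
S36 / row I-VAL, (SEP) (helper74): explicit separating elements for the three vertical
valuations of level `M q²`, uniform in the prime `q` (`q = 2, 3` included).

Setting (binders of helper49's `h49_MidGal`): `q ∤ M` prime, `i0, i2 : F(M q) → F(M q²)` with
`i0 = α` and `i2 = β ∘ w`; a middle embedding `E` for a primitive `q`-th root of unity `ζ`
(`E ∘ i0 = coe`, `E ∘ i2 = (t ↦ ζ t) ∘ coe`); the swap `W` (`W ∘ i0 = i2`, `W ∘ i2 = i0`).
(Instances: helper36's `h36_i0`, `h36_i2`, `h36_mid`, `h36_W`.)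

Two elements with rational integral expansions:

* `h74_z = i2 j - i0 j = j(q² τ) - j(τ)`   with Gauss orders `(0, 1, 0)` on `(C20, C11, C02)`;
* `h74_g = i0 (j^q - β j) = j(τ)^q - j(q τ)` with Gauss orders `(> 0, > 0, 0)`.

In helper98's language (`h98_GV`, `S36/h98_NRVal`):

* `h74_z_std`, `h74_z_mid`, `h74_z_W`, `h74_g_std`, `h74_g_mid`, `h74_g_W`;
* `h74_z_fix`, `h74_g_fix`, `h74_z_mem_F0`, `h74_g_mem_F0` : both are Galois-fixed;
* `h74_hnorm_hne` : for ANY triple `w : Fin 3 → F0 → ℤ` satisfying the spec (SP)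
  (`w 0`, `w 1`, `w 2` are the Gauss orders of `coe`, `E`, `coe ∘ W`), the hypotheses `hnorm`
  and `hne` of `h99_integral_iff` / `h88_crt` / `h88_exists_unif` hold - for every prime `q`.
  (For `q = 2` the values `w c q = (1, 1, 1)` separate nothing and no element of `i0 (F(M q))`
  separates `C20` from `C11`; `h74_z` does.)
* `h74_hnorm_hne_h36` : the same for helper36's concrete objects.
-/
import Mathlib
import Fermat.Agent.S36.h98_NRVal
import Fermat.Agent.S36.h36_MidEmb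
import Fermat.Agent.S36.h69_K0
import Fermat.Agent.S34.h60_ValPB
import Fermat.Agent.S34.h31_IntSeriesMod
import Fermat.Agent.S40.h8_Tame
import Fermat.Agent.S36.h98_W2
import Fermat.Agent.S36.h88_ValComplete

set_option autoImplicit false
set_option synthInstance.maxHeartbeats 400000
set_option linter.unusedSectionVars false

noncomputable section

open ModularCurve AlgebraicCurve

namespace Fermat.Agent.S36

open Fermat.Agent.S34 Fermat.Agent.S37 Fermat.Agent.S24 Fermat.Agent.S18 Fermat.Agent.S40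

local notation "Qb" => AlgebraicClosure ℚ

/-! ## Series level -/

section Series

variable (q : ℕ) [NeZero q] [Fact q.Prime] (A : ValuationSubring Qb)

/-- `j` is an `A`-integral series. -/
theorem h74_Jb_eq : coeffEmb Qb jq = coeffMap A.subtype (jqModC A) := (h60_coe_JOs A).symm

/-- Negation does not change the Gauss order. -/
theorem h74_GV_neg {π : Qb} {s : LaurentSeries Qb} {n : ℤ} (h : h98_GV A π s n) :
    h98_GV A π (-s) n := by
  obtain ⟨h1, h2⟩ := h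
  refine h98_GV_of_eq (t := -(algebraMap Qb (LaurentSeries Qb) (π ^ (-n)) * s)) (neg_mem h1) ?_
    (by ring)
  have e : (⟨_, neg_mem h1⟩ : h60_Os A) = -⟨_, h1⟩ := rfl
  rw [e, map_neg]
  exact neg_ne_zero.mpr h2

/-- `j(t^(q²)) - j(t)` has Gauss order `0`. -/
theorem h74_ser_z_std :
    h98_GV A (q : Qb) (qExpand Qb q (qExpand Qb q (coeffEmb Qb jq)) - coeffEmb Qb jq) 0 := by
  set Y : LaurentSeries A := qExpand A q (qExpand A q (jqModC A)) - jqModC A with hYdef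
  have hY : coeffMap A.subtype Y
      = qExpand Qb q (qExpand Qb q (coeffEmb Qb jq)) - coeffEmb Qb jq := by
    rw [hYdef, map_sub, coeffMap_qExpand, coeffMap_qExpand, ← h74_Jb_eq]
  refine h98_GV_of_eq (t := coeffMap A.subtype Y) (h60_int_mem A Y) ?_ ?_
  · rw [h60_rs_int, hYdef, map_sub, coeffMap_qExpand, coeffMap_qExpand, coeffMap_jqModC]
    intro h0
    have h1 := congrArg (fun s : LaurentSeries (IsLocalRing.ResidueField A) => s.coeff (-1)) h0
    simp only [HahnSeries.coeff_sub, HahnSeries.coeff_zero] at h1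
    rw [qExpand_coeff_of_not_dvd q _ (h60_not_dvd_neg_one q), coeff_jqModC_neg_one, zero_sub,
      neg_eq_zero] at h1
    exact one_ne_zero h1
  · rw [hY, neg_zero, zpow_zero, map_one, one_mul]

omit [Fact q.Prime] in
/-- Integer powers of a root of unity are natural powers. -/
theorem h74_zeta_zpow (ζ : Qb) (hζ : IsPrimitiveRoot ζ q) (k : ℤ) : ∃ n : ℕ, ζ ^ k = ζ ^ n := by
  have hq0 : (q : ℤ) ≠ 0 := by exact_mod_cast NeZero.ne q
  have hζ0 : ζ ≠ 0 := hζ.ne_zero (NeZero.ne q)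
  refine ⟨(k % (q : ℤ)).toNat, ?_⟩
  have h1 : (0 : ℤ) ≤ k % (q : ℤ) := Int.emod_nonneg k hq0
  have h2 : k = (q : ℤ) * (k / (q : ℤ)) + k % (q : ℤ) := (Int.mul_ediv_add_emod k q).symm
  conv_lhs => rw [h2]
  rw [zpow_add₀ hζ0, zpow_mul, zpow_natCast, hζ.pow_eq_one, one_zpow, one_mul]
  conv_lhs => rw [← Int.toNat_of_nonneg h1]
  rw [zpow_natCast]

/-- `(ζ^k - 1)/(ζ - 1)` is integral, for every integer `k`. -/
theorem h74_quot_mem (ζ : Qb) (hζ : IsPrimitiveRoot ζ q) (k : ℤ) :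
    (ζ - 1)⁻¹ * (ζ ^ k - 1) ∈ A := by
  obtain ⟨n, hn⟩ := h74_zeta_zpow q ζ hζ k
  have hne := h8_zeta_sub_one_ne q ζ hζ
  rw [hn, ← geom_sum_mul ζ n, mul_comm, mul_assoc, mul_inv_cancel₀ hne, mul_one]
  exact sum_mem fun i _ => pow_mem (h8_zeta_mem q A ζ hζ) i

/-- `j(ζ t) - j(t)` has `(ζ - 1)`-adic Gauss order `1`. -/
theorem h74_ser_z_mid (ζ : Qb) (hζ : IsPrimitiveRoot ζ q) :
    h98_GV A (ζ - 1) (h64_twist ζ (coeffEmb Qb jq) - coeffEmb Qb jq) 1 := by
  have hne := h8_zeta_sub_one_ne q ζ hζ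
  have hζA := h8_zeta_mem q A ζ hζ
  have hζ0 : ζ ≠ 0 := hζ.ne_zero (NeZero.ne q)
  set t : LaurentSeries Qb := algebraMap Qb (LaurentSeries Qb) ((ζ - 1) ^ (-(1 : ℤ))) *
    (h64_twist ζ (coeffEmb Qb jq) - coeffEmb Qb jq) with ht
  have hcoeff : ∀ k : ℤ, t.coeff k
      = ((jqModC A).coeff k : Qb) * ((ζ - 1)⁻¹ * (ζ ^ k - 1)) := by
    intro k
    rw [ht, algebraMap_laurentSeries_eq_single, HahnSeries.single_zero_mul_eq_smul,
      HahnSeries.coeff_smul, HahnSeries.coeff_sub, h64_twist_coeff,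
      h74_Jb_eq A, coeffMap_coeff, smul_eq_mul, zpow_neg_one]
    show (ζ - 1)⁻¹ * (((jqModC A).coeff k : Qb) * ζ ^ k - ((jqModC A).coeff k : Qb)) = _
    ring
  have hint : t ∈ h31_intSeries A := by
    intro k
    rw [hcoeff]
    exact A.mul_mem _ _ ((jqModC A).coeff k).2 (h74_quot_mem q A ζ hζ k)
  obtain ⟨Y, hY⟩ := (h31_mem_intSeries_iff A t).mp hint
  refine h98_GV_of_eq (t := coeffMap A.subtype Y) (h60_int_mem A Y) ?_ (by rw [hY])
  rw [h60_rs_int]
  intro h0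
  have h1 := congrArg (fun s : LaurentSeries (IsLocalRing.ResidueField A) => s.coeff (-1)) h0
  simp only [coeffMap_coeff, HahnSeries.coeff_zero] at h1
  have hval : ((Y.coeff (-1) : A) : Qb) = -ζ⁻¹ := by
    have h2 := congrArg (fun s : LaurentSeries Qb => s.coeff (-1)) hY
    simp only [coeffMap_coeff] at h2
    have h3 : ((Y.coeff (-1) : A) : Qb) = t.coeff (-1) := h2
    rw [h3, hcoeff, coeff_jqModC_neg_one, zpow_neg_one]
    have h4 : ζ⁻¹ - 1 = -ζ⁻¹ * (ζ - 1) := by field_simp; ring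
    rw [h4]
    show (1 : Qb) * ((ζ - 1)⁻¹ * (-ζ⁻¹ * (ζ - 1))) = -ζ⁻¹
    field_simp
  have hu : IsUnit (Y.coeff (-1)) := by
    refine isUnit_iff_exists_inv.mpr ⟨⟨-ζ, neg_mem hζA⟩, Subtype.ext ?_⟩
    show ((Y.coeff (-1) : A) : Qb) * -ζ = 1
    rw [hval]
    field_simp
  rw [IsLocalRing.residue_eq_zero_iff, IsLocalRing.mem_maximalIdeal, mem_nonunits_iff] at h1
  exact h1 hu

/-- `j^q - j(t^q)` reduces to `0` (Frobenius). -/
theorem h74_ser_g_std (hA : A.LiesOverPrime q) :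
    ∃ h : coeffEmb Qb jq ^ q - qExpand Qb q (coeffEmb Qb jq) ∈ h60_Os A,
      h60_rs A ⟨_, h⟩ = 0 := by
  have : CharP (IsLocalRing.ResidueField A) q := h19_residueField_charP A q hA
  set Y : LaurentSeries A := jqModC A ^ q - qExpand A q (jqModC A) with hYdef
  have hY : coeffMap A.subtype Y = coeffEmb Qb jq ^ q - qExpand Qb q (coeffEmb Qb jq) := by
    rw [hYdef, map_sub, map_pow, coeffMap_qExpand, ← h74_Jb_eq]
  rw [← hY]
  refine ⟨h60_int_mem A Y, ?_⟩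
  rw [h60_rs_int, hYdef, map_sub, map_pow, coeffMap_qExpand, coeffMap_jqModC,
    h60_jq_pow (IsLocalRing.ResidueField A) q, sub_self]

/-- `(j(t^q)^q - j(t))(t^q)` has Gauss order `0`. -/
theorem h74_ser_g_W :
    h98_GV A (q : Qb)
      (qExpand Qb q ((qExpand Qb q (coeffEmb Qb jq)) ^ q - coeffEmb Qb jq)) 0 := by
  set Y : LaurentSeries A := qExpand A q ((qExpand A q (jqModC A)) ^ q - jqModC A) with hYdef
  have hY : coeffMap A.subtype Y
      = qExpand Qb q ((qExpand Qb q (coeffEmb Qb jq)) ^ q - coeffEmb Qb jq) := by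
    rw [hYdef, coeffMap_qExpand, map_sub, map_pow, coeffMap_qExpand, ← h74_Jb_eq]
  refine h98_GV_of_eq (t := coeffMap A.subtype Y) (h60_int_mem A Y) ?_ ?_
  · rw [h60_rs_int, hYdef, coeffMap_qExpand, map_sub, map_pow, coeffMap_qExpand, coeffMap_jqModC]
    intro h0
    have h1 : (qExpand (IsLocalRing.ResidueField A) q (jqModC (IsLocalRing.ResidueField A))) ^ q
        - jqModC (IsLocalRing.ResidueField A) = 0 :=
      qExpand_injective (R := IsLocalRing.ResidueField A) q (by rw [h0, map_zero])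
    have h2 := congrArg (fun s : LaurentSeries (IsLocalRing.ResidueField A) => s.coeff (-1)) h1
    simp only [HahnSeries.coeff_sub, HahnSeries.coeff_zero] at h2
    rw [← map_pow, qExpand_coeff_of_not_dvd q _ (h60_not_dvd_neg_one q), coeff_jqModC_neg_one,
      zero_sub, neg_eq_zero] at h2
    exact one_ne_zero h2
  · rw [hY, neg_zero, zpow_zero, map_one, one_mul]

end Series

/-! ## The two elements at level `M q²` -/

section Mod

variable (M q : ℕ) [NeZero M] [NeZero q] [Fact q.Prime] (hqM : ¬ q ∣ M)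
  (A : ValuationSubring Qb)
  (i0 i2 : ↥(modularFunctionFieldBar (M * q)) →+* ↥(modularFunctionFieldBar (M * q * q)))

/-- `z = i2 j - i0 j = j(q² τ) - j(τ)`. -/
def h74_z : ↥(modularFunctionFieldBar (M * q * q)) :=
  i2 (h59_jbar (M * q)) - i0 (h59_jbar (M * q))

/-- `g = i0 (j^q - β j) = j(τ)^q - j(q τ)`. -/
def h74_g : ↥(modularFunctionFieldBar (M * q * q)) :=
  i0 (h59_jbar (M * q) ^ q - heckeBetaBar Qb M q (h59_jbar M))

/-- The swap of level `M q` sends `j` to `j(q τ)`. -/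
theorem h74_w_jbar : h60_w M q hqM (h59_jbar (M * q)) = heckeBetaBar Qb M q (h59_jbar M) := by
  rw [← h19_heckeAlphaBar_jbar, h60_w_alpha]

/-- The expansion of `j^q - β j`. -/
theorem h74_coe_inner :
    ((h59_jbar (M * q) ^ q - heckeBetaBar Qb M q (h59_jbar M) :
        ↥(modularFunctionFieldBar (M * q))) : LaurentSeries Qb)
      = coeffEmb Qb jq ^ q - qExpand Qb q (coeffEmb Qb jq) := by
  show ((h59_jbar (M * q) : ↥(modularFunctionFieldBar (M * q))) : LaurentSeries Qb) ^ q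
      - ((heckeBetaBar Qb M q (h59_jbar M) : ↥(modularFunctionFieldBar (M * q))) :
          LaurentSeries Qb) = _
  rw [coe_heckeBetaBar, h59_coe_jbar, h59_coe_jbar]

variable (hi0 : ∀ g, i0 g = heckeAlphaBar Qb (M * q) q g)
  (hi2 : ∀ g, i2 g = heckeBetaBar Qb (M * q) q (h60_w M q hqM g))

include hi0 hi2 in
/-- The standard expansion of `z`. -/
theorem h74_coe_z :
    ((h74_z M q i0 i2 : ↥(modularFunctionFieldBar (M * q * q))) : LaurentSeries Qb)
      = qExpand Qb q (qExpand Qb q (coeffEmb Qb jq)) - coeffEmb Qb jq := by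
  show ((i2 (h59_jbar (M * q)) : ↥(modularFunctionFieldBar (M * q * q))) : LaurentSeries Qb)
      - ((i0 (h59_jbar (M * q)) : ↥(modularFunctionFieldBar (M * q * q))) : LaurentSeries Qb) = _
  rw [hi0, hi2, coe_heckeAlphaBar, coe_heckeBetaBar, h74_w_jbar, coe_heckeBetaBar, h59_coe_jbar,
    h59_coe_jbar]

include hi0 in
/-- The standard expansion of `g`. -/
theorem h74_coe_g :
    ((h74_g M q i0 : ↥(modularFunctionFieldBar (M * q * q))) : LaurentSeries Qb)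
      = coeffEmb Qb jq ^ q - qExpand Qb q (coeffEmb Qb jq) := by
  rw [h74_g, hi0, coe_heckeAlphaBar, h74_coe_inner]

include hi0 hi2 in
/-- **`z` on `C20`**: Gauss order `0`. -/
theorem h74_z_std :
    h98_GV A (q : Qb)
      ((h74_z M q i0 i2 : ↥(modularFunctionFieldBar (M * q * q))) : LaurentSeries Qb) 0 := by
  rw [h74_coe_z M q hqM i0 i2 hi0 hi2]
  exact h74_ser_z_std q A

include hi0 in
/-- **`g` on `C20`**: positive Gauss order. -/
theorem h74_g_std (hA : A.LiesOverPrime q) :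
    ∃ h : ((h74_g M q i0 : ↥(modularFunctionFieldBar (M * q * q))) : LaurentSeries Qb) ∈ h60_Os A,
      h60_rs A ⟨_, h⟩ = 0 := by
  rw [h74_coe_g M q i0 hi0]
  exact h74_ser_g_std q A hA

include hi0 hi2 in
/-- `z` is fixed by the coefficientwise Galois action. -/
theorem h74_z_fix (τ : Qb ≃ₐ[ℚ] Qb) :
    arithmeticRingAut (modularFunctionFieldFull (M * q * q)) τ (h74_z M q i0 i2)
      = h74_z M q i0 i2 := by
  apply Subtype.ext
  rw [coe_arithmeticRingAut_apply, h74_coe_z M q hqM i0 i2 hi0 hi2, map_sub, coeffMap_qExpand,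
    coeffMap_qExpand, coeffMap_coeffEmb]

include hi0 in
/-- `g` is fixed by the coefficientwise Galois action. -/
theorem h74_g_fix (τ : Qb ≃ₐ[ℚ] Qb) :
    arithmeticRingAut (modularFunctionFieldFull (M * q * q)) τ (h74_g M q i0)
      = h74_g M q i0 := by
  apply Subtype.ext
  rw [coe_arithmeticRingAut_apply, h74_coe_g M q i0 hi0, map_sub, map_pow, coeffMap_qExpand,
    coeffMap_coeffEmb]

include hi0 hi2 in
theorem h74_z_mem_F0 (H : Subgroup (Qb ≃ₐ[ℚ] Qb)) :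
    h74_z M q i0 i2 ∈ h69_F0 (M * q * q) H := by
  rw [h69_mem_F0]
  intro σ _
  exact h74_z_fix M q hqM i0 i2 hi0 hi2 σ

include hi0 in
theorem h74_g_mem_F0 (H : Subgroup (Qb ≃ₐ[ℚ] Qb)) :
    h74_g M q i0 ∈ h69_F0 (M * q * q) H := by
  rw [h69_mem_F0]
  intro σ _
  exact h74_g_fix M q i0 hi0 σ

/-! ### The middle embedding -/

variable (ζ : Qb) (hζ0 : ζ ≠ 0)
  (E : ↥(modularFunctionFieldBar (M * q * q)) →+* LaurentSeries Qb)
  (hE0 : ∀ g, E (i0 g) = (g : LaurentSeries Qb))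
  (hE2 : ∀ g, E (i2 g) = h59_twistHom ζ hζ0 (g : LaurentSeries Qb))

include hE0 hE2 in
theorem h74_E_z :
    E (h74_z M q i0 i2) = h64_twist ζ (coeffEmb Qb jq) - coeffEmb Qb jq := by
  rw [h74_z, map_sub, hE0, hE2, h59_twistHom_apply, h59_coe_jbar]

include hE0 in
theorem h74_E_g :
    E (h74_g M q i0) = coeffEmb Qb jq ^ q - qExpand Qb q (coeffEmb Qb jq) := by
  rw [h74_g, hE0, h74_coe_inner]

include hE0 hE2 in
/-- **`z` on `C11`**: `(ζ - 1)`-adic Gauss order `1`. -/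
theorem h74_z_mid (hζ : IsPrimitiveRoot ζ q) :
    h98_GV A (ζ - 1) (E (h74_z M q i0 i2)) 1 := by
  rw [h74_E_z M q i0 i2 ζ hζ0 E hE0 hE2]
  exact h74_ser_z_mid q A ζ hζ

include hE0 in
/-- **`g` on `C11`**: positive Gauss order. -/
theorem h74_g_mid (hA : A.LiesOverPrime q) :
    ∃ h : E (h74_g M q i0) ∈ h60_Os A, h60_rs A ⟨_, h⟩ = 0 := by
  rw [h74_E_g M q i0 E hE0]
  exact h74_ser_g_std q A hA

/-! ### The swap -/

variable (W : ↥(modularFunctionFieldBar (M * q * q)) →+* ↥(modularFunctionFieldBar (M * q * q)))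
  (hW0 : ∀ g, W (i0 g) = i2 g) (hW2 : ∀ g, W (i2 g) = i0 g)

include hW0 hW2 in
theorem h74_W_z : W (h74_z M q i0 i2) = -h74_z M q i0 i2 := by
  rw [h74_z, map_sub, hW0, hW2, neg_sub]

include hi0 hi2 hW0 hW2 in
/-- **`z` on `C02`**: Gauss order `0`. -/
theorem h74_z_W :
    h98_GV A (q : Qb)
      ((W (h74_z M q i0 i2) : ↥(modularFunctionFieldBar (M * q * q))) : LaurentSeries Qb) 0 := by
  rw [h74_W_z M q i0 i2 W hW0 hW2]
  show h98_GV A (q : Qb)
    (-((h74_z M q i0 i2 : ↥(modularFunctionFieldBar (M * q * q))) : LaurentSeries Qb)) 0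
  exact h74_GV_neg A (h74_z_std M q hqM A i0 i2 hi0 hi2)

include hi2 hW0 in
/-- The standard expansion of `W g`. -/
theorem h74_coe_W_g :
    ((W (h74_g M q i0) : ↥(modularFunctionFieldBar (M * q * q))) : LaurentSeries Qb)
      = qExpand Qb q ((qExpand Qb q (coeffEmb Qb jq)) ^ q - coeffEmb Qb jq) := by
  rw [h74_g, hW0, hi2, coe_heckeBetaBar, map_sub, map_pow, h74_w_jbar, h60_w_beta]
  show qExpand Qb q
      (((heckeBetaBar Qb M q (h59_jbar M) : ↥(modularFunctionFieldBar (M * q))) :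
          LaurentSeries Qb) ^ q
        - ((heckeAlphaBar Qb M q (h59_jbar M) : ↥(modularFunctionFieldBar (M * q))) :
          LaurentSeries Qb)) = _
  rw [coe_heckeBetaBar, coe_heckeAlphaBar, h59_coe_jbar]

include hi2 hW0 in
/-- **`g` on `C02`**: Gauss order `0`. -/
theorem h74_g_W :
    h98_GV A (q : Qb)
      ((W (h74_g M q i0) : ↥(modularFunctionFieldBar (M * q * q))) : LaurentSeries Qb) 0 := by
  rw [h74_coe_W_g M q hqM i0 i2 hi2 W hW0]
  exact h74_ser_g_W q A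

end Mod

/-! ## The concrete valuations `h98_w2` -/

section W2

variable (M q : ℕ) [NeZero M] [NeZero q] [Fact q.Prime] (hqM : ¬ q ∣ M)
  (A : ValuationSubring Qb) (hA : A.LiesOverPrime q) (ζ : Qb) (hζ : IsPrimitiveRoot ζ q)
  (hex : h98_Ex M q hqM A ζ hζ)

/-- `z = j(q² τ) - j(τ)` as an element of `F0`. -/
def h74_zF : h69_F0 (M * q * q) (A.inertiaSubgroupIn ℚ) :=
  ⟨h74_z M q (h36_i0 M q) (h36_i2 M q hqM),
    h74_z_mem_F0 M q hqM (h36_i0 M q) (h36_i2 M q hqM) (h98_hi0 M q) (h98_hi2 M q hqM) _⟩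

/-- `g = j(τ)^q - j(q τ)` as an element of `F0`. -/
def h74_gF : h69_F0 (M * q * q) (A.inertiaSubgroupIn ℚ) :=
  ⟨h74_g M q (h36_i0 M q), h74_g_mem_F0 M q (h36_i0 M q) (h98_hi0 M q) _⟩

theorem h74_zF_ne_zero : h74_zF M q hqM A ≠ 0 := by
  intro h0
  have h1 := h98_GV_ne_zero
    (h74_z_std M q hqM A (h36_i0 M q) (h36_i2 M q hqM) (h98_hi0 M q) (h98_hi2 M q hqM))
  apply h1
  have h2 : h74_z M q (h36_i0 M q) (h36_i2 M q hqM) = 0 := congrArg Subtype.val h0
  rw [h2]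
  rfl

include hqM in
theorem h74_gF_ne_zero : h74_gF M q A ≠ 0 := by
  intro h0
  have h1 := h98_GV_ne_zero
    (h74_g_W M q hqM A (h36_i0 M q) (h36_i2 M q hqM) (h98_hi2 M q hqM) (h36_W M q hqM)
      (h36_W_i0 M q hqM))
  apply h1
  have h2 : h74_g M q (h36_i0 M q) = 0 := congrArg Subtype.val h0
  rw [h2, map_zero]
  rfl

include hA

/-- `w2 (z) = (0, 1, 0)`. -/
theorem h74_w2_z0 : h98_w2 M q hqM A ζ hζ hex 0 (h74_zF M q hqM A) = 0 :=
  h98_v1_eq M q hqM A hA ζ hζ hex _ _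
    (h74_z_std M q hqM A (h36_i0 M q) (h36_i2 M q hqM) (h98_hi0 M q) (h98_hi2 M q hqM))

theorem h74_w2_z1 : h98_w2 M q hqM A ζ hζ hex 1 (h74_zF M q hqM A) = 1 :=
  h98_v2_eq M q hqM A hA ζ hζ hex _ _
    (h74_z_mid M q A (h36_i0 M q) (h36_i2 M q hqM) ζ (hζ.ne_zero (NeZero.ne q))
      (h98_midP M q hqM ζ hζ) (h98_midP_i0 M q hqM ζ hζ) (h98_midP_i2 M q hqM ζ hζ) hζ)

theorem h74_w2_z2 : h98_w2 M q hqM A ζ hζ hex 2 (h74_zF M q hqM A) = 0 :=
  h98_v3_eq M q hqM A hA ζ hζ hex _ _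
    (h74_z_W M q hqM A (h36_i0 M q) (h36_i2 M q hqM) (h98_hi0 M q) (h98_hi2 M q hqM)
      (h36_W M q hqM) (h36_W_i0 M q hqM) (h36_W_i2 M q hqM))

/-- `w2 (g) = (> 0, > 0, 0)`. -/
theorem h74_w2_g0 : 0 < h98_w2 M q hqM A ζ hζ hex 0 (h74_gF M q A) :=
  (h98_v1_pos_iff M q hqM A hA ζ hζ hex _ (h74_gF_ne_zero M q hqM A)).mpr
    (h74_g_std M q A (h36_i0 M q) (h98_hi0 M q) hA)

theorem h74_w2_g1 : 0 < h98_w2 M q hqM A ζ hζ hex 1 (h74_gF M q A) :=
  (h98_v2_pos_iff M q hqM A hA ζ hζ hex _ (h74_gF_ne_zero M q hqM A)).mpr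
    (h74_g_mid M q A (h36_i0 M q) (h98_midP M q hqM ζ hζ) (h98_midP_i0 M q hqM ζ hζ) hA)

theorem h74_w2_g2 : h98_w2 M q hqM A ζ hζ hex 2 (h74_gF M q A) = 0 :=
  h98_v3_eq M q hqM A hA ζ hζ hex _ _
    (h74_g_W M q hqM A (h36_i0 M q) (h36_i2 M q hqM) (h98_hi2 M q hqM) (h36_W M q hqM)
      (h36_W_i0 M q hqM))

/-- **`hnorm`** for `h98_w2`: every vertical valuation of level `M q²` takes the value `1`. -/
theorem h74_w2_hnorm :
    ∀ c : Fin 3, ∃ z : h69_F0 (M * q * q) (A.inertiaSubgroupIn ℚ),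
      z ≠ 0 ∧ h98_w2 M q hqM A ζ hζ hex c z = 1 := by
  have hq0 : (q : h69_F0 (M * q * q) (A.inertiaSubgroupIn ℚ)) ≠ 0 := by
    intro h0
    have h1 := h98_coe_natCast M q A q
    rw [h0] at h1
    have h2 : algebraMap Qb (LaurentSeries Qb) (q : Qb) = 0 := h1.symm
    exact (Nat.cast_ne_zero.mpr (Fact.out : q.Prime).ne_zero) ((map_eq_zero _).mp h2)
  intro c
  fin_cases c
  · exact ⟨_, hq0, h98_hq0 M q hqM A hA ζ hζ hex⟩
  · exact ⟨_, h74_zF_ne_zero M q hqM A, h74_w2_z1 M q hqM A hA ζ hζ hex⟩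
  · exact ⟨_, hq0, h98_hq2 M q hqM A hA ζ hζ hex⟩

/-- **`hne`** for `h98_w2`: the three vertical valuations of level `M q²` are pairwise
distinct - for every prime `q`, including `q = 2`. -/
theorem h74_w2_hne :
    ∀ c c' : Fin 3, c ≠ c' → ∃ g : h69_F0 (M * q * q) (A.inertiaSubgroupIn ℚ),
      g ≠ 0 ∧ h98_w2 M q hqM A ζ hζ hex c g ≠ h98_w2 M q hqM A ζ hζ hex c' g := by
  have hz0 := h74_w2_z0 M q hqM A hA ζ hζ hex
  have hz1 := h74_w2_z1 M q hqM A hA ζ hζ hex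
  have hz2 := h74_w2_z2 M q hqM A hA ζ hζ hex
  have hg0 := h74_w2_g0 M q hqM A hA ζ hζ hex
  have hg2 := h74_w2_g2 M q hqM A hA ζ hζ hex
  have hzne := h74_zF_ne_zero M q hqM A
  have hgne := h74_gF_ne_zero M q hqM A
  intro c c' hcc'
  fin_cases c <;> fin_cases c'
  · exact absurd rfl hcc'
  · exact ⟨_, hzne, by
      show h98_w2 M q hqM A ζ hζ hex 0 _ ≠ h98_w2 M q hqM A ζ hζ hex 1 _
      rw [hz0, hz1]; norm_num⟩
  · exact ⟨_, hgne, by
      show h98_w2 M q hqM A ζ hζ hex 0 _ ≠ h98_w2 M q hqM A ζ hζ hex 2 _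
      rw [hg2]; exact hg0.ne'⟩
  · exact ⟨_, hzne, by
      show h98_w2 M q hqM A ζ hζ hex 1 _ ≠ h98_w2 M q hqM A ζ hζ hex 0 _
      rw [hz0, hz1]; norm_num⟩
  · exact absurd rfl hcc'
  · exact ⟨_, hzne, by
      show h98_w2 M q hqM A ζ hζ hex 1 _ ≠ h98_w2 M q hqM A ζ hζ hex 2 _
      rw [hz1, hz2]; norm_num⟩
  · exact ⟨_, hgne, by
      show h98_w2 M q hqM A ζ hζ hex 2 _ ≠ h98_w2 M q hqM A ζ hζ hex 0 _
      rw [hg2]; exact hg0.ne⟩
  · exact ⟨_, hzne, by
      show h98_w2 M q hqM A ζ hζ hex 2 _ ≠ h98_w2 M q hqM A ζ hζ hex 1 _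
      rw [hz1, hz2]; norm_num⟩
  · exact absurd rfl hcc'

/-- **(V3)** for `h98_w2`: uniformisers of the three vertical valuations (the binder `hV3` of
`h70_torM`). -/
theorem h74_w2_hV3 :
    ∀ c : Fin 3, ∃ p : h69_F0 (M * q * q) (A.inertiaSubgroupIn ℚ), p ≠ 0 ∧
      h98_w2 M q hqM A ζ hζ hex c p = 1 ∧
      ∀ c', c' ≠ c → h98_w2 M q hqM A ζ hζ hex c' p = 0 := by
  obtain ⟨π, hπ⟩ := h88_exists_unif (h98_w2 M q hqM A ζ hζ hex)
    (h98_w2_isVal M q hqM A hA ζ hζ hex) (h74_w2_hnorm M q hqM A hA ζ hζ hex)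
    (h74_w2_hne M q hqM A hA ζ hζ hex)
  exact fun c => ⟨π c, hπ c⟩

end W2

end Fermat.Agent.S36
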