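import Fermat.Agent.S36.h60_ThickTwoLevel
import Fermat.Agent.S36.h14_ClassW

/-!
# S36 / I-PTS (M5): `hthick` with the WEAK node hypothesis (helper14)

`h60_contraction_thick` and `h60_hthick_gen` (`S36/h60_ThickTwoLevel.lean`, helper60) take
`hU : (UNIT*)` at the nodes of the lower level; only the local equation of the VERTICAL valuation
`wV` at the node is used.  This file restates both with the hypothesis `hUw` of
`S36/h14_ClassW.lean` (the two vertical local equations at the nodes), every other binder and the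
conclusions verbatim:

* `h14_contraction_thick_w` = `h60_contraction_thick` with `hUw`;
* `h14_hthick_gen_w`        = `h60_hthick_gen` with `hUw`.
-/

set_option autoImplicit false
set_option synthInstance.maxHeartbeats 400000

noncomputable section

open ModularCurve AlgebraicCurve

namespace Fermat.Agent.S36

open Fermat.Agent.S34 Fermat.Agent.S37 Fermat.Agent.S24 Fermat.Agent.S35 Fermat.Agent.S18

section X1

variable {F1 F2 : Type*} [Field F1] [Field F2] {ι1 ι2 : Type*}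
  (V1 : h80_ValFam F1 ι1) (V2 : h80_ValFam F2 ι2)

/-- **(X1)**, weak node hypothesis: a point of the upper level through which only the middle valuation passes contracts
(along `a`) to a point of `wF` through which `wV` does not pass. -/
theorem h14_contraction_thick_w (wF wV : ι1) (hFV : wF ≠ wV) (P : Fin 3 → ι2)
    (Hor1 : ι1 → Prop) (Hor2 : ι2 → Prop) (hHor1 : ∀ h, Hor1 h → h ≠ wF ∧ h ≠ wV)
    (hcase : ∀ i : ι2, (∃ k, i = P k) ∨ Hor2 i)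
    (a : F1 →+* F2) (ha : ∀ g ∈ V1.B, a g ∈ V2.B)
    (hia : (a.restrict V1.B V2.B ha).IsIntegral)
    (hta : ∀ k, ∃ e : ℤ, 0 < e ∧ ∀ g : F1, g ≠ 0 →
      V2.v (P k) (a g) = e * V1.v ((![wF, wF, wV] : Fin 3 → ι1) k) g)
    (hHCa : ∀ h, Hor2 h → ∃ h1, Hor1 h1 ∧ ∃ e : ℤ, 0 < e ∧ ∀ g : F1, g ≠ 0 →
      V2.v h (a g) = e * V1.v h1 g)
    (hUw : ∀ s : Ideal V1.B, s.IsMaximal → V1.Through s wF → V1.Through s wV →
      (∃ e : F1, e ≠ 0 ∧ V1.v wF e = 1 ∧ ∀ j, V1.Through s j → j ≠ wF → V1.v j e = 0) ∧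
      (∃ e : F1, e ≠ 0 ∧ V1.v wV e = 1 ∧ ∀ j, V1.Through s j → j ≠ wV → V1.v j e = 0))
    (m : Ideal V2.B) (hm : m.IsMaximal) (h1 : V2.Through m (P 1))
    (honly : ∀ c, V2.Through m (P c) → c = 1) :
    (m.comap (a.restrict V1.B V2.B ha)).IsMaximal ∧
      V1.Through (m.comap (a.restrict V1.B V2.B ha)) wF ∧
      ¬ V1.Through (m.comap (a.restrict V1.B V2.B ha)) wV := by
  have hmp : m.IsPrime := hm.isPrime
  have hs : (m.comap (a.restrict V1.B V2.B ha)).IsMaximal :=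
    Ideal.isMaximal_comap_of_isIntegral_of_isMaximal' (a.restrict V1.B V2.B ha) hia m
  have hsp : (m.comap (a.restrict V1.B V2.B ha)).IsPrime := hs.isPrime
  have htab : ∀ k, ∀ g : V1.B, (g : F1) ≠ 0 →
      (0 < V2.v (P k) (a g) ↔ 0 < V1.v ((![wF, wF, wV] : Fin 3 → ι1) k) g) := by
    intro k g hg
    obtain ⟨e, he, ht⟩ := hta k
    exact h14_pos_iff_of_mul (V2.v (P k)) (V1.v _) a e he ht g hg
  have hF : V1.Through (m.comap (a.restrict V1.B V2.B ha)) wF :=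
    h14_through_comap V1 V2 a ha (P 1) wF (htab 1) m h1
  refine ⟨hs, hF, fun hV => ?_⟩
  obtain ⟨bV, hbV0, hbVs, hbV⟩ :=
    h14_vert_elt V1 wV _ hV (hUw _ hs hF hV).2
  have hHC : ∀ h, Hor2 h → V2.Through m h → ∃ h1, Hor1 h1 ∧
      V1.Through (m.comap (a.restrict V1.B V2.B ha)) h1 ∧
      ∀ g : F1, g ≠ 0 → V1.v h1 g = 0 → V2.v h (a g) = 0 := by
    intro h hh hthr
    obtain ⟨h1', hh1, e, he, ht⟩ := hHCa h hh
    refine ⟨h1', hh1, ?_, ?_⟩
    · exact h14_through_comap V1 V2 a ha h h1'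
        (fun g hg => h14_pos_iff_of_mul (V2.v h) (V1.v h1') a e he ht g hg) m hthr
    · intro g hg hv
      rw [ht g hg, hv, mul_zero]
  have h2 : V2.Through m (P 2) := by
    refine h14_node_through V1 V2 a ha P Hor1 Hor2 hcase ![wF, wF, wV] htab m hHC 2 bV hbV0 hbVs
      ?_ ?_
    · intro k hk
      have hk' : (![wF, wF, wV] : Fin 3 → ι1) k = wF := by
        fin_cases k
        · rfl
        · rfl
        · exact absurd rfl hk
      rw [hk']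
      exact hbV wF hF hFV
    · intro h1' hh1 hthr
      exact hbV h1' hthr (hHor1 h1' hh1).2
  have := honly 2 h2
  exact absurd this (by decide)

end X1

section Thick

local notation "Qb" => AlgebraicClosure ℚ

variable (M q : ℕ) [NeZero M] [NeZero q] [Fact q.Prime] (hqM : ¬ q ∣ M)
  (A : ValuationSubring Qb) (hA : A.LiesOverPrime q) (ζ : Qb) (hζ : IsPrimitiveRoot ζ q)

variable {F₁ : Type*} [Field F₁] (ψ₁ : F₁ →+* ↥(modularFunctionFieldBar (M * q)))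
  {ι₁ : Type*} (V1 : h80_ValFam F₁ ι₁)
  {F : Type*} [Field F] (ψ : F →+* ↥(modularFunctionFieldBar (M * q * q)))
  {ι : Type*} (V2 : h80_ValFam F ι)

include hA in
/-- **`hthick` of `h62_pts_two_level` / `h14_pts_two_level_w`** ((M5) = (B'-MOD)), with the weak
node hypothesis `hUw` (proof of helper60, verbatim otherwise). -/
theorem h14_hthick_gen_w (wF wV : ι₁) (hFV : wF ≠ wV) (P : Fin 3 → ι)
    (Hor1 : ι₁ → Prop) (Hor2 : ι → Prop) (hHor1 : ∀ h, Hor1 h → h ≠ wF ∧ h ≠ wV)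
    (hcase : ∀ i : ι, (∃ k, i = P k) ∨ Hor2 i)
    (a : F₁ →+* F) (ha : ∀ g ∈ V1.B, a g ∈ V2.B)
    (hia : (a.restrict V1.B V2.B ha).IsIntegral)
    (hta : ∀ k, ∃ e : ℤ, 0 < e ∧ ∀ g : F₁, g ≠ 0 →
      V2.v (P k) (a g) = e * V1.v ((![wF, wF, wV] : Fin 3 → ι₁) k) g)
    (hHCa : ∀ h, Hor2 h → ∃ h1, Hor1 h1 ∧ ∃ e : ℤ, 0 < e ∧ ∀ g : F₁, g ≠ 0 →
      V2.v h (a g) = e * V1.v h1 g)
    (hUw : ∀ s : Ideal V1.B, s.IsMaximal → V1.Through s wF → V1.Through s wV →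
      (∃ e : F₁, e ≠ 0 ∧ V1.v wF e = 1 ∧ ∀ j, V1.Through s j → j ≠ wF → V1.v j e = 0) ∧
      (∃ e : F₁, e ≠ 0 ∧ V1.v wV e = 1 ∧ ∀ j, V1.Through s j → j ≠ wV → V1.v j e = 0))
    (hV2 : ∀ y : F, y ≠ 0 → V2.v (P 1) y = 0 →
      ∃ y' : F₁, y - a y' = 0 ∨ 0 < V2.v (P 1) (y - a y'))
    (φ2 : F₁ →+* F) (hφ2B : ∀ g ∈ V1.B, φ2 g ∈ V2.B)
    (hφ0 : ∀ g : F₁, ψ (a g) = h36_i0 M q (ψ₁ g))
    (hφ2 : ∀ g : F₁, ψ (φ2 g) = h36_i2 M q hqM (ψ₁ g))
    (hnn : ∀ g : F, g ≠ 0 → h98_midP M q hqM ζ hζ (ψ g) ∈ h60_Os A → 0 ≤ V2.v (P 1) g)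
    (hpos : ∀ g : F, g ≠ 0 →
      (∃ h : h98_midP M q hqM ζ hζ (ψ g) ∈ h60_Os A, h60_rs A ⟨_, h⟩ = 0) → 0 < V2.v (P 1) g)
    (qB : V2.B) (hqB : (qB : F) = (q : F)) (hq0 : (q : F) ≠ 0)
    (hvq : V2.v (P 1) (q : F) = ((q - 1 : ℕ) : ℤ))
    (hqH : ∀ h, Hor2 h → V2.v h (q : F) = 0)
    (hQ : ∀ s : Ideal V1.B, s.IsMaximal → V1.Through s wF → ¬ V1.Through s wV →
      ∃ (y : Place (IsLocalRing.ResidueField A)
          ↥(modularFunctionFieldFullC (IsLocalRing.ResidueField A) M))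
        (R₁ : h62_Res V1 s wF ↥(modularFunctionFieldFullC (IsLocalRing.ResidueField A) M)),
        R₁.o = y.ord ∧
        (∀ f : R₁.O, ∃ hf : ψ₁ (f : F₁) ∈ (h60_R1 M q hqM A hA).O,
          R₁.ρ f = (h60_R1 M q hqM A hA).red ⟨ψ₁ (f : F₁), hf⟩) ∧
        ∃ s₀ : F₁, s₀ ∈ V1.B ∧ ψ₁ s₀ ∈ (h60_R1 M q hqM A hA).O ∧
          ∃ cθ : ↥(modularFunctionFieldFullC (IsLocalRing.ResidueField A) M),
            (cθ : LaurentSeries (IsLocalRing.ResidueField A))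
              = h20_thetaFun ((((h60_R1 M q hqM A hA).redF (ψ₁ s₀) :
                  ↥(modularFunctionFieldFullC (IsLocalRing.ResidueField A) M)) :
                    LaurentSeries (IsLocalRing.ResidueField A))) ^ (q - 1) ∧
            cθ ≠ 0 ∧ y.ord cθ = 0) :
    ∀ m : Ideal V2.B, m.IsMaximal → V2.Through m (P 1) → (∀ c, V2.Through m (P c) → c = 1) →
      ∃ z : F, z ≠ 0 ∧ V2.v (P 1) z = 1 ∧ ∀ k, V2.Through m k → k ≠ P 1 → V2.v k z = 0 := by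
  intro m hm h1 honly
  have hmp : m.IsPrime := hm.isPrime
  obtain ⟨hs, hF, hnV⟩ := h14_contraction_thick_w V1 V2 wF wV hFV P Hor1 Hor2 hHor1 hcase a ha
    hia hta hHCa hUw m hm h1 honly
  have hsp : (m.comap (a.restrict V1.B V2.B ha)).IsPrime := hs.isPrime
  obtain ⟨y, R₁, ho₁, hR₁, s₀, hs₀B, hs₀O, cθ, hcθ, hcθ0, hcθy⟩ := hQ _ hs hF hnV
  -- a function of positive order at `y`
  have hg : ∃ g : ↥(modularFunctionFieldFullC (IsLocalRing.ResidueField A) M),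
      g ≠ 0 ∧ 0 < R₁.o g := by
    obtain ⟨ϖ, hϖ⟩ := IsDiscreteValuationRing.exists_irreducible y.toValuationSubring
    have hy1 : y.ord (ϖ : ↥(modularFunctionFieldFullC (IsLocalRing.ResidueField A) M)) = 1 :=
      y.ord_coe_irreducible hϖ
    refine ⟨ϖ, ?_, ?_⟩
    · intro h0
      rw [h0, Place.ord_zero] at hy1
      exact zero_ne_one hy1
    · rw [ho₁, hy1]
      exact one_pos
  obtain ⟨e, he, tab⟩ := hta 1
  have tab' : ∀ g : F₁, g ≠ 0 → V2.v (P 1) (a g) = e * V1.v wF g := tab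
  obtain ⟨R, -, hoR, hcong⟩ := h62_res_up_of (V1 := V1) (V2 := V2) (φ := a) (hφ := ha) m (P 1) h1
    wF hF R₁ hg e he tab' hV2
  have hvert : ∀ i, V2.Through m i → 0 < V2.v i (q : F) → i = P 1 := by
    intro i hi hpos'
    rcases hcase i with ⟨k, rfl⟩ | hh
    · rw [honly k hi]
    · rw [hqH i hh] at hpos'
      exact absurd hpos' (lt_irrefl 0)
  have hzB : φ2 s₀ - a s₀ ∈ V2.B := V2.B.sub_mem (hφ2B s₀ hs₀B) (ha s₀ hs₀B)
  have hzL : V2.InLoc m (φ2 s₀ - a s₀) :=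
    ⟨⟨_, hzB⟩, 1, fun h => hmp.ne_top ((Ideal.eq_top_iff_one m).mpr h), by simp⟩
  obtain ⟨hz0, hz1, hzk⟩ := h60_thick_plug M q hqM A hA ζ hζ ψ₁ R₁ ψ R a φ2 h1 hR₁ hφ0 hφ2 hcong
    hoR hnn hpos y ho₁ s₀ hs₀O cθ hcθ hcθ0 hcθy qB hqB hq0 hvq hvert hzL
  exact ⟨_, hz0, hz1, hzk⟩

end Thick

end Fermat.Agent.S36

end
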