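import Mathlib
import Fermat.Agent.S36.h70_TorInst
import Fermat.Agent.S36.h98_NRVal
import Fermat.Agent.S36.h69_K0

/-!
# S36 / (K6+) instance for TOR-M: Gauss orders of inertia-fixed constants  (helper70)

`A` a valuation subring of `ℚ̄` over `q`, `I` its inertia group, `F0 := h69_F0 N I`.
Let `w : F0 → ℤ` be a Gauss order: `h98_GV A q (E f) (w f)` for every nonzero `f ∈ F0`, where
`E : F̄(N) →+* ℚ̄((t))` is an embedding which is the constant embedding on constants.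

* `h70_GV_const`: an inertia-fixed constant `κ ≠ 0` has Gauss order `n` with `κ = q ^ n * unit`;
  `n = 0` iff `κ` is a unit of `A`, `n > 0` iff `κ` is a nonunit of `A`.
* `h70_K6_val`: two Gauss orders (for two embeddings) agree on constants  [= `hCval` of
  `h70_torM`].
* `h70_K6_root`: a constant of order `0` is, modulo both valuations, the `m`-th power of a
  constant of order `0`  [= `hCroot` of `h70_torM`].
-/

set_option autoImplicit false
set_option linter.unusedSectionVars false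

noncomputable section

open AlgebraicCurve ModularCurve

namespace Fermat.Agent.S36

local notation "Qb" => AlgebraicClosure ℚ

section Val

variable {L : Type*} [Field L] (A : ValuationSubring L)

theorem h70_not_nonunit_of_inv_mem {u : L} (hu0 : u ≠ 0) (hu' : u⁻¹ ∈ A) : u ∉ A.nonunits := by
  intro h
  have h1 := mul_lt_one_of_lt_of_le (A.mem_nonunits_iff.mp h) ((A.valuation_le_one_iff _).mpr hu')
  rw [← map_mul, mul_inv_cancel₀ hu0, map_one] at h1
  exact lt_irrefl _ h1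

theorem h70_nonunit_mul {a b : L} (ha : a ∈ A.nonunits) (hb : b ∈ A) : a * b ∈ A.nonunits := by
  rw [A.mem_nonunits_iff, map_mul]
  exact mul_lt_one_of_lt_of_le (A.mem_nonunits_iff.mp ha) ((A.valuation_le_one_iff _).mpr hb)

theorem h70_inv_mem_of_not_nonunit {c : L} (hc : c ∈ A) (hc' : c ∉ A.nonunits) : c⁻¹ ∈ A := by
  have h1 : A.valuation c = 1 :=
    le_antisymm ((A.valuation_le_one_iff c).mpr hc)
      (not_lt.mp (fun h => hc' (A.mem_nonunits_iff.mpr h)))
  rw [← A.valuation_le_one_iff, map_inv₀, h1, inv_one]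

theorem h70_mem_of_nonunit {c : L} (hc : c ∈ A.nonunits) : c ∈ A :=
  (A.valuation_le_one_iff c).mp (A.mem_nonunits_iff.mp hc).le

end Val

section Const

variable (q : ℕ) [Fact q.Prime] (A : ValuationSubring Qb)

/-- **Gauss order of an inertia-fixed constant.** -/
theorem h70_GV_const (hA : A.LiesOverPrime q) (κ : Qb) (hκ0 : κ ≠ 0)
    (hfix : ∀ σ ∈ A.inertiaSubgroupIn ℚ, σ κ = κ) :
    ∃ n : ℤ, h98_GV A (q : Qb) (algebraMap Qb (LaurentSeries Qb) κ) n ∧
      (n = 0 → κ ∈ A ∧ κ ∉ A.nonunits) ∧ (κ ∈ A.nonunits → 0 < n) := by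
  have hq : q.Prime := Fact.out
  have hq0 : (q : Qb) ≠ 0 := by exact_mod_cast hq.ne_zero
  have hqA : (q : Qb) ∈ A := h70_mem_of_nonunit A hA
  obtain ⟨n, u, hκ, huA, huA', -⟩ := h69_dv q A hA κ hκ0 hfix
  have hu0 : u ≠ 0 := by
    rintro rfl
    exact hκ0 (by rw [hκ, mul_zero])
  refine ⟨n, ?_, ?_, ?_⟩
  · have h1 := h98_GV_mul (A := A) hq0 (h98_GV_pi_zpow (A := A) hq0 n)
      (h98_GV_const_unit (A := A) (q : Qb) huA huA' hu0)
    rw [← map_mul, ← hκ, add_zero] at h1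
    exact h1
  · intro hn
    rw [hn, zpow_zero, one_mul] at hκ
    rw [hκ]
    exact ⟨huA, h70_not_nonunit_of_inv_mem A hu0 huA'⟩
  · intro hnu
    by_contra hn
    obtain ⟨k, hk⟩ := Int.exists_eq_neg_ofNat (not_lt.mp hn)
    have h1 : κ * (q : Qb) ^ k = u := by
      rw [hκ, hk, zpow_neg, zpow_natCast]
      field_simp
    have h2 : u ∈ A.nonunits := by
      rw [← h1]
      exact h70_nonunit_mul A hnu (pow_mem hqA k)
    exact h70_not_nonunit_of_inv_mem A hu0 huA' h2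

variable (N : ℕ) [NeZero N]

/-- A Gauss order is computed on constants by `h70_GV_const`. -/
theorem h70_gauss_const_eq (hA : A.LiesOverPrime q)
    (E : modularFunctionFieldBar N →+* LaurentSeries Qb)
    (hE : ∀ c : Qb, E (algebraMap Qb (modularFunctionFieldBar N) c)
      = algebraMap Qb (LaurentSeries Qb) c)
    (w : h69_F0 N (A.inertiaSubgroupIn ℚ) → ℤ)
    (hw : ∀ f : h69_F0 N (A.inertiaSubgroupIn ℚ), f ≠ 0 →
      h98_GV A (q : Qb) (E (f : modularFunctionFieldBar N)) (w f))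
    (k : h69_F0 N (A.inertiaSubgroupIn ℚ)) (hk : k ≠ 0) (κ : Qb)
    (hκ : (k : modularFunctionFieldBar N) = algebraMap Qb (modularFunctionFieldBar N) κ)
    (n : ℤ) (hn : h98_GV A (q : Qb) (algebraMap Qb (LaurentSeries Qb) κ) n) : w k = n := by
  have hq : q.Prime := Fact.out
  have hq0 : (q : Qb) ≠ 0 := by exact_mod_cast hq.ne_zero
  have hqA : (q : Qb) ∈ A := h70_mem_of_nonunit A hA
  have hqn : (q : Qb)⁻¹ ∉ A := fun h => h70_not_nonunit_of_inv_mem A hq0 h hA
  have h1 := hw k hk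
  rw [hκ, hE] at h1
  exact h98_GV_unique hq0 hqA hqn h1 hn

/-- **`hCval` of `h70_torM`**: two Gauss orders agree on constants. -/
theorem h70_K6_val (hA : A.LiesOverPrime q)
    (E E' : modularFunctionFieldBar N →+* LaurentSeries Qb)
    (hE : ∀ c : Qb, E (algebraMap Qb (modularFunctionFieldBar N) c)
      = algebraMap Qb (LaurentSeries Qb) c)
    (hE' : ∀ c : Qb, E' (algebraMap Qb (modularFunctionFieldBar N) c)
      = algebraMap Qb (LaurentSeries Qb) c)
    (w w' : h69_F0 N (A.inertiaSubgroupIn ℚ) → ℤ)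
    (hw : ∀ f : h69_F0 N (A.inertiaSubgroupIn ℚ), f ≠ 0 →
      h98_GV A (q : Qb) (E (f : modularFunctionFieldBar N)) (w f))
    (hw' : ∀ f : h69_F0 N (A.inertiaSubgroupIn ℚ), f ≠ 0 →
      h98_GV A (q : Qb) (E' (f : modularFunctionFieldBar N)) (w' f)) :
    ∀ k : h69_F0 N (A.inertiaSubgroupIn ℚ), k ≠ 0 →
      h70_IsConst N (A.inertiaSubgroupIn ℚ) k → w k = w' k := by
  rintro k hk ⟨κ, hκ⟩
  have hκ0 : κ ≠ 0 := by
    rintro rfl
    rw [map_zero] at hκ
    exact hk (Subtype.ext hκ)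
  have hfix : ∀ σ ∈ A.inertiaSubgroupIn ℚ, σ κ = κ :=
    (h69_algebraMap_mem_F0 N (A.inertiaSubgroupIn ℚ) κ).mp (hκ ▸ k.2)
  obtain ⟨n, hn, -, -⟩ := h70_GV_const q A hA κ hκ0 hfix
  rw [h70_gauss_const_eq q A N hA E hE w hw k hk κ hκ n hn,
    h70_gauss_const_eq q A N hA E' hE' w' hw' k hk κ hκ n hn]

/-- **`hCroot` of `h70_torM`**: a constant of order `0` is congruent, for both valuations, to
the `m`-th power of a constant of order `0`. -/
theorem h70_K6_root (hA : A.LiesOverPrime q)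
    (E E' : modularFunctionFieldBar N →+* LaurentSeries Qb)
    (hE : ∀ c : Qb, E (algebraMap Qb (modularFunctionFieldBar N) c)
      = algebraMap Qb (LaurentSeries Qb) c)
    (hE' : ∀ c : Qb, E' (algebraMap Qb (modularFunctionFieldBar N) c)
      = algebraMap Qb (LaurentSeries Qb) c)
    (w w' : h69_F0 N (A.inertiaSubgroupIn ℚ) → ℤ)
    (hw : ∀ f : h69_F0 N (A.inertiaSubgroupIn ℚ), f ≠ 0 →
      h98_GV A (q : Qb) (E (f : modularFunctionFieldBar N)) (w f))
    (hw' : ∀ f : h69_F0 N (A.inertiaSubgroupIn ℚ), f ≠ 0 →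
      h98_GV A (q : Qb) (E' (f : modularFunctionFieldBar N)) (w' f))
    (m : ℕ) (hm : m ≠ 0) :
    ∀ k : h69_F0 N (A.inertiaSubgroupIn ℚ), k ≠ 0 →
      h70_IsConst N (A.inertiaSubgroupIn ℚ) k → w k = 0 →
      ∃ c : h69_F0 N (A.inertiaSubgroupIn ℚ), c ≠ 0 ∧ w c = 0 ∧ w' c = 0 ∧
        (k - c ^ m = 0 ∨ (0 < w (k - c ^ m) ∧ 0 < w' (k - c ^ m))) := by
  rintro k hk ⟨κ, hκ⟩ hwk
  have hκ0 : κ ≠ 0 := by
    rintro rfl
    rw [map_zero] at hκ
    exact hk (Subtype.ext hκ)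
  have hfix : ∀ σ ∈ A.inertiaSubgroupIn ℚ, σ κ = κ :=
    (h69_algebraMap_mem_F0 N (A.inertiaSubgroupIn ℚ) κ).mp (hκ ▸ k.2)
  obtain ⟨n, hn, hn0, -⟩ := h70_GV_const q A hA κ hκ0 hfix
  have hn' : n = 0 := by
    rw [← hwk]
    exact (h70_gauss_const_eq q A N hA E hE w hw k hk κ hκ n hn).symm
  obtain ⟨hκA, hκnu⟩ := hn0 hn'
  obtain ⟨c, hcA, hcnu, hcfix, hcong⟩ := h69_unit_root q A hA m hm κ hκA hκnu
  have hc0 : c ≠ 0 := by
    rintro rfl
    exact hcnu (h5_zero_mem_nonunits A)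
  have hcA' : c⁻¹ ∈ A := h70_inv_mem_of_not_nonunit A hcA hcnu
  have hcF : algebraMap Qb (modularFunctionFieldBar N) c ∈ h69_F0 N (A.inertiaSubgroupIn ℚ) :=
    (h69_algebraMap_mem_F0 N (A.inertiaSubgroupIn ℚ) c).mpr hcfix
  set c' : h69_F0 N (A.inertiaSubgroupIn ℚ) := ⟨_, hcF⟩ with hc'def
  have hc'0 : c' ≠ 0 := by
    intro h
    have h1 := congrArg Subtype.val h
    exact hc0 ((map_eq_zero (algebraMap Qb (modularFunctionFieldBar N))).mp h1)
  have hGVc : h98_GV A (q : Qb) (algebraMap Qb (LaurentSeries Qb) c) 0 :=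
    h98_GV_const_unit (A := A) (q : Qb) hcA hcA' hc0
  refine ⟨c', hc'0, h70_gauss_const_eq q A N hA E hE w hw c' hc'0 c rfl 0 hGVc,
    h70_gauss_const_eq q A N hA E' hE' w' hw' c' hc'0 c rfl 0 hGVc, ?_⟩
  have hcoe : ((k - c' ^ m : h69_F0 N (A.inertiaSubgroupIn ℚ)) : modularFunctionFieldBar N)
      = algebraMap Qb (modularFunctionFieldBar N) (κ - c ^ m) := by
    rw [map_sub, map_pow, ← hκ]
    rfl
  by_cases hd : κ - c ^ m = 0
  · left
    apply Subtype.ext
    rw [hcoe, hd, map_zero]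
    rfl
  · right
    have hdne : (k - c' ^ m : h69_F0 N (A.inertiaSubgroupIn ℚ)) ≠ 0 := by
      intro h
      have h1 := congrArg Subtype.val h
      rw [hcoe] at h1
      exact hd ((map_eq_zero (algebraMap Qb (modularFunctionFieldBar N))).mp h1)
    have hdfix : ∀ σ ∈ A.inertiaSubgroupIn ℚ, σ (κ - c ^ m) = κ - c ^ m := by
      intro σ hσ
      rw [map_sub, map_pow, hfix σ hσ, hcfix σ hσ]
    obtain ⟨n2, hn2, -, hn2pos⟩ := h70_GV_const q A hA (κ - c ^ m) hd hdfix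
    have hpos := hn2pos hcong
    refine ⟨?_, ?_⟩
    · rw [h70_gauss_const_eq q A N hA E hE w hw _ hdne (κ - c ^ m) hcoe n2 hn2]
      exact hpos
    · rw [h70_gauss_const_eq q A N hA E' hE' w' hw' _ hdne (κ - c ^ m) hcoe n2 hn2]
      exact hpos

end Const

end Fermat.Agent.S36
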