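/-
S36 / row K -> I-NZ (helper69): the constants inputs of `h94_nz_charts_self` at level `M q²`.

`F := ↥(h69_F0 (M*q*q) I)`, `K := h69_K0 I` (instance `h69_algK0F0`), `I` the inertia group of a
valuation ring `A` of `ℚ̄` over `q`, `w := h98_w2 M q hqM A ζ hζ hex`.

* `h69_hroots` : every `n`-th root of unity of `F0(N)` is a constant of `K0` (any level, any `H`);
* `h69_hprim`  : `K0` contains a primitive `n`-th root of unity for `q ∤ n`;
* `h69_w2_const` : the constants column of `w2` : `w2 (c) = (1, q-1, 1) * n` when the constant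
  `c` has Gauss order `n`;  `h69_hw02`, `h69_hw01`;
* `h69_hroot`  : approximate `n`-th roots of constants of order `0`;
* `h69_hpi`, `h69_hn`, `h69_hnv` : the values at `q` and at integers prime to `q`;
* `h69_hconst_placeFam` : a constant of order `0` has value `0` at every index of a chart
  family `h80_placeFam`.
-/
import Mathlib
import Fermat.Agent.S36.h69_K0Inst
import Fermat.Agent.S36.h98_W2
import Fermat.Agent.S36.h70_K6Gauss
import Fermat.Agent.S36.h5_ResK0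
import Fermat.Agent.S36.h80_ChartPlace
import Fermat.Agent.S05.h26_Inertia

set_option autoImplicit false
set_option synthInstance.maxHeartbeats 400000
set_option linter.style.haveILetI false
set_option linter.unusedSectionVars false

noncomputable section

open ModularCurve AlgebraicCurve

namespace Fermat.Agent.S36

open Fermat.Agent.S34 Fermat.Agent.S37 Fermat.Agent.S24 Fermat.Agent.S35 Fermat.Agent.S18
  Fermat.Agent.GAL Fermat.Agent.S40 Fermat.Agent.S05

local notation "Qb" => AlgebraicClosure ℚ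

section Roots

variable (N : ℕ) [NeZero N] (H : Subgroup (Qb ≃ₐ[ℚ] Qb))

/-- **(hroots)** every `n`-th root of unity of `F0` is a constant of `K0`. -/
theorem h69_hroots (n : ℕ) (hn : n ≠ 0) :
    ∀ ξ : h69_F0 N H, ξ ^ n = 1 →
      ∃ z : h69_K0 H, algebraMap (h69_K0 H) (h69_F0 N H) z = ξ := by
  intro ξ hξ
  haveI : NeZero n := ⟨hn⟩
  obtain ⟨ω, hω⟩ := HasEnoughRootsOfUnity.exists_primitiveRoot Qb n
  have hω' : IsPrimitiveRoot (algebraMap Qb (modularFunctionFieldBar N) ω) n :=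
    hω.map_of_injective (algebraMap Qb (modularFunctionFieldBar N)).injective
  have hξ' : (ξ : modularFunctionFieldBar N) ^ n = 1 := by
    have h1 := congrArg Subtype.val hξ
    exact h1
  obtain ⟨i, -, hi⟩ := hω'.eq_pow_of_pow_eq_one hξ'
  have hmem : algebraMap Qb (modularFunctionFieldBar N) (ω ^ i) ∈ h69_F0 N H := by
    rw [map_pow, hi]
    exact ξ.2
  have hfix := (h69_algebraMap_mem_F0 N H (ω ^ i)).mp hmem
  refine ⟨⟨ω ^ i, (h69_mem_K0 H _).mpr hfix⟩, ?_⟩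
  apply Subtype.ext
  rw [h69_inst_comm]
  show algebraMap Qb (modularFunctionFieldBar N) (ω ^ i) = ξ
  rw [map_pow, hi]

end Roots

section Prim

variable (q : ℕ) [Fact q.Prime] (A : ValuationSubring Qb)

/-- a root of unity of order prime to `q` is fixed by the inertia group. -/
theorem h69_root_fixed (hA : A.LiesOverPrime q) (n : ℕ) (hn : n ≠ 0) (hqn : ¬ q ∣ n)
    (ω : Qb) (hω : ω ^ n = 1) : ∀ σ ∈ A.inertiaSubgroupIn ℚ, σ ω = ω := by
  have hq : q.Prime := Fact.out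
  intro σ hσ
  have hωA : ω ∈ A := h5_mem_of_pow_eq_one A hn hω
  have hω0 : ω ≠ 0 := by
    rintro rfl
    rw [zero_pow hn] at hω
    exact zero_ne_one hω
  have hinv : (ω⁻¹) ^ n = 1 := by rw [inv_pow, hω, inv_one]
  have hinvA : ω⁻¹ ∈ A := h5_mem_of_pow_eq_one A hn hinv
  have h1 : σ ω - ω ∈ A.nonunits := h26_sub_mem_nonunits_of_mem_inertia A hσ hωA
  have h2 : σ ω * ω⁻¹ - 1 ∈ A.nonunits := by
    have h3 : σ ω * ω⁻¹ - 1 = (σ ω - ω) * ω⁻¹ := by
      field_simp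
    rw [h3]
    exact h26_mul_mem_nonunits_right A h1 hinvA
  have h4 : (σ ω * ω⁻¹) ^ n = 1 := by
    rw [mul_pow, ← map_pow, hω, map_one, one_mul, hinv]
  have h5 := h5_root_eq_one A hq hA hqn h4 h2
  field_simp at h5
  exact h5

/-- **(hprim)** `K0` contains a primitive `n`-th root of unity, `q ∤ n`. -/
theorem h69_hprim (hA : A.LiesOverPrime q) (n : ℕ) (hn : n ≠ 0) (hqn : ¬ q ∣ n) :
    ∃ ω : h69_K0 (A.inertiaSubgroupIn ℚ), IsPrimitiveRoot ω n := by
  haveI : NeZero n := ⟨hn⟩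
  obtain ⟨ω, hω⟩ := HasEnoughRootsOfUnity.exists_primitiveRoot Qb n
  have hfix := h69_root_fixed q A hA n hn hqn ω hω.pow_eq_one
  refine ⟨⟨ω, (h69_mem_K0 _ _).mpr hfix⟩, ?_⟩
  exact IsPrimitiveRoot.of_map_of_injective
    (f := algebraMap (h69_K0 (A.inertiaSubgroupIn ℚ)) Qb) hω
    (algebraMap (h69_K0 (A.inertiaSubgroupIn ℚ)) Qb).injective

end Prim

section Table

variable (M q : ℕ) [NeZero M] [NeZero q] [Fact q.Prime] (hqM : ¬ q ∣ M)
  (A : ValuationSubring Qb) (hA : A.LiesOverPrime q) (ζ : Qb) (hζ : IsPrimitiveRoot ζ q)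
  (hex : h98_Ex M q hqM A ζ hζ)

include hA

/-- **The constants column of `w2`**: a constant of Gauss order `n` has `w2 = (n, (q-1) n, n)`. -/
theorem h69_w2_const (c : h69_K0 (A.inertiaSubgroupIn ℚ)) (n : ℤ)
    (hn : h98_GV A (q : Qb) (algebraMap Qb (LaurentSeries Qb) (c : Qb)) n) :
    h98_w2 M q hqM A ζ hζ hex 0
        (algebraMap (h69_K0 (A.inertiaSubgroupIn ℚ))
          (h69_F0 (M * q * q) (A.inertiaSubgroupIn ℚ)) c) = n ∧
      h98_w2 M q hqM A ζ hζ hex 1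
        (algebraMap (h69_K0 (A.inertiaSubgroupIn ℚ))
          (h69_F0 (M * q * q) (A.inertiaSubgroupIn ℚ)) c) = ((q : ℤ) - 1) * n ∧
      h98_w2 M q hqM A ζ hζ hex 2
        (algebraMap (h69_K0 (A.inertiaSubgroupIn ℚ))
          (h69_F0 (M * q * q) (A.inertiaSubgroupIn ℚ)) c) = n := by
  have hq : q.Prime := Fact.out
  refine ⟨?_, ?_, ?_⟩
  · refine h98_v1_eq M q hqM A hA ζ hζ hex _ n ?_
    exact hn
  · refine h98_v2_eq M q hqM A hA ζ hζ hex _ _ ?_
    have e1 : h98_midP M q hqM ζ hζ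
        ((algebraMap (h69_K0 (A.inertiaSubgroupIn ℚ))
          (h69_F0 (M * q * q) (A.inertiaSubgroupIn ℚ)) c :
            h69_F0 (M * q * q) (A.inertiaSubgroupIn ℚ)) : modularFunctionFieldBar (M * q * q))
        = algebraMap Qb (LaurentSeries Qb) (c : Qb) := by
      rw [h69_inst_comm]
      exact h36_mid_algebraMap M q hqM ζ hζ.pow_eq_one (hζ.ne_one hq.one_lt) (c : Qb)
    rw [e1]
    obtain ⟨-, -, -, ε, hε, hε', hε0, hϖ⟩ := h98_zeta_unif q A hA ζ hζ
    have h1 := h98_GV_change (A := A) hε hε' hε0 hϖ hn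
    have e : ((q - 1 : ℕ) : ℤ) = (q : ℤ) - 1 := by
      rw [Nat.cast_sub hq.one_le, Nat.cast_one]
    rw [e] at h1
    exact h1
  · refine h98_v3_eq M q hqM A hA ζ hζ hex _ n ?_
    have e1 : h36_W M q hqM
        ((algebraMap (h69_K0 (A.inertiaSubgroupIn ℚ))
          (h69_F0 (M * q * q) (A.inertiaSubgroupIn ℚ)) c :
            h69_F0 (M * q * q) (A.inertiaSubgroupIn ℚ)) : modularFunctionFieldBar (M * q * q))
        = algebraMap Qb (modularFunctionFieldBar (M * q * q)) (c : Qb) := by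
      rw [h69_inst_comm]
      exact h36_W_algebraMap M q hqM (c : Qb)
    rw [e1]
    exact hn

/-- The Gauss order of a nonzero constant of `K0` exists (`h70_GV_const`). -/
theorem h69_K0_GV (c : h69_K0 (A.inertiaSubgroupIn ℚ)) (hc : c ≠ 0) :
    ∃ n : ℤ, h98_GV A (q : Qb) (algebraMap Qb (LaurentSeries Qb) (c : Qb)) n ∧
      (n = 0 → (c : Qb) ∈ A ∧ (c : Qb) ∉ A.nonunits) ∧ ((c : Qb) ∈ A.nonunits → 0 < n) := by
  have hc' : (c : Qb) ≠ 0 := fun h0 => hc (Subtype.ext h0)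
  exact h70_GV_const q A hA (c : Qb) hc' (fun σ hσ => (h69_mem_K0 _ _).mp c.2 σ hσ)

/-- **(hw02)** the two standard components agree on constants. -/
theorem h69_hw02 : ∀ c : h69_K0 (A.inertiaSubgroupIn ℚ), c ≠ 0 →
    h98_w2 M q hqM A ζ hζ hex 2
        (algebraMap (h69_K0 (A.inertiaSubgroupIn ℚ))
          (h69_F0 (M * q * q) (A.inertiaSubgroupIn ℚ)) c)
      = h98_w2 M q hqM A ζ hζ hex 0
        (algebraMap (h69_K0 (A.inertiaSubgroupIn ℚ))
          (h69_F0 (M * q * q) (A.inertiaSubgroupIn ℚ)) c) := by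
  intro c hc
  obtain ⟨n, hn, -, -⟩ := h69_K0_GV q A hA c hc
  obtain ⟨h0, -, h2⟩ := h69_w2_const M q hqM A hA ζ hζ hex c n hn
  rw [h0, h2]

/-- the thick component on constants: `w2 1 = (q - 1) * w2 0`. -/
theorem h69_hw01 : ∀ c : h69_K0 (A.inertiaSubgroupIn ℚ), c ≠ 0 →
    h98_w2 M q hqM A ζ hζ hex 1
        (algebraMap (h69_K0 (A.inertiaSubgroupIn ℚ))
          (h69_F0 (M * q * q) (A.inertiaSubgroupIn ℚ)) c)
      = ((q : ℤ) - 1) * h98_w2 M q hqM A ζ hζ hex 0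
        (algebraMap (h69_K0 (A.inertiaSubgroupIn ℚ))
          (h69_F0 (M * q * q) (A.inertiaSubgroupIn ℚ)) c) := by
  intro c hc
  obtain ⟨n, hn, -, -⟩ := h69_K0_GV q A hA c hc
  obtain ⟨h0, h1, -⟩ := h69_w2_const M q hqM A hA ζ hζ hex c n hn
  rw [h0, h1]

/-- a constant of order `0` on `C20` has order `0` on all three components. -/
theorem h69_w2_const_zero (c : h69_K0 (A.inertiaSubgroupIn ℚ)) (hc : c ≠ 0)
    (h0 : h98_w2 M q hqM A ζ hζ hex 0
      (algebraMap (h69_K0 (A.inertiaSubgroupIn ℚ))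
        (h69_F0 (M * q * q) (A.inertiaSubgroupIn ℚ)) c) = 0) (k : Fin 3) :
    h98_w2 M q hqM A ζ hζ hex k
      (algebraMap (h69_K0 (A.inertiaSubgroupIn ℚ))
        (h69_F0 (M * q * q) (A.inertiaSubgroupIn ℚ)) c) = 0 := by
  fin_cases k
  · exact h0
  · have h1 := h69_hw01 M q hqM A hA ζ hζ hex c hc
    rw [h0, mul_zero] at h1
    exact h1
  · have h2 := h69_hw02 M q hqM A hA ζ hζ hex c hc
    rw [h0] at h2
    exact h2

/-- **(hroot)** a constant of order `0` is, modulo `q`, an `n`-th power of a constant. -/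
theorem h69_hroot (n : ℕ) (hn : n ≠ 0) : ∀ c : h69_K0 (A.inertiaSubgroupIn ℚ), c ≠ 0 →
    h98_w2 M q hqM A ζ hζ hex 0
        (algebraMap (h69_K0 (A.inertiaSubgroupIn ℚ))
          (h69_F0 (M * q * q) (A.inertiaSubgroupIn ℚ)) c) = 0 →
    ∃ b : h69_K0 (A.inertiaSubgroupIn ℚ), b ≠ 0 ∧
      (algebraMap (h69_K0 (A.inertiaSubgroupIn ℚ))
          (h69_F0 (M * q * q) (A.inertiaSubgroupIn ℚ)) (b ^ n - c) = 0 ∨
        1 ≤ h98_w2 M q hqM A ζ hζ hex 0
          (algebraMap (h69_K0 (A.inertiaSubgroupIn ℚ))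
            (h69_F0 (M * q * q) (A.inertiaSubgroupIn ℚ)) (b ^ n - c))) := by
  intro c hc hw
  obtain ⟨m, hm, hm0, -⟩ := h69_K0_GV q A hA c hc
  have hm' : m = 0 := by
    rw [← hw]
    exact ((h69_w2_const M q hqM A hA ζ hζ hex c m hm).1).symm
  obtain ⟨hκA, hκnu⟩ := hm0 hm'
  obtain ⟨c', hcA, hcnu, hcfix, hcong⟩ := h69_unit_root q A hA n hn (c : Qb) hκA hκnu
  have hc0 : c' ≠ 0 := by
    rintro rfl
    exact hcnu (h5_zero_mem_nonunits A)
  set b : h69_K0 (A.inertiaSubgroupIn ℚ) := ⟨c', (h69_mem_K0 _ _).mpr hcfix⟩ with hb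
  have hb0 : b ≠ 0 := by
    intro h
    exact hc0 (congrArg Subtype.val h)
  refine ⟨b, hb0, ?_⟩
  by_cases hd : b ^ n - c = 0
  · left
    rw [hd, map_zero]
  · right
    obtain ⟨m1, hm1, -, hpos⟩ := h69_K0_GV q A hA (b ^ n - c) hd
    have hval := (h69_w2_const M q hqM A hA ζ hζ hex (b ^ n - c) m1 hm1).1
    rw [hval]
    have hnu : ((b ^ n - c : h69_K0 (A.inertiaSubgroupIn ℚ)) : Qb) ∈ A.nonunits := by
      have e : ((b ^ n - c : h69_K0 (A.inertiaSubgroupIn ℚ)) : Qb) = -((c : Qb) - c' ^ n) := by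
        push_cast
        rw [hb]
        ring
      rw [e]
      exact h5_neg_mem_nonunits A hcong
    have := hpos hnu
    omega

/-- **(hπ)** `q` is a uniformiser of `C20`. -/
theorem h69_hpi :
    h98_w2 M q hqM A ζ hζ hex 0
      (algebraMap (h69_K0 (A.inertiaSubgroupIn ℚ))
        (h69_F0 (M * q * q) (A.inertiaSubgroupIn ℚ))
        (q : h69_K0 (A.inertiaSubgroupIn ℚ))) = 1 := by
  rw [map_natCast]
  exact h98_hq0 M q hqM A hA ζ hζ hex

omit hA in
/-- **(hn)** -/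
theorem h69_hn (n : ℕ) (hn : n ≠ 0) :
    (n : h69_F0 (M * q * q) (A.inertiaSubgroupIn ℚ)) ≠ 0 := by
  intro h
  have h1 : ((n : h69_F0 (M * q * q) (A.inertiaSubgroupIn ℚ)) :
      modularFunctionFieldBar (M * q * q)) = 0 := by rw [h]; rfl
  have h2 : ((n : h69_F0 (M * q * q) (A.inertiaSubgroupIn ℚ)) :
      modularFunctionFieldBar (M * q * q))
      = algebraMap Qb (modularFunctionFieldBar (M * q * q)) (n : Qb) := by
    rw [map_natCast]
    rfl
  rw [h2] at h1
  have h3 := (map_eq_zero (algebraMap Qb (modularFunctionFieldBar (M * q * q)))).mp h1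
  exact hn (Nat.cast_eq_zero.mp h3)

/-- **(hnv)** an integer prime to `q` is a unit on all three components. -/
theorem h69_hnv (n : ℕ) (hqn : ¬ q ∣ n) (k : Fin 3) :
    h98_w2 M q hqM A ζ hζ hex k (n : h69_F0 (M * q * q) (A.inertiaSubgroupIn ℚ)) = 0 := by
  have hq : q.Prime := Fact.out
  have hn0 : n ≠ 0 := by
    rintro rfl
    exact hqn (dvd_zero q)
  have hnQ : (n : Qb) ≠ 0 := Nat.cast_ne_zero.mpr hn0
  have hnA : (n : Qb) ∈ A := by
    have := natCast_mem A n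
    exact this
  have hnA' : (n : Qb)⁻¹ ∈ A := h26_natCast_inv_mem A hq hA hqn
  have hGV : h98_GV A (q : Qb) (algebraMap Qb (LaurentSeries Qb)
      (((n : h69_K0 (A.inertiaSubgroupIn ℚ)) : h69_K0 (A.inertiaSubgroupIn ℚ)) : Qb)) 0 := by
    have e : (((n : h69_K0 (A.inertiaSubgroupIn ℚ)) : h69_K0 (A.inertiaSubgroupIn ℚ)) : Qb)
        = (n : Qb) := by
      push_cast
      rfl
    rw [e]
    exact h98_GV_const_unit (A := A) (q : Qb) hnA hnA' hnQ
  obtain ⟨h0, h1, h2⟩ := h69_w2_const M q hqM A hA ζ hζ hex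
    (n : h69_K0 (A.inertiaSubgroupIn ℚ)) 0 hGV
  rw [map_natCast] at h0 h1 h2
  fin_cases k
  · exact h0
  · rw [mul_zero] at h1
    exact h1
  · exact h2

/-- **(hconst)** a constant of order `0` has value `0` at every index of a chart family
`h80_placeFam` built on `w2` (any set `U` of places). -/
theorem h69_hconst_placeFam (U : Set (Place Qb (modularFunctionFieldBar (M * q * q))))
    (hw_mul : ∀ (c : Fin 3) (f g : h69_F0 (M * q * q) (A.inertiaSubgroupIn ℚ)), f ≠ 0 → g ≠ 0 →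
      h98_w2 M q hqM A ζ hζ hex c (f * g)
        = h98_w2 M q hqM A ζ hζ hex c f + h98_w2 M q hqM A ζ hζ hex c g)
    (hw_add : ∀ (c : Fin 3) (f g : h69_F0 (M * q * q) (A.inertiaSubgroupIn ℚ)), f ≠ 0 → g ≠ 0 →
      f + g ≠ 0 → min (h98_w2 M q hqM A ζ hζ hex c f) (h98_w2 M q hqM A ζ hζ hex c g)
        ≤ h98_w2 M q hqM A ζ hζ hex c (f + g))
    (hfin : ∀ f : modularFunctionFieldBar (M * q * q), f ≠ 0 →
      {P : Place Qb (modularFunctionFieldBar (M * q * q)) | P ∈ U ∧ P.ord f ≠ 0}.Finite) :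
    ∀ c : h69_K0 (A.inertiaSubgroupIn ℚ), c ≠ 0 →
      h98_w2 M q hqM A ζ hζ hex 0
        (algebraMap (h69_K0 (A.inertiaSubgroupIn ℚ))
          (h69_F0 (M * q * q) (A.inertiaSubgroupIn ℚ)) c) = 0 →
      ∀ i, (h80_placeFam (h69_F0 (M * q * q) (A.inertiaSubgroupIn ℚ)).subtype U
          (h98_w2 M q hqM A ζ hζ hex) hw_mul hw_add hfin).v i
        (algebraMap (h69_K0 (A.inertiaSubgroupIn ℚ))
          (h69_F0 (M * q * q) (A.inertiaSubgroupIn ℚ)) c) = 0 := by
  intro c hc h0 i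
  rcases i with k | j
  · exact h69_w2_const_zero M q hqM A hA ζ hζ hex c hc h0 k
  · obtain ⟨⟨P, hP⟩, rfl⟩ := h80_horMk_surj _ j
    exact h35_ord_algebraMap P (c : Qb)

end Table

end Fermat.Agent.S36
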