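/-
(RES-FAM-INST) at level `M q`: the hypotheses `hR` and `hb` of `h99_isInt_iff_h75` /
`h97_hvert_mod75` for the two vertical valuations `h98_w1` (`0 = Z_F`, `1 = Z_V`) of the
carrier `F0 = h69_F0 (M q) I`, base `h69_A0 A`, chart `j = h69_jF0 (M q) I`.

Residue degrees `f = (ψ(M), q ψ(M))`, families `u^a t^b` with
`(u, t) = (j, j(t^M))` on `Z_F` and `(w j, w (j(t^M)))` on `Z_V` (`w = h60_w`).
-/
import Mathlib
import Fermat.Agent.S36.h91_ResFamInst

set_option autoImplicit false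
set_option synthInstance.maxHeartbeats 400000
set_option linter.unusedSectionVars false

noncomputable section

namespace Fermat.Agent.S36

open Polynomial IntermediateField ModularCurve CongruenceSubgroup AlgebraicCurve
open scoped MatrixGroups
open Fermat.Agent.S34 Fermat.Agent.S18 Fermat.Agent.S19 Fermat.Agent.S24 Fermat.Agent.S37
  Fermat.Agent.S35

local notation "Qb" => AlgebraicClosure ℚ

/-- `j(t^q)` is in the Gauss ring and reduces to `j̄ ^ q`. -/
theorem h91_Jq_val (A : ValuationSubring Qb) (q : ℕ) [NeZero q] [Fact q.Prime]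
    [CharP (IsLocalRing.ResidueField A) q] :
    ∃ h : qExpand Qb q (coeffEmb Qb jq) ∈ h60_Os A,
      h60_rs A ⟨_, h⟩ = jqModC (IsLocalRing.ResidueField A) ^ q := by
  obtain ⟨h1, h2⟩ := h91_JL_val A q
  exact ⟨h1, by rw [h2, ← h60_jq_pow]⟩

section CompQ

variable (M q : ℕ) [NeZero M] [NeZero q] [Fact q.Prime] (hqM : ¬ q ∣ M)
  (A : ValuationSubring Qb)

theorem h91_dvd_q1 : M ∣ M * q := ⟨q, rfl⟩

/-- `j(t^M)` as an element of `F0` at level `M q`. -/
def h91_tMq : h69_F0 (M * q) (A.inertiaSubgroupIn ℚ) :=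
  h91_tF0 (M * q) (A.inertiaSubgroupIn ℚ) M (h91_dvd_q1 M q)

/-- `w j` as an element of `F0` at level `M q`. -/
def h91_wj : h69_F0 (M * q) (A.inertiaSubgroupIn ℚ) :=
  ⟨h60_w M q hqM (h69_jF0 (M * q) (A.inertiaSubgroupIn ℚ) : modularFunctionFieldBar (M * q)),
    h98_fix1w M q hqM A (h69_jF0 (M * q) (A.inertiaSubgroupIn ℚ))⟩

/-- `w (j(t^M))` as an element of `F0` at level `M q`. -/
def h91_wtMq : h69_F0 (M * q) (A.inertiaSubgroupIn ℚ) :=
  ⟨h60_w M q hqM (h91_tMq M q A : modularFunctionFieldBar (M * q)),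
    h98_fix1w M q hqM A (h91_tMq M q A)⟩

/-- The expansion of `w j` is `j(t^q)`. -/
theorem h91_coe_w_jbar :
    ((h60_w M q hqM (h59_jbar (M * q)) : modularFunctionFieldBar (M * q)) :
      LaurentSeries Qb) = qExpand Qb q (coeffEmb Qb jq) := by
  rw [h91_jbar_alpha, h60_w_alpha]
  rfl

/-- **`Z_V` component at level `M q`**: the standard expansion after the swap `w`. -/
theorem h91_RB_w (π : Qb) (hπ0 : π ≠ 0) (hπA : π ∈ A) (hπn : π⁻¹ ∉ A)
    (hsc : ∀ f : h69_F0 (M * q) (A.inertiaSubgroupIn ℚ), f ≠ 0 →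
      ∃ n : ℤ, h98_GV A π
        (((h98_coe (M * q)).comp (h60_w M q hqM)) (f : modularFunctionFieldBar (M * q))) n)
    [CharP (IsLocalRing.ResidueField A) q] :
    h91_RB (M * q) A
      (h98_gv ((h98_coe (M * q)).comp (h60_w M q hqM))
        (h69_F0 (M * q) (A.inertiaSubgroupIn ℚ)) π hsc)
      M q (h91_wj M q hqM A) (h91_wtMq M q hqM A) := by
  have hq : q.Prime := Fact.out
  have e1 : ((h98_coe (M * q)).comp (h60_w M q hqM)) (h59_jbar (M * q)) =
      qExpand Qb q (coeffEmb Qb jq) := h91_coe_w_jbar M q hqM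
  have e2 : ((h98_coe (M * q)).comp (h60_w M q hqM))
      ((h91_wj M q hqM A : h69_F0 (M * q) (A.inertiaSubgroupIn ℚ)) :
        modularFunctionFieldBar (M * q)) = coeffEmb Qb jq := by
    show ((h60_w M q hqM (h60_w M q hqM (h59_jbar (M * q))) :
      modularFunctionFieldBar (M * q)) : LaurentSeries Qb) = _
    rw [h60_w_w]
    rfl
  have e3 : ((h98_coe (M * q)).comp (h60_w M q hqM))
      ((h91_wtMq M q hqM A : h69_F0 (M * q) (A.inertiaSubgroupIn ℚ)) :
        modularFunctionFieldBar (M * q)) = qExpand Qb M (coeffEmb Qb jq) := by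
    show ((h60_w M q hqM (h60_w M q hqM
      ((h91_tMq M q A : h69_F0 (M * q) (A.inertiaSubgroupIn ℚ)) :
        modularFunctionFieldBar (M * q))) :
      modularFunctionFieldBar (M * q)) : LaurentSeries Qb) = _
    rw [h60_w_w]
    rfl
  exact h91_hRb_E (M * q) A ((h98_coe (M * q)).comp (h60_w M q hqM))
    (fun c => by
      show ((h60_w M q hqM (algebraMap Qb (modularFunctionFieldBar (M * q)) c) :
        modularFunctionFieldBar (M * q)) : LaurentSeries Qb) = _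
      rw [h60_w_algebraMap]
      rfl)
    π hπ0 hπA hπn hsc M q hqM q hq.pos
    (h91_val_congr (h91_Jq_val A q) e1) _ _
    (h91_val_congr (h91_J_val A) e2) (h91_val_congr (h91_JL_val A M) e3)

/-! ### The two components together -/

/-- The exponents `m = (1, q)` of the chart on the two components of level `M q`. -/
def h91_mQ : Fin 2 → ℕ := ![1, q]

/-- The lifts of `j̄`: `j, w j`. -/
def h91_uQ : Fin 2 → h69_F0 (M * q) (A.inertiaSubgroupIn ℚ) :=
  ![h69_jF0 (M * q) (A.inertiaSubgroupIn ℚ), h91_wj M q hqM A]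

/-- The lifts of `j̄(t^M)`: `j_M, w j_M`. -/
def h91_tQ : Fin 2 → h69_F0 (M * q) (A.inertiaSubgroupIn ℚ) :=
  ![h91_tMq M q A, h91_wtMq M q hqM A]

/-- The residue degrees `f c = m c * [SL₂(ℤ) : Γ₀(M)]` at level `M q`. -/
def h91_fQ (c : Fin 2) : ℕ := h91_mQ q c * Nat.card (SL(2, ℤ) ⧸ Gamma0 M)

/-- The residue-degree families `b c j = u_c ^ a * t_c ^ b` at level `M q`. -/
def h91_bQ (c : Fin 2) (j : Fin (h91_fQ M q c)) : h69_F0 (M * q) (A.inertiaSubgroupIn ℚ) :=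
  h91_uQ M q hqM A c ^ (((finProdFinEquiv (m := h91_mQ q c)
      (n := Nat.card (SL(2, ℤ) ⧸ Gamma0 M))).symm j).1 : ℕ) *
    h91_tQ M q hqM A c ^ (((finProdFinEquiv (m := h91_mQ q c)
      (n := Nat.card (SL(2, ℤ) ⧸ Gamma0 M))).symm j).2 : ℕ)

/-- **(RES-FAM-INST) for `h98_w1`**, componentwise. -/
theorem h91_RB_w1 (hA : A.LiesOverPrime q) (ζ : Qb) (hζ : IsPrimitiveRoot ζ q)
    (hex : h98_Ex M q hqM A ζ hζ) (c : Fin 2) :
    h91_RB (M * q) A (h98_w1 M q hqM A ζ hζ hex c) M (h91_mQ q c) (h91_uQ M q hqM A c)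
      (h91_tQ M q hqM A c) := by
  have : CharP (IsLocalRing.ResidueField A) q := h19_residueField_charP A q hA
  obtain ⟨hq0, hqA, hqn⟩ := h98_q_unif q A hA
  fin_cases c
  · exact h91_RB_std (M * q) A (q : Qb) hq0 hqA hqn _ M (h91_dvd_q1 M q) q hqM
  · exact h91_RB_w M q hqM A (q : Qb) hq0 hqA hqn _

/-- **`hR` for `h98_w1`** (level `M q`). -/
theorem h91_hR_w1 (hA : A.LiesOverPrime q) (ζ : Qb) (hζ : IsPrimitiveRoot ζ q)
    (hex : h98_Ex M q hqM A ζ hζ) :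
    ∀ (c : Fin 2) (r : h69_F0 (M * q) (A.inertiaSubgroupIn ℚ)),
      r ∈ h75_gaussRing (h69_A0 A) (h69_jF0 (M * q) (A.inertiaSubgroupIn ℚ)) → r ≠ 0 →
        0 ≤ h98_w1 M q hqM A ζ hζ hex c r :=
  fun c => (h91_RB_w1 M q hqM A hA ζ hζ hex c).1

/-- **`hb` for `h98_w1`** (level `M q`), with `f := h91_fQ M q`, `b := h91_bQ M q hqM A`. -/
theorem h91_hb_w1 (hA : A.LiesOverPrime q) (ζ : Qb) (hζ : IsPrimitiveRoot ζ q)
    (hex : h98_Ex M q hqM A ζ hζ) :
    ∀ (c : Fin 2) (r : Fin (h91_fQ M q c) →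
        ↥(h75_gaussRing (h69_A0 A) (h69_jF0 (M * q) (A.inertiaSubgroupIn ℚ)))),
      (∃ j, IsUnit (r j)) →
        ∑ j, r j • h91_bQ M q hqM A c j ≠ 0 ∧
          h98_w1 M q hqM A ζ hζ hex c (∑ j, r j • h91_bQ M q hqM A c j) = 0 :=
  fun c => (h91_RB_w1 M q hqM A hA ζ hζ hex c).2

theorem h91_fQ_zero : h91_fQ M q 0 = Nat.card (SL(2, ℤ) ⧸ Gamma0 M) := by
  show 1 * Nat.card (SL(2, ℤ) ⧸ Gamma0 M) = _
  rw [one_mul]

theorem h91_fQ_one : h91_fQ M q 1 = q * Nat.card (SL(2, ℤ) ⧸ Gamma0 M) := rfl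

/-- The count at level `M q`: `ψ(M q) = (q + 1) ψ(M) = 1 * ψ(M) + 1 * (q ψ(M))`. -/
theorem h91_count_fQ :
    (q + 1) * ModularCurve.dedekindPsi M =
      ∑ c : Fin 2, (![1, 1] : Fin 2 → ℕ) c * h91_fQ M q c := by
  rw [Fin.sum_univ_two, h91_fQ_zero, h91_fQ_one, h29_card_quotient_Gamma0 M]
  simp only [Matrix.cons_val_zero, Matrix.cons_val_one]
  ring

end CompQ

end Fermat.Agent.S36
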