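import Mathlib
import Fermat.Agent.S36.h69_NZConst
import Fermat.Agent.S36.h69_W1Bridge
import Fermat.Agent.S36.h91_ResFamQ
import Fermat.Agent.S36.h65_HorInt
import Fermat.Agent.S36.h81_IntJ

/-!
# S36 / I-VAL (helper69): constants and chart functions, rows `hwA`, `hwx`, `hww`, `hwn`

The vertical valuations `h98_w2` (level `M q²`) and `h98_w1` (level `M q`) are non-negative on
the constants of `A₀`, vanish on the chart function `j` (hence on `1 / j`), are non-negative on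
`w j` (level `M q`), and vanish on the integers prime to `q`.  These are, verbatim, the binders
`hwA`, `hwx` of `h80_famOf_noeth` (both charts, both levels), `hww₁` of `h65_wJ_integral`, and
`hwA2`, `hwx2`, `hwA1`, `hwn` of the per-chart plug `(M8)`.
-/

set_option autoImplicit false
set_option synthInstance.maxHeartbeats 400000
set_option linter.style.haveILetI false
set_option linter.unusedSectionVars false

noncomputable section

open ModularCurve AlgebraicCurve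

namespace Fermat.Agent.S36

open Fermat.Agent.S34 Fermat.Agent.S37 Fermat.Agent.S24 Fermat.Agent.S35 Fermat.Agent.S18
  Fermat.Agent.GAL Fermat.Agent.S40 Fermat.Agent.S05

local notation "Qb" => AlgebraicClosure ℚ

section Generic

variable {K F : Type*} [Field K] [Field F] [Algebra K F]

/-- constants of `A` lie in the Gauss ring. -/
theorem h69_gauss_const (A : ValuationSubring K) (x : F) (a : K) (ha : a ∈ A) :
    algebraMap K F a ∈ h75_gaussRing A x := by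
  refine ⟨Polynomial.C ⟨a, ha⟩, 1, ?_, ?_⟩
  · rw [Polynomial.map_one]
    exact one_ne_zero
  · rw [Polynomial.map_one, Polynomial.map_C, map_one, mul_one, Polynomial.aeval_C]
    rfl

/-- the chart function lies in the Gauss ring. -/
theorem h69_gauss_x (A : ValuationSubring K) (x : F) : x ∈ h75_gaussRing A x := by
  refine ⟨Polynomial.X, 1, ?_, ?_⟩
  · rw [Polynomial.map_one]
    exact one_ne_zero
  · rw [Polynomial.map_one, Polynomial.map_X, map_one, mul_one, Polynomial.aeval_X]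

/-- the inverse of the chart function lies in the Gauss ring. -/
theorem h69_gauss_x_inv (A : ValuationSubring K) (x : F) (hx : x ≠ 0) :
    x⁻¹ ∈ h75_gaussRing A x := by
  refine ⟨1, Polynomial.X, ?_, ?_⟩
  · rw [Polynomial.map_X]
    exact Polynomial.X_ne_zero
  · rw [Polynomial.map_one, Polynomial.map_X, map_one, Polynomial.aeval_X]
    exact inv_mul_cancel₀ hx

end Generic

section Levels

variable (N : ℕ) [NeZero N] (H : Subgroup (Qb ≃ₐ[ℚ] Qb))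

theorem h69_J0_eq_jF0 : h65_J0 N H = h69_jF0 N H := rfl

theorem h69_J0_ne_zero : h65_J0 N H ≠ 0 := by
  intro h
  have h1 : ((h65_J0 N H : h69_F0 N H) : modularFunctionFieldBar N) = 0 := by rw [h]; rfl
  rw [h65_coe_J0] at h1
  exact h65_jbar_ne_zero N h1

end Levels

section Mod

variable (M q : ℕ) [NeZero M] [NeZero q] [Fact q.Prime] (hqM : ¬ q ∣ M)
  (A : ValuationSubring Qb) (hA : A.LiesOverPrime q) (ζ : Qb) (hζ : IsPrimitiveRoot ζ q)
  (hex : h98_Ex M q hqM A ζ hζ)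

include hA

/-! ### Level `M q²` -/

/-- **(hwA2)** the constants of `A₀` have non-negative `w2`. -/
theorem h69_hwA2 : ∀ c (a : h69_K0 (A.inertiaSubgroupIn ℚ)), a ∈ h69_A0 A → a ≠ 0 →
    0 ≤ h98_w2 M q hqM A ζ hζ hex c
      (algebraMap (h69_K0 (A.inertiaSubgroupIn ℚ))
        (h69_F0 (M * q * q) (A.inertiaSubgroupIn ℚ)) a) := by
  intro c a ha ha0
  refine h91_hR_w98 M q hqM A hA ζ hζ hex c _ (h69_gauss_const _ _ a ha) ?_
  exact (map_ne_zero _).mpr ha0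

/-- **(hwx2)**, sharp form: `w2 c j = 0`. -/
theorem h69_w2_J0 : ∀ c, h98_w2 M q hqM A ζ hζ hex c (h65_J0 (M * q * q) (A.inertiaSubgroupIn ℚ)) = 0 := by
  intro c
  have hJ := h69_J0_ne_zero (M * q * q) (A.inertiaSubgroupIn ℚ)
  have h1 := h91_hR_w98 M q hqM A hA ζ hζ hex c _
    (h69_gauss_x (h69_A0 A) (h69_jF0 (M * q * q) (A.inertiaSubgroupIn ℚ))) hJ
  have h2 := h91_hR_w98 M q hqM A hA ζ hζ hex c _
    (h69_gauss_x_inv (h69_A0 A) (h69_jF0 (M * q * q) (A.inertiaSubgroupIn ℚ)) hJ) (inv_ne_zero hJ)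
  have hmul := h98_hw2mul M q hqM A hA ζ hζ hex c _ _ hJ (inv_ne_zero hJ)
  have hone := h98_hw2mul M q hqM A hA ζ hζ hex c 1 1 one_ne_zero one_ne_zero
  rw [mul_one] at hone
  rw [mul_inv_cancel₀ hJ] at hmul
  change 0 ≤ h98_w2 M q hqM A ζ hζ hex c (h65_J0 (M * q * q) (A.inertiaSubgroupIn ℚ)) at h1
  change 0 ≤ h98_w2 M q hqM A ζ hζ hex c (h65_J0 (M * q * q) (A.inertiaSubgroupIn ℚ))⁻¹ at h2
  omega

/-- **(hwx2)** `0 ≤ w2 c j` (chart 1). -/
theorem h69_hwx2 : ∀ c, 0 ≤ h98_w2 M q hqM A ζ hζ hex c (h65_J0 (M * q * q) (A.inertiaSubgroupIn ℚ)) :=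
  fun c => (h69_w2_J0 M q hqM A hA ζ hζ hex c).ge

/-- `w2 c (1 / j) = 0`. -/
theorem h69_w2_J0_inv : ∀ c, h98_w2 M q hqM A ζ hζ hex c (h65_J0 (M * q * q) (A.inertiaSubgroupIn ℚ))⁻¹ = 0 := by
  intro c
  have hJ := h69_J0_ne_zero (M * q * q) (A.inertiaSubgroupIn ℚ)
  have h0 := h69_w2_J0 M q hqM A hA ζ hζ hex c
  have hmul := h98_hw2mul M q hqM A hA ζ hζ hex c _ _ hJ (inv_ne_zero hJ)
  have hone := h98_hw2mul M q hqM A hA ζ hζ hex c 1 1 one_ne_zero one_ne_zero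
  rw [mul_one] at hone
  rw [mul_inv_cancel₀ hJ] at hmul
  omega

/-- **(hwx2')** `0 ≤ w2 c (1 / j)` (chart 2). -/
theorem h69_hwx2_inv : ∀ c, 0 ≤ h98_w2 M q hqM A ζ hζ hex c (h65_J0 (M * q * q) (A.inertiaSubgroupIn ℚ))⁻¹ :=
  fun c => (h69_w2_J0_inv M q hqM A hA ζ hζ hex c).ge

/-- **(hwn)** for `(M8)`: an integer prime to `q` has `w2 = 0` on all components. -/
theorem h69_hwn2 (n : ℕ) (hqn : ¬ q ∣ n) :
    ∀ c, h98_w2 M q hqM A ζ hζ hex c ((n : ℕ) : h69_F0 (M * q * q) (A.inertiaSubgroupIn ℚ)) = 0 :=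
  fun c => h69_hnv M q hqM A hA ζ hζ hex n hqn c

/-! ### Level `M q` -/

/-- **(hwA1)** the constants of `A₀` have non-negative `w1`. -/
theorem h69_hwA1 : ∀ c (a : h69_K0 (A.inertiaSubgroupIn ℚ)), a ∈ h69_A0 A → a ≠ 0 →
    0 ≤ h98_w1 M q hqM A ζ hζ hex c
      (algebraMap (h69_K0 (A.inertiaSubgroupIn ℚ))
        (h69_F0 (M * q) (A.inertiaSubgroupIn ℚ)) a) := by
  intro c a ha ha0
  refine h91_hR_w1 M q hqM A hA ζ hζ hex c _ (h69_gauss_const _ _ a ha) ?_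
  exact (map_ne_zero _).mpr ha0

/-- `w1 c j = 0`. -/
theorem h69_w1_J0 : ∀ c, h98_w1 M q hqM A ζ hζ hex c (h65_J0 (M * q) (A.inertiaSubgroupIn ℚ)) = 0 := by
  intro c
  have hJ := h69_J0_ne_zero (M * q) (A.inertiaSubgroupIn ℚ)
  have h1 := h91_hR_w1 M q hqM A hA ζ hζ hex c _
    (h69_gauss_x (h69_A0 A) (h69_jF0 (M * q) (A.inertiaSubgroupIn ℚ))) hJ
  have h2 := h91_hR_w1 M q hqM A hA ζ hζ hex c _
    (h69_gauss_x_inv (h69_A0 A) (h69_jF0 (M * q) (A.inertiaSubgroupIn ℚ)) hJ) (inv_ne_zero hJ)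
  have hmul := h98_hw1mul M q hqM A hA ζ hζ hex c _ _ hJ (inv_ne_zero hJ)
  have hone := h98_hw1mul M q hqM A hA ζ hζ hex c 1 1 one_ne_zero one_ne_zero
  rw [mul_one] at hone
  rw [mul_inv_cancel₀ hJ] at hmul
  change 0 ≤ h98_w1 M q hqM A ζ hζ hex c (h65_J0 (M * q) (A.inertiaSubgroupIn ℚ)) at h1
  change 0 ≤ h98_w1 M q hqM A ζ hζ hex c (h65_J0 (M * q) (A.inertiaSubgroupIn ℚ))⁻¹ at h2
  omega

/-- **(hwx1)** `0 ≤ w1 c j`. -/
theorem h69_hwx1 : ∀ c, 0 ≤ h98_w1 M q hqM A ζ hζ hex c (h65_J0 (M * q) (A.inertiaSubgroupIn ℚ)) :=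
  fun c => (h69_w1_J0 M q hqM A hA ζ hζ hex c).ge

/-- `w1 c (1 / j) = 0`. -/
theorem h69_w1_J0_inv : ∀ c, h98_w1 M q hqM A ζ hζ hex c (h65_J0 (M * q) (A.inertiaSubgroupIn ℚ))⁻¹ = 0 := by
  intro c
  have hJ := h69_J0_ne_zero (M * q) (A.inertiaSubgroupIn ℚ)
  have h0 := h69_w1_J0 M q hqM A hA ζ hζ hex c
  have hmul := h98_hw1mul M q hqM A hA ζ hζ hex c _ _ hJ (inv_ne_zero hJ)
  have hone := h98_hw1mul M q hqM A hA ζ hζ hex c 1 1 one_ne_zero one_ne_zero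
  rw [mul_one] at hone
  rw [mul_inv_cancel₀ hJ] at hmul
  omega

/-- **(hwx1')** `0 ≤ w1 c (1 / j)`. -/
theorem h69_hwx1_inv : ∀ c, 0 ≤ h98_w1 M q hqM A ζ hζ hex c (h65_J0 (M * q) (A.inertiaSubgroupIn ℚ))⁻¹ :=
  fun c => (h69_w1_J0_inv M q hqM A hA ζ hζ hex c).ge

/-- `w J ≠ 0`. -/
theorem h69_wJ0_ne_zero :
    h65_wF0 M q hqM (A.inertiaSubgroupIn ℚ) (h65_J0 (M * q) (A.inertiaSubgroupIn ℚ)) ≠ 0 :=
  (map_ne_zero _).mpr (h69_J0_ne_zero (M * q) (A.inertiaSubgroupIn ℚ))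

/-- **(hww₁)** of `h65_wJ_integral` / `h65_wJ0_mem_fam1`: `0 ≤ w1 c (w J)`. -/
theorem h69_hww1 : ∀ c, 0 ≤ h98_w1 M q hqM A ζ hζ hex c
    (h65_wF0 M q hqM (A.inertiaSubgroupIn ℚ) (h65_J0 (M * q) (A.inertiaSubgroupIn ℚ))) := by
  intro c
  have hne := h69_wJ0_ne_zero M q hqM A hA
  rw [h69_w1_nonneg_iff M q hqM A hA ζ hζ hex c _ hne]
  obtain ⟨hJ1, hJ2, -, -⟩ := h81_J_mem M q hqM A hA
  fin_cases c
  · -- `w J ∈ O₁ ↔ J ∈ O₂`
    change h60_w M q hqM (h59_jbar (M * q)) ∈ (h60_R1 M q hqM A hA).O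
    exact (h60_R2_mem_iff M q hqM A hA _).mp hJ2
  · change h60_w M q hqM (h59_jbar (M * q)) ∈ (h60_R2 M q hqM A hA).O
    rw [h60_R2_mem_iff, h60_w_w]
    exact hJ1

/-- an integer prime to `q` has `w1 = 0` on both components. -/
theorem h69_hwn1 (n : ℕ) (hqn : ¬ q ∣ n) :
    ∀ c, h98_w1 M q hqM A ζ hζ hex c ((n : ℕ) : h69_F0 (M * q) (A.inertiaSubgroupIn ℚ)) = 0 := by
  intro c
  have hq : q.Prime := Fact.out
  have hn0 : n ≠ 0 := by
    rintro rfl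
    exact hqn (dvd_zero q)
  have hnK : (n : h69_K0 (A.inertiaSubgroupIn ℚ)) ≠ 0 := Nat.cast_ne_zero.mpr hn0
  have e : (((n : h69_K0 (A.inertiaSubgroupIn ℚ)) : h69_K0 (A.inertiaSubgroupIn ℚ)) : Qb)
      = (n : Qb) := by
    push_cast
    rfl
  have hnA : (n : h69_K0 (A.inertiaSubgroupIn ℚ)) ∈ h69_A0 A := by
    rw [h69_mem_A0, e]
    exact natCast_mem A n
  have hnA' : (n : h69_K0 (A.inertiaSubgroupIn ℚ))⁻¹ ∈ h69_A0 A := by
    rw [h69_mem_A0]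
    have e' : (((n : h69_K0 (A.inertiaSubgroupIn ℚ))⁻¹ : h69_K0 (A.inertiaSubgroupIn ℚ)) : Qb)
        = (n : Qb)⁻¹ := by
      rw [← e]
      rfl
    rw [e']
    exact h26_natCast_inv_mem A hq hA hqn
  have h1 := h69_hwA1 M q hqM A hA ζ hζ hex c _ hnA hnK
  have h2 := h69_hwA1 M q hqM A hA ζ hζ hex c _ hnA' (inv_ne_zero hnK)
  rw [map_natCast] at h1
  rw [map_inv₀, map_natCast] at h2
  have hnF : ((n : ℕ) : h69_F0 (M * q) (A.inertiaSubgroupIn ℚ)) ≠ 0 := by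
    have := (map_ne_zero (algebraMap (h69_K0 (A.inertiaSubgroupIn ℚ))
      (h69_F0 (M * q) (A.inertiaSubgroupIn ℚ)))).mpr hnK
    rwa [map_natCast] at this
  have hmul := h98_hw1mul M q hqM A hA ζ hζ hex c _ _ hnF (inv_ne_zero hnF)
  have hone := h98_hw1mul M q hqM A hA ζ hζ hex c 1 1 one_ne_zero one_ne_zero
  rw [mul_one] at hone
  rw [mul_inv_cancel₀ hnF] at hmul
  omega

end Mod

end Fermat.Agent.S36
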