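/-
S36 / I-VAL (helper69): the two missing `b`-rows of the table (V0) for `h98_w2` / `h98_w1`, and
the tables of `a = α^*`, `b = β^*` in the `∃ e`-form of `h14_class'` (`hta`, `htb`).

* `h69_hV0b1 : w2 1 (b g) = (q - 1) * w1 1 g`   (`C11` lies over `Z_V` along `b`, `e = q - 1`)
* `h69_hV0b2 : w2 2 (b g) = w1 1 g`             (`C02` lies over `Z_V` along `b`, `e = 1`)
* `h69_hta`, `h69_htb` : the six lines, `a : (C20, C11, C02) ↦ (Z_F, Z_F, Z_V)`,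
  `b : (C20, C11, C02) ↦ (Z_F, Z_V, Z_V)`.
-/
import Mathlib
import Fermat.Agent.S36.h98_W2
import Fermat.Agent.S36.h69_ValTable

set_option autoImplicit false
set_option synthInstance.maxHeartbeats 400000
set_option linter.style.haveILetI false
set_option linter.unusedSectionVars false

noncomputable section

open ModularCurve AlgebraicCurve

namespace Fermat.Agent.S36

open Fermat.Agent.S34 Fermat.Agent.S37 Fermat.Agent.S24 Fermat.Agent.S18

local notation "Qb" => AlgebraicClosure ℚ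

section TabB

variable (M q : ℕ) [NeZero M] [NeZero q] [Fact q.Prime] (hqM : ¬ q ∣ M)
  (A : ValuationSubring Qb) (hA : A.LiesOverPrime q) (ζ : Qb) (hζ : IsPrimitiveRoot ζ q)
  (hex : h98_Ex M q hqM A ζ hζ)

/-- `β g = i2 (w g)`. -/
theorem h69_beta_eq_i2 (g : modularFunctionFieldBar (M * q)) :
    heckeBetaBar Qb (M * q) q g = h36_i2 M q hqM (h60_w M q hqM g) := by
  rw [h98_hi2, h60_w_w]

include hA

/-- **(V0), row `b1`**: `w2 1 ∘ b = (q - 1) * wV`. -/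
theorem h69_hV0b1 : ∀ g : h69_F0 (M * q) (A.inertiaSubgroupIn ℚ), g ≠ 0 →
    h98_w2 M q hqM A ζ hζ hex 1 (h70_bF0 (M * q) q (A.inertiaSubgroupIn ℚ) g)
      = ((q : ℤ) - 1) * h98_w1 M q hqM A ζ hζ hex 1 g := by
  intro g hg
  have hq : q.Prime := Fact.out
  haveI : CharP (IsLocalRing.ResidueField A) q := h19_residueField_charP A q hA
  refine h98_v2_eq M q hqM A hA ζ hζ hex _ _ ?_
  obtain ⟨-, -, -, ε, hε, hε', hε0, hϖ⟩ := h98_zeta_unif q A hA ζ hζ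
  have h1 := h69_tab_mid_i2 M q A (h36_i2 M q hqM) ζ (hζ.ne_zero (NeZero.ne q)) hζ.pow_eq_one
    (h98_midP M q hqM ζ hζ) (h98_midP_i2 M q hqM ζ hζ) (q : Qb) (ζ - 1) ε hε hε' hε0 hϖ
    (h60_w M q hqM (g : modularFunctionFieldBar (M * q))) _
    (h98_wV_spec M q hqM A ζ hζ hex g hg)
  have e : ((q - 1 : ℕ) : ℤ) = (q : ℤ) - 1 := by
    rw [Nat.cast_sub hq.one_le, Nat.cast_one]
  rw [e, ← h69_beta_eq_i2 M q hqM, ← h70_coe_bF0] at h1
  exact h1

/-- **(V0), row `b2`**: `w2 2 ∘ b = wV`. -/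
theorem h69_hV0b2 : ∀ g : h69_F0 (M * q) (A.inertiaSubgroupIn ℚ), g ≠ 0 →
    h98_w2 M q hqM A ζ hζ hex 2 (h70_bF0 (M * q) q (A.inertiaSubgroupIn ℚ) g)
      = h98_w1 M q hqM A ζ hζ hex 1 g := by
  intro g hg
  refine h98_v3_eq M q hqM A hA ζ hζ hex _ _ ?_
  have h1 := h69_tab_conj_i2 M q A (h36_i0 M q) (h36_i2 M q hqM) (h98_hi0 M q)
    (h36_W M q hqM) (h36_W_i2 M q hqM) (q : Qb)
    (h60_w M q hqM (g : modularFunctionFieldBar (M * q))) _
    (h98_wV_spec M q hqM A ζ hζ hex g hg)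
  rw [← h69_beta_eq_i2 M q hqM, ← h70_coe_bF0] at h1
  exact h1

/-- **`hta` of `h14_class'`**: the table of `a = α^*`, `(C20, C11, C02) ↦ (Z_F, Z_F, Z_V)`. -/
theorem h69_hta : ∀ k : Fin 3, ∃ e : ℤ, 0 < e ∧
    ∀ g : h69_F0 (M * q) (A.inertiaSubgroupIn ℚ), g ≠ 0 →
      h98_w2 M q hqM A ζ hζ hex k (h70_aF0 (M * q) q (A.inertiaSubgroupIn ℚ) g)
        = e * h98_w1 M q hqM A ζ hζ hex ((![0, 0, 1] : Fin 3 → Fin 2) k) g := by
  have hq : q.Prime := Fact.out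
  have hq1 : (0 : ℤ) < (q : ℤ) - 1 := by
    have := hq.one_lt
    omega
  intro k
  fin_cases k
  · exact ⟨1, one_pos, fun g hg => by
      rw [one_mul]
      exact h98_hV0a0 M q hqM A hA ζ hζ hex g hg⟩
  · exact ⟨(q : ℤ) - 1, hq1, fun g hg => h98_hV0a1 M q hqM A hA ζ hζ hex g hg⟩
  · exact ⟨1, one_pos, fun g hg => by
      rw [one_mul]
      exact h98_hV0a2 M q hqM A hA ζ hζ hex g hg⟩

/-- **`htb` of `h14_class'`**: the table of `b = β^*`, `(C20, C11, C02) ↦ (Z_F, Z_V, Z_V)`. -/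
theorem h69_htb : ∀ k : Fin 3, ∃ e : ℤ, 0 < e ∧
    ∀ g : h69_F0 (M * q) (A.inertiaSubgroupIn ℚ), g ≠ 0 →
      h98_w2 M q hqM A ζ hζ hex k (h70_bF0 (M * q) q (A.inertiaSubgroupIn ℚ) g)
        = e * h98_w1 M q hqM A ζ hζ hex ((![0, 1, 1] : Fin 3 → Fin 2) k) g := by
  have hq : q.Prime := Fact.out
  have hq1 : (0 : ℤ) < (q : ℤ) - 1 := by
    have := hq.one_lt
    omega
  intro k
  fin_cases k
  · exact ⟨1, one_pos, fun g hg => by
      rw [one_mul]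
      exact h98_hV0b0 M q hqM A hA ζ hζ hex g hg⟩
  · exact ⟨(q : ℤ) - 1, hq1, fun g hg => h69_hV0b1 M q hqM A hA ζ hζ hex g hg⟩
  · exact ⟨1, one_pos, fun g hg => by
      rw [one_mul]
      exact h69_hV0b2 M q hqM A hA ζ hζ hex g hg⟩

end TabB

end Fermat.Agent.S36
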