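/-
S36 / I-PTS (M1) (helper69): the tables `hta`, `htb` of `h14_class'` LITERALLY, for any pair of
valuation families whose distinguished indices carry `h98_w1` / `h98_w2`.
-/
import Mathlib
import Fermat.Agent.S36.h69_TabB
import Fermat.Agent.S36.h80_LocGen

set_option autoImplicit false
set_option synthInstance.maxHeartbeats 400000
set_option linter.style.haveILetI false
set_option linter.unusedSectionVars false

noncomputable section

open ModularCurve AlgebraicCurve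

namespace Fermat.Agent.S36

open Fermat.Agent.S34 Fermat.Agent.S37 Fermat.Agent.S24 Fermat.Agent.S18

local notation "Qb" => AlgebraicClosure ℚ

section TabFam

variable (M q : ℕ) [NeZero M] [NeZero q] [Fact q.Prime] (hqM : ¬ q ∣ M)
  (A : ValuationSubring Qb) (hA : A.LiesOverPrime q) (ζ : Qb) (hζ : IsPrimitiveRoot ζ q)
  (hex : h98_Ex M q hqM A ζ hζ)

include hA

/-- **`hta` of `h14_class'`, verbatim.** -/
theorem h69_hta_fam {ι1 ι2 : Type*}
    (V1 : h80_ValFam (h69_F0 (M * q) (A.inertiaSubgroupIn ℚ)) ι1)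
    (V2 : h80_ValFam (h69_F0 (M * q * q) (A.inertiaSubgroupIn ℚ)) ι2)
    (wF wV : ι1) (P : Fin 3 → ι2)
    (hF : ∀ g, V1.v wF g = h98_w1 M q hqM A ζ hζ hex 0 g)
    (hV : ∀ g, V1.v wV g = h98_w1 M q hqM A ζ hζ hex 1 g)
    (hP : ∀ k f, V2.v (P k) f = h98_w2 M q hqM A ζ hζ hex k f) :
    ∀ k, ∃ e : ℤ, 0 < e ∧ ∀ g : h69_F0 (M * q) (A.inertiaSubgroupIn ℚ), g ≠ 0 →
      V2.v (P k) (h70_aF0 (M * q) q (A.inertiaSubgroupIn ℚ) g)
        = e * V1.v ((![wF, wF, wV] : Fin 3 → ι1) k) g := by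
  have hq : q.Prime := Fact.out
  have hq1 : (0 : ℤ) < (q : ℤ) - 1 := by
    have := hq.one_lt
    omega
  intro k
  fin_cases k
  · refine ⟨1, one_pos, fun g hg => ?_⟩
    show V2.v (P 0) _ = 1 * V1.v wF g
    rw [hP, hF, one_mul]
    exact h98_hV0a0 M q hqM A hA ζ hζ hex g hg
  · refine ⟨(q : ℤ) - 1, hq1, fun g hg => ?_⟩
    show V2.v (P 1) _ = ((q : ℤ) - 1) * V1.v wF g
    rw [hP, hF]
    exact h98_hV0a1 M q hqM A hA ζ hζ hex g hg
  · refine ⟨1, one_pos, fun g hg => ?_⟩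
    show V2.v (P 2) _ = 1 * V1.v wV g
    rw [hP, hV, one_mul]
    exact h98_hV0a2 M q hqM A hA ζ hζ hex g hg

/-- **`htb` of `h14_class'`, verbatim.** -/
theorem h69_htb_fam {ι1 ι2 : Type*}
    (V1 : h80_ValFam (h69_F0 (M * q) (A.inertiaSubgroupIn ℚ)) ι1)
    (V2 : h80_ValFam (h69_F0 (M * q * q) (A.inertiaSubgroupIn ℚ)) ι2)
    (wF wV : ι1) (P : Fin 3 → ι2)
    (hF : ∀ g, V1.v wF g = h98_w1 M q hqM A ζ hζ hex 0 g)
    (hV : ∀ g, V1.v wV g = h98_w1 M q hqM A ζ hζ hex 1 g)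
    (hP : ∀ k f, V2.v (P k) f = h98_w2 M q hqM A ζ hζ hex k f) :
    ∀ k, ∃ e : ℤ, 0 < e ∧ ∀ g : h69_F0 (M * q) (A.inertiaSubgroupIn ℚ), g ≠ 0 →
      V2.v (P k) (h70_bF0 (M * q) q (A.inertiaSubgroupIn ℚ) g)
        = e * V1.v ((![wF, wV, wV] : Fin 3 → ι1) k) g := by
  have hq : q.Prime := Fact.out
  have hq1 : (0 : ℤ) < (q : ℤ) - 1 := by
    have := hq.one_lt
    omega
  intro k
  fin_cases k
  · refine ⟨1, one_pos, fun g hg => ?_⟩
    show V2.v (P 0) _ = 1 * V1.v wF g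
    rw [hP, hF, one_mul]
    exact h98_hV0b0 M q hqM A hA ζ hζ hex g hg
  · refine ⟨(q : ℤ) - 1, hq1, fun g hg => ?_⟩
    show V2.v (P 1) _ = ((q : ℤ) - 1) * V1.v wV g
    rw [hP, hV]
    exact h69_hV0b1 M q hqM A hA ζ hζ hex g hg
  · refine ⟨1, one_pos, fun g hg => ?_⟩
    show V2.v (P 2) _ = 1 * V1.v wV g
    rw [hP, hV, one_mul]
    exact h69_hV0b2 M q hqM A hA ζ hζ hex g hg

end TabFam

end Fermat.Agent.S36
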