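import Mathlib
import Fermat.Agent.S36.h65_HorTable
import Fermat.Agent.S36.h96_NZMem
import Fermat.Agent.S35.h67_NormTransfer
import Fermat.Agent.S36.h98_W2
import Fermat.Agent.S36.h69_TabB

/-!
# S36 / I-NZ (INT'): norms of chart-regular functions are chart-regular  (helper74)

`(INT')` of the I-NZ row: for `t` in the chart-1 ring `B` of level `M q²`, the elements
`a (N_a t)` and `b (N_b t)` lie in `B` again (`a = α^*`, `b = β^*`, `N_a`, `N_b` the two norms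
to level `M q`).

* `h74_int_norm_gen` : (places) the norm of a function regular on a saturated set of places is
  regular on the set below; `h74_int_norm_a`, `h74_int_norm_b` : the instances for chart 1
  (`j` finite) along `α` (any level) and `β` (level `M q q`); `h74_int_Ma`, `h74_int_Mb` : the
  same for `α (N_α t)`, `β (N_β t)`.
* `h74_int_B_gen`, `h74_int_B_a`, `h74_int_B_b` : chart-ring form, generic in the vertical
  valuations: `N (V₂.B) ⊆ V₁.B`, given the vertical half `hvN`.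
* `h74_int_BB_a`, `h74_int_BB_b` : `a (N_a (V₂.B)) ⊆ V₂.B`, `b (N_b (V₂.B)) ⊆ V₂.B`, given `hvN`
  and the vertical table `hvt` of `h65_hc_mem_a` / `h65_hc_mem_b`.
* `h74_int_Na`, `h74_int_Nb`, `h74_int_Malpha`, `h74_int_Mbeta` : the concrete statements for the
  valuations `h98_w2`, `h98_w1` of helper98.
-/

set_option autoImplicit false
set_option linter.unusedSectionVars false
set_option linter.style.haveILetI false

noncomputable section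

open AlgebraicCurve ModularCurve

namespace Fermat.Agent.S36

open Fermat.Agent.GAL Fermat.Agent.S18 Fermat.Agent.S24 Fermat.Agent.S27 Fermat.Agent.S34
  Fermat.Agent.S35 Fermat.Agent.S37 Fermat.Agent.S19

local notation "Qb" => AlgebraicClosure ℚ

/-! ### Places -/

section Places

variable {K F F' : Type*} [Field K] [Field F] [Field F'] [Algebra K F] [Algebra K F']

/-- The norm of a function which is regular on a set `S'` of places is regular on every set `S`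
of places all of whose fibres lie in `S'`. -/
theorem h74_int_norm_gen [HasPrincipalDivisors K F'] (ψ : F →ₐ[K] F')
    (hψ : ψ.toRingHom.IsIntegral) (hfin : FiniteAlong K ψ) (hNF : NormFormulaAlong K ψ hfin)
    (S' : Set (Place K F')) (S : Set (Place K F))
    (hsat : ∀ P : Place K F', P.restrictAlong ψ hψ ∈ S → P ∈ S')
    (t : F') (ht : t ≠ 0) (hreg : ∀ P ∈ S', 0 ≤ P.ord t) :
    ∀ P' ∈ S, 0 ≤ P'.ord (h67_normAlong ψ t) := by
  intro P' hP'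
  rw [h96_ord_normAlong ψ hψ hfin hNF ht P']
  refine Finset.sum_nonneg fun w hw => ?_
  have hw' : w.restrictAlong ψ hψ = P' := Place.mem_fiberAlong.mp hw
  exact mul_nonneg (hreg w (hsat w (by rw [hw']; exact hP'))) (Nat.cast_nonneg _)

end Places

/-! ### Chart 1 along `α` and `β` -/

section ChartA

variable (N q : ℕ) [NeZero N] [NeZero q] [Fact q.Prime]

/-- **(INT'), horizontal half along `α`**: the norm of a function regular where `j` is finite is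
regular where `j` is finite. -/
theorem h74_int_norm_a (t : modularFunctionFieldBar (N * q)) (ht : t ≠ 0)
    (hreg : ∀ P : Place Qb (modularFunctionFieldBar (N * q)),
      0 ≤ P.ord (h59_jbar (N * q)) → 0 ≤ P.ord t) :
    ∀ P' : Place Qb (modularFunctionFieldBar N), 0 ≤ P'.ord (h59_jbar N) →
      0 ≤ P'.ord (h67_normAlong (heckeAlphaBar Qb N q) t) := by
  haveI : HasPrincipalDivisors Qb (modularFunctionFieldBar (N * q)) :=
    h75_hasPrincipalDivisors (h54_isChart_jbar (N * q))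
  exact h74_int_norm_gen (heckeAlphaBar Qb N q) (h88_alphaIntegral N q)
    (h88_finiteAlong_alpha N q) (h67_NF_alpha N q)
    {P | 0 ≤ P.ord (h59_jbar (N * q))} {P' | 0 ≤ P'.ord (h59_jbar N)}
    (fun P hP => (h65_chart_alpha N q P).mpr hP) t ht hreg

/-- `α (N_α t)` is regular where `j` is finite, if `t` is. -/
theorem h74_int_Ma (t : modularFunctionFieldBar (N * q)) (ht : t ≠ 0)
    (hreg : ∀ P : Place Qb (modularFunctionFieldBar (N * q)),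
      0 ≤ P.ord (h59_jbar (N * q)) → 0 ≤ P.ord t) :
    ∀ P : Place Qb (modularFunctionFieldBar (N * q)), 0 ≤ P.ord (h59_jbar (N * q)) →
      0 ≤ P.ord (heckeAlphaBar Qb N q (h67_normAlong (heckeAlphaBar Qb N q) t)) := by
  intro P hP
  rw [h65_ord_along_nonneg_iff _ (h88_alphaIntegral N q) P]
  exact h74_int_norm_a N q t ht hreg _ ((h65_chart_alpha N q P).mp hP)

end ChartA

section ChartB

variable (M q : ℕ) [NeZero M] [NeZero q] [Fact q.Prime] (hqM : ¬ q ∣ M)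

include hqM in
/-- **(INT'), horizontal half along `β`** (level `M q q`, `q ∤ M`). -/
theorem h74_int_norm_b (t : modularFunctionFieldBar (M * q * q)) (ht : t ≠ 0)
    (hreg : ∀ P : Place Qb (modularFunctionFieldBar (M * q * q)),
      0 ≤ P.ord (h59_jbar (M * q * q)) → 0 ≤ P.ord t) :
    ∀ P' : Place Qb (modularFunctionFieldBar (M * q)), 0 ≤ P'.ord (h59_jbar (M * q)) →
      0 ≤ P'.ord (h67_normAlong (heckeBetaBar Qb (M * q) q) t) := by
  haveI : HasPrincipalDivisors Qb (modularFunctionFieldBar (M * q * q)) :=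
    h75_hasPrincipalDivisors (h54_isChart_jbar (M * q * q))
  exact h74_int_norm_gen (heckeBetaBar Qb (M * q) q) (h88_betaIntegral (M * q) q)
    (h88_finiteAlong_beta (M * q) q) (h67_NF_beta (M * q) q)
    {P | 0 ≤ P.ord (h59_jbar (M * q * q))} {P' | 0 ≤ P'.ord (h59_jbar (M * q))}
    (fun P hP => (h65_chart_beta M q hqM P).mpr hP) t ht hreg

include hqM in
/-- `β (N_β t)` is regular where `j` is finite, if `t` is (level `M q q`). -/
theorem h74_int_Mb (t : modularFunctionFieldBar (M * q * q)) (ht : t ≠ 0)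
    (hreg : ∀ P : Place Qb (modularFunctionFieldBar (M * q * q)),
      0 ≤ P.ord (h59_jbar (M * q * q)) → 0 ≤ P.ord t) :
    ∀ P : Place Qb (modularFunctionFieldBar (M * q * q)), 0 ≤ P.ord (h59_jbar (M * q * q)) →
      0 ≤ P.ord (heckeBetaBar Qb (M * q) q (h67_normAlong (heckeBetaBar Qb (M * q) q) t)) := by
  intro P hP
  rw [h65_ord_along_nonneg_iff _ (h88_betaIntegral (M * q) q) P]
  exact h74_int_norm_b M q hqM t ht hreg _ ((h65_chart_beta M q hqM P).mp hP)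

end ChartB

/-! ### Chart rings -/

section Ring

variable (N q : ℕ) [NeZero N] [NeZero q] (H : Subgroup (Qb ≃ₐ[ℚ] Qb))
variable {κ₁ κ₂ : Type*} [Finite κ₁] [Finite κ₂]
  (w₁ : κ₁ → h69_F0 N H → ℤ)
  (hw₁m : ∀ c (f g : h69_F0 N H), f ≠ 0 → g ≠ 0 → w₁ c (f * g) = w₁ c f + w₁ c g)
  (hw₁a : ∀ c (f g : h69_F0 N H), f ≠ 0 → g ≠ 0 → f + g ≠ 0 →
    min (w₁ c f) (w₁ c g) ≤ w₁ c (f + g))
  (w₂ : κ₂ → h69_F0 (N * q) H → ℤ)
  (hw₂m : ∀ c (f g : h69_F0 (N * q) H), f ≠ 0 → g ≠ 0 → w₂ c (f * g) = w₂ c f + w₂ c g)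
  (hw₂a : ∀ c (f g : h69_F0 (N * q) H), f ≠ 0 → g ≠ 0 → f + g ≠ 0 →
    min (w₂ c f) (w₂ c g) ≤ w₂ c (f + g))

local notation "V₁" => h80_fam1 N H w₁ hw₁m hw₁a
local notation "V₂" => h80_fam1 (N * q) H w₂ hw₂m hw₂a

/-- **Chart-ring form**, generic in the norm: a norm-like map `Nφ` on the `H`-fixed functions
which is regular on chart 1 horizontally (`hhor`) and vertically (`hvN`) maps the chart ring of
level `N q` into the chart ring of level `N`. -/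
theorem h74_int_B_gen (Nφ : h69_F0 (N * q) H → h69_F0 N H) (hN0 : Nφ 0 = 0)
    (hhor : ∀ t : h69_F0 (N * q) H, t ≠ 0 →
      (∀ P : Place Qb (modularFunctionFieldBar (N * q)), 0 ≤ P.ord (h59_jbar (N * q)) →
        0 ≤ P.ord (t : modularFunctionFieldBar (N * q))) →
      ∀ P' : Place Qb (modularFunctionFieldBar N), 0 ≤ P'.ord (h59_jbar N) →
        0 ≤ P'.ord ((Nφ t : h69_F0 N H) : modularFunctionFieldBar N))
    (hvN : ∀ (c₁ : κ₁) (u : h69_F0 (N * q) H), u ≠ 0 → (∀ c, 0 ≤ w₂ c u) → 0 ≤ w₁ c₁ (Nφ u))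
    (t : h69_F0 (N * q) H) (ht : t ∈ (V₂).B) : Nφ t ∈ (V₁).B := by
  unfold h80_fam1 at ht ⊢
  rw [h80_mem_famOf_B] at ht ⊢
  by_cases ht0 : t = 0
  · left
    rw [ht0, hN0]
  rcases ht with h0 | ⟨hv, hh⟩
  · exact absurd h0 ht0
  right
  exact ⟨fun c₁ => hvN c₁ t ht0 hv, hhor t ht0 hh⟩

variable [Fact q.Prime]

/-- **`N_a (V₂.B) ⊆ V₁.B`**, given the vertical half. -/
theorem h74_int_B_a
    (hvN : ∀ (c₁ : κ₁) (u : h69_F0 (N * q) H), u ≠ 0 → (∀ c, 0 ≤ w₂ c u) →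
      0 ≤ w₁ c₁ (h70_NaF0 N q H u))
    (t : h69_F0 (N * q) H) (ht : t ∈ (V₂).B) : h70_NaF0 N q H t ∈ (V₁).B :=
  h74_int_B_gen N q H w₁ hw₁m hw₁a w₂ hw₂m hw₂a (h70_NaF0 N q H) (map_zero _)
    (fun t ht0 hreg => h74_int_norm_a N q (t : modularFunctionFieldBar (N * q))
      (fun h => ht0 (Subtype.ext h)) hreg) hvN t ht

include hw₁m hw₁a in
/-- **`a (N_a (V₂.B)) ⊆ V₂.B`**, given the vertical half of the norm and the vertical table of
`a`. -/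
theorem h74_int_BB_a
    (hvN : ∀ (c₁ : κ₁) (u : h69_F0 (N * q) H), u ≠ 0 → (∀ c, 0 ≤ w₂ c u) →
      0 ≤ w₁ c₁ (h70_NaF0 N q H u))
    (hvt : ∀ c : κ₂, ∃ (c₁ : κ₁) (e : ℤ), 0 ≤ e ∧
      ∀ g : h69_F0 N H, g ≠ 0 → w₂ c (h70_aF0 N q H g) = e * w₁ c₁ g)
    (t : h69_F0 (N * q) H) (ht : t ∈ (V₂).B) :
    h70_aF0 N q H (h70_NaF0 N q H t) ∈ (V₂).B :=
  h65_hc_mem_a N q H w₁ hw₁m hw₁a w₂ hw₂m hw₂a hvt _
    (h74_int_B_a N q H w₁ hw₁m hw₁a w₂ hw₂m hw₂a hvN t ht)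

end Ring

section RingB

variable (M q : ℕ) [NeZero M] [NeZero q] [Fact q.Prime] (hqM : ¬ q ∣ M)
  (H : Subgroup (Qb ≃ₐ[ℚ] Qb))
variable {κ₁ κ₂ : Type*} [Finite κ₁] [Finite κ₂]
  (w₁ : κ₁ → h69_F0 (M * q) H → ℤ)
  (hw₁m : ∀ c (f g : h69_F0 (M * q) H), f ≠ 0 → g ≠ 0 → w₁ c (f * g) = w₁ c f + w₁ c g)
  (hw₁a : ∀ c (f g : h69_F0 (M * q) H), f ≠ 0 → g ≠ 0 → f + g ≠ 0 →
    min (w₁ c f) (w₁ c g) ≤ w₁ c (f + g))
  (w₂ : κ₂ → h69_F0 (M * q * q) H → ℤ)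
  (hw₂m : ∀ c (f g : h69_F0 (M * q * q) H), f ≠ 0 → g ≠ 0 → w₂ c (f * g) = w₂ c f + w₂ c g)
  (hw₂a : ∀ c (f g : h69_F0 (M * q * q) H), f ≠ 0 → g ≠ 0 → f + g ≠ 0 →
    min (w₂ c f) (w₂ c g) ≤ w₂ c (f + g))

local notation "V₁" => h80_fam1 (M * q) H w₁ hw₁m hw₁a
local notation "V₂" => h80_fam1 (M * q * q) H w₂ hw₂m hw₂a

include hqM in
/-- **`N_b (V₂.B) ⊆ V₁.B`** (level `M q q`), given the vertical half. -/
theorem h74_int_B_b
    (hvN : ∀ (c₁ : κ₁) (u : h69_F0 (M * q * q) H), u ≠ 0 → (∀ c, 0 ≤ w₂ c u) →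
      0 ≤ w₁ c₁ (h70_NbF0 (M * q) q H u))
    (t : h69_F0 (M * q * q) H) (ht : t ∈ (V₂).B) : h70_NbF0 (M * q) q H t ∈ (V₁).B :=
  h74_int_B_gen (M * q) q H w₁ hw₁m hw₁a w₂ hw₂m hw₂a (h70_NbF0 (M * q) q H) (map_zero _)
    (fun t ht0 hreg => h74_int_norm_b M q hqM (t : modularFunctionFieldBar (M * q * q))
      (fun h => ht0 (Subtype.ext h)) hreg) hvN t ht

include hqM hw₁m hw₁a in
/-- **`b (N_b (V₂.B)) ⊆ V₂.B`** (level `M q q`), given the vertical half of the norm and the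
vertical table of `b`. -/
theorem h74_int_BB_b
    (hvN : ∀ (c₁ : κ₁) (u : h69_F0 (M * q * q) H), u ≠ 0 → (∀ c, 0 ≤ w₂ c u) →
      0 ≤ w₁ c₁ (h70_NbF0 (M * q) q H u))
    (hvt : ∀ c : κ₂, ∃ (c₁ : κ₁) (e : ℤ), 0 ≤ e ∧
      ∀ g : h69_F0 (M * q) H, g ≠ 0 → w₂ c (h70_bF0 (M * q) q H g) = e * w₁ c₁ g)
    (t : h69_F0 (M * q * q) H) (ht : t ∈ (V₂).B) :
    h70_bF0 (M * q) q H (h70_NbF0 (M * q) q H t) ∈ (V₂).B :=
  h65_hc_mem_b M q hqM H w₁ hw₁m hw₁a w₂ hw₂m hw₂a hvt _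
    (h74_int_B_b M q hqM H w₁ hw₁m hw₁a w₂ hw₂m hw₂a hvN t ht)

end RingB

/-! ### The concrete valuations `h98_w2`, `h98_w1` -/

section Concrete

variable (M q : ℕ) [NeZero M] [NeZero q] [Fact q.Prime] (hqM : ¬ q ∣ M)
  (A : ValuationSubring Qb) (hA : A.LiesOverPrime q) (ζ : Qb) (hζ : IsPrimitiveRoot ζ q)
  (hex : h98_Ex M q hqM A ζ hζ)

include hA

/-- Vertical half of the norm along `α`. -/
theorem h74_int_vN_a : ∀ (c₁ : Fin 2) (u : h69_F0 (M * q * q) (A.inertiaSubgroupIn ℚ)), u ≠ 0 →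
    (∀ c, 0 ≤ h98_w2 M q hqM A ζ hζ hex c u) →
    0 ≤ h98_w1 M q hqM A ζ hζ hex c₁ (h70_NaF0 (M * q) q (A.inertiaSubgroupIn ℚ) u) := by
  intro c₁ u hu hv
  fin_cases c₁
  · show 0 ≤ h98_w1 M q hqM A ζ hζ hex 0 _
    rw [h98_hN1aF M q hqM A hA ζ hζ hex u hu]
    exact add_nonneg (hv 0) (hv 1)
  · show 0 ≤ h98_w1 M q hqM A ζ hζ hex 1 _
    rw [h98_hN1aV M q hqM A hA ζ hζ hex u hu]
    exact mul_nonneg (Nat.cast_nonneg _) (hv 2)

/-- Vertical half of the norm along `β`. -/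
theorem h74_int_vN_b : ∀ (c₁ : Fin 2) (u : h69_F0 (M * q * q) (A.inertiaSubgroupIn ℚ)), u ≠ 0 →
    (∀ c, 0 ≤ h98_w2 M q hqM A ζ hζ hex c u) →
    0 ≤ h98_w1 M q hqM A ζ hζ hex c₁ (h70_NbF0 (M * q) q (A.inertiaSubgroupIn ℚ) u) := by
  intro c₁ u hu hv
  fin_cases c₁
  · show 0 ≤ h98_w1 M q hqM A ζ hζ hex 0 _
    rw [h98_hN1bF M q hqM A hA ζ hζ hex u hu]
    exact mul_nonneg (Nat.cast_nonneg _) (hv 0)
  · show 0 ≤ h98_w1 M q hqM A ζ hζ hex 1 _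
    rw [h98_hN1bV M q hqM A hA ζ hζ hex u hu]
    exact add_nonneg (hv 1) (hv 2)

/-- The vertical table of `a` in the shape of `h65_hc_mem_a`. -/
theorem h74_int_vt_a : ∀ c : Fin 3, ∃ (c₁ : Fin 2) (e : ℤ), 0 ≤ e ∧
    ∀ g : h69_F0 (M * q) (A.inertiaSubgroupIn ℚ), g ≠ 0 →
      h98_w2 M q hqM A ζ hζ hex c (h70_aF0 (M * q) q (A.inertiaSubgroupIn ℚ) g)
        = e * h98_w1 M q hqM A ζ hζ hex c₁ g := by
  intro c
  obtain ⟨e, he, h⟩ := h69_hta M q hqM A hA ζ hζ hex c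
  exact ⟨_, e, he.le, h⟩

/-- The vertical table of `b` in the shape of `h65_hc_mem_b`. -/
theorem h74_int_vt_b : ∀ c : Fin 3, ∃ (c₁ : Fin 2) (e : ℤ), 0 ≤ e ∧
    ∀ g : h69_F0 (M * q) (A.inertiaSubgroupIn ℚ), g ≠ 0 →
      h98_w2 M q hqM A ζ hζ hex c (h70_bF0 (M * q) q (A.inertiaSubgroupIn ℚ) g)
        = e * h98_w1 M q hqM A ζ hζ hex c₁ g := by
  intro c
  obtain ⟨e, he, h⟩ := h69_htb M q hqM A hA ζ hζ hex c
  exact ⟨_, e, he.le, h⟩

local notation "V1c" => h80_fam1 (M * q) (A.inertiaSubgroupIn ℚ) (h98_w1 M q hqM A ζ hζ hex)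
  (h98_hw1mul M q hqM A hA ζ hζ hex) (h98_hw1add M q hqM A hA ζ hζ hex)
local notation "V2c" => h80_fam1 (M * q * q) (A.inertiaSubgroupIn ℚ) (h98_w2 M q hqM A ζ hζ hex)
  (h98_hw2mul M q hqM A hA ζ hζ hex) (h98_hw2add M q hqM A hA ζ hζ hex)

/-- `N_a` maps the chart-1 ring of level `M q²` into the chart-1 ring of level `M q`. -/
theorem h74_int_Na (t : h69_F0 (M * q * q) (A.inertiaSubgroupIn ℚ)) (ht : t ∈ (V2c).B) :
    h70_NaF0 (M * q) q (A.inertiaSubgroupIn ℚ) t ∈ (V1c).B :=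
  h74_int_B_a (M * q) q (A.inertiaSubgroupIn ℚ) (h98_w1 M q hqM A ζ hζ hex)
    (h98_hw1mul M q hqM A hA ζ hζ hex) (h98_hw1add M q hqM A hA ζ hζ hex)
    (h98_w2 M q hqM A ζ hζ hex) (h98_hw2mul M q hqM A hA ζ hζ hex)
    (h98_hw2add M q hqM A hA ζ hζ hex)
    (h74_int_vN_a M q hqM A hA ζ hζ hex) t ht

/-- `N_b` maps the chart-1 ring of level `M q²` into the chart-1 ring of level `M q`. -/
theorem h74_int_Nb (t : h69_F0 (M * q * q) (A.inertiaSubgroupIn ℚ)) (ht : t ∈ (V2c).B) :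
    h70_NbF0 (M * q) q (A.inertiaSubgroupIn ℚ) t ∈ (V1c).B :=
  h74_int_B_b M q hqM (A.inertiaSubgroupIn ℚ) (h98_w1 M q hqM A ζ hζ hex)
    (h98_hw1mul M q hqM A hA ζ hζ hex) (h98_hw1add M q hqM A hA ζ hζ hex)
    (h98_w2 M q hqM A ζ hζ hex) (h98_hw2mul M q hqM A hA ζ hζ hex)
    (h98_hw2add M q hqM A hA ζ hζ hex)
    (h74_int_vN_b M q hqM A hA ζ hζ hex) t ht

/-- **(INT') along `α`**: `a (N_a t) ∈ B` for `t ∈ B` (chart 1, level `M q²`). -/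
theorem h74_int_Malpha (t : h69_F0 (M * q * q) (A.inertiaSubgroupIn ℚ)) (ht : t ∈ (V2c).B) :
    h70_aF0 (M * q) q (A.inertiaSubgroupIn ℚ) (h70_NaF0 (M * q) q (A.inertiaSubgroupIn ℚ) t)
      ∈ (V2c).B :=
  h74_int_BB_a (M * q) q (A.inertiaSubgroupIn ℚ) (h98_w1 M q hqM A ζ hζ hex)
    (h98_hw1mul M q hqM A hA ζ hζ hex) (h98_hw1add M q hqM A hA ζ hζ hex)
    (h98_w2 M q hqM A ζ hζ hex) (h98_hw2mul M q hqM A hA ζ hζ hex)
    (h98_hw2add M q hqM A hA ζ hζ hex)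
    (h74_int_vN_a M q hqM A hA ζ hζ hex) (h74_int_vt_a M q hqM A hA ζ hζ hex) t ht

/-- **(INT') along `β`**: `b (N_b t) ∈ B` for `t ∈ B` (chart 1, level `M q²`). -/
theorem h74_int_Mbeta (t : h69_F0 (M * q * q) (A.inertiaSubgroupIn ℚ)) (ht : t ∈ (V2c).B) :
    h70_bF0 (M * q) q (A.inertiaSubgroupIn ℚ) (h70_NbF0 (M * q) q (A.inertiaSubgroupIn ℚ) t)
      ∈ (V2c).B :=
  h74_int_BB_b M q hqM (A.inertiaSubgroupIn ℚ) (h98_w1 M q hqM A ζ hζ hex)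
    (h98_hw1mul M q hqM A hA ζ hζ hex) (h98_hw1add M q hqM A hA ζ hζ hex)
    (h98_w2 M q hqM A ζ hζ hex) (h98_hw2mul M q hqM A hA ζ hζ hex)
    (h98_hw2add M q hqM A hA ζ hζ hex)
    (h74_int_vN_b M q hqM A hA ζ hζ hex) (h74_int_vt_b M q hqM A hA ζ hζ hex) t ht

end Concrete

end Fermat.Agent.S36
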