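import Mathlib

/-!
# S36 / (HC4): integrality from norms (helper80)

Mathlib-only.

* `h80_lifts_of_eval` : `g : R →+* F` a ring hom into a field; a polynomial over `F` of degree
  `< #s` whose values at the nodes `t i` (`i ∈ s`, nodes in `g R` with pairwise differences
  invertible in `g R`) lie in `g R` has all its coefficients in `g R` (Lagrange interpolation).
* `h80_integralElem_of_norm` : `F₂ / F₁` finite, `g : R →+* F₁`, `f ∈ F₂` such that
  `N(t i - f) ∈ g R` for more than `[F₂ : F₁]` nodes `t i ∈ g R` with differences invertible in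
  `g R`.  Then the characteristic polynomial of `f` has coefficients in `g R`; in particular `f`
  is integral over `R`.
* `h80_integralElem_of_norm_sub` : the descended form used for the modular chart rings:
  subfields `F₁ ⊆ F`, `F₂ ⊆ F'` (embeddings `emb₁`, `emb₂`), `ψ : F →+* F'` finite, restricting
  to `φ₀ : F₁ →+* F₂`, norm `Nm : F₂ → F₁` the restriction of the norm of `F' / F`; `B₁ ⊆ F₁` a
  subring with `Nm (φ₀ t - f) ∈ B₁` for enough nodes `t ∈ B₁`.  Then `f` is integral over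
  `φ₀ (B₁)`.
* `h80_integralElem_of_comp` : integrality over `φ ∘ ev` gives integrality over `φ` restricted
  to any subring containing the image of `ev`.
-/

set_option autoImplicit false
set_option linter.style.haveILetI false

namespace Fermat.Agent.S36

open Polynomial

/-- Lagrange interpolation over the image of a ring hom: values in `g R` at enough nodes of
`g R` with invertible differences force coefficients in `g R`. -/
theorem h80_lifts_of_eval {R F : Type*} [CommRing R] [Field F] (g : R →+* F) {ι : Type*}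
    [DecidableEq ι] (s : Finset ι) (t : ι → F) (ht : ∀ i ∈ s, ∃ r, g r = t i)
    (hunit : ∀ i ∈ s, ∀ j ∈ s, i ≠ j → ∃ u : R, (t i - t j) * g u = 1)
    (p : F[X]) (hdeg : p.degree < s.card) (hp : ∀ i ∈ s, ∃ r, g r = p.eval (t i)) :
    p ∈ Polynomial.lifts g := by
  have hinj : Set.InjOn t s := by
    intro i hi j hj hij
    by_contra hne
    obtain ⟨u, hu⟩ := hunit i hi j hj hne
    rw [hij, sub_self, zero_mul] at hu
    exact zero_ne_one hu
  rw [Lagrange.eq_interpolate hinj hdeg, Lagrange.interpolate_apply]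
  refine Subsemiring.sum_mem _ fun i hi => Subsemiring.mul_mem _ ?_ ?_
  · obtain ⟨r, hr⟩ := hp i hi
    rw [← hr]
    exact C_mem_lifts g r
  · rw [Lagrange.basis]
    refine Subsemiring.prod_mem _ fun j hj => ?_
    obtain ⟨hji, hjs⟩ := Finset.mem_erase.1 hj
    obtain ⟨u, hu1⟩ := hunit i hi j hjs (Ne.symm hji)
    have hinv : (t i - t j)⁻¹ = g u := inv_eq_of_mul_eq_one_right hu1
    rw [Lagrange.basisDivisor, hinv]
    refine Subsemiring.mul_mem _ (C_mem_lifts g u) ?_
    obtain ⟨r, hr⟩ := ht j hjs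
    have hX : (X - C (t j) : F[X]) = X + C (g (-r)) := by
      rw [map_neg, hr, map_neg, sub_eq_add_neg]
    rw [hX]
    exact Subsemiring.add_mem _ (X_mem_lifts _) (C_mem_lifts _ _)

/-- **Integrality from norms**: if `N(t - f) ∈ g R` for more than `[F₂ : F₁]` nodes `t ∈ g R`
with pairwise differences invertible in `g R`, then `f` is integral over `R`. -/
theorem h80_integralElem_of_norm {R F₁ F₂ : Type*} [CommRing R] [Field F₁] [Field F₂]
    [Algebra F₁ F₂] [FiniteDimensional F₁ F₂] (g : R →+* F₁) (f : F₂) {ι : Type*}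
    [DecidableEq ι] (s : Finset ι) (hs : Module.finrank F₁ F₂ < s.card) (t : ι → F₁)
    (ht : ∀ i ∈ s, ∃ r, g r = t i)
    (hunit : ∀ i ∈ s, ∀ j ∈ s, i ≠ j → ∃ u : R, (t i - t j) * g u = 1)
    (hN : ∀ i ∈ s, ∃ r, g r = Algebra.norm F₁ (algebraMap F₁ F₂ (t i) - f)) :
    ((algebraMap F₁ F₂).comp g).IsIntegralElem f := by
  set φ : F₂ →ₗ[F₁] F₂ := Algebra.lmul F₁ F₂ f with hφ
  have hmon : φ.charpoly.Monic := LinearMap.charpoly_monic φ
  have hdeg : φ.charpoly.degree < s.card := by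
    rw [degree_eq_natDegree hmon.ne_zero, LinearMap.charpoly_natDegree]
    exact_mod_cast hs
  have hev : ∀ i ∈ s, ∃ r, g r = φ.charpoly.eval (t i) := by
    intro i hi
    rw [LinearMap.eval_charpoly]
    have h1 : (algebraMap F₁ (Module.End F₁ F₂) (t i) - φ) =
        Algebra.lmul F₁ F₂ (algebraMap F₁ F₂ (t i) - f) := by
      rw [map_sub, hφ]
      congr 1
      ext x
      simp [Algebra.smul_def]
    rw [h1, ← Algebra.norm_apply]
    exact hN i hi
  have hl := h80_lifts_of_eval g s t ht hunit φ.charpoly hdeg hev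
  obtain ⟨P, hPmap, -, hPmon⟩ := lifts_and_degree_eq_and_monic hl hmon
  refine ⟨P, hPmon, ?_⟩
  rw [← eval₂_map, hPmap]
  have h0 : aeval φ φ.charpoly = 0 := LinearMap.aeval_self_charpoly φ
  have h1 : aeval φ φ.charpoly = Algebra.lmul F₁ F₂ (aeval f φ.charpoly) :=
    aeval_algHom_apply (Algebra.lmul F₁ F₂) f φ.charpoly
  have h2 : Algebra.lmul F₁ F₂ (aeval f φ.charpoly) 1 = 0 := by
    rw [← h1, h0]
    rfl
  have h3 : Algebra.lmul F₁ F₂ (aeval f φ.charpoly) 1 = aeval f φ.charpoly := by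
    simp
  rw [h3] at h2
  exact h2

/-- **Integrality from norms, descended to subfields**.  `ψ : F →+* F'` a finite extension of
fields; `emb₁ : F₁ →+* F`, `emb₂ : F₂ →+* F'` subfields with `ψ` restricting to
`φ₀ : F₁ →+* F₂` and the norm of `F' / F` restricting to `Nm : F₂ → F₁`.  If `B₁ ⊆ F₁` is a
subring and `Nm (φ₀ t - f) ∈ B₁` for more than `[F' : F]` nodes `t ∈ B₁` with pairwise
differences invertible in `B₁`, then `f ∈ F₂` is integral over `φ₀ (B₁)`. -/
theorem h80_integralElem_of_norm_sub {F F' F₁ F₂ : Type*} [Field F] [Field F'] [Field F₁]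
    [Field F₂] (ψ : F →+* F') (hfin : @FiniteDimensional F F' _ _ ψ.toAlgebra.toModule)
    (emb₁ : F₁ →+* F) (emb₂ : F₂ →+* F') (φ₀ : F₁ →+* F₂)
    (hcomm : ∀ g, emb₂ (φ₀ g) = ψ (emb₁ g))
    (Nm : F₂ → F₁) (hNm : ∀ u, emb₁ (Nm u) = @Algebra.norm F F' _ _ ψ.toAlgebra (emb₂ u))
    (B₁ : Subring F₁) (f : F₂) {ι : Type*} [DecidableEq ι] (s : Finset ι)
    (hs : @Module.finrank F F' _ _ ψ.toAlgebra.toModule < s.card) (t : ι → F₁)
    (ht : ∀ i ∈ s, t i ∈ B₁)
    (hunit : ∀ i ∈ s, ∀ j ∈ s, i ≠ j → ∃ u ∈ B₁, (t i - t j) * u = 1)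
    (hN : ∀ i ∈ s, Nm (φ₀ (t i) - f) ∈ B₁) :
    (φ₀.comp B₁.subtype).IsIntegralElem f := by
  letI : Algebra F F' := ψ.toAlgebra
  haveI : FiniteDimensional F F' := hfin
  obtain ⟨P, hP, hroot⟩ := h80_integralElem_of_norm (emb₁.comp B₁.subtype) (emb₂ f) s hs
    (fun i => emb₁ (t i)) (fun i hi => ⟨⟨t i, ht i hi⟩, rfl⟩)
    (fun i hi j hj hij => by
      obtain ⟨u, hu, hu1⟩ := hunit i hi j hj hij
      refine ⟨⟨u, hu⟩, ?_⟩
      show (emb₁ (t i) - emb₁ (t j)) * emb₁ u = 1
      rw [← map_sub, ← map_mul, hu1, map_one])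
    (fun i hi => by
      refine ⟨⟨_, hN i hi⟩, ?_⟩
      show emb₁ (Nm (φ₀ (t i) - f)) = _
      rw [hNm, map_sub, hcomm]
      rfl)
  refine ⟨P, hP, emb₂.injective ?_⟩
  rw [map_zero, ← hroot, Polynomial.hom_eval₂]
  congr 1
  ext b
  show emb₂ (φ₀ (b : F₁)) = ψ (emb₁ (b : F₁))
  exact hcomm _

/-- Integrality over `φ ∘ ev` gives integrality over `φ` restricted to any subring containing
the image of `ev`. -/
theorem h80_integralElem_of_comp {R F₁ F₂ : Type*} [CommRing R] [CommRing F₁] [CommRing F₂]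
    (φ : F₁ →+* F₂) (ev : R →+* F₁) (B₁ : Subring F₁) (hev : ∀ r, ev r ∈ B₁) {f : F₂}
    (hf : (φ.comp ev).IsIntegralElem f) : (φ.comp B₁.subtype).IsIntegralElem f := by
  obtain ⟨P, hP, hroot⟩ := hf
  refine ⟨P.map (ev.codRestrict B₁ hev), hP.map _, ?_⟩
  rw [eval₂_map]
  exact hroot

end Fermat.Agent.S36
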