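import Mathlib
import Fermat.Agent.S36.h80_NormInt
import Fermat.Agent.S36.h80_FamInst
import Fermat.Agent.S36.h70_TorInst
import Fermat.Agent.S36.h5_ResK0
import Fermat.Agent.S18.h19_ResField

/-!
# S36 / (HC4): the level-`N q` chart rings are integral over the level-`N` chart rings (helper80)

`F₀(M) := h69_F0 M H`, `α = h70_aF0`, `β = h70_bF0 : F₀(N) →+* F₀(N q)`, norms `h70_NaF0`,
`h70_NbF0`.  `V₁`, `V₂` ANY valuation families on `F₀(N)`, `F₀(N q)` (e.g. the chart-1 families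
`h80_fam1` at the two levels).

* `h80_resHom φ B₁ B₂ h : B₁ →+* B₂` : the restriction of a field embedding to chart rings;
  `h80_resHom_isIntegral`.
* `h80_exists_nodes`, `h80_nodes_in_B` : any number of constants of `A₀` with pairwise unit
  differences (the residue field of `A₀` is algebraically closed).
* `h80_HC4_beta`, `h80_HC4_alpha` : `q ∣ N`, `φ (V₁.B) ⊆ V₂.B` and `N_φ (V₂.B) ⊆ V₁.B`
  ⟹ every `f ∈ V₂.B` is integral over `φ (V₁.B)` (characteristic polynomial of `f` by Lagrange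
  interpolation from the norms `N_φ (t - f)`, `q + 1` nodes `t`).
* `h80_HC4_beta_inertia`, `h80_HC4_alpha_inertia` : the same as `RingHom.IsIntegral` of the
  restricted hom, nodes from the constants.
* `h80_HC4_alpha_of_ev` : along `α`, from the integrality over `A₀[α x₁]` (no norm).
* `h80_aF0_algebraMap`, `h80_bF0_algebraMap`, `h80_ev_aF0`, `h80_ev_bF0`.
-/

set_option autoImplicit false
set_option linter.unusedSectionVars false
set_option linter.style.haveILetI false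

noncomputable section

namespace Fermat.Agent.S36

open AlgebraicCurve ModularCurve Polynomial
open Fermat.Agent.S18 Fermat.Agent.S24 Fermat.Agent.S19 Fermat.Agent.S37

local notation "Qb" => AlgebraicClosure ℚ

/-- **Nodes**: any number of inertia-fixed elements of `A` with pairwise unit differences
(the residue field of `A₀` is the algebraically closed residue field of `A`). -/
theorem h80_exists_nodes (q : ℕ) [Fact q.Prime] (A : ValuationSubring Qb)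
    (hA : A.LiesOverPrime q) (n : ℕ) :
    ∃ t : Fin n → h69_K0 (A.inertiaSubgroupIn ℚ), (∀ i, t i ∈ h69_A0 A) ∧
      ∀ i j, i ≠ j → t i - t j ≠ 0 ∧ (t i - t j)⁻¹ ∈ h69_A0 A := by
  haveI : IsAlgClosed (IsLocalRing.ResidueField A) := h19_residueField_isAlgClosed A
  have e := Infinite.natEmbedding (IsLocalRing.ResidueField A)
  have hlift : ∀ i : Fin n, ∃ c : Qb, ∃ hc : c ∈ A, (∀ σ ∈ A.inertiaSubgroupIn ℚ, σ c = c) ∧
      IsLocalRing.residue A ⟨c, hc⟩ = e i := by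
    intro i
    obtain ⟨a, ha⟩ := IsLocalRing.residue_surjective (R := A) (e i)
    obtain ⟨c, hc, hfix, hnear⟩ := h5_res_K0 q Fact.out A hA (a : Qb) a.2
    refine ⟨c, hc, hfix, ?_⟩
    rw [← ha]
    obtain ⟨h1, h2⟩ := (ValuationSubring.mem_nonunits_iff_exists_mem_maximalIdeal).1 hnear
    have h3 : IsLocalRing.residue A (a - ⟨c, hc⟩) = 0 :=
      (IsLocalRing.residue_eq_zero_iff _).2 h2
    rw [map_sub, sub_eq_zero] at h3
    exact h3.symm
  choose c hc hfix hres using hlift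
  refine ⟨fun i => ⟨c i, (h69_mem_K0 _ (c i)).2 (hfix i)⟩, fun i => hc i, fun i j hij => ?_⟩
  have hnn : c i - c j ∉ A.nonunits := by
    intro hmem
    obtain ⟨h1, h2⟩ := (ValuationSubring.mem_nonunits_iff_exists_mem_maximalIdeal).1 hmem
    have h3 : IsLocalRing.residue A (⟨c i, hc i⟩ - ⟨c j, hc j⟩) = 0 :=
      (IsLocalRing.residue_eq_zero_iff _).2 h2
    rw [map_sub, hres, hres, sub_eq_zero] at h3
    exact hij (Fin.ext (by exact_mod_cast e.injective h3))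
  have h4 : ¬ (c i - c j = 0 ∨ (c i - c j)⁻¹ ∉ A) := fun h =>
    hnn ((ValuationSubring.mem_nonunits_iff_or (A := A)).mpr h)
  push Not at h4
  refine ⟨fun h => h4.1 (congrArg Subtype.val h), ?_⟩
  exact h4.2

/-! ## Restricting a field embedding to chart rings -/

section ResHom

variable {F₁ F₂ : Type*} [Field F₁] [Field F₂]

/-- The restriction of `φ : F₁ →+* F₂` to subrings `B₁ → B₂`. -/
def h80_resHom (φ : F₁ →+* F₂) (B₁ : Subring F₁) (B₂ : Subring F₂)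
    (h : ∀ g ∈ B₁, φ g ∈ B₂) : B₁ →+* B₂ :=
  (φ.comp B₁.subtype).codRestrict B₂ (fun b => h b b.2)

@[simp]
theorem h80_resHom_coe (φ : F₁ →+* F₂) (B₁ : Subring F₁) (B₂ : Subring F₂)
    (h : ∀ g ∈ B₁, φ g ∈ B₂) (b : B₁) :
    ((h80_resHom φ B₁ B₂ h b : B₂) : F₂) = φ (b : F₁) := rfl

theorem h80_resHom_mem_comap (φ : F₁ →+* F₂) (B₁ : Subring F₁) (B₂ : Subring F₂)
    (h : ∀ g ∈ B₁, φ g ∈ B₂) (m : Ideal B₂) (b : B₁) :
    b ∈ m.comap (h80_resHom φ B₁ B₂ h) ↔ (⟨φ (b : F₁), h b b.2⟩ : B₂) ∈ m := Iff.rfl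

/-- Elementwise integrality gives integrality of the restricted ring hom. -/
theorem h80_resHom_isIntegral (φ : F₁ →+* F₂) (B₁ : Subring F₁) (B₂ : Subring F₂)
    (h : ∀ g ∈ B₁, φ g ∈ B₂)
    (hint : ∀ f ∈ B₂, (φ.comp B₁.subtype).IsIntegralElem f) :
    (h80_resHom φ B₁ B₂ h).IsIntegral := by
  intro f
  obtain ⟨P, hP, hroot⟩ := hint f f.2
  refine ⟨P, hP, Subtype.ext ?_⟩
  have h1 := Polynomial.hom_eval₂ P (h80_resHom φ B₁ B₂ h) B₂.subtype f
  rw [Subring.coe_zero]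
  exact h1.trans hroot

end ResHom

/-! ## The two degeneracy maps -/

section Levels

variable (N q : ℕ) [NeZero N] [NeZero q] (H : Subgroup (Qb ≃ₐ[ℚ] Qb))
  {ι₁ ι₂ : Type*} (V₁ : h80_ValFam (h69_F0 N H) ι₁) (V₂ : h80_ValFam (h69_F0 (N * q) H) ι₂)

/-- **(HC4) along `β`**: if `β` maps `V₁.B` into `V₂.B` and the norm along `β` maps `V₂.B` into
`V₁.B`, then `V₂.B` is integral over `β (V₁.B)` (given `q + 1` nodes of `V₁.B` with unit
differences). -/
theorem h80_HC4_beta (hq : q.Prime) (hqN : q ∣ N)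
    (hφB : ∀ g ∈ V₁.B, h70_bF0 N q H g ∈ V₂.B)
    (hNB : ∀ u ∈ V₂.B, h70_NbF0 N q H u ∈ V₁.B)
    (t : Fin (q + 1) → h69_F0 N H) (ht : ∀ i, t i ∈ V₁.B)
    (hunit : ∀ i j, i ≠ j → ∃ u ∈ V₁.B, (t i - t j) * u = 1)
    (f : h69_F0 (N * q) H) (hf : f ∈ V₂.B) :
    ((h70_bF0 N q H).comp V₁.B.subtype).IsIntegralElem f := by
  classical
  refine h80_integralElem_of_norm_sub (heckeBetaBar Qb N q).toRingHom (h88_finiteAlong_beta N q)
    (h69_F0 N H).subtype (h69_F0 (N * q) H).subtype (h70_bF0 N q H) (fun g => rfl)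
    (h70_NbF0 N q H) (fun u => rfl) V₁.B f Finset.univ ?_ t (fun i _ => ht i)
    (fun i _ j _ hij => hunit i j hij)
    (fun i _ => hNB _ (V₂.B.sub_mem (hφB _ (ht i)) hf))
  have h1 := h49_deg_beta_dvd N q hq hqN
  rw [Finset.card_univ, Fintype.card_fin]
  exact lt_of_eq_of_lt h1 (Nat.lt_succ_self q)

/-- **(HC4) along `α`**, from the norm. -/
theorem h80_HC4_alpha (hq : q.Prime) (hqN : q ∣ N)
    (hφB : ∀ g ∈ V₁.B, h70_aF0 N q H g ∈ V₂.B)
    (hNB : ∀ u ∈ V₂.B, h70_NaF0 N q H u ∈ V₁.B)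
    (t : Fin (q + 1) → h69_F0 N H) (ht : ∀ i, t i ∈ V₁.B)
    (hunit : ∀ i j, i ≠ j → ∃ u ∈ V₁.B, (t i - t j) * u = 1)
    (f : h69_F0 (N * q) H) (hf : f ∈ V₂.B) :
    ((h70_aF0 N q H).comp V₁.B.subtype).IsIntegralElem f := by
  classical
  refine h80_integralElem_of_norm_sub (heckeAlphaBar Qb N q).toRingHom
    (h88_finiteAlong_alpha N q)
    (h69_F0 N H).subtype (h69_F0 (N * q) H).subtype (h70_aF0 N q H) (fun g => rfl)
    (h70_NaF0 N q H) (fun u => rfl) V₁.B f Finset.univ ?_ t (fun i _ => ht i)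
    (fun i _ j _ hij => hunit i j hij)
    (fun i _ => hNB _ (V₂.B.sub_mem (hφB _ (ht i)) hf))
  have h1 := h49_deg_alpha_dvd N q hq hqN
  rw [Finset.card_univ, Fintype.card_fin]
  exact lt_of_eq_of_lt h1 (Nat.lt_succ_self q)

end Levels

/-! ## The inertia-fixed level: nodes from the constants of `A₀` -/

section Inertia

variable (N q : ℕ) [NeZero N] [NeZero q] [Fact q.Prime] (A : ValuationSubring Qb)
  (hA : A.LiesOverPrime q)
  {ι₁ ι₂ : Type*} (V₁ : h80_ValFam (h69_F0 N (A.inertiaSubgroupIn ℚ)) ι₁)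
  (V₂ : h80_ValFam (h69_F0 (N * q) (A.inertiaSubgroupIn ℚ)) ι₂)

include hA in
/-- Any number of nodes with unit differences in a chart ring containing the constants of
`A₀`. -/
theorem h80_nodes_in_B
    (hconst : ∀ a : h69_K0 (A.inertiaSubgroupIn ℚ), a ∈ h69_A0 A →
      algebraMap (h69_K0 (A.inertiaSubgroupIn ℚ)) (h69_F0 N (A.inertiaSubgroupIn ℚ)) a ∈ V₁.B)
    (n : ℕ) :
    ∃ t : Fin n → h69_F0 N (A.inertiaSubgroupIn ℚ), (∀ i, t i ∈ V₁.B) ∧
      ∀ i j, i ≠ j → ∃ u ∈ V₁.B, (t i - t j) * u = 1 := by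
  obtain ⟨t, ht, hu⟩ := h80_exists_nodes q A hA n
  refine ⟨fun i => algebraMap _ _ (t i), fun i => hconst _ (ht i), fun i j hij => ?_⟩
  obtain ⟨h0, h1⟩ := hu i j hij
  refine ⟨algebraMap _ _ (t i - t j)⁻¹, hconst _ h1, ?_⟩
  rw [← map_sub, ← map_mul, mul_inv_cancel₀ h0, map_one]

include hA in
/-- **(HC4) along `β`** at the inertia-fixed level: `V₂.B` is integral over `β (V₁.B)`. -/
theorem h80_HC4_beta_inertia (hqN : q ∣ N)
    (hconst : ∀ a : h69_K0 (A.inertiaSubgroupIn ℚ), a ∈ h69_A0 A →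
      algebraMap (h69_K0 (A.inertiaSubgroupIn ℚ)) (h69_F0 N (A.inertiaSubgroupIn ℚ)) a ∈ V₁.B)
    (hφB : ∀ g ∈ V₁.B, h70_bF0 N q (A.inertiaSubgroupIn ℚ) g ∈ V₂.B)
    (hNB : ∀ u ∈ V₂.B, h70_NbF0 N q (A.inertiaSubgroupIn ℚ) u ∈ V₁.B) :
    (h80_resHom (h70_bF0 N q (A.inertiaSubgroupIn ℚ)) V₁.B V₂.B hφB).IsIntegral := by
  obtain ⟨t, ht, hu⟩ := h80_nodes_in_B N q A hA V₁ hconst (q + 1)
  exact h80_resHom_isIntegral _ _ _ hφB fun f hf =>
    h80_HC4_beta N q _ V₁ V₂ Fact.out hqN hφB hNB t ht hu f hf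

include hA in
/-- **(HC4) along `α`** at the inertia-fixed level, from the norm. -/
theorem h80_HC4_alpha_inertia (hqN : q ∣ N)
    (hconst : ∀ a : h69_K0 (A.inertiaSubgroupIn ℚ), a ∈ h69_A0 A →
      algebraMap (h69_K0 (A.inertiaSubgroupIn ℚ)) (h69_F0 N (A.inertiaSubgroupIn ℚ)) a ∈ V₁.B)
    (hφB : ∀ g ∈ V₁.B, h70_aF0 N q (A.inertiaSubgroupIn ℚ) g ∈ V₂.B)
    (hNB : ∀ u ∈ V₂.B, h70_NaF0 N q (A.inertiaSubgroupIn ℚ) u ∈ V₁.B) :
    (h80_resHom (h70_aF0 N q (A.inertiaSubgroupIn ℚ)) V₁.B V₂.B hφB).IsIntegral := by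
  obtain ⟨t, ht, hu⟩ := h80_nodes_in_B N q A hA V₁ hconst (q + 1)
  exact h80_resHom_isIntegral _ _ _ hφB fun f hf =>
    h80_HC4_alpha N q _ V₁ V₂ Fact.out hqN hφB hNB t ht hu f hf

/-- `α` commutes with the constants of `K₀`. -/
theorem h80_aF0_algebraMap (H : Subgroup (Qb ≃ₐ[ℚ] Qb)) (c : h69_K0 H) :
    h70_aF0 N q H (algebraMap (h69_K0 H) (h69_F0 N H) c) =
      algebraMap (h69_K0 H) (h69_F0 (N * q) H) c :=
  Subtype.ext ((heckeAlphaBar Qb N q).commutes (c : Qb))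

/-- `β` commutes with the constants of `K₀`. -/
theorem h80_bF0_algebraMap (H : Subgroup (Qb ≃ₐ[ℚ] Qb)) (c : h69_K0 H) :
    h70_bF0 N q H (algebraMap (h69_K0 H) (h69_F0 N H) c) =
      algebraMap (h69_K0 H) (h69_F0 (N * q) H) c :=
  Subtype.ext ((heckeBetaBar Qb N q).commutes (c : Qb))

/-- Evaluation at `α x₁` is `α` after evaluation at `x₁`. -/
theorem h80_ev_aF0 (H : Subgroup (Qb ≃ₐ[ℚ] Qb)) (A0 : Subring (h69_K0 H)) (x₁ : h69_F0 N H)
    (p : Polynomial A0) :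
    h97_ev A0 (h70_aF0 N q H x₁) p = h70_aF0 N q H (h97_ev A0 x₁ p) := by
  induction p using Polynomial.induction_on' with
  | add p r hp hr => rw [map_add, map_add, map_add, hp, hr]
  | monomial n a =>
    rw [← C_mul_X_pow_eq_monomial, map_mul, map_pow, h97_ev_C, h97_ev_X, map_mul, map_pow,
      h97_ev_C, h97_ev_X, map_mul, map_pow, h80_aF0_algebraMap]

/-- Evaluation at `β x₁` is `β` after evaluation at `x₁`. -/
theorem h80_ev_bF0 (H : Subgroup (Qb ≃ₐ[ℚ] Qb)) (A0 : Subring (h69_K0 H)) (x₁ : h69_F0 N H)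
    (p : Polynomial A0) :
    h97_ev A0 (h70_bF0 N q H x₁) p = h70_bF0 N q H (h97_ev A0 x₁ p) := by
  induction p using Polynomial.induction_on' with
  | add p r hp hr => rw [map_add, map_add, map_add, hp, hr]
  | monomial n a =>
    rw [← C_mul_X_pow_eq_monomial, map_mul, map_pow, h97_ev_C, h97_ev_X, map_mul, map_pow,
      h97_ev_C, h97_ev_X, map_mul, map_pow, h80_bF0_algebraMap]

/-- **(HC4) along `α`** from the integrality of `V₂.B` over `A₀[α x₁]` (second conjunct of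
`h80_famOf_noeth` with the chart function `α x₁`): no norm needed. -/
theorem h80_HC4_alpha_of_ev (x₁ : h69_F0 N (A.inertiaSubgroupIn ℚ)) (hx₁ : x₁ ∈ V₁.B)
    (hconst : ∀ a : h69_K0 (A.inertiaSubgroupIn ℚ), a ∈ h69_A0 A →
      algebraMap (h69_K0 (A.inertiaSubgroupIn ℚ)) (h69_F0 N (A.inertiaSubgroupIn ℚ)) a ∈ V₁.B)
    (hφB : ∀ g ∈ V₁.B, h70_aF0 N q (A.inertiaSubgroupIn ℚ) g ∈ V₂.B)
    (hint : ∀ f ∈ V₂.B, (h97_ev (h69_A0 A).toSubring
      (h70_aF0 N q (A.inertiaSubgroupIn ℚ) x₁)).IsIntegralElem f) :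
    (h80_resHom (h70_aF0 N q (A.inertiaSubgroupIn ℚ)) V₁.B V₂.B hφB).IsIntegral := by
  refine h80_resHom_isIntegral _ _ _ hφB fun f hf => ?_
  obtain ⟨P, hP, hroot⟩ := hint f hf
  refine h80_integralElem_of_comp (h70_aF0 N q (A.inertiaSubgroupIn ℚ))
    (h97_ev (h69_A0 A).toSubring x₁) V₁.B
    (h97_ev_mem _ x₁ V₁.B (fun a => hconst a a.2) hx₁) ⟨P, hP, ?_⟩
  rw [← hroot]
  refine Polynomial.eval₂_congr (RingHom.ext fun p => ?_) rfl rfl
  exact (h80_ev_aF0 N q _ _ x₁ p).symm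

end Inertia

end Fermat.Agent.S36
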