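import Mathlib
import Fermat.Agent.S34.h50_Core2Defs

/-!
# S36 / layer (L2): strictness from finite generation of the chart ring (helper97)

Generic (no modular input, no hypothesis on the reduction ring `B`).  Let `R : h50_Lat K F B` be
a lattice structure, `x, xi ∈ O` with `x * xi = 1`, `D0` the polar divisor of `x`.  Put

* `G_x  := {c ∈ O | c regular where x is regular}` (the chart ring of `x`),
* `G_xi := {c ∈ O | c regular where xi is regular}`.

Assume **(FG)**: there are `t i ∈ G_x` with `xi ^ N * t i ∈ G_xi` (i.e. `t i ∈ L(N D0)`) such that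
every element of `G_x` is a finite sum of terms `a * x ^ j * t i` with `a ∈ A`.

Then the Čech `H¹` of `O(n D0)` vanishes for `n ≥ N` (`h97_dec`), and therefore

* `h97_strict_of_closure` : the hypothesis `hstrict` of `h50_Lat.eshort` holds with `n2 := N`:
  a reduction lying in `red G_x` and in `x̄ ^ n • red G_xi` is the reduction of an element of
  `L(n D0) ∩ O`.

`h97_strict_of_fg` is the same statement with (FG) in polynomial form and `t i ∈ L(N D0)`.
-/

set_option autoImplicit false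

namespace Fermat.Agent.S36

open AlgebraicCurve Polynomial Fermat.Agent.S24 Fermat.Agent.S18 Fermat.Agent.S34

variable {K F B : Type*} [Field K] [Field F] [Algebra K F] [CommRing B]

/-- Membership in the valuation ring of a place is `0 ≤ ord` (with `ord 0 = 0`). -/
theorem h97_mem_iff_ord (v : Place K F) (c : F) : c ∈ v.toValuationSubring ↔ 0 ≤ v.ord c := by
  by_cases hc : c = 0
  · simp [hc, v.toValuationSubring.zero_mem]
  · exact h35_mem_iff_ord_nonneg v hc

/-- Membership in `L(n D0)`, `D0` the polar divisor of `x`, from regularity on the two charts. -/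
theorem h97_inL_of_charts {x xi : F} (hxxi : x * xi = 1) (D0 : Divisor K F)
    (hD0 : ∀ v : Place K F, D0 v = max 0 (-v.ord x)) (n : ℕ) (f : F)
    (h1 : ∀ v : Place K F, 0 ≤ v.ord x → f ∈ v.toValuationSubring)
    (h2 : ∀ v : Place K F, v.ord x ≤ 0 → f * xi ^ n ∈ v.toValuationSubring) :
    h53_InL (n • D0) f := by
  by_cases hf : f = 0
  · exact Or.inl hf
  refine Or.inr fun P => ?_
  have hx0 : x ≠ 0 := left_ne_zero_of_mul_eq_one hxxi
  have hxi0 : xi ≠ 0 := right_ne_zero_of_mul_eq_one hxxi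
  have hordxi : P.ord xi = -P.ord x := by
    have := P.ord_mul hx0 hxi0
    rw [hxxi, Place.ord_one] at this
    omega
  rw [Finsupp.smul_apply, nsmul_eq_mul, hD0]
  rcases le_total 0 (P.ord x) with hpos | hneg
  · have hmax : max 0 (-P.ord x) = 0 := max_eq_left (by omega)
    rw [hmax, mul_zero, neg_zero]
    exact (h97_mem_iff_ord P f).1 (h1 P hpos)
  · have hmax : max 0 (-P.ord x) = -P.ord x := max_eq_right (by omega)
    rw [hmax]
    have h3 := (h97_mem_iff_ord P _).1 (h2 P hneg)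
    rw [P.ord_mul hf (pow_ne_zero n hxi0), ← zpow_natCast, P.ord_zpow, hordxi] at h3
    have e : -((n : ℤ) * -P.ord x) = (n : ℤ) * P.ord x := by ring
    rw [e]
    have e2 : P.ord f + (n : ℤ) * -P.ord x = P.ord f - (n : ℤ) * P.ord x := by ring
    rw [e2] at h3
    omega

section Dec

variable (R : h50_Lat K F B)

/-- The chart ring of `x`, as a predicate on `F`. -/
def h97_Gx (x : F) (c : F) : Prop :=
  c ∈ R.O ∧ ∀ v : Place K F, 0 ≤ v.ord x → c ∈ v.toValuationSubring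

/-- The chart ring of `x⁻¹`, as a predicate on `F`. -/
def h97_Gxi (x : F) (c : F) : Prop :=
  c ∈ R.O ∧ ∀ v : Place K F, v.ord x ≤ 0 → c ∈ v.toValuationSubring

/-- Čech decomposition `c = c1 + x ^ n * c2` with `c1 ∈ G_x`, `c2 ∈ G_xi`. -/
def h97_Dec (x : F) (n : ℕ) (c : F) : Prop :=
  ∃ c1 c2 : F, h97_Gx R x c1 ∧ h97_Gxi R x c2 ∧ c = c1 + x ^ n * c2

variable {R}

theorem h97_Gx_zero (x : F) : h97_Gx R x 0 :=
  ⟨R.O.zero_mem, fun v _ => v.toValuationSubring.zero_mem⟩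

theorem h97_Gxi_zero (x : F) : h97_Gxi R x 0 :=
  ⟨R.O.zero_mem, fun v _ => v.toValuationSubring.zero_mem⟩

theorem h97_Gx.add {x c d : F} (hc : h97_Gx R x c) (hd : h97_Gx R x d) : h97_Gx R x (c + d) :=
  ⟨R.O.add_mem hc.1 hd.1, fun v hv => v.toValuationSubring.add_mem _ _ (hc.2 v hv) (hd.2 v hv)⟩

theorem h97_Gxi.add {x c d : F} (hc : h97_Gxi R x c) (hd : h97_Gxi R x d) :
    h97_Gxi R x (c + d) :=
  ⟨R.O.add_mem hc.1 hd.1, fun v hv => v.toValuationSubring.add_mem _ _ (hc.2 v hv) (hd.2 v hv)⟩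

theorem h97_Gx.mul {x c d : F} (hc : h97_Gx R x c) (hd : h97_Gx R x d) : h97_Gx R x (c * d) :=
  ⟨R.O.mul_mem hc.1 hd.1, fun v hv => v.toValuationSubring.mul_mem _ _ (hc.2 v hv) (hd.2 v hv)⟩

theorem h97_Gxi.mul {x c d : F} (hc : h97_Gxi R x c) (hd : h97_Gxi R x d) :
    h97_Gxi R x (c * d) :=
  ⟨R.O.mul_mem hc.1 hd.1, fun v hv => v.toValuationSubring.mul_mem _ _ (hc.2 v hv) (hd.2 v hv)⟩

theorem h97_Gx_const (x : F) {a : K} (ha : a ∈ R.A) : h97_Gx R x (algebraMap K F a) :=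
  ⟨R.const_mem ha, fun v _ => v.algebraMap_mem' a⟩

theorem h97_Gxi_const (x : F) {a : K} (ha : a ∈ R.A) : h97_Gxi R x (algebraMap K F a) :=
  ⟨R.const_mem ha, fun v _ => v.algebraMap_mem' a⟩

theorem h97_Gx_self {x : F} (hx : x ∈ R.O) : h97_Gx R x x :=
  ⟨hx, fun v hv => (h97_mem_iff_ord v x).2 hv⟩

theorem h97_Gx.pow {x c : F} (hc : h97_Gx R x c) (j : ℕ) : h97_Gx R x (c ^ j) :=
  ⟨R.O.pow_mem hc.1 j, fun v hv => pow_mem (hc.2 v hv) j⟩

theorem h97_Gxi.pow {x c : F} (hc : h97_Gxi R x c) (j : ℕ) : h97_Gxi R x (c ^ j) :=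
  ⟨R.O.pow_mem hc.1 j, fun v hv => pow_mem (hc.2 v hv) j⟩

theorem h97_Gxi_inv {x xi : F} (hxxi : x * xi = 1) (hxi : xi ∈ R.O) : h97_Gxi R x xi := by
  refine ⟨hxi, fun v hv => (h97_mem_iff_ord v xi).2 ?_⟩
  have hx0 : x ≠ 0 := left_ne_zero_of_mul_eq_one hxxi
  have hxi0 : xi ≠ 0 := right_ne_zero_of_mul_eq_one hxxi
  have := v.ord_mul hx0 hxi0
  rw [hxxi, Place.ord_one] at this
  omega

theorem h97_Dec_zero (x : F) (n : ℕ) : h97_Dec R x n 0 :=
  ⟨0, 0, h97_Gx_zero x, h97_Gxi_zero x, by simp⟩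

theorem h97_Dec.add {x : F} {n : ℕ} {c d : F} (hc : h97_Dec R x n c) (hd : h97_Dec R x n d) :
    h97_Dec R x n (c + d) := by
  obtain ⟨c1, c2, h1, h2, rfl⟩ := hc
  obtain ⟨d1, d2, h3, h4, rfl⟩ := hd
  exact ⟨c1 + d1, c2 + d2, h1.add h3, h2.add h4, by ring⟩

/-- The generators `xi ^ M * (a * x ^ j * t)` of the overlap ring decompose, for `n ≥ N`. -/
theorem h97_dec_gen {x xi : F} (hxxi : x * xi = 1) (hx : x ∈ R.O) (hxi : xi ∈ R.O)
    {t : F} {N : ℕ} (ht : h97_Gx R x t) (ht' : h97_Gxi R x (xi ^ N * t))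
    {n : ℕ} (hn : N ≤ n) {a : K} (ha : a ∈ R.A) (j M : ℕ) :
    h97_Dec R x n (xi ^ M * (algebraMap K F a * x ^ j * t)) := by
  rcases le_or_gt M j with hMj | hjM
  · -- `xi ^ M * x ^ j = x ^ (j - M)`
    refine ⟨algebraMap K F a * x ^ (j - M) * t, 0,
      ((h97_Gx_const x ha).mul ((h97_Gx_self hx).pow _)).mul ht, h97_Gxi_zero x, ?_⟩
    obtain ⟨d, rfl⟩ := Nat.exists_eq_add_of_le hMj
    have e : xi ^ M * x ^ M = 1 := by rw [← mul_pow, mul_comm, hxxi, one_pow]
    rw [Nat.add_sub_cancel_left, mul_zero, add_zero, pow_add]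
    calc xi ^ M * (algebraMap K F a * (x ^ M * x ^ d) * t)
        = (xi ^ M * x ^ M) * (algebraMap K F a * x ^ d * t) := by ring
      _ = algebraMap K F a * x ^ d * t := by rw [e, one_mul]
  · -- `xi ^ M * x ^ j = xi ^ (M - j) = x ^ n * xi ^ (M - j + (n - N)) * xi ^ N`
    obtain ⟨d, rfl⟩ := Nat.exists_eq_add_of_le hjM.le
    obtain ⟨e, rfl⟩ := Nat.exists_eq_add_of_le hn
    refine ⟨0, algebraMap K F a * xi ^ (d + e) * (xi ^ N * t), h97_Gx_zero x,
      ((h97_Gxi_const x ha).mul ((h97_Gxi_inv hxxi hxi).pow _)).mul ht', ?_⟩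
    have e1 : xi ^ j * x ^ j = 1 := by rw [← mul_pow, mul_comm, hxxi, one_pow]
    have e2 : x ^ (N + e) * xi ^ (N + e) = 1 := by rw [← mul_pow, hxxi, one_pow]
    rw [zero_add]
    calc xi ^ (j + d) * (algebraMap K F a * x ^ j * t)
        = (xi ^ j * x ^ j) * (algebraMap K F a * xi ^ d * t) := by rw [pow_add]; ring
      _ = algebraMap K F a * xi ^ d * t := by rw [e1, one_mul]
      _ = (x ^ (N + e) * xi ^ (N + e)) * (algebraMap K F a * xi ^ d * t) := by
          rw [e2, one_mul]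
      _ = x ^ (N + e) * (algebraMap K F a * xi ^ (d + e) * (xi ^ N * t)) := by
          rw [pow_add xi N e, pow_add xi d e]; ring

end Dec

/-- **Čech vanishing.**  Under (FG), every element of `O` which is regular where `ord x = 0`
is `c1 + x ^ n * c2` with `c1 ∈ G_x`, `c2 ∈ G_xi`, for all `n ≥ N`. -/
theorem h97_dec [HasPrincipalDivisors K F] (R : h50_Lat K F B) (x xi : R.O) (hxxi : x * xi = 1)
    {ι : Type*} (t : ι → F) (N : ℕ)
    (ht : ∀ i, h97_Gx R (x : F) (t i)) (ht' : ∀ i, h97_Gxi R (x : F) ((xi : F) ^ N * t i))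
    (hgen : ∀ c : R.O, (∀ v : Place K F, 0 ≤ v.ord (x : F) → 0 ≤ v.ord (c : F)) →
      (c : F) ∈ AddSubmonoid.closure
        {y : F | ∃ a ∈ R.A, ∃ (j : ℕ) (i : ι), y = algebraMap K F a * (x : F) ^ j * t i})
    {n : ℕ} (hn : N ≤ n) (z : F) (hzO : z ∈ R.O)
    (hz : ∀ v : Place K F, v.ord (x : F) = 0 → z ∈ v.toValuationSubring) :
    h97_Dec R (x : F) n z := by
  classical
  have hxF : (x : F) * (xi : F) = 1 := by
    have := congrArg Subtype.val hxxi
    push_cast at this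
    exact this
  have hx0 : (x : F) ≠ 0 := left_ne_zero_of_mul_eq_one hxF
  by_cases hz0 : z = 0
  · rw [hz0]; exact h97_Dec_zero _ _
  -- a bound for the pole orders of `z`
  obtain ⟨Dz, hDz, -⟩ := HasPrincipalDivisors.exists_divisor (K := K) z hz0
  obtain ⟨M, hM⟩ : ∃ M : ℕ, ∀ v : Place K F, -(M : ℤ) ≤ v.ord z := by
    refine ⟨Dz.support.sup fun v => (Dz v).natAbs, fun v => ?_⟩
    rw [← hDz v]
    by_cases hv : v ∈ Dz.support
    · have h1 : (Dz v).natAbs ≤ Dz.support.sup fun v => (Dz v).natAbs :=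
        Finset.le_sup (f := fun v => (Dz v).natAbs) hv
      have h2 : ((Dz v).natAbs : ℤ) ≤ ((Dz.support.sup fun v => (Dz v).natAbs : ℕ) : ℤ) := by
        exact_mod_cast h1
      have h3 : -(((Dz v).natAbs : ℕ) : ℤ) ≤ Dz v := by
        rw [Int.natCast_natAbs]; exact neg_abs_le _
      omega
    · rw [Finsupp.notMem_support_iff.1 hv]
      have : (0 : ℤ) ≤ ((Dz.support.sup fun v => (Dz v).natAbs : ℕ) : ℤ) := Int.natCast_nonneg _
      omega
  -- `x ^ M * z` lies in the chart ring of `x`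
  have hc_O : (x : F) ^ M * z ∈ R.O := R.O.mul_mem (R.O.pow_mem x.2 M) hzO
  have hc_reg : ∀ v : Place K F, 0 ≤ v.ord (x : F) → 0 ≤ v.ord ((x : F) ^ M * z) := by
    intro v hv
    rw [v.ord_mul (pow_ne_zero M hx0) hz0, ← zpow_natCast, v.ord_zpow]
    rcases hv.eq_or_lt with h0 | hpos
    · rw [← h0, mul_zero, zero_add]
      exact (h97_mem_iff_ord v z).1 (hz v h0.symm)
    · have h1 := hM v
      have h2 : (M : ℤ) * 1 ≤ (M : ℤ) * v.ord (x : F) :=
        mul_le_mul_of_nonneg_left (by omega) (Int.natCast_nonneg M)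
      omega
  have hcl := hgen ⟨(x : F) ^ M * z, hc_O⟩ hc_reg
  -- every element `y` of the closure has `xi ^ M * y` decomposable
  have key : ∀ y ∈ AddSubmonoid.closure
      {y : F | ∃ a ∈ R.A, ∃ (j : ℕ) (i : ι), y = algebraMap K F a * (x : F) ^ j * t i},
      h97_Dec R (x : F) n ((xi : F) ^ M * y) := by
    intro y hy
    induction hy using AddSubmonoid.closure_induction with
    | mem y hy =>
      obtain ⟨a, ha, j, i, rfl⟩ := hy
      exact h97_dec_gen hxF x.2 xi.2 (ht i) (ht' i) hn ha j M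
    | zero => rw [mul_zero]; exact h97_Dec_zero _ _
    | add y y' _ _ ih ih' => rw [mul_add]; exact ih.add ih'
  have e : (xi : F) ^ M * ((x : F) ^ M * z) = z := by
    rw [← mul_assoc, ← mul_pow, mul_comm (xi : F), hxF, one_pow, one_mul]
  have := key _ hcl
  rwa [e] at this

/-- **(L2) Strictness from finite generation of the chart ring.**  The conclusion is literally
the hypothesis `hstrict` of `h50_Lat.eshort`, with `n2 := N`. -/
theorem h97_strict_of_closure [HasPrincipalDivisors K F] (R : h50_Lat K F B) (x xi : R.O)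
    (hxxi : x * xi = 1)
    (D0 : Divisor K F) (hD0 : ∀ v : Place K F, D0 v = max 0 (-v.ord (x : F)))
    {ι : Type*} (t : ι → F) (N : ℕ)
    (ht : ∀ i, h97_Gx R (x : F) (t i)) (ht' : ∀ i, h97_Gxi R (x : F) ((xi : F) ^ N * t i))
    (hgen : ∀ c : R.O, (∀ v : Place K F, 0 ≤ v.ord (x : F) → 0 ≤ v.ord (c : F)) →
      (c : F) ∈ AddSubmonoid.closure
        {y : F | ∃ a ∈ R.A, ∃ (j : ℕ) (i : ι), y = algebraMap K F a * (x : F) ^ j * t i}) :
    ∀ n, N ≤ n → ∀ a b : R.O,
      (∀ v : Place K F, 0 ≤ v.ord (x : F) → 0 ≤ v.ord (a : F)) →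
      (∀ v : Place K F, 0 ≤ v.ord (xi : F) → 0 ≤ v.ord (b : F)) →
      R.red a = R.red x ^ n * R.red b →
      ∃ f : R.O, h53_InL (n • D0) (f : F) ∧ R.red f = R.red a := by
  intro n hn a b ha hb hred
  have hxF : (x : F) * (xi : F) = 1 := by
    have := congrArg Subtype.val hxxi
    push_cast at this
    exact this
  have hx0 : (x : F) ≠ 0 := left_ne_zero_of_mul_eq_one hxF
  have hxi0 : (xi : F) ≠ 0 := right_ne_zero_of_mul_eq_one hxF
  have hordxi : ∀ v : Place K F, v.ord (xi : F) = -v.ord (x : F) := by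
    intro v
    have := v.ord_mul hx0 hxi0
    rw [hxF, Place.ord_one] at this
    omega
  have hxn : (x : F) ^ n * (xi : F) ^ n = 1 := by rw [← mul_pow, hxF, one_pow]
  -- regularity of `a`, `b` in valuation-ring form
  have haV : ∀ v : Place K F, 0 ≤ v.ord (x : F) → (a : F) ∈ v.toValuationSubring :=
    fun v hv => (h97_mem_iff_ord v _).2 (ha v hv)
  have hbV : ∀ v : Place K F, v.ord (x : F) ≤ 0 → (b : F) ∈ v.toValuationSubring := by
    intro v hv
    refine (h97_mem_iff_ord v _).2 (hb v ?_)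
    rw [hordxi]; omega
  have hxV : ∀ v : Place K F, 0 ≤ v.ord (x : F) → (x : F) ∈ v.toValuationSubring :=
    fun v hv => (h97_mem_iff_ord v _).2 hv
  -- `a - x ^ n * b = π * z`
  have hred0 : R.red (a - x ^ n * b) = 0 := by
    rw [map_sub, map_mul, map_pow, hred, sub_self]
  obtain ⟨π, hπ, z, hzO, hz⟩ := (R.red_eq_zero _).1 hred0
  have hz' : (a : F) - (x : F) ^ n * (b : F) = algebraMap K F π * z := by
    rw [← hz]; push_cast; rfl
  by_cases hπ0 : π = 0
  · -- `a = x ^ n * b`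
    have hab : (a : F) = (x : F) ^ n * (b : F) := by
      rw [hπ0, map_zero, zero_mul] at hz'
      exact sub_eq_zero.1 hz'
    refine ⟨a, h97_inL_of_charts hxF D0 hD0 n _ haV fun v hv => ?_, rfl⟩
    have e : (a : F) * (xi : F) ^ n = (b : F) := by
      rw [hab, mul_comm ((x : F) ^ n), mul_assoc, hxn, mul_one]
    rw [e]
    exact hbV v hv
  -- `z` is regular where `ord x = 0`
  have hπF : algebraMap K F π ≠ 0 := by simpa using hπ0
  have hzeq : z = algebraMap K F π⁻¹ * ((a : F) - (x : F) ^ n * (b : F)) := by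
    rw [hz', ← mul_assoc, ← map_mul, inv_mul_cancel₀ hπ0, map_one, one_mul]
  have hzreg : ∀ v : Place K F, v.ord (x : F) = 0 → z ∈ v.toValuationSubring := by
    intro v hv
    rw [hzeq]
    refine v.toValuationSubring.mul_mem _ _ (v.algebraMap_mem' _)
      (v.toValuationSubring.sub_mem (haV v hv.ge) (v.toValuationSubring.mul_mem _ _
        (pow_mem (hxV v hv.ge) n) (hbV v hv.le)))
  obtain ⟨c1, c2, hc1, hc2, hzdec⟩ := h97_dec R x xi hxxi t N ht ht' hgen hn z hzO hzreg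
  -- the lift
  have hπA : π ∈ R.A := R.A.nonunits_subset hπ
  have hfO : (a : F) - algebraMap K F π * c1 ∈ R.O :=
    R.O.sub_mem a.2 (R.O.mul_mem (R.const_mem hπA) hc1.1)
  have hfeq : (a : F) - algebraMap K F π * c1 =
      (x : F) ^ n * ((b : F) + algebraMap K F π * c2) := by
    have h1 : (a : F) = (x : F) ^ n * (b : F) + algebraMap K F π * z := by
      rw [← hz']; ring
    rw [h1, hzdec]; ring
  refine ⟨⟨_, hfO⟩, h97_inL_of_charts hxF D0 hD0 n _ (fun v hv => ?_) (fun v hv => ?_), ?_⟩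
  · exact v.toValuationSubring.sub_mem (haV v hv)
      (v.toValuationSubring.mul_mem _ _ (v.algebraMap_mem' _) (hc1.2 v hv))
  · have e : ((a : F) - algebraMap K F π * c1) * (xi : F) ^ n =
        (b : F) + algebraMap K F π * c2 := by
      rw [hfeq, mul_comm ((x : F) ^ n), mul_assoc, hxn, mul_one]
    show ((a : F) - algebraMap K F π * c1) * (xi : F) ^ n ∈ v.toValuationSubring
    rw [e]
    exact v.toValuationSubring.add_mem _ _ (hbV v hv)
      (v.toValuationSubring.mul_mem _ _ (v.algebraMap_mem' _) (hc2.2 v hv))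
  · have hsmall : R.red (⟨algebraMap K F π * c1, R.O.mul_mem (R.const_mem hπA) hc1.1⟩ : R.O)
        = 0 := (R.red_eq_zero _).2 ⟨π, hπ, c1, hc1.1, rfl⟩
    have e : (⟨_, hfO⟩ : R.O) =
        a - ⟨algebraMap K F π * c1, R.O.mul_mem (R.const_mem hπA) hc1.1⟩ := rfl
    rw [e, map_sub, hsmall, sub_zero]

/-- (FG) in polynomial form implies the closure form. -/
theorem h97_closure_of_poly (R : h50_Lat K F B) (x : F) {r : ℕ} (t : Fin r → F) (c : F)
    (p : Fin r → K[X]) (hp : ∀ i j, (p i).coeff j ∈ R.A)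
    (hc : c = ∑ i, aeval x (p i) * t i) :
    c ∈ AddSubmonoid.closure
      {y : F | ∃ a ∈ R.A, ∃ (j : ℕ) (i : Fin r), y = algebraMap K F a * x ^ j * t i} := by
  rw [hc]
  refine AddSubmonoid.sum_mem _ fun i _ => ?_
  rw [aeval_eq_sum_range, Finset.sum_mul]
  refine AddSubmonoid.sum_mem _ fun j _ => ?_
  refine AddSubmonoid.subset_closure ⟨(p i).coeff j, hp i j, j, i, ?_⟩
  rw [Algebra.smul_def]

/-- **(L2) Strictness from finite generation**, polynomial form: if `t i ∈ L(N D0) ∩ O` generate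
the chart ring `G_x` as a module over `A[x]`, then `hstrict` of `h50_Lat.eshort` holds with
`n2 := N`. -/
theorem h97_strict_of_fg [HasPrincipalDivisors K F] (R : h50_Lat K F B) (x xi : R.O)
    (hxxi : x * xi = 1)
    (D0 : Divisor K F) (hD0 : ∀ v : Place K F, D0 v = max 0 (-v.ord (x : F)))
    {r : ℕ} (t : Fin r → R.O) (N : ℕ) (htL : ∀ i, h53_InL (N • D0) (t i : F))
    (hgen : ∀ c : R.O, (∀ v : Place K F, 0 ≤ v.ord (x : F) → 0 ≤ v.ord (c : F)) →
      ∃ p : Fin r → K[X], (∀ i j, (p i).coeff j ∈ R.A) ∧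
        (c : F) = ∑ i, aeval (x : F) (p i) * (t i : F)) :
    ∀ n, N ≤ n → ∀ a b : R.O,
      (∀ v : Place K F, 0 ≤ v.ord (x : F) → 0 ≤ v.ord (a : F)) →
      (∀ v : Place K F, 0 ≤ v.ord (xi : F) → 0 ≤ v.ord (b : F)) →
      R.red a = R.red x ^ n * R.red b →
      ∃ f : R.O, h53_InL (n • D0) (f : F) ∧ R.red f = R.red a := by
  have hxF : (x : F) * (xi : F) = 1 := by
    have := congrArg Subtype.val hxxi
    push_cast at this
    exact this
  have hx0 : (x : F) ≠ 0 := left_ne_zero_of_mul_eq_one hxF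
  have hxi0 : (xi : F) ≠ 0 := right_ne_zero_of_mul_eq_one hxF
  have hordxi : ∀ v : Place K F, v.ord (xi : F) = -v.ord (x : F) := by
    intro v
    have := v.ord_mul hx0 hxi0
    rw [hxF, Place.ord_one] at this
    omega
  have hsm : ∀ v : Place K F, (N • D0) v = (N : ℤ) * D0 v := fun v => by
    rw [Finsupp.smul_apply, nsmul_eq_mul]
  -- `t i ∈ G_x`
  have ht : ∀ i, h97_Gx R (x : F) (t i : F) := by
    intro i
    refine ⟨(t i).2, fun v hv => ?_⟩
    have h1 := (h53_inL_iff.1 (htL i)) v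
    have hmax : max 0 (-v.ord (x : F)) = 0 := max_eq_left (by omega)
    rw [hsm, hD0, hmax, mul_zero, neg_zero] at h1
    exact h53_OrdGE.mem_iff.1 h1
  -- `xi ^ N * t i ∈ G_xi`
  have ht' : ∀ i, h97_Gxi R (x : F) ((xi : F) ^ N * (t i : F)) := by
    intro i
    refine ⟨R.O.mul_mem (R.O.pow_mem xi.2 N) (t i).2, fun v hv => ?_⟩
    have h1 := (h53_inL_iff.1 (htL i)) v
    have hmax : max 0 (-v.ord (x : F)) = -v.ord (x : F) := max_eq_right (by omega)
    rw [hsm, hD0, hmax] at h1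
    have h2 : h53_OrdGE v ((xi : F) ^ N) ((N : ℤ) * (-v.ord (x : F))) := by
      refine Or.inr ?_
      rw [← zpow_natCast, v.ord_zpow, hordxi]
    have h3 := h2.mul h1
    have e : (N : ℤ) * (-v.ord (x : F)) + -((N : ℤ) * -v.ord (x : F)) = 0 := by ring
    rw [e] at h3
    exact h53_OrdGE.mem_iff.1 h3
  refine h97_strict_of_closure R x xi hxxi D0 hD0 (fun i => (t i : F)) N ht ht' ?_
  intro c hc
  obtain ⟨p, hp, hcp⟩ := hgen c hc
  exact h97_closure_of_poly R (x : F) (fun i => (t i : F)) (c : F) p hp hcp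

end Fermat.Agent.S36
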