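/-
S36 / I-VAL, generic series core of (MID-4) (helper21).

`θ = q d/dq` on Laurent series and the reduction of a divided twist-difference:
for a unit `ζ` of a valuation ring `A` with residue `1`, `ζ ≠ 1`, and `f` a ratio of `A`-integral
series (`f ∈ h60_Os A`),

  `(f(ζ q) - f(q)) / (ζ - 1) ∈ h60_Os A`   and its reduction is   `θ (red f)`.

* `h21_theta`, `h21_theta_coeff`, `h21_theta_mul` (Leibniz), `h21_theta_div`;
* `h21_gs`, `h21_gs_mul`: the geometric sums `(ζ^n - 1)/(ζ - 1)`, `n : ℤ`;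
* `h21_dd`: the divided difference of a series;
* `h21_twist_theta` (unit form, `h87_twist`), `h21_twistHom_theta` (`h59_twistHom` form).
-/
import Mathlib
import Fermat.Agent.S34.h60_SerRed
import Fermat.Agent.S24.h59_Cusp

set_option autoImplicit false
set_option synthInstance.maxHeartbeats 400000

noncomputable section

open ModularCurve

namespace Fermat.Agent.S36

open Fermat.Agent.S18 Fermat.Agent.S37 Fermat.Agent.S34 Fermat.Agent.S24

section Theta

variable {R : Type*} [CommRing R]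

/-- `θ = q d/dq`, coefficientwise. -/
def h21_thetaFun (f : LaurentSeries R) : LaurentSeries R where
  coeff n := (n : R) * f.coeff n
  isPWO_support' := f.isPWO_support.mono (fun n hn => by
    simp only [Function.mem_support, ne_eq, HahnSeries.mem_support] at hn ⊢
    intro h0
    exact hn (by rw [h0, mul_zero]))

/-- `θ = q d/dq` as an additive map. -/
def h21_theta : LaurentSeries R →+ LaurentSeries R where
  toFun := h21_thetaFun
  map_zero' := by
    ext n
    simp [h21_thetaFun]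
  map_add' f g := by
    ext n
    simp [h21_thetaFun, mul_add]

theorem h21_theta_coeff (f : LaurentSeries R) (n : ℤ) :
    (h21_theta f).coeff n = (n : R) * f.coeff n := rfl

theorem h21_theta_support (f : LaurentSeries R) : (h21_theta f).support ⊆ f.support := by
  intro n hn
  simp only [HahnSeries.mem_support, ne_eq] at hn ⊢
  intro h0
  exact hn (by rw [h21_theta_coeff, h0, mul_zero])

/-- Leibniz rule. -/
theorem h21_theta_mul (f g : LaurentSeries R) :
    h21_theta (f * g) = h21_theta f * g + f * h21_theta g := by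
  ext n
  rw [h21_theta_coeff, HahnSeries.coeff_add, HahnSeries.coeff_mul,
    HahnSeries.coeff_mul_left' f.isPWO_support (h21_theta_support f),
    HahnSeries.coeff_mul_right' g.isPWO_support (h21_theta_support g),
    Finset.mul_sum, ← Finset.sum_add_distrib]
  refine Finset.sum_congr rfl fun ij hij => ?_
  have h : ij.1 + ij.2 = n := (Finset.mem_antidiagonal.mp hij).2.2
  rw [h21_theta_coeff, h21_theta_coeff, ← h]
  push_cast
  ring

/-- Quotient rule, in cross-multiplied form. -/
theorem h21_theta_div (F a b : LaurentSeries R) (h : F * b = a) :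
    h21_theta F * b ^ 2 = h21_theta a * b - a * h21_theta b := by
  rw [← h, h21_theta_mul]
  ring

/-- The geometric sum `(c^n - 1)/(c - 1)` for an integer exponent. -/
def h21_gs (c : Rˣ) : ℤ → R
  | Int.ofNat m => ∑ i ∈ Finset.range m, (c : R) ^ i
  | Int.negSucc m => -(((c⁻¹ : Rˣ) : R) ^ (m + 1) * ∑ i ∈ Finset.range (m + 1), (c : R) ^ i)

theorem h21_gs_mul (c : Rˣ) (n : ℤ) : h21_gs c n * ((c : R) - 1) = ((c ^ n : Rˣ) : R) - 1 := by
  cases n with
  | ofNat m =>
    show (∑ i ∈ Finset.range m, (c : R) ^ i) * ((c : R) - 1) = _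
    rw [geom_sum_mul, Int.ofNat_eq_natCast, zpow_natCast, Units.val_pow_eq_pow_val]
  | negSucc m =>
    show -(((c⁻¹ : Rˣ) : R) ^ (m + 1) * ∑ i ∈ Finset.range (m + 1), (c : R) ^ i)
      * ((c : R) - 1) = _
    rw [neg_mul, mul_assoc, geom_sum_mul, zpow_negSucc, mul_sub, mul_one,
      ← Units.val_pow_eq_pow_val, ← Units.val_pow_eq_pow_val, ← Units.val_mul, inv_pow,
      inv_mul_cancel, Units.val_one]
    ring

theorem h21_gs_map {S : Type*} [CommRing S] (φ : R →+* S) (c : Rˣ) (n : ℤ) :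
    φ (h21_gs c n) = h21_gs (Units.map (φ : R →* S) c) n := by
  cases n with
  | ofNat m =>
    show φ (∑ i ∈ Finset.range m, (c : R) ^ i) = ∑ i ∈ Finset.range m, _
    rw [map_sum]
    refine Finset.sum_congr rfl fun i _ => ?_
    rw [map_pow]
    rfl
  | negSucc m =>
    show φ (-(((c⁻¹ : Rˣ) : R) ^ (m + 1) * ∑ i ∈ Finset.range (m + 1), (c : R) ^ i)) =
      -(_ * ∑ i ∈ Finset.range (m + 1), _)
    rw [map_neg, map_mul, map_sum, map_pow, ← map_inv]
    congr 2
    refine Finset.sum_congr rfl fun i _ => ?_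
    rw [map_pow]
    rfl

theorem h21_gs_one (n : ℤ) : h21_gs (1 : Rˣ) n = (n : R) := by
  cases n with
  | ofNat m =>
    show ∑ i ∈ Finset.range m, ((1 : Rˣ) : R) ^ i = _
    simp
  | negSucc m =>
    show -((((1 : Rˣ)⁻¹ : Rˣ) : R) ^ (m + 1) * ∑ i ∈ Finset.range (m + 1), ((1 : Rˣ) : R) ^ i) = _
    rw [Int.cast_negSucc]
    simp

/-- The divided difference `(f(c q) - f(q))/(c - 1)`, coefficientwise. -/
def h21_dd (c : Rˣ) (f : LaurentSeries R) : LaurentSeries R where
  coeff n := h21_gs c n * f.coeff n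
  isPWO_support' := f.isPWO_support.mono (fun n hn => by
    simp only [Function.mem_support, ne_eq, HahnSeries.mem_support] at hn ⊢
    intro h0
    exact hn (by rw [h0, mul_zero]))

theorem h21_dd_coeff (c : Rˣ) (f : LaurentSeries R) (n : ℤ) :
    (h21_dd c f).coeff n = h21_gs c n * f.coeff n := rfl

theorem h21_dd_smul (c : Rˣ) (f : LaurentSeries R) :
    ((c : R) - 1) • h21_dd c f = h87_twist c f - f := by
  ext n
  rw [HahnSeries.coeff_smul, h21_dd_coeff, HahnSeries.coeff_sub, h87_twist_coeff, smul_eq_mul,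
    ← mul_assoc, mul_comm ((c : R) - 1), h21_gs_mul]
  ring

theorem h21_coeffMap_dd {S : Type*} [CommRing S] (φ : R →+* S) (c : Rˣ) (f : LaurentSeries R) :
    coeffMap φ (h21_dd c f) = h21_dd (Units.map (φ : R →* S) c) (coeffMap φ f) := by
  ext n
  rw [coeffMap_coeff, h21_dd_coeff, h21_dd_coeff, coeffMap_coeff, map_mul, h21_gs_map]

theorem h21_dd_one (f : LaurentSeries R) : h21_dd (1 : Rˣ) f = h21_theta f := by
  ext n
  rw [h21_dd_coeff, h21_theta_coeff, h21_gs_one]

end Theta

section Main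

/-- The field identity behind `h21_twist_theta`. -/
theorem h21_aux {F : Type*} [Field F] (c f tf Y₁ Y₂ tY₁ tY₂ D₁ D₂ : F) (hc0 : c ≠ 0)
    (hfy : f * Y₂ = Y₁) (h1 : tf * tY₂ = tY₁) (hD₁ : c * D₁ = tY₁ - Y₁)
    (hD₂ : c * D₂ = tY₂ - Y₂) :
    c⁻¹ * (tf - f) * (Y₂ * tY₂) = D₁ * Y₂ - Y₁ * D₂ := by
  apply mul_left_cancel₀ hc0
  have e1 : c * (c⁻¹ * (tf - f) * (Y₂ * tY₂)) = (tf - f) * (Y₂ * tY₂) := by
    rw [mul_assoc, ← mul_assoc c, mul_inv_cancel₀ hc0, one_mul]
  rw [e1]
  linear_combination Y₂ * h1 - tY₂ * hfy - Y₂ * hD₁ + Y₁ * hD₂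

variable {K : Type*} [Field K] (A : ValuationSubring K)

/-- **(SER-θ)**: the divided twist-difference of a ratio of integral series is again such a
ratio, and its reduction is `θ` of the reduction. -/
theorem h21_twist_theta (ζ : Aˣ)
    (hζ : Units.map ((IsLocalRing.residue A : A →+* IsLocalRing.ResidueField A) :
      A →* IsLocalRing.ResidueField A) ζ = 1)
    (hne : ((ζ : A) : K) ≠ 1) (f : h60_Os A) :
    ∃ h : algebraMap K (LaurentSeries K) ((((ζ : A) : K) - 1)⁻¹) *
        (h87_twist (Units.map ((A.subtype : A →+* K) : A →* K) ζ) (f : LaurentSeries K)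
          - (f : LaurentSeries K)) ∈ h60_Os A,
      h60_rs A ⟨_, h⟩ = h21_theta (h60_rs A f) := by
  obtain ⟨y₁, y₂, hy, hfy⟩ := f.2
  have hc0 : algebraMap K (LaurentSeries K) (((ζ : A) : K) - 1) ≠ 0 :=
    (map_ne_zero _).2 (sub_ne_zero.2 hne)
  -- the divided differences
  have hD : ∀ y : LaurentSeries A,
      algebraMap K (LaurentSeries K) (((ζ : A) : K) - 1) * coeffMap A.subtype (h21_dd ζ y)
        = h87_twist (Units.map ((A.subtype : A →+* K) : A →* K) ζ) (coeffMap A.subtype y)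
          - coeffMap A.subtype y := by
    intro y
    rw [h21_coeffMap_dd, algebraMap_laurentSeries_eq_single, HahnSeries.single_zero_mul_eq_smul]
    exact h21_dd_smul (Units.map ((A.subtype : A →+* K) : A →* K) ζ) _
  have h1 : h87_twist (Units.map ((A.subtype : A →+* K) : A →* K) ζ) (f : LaurentSeries K)
        * h87_twist (Units.map ((A.subtype : A →+* K) : A →* K) ζ) (coeffMap A.subtype y₂)
      = h87_twist (Units.map ((A.subtype : A →+* K) : A →* K) ζ) (coeffMap A.subtype y₁) := by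
    rw [← map_mul, hfy]
  have hg : algebraMap K (LaurentSeries K) ((((ζ : A) : K) - 1)⁻¹) *
        (h87_twist (Units.map ((A.subtype : A →+* K) : A →* K) ζ) (f : LaurentSeries K)
          - (f : LaurentSeries K)) * coeffMap A.subtype (y₂ * h87_twist ζ y₂)
      = coeffMap A.subtype (h21_dd ζ y₁ * y₂ - y₁ * h21_dd ζ y₂) := by
    rw [map_mul, h87_coeffMap_twist, map_sub, map_mul, map_mul, map_inv₀]
    exact h21_aux _ _ _ _ _ _ _ _ _ hc0 hfy h1 (hD y₁) (hD y₂)
  have hz₂r : coeffMap (IsLocalRing.residue A) (y₂ * h87_twist ζ y₂)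
      = coeffMap (IsLocalRing.residue A) y₂ * coeffMap (IsLocalRing.residue A) y₂ := by
    rw [map_mul, h87_coeffMap_twist, hζ, h87_twist_one]
  have hz₁r : coeffMap (IsLocalRing.residue A) (h21_dd ζ y₁ * y₂ - y₁ * h21_dd ζ y₂)
      = h21_theta (coeffMap (IsLocalRing.residue A) y₁) * coeffMap (IsLocalRing.residue A) y₂
        - coeffMap (IsLocalRing.residue A) y₁
          * h21_theta (coeffMap (IsLocalRing.residue A) y₂) := by
    rw [map_sub, map_mul, map_mul, h21_coeffMap_dd, h21_coeffMap_dd, hζ, h21_dd_one,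
      h21_dd_one]
  have hz₂0 : coeffMap (IsLocalRing.residue A) (y₂ * h87_twist ζ y₂) ≠ 0 := by
    rw [hz₂r]
    exact mul_ne_zero hy hy
  have hmem : algebraMap K (LaurentSeries K) ((((ζ : A) : K) - 1)⁻¹) *
        (h87_twist (Units.map ((A.subtype : A →+* K) : A →* K) ζ) (f : LaurentSeries K)
          - (f : LaurentSeries K)) ∈ h60_Os A :=
    ⟨h21_dd ζ y₁ * y₂ - y₁ * h21_dd ζ y₂, y₂ * h87_twist ζ y₂, hz₂0, hg⟩
  have hfin : h21_theta (h60_rs A f) * coeffMap (IsLocalRing.residue A) (y₂ * h87_twist ζ y₂)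
      = coeffMap (IsLocalRing.residue A) (h21_dd ζ y₁ * y₂ - y₁ * h21_dd ζ y₂) := by
    rw [hz₂r, hz₁r]
    have hdiv := h21_theta_div _ _ _ (h60_rs_spec A f y₁ y₂ hfy)
    rw [pow_two] at hdiv
    exact hdiv
  exact ⟨hmem, h60_rs_eq A ⟨_, hmem⟩ (h21_dd ζ y₁ * y₂ - y₁ * h21_dd ζ y₂) (y₂ * h87_twist ζ y₂)
    hz₂0 hg (h21_theta (h60_rs A f)) hfin⟩

/-- The unit twist `h87_twist` and the field twist `h64_twist` agree. -/
theorem h21_twist_eq (u : Kˣ) (x : LaurentSeries K) : h87_twist u x = h64_twist (u : K) x := by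
  ext n
  rw [h87_twist_coeff, h64_twist_coeff, Units.val_zpow_eq_zpow_val, mul_comm]

/-- **(SER-θ)** in the `h59_twistHom` form (the binder shape of the middle embeddings). -/
theorem h21_twistHom_theta (ζ : K) (hζA : ζ ∈ A)
    (hζ1 : IsLocalRing.residue A ⟨ζ, hζA⟩ = 1) (hζ0 : ζ ≠ 0) (hne : ζ ≠ 1) (f : h60_Os A) :
    ∃ h : algebraMap K (LaurentSeries K) ((ζ - 1)⁻¹) *
        (h59_twistHom ζ hζ0 (f : LaurentSeries K) - (f : LaurentSeries K)) ∈ h60_Os A,
      h60_rs A ⟨_, h⟩ = h21_theta (h60_rs A f) := by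
  have hu : IsUnit (⟨ζ, hζA⟩ : A) := by
    rw [← IsLocalRing.residue_ne_zero_iff_isUnit, hζ1]
    exact one_ne_zero
  obtain ⟨u, hu⟩ := hu
  have hval : ((u : A) : K) = ζ := by rw [hu]
  have hres : Units.map ((IsLocalRing.residue A : A →+* IsLocalRing.ResidueField A) :
      A →* IsLocalRing.ResidueField A) u = 1 := by
    apply Units.ext
    show IsLocalRing.residue A (u : A) = 1
    rw [hu, hζ1]
  obtain ⟨h, hh⟩ := h21_twist_theta A u hres (by rw [hval]; exact hne) f
  have e : h87_twist (Units.map ((A.subtype : A →+* K) : A →* K) u) (f : LaurentSeries K)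
      = h59_twistHom ζ hζ0 (f : LaurentSeries K) := by
    rw [h21_twist_eq, h59_twistHom_apply]
    congr 1
  have e2 : algebraMap K (LaurentSeries K) ((((u : A) : K) - 1)⁻¹) *
        (h87_twist (Units.map ((A.subtype : A →+* K) : A →* K) u) (f : LaurentSeries K)
          - (f : LaurentSeries K))
      = algebraMap K (LaurentSeries K) ((ζ - 1)⁻¹) *
        (h59_twistHom ζ hζ0 (f : LaurentSeries K) - (f : LaurentSeries K)) := by
    rw [e, hval]
  refine ⟨e2 ▸ h, ?_⟩
  rw [← hh]
  congr 1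
  exact Subtype.ext e2.symm

end Main

end Fermat.Agent.S36
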