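import Mathlib
import Fermat.Agent.S36.h98_W2
import Fermat.Agent.S36.h69_ValTable

/-!
# S36 / I-VAL: `hne` for `h98_w2` (the three vertical valuations of level `M q²` are pairwise
distinct, every prime `q`)

* `h69_sepA`, `h69_sepB` : the elements `i0 h0`, `i2 h0` of `F0(M q²)` (`h0 = h69_sep M q`).
* `h69_w2_sep` : `w2 (sepA) = (0, 0, m)`, `w2 (sepB) = (m, 0, 0)` with `m > 0`.
* `h69_w2_hne` : the literal `hne` binder of `h99_integral_iff` / `h88_*` for `w := h98_w2 ..`.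
-/

set_option autoImplicit false
set_option synthInstance.maxHeartbeats 400000

noncomputable section

open ModularCurve AlgebraicCurve

namespace Fermat.Agent.S36

open Fermat.Agent.S34 Fermat.Agent.S37 Fermat.Agent.S24 Fermat.Agent.S18

local notation "Qb" => AlgebraicClosure ℚ

section Hne

variable (M q : ℕ) [NeZero M] [NeZero q] [Fact q.Prime] (hqM : ¬ q ∣ M)
  (A : ValuationSubring Qb) (hA : A.LiesOverPrime q) (ζ : Qb) (hζ : IsPrimitiveRoot ζ q)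
  (hex : h98_Ex M q hqM A ζ hζ)

/-- The separator `i0 h0` as an element of `F0(M q²)`. -/
def h69_sepA : h69_F0 (M * q * q) (A.inertiaSubgroupIn ℚ) :=
  ⟨h36_i0 M q (h69_sep M q),
    h69_i0_mem_F0 M q (h36_i0 M q) (h98_hi0 M q) _ _ (h69_sep_mem_F0 M q _)⟩

/-- The separator `i2 h0` as an element of `F0(M q²)`. -/
def h69_sepB : h69_F0 (M * q * q) (A.inertiaSubgroupIn ℚ) :=
  ⟨h36_i2 M q hqM (h69_sep M q),
    h69_i2_mem_F0 M q hqM (h36_i2 M q hqM) (h98_hi2 M q hqM) _ _ (h69_sep_mem_F0 M q _)⟩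

theorem h69_coe_sepA :
    ((h69_sepA M q A : h69_F0 (M * q * q) (A.inertiaSubgroupIn ℚ)) :
      modularFunctionFieldBar (M * q * q)) = h36_i0 M q (h69_sep M q) := rfl

theorem h69_coe_sepB :
    ((h69_sepB M q hqM A : h69_F0 (M * q * q) (A.inertiaSubgroupIn ℚ)) :
      modularFunctionFieldBar (M * q * q)) = h36_i2 M q hqM (h69_sep M q) := rfl

include hA in
/-- **The `w2`-values of the two separators**: `(0, 0, m)` and `(m, 0, 0)` with `m > 0`. -/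
theorem h69_w2_sep :
    ∃ m : ℤ, 0 < m ∧
      h98_w2 M q hqM A ζ hζ hex 0 (h69_sepA M q A) = 0 ∧
      h98_w2 M q hqM A ζ hζ hex 1 (h69_sepA M q A) = 0 ∧
      h98_w2 M q hqM A ζ hζ hex 2 (h69_sepA M q A) = m ∧
      h98_w2 M q hqM A ζ hζ hex 0 (h69_sepB M q hqM A) = m ∧
      h98_w2 M q hqM A ζ hζ hex 1 (h69_sepB M q hqM A) = 0 ∧
      h98_w2 M q hqM A ζ hζ hex 2 (h69_sepB M q hqM A) = 0 := by
  haveI : CharP (IsLocalRing.ResidueField A) q := h19_residueField_charP A q hA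
  obtain ⟨-, -, -, ε, hε, hε', hε0, hϖ⟩ := h98_zeta_unif q A hA ζ hζ
  obtain ⟨m, hm, h1, h2, h3, h4, h5, h6⟩ := h69_tab_sep M q hqM (h36_i0 M q) (h36_i2 M q hqM)
    (h98_hi0 M q) (h98_hi2 M q hqM) A hA ζ (hζ.ne_zero (NeZero.ne q)) hζ.pow_eq_one
    (h98_midP M q hqM ζ hζ) (h98_midP_i0 M q hqM ζ hζ) (h98_midP_i2 M q hqM ζ hζ)
    (ζ - 1) ε hε hε' hε0 hϖ (h36_W M q hqM) (h36_W_i0 M q hqM) (h36_W_i2 M q hqM)
    (h98_q_unif q A hA).2.2
  exact ⟨m, hm,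
    h98_v1_eq M q hqM A hA ζ hζ hex (h69_sepA M q A) 0 h1,
    h98_v2_eq M q hqM A hA ζ hζ hex (h69_sepA M q A) 0 h2,
    h98_v3_eq M q hqM A hA ζ hζ hex (h69_sepA M q A) m h3,
    h98_v1_eq M q hqM A hA ζ hζ hex (h69_sepB M q hqM A) m h4,
    h98_v2_eq M q hqM A hA ζ hζ hex (h69_sepB M q hqM A) 0 h5,
    h98_v3_eq M q hqM A hA ζ hζ hex (h69_sepB M q hqM A) 0 h6⟩

/-- The separators are nonzero. -/
theorem h69_sepA_ne_zero : h69_sepA M q A ≠ 0 := by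
  have h1 := h69_sep_GV M q A (q : Qb)
  have hne : h69_sep M q ≠ 0 := by
    rintro h
    apply h98_GV_ne_zero h1
    rw [h]
    rfl
  intro h0
  have h2 : h36_i0 M q (h69_sep M q) = 0 := congrArg Subtype.val h0
  exact (map_ne_zero (h36_i0 M q)).mpr hne h2

theorem h69_sepB_ne_zero : h69_sepB M q hqM A ≠ 0 := by
  have h1 := h69_sep_GV M q A (q : Qb)
  have hne : h69_sep M q ≠ 0 := by
    rintro h
    apply h98_GV_ne_zero h1
    rw [h]
    rfl
  intro h0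
  have h2 : h36_i2 M q hqM (h69_sep M q) = 0 := congrArg Subtype.val h0
  exact (map_ne_zero (h36_i2 M q hqM)).mpr hne h2

include hA in
/-- **`hne` for `h98_w2`**: the three vertical valuations of level `M q²` are pairwise distinct
(every prime `q`, including `q = 2`). -/
theorem h69_w2_hne : ∀ c c' : Fin 3, c ≠ c' →
    ∃ g : h69_F0 (M * q * q) (A.inertiaSubgroupIn ℚ), g ≠ 0 ∧
      h98_w2 M q hqM A ζ hζ hex c g ≠ h98_w2 M q hqM A ζ hζ hex c' g := by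
  obtain ⟨m, hm, a0, a1, a2, b0, b1, b2⟩ := h69_w2_sep M q hqM A hA ζ hζ hex
  have hA0 := h69_sepA_ne_zero M q A
  have hB0 := h69_sepB_ne_zero M q hqM A
  intro c c' hcc
  fin_cases c <;> fin_cases c'
  · exact absurd rfl hcc
  · exact ⟨_, hB0, by
      show h98_w2 M q hqM A ζ hζ hex 0 _ ≠ h98_w2 M q hqM A ζ hζ hex 1 _
      rw [b0, b1]; omega⟩
  · exact ⟨_, hB0, by
      show h98_w2 M q hqM A ζ hζ hex 0 _ ≠ h98_w2 M q hqM A ζ hζ hex 2 _
      rw [b0, b2]; omega⟩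
  · exact ⟨_, hB0, by
      show h98_w2 M q hqM A ζ hζ hex 1 _ ≠ h98_w2 M q hqM A ζ hζ hex 0 _
      rw [b0, b1]; omega⟩
  · exact absurd rfl hcc
  · exact ⟨_, hA0, by
      show h98_w2 M q hqM A ζ hζ hex 1 _ ≠ h98_w2 M q hqM A ζ hζ hex 2 _
      rw [a1, a2]; omega⟩
  · exact ⟨_, hB0, by
      show h98_w2 M q hqM A ζ hζ hex 2 _ ≠ h98_w2 M q hqM A ζ hζ hex 0 _
      rw [b0, b2]; omega⟩
  · exact ⟨_, hA0, by
      show h98_w2 M q hqM A ζ hζ hex 2 _ ≠ h98_w2 M q hqM A ζ hζ hex 1 _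
      rw [a1, a2]; omega⟩
  · exact absurd rfl hcc

end Hne

end Fermat.Agent.S36
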