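/-
S36 / (K7) = (LD), generic (helper89): Artin's linear disjointness for semilinear actions.

A set `S` acts on a field `K` by ring endomorphisms and on a `K`-vector space `F` by semilinear
additive maps.  A family of `S`-fixed vectors which is linearly independent over the fixed
elements of `K` is linearly independent over `K`.

* `h89_artin_lin_disjoint` : Mathlib-only form.
* `h89_linearIndependent_of_fixed` : the form for a subgroup `H` acting through
  `ρ : G →* SemilinearAut K F` (rational functions and rational constants).
-/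
import Mathlib
import Fermat.Prelude.Def_AlgebraicCurve_BaseChangeGalois

set_option autoImplicit false

namespace Fermat.Agent.S36

/-- **Artin's lemma** (minimal relation): fixed vectors independent over the fixed constants are
independent over all constants. -/
theorem h89_artin_lin_disjoint {K F : Type*} [Field K] [AddCommGroup F] [Module K F]
    {S : Type*} (actK : S → K →+* K) (actF : S → F →+ F)
    (hsemi : ∀ (s : S) (a : K) (x : F), actF s (a • x) = actK s a • actF s x)
    {ι : Type*} (f : ι → F) (hf : ∀ (s : S) (i : ι), actF s (f i) = f i)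
    (hind0 : ∀ (t : Finset ι) (c : ι → K), (∀ i ∈ t, ∀ s : S, actK s (c i) = c i) →
      ∑ i ∈ t, c i • f i = 0 → ∀ i ∈ t, c i = 0) :
    ∀ (t : Finset ι) (c : ι → K), ∑ i ∈ t, c i • f i = 0 → ∀ i ∈ t, c i = 0 := by
  classical
  intro t
  induction t using Finset.strongInduction with
  | H t ih =>
    intro c hrel
    by_contra hcon
    rw [not_forall] at hcon
    obtain ⟨i0, hi0⟩ := hcon
    rw [Classical.not_imp] at hi0
    obtain ⟨hi0t, hci0⟩ := hi0
    -- normalise the relation at `i0`
    set c' : ι → K := fun i => c i / c i0 with hc'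
    have hc'i0 : c' i0 = 1 := by rw [hc']; exact div_self hci0
    have hrel' : ∑ i ∈ t, c' i • f i = 0 := by
      have h1 : ∑ i ∈ t, c' i • f i = (c i0)⁻¹ • ∑ i ∈ t, c i • f i := by
        rw [Finset.smul_sum]
        refine Finset.sum_congr rfl fun i _ => ?_
        rw [smul_smul]
        show (c i / c i0) • f i = ((c i0)⁻¹ * c i) • f i
        rw [div_eq_inv_mul]
      rw [h1, hrel, smul_zero]
    -- the normalised coefficients are fixed
    have hfix : ∀ i ∈ t, ∀ s : S, actK s (c' i) = c' i := by
      intro i hi s
      have h2 : ∑ j ∈ t, actK s (c' j) • f j = 0 := by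
        have h3 := congrArg (actF s) hrel'
        rw [map_sum, map_zero] at h3
        rw [← h3]
        refine Finset.sum_congr rfl fun j _ => ?_
        rw [hsemi, hf]
      have h4 : ∑ j ∈ t.erase i0, (actK s (c' j) - c' j) • f j = 0 := by
        have h5 : ∑ j ∈ t, (actK s (c' j) - c' j) • f j = 0 := by
          simp only [sub_smul, Finset.sum_sub_distrib, h2, hrel', sub_zero]
        rw [← Finset.add_sum_erase t _ hi0t] at h5
        rw [hc'i0, map_one, sub_self, zero_smul, zero_add] at h5
        exact h5
      by_cases hii0 : i = i0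
      · rw [hii0, hc'i0, map_one]
      · have h6 := ih (t.erase i0) (Finset.erase_ssubset hi0t)
          (fun j => actK s (c' j) - c' j) h4 i (Finset.mem_erase.2 ⟨hii0, hi⟩)
        exact sub_eq_zero.1 h6
    have h7 := hind0 t c' hfix hrel' i0 hi0t
    rw [hc'i0] at h7
    exact one_ne_zero h7

open AlgebraicCurve in
/-- **(K7) = (LD)**: functions fixed by a subgroup `H` (acting semilinearly through `ρ`) which
are linearly independent over the `H`-fixed constants are linearly independent over `K`. -/
theorem h89_linearIndependent_of_fixed {K F : Type*} [Field K] [Field F] [Algebra K F]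
    {G : Type*} [Group G] (ρ : G →* SemilinearAut K F) (H : Subgroup G)
    {ι : Type*} (f : ι → F) (hf : ∀ σ ∈ H, ∀ i, ρ σ • f i = f i)
    (hind0 : ∀ (t : Finset ι) (c : ι → K),
      (∀ i ∈ t, ∀ σ ∈ H, SemilinearAut.baseAut (ρ σ) (c i) = c i) →
      ∑ i ∈ t, c i • f i = 0 → ∀ i ∈ t, c i = 0) :
    LinearIndependent K f := by
  rw [linearIndependent_iff']
  refine h89_artin_lin_disjoint (S := H)
    (fun σ => (SemilinearAut.baseAut (ρ σ.1) : K →+* K))
    (fun σ => ((SemilinearAut.toRingAut (ρ σ.1) : F →+* F) : F →+ F)) ?_ f ?_ ?_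
  · intro σ a x
    show SemilinearAut.toRingAut (ρ σ.1) (a • x) =
      SemilinearAut.baseAut (ρ σ.1) a • SemilinearAut.toRingAut (ρ σ.1) x
    rw [Algebra.smul_def, Algebra.smul_def, map_mul, SemilinearAut.commutes]
  · intro σ i
    exact hf σ.1 σ.2 i
  · intro t c hc hrel
    exact hind0 t c (fun i hi σ hσ => hc i hi ⟨σ, hσ⟩) hrel

end Fermat.Agent.S36
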