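import Mathlib
import Fermat.Agent.S36.h99_FundEq

/-!
# S36 / row I-VAL : residue degree one from the fundamental inequality (helper98)

Generic (Mathlib + `h99_FundEq`).  `K ⊆ K'` a finite extension of fields, `wK` a normalised
`ℤ`-valued valuation of `K` (a uniformiser `π` with `wK π = 1`), `w c` (`c : κ`) pairwise distinct
normalised valuations of `K'` with `w c ∘ algebraMap = e c * wK`.  If `[K' : K] ≤ ∑ c, e c`
then every `w c₀` with `1 ≤ e c₀` has residue degree one over `wK`: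

`h98_resdeg_one` : `w c₀ y = 0 → ∃ y' : K, y - y' = 0 ∨ 0 < w c₀ (y - y')`.
-/

set_option autoImplicit false
set_option linter.unusedSectionVars false

namespace Fermat.Agent.S36

section ResDeg

variable {K : Type*} [Field K]

/-- The valuation ring of a `ℤ`-valued valuation given on nonzero elements. -/
def h98_valRing (wK : K → ℤ) (hwK : h99_IsVal wK) : ValuationSubring K where
  carrier := {g | g = 0 ∨ 0 ≤ wK g}
  mul_mem' := fun {a b} ha hb => by
    have h := h99_ge_mul hwK (m := 0) (m' := 0) ha hb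
    rw [zero_add] at h
    exact h
  one_mem' := Or.inr (h99_w_one hwK).ge
  add_mem' := fun {a b} ha hb => h99_ge_add hwK (m := 0) ha hb
  zero_mem' := Or.inl rfl
  neg_mem' := fun {a} ha => h99_ge_neg hwK (m := 0) ha
  mem_or_inv_mem' := fun a => by
    by_cases ha : a = 0
    · exact Or.inl (Or.inl ha)
    · rcases le_total 0 (wK a) with h | h
      · exact Or.inl (Or.inr h)
      · exact Or.inr (Or.inr (by rw [h99_w_inv hwK ha]; omega))

theorem h98_valRing_mem (wK : K → ℤ) (hwK : h99_IsVal wK) (g : K) :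
    g ∈ h98_valRing wK hwK ↔ g = 0 ∨ 0 ≤ wK g := Iff.rfl

theorem h98_valRing_unit (wK : K → ℤ) (hwK : h99_IsVal wK) (r : h98_valRing wK hwK) :
    IsUnit r ↔ (r : K) ≠ 0 ∧ wK r = 0 := by
  constructor
  · rintro ⟨u, rfl⟩
    have h1 : ((u : h98_valRing wK hwK) : K) *
        (((u⁻¹ : (h98_valRing wK hwK)ˣ) : h98_valRing wK hwK) : K) = 1 := by
      have h := congrArg Subtype.val u.mul_inv
      exact h
    have hu0 : ((u : h98_valRing wK hwK) : K) ≠ 0 := left_ne_zero_of_mul_eq_one h1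
    have hv0 : (((u⁻¹ : (h98_valRing wK hwK)ˣ) : h98_valRing wK hwK) : K) ≠ 0 :=
      right_ne_zero_of_mul_eq_one h1
    refine ⟨hu0, ?_⟩
    have h2 := hwK.map_mul _ _ hu0 hv0
    rw [h1, h99_w_one hwK] at h2
    have h3 : 0 ≤ wK ((u : h98_valRing wK hwK) : K) :=
      ((u : h98_valRing wK hwK).2 : _ ∨ _).resolve_left hu0
    have h4 : 0 ≤ wK (((u⁻¹ : (h98_valRing wK hwK)ˣ) : h98_valRing wK hwK) : K) :=
      (((u⁻¹ : (h98_valRing wK hwK)ˣ) : h98_valRing wK hwK).2 : _ ∨ _).resolve_left hv0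
    omega
  · rintro ⟨h0, h1⟩
    have hinv : (r : K)⁻¹ ∈ h98_valRing wK hwK :=
      Or.inr (by rw [h99_w_inv hwK h0, h1]; simp)
    exact IsUnit.of_mul_eq_one ⟨(r : K)⁻¹, hinv⟩ (Subtype.ext (mul_inv_cancel₀ h0))

theorem h98_valRing_dvr (wK : K → ℤ) (hwK : h99_IsVal wK) (π : K) (hπ0 : π ≠ 0) (hπ : wK π = 1)
    (hπm : π ∈ h98_valRing wK hwK) (r : h98_valRing wK hwK) (hr : r ≠ 0) :
    ∃ (k : ℕ) (u : (h98_valRing wK hwK)ˣ), r = (⟨π, hπm⟩ : h98_valRing wK hwK) ^ k * u := by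
  have hr0 : (r : K) ≠ 0 := fun h => hr (Subtype.ext h)
  have hk : 0 ≤ wK r := (r.2 : _ ∨ _).resolve_left hr0
  have hpk : π ^ (wK r).toNat ≠ 0 := pow_ne_zero _ hπ0
  have hu0 : (r : K) * (π ^ (wK r).toNat)⁻¹ ≠ 0 := mul_ne_zero hr0 (inv_ne_zero hpk)
  have hwu : wK ((r : K) * (π ^ (wK r).toNat)⁻¹) = 0 := by
    rw [hwK.map_mul _ _ hr0 (inv_ne_zero hpk), h99_w_inv hwK hpk, h99_w_pow hwK hπ0, hπ]
    have : (((wK r).toNat : ℕ) : ℤ) = wK r := Int.toNat_of_nonneg hk
    rw [this]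
    ring
  have hum : (r : K) * (π ^ (wK r).toNat)⁻¹ ∈ h98_valRing wK hwK := Or.inr hwu.ge
  have hunit : IsUnit (⟨_, hum⟩ : h98_valRing wK hwK) :=
    (h98_valRing_unit wK hwK _).mpr ⟨hu0, hwu⟩
  refine ⟨(wK r).toNat, hunit.unit, Subtype.ext ?_⟩
  show (r : K) = π ^ (wK r).toNat * ((r : K) * (π ^ (wK r).toNat)⁻¹)
  field_simp

end ResDeg

section Main

variable {K K' : Type*} [Field K] [Field K'] [Algebra K K']

/-- the one-dimensional independence statement: units of the valuation ring. -/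
theorem h98_resdeg_hb1 (wK : K → ℤ) (w : K' → ℤ) (e : ℕ)
    (hres : ∀ g : K, g ≠ 0 → w (algebraMap K K' g) = e * wK g)
    (r : K) (hr0 : r ≠ 0) (hr : wK r = 0) :
    algebraMap K K' r ≠ 0 ∧ w (algebraMap K K' r) = 0 := by
  refine ⟨fun h => hr0 ((map_eq_zero _).mp h), ?_⟩
  rw [hres r hr0, hr, mul_zero]

/-- the two-dimensional independence statement, from the failure of residue degree one. -/
theorem h98_resdeg_hb2 (wK : K → ℤ) (hwK : h99_IsVal wK) (w : K' → ℤ) (hw : h99_IsVal w) (e : ℕ)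
    (he : 1 ≤ e) (hres : ∀ g : K, g ≠ 0 → w (algebraMap K K' g) = e * wK g)
    (y : K') (hy0 : y ≠ 0) (hy : w y = 0)
    (hcon : ∀ y' : K, y - algebraMap K K' y' ≠ 0 ∧ w (y - algebraMap K K' y') ≤ 0)
    (r0 r1 : K) (h0 : r0 = 0 ∨ 0 ≤ wK r0) (h1 : r1 = 0 ∨ 0 ≤ wK r1)
    (hu : (r0 ≠ 0 ∧ wK r0 = 0) ∨ (r1 ≠ 0 ∧ wK r1 = 0)) :
    algebraMap K K' r0 * 1 + algebraMap K K' r1 * y ≠ 0 ∧
      w (algebraMap K K' r0 * 1 + algebraMap K K' r1 * y) = 0 := by
  rw [mul_one]
  by_cases hr1 : r1 ≠ 0 ∧ wK r1 = 0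
  · -- `r1` a unit
    obtain ⟨hr10, hr1w⟩ := hr1
    have hφ1 : algebraMap K K' r1 ≠ 0 := fun h => hr10 ((map_eq_zero _).mp h)
    obtain ⟨hne, hle⟩ := hcon (-(r0 / r1))
    have heq : algebraMap K K' r0 + algebraMap K K' r1 * y
        = algebraMap K K' r1 * (y - algebraMap K K' (-(r0 / r1))) := by
      rw [map_neg, map_div₀]
      field_simp
      ring
    have hge : 0 ≤ w (y - algebraMap K K' (-(r0 / r1))) := by
      have hy' : h99_Ge w 0 y := Or.inr hy.ge
      have hφ : h99_Ge w 0 (-(algebraMap K K' (-(r0 / r1)))) := by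
        by_cases hr00 : r0 = 0
        · left
          rw [hr00]
          simp
        · right
          have hne' : -(r0 / r1) ≠ 0 := neg_ne_zero.mpr (div_ne_zero hr00 hr10)
          have hφne : algebraMap K K' (-(r0 / r1)) ≠ 0 := fun h => hne' ((map_eq_zero _).mp h)
          rw [h99_w_neg hw hφne, hres _ hne', h99_w_neg hwK (div_ne_zero hr00 hr10), div_eq_mul_inv,
            hwK.map_mul _ _ hr00 (inv_ne_zero hr10), h99_w_inv hwK hr10, hr1w]
          have := h0.resolve_left hr00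
          have he' : (0 : ℤ) ≤ e := by positivity
          nlinarith
      have := h99_ge_add hw hy' hφ
      rw [← sub_eq_add_neg] at this
      exact this.resolve_left hne
    rw [heq]
    refine ⟨mul_ne_zero hφ1 hne, ?_⟩
    rw [hw.map_mul _ _ hφ1 hne, hres _ hr10, hr1w]
    omega
  · -- `r0` a unit, `r1` in the maximal ideal
    obtain ⟨hr00, hr0w⟩ := hu.resolve_right hr1
    have hφ0 : algebraMap K K' r0 ≠ 0 := fun h => hr00 ((map_eq_zero _).mp h)
    have hw0 : w (algebraMap K K' r0) = 0 := by rw [hres _ hr00, hr0w, mul_zero]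
    have hrest : h99_Ge w (w (algebraMap K K' r0) + 1) (algebraMap K K' r1 * y) := by
      by_cases hr10 : r1 = 0
      · left
        rw [hr10, map_zero, zero_mul]
      · right
        have hφ1 : algebraMap K K' r1 ≠ 0 := fun h => hr10 ((map_eq_zero _).mp h)
        rw [hw0, hw.map_mul _ _ hφ1 hy0, hy, hres _ hr10]
        have h1' := h1.resolve_left hr10
        have h2 : wK r1 ≠ 0 := fun h => hr1 ⟨hr10, h⟩
        have h3 : 1 ≤ wK r1 := by omega
        have he' : (1 : ℤ) ≤ e := by exact_mod_cast he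
        nlinarith
    obtain ⟨hne, hval⟩ := h99_w_add_eq hw hφ0 hrest
    exact ⟨hne, by rw [hval, hw0]⟩

/-- **Residue degree one.**  If `[K' : K] ≤ ∑ c, e c` for the listed (pairwise distinct,
normalised) extensions `w c` of the normalised valuation `wK`, then each `w c₀` with `1 ≤ e c₀`
has the same residue field as `wK`. -/
theorem h98_resdeg_one [FiniteDimensional K K']
    (wK : K → ℤ) (hwK : h99_IsVal wK) (π : K) (hπ0 : π ≠ 0) (hπ : wK π = 1)
    {κ : Type*} [Fintype κ] [DecidableEq κ] (w : κ → K' → ℤ) (hw : ∀ c, h99_IsVal (w c))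
    (e : κ → ℕ)
    (hres : ∀ c (g : K), g ≠ 0 → w c (algebraMap K K' g) = e c * wK g)
    (hnorm : ∀ c, ∃ z : K', z ≠ 0 ∧ w c z = 1)
    (hne : ∀ c c', c ≠ c' → ∃ g : K', g ≠ 0 ∧ w c g ≠ w c' g)
    (hdeg : Module.finrank K K' ≤ ∑ c, e c)
    (c₀ : κ) (he0 : 1 ≤ e c₀) (y : K') (hy0 : y ≠ 0) (hy : w c₀ y = 0) :
    ∃ y' : K, y - algebraMap K K' y' = 0 ∨ 0 < w c₀ (y - algebraMap K K' y') := by
  by_contra hcon
  push Not at hcon
  let R := h98_valRing wK hwK
  let _ : Algebra R K' := ((algebraMap K K').comp R.subtype).toAlgebra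
  have : IsScalarTower R K K' := IsScalarTower.of_algebraMap_eq (fun r => rfl)
  have hrank : Module.rank R K' ≤ (Module.finrank K K' : Cardinal) := h99_rank_le_of_finrank K
  have hinj : Function.Injective (algebraMap R K') :=
    (algebraMap K K').injective.comp Subtype.val_injective
  have hR : ∀ c (r : R), algebraMap R K' r ≠ 0 → 0 ≤ w c (algebraMap R K' r) := by
    intro c r hr
    have hr0 : (r : K) ≠ 0 := fun h => hr (by
      show algebraMap K K' (r : K) = 0
      rw [h, map_zero])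
    show 0 ≤ w c (algebraMap K K' (r : K))
    rw [hres c _ hr0]
    have h1 : 0 ≤ wK (r : K) := (r.2 : _ ∨ _).resolve_left hr0
    positivity
  have hπm : π ∈ h98_valRing wK hwK := Or.inr (by rw [hπ]; norm_num)
  have hπR0 : (⟨π, hπm⟩ : R) ≠ 0 := fun h => hπ0 (congrArg Subtype.val h)
  have hπu : ¬ IsUnit (⟨π, hπm⟩ : R) := by
    intro h
    have := ((h98_valRing_unit wK hwK _).mp h).2
    change wK π = 0 at this
    omega
  have hDVR : ∀ r : R, r ≠ 0 → ∃ (k : ℕ) (u : Rˣ), r = (⟨π, hπm⟩ : R) ^ k * u :=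
    fun r hr => h98_valRing_dvr wK hwK π hπ0 hπ hπm r hr
  have he : ∀ c, w c (algebraMap R K' (⟨π, hπm⟩ : R)) = e c := by
    intro c
    show w c (algebraMap K K' π) = e c
    rw [hres c π hπ0, hπ, mul_one]
  let f : κ → ℕ := fun c => if c = c₀ then 2 else 1
  let b : (c : κ) → Fin (f c) → K' := fun c j => if (j : ℕ) = 0 then 1 else y
  have key : ∀ (c : κ) (n : ℕ) (hn : n = 1 ∨ (n = 2 ∧ c = c₀)) (r : Fin n → R),
      (∃ j, IsUnit (r j)) →
      ∑ j, r j • (if (j : ℕ) = 0 then (1 : K') else y) ≠ 0 ∧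
        w c (∑ j, r j • (if (j : ℕ) = 0 then (1 : K') else y)) = 0 := by
    intro c n hn r hr
    rcases hn with rfl | ⟨rfl, rfl⟩
    · obtain ⟨j, hj⟩ := hr
      have hj0 : j = 0 := Subsingleton.elim _ _
      subst hj0
      obtain ⟨h0, h1⟩ := (h98_valRing_unit wK hwK _).mp hj
      have := h98_resdeg_hb1 wK (w c) (e c) (hres c) (r 0 : K) h0 h1
      rw [Fin.sum_univ_one]
      simp only [Fin.val_zero, if_true, Algebra.smul_def, mul_one]
      exact this
    · have hu : ((r 0 : K) ≠ 0 ∧ wK (r 0) = 0) ∨ ((r 1 : K) ≠ 0 ∧ wK (r 1) = 0) := by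
        obtain ⟨j, hj⟩ := hr
        have hj' := (h98_valRing_unit wK hwK _).mp hj
        fin_cases j
        · exact Or.inl hj'
        · exact Or.inr hj'
      have := h98_resdeg_hb2 wK hwK (w c) (hw c) (e c) he0 (hres c) y hy0 hy hcon
        (r 0 : K) (r 1 : K) (r 0).2 (r 1).2 hu
      rw [Fin.sum_univ_two]
      simp only [Fin.val_zero, Fin.val_one, if_true, one_ne_zero, if_false, Algebra.smul_def]
      exact this
  have hb : ∀ c (r : Fin (f c) → R), (∃ j, IsUnit (r j)) →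
      ∑ j, r j • b c j ≠ 0 ∧ w c (∑ j, r j • b c j) = 0 := by
    intro c r hr
    refine key c (f c) ?_ r hr
    by_cases hc : c = c₀
    · right
      exact ⟨by simp [f, hc], hc⟩
    · left
      simp [f, hc]
  have hn : Module.finrank K K' ≤ ∑ c, e c * f c :=
    hdeg.trans (Finset.sum_le_sum fun c _ => by
      show e c ≤ e c * f c
      have : 1 ≤ f c := by
        show 1 ≤ (if c = c₀ then 2 else 1)
        split_ifs <;> omega
      nlinarith)
  have hsum := h99_sum_ef_eq w hw hinj hR (⟨π, hπm⟩ : R) hπR0 hπu hDVR e he hnorm hne f b hb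
    (Module.finrank K K') hrank hn
  have hgt : ∑ c, e c + e c₀ ≤ ∑ c, e c * f c := by
    have h1 : ∑ c, e c * f c = ∑ c, (e c + if c = c₀ then e c₀ else 0) := by
      refine Finset.sum_congr rfl fun c _ => ?_
      show e c * (if c = c₀ then 2 else 1) = _
      split_ifs with hc
      · rw [hc]; ring
      · ring
    rw [h1, Finset.sum_add_distrib, Finset.sum_ite_eq' Finset.univ c₀ (fun _ => e c₀)]
    simp
  omega

end Main

end Fermat.Agent.S36
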