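import Mathlib
import Fermat.Agent.S36.h89_LinDisj
import Fermat.Agent.S36.h98_ResDeg

/-!
# S36 / row I-VAL : residue degree one over a fixed subfield (helper98)

Generic (Mathlib + `h89_LinDisj` + `h98_ResDeg`), all statements in ring-homomorphism form (no
algebra instance on the concrete fields is needed by the callers).

* `h98_artin_hom` : Artin's lemma for an equivariant embedding `α : F1 →+* F2`;
* `h98_finrank_le_of_hom` : if `K1 ⊆ F1`, `K2 ⊆ F2` are the fixed fields, `φ = α|K1`, then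
  `[K2 : φ K1] ≤ [F2 : α F1]`;
* `h98_resdeg_one_hom` : `h98_resdeg_one` for a ring homomorphism `φ : K →+* K'`;
* `h98_resdeg_one_artin` : the combination.
-/

set_option autoImplicit false
set_option linter.unusedSectionVars false
set_option linter.style.haveILetI false

namespace Fermat.Agent.S36

/-- Artin's lemma for two fields and an equivariant embedding. -/
theorem h98_artin_hom {F1 F2 : Type*} [Field F1] [Field F2] (α : F1 →+* F2) {S : Type*}
    (act1 : S → F1 →+* F1) (act2 : S → F2 →+* F2)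
    (hα : ∀ (s : S) (a : F1), act2 s (α a) = α (act1 s a))
    {ι : Type*} (y : ι → F2) (hy : ∀ (s : S) (i : ι), act2 s (y i) = y i)
    (hind0 : ∀ (t : Finset ι) (c : ι → F1), (∀ i ∈ t, ∀ s : S, act1 s (c i) = c i) →
      ∑ i ∈ t, α (c i) * y i = 0 → ∀ i ∈ t, c i = 0)
    (t : Finset ι) (c : ι → F1) (hrel : ∑ i ∈ t, α (c i) * y i = 0) : ∀ i ∈ t, c i = 0 := by
  letI : Algebra F1 F2 := α.toAlgebra
  refine h89_artin_lin_disjoint (K := F1) (F := F2) (S := S) act1
    (fun s => (act2 s : F2 →+ F2)) ?_ y hy ?_ t c hrel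
  · intro s a x
    show act2 s (α a * x) = α (act1 s a) * act2 s x
    rw [map_mul, hα]
  · intro t c hc hrel
    exact hind0 t c hc hrel

/-- Degree bound for the fixed fields of an equivariant embedding. -/
theorem h98_finrank_le_of_hom {F1 F2 K1 K2 : Type*} [Field F1] [Field F2] [Field K1] [Field K2]
    (α : F1 →+* F2) (φ : K1 →+* K2) (j1 : K1 →+* F1) (j2 : K2 →+* F2)
    (hcomm : ∀ a, j2 (φ a) = α (j1 a))
    {S : Type*} (act1 : S → F1 →+* F1) (act2 : S → F2 →+* F2)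
    (hα : ∀ (s : S) (a : F1), act2 s (α a) = α (act1 s a))
    (hfix2 : ∀ (s : S) (y : K2), act2 s (j2 y) = j2 y)
    (hfix1 : ∀ a : F1, (∀ s : S, act1 s a = a) → ∃ a' : K1, j1 a' = a)
    (n : ℕ)
    (hdeg : letI : Algebra F1 F2 := α.toAlgebra
      Module.Finite F1 F2 ∧ Module.finrank F1 F2 ≤ n) :
    letI : Algebra K1 K2 := φ.toAlgebra
    Module.Finite K1 K2 ∧ Module.finrank K1 K2 ≤ n := by
  classical
  letI : Algebra K1 K2 := φ.toAlgebra
  letI : Algebra F1 F2 := α.toAlgebra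
  obtain ⟨hfin, hle⟩ := hdeg
  have hrank : Module.rank K1 K2 ≤ (n : Cardinal) := by
    refine rank_le fun s hs => ?_
    have hli2 : LinearIndependent F1 (fun i : s => j2 (i : K2)) := by
      rw [linearIndependent_iff']
      intro t c hrel
      refine h98_artin_hom α act1 act2 hα (fun i : s => j2 (i : K2)) (fun σ i => hfix2 σ _) ?_
        t c hrel
      intro t c hc hrel i hi
      have hex : ∀ i : s, ∃ a' : K1, i ∈ t → j1 a' = c i := by
        intro i
        by_cases hi : i ∈ t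
        · obtain ⟨a', ha'⟩ := hfix1 (c i) (hc i hi)
          exact ⟨a', fun _ => ha'⟩
        · exact ⟨0, fun h => absurd h hi⟩
      choose c' hc' using hex
      have h1 : ∑ i ∈ t, c' i • (i : K2) = 0 := by
        apply j2.injective
        rw [map_sum, map_zero, ← hrel]
        refine Finset.sum_congr rfl fun i hi => ?_
        show j2 (φ (c' i) * (i : K2)) = α (c i) * j2 (i : K2)
        rw [map_mul, hcomm, hc' i hi]
      have h3 := linearIndependent_iff'.mp hs t c' h1 i hi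
      rw [← hc' i hi, h3, map_zero]
    have h := hli2.fintype_card_le_finrank
    rw [Fintype.card_coe] at h
    exact h.trans hle
  exact ⟨Module.rank_lt_aleph0_iff.mp (lt_of_le_of_lt hrank (Cardinal.natCast_lt_aleph0 (n := n))),
    Module.finrank_le_of_rank_le hrank⟩

/-- `h98_resdeg_one` for a ring homomorphism. -/
theorem h98_resdeg_one_hom {K K' : Type*} [Field K] [Field K'] (φ : K →+* K') (n : ℕ)
    (hdeg : letI : Algebra K K' := φ.toAlgebra
      Module.Finite K K' ∧ Module.finrank K K' ≤ n)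
    (wK : K → ℤ) (hwK : h99_IsVal wK) (π : K) (hπ0 : π ≠ 0) (hπ : wK π = 1)
    {κ : Type*} [Fintype κ] [DecidableEq κ] (w : κ → K' → ℤ) (hw : ∀ c, h99_IsVal (w c))
    (e : κ → ℕ)
    (hres : ∀ c (g : K), g ≠ 0 → w c (φ g) = e c * wK g)
    (hnorm : ∀ c, ∃ z : K', z ≠ 0 ∧ w c z = 1)
    (hne : ∀ c c', c ≠ c' → ∃ g : K', g ≠ 0 ∧ w c g ≠ w c' g)
    (hn : n ≤ ∑ c, e c)
    (c₀ : κ) (he0 : 1 ≤ e c₀) (y : K') (hy0 : y ≠ 0) (hy : w c₀ y = 0) :
    ∃ y' : K, y - φ y' = 0 ∨ 0 < w c₀ (y - φ y') := by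
  letI : Algebra K K' := φ.toAlgebra
  obtain ⟨hfin, hle⟩ := hdeg
  haveI : FiniteDimensional K K' := hfin
  exact h98_resdeg_one wK hwK π hπ0 hπ w hw e hres hnorm hne (hle.trans hn) c₀ he0 y hy0 hy

/-- **Residue degree one over a fixed subfield**: the combination of Artin's lemma with the
fundamental inequality. -/
theorem h98_resdeg_one_artin {F1 F2 K K' : Type*} [Field F1] [Field F2] [Field K] [Field K']
    (α : F1 →+* F2) (φ : K →+* K') (j1 : K →+* F1) (j2 : K' →+* F2)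
    (hcomm : ∀ a, j2 (φ a) = α (j1 a))
    {S : Type*} (act1 : S → F1 →+* F1) (act2 : S → F2 →+* F2)
    (hα : ∀ (s : S) (a : F1), act2 s (α a) = α (act1 s a))
    (hfix2 : ∀ (s : S) (y : K'), act2 s (j2 y) = j2 y)
    (hfix1 : ∀ a : F1, (∀ s : S, act1 s a = a) → ∃ a' : K, j1 a' = a)
    (n : ℕ)
    (hdeg : letI : Algebra F1 F2 := α.toAlgebra
      Module.Finite F1 F2 ∧ Module.finrank F1 F2 ≤ n)
    (wK : K → ℤ) (hwK : h99_IsVal wK) (π : K) (hπ0 : π ≠ 0) (hπ : wK π = 1)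
    {κ : Type*} [Fintype κ] [DecidableEq κ] (w : κ → K' → ℤ) (hw : ∀ c, h99_IsVal (w c))
    (e : κ → ℕ)
    (hres : ∀ c (g : K), g ≠ 0 → w c (φ g) = e c * wK g)
    (hnorm : ∀ c, ∃ z : K', z ≠ 0 ∧ w c z = 1)
    (hne : ∀ c c', c ≠ c' → ∃ g : K', g ≠ 0 ∧ w c g ≠ w c' g)
    (hn : n ≤ ∑ c, e c)
    (c₀ : κ) (he0 : 1 ≤ e c₀) (y : K') (hy0 : y ≠ 0) (hy : w c₀ y = 0) :
    ∃ y' : K, y - φ y' = 0 ∨ 0 < w c₀ (y - φ y') :=
  h98_resdeg_one_hom φ n
    (h98_finrank_le_of_hom α φ j1 j2 hcomm act1 act2 hα hfix2 hfix1 n hdeg)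
    wK hwK π hπ0 hπ w hw e hres hnorm hne hn c₀ he0 y hy0 hy

end Fermat.Agent.S36
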