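import Mathlib
import Fermat.Agent.S36.h98_W2
import Fermat.Agent.S36.h98_ArtinDeg
import Fermat.Agent.S36.h69_W2Hne
import Fermat.Agent.S36.h21_ThetaTwist

/-!
# S36 / row I-VAL : (V1), (V2) — residue degree one of `C20`, `C11` over `Z_F` (helper98)

Binders of `h98_W2`.  `a = h70_aF0 (M q) q I : F0(M q) → F0(M q²)`.

* `h98_zm` : the element `z = i2 j - i0 j` of `F0(M q²)`; `h98_zm_mid` : its middle expansion has
  `(ζ - 1)`-adic Gauss order `1`; `h98_w2_zm : w2 1 z = 1`  (`hnorm` for `C11`);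
* `h98_hnorm` : `∀ c : Fin 3, ∃ z ≠ 0, w2 c z = 1`;
* `h98_hV1`, `h98_hV2` : the binders `hV1`, `hV2` of `h70_torM` VERBATIM for `w2 := h98_w2 ..`;
* `h98_degF0` data: `[F0(M q²) : a F0(M q)] ≤ q` by Artin's lemma (inside the proof, hom form).
-/

set_option autoImplicit false
set_option synthInstance.maxHeartbeats 400000
set_option linter.unusedSectionVars false
set_option linter.style.haveILetI false

noncomputable section

open ModularCurve AlgebraicCurve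

namespace Fermat.Agent.S36

open Fermat.Agent.S34 Fermat.Agent.S37 Fermat.Agent.S24 Fermat.Agent.S35 Fermat.Agent.S18
  Fermat.Agent.GAL Fermat.Agent.S40 Fermat.Agent.S19

local notation "Qb" => AlgebraicClosure ℚ

section V12

variable (M q : ℕ) [NeZero M] [NeZero q] [Fact q.Prime] (hqM : ¬ q ∣ M)
  (A : ValuationSubring Qb) (hA : A.LiesOverPrime q) (ζ : Qb) (hζ : IsPrimitiveRoot ζ q)
  (hex : h98_Ex M q hqM A ζ hζ)

include hA hζ in
/-- A `q`-th root of unity reduces to `1`. -/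
theorem h98_res_zeta (hζA : ζ ∈ A) : IsLocalRing.residue A ⟨ζ, hζA⟩ = 1 := by
  haveI : CharP (IsLocalRing.ResidueField A) q := h19_residueField_charP A q hA
  have h0 : (⟨ζ, hζA⟩ : A) ^ q = 1 := Subtype.ext (by
    show ζ ^ q = 1
    exact hζ.pow_eq_one)
  have h1 : (IsLocalRing.residue A ⟨ζ, hζA⟩) ^ q = 1 := by
    rw [← map_pow, h0, map_one]
  have h2 : (IsLocalRing.residue A ⟨ζ, hζA⟩ - 1) ^ q = 0 := by
    rw [sub_pow_char, h1, one_pow, sub_self]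
  exact sub_eq_zero.mp (pow_eq_zero_iff (NeZero.ne q) |>.mp h2)

/-- `z = i2 j - i0 j` (expansion `j(t^{q²}) - j(t)`) as an element of `F0(M q²)`. -/
def h98_zm : h69_F0 (M * q * q) (A.inertiaSubgroupIn ℚ) :=
  ⟨h36_i2 M q hqM (h59_jbar (M * q)) - h36_i0 M q (h59_jbar (M * q)),
    Subfield.sub_mem _
      (h69_i2_mem_F0 M q hqM (h36_i2 M q hqM) (h98_hi2 M q hqM) _ _
        (fun σ _ => h2_jbar_fix (M * q) σ))
      (h69_i0_mem_F0 M q (h36_i0 M q) (h98_hi0 M q) _ _ (fun σ _ => h2_jbar_fix (M * q) σ))⟩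

theorem h98_coe_zm :
    ((h98_zm M q hqM A : h69_F0 (M * q * q) (A.inertiaSubgroupIn ℚ)) :
      modularFunctionFieldBar (M * q * q))
      = h36_i2 M q hqM (h59_jbar (M * q)) - h36_i0 M q (h59_jbar (M * q)) := rfl

include hA in
/-- **(MID-4) for `j`**: the middle expansion of `z` has `(ζ - 1)`-adic Gauss order `1`. -/
theorem h98_zm_mid :
    h98_GV A (ζ - 1) (h98_midP M q hqM ζ hζ
      (h36_i2 M q hqM (h59_jbar (M * q)) - h36_i0 M q (h59_jbar (M * q)))) 1 := by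
  have hq : q.Prime := Fact.out
  have hζ0 : ζ ≠ 0 := hζ.ne_zero (NeZero.ne q)
  have hζA : ζ ∈ A := h8_zeta_mem q A ζ hζ
  have hne : ζ ≠ 1 := hζ.ne_one hq.one_lt
  obtain ⟨h, hh⟩ := h21_twistHom_theta A ζ hζA (h98_res_zeta q A hA ζ hζ hζA) hζ0 hne (h60_JOs A)
  refine h98_GV_of_eq h ?_ ?_
  · rw [hh, h60_rs_JOs]
    intro h0
    have h1 := congrArg (fun z : LaurentSeries (IsLocalRing.ResidueField A) => z.coeff (-1)) h0
    simp only [h21_theta_coeff, coeff_jqModC_neg_one, HahnSeries.coeff_zero, mul_one] at h1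
    have h2 : ((-1 : ℤ) : IsLocalRing.ResidueField A) = -1 := by push_cast; rfl
    rw [h2] at h1
    exact one_ne_zero (neg_eq_zero.mp h1)
  · rw [map_sub, h98_midP_i2, h98_midP_i0, h59_coe_jbar, h60_coe_JOs, zpow_neg_one]

include hA hζ in
theorem h98_zm_ne_zero : h98_zm M q hqM A ≠ 0 := by
  intro h0
  have h1 := h98_zm_mid M q hqM A hA ζ hζ
  apply h98_GV_ne_zero h1
  have h2 : h36_i2 M q hqM (h59_jbar (M * q)) - h36_i0 M q (h59_jbar (M * q)) = 0 :=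
    congrArg Subtype.val h0
  rw [h2, map_zero]

include hA in
/-- `w2 1 z = 1`. -/
theorem h98_w2_zm : h98_w2 M q hqM A ζ hζ hex 1 (h98_zm M q hqM A) = 1 :=
  h98_v2_eq M q hqM A hA ζ hζ hex (h98_zm M q hqM A) 1 (h98_zm_mid M q hqM A hA ζ hζ)

include hA in
/-- **`hnorm`** for the three vertical valuations of level `M q²`. -/
theorem h98_hnorm : ∀ c : Fin 3, ∃ z : h69_F0 (M * q * q) (A.inertiaSubgroupIn ℚ),
    z ≠ 0 ∧ h98_w2 M q hqM A ζ hζ hex c z = 1 := by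
  have hq : q.Prime := Fact.out
  have hq0 : (q : h69_F0 (M * q * q) (A.inertiaSubgroupIn ℚ)) ≠ 0 :=
    h70_natCast_ne_zero _ _ hq.ne_zero
  intro c
  fin_cases c
  · exact ⟨_, hq0, h98_hq0 M q hqM A hA ζ hζ hex⟩
  · exact ⟨_, h98_zm_ne_zero M q hqM A hA ζ hζ, h98_w2_zm M q hqM A hA ζ hζ hex⟩
  · exact ⟨_, hq0, h98_hq2 M q hqM A hA ζ hζ hex⟩

include hA in
/-- `wF q = 1`. -/
theorem h98_w1_q : h98_w1 M q hqM A ζ hζ hex 0
    (q : h69_F0 (M * q) (A.inertiaSubgroupIn ℚ)) = 1 := by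
  have hq : q.Prime := Fact.out
  have hq0 : (q : h69_F0 (M * q) (A.inertiaSubgroupIn ℚ)) ≠ 0 :=
    h70_natCast_ne_zero _ _ hq.ne_zero
  have h1 := h98_hV0a0 M q hqM A hA ζ hζ hex _ hq0
  rw [map_natCast, h98_hq0 M q hqM A hA ζ hζ hex] at h1
  exact h1.symm

include hA in
/-- Residue degree one of `w2 0` and `w2 1` over `w1 0` along `a`. -/
theorem h98_V12_aux (c₀ : Fin 2) (y : h69_F0 (M * q * q) (A.inertiaSubgroupIn ℚ)) (hy0 : y ≠ 0)
    (hy : h98_w2 M q hqM A ζ hζ hex (Fin.castSucc c₀) y = 0) :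
    ∃ y' : h69_F0 (M * q) (A.inertiaSubgroupIn ℚ),
      y - h70_aF0 (M * q) q (A.inertiaSubgroupIn ℚ) y' = 0 ∨
        0 < h98_w2 M q hqM A ζ hζ hex (Fin.castSucc c₀)
          (y - h70_aF0 (M * q) q (A.inertiaSubgroupIn ℚ) y') := by
  have hq : q.Prime := Fact.out
  have hq0 : (q : h69_F0 (M * q) (A.inertiaSubgroupIn ℚ)) ≠ 0 :=
    h70_natCast_ne_zero _ _ hq.ne_zero
  have hres : ∀ (c : Fin 2) (g : h69_F0 (M * q) (A.inertiaSubgroupIn ℚ)), g ≠ 0 →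
      h98_w2 M q hqM A ζ hζ hex (Fin.castSucc c) (h70_aF0 (M * q) q (A.inertiaSubgroupIn ℚ) g)
        = ((![1, q - 1] : Fin 2 → ℕ) c : ℤ) * h98_w1 M q hqM A ζ hζ hex 0 g := by
    intro c g hg
    fin_cases c
    · have h := h98_hV0a0 M q hqM A hA ζ hζ hex g hg
      simpa using h
    · have h := h98_hV0a1 M q hqM A hA ζ hζ hex g hg
      have e : (((q - 1 : ℕ) : ℕ) : ℤ) = (q : ℤ) - 1 := by
        rw [Nat.cast_sub hq.one_le, Nat.cast_one]
      show h98_w2 M q hqM A ζ hζ hex 1 _ = (((q - 1 : ℕ) : ℕ) : ℤ) * _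
      rw [e]
      exact h
  have hnorm : ∀ c : Fin 2, ∃ z : h69_F0 (M * q * q) (A.inertiaSubgroupIn ℚ),
      z ≠ 0 ∧ h98_w2 M q hqM A ζ hζ hex (Fin.castSucc c) z = 1 :=
    fun c => h98_hnorm M q hqM A hA ζ hζ hex _
  have hne : ∀ c c' : Fin 2, c ≠ c' → ∃ g : h69_F0 (M * q * q) (A.inertiaSubgroupIn ℚ),
      g ≠ 0 ∧ h98_w2 M q hqM A ζ hζ hex (Fin.castSucc c) g
        ≠ h98_w2 M q hqM A ζ hζ hex (Fin.castSucc c') g :=
    fun c c' hcc => h69_w2_hne M q hqM A hA ζ hζ hex _ _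
      (fun h => hcc (Fin.castSucc_injective _ h))
  have hn : q ≤ ∑ c : Fin 2, (![1, q - 1] : Fin 2 → ℕ) c := by
    have := hq.one_le
    simp only [Fin.sum_univ_two, Matrix.cons_val_zero, Matrix.cons_val_one]
    omega
  have he0 : 1 ≤ (![1, q - 1] : Fin 2 → ℕ) c₀ := by
    have := hq.two_le
    fin_cases c₀
    · simp
    · show 1 ≤ q - 1
      omega
  exact h98_resdeg_one_artin
    (α := (heckeAlphaBar Qb (M * q) q).toRingHom)
    (φ := h70_aF0 (M * q) q (A.inertiaSubgroupIn ℚ))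
    (j1 := (h69_F0 (M * q) (A.inertiaSubgroupIn ℚ)).subtype)
    (j2 := (h69_F0 (M * q * q) (A.inertiaSubgroupIn ℚ)).subtype)
    (fun a => rfl)
    (S := ↥(A.inertiaSubgroupIn ℚ))
    (fun σ => (SemilinearAut.toRingAut
      (arithmeticGalois (modularFunctionFieldFull (M * q)) σ.1)).toRingHom)
    (fun σ => (SemilinearAut.toRingAut
      (arithmeticGalois (modularFunctionFieldFull (M * q * q)) σ.1)).toRingHom)
    (fun σ a => h67_intertwines_alpha (M * q) q σ.1 a)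
    (fun σ y => y.2 σ.1 σ.2)
    (fun a ha => ⟨⟨a, fun σ hσ => ha ⟨σ, hσ⟩⟩, rfl⟩)
    q ⟨h88_finiteAlong_alpha (M * q) q, (h49_deg_alpha_dvd (M * q) q hq (dvd_mul_left q M)).le⟩
    (h98_w1 M q hqM A ζ hζ hex 0) (h98_w1_isVal M q hqM A hA ζ hζ hex 0)
    (q : h69_F0 (M * q) (A.inertiaSubgroupIn ℚ)) hq0 (h98_w1_q M q hqM A hA ζ hζ hex)
    (fun c => h98_w2 M q hqM A ζ hζ hex (Fin.castSucc c))
    (fun c => h98_w2_isVal M q hqM A hA ζ hζ hex _) ![1, q - 1]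
    hres hnorm hne hn c₀ he0 y hy0 hy

include hA in
/-- **(V1)**: the binder `hV1` of `h70_torM`, VERBATIM (`N := M * q`). -/
theorem h98_hV1 : ∀ y : h69_F0 (M * q * q) (A.inertiaSubgroupIn ℚ), y ≠ 0 →
    h98_w2 M q hqM A ζ hζ hex 0 y = 0 →
    ∃ y' : h69_F0 (M * q) (A.inertiaSubgroupIn ℚ),
      y - h70_aF0 (M * q) q (A.inertiaSubgroupIn ℚ) y' = 0 ∨
        0 < h98_w2 M q hqM A ζ hζ hex 0 (y - h70_aF0 (M * q) q (A.inertiaSubgroupIn ℚ) y') :=
  fun y hy0 hy => h98_V12_aux M q hqM A hA ζ hζ hex 0 y hy0 hy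

include hA in
/-- **(V2)**: the binder `hV2` of `h70_torM`, VERBATIM (`N := M * q`). -/
theorem h98_hV2 : ∀ u : h69_F0 (M * q * q) (A.inertiaSubgroupIn ℚ), u ≠ 0 →
    h98_w2 M q hqM A ζ hζ hex 1 u = 0 →
    ∃ g : h69_F0 (M * q) (A.inertiaSubgroupIn ℚ),
      u - h70_aF0 (M * q) q (A.inertiaSubgroupIn ℚ) g = 0 ∨
        0 < h98_w2 M q hqM A ζ hζ hex 1 (u - h70_aF0 (M * q) q (A.inertiaSubgroupIn ℚ) g) :=
  fun y hy0 hy => h98_V12_aux M q hqM A hA ζ hζ hex 1 y hy0 hy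

end V12

end Fermat.Agent.S36
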