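import Mathlib
import Fermat.Agent.S36.h98_V12
import Fermat.Agent.S36.h88_ValComplete

/-!
# S36 / row I-VAL : (V3), the `W`-symmetry of `h98_w2`, and the `b`-twins of (V0), (V1), (V2)
(helper98)

Binders of `h98_W2`.  `a = h70_aF0 (M q) q I`, `b = h70_bF0 (M q) q I : F0(M q) → F0(M q²)`.

* `h98_hV3` : the binder `hV3` of `h70_torM` VERBATIM (uniformisers of the three verticals);
* `h98_WF0`, `h98_swF0` : the involutions `W` of `F0(M q²)` and `w` of `F0(M q)`;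
  `h98_WF0_a : W (a g) = b (w g)`, `h98_WF0_b : W (b g) = a (w g)`;
* `h98_w2_W0`, `h98_w2_W1`, `h98_w2_W2` : `w2 0 ∘ W = w2 2`, `w2 1 ∘ W = w2 1`, `w2 2 ∘ W = w2 0`;
  `h98_w1_sw0`, `h98_w1_sw1` : `w1 0 ∘ w = w1 1`, `w1 1 ∘ w = w1 0`;
* `h98_hV0b1`, `h98_hV0b2` : `w2 1 (b g) = (q - 1) * w1 1 g`, `w2 2 (b g) = w1 1 g`;
* `h98_hV1b`, `h98_hV2b` : residue degree one of `w2 2` and `w2 1` over `w1 1` along `b`.
-/

set_option autoImplicit false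
set_option synthInstance.maxHeartbeats 400000
set_option linter.unusedSectionVars false
set_option linter.style.haveILetI false

noncomputable section

open ModularCurve AlgebraicCurve

namespace Fermat.Agent.S36

open Fermat.Agent.S34 Fermat.Agent.S37 Fermat.Agent.S24 Fermat.Agent.S35 Fermat.Agent.S18
  Fermat.Agent.GAL Fermat.Agent.S40 Fermat.Agent.S19

local notation "Qb" => AlgebraicClosure ℚ

section V3

variable (M q : ℕ) [NeZero M] [NeZero q] [Fact q.Prime] (hqM : ¬ q ∣ M)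
  (A : ValuationSubring Qb) (hA : A.LiesOverPrime q) (ζ : Qb) (hζ : IsPrimitiveRoot ζ q)
  (hex : h98_Ex M q hqM A ζ hζ)

include hA in
/-- **(V3)**: the binder `hV3` of `h70_torM`, VERBATIM (`N := M * q`). -/
theorem h98_hV3 : ∀ c : Fin 3, ∃ p : h69_F0 (M * q * q) (A.inertiaSubgroupIn ℚ), p ≠ 0 ∧
    h98_w2 M q hqM A ζ hζ hex c p = 1 ∧ ∀ c', c' ≠ c → h98_w2 M q hqM A ζ hζ hex c' p = 0 := by
  obtain ⟨π, hπ⟩ := h88_exists_unif (h98_w2 M q hqM A ζ hζ hex)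
    (h98_w2_isVal M q hqM A hA ζ hζ hex) (h98_hnorm M q hqM A hA ζ hζ hex)
    (h69_w2_hne M q hqM A hA ζ hζ hex)
  exact fun c => ⟨π c, hπ c⟩

/-! ### The involutions on the fixed fields -/

/-- `W` on the inertia-fixed functions of level `M q²`. -/
def h98_WF0 : h69_F0 (M * q * q) (A.inertiaSubgroupIn ℚ) →+*
    h69_F0 (M * q * q) (A.inertiaSubgroupIn ℚ) :=
  ((h36_W M q hqM).comp (h69_F0 (M * q * q) (A.inertiaSubgroupIn ℚ)).subtype).codRestrict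
    (h69_F0 (M * q * q) (A.inertiaSubgroupIn ℚ)) (fun f τ hτ => h98_fix2W M q hqM A f τ hτ)

theorem h98_coe_WF0 (f : h69_F0 (M * q * q) (A.inertiaSubgroupIn ℚ)) :
    ((h98_WF0 M q hqM A f : h69_F0 (M * q * q) (A.inertiaSubgroupIn ℚ)) :
      modularFunctionFieldBar (M * q * q)) = h36_W M q hqM (f : modularFunctionFieldBar (M * q * q)) :=
  rfl

/-- The swap `w` on the inertia-fixed functions of level `M q`. -/
def h98_swF0 : h69_F0 (M * q) (A.inertiaSubgroupIn ℚ) →+* h69_F0 (M * q) (A.inertiaSubgroupIn ℚ) :=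
  ((h60_w M q hqM).comp (h69_F0 (M * q) (A.inertiaSubgroupIn ℚ)).subtype).codRestrict
    (h69_F0 (M * q) (A.inertiaSubgroupIn ℚ)) (fun g τ hτ => h98_fix1w M q hqM A g τ hτ)

theorem h98_coe_swF0 (g : h69_F0 (M * q) (A.inertiaSubgroupIn ℚ)) :
    ((h98_swF0 M q hqM A g : h69_F0 (M * q) (A.inertiaSubgroupIn ℚ)) :
      modularFunctionFieldBar (M * q)) = h60_w M q hqM (g : modularFunctionFieldBar (M * q)) :=
  rfl

theorem h98_WF0_WF0 (f : h69_F0 (M * q * q) (A.inertiaSubgroupIn ℚ)) :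
    h98_WF0 M q hqM A (h98_WF0 M q hqM A f) = f :=
  Subtype.ext (h36_W_W M q hqM _)

theorem h98_swF0_swF0 (g : h69_F0 (M * q) (A.inertiaSubgroupIn ℚ)) :
    h98_swF0 M q hqM A (h98_swF0 M q hqM A g) = g :=
  Subtype.ext (h60_w_w M q hqM _)

/-- `W ∘ a = b ∘ w`. -/
theorem h98_WF0_a (g : h69_F0 (M * q) (A.inertiaSubgroupIn ℚ)) :
    h98_WF0 M q hqM A (h70_aF0 (M * q) q (A.inertiaSubgroupIn ℚ) g)
      = h70_bF0 (M * q) q (A.inertiaSubgroupIn ℚ) (h98_swF0 M q hqM A g) :=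
  Subtype.ext (h98_hWα M q hqM _)

/-- `W ∘ b = a ∘ w`. -/
theorem h98_WF0_b (g : h69_F0 (M * q) (A.inertiaSubgroupIn ℚ)) :
    h98_WF0 M q hqM A (h70_bF0 (M * q) q (A.inertiaSubgroupIn ℚ) g)
      = h70_aF0 (M * q) q (A.inertiaSubgroupIn ℚ) (h98_swF0 M q hqM A g) := by
  have h := h98_WF0_a M q hqM A (h98_swF0 M q hqM A g)
  rw [h98_swF0_swF0] at h
  rw [← h, h98_WF0_WF0]

theorem h98_WF0_ne_zero {f : h69_F0 (M * q * q) (A.inertiaSubgroupIn ℚ)} (hf : f ≠ 0) :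
    h98_WF0 M q hqM A f ≠ 0 := (map_ne_zero _).mpr hf

theorem h98_swF0_ne_zero {g : h69_F0 (M * q) (A.inertiaSubgroupIn ℚ)} (hg : g ≠ 0) :
    h98_swF0 M q hqM A g ≠ 0 := (map_ne_zero _).mpr hg

/-! ### The symmetry of the valuations -/

include hA

/-- `w2 0 ∘ W = w2 2`. -/
theorem h98_w2_W0 (f : h69_F0 (M * q * q) (A.inertiaSubgroupIn ℚ)) (hf : f ≠ 0) :
    h98_w2 M q hqM A ζ hζ hex 0 (h98_WF0 M q hqM A f) = h98_w2 M q hqM A ζ hζ hex 2 f :=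
  h98_v1_eq M q hqM A hA ζ hζ hex _ _ (h98_v3_spec M q hqM A ζ hζ hex f hf)

/-- `w2 2 ∘ W = w2 0`. -/
theorem h98_w2_W2 (f : h69_F0 (M * q * q) (A.inertiaSubgroupIn ℚ)) (hf : f ≠ 0) :
    h98_w2 M q hqM A ζ hζ hex 2 (h98_WF0 M q hqM A f) = h98_w2 M q hqM A ζ hζ hex 0 f := by
  have h := h98_w2_W0 M q hqM A hA ζ hζ hex (h98_WF0 M q hqM A f) (h98_WF0_ne_zero M q hqM A hf)
  rw [h98_WF0_WF0] at h
  exact h.symm

/-- `w2 1 ∘ W = w2 1`. -/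
theorem h98_w2_W1 (f : h69_F0 (M * q * q) (A.inertiaSubgroupIn ℚ)) (hf : f ≠ 0) :
    h98_w2 M q hqM A ζ hζ hex 1 (h98_WF0 M q hqM A f) = h98_w2 M q hqM A ζ hζ hex 1 f := by
  refine h98_v2_eq M q hqM A hA ζ hζ hex _ _ ?_
  exact h98_mid_GV_W M q hqM A hA (h36_i0 M q) (h36_i2 M q hqM) (h98_hi0 M q) (h98_hi2 M q hqM)
    (h36_i02_gen M q hqM) (h98_midP M q hqM) (h98_midP_i0 M q hqM) (h98_midP_i2 M q hqM)
    (h36_W M q hqM) (h36_W_i0 M q hqM) (h36_W_i2 M q hqM) ζ hζ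
    (f : modularFunctionFieldBar (M * q * q)) (h98_fix2 M q A f) _
    (h98_v2_spec M q hqM A ζ hζ hex f hf)

/-- `w1 0 ∘ w = w1 1`. -/
theorem h98_w1_sw0 (g : h69_F0 (M * q) (A.inertiaSubgroupIn ℚ)) (hg : g ≠ 0) :
    h98_w1 M q hqM A ζ hζ hex 0 (h98_swF0 M q hqM A g) = h98_w1 M q hqM A ζ hζ hex 1 g :=
  h98_wF_eq M q hqM A hA ζ hζ hex _ _ (h98_wV_spec M q hqM A ζ hζ hex g hg)

/-- `w1 1 ∘ w = w1 0`. -/
theorem h98_w1_sw1 (g : h69_F0 (M * q) (A.inertiaSubgroupIn ℚ)) (hg : g ≠ 0) :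
    h98_w1 M q hqM A ζ hζ hex 1 (h98_swF0 M q hqM A g) = h98_w1 M q hqM A ζ hζ hex 0 g := by
  have h := h98_w1_sw0 M q hqM A hA ζ hζ hex (h98_swF0 M q hqM A g) (h98_swF0_ne_zero M q hqM A hg)
  rw [h98_swF0_swF0] at h
  exact h.symm

/-! ### The table (V0) along `b` -/

/-- `w2 2 (b g) = w1 1 g`. -/
theorem h98_hV0b2 : ∀ g : h69_F0 (M * q) (A.inertiaSubgroupIn ℚ), g ≠ 0 →
    h98_w2 M q hqM A ζ hζ hex 2 (h70_bF0 (M * q) q (A.inertiaSubgroupIn ℚ) g)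
      = h98_w1 M q hqM A ζ hζ hex 1 g := by
  intro g hg
  have hsw := h98_swF0_ne_zero M q hqM A hg
  have ha : h70_aF0 (M * q) q (A.inertiaSubgroupIn ℚ) (h98_swF0 M q hqM A g) ≠ 0 :=
    (map_ne_zero _).mpr hsw
  have h1 := h98_WF0_a M q hqM A (h98_swF0 M q hqM A g)
  rw [h98_swF0_swF0] at h1
  rw [← h1, h98_w2_W2 M q hqM A hA ζ hζ hex _ ha, h98_hV0a0 M q hqM A hA ζ hζ hex _ hsw,
    h98_w1_sw0 M q hqM A hA ζ hζ hex g hg]

/-- `w2 1 (b g) = (q - 1) * w1 1 g`. -/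
theorem h98_hV0b1 : ∀ g : h69_F0 (M * q) (A.inertiaSubgroupIn ℚ), g ≠ 0 →
    h98_w2 M q hqM A ζ hζ hex 1 (h70_bF0 (M * q) q (A.inertiaSubgroupIn ℚ) g)
      = ((q : ℤ) - 1) * h98_w1 M q hqM A ζ hζ hex 1 g := by
  intro g hg
  have hsw := h98_swF0_ne_zero M q hqM A hg
  have ha : h70_aF0 (M * q) q (A.inertiaSubgroupIn ℚ) (h98_swF0 M q hqM A g) ≠ 0 :=
    (map_ne_zero _).mpr hsw
  have h1 := h98_WF0_a M q hqM A (h98_swF0 M q hqM A g)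
  rw [h98_swF0_swF0] at h1
  rw [← h1, h98_w2_W1 M q hqM A hA ζ hζ hex _ ha, h98_hV0a1 M q hqM A hA ζ hζ hex _ hsw,
    h98_w1_sw0 M q hqM A hA ζ hζ hex g hg]

/-! ### Residue degree one along `b` -/

/-- **(V1b)**: residue degree one of `C02` over `Z_V` along `b`. -/
theorem h98_hV1b : ∀ y : h69_F0 (M * q * q) (A.inertiaSubgroupIn ℚ), y ≠ 0 →
    h98_w2 M q hqM A ζ hζ hex 2 y = 0 →
    ∃ y' : h69_F0 (M * q) (A.inertiaSubgroupIn ℚ),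
      y - h70_bF0 (M * q) q (A.inertiaSubgroupIn ℚ) y' = 0 ∨
        0 < h98_w2 M q hqM A ζ hζ hex 2 (y - h70_bF0 (M * q) q (A.inertiaSubgroupIn ℚ) y') := by
  intro y hy0 hy
  have hY0 := h98_WF0_ne_zero M q hqM A hy0
  have hY : h98_w2 M q hqM A ζ hζ hex 0 (h98_WF0 M q hqM A y) = 0 := by
    rw [h98_w2_W0 M q hqM A hA ζ hζ hex y hy0]
    exact hy
  obtain ⟨y'', h⟩ := h98_hV1 M q hqM A hA ζ hζ hex _ hY0 hY
  refine ⟨h98_swF0 M q hqM A y'', ?_⟩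
  have key : h98_WF0 M q hqM A (y - h70_bF0 (M * q) q (A.inertiaSubgroupIn ℚ)
      (h98_swF0 M q hqM A y''))
      = h98_WF0 M q hqM A y - h70_aF0 (M * q) q (A.inertiaSubgroupIn ℚ) y'' := by
    rw [map_sub, h98_WF0_b, h98_swF0_swF0]
  by_cases h0 : y - h70_bF0 (M * q) q (A.inertiaSubgroupIn ℚ) (h98_swF0 M q hqM A y'') = 0
  · exact Or.inl h0
  · right
    rw [← h98_w2_W0 M q hqM A hA ζ hζ hex _ h0, key]
    rcases h with h | h
    · exfalso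
      apply h0
      apply (h98_WF0 M q hqM A).injective
      rw [key, h, map_zero]
    · exact h

/-- **(V2b)**: residue degree one of `C11` over `Z_V` along `b`. -/
theorem h98_hV2b : ∀ u : h69_F0 (M * q * q) (A.inertiaSubgroupIn ℚ), u ≠ 0 →
    h98_w2 M q hqM A ζ hζ hex 1 u = 0 →
    ∃ g : h69_F0 (M * q) (A.inertiaSubgroupIn ℚ),
      u - h70_bF0 (M * q) q (A.inertiaSubgroupIn ℚ) g = 0 ∨
        0 < h98_w2 M q hqM A ζ hζ hex 1 (u - h70_bF0 (M * q) q (A.inertiaSubgroupIn ℚ) g) := by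
  intro y hy0 hy
  have hY0 := h98_WF0_ne_zero M q hqM A hy0
  have hY : h98_w2 M q hqM A ζ hζ hex 1 (h98_WF0 M q hqM A y) = 0 := by
    rw [h98_w2_W1 M q hqM A hA ζ hζ hex y hy0]
    exact hy
  obtain ⟨y'', h⟩ := h98_hV2 M q hqM A hA ζ hζ hex _ hY0 hY
  refine ⟨h98_swF0 M q hqM A y'', ?_⟩
  have key : h98_WF0 M q hqM A (y - h70_bF0 (M * q) q (A.inertiaSubgroupIn ℚ)
      (h98_swF0 M q hqM A y''))
      = h98_WF0 M q hqM A y - h70_aF0 (M * q) q (A.inertiaSubgroupIn ℚ) y'' := by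
    rw [map_sub, h98_WF0_b, h98_swF0_swF0]
  by_cases h0 : y - h70_bF0 (M * q) q (A.inertiaSubgroupIn ℚ) (h98_swF0 M q hqM A y'') = 0
  · exact Or.inl h0
  · right
    rw [← h98_w2_W1 M q hqM A hA ζ hζ hex _ h0, key]
    rcases h with h | h
    · exfalso
      apply h0
      apply (h98_WF0 M q hqM A).injective
      rw [key, h, map_zero]
    · exact h

end V3

end Fermat.Agent.S36
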