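import Mathlib
import Fermat.Agent.S36.h14_ThickW
import Fermat.Agent.S36.h69_TabFam
import Fermat.Agent.S36.h65_HorTable
import Fermat.Agent.S36.h65_HorInt
import Fermat.Agent.S36.h65_UnitU
import Fermat.Agent.S36.h80_IntLevels
import Fermat.Agent.S36.h74_IntNorm
import Fermat.Agent.S36.h69_ConstA
import Fermat.Agent.S36.h97_StrictFG
import Fermat.Agent.S36.h98_V12
import Fermat.Agent.S36.h98_V3

/-!
# S36 / I-PTS (M5): the thick branch at the modular names (helper98)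

The instance of `h14_hthick_gen_w` (helper14 / helper60) for the two chart families

* `V1 := h80_fam1 (M q) I (h98_w1 ..) ..`   (level `M q`, chart `j`),
* `V2 := h80_fam1 (M q²) I (h98_w2 ..) ..`  (level `M q²`, chart `j`),

`I := A.inertiaSubgroupIn ℚ`, `wF := Sum.inl 0`, `wV := Sum.inl 1`, `P := Sum.inl`,
`a := h70_aF0 (M q) q I`, `φ2 := h70_bF0 (M q) q I ∘ w`.  Every binder other than the node
hypothesis `hUw` and the level-`q` input `hQ` is discharged.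

* `h98_sw_mem_fam1`   : `w` maps the chart ring `V1.B` into itself;
* `h98_v2_nonneg_iff` : `0 ≤ w2 1 f ↔ mid f ∈ O`;
* `h98_thick_*`       : the binder discharges, one lemma each;
* `h98_hthick_w`      : `hUw → hQ → hthick` (the binder `hthick` of `h62_pts_mod`, verbatim).
-/

set_option autoImplicit false
set_option synthInstance.maxHeartbeats 400000
set_option linter.unusedSectionVars false
set_option linter.unusedVariables false
set_option linter.style.haveILetI false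

noncomputable section

open ModularCurve AlgebraicCurve

namespace Fermat.Agent.S36

open Fermat.Agent.S34 Fermat.Agent.S37 Fermat.Agent.S24 Fermat.Agent.S35 Fermat.Agent.S18
open Fermat.Agent.S27 Fermat.Agent.S19

local notation "Qb" => AlgebraicClosure ℚ

variable (M q : ℕ) [NeZero M] [NeZero q] [Fact q.Prime] (hqM : ¬ q ∣ M)
variable (A : ValuationSubring Qb) (hA : A.LiesOverPrime q)
variable (ζ : Qb) (hζ : IsPrimitiveRoot ζ q) (hex : h98_Ex M q hqM A ζ hζ)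

local notation "V1c" => h80_fam1 (M * q) (A.inertiaSubgroupIn ℚ) (h98_w1 M q hqM A ζ hζ hex)
  (h98_hw1mul M q hqM A hA ζ hζ hex) (h98_hw1add M q hqM A hA ζ hζ hex)
local notation "V2c" => h80_fam1 (M * q * q) (A.inertiaSubgroupIn ℚ) (h98_w2 M q hqM A ζ hζ hex)
  (h98_hw2mul M q hqM A hA ζ hζ hex) (h98_hw2add M q hqM A hA ζ hζ hex)

include hA in
/-- `0 ≤ v₂ f` iff the middle expansion of `f` is integral. -/
theorem h98_v2_nonneg_iff (f : h69_F0 (M * q * q) (A.inertiaSubgroupIn ℚ)) (hf : f ≠ 0) :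
    0 ≤ h98_v2 M q hqM A ζ hζ hex f ↔
      h98_midP M q hqM ζ hζ (f : modularFunctionFieldBar (M * q * q)) ∈ h60_Os A :=
  h98_gv_nonneg_iff _ (h98_zeta_unif q A hA ζ hζ).1 (h98_zeta_unif q A hA ζ hζ).2.1
    (h98_zeta_unif q A hA ζ hζ).2.2.1 f hf

/-- The Atkin-Lehner involution `w` maps the chart ring of level `M q` into itself. -/
theorem h98_sw_mem_fam1 (g : h69_F0 (M * q) (A.inertiaSubgroupIn ℚ)) (hg : g ∈ (V1c).B) :
    h98_swF0 M q hqM A g ∈ (V1c).B := by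
  unfold h80_fam1 at hg ⊢
  rw [h80_mem_famOf_B] at hg ⊢
  by_cases hg0 : g = 0
  · left
    rw [hg0, map_zero]
  rcases hg with h0 | ⟨hv, hh⟩
  · exact absurd h0 hg0
  right
  refine ⟨fun c => ?_, fun P hP => ?_⟩
  · fin_cases c
    · show 0 ≤ h98_w1 M q hqM A ζ hζ hex 0 (h98_swF0 M q hqM A g)
      rw [h98_w1_sw0 M q hqM A hA ζ hζ hex g hg0]
      exact hv 1
    · show 0 ≤ h98_w1 M q hqM A ζ hζ hex 1 (h98_swF0 M q hqM A g)
      rw [h98_w1_sw1 M q hqM A hA ζ hζ hex g hg0]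
      exact hv 0
  · have e1 : ∀ x : modularFunctionFieldBar (M * q),
        (h96_placeMap (h65_wEquiv M q hqM) P).ord (h60_w M q hqM x) = P.ord x :=
      fun x => h96_placeMap_ord (h65_wEquiv M q hqM) P x
    have h1 : P.ord (h60_w M q hqM (g : modularFunctionFieldBar (M * q)))
        = (h96_placeMap (h65_wEquiv M q hqM) P).ord (g : modularFunctionFieldBar (M * q)) := by
      rw [← e1 (h60_w M q hqM (g : modularFunctionFieldBar (M * q))), h60_w_w]
    have h2 : 0 ≤ (h96_placeMap (h65_wEquiv M q hqM) P).ord (h59_jbar (M * q)) := by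
      have e2 : (h96_placeMap (h65_wEquiv M q hqM) P).ord (h59_jbar (M * q))
          = P.ord (h60_w M q hqM (h59_jbar (M * q))) := by
        rw [← e1 (h60_w M q hqM (h59_jbar (M * q))), h60_w_w]
      rw [e2]
      exact (h97_mem_iff_ord P _).mp (h65_wJ_mem M q hqM P ((h97_mem_iff_ord P _).mpr hP))
    show 0 ≤ P.ord (h60_w M q hqM (g : modularFunctionFieldBar (M * q)))
    rw [h1]
    exact hh _ h2

/-- `ha`: `a` maps `V1.B` into `V2.B`. -/
theorem h98_thick_ha : ∀ g ∈ (V1c).B, h70_aF0 (M * q) q (A.inertiaSubgroupIn ℚ) g ∈ (V2c).B :=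
  fun g hg => h65_hc_mem_a (M * q) q (A.inertiaSubgroupIn ℚ) (h98_w1 M q hqM A ζ hζ hex)
    (h98_hw1mul M q hqM A hA ζ hζ hex) (h98_hw1add M q hqM A hA ζ hζ hex)
    (h98_w2 M q hqM A ζ hζ hex) (h98_hw2mul M q hqM A hA ζ hζ hex)
    (h98_hw2add M q hqM A hA ζ hζ hex) (h74_int_vt_a M q hqM A hA ζ hζ hex) g hg

/-- `hb`: `b` maps `V1.B` into `V2.B`. -/
theorem h98_thick_hb : ∀ g ∈ (V1c).B, h70_bF0 (M * q) q (A.inertiaSubgroupIn ℚ) g ∈ (V2c).B :=
  fun g hg => h65_hc_mem_b M q hqM (A.inertiaSubgroupIn ℚ) (h98_w1 M q hqM A ζ hζ hex)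
    (h98_hw1mul M q hqM A hA ζ hζ hex) (h98_hw1add M q hqM A hA ζ hζ hex)
    (h98_w2 M q hqM A ζ hζ hex) (h98_hw2mul M q hqM A hA ζ hζ hex)
    (h98_hw2add M q hqM A hA ζ hζ hex) (h74_int_vt_b M q hqM A hA ζ hζ hex) g hg

/-- `hφ2B`: `b ∘ w` maps `V1.B` into `V2.B`. -/
theorem h98_thick_hphi2B : ∀ g ∈ (V1c).B,
    ((h70_bF0 (M * q) q (A.inertiaSubgroupIn ℚ)).comp (h98_swF0 M q hqM A)) g ∈ (V2c).B :=
  fun g hg => h98_thick_hb M q hqM A hA ζ hζ hex _ (h98_sw_mem_fam1 M q hqM A hA ζ hζ hex g hg)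

/-- `hia`: `V2.B` is integral over `a (V1.B)`. -/
theorem h98_thick_hia :
    ((h70_aF0 (M * q) q (A.inertiaSubgroupIn ℚ)).restrict (V1c).B (V2c).B
      (h98_thick_ha M q hqM A hA ζ hζ hex)).IsIntegral := by
  have h := h80_HC4_alpha_inertia (M * q) q A hA (V1c) (V2c) (Dvd.intro_left M rfl)
    (fun a ha => h65_const_mem_fam1 (M * q) A (h98_w1 M q hqM A ζ hζ hex)
      (h98_hw1mul M q hqM A hA ζ hζ hex) (h98_hw1add M q hqM A hA ζ hζ hex)
      (h69_hwA1 M q hqM A hA ζ hζ hex) a ha)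
    (h98_thick_ha M q hqM A hA ζ hζ hex)
    (fun u hu => h74_int_Na M q hqM A hA ζ hζ hex u hu)
  exact h

/-- `hta`: the vertical table of `a`. -/
theorem h98_thick_hta : ∀ k : Fin 3, ∃ e : ℤ, 0 < e ∧
    ∀ g : h69_F0 (M * q) (A.inertiaSubgroupIn ℚ), g ≠ 0 →
      (V2c).v (Sum.inl k) (h70_aF0 (M * q) q (A.inertiaSubgroupIn ℚ) g)
        = e * (V1c).v ((![Sum.inl 0, Sum.inl 0, Sum.inl 1] :
            Fin 3 → Fin 2 ⊕ h80_HorIdx (h80_horOrd (M * q) (A.inertiaSubgroupIn ℚ)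
              (h59_jbar (M * q)))) k) g :=
  h69_hta_fam M q hqM A hA ζ hζ hex (V1c) (V2c) (Sum.inl 0) (Sum.inl 1) Sum.inl
    (fun g => rfl) (fun g => rfl) (fun k f => rfl)

/-- `hHCa`: every horizontal valuation of level `M q²` lies over one of level `M q`. -/
theorem h98_thick_hHCa : ∀ h, h80_IsHor h → ∃ h1, h80_IsHor h1 ∧ ∃ e : ℤ, 0 < e ∧
    ∀ g : h69_F0 (M * q) (A.inertiaSubgroupIn ℚ), g ≠ 0 →
      (V2c).v h (h70_aF0 (M * q) q (A.inertiaSubgroupIn ℚ) g) = e * (V1c).v h1 g := by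
  intro h hh
  obtain ⟨k₁, e, hk₁, he, htab⟩ := h65_hc_hor_a (M * q) q (A.inertiaSubgroupIn ℚ)
    (h98_w1 M q hqM A ζ hζ hex) (h98_hw1mul M q hqM A hA ζ hζ hex)
    (h98_hw1add M q hqM A hA ζ hζ hex) (h98_w2 M q hqM A ζ hζ hex)
    (h98_hw2mul M q hqM A hA ζ hζ hex) (h98_hw2add M q hqM A hA ζ hζ hex) h hh
  exact ⟨k₁, hk₁, e, by omega, fun g _ => htab g⟩

/-- `hqH`: `q` is a unit at every horizontal valuation of level `M q²`. -/
theorem h98_thick_hqH : ∀ h, h80_IsHor h →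
    (V2c).v h (q : h69_F0 (M * q * q) (A.inertiaSubgroupIn ℚ)) = 0 := by
  intro h hh
  obtain ⟨P, hP, rfl⟩ := h80_famOf_hor (M * q * q) (A.inertiaSubgroupIn ℚ)
    (h59_jbar (M * q * q)) h hh
  show P.ord (((q : h69_F0 (M * q * q) (A.inertiaSubgroupIn ℚ)) :
    modularFunctionFieldBar (M * q * q))) = 0
  have e : (((q : h69_F0 (M * q * q) (A.inertiaSubgroupIn ℚ)) :
      modularFunctionFieldBar (M * q * q))) =
      algebraMap Qb (modularFunctionFieldBar (M * q * q)) (q : Qb) := by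
    rw [map_natCast]
    rfl
  rw [e]
  exact h35_ord_algebraMap P (q : Qb)

/-- **`hthick` at the modular names**, from the node hypothesis `hUw` and the level-`q` input
`hQ` (both verbatim as in `h14_hthick_gen_w` at `ψ₁ := subtype`). -/
theorem h98_hthick_w
    (hUw : ∀ s : Ideal (V1c).B, s.IsMaximal → (V1c).Through s (Sum.inl 0) →
      (V1c).Through s (Sum.inl 1) →
      (∃ e : h69_F0 (M * q) (A.inertiaSubgroupIn ℚ), e ≠ 0 ∧ (V1c).v (Sum.inl 0) e = 1 ∧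
        ∀ j, (V1c).Through s j → j ≠ Sum.inl 0 → (V1c).v j e = 0) ∧
      (∃ e : h69_F0 (M * q) (A.inertiaSubgroupIn ℚ), e ≠ 0 ∧ (V1c).v (Sum.inl 1) e = 1 ∧
        ∀ j, (V1c).Through s j → j ≠ Sum.inl 1 → (V1c).v j e = 0))
    (hQ : ∀ s : Ideal (V1c).B, s.IsMaximal → (V1c).Through s (Sum.inl 0) →
      ¬ (V1c).Through s (Sum.inl 1) →
      ∃ (y : Place (IsLocalRing.ResidueField A)
          ↥(modularFunctionFieldFullC (IsLocalRing.ResidueField A) M))
        (R₁ : h62_Res (V1c) s (Sum.inl 0)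
          ↥(modularFunctionFieldFullC (IsLocalRing.ResidueField A) M)),
        R₁.o = y.ord ∧
        (∀ f : R₁.O, ∃ hf : (h69_F0 (M * q) (A.inertiaSubgroupIn ℚ)).subtype
              (f : h69_F0 (M * q) (A.inertiaSubgroupIn ℚ)) ∈ (h60_R1 M q hqM A hA).O,
          R₁.ρ f = (h60_R1 M q hqM A hA).red
            ⟨(h69_F0 (M * q) (A.inertiaSubgroupIn ℚ)).subtype
              (f : h69_F0 (M * q) (A.inertiaSubgroupIn ℚ)), hf⟩) ∧
        ∃ s₀ : h69_F0 (M * q) (A.inertiaSubgroupIn ℚ), s₀ ∈ (V1c).B ∧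
          (h69_F0 (M * q) (A.inertiaSubgroupIn ℚ)).subtype s₀ ∈ (h60_R1 M q hqM A hA).O ∧
          ∃ cθ : ↥(modularFunctionFieldFullC (IsLocalRing.ResidueField A) M),
            (cθ : LaurentSeries (IsLocalRing.ResidueField A))
              = h20_thetaFun ((((h60_R1 M q hqM A hA).redF
                  ((h69_F0 (M * q) (A.inertiaSubgroupIn ℚ)).subtype s₀) :
                  ↥(modularFunctionFieldFullC (IsLocalRing.ResidueField A) M)) :
                    LaurentSeries (IsLocalRing.ResidueField A))) ^ (q - 1) ∧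
            cθ ≠ 0 ∧ y.ord cθ = 0) :
    ∀ m : Ideal (V2c).B, m.IsMaximal → (V2c).Through m (Sum.inl 1) →
      (∀ c : Fin 3, (V2c).Through m (Sum.inl c) → c = 1) →
      ∃ z : h69_F0 (M * q * q) (A.inertiaSubgroupIn ℚ), z ≠ 0 ∧ (V2c).v (Sum.inl 1) z = 1 ∧
        ∀ k, (V2c).Through m k → k ≠ Sum.inl 1 → (V2c).v k z = 0 := by
  have hq : q.Prime := Fact.out
  have hq0 : (q : h69_F0 (M * q * q) (A.inertiaSubgroupIn ℚ)) ≠ 0 :=
    h70_natCast_ne_zero _ _ hq.ne_zero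
  have hvq : (V2c).v (Sum.inl 1) (q : h69_F0 (M * q * q) (A.inertiaSubgroupIn ℚ))
      = ((q - 1 : ℕ) : ℤ) := by
    have e : (((q - 1 : ℕ) : ℕ) : ℤ) = (q : ℤ) - 1 := by
      rw [Nat.cast_sub hq.one_le, Nat.cast_one]
    exact (h98_hq1 M q hqM A hA ζ hζ hex).trans e.symm
  refine h14_hthick_gen_w M q hqM A hA ζ hζ (h69_F0 (M * q) (A.inertiaSubgroupIn ℚ)).subtype
    (V1c) (h69_F0 (M * q * q) (A.inertiaSubgroupIn ℚ)).subtype (V2c)
    (Sum.inl 0) (Sum.inl 1) (by simp) Sum.inl (fun i => h80_IsHor i) (fun i => h80_IsHor i)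
    ?_ ?_ (h70_aF0 (M * q) q (A.inertiaSubgroupIn ℚ)) (h98_thick_ha M q hqM A hA ζ hζ hex)
    (h98_thick_hia M q hqM A hA ζ hζ hex) (h98_thick_hta M q hqM A hA ζ hζ hex)
    (h98_thick_hHCa M q hqM A hA ζ hζ hex) hUw
    (fun y hy0 hy => h98_hV2 M q hqM A hA ζ hζ hex y hy0 hy)
    ((h70_bF0 (M * q) q (A.inertiaSubgroupIn ℚ)).comp (h98_swF0 M q hqM A))
    (h98_thick_hphi2B M q hqM A hA ζ hζ hex) (fun g => rfl) (fun g => rfl) ?_ ?_
    ⟨(q : h69_F0 (M * q * q) (A.inertiaSubgroupIn ℚ)), natCast_mem _ q⟩ rfl hq0 hvq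
    (h98_thick_hqH M q hqM A hA ζ hζ hex) hQ
  · rintro _ ⟨j, rfl⟩
    exact ⟨Sum.inr_ne_inl, Sum.inr_ne_inl⟩
  · intro i
    rcases i with k | j
    · exact Or.inl ⟨k, rfl⟩
    · exact Or.inr ⟨j, rfl⟩
  · intro g hg h
    exact (h98_v2_nonneg_iff M q hqM A hA ζ hζ hex g hg).mpr h
  · intro g hg h
    exact (h98_v2_pos_iff M q hqM A hA ζ hζ hex g hg).mpr h

end Fermat.Agent.S36
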