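import Mathlib
import Fermat.Agent.S36.h98_ThickInst
import Fermat.Agent.S36.h14_ClassW
import Fermat.Agent.S36.h14_N23
import Fermat.Agent.S36.h14_NormMem
import Fermat.Agent.S36.h65_NoethQ2
import Fermat.Agent.S36.h74_W2Sep
import Fermat.Agent.S36.h46_CuspOut

/-!
# S36 / I-PTS (M8): the point rows of chart 1 at level `M q²` (helper29, insurance twin)

`V1 := h80_fam1 (M q) I (h98_w1 ..) ..` (level `M q`, chart `j`),
`V2 := h80_fam1 (M q²) I (h98_w2 ..) ..` (level `M q²`, chart `j`), `I` = inertia.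

* `h29_pm_*`          : the binder discharges of `h14_pts_two_level_w` not already in
                        `h98_ThickInst` (`hib`, `htb`, `hHCb`, `hqw`, `hunr`, `hsep`);
* `h29_pts_two_mod`   : `h14_pts_two_level_w` at the modular names: from the four level-`q`
                        inputs `hUw`, `hR1F`, `hR1V`, `hthick` (verbatim the binders of the
                        announced `h62_pts_mod`): `hclass`, (UNIT*), residue data;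
* `h29_pts_rows`      : the three I-PTS conjuncts (P1), (P2), (P3) of `h94_Rows`, verbatim.
-/

set_option autoImplicit false
set_option synthInstance.maxHeartbeats 400000
set_option maxHeartbeats 1600000
set_option linter.unusedSectionVars false
set_option linter.unusedVariables false
set_option linter.style.haveILetI false

noncomputable section

open ModularCurve AlgebraicCurve

namespace Fermat.Agent.S36

open Fermat.Agent.S34 Fermat.Agent.S37 Fermat.Agent.S24 Fermat.Agent.S35 Fermat.Agent.S18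
open Fermat.Agent.S27 Fermat.Agent.S19

local notation "Qb" => AlgebraicClosure ℚ

variable (M q : ℕ) [NeZero M] [NeZero q] [Fact q.Prime] (hqM : ¬ q ∣ M)
variable (A : ValuationSubring Qb) (hA : A.LiesOverPrime q)
variable (ζ : Qb) (hζ : IsPrimitiveRoot ζ q) (hex : h98_Ex M q hqM A ζ hζ)

local notation "V1c" => h80_fam1 (M * q) (A.inertiaSubgroupIn ℚ) (h98_w1 M q hqM A ζ hζ hex)
  (h98_hw1mul M q hqM A hA ζ hζ hex) (h98_hw1add M q hqM A hA ζ hζ hex)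
local notation "V2c" => h80_fam1 (M * q * q) (A.inertiaSubgroupIn ℚ) (h98_w2 M q hqM A ζ hζ hex)
  (h98_hw2mul M q hqM A hA ζ hζ hex) (h98_hw2add M q hqM A hA ζ hζ hex)

/-- `hib`: `V2.B` is integral over `b (V1.B)`. -/
theorem h29_pm_hib :
    ((h70_bF0 (M * q) q (A.inertiaSubgroupIn ℚ)).restrict (V1c).B (V2c).B
      (h98_thick_hb M q hqM A hA ζ hζ hex)).IsIntegral := by
  have h := h80_HC4_beta_inertia (M * q) q A hA (V1c) (V2c) (Dvd.intro_left M rfl)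
    (fun a ha => h65_const_mem_fam1 (M * q) A (h98_w1 M q hqM A ζ hζ hex)
      (h98_hw1mul M q hqM A hA ζ hζ hex) (h98_hw1add M q hqM A hA ζ hζ hex)
      (h69_hwA1 M q hqM A hA ζ hζ hex) a ha)
    (h98_thick_hb M q hqM A hA ζ hζ hex)
    (fun u hu => h74_int_Nb M q hqM A hA ζ hζ hex u hu)
  exact h

/-- `htb`: the vertical table of `b`. -/
theorem h29_pm_htb : ∀ k : Fin 3, ∃ e : ℤ, 0 < e ∧
    ∀ g : h69_F0 (M * q) (A.inertiaSubgroupIn ℚ), g ≠ 0 →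
      (V2c).v (Sum.inl k) (h70_bF0 (M * q) q (A.inertiaSubgroupIn ℚ) g)
        = e * (V1c).v ((![Sum.inl 0, Sum.inl 1, Sum.inl 1] :
            Fin 3 → Fin 2 ⊕ h80_HorIdx (h80_horOrd (M * q) (A.inertiaSubgroupIn ℚ)
              (h59_jbar (M * q)))) k) g :=
  h69_htb_fam M q hqM A hA ζ hζ hex (V1c) (V2c) (Sum.inl 0) (Sum.inl 1) Sum.inl
    (fun g => rfl) (fun g => rfl) (fun k f => rfl)

/-- `hHCb`: every horizontal valuation of level `M q²` lies over one of level `M q` along `b`. -/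
theorem h29_pm_hHCb : ∀ h, h80_IsHor h → ∃ h1, h80_IsHor h1 ∧ ∃ e : ℤ, 0 < e ∧
    ∀ g : h69_F0 (M * q) (A.inertiaSubgroupIn ℚ), g ≠ 0 →
      (V2c).v h (h70_bF0 (M * q) q (A.inertiaSubgroupIn ℚ) g) = e * (V1c).v h1 g := by
  intro h hh
  obtain ⟨k₁, e, hk₁, he, htab⟩ := h65_hc_hor_b M q hqM (A.inertiaSubgroupIn ℚ)
    (h98_w1 M q hqM A ζ hζ hex) (h98_hw1mul M q hqM A hA ζ hζ hex)
    (h98_hw1add M q hqM A hA ζ hζ hex) (h98_w2 M q hqM A ζ hζ hex)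
    (h98_hw2mul M q hqM A hA ζ hζ hex) (h98_hw2add M q hqM A hA ζ hζ hex) h hh
  exact ⟨k₁, hk₁, e, by omega, fun g _ => htab g⟩

include hA in
/-- `hqw`: `q` has positive value at the three vertical valuations. -/
theorem h29_pm_hqw : ∀ c : Fin 3,
    0 < h98_w2 M q hqM A ζ hζ hex c ((q : ℕ) : h69_F0 (M * q * q) (A.inertiaSubgroupIn ℚ)) := by
  have hq : q.Prime := Fact.out
  have h1 := hq.one_lt
  intro c
  fin_cases c
  · show 0 < h98_w2 M q hqM A ζ hζ hex 0 _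
    rw [h98_hq0 M q hqM A hA ζ hζ hex]
    exact one_pos
  · show 0 < h98_w2 M q hqM A ζ hζ hex 1 _
    rw [h98_hq1 M q hqM A hA ζ hζ hex]
    omega
  · show 0 < h98_w2 M q hqM A ζ hζ hex 2 _
    rw [h98_hq2 M q hqM A hA ζ hζ hex]
    exact one_pos

/-- `hunr`: every horizontal valuation of level `M q²` takes the value `1` on the chart ring. -/
theorem h29_pm_hunr : ∀ i, h80_IsHor i →
    ∃ f : (V2c).B, (f : h69_F0 (M * q * q) (A.inertiaSubgroupIn ℚ)) ≠ 0 ∧ (V2c).v i f = 1 := by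
  intro i hi
  have hq : q.Prime := Fact.out
  exact h80_famOf_hunr (M * q * q) (A.inertiaSubgroupIn ℚ) (h98_w2 M q hqM A ζ hζ hex)
    (h98_hw2mul M q hqM A hA ζ hζ hex) (h98_hw2add M q hqM A hA ζ hζ hex)
    (h59_jbar (M * q * q)) (h54_isChart_jbar (M * q * q))
    (h80_jbar_mem_F0 (M * q * q) (A.inertiaSubgroupIn ℚ))
    ((q : ℕ) : h69_F0 (M * q * q) (A.inertiaSubgroupIn ℚ))
    (h70_natCast_ne_zero _ _ hq.ne_zero)
    (fun P _ => h89_ord_natCast (M * q * q) (A.inertiaSubgroupIn ℚ) q P)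
    (h29_pm_hqw M q hqM A hA ζ hζ hex) i hi

/-- `hsep`: two horizontal valuations of level `M q²` are separated by the chart ring. -/
theorem h29_pm_hsep : ∀ i j, h80_IsHor i → h80_IsHor j → i ≠ j →
    ∃ f : (V2c).B, (f : h69_F0 (M * q * q) (A.inertiaSubgroupIn ℚ)) ≠ 0 ∧
      0 < (V2c).v i f ∧ (V2c).v j f = 0 := by
  intro i j hi hj hij
  have hq : q.Prime := Fact.out
  exact h80_famOf_hsep (M * q * q) (A.inertiaSubgroupIn ℚ) (h98_w2 M q hqM A ζ hζ hex)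
    (h98_hw2mul M q hqM A hA ζ hζ hex) (h98_hw2add M q hqM A hA ζ hζ hex)
    (h59_jbar (M * q * q)) (h54_isChart_jbar (M * q * q))
    (h80_jbar_mem_F0 (M * q * q) (A.inertiaSubgroupIn ℚ))
    ((q : ℕ) : h69_F0 (M * q * q) (A.inertiaSubgroupIn ℚ))
    (h70_natCast_ne_zero _ _ hq.ne_zero)
    (fun P _ => h89_ord_natCast (M * q * q) (A.inertiaSubgroupIn ℚ) q P)
    (h29_pm_hqw M q hqM A hA ζ hζ hex) i j hi hj hij

/-- **`h14_pts_two_level_w` at the modular names**: `hclass`, (UNIT\*) and the residue data at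
the points of chart 1 of level `M q²`, from the four level-`q` inputs. -/
theorem h29_pts_two_mod
    (hUw : ∀ s : Ideal (V1c).B, s.IsMaximal → (V1c).Through s (Sum.inl 0) →
      (V1c).Through s (Sum.inl 1) →
      (∃ e : h69_F0 (M * q) (A.inertiaSubgroupIn ℚ), e ≠ 0 ∧ (V1c).v (Sum.inl 0) e = 1 ∧
        ∀ j, (V1c).Through s j → j ≠ Sum.inl 0 → (V1c).v j e = 0) ∧
      (∃ e : h69_F0 (M * q) (A.inertiaSubgroupIn ℚ), e ≠ 0 ∧ (V1c).v (Sum.inl 1) e = 1 ∧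
        ∀ j, (V1c).Through s j → j ≠ Sum.inl 1 → (V1c).v j e = 0))
    (hR1F : ∀ s : Ideal (V1c).B, s.IsMaximal → (V1c).Through s (Sum.inl 0) →
      ∃ (Fb : Type) (_ : Field Fb) (R : h62_Res (V1c) s (Sum.inl 0) Fb),
        ∃ g : Fb, g ≠ 0 ∧ 0 < R.o g)
    (hR1V : ∀ s : Ideal (V1c).B, s.IsMaximal → (V1c).Through s (Sum.inl 1) →
      ∃ (Fb : Type) (_ : Field Fb) (R : h62_Res (V1c) s (Sum.inl 1) Fb),
        ∃ g : Fb, g ≠ 0 ∧ 0 < R.o g)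
    (hthick : ∀ m : Ideal (V2c).B, m.IsMaximal → (V2c).Through m (Sum.inl 1) →
      (∀ c : Fin 3, (V2c).Through m (Sum.inl c) → c = 1) →
      ∃ z : h69_F0 (M * q * q) (A.inertiaSubgroupIn ℚ), z ≠ 0 ∧ (V2c).v (Sum.inl 1) z = 1 ∧
        ∀ k, (V2c).Through m k → k ≠ Sum.inl 1 → (V2c).v k z = 0) :
    (∀ m : Ideal (V2c).B, m.IsMaximal →
      (∀ k : Fin 3, (V2c).Through m (Sum.inl k)) ∨
        ∃ k0 : Fin 3, ∀ k : Fin 3, (V2c).Through m (Sum.inl k) → k = k0) ∧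
    (∀ m : Ideal (V2c).B, m.IsMaximal → (∃ k : Fin 3, (V2c).Through m (Sum.inl k)) →
      h62_UnitStar (V2c) m) ∧
    (∀ m : Ideal (V2c).B, m.IsMaximal → ∀ k : Fin 3, (V2c).Through m (Sum.inl k) →
      ∃ (Fb : Type) (_ : Field Fb) (R : h62_Res (V2c) m (Sum.inl k) Fb),
        ∃ g : Fb, g ≠ 0 ∧ 0 < R.o g) := by
  have hq : q.Prime := Fact.out
  haveI : IsNoetherianRing (V2c).B := (h65_noeth_q2 M q hqM A hA ζ hζ hex).1
  refine h14_pts_two_level_w (V1c) (V2c) (Sum.inl 0) (Sum.inl 1) (by simp) Sum.inl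
    (fun i => h80_IsHor i) (fun i => h80_IsHor i) ?_ ?_
    (h70_aF0 (M * q) q (A.inertiaSubgroupIn ℚ)) (h70_bF0 (M * q) q (A.inertiaSubgroupIn ℚ))
    (h98_thick_ha M q hqM A hA ζ hζ hex) (h98_thick_hb M q hqM A hA ζ hζ hex)
    (h98_thick_hia M q hqM A hA ζ hζ hex) (h29_pm_hib M q hqM A hA ζ hζ hex)
    (h98_thick_hta M q hqM A hA ζ hζ hex) (h29_pm_htb M q hqM A hA ζ hζ hex)
    (fun g hg => h98_hV0a2 M q hqM A hA ζ hζ hex g hg)
    (fun g hg => h98_hV0b0 M q hqM A hA ζ hζ hex g hg)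
    (h98_thick_hHCa M q hqM A hA ζ hζ hex) (h29_pm_hHCb M q hqM A hA ζ hζ hex) hUw
    q hq.ne_zero
    (h14_hN2_fam M q hqM A hA ζ hζ hex (V1c) (V2c) (Sum.inl 2) (fun _ => rfl)
      (h14_hNa M q hqM A hA ζ hζ hex))
    (h14_hN3_fam M q hqM A hA ζ hζ hex (V1c) (V2c) (Sum.inl 0) (fun _ => rfl)
      (h14_hNb M q hqM A hA ζ hζ hex))
    ((q : ℕ) : h69_F0 (M * q * q) (A.inertiaSubgroupIn ℚ)) (h70_natCast_ne_zero _ _ hq.ne_zero)
    (h98_hq0 M q hqM A hA ζ hζ hex) ?_ (h98_hq2 M q hqM A hA ζ hζ hex)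
    (h98_thick_hqH M q hqM A hA ζ hζ hex)
    (h29_pm_hunr M q hqM A hA ζ hζ hex)
    (fun i j hi hj hij => h29_pm_hsep M q hqM A hA ζ hζ hex i j hi hj hij)
    hR1F hR1V
    (fun y hy0 hy => h98_hV1 M q hqM A hA ζ hζ hex y hy0 hy)
    (fun y hy0 hy => h98_hV2 M q hqM A hA ζ hζ hex y hy0 hy)
    (fun y hy0 hy => h98_hV1b M q hqM A hA ζ hζ hex y hy0 hy)
    ⟨h74_zF M q hqM A, h74_zF_ne_zero M q hqM A, h74_w2_z1 M q hqM A hA ζ hζ hex⟩ hthick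
  · rintro _ ⟨j, rfl⟩
    exact ⟨Sum.inr_ne_inl, Sum.inr_ne_inl⟩
  · intro i
    rcases i with k | j
    · exact Or.inl ⟨k, rfl⟩
    · exact Or.inr ⟨j, rfl⟩
  · exact h29_pm_hqw M q hqM A hA ζ hζ hex 1

/-- **The three I-PTS conjuncts (P1), (P2), (P3) of `h94_Rows`**, verbatim, from the four
level-`q` inputs (`hUw`, `hR1F`, `hR1V`, `hthick`: verbatim the binders of `h62_pts_mod`). -/
theorem h29_pts_rows
    (hUw : ∀ s : Ideal (V1c).B, s.IsMaximal → (V1c).Through s (Sum.inl 0) →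
      (V1c).Through s (Sum.inl 1) →
      (∃ e : h69_F0 (M * q) (A.inertiaSubgroupIn ℚ), e ≠ 0 ∧ (V1c).v (Sum.inl 0) e = 1 ∧
        ∀ j, (V1c).Through s j → j ≠ Sum.inl 0 → (V1c).v j e = 0) ∧
      (∃ e : h69_F0 (M * q) (A.inertiaSubgroupIn ℚ), e ≠ 0 ∧ (V1c).v (Sum.inl 1) e = 1 ∧
        ∀ j, (V1c).Through s j → j ≠ Sum.inl 1 → (V1c).v j e = 0))
    (hR1F : ∀ s : Ideal (V1c).B, s.IsMaximal → (V1c).Through s (Sum.inl 0) →
      ∃ (Fb : Type) (_ : Field Fb) (R : h62_Res (V1c) s (Sum.inl 0) Fb),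
        ∃ g : Fb, g ≠ 0 ∧ 0 < R.o g)
    (hR1V : ∀ s : Ideal (V1c).B, s.IsMaximal → (V1c).Through s (Sum.inl 1) →
      ∃ (Fb : Type) (_ : Field Fb) (R : h62_Res (V1c) s (Sum.inl 1) Fb),
        ∃ g : Fb, g ≠ 0 ∧ 0 < R.o g)
    (hthick : ∀ m : Ideal (V2c).B, m.IsMaximal → (V2c).Through m (Sum.inl 1) →
      (∀ c : Fin 3, (V2c).Through m (Sum.inl c) → c = 1) →
      ∃ z : h69_F0 (M * q * q) (A.inertiaSubgroupIn ℚ), z ≠ 0 ∧ (V2c).v (Sum.inl 1) z = 1 ∧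
        ∀ k, (V2c).Through m k → k ≠ Sum.inl 1 → (V2c).v k z = 0) :
    (∀ 𝔪 : Ideal (V2c).B, 𝔪.IsMaximal →
      (∀ k : Fin 3, (V2c).Through 𝔪 (Sum.inl k)) ∨
        ∃ k0 : Fin 3, ∀ k : Fin 3, (V2c).Through 𝔪 (Sum.inl k) → k = k0) ∧
    (∀ 𝔪 : Ideal (V2c).B, 𝔪.IsMaximal → (∃ k : Fin 3, (V2c).Through 𝔪 (Sum.inl k)) →
      ∀ i, (V2c).Through 𝔪 i →
        ∃ e : h69_F0 (M * q * q) (A.inertiaSubgroupIn ℚ), e ≠ 0 ∧ (V2c).v i e = 1 ∧
          ∀ j, (V2c).Through 𝔪 j → j ≠ i → (V2c).v j e = 0) ∧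
    (∀ m : ℕ, 0 < m → Nat.Coprime q m → ∀ 𝔪 : Ideal (V2c).B, 𝔪.IsMaximal →
      (∃ k : Fin 3, (V2c).Through 𝔪 (Sum.inl k)) →
      ∀ e ω : h69_F0 (M * q * q) (A.inertiaSubgroupIn ℚ),
        (∀ c, (V2c).Through 𝔪 c →
          0 < (V2c).v c ((q : ℕ) : h69_F0 (M * q * q) (A.inertiaSubgroupIn ℚ)) →
          0 ≤ (V2c).v c e) →
        ω ≠ 0 → (V2c).InLoc 𝔪 ω → (V2c).InLoc 𝔪 ω⁻¹ →
        (∀ c, (V2c).Through 𝔪 c →
          0 < (V2c).v c ((q : ℕ) : h69_F0 (M * q * q) (A.inertiaSubgroupIn ℚ)) →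
          (e ^ m * ω = 1 ∨
            (V2c).v c ((q : ℕ) : h69_F0 (M * q * q) (A.inertiaSubgroupIn ℚ)) ≤
              (V2c).v c (e ^ m * ω - 1))) →
        ∃ (ξ : _ → h69_F0 (M * q * q) (A.inertiaSubgroupIn ℚ))
          (y : h69_F0 (M * q * q) (A.inertiaSubgroupIn ℚ)),
          (∀ c, (V2c).Through 𝔪 c →
            0 < (V2c).v c ((q : ℕ) : h69_F0 (M * q * q) (A.inertiaSubgroupIn ℚ)) →
            (V2c).InLoc 𝔪 (ξ c) ∧ ξ c ^ m = 1) ∧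
          y ≠ 0 ∧ (V2c).InLoc 𝔪 y ∧ (V2c).InLoc 𝔪 y⁻¹ ∧
          ∀ c, (V2c).Through 𝔪 c →
            0 < (V2c).v c ((q : ℕ) : h69_F0 (M * q * q) (A.inertiaSubgroupIn ℚ)) →
            (e = ξ c * y ∨
              (V2c).v c ((q : ℕ) : h69_F0 (M * q * q) (A.inertiaSubgroupIn ℚ)) ≤
                (V2c).v c (e - ξ c * y))) := by
  obtain ⟨hclass, hU, hRes⟩ := h29_pts_two_mod M q hqM A hA ζ hζ hex hUw hR1F hR1V hthick
  have hq : q.Prime := Fact.out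
  refine ⟨hclass, fun 𝔪 h𝔪 hk => hU 𝔪 h𝔪 hk, ?_⟩
  intro m hm hqm 𝔪 h𝔪 hk
  obtain ⟨k, hk'⟩ := hk
  have hqn : ¬ q ∣ m := fun hdvd => hq.one_lt.ne' (Nat.Coprime.eq_one_of_dvd hqm hdvd)
  have hUm : h62_UnitStar (V2c) 𝔪 := hU 𝔪 h𝔪 ⟨k, hk'⟩
  have hq0 : ((q : ℕ) : h69_F0 (M * q * q) (A.inertiaSubgroupIn ℚ)) ≠ 0 :=
    h70_natCast_ne_zero _ _ hq.ne_zero
  have hq𝔪 : ((q : ℕ) : (V2c).B) ∈ 𝔪 :=
    hk' ((q : ℕ) : (V2c).B) hq0 (h29_pm_hqw M q hqM A hA ζ hζ hex k)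
  haveI hN : IsNoetherianRing (h80_famOf (M * q * q) (A.inertiaSubgroupIn ℚ)
      (h98_w2 M q hqM A ζ hζ hex) (h98_hw2mul M q hqM A hA ζ hζ hex)
      (h98_hw2add M q hqM A hA ζ hζ hex)
      ((h65_J0 (M * q * q) (A.inertiaSubgroupIn ℚ) :
        h69_F0 (M * q * q) (A.inertiaSubgroupIn ℚ)) : modularFunctionFieldBar (M * q * q))
      (h54_isChart_jbar (M * q * q))).B := (h65_noeth_q2 M q hqM A hA ζ hζ hex).1
  have key := h46_chart_point_out (M * q * q) q A hA (h98_w2 M q hqM A ζ hζ hex)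
    (h98_hw2mul M q hqM A hA ζ hζ hex) (h98_hw2add M q hqM A hA ζ hζ hex)
    (h65_J0 (M * q * q) (A.inertiaSubgroupIn ℚ)) (h54_isChart_jbar (M * q * q))
    (h69_hwA2 M q hqM A hA ζ hζ hex) (h69_hwx2 M q hqM A hA ζ hζ hex)
    (h29_pm_hqw M q hqM A hA ζ hζ hex) (h65_noeth_q2 M q hqM A hA ζ hζ hex).2 𝔪 (hmax := h𝔪)
    hq𝔪 (fun c hc => hUm (Sum.inl c) hc)
    (fun c hc => by
      obtain ⟨Fb, iF, R, -⟩ := hRes 𝔪 h𝔪 c hc
      exact ⟨Fb, iF, ⟨R⟩⟩)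
    (n := m) hqn
  exact key.2

end Fermat.Agent.S36
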