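import Fermat.Agent.S36.h60_ThickRes
import Fermat.Agent.S36.h98_ThickInst

/-!
# S36 / I-PTS (M5): `hthick` at the modular names, closed (helper60)

`h60_hthick_closed` : the binder `hthick` of `h62_pts_mod` (every point of the middle component
of level `M q²` through which no other vertical component passes has a local equation of the
middle component), with no hypothesis beyond the S34 chart hypotheses
`hch : 5 ≤ q ∨ 2 ∣ M ∨ 3 ∣ M`, `nuTwo M = 0`, `nuThree M = 0`.

It is `h60_hthick_gen2` with `hQ := h60_hQ_closed` and the binder discharges `h98_thick_*` of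
helper98's `h98_ThickInst`.
-/

set_option autoImplicit false
set_option synthInstance.maxHeartbeats 400000

noncomputable section

open ModularCurve AlgebraicCurve

namespace Fermat.Agent.S36

open Fermat.Agent.S34 Fermat.Agent.S37 Fermat.Agent.S24 Fermat.Agent.S35 Fermat.Agent.S18
open Fermat.Agent.S27 Fermat.Agent.S19

local notation "Qb" => AlgebraicClosure ℚ

variable (M q : ℕ) [NeZero M] [NeZero q] [Fact q.Prime] (hqM : ¬ q ∣ M)
variable (A : ValuationSubring Qb) (hA : A.LiesOverPrime q)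
variable (ζ : Qb) (hζ : IsPrimitiveRoot ζ q) (hex : h98_Ex M q hqM A ζ hζ)

local notation "V1c" => h80_fam1 (M * q) (A.inertiaSubgroupIn ℚ) (h98_w1 M q hqM A ζ hζ hex)
  (h98_hw1mul M q hqM A hA ζ hζ hex) (h98_hw1add M q hqM A hA ζ hζ hex)
local notation "V2c" => h80_fam1 (M * q * q) (A.inertiaSubgroupIn ℚ) (h98_w2 M q hqM A ζ hζ hex)
  (h98_hw2mul M q hqM A hA ζ hζ hex) (h98_hw2add M q hqM A hA ζ hζ hex)

/-- **`hthick` at the modular names, closed**: at every closed point `m` of the chart-1 ring of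
level `M q²` on the middle component and on no other vertical component, the middle component
has a local equation. -/
theorem h60_hthick_closed (hch : 5 ≤ q ∨ 2 ∣ M ∨ 3 ∣ M) (h2 : nuTwo M = 0) (h3 : nuThree M = 0) :
    ∀ m : Ideal (V2c).B, m.IsMaximal → (V2c).Through m (Sum.inl 1) →
      (∀ c : Fin 3, (V2c).Through m (Sum.inl c) → c = 1) →
      ∃ z : h69_F0 (M * q * q) (A.inertiaSubgroupIn ℚ), z ≠ 0 ∧ (V2c).v (Sum.inl 1) z = 1 ∧
        ∀ k, (V2c).Through m k → k ≠ Sum.inl 1 → (V2c).v k z = 0 := by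
  have hq : q.Prime := Fact.out
  have hq0 : (q : h69_F0 (M * q * q) (A.inertiaSubgroupIn ℚ)) ≠ 0 :=
    h70_natCast_ne_zero _ _ hq.ne_zero
  have hvq : (V2c).v (Sum.inl 1) (q : h69_F0 (M * q * q) (A.inertiaSubgroupIn ℚ))
      = ((q - 1 : ℕ) : ℤ) := by
    have e : (((q - 1 : ℕ) : ℕ) : ℤ) = (q : ℤ) - 1 := by
      rw [Nat.cast_sub hq.one_le, Nat.cast_one]
    exact (h98_hq1 M q hqM A hA ζ hζ hex).trans e.symm
  refine h60_hthick_gen2 M q hqM A hA ζ hζ (h69_F0 (M * q) (A.inertiaSubgroupIn ℚ)).subtype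
    (V1c) (h69_F0 (M * q * q) (A.inertiaSubgroupIn ℚ)).subtype (V2c)
    (Sum.inl 0) (Sum.inl 1) Sum.inl (fun i => h80_IsHor i)
    ?_ (h70_aF0 (M * q) q (A.inertiaSubgroupIn ℚ)) (h98_thick_ha M q hqM A hA ζ hζ hex)
    (h98_thick_hia M q hqM A hA ζ hζ hex) (h98_thick_hta M q hqM A hA ζ hζ hex)
    (fun y hy0 hy => h98_hV2 M q hqM A hA ζ hζ hex y hy0 hy)
    ((h70_bF0 (M * q) q (A.inertiaSubgroupIn ℚ)).comp (h98_swF0 M q hqM A))
    (h98_thick_hphi2B M q hqM A hA ζ hζ hex) (fun g => rfl) (fun g => rfl) ?_ ?_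
    ⟨(q : h69_F0 (M * q * q) (A.inertiaSubgroupIn ℚ)), natCast_mem _ q⟩ rfl hq0 hvq
    (h98_thick_hqH M q hqM A hA ζ hζ hex)
    (h60_hQ_closed M q hqM A hA ζ hζ hex hch h2 h3)
  · intro i
    rcases i with k | j
    · exact Or.inl ⟨k, rfl⟩
    · exact Or.inr ⟨j, rfl⟩
  · intro g hg h
    exact (h98_v2_nonneg_iff M q hqM A hA ζ hζ hex g hg).mpr h
  · intro g hg h
    exact (h98_v2_pos_iff M q hqM A hA ζ hζ hex g hg).mpr h

end Fermat.Agent.S36

end
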