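import Mathlib
import Fermat.Agent.S36.h65_NoethQ2

/-!
# S36 / (NOETH-CLOSED), chart 2 (`x = 1/j`) (helper65)

* `h65_aeval_reflect`, `h65_gaussRing_inv_le` : the Gauss ring of `(A, x⁻¹)` is contained in the
  Gauss ring of `(A, x)` (reflect the polynomials).
* `h65_hvert_inv` : the binder `hvert` of helper80's `h80_famOf_noeth` for the chart `x0⁻¹`, from
  the inputs of helper97's `h97_hvert_mod75` for the chart `x0` (any level, any family).
* `h65_hvert_q2b`, `h65_noeth_q2b` : the closed instance at level `M q²` for the chart `1/j`: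
  `IsNoetherianRing (h80_fam2 (M * q * q) I (h98_w2 ..) ..).B` and every element of that chart
  ring is integral over `A₀[1/j]`.
-/

set_option autoImplicit false
set_option synthInstance.maxHeartbeats 400000

noncomputable section

open ModularCurve AlgebraicCurve CongruenceSubgroup Polynomial IntermediateField
open scoped MatrixGroups

namespace Fermat.Agent.S36

open Fermat.Agent.S34 Fermat.Agent.S37 Fermat.Agent.S24 Fermat.Agent.S35 Fermat.Agent.S18

local notation "Qb" => AlgebraicClosure ℚ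

section Generic

variable {K F : Type*} [Field K] [Field F] [Algebra K F]

/-- Evaluating the reflected polynomial at `x` is evaluating the polynomial at `x⁻¹`, up to
`x ^ N`. -/
theorem h65_aeval_reflect (x : F) (hx : x ≠ 0) (N : ℕ) (g : K[X]) (hg : g.natDegree ≤ N) :
    aeval x (g.reflect N) = aeval x⁻¹ g * x ^ N := by
  haveI : Invertible x⁻¹ := invertibleOfNonzero (inv_ne_zero hx)
  have h := Polynomial.eval₂_reflect_mul_pow (algebraMap K F) x⁻¹ N g hg
  rw [invOf_eq_inv, inv_inv] at h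
  rw [aeval_def, aeval_def, ← h, mul_assoc, ← mul_pow, inv_mul_cancel₀ hx, one_pow, mul_one]

/-- The Gauss ring of `(A, x⁻¹)` is contained in the Gauss ring of `(A, x)`. -/
theorem h65_gaussRing_inv_le (A : ValuationSubring K) (x : F) (hx : x ≠ 0) :
    h75_gaussRing A x⁻¹ ≤ h75_gaussRing A x := by
  rintro f ⟨P, S, hS, h⟩
  refine ⟨P.reflect (max P.natDegree S.natDegree), S.reflect (max P.natDegree S.natDegree),
    ?_, ?_⟩
  · rw [← Polynomial.reflect_map]
    exact fun h0 => hS (Polynomial.reflect_eq_zero_iff.mp h0)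
  · rw [← Polynomial.reflect_map, ← Polynomial.reflect_map,
      h65_aeval_reflect x hx _ _ (natDegree_map_le.trans (le_max_right _ _)),
      h65_aeval_reflect x hx _ _ (natDegree_map_le.trans (le_max_left _ _)), ← mul_assoc, h]

end Generic

section Inv

variable (N : ℕ) (q : ℕ) [Fact q.Prime] (A : ValuationSubring Qb)
  (x0 : h69_F0 N (A.inertiaSubgroupIn ℚ))
  (hx : h75_IsChart Qb (x0 : modularFunctionFieldBar N))

include hx in
/-- **`hvert` for the chart `x0⁻¹`** from the inputs of `h97_hvert_mod75` for the chart `x0`. -/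
theorem h65_hvert_inv (hA : A.LiesOverPrime q) {κ : Type*} [Fintype κ]
    (w : κ → h69_F0 N (A.inertiaSubgroupIn ℚ) → ℤ) (hw : ∀ c, h99_IsVal (w c))
    (hR : ∀ (c : κ) (r : h69_F0 N (A.inertiaSubgroupIn ℚ)),
      r ∈ h75_gaussRing (h69_A0 A) x0 → r ≠ 0 → 0 ≤ w c r)
    (e : κ → ℕ) (he : ∀ c, w c (q : h69_F0 N (A.inertiaSubgroupIn ℚ)) = e c)
    (hnorm : ∀ c, ∃ z : h69_F0 N (A.inertiaSubgroupIn ℚ), z ≠ 0 ∧ w c z = 1)
    (hne : ∀ c c', c ≠ c' → ∃ g : h69_F0 N (A.inertiaSubgroupIn ℚ), g ≠ 0 ∧ w c g ≠ w c' g)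
    (f : κ → ℕ) (b : (c : κ) → Fin (f c) → h69_F0 N (A.inertiaSubgroupIn ℚ))
    (hb : ∀ c (r : Fin (f c) → ↥(h75_gaussRing (h69_A0 A) x0)), (∃ j, IsUnit (r j)) →
      ∑ j, r j • b c j ≠ 0 ∧ w c (∑ j, r j • b c j) = 0)
    (hn : Module.finrank (h69_K0 (A.inertiaSubgroupIn ℚ))⟮x0⟯ (h69_F0 N (A.inertiaSubgroupIn ℚ)) ≤
      ∑ c, e c * f c) :
    ∀ g : h69_F0 N (A.inertiaSubgroupIn ℚ), g ≠ 0 → (∀ c, 0 ≤ w c g) →
      ∃ s : Polynomial (h69_A0 A).toSubring,
        (∃ i, (s.coeff i : h69_K0 (A.inertiaSubgroupIn ℚ))⁻¹ ∈ h69_A0 A ∧ s.coeff i ≠ 0) ∧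
          (h97_ev (h69_A0 A).toSubring x0⁻¹).IsIntegralElem
            (h97_ev (h69_A0 A).toSubring x0⁻¹ s * g) := by
  have hx0 : x0 ≠ 0 := fun h =>
    hx.tr (by rw [show (x0 : modularFunctionFieldBar N) = 0 from congrArg Subtype.val h]
              exact isAlgebraic_zero)
  have hle := h65_gaussRing_inv_le (h69_A0 A) x0 hx0
  have hx' : h75_IsChart Qb ((x0⁻¹ : h69_F0 N (A.inertiaSubgroupIn ℚ)) :
      modularFunctionFieldBar N) := h75_isChart_inv hx
  refine h97_hvert_mod75 N q A x0⁻¹ hx' hA w hw (fun c r hr => hR c _ (hle r.2) hr) e he hnorm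
    hne f b ?_ ?_
  · intro c r ⟨j, hj⟩
    exact hb c (fun j => Subring.inclusion hle (r j)) ⟨j, hj.map (Subring.inclusion hle)⟩
  · rw [h24_adjoin_inv_eq]
    exact hn

end Inv

section Q2b

variable (M q : ℕ) [NeZero M] [NeZero q] [Fact q.Prime] (hqM : ¬ q ∣ M)
  (A : ValuationSubring Qb) (hA : A.LiesOverPrime q)
  (ζ : Qb) (hζ : IsPrimitiveRoot ζ q) (hex : h98_Ex M q hqM A ζ hζ)

include hA in
/-- **`hvert` at level `M q²`, chart `1/j`** : the binder of `h80_famOf_noeth`, closed. -/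
theorem h65_hvert_q2b :
    ∀ g : h69_F0 (M * q * q) (A.inertiaSubgroupIn ℚ), g ≠ 0 →
      (∀ c, 0 ≤ h98_w2 M q hqM A ζ hζ hex c g) →
      ∃ s : Polynomial (h69_A0 A).toSubring,
        (∃ i, (s.coeff i : h69_K0 (A.inertiaSubgroupIn ℚ))⁻¹ ∈ h69_A0 A ∧ s.coeff i ≠ 0) ∧
          (h97_ev (h69_A0 A).toSubring
            (h69_jF0 (M * q * q) (A.inertiaSubgroupIn ℚ))⁻¹).IsIntegralElem
            (h97_ev (h69_A0 A).toSubring (h69_jF0 (M * q * q) (A.inertiaSubgroupIn ℚ))⁻¹ s *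
              g) := by
  have hq : q.Prime := Fact.out
  have hq0F : (q : h69_F0 (M * q * q) (A.inertiaSubgroupIn ℚ)) ≠ 0 := by
    exact_mod_cast hq.ne_zero
  refine h65_hvert_inv (M * q * q) q A (h69_jF0 (M * q * q) (A.inertiaSubgroupIn ℚ))
    (h54_isChart_jbar (M * q * q)) hA (h98_w2 M q hqM A ζ hζ hex)
    (h98_w2_isVal M q hqM A hA ζ hζ hex) (h91_hR_w98 M q hqM A hA ζ hζ hex)
    (![1, q - 1, 1] : Fin 3 → ℕ) ?_ ?_
    (h99_w2_hne M q hqM A hA ζ hζ hex) (h91_fRes M q) (h91_bRes M q hqM A)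
    (h91_hb_w98 M q hqM A hA ζ hζ hex) ?_
  · intro c
    fin_cases c
    · simpa using h98_hq0 M q hqM A hA ζ hζ hex
    · have h1 := h98_hq1 M q hqM A hA ζ hζ hex
      show h98_w2 M q hqM A ζ hζ hex 1 (q : h69_F0 (M * q * q) (A.inertiaSubgroupIn ℚ)) =
        ((q - 1 : ℕ) : ℤ)
      rw [h1, Nat.cast_sub hq.one_le, Nat.cast_one]
    · simpa using h98_hq2 M q hqM A hA ζ hζ hex
  · intro c
    fin_cases c
    · exact ⟨_, hq0F, h98_hq0 M q hqM A hA ζ hζ hex⟩
    · exact h99_w2_hnorm1 M q hqM A hA ζ hζ hex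
    · exact ⟨_, hq0F, h98_hq2 M q hqM A hA ζ hζ hex⟩
  · rw [h69_F0_finrank_q2 M q hq hqM (A.inertiaSubgroupIn ℚ)]
    exact h99_count_m M q hq.pos

include hA in
/-- **(NOETH-CLOSED), level `M q²`, chart 2**: the chart ring of `h80_fam2` for `h98_w2` is
noetherian, and each of its elements is integral over `A₀[1/j]`. -/
theorem h65_noeth_q2b :
    IsNoetherianRing
      (h80_fam2 (M * q * q) (A.inertiaSubgroupIn ℚ) (h98_w2 M q hqM A ζ hζ hex)
        (h98_hw2mul M q hqM A hA ζ hζ hex) (h98_hw2add M q hqM A hA ζ hζ hex)).B ∧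
    ∀ f ∈ (h80_fam2 (M * q * q) (A.inertiaSubgroupIn ℚ) (h98_w2 M q hqM A ζ hζ hex)
        (h98_hw2mul M q hqM A hA ζ hζ hex) (h98_hw2add M q hqM A hA ζ hζ hex)).B,
      (h97_ev (h69_A0 A).toSubring
        (h69_jF0 (M * q * q) (A.inertiaSubgroupIn ℚ))⁻¹).IsIntegralElem f := by
  have hx0 : h69_jF0 (M * q * q) (A.inertiaSubgroupIn ℚ) ≠ 0 := fun h =>
    h59_jbar_transcendental (M * q * q)
      (by rw [show h59_jbar (M * q * q) = 0 from congrArg Subtype.val h]; exact isAlgebraic_zero)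
  exact h80_famOf_noeth (M * q * q) q A hA (h98_w2 M q hqM A ζ hζ hex)
    (h98_hw2mul M q hqM A hA ζ hζ hex) (h98_hw2add M q hqM A hA ζ hζ hex)
    (h69_jF0 (M * q * q) (A.inertiaSubgroupIn ℚ))⁻¹
    (h75_isChart_inv (h54_isChart_jbar (M * q * q)))
    (h65_hwA_of_hR (M * q * q) A _ _ (h91_hR_w98 M q hqM A hA ζ hζ hex))
    (fun c => h91_hR_w98 M q hqM A hA ζ hζ hex c _
      (h75_gaussRing_x_inv (h69_A0 A) hx0) (inv_ne_zero hx0))
    (h65_hvert_q2b M q hqM A hA ζ hζ hex)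

end Q2b

end Fermat.Agent.S36
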