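import Mathlib
import Fermat.Agent.S36.h65_NoethQ2b

/-!
# S36 / (NOETH-CLOSED) at level `M q` (helper65)

The closed instance of helper80's `h80_famOf_noeth` at level `M q` for the two vertical
valuations `h98_w1 = (w_F, w_V)` and both charts (`j`, `1/j`).

* `h65_RB_F`, `h65_RB_V`, `h65_RB_w1` : the residue-degree blocks (helper91's `h91_RB`) for
  `w_F` (standard expansion: `m = 1`, `u = j`, `t = j(t^M)`) and `w_V` (expansion after the swap
  `w`: `m = q`, `u = w j`, `t = w j(t^M)`); `h65_hR_w1`, `h65_hb_w1`.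
* `h65_w1_q` : `w1 c q = 1`;  `h65_w1_hne` : `w_F ≠ w_V` (helper69's separator);
  `h65_count_q` : `[F0(M q) : K0(j)] ≤ ψ(M) + q ψ(M)`.
* `h65_hvert_q`, `h65_hvert_qb` : the binder `hvert` of `h80_famOf_noeth` (charts `j`, `1/j`).
* `h65_noeth_q`, `h65_noeth_qb` : `IsNoetherianRing (h80_fam1 (M * q) I (h98_w1 ..) ..).B`
  (resp. `h80_fam2`) and every element of the chart ring is integral over `A₀[j]`
  (resp. `A₀[1/j]`).
-/

set_option autoImplicit false
set_option synthInstance.maxHeartbeats 400000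
set_option linter.unusedSectionVars false

noncomputable section

open ModularCurve AlgebraicCurve CongruenceSubgroup Polynomial IntermediateField
open scoped MatrixGroups

namespace Fermat.Agent.S36

open Fermat.Agent.S34 Fermat.Agent.S37 Fermat.Agent.S24 Fermat.Agent.S35 Fermat.Agent.S18
  Fermat.Agent.S19

local notation "Qb" => AlgebraicClosure ℚ

section Q

variable (M q : ℕ) [NeZero M] [NeZero q] [Fact q.Prime] (hqM : ¬ q ∣ M)
  (A : ValuationSubring Qb)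

theorem h65_dvd_q : M ∣ M * q := ⟨q, rfl⟩

/-- `j(t^M)` as an element of `F0` at level `M q`. -/
def h65_tMq : h69_F0 (M * q) (A.inertiaSubgroupIn ℚ) :=
  h91_tF0 (M * q) (A.inertiaSubgroupIn ℚ) M (h65_dvd_q M q)

/-- `w j` as an element of `F0` at level `M q`. -/
def h65_wjq : h69_F0 (M * q) (A.inertiaSubgroupIn ℚ) :=
  ⟨h60_w M q hqM (h69_jF0 (M * q) (A.inertiaSubgroupIn ℚ) : modularFunctionFieldBar (M * q)),
    h98_fix1w M q hqM A (h69_jF0 (M * q) (A.inertiaSubgroupIn ℚ))⟩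

/-- `w (j(t^M))` as an element of `F0` at level `M q`. -/
def h65_wtMq : h69_F0 (M * q) (A.inertiaSubgroupIn ℚ) :=
  ⟨h60_w M q hqM (h65_tMq M q A : modularFunctionFieldBar (M * q)),
    h98_fix1w M q hqM A (h65_tMq M q A)⟩

variable (hA : A.LiesOverPrime q) (ζ : Qb) (hζ : IsPrimitiveRoot ζ q)
  (hex : h98_Ex M q hqM A ζ hζ)

include hA in
/-- **`Z_F`**: the standard expansion at level `M q`. -/
theorem h65_RB_F :
    h91_RB (M * q) A (h98_wF M q hqM A ζ hζ hex) M 1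
      (h69_jF0 (M * q) (A.inertiaSubgroupIn ℚ)) (h65_tMq M q A) := by
  have : CharP (IsLocalRing.ResidueField A) q := h19_residueField_charP A q hA
  obtain ⟨hq0, hqA, hqn⟩ := h98_q_unif q A hA
  exact h91_RB_std (M * q) A (q : Qb) hq0 hqA hqn _ M (h65_dvd_q M q) q hqM

include hA in
/-- **`Z_V`**: the standard expansion after the swap `w`. -/
theorem h65_RB_V :
    h91_RB (M * q) A (h98_wV M q hqM A ζ hζ hex) M q
      (h65_wjq M q hqM A) (h65_wtMq M q hqM A) := by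
  have hq : q.Prime := Fact.out
  have : CharP (IsLocalRing.ResidueField A) q := h19_residueField_charP A q hA
  obtain ⟨hq0, hqA, hqn⟩ := h98_q_unif q A hA
  have e1 : ((h98_coe (M * q)).comp (h60_w M q hqM)) (h59_jbar (M * q)) =
      qExpand Qb q (coeffEmb Qb jq) := by
    show ((h60_w M q hqM (h59_jbar (M * q)) : modularFunctionFieldBar (M * q)) :
      LaurentSeries Qb) = _
    rw [h65_w_jbar]
    rfl
  have e2 : ((h98_coe (M * q)).comp (h60_w M q hqM))
      ((h65_wjq M q hqM A : h69_F0 (M * q) (A.inertiaSubgroupIn ℚ)) :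
        modularFunctionFieldBar (M * q)) = coeffEmb Qb jq := by
    show ((h60_w M q hqM (h60_w M q hqM (h59_jbar (M * q))) :
      modularFunctionFieldBar (M * q)) : LaurentSeries Qb) = _
    rw [h60_w_w]
    rfl
  have e3 : ((h98_coe (M * q)).comp (h60_w M q hqM))
      ((h65_wtMq M q hqM A : h69_F0 (M * q) (A.inertiaSubgroupIn ℚ)) :
        modularFunctionFieldBar (M * q)) = qExpand Qb M (coeffEmb Qb jq) := by
    show ((h60_w M q hqM (h60_w M q hqM
      ((h65_tMq M q A : h69_F0 (M * q) (A.inertiaSubgroupIn ℚ)) :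
        modularFunctionFieldBar (M * q))) :
      modularFunctionFieldBar (M * q)) : LaurentSeries Qb) = _
    rw [h60_w_w]
    rfl
  have hJq : ∃ h : qExpand Qb q (coeffEmb Qb jq) ∈ h60_Os A,
      h60_rs A ⟨_, h⟩ = jqModC (IsLocalRing.ResidueField A) ^ q := by
    obtain ⟨h1, h2⟩ := h91_JL_val A q
    exact ⟨h1, by rw [h2, ← h60_jq_pow]⟩
  exact h91_hRb_E (M * q) A ((h98_coe (M * q)).comp (h60_w M q hqM))
    (fun c => by
      show ((h60_w M q hqM (algebraMap Qb (modularFunctionFieldBar (M * q)) c) :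
        modularFunctionFieldBar (M * q)) : LaurentSeries Qb) = _
      rw [h60_w_algebraMap]
      rfl)
    (q : Qb) hq0 hqA hqn _ M q hqM q hq.pos
    (h91_val_congr hJq e1) _ _
    (h91_val_congr (h91_J_val A) e2) (h91_val_congr (h91_JL_val A M) e3)

/-! ### The two components together -/

/-- The exponents `m = (1, q)` of the chart on the two components. -/
def h65_mQ : Fin 2 → ℕ := ![1, q]

/-- The lifts of `j̄` on the two components: `j, w j`. -/
def h65_uQ : Fin 2 → h69_F0 (M * q) (A.inertiaSubgroupIn ℚ) :=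
  ![h69_jF0 (M * q) (A.inertiaSubgroupIn ℚ), h65_wjq M q hqM A]

/-- The lifts of `j̄(t^M)` on the two components: `j_M, w j_M`. -/
def h65_tQ : Fin 2 → h69_F0 (M * q) (A.inertiaSubgroupIn ℚ) :=
  ![h65_tMq M q A, h65_wtMq M q hqM A]

/-- The residue degrees `f c = m c * [SL₂(ℤ) : Γ₀(M)]`. -/
def h65_fQ (c : Fin 2) : ℕ := h65_mQ q c * Nat.card (SL(2, ℤ) ⧸ Gamma0 M)

/-- The residue-degree families `b c j = u_c ^ a * t_c ^ b`. -/
def h65_bQ (c : Fin 2) (j : Fin (h65_fQ M q c)) : h69_F0 (M * q) (A.inertiaSubgroupIn ℚ) :=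
  h65_uQ M q hqM A c ^ (((finProdFinEquiv (m := h65_mQ q c)
      (n := Nat.card (SL(2, ℤ) ⧸ Gamma0 M))).symm j).1 : ℕ) *
    h65_tQ M q hqM A c ^ (((finProdFinEquiv (m := h65_mQ q c)
      (n := Nat.card (SL(2, ℤ) ⧸ Gamma0 M))).symm j).2 : ℕ)

include hA in
/-- The residue-degree blocks of `h98_w1`, componentwise. -/
theorem h65_RB_w1 (c : Fin 2) :
    h91_RB (M * q) A (h98_w1 M q hqM A ζ hζ hex c) M (h65_mQ q c) (h65_uQ M q hqM A c)
      (h65_tQ M q hqM A c) := by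
  fin_cases c
  · exact h65_RB_F M q hqM A hA ζ hζ hex
  · exact h65_RB_V M q hqM A hA ζ hζ hex

include hA in
/-- **`hR` for `h98_w1`**: the Gauss ring of `(A₀, j)` has nonnegative vertical orders. -/
theorem h65_hR_w1 :
    ∀ (c : Fin 2) (r : h69_F0 (M * q) (A.inertiaSubgroupIn ℚ)),
      r ∈ h75_gaussRing (h69_A0 A) (h69_jF0 (M * q) (A.inertiaSubgroupIn ℚ)) → r ≠ 0 →
        0 ≤ h98_w1 M q hqM A ζ hζ hex c r :=
  fun c => (h65_RB_w1 M q hqM A hA ζ hζ hex c).1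

include hA in
/-- **`hb` for `h98_w1`**, with `f := h65_fQ M q`, `b := h65_bQ M q hqM A`. -/
theorem h65_hb_w1 :
    ∀ (c : Fin 2) (r : Fin (h65_fQ M q c) →
        ↥(h75_gaussRing (h69_A0 A) (h69_jF0 (M * q) (A.inertiaSubgroupIn ℚ)))),
      (∃ j, IsUnit (r j)) →
        ∑ j, r j • h65_bQ M q hqM A c j ≠ 0 ∧
          h98_w1 M q hqM A ζ hζ hex c (∑ j, r j • h65_bQ M q hqM A c j) = 0 :=
  fun c => (h65_RB_w1 M q hqM A hA ζ hζ hex c).2

include hA in
/-- `q` has order `1` on both components. -/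
theorem h65_w1_q (c : Fin 2) :
    h98_w1 M q hqM A ζ hζ hex c (q : h69_F0 (M * q) (A.inertiaSubgroupIn ℚ)) = 1 := by
  have e1 : ((q : h69_F0 (M * q) (A.inertiaSubgroupIn ℚ)) : modularFunctionFieldBar (M * q)) =
      (q : modularFunctionFieldBar (M * q)) := rfl
  fin_cases c
  · refine h98_wF_eq M q hqM A hA ζ hζ hex _ _ ?_
    have e : (((q : h69_F0 (M * q) (A.inertiaSubgroupIn ℚ)) : modularFunctionFieldBar (M * q)) :
        LaurentSeries Qb) = algebraMap Qb (LaurentSeries Qb) (q : Qb) := by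
      rw [e1, map_natCast]
      rfl
    rw [e]
    exact h98_GV_pi (h98_q_unif q A hA).1
  · refine h98_wV_eq M q hqM A hA ζ hζ hex _ _ ?_
    have e : ((h60_w M q hqM ((q : h69_F0 (M * q) (A.inertiaSubgroupIn ℚ)) :
        modularFunctionFieldBar (M * q)) : modularFunctionFieldBar (M * q)) : LaurentSeries Qb) =
        algebraMap Qb (LaurentSeries Qb) (q : Qb) := by
      rw [e1, map_natCast, map_natCast]
      rfl
    rw [e]
    exact h98_GV_pi (h98_q_unif q A hA).1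

include hA in
/-- **(SEP) at level `M q`**: `w_F ≠ w_V` (helper69's separator `j - (β j)^q`). -/
theorem h65_w1_hne :
    ∀ c c' : Fin 2, c ≠ c' → ∃ g : h69_F0 (M * q) (A.inertiaSubgroupIn ℚ),
      g ≠ 0 ∧ h98_w1 M q hqM A ζ hζ hex c g ≠ h98_w1 M q hqM A ζ hζ hex c' g := by
  have : CharP (IsLocalRing.ResidueField A) q := h19_residueField_charP A q hA
  let g : h69_F0 (M * q) (A.inertiaSubgroupIn ℚ) := ⟨h69_sep M q, h69_sep_mem_F0 M q _⟩
  have hg0 : g ≠ 0 := by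
    intro h
    apply h98_GV_ne_zero (h69_sep_GV M q A (q : Qb))
    rw [show h69_sep M q = 0 from congrArg Subtype.val h]
    rfl
  have h1 : h98_wF M q hqM A ζ hζ hex g = 0 :=
    (h98_wF_eq_zero_iff M q hqM A hA ζ hζ hex g hg0).mpr (h69_sep_unit M q A)
  have h2 : 0 < h98_wV M q hqM A ζ hζ hex g :=
    (h98_wV_pos_iff M q hqM A hA ζ hζ hex g hg0).mpr (h69_w_sep_red M q hqM A)
  intro c c' hcc
  fin_cases c <;> fin_cases c'
  · exact absurd rfl hcc
  · exact ⟨g, hg0, by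
      show h98_wF M q hqM A ζ hζ hex g ≠ h98_wV M q hqM A ζ hζ hex g
      omega⟩
  · exact ⟨g, hg0, by
      show h98_wV M q hqM A ζ hζ hex g ≠ h98_wF M q hqM A ζ hζ hex g
      omega⟩
  · exact absurd rfl hcc

include hqM in
/-- The count at level `M q`: `[F0 : K0(j)] = ψ(M q) = ψ(M) + q ψ(M)`. -/
theorem h65_count_q (H : Subgroup (Qb ≃ₐ[ℚ] Qb)) :
    Module.finrank (h69_K0 H)⟮h69_jF0 (M * q) H⟯ (h69_F0 (M * q) H) ≤
      ∑ c : Fin 2, (![1, 1] : Fin 2 → ℕ) c * h65_fQ M q c := by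
  have hq : q.Prime := Fact.out
  rw [h69_F0_finrank (M * q) H, mul_comm M q,
    h29_psi_mul_of_not_dvd q M hq (Nat.pos_of_ne_zero (NeZero.ne M)) hqM,
    ← h29_card_quotient_Gamma0 M]
  simp only [Fin.sum_univ_two, h65_fQ, h65_mQ, Matrix.cons_val_zero, Matrix.cons_val_one,
    Matrix.head_cons, one_mul]
  apply le_of_eq
  ring

include hA in
/-- **`hvert` at level `M q`, chart `j`** : the binder of `h80_famOf_noeth`, closed. -/
theorem h65_hvert_q :
    ∀ g : h69_F0 (M * q) (A.inertiaSubgroupIn ℚ), g ≠ 0 →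
      (∀ c, 0 ≤ h98_w1 M q hqM A ζ hζ hex c g) →
      ∃ s : Polynomial (h69_A0 A).toSubring,
        (∃ i, (s.coeff i : h69_K0 (A.inertiaSubgroupIn ℚ))⁻¹ ∈ h69_A0 A ∧ s.coeff i ≠ 0) ∧
          (h97_ev (h69_A0 A).toSubring
            (h69_jF0 (M * q) (A.inertiaSubgroupIn ℚ))).IsIntegralElem
            (h97_ev (h69_A0 A).toSubring (h69_jF0 (M * q) (A.inertiaSubgroupIn ℚ)) s * g) := by
  have hq : q.Prime := Fact.out
  have hq0F : (q : h69_F0 (M * q) (A.inertiaSubgroupIn ℚ)) ≠ 0 := by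
    exact_mod_cast hq.ne_zero
  refine h97_hvert_mod75 (M * q) q A (h69_jF0 (M * q) (A.inertiaSubgroupIn ℚ))
    (h54_isChart_jbar (M * q)) hA (h98_w1 M q hqM A ζ hζ hex)
    (h98_w1_isVal M q hqM A hA ζ hζ hex)
    (fun c r hr => h65_hR_w1 M q hqM A hA ζ hζ hex c _ r.2 hr)
    (![1, 1] : Fin 2 → ℕ) ?_ (fun c => ⟨_, hq0F, h65_w1_q M q hqM A hA ζ hζ hex c⟩)
    (h65_w1_hne M q hqM A hA ζ hζ hex) (h65_fQ M q) (h65_bQ M q hqM A)
    (h65_hb_w1 M q hqM A hA ζ hζ hex) (h65_count_q M q hqM (A.inertiaSubgroupIn ℚ))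
  intro c
  rw [h65_w1_q M q hqM A hA ζ hζ hex c]
  fin_cases c <;> rfl

include hA in
/-- **`hvert` at level `M q`, chart `1/j`**. -/
theorem h65_hvert_qb :
    ∀ g : h69_F0 (M * q) (A.inertiaSubgroupIn ℚ), g ≠ 0 →
      (∀ c, 0 ≤ h98_w1 M q hqM A ζ hζ hex c g) →
      ∃ s : Polynomial (h69_A0 A).toSubring,
        (∃ i, (s.coeff i : h69_K0 (A.inertiaSubgroupIn ℚ))⁻¹ ∈ h69_A0 A ∧ s.coeff i ≠ 0) ∧
          (h97_ev (h69_A0 A).toSubring
            (h69_jF0 (M * q) (A.inertiaSubgroupIn ℚ))⁻¹).IsIntegralElem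
            (h97_ev (h69_A0 A).toSubring (h69_jF0 (M * q) (A.inertiaSubgroupIn ℚ))⁻¹ s *
              g) := by
  have hq : q.Prime := Fact.out
  have hq0F : (q : h69_F0 (M * q) (A.inertiaSubgroupIn ℚ)) ≠ 0 := by
    exact_mod_cast hq.ne_zero
  refine h65_hvert_inv (M * q) q A (h69_jF0 (M * q) (A.inertiaSubgroupIn ℚ))
    (h54_isChart_jbar (M * q)) hA (h98_w1 M q hqM A ζ hζ hex)
    (h98_w1_isVal M q hqM A hA ζ hζ hex) (h65_hR_w1 M q hqM A hA ζ hζ hex)
    (![1, 1] : Fin 2 → ℕ) ?_ (fun c => ⟨_, hq0F, h65_w1_q M q hqM A hA ζ hζ hex c⟩)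
    (h65_w1_hne M q hqM A hA ζ hζ hex) (h65_fQ M q) (h65_bQ M q hqM A)
    (h65_hb_w1 M q hqM A hA ζ hζ hex) (h65_count_q M q hqM (A.inertiaSubgroupIn ℚ))
  intro c
  rw [h65_w1_q M q hqM A hA ζ hζ hex c]
  fin_cases c <;> rfl

include hA in
/-- **(NOETH-CLOSED), level `M q`, chart 1**: the chart ring of `h80_fam1` for `h98_w1` is
noetherian, and each of its elements is integral over `A₀[j]`. -/
theorem h65_noeth_q :
    IsNoetherianRing
      (h80_fam1 (M * q) (A.inertiaSubgroupIn ℚ) (h98_w1 M q hqM A ζ hζ hex)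
        (h98_hw1mul M q hqM A hA ζ hζ hex) (h98_hw1add M q hqM A hA ζ hζ hex)).B ∧
    ∀ f ∈ (h80_fam1 (M * q) (A.inertiaSubgroupIn ℚ) (h98_w1 M q hqM A ζ hζ hex)
        (h98_hw1mul M q hqM A hA ζ hζ hex) (h98_hw1add M q hqM A hA ζ hζ hex)).B,
      (h97_ev (h69_A0 A).toSubring (h65_J0 (M * q) (A.inertiaSubgroupIn ℚ))).IsIntegralElem
        f := by
  have hx0 : h69_jF0 (M * q) (A.inertiaSubgroupIn ℚ) ≠ 0 := fun h =>
    h59_jbar_transcendental (M * q)
      (by rw [show h59_jbar (M * q) = 0 from congrArg Subtype.val h]; exact isAlgebraic_zero)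
  exact h80_famOf_noeth (M * q) q A hA (h98_w1 M q hqM A ζ hζ hex)
    (h98_hw1mul M q hqM A hA ζ hζ hex) (h98_hw1add M q hqM A hA ζ hζ hex)
    (h69_jF0 (M * q) (A.inertiaSubgroupIn ℚ)) (h54_isChart_jbar (M * q))
    (h65_hwA_of_hR (M * q) A _ _ (h65_hR_w1 M q hqM A hA ζ hζ hex))
    (h65_hwx_of_hR (M * q) A _ _ (h65_hR_w1 M q hqM A hA ζ hζ hex) hx0)
    (h65_hvert_q M q hqM A hA ζ hζ hex)

include hA in
/-- **(NOETH-CLOSED), level `M q`, chart 2**. -/
theorem h65_noeth_qb :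
    IsNoetherianRing
      (h80_fam2 (M * q) (A.inertiaSubgroupIn ℚ) (h98_w1 M q hqM A ζ hζ hex)
        (h98_hw1mul M q hqM A hA ζ hζ hex) (h98_hw1add M q hqM A hA ζ hζ hex)).B ∧
    ∀ f ∈ (h80_fam2 (M * q) (A.inertiaSubgroupIn ℚ) (h98_w1 M q hqM A ζ hζ hex)
        (h98_hw1mul M q hqM A hA ζ hζ hex) (h98_hw1add M q hqM A hA ζ hζ hex)).B,
      (h97_ev (h69_A0 A).toSubring
        (h69_jF0 (M * q) (A.inertiaSubgroupIn ℚ))⁻¹).IsIntegralElem f := by
  have hx0 : h69_jF0 (M * q) (A.inertiaSubgroupIn ℚ) ≠ 0 := fun h =>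
    h59_jbar_transcendental (M * q)
      (by rw [show h59_jbar (M * q) = 0 from congrArg Subtype.val h]; exact isAlgebraic_zero)
  exact h80_famOf_noeth (M * q) q A hA (h98_w1 M q hqM A ζ hζ hex)
    (h98_hw1mul M q hqM A hA ζ hζ hex) (h98_hw1add M q hqM A hA ζ hζ hex)
    (h69_jF0 (M * q) (A.inertiaSubgroupIn ℚ))⁻¹
    (h75_isChart_inv (h54_isChart_jbar (M * q)))
    (h65_hwA_of_hR (M * q) A _ _ (h65_hR_w1 M q hqM A hA ζ hζ hex))
    (fun c => h65_hR_w1 M q hqM A hA ζ hζ hex c _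
      (h75_gaussRing_x_inv (h69_A0 A) hx0) (inv_ne_zero hx0))
    (h65_hvert_qb M q hqM A hA ζ hζ hex)

end Q

end Fermat.Agent.S36
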