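import Mathlib
import Fermat.Agent.S36.h83_ResGlue

/-!
# S36 rows I-Q / I-PTS: residue data at the points of a chart ring containing a glued chart ring
(helper83)

Generic (no modular input).  `V` a valuation family on a field `F` with chart ring `V.B`, `m` a
maximal ideal of `V.B`, `c` an index through `m` with residue map `ρ : O → Fb` (`Fb / k` a
function field, `P` a place of it).

* `h83_rhoB` : the residue map restricted to the chart ring, `V.B →+* Fb`.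
* `h83_resExt` : **extension of the chart ring**.  If a subset `S0 ⊆ V.B` (in use: a smaller
  chart ring `B0`, whose reduction is known) satisfies `b ∈ m ↔ ρ b (P) = 0` for `b ∈ S0` and has
  local fractions at `P`, then the same holds for all of `V.B`, and one gets the residue datum
  `h62_Res V m c Fb` with `o = P.ord` (`h83_resExt_reg`, `h83_resExt_mem`).
* `h83_glue2_cases` : `B0 ⊆ V.B` a subring whose reduction `(ρ₁, ρ₂) : B0 → Fb × Fb` has image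
  the coordinate ring `T` of two curves glued along the pairs `(Φ Q, Q)`, `Q ∈ Sg` (binder `hT` of
  `h65_glue_pts`), `B0 / (m ∩ B0)` a field (`hmax0`), one of the two branches through `m`:
  `m ∩ B0` is a point of the first branch only, of the second branch only, or a node.
* `h83_glue2_fst`, `h83_glue2_snd` : if the first (second) branch passes through `m`, the point
  `P` on it, with the two hypotheses of `h83_resExt`.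
* `h83_res_glue2_fst`, `h83_res_glue2_snd` : the residue datum on that branch.
* `h83_glue2_node` : both branches through `m` ⟹ `m` is a node `S ∈ Sg`.
-/

set_option autoImplicit false

noncomputable section

open AlgebraicCurve

namespace Fermat.Agent.S36

open Fermat.Agent.S18 Fermat.Agent.S24 Fermat.Agent.S27 Fermat.Agent.S34

universe w

variable {k : Type*} {Fb : Type w} [Field k] [Field Fb] [Algebra k Fb]
variable {F : Type*} [Field F] {ι : Type*}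

/-- The residue map of `v_c`, restricted to the chart ring. -/
def h83_rhoB (V : h80_ValFam F ι) (c : ι) (O : Subring F)
    (mem_O : ∀ f : F, f ≠ 0 → 0 ≤ V.v c f → f ∈ O) (ρ : O →+* Fb) : V.B →+* Fb :=
  ρ.comp (Subring.inclusion (fun f hf => h83_B_le V c O mem_O ⟨f, hf⟩))

theorem h83_rhoB_apply (V : h80_ValFam F ι) (c : ι) (O : Subring F)
    (mem_O : ∀ f : F, f ≠ 0 → 0 ≤ V.v c f → f ∈ O) (ρ : O →+* Fb) (b : V.B) :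
    h83_rhoB V c O mem_O ρ b = ρ ⟨b, h83_B_le V c O mem_O b⟩ := rfl

/-- An element of the chart ring with zero residue on a branch through `m` lies in `m`. -/
theorem h83_mem_of_rhoB_eq_zero (V : h80_ValFam F ι) (m : Ideal V.B) (c : ι)
    (hc : V.Through m c) (O : Subring F) (mem_O : ∀ f : F, f ≠ 0 → 0 ≤ V.v c f → f ∈ O)
    (ρ : O →+* Fb) (ρ_eq_zero : ∀ f : O, (f : F) ≠ 0 → (ρ f = 0 ↔ 0 < V.v c (f : F)))
    (b : V.B) (hb : h83_rhoB V c O mem_O ρ b = 0) : b ∈ m := by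
  by_cases hb0 : (b : F) = 0
  · have : b = 0 := Subtype.ext hb0
    rw [this]
    exact m.zero_mem
  · exact hc b hb0 ((ρ_eq_zero ⟨b, h83_B_le V c O mem_O b⟩ hb0).mp hb)

section Ext

variable (V : h80_ValFam F ι) (m : Ideal V.B) [hm : m.IsPrime] (c : ι) (hc : V.Through m c)
  (O : Subring F) (mem_O : ∀ f : F, f ≠ 0 → 0 ≤ V.v c f → f ∈ O) (ρ : O →+* Fb)
  (ρ_eq_zero : ∀ f : O, (f : F) ≠ 0 → (ρ f = 0 ↔ 0 < V.v c (f : F)))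
  (P : Place k Fb) (S0 : V.B → Prop)
  (hm0 : ∀ b : V.B, S0 b → (b ∈ m ↔ h39_Val P (h83_rhoB V c O mem_O ρ b) 0))
  (hfrac0 : ∀ g : Fb, g ∈ P.toValuationSubring → ∃ b t : V.B, S0 b ∧ S0 t ∧
    h39_Val P (h83_rhoB V c O mem_O ρ t) 1 ∧
      h83_rhoB V c O mem_O ρ b = h83_rhoB V c O mem_O ρ t * g)

omit hm in
include hc ρ_eq_zero hm0 hfrac0 in
/-- Regularity at `P` of the residues of the whole chart ring. -/
theorem h83_resExt_reg (b : V.B) : h83_rhoB V c O mem_O ρ b ∈ P.toValuationSubring := by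
  by_contra hb
  have hρb0 : h83_rhoB V c O mem_O ρ b ≠ 0 := by
    intro h
    rw [h] at hb
    exact hb P.toValuationSubring.zero_mem
  have hg0 : (h83_rhoB V c O mem_O ρ b)⁻¹ ≠ 0 := inv_ne_zero hρb0
  have hg : (h83_rhoB V c O mem_O ρ b)⁻¹ ∈ P.toValuationSubring :=
    (P.toValuationSubring.mem_or_inv_mem _).resolve_left hb
  have hpos : 0 < P.ord (h83_rhoB V c O mem_O ρ b)⁻¹ :=
    (h35_ord_pos_iff P hg0).mpr ⟨hg, by rwa [inv_inv]⟩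
  have hgv : h39_Val P (h83_rhoB V c O mem_O ρ b)⁻¹ 0 := (h39_val_zero_iff P).mpr (Or.inr hpos)
  obtain ⟨b0, t0, hSb, hSt, ht1, hbt⟩ := hfrac0 _ hg
  have hb0v : h39_Val P (h83_rhoB V c O mem_O ρ b0) 0 := by
    rw [hbt]
    have := h39_val_mul P ht1 hgv
    rwa [mul_zero] at this
  have hb0m : b0 ∈ m := (hm0 b0 hSb).mpr hb0v
  have hker : h83_rhoB V c O mem_O ρ (b0 * b - t0) = 0 := by
    rw [map_sub, map_mul, hbt, mul_assoc, inv_mul_cancel₀ hρb0, mul_one, sub_self]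
  have h1 : b0 * b - t0 ∈ m := h83_mem_of_rhoB_eq_zero V m c hc O mem_O ρ ρ_eq_zero _ hker
  have ht0m : t0 ∈ m := by
    have h2 : b0 * b - (b0 * b - t0) ∈ m := m.sub_mem (m.mul_mem_right b hb0m) h1
    have h3 : b0 * b - (b0 * b - t0) = t0 := by ring
    rwa [h3] at h2
  exact h83_not_val_zero_one P ((hm0 t0 hSt).mp ht0m) ht1

include hm hc ρ_eq_zero hm0 hfrac0 in
/-- `m` is the set of functions of the chart ring whose residue vanishes at `P`. -/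
theorem h83_resExt_mem (b : V.B) : b ∈ m ↔ h39_Val P (h83_rhoB V c O mem_O ρ b) 0 := by
  have hreg := h83_resExt_reg V m c hc O mem_O ρ ρ_eq_zero P S0 hm0 hfrac0
  constructor
  · intro hbm
    by_contra hv
    rw [h39_val_zero_iff] at hv
    push Not at hv
    obtain ⟨hρb0, hle⟩ := hv
    have hord : P.ord (h83_rhoB V c O mem_O ρ b) = 0 :=
      le_antisymm hle (h35_ord_nonneg_of_mem P (hreg b))
    have hg0 : (h83_rhoB V c O mem_O ρ b)⁻¹ ≠ 0 := inv_ne_zero hρb0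
    have hg : (h83_rhoB V c O mem_O ρ b)⁻¹ ∈ P.toValuationSubring :=
      (h35_mem_iff_ord_nonneg P hg0).mpr (by rw [P.ord_inv, hord, neg_zero])
    obtain ⟨b0, t0, hSb, hSt, ht1, hbt⟩ := hfrac0 _ hg
    have hker : h83_rhoB V c O mem_O ρ (b0 * b - t0) = 0 := by
      rw [map_sub, map_mul, hbt, mul_assoc, inv_mul_cancel₀ hρb0, mul_one, sub_self]
    have h1 : b0 * b - t0 ∈ m := h83_mem_of_rhoB_eq_zero V m c hc O mem_O ρ ρ_eq_zero _ hker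
    have ht0m : t0 ∈ m := by
      have h2 : b0 * b - (b0 * b - t0) ∈ m := m.sub_mem (m.mul_mem_left b0 hbm) h1
      have h3 : b0 * b - (b0 * b - t0) = t0 := by ring
      rwa [h3] at h2
    exact h83_not_val_zero_one P ((hm0 t0 hSt).mp ht0m) ht1
  · intro hv
    obtain ⟨b0, t0, hSb, hSt, ht1, hbt⟩ := hfrac0 _ (hreg b)
    have hb0v : h39_Val P (h83_rhoB V c O mem_O ρ b0) 0 := by
      rw [hbt]
      have := h39_val_mul P ht1 hv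
      rwa [mul_zero] at this
    have hb0m : b0 ∈ m := (hm0 b0 hSb).mpr hb0v
    have hker : h83_rhoB V c O mem_O ρ (b0 - t0 * b) = 0 := by
      rw [map_sub, map_mul, hbt, sub_self]
    have h1 : b0 - t0 * b ∈ m := h83_mem_of_rhoB_eq_zero V m c hc O mem_O ρ ρ_eq_zero _ hker
    have h2 : t0 * b ∈ m := by
      have h3 : b0 - (b0 - t0 * b) ∈ m := m.sub_mem hb0m h1
      have h4 : b0 - (b0 - t0 * b) = t0 * b := by ring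
      rwa [h4] at h3
    have ht0m : t0 ∉ m := fun h => h83_not_val_zero_one P ((hm0 t0 hSt).mp h) ht1
    exact (hm.mem_or_mem h2).resolve_left ht0m

/-- **Extension of the chart ring**: the residue datum of the branch `c` at `m`, from the
description of `m` and the local fractions on a subset `S0` of the chart ring. -/
def h83_resExt : h62_Res V m c Fb :=
  h83_resCore V m c O mem_O ρ ρ_eq_zero P
    (h83_resExt_reg V m c hc O mem_O ρ ρ_eq_zero P S0 hm0 hfrac0)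
    (h83_resExt_mem V m c hc O mem_O ρ ρ_eq_zero P S0 hm0 hfrac0)
    (fun g hg => by
      obtain ⟨b, t, -, -, h1, h2⟩ := hfrac0 g hg
      exact ⟨b, t, h1, h2⟩)

end Ext

/-! ### A chart ring containing a glued chart ring -/

section Glue2

variable [IsAlgClosed k]

variable {y : Fb} (hy : h75_IsChart k y) (Qinf : Place k Fb)
  (hpole : ∀ Q : Place k Fb, y ∈ Q.toValuationSubring ↔ Q ≠ Qinf)
  (Sg : Finset (Place k Fb)) (Φ : Place k Fb → Place k Fb) (hΦ : Function.Injective Φ)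
  (hSg : ∀ Q ∈ Sg, Q ≠ Qinf ∧ Φ Q ≠ Qinf)
  (V : h80_ValFam F ι) (m : Ideal V.B) [hmax : m.IsMaximal] (c₁ c₂ : ι)
  (O₁ : Subring F) (mem_O₁ : ∀ f : F, f ≠ 0 → 0 ≤ V.v c₁ f → f ∈ O₁) (ρ₁ : O₁ →+* Fb)
  (ρ₁_eq_zero : ∀ f : O₁, (f : F) ≠ 0 → (ρ₁ f = 0 ↔ 0 < V.v c₁ (f : F)))
  (O₂ : Subring F) (mem_O₂ : ∀ f : F, f ≠ 0 → 0 ≤ V.v c₂ f → f ∈ O₂) (ρ₂ : O₂ →+* Fb)
  (ρ₂_eq_zero : ∀ f : O₂, (f : F) ≠ 0 → (ρ₂ f = 0 ↔ 0 < V.v c₂ (f : F)))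
  (B0 : Subring V.B)
  (hT : ∀ a : Fb × Fb,
    (∃ b : B0, (h83_rhoB V c₁ O₁ mem_O₁ ρ₁ (b : V.B), h83_rhoB V c₂ O₂ mem_O₂ ρ₂ (b : V.B)) = a) ↔
      (a.1 ∈ h20_regOff Qinf ∧ a.2 ∈ h20_regOff Qinf) ∧
        ∀ Q ∈ Sg, ∃ c : k, h39_Val (Φ Q) a.1 c ∧ h39_Val Q a.2 c)
  (hmax0 : ∀ b : B0, (b : V.B) ∉ m → ∃ b' : B0, (b : V.B) * (b' : V.B) - 1 ∈ m)

/-- The reduction of the small chart ring. -/
def h83_red2 : B0 →+* Fb × Fb :=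
  ((h83_rhoB V c₁ O₁ mem_O₁ ρ₁).comp B0.subtype).prod
    ((h83_rhoB V c₂ O₂ mem_O₂ ρ₂).comp B0.subtype)

include hmax hmax0 in
theorem h83_comap_isMaximal : (m.comap B0.subtype).IsMaximal := by
  rw [Ideal.isMaximal_iff]
  refine ⟨fun h1 => ?_, fun J x hJ hx hxJ => ?_⟩
  · have h2 : ((1 : B0) : V.B) ∈ m := h1
    exact hmax.ne_top ((Ideal.eq_top_iff_one m).mpr h2)
  · have hx' : (x : V.B) ∉ m := hx
    obtain ⟨b', hb'⟩ := hmax0 x hx'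
    have h1 : x * b' - 1 ∈ m.comap B0.subtype := hb'
    have h2 : x * b' - (x * b' - 1) ∈ J := J.sub_mem (J.mul_mem_right b' hxJ) (hJ h1)
    have h3 : x * b' - (x * b' - 1) = 1 := by ring
    rwa [h3] at h2

include hy hpole hΦ hSg hT hmax hmax0 ρ₁_eq_zero ρ₂_eq_zero in
/-- **The point `m ∩ B0` of the glued curve**: a point of the first branch only, of the second
branch only, or a node. -/
theorem h83_glue2_cases (hvert : V.Through m c₁ ∨ V.Through m c₂) :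
    (∃ P : Place k Fb, P ≠ Qinf ∧ (∀ S ∈ Sg, P ≠ Φ S) ∧ ¬ V.Through m c₂ ∧
        ∀ b : B0, (b : V.B) ∈ m ↔ h39_Val P (h83_rhoB V c₁ O₁ mem_O₁ ρ₁ (b : V.B)) 0) ∨
    (∃ P : Place k Fb, P ≠ Qinf ∧ P ∉ Sg ∧ ¬ V.Through m c₁ ∧
        ∀ b : B0, (b : V.B) ∈ m ↔ h39_Val P (h83_rhoB V c₂ O₂ mem_O₂ ρ₂ (b : V.B)) 0) ∨
    (∃ S ∈ Sg,
      (∀ b : B0, (b : V.B) ∈ m ↔ h39_Val (Φ S) (h83_rhoB V c₁ O₁ mem_O₁ ρ₁ (b : V.B)) 0) ∧
      ∀ b : B0, (b : V.B) ∈ m ↔ h39_Val S (h83_rhoB V c₂ O₂ mem_O₂ ρ₂ (b : V.B)) 0) := by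
  have hm0max := h83_comap_isMaximal V m B0 hmax0
  have hker : ∀ b : B0, h83_red2 V c₁ c₂ O₁ mem_O₁ ρ₁ O₂ mem_O₂ ρ₂ B0 b = 0 →
      b ∈ m.comap B0.subtype := by
    intro b hb
    have h1 : h83_rhoB V c₁ O₁ mem_O₁ ρ₁ (b : V.B) = 0 := congrArg Prod.fst hb
    have h2 : h83_rhoB V c₂ O₂ mem_O₂ ρ₂ (b : V.B) = 0 := congrArg Prod.snd hb
    rcases hvert with h | h
    · exact h83_mem_of_rhoB_eq_zero V m c₁ h O₁ mem_O₁ ρ₁ ρ₁_eq_zero _ h1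
    · exact h83_mem_of_rhoB_eq_zero V m c₂ h O₂ mem_O₂ ρ₂ ρ₂_eq_zero _ h2
  have hzero : ∀ Q : Place k Fb, h39_Val Q (0 : Fb) 0 := fun Q => by
    have h := h39_val_algebraMap Q (0 : k)
    rwa [map_zero] at h
  rcases h65_glue_pts hy Qinf hpole Sg Φ hΦ hSg
      (h83_red2 V c₁ c₂ O₁ mem_O₁ ρ₁ O₂ mem_O₂ ρ₂ B0) hT (m.comap B0.subtype) hm0max hker with
    ⟨P, hP, hPS, hmP⟩ | ⟨P, hP, hPS, hmP⟩ | ⟨S, hS, hm1, hm2⟩
  · refine Or.inl ⟨P, hP, hPS, ?_, fun b => hmP b⟩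
    intro hc2
    obtain ⟨e, he, he1, he0⟩ := h83_exists_bump hy Qinf hpole Φ P hP Sg
      (fun Q hQ => ⟨(hSg Q hQ).2, hPS Q hQ⟩)
    obtain ⟨b, hb⟩ := (hT (e, 0)).mpr ⟨⟨he, (h20_regOff Qinf).zero_mem⟩,
      fun Q hQ => ⟨0, he0 Q hQ, hzero Q⟩⟩
    have h2 : h83_rhoB V c₂ O₂ mem_O₂ ρ₂ (b : V.B) = 0 := congrArg Prod.snd hb
    have h1 : h83_rhoB V c₁ O₁ mem_O₁ ρ₁ (b : V.B) = e := congrArg Prod.fst hb
    have hbm : (b : V.B) ∈ m := h83_mem_of_rhoB_eq_zero V m c₂ hc2 O₂ mem_O₂ ρ₂ ρ₂_eq_zero _ h2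
    have hv := (hmP b).mp hbm
    have hv' : h39_Val P e 0 := by
      have h3 : (h83_red2 V c₁ c₂ O₁ mem_O₁ ρ₁ O₂ mem_O₂ ρ₂ B0 b).1 = e := h1
      rwa [h3] at hv
    exact h83_not_val_zero_one P hv' he1
  · refine Or.inr (Or.inl ⟨P, hP, hPS, ?_, fun b => hmP b⟩)
    intro hc1
    obtain ⟨e, he, he1, he0⟩ := h83_exists_bump hy Qinf hpole (fun Q : Place k Fb => Q) P hP Sg
      (fun Q hQ => ⟨(hSg Q hQ).1, fun h => hPS (h ▸ hQ)⟩)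
    obtain ⟨b, hb⟩ := (hT (0, e)).mpr ⟨⟨(h20_regOff Qinf).zero_mem, he⟩,
      fun Q hQ => ⟨0, hzero (Φ Q), he0 Q hQ⟩⟩
    have h1 : h83_rhoB V c₁ O₁ mem_O₁ ρ₁ (b : V.B) = 0 := congrArg Prod.fst hb
    have h2 : h83_rhoB V c₂ O₂ mem_O₂ ρ₂ (b : V.B) = e := congrArg Prod.snd hb
    have hbm : (b : V.B) ∈ m := h83_mem_of_rhoB_eq_zero V m c₁ hc1 O₁ mem_O₁ ρ₁ ρ₁_eq_zero _ h1
    have hv := (hmP b).mp hbm
    have hv' : h39_Val P e 0 := by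
      have h3 : (h83_red2 V c₁ c₂ O₁ mem_O₁ ρ₁ O₂ mem_O₂ ρ₂ B0 b).2 = e := h2
      rwa [h3] at hv
    exact h83_not_val_zero_one P hv' he1
  · exact Or.inr (Or.inr ⟨S, hS, fun b => hm1 b, fun b => hm2 b⟩)

include hy hpole hΦ hSg hT hmax hmax0 ρ₁_eq_zero ρ₂_eq_zero in
/-- **The point on the first branch**, with the two hypotheses of `h83_resExt` for
`S0 := (· ∈ B0)`. -/
theorem h83_glue2_fst (hc : V.Through m c₁) :
    ∃ P : Place k Fb, P ≠ Qinf ∧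
      (∀ b : V.B, b ∈ B0 → (b ∈ m ↔ h39_Val P (h83_rhoB V c₁ O₁ mem_O₁ ρ₁ b) 0)) ∧
      ∀ g : Fb, g ∈ P.toValuationSubring → ∃ b t : V.B, b ∈ B0 ∧ t ∈ B0 ∧
        h39_Val P (h83_rhoB V c₁ O₁ mem_O₁ ρ₁ t) 1 ∧
          h83_rhoB V c₁ O₁ mem_O₁ ρ₁ b = h83_rhoB V c₁ O₁ mem_O₁ ρ₁ t * g := by
  have hfrac : ∀ P : Place k Fb, P ≠ Qinf → ∀ g : Fb, g ∈ P.toValuationSubring →
      ∃ b t : V.B, b ∈ B0 ∧ t ∈ B0 ∧ h39_Val P (h83_rhoB V c₁ O₁ mem_O₁ ρ₁ t) 1 ∧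
        h83_rhoB V c₁ O₁ mem_O₁ ρ₁ b = h83_rhoB V c₁ O₁ mem_O₁ ρ₁ t * g := by
    intro P hP g hg
    obtain ⟨s, hs, hs1, hsg⟩ := h83_exists_frac hy Qinf hpole P hP g hg
    obtain ⟨t, ht⟩ := h83_glue_lift_fst hy Qinf hpole Sg Φ hSg
      (h83_red2 V c₁ c₂ O₁ mem_O₁ ρ₁ O₂ mem_O₂ ρ₂ B0) hT s hs
    obtain ⟨b, hb⟩ := h83_glue_lift_fst hy Qinf hpole Sg Φ hSg
      (h83_red2 V c₁ c₂ O₁ mem_O₁ ρ₁ O₂ mem_O₂ ρ₂ B0) hT (s * g) hsg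
    have ht' : h83_rhoB V c₁ O₁ mem_O₁ ρ₁ (t : V.B) = s := ht
    have hb' : h83_rhoB V c₁ O₁ mem_O₁ ρ₁ (b : V.B) = s * g := hb
    exact ⟨b, t, b.2, t.2, by rw [ht']; exact hs1, by rw [hb', ht']⟩
  rcases h83_glue2_cases hy Qinf hpole Sg Φ hΦ hSg V m c₁ c₂ O₁ mem_O₁ ρ₁ ρ₁_eq_zero O₂ mem_O₂ ρ₂
      ρ₂_eq_zero B0 hT hmax0 (Or.inl hc) with
    ⟨P, hP, -, -, hmP⟩ | ⟨P, hP, -, hnc, -⟩ | ⟨S, hS, hm1, -⟩
  · exact ⟨P, hP, fun b hb => hmP ⟨b, hb⟩, hfrac P hP⟩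
  · exact absurd hc hnc
  · exact ⟨Φ S, (hSg S hS).2, fun b hb => hm1 ⟨b, hb⟩, hfrac (Φ S) (hSg S hS).2⟩

include hy hpole hΦ hSg hT hmax hmax0 ρ₁_eq_zero ρ₂_eq_zero in
/-- **The point on the second branch**, with the two hypotheses of `h83_resExt` for
`S0 := (· ∈ B0)`. -/
theorem h83_glue2_snd (hc : V.Through m c₂) :
    ∃ P : Place k Fb, P ≠ Qinf ∧
      (∀ b : V.B, b ∈ B0 → (b ∈ m ↔ h39_Val P (h83_rhoB V c₂ O₂ mem_O₂ ρ₂ b) 0)) ∧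
      ∀ g : Fb, g ∈ P.toValuationSubring → ∃ b t : V.B, b ∈ B0 ∧ t ∈ B0 ∧
        h39_Val P (h83_rhoB V c₂ O₂ mem_O₂ ρ₂ t) 1 ∧
          h83_rhoB V c₂ O₂ mem_O₂ ρ₂ b = h83_rhoB V c₂ O₂ mem_O₂ ρ₂ t * g := by
  have hfrac : ∀ P : Place k Fb, P ≠ Qinf → ∀ g : Fb, g ∈ P.toValuationSubring →
      ∃ b t : V.B, b ∈ B0 ∧ t ∈ B0 ∧ h39_Val P (h83_rhoB V c₂ O₂ mem_O₂ ρ₂ t) 1 ∧
        h83_rhoB V c₂ O₂ mem_O₂ ρ₂ b = h83_rhoB V c₂ O₂ mem_O₂ ρ₂ t * g := by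
    intro P hP g hg
    obtain ⟨s, hs, hs1, hsg⟩ := h83_exists_frac hy Qinf hpole P hP g hg
    obtain ⟨t, ht⟩ := h83_glue_lift_snd hy Qinf hpole Sg Φ hΦ hSg
      (h83_red2 V c₁ c₂ O₁ mem_O₁ ρ₁ O₂ mem_O₂ ρ₂ B0) hT s hs
    obtain ⟨b, hb⟩ := h83_glue_lift_snd hy Qinf hpole Sg Φ hΦ hSg
      (h83_red2 V c₁ c₂ O₁ mem_O₁ ρ₁ O₂ mem_O₂ ρ₂ B0) hT (s * g) hsg
    have ht' : h83_rhoB V c₂ O₂ mem_O₂ ρ₂ (t : V.B) = s := ht
    have hb' : h83_rhoB V c₂ O₂ mem_O₂ ρ₂ (b : V.B) = s * g := hb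
    exact ⟨b, t, b.2, t.2, by rw [ht']; exact hs1, by rw [hb', ht']⟩
  rcases h83_glue2_cases hy Qinf hpole Sg Φ hΦ hSg V m c₁ c₂ O₁ mem_O₁ ρ₁ ρ₁_eq_zero O₂ mem_O₂ ρ₂
      ρ₂_eq_zero B0 hT hmax0 (Or.inr hc) with
    ⟨P, hP, -, hnc, -⟩ | ⟨P, hP, -, -, hmP⟩ | ⟨S, hS, -, hm2⟩
  · exact absurd hc hnc
  · exact ⟨P, hP, fun b hb => hmP ⟨b, hb⟩, hfrac P hP⟩
  · exact ⟨S, (hSg S hS).1, fun b hb => hm2 ⟨b, hb⟩, hfrac S (hSg S hS).1⟩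

include hy hpole hΦ hSg hT hmax hmax0 ρ₁_eq_zero ρ₂_eq_zero in
/-- **(RES) on the first branch** of a chart ring containing the glued chart ring `B0`. -/
theorem h83_res_glue2_fst (hc : V.Through m c₁) :
    ∃ (P : Place k Fb) (R : h62_Res V m c₁ Fb), P ≠ Qinf ∧ R.o = P.ord ∧ R.O = O₁ ∧
      (∀ (f : F) (h : f ∈ R.O) (h' : f ∈ O₁), R.ρ ⟨f, h⟩ = ρ₁ ⟨f, h'⟩) ∧
      (∀ b : V.B, h83_rhoB V c₁ O₁ mem_O₁ ρ₁ b ∈ P.toValuationSubring) ∧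
      ∀ b : V.B, b ∈ m ↔ h39_Val P (h83_rhoB V c₁ O₁ mem_O₁ ρ₁ b) 0 := by
  have hprime : m.IsPrime := hmax.isPrime
  obtain ⟨P, hP, hm0, hfrac0⟩ := h83_glue2_fst hy Qinf hpole Sg Φ hΦ hSg V m c₁ c₂ O₁ mem_O₁ ρ₁
    ρ₁_eq_zero O₂ mem_O₂ ρ₂ ρ₂_eq_zero B0 hT hmax0 hc
  exact ⟨P, h83_resExt V m c₁ hc O₁ mem_O₁ ρ₁ ρ₁_eq_zero P (· ∈ B0) hm0 hfrac0, hP, rfl, rfl,
    fun _ _ _ => rfl,
    h83_resExt_reg V m c₁ hc O₁ mem_O₁ ρ₁ ρ₁_eq_zero P (· ∈ B0) hm0 hfrac0,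
    h83_resExt_mem V m c₁ hc O₁ mem_O₁ ρ₁ ρ₁_eq_zero P (· ∈ B0) hm0 hfrac0⟩

include hy hpole hΦ hSg hT hmax hmax0 ρ₁_eq_zero ρ₂_eq_zero in
/-- **(RES) on the second branch** of a chart ring containing the glued chart ring `B0`. -/
theorem h83_res_glue2_snd (hc : V.Through m c₂) :
    ∃ (P : Place k Fb) (R : h62_Res V m c₂ Fb), P ≠ Qinf ∧ R.o = P.ord ∧ R.O = O₂ ∧
      (∀ (f : F) (h : f ∈ R.O) (h' : f ∈ O₂), R.ρ ⟨f, h⟩ = ρ₂ ⟨f, h'⟩) ∧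
      (∀ b : V.B, h83_rhoB V c₂ O₂ mem_O₂ ρ₂ b ∈ P.toValuationSubring) ∧
      ∀ b : V.B, b ∈ m ↔ h39_Val P (h83_rhoB V c₂ O₂ mem_O₂ ρ₂ b) 0 := by
  have hprime : m.IsPrime := hmax.isPrime
  obtain ⟨P, hP, hm0, hfrac0⟩ := h83_glue2_snd hy Qinf hpole Sg Φ hΦ hSg V m c₁ c₂ O₁ mem_O₁ ρ₁
    ρ₁_eq_zero O₂ mem_O₂ ρ₂ ρ₂_eq_zero B0 hT hmax0 hc
  exact ⟨P, h83_resExt V m c₂ hc O₂ mem_O₂ ρ₂ ρ₂_eq_zero P (· ∈ B0) hm0 hfrac0, hP, rfl, rfl,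
    fun _ _ _ => rfl,
    h83_resExt_reg V m c₂ hc O₂ mem_O₂ ρ₂ ρ₂_eq_zero P (· ∈ B0) hm0 hfrac0,
    h83_resExt_mem V m c₂ hc O₂ mem_O₂ ρ₂ ρ₂_eq_zero P (· ∈ B0) hm0 hfrac0⟩

include hy hpole hΦ hSg hT hmax hmax0 ρ₁_eq_zero ρ₂_eq_zero in
/-- **Both branches through `m` ⟹ node.** -/
theorem h83_glue2_node (hc₁ : V.Through m c₁) (hc₂ : V.Through m c₂) :
    ∃ S ∈ Sg,
      (∀ b : B0, (b : V.B) ∈ m ↔ h39_Val (Φ S) (h83_rhoB V c₁ O₁ mem_O₁ ρ₁ (b : V.B)) 0) ∧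
      ∀ b : B0, (b : V.B) ∈ m ↔ h39_Val S (h83_rhoB V c₂ O₂ mem_O₂ ρ₂ (b : V.B)) 0 := by
  rcases h83_glue2_cases hy Qinf hpole Sg Φ hΦ hSg V m c₁ c₂ O₁ mem_O₁ ρ₁ ρ₁_eq_zero O₂ mem_O₂ ρ₂
      ρ₂_eq_zero B0 hT hmax0 (Or.inl hc₁) with
    ⟨P, hP, -, hnc, -⟩ | ⟨P, hP, -, hnc, -⟩ | h
  · exact absurd hc₂ hnc
  · exact absurd hc₁ hnc
  · exact h

end Glue2

end Fermat.Agent.S36

end
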