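import Mathlib
import Fermat.Agent.S36.h83_ResExt
import Fermat.Agent.S36.h65_HunionInst
import Fermat.Agent.S36.h22_QExports
import Fermat.Agent.S36.h75_PtRes
import Fermat.Agent.S36.h80_FamInst
import Fermat.Agent.S18.h19_ResField

/-!
# S36 rows I-Q / I-PTS (M3b): the residue data (RES) at the closed points of level `M q`
(helper83)

`F = F̄(M q)`, `I` the inertia group of `A | q`, `F₀ = h69_F0 (M q) I`, `k` the residue field of
`A`, `Fb = k(X₀(M))`, `R_c = h60_pair M q hqM A hA c` (`c = 0` : `Z_F`, `c = 1` : `Z_V`) the two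
components of the special fibre.

`V` is ANY valuation family on `F₀` whose indices `vert 0`, `vert 1` are the two vertical
valuations (binders `hw0`, `hwpos` : the (Q-VAL) characterisation `0 ≤ v ↔ ∈ O_c`,
`0 < v ↔ red_c = 0`) and whose chart ring contains the integral functions with poles only at the
two cusps `∞`, `0'` (binder `hVB`; true for the `j`-chart family `h80_fam1` and for every chart
containing it).  `m` a maximal ideal of `V.B` whose residue field is generated by constants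
(binder `hconst`; from (RESK), `h83_hconst_of_resk`).

* `h83_Oc`, `h83_rhoc` : the valuation ring and the reduction of the component `c`, restricted to
  the inertia-fixed functions; `h83_rhoc_apply` : `h83_rhoc c f = R_c.redF f`.
* `h83_B0` : the small chart ring (poles only at the two cusps) inside `V.B`.
* `h83_Mq_glue` : the reduction of `h83_B0` is the coordinate ring of the two copies of the affine
  curve `X₀(M)_k - {∞}` glued along `(Φ Q, Q)`, `Q ∈ Sg` (S34 node theorem `h65_hunion_inst` +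
  (K0-LAT) `h22_hrat_Mq`), in the binder shape `hT` of `h83_glue2_cases`.
* `h83_res_Mq` : **(RES) at level `q`** : for every vertical `c` through `m` there are a place
  `P ≠ ∞` of `Fb` and a residue datum `R : h62_Res V m (vert c) Fb` with `R.o = P.ord`,
  `R.ρ = R_c.redF`, every element of the chart ring regular at `P`, and
  `b ∈ m ↔ (red_c b)(P) = 0`.
* `h83_res_Mq_unif` : the same with a uniformiser, `∃ g ≠ 0, 0 < R.o g`.
* `h83_node_Mq` : both verticals through `m` ⟹ `m` is a node `S ∈ Sg` (on the small chart ring).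
-/

set_option autoImplicit false
set_option synthInstance.maxHeartbeats 400000
set_option linter.style.haveILetI false
set_option linter.unusedSectionVars false

noncomputable section

open AlgebraicCurve ModularCurve
open Fermat.Agent.S18 Fermat.Agent.S24 Fermat.Agent.S27 Fermat.Agent.S37 Fermat.Agent.S34

namespace Fermat.Agent.S36

local notation "Qb" => AlgebraicClosure ℚ

section Gen

variable {K F : Type*} [Field K] [Field F] [Algebra K F]

/-- Constants lie in `L(0)`. -/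
theorem h83_algebraMap_mem_rr (a : K) :
    algebraMap K F a ∈ riemannRochSpace (0 : Divisor K F) := by
  rw [mem_riemannRochSpace_iff]
  intro v
  right
  rw [h35_ord_algebraMap]
  simp

/-- `L(n D) ⊆ L(n' D)` for `n ≤ n'`, `D` effective. -/
theorem h83_rr_nsmul_mono {D : Divisor K F} (hD : 0 ≤ D) {n n' : ℕ} (h : n ≤ n') {f : F}
    (hf : f ∈ riemannRochSpace (n • D)) : f ∈ riemannRochSpace (n' • D) := by
  refine h51_rr_mono (fun v => ?_) hf
  rw [Finsupp.smul_apply, Finsupp.smul_apply]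
  exact nsmul_le_nsmul_left (hD v) h

end Gen

section Mq

variable (M q : ℕ) [NeZero M] [NeZero q] [Fact q.Prime] (hqM : ¬ q ∣ M)
  (A : ValuationSubring Qb) (hA : A.LiesOverPrime q)

/-- The valuation ring of the component `c` of the special fibre of level `M q`, restricted to
the inertia-fixed functions. -/
def h83_Oc (c : Fin 2) : Subring ↥(h69_F0 (M * q) (A.inertiaSubgroupIn ℚ)) :=
  (h60_pair M q hqM A hA c).O.toSubring.comap (h69_F0 (M * q) (A.inertiaSubgroupIn ℚ)).subtype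

theorem h83_mem_Oc (c : Fin 2) (f : ↥(h69_F0 (M * q) (A.inertiaSubgroupIn ℚ))) :
    f ∈ h83_Oc M q hqM A hA c ↔
      (f : ↥(modularFunctionFieldBar (M * q))) ∈ (h60_pair M q hqM A hA c).O :=
  Iff.rfl

/-- The reduction on the component `c`, on the inertia-fixed functions. -/
def h83_rhoc (c : Fin 2) : ↥(h83_Oc M q hqM A hA c) →+*
    ↥(modularFunctionFieldFullC (IsLocalRing.ResidueField A) M) :=
  (h60_pair M q hqM A hA c).red.comp
    { toFun := fun f => ⟨((f : ↥(h69_F0 (M * q) (A.inertiaSubgroupIn ℚ))) :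
        ↥(modularFunctionFieldBar (M * q))), f.2⟩
      map_one' := rfl
      map_mul' := fun _ _ => rfl
      map_zero' := rfl
      map_add' := fun _ _ => rfl }

theorem h83_rhoc_apply (c : Fin 2) (f : ↥(h83_Oc M q hqM A hA c)) :
    h83_rhoc M q hqM A hA c f = (h60_pair M q hqM A hA c).redF
      ((f : ↥(h69_F0 (M * q) (A.inertiaSubgroupIn ℚ))) : ↥(modularFunctionFieldBar (M * q))) := by
  have h : ((f : ↥(h69_F0 (M * q) (A.inertiaSubgroupIn ℚ))) : ↥(modularFunctionFieldBar (M * q))) ∈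
      (h60_pair M q hqM A hA c).O := f.2
  rw [(h60_pair M q hqM A hA c).redF_of_mem h]
  rfl

variable {ι : Type*} (V : h80_ValFam ↥(h69_F0 (M * q) (A.inertiaSubgroupIn ℚ)) ι)
  (vert : Fin 2 → ι)
  (hw0 : ∀ (c : Fin 2) (f : ↥(h69_F0 (M * q) (A.inertiaSubgroupIn ℚ))), f ≠ 0 →
    (0 ≤ V.v (vert c) f ↔
      (f : ↥(modularFunctionFieldBar (M * q))) ∈ (h60_pair M q hqM A hA c).O))
  (hwpos : ∀ (c : Fin 2) (f : ↥(h69_F0 (M * q) (A.inertiaSubgroupIn ℚ))), f ≠ 0 →
    (0 < V.v (vert c) f ↔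
      (f : ↥(modularFunctionFieldBar (M * q))) ∈ (h60_pair M q hqM A hA c).O ∧
        (h60_pair M q hqM A hA c).redF (f : ↥(modularFunctionFieldBar (M * q))) = 0))

include hw0 in
/-- `mem_O` of `h62_Res` for the component `c`. -/
theorem h83_Oc_mem (c : Fin 2) (f : ↥(h69_F0 (M * q) (A.inertiaSubgroupIn ℚ))) (hf : f ≠ 0)
    (h : 0 ≤ V.v (vert c) f) : f ∈ h83_Oc M q hqM A hA c :=
  (hw0 c f hf).mp h

include hwpos in
/-- `ρ_eq_zero` of `h62_Res` for the component `c`. -/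
theorem h83_rhoc_eq_zero (c : Fin 2) (f : ↥(h83_Oc M q hqM A hA c))
    (hf : (f : ↥(h69_F0 (M * q) (A.inertiaSubgroupIn ℚ))) ≠ 0) :
    h83_rhoc M q hqM A hA c f = 0 ↔
      0 < V.v (vert c) (f : ↥(h69_F0 (M * q) (A.inertiaSubgroupIn ℚ))) := by
  rw [h83_rhoc_apply, hwpos c _ hf]
  exact ⟨fun h => ⟨f.2, h⟩, fun h => h.2⟩

include hw0 in
/-- The chart ring lies in both valuation rings. -/
theorem h83_B_mem_O (c : Fin 2) (b : V.B) :
    ((b : ↥(h69_F0 (M * q) (A.inertiaSubgroupIn ℚ))) : ↥(modularFunctionFieldBar (M * q))) ∈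
      (h60_pair M q hqM A hA c).O :=
  h83_B_le V (vert c) (h83_Oc M q hqM A hA c) (h83_Oc_mem M q hqM A hA V vert hw0 c) b

include hw0 in
/-- The residue map of the chart ring is `redF`. -/
theorem h83_rhoB_Mq (c : Fin 2) (b : V.B) :
    h83_rhoB V (vert c) (h83_Oc M q hqM A hA c) (h83_Oc_mem M q hqM A hA V vert hw0 c)
        (h83_rhoc M q hqM A hA c) b =
      (h60_pair M q hqM A hA c).redF
        ((b : ↥(h69_F0 (M * q) (A.inertiaSubgroupIn ℚ))) : ↥(modularFunctionFieldBar (M * q))) := by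
  rw [h83_rhoB_apply, h83_rhoc_apply]

variable (Pinf P0 : Place Qb ↥(modularFunctionFieldBar (M * q)))

/-- **The small chart ring**: the elements of the chart ring with poles only at the two cusps
`∞`, `0'`. -/
def h83_B0 : Subring V.B where
  carrier := {b | ∃ n : ℕ,
    ((b : ↥(h69_F0 (M * q) (A.inertiaSubgroupIn ℚ))) : ↥(modularFunctionFieldBar (M * q))) ∈
      riemannRochSpace (n • (Finsupp.single Pinf (1 : ℤ) + Finsupp.single P0 (1 : ℤ) :
        Divisor Qb ↥(modularFunctionFieldBar (M * q))))}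
  mul_mem' := by
    rintro a b ⟨n, hn⟩ ⟨n', hn'⟩
    refine ⟨n + n', ?_⟩
    rw [add_nsmul]
    exact h51_mul_mem_rr hn hn'
  one_mem' := by
    refine ⟨0, ?_⟩
    rw [zero_smul]
    have h := h83_algebraMap_mem_rr (K := Qb) (F := ↥(modularFunctionFieldBar (M * q))) 1
    rw [map_one] at h
    exact h
  add_mem' := by
    rintro a b ⟨n, hn⟩ ⟨n', hn'⟩
    exact ⟨max n n', Submodule.add_mem _
      (h83_rr_nsmul_mono (h10_D0_nonneg Pinf P0) (le_max_left n n') hn)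
      (h83_rr_nsmul_mono (h10_D0_nonneg Pinf P0) (le_max_right n n') hn')⟩
  zero_mem' := ⟨0, Submodule.zero_mem _⟩
  neg_mem' := by
    rintro a ⟨n, hn⟩
    exact ⟨n, Submodule.neg_mem _ hn⟩

theorem h83_mem_B0 (b : V.B) :
    b ∈ h83_B0 M q A V Pinf P0 ↔ ∃ n : ℕ,
      ((b : ↥(h69_F0 (M * q) (A.inertiaSubgroupIn ℚ))) : ↥(modularFunctionFieldBar (M * q))) ∈
        riemannRochSpace (n • (Finsupp.single Pinf (1 : ℤ) + Finsupp.single P0 (1 : ℤ) :
          Divisor Qb ↥(modularFunctionFieldBar (M * q)))) :=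
  Iff.rfl

end Mq

section Main

variable (M q : ℕ) [NeZero M] [NeZero q] [Fact q.Prime] (hqM : ¬ q ∣ M)
  (hch : 5 ≤ q ∨ 2 ∣ M ∨ 3 ∣ M) (A : ValuationSubring Qb) (hA : A.LiesOverPrime q)
  {ι : Type*} (V : h80_ValFam ↥(h69_F0 (M * q) (A.inertiaSubgroupIn ℚ)) ι)
  (vert : Fin 2 → ι)
  (hw0 : ∀ (c : Fin 2) (f : ↥(h69_F0 (M * q) (A.inertiaSubgroupIn ℚ))), f ≠ 0 →
    (0 ≤ V.v (vert c) f ↔
      (f : ↥(modularFunctionFieldBar (M * q))) ∈ (h60_pair M q hqM A hA c).O))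
  (hwpos : ∀ (c : Fin 2) (f : ↥(h69_F0 (M * q) (A.inertiaSubgroupIn ℚ))), f ≠ 0 →
    (0 < V.v (vert c) f ↔
      (f : ↥(modularFunctionFieldBar (M * q))) ∈ (h60_pair M q hqM A hA c).O ∧
        (h60_pair M q hqM A hA c).redF (f : ↥(modularFunctionFieldBar (M * q))) = 0))
  {Pinf P0 : Place Qb ↥(modularFunctionFieldBar (M * q))}
  (hPinf : h10_IsCusp (modularFunctionFieldBar (M * q)) Pinf)
  (hP0 : h10_IsCusp0 M q (h60_w M q hqM) P0)
  (hVB : ∀ f : ↥(h69_F0 (M * q) (A.inertiaSubgroupIn ℚ)),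
    (∀ c, (f : ↥(modularFunctionFieldBar (M * q))) ∈ (h60_pair M q hqM A hA c).O) →
    (∃ n : ℕ, (f : ↥(modularFunctionFieldBar (M * q))) ∈
      riemannRochSpace (n • (Finsupp.single Pinf (1 : ℤ) + Finsupp.single P0 (1 : ℤ) :
        Divisor Qb ↥(modularFunctionFieldBar (M * q))))) → f ∈ V.B)

set_option maxHeartbeats 1600000 in
include hch hPinf hP0 hVB in
/-- **The reduction of the small chart ring** is the coordinate ring of two copies of the affine
curve `X₀(M)_k - {∞}` glued along the pairs `(Φ Q, Q)`, `Q ∈ Sg` (binder `hT` of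
`h83_glue2_cases`). -/
theorem h83_Mq_glue [IsAlgClosed (IsLocalRing.ResidueField A)]
    [CharP (IsLocalRing.ResidueField A) q] :
    ∃ Sg : Finset (Place (IsLocalRing.ResidueField A)
        ↥(modularFunctionFieldFullC (IsLocalRing.ResidueField A) M)),
      (∀ Q ∈ Sg, Q ≠ h11_placeInftyC (IsLocalRing.ResidueField A) M ∧
        h96_frobPerm (h84_isFrobChart_jk M q hqM A hA) Q ≠
          h11_placeInftyC (IsLocalRing.ResidueField A) M) ∧
      ∀ a : ↥(modularFunctionFieldFullC (IsLocalRing.ResidueField A) M) ×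
          ↥(modularFunctionFieldFullC (IsLocalRing.ResidueField A) M),
        (∃ b : h83_B0 M q A V Pinf P0,
          (h83_rhoB V (vert 0) (h83_Oc M q hqM A hA 0) (h83_Oc_mem M q hqM A hA V vert hw0 0)
              (h83_rhoc M q hqM A hA 0) (b : V.B),
            h83_rhoB V (vert 1) (h83_Oc M q hqM A hA 1) (h83_Oc_mem M q hqM A hA V vert hw0 1)
              (h83_rhoc M q hqM A hA 1) (b : V.B)) = a) ↔
        (a.1 ∈ h20_regOff (h11_placeInftyC (IsLocalRing.ResidueField A) M) ∧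
          a.2 ∈ h20_regOff (h11_placeInftyC (IsLocalRing.ResidueField A) M)) ∧
          ∀ Q ∈ Sg, ∃ c : IsLocalRing.ResidueField A,
            h39_Val (h96_frobPerm (h84_isFrobChart_jk M q hqM A hA) Q) a.1 c ∧
              h39_Val Q a.2 c := by
  obtain ⟨Sg, hSg, hmem⟩ := h65_hunion_inst M q hqM hch A hA hPinf hP0
  refine ⟨Sg, fun Q hQ => ⟨(hSg Q hQ).1, (hSg Q hQ).2.1⟩, fun a => ?_⟩
  have hreg : (∃ n : ℕ, a.1 ∈ h16_Linf (h11_placeInftyC (IsLocalRing.ResidueField A) M) n ∧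
      a.2 ∈ h16_Linf (h11_placeInftyC (IsLocalRing.ResidueField A) M) n) ↔
      (a.1 ∈ h20_regOff (h11_placeInftyC (IsLocalRing.ResidueField A) M) ∧
        a.2 ∈ h20_regOff (h11_placeInftyC (IsLocalRing.ResidueField A) M)) := by
    constructor
    · rintro ⟨n, h1, h2⟩
      exact ⟨(h51_reg_iff_Linf _ a.1).mpr ⟨n, h1⟩, (h51_reg_iff_Linf _ a.2).mpr ⟨n, h2⟩⟩
    · rintro ⟨h1, h2⟩
      obtain ⟨n1, h1⟩ := (h51_reg_iff_Linf _ a.1).mp h1
      obtain ⟨n2, h2⟩ := (h51_reg_iff_Linf _ a.2).mp h2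
      exact ⟨max n1 n2, h16_Linf_mono _ (le_max_left n1 n2) h1,
        h16_Linf_mono _ (le_max_right n1 n2) h2⟩
  rw [← hreg, ← hmem a]
  constructor
  · rintro ⟨b, rfl⟩
    obtain ⟨n, hn⟩ := b.2
    have hb0 := h83_B_mem_O M q hqM A hA V vert hw0 0 (b : V.B)
    have hb1 := h83_B_mem_O M q hqM A hA V vert hw0 1 (b : V.B)
    refine ⟨n, _, hn, ⟨hb0, hb1⟩, ?_⟩
    rw [h83_rhoB_Mq M q hqM A hA V vert hw0 0, h83_rhoB_Mq M q hqM A hA V vert hw0 1]
    exact h87_D_redF M q hqM A hA hb0 hb1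
  · rintro ⟨n, ha⟩
    obtain ⟨g, hgF0, hgL, hgO, hred⟩ := h22_hrat_Mq M q hqM A hA hPinf hP0 n a ha
    have hgO' : g ∈ (h60_R1 M q hqM A hA).O ∧ g ∈ (h60_R2 M q hqM A hA).O := hgO
    have hgB : (⟨g, hgF0⟩ : ↥(h69_F0 (M * q) (A.inertiaSubgroupIn ℚ))) ∈ V.B := by
      refine hVB ⟨g, hgF0⟩ (fun c => ?_) ⟨n, hgL⟩
      rcases (by decide : ∀ c : Fin 2, c = 0 ∨ c = 1) c with rfl | rfl
      · exact hgO'.1
      · exact hgO'.2
    refine ⟨⟨⟨⟨g, hgF0⟩, hgB⟩, ⟨n, hgL⟩⟩, ?_⟩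
    rw [h83_rhoB_Mq M q hqM A hA V vert hw0 0, h83_rhoB_Mq M q hqM A hA V vert hw0 1, ← hred]
    exact (h87_D_redF M q hqM A hA hgO'.1 hgO'.2).symm

variable (m : Ideal V.B) [hm : m.IsMaximal]
  (hconst : ∀ s : V.B, s ∉ m → ∃ l : V.B,
    (∃ a : Qb, ((l : ↥(h69_F0 (M * q) (A.inertiaSubgroupIn ℚ))) :
      ↥(modularFunctionFieldBar (M * q))) = algebraMap Qb _ a) ∧ s * l - 1 ∈ m)

include hconst in
/-- `B0 / (m ∩ B0)` is a field. -/
theorem h83_Mq_hmax0 (b : h83_B0 M q A V Pinf P0) (hb : (b : V.B) ∉ m) :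
    ∃ b' : h83_B0 M q A V Pinf P0, (b : V.B) * (b' : V.B) - 1 ∈ m := by
  obtain ⟨l, ⟨a, ha⟩, hl⟩ := hconst b hb
  refine ⟨⟨l, 0, ?_⟩, hl⟩
  rw [zero_smul, ha]
  exact h83_algebraMap_mem_rr a

set_option maxHeartbeats 1600000 in
include hch hw0 hwpos hPinf hP0 hVB hconst in
/-- **(RES) at level `q`, component `Z_F`** (`c = 0`). -/
theorem h83_res_Mq_fst (hc : V.Through m (vert 0)) :
    ∃ (P : Place (IsLocalRing.ResidueField A)
        ↥(modularFunctionFieldFullC (IsLocalRing.ResidueField A) M))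
      (R : h62_Res V m (vert 0) ↥(modularFunctionFieldFullC (IsLocalRing.ResidueField A) M)),
      P ≠ h11_placeInftyC (IsLocalRing.ResidueField A) M ∧ R.o = P.ord ∧
      (∀ f : ↥(h69_F0 (M * q) (A.inertiaSubgroupIn ℚ)),
        f ∈ R.O ↔ (f : ↥(modularFunctionFieldBar (M * q))) ∈ (h60_R1 M q hqM A hA).O) ∧
      (∀ f : R.O, ∃ hf : ((f : ↥(h69_F0 (M * q) (A.inertiaSubgroupIn ℚ))) :
          ↥(modularFunctionFieldBar (M * q))) ∈ (h60_R1 M q hqM A hA).O,
        R.ρ f = (h60_R1 M q hqM A hA).red ⟨_, hf⟩) ∧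
      (∀ f : R.O, R.ρ f = (h60_R1 M q hqM A hA).redF
        ((f : ↥(h69_F0 (M * q) (A.inertiaSubgroupIn ℚ))) : ↥(modularFunctionFieldBar (M * q)))) ∧
      (∀ b : V.B, (h60_R1 M q hqM A hA).redF
        ((b : ↥(h69_F0 (M * q) (A.inertiaSubgroupIn ℚ))) : ↥(modularFunctionFieldBar (M * q))) ∈
          P.toValuationSubring) ∧
      (∀ b : V.B, b ∈ m ↔ h39_Val P ((h60_R1 M q hqM A hA).redF
        ((b : ↥(h69_F0 (M * q) (A.inertiaSubgroupIn ℚ))) : ↥(modularFunctionFieldBar (M * q)))) 0) ∧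
      ∃ g : ↥(modularFunctionFieldFullC (IsLocalRing.ResidueField A) M), P.ord g = 1 := by
  haveI := h19_residueField_isAlgClosed A
  haveI := h19_residueField_charP A q hA
  obtain ⟨y, hy, hpole⟩ := h84_exists_yChart M q hqM A hA hch
  obtain ⟨Sg, hSg, hT⟩ := h83_Mq_glue M q hqM hch A hA V vert hw0 hPinf hP0 hVB
  obtain ⟨P, R, hP, hRo, hRO, hRρ, hreg, hmem⟩ := h83_res_glue2_fst hy
    (h11_placeInftyC (IsLocalRing.ResidueField A) M) hpole Sg
    (h96_frobPerm (h84_isFrobChart_jk M q hqM A hA)) (Equiv.injective _) hSg V m (vert 0) (vert 1)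
    (h83_Oc M q hqM A hA 0) (h83_Oc_mem M q hqM A hA V vert hw0 0) (h83_rhoc M q hqM A hA 0)
    (h83_rhoc_eq_zero M q hqM A hA V vert hwpos 0)
    (h83_Oc M q hqM A hA 1) (h83_Oc_mem M q hqM A hA V vert hw0 1) (h83_rhoc M q hqM A hA 1)
    (h83_rhoc_eq_zero M q hqM A hA V vert hwpos 1)
    (h83_B0 M q A V Pinf P0) hT (h83_Mq_hmax0 M q A V m hconst) hc
  obtain ⟨b0, hb0⟩ := h39_exists_val hy P ((hpole P).mpr hP)
  obtain ⟨g, -, hg, -⟩ := h39_exists_uniformizer hy P b0 hb0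
  have hO : ∀ f : ↥(h69_F0 (M * q) (A.inertiaSubgroupIn ℚ)),
      f ∈ R.O ↔ f ∈ h83_Oc M q hqM A hA 0 := fun f => by rw [hRO]
  have hρ : ∀ f : R.O, R.ρ f = (h60_pair M q hqM A hA 0).redF
      ((f : ↥(h69_F0 (M * q) (A.inertiaSubgroupIn ℚ))) : ↥(modularFunctionFieldBar (M * q))) :=
    fun f => by
      rw [hRρ (f : ↥(h69_F0 (M * q) (A.inertiaSubgroupIn ℚ))) f.2 ((hO _).mp f.2),
        h83_rhoc_apply]
  refine ⟨P, R, hP, hRo, hO, fun f => ⟨(hO _).mp f.2, ?_⟩, hρ, fun b => ?_, fun b => ?_, g, hg⟩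
  · rw [hρ f]
    exact (h60_pair M q hqM A hA 0).redF_of_mem ((hO _).mp f.2)
  · have h := hreg b
    rw [h83_rhoB_Mq M q hqM A hA V vert hw0 0 b] at h
    exact h
  · have h := hmem b
    rw [h83_rhoB_Mq M q hqM A hA V vert hw0 0 b] at h
    exact h

set_option maxHeartbeats 1600000 in
include hch hw0 hwpos hPinf hP0 hVB hconst in
/-- **(RES) at level `q`, component `Z_V`** (`c = 1`). -/
theorem h83_res_Mq_snd (hc : V.Through m (vert 1)) :
    ∃ (P : Place (IsLocalRing.ResidueField A)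
        ↥(modularFunctionFieldFullC (IsLocalRing.ResidueField A) M))
      (R : h62_Res V m (vert 1) ↥(modularFunctionFieldFullC (IsLocalRing.ResidueField A) M)),
      P ≠ h11_placeInftyC (IsLocalRing.ResidueField A) M ∧ R.o = P.ord ∧
      (∀ f : ↥(h69_F0 (M * q) (A.inertiaSubgroupIn ℚ)),
        f ∈ R.O ↔ (f : ↥(modularFunctionFieldBar (M * q))) ∈ (h60_R2 M q hqM A hA).O) ∧
      (∀ f : R.O, ∃ hf : ((f : ↥(h69_F0 (M * q) (A.inertiaSubgroupIn ℚ))) :
          ↥(modularFunctionFieldBar (M * q))) ∈ (h60_R2 M q hqM A hA).O,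
        R.ρ f = (h60_R2 M q hqM A hA).red ⟨_, hf⟩) ∧
      (∀ f : R.O, R.ρ f = (h60_R2 M q hqM A hA).redF
        ((f : ↥(h69_F0 (M * q) (A.inertiaSubgroupIn ℚ))) : ↥(modularFunctionFieldBar (M * q)))) ∧
      (∀ b : V.B, (h60_R2 M q hqM A hA).redF
        ((b : ↥(h69_F0 (M * q) (A.inertiaSubgroupIn ℚ))) : ↥(modularFunctionFieldBar (M * q))) ∈
          P.toValuationSubring) ∧
      (∀ b : V.B, b ∈ m ↔ h39_Val P ((h60_R2 M q hqM A hA).redF
        ((b : ↥(h69_F0 (M * q) (A.inertiaSubgroupIn ℚ))) : ↥(modularFunctionFieldBar (M * q)))) 0) ∧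
      ∃ g : ↥(modularFunctionFieldFullC (IsLocalRing.ResidueField A) M), P.ord g = 1 := by
  haveI := h19_residueField_isAlgClosed A
  haveI := h19_residueField_charP A q hA
  obtain ⟨y, hy, hpole⟩ := h84_exists_yChart M q hqM A hA hch
  obtain ⟨Sg, hSg, hT⟩ := h83_Mq_glue M q hqM hch A hA V vert hw0 hPinf hP0 hVB
  obtain ⟨P, R, hP, hRo, hRO, hRρ, hreg, hmem⟩ := h83_res_glue2_snd hy
    (h11_placeInftyC (IsLocalRing.ResidueField A) M) hpole Sg
    (h96_frobPerm (h84_isFrobChart_jk M q hqM A hA)) (Equiv.injective _) hSg V m (vert 0) (vert 1)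
    (h83_Oc M q hqM A hA 0) (h83_Oc_mem M q hqM A hA V vert hw0 0) (h83_rhoc M q hqM A hA 0)
    (h83_rhoc_eq_zero M q hqM A hA V vert hwpos 0)
    (h83_Oc M q hqM A hA 1) (h83_Oc_mem M q hqM A hA V vert hw0 1) (h83_rhoc M q hqM A hA 1)
    (h83_rhoc_eq_zero M q hqM A hA V vert hwpos 1)
    (h83_B0 M q A V Pinf P0) hT (h83_Mq_hmax0 M q A V m hconst) hc
  obtain ⟨b0, hb0⟩ := h39_exists_val hy P ((hpole P).mpr hP)
  obtain ⟨g, -, hg, -⟩ := h39_exists_uniformizer hy P b0 hb0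
  have hO : ∀ f : ↥(h69_F0 (M * q) (A.inertiaSubgroupIn ℚ)),
      f ∈ R.O ↔ f ∈ h83_Oc M q hqM A hA 1 := fun f => by rw [hRO]
  have hρ : ∀ f : R.O, R.ρ f = (h60_pair M q hqM A hA 1).redF
      ((f : ↥(h69_F0 (M * q) (A.inertiaSubgroupIn ℚ))) : ↥(modularFunctionFieldBar (M * q))) :=
    fun f => by
      rw [hRρ (f : ↥(h69_F0 (M * q) (A.inertiaSubgroupIn ℚ))) f.2 ((hO _).mp f.2),
        h83_rhoc_apply]
  refine ⟨P, R, hP, hRo, hO, fun f => ⟨(hO _).mp f.2, ?_⟩, hρ, fun b => ?_, fun b => ?_, g, hg⟩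
  · rw [hρ f]
    exact (h60_pair M q hqM A hA 1).redF_of_mem ((hO _).mp f.2)
  · have h := hreg b
    rw [h83_rhoB_Mq M q hqM A hA V vert hw0 1 b] at h
    exact h
  · have h := hmem b
    rw [h83_rhoB_Mq M q hqM A hA V vert hw0 1 b] at h
    exact h

set_option maxHeartbeats 1600000 in
include hch hw0 hwpos hPinf hP0 hVB hconst in
/-- **(RES) at level `q`**: for every vertical `c` through the closed point `m` there are a
place `P ≠ ∞` of `k(X₀(M))` and a residue datum `R` with `R.o = ord_P`, `R.ρ = red_c`, every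
element of the chart ring regular at `P`, `b ∈ m ↔ (red_c b)(P) = 0`, and a uniformiser at `P`. -/
theorem h83_res_Mq (c : Fin 2) (hc : V.Through m (vert c)) :
    ∃ (P : Place (IsLocalRing.ResidueField A)
        ↥(modularFunctionFieldFullC (IsLocalRing.ResidueField A) M))
      (R : h62_Res V m (vert c) ↥(modularFunctionFieldFullC (IsLocalRing.ResidueField A) M)),
      P ≠ h11_placeInftyC (IsLocalRing.ResidueField A) M ∧ R.o = P.ord ∧
      (∀ f : ↥(h69_F0 (M * q) (A.inertiaSubgroupIn ℚ)),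
        f ∈ R.O ↔ (f : ↥(modularFunctionFieldBar (M * q))) ∈ (h60_pair M q hqM A hA c).O) ∧
      (∀ f : R.O, ∃ hf : ((f : ↥(h69_F0 (M * q) (A.inertiaSubgroupIn ℚ))) :
          ↥(modularFunctionFieldBar (M * q))) ∈ (h60_pair M q hqM A hA c).O,
        R.ρ f = (h60_pair M q hqM A hA c).red ⟨_, hf⟩) ∧
      (∀ f : R.O, R.ρ f = (h60_pair M q hqM A hA c).redF
        ((f : ↥(h69_F0 (M * q) (A.inertiaSubgroupIn ℚ))) : ↥(modularFunctionFieldBar (M * q)))) ∧
      (∀ b : V.B, (h60_pair M q hqM A hA c).redF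
        ((b : ↥(h69_F0 (M * q) (A.inertiaSubgroupIn ℚ))) : ↥(modularFunctionFieldBar (M * q))) ∈
          P.toValuationSubring) ∧
      (∀ b : V.B, b ∈ m ↔ h39_Val P ((h60_pair M q hqM A hA c).redF
        ((b : ↥(h69_F0 (M * q) (A.inertiaSubgroupIn ℚ))) : ↥(modularFunctionFieldBar (M * q)))) 0) ∧
      ∃ g : ↥(modularFunctionFieldFullC (IsLocalRing.ResidueField A) M), P.ord g = 1 := by
  rcases (by decide : ∀ c : Fin 2, c = 0 ∨ c = 1) c with rfl | rfl
  · exact h83_res_Mq_fst M q hqM hch A hA V vert hw0 hwpos hPinf hP0 hVB m hconst hc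
  · exact h83_res_Mq_snd M q hqM hch A hA V vert hw0 hwpos hPinf hP0 hVB m hconst hc

end Main

/-! ### The binder `hconst` from (RESK) -/

section Resk

variable (q : ℕ) [Fact q.Prime] (A : ValuationSubring Qb) (hA : A.LiesOverPrime q) (N : ℕ)
  {ι : Type*} (V : h80_ValFam ↥(h69_F0 N (A.inertiaSubgroupIn ℚ)) ι) (m : Ideal V.B)
  (hAB : ∀ a : ↥(h69_A0 A).toSubring,
    algebraMap (h69_K0 (A.inertiaSubgroupIn ℚ)) ↥(h69_F0 N (A.inertiaSubgroupIn ℚ)) a ∈ V.B)
  (x0 : ↥(h69_F0 N (A.inertiaSubgroupIn ℚ))) (hxB : x0 ∈ V.B)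
  (hint : ∀ f ∈ V.B, (h97_ev (h69_A0 A).toSubring x0).IsIntegralElem f)

include hA hAB hxB hint in
/-- (RESK) ⟹ `hconst`: at a closed point over `q` every element outside the point has a constant
inverse modulo the point (binders of `h75_pt_mod_resk`). -/
theorem h83_hconst_of_resk [hm : m.IsMaximal] (hqm : ((q : ℕ) : V.B) ∈ m) (s : V.B)
    (hs : s ∉ m) :
    ∃ l : V.B, (∃ a : Qb, ((l : ↥(h69_F0 N (A.inertiaSubgroupIn ℚ))) :
      ↥(modularFunctionFieldBar N)) = algebraMap Qb _ a) ∧ s * l - 1 ∈ m := by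
  obtain ⟨l, hl⟩ := h75_pt_mod_resk q A hA N V m hAB x0 hxB hint hqm s
  have hlm : h75_pt_const V (h69_A0 A).toSubring hAB l ∉ m := by
    intro h
    apply hs
    have h1 : s = (s - h75_pt_const V (h69_A0 A).toSubring hAB l) +
        h75_pt_const V (h69_A0 A).toSubring hAB l := by ring
    rw [h1]
    exact m.add_mem hl h
  obtain ⟨l', hl'⟩ := h75_pt_mod_hfield q A hA N V m hAB hqm l hlm
  refine ⟨h75_pt_const V (h69_A0 A).toSubring hAB l',
    ⟨((l' : h69_K0 (A.inertiaSubgroupIn ℚ)) : Qb), ?_⟩, ?_⟩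
  · rw [h75_pt_const_coe]
    exact h69_inst_comm N (A.inertiaSubgroupIn ℚ) _
  · have h1 : s * h75_pt_const V (h69_A0 A).toSubring hAB l' - 1 =
        (s - h75_pt_const V (h69_A0 A).toSubring hAB l) *
          h75_pt_const V (h69_A0 A).toSubring hAB l' +
        (h75_pt_const V (h69_A0 A).toSubring hAB l *
          h75_pt_const V (h69_A0 A).toSubring hAB l' - 1) := by ring
    rw [h1]
    exact m.add_mem (m.mul_mem_right _ hl) hl'

end Resk

/-! ### The chart families `h80_famOf` -/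

section Fam

variable (M q : ℕ) [NeZero M] [NeZero q] [Fact q.Prime] (hqM : ¬ q ∣ M)
  (A : ValuationSubring Qb) (hA : A.LiesOverPrime q)
  (w : Fin 2 → ↥(h69_F0 (M * q) (A.inertiaSubgroupIn ℚ)) → ℤ)
  (hw_mul : ∀ c (f g : ↥(h69_F0 (M * q) (A.inertiaSubgroupIn ℚ))), f ≠ 0 → g ≠ 0 →
    w c (f * g) = w c f + w c g)
  (hw_add : ∀ c (f g : ↥(h69_F0 (M * q) (A.inertiaSubgroupIn ℚ))), f ≠ 0 → g ≠ 0 → f + g ≠ 0 →
    min (w c f) (w c g) ≤ w c (f + g))
  (hw0 : ∀ (c : Fin 2) (f : ↥(h69_F0 (M * q) (A.inertiaSubgroupIn ℚ))), f ≠ 0 →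
    (0 ≤ w c f ↔ (f : ↥(modularFunctionFieldBar (M * q))) ∈ (h60_pair M q hqM A hA c).O))
  (hwpos : ∀ (c : Fin 2) (f : ↥(h69_F0 (M * q) (A.inertiaSubgroupIn ℚ))), f ≠ 0 →
    (0 < w c f ↔ (f : ↥(modularFunctionFieldBar (M * q))) ∈ (h60_pair M q hqM A hA c).O ∧
      (h60_pair M q hqM A hA c).redF (f : ↥(modularFunctionFieldBar (M * q))) = 0))

include hw0 in
/-- The binder `hVB` for a chart family `h80_famOf` whose chart function has poles at the two
cusps. -/
theorem h83_famOf_hVB (x : ↥(modularFunctionFieldBar (M * q))) (hx : h75_IsChart Qb x)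
    {Pinf P0 : Place Qb ↥(modularFunctionFieldBar (M * q))}
    (hxinf : Pinf.ord x < 0) (hx0 : P0.ord x < 0)
    (f : ↥(h69_F0 (M * q) (A.inertiaSubgroupIn ℚ)))
    (hfO : ∀ c, (f : ↥(modularFunctionFieldBar (M * q))) ∈ (h60_pair M q hqM A hA c).O)
    (hfL : ∃ n : ℕ, (f : ↥(modularFunctionFieldBar (M * q))) ∈
      riemannRochSpace (n • (Finsupp.single Pinf (1 : ℤ) + Finsupp.single P0 (1 : ℤ) :
        Divisor Qb ↥(modularFunctionFieldBar (M * q))))) :
    f ∈ (h80_famOf (M * q) (A.inertiaSubgroupIn ℚ) w hw_mul hw_add x hx).B := by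
  classical
  rw [h80_mem_famOf_B]
  by_cases hf : f = 0
  · exact Or.inl hf
  refine Or.inr ⟨fun c => (hw0 c f hf).mpr (hfO c), fun P hP => ?_⟩
  obtain ⟨n, hn⟩ := hfL
  rw [mem_riemannRochSpace_iff] at hn
  rcases hn P with h0 | h1
  · exact absurd (Subtype.ext h0) hf
  · have hP1 : P ≠ Pinf := fun h => by rw [h] at hP; omega
    have hP2 : P ≠ P0 := fun h => by rw [h] at hP; omega
    rw [Finsupp.smul_apply, Finsupp.add_apply, Finsupp.single_apply, Finsupp.single_apply,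
      if_neg (Ne.symm hP1), if_neg (Ne.symm hP2)] at h1
    simpa using h1

/-- `j` has a pole at the cusp `∞`. -/
theorem h83_jbar_pole_inf {Pinf : Place Qb ↥(modularFunctionFieldBar (M * q))}
    (hPinf : h10_IsCusp (modularFunctionFieldBar (M * q)) Pinf) :
    Pinf.ord (h59_jbar (M * q)) < 0 := by
  have hj0 : h59_jbar (M * q) ≠ 0 := (h54_isChart_jbar (M * q)).ne_zero
  rw [hPinf _ hj0, h10_order_jbar]
  norm_num

/-- `j` has a pole at the cusp `0'`. -/
theorem h83_jbar_pole_zero {P0 : Place Qb ↥(modularFunctionFieldBar (M * q))}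
    (hP0 : h10_IsCusp0 M q (h60_w M q hqM) P0) :
    P0.ord (h59_jbar (M * q)) < 0 := by
  have hj0 : h59_jbar (M * q) ≠ 0 := (h54_isChart_jbar (M * q)).ne_zero
  have hα : heckeAlphaBar Qb M q (h59_jbar M) = h59_jbar (M * q) :=
    Subtype.ext (by rw [coe_heckeAlphaBar, h59_coe_jbar, h59_coe_jbar])
  rw [hP0 _ hj0, ← hα, h60_w_alpha, h10_order_beta, h10_order_jbar]
  have hq : (0 : ℤ) < (q : ℤ) := by exact_mod_cast (Fact.out : q.Prime).pos
  linarith

variable (hch : 5 ≤ q ∨ 2 ∣ M ∨ 3 ∣ M)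
  (m : Ideal (h80_fam1 (M * q) (A.inertiaSubgroupIn ℚ) w hw_mul hw_add).B) [hm : m.IsMaximal]
  (hconst : ∀ s : (h80_fam1 (M * q) (A.inertiaSubgroupIn ℚ) w hw_mul hw_add).B, s ∉ m →
    ∃ l : (h80_fam1 (M * q) (A.inertiaSubgroupIn ℚ) w hw_mul hw_add).B,
      (∃ a : Qb, ((l : ↥(h69_F0 (M * q) (A.inertiaSubgroupIn ℚ))) :
        ↥(modularFunctionFieldBar (M * q))) = algebraMap Qb _ a) ∧ s * l - 1 ∈ m)

set_option maxHeartbeats 1600000 in
include hw0 hwpos hch hconst in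
/-- **(RES) at level `q` for the `j`-chart family** `h80_fam1 (M q) I w` (row (M3b) of I-PTS):
for every vertical `c` through the closed point `m` there are a place `P ≠ ∞` of `k(X₀(M))` and a
residue datum `R : h62_Res _ m (Sum.inl c) _` with `R.o = ord_P`, `R.ρ = red_c`. -/
theorem h83_res_fam1 (c : Fin 2)
    (hc : (h80_fam1 (M * q) (A.inertiaSubgroupIn ℚ) w hw_mul hw_add).Through m (Sum.inl c)) :
    ∃ (P : Place (IsLocalRing.ResidueField A)
        ↥(modularFunctionFieldFullC (IsLocalRing.ResidueField A) M))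
      (R : h62_Res (h80_fam1 (M * q) (A.inertiaSubgroupIn ℚ) w hw_mul hw_add) m (Sum.inl c)
        ↥(modularFunctionFieldFullC (IsLocalRing.ResidueField A) M)),
      P ≠ h11_placeInftyC (IsLocalRing.ResidueField A) M ∧ R.o = P.ord ∧
      (∀ f : ↥(h69_F0 (M * q) (A.inertiaSubgroupIn ℚ)),
        f ∈ R.O ↔ (f : ↥(modularFunctionFieldBar (M * q))) ∈ (h60_pair M q hqM A hA c).O) ∧
      (∀ f : R.O, ∃ hf : ((f : ↥(h69_F0 (M * q) (A.inertiaSubgroupIn ℚ))) :
          ↥(modularFunctionFieldBar (M * q))) ∈ (h60_pair M q hqM A hA c).O,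
        R.ρ f = (h60_pair M q hqM A hA c).red ⟨_, hf⟩) ∧
      (∀ f : R.O, R.ρ f = (h60_pair M q hqM A hA c).redF
        ((f : ↥(h69_F0 (M * q) (A.inertiaSubgroupIn ℚ))) : ↥(modularFunctionFieldBar (M * q)))) ∧
      (∀ b : (h80_fam1 (M * q) (A.inertiaSubgroupIn ℚ) w hw_mul hw_add).B,
        (h60_pair M q hqM A hA c).redF
          ((b : ↥(h69_F0 (M * q) (A.inertiaSubgroupIn ℚ))) : ↥(modularFunctionFieldBar (M * q))) ∈
            P.toValuationSubring) ∧
      (∀ b : (h80_fam1 (M * q) (A.inertiaSubgroupIn ℚ) w hw_mul hw_add).B,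
        b ∈ m ↔ h39_Val P ((h60_pair M q hqM A hA c).redF
          ((b : ↥(h69_F0 (M * q) (A.inertiaSubgroupIn ℚ))) :
            ↥(modularFunctionFieldBar (M * q)))) 0) ∧
      ∃ g : ↥(modularFunctionFieldFullC (IsLocalRing.ResidueField A) M), P.ord g = 1 := by
  obtain ⟨Pinf, P0, hPinf, hP0⟩ := h65_exists_cusps M q hqM
  exact h83_res_Mq M q hqM hch A hA (h80_fam1 (M * q) (A.inertiaSubgroupIn ℚ) w hw_mul hw_add)
    Sum.inl hw0 hwpos hPinf hP0
    (fun f hfO hfL => h83_famOf_hVB M q hqM A hA w hw_mul hw_add hw0 (h59_jbar (M * q))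
      (h54_isChart_jbar (M * q)) (h83_jbar_pole_inf M q hPinf) (h83_jbar_pole_zero M q hqM hP0)
      f hfO hfL)
    m hconst c hc

end Fam

end Fermat.Agent.S36

end
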