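/-
The vertical package of level `M q` for the two valuations `h98_w1` (`0 = Z_F`, `1 = Z_V`),
closed: values at `q`, normalisation, separation, and from the residue-degree families of
`h91_ResFamQ` the binder `hvert` of `h80_famOf_noeth` and the comparison (C3) at level `M q`
(helper97's `h97_hvert_mod75` / `h97_C3_mod75` with every hypothesis discharged).
-/
import Mathlib
import Fermat.Agent.S36.h91_ResFamQ
import Fermat.Agent.S36.h97_C3Mod
import Fermat.Agent.S36.h69_ValTable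
import Fermat.Agent.S18.h54_ModLevel

set_option autoImplicit false
set_option synthInstance.maxHeartbeats 400000
set_option linter.unusedSectionVars false

noncomputable section

namespace Fermat.Agent.S36

open Polynomial IntermediateField ModularCurve CongruenceSubgroup AlgebraicCurve
open scoped MatrixGroups
open Fermat.Agent.S34 Fermat.Agent.S18 Fermat.Agent.S19 Fermat.Agent.S24 Fermat.Agent.S37
  Fermat.Agent.S35

local notation "Qb" => AlgebraicClosure ℚ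

section VertQ

variable (M q : ℕ) [NeZero M] [NeZero q] [Fact q.Prime] (hqM : ¬ q ∣ M)
  (A : ValuationSubring Qb) (hA : A.LiesOverPrime q) (ζ : Qb) (hζ : IsPrimitiveRoot ζ q)
  (hex : h98_Ex M q hqM A ζ hζ)

include hA in
/-- `w_F q = w_V q = 1`. -/
theorem h91_w1_q : ∀ c : Fin 2,
    h98_w1 M q hqM A ζ hζ hex c (q : h69_F0 (M * q) (A.inertiaSubgroupIn ℚ)) =
      ((![1, 1] : Fin 2 → ℕ) c : ℤ) := by
  intro c
  fin_cases c
  · show h98_wF M q hqM A ζ hζ hex (q : h69_F0 (M * q) (A.inertiaSubgroupIn ℚ)) = ((1 : ℕ) : ℤ)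
    rw [Nat.cast_one]
    refine h98_wF_eq M q hqM A hA ζ hζ hex _ 1 ?_
    have e : (((q : h69_F0 (M * q) (A.inertiaSubgroupIn ℚ)) : modularFunctionFieldBar (M * q)) :
        LaurentSeries Qb) = algebraMap Qb (LaurentSeries Qb) (q : Qb) := by
      rw [map_natCast]
      rfl
    rw [e]
    exact h98_GV_pi (h98_q_unif q A hA).1
  · show h98_wV M q hqM A ζ hζ hex (q : h69_F0 (M * q) (A.inertiaSubgroupIn ℚ)) = ((1 : ℕ) : ℤ)
    rw [Nat.cast_one]
    refine h98_wV_eq M q hqM A hA ζ hζ hex _ 1 ?_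
    have e : ((h60_w M q hqM ((q : h69_F0 (M * q) (A.inertiaSubgroupIn ℚ)) :
        modularFunctionFieldBar (M * q)) : modularFunctionFieldBar (M * q)) :
        LaurentSeries Qb) = algebraMap Qb (LaurentSeries Qb) (q : Qb) := by
      have e1 : ((q : h69_F0 (M * q) (A.inertiaSubgroupIn ℚ)) :
          modularFunctionFieldBar (M * q)) = (q : modularFunctionFieldBar (M * q)) := rfl
      rw [e1, map_natCast, map_natCast]
      rfl
    rw [e]
    exact h98_GV_pi (h98_q_unif q A hA).1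

include hA in
/-- normalisation: `q` has value `1` on both components. -/
theorem h91_w1_hnorm : ∀ c : Fin 2, ∃ z : h69_F0 (M * q) (A.inertiaSubgroupIn ℚ),
    z ≠ 0 ∧ h98_w1 M q hqM A ζ hζ hex c z = 1 := by
  have hq : q.Prime := Fact.out
  intro c
  refine ⟨(q : h69_F0 (M * q) (A.inertiaSubgroupIn ℚ)), Nat.cast_ne_zero.mpr hq.ne_zero, ?_⟩
  rw [h91_w1_q M q hqM A hA ζ hζ hex c]
  fin_cases c <;> rfl

/-- helper69's separator `j - (β j)^q` as an element of `F0` at level `M q`. -/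
def h91_sepQ : h69_F0 (M * q) (A.inertiaSubgroupIn ℚ) :=
  ⟨h69_sep M q, h69_sep_mem_F0 M q (A.inertiaSubgroupIn ℚ)⟩

theorem h91_sepQ_ne_zero : h91_sepQ M q A ≠ 0 := by
  intro h
  have h1 := h98_GV_ne_zero (h69_sep_GV M q A (q : Qb))
  apply h1
  have h2 : h69_sep M q = 0 := congrArg Subtype.val h
  rw [h2]
  rfl

include hA in
/-- the separator has `w_F = 0 < w_V`. -/
theorem h91_w1_sep :
    h98_w1 M q hqM A ζ hζ hex 0 (h91_sepQ M q A) = 0 ∧
      0 < h98_w1 M q hqM A ζ hζ hex 1 (h91_sepQ M q A) := by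
  have : CharP (IsLocalRing.ResidueField A) q := h19_residueField_charP A q hA
  obtain ⟨hq0, hqA, hqn⟩ := h98_q_unif q A hA
  refine ⟨?_, ?_⟩
  · exact h98_wF_eq M q hqM A hA ζ hζ hex (h91_sepQ M q A) 0 (h69_sep_GV M q A (q : Qb))
  · exact h69_w_sep_GV_pos M q hqM A hq0 hqA hqn _
      (h98_wV_spec M q hqM A ζ hζ hex (h91_sepQ M q A) (h91_sepQ_ne_zero M q A))

include hA in
/-- separation of the two components of level `M q`. -/
theorem h91_w1_hne : ∀ c c' : Fin 2, c ≠ c' →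
    ∃ g : h69_F0 (M * q) (A.inertiaSubgroupIn ℚ), g ≠ 0 ∧
      h98_w1 M q hqM A ζ hζ hex c g ≠ h98_w1 M q hqM A ζ hζ hex c' g := by
  obtain ⟨h0, h1⟩ := h91_w1_sep M q hqM A hA ζ hζ hex
  intro c c' hcc
  refine ⟨h91_sepQ M q A, h91_sepQ_ne_zero M q A, ?_⟩
  fin_cases c <;> fin_cases c'
  · exact absurd rfl hcc
  · show h98_w1 M q hqM A ζ hζ hex 0 _ ≠ h98_w1 M q hqM A ζ hζ hex 1 _
    rw [h0]
    exact h1.ne
  · show h98_w1 M q hqM A ζ hζ hex 1 _ ≠ h98_w1 M q hqM A ζ hζ hex 0 _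
    rw [h0]
    exact h1.ne'
  · exact absurd rfl hcc

include hqM in
/-- the degree count at level `M q`. -/
theorem h91_hn_q :
    Module.finrank (h69_K0 (A.inertiaSubgroupIn ℚ))⟮h69_jF0 (M * q) (A.inertiaSubgroupIn ℚ)⟯
        (h69_F0 (M * q) (A.inertiaSubgroupIn ℚ)) ≤
      ∑ c : Fin 2, (![1, 1] : Fin 2 → ℕ) c * h91_fQ M q c := by
  have hq : q.Prime := Fact.out
  rw [h69_F0_finrank (M * q) (A.inertiaSubgroupIn ℚ), ← h91_count_fQ M q, mul_comm M q,
    h29_psi_mul_of_not_dvd q M hq (Nat.pos_of_ne_zero (NeZero.ne M)) hqM]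

include hA in
/-- **`hvert` of `h80_famOf_noeth` at level `M q`** for `w := h98_w1`, chart `j`: closed. -/
theorem h91_hvert_q :
    ∀ g : h69_F0 (M * q) (A.inertiaSubgroupIn ℚ), g ≠ 0 →
      (∀ c, 0 ≤ h98_w1 M q hqM A ζ hζ hex c g) →
      ∃ s : Polynomial (h69_A0 A).toSubring,
        (∃ i, (s.coeff i : h69_K0 (A.inertiaSubgroupIn ℚ))⁻¹ ∈ h69_A0 A ∧ s.coeff i ≠ 0) ∧
          (h97_ev (h69_A0 A).toSubring (h69_jF0 (M * q) (A.inertiaSubgroupIn ℚ))).IsIntegralElem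
            (h97_ev (h69_A0 A).toSubring (h69_jF0 (M * q) (A.inertiaSubgroupIn ℚ)) s * g) :=
  h97_hvert_mod75 (M * q) q A (h69_jF0 (M * q) (A.inertiaSubgroupIn ℚ))
    (h54_isChart_jbar (M * q)) hA (h98_w1 M q hqM A ζ hζ hex)
    (h98_w1_isVal M q hqM A hA ζ hζ hex)
    (fun c r hr => h91_hR_w1 M q hqM A hA ζ hζ hex c _ r.2 hr)
    ![1, 1] (h91_w1_q M q hqM A hA ζ hζ hex) (h91_w1_hnorm M q hqM A hA ζ hζ hex)
    (h91_w1_hne M q hqM A hA ζ hζ hex) (h91_fQ M q) (h91_bQ M q hqM A)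
    (h91_hb_w1 M q hqM A hA ζ hζ hex) (h91_hn_q M q hqM A)

include hA in
/-- **(C3) at level `M q`**: the D4 lattice ring of `(A0, j)` is cut out by `h98_w1`. -/
theorem h91_C3_q :
    ∀ g : h69_F0 (M * q) (A.inertiaSubgroupIn ℚ), g ≠ 0 →
      ((h69_F0 (M * q) (A.inertiaSubgroupIn ℚ)).subtype g ∈
          h97_O2 (M * q) A (h69_jF0 (M * q) (A.inertiaSubgroupIn ℚ)) (h54_isChart_jbar (M * q)) ↔
        ∀ c, 0 ≤ h98_w1 M q hqM A ζ hζ hex c g) :=
  h97_C3_mod75 (M * q) q A (h69_jF0 (M * q) (A.inertiaSubgroupIn ℚ))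
    (h54_isChart_jbar (M * q)) hA (h98_w1 M q hqM A ζ hζ hex)
    (h98_w1_isVal M q hqM A hA ζ hζ hex)
    (fun c r hr => h91_hR_w1 M q hqM A hA ζ hζ hex c _ r.2 hr)
    ![1, 1] (h91_w1_q M q hqM A hA ζ hζ hex) (h91_w1_hnorm M q hqM A hA ζ hζ hex)
    (h91_w1_hne M q hqM A hA ζ hζ hex) (h91_fQ M q) (h91_bQ M q hqM A)
    (h91_hb_w1 M q hqM A hA ζ hζ hex) (h91_hn_q M q hqM A)

end VertQ

end Fermat.Agent.S36
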