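/-
(NOETH), chart 1 (`x0 = j`), closed at both levels: the chart ring `B` of helper80's family
`h80_fam1` is noetherian and integral over `A0[j]`,

* at level `M q`  for the two vertical valuations `h98_w1`  (`h91_noeth_q`),
* at level `M q²` for the three vertical valuations `h98_w2` (`h91_noeth_q2`),

by `h80_famOf_noeth` applied to the closed `hvert` (`h97_hvert_mod75` + the residue-degree
families of `h91_ResFamQ` / `h91_ResFamInst`).
-/
import Mathlib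
import Fermat.Agent.S36.h91_VertQ
import Fermat.Agent.S36.h80_FamInst
import Fermat.Agent.S36.h98_V12
import Fermat.Agent.S36.h69_W2Hne

set_option autoImplicit false
set_option synthInstance.maxHeartbeats 400000
set_option linter.unusedSectionVars false

noncomputable section

namespace Fermat.Agent.S36

open Polynomial IntermediateField ModularCurve CongruenceSubgroup AlgebraicCurve
open scoped MatrixGroups
open Fermat.Agent.S34 Fermat.Agent.S18 Fermat.Agent.S19 Fermat.Agent.S24 Fermat.Agent.S37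
  Fermat.Agent.S35

local notation "Qb" => AlgebraicClosure ℚ

/-- Constants of `A` lie in the Gauss ring of `(A, x)`. -/
theorem h91_const_mem_gauss {K F : Type*} [Field K] [Field F] [Algebra K F]
    (A : ValuationSubring K) (x : F) (a : K) (ha : a ∈ A) :
    algebraMap K F a ∈ h75_gaussRing A x := by
  refine ⟨C ⟨a, ha⟩, 1, by rw [Polynomial.map_one]; exact one_ne_zero, ?_⟩
  simp

section NoethQ

variable (M q : ℕ) [NeZero M] [NeZero q] [Fact q.Prime] (hqM : ¬ q ∣ M)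
  (A : ValuationSubring Qb) (hA : A.LiesOverPrime q) (ζ : Qb) (hζ : IsPrimitiveRoot ζ q)
  (hex : h98_Ex M q hqM A ζ hζ)

/-! ### Level `M q` -/

include hA in
/-- `hwA` at level `M q`: constants of `A0` have nonnegative `w1`. -/
theorem h91_w1_hwA : ∀ (c : Fin 2) (a : h69_K0 (A.inertiaSubgroupIn ℚ)), a ∈ h69_A0 A → a ≠ 0 →
    0 ≤ h98_w1 M q hqM A ζ hζ hex c
      (algebraMap (h69_K0 (A.inertiaSubgroupIn ℚ)) (h69_F0 (M * q) (A.inertiaSubgroupIn ℚ)) a) :=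
  fun c a ha ha0 => h91_hR_w1 M q hqM A hA ζ hζ hex c _
    (h91_const_mem_gauss (h69_A0 A) _ a ha) ((_root_.map_ne_zero _).mpr ha0)

include hA in
/-- `hwx` at level `M q`: `0 ≤ w1 c j`. -/
theorem h91_w1_hwx : ∀ c : Fin 2,
    0 ≤ h98_w1 M q hqM A ζ hζ hex c (h69_jF0 (M * q) (A.inertiaSubgroupIn ℚ)) :=
  fun c => h91_hR_w1 M q hqM A hA ζ hζ hex c _ (h75_gaussRing_x (h69_A0 A) _)
    (fun h => (h54_isChart_jbar (M * q)).ne_zero (congrArg Subtype.val h))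

include hA in
/-- **(NOETH) at level `M q`, chart 1.** -/
theorem h91_noeth_q :
    IsNoetherianRing
      (h80_fam1 (M * q) (A.inertiaSubgroupIn ℚ) (h98_w1 M q hqM A ζ hζ hex)
        (h98_hw1mul M q hqM A hA ζ hζ hex) (h98_hw1add M q hqM A hA ζ hζ hex)).B ∧
    ∀ f ∈ (h80_fam1 (M * q) (A.inertiaSubgroupIn ℚ) (h98_w1 M q hqM A ζ hζ hex)
        (h98_hw1mul M q hqM A hA ζ hζ hex) (h98_hw1add M q hqM A hA ζ hζ hex)).B,
      (h97_ev (h69_A0 A).toSubring (h69_jF0 (M * q) (A.inertiaSubgroupIn ℚ))).IsIntegralElem f :=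
  h80_famOf_noeth (M * q) q A hA (h98_w1 M q hqM A ζ hζ hex)
    (h98_hw1mul M q hqM A hA ζ hζ hex) (h98_hw1add M q hqM A hA ζ hζ hex)
    (h69_jF0 (M * q) (A.inertiaSubgroupIn ℚ)) (h54_isChart_jbar (M * q))
    (h91_w1_hwA M q hqM A hA ζ hζ hex) (h91_w1_hwx M q hqM A hA ζ hζ hex)
    (h91_hvert_q M q hqM A hA ζ hζ hex)

/-! ### Level `M q²` -/

include hA in
/-- `w2 c q = ![1, q - 1, 1] c`. -/
theorem h91_w2_q : ∀ c : Fin 3,
    h98_w2 M q hqM A ζ hζ hex c (q : h69_F0 (M * q * q) (A.inertiaSubgroupIn ℚ)) =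
      ((![1, q - 1, 1] : Fin 3 → ℕ) c : ℤ) := by
  have hq : q.Prime := Fact.out
  have h2 := hq.two_le
  intro c
  fin_cases c
  · exact (h98_hq0 M q hqM A hA ζ hζ hex).trans (by simp)
  · refine (h98_hq1 M q hqM A hA ζ hζ hex).trans ?_
    show (q : ℤ) - 1 = ((q - 1 : ℕ) : ℤ)
    omega
  · exact (h98_hq2 M q hqM A hA ζ hζ hex).trans (by simp)

include hqM in
/-- the degree count at level `M q²`. -/
theorem h91_hn_q2 :
    Module.finrank
        (h69_K0 (A.inertiaSubgroupIn ℚ))⟮h69_jF0 (M * q * q) (A.inertiaSubgroupIn ℚ)⟯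
        (h69_F0 (M * q * q) (A.inertiaSubgroupIn ℚ)) ≤
      ∑ c : Fin 3, (![1, q - 1, 1] : Fin 3 → ℕ) c * h91_fRes M q c := by
  have hq : q.Prime := Fact.out
  rw [h69_F0_finrank_q2 M q hq hqM (A.inertiaSubgroupIn ℚ), ← h29_card_quotient_Gamma0 M]
  obtain ⟨m, rfl⟩ : ∃ m, q = m + 1 := ⟨q - 1, by have := hq.pos; omega⟩
  simp only [Fin.sum_univ_three, Matrix.cons_val_zero, Matrix.cons_val_one, Matrix.cons_val_two,
    Matrix.head_cons, Matrix.tail_cons, Nat.add_sub_cancel, h91_fRes_zero, h91_fRes_one,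
    h91_fRes_two]
  apply le_of_eq
  ring

include hA in
/-- **`hvert` of `h80_famOf_noeth` at level `M q²`** for `w := h98_w2`, chart `j`: closed. -/
theorem h91_hvert_q2 :
    ∀ g : h69_F0 (M * q * q) (A.inertiaSubgroupIn ℚ), g ≠ 0 →
      (∀ c, 0 ≤ h98_w2 M q hqM A ζ hζ hex c g) →
      ∃ s : Polynomial (h69_A0 A).toSubring,
        (∃ i, (s.coeff i : h69_K0 (A.inertiaSubgroupIn ℚ))⁻¹ ∈ h69_A0 A ∧ s.coeff i ≠ 0) ∧
          (h97_ev (h69_A0 A).toSubring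
              (h69_jF0 (M * q * q) (A.inertiaSubgroupIn ℚ))).IsIntegralElem
            (h97_ev (h69_A0 A).toSubring (h69_jF0 (M * q * q) (A.inertiaSubgroupIn ℚ)) s * g) :=
  h97_hvert_mod75 (M * q * q) q A (h69_jF0 (M * q * q) (A.inertiaSubgroupIn ℚ))
    (h54_isChart_jbar (M * q * q)) hA (h98_w2 M q hqM A ζ hζ hex)
    (h98_w2_isVal M q hqM A hA ζ hζ hex)
    (fun c r hr => h91_hR_w98 M q hqM A hA ζ hζ hex c _ r.2 hr)
    ![1, q - 1, 1] (h91_w2_q M q hqM A hA ζ hζ hex) (h98_hnorm M q hqM A hA ζ hζ hex)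
    (h69_w2_hne M q hqM A hA ζ hζ hex) (h91_fRes M q) (h91_bRes M q hqM A)
    (h91_hb_w98 M q hqM A hA ζ hζ hex) (h91_hn_q2 M q hqM A)

include hA in
/-- `hwA` at level `M q²`: constants of `A0` have nonnegative `w2`. -/
theorem h91_w2_hwA : ∀ (c : Fin 3) (a : h69_K0 (A.inertiaSubgroupIn ℚ)), a ∈ h69_A0 A → a ≠ 0 →
    0 ≤ h98_w2 M q hqM A ζ hζ hex c
      (algebraMap (h69_K0 (A.inertiaSubgroupIn ℚ))
        (h69_F0 (M * q * q) (A.inertiaSubgroupIn ℚ)) a) :=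
  fun c a ha ha0 => h91_hR_w98 M q hqM A hA ζ hζ hex c _
    (h91_const_mem_gauss (h69_A0 A) _ a ha) ((_root_.map_ne_zero _).mpr ha0)

include hA in
/-- `hwx` at level `M q²`: `0 ≤ w2 c j`. -/
theorem h91_w2_hwx : ∀ c : Fin 3,
    0 ≤ h98_w2 M q hqM A ζ hζ hex c (h69_jF0 (M * q * q) (A.inertiaSubgroupIn ℚ)) :=
  fun c => h91_hR_w98 M q hqM A hA ζ hζ hex c _ (h75_gaussRing_x (h69_A0 A) _)
    (fun h => (h54_isChart_jbar (M * q * q)).ne_zero (congrArg Subtype.val h))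

include hA in
/-- `0 ≤ w2 c j⁻¹` (so `w2 c j = 0`). -/
theorem h91_w2_hwx_inv : ∀ c : Fin 3,
    0 ≤ h98_w2 M q hqM A ζ hζ hex c (h69_jF0 (M * q * q) (A.inertiaSubgroupIn ℚ))⁻¹ := by
  have h0 : h69_jF0 (M * q * q) (A.inertiaSubgroupIn ℚ) ≠ 0 :=
    fun h => (h54_isChart_jbar (M * q * q)).ne_zero (congrArg Subtype.val h)
  exact fun c => h91_hR_w98 M q hqM A hA ζ hζ hex c _ (h75_gaussRing_x_inv (h69_A0 A) h0)
    (inv_ne_zero h0)

include hA in
/-- **(NOETH) at level `M q²`, chart 1.** -/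
theorem h91_noeth_q2 :
    IsNoetherianRing
      (h80_fam1 (M * q * q) (A.inertiaSubgroupIn ℚ) (h98_w2 M q hqM A ζ hζ hex)
        (h98_hw2mul M q hqM A hA ζ hζ hex) (h98_hw2add M q hqM A hA ζ hζ hex)).B ∧
    ∀ f ∈ (h80_fam1 (M * q * q) (A.inertiaSubgroupIn ℚ) (h98_w2 M q hqM A ζ hζ hex)
        (h98_hw2mul M q hqM A hA ζ hζ hex) (h98_hw2add M q hqM A hA ζ hζ hex)).B,
      (h97_ev (h69_A0 A).toSubring
        (h69_jF0 (M * q * q) (A.inertiaSubgroupIn ℚ))).IsIntegralElem f :=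
  h80_famOf_noeth (M * q * q) q A hA (h98_w2 M q hqM A ζ hζ hex)
    (h98_hw2mul M q hqM A hA ζ hζ hex) (h98_hw2add M q hqM A hA ζ hζ hex)
    (h69_jF0 (M * q * q) (A.inertiaSubgroupIn ℚ)) (h54_isChart_jbar (M * q * q))
    (h91_w2_hwA M q hqM A hA ζ hζ hex) (h91_w2_hwx M q hqM A hA ζ hζ hex)
    (h91_hvert_q2 M q hqM A hA ζ hζ hex)

end NoethQ

end Fermat.Agent.S36
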