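import Fermat.Agent.S36.h60_ThickQFinal
import Fermat.Agent.S36.h83_ResMq
import Fermat.Agent.S36.h69_W1Bridge
import Fermat.Agent.S36.h69_ConstA
import Fermat.Agent.S36.h91_NoethQ
import Fermat.Agent.S36.h65_NoethQ

/-!
# S36 / I-PTS (M5): `hQ` of `h60_hthick_gen2` at the modular names, closed (helper60)

`V1 := h80_fam1 (M*q) I (h98_w1 ..) ..`, `ψ₁ := (h69_F0 (M*q) I).subtype`, `wF := Sum.inl 0`.

* `h60_hRes_mod` : the residue data of the branch `Sum.inl 0` at every closed point of `V1`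
  (`o = ord_y`, `ρ = red₁`), from helper83's `h83_res_fam1` (the binder `hRes` of `h60_hQ_mod`);
* `h60_hQ_closed` : **`hQ` of `h60_hthick_gen2`**, hypothesis-free (beyond `hch`, `nuTwo M = 0`,
  `nuThree M = 0`).
-/

set_option autoImplicit false
set_option synthInstance.maxHeartbeats 400000

noncomputable section

open ModularCurve AlgebraicCurve

namespace Fermat.Agent.S36

open Fermat.Agent.S34 Fermat.Agent.S37 Fermat.Agent.S24 Fermat.Agent.S35 Fermat.Agent.S18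

local notation "Qb" => AlgebraicClosure ℚ

variable (M q : ℕ) [NeZero M] [NeZero q] [Fact q.Prime] (hqM : ¬ q ∣ M)
  (A : ValuationSubring Qb) (hA : A.LiesOverPrime q) (ζ : Qb) (hζ : IsPrimitiveRoot ζ q)
  (hex : h98_Ex M q hqM A ζ hζ)

set_option maxHeartbeats 1600000 in
/-- **(RES) at level `q` on the branch `Sum.inl 0`**, in the shape of `hRes` of `h60_hQ_mod`. -/
theorem h60_hRes_mod (hch : 5 ≤ q ∨ 2 ∣ M ∨ 3 ∣ M) :
    ∀ s : Ideal (h80_fam1 (M * q) (A.inertiaSubgroupIn ℚ) (h98_w1 M q hqM A ζ hζ hex)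
        (h98_hw1mul M q hqM A hA ζ hζ hex) (h98_hw1add M q hqM A hA ζ hζ hex)).B,
      s.IsMaximal →
      (h80_fam1 (M * q) (A.inertiaSubgroupIn ℚ) (h98_w1 M q hqM A ζ hζ hex)
        (h98_hw1mul M q hqM A hA ζ hζ hex) (h98_hw1add M q hqM A hA ζ hζ hex)).Through s
          (Sum.inl 0) →
      ∃ (y : Place (IsLocalRing.ResidueField A)
          ↥(modularFunctionFieldFullC (IsLocalRing.ResidueField A) M))
        (R₁ : h62_Res (h80_fam1 (M * q) (A.inertiaSubgroupIn ℚ) (h98_w1 M q hqM A ζ hζ hex)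
          (h98_hw1mul M q hqM A hA ζ hζ hex) (h98_hw1add M q hqM A hA ζ hζ hex)) s (Sum.inl 0)
          ↥(modularFunctionFieldFullC (IsLocalRing.ResidueField A) M)),
        R₁.o = y.ord ∧
        ∀ f : R₁.O, ∃ hf : (h69_F0 (M * q) (A.inertiaSubgroupIn ℚ)).subtype
            (f : h69_F0 (M * q) (A.inertiaSubgroupIn ℚ)) ∈ (h60_R1 M q hqM A hA).O,
          R₁.ρ f = (h60_R1 M q hqM A hA).red
            ⟨(h69_F0 (M * q) (A.inertiaSubgroupIn ℚ)).subtype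
              (f : h69_F0 (M * q) (A.inertiaSubgroupIn ℚ)), hf⟩ := by
  intro s hs hF
  have := hs
  have hq : q.Prime := Fact.out
  have hq0 : ((q : ℕ) : h69_F0 (M * q) (A.inertiaSubgroupIn ℚ)) ≠ 0 :=
    Nat.cast_ne_zero.mpr hq.ne_zero
  have hqs : ((q : ℕ) : (h80_fam1 (M * q) (A.inertiaSubgroupIn ℚ) (h98_w1 M q hqM A ζ hζ hex)
      (h98_hw1mul M q hqM A hA ζ hζ hex) (h98_hw1add M q hqM A hA ζ hζ hex)).B) ∈ s := by
    refine h75_pt_fam_q_mem _ s hq0 ⟨Sum.inl 0, hF, ?_⟩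
    show 0 < h98_w1 M q hqM A ζ hζ hex 0 ((q : ℕ) : h69_F0 (M * q) (A.inertiaSubgroupIn ℚ))
    rw [h65_w1_q M q hqM A hA ζ hζ hex 0]
    exact one_pos
  have hAB : ∀ a : ↥(h69_A0 A).toSubring,
      algebraMap (h69_K0 (A.inertiaSubgroupIn ℚ)) ↥(h69_F0 (M * q) (A.inertiaSubgroupIn ℚ)) a ∈
        (h80_fam1 (M * q) (A.inertiaSubgroupIn ℚ) (h98_w1 M q hqM A ζ hζ hex)
          (h98_hw1mul M q hqM A hA ζ hζ hex) (h98_hw1add M q hqM A hA ζ hζ hex)).B :=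
    fun a => h65_const_mem_fam1 (M * q) A (h98_w1 M q hqM A ζ hζ hex)
      (h98_hw1mul M q hqM A hA ζ hζ hex) (h98_hw1add M q hqM A hA ζ hζ hex)
      (h69_hwA1 M q hqM A hA ζ hζ hex) a.1 a.2
  have hxB : h69_jF0 (M * q) (A.inertiaSubgroupIn ℚ) ∈
      (h80_fam1 (M * q) (A.inertiaSubgroupIn ℚ) (h98_w1 M q hqM A ζ hζ hex)
        (h98_hw1mul M q hqM A hA ζ hζ hex) (h98_hw1add M q hqM A hA ζ hζ hex)).B :=
    h60_J0_mem_fam1 M q hqM A hA ζ hζ hex
  obtain ⟨P, R, -, ho, -, hR, -, -, -, -⟩ :=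
    h83_res_fam1 M q hqM A hA (h98_w1 M q hqM A ζ hζ hex)
      (h98_hw1mul M q hqM A hA ζ hζ hex) (h98_hw1add M q hqM A hA ζ hζ hex)
      (h69_w1_nonneg_iff M q hqM A hA ζ hζ hex) (h69_w1_pos_iff M q hqM A hA ζ hζ hex) hch s
      (fun t ht => h83_hconst_of_resk q A hA (M * q) _ s hAB
        (h69_jF0 (M * q) (A.inertiaSubgroupIn ℚ)) hxB
        (h91_noeth_q M q hqM A hA ζ hζ hex).2 hqs t ht) 0 hF
  exact ⟨P, R, ho, hR⟩

/-- **`hQ` of `h60_hthick_gen2` at the modular names**, closed. -/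
theorem h60_hQ_closed (hch : 5 ≤ q ∨ 2 ∣ M ∨ 3 ∣ M) (h2 : nuTwo M = 0) (h3 : nuThree M = 0) :
    ∀ s : Ideal (h80_fam1 (M * q) (A.inertiaSubgroupIn ℚ) (h98_w1 M q hqM A ζ hζ hex)
        (h98_hw1mul M q hqM A hA ζ hζ hex) (h98_hw1add M q hqM A hA ζ hζ hex)).B,
      s.IsMaximal →
      (h80_fam1 (M * q) (A.inertiaSubgroupIn ℚ) (h98_w1 M q hqM A ζ hζ hex)
        (h98_hw1mul M q hqM A hA ζ hζ hex) (h98_hw1add M q hqM A hA ζ hζ hex)).Through s
          (Sum.inl 0) →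
      ∃ (y : Place (IsLocalRing.ResidueField A)
          ↥(modularFunctionFieldFullC (IsLocalRing.ResidueField A) M))
        (R₁ : h62_Res (h80_fam1 (M * q) (A.inertiaSubgroupIn ℚ) (h98_w1 M q hqM A ζ hζ hex)
          (h98_hw1mul M q hqM A hA ζ hζ hex) (h98_hw1add M q hqM A hA ζ hζ hex)) s (Sum.inl 0)
          ↥(modularFunctionFieldFullC (IsLocalRing.ResidueField A) M)),
        R₁.o = y.ord ∧
        (∀ f : R₁.O, ∃ hf : (h69_F0 (M * q) (A.inertiaSubgroupIn ℚ)).subtype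
            (f : h69_F0 (M * q) (A.inertiaSubgroupIn ℚ)) ∈ (h60_R1 M q hqM A hA).O,
          R₁.ρ f = (h60_R1 M q hqM A hA).red
            ⟨(h69_F0 (M * q) (A.inertiaSubgroupIn ℚ)).subtype
              (f : h69_F0 (M * q) (A.inertiaSubgroupIn ℚ)), hf⟩) ∧
        ∃ s₀ : h69_F0 (M * q) (A.inertiaSubgroupIn ℚ),
          s₀ ∈ (h80_fam1 (M * q) (A.inertiaSubgroupIn ℚ) (h98_w1 M q hqM A ζ hζ hex)
            (h98_hw1mul M q hqM A hA ζ hζ hex) (h98_hw1add M q hqM A hA ζ hζ hex)).B ∧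
          (h69_F0 (M * q) (A.inertiaSubgroupIn ℚ)).subtype s₀ ∈ (h60_R1 M q hqM A hA).O ∧
          ∃ cθ : ↥(modularFunctionFieldFullC (IsLocalRing.ResidueField A) M),
            (cθ : LaurentSeries (IsLocalRing.ResidueField A))
              = h20_thetaFun ((((h60_R1 M q hqM A hA).redF
                  ((h69_F0 (M * q) (A.inertiaSubgroupIn ℚ)).subtype s₀) :
                  ↥(modularFunctionFieldFullC (IsLocalRing.ResidueField A) M)) :
                    LaurentSeries (IsLocalRing.ResidueField A))) ^ (q - 1) ∧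
            cθ ≠ 0 ∧ y.ord cθ ≤ 0 :=
  h60_hQ_mod M q hqM A hA ζ hζ hex hch h2 h3 (h60_hRes_mod M q hqM A hA ζ hζ hex hch)

end Fermat.Agent.S36

end
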