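import Mathlib
import Fermat.Agent.S36.h29_PtsMod
import Fermat.Agent.S36.h60_ThickClosed
import Fermat.Agent.S36.h60_ThickRes
import Fermat.Agent.S36.h22_NodeU

/-!
# S36 / I-PTS (M8), closed: the point rows (P1), (P2), (P3) of `h94_Rows` (helper29)

`V1 := h80_fam1 (M q) I (h98_w1 ..) ..`, `V2 := h80_fam1 (M q²) I (h98_w2 ..) ..`.

* `h29_hR1`             : the residue data of both branches of level `M q` at every closed point
                          (binders `hR1F`, `hR1V` of `h29_pts_two_mod` / `h62_pts_mod`), from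
                          helper83's `h83_res_fam1`;
* `h29_pts_rows_closed` : **(P1) ∧ (P2) ∧ (P3) of `h94_Rows`, verbatim**, with no hypothesis
                          beyond `hch`, `nuTwo M = 0`, `nuThree M = 0`
                          (`hUw := h22_hUw_closed`, `hthick := h60_hthick_closed`).
-/

set_option autoImplicit false
set_option synthInstance.maxHeartbeats 400000
set_option maxHeartbeats 1600000
set_option linter.unusedSectionVars false
set_option linter.unusedVariables false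
set_option linter.style.haveILetI false

noncomputable section

open ModularCurve AlgebraicCurve

namespace Fermat.Agent.S36

open Fermat.Agent.S34 Fermat.Agent.S37 Fermat.Agent.S24 Fermat.Agent.S35 Fermat.Agent.S18
open Fermat.Agent.S27 Fermat.Agent.S19

local notation "Qb" => AlgebraicClosure ℚ

variable (M q : ℕ) [NeZero M] [NeZero q] [Fact q.Prime] (hqM : ¬ q ∣ M)
variable (A : ValuationSubring Qb) (hA : A.LiesOverPrime q)
variable (ζ : Qb) (hζ : IsPrimitiveRoot ζ q) (hex : h98_Ex M q hqM A ζ hζ)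

local notation "V1c" => h80_fam1 (M * q) (A.inertiaSubgroupIn ℚ) (h98_w1 M q hqM A ζ hζ hex)
  (h98_hw1mul M q hqM A hA ζ hζ hex) (h98_hw1add M q hqM A hA ζ hζ hex)
local notation "V2c" => h80_fam1 (M * q * q) (A.inertiaSubgroupIn ℚ) (h98_w2 M q hqM A ζ hζ hex)
  (h98_hw2mul M q hqM A hA ζ hζ hex) (h98_hw2add M q hqM A hA ζ hζ hex)

/-- **(RES) at level `q`, both branches**: at every closed point of the chart-1 ring of level
`M q` on the vertical `Sum.inl c` there is a residue datum whose order function takes a positive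
value (binders `hR1F` (`c = 0`) and `hR1V` (`c = 1`) of `h29_pts_two_mod`). -/
theorem h29_hR1 (hch : 5 ≤ q ∨ 2 ∣ M ∨ 3 ∣ M) (c : Fin 2) :
    ∀ s : Ideal (V1c).B, s.IsMaximal → (V1c).Through s (Sum.inl c) →
      ∃ (Fb : Type) (_ : Field Fb) (R : h62_Res (V1c) s (Sum.inl c) Fb),
        ∃ g : Fb, g ≠ 0 ∧ 0 < R.o g := by
  intro s hs hF
  have := hs
  have hq : q.Prime := Fact.out
  have hq0 : ((q : ℕ) : h69_F0 (M * q) (A.inertiaSubgroupIn ℚ)) ≠ 0 :=
    Nat.cast_ne_zero.mpr hq.ne_zero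
  have hqs : ((q : ℕ) : (V1c).B) ∈ s := by
    refine h75_pt_fam_q_mem _ s hq0 ⟨Sum.inl c, hF, ?_⟩
    show 0 < h98_w1 M q hqM A ζ hζ hex c ((q : ℕ) : h69_F0 (M * q) (A.inertiaSubgroupIn ℚ))
    rw [h65_w1_q M q hqM A hA ζ hζ hex c]
    exact one_pos
  have hAB : ∀ a : ↥(h69_A0 A).toSubring,
      algebraMap (h69_K0 (A.inertiaSubgroupIn ℚ)) ↥(h69_F0 (M * q) (A.inertiaSubgroupIn ℚ)) a ∈
        (V1c).B :=
    fun a => h65_const_mem_fam1 (M * q) A (h98_w1 M q hqM A ζ hζ hex)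
      (h98_hw1mul M q hqM A hA ζ hζ hex) (h98_hw1add M q hqM A hA ζ hζ hex)
      (h69_hwA1 M q hqM A hA ζ hζ hex) a.1 a.2
  have hxB : h69_jF0 (M * q) (A.inertiaSubgroupIn ℚ) ∈ (V1c).B :=
    h60_J0_mem_fam1 M q hqM A hA ζ hζ hex
  obtain ⟨P, R, -, ho, -, -, -, -, -, g, hg⟩ :=
    h83_res_fam1 M q hqM A hA (h98_w1 M q hqM A ζ hζ hex)
      (h98_hw1mul M q hqM A hA ζ hζ hex) (h98_hw1add M q hqM A hA ζ hζ hex)
      (h69_w1_nonneg_iff M q hqM A hA ζ hζ hex) (h69_w1_pos_iff M q hqM A hA ζ hζ hex) hch s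
      (fun t ht => h83_hconst_of_resk q A hA (M * q) _ s hAB
        (h69_jF0 (M * q) (A.inertiaSubgroupIn ℚ)) hxB
        (h91_noeth_q M q hqM A hA ζ hζ hex).2 hqs t ht) c hF
  refine ⟨_, inferInstance, R, g, ?_, ?_⟩
  · intro h0
    rw [h0, Place.ord_zero] at hg
    exact zero_ne_one hg
  · rw [ho, hg]
    exact one_pos

/-- **The I-PTS conjuncts (P1) ∧ (P2) ∧ (P3) of `h94_Rows`, closed** (no hypothesis beyond the
side conditions of the charted level). -/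
theorem h29_pts_rows_closed (hch : 5 ≤ q ∨ 2 ∣ M ∨ 3 ∣ M) (h2 : nuTwo M = 0)
    (h3 : nuThree M = 0) :
    (∀ 𝔪 : Ideal (V2c).B, 𝔪.IsMaximal →
      (∀ k : Fin 3, (V2c).Through 𝔪 (Sum.inl k)) ∨
        ∃ k0 : Fin 3, ∀ k : Fin 3, (V2c).Through 𝔪 (Sum.inl k) → k = k0) ∧
    (∀ 𝔪 : Ideal (V2c).B, 𝔪.IsMaximal → (∃ k : Fin 3, (V2c).Through 𝔪 (Sum.inl k)) →
      ∀ i, (V2c).Through 𝔪 i →
        ∃ e : h69_F0 (M * q * q) (A.inertiaSubgroupIn ℚ), e ≠ 0 ∧ (V2c).v i e = 1 ∧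
          ∀ j, (V2c).Through 𝔪 j → j ≠ i → (V2c).v j e = 0) ∧
    (∀ m : ℕ, 0 < m → Nat.Coprime q m → ∀ 𝔪 : Ideal (V2c).B, 𝔪.IsMaximal →
      (∃ k : Fin 3, (V2c).Through 𝔪 (Sum.inl k)) →
      ∀ e ω : h69_F0 (M * q * q) (A.inertiaSubgroupIn ℚ),
        (∀ c, (V2c).Through 𝔪 c →
          0 < (V2c).v c ((q : ℕ) : h69_F0 (M * q * q) (A.inertiaSubgroupIn ℚ)) →
          0 ≤ (V2c).v c e) →
        ω ≠ 0 → (V2c).InLoc 𝔪 ω → (V2c).InLoc 𝔪 ω⁻¹ →
        (∀ c, (V2c).Through 𝔪 c →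
          0 < (V2c).v c ((q : ℕ) : h69_F0 (M * q * q) (A.inertiaSubgroupIn ℚ)) →
          (e ^ m * ω = 1 ∨
            (V2c).v c ((q : ℕ) : h69_F0 (M * q * q) (A.inertiaSubgroupIn ℚ)) ≤
              (V2c).v c (e ^ m * ω - 1))) →
        ∃ (ξ : _ → h69_F0 (M * q * q) (A.inertiaSubgroupIn ℚ))
          (y : h69_F0 (M * q * q) (A.inertiaSubgroupIn ℚ)),
          (∀ c, (V2c).Through 𝔪 c →
            0 < (V2c).v c ((q : ℕ) : h69_F0 (M * q * q) (A.inertiaSubgroupIn ℚ)) →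
            (V2c).InLoc 𝔪 (ξ c) ∧ ξ c ^ m = 1) ∧
          y ≠ 0 ∧ (V2c).InLoc 𝔪 y ∧ (V2c).InLoc 𝔪 y⁻¹ ∧
          ∀ c, (V2c).Through 𝔪 c →
            0 < (V2c).v c ((q : ℕ) : h69_F0 (M * q * q) (A.inertiaSubgroupIn ℚ)) →
            (e = ξ c * y ∨
              (V2c).v c ((q : ℕ) : h69_F0 (M * q * q) (A.inertiaSubgroupIn ℚ)) ≤
                (V2c).v c (e - ξ c * y))) :=
  h29_pts_rows M q hqM A hA ζ hζ hex
    (h22_hUw_closed M q hqM A hA ζ hζ hex hch h2 h3)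
    (h29_hR1 M q hqM A hA ζ hζ hex hch 0)
    (h29_hR1 M q hqM A hA ζ hζ hex hch 1)
    (h60_hthick_closed M q hqM A hA ζ hζ hex hch h2 h3)

end Fermat.Agent.S36
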