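import Mathlib
import Fermat.Agent.S33.h52_Degen
import Fermat.Agent.S35.h67_NewPart
import Fermat.Agent.S35.h29_ThetaCanon
import Fermat.Agent.S27.h15_TopAny
import Fermat.Agent.S18.h54_ModLevel
import Fermat.Agent.S20

/-!
# S36, layer (T1): the Hecke-side input at an arbitrary level `N q`

For a newform `g` of level `N q` (`q` prime, NO coprimality between `N` and `q`) there is a Hecke
element `P` away from `S` with `χ_g(P) ≠ 0` such that every class related to `(P φ) mod λ ^ n`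
is `q`-new, i.e. `h29_NewProp (N * q) lam S hMS chig (h67_JnewAt (N * q) q)`.

The proof avoids the analytic norm transfer (which on main needs `q ∤ N`):

* `h29_theta_surj` (SURJ): `Θ_n ∘ red : Λ(N) → J₀(N)[λ ^ n]` is onto, by counting
  (`rank Λ(N) ≥ 2 dim S₂ = 2 g`, and `# J₀(N)[λ ^ n] = λ ^ (2 g n)`);
* the two push-forwards `α_*`, `β_*` commute with the good Hecke operators on torsion
  (`h52_pushAlpha_hecke`, `h52_pushBeta_hecke`), and `Θ` is Hecke-equivariant;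
* hence a Hecke polynomial vanishing at level `N` kills `α_* Θ (red φ)` and `β_* Θ (red φ)`.

The only input not on main when this file was written is the genus bridge
`(h75_genus Qb (h59_jbar N) : ℚ) = genusFormula N`; it is carried as a hypothesis.
-/

set_option autoImplicit false
set_option linter.unusedSectionVars false
set_option linter.style.haveILetI false

open UpperHalfPlane ModularCurve CongruenceSubgroup AlgebraicCurve ModularCurve.Period
open scoped MatrixGroups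

namespace Fermat.Agent.S36

open Fermat.Agent.GAL Fermat.Agent.S24 Fermat.Agent.S16 Fermat.Agent.S35 Fermat.Agent.S33
open Fermat.Agent.S18 Fermat.Agent.S27

local notation "Qb" => AlgebraicClosure ℚ

/-! ## Polynomial intertwining, relation form -/

/-- Two additive maps into a common target which are "intertwined" by the generators are
intertwined by all polynomials in them. -/
theorem h29_intertwine_rel {L A B ΛA ΛB Y : Type*} [CommRing A] [CommRing B] [AddCommGroup ΛA]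
    [AddCommGroup ΛB] [AddCommGroup Y] (a : L → A) (b : L → B) (ιA : A →+* Module.End ℤ ΛA)
    (ιB : B →+* Module.End ℤ ΛB) (τ : ΛA →+ Y) (τ' : ΛB →+ Y)
    (h : ∀ (ℓ : L) (φ : ΛA) (φ' : ΛB), τ φ = τ' φ' → τ (ιA (a ℓ) φ) = τ' (ιB (b ℓ) φ'))
    (P : MvPolynomial L ℤ) (φ : ΛA) (φ' : ΛB) (h0 : τ φ = τ' φ') :
    τ (ιA (MvPolynomial.aeval a P) φ) = τ' (ιB (MvPolynomial.aeval b P) φ') := by
  induction P using MvPolynomial.induction_on generalizing φ φ' with
  | C r =>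
    rw [MvPolynomial.aeval_C, MvPolynomial.aeval_C, eq_intCast, eq_intCast, map_intCast,
      map_intCast, Module.End.intCast_apply, Module.End.intCast_apply, map_zsmul, map_zsmul, h0]
  | add p p' hp hp' =>
    rw [map_add, map_add, map_add, map_add, LinearMap.add_apply, LinearMap.add_apply, map_add,
      map_add, hp φ φ' h0, hp' φ φ' h0]
  | mul_X p ℓ hp =>
    simp only [map_mul, MvPolynomial.aeval_X, Module.End.mul_apply]
    exact hp _ _ (h ℓ φ φ' h0)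

/-! ## The rank of the Hecke lattice -/

section Rank

variable (N : ℕ) [NeZero N]

/-- `rank_ℤ Λ(N) ≥ 2 dim S₂(Γ₀(N))`. -/
theorem h29_rank_Lam_ge :
    2 * Module.finrank ℂ (CuspForm (Gamma0 N) 2) ≤ Module.finrank ℤ (h65_Lam N) := by
  classical
  haveI hfV : Module.Finite ℂ (CuspForm (Gamma0 N) 2) := Fermat.Agent.S21.h20_finite_cuspForm N
  let b := Module.Free.chooseBasis ℤ (h65_Lam N)
  have hspan : Submodule.span ℂ (Set.range (fun i => h65_j N (b i))) = ⊤ := by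
    rw [eq_top_iff, ← h65_span_j N, Submodule.span_le]
    rintro _ ⟨φ, rfl⟩
    have h1 : h65_j N φ = ∑ i, ((b.repr φ i : ℤ) : ℂ) • h65_j N (b i) := by
      conv_lhs => rw [← b.sum_repr φ]
      rw [map_sum]
      refine Finset.sum_congr rfl fun i _ => ?_
      rw [map_zsmul]
      exact (Int.cast_smul_eq_zsmul ℂ _ _).symm
    rw [h1]
    exact Submodule.sum_mem _ fun i _ =>
      Submodule.smul_mem _ _ (Submodule.subset_span ⟨i, rfl⟩)
  have h1 : Module.finrank ℂ ↥(parabolicHoms ℂ (Gamma0 N) ℂ) ≤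
      Fintype.card (Module.Free.ChooseBasisIndex ℤ (h65_Lam N)) := by
    have h : Module.finrank ℂ ↥(Submodule.span ℂ (Set.range (fun i => h65_j N (b i)))) ≤
        Fintype.card (Module.Free.ChooseBasisIndex ℤ (h65_Lam N)) :=
      finrank_range_le_card (R := ℂ) (fun i => h65_j N (b i))
    rw [hspan, finrank_top] at h
    exact h
  have h2 : Module.finrank ℂ ↥(parabolicHoms ℂ (Gamma0 N) ℂ) =
      2 * Module.finrank ℂ (CuspForm (Gamma0 N) 2) := by
    rw [← (h65_E N).finrank_eq, Module.finrank_prod]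
    ring
  have h3 : Module.finrank ℤ (h65_Lam N) =
      Fintype.card (Module.Free.ChooseBasisIndex ℤ (h65_Lam N)) :=
    Module.finrank_eq_card_chooseBasisIndex ℤ (h65_Lam N)
  omega

/-- `rank_ℤ Λ(N) ≥ 2 g`, given the genus bridge. -/
theorem h29_rank_Lam_ge_genus
    (hbridge : (h75_genus Qb (h59_jbar N) : ℚ) = ModularCurve.genusFormula N) :
    2 * h75_genus Qb (h59_jbar N) ≤ Module.finrank ℤ (h65_Lam N) := by
  have h1 : (Module.finrank ℂ (CuspForm (Gamma0 N) 2) : ℚ) = (h75_genus Qb (h59_jbar N) : ℚ) :=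
    (Fermat.Agent.S20.result N).trans hbridge.symm
  have h2 : Module.finrank ℂ (CuspForm (Gamma0 N) 2) = h75_genus Qb (h59_jbar N) :=
    Nat.cast_injective h1
  rw [← h2]
  exact h29_rank_Lam_ge N

end Rank

/-! ## (SURJ) -/

section Surj

variable (N : ℕ) [NeZero N]

/-- **(SURJ)** `Θ ∘ red : Λ(N) → J₀(N)[λ ^ n]` is onto. -/
theorem h29_theta_surj (lam : ℕ) [Fact lam.Prime] (n : ℕ)
    (hbridge : (h75_genus Qb (h59_jbar N) : ℚ) = ModularCurve.genusFormula N)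
    (Θ : gal_Hpe N (lam ^ n) →+ JZero N) (hΘ : Function.Injective Θ)
    (y : JZero N) (hy : lam ^ n • y = 0) :
    ∃ φ : h65_Lam N, Θ (h65_redHom N (lam ^ n) φ) = y := by
  classical
  have hlam : lam.Prime := Fact.out
  have hm0 : 0 < lam ^ n := pow_pos hlam.pos n
  haveI : NeZero (lam ^ n) := ⟨hm0.ne'⟩
  let b : Module.Basis (Fin (Module.finrank ℤ (h65_Lam N))) ℤ (h65_Lam N) :=
    Module.finBasis ℤ (h65_Lam N)
  let T : AddSubgroup (JZero N) := Pic0.torsion Qb (modularFunctionFieldBar N) (lam ^ n)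
  have hcard : Nat.card T = lam ^ (2 * h75_genus Qb (h59_jbar N) * n) :=
    h15_count_any lam Qb (modularFunctionFieldBar N) (h59_jbar N) (h54_isChart_jbar N) n
  haveI hfin : Finite T := Nat.finite_of_card_ne_zero (by
    rw [hcard]
    exact pow_ne_zero _ hlam.ne_zero)
  let v : (Fin (Module.finrank ℤ (h65_Lam N)) → Fin (lam ^ n)) → h65_Lam N :=
    fun c => ∑ i, ((c i : ℕ) : ℤ) • b i
  have hmem : ∀ c : Fin (Module.finrank ℤ (h65_Lam N)) → Fin (lam ^ n),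
      Θ (h65_redHom N (lam ^ n) (v c)) ∈ T := by
    intro c
    show Θ (h65_redHom N (lam ^ n) (v c)) ∈ Pic0.torsion Qb (modularFunctionFieldBar N) (lam ^ n)
    rw [Pic0.mem_torsion, natCast_zsmul, ← map_nsmul, h65_Hpe_torsion, map_zero]
  let f : (Fin (Module.finrank ℤ (h65_Lam N)) → Fin (lam ^ n)) → T :=
    fun c => ⟨Θ (h65_redHom N (lam ^ n) (v c)), hmem c⟩
  have hinj : Function.Injective f := by
    intro c c' hcc
    have h1 : Θ (h65_redHom N (lam ^ n) (v c)) = Θ (h65_redHom N (lam ^ n) (v c')) :=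
      congrArg Subtype.val hcc
    have h2 : h65_redHom N (lam ^ n) (v c - v c') = 0 := by
      rw [map_sub, hΘ h1, sub_self]
    obtain ⟨ψ, hψ⟩ := h65_redHom_ker N (lam ^ n) _ h2
    funext i
    have h3 := congrArg (fun x => b.repr x i) hψ
    simp only [v, map_sub, map_sum, map_zsmul, Module.Basis.repr_self, Finsupp.coe_sub,
      Finsupp.coe_finsetSum, Finsupp.coe_smul, Pi.sub_apply, Finset.sum_apply, Pi.smul_apply,
      Finsupp.single_apply, smul_eq_mul, mul_ite, mul_one, mul_zero, Finset.sum_ite_eq',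
      Finset.mem_univ, if_true] at h3
    have h4 : ((lam ^ n : ℕ) : ℤ) ∣ ((c i : ℕ) : ℤ) - ((c' i : ℕ) : ℤ) := ⟨_, h3⟩
    have h5 : ((c i : ℕ) : ℤ) = ((c' i : ℕ) : ℤ) := by
      have hc1 : ((c i : ℕ) : ℤ) < ((lam ^ n : ℕ) : ℤ) := by exact_mod_cast (c i).2
      have hc2 : ((c' i : ℕ) : ℤ) < ((lam ^ n : ℕ) : ℤ) := by exact_mod_cast (c' i).2
      have hc3 : (0 : ℤ) ≤ ((c i : ℕ) : ℤ) := Int.natCast_nonneg _
      have hc4 : (0 : ℤ) ≤ ((c' i : ℕ) : ℤ) := Int.natCast_nonneg _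
      have h6 := Int.eq_zero_of_abs_lt_dvd h4 (by rw [abs_lt]; constructor <;> linarith)
      linarith
    exact Fin.ext (by exact_mod_cast h5)
  have hle : Nat.card T ≤
      Nat.card (Fin (Module.finrank ℤ (h65_Lam N)) → Fin (lam ^ n)) := by
    rw [hcard, Nat.card_eq_fintype_card, Fintype.card_fun, Fintype.card_fin, Fintype.card_fin,
      ← pow_mul]
    refine Nat.pow_le_pow_right hlam.pos ?_
    have h1 := h29_rank_Lam_ge_genus N hbridge
    calc 2 * h75_genus Qb (h59_jbar N) * n ≤ Module.finrank ℤ (h65_Lam N) * n :=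
          Nat.mul_le_mul_right n h1
      _ = n * Module.finrank ℤ (h65_Lam N) := Nat.mul_comm _ n
  have hbij := hinj.bijective_of_nat_card_le hle
  have hyT : y ∈ T := by
    show y ∈ Pic0.torsion Qb (modularFunctionFieldBar N) (lam ^ n)
    rw [Pic0.mem_torsion, natCast_zsmul]
    exact hy
  obtain ⟨c, hc⟩ := hbij.2 ⟨y, hyT⟩
  exact ⟨v c, congrArg Subtype.val hc⟩

end Surj

/-! ## (T1) -/

section Main

open ModularFormClass

variable {N q : ℕ} [NeZero N] [NeZero q] (S : Finset ℕ)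

/-- A Hecke polynomial vanishing at level `N` kills both push-forwards of the classes
`Θ (red (P φ))`. -/
theorem h29_push_aeval_eq_zero
    (hbridge : (h75_genus Qb (h59_jbar N) : ℚ) = ModularCurve.genusFormula N)
    (lam : ℕ) [Fact lam.Prime] (hlamS : lam ∈ S)
    (hMS : ∀ p : ℕ, p.Prime → p ∣ N * q → p ∈ (↑S : Set ℕ))
    (P₀ : MvPolynomial (h67_L N q S) ℤ) (hP₀ : MvPolynomial.aeval (h67_TN N q S) P₀ = 0)
    (n : ℕ) (ΘM : gal_Hpe (N * q) (lam ^ n) →+ JZero (N * q))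
    (hΘM : ∀ (ℓ : ℕ) [Fact ℓ.Prime] (hℓN : ¬ ℓ ∣ N * q), ¬ ℓ ∣ lam ^ n →
        ∀ χ χ' : gal_Hpe (N * q) (lam ^ n),
          (χ' : Additive (Gamma0 (N * q)) →+ ZMod (lam ^ n)) =
              h30_heckeT (N * q) ℓ hℓN (χ : Additive (Gamma0 (N * q)) →+ ZMod (lam ^ n)) →
            heckeOperatorBar (N * q) ⟨ℓ, Fact.out⟩ (ΘM χ) = ΘM χ')
    (φ : h65_Lam (N * q)) :
    h52_pushAlpha N q (ΘM (h65_redHom (N * q) (lam ^ n)
        (h65_iota (N * q) (↑S : Set ℕ) hMS (MvPolynomial.aeval (h67_TM N q S) P₀) φ))) = 0 ∧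
      h52_pushBeta N q (ΘM (h65_redHom (N * q) (lam ^ n)
        (h65_iota (N * q) (↑S : Set ℕ) hMS (MvPolynomial.aeval (h67_TM N q S) P₀) φ))) = 0 := by
  have hlam : lam.Prime := Fact.out
  haveI : NeZero (lam ^ n) := ⟨pow_ne_zero n hlam.ne_zero⟩
  obtain ⟨ΘN, hΘNinj, hΘNhecke, -⟩ := h29_theta_canon N (lam ^ n)
  -- the good primes
  have hℓlam : ∀ ℓ : h67_L N q S, ¬ (ℓ : ℕ) ∣ lam ^ n := by
    intro ℓ h
    have h1 : (ℓ : ℕ) ∣ lam := ℓ.2.1.dvd_of_dvd_pow h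
    have h2 : (ℓ : ℕ) = lam := (Nat.prime_dvd_prime_iff_eq ℓ.2.1 hlam).1 h1
    exact ℓ.2.2.2 (Finset.mem_coe.2 (h2 ▸ hlamS))
  have hℓall : ∀ ℓ : h67_L N q S, ¬ (ℓ : ℕ) ∣ N * q * lam ^ n := by
    intro ℓ h
    rcases (Nat.Prime.dvd_mul ℓ.2.1).1 h with h1 | h1
    · exact ℓ.2.2.1 h1
    · exact hℓlam ℓ h1
  have htorsM : ∀ χ : gal_Hpe (N * q) (lam ^ n), lam ^ n • ΘM χ = 0 := by
    intro χ
    rw [← map_nsmul, h65_Hpe_torsion, map_zero]
  -- the level maps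
  let τN : h65_Lam N →+ JZero N := ΘN.comp (h65_redHom N (lam ^ n))
  let τM : h65_Lam (N * q) →+ JZero (N * q) := ΘM.comp (h65_redHom (N * q) (lam ^ n))
  have hTM : ∀ (ℓ : h67_L N q S) (φ : h65_Lam (N * q)),
      τM (h65_iota (N * q) (↑S : Set ℕ) hMS (h67_TM N q S ℓ) φ) =
        heckeOperatorBar (N * q) ⟨ℓ, ℓ.2.1⟩ (τM φ) := by
    intro ℓ φ
    haveI : Fact (ℓ : ℕ).Prime := ⟨ℓ.2.1⟩
    exact (hΘM ℓ ℓ.2.2.1 (hℓlam ℓ) _ _
      (h65_redHom_hecke (N * q) (lam ^ n) (↑S : Set ℕ) hMS ℓ.2.1 ℓ.2.2.1 ℓ.2.2.2 φ)).symm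
  have hTN : ∀ (ℓ : h67_L N q S) (φ' : h65_Lam N),
      τN (h65_iota N (h67_S2 N q S) (h67_hNS2 N q S) (h67_TN N q S ℓ) φ') =
        heckeOperatorBar N ⟨ℓ, ℓ.2.1⟩ (τN φ') := by
    intro ℓ φ'
    haveI : Fact (ℓ : ℕ).Prime := ⟨ℓ.2.1⟩
    exact (hΘNhecke ℓ (fun h => ℓ.2.2.1 (Dvd.dvd.mul_right h q)) (hℓlam ℓ) _ _
      (h65_redHom_hecke N (lam ^ n) (h67_S2 N q S) (h67_hNS2 N q S) ℓ.2.1
        (fun h => ℓ.2.2.1 (Dvd.dvd.mul_right h q))
        (fun h => h.elim (fun h1 => ℓ.2.2.2 (Finset.mem_coe.2 h1)) ℓ.2.2.1) φ')).symm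
  -- both push-forwards
  have key : ∀ (push : JZero (N * q) →+ JZero N),
      (∀ (ℓ : h67_L N q S) (x : JZero (N * q)), lam ^ n • x = 0 →
        push (heckeOperatorBar (N * q) ⟨ℓ, ℓ.2.1⟩ x) = heckeOperatorBar N ⟨ℓ, ℓ.2.1⟩ (push x)) →
      push (τM (h65_iota (N * q) (↑S : Set ℕ) hMS
        (MvPolynomial.aeval (h67_TM N q S) P₀) φ)) = 0 := by
    intro push hpush
    have hy : lam ^ n • push (τM φ) = 0 := by
      rw [← map_nsmul]
      show push (lam ^ n • ΘM (h65_redHom (N * q) (lam ^ n) φ)) = 0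
      rw [htorsM, map_zero]
    obtain ⟨φ', hφ'⟩ := h29_theta_surj N lam n hbridge ΘN hΘNinj _ hy
    have h1 := h29_intertwine_rel (h67_TM N q S) (h67_TN N q S)
      (h65_iota (N * q) (↑S : Set ℕ) hMS) (h65_iota N (h67_S2 N q S) (h67_hNS2 N q S))
      (push.comp τM) τN (fun ℓ ψ ψ' h0 => by
        show push (τM _) = τN _
        rw [hTM, hTN, hpush ℓ (τM ψ) (htorsM _)]
        exact congrArg _ h0) P₀ φ φ' hφ'.symm
    have h2 : push (τM (h65_iota (N * q) (↑S : Set ℕ) hMS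
        (MvPolynomial.aeval (h67_TM N q S) P₀) φ)) =
        τN (h65_iota N (h67_S2 N q S) (h67_hNS2 N q S)
          (MvPolynomial.aeval (h67_TN N q S) P₀) φ') := h1
    rw [h2, hP₀, map_zero, LinearMap.zero_apply, map_zero]
  exact ⟨key (h52_pushAlpha N q) (fun ℓ x hx =>
      h52_pushAlpha_hecke N q (lam ^ n) ⟨ℓ, ℓ.2.1⟩ (hℓall ℓ) x hx),
    key (h52_pushBeta N q) (fun ℓ x hx =>
      h52_pushBeta_hecke N q (lam ^ n) ⟨ℓ, ℓ.2.1⟩ (hℓall ℓ) x hx)⟩

/-- **(T1) The Hecke-side input at the level `N q`, no coprimality.** -/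
theorem h29_newProp_at [Fact q.Prime]
    (hbridge : (h75_genus Qb (h59_jbar N) : ℚ) = ModularCurve.genusFormula N)
    {g : CuspForm (Gamma0 (N * q)) 2} (hg : g.IsNewform)
    (lam : ℕ) [Fact lam.Prime] (hlamS : lam ∈ S)
    (hMS : ∀ p : ℕ, p.Prime → p ∣ N * q → p ∈ S)
    (chig : CuspForm.heckeAlgebra (N * q) 2 (↑S : Set ℕ) →+* ℂ)
    (hchig : ∀ (ℓ : ℕ) (hℓ : ℓ.Prime) (hℓM : ¬ ℓ ∣ N * q) (hℓS : ℓ ∉ (↑S : Set ℕ)),
      chig (CuspForm.heckeAlgebra.T hℓ hℓM hℓS) = qCoeff g ℓ) :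
    h29_NewProp (N * q) lam S hMS chig (h67_JnewAt (N * q) q) := by
  have hlam : lam.Prime := Fact.out
  obtain ⟨P₀, hP0, hP1⟩ := h67_exists_P0 S hg chig hchig
  refine ⟨MvPolynomial.aeval (h67_TM N q S) P₀, hP1, fun n φ x hx => ?_⟩
  haveI : NeZero (lam ^ n) := ⟨pow_ne_zero n hlam.ne_zero⟩
  have hn : 0 < lam ^ n := pow_pos hlam.pos n
  obtain ⟨ΘM, -, hΘMhecke, hΘMrel⟩ := h29_theta_canon (N * q) (lam ^ n)
  have hUQ : ∀ (χ : ↥(Gamma0 (N * q)) →* ℂˣ) (x x' : JZero (N * q)),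
      gal_R (N * q) (lam ^ n) h78_iota χ x → gal_R (N * q) (lam ^ n) h78_iota χ x' → x = x' :=
    gal_R_unique hn (gal_rootAlgHyp (N * q) (lam ^ n) hn)
      (gal_descInjHyp (N * q) (lam ^ n) hn h78_iota) (gal_picEqHyp (N * q) (lam ^ n) hn)
  have hxe := hUQ _ _ _ hx (hΘMrel _)
  obtain ⟨h1, h2⟩ := h29_push_aeval_eq_zero S hbridge lam hlamS
    (fun p hp hpM => Finset.mem_coe.2 (hMS p hp hpM)) P₀ hP0 n ΘM hΘMhecke φ
  refine h67_jnewAt_of_jnew ((h52_jnew_iff N q x).mpr ?_)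
  rw [hxe]
  exact ⟨h1, h2⟩

end Main

end Fermat.Agent.S36
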