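import Mathlib

/-!
# S36, transfer layer (T2), Step 5: a dual Nakayama lemma

`h29_dual_nak`: let `Λ` be a free `ℤ`-module with a finite basis indexed by `κ`, `T` a commutative
ring acting faithfully on `Λ` through `ι`, `𝔞` an ideal of `T` containing the integer `pn > 0`,
and `c1` an integer such that

  `(*)  (∀ a ∈ 𝔞, ι a v ∈ pn Λ) → c1 v ∈ pn Λ`   for every `v : Λ`.

Then `c1 ^ |κ| ∈ 𝔞`.

Proof.  On the dual `D = Hom(Λ, ℤ)` let `R` be the subgroup of the `∑ⱼ bⱼ* ∘ ι (Aⱼ)`, `Aⱼ ∈ 𝔞`.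
A character of `D / R` is `φ ↦ φ v / pn mod 1` for some `v : Λ` with `𝔞 v ⊆ pn Λ`, so `(*)` and
the separation of points by characters give `c1 D ⊆ R`; the adjugate (Cayley–Hamilton) trick
then produces an element of `c1 ^ |κ| + 𝔞` killing `Λ`.
-/

set_option autoImplicit false

open scoped BigOperators

namespace Fermat.Agent.S36

/-- The projection `ℚ → ℚ / ℤ`. -/
noncomputable def h29_cmk : ℚ →+ AddCircle (1 : ℚ) :=
  QuotientAddGroup.mk' (AddSubgroup.zmultiples (1 : ℚ))

theorem h29_cmk_eq_zero_iff (x : ℚ) : h29_cmk x = 0 ↔ ∃ n : ℤ, (n : ℚ) = x := by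
  have h := AddCircle.coe_eq_zero_iff (1 : ℚ) (x := x)
  constructor
  · intro hx
    obtain ⟨n, hn⟩ := h.1 hx
    exact ⟨n, by rw [← hn]; simp⟩
  · rintro ⟨n, rfl⟩
    exact h.2 ⟨n, by simp⟩

/-- An element of `ℚ / ℤ` killed by `n > 0` is the class of some `m / n`. -/
theorem h29_addCircle_tors (n : ℕ) (hn : 0 < n) (x : AddCircle (1 : ℚ)) (hx : n • x = 0) :
    ∃ m : ℤ, x = h29_cmk ((m : ℚ) / n) := by
  obtain ⟨y, rfl⟩ := QuotientAddGroup.mk_surjective x
  have h1 : h29_cmk (n • y) = 0 := by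
    rw [map_nsmul]
    exact hx
  obtain ⟨m, hm⟩ := (h29_cmk_eq_zero_iff _).1 h1
  refine ⟨m, ?_⟩
  have hn0 : (n : ℚ) ≠ 0 := Nat.cast_ne_zero.2 hn.ne'
  have : y = (m : ℚ) / n := by
    rw [hm, nsmul_eq_mul]
    field_simp
  rw [this]
  rfl

section dualnak

variable {T : Type*} [CommRing T] {Λ : Type*} [AddCommGroup Λ]
  {κ : Type*} [Fintype κ]

/-- The subgroup of the dual generated (as a set: it is already a subgroup) by the
`∑ⱼ bⱼ* ∘ ι (Aⱼ)` with `Aⱼ ∈ 𝔞`. -/
def h29_dualSub (b : Module.Basis κ ℤ Λ) (ι : T →+* Module.End ℤ Λ) (𝔞 : Ideal T) :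
    AddSubgroup (Module.Dual ℤ Λ) where
  carrier := {ψ | ∃ A : κ → T, (∀ j, A j ∈ 𝔞) ∧ ψ = ∑ j, (b.coord j).comp (ι (A j))}
  zero_mem' := ⟨fun _ => 0, fun _ => 𝔞.zero_mem, by simp⟩
  add_mem' := by
    rintro ψ ψ' ⟨A, hA, rfl⟩ ⟨A', hA', rfl⟩
    refine ⟨fun j => A j + A' j, fun j => 𝔞.add_mem (hA j) (hA' j), ?_⟩
    rw [← Finset.sum_add_distrib]
    refine Finset.sum_congr rfl fun j _ => ?_
    rw [map_add, LinearMap.comp_add]
  neg_mem' := by
    rintro ψ ⟨A, hA, rfl⟩
    refine ⟨fun j => -A j, fun j => 𝔞.neg_mem (hA j), ?_⟩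
    rw [← Finset.sum_neg_distrib]
    refine Finset.sum_congr rfl fun j _ => ?_
    rw [map_neg, LinearMap.comp_neg]

theorem h29_comp_mem_dualSub (b : Module.Basis κ ℤ Λ) (ι : T →+* Module.End ℤ Λ) (𝔞 : Ideal T)
    {a : T} (ha : a ∈ 𝔞) (φ : Module.Dual ℤ Λ) :
    φ.comp (ι a) ∈ h29_dualSub b ι 𝔞 := by
  refine ⟨fun j => φ (b j) • a, fun j => ?_, ?_⟩
  · show φ (b j) • a ∈ 𝔞
    rw [zsmul_eq_mul]
    exact 𝔞.mul_mem_left _ ha
  · refine LinearMap.ext fun v => ?_
    rw [LinearMap.comp_apply, LinearMap.sum_apply]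
    have h1 : ∀ j, ((b.coord j).comp (ι (φ (b j) • a))) v = φ (b j) * b.coord j (ι a v) := by
      intro j
      rw [LinearMap.comp_apply, map_zsmul, LinearMap.smul_apply, map_zsmul, smul_eq_mul]
    rw [Finset.sum_congr rfl fun j _ => h1 j]
    have h2 := b.sum_dual_apply_smul_coord φ
    have h3 := congrArg (fun f : Module.Dual ℤ Λ => f (ι a v)) h2
    simp only [LinearMap.sum_apply, LinearMap.smul_apply, smul_eq_mul] at h3
    exact h3.symm

/-- **Dual Nakayama.** -/
theorem h29_dual_nak (b : Module.Basis κ ℤ Λ)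
    (ι : T →+* Module.End ℤ Λ) (hι : Function.Injective ι) (𝔞 : Ideal T) (pn : ℕ) (hpn : 0 < pn)
    (hpn𝔞 : (pn : T) ∈ 𝔞) (c1 : ℤ)
    (H : ∀ v : Λ, (∀ a ∈ 𝔞, ∃ y : Λ, ι a v = (pn : ℤ) • y) → ∃ y : Λ, c1 • v = (pn : ℤ) • y) :
    (c1 : T) ^ Fintype.card κ ∈ 𝔞 := by
  classical
  set R := h29_dualSub b ι 𝔞 with hR
  have hpn0 : (pn : ℚ) ≠ 0 := Nat.cast_ne_zero.2 hpn.ne'
  -- Claim A: `c1 D ⊆ R`
  have hA : ∀ φ : Module.Dual ℤ Λ, c1 • φ ∈ R := by
    intro φ
    by_contra hne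
    have hq0 : (QuotientAddGroup.mk (c1 • φ) : Module.Dual ℤ Λ ⧸ R) ≠ 0 := fun h =>
      hne ((QuotientAddGroup.eq_zero_iff _).1 h)
    obtain ⟨ψ, hψ⟩ := CharacterModule.exists_character_apply_ne_zero_of_ne_zero hq0
    let Ψ : Module.Dual ℤ Λ → AddCircle (1 : ℚ) := fun f => ψ (QuotientAddGroup.mk f)
    have hΨadd : ∀ f f', Ψ (f + f') = Ψ f + Ψ f' := fun f f' => by
      show ψ _ = ψ _ + ψ _
      rw [QuotientAddGroup.mk_add, map_add]
    have hΨzero : Ψ 0 = 0 := by
      show ψ _ = 0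
      rw [QuotientAddGroup.mk_zero, map_zero]
    let Ψh : Module.Dual ℤ Λ →+ AddCircle (1 : ℚ) :=
      { toFun := Ψ, map_zero' := hΨzero, map_add' := hΨadd }
    have hΨR : ∀ f ∈ R, Ψh f = 0 := by
      intro f hf
      show ψ _ = 0
      rw [(QuotientAddGroup.eq_zero_iff f).2 hf, map_zero]
    -- the values on the dual basis are `pn`-torsion
    have hk : ∀ k, pn • Ψh (b.coord k) = 0 := by
      intro k
      rw [← map_nsmul]
      apply hΨR
      have h1 := h29_comp_mem_dualSub b ι 𝔞 hpn𝔞 (b.coord k)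
      have h2 : (b.coord k).comp (ι (pn : T)) = pn • b.coord k := by
        refine LinearMap.ext fun v => ?_
        rw [LinearMap.comp_apply, map_natCast, Module.End.natCast_apply, map_nsmul,
          LinearMap.smul_apply]
      rw [← h2]
      exact h1
    choose m hm using fun k => h29_addCircle_tors pn hpn (Ψh (b.coord k)) (hk k)
    set v : Λ := ∑ k, m k • b k with hv
    have hΨ : ∀ f : Module.Dual ℤ Λ, Ψh f = h29_cmk (((f v : ℤ) : ℚ) / pn) := by
      intro f
      have h1 : Ψh f = ∑ k, f (b k) • Ψh (b.coord k) := by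
        conv_lhs => rw [← b.sum_dual_apply_smul_coord f]
        rw [map_sum]
        exact Finset.sum_congr rfl fun k _ => map_zsmul _ _ _
      have h2 : (((f v : ℤ) : ℚ) / pn) = ∑ k, f (b k) • ((m k : ℚ) / pn) := by
        rw [hv, map_sum, Int.cast_sum, Finset.sum_div]
        refine Finset.sum_congr rfl fun k _ => ?_
        rw [map_zsmul, smul_eq_mul, Int.cast_mul, zsmul_eq_mul]
        ring
      rw [h1, h2, map_sum]
      refine Finset.sum_congr rfl fun k _ => ?_
      rw [map_zsmul, hm k]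
    -- `𝔞 v ⊆ pn Λ`
    have hav : ∀ a ∈ 𝔞, ∃ y : Λ, ι a v = (pn : ℤ) • y := by
      intro a ha
      have h1 : ∀ k, ∃ j : ℤ, b.coord k (ι a v) = pn * j := by
        intro k
        have h2 := hΨR _ (h29_comp_mem_dualSub b ι 𝔞 ha (b.coord k))
        rw [hΨ, h29_cmk_eq_zero_iff] at h2
        obtain ⟨j, hj⟩ := h2
        refine ⟨j, ?_⟩
        rw [LinearMap.comp_apply] at hj
        have h3 : ((b.coord k (ι a v) : ℤ) : ℚ) = (pn : ℚ) * j := by
          rw [hj]
          field_simp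
        exact_mod_cast h3
      choose j hj using h1
      refine ⟨∑ k, j k • b k, ?_⟩
      apply b.ext_elem
      intro k
      have h5 : (b.repr (∑ k', j k' • b k')) k = j k := by
        rw [map_sum, Finset.sum_apply']
        have h4 : ∀ k', (b.repr (j k' • b k')) k = if k' = k then j k' else 0 := by
          intro k'
          rw [map_zsmul, Finsupp.smul_apply, b.repr_self, Finsupp.single_apply, smul_eq_mul]
          split_ifs <;> simp
        rw [Finset.sum_congr rfl fun k' _ => h4 k', Finset.sum_ite_eq' Finset.univ k,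
          if_pos (Finset.mem_univ k)]
      have h6 := hj k
      rw [Module.Basis.coord_apply] at h6
      rw [h6, map_zsmul, Finsupp.smul_apply, h5, smul_eq_mul]
    obtain ⟨y, hy⟩ := H v hav
    apply hψ
    show Ψh (c1 • φ) = 0
    rw [hΨ, h29_cmk_eq_zero_iff]
    refine ⟨φ y, ?_⟩
    rw [LinearMap.smul_apply, ← map_zsmul, hy, map_zsmul, smul_eq_mul]
    push_cast
    field_simp
  -- Claim B: the adjugate trick
  have hex : ∀ i, ∃ A : κ → T, (∀ j, A j ∈ 𝔞) ∧
      c1 • b.coord i = ∑ j, (b.coord j).comp (ι (A j)) := fun i => hA (b.coord i)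
  choose A hA𝔞 hAeq using hex
  set Bm : Matrix κ κ T := (c1 : T) • (1 : Matrix κ κ T) - Matrix.of A with hBm
  have hB : ∀ (i : κ) (w : Λ), ∑ j, b.coord j (ι (Bm i j) w) = 0 := by
    intro i w
    have h1 := congrArg (fun f : Module.Dual ℤ Λ => f w) (hAeq i)
    simp only [LinearMap.smul_apply, LinearMap.sum_apply, LinearMap.comp_apply] at h1
    have h2 : ∀ j, b.coord j (ι (Bm i j) w) =
        (if i = j then c1 • b.coord j w else 0) - b.coord j (ι (A i j) w) := by
      intro j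
      rw [hBm, Matrix.sub_apply, Matrix.smul_apply, Matrix.one_apply, Matrix.of_apply, map_sub,
        LinearMap.sub_apply, map_sub]
      congr 1
      split_ifs with hij
      · rw [smul_eq_mul, mul_one, map_intCast, Module.End.intCast_apply, map_zsmul]
      · rw [smul_zero, map_zero, LinearMap.zero_apply, map_zero]
    rw [Finset.sum_congr rfl fun j _ => h2 j, Finset.sum_sub_distrib,
      Finset.sum_ite_eq Finset.univ i, if_pos (Finset.mem_univ i), ← h1, sub_self]
  have hdet : ∀ (k : κ) (w : Λ), b.coord k (ι Bm.det w) = 0 := by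
    intro k w
    have h1 : ∑ i, ∑ j, b.coord j (ι (Bm i j) (ι (Bm.adjugate k i) w)) = 0 :=
      Finset.sum_eq_zero fun i _ => hB i _
    rw [Finset.sum_comm] at h1
    have h2 : ∀ j, ∑ i, b.coord j (ι (Bm i j) (ι (Bm.adjugate k i) w)) =
        b.coord j (ι ((Bm.adjugate * Bm) k j) w) := by
      intro j
      rw [Matrix.mul_apply, map_sum, LinearMap.sum_apply, map_sum]
      refine Finset.sum_congr rfl fun i _ => ?_
      rw [mul_comm, map_mul, Module.End.mul_apply]
    rw [Finset.sum_congr rfl fun j _ => h2 j, Matrix.adjugate_mul] at h1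
    have h3 : ∀ j, b.coord j (ι ((Bm.det • (1 : Matrix κ κ T)) k j) w) =
        if k = j then b.coord j (ι Bm.det w) else 0 := by
      intro j
      rw [Matrix.smul_apply, Matrix.one_apply]
      split_ifs with hkj
      · rw [smul_eq_mul, mul_one]
      · rw [smul_zero, map_zero, LinearMap.zero_apply, map_zero]
    rw [Finset.sum_congr rfl fun j _ => h3 j, Finset.sum_ite_eq Finset.univ k,
      if_pos (Finset.mem_univ k)] at h1
    exact h1
  have hdet0 : Bm.det = 0 := by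
    apply hι
    rw [map_zero]
    refine LinearMap.ext fun w => ?_
    rw [LinearMap.zero_apply]
    apply b.ext_elem
    intro k
    have := hdet k w
    rw [Module.Basis.coord_apply] at this
    rw [this, map_zero, Finsupp.zero_apply]
  -- reduce modulo `𝔞`
  have hmap : (Ideal.Quotient.mk 𝔞).mapMatrix Bm =
      (Ideal.Quotient.mk 𝔞 (c1 : T)) • (1 : Matrix κ κ (T ⧸ 𝔞)) := by
    ext i j
    rw [RingHom.mapMatrix_apply, Matrix.map_apply, hBm, Matrix.sub_apply, Matrix.smul_apply,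
      Matrix.one_apply, Matrix.of_apply, map_sub, Ideal.Quotient.eq_zero_iff_mem.2 (hA𝔞 i j),
      sub_zero, Matrix.smul_apply, Matrix.one_apply, smul_eq_mul, smul_eq_mul, map_mul]
    split_ifs <;> simp
  have h1 := RingHom.map_det (Ideal.Quotient.mk 𝔞) Bm
  rw [hdet0, map_zero, hmap, Matrix.det_smul, Matrix.det_one, mul_one, ← map_pow] at h1
  exact Ideal.Quotient.eq_zero_iff_mem.1 h1.symm

end dualnak

end Fermat.Agent.S36
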