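import Mathlib

/-!
# S36, transfer layer (T2), Step 2: Kolchin at finite level, ring form

`h29_kolchin`: let `E` be a ring in which `2 * x = 0` implies `x = 0`, and `g : G →* E` a
monoid homomorphism from a group such that `(g s - 1) ^ 2 = 0` for every `s`.  Then
`(g s - 1) * (g u - 1) * (g v - 1) = 0` for all `s u v`.
-/

set_option autoImplicit false

namespace Fermat.Agent.S36

section kolchin

variable {E : Type*} [Ring E] {G : Type*} [Group G] (g : G →* E)

/-- `g (u⁻¹) - 1 = -(g u - 1)` when `(g u - 1) ^ 2 = 0`. -/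
theorem h29_kolchin_inv (hg : ∀ s : G, (g s - 1) * (g s - 1) = 0) (u : G) :
    g u⁻¹ - 1 = -(g u - 1) := by
  have h1 : g u⁻¹ * g u = 1 := by rw [← map_mul, inv_mul_cancel, map_one]
  have h2 := hg u
  have h3 : g u⁻¹ = g u⁻¹ * (g u * (1 - (g u - 1))) := by
    have : g u * (1 - (g u - 1)) = 1 - (g u - 1) * (g u - 1) := by noncomm_ring
    rw [this, h2, sub_zero, mul_one]
  rw [h3, ← mul_assoc, h1]
  noncomm_ring

/-- `b a b = 0` for `a = g s - 1`, `b = g u - 1`. -/
theorem h29_kolchin_bab (h2 : ∀ x : E, 2 * x = 0 → x = 0)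
    (hg : ∀ s : G, (g s - 1) * (g s - 1) = 0) (s u : G) :
    (g u - 1) * (g s - 1) * (g u - 1) = 0 := by
  set a := g s - 1 with ha
  set b := g u - 1 with hb
  have haa : a * a = 0 := hg s
  have hbb : b * b = 0 := hg u
  have e1 : g (s * u) - 1 = a + b + a * b := by
    rw [map_mul, ha, hb]; noncomm_ring
  have e2 : g (s * u⁻¹) - 1 = a - b - a * b := by
    have hinv := h29_kolchin_inv g hg u
    have : g u⁻¹ = 1 - b := by rw [hb]; rw [sub_eq_iff_eq_add] at hinv; rw [hinv]; noncomm_ring
    rw [map_mul, this, ha]; noncomm_ring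
  have h1 := hg (s * u)
  have h1' := hg (s * u⁻¹)
  rw [e1] at h1
  rw [e2] at h1'
  have E1 : a * b + b * a + a * b * a + b * a * b + a * b * a * b = 0 := by
    have e : (a + b + a * b) * (a + b + a * b) =
        a * b + b * a + a * b * a + b * a * b + a * b * a * b +
          (a * a + b * b + a * a * b + a * (b * b)) := by noncomm_ring
    rw [e, haa, hbb] at h1
    simpa using h1
  have E2 : -(a * b) - b * a - a * b * a + b * a * b + a * b * a * b = 0 := by
    have e : (a - b - a * b) * (a - b - a * b) =
        -(a * b) - b * a - a * b * a + b * a * b + a * b * a * b +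
          (a * a + b * b - a * a * b + a * (b * b)) := by noncomm_ring
    rw [e, haa, hbb] at h1'
    simpa using h1'
  have E3 : 2 * ((1 + a) * (b * a * b)) = 0 := by
    have : 2 * ((1 + a) * (b * a * b)) =
        (a * b + b * a + a * b * a + b * a * b + a * b * a * b) +
          (-(a * b) - b * a - a * b * a + b * a * b + a * b * a * b) := by noncomm_ring
    rw [this, E1, E2, add_zero]
  have E4 : (1 + a) * (b * a * b) = 0 := h2 _ E3
  have E5 : b * a * b = (1 - a) * ((1 + a) * (b * a * b)) + a * a * (b * a * b) := by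
    noncomm_ring
  rw [E5, E4, haa, mul_zero, zero_mul, add_zero]

/-- `a b + b a = 0` for `a = g s - 1`, `b = g u - 1`. -/
theorem h29_kolchin_anti (h2 : ∀ x : E, 2 * x = 0 → x = 0)
    (hg : ∀ s : G, (g s - 1) * (g s - 1) = 0) (s u : G) :
    (g s - 1) * (g u - 1) + (g u - 1) * (g s - 1) = 0 := by
  have hbab := h29_kolchin_bab g h2 hg s u
  have haba := h29_kolchin_bab g h2 hg u s
  set a := g s - 1 with ha
  set b := g u - 1 with hb
  have haa : a * a = 0 := hg s
  have hbb : b * b = 0 := hg u
  have e1 : g (s * u) - 1 = a + b + a * b := by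
    rw [map_mul, ha, hb]; noncomm_ring
  have h1 := hg (s * u)
  rw [e1] at h1
  have e : (a + b + a * b) * (a + b + a * b) =
      a * b + b * a + a * b * a + b * a * b + a * (b * a * b) +
        (a * a + b * b + a * a * b + a * (b * b)) := by noncomm_ring
  rw [e, haa, hbb, haba, hbab] at h1
  simpa using h1

/-- **Kolchin at finite level, ring form**: a group acting through elements `g s` with
`(g s - 1) ^ 2 = 0` in a ring without `2`-torsion satisfies `(g s - 1) (g u - 1) (g v - 1) = 0`. -/
theorem h29_kolchin (h2 : ∀ x : E, 2 * x = 0 → x = 0)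
    (hg : ∀ s : G, (g s - 1) * (g s - 1) = 0) (s u v : G) :
    (g s - 1) * (g u - 1) * (g v - 1) = 0 := by
  have h1 := h29_kolchin_anti g h2 hg (s * u) v
  have h3 := h29_kolchin_anti g h2 hg s v
  have h4 := h29_kolchin_anti g h2 hg u v
  set a := g s - 1 with ha
  set b := g u - 1 with hb
  set c := g v - 1 with hc
  have e1 : g (s * u) - 1 = a + b + a * b := by
    rw [map_mul, ha, hb]; noncomm_ring
  rw [e1] at h1
  -- `a b c + c a b = 0`
  have k1 : a * b * c + c * (a * b) = 0 := by
    have : a * b * c + c * (a * b) =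
        ((a + b + a * b) * c + c * (a + b + a * b)) - (a * c + c * a) - (b * c + c * b) := by
      noncomm_ring
    rw [this, h1, h3, h4]; simp
  -- `c a b = a b c`
  have k2 : c * (a * b) = a * b * c := by
    have : c * (a * b) = (a * c + c * a) * b - a * (b * c + c * b) + a * b * c := by
      noncomm_ring
    rw [this, h3, h4]; simp
  rw [k2] at k1
  apply h2
  rw [two_mul]
  exact k1

end kolchin

end Fermat.Agent.S36
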