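import Mathlib
import Fermat.Agent.S35.h29_PseudoSpec
import Fermat.Agent.GAL.h65_Cyclo
import Fermat.Agent.S36.h29_Kolchin
import Fermat.Agent.S36.h29_DualNak

/-!
# S36, transfer layer (T2): no unipotent inertia at `q`, abstractly

`h29_inert_clause`: let `(t, d)` be the pseudo-character of a Hecke character `χ` with its
specification (`h29_exists_pseudo_spec`: (SPEC-t), (EX)) on level data `(M n, qM n, r n)` killed
by `p ^ n`, `p` odd, with `ker (qM n) = p ^ n Λ`.  Let `q ≠ p` be a prime, `A` a valuation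
subring over `q` with inertia group `In`, `P` a Hecke element with `χ P ≠ 0`, and `New n` an
`In`-stable subgroup of `M n` containing `qM n (P Λ)` such that

  (N)  every `In`-fixed element of `New n` is killed by `cN`   (`cN` independent of `n`).

Then `t σ ≠ 2` for some `σ ∈ In`.

Proof (by contradiction, `t = 2` on `In`).  Put `𝔞 = χ⁻¹(I ^ k)`, `n = k + c`.  If `𝔞 v ⊆ p ^ n Λ`
then every `σ ∈ In` satisfies `σ + σ⁻¹ = 2` on the `In`-translates of `w = qM n (P v)` (good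
pairs), so `cN ^ 3 w = 0` (`h29_inert_descent`: Kolchin at finite level + (N)), hence
`cN ^ 3 F(0) v ∈ p ^ n Λ` for the minimal polynomial `F` of `χ P`.  The dual Nakayama lemma
`h29_dual_nak` gives `(cN ^ 3 F(0)) ^ rank ∈ I ^ k` for all `k`: a contradiction.
-/

set_option autoImplicit false

namespace Fermat.Agent.S36

open Fermat.Agent.GAL

section descent

variable {Mn : Type*} [AddCommGroup Mn] {G : Type*} [Group G]

/-- **Steps 2 + 3 of the transfer**: a new class `w` all of whose inertia translates satisfy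
`σ + σ⁻¹ = 2` for every inertia element `σ` is killed by `cN ^ 3`, if `cN` kills the
inertia-fixed new classes and the ambient group has odd exponent. -/
theorem h29_inert_descent (r : G →* AddMonoid.End Mn) (In : Subgroup G) (pn : ℕ)
    (hodd : Odd pn) (htors : ∀ m : Mn, pn • m = 0)
    (New : AddSubgroup Mn) (hNewG : ∀ σ ∈ In, ∀ m ∈ New, r σ m ∈ New)
    (cN : ℕ) (hN : ∀ m ∈ New, (∀ σ ∈ In, r σ m = m) → cN • m = 0)
    (w : Mn) (hw : w ∈ New)
    (hunip : ∀ σ ∈ In, ∀ g' ∈ In, r σ (r g' w) + r σ⁻¹ (r g' w) = 2 • r g' w) :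
    cN ^ 3 • w = 0 := by
  classical
  have hrmul : ∀ (a b : G) (m : Mn), r (a * b) m = r a (r b m) := fun a b m => by
    rw [map_mul]; rfl
  have hrone : ∀ m : Mn, r 1 m = m := fun m => by rw [map_one]; rfl
  set W : AddSubgroup Mn := AddSubgroup.closure {m | ∃ g' ∈ In, m = r g' w} with hWdef
  have hWnew : W ≤ New := by
    rw [hWdef, AddSubgroup.closure_le]
    rintro m ⟨g', hg', rfl⟩
    exact hNewG g' hg' w hw
  have hWstab : ∀ σ ∈ In, ∀ m ∈ W, r σ m ∈ W := by
    intro σ hσ m hm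
    induction hm using AddSubgroup.closure_induction with
    | mem x hx =>
      obtain ⟨g', hg', rfl⟩ := hx
      rw [← hrmul]
      exact AddSubgroup.subset_closure ⟨σ * g', In.mul_mem hσ hg', rfl⟩
    | zero => rw [map_zero]; exact W.zero_mem
    | add x y _ _ hx hy => rw [map_add]; exact W.add_mem hx hy
    | neg x _ hx => rw [map_neg]; exact W.neg_mem hx
  have hWunip : ∀ σ ∈ In, ∀ m ∈ W, r σ m + r σ⁻¹ m = 2 • m := by
    intro σ hσ m hm
    induction hm using AddSubgroup.closure_induction with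
    | mem x hx =>
      obtain ⟨g', hg', rfl⟩ := hx
      exact hunip σ hσ g' hg'
    | zero => simp
    | add x y _ _ hx hy =>
      rw [map_add, map_add, nsmul_add, ← hx, ← hy]; abel
    | neg x _ hx =>
      rw [map_neg, map_neg, smul_neg, ← hx]; abel
  -- the action on `W`
  let gW : In →* AddMonoid.End W :=
    { toFun := fun σ =>
        ((r (σ : G)).comp W.subtype).codRestrict W (fun m => hWstab σ σ.2 m m.2)
      map_one' := by
        refine DFunLike.ext _ _ fun m => Subtype.ext ?_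
        show r ((1 : In) : G) (m : Mn) = (m : Mn)
        rw [Subgroup.coe_one]
        exact hrone _
      map_mul' := by
        intro a b
        refine DFunLike.ext _ _ fun m => Subtype.ext ?_
        show r ((a * b : In) : G) (m : Mn) = r (a : G) (r (b : G) (m : Mn))
        rw [Subgroup.coe_mul]
        exact hrmul _ _ _ }
  have hsub : ∀ (σ : In) (m : W), (((gW σ - 1) m : W) : Mn) = r (σ : G) (m : Mn) - m :=
    fun _ _ => rfl
  have hmulap : ∀ (f f' : AddMonoid.End W) (m : W), (f * f') m = f (f' m) := fun _ _ _ => rfl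
  -- no `2`-torsion
  have h2 : ∀ f : AddMonoid.End W, 2 * f = 0 → f = 0 := by
    intro f hf
    refine DFunLike.ext _ _ fun m => ?_
    have h1 : f m + f m = 0 := by
      have := DFunLike.congr_fun hf m
      rw [two_mul] at this
      exact this
    have h3 : pn • f m = 0 := Subtype.ext (by
      rw [AddSubgroup.coe_nsmul]
      exact htors _)
    obtain ⟨k, hk⟩ := hodd
    rw [hk, add_smul, one_smul, mul_comm, mul_smul, two_smul, h1, smul_zero, zero_add] at h3
    exact h3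
  -- unipotency on `W`
  have hg : ∀ σ : In, (gW σ - 1) * (gW σ - 1) = 0 := by
    intro σ
    refine DFunLike.ext _ _ fun m => Subtype.ext ?_
    rw [hmulap, hsub, hsub, map_sub]
    have h1 := hWunip σ σ.2 (r (σ : G) (m : Mn)) (hWstab σ σ.2 m m.2)
    have h0 : r (σ : G)⁻¹ (r (σ : G) (m : Mn)) = (m : Mn) := by
      rw [← hrmul, inv_mul_cancel, hrone]
    rw [h0] at h1
    show r (σ : G) (r (σ : G) (m : Mn)) - r (σ : G) (m : Mn) - (r (σ : G) (m : Mn) - m) = 0
    have h1' : r (σ : G) (r (σ : G) (m : Mn)) = 2 • r (σ : G) (m : Mn) - m :=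
      eq_sub_of_add_eq h1
    rw [h1', two_smul]
    abel
  have hK := h29_kolchin gW h2 hg
  -- fixed points
  have hfix : ∀ x : W, (∀ σ : In, (gW σ - 1) x = 0) → cN • x = 0 := by
    intro x hx
    apply Subtype.ext
    rw [AddSubgroup.coe_nsmul]
    refine hN _ (hWnew x.2) (fun σ hσ => ?_)
    have := congrArg (Subtype.val) (hx ⟨σ, hσ⟩)
    rw [hsub] at this
    exact sub_eq_zero.1 this
  have step1 : ∀ (m : W) (σ u : In), cN • ((gW σ - 1) ((gW u - 1) m)) = 0 := by
    intro m σ u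
    apply hfix
    intro v
    have := DFunLike.congr_fun (hK v σ u) m
    exact this
  have step2 : ∀ (m : W) (u : In), cN • (cN • ((gW u - 1) m)) = 0 := by
    intro m u
    apply hfix
    intro σ
    rw [map_nsmul]
    exact step1 m σ u
  have step3 : ∀ m : W, cN • (cN • (cN • m)) = 0 := by
    intro m
    apply hfix
    intro u
    rw [map_nsmul, map_nsmul]
    exact step2 m u
  have hwW : w ∈ W := AddSubgroup.subset_closure ⟨1, In.one_mem, (hrone w).symm⟩
  have := congrArg (Subtype.val) (step3 ⟨w, hwW⟩)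
  rw [AddSubgroup.coe_nsmul, AddSubgroup.coe_nsmul, AddSubgroup.coe_nsmul] at this
  rw [pow_succ, pow_succ, pow_one, mul_smul, mul_smul]
  exact this

end descent

section clause

variable {p N : ℕ} [NeZero N] {S : Finset ℕ}

/-- **No unipotent inertia at `q`**, abstract form. -/
theorem h29_inert_clause (hp : p.Prime) (hp2 : p ≠ 2)
    {𝒪 : Type*} [CommRing 𝒪] [IsDomain 𝒪] [CharZero 𝒪] (I : Ideal 𝒪) [IsAdicComplete I 𝒪]
    (hpI : (p : 𝒪) ∈ I)
    (χ : CuspForm.heckeAlgebra N 2 (↑S : Set ℕ) →+* 𝒪)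
    {Λ : Type} [AddCommGroup Λ] [Module.Free ℤ Λ] [Module.Finite ℤ Λ]
    (ι : CuspForm.heckeAlgebra N 2 (↑S : Set ℕ) →+* Module.End ℤ Λ)
    (hι : Function.Injective ι)
    (M : ℕ → Type) [instM : ∀ n, AddCommGroup (M n)] (qM : ∀ n, Λ →+ M n)
    (r : ∀ n, (AlgebraicClosure ℚ ≃ₐ[ℚ] AlgebraicClosure ℚ) →* AddMonoid.End (M n))
    (hker : ∀ (n : ℕ) (x : Λ), qM n x = 0 → ∃ y : Λ, x = (p ^ n : ℤ) • y)
    (htors : ∀ (n : ℕ) (m : M n), p ^ n • m = 0)
    (c : ℕ) (t : (AlgebraicClosure ℚ ≃ₐ[ℚ] AlgebraicClosure ℚ) → 𝒪)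
    (hspec_t : ∀ (g : AlgebraicClosure ℚ ≃ₐ[ℚ] AlgebraicClosure ℚ) (k : ℕ)
      (x : CuspForm.heckeAlgebra N 2 (↑S : Set ℕ)) (e : ℕ),
      h31_Good ι (qM (k + c)) (r (k + c)) (p ^ (k + c)) g x e → t g - χ x ∈ I ^ k)
    (hexist : ∀ (m : ℕ) (g : AlgebraicClosure ℚ ≃ₐ[ℚ] AlgebraicClosure ℚ),
      ∃ (x : CuspForm.heckeAlgebra N 2 (↑S : Set ℕ)) (e : ℕ),
        ∀ n ≤ m, h31_Good ι (qM n) (r n) (p ^ n) g x e)
    (q : ℕ) (hq : q.Prime) (hqp : q ≠ p) (P : CuspForm.heckeAlgebra N 2 (↑S : Set ℕ))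
    (hP : χ P ≠ 0) (hPint : IsIntegral ℤ (χ P))
    (A : ValuationSubring (AlgebraicClosure ℚ)) (hA : A.LiesOverPrime q)
    (New : ∀ n, AddSubgroup (M n))
    (hNewP : ∀ (n : ℕ) (y : Λ), qM n (ι P y) ∈ New n)
    (hNewG : ∀ (n : ℕ), ∀ σ ∈ A.inertiaSubgroupIn ℚ, ∀ m ∈ New n, r n σ m ∈ New n)
    (cN : ℕ) (hcN : 0 < cN)
    (hN : ∀ (n : ℕ), ∀ m ∈ New n, (∀ σ ∈ A.inertiaSubgroupIn ℚ, r n σ m = m) → cN • m = 0) :
    ∃ σ ∈ A.inertiaSubgroupIn ℚ, t σ ≠ 2 := by
  classical
  by_contra hcon0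
  have hcon : ∀ σ ∈ A.inertiaSubgroupIn ℚ, t σ = 2 := fun σ hσ =>
    by_contra fun h => hcon0 ⟨σ, hσ, h⟩
  have hqpk : ∀ k : ℕ, ¬ q ∣ p ^ k := fun k h =>
    hqp ((Nat.prime_dvd_prime_iff_eq hq hp).mp (hq.dvd_of_dvd_pow h))
  -- the minimal polynomial of `χ P`
  obtain ⟨F, hFaev, hF0⟩ : ∃ F : Polynomial ℤ, Polynomial.aeval (χ P) F = 0 ∧ F.coeff 0 ≠ 0 := by
    have hm0 : minpoly ℤ (χ P) ≠ 0 := minpoly.ne_zero hPint
    obtain ⟨Q, hQ, hnd⟩ :=
      Polynomial.exists_eq_pow_rootMultiplicity_mul_and_not_dvd (minpoly ℤ (χ P)) hm0 0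
    refine ⟨Q, ?_, fun h0 => hnd ?_⟩
    · have h1 := minpoly.aeval ℤ (χ P)
      rw [hQ, map_mul, map_pow, map_sub, Polynomial.aeval_X, map_zero Polynomial.C, map_zero,
        sub_zero] at h1
      exact (mul_eq_zero.1 h1).resolve_left (pow_ne_zero _ hP)
    · rw [map_zero, sub_zero]
      exact Polynomial.X_dvd_iff.2 h0
  set G : CuspForm.heckeAlgebra N 2 (↑S : Set ℕ) := Polynomial.aeval P F.divX with hG
  set aF : CuspForm.heckeAlgebra N 2 (↑S : Set ℕ) := Polynomial.aeval P F with haF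
  have hχaF : χ aF = 0 := by
    have h1 := Polynomial.aeval_algHom_apply χ.toIntAlgHom P F
    have h3 : χ aF = Polynomial.aeval (χ P) F := h1.symm
    rw [h3, hFaev]
  have haFeq : aF = G * P + (F.coeff 0 : CuspForm.heckeAlgebra N 2 (↑S : Set ℕ)) := by
    have h1 := congrArg (Polynomial.aeval P) (Polynomial.divX_mul_X_add F)
    rw [map_add, map_mul, Polynomial.aeval_X, Polynomial.aeval_C] at h1
    rw [haF, ← h1, hG]
    simp
  -- the constants
  set c1 : ℤ := (cN : ℤ) ^ 3 * F.coeff 0 with hc1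
  have hc1ne : c1 ≠ 0 :=
    mul_ne_zero (pow_ne_zero 3 (Int.natCast_ne_zero.2 hcN.ne')) hF0
  let b := Module.Free.chooseBasis ℤ Λ
  set rk := Fintype.card (Module.Free.ChooseBasisIndex ℤ Λ) with hrk
  have hne : ((c1 : ℤ) : 𝒪) ^ rk ≠ 0 := pow_ne_zero _ (Int.cast_ne_zero.2 hc1ne)
  obtain ⟨k, hk⟩ : ∃ k : ℕ, ((c1 : ℤ) : 𝒪) ^ rk ∉ I ^ k := by
    by_contra h
    exact hne (h31_eq_zero_of_forall_mem I fun k => by_contra fun hk => h ⟨k, hk⟩)
  have hppos : 0 < p ^ (k + c) := pow_pos hp.pos _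
  have hodd : Odd (p ^ (k + c)) := (hp.odd_of_ne_two hp2).pow
  have hpn𝔞 : ((p ^ (k + c) : ℕ) : CuspForm.heckeAlgebra N 2 (↑S : Set ℕ)) ∈
      Ideal.comap χ (I ^ k) := by
    rw [Ideal.mem_comap, map_natCast, Nat.cast_pow]
    exact Ideal.pow_le_pow_right (Nat.le_add_right k c) (Ideal.pow_mem_pow hpI (k + c))
  have key := h29_dual_nak b ι hι (Ideal.comap χ (I ^ k)) (p ^ (k + c)) hppos hpn𝔞 c1 (by
    intro v hv
    -- the good pairs give `σ + σ⁻¹ = 2` on the inertia translates of `w`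
    have hunip : ∀ σ ∈ A.inertiaSubgroupIn ℚ, ∀ g' ∈ A.inertiaSubgroupIn ℚ,
        r (k + c) σ (r (k + c) g' (qM (k + c) (ι P v))) +
            r (k + c) σ⁻¹ (r (k + c) g' (qM (k + c) (ι P v))) =
          2 • r (k + c) g' (qM (k + c) (ι P v)) := by
      intro σ hσ g' _
      obtain ⟨x, e, hx⟩ := hexist (k + c) σ
      have Hx := hx (k + c) le_rfl
      have a1 := hspec_t σ k x e Hx
      have hcyc1 : h31_Cyc (p ^ (k + c)) σ 1 := by
        intro ζ hζ
        rw [pow_one]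
        exact h65_inertia_root A hq hA hσ (hqpk (k + c)) hζ
      have hmod : e ≡ 1 [MOD p ^ (k + c)] := h31_Cyc_modEq hppos Hx.1 hcyc1
      have hx2 : χ (x - 2) ∈ I ^ k := by
        have a1' : 2 - χ x ∈ I ^ k := by
          rw [← hcon σ hσ]
          exact a1
        have e0 : χ (x - 2) = -(2 - χ x) := by
          rw [map_sub, map_ofNat]; ring
        rw [e0]
        exact (Ideal.neg_mem_iff _).2 a1'
      obtain ⟨y2, hy2⟩ := hv (x - 2) hx2
      have e2 : ι x v = ((p ^ (k + c) : ℕ) : ℤ) • y2 + 2 • v := by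
        rw [← hy2, map_sub, LinearMap.sub_apply, map_ofNat, Module.End.ofNat_apply]
        abel
      have e3 : ι x (ι P v) = ι P (ι x v) := by
        rw [← Module.End.mul_apply, ← Module.End.mul_apply, ← map_mul, ← map_mul, mul_comm]
      have hxw : qM (k + c) (ι x (ι P v)) = 2 • qM (k + c) (ι P v) := by
        rw [e3, e2, map_add, map_zsmul, map_nsmul, map_add, map_zsmul, map_nsmul, natCast_zsmul,
          htors, zero_add]
      have h := Hx.2 g' (ι P v)
      rw [hxw, map_nsmul, h65_nsmul_eq_of_modEq hmod _ (htors _ _), one_smul] at h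
      exact h.symm
    have hdesc := h29_inert_descent (r (k + c)) (A.inertiaSubgroupIn ℚ) (p ^ (k + c)) hodd
      (htors (k + c)) (New (k + c)) (hNewG (k + c)) cN (hN (k + c)) (qM (k + c) (ι P v))
      (hNewP (k + c) v) hunip
    obtain ⟨y, hy⟩ := hker (k + c) (cN ^ 3 • ι P v) (by rw [map_nsmul]; exact hdesc)
    obtain ⟨y', hy'⟩ := hv aF (by
      rw [Ideal.mem_comap, hχaF]
      exact Ideal.zero_mem _)
    have e4 : ι aF v = ι G (ι P v) + F.coeff 0 • v := by
      rw [haFeq, map_add, map_mul, map_intCast, LinearMap.add_apply, Module.End.mul_apply,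
        Module.End.intCast_apply]
    refine ⟨(cN : ℤ) ^ 3 • y' - ι G y, ?_⟩
    have e5 : F.coeff 0 • v = ((p ^ (k + c) : ℕ) : ℤ) • y' - ι G (ι P v) := by
      rw [← hy', e4]; abel
    have e6 : ι G ((cN : ℤ) ^ 3 • ι P v) = ((p ^ (k + c) : ℕ) : ℤ) • ι G y := by
      have : (cN : ℤ) ^ 3 • ι P v = cN ^ 3 • ι P v := by
        rw [← Nat.cast_pow, natCast_zsmul]
      rw [this, hy, map_zsmul]
      push_cast
      rfl
    rw [hc1, mul_smul, e5, smul_sub, smul_sub, ← map_zsmul (ι G), e6, smul_comm])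
  apply hk
  have h1 : χ ((c1 : CuspForm.heckeAlgebra N 2 (↑S : Set ℕ)) ^ rk) ∈ I ^ k := key
  rw [map_pow, map_intCast] at h1
  exact h1

end clause

end Fermat.Agent.S36
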