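import Mathlib
import Fermat.Agent.S35.h29_S35Asm
import Fermat.Agent.S36.h29_InertClause

/-!
# S36, transfer layer (T2): the assembly

`h29_S36_of_new`: the conclusion of the frozen statement S36 (a `λ`-adic representation attached
to a Hecke character `chig`, with the Frobenius characteristic polynomials at the good primes,
which is NOT unipotent on inertia at the primes `q ≠ λ` with `q² ∥ M`) from ONE hypothesis per
such prime `q`:

  (NEW + N)  there are a subgroup `Jnew` of `J₀(M)(ℚ̄)` ("`q`-new"), a Hecke element `P` with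
  `chig P ≠ 0`, a valuation subring `A` over `q` and a constant `c ≥ 1` such that
  * every class related (`gal_R`, for the fixed embedding `h78_iota`) to a character
    `(P φ) mod λ ^ n`, `φ ∈ h65_Lam M`, lies in `Jnew`;
  * `Jnew` is stable under the inertia group of `A`;
  * every class of `Jnew` killed by a power of `λ` and fixed by the inertia group of `A` is
    killed by `c`.

The proof is the one of `h29_S35_of_new` with the `q`-clause replaced by `h29_inert_clause`.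
The coefficient ring is `O'' := O'`; `λ ≠ 2` is used (Kolchin at finite level).
-/

set_option autoImplicit false

open Polynomial CongruenceSubgroup ModularCurve

namespace Fermat.Agent.S36

open Fermat.Agent.GAL Fermat.Agent.S16 Fermat.Agent.S24 Fermat.Agent.S35

section main

variable {M : ℕ} [NeZero M]

set_option maxHeartbeats 1600000 in
/-- **S36 from the `q`-new input.** -/
theorem h29_S36_of_new (lam : ℕ) [Fact lam.Prime] (hlam2 : lam ≠ 2) (S : Finset ℕ)
    (O' : Type) [CommRing O'] [IsDomain O'] [IsDiscreteValuationRing O']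
    [IsAdicComplete (IsLocalRing.maximalIdeal O') O'] [Finite (IsLocalRing.ResidueField O')]
    [CharZero O'] (hlamO' : (lam : O') ∈ IsLocalRing.maximalIdeal O')
    (chig : CuspForm.heckeAlgebra M 2 (↑S : Set ℕ) →+* ℂ)
    (iota : chig.range →+* O')
    (hlamS : lam ∈ S) (hMS : ∀ q : ℕ, q.Prime → q ∣ M → q ∈ S)
    (hnew : ∀ q : ℕ, q.Prime → q ≠ lam → M.factorization q = 2 →
      ∃ (Jnew : AddSubgroup (JZero M)) (P : CuspForm.heckeAlgebra M 2 (↑S : Set ℕ)),
        chig P ≠ 0 ∧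
        (∀ (n : ℕ) (φ : h65_Lam M) (x : JZero M),
          gal_R M (lam ^ n) h78_iota (gal_chi (lam ^ n)
            ((h65_redHom M (lam ^ n) (h65_iota M (↑S : Set ℕ)
              (fun q hq hqM => Finset.mem_coe.2 (hMS q hq hqM)) P φ) : gal_Hpe M (lam ^ n)) :
                Additive (Gamma0 M) →+ ZMod (lam ^ n))) x → x ∈ Jnew) ∧
        ∃ A : ValuationSubring (AlgebraicClosure ℚ), A.LiesOverPrime q ∧
          (∀ σ ∈ A.inertiaSubgroupIn ℚ, ∀ x ∈ Jnew, σ • x ∈ Jnew) ∧
          ∃ c : ℕ, 0 < c ∧ ∀ (n : ℕ) (x : JZero M), lam ^ n • x = 0 → x ∈ Jnew →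
            (∀ σ ∈ A.inertiaSubgroupIn ℚ, σ • x = x) → c • x = 0) :
    ∃ (O'' : Type) (_ : CommRing O'') (_ : IsDomain O'') (_ : IsDiscreteValuationRing O'')
      (_ : IsAdicComplete (IsLocalRing.maximalIdeal O'') O'')
      (_ : Finite (IsLocalRing.ResidueField O''))
      (_ : CharZero O'') (_ : Algebra O' O'') (_ : Module.Finite O' O'')
      (_ : IsLocalHom (algebraMap O' O'')),
      Function.Injective (algebraMap O' O'') ∧
      ∃ ρ : GaloisRepAdic O'',
        (∀ (ℓ : ℕ) (hℓ : ℓ.Prime) (hℓM : ¬ ℓ ∣ M) (hℓS : ℓ ∉ (↑S : Set ℕ)),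
          ∀ A : ValuationSubring (AlgebraicClosure ℚ), A.LiesOverPrime ℓ →
            ∀ σ : AlgebraicClosure ℚ ≃ₐ[ℚ] AlgebraicClosure ℚ, A.IsFrobeniusAt σ ℓ →
              LinearMap.charpoly (ρ.ρ σ) =
                X ^ 2 - C (algebraMap O' O'' ((iota.comp chig.rangeRestrict)
                  (CuspForm.heckeAlgebra.T hℓ hℓM hℓS))) * X + C ((ℓ : O''))) ∧
        (∀ q : ℕ, q.Prime → q ≠ lam → M.factorization q = 2 →
          ¬ ρ.IsUnipotentOnInertiaAt q) := by
  classical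
  have hp : lam.Prime := Fact.out
  have hMS' : ∀ q : ℕ, q.Prime → q ∣ M → q ∈ (↑S : Set ℕ) :=
    fun q hq hqM => Finset.mem_coe.2 (hMS q hq hqM)
  set χ : CuspForm.heckeAlgebra M 2 (↑S : Set ℕ) →+* O' := iota.comp chig.rangeRestrict with hχ
  -- the canonical THETA family
  have hθ : ∀ n : ℕ, ∃ Θ : gal_Hpe M (lam ^ n) →+ JZero M, Function.Injective Θ ∧
      (∀ (ℓ : ℕ) [Fact ℓ.Prime] (hℓN : ¬ ℓ ∣ M), ¬ ℓ ∣ lam ^ n →
        ∀ χ χ' : gal_Hpe M (lam ^ n),
          (χ' : Additive (Gamma0 M) →+ ZMod (lam ^ n)) =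
              h30_heckeT M ℓ hℓN (χ : Additive (Gamma0 M) →+ ZMod (lam ^ n)) →
            heckeOperatorBar M ⟨ℓ, Fact.out⟩ (Θ χ) = Θ χ') ∧
      ∀ ψ : gal_Hpe M (lam ^ n),
        gal_R M (lam ^ n) h78_iota
          (gal_chi (lam ^ n) (ψ : Additive (Gamma0 M) →+ ZMod (lam ^ n))) (Θ ψ) := by
    intro n
    have : NeZero (lam ^ n) := ⟨pow_ne_zero n hp.ne_zero⟩
    exact h29_theta_canon M (lam ^ n)
  choose Θ hΘinj hΘhecke hΘR using hθ
  -- the explicit level data
  let Mn : ℕ → Type := fun n => ↥(h65_tors (JZero M) (lam ^ n))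
  let qM : ∀ n, h65_Lam M →+ Mn n := fun n => h29_qLev lam M n (Θ n)
  let r : ∀ n, (AlgebraicClosure ℚ ≃ₐ[ℚ] AlgebraicClosure ℚ) →* AddMonoid.End (Mn n) :=
    fun n => h65_torsRep (AlgebraicClosure ℚ ≃ₐ[ℚ] AlgebraicClosure ℚ) (JZero M) (lam ^ n)
  let tM : ∀ n, Nat.Primes → Mn n →+ Mn n :=
    fun n ℓ => h65_torsEnd (lam ^ n) (heckeOperatorBar M ℓ).toAddMonoidHom
  have hlevel : ∀ n : ℕ, h31_IsLevel lam M S (h65_iota M (↑S : Set ℕ) hMS') n (qM n) (r n)
      (tM n) := fun n =>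
    h29_isLevel hp hlamS hMS' (Θ n) (hΘinj n) (hΘhecke n)
      (fun ℓ hℓ h A hA => Fermat.Agent.S37.h60_redData M lam ℓ hℓ h A hA)
  obtain ⟨c, t, d, ⟨ht1, ht, hdc, hfrob, -, hcont⟩, hspec_t, -, hexist, -⟩ :=
    h29_exists_pseudo_spec hp hlamS hMS (IsLocalRing.maximalIdeal O') hlamO' χ
      (h65_iota M (↑S : Set ℕ) hMS') (h65_iota_injective M (↑S : Set ℕ) hMS') Mn qM r tM hlevel
      h65_wcheb
  obtain ⟨ρ, hchar, -⟩ := h31_adicRep_of_pseudo t d ht1 ht hdc hcont
  refine ⟨O', inferInstance, inferInstance, inferInstance, inferInstance, inferInstance,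
    inferInstance, Algebra.id O', inferInstance, ?_, Function.injective_id, ρ, ?_, ?_⟩
  · exact ⟨fun a ha => ha⟩
  · intro ℓ hℓ hℓM hℓS A hA σ hσ
    obtain ⟨h1, h2⟩ := hfrob ℓ hℓ hℓM hℓS A hA σ hσ
    rw [hchar σ, h1, h2]
    rfl
  · intro q hq hql hfac hu
    obtain ⟨Jnew, P, hP, hPnew, A, hA, hJgal, cN, hcN, hNgeo⟩ := hnew q hq hql hfac
    have htors : ∀ (n : ℕ) (m : Mn n), lam ^ n • m = 0 := fun n m => h65_tors_nsmul (lam ^ n) m
    -- `χ P ≠ 0` and integral
    have hfin : Module.Finite ℤ (CuspForm.heckeAlgebra M 2 (↑S : Set ℕ)) :=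
      Fermat.Agent.S22.heckeAlgebra_finite M 2 (↑S : Set ℕ)
    have hint : IsIntegral ℤ (chig.rangeRestrict P) :=
      (IsIntegral.of_finite ℤ P).map chig.rangeRestrict.toIntAlgHom
    have hne : chig.rangeRestrict P ≠ 0 := by
      intro h
      apply hP
      have h' := congrArg (Subtype.val) h
      exact h'
    have hχP : χ P ≠ 0 := h29_map_ne_zero_of_integral iota hint hne
    have hχPint : IsIntegral ℤ (χ P) := hint.map iota.toIntAlgHom
    -- the new classes at level `n`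
    let New : ∀ n, AddSubgroup (Mn n) := fun n =>
      Jnew.comap (h65_tors (JZero M) (lam ^ n)).subtype
    have hNewP : ∀ (n : ℕ) (y : h65_Lam M),
        qM n (h65_iota M (↑S : Set ℕ) hMS' P y) ∈ New n := fun n y =>
      hPnew n y _ (hΘR n _)
    have hNewG : ∀ (n : ℕ), ∀ σ ∈ A.inertiaSubgroupIn ℚ, ∀ m ∈ New n, r n σ m ∈ New n :=
      fun n σ hσ m hm => hJgal σ hσ (m : JZero M) hm
    have hN : ∀ (n : ℕ), ∀ m ∈ New n, (∀ σ ∈ A.inertiaSubgroupIn ℚ, r n σ m = m) →
        cN • m = 0 := by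
      intro n m hm hfix
      apply Subtype.ext
      rw [AddSubgroup.coe_nsmul]
      exact hNgeo n (m : JZero M) m.2 hm (fun σ hσ => congrArg Subtype.val (hfix σ hσ))
    obtain ⟨σ, hσ, hne2⟩ := h29_inert_clause hp hlam2 (IsLocalRing.maximalIdeal O') hlamO' χ
      (h65_iota M (↑S : Set ℕ) hMS') (h65_iota_injective M (↑S : Set ℕ) hMS') Mn qM r
      (fun n => (hlevel n).1) htors c t hspec_t hexist q hq hql P hχP hχPint A hA New hNewP
      hNewG cN hcN hN
    apply hne2
    have h1 := hu A hA σ hσ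
    rw [hchar σ] at h1
    have h2 := congrArg (fun f : O'[X] => f.coeff 1) h1
    have e1 : (X ^ 2 - C (t σ) * X + C (d σ) : O'[X]).coeff 1 = -t σ := by
      simp [coeff_X_pow, coeff_C]
    have e2 : ((X - 1) ^ 2 : O'[X]).coeff 1 = -2 := by
      have : ((X - 1) ^ 2 : O'[X]) = X ^ 2 - C 2 * X + C 1 := by
        rw [map_ofNat, map_one]; ring
      rw [this]
      simp [coeff_X_pow, coeff_C, coeff_one]
    simp only [e1, e2] at h2
    exact neg_injective h2

end main

end Fermat.Agent.S36
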