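import Mathlib
import Fermat.Agent.S36.h29_S36Asm
import Fermat.Agent.S36.h29_NewSq

/-!
# S36: the top wiring

The conclusion of the frozen S36 from two inputs:

* the genus bridge `(h75_genus Qb (h59_jbar N) : ℚ) = genusFormula N` (all `N`), used by the
  Hecke side `h29_newProp_at`;
* the geometric input `h29_GeomN N q lam` ("(GEOM-N)") at the levels `N q` with `q ∥ N`:
  for ONE valuation subring `A` of `ℚ̄` over `q` there is `c ≥ 1` killing every `q`-new class of
  `λ`-power order which is fixed by the inertia group of `A`.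

`h29_S36_of_geom` is the statement `Fermat.Agent.S36.result` modulo these two inputs.
-/

set_option autoImplicit false
set_option linter.unusedSectionVars false
set_option linter.style.haveILetI false

open Polynomial CongruenceSubgroup ModularCurve AlgebraicCurve

namespace Fermat.Agent.S36

open Fermat.Agent.GAL Fermat.Agent.S16 Fermat.Agent.S24 Fermat.Agent.S35 Fermat.Agent.S33
open Fermat.Agent.S18

local notation "Qb" => AlgebraicClosure ℚ

/-- **(GEOM-N)** at the level `N * q`, for the prime `lam`: for one valuation subring `A` of `ℚ̄`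
over `q`, a fixed `c ≥ 1` kills every `q`-new class of `lam`-power order fixed by the inertia
group of `A`. -/
def h29_GeomN (N q lam : ℕ) [NeZero N] [NeZero q] : Prop :=
  ∃ A : ValuationSubring Qb, A.LiesOverPrime q ∧ ∃ c : ℕ, 0 < c ∧
    ∀ (n : ℕ) (x : JZero (N * q)), lam ^ n • x = 0 → h67_Jnew N q x →
      (∀ σ ∈ A.inertiaSubgroupIn ℚ, σ • x = x) → c • x = 0

/-- **S36 from the genus bridge and (GEOM-N).** -/
theorem h29_S36_of_geom
    (hbridge : ∀ (N : ℕ) [NeZero N],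
      (h75_genus Qb (h59_jbar N) : ℚ) = ModularCurve.genusFormula N)
    (GEOM : ∀ (N q lam : ℕ) [NeZero N] [NeZero q], q.Prime → q ∣ N → ¬ q ^ 2 ∣ N →
      lam.Prime → lam ≠ q → lam ≠ 2 → h29_GeomN N q lam)
    {M : ℕ} [NeZero M] {g : CuspForm (Gamma0 M) 2} (hg : g.IsNewform)
    (lam : ℕ) [Fact lam.Prime] (S : Finset ℕ)
    (O' : Type) [CommRing O'] [IsDomain O'] [IsDiscreteValuationRing O']
    [IsAdicComplete (IsLocalRing.maximalIdeal O') O'] [Finite (IsLocalRing.ResidueField O')]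
    [CharZero O'] (hlamO' : (lam : O') ∈ IsLocalRing.maximalIdeal O')
    (hlam2 : lam ≠ 2)
    (chig : CuspForm.heckeAlgebra M 2 (↑S : Set ℕ) →+* ℂ)
    (hchig : ∀ (ℓ : ℕ) (hℓ : ℓ.Prime) (hℓM : ¬ ℓ ∣ M) (hℓS : ℓ ∉ (↑S : Set ℕ)),
      chig (CuspForm.heckeAlgebra.T hℓ hℓM hℓS) = ModularFormClass.qCoeff g ℓ)
    (iota : chig.range →+* O')
    (hlamS : lam ∈ S) (hMS : ∀ q : ℕ, q.Prime → q ∣ M → q ∈ S) :
    ∃ (O'' : Type) (_ : CommRing O'') (_ : IsDomain O'') (_ : IsDiscreteValuationRing O'')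
      (_ : IsAdicComplete (IsLocalRing.maximalIdeal O'') O'')
      (_ : Finite (IsLocalRing.ResidueField O''))
      (_ : CharZero O'') (_ : Algebra O' O'') (_ : Module.Finite O' O'')
      (_ : IsLocalHom (algebraMap O' O'')),
      Function.Injective (algebraMap O' O'') ∧
      ∃ ρ : GaloisRepAdic O'',
        (∀ (ℓ : ℕ) (hℓ : ℓ.Prime) (hℓM : ¬ ℓ ∣ M) (hℓS : ℓ ∉ (↑S : Set ℕ)),
          ∀ A : ValuationSubring (AlgebraicClosure ℚ), A.LiesOverPrime ℓ →
            ∀ σ : AlgebraicClosure ℚ ≃ₐ[ℚ] AlgebraicClosure ℚ, A.IsFrobeniusAt σ ℓ →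
              LinearMap.charpoly (ρ.ρ σ) =
                X ^ 2 - C (algebraMap O' O'' ((iota.comp chig.rangeRestrict)
                  (CuspForm.heckeAlgebra.T hℓ hℓM hℓS))) * X + C ((ℓ : O''))) ∧
        (∀ q : ℕ, q.Prime → q ≠ lam → M.factorization q = 2 →
          ¬ ρ.IsUnipotentOnInertiaAt q) := by
  have hlam : lam.Prime := Fact.out
  refine h29_S36_of_new lam hlam2 S O' hlamO' chig iota hlamS hMS (fun q hq hql hfac => ?_)
  have hM0 : M ≠ 0 := NeZero.ne M
  -- `M = N q` with `q ∥ N`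
  have hq2M : q ^ 2 ∣ M := by
    have h := Nat.ordProj_dvd M q
    rwa [hfac] at h
  have hq3M : ¬ q ^ 3 ∣ M := by
    intro h
    have h1 := (hq.pow_dvd_iff_le_factorization hM0).1 h
    omega
  obtain ⟨N, rfl⟩ : ∃ N, M = N * q :=
    ⟨M / q, (Nat.div_mul_cancel (dvd_trans (dvd_pow_self q two_ne_zero) hq2M)).symm⟩
  haveI : NeZero q := ⟨hq.ne_zero⟩
  haveI : Fact q.Prime := ⟨hq⟩
  haveI : NeZero N := ⟨fun h => hM0 (by rw [h, zero_mul])⟩
  have hqN : q ∣ N := by
    obtain ⟨c, hc⟩ := hq2M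
    refine ⟨c, Nat.eq_of_mul_eq_mul_right hq.pos ?_⟩
    rw [hc]
    ring
  have hq2N : ¬ q ^ 2 ∣ N := by
    rintro ⟨c, hc⟩
    exact hq3M ⟨c, by rw [hc]; ring⟩
  obtain ⟨P, hP, hPnew⟩ := h29_newProp_at S (hbridge N) hg lam hlamS hMS chig hchig
  obtain ⟨A, hA, c, hc, hgeom⟩ := GEOM N q lam hq hqN hq2N hlam (fun h => hql h.symm) hlam2
  refine ⟨h52_new N q, P, hP, fun n φ x hx => ?_, A, hA, fun σ _ x hx => h52_new_smul N q σ hx,
    c, hc, fun n x hx hnew hfix => hgeom n x hx ((h52_mem_new N q x).1 hnew) hfix⟩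
  exact (h52_mem_new N q x).2 ((h67_jnewAt_iff N q x).1 (hPnew n φ x hx))

end Fermat.Agent.S36
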