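/-
S36 / layer (L4), generic core (helper49): norm base change along a commutative square of
field extensions of the same finite degree whose top field is the compositum.
Mathlib only.
-/
import Mathlib

set_option autoImplicit false

namespace Fermat.Agent.S36

open Module

/-- **Generic norm base change.**  `K0 → K1`, `K0' → K1'` finite field extensions of the same
degree, `γ0 : K0 → K0'`, `ι : K1 → K1'` forming a commutative square, and `K1'` spanned over
`K0'` by `ι(K1)`.  Then `N_{K1'/K0'}(ι f) = γ0 (N_{K1/K0} f)`. -/
theorem h49_norm_bc_generic {K0 K1 K0' K1' : Type*} [Field K0] [Field K1] [Field K0'] [Field K1']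
    [Algebra K0 K1] [Algebra K0' K1'] (γ0 : K0 →+* K0') (ι : K1 →+* K1')
    (hsq : ∀ x : K0, ι (algebraMap K0 K1 x) = algebraMap K0' K1' (γ0 x))
    [FiniteDimensional K0 K1] (hdeg : finrank K0' K1' = finrank K0 K1)
    (hspan : Submodule.span K0' (Set.range ι) = ⊤) (f : K1) :
    Algebra.norm K0' (ι f) = γ0 (Algebra.norm K0 f) := by
  classical
  let b := Module.finBasis K0 K1
  have hsmul : ∀ (m : K0) (y : K1), ι (m • y) = γ0 m • ι y := by
    intro m y
    rw [Algebra.smul_def, map_mul, hsq, ← Algebra.smul_def]
  have hsp : ⊤ ≤ Submodule.span K0' (Set.range (ι ∘ b)) := by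
    rw [← hspan, Submodule.span_le]
    rintro _ ⟨y, rfl⟩
    rw [← b.sum_repr y, map_sum]
    refine Submodule.sum_mem _ fun i _ => ?_
    rw [hsmul]
    exact Submodule.smul_mem _ _ (Submodule.subset_span ⟨i, rfl⟩)
  have hcard : Fintype.card (Fin (finrank K0 K1)) = finrank K0' K1' := by
    rw [Fintype.card_fin, hdeg]
  let b' := basisOfTopLeSpanOfCardEqFinrank (ι ∘ b) hsp hcard
  have hb' : ∀ i, b' i = ι (b i) := fun i => by
    show (basisOfTopLeSpanOfCardEqFinrank (ι ∘ b) hsp hcard) i = ι (b i)
    rw [coe_basisOfTopLeSpanOfCardEqFinrank]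
    rfl
  rw [Algebra.norm_eq_matrix_det b', Algebra.norm_eq_matrix_det b, RingHom.map_det]
  congr 1
  ext i j
  rw [Algebra.leftMulMatrix_eq_repr_mul, RingHom.mapMatrix_apply, Matrix.map_apply,
    Algebra.leftMulMatrix_eq_repr_mul]
  have h1 : ι f * b' j = ∑ k, γ0 (b.repr (f * b j) k) • b' k := by
    rw [hb', ← map_mul]
    conv_lhs => rw [← b.sum_repr (f * b j)]
    rw [map_sum]
    refine Finset.sum_congr rfl fun k _ => ?_
    rw [hsmul, hb']
  rw [h1, b'.repr_sum_self]

/-- In prime degree the spanning hypothesis follows from one element of `ι(K1)` outside `K0'`. -/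
theorem h49_span_of_prime {K1 K0' K1' : Type*} [Field K1] [Field K0'] [Field K1']
    [Algebra K0' K1'] (ι : K1 →+* K1')
    (hp : (finrank K0' K1').Prime)
    (hne : ∃ f : K1, ι f ∉ Set.range (algebraMap K0' K1')) :
    Submodule.span K0' (Set.range ι) = ⊤ := by
  have hfd : FiniteDimensional K0' K1' := Module.finite_of_finrank_pos hp.pos
  have hso : IsSimpleOrder (IntermediateField K0' K1') :=
    IntermediateField.isSimpleOrder_of_finrank_prime K0' K1' hp
  obtain ⟨f, hf⟩ := hne
  -- the intermediate field generated by `ι(K1)` is `⊤`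
  have htop : IntermediateField.adjoin K0' (Set.range ι) = ⊤ := by
    rcases eq_bot_or_eq_top (IntermediateField.adjoin K0' (Set.range ι)) with h | h
    · exfalso
      apply hf
      have hmem : ι f ∈ IntermediateField.adjoin K0' (Set.range ι) :=
        IntermediateField.subset_adjoin K0' _ ⟨f, rfl⟩
      rw [h, IntermediateField.mem_bot] at hmem
      exact hmem
    · exact h
  -- it equals the subalgebra generated, which is the span of the (multiplicatively closed) range
  have halg : Algebra.adjoin K0' (Set.range ι) = ⊤ := by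
    have h2 := IntermediateField.adjoin_toSubalgebra_of_isAlgebraic
      (F := K0') (E := K1') (S := Set.range ι)
      (fun x _ => Algebra.IsAlgebraic.isAlgebraic x)
    rw [← h2, htop, IntermediateField.top_toSubalgebra]
  have hspan := Algebra.adjoin_eq_span K0' (Set.range ι)
  have hcl : (Submonoid.closure (Set.range ι) : Set K1') = Set.range ι := by
    have : Set.range ι = ((MonoidHom.mrange (ι : K1 →* K1') : Submonoid K1') : Set K1') := by
      ext x
      simp
    rw [this, Submonoid.closure_eq]
  rw [hcl, halg] at hspan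
  exact hspan.symm ▸ rfl

end Fermat.Agent.S36
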