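/-
S36 / layer (L4) (helper49): norm base change, (PULL-NEW) and the auxiliary level package at a
prime `q ∣ N`, and the lossless descent of the geometric statement (GEOM-N) from the auxiliary
level `N c q` to the level `N q`.

* `h49_not_contained_alpha` : `F(N q) ⊄ F(N c)` (prime `c ∤ N q`, `q ∣ N`);
* `h49_norm_bc_alpha_dvd`, `h49_norm_bc_beta_dvd` : norm base change along `α`, `β` at `q ∣ N`;
* `h49_pullNew_dvd` : `h29_PullNew N q c` for `q ∣ N`;
* `h49_aux_package_dvd` : the level map `J₀(N q) → J₀(N q c)` is injective on torsion,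
  Galois-equivariant and preserves `q`-new torsion classes;
* `h49_geomN_descent` : (GEOM-N) at `(N c, q)` implies (GEOM-N) at `(N, q)`, same constant.
-/
import Mathlib
import Fermat.Agent.S36.h49_NormBCGen
import Fermat.Agent.S36.h49_Pull2Deg
import Fermat.Agent.S35.h29_PullNew
import Fermat.Agent.S19.h54_LvlInj
import Fermat.Agent.S37.h60_RedInj

set_option autoImplicit false
set_option synthInstance.maxHeartbeats 400000
set_option linter.style.haveILetI false

noncomputable section

open ModularCurve AlgebraicCurve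

namespace Fermat.Agent.S36

open Fermat.Agent.S34 Fermat.Agent.S37 Fermat.Agent.S24 Fermat.Agent.S35 Fermat.Agent.S19

local notation "Qb" => AlgebraicClosure ℚ
local notation "Γℚ" => (AlgebraicClosure ℚ ≃ₐ[ℚ] AlgebraicClosure ℚ)

/-! ## `F(N q) ⊄ F(N c)` -/

open TensorProduct in
set_option maxHeartbeats 3200000 in
/-- Core: if every function of level `N q` has the expansion of a function of level `N c`
(`c` a prime not dividing `N q`), then `F(N c) → F(N q c)` is onto. -/
theorem h49_not_contained_core (N q c : ℕ) [NeZero N] [NeZero q] [NeZero c] (hc : c.Prime)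
    (hcNq : ¬ c ∣ N * q)
    (ι2 : modularFunctionFieldBar (N * c) →ₐ[Qb] modularFunctionFieldBar (N * q * c))
    (hι2 : ∀ g : modularFunctionFieldBar (N * c),
      ((ι2 g : modularFunctionFieldBar (N * q * c)) : LaurentSeries Qb) = (g : LaurentSeries Qb))
    (hfin : FiniteAlong Qb ι2) (hdeg : finrankAlong Qb ι2 ≠ 1)
    (h : ∀ f : modularFunctionFieldBar (N * q), ∃ g : modularFunctionFieldBar (N * c),
      (g : LaurentSeries Qb) = (f : LaurentSeries Qb)) : False := by
  have hcN : ¬ c ∣ N := fun h' => hcNq (Dvd.dvd.mul_right h' q)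
  obtain ⟨a, b, hab⟩ := h49_exists_bezout ((Nat.Prime.coprime_iff_not_dvd hc).mpr hcN)
  obtain ⟨a', b', hab'⟩ := h49_exists_bezout ((Nat.Prime.coprime_iff_not_dvd hc).mpr hcNq)
  letI alg : Algebra (modularFunctionFieldBar (N * c)) (modularFunctionFieldBar (N * q * c)) :=
    algebraAlong ι2
  haveI : Module.Finite (modularFunctionFieldBar (N * c)) (modularFunctionFieldBar (N * q * c)) :=
    hfin
  -- both images lie in the range of `ι2`
  have hA : ∀ y : modularFunctionFieldBar (N * q),
      ∃ g : modularFunctionFieldBar (N * c), ι2 g = heckeAlphaBar Qb (N * q) c y := by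
    intro y
    obtain ⟨g, hg⟩ := h y
    exact ⟨g, Subtype.ext (by rw [hι2, hg, coe_heckeAlphaBar])⟩
  have hB : ∀ y : modularFunctionFieldBar (N * q),
      ∃ g : modularFunctionFieldBar (N * c), ι2 g = heckeBetaBar Qb (N * q) c y := by
    intro y
    obtain ⟨g, hg⟩ := hA y
    refine ⟨h49_swapF hab h78_iota hc g, ?_⟩
    rw [← h49_swap_bc' N c q hc hab hab' ι2 hι2 g, hg, h49_swapF_alpha]
  have htm : ∀ g : modularFunctionFieldBar (N * c),
      (1 : modularFunctionFieldBar (N * q * c)) ⊗ₜ[modularFunctionFieldBar (N * c)] (ι2 g)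
        = (ι2 g) ⊗ₜ[modularFunctionFieldBar (N * c)] (1 : modularFunctionFieldBar (N * q * c)) := by
    intro g
    have e : ι2 g = g • (1 : modularFunctionFieldBar (N * q * c)) := by
      rw [Algebra.smul_def, mul_one]
      rfl
    rw [e, TensorProduct.smul_tmul]
  have hepi : Algebra.IsEpi (modularFunctionFieldBar (N * c))
      (modularFunctionFieldBar (N * q * c)) := by
    rw [Algebra.isEpi_iff_forall_one_tmul_eq]
    have key := h49_swap_unique (N := N * q) (ℓ := c) (K := Qb) hc
      (Algebra.TensorProduct.includeRight (R := modularFunctionFieldBar (N * c))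
        (A := modularFunctionFieldBar (N * q * c))
        (B := modularFunctionFieldBar (N * q * c))).toRingHom
      (Algebra.TensorProduct.includeLeftRingHom (R := modularFunctionFieldBar (N * c))
        (A := modularFunctionFieldBar (N * q * c))
        (B := modularFunctionFieldBar (N * q * c)))
      (fun y => by
        obtain ⟨g, hg⟩ := hA y
        rw [← hg]
        exact htm g)
      (fun y => by
        obtain ⟨g, hg⟩ := hB y
        rw [← hg]
        exact htm g)
    intro x
    exact RingHom.congr_fun key x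
  have hsurj := (Algebra.isEpi_iff_surjective_algebraMap_of_finite).1 hepi
  have htop : (⊥ : Subalgebra (modularFunctionFieldBar (N * c))
      (modularFunctionFieldBar (N * q * c))) = ⊤ :=
    (Algebra.surjective_algebraMap_iff.1 hsurj).symm
  exact hdeg (Subalgebra.bot_eq_top_iff_finrank_eq_one.1 htop)

/-- A Laurent-preserving embedding `F(N c) → F(M₁)`, `M₁ = N c q`, of degree `q` (`q ∣ N`). -/
theorem h49_exists_iota2 (N q c : ℕ) [NeZero N] [NeZero q] [NeZero c] (hq : q.Prime)
    (hqN : q ∣ N) (M₁ : ℕ) (e : N * c * q = M₁) :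
    ∃ ι2 : modularFunctionFieldBar (N * c) →ₐ[Qb] modularFunctionFieldBar M₁,
      (∀ g : modularFunctionFieldBar (N * c),
        ((ι2 g : modularFunctionFieldBar M₁) : LaurentSeries Qb) = (g : LaurentSeries Qb)) ∧
      FiniteAlong Qb ι2 ∧ finrankAlong Qb ι2 = q := by
  subst e
  exact ⟨heckeAlphaBar Qb (N * c) q, fun g => coe_heckeAlphaBar (N * c) q g,
    h88_finiteAlong_alpha (N * c) q, h49_deg_alpha_dvd (N * c) q hq (Dvd.dvd.mul_right hqN c)⟩

/-- **`F(N q) ⊄ F(N c)`** for primes `q ∣ N`, `c ∤ N q`. -/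
theorem h49_not_contained_alpha (N q c : ℕ) [NeZero N] [NeZero q] [NeZero c] (hq : q.Prime)
    (hqN : q ∣ N) (hc : c.Prime) (hcNq : ¬ c ∣ N * q) :
    ∃ f : modularFunctionFieldBar (N * q), ∀ g : modularFunctionFieldBar (N * c),
      (g : LaurentSeries Qb) ≠ (f : LaurentSeries Qb) := by
  by_contra hcon
  have hcon' : ∀ f : modularFunctionFieldBar (N * q), ∃ g : modularFunctionFieldBar (N * c),
      (g : LaurentSeries Qb) = (f : LaurentSeries Qb) := by
    intro f
    by_contra hf
    exact hcon ⟨f, fun g hg => hf ⟨g, hg⟩⟩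
  obtain ⟨ι2, hι2, hfin, hdeg⟩ := h49_exists_iota2 N q c hq hqN (N * q * c) (by ring)
  exact h49_not_contained_core N q c hc hcNq ι2 hι2 hfin
    (by rw [hdeg]; exact hq.one_lt.ne') hcon'

/-! ## Norm base change at `q ∣ N` -/

/-- **NBC, alpha, `q ∣ N`.** -/
theorem h49_norm_bc_alpha_dvd (N q c : ℕ) [NeZero N] [NeZero q] [NeZero c] (hq : q.Prime)
    (hqN : q ∣ N) (hc : c.Prime) (hcNq : ¬ c ∣ N * q)
    (ι : modularFunctionFieldBar (N * q) →ₐ[Qb] modularFunctionFieldBar (N * c * q))
    (hι : ∀ f : modularFunctionFieldBar (N * q),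
      ((ι f : modularFunctionFieldBar (N * c * q)) : LaurentSeries Qb) = (f : LaurentSeries Qb))
    (f : modularFunctionFieldBar (N * q)) :
    @Algebra.norm (modularFunctionFieldBar (N * c)) (modularFunctionFieldBar (N * c * q)) _ _
        (algebraAlong (heckeAlphaBar Qb (N * c) q)) (ι f)
      = heckeAlphaBar Qb N c
          (@Algebra.norm (modularFunctionFieldBar N) (modularFunctionFieldBar (N * q)) _ _
            (algebraAlong (heckeAlphaBar Qb N q)) f) := by
  letI a0 : Algebra (modularFunctionFieldBar N) (modularFunctionFieldBar (N * q)) :=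
    algebraAlong (heckeAlphaBar Qb N q)
  letI a1 : Algebra (modularFunctionFieldBar (N * c)) (modularFunctionFieldBar (N * c * q)) :=
    algebraAlong (heckeAlphaBar Qb (N * c) q)
  haveI : FiniteDimensional (modularFunctionFieldBar N) (modularFunctionFieldBar (N * q)) :=
    h88_finiteAlong_alpha N q
  have hd0 : Module.finrank (modularFunctionFieldBar N) (modularFunctionFieldBar (N * q)) = q :=
    h49_deg_alpha_dvd N q hq hqN
  have hd1 : Module.finrank (modularFunctionFieldBar (N * c))
      (modularFunctionFieldBar (N * c * q)) = q :=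
    h49_deg_alpha_dvd (N * c) q hq (Dvd.dvd.mul_right hqN c)
  have hsq : ∀ x : modularFunctionFieldBar N,
      ι.toRingHom (algebraMap (modularFunctionFieldBar N) (modularFunctionFieldBar (N * q)) x)
        = algebraMap (modularFunctionFieldBar (N * c)) (modularFunctionFieldBar (N * c * q))
          ((heckeAlphaBar Qb N c).toRingHom x) := by
    intro x
    show ι (heckeAlphaBar Qb N q x) = heckeAlphaBar Qb (N * c) q (heckeAlphaBar Qb N c x)
    apply Subtype.ext
    rw [hι, coe_heckeAlphaBar, coe_heckeAlphaBar, coe_heckeAlphaBar]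
  have hspan : Submodule.span (modularFunctionFieldBar (N * c)) (Set.range ι.toRingHom) = ⊤ := by
    refine h49_span_of_prime ι.toRingHom (by rw [hd1]; exact hq) ?_
    obtain ⟨f0, hf0⟩ := h49_not_contained_alpha N q c hq hqN hc hcNq
    refine ⟨f0, ?_⟩
    rintro ⟨g, hg⟩
    apply hf0 g
    have hg' : heckeAlphaBar Qb (N * c) q g = ι f0 := hg
    have := congrArg (fun x : modularFunctionFieldBar (N * c * q) => (x : LaurentSeries Qb)) hg'
    simpa only [coe_heckeAlphaBar, hι] using this
  exact h49_norm_bc_generic (heckeAlphaBar Qb N c).toRingHom ι.toRingHom hsq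
    (by rw [hd1, hd0]) hspan f

/-- **NBC, beta, `q ∣ N`.** -/
theorem h49_norm_bc_beta_dvd (N q c : ℕ) [NeZero N] [NeZero q] [NeZero c] (hq : q.Prime)
    (hqN : q ∣ N)
    (ι : modularFunctionFieldBar (N * q) →ₐ[Qb] modularFunctionFieldBar (N * c * q))
    (hι : ∀ f : modularFunctionFieldBar (N * q),
      ((ι f : modularFunctionFieldBar (N * c * q)) : LaurentSeries Qb) = (f : LaurentSeries Qb))
    (f : modularFunctionFieldBar (N * q)) :
    @Algebra.norm (modularFunctionFieldBar (N * c)) (modularFunctionFieldBar (N * c * q)) _ _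
        (algebraAlong (heckeBetaBar Qb (N * c) q)) (ι f)
      = heckeAlphaBar Qb N c
          (@Algebra.norm (modularFunctionFieldBar N) (modularFunctionFieldBar (N * q)) _ _
            (algebraAlong (heckeBetaBar Qb N q)) f) := by
  letI a0 : Algebra (modularFunctionFieldBar N) (modularFunctionFieldBar (N * q)) :=
    algebraAlong (heckeBetaBar Qb N q)
  letI a1 : Algebra (modularFunctionFieldBar (N * c)) (modularFunctionFieldBar (N * c * q)) :=
    algebraAlong (heckeBetaBar Qb (N * c) q)
  haveI : FiniteDimensional (modularFunctionFieldBar N) (modularFunctionFieldBar (N * q)) :=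
    h88_finiteAlong_beta N q
  have hd0 : Module.finrank (modularFunctionFieldBar N) (modularFunctionFieldBar (N * q)) = q :=
    h49_deg_beta_dvd N q hq hqN
  have hd1 : Module.finrank (modularFunctionFieldBar (N * c))
      (modularFunctionFieldBar (N * c * q)) = q :=
    h49_deg_beta_dvd (N * c) q hq (Dvd.dvd.mul_right hqN c)
  have hsq : ∀ x : modularFunctionFieldBar N,
      ι.toRingHom (algebraMap (modularFunctionFieldBar N) (modularFunctionFieldBar (N * q)) x)
        = algebraMap (modularFunctionFieldBar (N * c)) (modularFunctionFieldBar (N * c * q))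
          ((heckeAlphaBar Qb N c).toRingHom x) := by
    intro x
    show ι (heckeBetaBar Qb N q x) = heckeBetaBar Qb (N * c) q (heckeAlphaBar Qb N c x)
    apply Subtype.ext
    rw [hι, coe_heckeBetaBar, coe_heckeBetaBar, coe_heckeAlphaBar]
  have hspan : Submodule.span (modularFunctionFieldBar (N * c)) (Set.range ι.toRingHom) = ⊤ := by
    refine h49_span_of_prime ι.toRingHom (by rw [hd1]; exact hq) ?_
    refine ⟨h59_jbar (N * q), ?_⟩
    rintro ⟨g, hg⟩
    have hg' : heckeBetaBar Qb (N * c) q g = ι (h59_jbar (N * q)) := hg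
    refine h49_not_in_beta (N * c) q hq _ (h59_coe_jbar (N * q)) g ?_
    rw [hg', hι]
  exact h49_norm_bc_generic (heckeAlphaBar Qb N c).toRingHom ι.toRingHom hsq
    (by rw [hd1, hd0]) hspan f

/-! ## (PULL-NEW) and the auxiliary level package at `q ∣ N` -/

/-- **(PULL2)**: the pull-back along `X₀(N q c) → X₀(N q)` of a `q`-new torsion class is
`q`-new, for primes `q ∣ N` and `c ∤ N q`. -/
theorem h49_pullNew_dvd (N q c : ℕ) [NeZero N] [NeZero q] [NeZero c] (hq : q.Prime)
    (hqN : q ∣ N) (hc : c.Prime) (hcNq : ¬ c ∣ N * q) : h29_PullNew N q c :=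
  h29_pullNew_of_nbc N q c
    (fun ι hι f => h49_norm_bc_alpha_dvd N q c hq hqN hc hcNq ι hι f)
    (fun ι hι f => h49_norm_bc_beta_dvd N q c hq hqN ι hι f)

/-- **The auxiliary level map at `q ∣ N`.** For primes `q ∣ N` and `c ∤ N q` the pull-back
`J₀(N q) → J₀(N q c)` is injective on torsion, Galois-equivariant and preserves `q`-new torsion
classes. -/
theorem h49_aux_package_dvd (N q c : ℕ) [NeZero N] [NeZero q] [NeZero c] (hq : q.Prime)
    (hqN : q ∣ N) (hc : c.Prime) (hcNq : ¬ c ∣ N * q) :
    ∃ φ : JZero (N * q) →+ JZero (N * q * c),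
      (∀ n : ℕ, 0 < n → ∀ x : JZero (N * q), n • x = 0 → φ x = 0 → x = 0) ∧
      (∀ (σ : Γℚ) (x : JZero (N * q)), φ (σ • x) = σ • φ x) ∧
      (∀ n : ℕ, 0 < n → ∀ x : JZero (N * q), n • x = 0 → h67_Jnew N q x →
        h67_JnewAt (N * q * c) q (φ x)) := by
  haveI : HasPrincipalDivisors Qb (modularFunctionFieldBar (N * q * c)) :=
    h88_hasPrincipalDivisors (N * q * c)
  have hα := h88_alphaIntegral (N * q) c
  have hFI := h60_FI_alpha (N * q) c
  refine ⟨h87_pullPic0 (heckeAlphaBar Qb (N * q) c) hα hFI,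
    fun n hn x hx h0 => h54_lvl_inj (N * q) c hα hFI hc hcNq n hn x hx h0,
    fun σ x => h54_pull_galois (N * q) c hα hFI σ x,
    fun n hn x hx hnew => h49_pullNew_dvd N q c hq hqN hc hcNq hα hFI n hn x hx hnew⟩

/-! ## Descent of (GEOM-N) from the auxiliary level -/

/-- (GEOM-N) at a level `L` (a variable), for a place `A`, a prime `lam` and a constant `k`:
every `lam`-power torsion, `q`-new, inertia-fixed class of `J₀(L)` is killed by `k`. -/
def h49_GeomNAt (L q lam : ℕ) [NeZero q] (A : ValuationSubring Qb) (k : ℕ) : Prop :=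
  ∀ (n : ℕ) (x : JZero L), lam ^ n • x = 0 → h67_JnewAt L q x →
    (∀ s ∈ A.inertiaSubgroupIn ℚ, s • x = x) → k • x = 0

theorem h49_geomNAt_congr {L L' : ℕ} (q lam : ℕ) [NeZero q] (A : ValuationSubring Qb) (k : ℕ)
    (hL : L = L') (h : h49_GeomNAt L q lam A k) : h49_GeomNAt L' q lam A k := by
  subst hL
  exact h

/-- `h49_GeomNAt (N * q)` unfolded: the body of (GEOM-N) with `h67_Jnew N q`. -/
theorem h49_geomNAt_iff (N q lam : ℕ) [NeZero N] [NeZero q] (A : ValuationSubring Qb) (k : ℕ) :
    h49_GeomNAt (N * q) q lam A k ↔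
      ∀ (n : ℕ) (x : JZero (N * q)), lam ^ n • x = 0 → h67_Jnew N q x →
        (∀ s ∈ A.inertiaSubgroupIn ℚ, s • x = x) → k • x = 0 := by
  constructor
  · intro h n x hx hnew hfix
    exact h n x hx ((h67_jnewAt_iff N q x).2 hnew) hfix
  · intro h n x hx hnew hfix
    exact h n x hx ((h67_jnewAt_iff N q x).1 hnew) hfix

/-- **Descent of (GEOM-N)**, level-variable form: from level `N q c` to level `N q`. -/
theorem h49_geomNAt_descent (N q c : ℕ) [NeZero N] [NeZero q] [NeZero c] (hq : q.Prime)
    (hqN : q ∣ N) (hc : c.Prime) (hcNq : ¬ c ∣ N * q) (lam : ℕ) (hlam : 0 < lam)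
    (A : ValuationSubring Qb) (k : ℕ)
    (h : h49_GeomNAt (N * q * c) q lam A k) : h49_GeomNAt (N * q) q lam A k := by
  obtain ⟨φ, hinj, hgal, hnew⟩ := h49_aux_package_dvd N q c hq hqN hc hcNq
  intro n x hx hx_new hfix
  have hx' : h67_Jnew N q x := (h67_jnewAt_iff N q x).1 hx_new
  have hpos : 0 < lam ^ n := pow_pos hlam n
  have h1 : k • φ x = 0 := by
    refine h n (φ x) ?_ (hnew (lam ^ n) hpos x hx hx') ?_
    · rw [← map_nsmul, hx, map_zero]
    · intro s hs
      rw [← hgal, hfix s hs]
  refine hinj (lam ^ n) hpos (k • x) ?_ ?_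
  · rw [smul_comm, hx, smul_zero]
  · rw [map_nsmul, h1]

/-- **Descent of (GEOM-N)** in the form of the interface: if every `lam`-power torsion, `q`-new,
inertia-fixed class of `J₀(N c q)` is killed by `k`, the same holds for `J₀(N q)` (primes
`q ∣ N`, `c ∤ N q`). -/
theorem h49_geomN_descent (N q c : ℕ) [NeZero N] [NeZero q] [NeZero c] (hq : q.Prime)
    (hqN : q ∣ N) (hc : c.Prime) (hcNq : ¬ c ∣ N * q) (lam : ℕ) (hlam : 0 < lam)
    (A : ValuationSubring Qb) (k : ℕ)
    (h : ∀ (n : ℕ) (x : JZero (N * c * q)), lam ^ n • x = 0 → h67_Jnew (N * c) q x →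
      (∀ s ∈ A.inertiaSubgroupIn ℚ, s • x = x) → k • x = 0) :
    ∀ (n : ℕ) (x : JZero (N * q)), lam ^ n • x = 0 → h67_Jnew N q x →
      (∀ s ∈ A.inertiaSubgroupIn ℚ, s • x = x) → k • x = 0 := by
  have h1 : h49_GeomNAt (N * c * q) q lam A k := (h49_geomNAt_iff (N * c) q lam A k).2 h
  have h2 : h49_GeomNAt (N * q * c) q lam A k :=
    h49_geomNAt_congr q lam A k (by ring) h1
  exact (h49_geomNAt_iff N q lam A k).1
    (h49_geomNAt_descent N q c hq hqN hc hcNq lam hlam A k h2)

end Fermat.Agent.S36
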