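import Mathlib
import Fermat.Agent.S36.h49_Pull2

/-!
# S36, layer (L4), glue (helper70): (GEOM-N) at all levels from the charted levels

The geometric layers prove the statement (GEOM-N)

  `x ∈ J₀(L q²)[lam^n]` fixed by the inertia group of `A`, `q`-new  ⟹  `c • x = 0`

only at the *charted* levels `L q²` (`q ∤ L`): some prime `r ≡ 11 mod 12` divides `L`, and
`5 ≤ q ∨ 2 ∣ L ∨ 3 ∣ L`.  The lossless auxiliary-level descent `h49_geomNAt_descent`
(helper49) and Dirichlet's theorem remove both restrictions: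

* `h70_exists_aux_prime` : primes `r ≡ 11 mod 12` above any bound;
* `h70_geomNAt_step` : one descent step `L c q² → L q²` (level-variable form);
* `h70_geomNAt_of_charted` : (GEOM-N) at every level `L q²`, `q ∤ L`, from the charted levels;
* `h70_geomN_of_charted` : the same with the unfolded body (`h67_Jnew (L q) q`);
* `h70_geomNAt_of_factorization` : the same at a level variable `M` with `M.factorization q = 2`;
* `h70_nuTwo_eq_zero`, `h70_nuThree_eq_zero` : a prime `r ≡ 3 mod 4` (resp. `r ≡ 2 mod 3`)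
  dividing `L` kills the elliptic points of order `2` (resp. `3`) of `X₀(L)`.
-/

set_option autoImplicit false
set_option synthInstance.maxHeartbeats 400000

noncomputable section

open ModularCurve AlgebraicCurve

namespace Fermat.Agent.S36

open Fermat.Agent.S35

local notation "Qb" => AlgebraicClosure ℚ

/-- **Dirichlet**: there are primes `r ≡ 11 mod 12` above any bound. -/
theorem h70_exists_aux_prime (n : ℕ) : ∃ r : ℕ, r.Prime ∧ n < r ∧ r % 12 = 11 := by
  obtain ⟨p, hp, hpp, hmod⟩ :=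
    Nat.forall_exists_prime_gt_and_modEq n (q := 12) (a := 11) (by norm_num) (by decide)
  exact ⟨p, hpp, hp, hmod⟩

/-- One descent step in level-variable form: from the level `L c q²` to the level `L q²`. -/
theorem h70_geomNAt_step (L q c : ℕ) [NeZero L] [NeZero q] [NeZero c] (hq : q.Prime)
    (hc : c.Prime) (hcL : ¬ c ∣ L) (hcq : c ≠ q) (lam : ℕ) (hlam : 0 < lam)
    (A : ValuationSubring Qb) (k : ℕ) (h : h49_GeomNAt (L * c * q * q) q lam A k) :
    h49_GeomNAt (L * q * q) q lam A k := by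
  have hcNq : ¬ c ∣ L * q * q := by
    intro hdvd
    rcases (Nat.Prime.dvd_mul hc).1 hdvd with h1 | h1
    · rcases (Nat.Prime.dvd_mul hc).1 h1 with h2 | h2
      · exact hcL h2
      · exact hcq ((Nat.prime_dvd_prime_iff_eq hc hq).1 h2)
    · exact hcq ((Nat.prime_dvd_prime_iff_eq hc hq).1 h1)
  exact h49_geomNAt_descent (L * q) q c hq (Dvd.intro_left L rfl) hc hcNq lam hlam A k
    (h49_geomNAt_congr q lam A k (by ring) h)

/-- **(GEOM-N) at every level `L q²`, `q ∤ L`, from the charted levels** (level-variable form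
of the conclusion). -/
theorem h70_geomNAt_of_charted
    (hch : ∀ (L q : ℕ) [NeZero L] [NeZero q] (lam : ℕ), q.Prime → ¬ q ∣ L → lam.Prime →
      lam ≠ q → (∃ r : ℕ, r.Prime ∧ r % 12 = 11 ∧ r ∣ L) → (5 ≤ q ∨ 2 ∣ L ∨ 3 ∣ L) →
      ∀ A : ValuationSubring Qb, A.LiesOverPrime q → ∃ c : ℕ, 0 < c ∧
        ∀ (n : ℕ) (x : JZero (L * q * q)), lam ^ n • x = 0 → h67_Jnew (L * q) q x →
          (∀ s ∈ A.inertiaSubgroupIn ℚ, s • x = x) → c • x = 0)
    (L q : ℕ) [NeZero L] [NeZero q] (lam : ℕ) (hq : q.Prime) (hqL : ¬ q ∣ L) (hlam : lam.Prime)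
    (hlq : lam ≠ q) (A : ValuationSubring Qb) (hA : A.LiesOverPrime q) :
    ∃ c : ℕ, 0 < c ∧ h49_GeomNAt (L * q * q) q lam A c := by
  -- the charted case, in level-variable form
  have hch' : ∀ (L' : ℕ) [NeZero L'], ¬ q ∣ L' → (∃ r : ℕ, r.Prime ∧ r % 12 = 11 ∧ r ∣ L') →
      (5 ≤ q ∨ 2 ∣ L' ∨ 3 ∣ L') → ∃ c : ℕ, 0 < c ∧ h49_GeomNAt (L' * q * q) q lam A c := by
    intro L' _ hqL' hr hc
    obtain ⟨c, hc0, hbody⟩ := hch L' q lam hq hqL' hlam hlq hr hc A hA
    exact ⟨c, hc0, (h49_geomNAt_iff (L' * q) q lam A c).2 hbody⟩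
  -- second step: add a prime `r ≡ 11 mod 12`
  have hstep2 : ∀ (L' : ℕ) [NeZero L'], ¬ q ∣ L' → (5 ≤ q ∨ 2 ∣ L' ∨ 3 ∣ L') →
      ∃ c : ℕ, 0 < c ∧ h49_GeomNAt (L' * q * q) q lam A c := by
    intro L' _ hqL' hc
    obtain ⟨r, hr, hrgt, hrmod⟩ := h70_exists_aux_prime (L' * q)
    have hL'pos : 0 < L' := Nat.pos_of_ne_zero (NeZero.ne L')
    have hrL' : ¬ r ∣ L' := by
      intro hdvd
      have h1 := Nat.le_of_dvd hL'pos hdvd
      have h2 : L' ≤ L' * q := Nat.le_mul_of_pos_right L' hq.pos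
      omega
    have hrq : r ≠ q := by
      rintro rfl
      have h2 : r ≤ L' * r := Nat.le_mul_of_pos_left r hL'pos
      omega
    haveI : NeZero r := ⟨hr.ne_zero⟩
    haveI : NeZero (L' * r) := ⟨Nat.mul_ne_zero (NeZero.ne L') hr.ne_zero⟩
    have hqL'r : ¬ q ∣ L' * r := by
      intro hdvd
      rcases (Nat.Prime.dvd_mul hq).1 hdvd with h1 | h1
      · exact hqL' h1
      · exact hrq ((Nat.prime_dvd_prime_iff_eq hq hr).1 h1).symm
    have hc' : 5 ≤ q ∨ 2 ∣ L' * r ∨ 3 ∣ L' * r := by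
      rcases hc with h | h | h
      · exact Or.inl h
      · exact Or.inr (Or.inl (Dvd.dvd.mul_right h r))
      · exact Or.inr (Or.inr (Dvd.dvd.mul_right h r))
    obtain ⟨c, hc0, hgeom⟩ := hch' (L' * r) hqL'r ⟨r, hr, hrmod, Dvd.intro_left L' rfl⟩ hc'
    exact ⟨c, hc0, h70_geomNAt_step L' q r hq hr hrL' hrq lam hlam.pos A c hgeom⟩
  -- first step: add `2` or `3` when `q < 5`
  by_cases hc : 5 ≤ q ∨ 2 ∣ L ∨ 3 ∣ L
  · exact hstep2 L hqL hc
  · rw [not_or, not_or] at hc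
    obtain ⟨hq5, h2L, h3L⟩ := hc
    have hq23 : q = 2 ∨ q = 3 := by
      have h2 := hq.two_le
      have h4 : q ≠ 4 := by
        rintro rfl
        exact absurd hq (by decide)
      omega
    rcases hq23 with rfl | rfl
    · -- `q = 2`: auxiliary prime `3`
      haveI : NeZero (L * 3) := ⟨Nat.mul_ne_zero (NeZero.ne L) (by norm_num)⟩
      have hqL3 : ¬ 2 ∣ L * 3 := by
        intro hdvd
        rcases (Nat.Prime.dvd_mul Nat.prime_two).1 hdvd with h1 | h1
        · exact h2L h1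
        · omega
      obtain ⟨c, hc0, hgeom⟩ := hstep2 (L * 3) hqL3 (Or.inr (Or.inr (Dvd.intro_left L rfl)))
      exact ⟨c, hc0, h70_geomNAt_step L 2 3 hq Nat.prime_three h3L (by norm_num) lam hlam.pos A c
        hgeom⟩
    · -- `q = 3`: auxiliary prime `2`
      haveI : NeZero (L * 2) := ⟨Nat.mul_ne_zero (NeZero.ne L) (by norm_num)⟩
      have hqL2 : ¬ 3 ∣ L * 2 := by
        intro hdvd
        rcases (Nat.Prime.dvd_mul Nat.prime_three).1 hdvd with h1 | h1
        · exact h3L h1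
        · omega
      obtain ⟨c, hc0, hgeom⟩ := hstep2 (L * 2) hqL2 (Or.inr (Or.inl (Dvd.intro_left L rfl)))
      exact ⟨c, hc0, h70_geomNAt_step L 3 2 hq Nat.prime_two h2L (by norm_num) lam hlam.pos A c
        hgeom⟩

/-- **(GEOM-N) at every level `L q²`, `q ∤ L`, from the charted levels** (unfolded body). -/
theorem h70_geomN_of_charted
    (hch : ∀ (L q : ℕ) [NeZero L] [NeZero q] (lam : ℕ), q.Prime → ¬ q ∣ L → lam.Prime →
      lam ≠ q → (∃ r : ℕ, r.Prime ∧ r % 12 = 11 ∧ r ∣ L) → (5 ≤ q ∨ 2 ∣ L ∨ 3 ∣ L) →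
      ∀ A : ValuationSubring Qb, A.LiesOverPrime q → ∃ c : ℕ, 0 < c ∧
        ∀ (n : ℕ) (x : JZero (L * q * q)), lam ^ n • x = 0 → h67_Jnew (L * q) q x →
          (∀ s ∈ A.inertiaSubgroupIn ℚ, s • x = x) → c • x = 0)
    (L q : ℕ) [NeZero L] [NeZero q] (lam : ℕ) (hq : q.Prime) (hqL : ¬ q ∣ L) (hlam : lam.Prime)
    (hlq : lam ≠ q) (A : ValuationSubring Qb) (hA : A.LiesOverPrime q) :
    ∃ c : ℕ, 0 < c ∧ ∀ (n : ℕ) (x : JZero (L * q * q)), lam ^ n • x = 0 →
      h67_Jnew (L * q) q x → (∀ s ∈ A.inertiaSubgroupIn ℚ, s • x = x) → c • x = 0 := by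
  obtain ⟨c, hc0, h⟩ := h70_geomNAt_of_charted hch L q lam hq hqL hlam hlq A hA
  exact ⟨c, hc0, (h49_geomNAt_iff (L * q) q lam A c).1 h⟩

/-- **(GEOM-N) at a level variable `M` with `q² ∥ M`**, from the charted levels: the `q`-new,
inertia-fixed `lam`-power torsion of `J₀(M)` is killed by a constant. -/
theorem h70_geomNAt_of_factorization
    (hch : ∀ (L q : ℕ) [NeZero L] [NeZero q] (lam : ℕ), q.Prime → ¬ q ∣ L → lam.Prime →
      lam ≠ q → (∃ r : ℕ, r.Prime ∧ r % 12 = 11 ∧ r ∣ L) → (5 ≤ q ∨ 2 ∣ L ∨ 3 ∣ L) →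
      ∀ A : ValuationSubring Qb, A.LiesOverPrime q → ∃ c : ℕ, 0 < c ∧
        ∀ (n : ℕ) (x : JZero (L * q * q)), lam ^ n • x = 0 → h67_Jnew (L * q) q x →
          (∀ s ∈ A.inertiaSubgroupIn ℚ, s • x = x) → c • x = 0)
    (M q : ℕ) [NeZero M] [NeZero q] (lam : ℕ) (hq : q.Prime) (hM : M.factorization q = 2)
    (hlam : lam.Prime) (hlq : lam ≠ q) (A : ValuationSubring Qb) (hA : A.LiesOverPrime q) :
    ∃ c : ℕ, 0 < c ∧ h49_GeomNAt M q lam A c := by
  have hM0 : M ≠ 0 := NeZero.ne M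
  set L := M / q ^ 2 with hL
  have hdecomp : q ^ 2 * L = M := by
    have h := Nat.ordProj_mul_ordCompl_eq_self M q
    rw [hM] at h
    exact h
  have hL0 : L ≠ 0 := by
    rintro h0
    rw [h0, mul_zero] at hdecomp
    exact hM0 hdecomp.symm
  have hqL : ¬ q ∣ L := by
    have h := Nat.not_dvd_ordCompl hq hM0
    rw [hM] at h
    exact h
  haveI : NeZero L := ⟨hL0⟩
  obtain ⟨c, hc0, h⟩ := h70_geomNAt_of_charted hch L q lam hq hqL hlam hlq A hA
  exact ⟨c, hc0, h49_geomNAt_congr q lam A c (by rw [← hdecomp]; ring) h⟩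

/-! ## No elliptic points at the charted levels -/

/-- A prime `r ≡ 3 mod 4` dividing `L` kills the elliptic points of order `2`. -/
theorem h70_nuTwo_eq_zero (r L : ℕ) (hr : r.Prime) (hr4 : r % 4 = 3) (hrL : r ∣ L) :
    ModularCurve.nuTwo L = 0 := by
  haveI : Fact r.Prime := ⟨hr⟩
  have hempty : IsEmpty {x : ZMod L // x ^ 2 + 1 = 0} := by
    refine ⟨fun x => ?_⟩
    have h1 : (ZMod.castHom hrL (ZMod r)) (x.1 ^ 2 + 1) = 0 := by rw [x.2, map_zero]
    rw [map_add, map_pow, map_one] at h1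
    have h2 : IsSquare (-1 : ZMod r) :=
      ⟨ZMod.castHom hrL (ZMod r) x.1, by linear_combination -h1⟩
    exact (ZMod.exists_sq_eq_neg_one_iff.1 h2) hr4
  rw [ModularCurve.nuTwo]
  exact Nat.card_of_isEmpty

/-- A prime `r ≡ 2 mod 3` dividing `L` kills the elliptic points of order `3`. -/
theorem h70_nuThree_eq_zero (r L : ℕ) (hr : r.Prime) (hr3 : r % 3 = 2) (hrL : r ∣ L) :
    ModularCurve.nuThree L = 0 := by
  haveI : Fact r.Prime := ⟨hr⟩
  have hempty : IsEmpty {x : ZMod L // x ^ 2 + x + 1 = 0} := by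
    refine ⟨fun x => ?_⟩
    set y : ZMod r := ZMod.castHom hrL (ZMod r) x.1 with hy
    have h1 : y ^ 2 + y + 1 = 0 := by
      have h := congrArg (ZMod.castHom hrL (ZMod r)) x.2
      rwa [map_add, map_add, map_pow, map_one, map_zero] at h
    have hy3 : y ^ 3 = 1 := by linear_combination (y - 1) * h1
    have hy1 : y ≠ 1 := by
      rintro h
      rw [h] at h1
      have h3 : ((3 : ℕ) : ZMod r) = 0 := by
        push_cast
        linear_combination h1
      rw [ZMod.natCast_eq_zero_iff] at h3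
      have := (Nat.prime_dvd_prime_iff_eq hr Nat.prime_three).1 h3
      omega
    have hy0 : y ≠ 0 := by
      rintro h
      rw [h] at hy3
      simp at hy3
    have hord : orderOf y = 3 := by
      refine orderOf_eq_prime hy3 hy1
    have hdvd : orderOf y ∣ r - 1 := ZMod.orderOf_dvd_card_sub_one hy0
    rw [hord] at hdvd
    have := hr.two_le
    omega
  rw [ModularCurve.nuThree]
  exact Nat.card_of_isEmpty

/-- A prime `r ≡ 11 mod 12` dividing `L`: `X₀(L)` has no elliptic points. -/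
theorem h70_nu_zero (r L : ℕ) (hr : r.Prime) (hr12 : r % 12 = 11) (hrL : r ∣ L) :
    ModularCurve.nuTwo L = 0 ∧ ModularCurve.nuThree L = 0 :=
  ⟨h70_nuTwo_eq_zero r L hr (by omega) hrL, h70_nuThree_eq_zero r L hr (by omega) hrL⟩

end Fermat.Agent.S36

end
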