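import Mathlib
import Fermat.Agent.S36.h29_S36Top
import Fermat.Agent.S36.h83_GenusMod
import Fermat.Agent.S36.h70_GeomNAux

/-!
# S36 from the charted geometric input alone

`h29_S36_of_charted` : the conclusion of the frozen S36 from the single hypothesis `hch`
(the body of (GEOM-N) at the charted levels `L q²`, architect's decision D2 = the hypothesis of
`h70_geomN_of_charted`).  The genus bridge is discharged by `h83_h75_genus_jbar`, the passage
from charted levels to all levels by `h70_geomN_of_charted`.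

So `Fermat/Agent/S36.lean` is
`h29_S36_of_charted h61_geomN_charted hg lam S O' hlamO' hlam2 chig hchig iota hlamS hMS`.
-/

set_option autoImplicit false
set_option linter.unusedSectionVars false
set_option linter.style.haveILetI false

open Polynomial CongruenceSubgroup ModularCurve AlgebraicCurve

namespace Fermat.Agent.S36

open Fermat.Agent.GAL Fermat.Agent.S16 Fermat.Agent.S24 Fermat.Agent.S35 Fermat.Agent.S33
open Fermat.Agent.S18

local notation "Qb" => AlgebraicClosure ℚ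

/-- (GEOM-N) at every level `N q` with `q ∥ N`, from the charted levels. -/
theorem h29_geomN_of_charted
    (hch : ∀ (L q : ℕ) [NeZero L] [NeZero q] (lam : ℕ), q.Prime → ¬ q ∣ L → lam.Prime →
      lam ≠ q → (∃ r : ℕ, r.Prime ∧ r % 12 = 11 ∧ r ∣ L) → (5 ≤ q ∨ 2 ∣ L ∨ 3 ∣ L) →
      ∀ A : ValuationSubring Qb, A.LiesOverPrime q → ∃ c : ℕ, 0 < c ∧
        ∀ (n : ℕ) (x : JZero (L * q * q)), lam ^ n • x = 0 → h67_Jnew (L * q) q x →
          (∀ s ∈ A.inertiaSubgroupIn ℚ, s • x = x) → c • x = 0)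
    (N q lam : ℕ) [NeZero N] [NeZero q] (hq : q.Prime) (hqN : q ∣ N) (hq2N : ¬ q ^ 2 ∣ N)
    (hlam : lam.Prime) (hlq : lam ≠ q) : h29_GeomN N q lam := by
  obtain ⟨L, rfl⟩ : ∃ L, N = L * q := ⟨N / q, (Nat.div_mul_cancel hqN).symm⟩
  haveI : NeZero L := ⟨fun h => NeZero.ne (L * q) (by rw [h, zero_mul])⟩
  have hqL : ¬ q ∣ L := by
    rintro ⟨c, rfl⟩
    exact hq2N ⟨c, by ring⟩
  obtain ⟨A, hA⟩ := Fermat.Agent.S54.exists_liesOverPrime q hq
  obtain ⟨c, hc, h⟩ := h70_geomN_of_charted hch L q lam hq hqL hlam hlq A hA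
  exact ⟨A, hA, c, hc, h⟩

/-- **S36 from the charted geometric input.** -/
theorem h29_S36_of_charted
    (hch : ∀ (L q : ℕ) [NeZero L] [NeZero q] (lam : ℕ), q.Prime → ¬ q ∣ L → lam.Prime →
      lam ≠ q → (∃ r : ℕ, r.Prime ∧ r % 12 = 11 ∧ r ∣ L) → (5 ≤ q ∨ 2 ∣ L ∨ 3 ∣ L) →
      ∀ A : ValuationSubring Qb, A.LiesOverPrime q → ∃ c : ℕ, 0 < c ∧
        ∀ (n : ℕ) (x : JZero (L * q * q)), lam ^ n • x = 0 → h67_Jnew (L * q) q x →
          (∀ s ∈ A.inertiaSubgroupIn ℚ, s • x = x) → c • x = 0)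
    {M : ℕ} [NeZero M] {g : CuspForm (Gamma0 M) 2} (hg : g.IsNewform)
    (lam : ℕ) [Fact lam.Prime] (S : Finset ℕ)
    (O' : Type) [CommRing O'] [IsDomain O'] [IsDiscreteValuationRing O']
    [IsAdicComplete (IsLocalRing.maximalIdeal O') O'] [Finite (IsLocalRing.ResidueField O')]
    [CharZero O'] (hlamO' : (lam : O') ∈ IsLocalRing.maximalIdeal O')
    (hlam2 : lam ≠ 2)
    (chig : CuspForm.heckeAlgebra M 2 (↑S : Set ℕ) →+* ℂ)
    (hchig : ∀ (ℓ : ℕ) (hℓ : ℓ.Prime) (hℓM : ¬ ℓ ∣ M) (hℓS : ℓ ∉ (↑S : Set ℕ)),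
      chig (CuspForm.heckeAlgebra.T hℓ hℓM hℓS) = ModularFormClass.qCoeff g ℓ)
    (iota : chig.range →+* O')
    (hlamS : lam ∈ S) (hMS : ∀ q : ℕ, q.Prime → q ∣ M → q ∈ S) :
    ∃ (O'' : Type) (_ : CommRing O'') (_ : IsDomain O'') (_ : IsDiscreteValuationRing O'')
      (_ : IsAdicComplete (IsLocalRing.maximalIdeal O'') O'')
      (_ : Finite (IsLocalRing.ResidueField O''))
      (_ : CharZero O'') (_ : Algebra O' O'') (_ : Module.Finite O' O'')
      (_ : IsLocalHom (algebraMap O' O'')),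
      Function.Injective (algebraMap O' O'') ∧
      ∃ ρ : GaloisRepAdic O'',
        (∀ (ℓ : ℕ) (hℓ : ℓ.Prime) (hℓM : ¬ ℓ ∣ M) (hℓS : ℓ ∉ (↑S : Set ℕ)),
          ∀ A : ValuationSubring (AlgebraicClosure ℚ), A.LiesOverPrime ℓ →
            ∀ σ : AlgebraicClosure ℚ ≃ₐ[ℚ] AlgebraicClosure ℚ, A.IsFrobeniusAt σ ℓ →
              LinearMap.charpoly (ρ.ρ σ) =
                X ^ 2 - C (algebraMap O' O'' ((iota.comp chig.rangeRestrict)
                  (CuspForm.heckeAlgebra.T hℓ hℓM hℓS))) * X + C ((ℓ : O''))) ∧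
        (∀ q : ℕ, q.Prime → q ≠ lam → M.factorization q = 2 →
          ¬ ρ.IsUnipotentOnInertiaAt q) :=
  h29_S36_of_geom (fun N _ => h83_h75_genus_jbar N)
    (fun N q lam _ _ hq hqN hq2 hlam hlq _ => h29_geomN_of_charted hch N q lam hq hqN hq2 hlam hlq)
    hg lam S O' hlamO' hlam2 chig hchig iota hlamS hMS

end Fermat.Agent.S36
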