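/-
S36 / row I-CUSP (helper16): the cusps of `X₀(q)` and the ratio `ω = j(qτ) / j(τ)^q`.

Level `1 * q` over `ℚ̄`: `j0 = j(τ)`, `j1 = j(qτ)`, `ω = j1 / j0^q`.

* `h16_incl` : the inclusion `F(N) → F(N₁)` for `N ∣ N₁`, integral (`h16_incl_integral`);
* `h16_lvl1q_poles` : every pole of `j0` or of `j1` is one of the two cusps `P∞`, `P0`;
* `h16_cusp_table` : for every integral `ℚ̄`-algebra map `φ : F(1 * q) → F'` and every place `P`
  of `F'`: either `φ j0`, `φ j1` are both regular at `P`, or (type `∞`)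
  `ord (φ j1) = q ord (φ j0) < 0` and `ord (φ ω - 1) ≥ - ord (φ j0)`, or (type `0`)
  `ord (φ j0) = q ord (φ j1) < 0` and `ord (φ ω) > 0`.
-/
import Mathlib
import Fermat.Agent.S34.h10_CuspMq
import Fermat.Agent.S34.h60_R2
import Fermat.Agent.S24.h78_Fibres
import Fermat.Agent.S24.h33_Cusps
import Fermat.Agent.S18.h46_LevelTransfer

set_option autoImplicit false
set_option synthInstance.maxHeartbeats 400000
set_option linter.style.haveILetI false
set_option linter.unusedSectionVars false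

noncomputable section

namespace Fermat.Agent.S36

open AlgebraicCurve HahnSeries ModularCurve IntermediateField
open Fermat.Agent.S24 Fermat.Agent.S18 Fermat.Agent.S37 Fermat.Agent.S34

local notation "Qb" => AlgebraicClosure ℚ

/-! ### The inclusion of levels -/

/-- The inclusion `F(N) → F(N₁)` for `N ∣ N₁`. -/
def h16_incl {N N₁ : ℕ} [NeZero N] [NeZero N₁] (h : N ∣ N₁) :
    ↥(modularFunctionFieldBar N) →ₐ[Qb] ↥(modularFunctionFieldBar N₁) :=
  IntermediateField.inclusion (h46_bar_le h)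

theorem h16_coe_incl {N N₁ : ℕ} [NeZero N] [NeZero N₁] (h : N ∣ N₁)
    (f : ↥(modularFunctionFieldBar N)) :
    ((h16_incl h f : ↥(modularFunctionFieldBar N₁)) : LaurentSeries Qb)
      = (f : LaurentSeries Qb) :=
  IntermediateField.coe_inclusion _ f

theorem h16_incl_jbar {N N₁ : ℕ} [NeZero N] [NeZero N₁] (h : N ∣ N₁) :
    h16_incl h (h59_jbar N) = h59_jbar N₁ :=
  Subtype.ext (by rw [h16_coe_incl]; rfl)

theorem h16_incl_integral {N N₁ : ℕ} [NeZero N] [NeZero N₁] (h : N ∣ N₁) :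
    (h16_incl h).toRingHom.IsIntegral := by
  refine h88_isIntegral_of_finiteAlong _ (h88_finiteAlong_of_finite _ (h59_jbar N) ?_)
  rw [h16_incl_jbar]
  exact h78_finiteDimensional N₁

/-! ### Leading coefficients of the expansions -/

/-- The leading coefficient of the `q`-expansion. -/
def h16_lc {N : ℕ} (f : ↥(modularFunctionFieldBar N)) : Qb :=
  (f : LaurentSeries Qb).leadingCoeff

theorem h16_lc_mul {N : ℕ} (f g : ↥(modularFunctionFieldBar N)) :
    h16_lc (f * g) = h16_lc f * h16_lc g :=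
  HahnSeries.leadingCoeff_mul _ _

theorem h16_lc_one {N : ℕ} : h16_lc (1 : ↥(modularFunctionFieldBar N)) = 1 :=
  HahnSeries.leadingCoeff_one

theorem h16_lc_pow {N : ℕ} (f : ↥(modularFunctionFieldBar N)) (n : ℕ) :
    h16_lc (f ^ n) = h16_lc f ^ n := by
  induction n with
  | zero => rw [pow_zero, pow_zero, h16_lc_one]
  | succ n ih => rw [pow_succ, pow_succ, h16_lc_mul, ih]

theorem h16_lc_inv {N : ℕ} {f : ↥(modularFunctionFieldBar N)} (hf : f ≠ 0) :
    h16_lc f⁻¹ = (h16_lc f)⁻¹ := by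
  have h1 : h16_lc f⁻¹ * h16_lc f = 1 := by
    rw [← h16_lc_mul, inv_mul_cancel₀ hf, h16_lc_one]
  exact eq_inv_of_mul_eq_one_left h1

theorem h16_lc_jbar (N : ℕ) : h16_lc (h59_jbar N) = 1 := by
  have h1 : ((h59_jbar N : ↥(modularFunctionFieldBar N)) : LaurentSeries Qb).order = -1 :=
    h10_order_jbar N
  rw [h16_lc, HahnSeries.leadingCoeff_eq, h1, h59_coe_jbar]
  have h2 := h59_coeff_coeffEmb_jq_pow_self Qb 1
  rw [pow_one] at h2
  exact_mod_cast h2

theorem h16_lc_alpha (N ℓ : ℕ) [NeZero N] [NeZero ℓ] (g : ↥(modularFunctionFieldBar N)) :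
    h16_lc (heckeAlphaBar Qb N ℓ g) = h16_lc g := by
  rw [h16_lc, coe_heckeAlphaBar]
  rfl

theorem h16_lc_beta (N ℓ : ℕ) [NeZero N] [NeZero ℓ] (g : ↥(modularFunctionFieldBar N)) :
    h16_lc (heckeBetaBar Qb N ℓ g) = h16_lc g := by
  rw [h16_lc, h16_lc, coe_heckeBetaBar, HahnSeries.leadingCoeff_eq, HahnSeries.leadingCoeff_eq,
    h64_order_qExpand, qExpand_coeff_mul]

/-! ### Level one: the only pole of `j` is the cusp -/

theorem h16_lvl1_exists_cusp :
    ∃ PM : Place Qb ↥(modularFunctionFieldBar 1), h10_IsCusp (modularFunctionFieldBar 1) PM :=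
  h10_exists_cusp ⟨h59_jbar 1, h10_order_jbar 1⟩

theorem h16_lvl1_pole {PM : Place Qb ↥(modularFunctionFieldBar 1)}
    (hPM : h10_IsCusp (modularFunctionFieldBar 1) PM)
    (v : Place Qb ↥(modularFunctionFieldBar 1)) (hv : v ≠ PM) : 0 ≤ v.ord (h59_jbar 1) := by
  by_contra hneg
  push Not at hneg
  have hcard : Nat.card {v : Place Qb ↥(modularFunctionFieldBar 1) //
      v.ord (h59_jbar 1) < 0} = 1 := by
    rw [h78_card_poles 1, h33_orbits_T 1, cuspCount_one]
  have hPMpole : PM.ord (h59_jbar 1) < 0 := by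
    rw [hPM.ord_eq, h10_order_jbar]
    norm_num
  have hsub : Subsingleton {v : Place Qb ↥(modularFunctionFieldBar 1) //
      v.ord (h59_jbar 1) < 0} := (Nat.card_eq_one_iff_unique.1 hcard).1
  have h1 := Subsingleton.elim
    (⟨v, hneg⟩ : {v : Place Qb ↥(modularFunctionFieldBar 1) // v.ord (h59_jbar 1) < 0})
    ⟨PM, hPMpole⟩
  exact hv (congrArg Subtype.val h1)

/-! ### Level `1 * q` -/

section LevelQ

variable (q : ℕ) [NeZero q] [Fact q.Prime]

/-- `j(τ)` at level `1 * q`. -/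
def h16_j0 : ↥(modularFunctionFieldBar (1 * q)) := heckeAlphaBar Qb 1 q (h59_jbar 1)

/-- `j(qτ)` at level `1 * q`. -/
def h16_j1 : ↥(modularFunctionFieldBar (1 * q)) := heckeBetaBar Qb 1 q (h59_jbar 1)

/-- `ω = j(qτ) / j(τ)^q`. -/
def h16_om : ↥(modularFunctionFieldBar (1 * q)) := h16_j1 q * (h16_j0 q)⁻¹ ^ q

theorem h16_j0_eq : h16_j0 q = h59_jbar (1 * q) := h88_alpha_jbar 1 q

theorem h16_j0_ne_zero : h16_j0 q ≠ 0 := by
  rw [h16_j0_eq]
  intro h
  apply h59_jbar_transcendental (1 * q)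
  rw [h]
  exact isAlgebraic_zero

theorem h16_j1_ne_zero : h16_j1 q ≠ 0 := by
  intro h
  have h0 : h59_jbar 1 = 0 := (map_eq_zero (heckeBetaBar Qb 1 q)).mp h
  apply h59_jbar_transcendental 1
  rw [h0]
  exact isAlgebraic_zero

theorem h16_om_ne_zero : h16_om q ≠ 0 :=
  mul_ne_zero (h16_j1_ne_zero q) (pow_ne_zero _ (inv_ne_zero (h16_j0_ne_zero q)))

theorem h16_coe_j0 : ((h16_j0 q : ↥(modularFunctionFieldBar (1 * q))) : LaurentSeries Qb)
    = coeffEmb Qb jq := by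
  rw [h16_j0, coe_heckeAlphaBar]
  rfl

theorem h16_coe_j1 : ((h16_j1 q : ↥(modularFunctionFieldBar (1 * q))) : LaurentSeries Qb)
    = qExpand Qb q (coeffEmb Qb jq) := by
  rw [h16_j1, coe_heckeBetaBar]
  rfl

theorem h16_lc_om : h16_lc (h16_om q) = 1 := by
  rw [h16_om, h16_lc_mul, h16_lc_pow, h16_lc_inv (h16_j0_ne_zero q), h16_j1, h16_j0,
    h16_lc_beta, h16_lc_alpha, h16_lc_jbar]
  simp

theorem h16_order_om : ((h16_om q : ↥(modularFunctionFieldBar (1 * q))) : LaurentSeries Qb).order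
    = 0 := by
  have ho := h10_isOrd_order (modularFunctionFieldBar (1 * q))
  have h0 := h16_j0_ne_zero q
  have h1 := h16_j1_ne_zero q
  have e1 : ((h16_j0 q : ↥(modularFunctionFieldBar (1 * q))) : LaurentSeries Qb).order = -1 :=
    (h10_order_alpha (M := 1) (q := q) (h59_jbar 1)).trans (h10_order_jbar 1)
  have e2 : ((h16_j1 q : ↥(modularFunctionFieldBar (1 * q))) : LaurentSeries Qb).order
      = (q : ℤ) * (-1) :=
    (h10_order_beta (M := 1) (q := q) (h59_jbar 1)).trans (by rw [h10_order_jbar 1])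
  have h3 := ho.map_mul (h16_j1 q) ((h16_j0 q)⁻¹ ^ q) h1 (pow_ne_zero _ (inv_ne_zero h0))
  have h4 := ho.map_pow (inv_ne_zero h0) q
  have h5 := ho.map_inv h0
  show ((h16_j1 q * (h16_j0 q)⁻¹ ^ q : ↥(modularFunctionFieldBar (1 * q))) :
    LaurentSeries Qb).order = 0
  rw [h3, h4, h5, e1, e2]
  ring

theorem h16_ord_pow {K F : Type*} [Field K] [Field F] [Algebra K F] (v : Place K F) (f : F)
    (n : ℕ) : v.ord (f ^ n) = n * v.ord f := by
  rw [← zpow_natCast, v.ord_zpow]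

theorem h16_ord_om (P : Place Qb ↥(modularFunctionFieldBar (1 * q))) :
    P.ord (h16_om q) = P.ord (h16_j1 q) - q * P.ord (h16_j0 q) := by
  rw [h16_om, P.ord_mul (h16_j1_ne_zero q) (pow_ne_zero _ (inv_ne_zero (h16_j0_ne_zero q))),
    h16_ord_pow, P.ord_inv]
  ring

/-- **The cusps of level `1 * q`.**  Every place is a common regular point of `j0`, `j1`, or the
cusp `∞` (`ord j0 = -1`, `ord j1 = -q`, `ω = 1` there), or the cusp `0` (`ord j0 = -q`,
`ord j1 = -1`). -/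
theorem h16_lvl1q_table (P : Place Qb ↥(modularFunctionFieldBar (1 * q))) :
    (0 ≤ P.ord (h16_j0 q) ∧ 0 ≤ P.ord (h16_j1 q)) ∨
    (P.ord (h16_j0 q) = -1 ∧ P.ord (h16_j1 q) = -(q : ℤ) ∧ 1 ≤ P.ord (h16_om q - 1)) ∨
    (P.ord (h16_j0 q) = -(q : ℤ) ∧ P.ord (h16_j1 q) = -1) := by
  have hq : q.Prime := Fact.out
  have hq1 : ¬ q ∣ 1 := hq.not_dvd_one
  have hq2 : (2 : ℤ) ≤ (q : ℤ) := by exact_mod_cast hq.two_le
  obtain ⟨PM, hPM⟩ := h16_lvl1_exists_cusp
  obtain ⟨Pinf, hPinf⟩ : ∃ P : Place Qb ↥(modularFunctionFieldBar (1 * q)),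
      h10_IsCusp (modularFunctionFieldBar (1 * q)) P :=
    h10_exists_cusp ⟨h59_jbar (1 * q), h10_order_jbar _⟩
  obtain ⟨P0, hP0⟩ := h10_exists_cusp0 (h60_w 1 q hq1) (h60_w_alpha 1 q hq1) (h60_w_beta 1 q hq1)
  have h0a : P0.ord (h16_j0 q) = -(q : ℤ) := by
    rw [h16_j0, h10_ord0_alpha (h60_w_alpha 1 q hq1) hP0, h10_order_jbar]
    ring
  have h0b : P0.ord (h16_j1 q) = -1 := by
    rw [h16_j1, h10_ord0_beta (h60_w_beta 1 q hq1) hP0, h10_order_jbar]
  by_cases h1 : P = Pinf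
  · subst h1
    right
    left
    refine ⟨?_, ?_, ?_⟩
    · rw [h16_j0, h10_ord_alpha hPinf, h10_order_jbar]
    · rw [h16_j1, h10_ord_beta hPinf, h10_order_jbar]
      ring
    · have hv := hPinf.val (h16_om q) (by rw [h16_order_om])
      have hc : ((h16_om q : ↥(modularFunctionFieldBar (1 * q))) : LaurentSeries Qb).coeff 0
          = 1 := by
        have h2 := h16_lc_om q
        rw [h16_lc, HahnSeries.leadingCoeff_eq, h16_order_om] at h2
        exact h2
      rw [hc] at hv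
      unfold h39_Val at hv
      rw [map_one] at hv
      rcases hv with hv | hv
      · exfalso
        have h3 := h16_ord_om q P0
        rw [hv, Place.ord_one, h0a, h0b] at h3
        nlinarith
      · omega
  by_cases h2 : P = P0
  · subst h2
    right
    right
    exact ⟨h0a, h0b⟩
  · left
    exact ⟨h10_polar_alpha (h60_w_alpha 1 q hq1) hq hq1 hPM hPinf hP0 (h59_jbar 1)
        (h16_lvl1_pole hPM) P h1 h2,
      h10_polar_beta (h60_w_alpha 1 q hq1) hq hq1 (h60_w_w 1 q hq1) hPM hPinf hP0 (h59_jbar 1)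
        (h16_lvl1_pole hPM) P h1 h2⟩

/-- The ramification index along an integral map is positive. -/
theorem h16_ramificationIndexAlong_pos {K F F' : Type*} [Field K] [Field F] [Field F']
    [Algebra K F] [Algebra K F'] (φ : F →ₐ[K] F') (hφ : φ.toRingHom.IsIntegral)
    (w : Place K F') : 0 < w.ramificationIndexAlong φ := by
  letI := algebraAlong φ
  haveI := isScalarTower_along φ
  haveI := isIntegral_along φ hφ
  exact w.ramificationIndex_pos

/-- **The cusp table along an integral map** `φ : F(1 * q) → F'`: at every place `P` of `F'`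
either `φ j0`, `φ j1` are both regular, or `P` is of type `∞` (`ord φ j1 = q ord φ j0 < 0`,
`ord (φ ω - 1) ≥ - ord φ j0`), or `P` is of type `0` (`ord φ j0 = q ord φ j1 < 0`,
`ord φ ω > 0`). -/
theorem h16_cusp_table {F' : Type*} [Field F'] [Algebra Qb F']
    (φ : ↥(modularFunctionFieldBar (1 * q)) →ₐ[Qb] F') (hφ : φ.toRingHom.IsIntegral)
    (P : Place Qb F') :
    (0 ≤ P.ord (φ (h16_j0 q)) ∧ 0 ≤ P.ord (φ (h16_j1 q))) ∨
    (P.ord (φ (h16_j0 q)) < 0 ∧ P.ord (φ (h16_j1 q)) = q * P.ord (φ (h16_j0 q)) ∧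
      -P.ord (φ (h16_j0 q)) ≤ P.ord (φ (h16_om q) - 1)) ∨
    (P.ord (φ (h16_j1 q)) < 0 ∧ P.ord (φ (h16_j0 q)) = q * P.ord (φ (h16_j1 q)) ∧
      0 < P.ord (φ (h16_om q))) := by
  have hq : q.Prime := Fact.out
  have hq2 : (2 : ℤ) ≤ (q : ℤ) := by exact_mod_cast hq.two_le
  have he : (0 : ℤ) < (Place.ramificationIndexAlong φ P : ℤ) := by
    exact_mod_cast h16_ramificationIndexAlong_pos φ hφ P
  have hr := fun f => Place.ord_restrictAlong φ hφ P f
  rcases h16_lvl1q_table q (P.restrictAlong φ hφ) with ⟨h1, h2⟩ | ⟨h1, h2, h3⟩ | ⟨h1, h2⟩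
  · left
    rw [hr, hr]
    exact ⟨mul_nonneg he.le h1, mul_nonneg he.le h2⟩
  · right
    left
    have h4 : φ (h16_om q) - 1 = φ (h16_om q - 1) := by rw [map_sub, map_one]
    rw [h4, hr, hr, hr, h1, h2]
    refine ⟨by nlinarith, by ring, by nlinarith⟩
  · right
    right
    rw [hr, hr, hr, h16_ord_om, h1, h2]
    refine ⟨by nlinarith, by ring, ?_⟩
    have h5 : (0 : ℤ) < -1 - (q : ℤ) * -(q : ℤ) := by nlinarith
    exact mul_pos he h5

end LevelQ

/-! ### Orders bounded below, with the value `0` allowed -/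

section Ge

variable {K F : Type*} [Field K] [Field F] [Algebra K F]

/-- `x = 0` or `n ≤ ord_P x`. -/
def h16_Ge (P : Place K F) (n : ℤ) (x : F) : Prop := x = 0 ∨ n ≤ P.ord x

theorem h16_ge_zero (P : Place K F) (n : ℤ) : h16_Ge P n 0 := Or.inl rfl

theorem h16_ge_of_le (P : Place K F) {n : ℤ} {x : F} (h : n ≤ P.ord x) : h16_Ge P n x := Or.inr h

theorem h16_ge_mono (P : Place K F) {n m : ℤ} (hmn : m ≤ n) {x : F} (h : h16_Ge P n x) :
    h16_Ge P m x := by
  rcases h with h | h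
  · exact Or.inl h
  · exact Or.inr (hmn.trans h)

theorem h16_ge_nonneg (P : Place K F) {n : ℤ} (hn : 0 ≤ n) {x : F} (h : h16_Ge P n x) :
    0 ≤ P.ord x := by
  rcases h with h | h
  · rw [h, Place.ord_zero]
  · exact hn.trans h

theorem h16_ge_add (P : Place K F) {n : ℤ} {x y : F} (hx : h16_Ge P n x) (hy : h16_Ge P n y) :
    h16_Ge P n (x + y) := by
  by_cases hx0 : x = 0
  · rw [hx0, zero_add]
    exact hy
  by_cases hy0 : y = 0
  · rw [hy0, add_zero]
    exact hx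
  by_cases hxy : x + y = 0
  · exact Or.inl hxy
  right
  have h1 := h35_ord_add P hx0 hy0 hxy
  have h2 := hx.resolve_left hx0
  have h3 := hy.resolve_left hy0
  exact (le_min h2 h3).trans h1

theorem h16_ge_neg (P : Place K F) {n : ℤ} {x : F} (hx : h16_Ge P n x) : h16_Ge P n (-x) := by
  rcases hx with h | h
  · exact Or.inl (by rw [h, neg_zero])
  · exact Or.inr (by rw [h35_ord_neg]; exact h)

theorem h16_ge_sub (P : Place K F) {n : ℤ} {x y : F} (hx : h16_Ge P n x) (hy : h16_Ge P n y) :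
    h16_Ge P n (x - y) := by
  rw [sub_eq_add_neg]
  exact h16_ge_add P hx (h16_ge_neg P hy)

theorem h16_ge_mul (P : Place K F) {n m : ℤ} {x y : F} (hx : h16_Ge P n x) (hy : h16_Ge P m y) :
    h16_Ge P (n + m) (x * y) := by
  by_cases hx0 : x = 0
  · rw [hx0, zero_mul]
    exact Or.inl rfl
  by_cases hy0 : y = 0
  · rw [hy0, mul_zero]
    exact Or.inl rfl
  right
  rw [P.ord_mul hx0 hy0]
  exact add_le_add (hx.resolve_left hx0) (hy.resolve_left hy0)

theorem h16_ge_one (P : Place K F) : h16_Ge P 0 (1 : F) := Or.inr (by rw [Place.ord_one])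

theorem h16_ge_pow (P : Place K F) {x : F} (hx : h16_Ge P 0 x) (n : ℕ) : h16_Ge P 0 (x ^ n) := by
  induction n with
  | zero =>
    rw [pow_zero]
    exact h16_ge_one P
  | succ n ih =>
    rw [pow_succ]
    have h := h16_ge_mul P ih hx
    rwa [add_zero] at h

theorem h16_ge_sum (P : Place K F) {n : ℤ} {ι : Type*} (s : Finset ι) (f : ι → F)
    (h : ∀ i ∈ s, h16_Ge P n (f i)) : h16_Ge P n (∑ i ∈ s, f i) := by
  classical
  induction s using Finset.induction_on with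
  | empty =>
    rw [Finset.sum_empty]
    exact h16_ge_zero P n
  | insert a s ha ih =>
    rw [Finset.sum_insert ha]
    exact h16_ge_add P (h a (Finset.mem_insert_self a s))
      (ih fun i hi => h i (Finset.mem_insert_of_mem hi))

/-- `x ≡ 1` to order `n` implies `x^k ≡ 1` to order `n`. -/
theorem h16_ge_pow_sub_one (P : Place K F) {n : ℤ} (hn : 0 ≤ n) {x : F}
    (hx : h16_Ge P n (x - 1)) (k : ℕ) : h16_Ge P n (x ^ k - 1) := by
  have hx0 : h16_Ge P 0 x := by
    have h1 := h16_ge_add P (h16_ge_mono P hn hx) (h16_ge_one P)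
    rwa [sub_add_cancel] at h1
  have h2 : x ^ k - 1 = (∑ i ∈ Finset.range k, x ^ i) * (x - 1) := (geom_sum_mul x k).symm
  rw [h2]
  have h3 : h16_Ge P 0 (∑ i ∈ Finset.range k, x ^ i) :=
    h16_ge_sum P _ _ fun i _ => h16_ge_pow P hx0 i
  have h4 := h16_ge_mul P h3 hx
  rwa [zero_add] at h4

end Ge

/-! ### Level `M * q * q` -/

section LevelQ2

variable (M q : ℕ) [NeZero M] [NeZero q] [Fact q.Prime]

theorem h16_dvdA : 1 * q ∣ M * q * q := ⟨M * q, by ring⟩

theorem h16_dvdB : 1 * q ∣ M * q := ⟨M, by ring⟩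

/-- `f(τ) ↦ f(τ)`. -/
def h16_phiA :
    ↥(modularFunctionFieldBar (1 * q)) →ₐ[Qb] ↥(modularFunctionFieldBar (M * q * q)) :=
  h16_incl (h16_dvdA M q)

/-- `f(τ) ↦ f(qτ)`. -/
def h16_phiB :
    ↥(modularFunctionFieldBar (1 * q)) →ₐ[Qb] ↥(modularFunctionFieldBar (M * q * q)) :=
  (heckeBetaBar Qb (M * q) q).comp (h16_incl (h16_dvdB M q))

/-- `j(τ)` at level `M q²`. -/
def h16_J0 : ↥(modularFunctionFieldBar (M * q * q)) := h59_jbar (M * q * q)

/-- `j(qτ)` at level `M q²`. -/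
def h16_J1 : ↥(modularFunctionFieldBar (M * q * q)) :=
  heckeBetaBar Qb (M * q) q (h59_jbar (M * q))

/-- `j(q²τ)` at level `M q²`. -/
def h16_J2 : ↥(modularFunctionFieldBar (M * q * q)) :=
  heckeBetaBar Qb (M * q) q (heckeBetaBar Qb M q (h59_jbar M))

/-- `G₁ = j(qτ) / j(τ)^q`. -/
def h16_G1 : ↥(modularFunctionFieldBar (M * q * q)) := h16_J1 M q * (h16_J0 M q)⁻¹ ^ q

/-- `G₃ = j(q²τ) / j(τ)^(q²)`. -/
def h16_G3 : ↥(modularFunctionFieldBar (M * q * q)) := h16_J2 M q * (h16_J0 M q)⁻¹ ^ (q * q)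

theorem h16_coe_J0 : ((h16_J0 M q : ↥(modularFunctionFieldBar (M * q * q))) : LaurentSeries Qb)
    = coeffEmb Qb jq := rfl

theorem h16_coe_J1 : ((h16_J1 M q : ↥(modularFunctionFieldBar (M * q * q))) : LaurentSeries Qb)
    = qExpand Qb q (coeffEmb Qb jq) := by
  rw [h16_J1, coe_heckeBetaBar]
  rfl

theorem h16_coe_J2 : ((h16_J2 M q : ↥(modularFunctionFieldBar (M * q * q))) : LaurentSeries Qb)
    = qExpand Qb q (qExpand Qb q (coeffEmb Qb jq)) := by
  rw [h16_J2, coe_heckeBetaBar, coe_heckeBetaBar]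
  rfl

theorem h16_coe_phiA (f : ↥(modularFunctionFieldBar (1 * q))) :
    ((h16_phiA M q f : ↥(modularFunctionFieldBar (M * q * q))) : LaurentSeries Qb)
      = (f : LaurentSeries Qb) := h16_coe_incl _ f

theorem h16_coe_phiB (f : ↥(modularFunctionFieldBar (1 * q))) :
    ((h16_phiB M q f : ↥(modularFunctionFieldBar (M * q * q))) : LaurentSeries Qb)
      = qExpand Qb q (f : LaurentSeries Qb) := by
  rw [h16_phiB, AlgHom.comp_apply, coe_heckeBetaBar, h16_coe_incl]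

theorem h16_phiA_j0 : h16_phiA M q (h16_j0 q) = h16_J0 M q :=
  Subtype.ext (by rw [h16_coe_phiA, h16_coe_j0, h16_coe_J0])

theorem h16_phiA_j1 : h16_phiA M q (h16_j1 q) = h16_J1 M q :=
  Subtype.ext (by rw [h16_coe_phiA, h16_coe_j1, h16_coe_J1])

theorem h16_phiB_j0 : h16_phiB M q (h16_j0 q) = h16_J1 M q :=
  Subtype.ext (by rw [h16_coe_phiB, h16_coe_j0, h16_coe_J1])

theorem h16_phiB_j1 : h16_phiB M q (h16_j1 q) = h16_J2 M q :=
  Subtype.ext (by rw [h16_coe_phiB, h16_coe_j1, h16_coe_J2])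

theorem h16_J0_ne_zero : h16_J0 M q ≠ 0 := by
  rw [← h16_phiA_j0]
  exact (map_ne_zero _).2 (h16_j0_ne_zero q)

theorem h16_J1_ne_zero : h16_J1 M q ≠ 0 := by
  rw [← h16_phiA_j1]
  exact (map_ne_zero _).2 (h16_j1_ne_zero q)

theorem h16_J2_ne_zero : h16_J2 M q ≠ 0 := by
  rw [← h16_phiB_j1]
  exact (map_ne_zero _).2 (h16_j1_ne_zero q)

theorem h16_phiA_om : h16_phiA M q (h16_om q) = h16_G1 M q := by
  rw [h16_om, map_mul, map_pow, map_inv₀, h16_phiA_j0, h16_phiA_j1, h16_G1]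

theorem h16_phiB_om : h16_phiB M q (h16_om q) = h16_J2 M q * (h16_J1 M q)⁻¹ ^ q := by
  rw [h16_om, map_mul, map_pow, map_inv₀, h16_phiB_j0, h16_phiB_j1]

theorem h16_G3_eq : h16_G3 M q = h16_phiB M q (h16_om q) * h16_G1 M q ^ q := by
  have h0 := h16_J0_ne_zero M q
  have h1 := h16_J1_ne_zero M q
  rw [h16_phiB_om, h16_G3, h16_G1, mul_pow, ← pow_mul, inv_pow, inv_pow]
  field_simp

theorem h16_G1_ne_zero : h16_G1 M q ≠ 0 :=
  mul_ne_zero (h16_J1_ne_zero M q) (pow_ne_zero _ (inv_ne_zero (h16_J0_ne_zero M q)))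

theorem h16_G3_ne_zero : h16_G3 M q ≠ 0 :=
  mul_ne_zero (h16_J2_ne_zero M q) (pow_ne_zero _ (inv_ne_zero (h16_J0_ne_zero M q)))

theorem h16_phiA_integral : (h16_phiA M q).toRingHom.IsIntegral := h16_incl_integral _

theorem h16_phiB_integral : (h16_phiB M q).toRingHom.IsIntegral := by
  refine h88_isIntegral_of_finiteAlong _ (h88_finiteAlong_of_finite _ (h16_j0 q) ?_)
  rw [h16_phiB_j0]
  exact h73_finite_of_transcendental (h88_isFF (M * q * q))
    (h88_beta_jbar_transcendental (M * q) q)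

theorem h16_ord_G1 (P : Place Qb ↥(modularFunctionFieldBar (M * q * q))) :
    P.ord (h16_G1 M q) = P.ord (h16_J1 M q) - q * P.ord (h16_J0 M q) := by
  rw [h16_G1, P.ord_mul (h16_J1_ne_zero M q)
    (pow_ne_zero _ (inv_ne_zero (h16_J0_ne_zero M q))), h16_ord_pow, P.ord_inv]
  ring

theorem h16_ord_G3 (P : Place Qb ↥(modularFunctionFieldBar (M * q * q))) :
    P.ord (h16_G3 M q) = P.ord (h16_J2 M q) - q * q * P.ord (h16_J0 M q) := by
  rw [h16_G3, P.ord_mul (h16_J2_ne_zero M q)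
    (pow_ne_zero _ (inv_ne_zero (h16_J0_ne_zero M q))), h16_ord_pow, P.ord_inv]
  push_cast
  ring

/-- **The cusp table of level `M q²`.**  At a place where `J0 = j(τ)` is regular, `J1`, `J2` are
regular.  At a pole of `J0` (a cusp) one of three cases holds: type `(∞,∞)`
(`ord J1 = q ord J0`, `ord J2 = q ord J1`, `G₃ ≡ 1` to order `- ord J0`), the MIDDLE type
(`ord J1 = q ord J0 = q ord J2`), or type `0` (`ord J0 = q ord J1`, `G₁` vanishes,
`ord J0 ≤ ord J2`).  In the first two cases `G₁ ≡ 1` to order `- ord J0`. -/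
theorem h16_q2_table (P : Place Qb ↥(modularFunctionFieldBar (M * q * q))) :
    (0 ≤ P.ord (h16_J0 M q) → 0 ≤ P.ord (h16_J1 M q) ∧ 0 ≤ P.ord (h16_J2 M q)) ∧
    (P.ord (h16_J0 M q) < 0 →
      (P.ord (h16_J1 M q) = q * P.ord (h16_J0 M q) ∧
        P.ord (h16_J2 M q) = q * P.ord (h16_J1 M q) ∧
        -P.ord (h16_J0 M q) ≤ P.ord (h16_G1 M q - 1) ∧
        h16_Ge P (-P.ord (h16_J0 M q)) (h16_G3 M q - 1)) ∨
      (P.ord (h16_J1 M q) = q * P.ord (h16_J0 M q) ∧
        P.ord (h16_J1 M q) = q * P.ord (h16_J2 M q) ∧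
        -P.ord (h16_J0 M q) ≤ P.ord (h16_G1 M q - 1)) ∨
      (P.ord (h16_J0 M q) = q * P.ord (h16_J1 M q) ∧ 0 < P.ord (h16_G1 M q) ∧
        P.ord (h16_J0 M q) ≤ P.ord (h16_J2 M q))) := by
  have hq : q.Prime := Fact.out
  have hq2 : (2 : ℤ) ≤ (q : ℤ) := by exact_mod_cast hq.two_le
  have hA := h16_cusp_table q (h16_phiA M q) (h16_phiA_integral M q) P
  have hB := h16_cusp_table q (h16_phiB M q) (h16_phiB_integral M q) P
  rw [h16_phiA_j0, h16_phiA_j1, h16_phiA_om] at hA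
  rw [h16_phiB_j0, h16_phiB_j1] at hB
  constructor
  · intro h0
    rcases hA with ⟨-, h1⟩ | ⟨h1, -, -⟩ | ⟨h1, h2, -⟩
    · refine ⟨h1, ?_⟩
      rcases hB with ⟨-, h2⟩ | ⟨h2, -, -⟩ | ⟨h2, h3, -⟩
      · exact h2
      · omega
      · nlinarith
    · omega
    · nlinarith
  · intro h0
    rcases hA with ⟨h1, -⟩ | ⟨-, h1, h2⟩ | ⟨h1, h2, h3⟩
    · omega
    · rcases hB with ⟨h3, -⟩ | ⟨h3, h4, h5⟩ | ⟨h3, h4, -⟩
      · nlinarith
      · left
        refine ⟨h1, h4, h2, ?_⟩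
        have e1 : h16_G3 M q - 1 = (h16_phiB M q (h16_om q) - 1) * h16_G1 M q ^ q
            + (h16_G1 M q ^ q - 1) := by
          rw [h16_G3_eq]
          ring
        rw [e1]
        have hn : 0 ≤ -P.ord (h16_J0 M q) := by omega
        have hG1 : h16_Ge P (-P.ord (h16_J0 M q)) (h16_G1 M q - 1) := Or.inr h2
        have hG1' : h16_Ge P 0 (h16_G1 M q) := by
          have h6 := h16_ge_add P (h16_ge_mono P hn hG1) (h16_ge_one P)
          rwa [sub_add_cancel] at h6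
        refine h16_ge_add P ?_ (h16_ge_pow_sub_one P hn hG1 q)
        have h7 : h16_Ge P (-P.ord (h16_J1 M q)) (h16_phiB M q (h16_om q) - 1) := Or.inr h5
        have h8 := h16_ge_mul P h7 (h16_ge_pow P hG1' q)
        refine h16_ge_mono P ?_ h8
        nlinarith
      · right
        left
        exact ⟨h1, h4, h2⟩
    · right
      right
      refine ⟨h2, h3, ?_⟩
      rcases hB with ⟨h4, -⟩ | ⟨-, h4, -⟩ | ⟨h4, h5, -⟩
      · omega
      · rw [h4, h2]
      · nlinarith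

/-! ### Regularity on the chart `{ord J0 ≤ 0}` -/

/-- `G₁` is regular on the chart `{ord J0 ≤ 0}`. -/
theorem h16_G1_reg (P : Place Qb ↥(modularFunctionFieldBar (M * q * q)))
    (hP : P.ord (h16_J0 M q) ≤ 0) : 0 ≤ P.ord (h16_G1 M q) := by
  have hq : q.Prime := Fact.out
  have hq2 : (2 : ℤ) ≤ (q : ℤ) := by exact_mod_cast hq.two_le
  obtain ⟨h1, h2⟩ := h16_q2_table M q P
  rw [h16_ord_G1]
  rcases hP.lt_or_eq with h0 | h0
  · rcases h2 h0 with ⟨h3, -, -, -⟩ | ⟨h3, -, -⟩ | ⟨h3, h4, -⟩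
    · omega
    · omega
    · rw [h16_ord_G1] at h4
      exact h4.le
  · have h3 := (h1 h0.ge).1
    rw [h0]
    omega

/-- The order of `G₃` at a cusp which is not of type `(∞,∞)`. -/
theorem h16_G3_pos_of_le (P : Place Qb ↥(modularFunctionFieldBar (M * q * q)))
    (hP : P.ord (h16_J0 M q) < 0) (h : P.ord (h16_J0 M q) ≤ P.ord (h16_J2 M q)) :
    0 < P.ord (h16_G3 M q) := by
  have hq : q.Prime := Fact.out
  have hq2 : (2 : ℤ) ≤ (q : ℤ) := by exact_mod_cast hq.two_le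
  rw [h16_ord_G3]
  have h1 : (0 : ℤ) < (q : ℤ) * q - 1 := by nlinarith
  have h2 : (0 : ℤ) < ((q : ℤ) * q - 1) * (-P.ord (h16_J0 M q)) := mul_pos h1 (by omega)
  linarith

/-- At a cusp: type `(∞,∞)` with its data, or `ord J0 ≤ ord J2`. -/
theorem h16_q2_cases (P : Place Qb ↥(modularFunctionFieldBar (M * q * q)))
    (hP : P.ord (h16_J0 M q) < 0) :
    (P.ord (h16_J2 M q) = q * q * P.ord (h16_J0 M q) ∧
      h16_Ge P (-P.ord (h16_J0 M q)) (h16_G3 M q - 1)) ∨
    P.ord (h16_J0 M q) ≤ P.ord (h16_J2 M q) := by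
  have hq : q.Prime := Fact.out
  have hq2 : (2 : ℤ) ≤ (q : ℤ) := by exact_mod_cast hq.two_le
  rcases (h16_q2_table M q P).2 hP with ⟨h3, h4, -, h5⟩ | ⟨h3, h4, -⟩ | ⟨-, -, h3⟩
  · left
    refine ⟨?_, h5⟩
    rw [h4, h3]
    ring
  · right
    have h5 : (q : ℤ) * P.ord (h16_J2 M q) = q * P.ord (h16_J0 M q) := by rw [← h4, h3]
    have h6 : (0 : ℤ) < q := by omega
    exact (mul_left_cancel₀ h6.ne' h5).ge
  · right
    exact h3

/-- `G₃` is regular on the chart `{ord J0 ≤ 0}`. -/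
theorem h16_G3_reg (P : Place Qb ↥(modularFunctionFieldBar (M * q * q)))
    (hP : P.ord (h16_J0 M q) ≤ 0) : 0 ≤ P.ord (h16_G3 M q) := by
  rcases hP.lt_or_eq with h0 | h0
  · rcases h16_q2_cases M q P h0 with ⟨h3, -⟩ | h3
    · rw [h16_ord_G3, h3]
      omega
    · exact (h16_G3_pos_of_le M q P h0 h3).le
  · have h3 := ((h16_q2_table M q P).1 h0.ge).2
    rw [h16_ord_G3, h0]
    omega

/-- `t = (1 - G₃)^(q²)`. -/
def h16_tt : ↥(modularFunctionFieldBar (M * q * q)) := (1 - h16_G3 M q) ^ (q * q)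

/-- `b = (J2 / J0) t`. -/
def h16_bb : ↥(modularFunctionFieldBar (M * q * q)) :=
  h16_J2 M q * (h16_J0 M q)⁻¹ * h16_tt M q

theorem h16_tt_reg (P : Place Qb ↥(modularFunctionFieldBar (M * q * q)))
    (hP : P.ord (h16_J0 M q) ≤ 0) : 0 ≤ P.ord (h16_tt M q) := by
  have h1 : h16_Ge P 0 (1 - h16_G3 M q) :=
    h16_ge_sub P (h16_ge_one P) (Or.inr (h16_G3_reg M q P hP))
  exact h16_ge_nonneg P le_rfl (h16_ge_pow P h1 _)

/-- `b` is regular on the chart `{ord J0 ≤ 0}`: the factor `t` kills the poles of `J2 / J0` at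
the cusps of type `(∞,∞)`. -/
theorem h16_bb_reg (P : Place Qb ↥(modularFunctionFieldBar (M * q * q)))
    (hP : P.ord (h16_J0 M q) ≤ 0) : 0 ≤ P.ord (h16_bb M q) := by
  have hq : q.Prime := Fact.out
  have hq2 : (2 : ℤ) ≤ (q : ℤ) := by exact_mod_cast hq.two_le
  have h0 := h16_J0_ne_zero M q
  have h2 := h16_J2_ne_zero M q
  have hJ : P.ord (h16_J2 M q * (h16_J0 M q)⁻¹) = P.ord (h16_J2 M q) - P.ord (h16_J0 M q) := by
    rw [P.ord_mul h2 (inv_ne_zero h0), P.ord_inv]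
    ring
  have hreg : 0 ≤ P.ord (h16_J2 M q * (h16_J0 M q)⁻¹) → 0 ≤ P.ord (h16_bb M q) := by
    intro h
    have h3 := h16_ge_mul P (Or.inr h : h16_Ge P 0 _) (Or.inr (h16_tt_reg M q P hP) :
      h16_Ge P 0 (h16_tt M q))
    exact h16_ge_nonneg P (by norm_num) h3
  rcases hP.lt_or_eq with hneg | hz
  · rcases h16_q2_cases M q P hneg with ⟨h3, h4⟩ | h3
    · -- type (∞,∞)
      have h5 : h16_Ge P (-P.ord (h16_J0 M q)) (1 - h16_G3 M q) := by
        have := h16_ge_neg P h4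
        rwa [neg_sub] at this
      have h6 : ∀ n : ℕ, h16_Ge P (n * -P.ord (h16_J0 M q)) ((1 - h16_G3 M q) ^ n) := by
        intro n
        induction n with
        | zero =>
          rw [pow_zero, Nat.cast_zero, zero_mul]
          exact h16_ge_one P
        | succ n ih =>
          rw [pow_succ]
          have := h16_ge_mul P ih h5
          refine h16_ge_mono P ?_ this
          push_cast
          ring_nf
          exact le_rfl
      have h7 := h16_ge_mul P (Or.inr (le_of_eq hJ.symm) : h16_Ge P _ _) (h6 (q * q))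
      refine h16_ge_nonneg P ?_ h7
      rw [h3]
      push_cast
      nlinarith
    · exact hreg (by rw [hJ]; omega)
  · have h3 := ((h16_q2_table M q P).1 hz.ge).2
    exact hreg (by rw [hJ, hz]; omega)

/-- `b - t = ((J2 - J0) / J0) t`. -/
theorem h16_bb_sub_tt :
    h16_bb M q - h16_tt M q = (h16_J2 M q - h16_J0 M q) * (h16_J0 M q)⁻¹ * h16_tt M q := by
  have h0 := h16_J0_ne_zero M q
  rw [h16_bb]
  field_simp

/-- `t * (J2 / J0) = b`. -/
theorem h16_tt_mul : h16_tt M q * (h16_J2 M q / h16_J0 M q) = h16_bb M q := by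
  rw [h16_bb, div_eq_mul_inv]
  ring

/-- **Classification of the cusps for the middle component**: a cusp is a zero of `G₁`, or
`G₃ ≡ 1` there, or it is of middle type. -/
theorem h16_q2_mid (P : Place Qb ↥(modularFunctionFieldBar (M * q * q)))
    (hP : P.ord (h16_J0 M q) < 0) :
    0 < P.ord (h16_G1 M q) ∨ h16_Ge P 1 (h16_G3 M q - 1) ∨
      (P.ord (h16_J1 M q) = q * P.ord (h16_J0 M q) ∧
        P.ord (h16_J1 M q) = q * P.ord (h16_J2 M q)) := by
  rcases (h16_q2_table M q P).2 hP with ⟨-, -, -, h5⟩ | ⟨h3, h4, -⟩ | ⟨-, h3, -⟩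
  · right
    left
    exact h16_ge_mono P (by omega) h5
  · right
    right
    exact ⟨h3, h4⟩
  · left
    exact h3

/-- `(J0 / J2)^q ≠ 1`. -/
theorem h16_zt_pow_ne_one : (h16_J0 M q / h16_J2 M q) ^ q ≠ 1 := by
  have hq : q.Prime := Fact.out
  have hq2 : (2 : ℤ) ≤ (q : ℤ) := by exact_mod_cast hq.two_le
  have ho := h10_isOrd_order (modularFunctionFieldBar (M * q * q))
  have h0 := h16_J0_ne_zero M q
  have h2 := h16_J2_ne_zero M q
  intro h
  have h3 := ho.map_pow (div_ne_zero h0 h2) q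
  have h4 := ho.map_mul (h16_J0 M q) (h16_J2 M q)⁻¹ h0 (inv_ne_zero h2)
  have h5 := ho.map_inv h2
  have h6 := ho.map_one
  have e0 : ((h16_J0 M q : ↥(modularFunctionFieldBar (M * q * q))) : LaurentSeries Qb).order
      = -1 := h10_order_jbar _
  have e2 : ((h16_J2 M q : ↥(modularFunctionFieldBar (M * q * q))) : LaurentSeries Qb).order
      = (q : ℤ) * ((q : ℤ) * (-1)) := by
    rw [h16_coe_J2, h64_order_qExpand, h64_order_qExpand, h59_order_coeffEmb_jq]
  rw [div_eq_mul_inv] at h3 h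
  rw [h, h6, h4, h5, e0, e2] at h3
  have h7 : (0 : ℤ) < (q : ℤ) * (-1 + (q : ℤ) * (q : ℤ)) := by nlinarith
  nlinarith

theorem h16_dvdC : 1 * q * q ∣ M * q * q := ⟨M, by ring⟩

/-- **Transfer of the middle-cusp statement** from level `1 * q * q` to level `M * q * q`. -/
theorem h16_mid_transfer
    (hS : ∀ P' : Place Qb ↥(modularFunctionFieldBar (1 * q * q)), P'.ord (h16_J0 1 q) < 0 →
      P'.ord (h16_J1 1 q) = q * P'.ord (h16_J0 1 q) →
      P'.ord (h16_J1 1 q) = q * P'.ord (h16_J2 1 q) →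
      ∃ ζ : Qb, IsPrimitiveRoot ζ q ∧
        0 < P'.ord (h16_J0 1 q / h16_J2 1 q - algebraMap Qb _ ζ))
    (P : Place Qb ↥(modularFunctionFieldBar (M * q * q))) (h0 : P.ord (h16_J0 M q) < 0)
    (h1 : P.ord (h16_J1 M q) = q * P.ord (h16_J0 M q))
    (h2 : P.ord (h16_J1 M q) = q * P.ord (h16_J2 M q)) :
    ∃ ζ : Qb, IsPrimitiveRoot ζ q ∧
      0 < P.ord (h16_J0 M q / h16_J2 M q - algebraMap Qb _ ζ) := by
  set ι := h16_incl (h16_dvdC M q) with hι
  have hint := h16_incl_integral (h16_dvdC M q)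
  have e0 : ι (h16_J0 1 q) = h16_J0 M q :=
    Subtype.ext (by rw [hι, h16_coe_incl, h16_coe_J0, h16_coe_J0])
  have e1 : ι (h16_J1 1 q) = h16_J1 M q :=
    Subtype.ext (by rw [hι, h16_coe_incl, h16_coe_J1, h16_coe_J1])
  have e2 : ι (h16_J2 1 q) = h16_J2 M q :=
    Subtype.ext (by rw [hι, h16_coe_incl, h16_coe_J2, h16_coe_J2])
  have he : (0 : ℤ) < (Place.ramificationIndexAlong ι P : ℤ) := by
    exact_mod_cast h16_ramificationIndexAlong_pos ι hint P
  have hr := fun f => Place.ord_restrictAlong ι hint P f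
  rw [← e0, ← e1, hr, hr] at h1
  rw [← e1, ← e2, hr, hr] at h2
  rw [← e0, hr] at h0
  have h0' : (P.restrictAlong ι hint).ord (h16_J0 1 q) < 0 := by
    by_contra hc
    push Not at hc
    have := mul_nonneg he.le hc
    omega
  have h1' : (P.restrictAlong ι hint).ord (h16_J1 1 q)
      = q * (P.restrictAlong ι hint).ord (h16_J0 1 q) := by
    apply mul_left_cancel₀ he.ne'
    rw [h1]
    ring
  have h2' : (P.restrictAlong ι hint).ord (h16_J1 1 q)
      = q * (P.restrictAlong ι hint).ord (h16_J2 1 q) := by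
    apply mul_left_cancel₀ he.ne'
    rw [h2]
    ring
  obtain ⟨ζ, hζ, hpos⟩ := hS _ h0' h1' h2'
  refine ⟨ζ, hζ, ?_⟩
  have e3 : h16_J0 M q / h16_J2 M q - algebraMap Qb _ ζ
      = ι (h16_J0 1 q / h16_J2 1 q - algebraMap Qb _ ζ) := by
    rw [map_sub, map_div₀, e0, e2, AlgHom.commutes]
  rw [e3, hr]
  exact mul_pos he hpos

end LevelQ2

/-- If `z ≡ ζ` at `P` and `1 + ζ + ⋯ + ζ^(n-1) = 0` then `1 + z + ⋯ + z^(n-1)` vanishes at
`P`. -/
theorem h16_sigma_pos {K F : Type*} [Field K] [Field F] [Algebra K F] (P : Place K F) (z : F)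
    (ζ : K) (n : ℕ) (hζ : ∑ i ∈ Finset.range n, ζ ^ i = 0)
    (h : 0 < P.ord (z - algebraMap K F ζ)) :
    h16_Ge P 1 (∑ i ∈ Finset.range n, z ^ i) := by
  set c := algebraMap K F ζ with hc
  have hc0 : h16_Ge P 0 c := Or.inr (le_of_eq (h35_ord_algebraMap P ζ).symm)
  have hzc : h16_Ge P 1 (z - c) := Or.inr (by omega)
  have hz0 : h16_Ge P 0 z := by
    have h1 := h16_ge_add P (h16_ge_mono P zero_le_one hzc) hc0
    rwa [sub_add_cancel] at h1
  have hsum : ∑ i ∈ Finset.range n, c ^ i = 0 := by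
    have h1 : ∑ i ∈ Finset.range n, c ^ i = algebraMap K F (∑ i ∈ Finset.range n, ζ ^ i) := by
      rw [map_sum]
      exact Finset.sum_congr rfl fun i _ => (map_pow _ _ _).symm
    rw [h1, hζ, map_zero]
  have e : ∑ i ∈ Finset.range n, z ^ i = ∑ i ∈ Finset.range n, (z ^ i - c ^ i) := by
    rw [Finset.sum_sub_distrib, hsum, sub_zero]
  rw [e]
  refine h16_ge_sum P _ _ fun i _ => ?_
  have h2 : z ^ i - c ^ i = (∑ j ∈ Finset.range i, z ^ j * c ^ (i - 1 - j)) * (z - c) :=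
    (Commute.geom_sum₂_mul (Commute.all z c) i).symm
  rw [h2]
  have h3 : h16_Ge P 0 (∑ j ∈ Finset.range i, z ^ j * c ^ (i - 1 - j)) :=
    h16_ge_sum P _ _ fun j _ => by
      have := h16_ge_mul P (h16_ge_pow P hz0 j) (h16_ge_pow P hc0 (i - 1 - j))
      rwa [add_zero] at this
  have h4 := h16_ge_mul P h3 hzc
  rwa [zero_add] at h4

end Fermat.Agent.S36
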