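/-
S36 / row I-CUSP, the vertical facts (V) (helper52).

Level `M q²`, `q ∤ M` prime, `A` a valuation ring of `ℚ̄` over `q`, `I` its inertia group,
`F0 := h69_F0 (M q²) I`, `w := h98_w2 M q hqM A ζ hζ hex` (`0 = C20`, `1 = C11`, `2 = C02`).

The three `j`-functions of level `M q²`, as elements of `F0`:

* `h52_cvJ0 = j(τ)`, `h52_cvJ1 = j(q τ)`, `h52_cvJ2 = j(q² τ)`,

and the cusp functions of helper16's plan (#3835)

* `h52_cvG1 = J1 / J0 ^ q`, `h52_cvG3 = J2 / J0 ^ (q * q)`, `a = J0⁻¹`, `zt = J0 / J2`.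

Results (all in the shape `x = y ∨ 0 < w c (x - y)` of `h16_sub_mem` / `h16_branch_excl`):

* `h52_cv_J0`, `h52_cv_J1`, `h52_cv_J2` : `w c J_i = 0` for all `c`;
* `h52_cv_G1_C20`, `h52_cv_G1_C11` : `G1 ≡ 1` on `C20` and on `C11`;
* `h52_cv_G1_C02` : `G1 ^ q ≡ a ^ (q * q - 1)` on `C02`;
* `h52_cv_G3_C20` : `G3 ≡ 1` on `C20`;
* `h52_cv_G3_C11` : `G3 ≡ a ^ (q * q - 1)` on `C11`;
* `h52_cv_J2a_C11` : `J2 * a ≡ 1` on `C11`;
* `h52_cv_zt_C11` : `w 1 (zt - 1) = 1`, and `w c zt = 0`.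
-/
import Mathlib
import Fermat.Agent.S36.h74_W2Sep
import Fermat.Agent.S36.h69_DegQ2

set_option autoImplicit false
set_option synthInstance.maxHeartbeats 400000
set_option linter.unusedSectionVars false

noncomputable section

open ModularCurve AlgebraicCurve

namespace Fermat.Agent.S36

open Fermat.Agent.S34 Fermat.Agent.S37 Fermat.Agent.S24 Fermat.Agent.S18 Fermat.Agent.S40

local notation "Qb" => AlgebraicClosure ℚ

/-! ## Series level -/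

section Series

variable (q : ℕ) [NeZero q] [Fact q.Prime] (A : ValuationSubring Qb)

omit [NeZero q] [Fact q.Prime] in
theorem h52_cv_jk_ne_zero : jqModC (IsLocalRing.ResidueField A) ≠ 0 := by
  intro h0
  have h1 := congrArg (fun s : LaurentSeries (IsLocalRing.ResidueField A) => s.coeff (-1)) h0
  simp only [HahnSeries.coeff_zero] at h1
  rw [coeff_jqModC_neg_one] at h1
  exact one_ne_zero h1

omit [NeZero q] [Fact q.Prime] in
/-- `j` has Gauss order `0`, for every uniformiser. -/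
theorem h52_cv_ser_j (π : Qb) : h98_GV A π (coeffEmb Qb jq) 0 := by
  refine h98_GV_of_eq (t := coeffMap A.subtype (jqModC A)) (h60_int_mem A _) ?_ ?_
  · rw [h60_rs_int, coeffMap_jqModC]
    exact h52_cv_jk_ne_zero A
  · rw [← h74_Jb_eq, neg_zero, zpow_zero, map_one, one_mul]

/-- `j(t^q)` has Gauss order `0`, for every uniformiser. -/
theorem h52_cv_ser_Vj (π : Qb) : h98_GV A π (qExpand Qb q (coeffEmb Qb jq)) 0 := by
  refine h98_GV_of_eq (t := coeffMap A.subtype (qExpand A q (jqModC A))) (h60_int_mem A _) ?_ ?_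
  · rw [h60_rs_int, coeffMap_qExpand, coeffMap_jqModC]
    intro h0
    exact h52_cv_jk_ne_zero A
      (qExpand_injective (R := IsLocalRing.ResidueField A) q (by rw [h0, map_zero]))
  · rw [coeffMap_qExpand, ← h74_Jb_eq, neg_zero, zpow_zero, map_one, one_mul]

/-- `j(t^(q²))` has Gauss order `0`, for every uniformiser. -/
theorem h52_cv_ser_VVj (π : Qb) :
    h98_GV A π (qExpand Qb q (qExpand Qb q (coeffEmb Qb jq))) 0 := by
  refine h98_GV_of_eq (t := coeffMap A.subtype (qExpand A q (qExpand A q (jqModC A))))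
    (h60_int_mem A _) ?_ ?_
  · rw [h60_rs_int, coeffMap_qExpand, coeffMap_qExpand, coeffMap_jqModC]
    intro h0
    have h1 : qExpand (IsLocalRing.ResidueField A) q (jqModC (IsLocalRing.ResidueField A)) = 0 :=
      qExpand_injective (R := IsLocalRing.ResidueField A) q (by rw [h0, map_zero])
    exact h52_cv_jk_ne_zero A
      (qExpand_injective (R := IsLocalRing.ResidueField A) q (by rw [h1, map_zero]))
  · rw [coeffMap_qExpand, coeffMap_qExpand, ← h74_Jb_eq, neg_zero, zpow_zero, map_one, one_mul]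

/-- `j(t^q)^q - j(t^(q²))` reduces to `0` (Frobenius). -/
theorem h52_cv_ser_D2 (hA : A.LiesOverPrime q) :
    ∃ h : qExpand Qb q (coeffEmb Qb jq) ^ q - qExpand Qb q (qExpand Qb q (coeffEmb Qb jq))
        ∈ h60_Os A, h60_rs A ⟨_, h⟩ = 0 := by
  have : CharP (IsLocalRing.ResidueField A) q := h19_residueField_charP A q hA
  set Y : LaurentSeries A :=
    qExpand A q (jqModC A) ^ q - qExpand A q (qExpand A q (jqModC A)) with hYdef
  have hY : coeffMap A.subtype Y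
      = qExpand Qb q (coeffEmb Qb jq) ^ q - qExpand Qb q (qExpand Qb q (coeffEmb Qb jq)) := by
    rw [hYdef, map_sub, map_pow, coeffMap_qExpand, coeffMap_qExpand, coeffMap_qExpand,
      ← h74_Jb_eq]
  rw [← hY]
  refine ⟨h60_int_mem A Y, ?_⟩
  rw [h60_rs_int, hYdef, map_sub, map_pow, coeffMap_qExpand, coeffMap_qExpand, coeffMap_qExpand,
    coeffMap_jqModC, ← map_pow, h60_jq_pow (IsLocalRing.ResidueField A) q, sub_self]

/-- `j(t^(q²)) - j(t)^(q²)` reduces to `0` (Frobenius twice). -/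
theorem h52_cv_ser_D3 (hA : A.LiesOverPrime q) :
    ∃ h : qExpand Qb q (qExpand Qb q (coeffEmb Qb jq)) - coeffEmb Qb jq ^ (q * q)
        ∈ h60_Os A, h60_rs A ⟨_, h⟩ = 0 := by
  have : CharP (IsLocalRing.ResidueField A) q := h19_residueField_charP A q hA
  set Y : LaurentSeries A :=
    qExpand A q (qExpand A q (jqModC A)) - jqModC A ^ (q * q) with hYdef
  have hY : coeffMap A.subtype Y
      = qExpand Qb q (qExpand Qb q (coeffEmb Qb jq)) - coeffEmb Qb jq ^ (q * q) := by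
    rw [hYdef, map_sub, map_pow, coeffMap_qExpand, coeffMap_qExpand, ← h74_Jb_eq]
  rw [← hY]
  refine ⟨h60_int_mem A Y, ?_⟩
  rw [h60_rs_int, hYdef, map_sub, map_pow, coeffMap_qExpand, coeffMap_qExpand, coeffMap_jqModC,
    pow_mul, h60_jq_pow (IsLocalRing.ResidueField A) q, ← map_pow,
    h60_jq_pow (IsLocalRing.ResidueField A) q, sub_self]

end Series

/-! ## The three `j`-functions of level `M q²` -/

section Mod

variable (M q : ℕ) [NeZero M] [NeZero q] [Fact q.Prime] (hqM : ¬ q ∣ M)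
  (A : ValuationSubring Qb) (hA : A.LiesOverPrime q) (ζ : Qb) (hζ : IsPrimitiveRoot ζ q)
  (hex : h98_Ex M q hqM A ζ hζ)

/-- `J0 = j(τ)`. -/
def h52_cvJ0 : h69_F0 (M * q * q) (A.inertiaSubgroupIn ℚ) := h69_jF0 (M * q * q) _

/-- `J1 = j(q τ)`. -/
def h52_cvJ1 : h69_F0 (M * q * q) (A.inertiaSubgroupIn ℚ) :=
  h70_aF0 (M * q) q _ (h70_bF0 M q _ (h69_jF0 M _))

/-- `J2 = j(q² τ)`. -/
def h52_cvJ2 : h69_F0 (M * q * q) (A.inertiaSubgroupIn ℚ) :=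
  h70_bF0 (M * q) q _ (h70_bF0 M q _ (h69_jF0 M _))

theorem h52_cv_coe_J0 :
    ((h52_cvJ0 M q A : h69_F0 (M * q * q) (A.inertiaSubgroupIn ℚ)) :
      modularFunctionFieldBar (M * q * q)) = h59_jbar (M * q * q) := rfl

theorem h52_cv_coe_J1 :
    ((h52_cvJ1 M q A : h69_F0 (M * q * q) (A.inertiaSubgroupIn ℚ)) :
      modularFunctionFieldBar (M * q * q))
      = heckeAlphaBar Qb (M * q) q (heckeBetaBar Qb M q (h59_jbar M)) := rfl

theorem h52_cv_coe_J2 :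
    ((h52_cvJ2 M q A : h69_F0 (M * q * q) (A.inertiaSubgroupIn ℚ)) :
      modularFunctionFieldBar (M * q * q))
      = heckeBetaBar Qb (M * q) q (heckeBetaBar Qb M q (h59_jbar M)) := rfl

/-- `J0 = i0 (j)`. -/
theorem h52_cv_J0_i0 : h59_jbar (M * q * q) = h36_i0 M q (h59_jbar (M * q)) := by
  rw [h98_hi0, h19_heckeAlphaBar_jbar]

/-- `J1 = i0 (β j)`. -/
theorem h52_cv_J1_i0 :
    heckeAlphaBar Qb (M * q) q (heckeBetaBar Qb M q (h59_jbar M))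
      = h36_i0 M q (heckeBetaBar Qb M q (h59_jbar M)) := rfl

include hqM in
/-- `J1 = β' (j)` (helper63's normal form). -/
theorem h52_cv_J1_sh :
    heckeAlphaBar Qb (M * q) q (heckeBetaBar Qb M q (h59_jbar M))
      = heckeBetaBar Qb (M * q) q (h59_jbar (M * q)) := by
  have h := h36_i0_beta M q hqM (h59_jbar M)
  rw [h98_hi0, h98_hi2, h60_w_beta, h19_heckeAlphaBar_jbar] at h
  exact h

/-- `J2 = i2 (j)`. -/
theorem h52_cv_J2_i2 :
    heckeBetaBar Qb (M * q) q (heckeBetaBar Qb M q (h59_jbar M))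
      = h36_i2 M q hqM (h59_jbar (M * q)) := by
  rw [h98_hi2, h74_w_jbar]

/-! ### The three expansions -/

theorem h52_cv_std_J0 :
    ((h59_jbar (M * q * q) : modularFunctionFieldBar (M * q * q)) : LaurentSeries Qb)
      = coeffEmb Qb jq := h59_coe_jbar _

theorem h52_cv_std_J1 :
    ((heckeAlphaBar Qb (M * q) q (heckeBetaBar Qb M q (h59_jbar M)) :
        modularFunctionFieldBar (M * q * q)) : LaurentSeries Qb)
      = qExpand Qb q (coeffEmb Qb jq) := by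
  rw [coe_heckeAlphaBar, coe_heckeBetaBar, h59_coe_jbar]

theorem h52_cv_std_J2 :
    ((heckeBetaBar Qb (M * q) q (heckeBetaBar Qb M q (h59_jbar M)) :
        modularFunctionFieldBar (M * q * q)) : LaurentSeries Qb)
      = qExpand Qb q (qExpand Qb q (coeffEmb Qb jq)) := by
  rw [coe_heckeBetaBar, coe_heckeBetaBar, h59_coe_jbar]

theorem h52_cv_mid_J0 :
    h98_midP M q hqM ζ hζ (h59_jbar (M * q * q)) = coeffEmb Qb jq := by
  rw [h52_cv_J0_i0, h98_midP_i0, h59_coe_jbar]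

theorem h52_cv_mid_J1 :
    h98_midP M q hqM ζ hζ (heckeAlphaBar Qb (M * q) q (heckeBetaBar Qb M q (h59_jbar M)))
      = qExpand Qb q (coeffEmb Qb jq) := by
  rw [h52_cv_J1_i0, h98_midP_i0, coe_heckeBetaBar, h59_coe_jbar]

theorem h52_cv_W_J0 :
    h36_W M q hqM (h59_jbar (M * q * q))
      = heckeBetaBar Qb (M * q) q (heckeBetaBar Qb M q (h59_jbar M)) := by
  rw [h52_cv_J0_i0, h36_W_i0, ← h52_cv_J2_i2]

theorem h52_cv_W_J1 :
    h36_W M q hqM (heckeAlphaBar Qb (M * q) q (heckeBetaBar Qb M q (h59_jbar M)))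
      = heckeBetaBar Qb (M * q) q (heckeAlphaBar Qb M q (h59_jbar M)) := by
  rw [h52_cv_J1_i0, h36_W_i0, h98_hi2, h60_w_beta]

theorem h52_cv_W_J2 :
    h36_W M q hqM (heckeBetaBar Qb (M * q) q (heckeBetaBar Qb M q (h59_jbar M)))
      = h59_jbar (M * q * q) := by
  rw [h52_cv_J2_i2 M q hqM, h36_W_i2, ← h52_cv_J0_i0]

theorem h52_cv_conj_J0 :
    ((h36_W M q hqM (h59_jbar (M * q * q)) : modularFunctionFieldBar (M * q * q)) :
      LaurentSeries Qb) = qExpand Qb q (qExpand Qb q (coeffEmb Qb jq)) := by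
  rw [h52_cv_W_J0, h52_cv_std_J2]

theorem h52_cv_conj_J1 :
    ((h36_W M q hqM (heckeAlphaBar Qb (M * q) q (heckeBetaBar Qb M q (h59_jbar M))) :
        modularFunctionFieldBar (M * q * q)) : LaurentSeries Qb)
      = qExpand Qb q (coeffEmb Qb jq) := by
  rw [h52_cv_W_J1, coe_heckeBetaBar, coe_heckeAlphaBar, h59_coe_jbar]

theorem h52_cv_conj_J2 :
    ((h36_W M q hqM (heckeBetaBar Qb (M * q) q (heckeBetaBar Qb M q (h59_jbar M))) :
        modularFunctionFieldBar (M * q * q)) : LaurentSeries Qb) = coeffEmb Qb jq := by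
  rw [h52_cv_W_J2, h59_coe_jbar]

end Mod

/-! ## Valuation calculus -/

section Calc

variable {F : Type*} [Field F] {w : F → ℤ}

/-- `x - y = d * u` with `u` a `w`-unit and `d ≡ 0`: then `x ≡ y`. -/
theorem h52_cv_quot (hw : h99_IsVal w) {d u x y : F} (hu : u ≠ 0) (hu0 : w u = 0)
    (hd : d = 0 ∨ 0 < w d) (hxy : x - y = d * u) : x = y ∨ 0 < w (x - y) := by
  by_cases hd0 : d = 0
  · left
    rw [hd0, zero_mul] at hxy
    exact sub_eq_zero.mp hxy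
  · right
    rw [hxy, hw.map_mul d u hd0 hu, hu0, add_zero]
    exact hd.resolve_left hd0

theorem h52_cv_pow_inv (hw : h99_IsVal w) {x : F} (hx : x ≠ 0) (hx0 : w x = 0) (n : ℕ) :
    (x ^ n)⁻¹ ≠ 0 ∧ w (x ^ n)⁻¹ = 0 := by
  refine ⟨inv_ne_zero (pow_ne_zero n hx), ?_⟩
  rw [h99_w_inv hw (pow_ne_zero n hx), h99_w_pow hw hx, hx0, mul_zero, neg_zero]

theorem h52_cv_neg (hw : h99_IsVal w) {d : F} (hd : d = 0 ∨ 0 < w d) : -d = 0 ∨ 0 < w (-d) := by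
  by_cases hd0 : d = 0
  · left
    rw [hd0, neg_zero]
  · right
    rw [h99_w_neg hw hd0]
    exact hd.resolve_left hd0

end Calc

/-! ## The values on the three components -/

section Val

variable (M q : ℕ) [NeZero M] [NeZero q] [Fact q.Prime] (hqM : ¬ q ∣ M)
  (A : ValuationSubring Qb) (hA : A.LiesOverPrime q) (ζ : Qb) (hζ : IsPrimitiveRoot ζ q)
  (hex : h98_Ex M q hqM A ζ hζ)

theorem h52_cv_J0_ne : h52_cvJ0 M q A ≠ 0 := by
  intro h0
  have h1 := h98_GV_ne_zero (h52_cv_ser_j A (q : Qb))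
  apply h1
  have h2 : h59_jbar (M * q * q) = 0 := congrArg Subtype.val h0
  rw [← h59_coe_jbar (M * q * q), h2]
  rfl

theorem h52_cv_J1_ne : h52_cvJ1 M q A ≠ 0 := by
  intro h0
  have h1 := h98_GV_ne_zero (h52_cv_ser_Vj q A (q : Qb))
  apply h1
  have h2 : heckeAlphaBar Qb (M * q) q (heckeBetaBar Qb M q (h59_jbar M)) = 0 :=
    congrArg Subtype.val h0
  rw [← h52_cv_std_J1 M q, h2]
  rfl

theorem h52_cv_J2_ne : h52_cvJ2 M q A ≠ 0 := by
  intro h0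
  have h1 := h98_GV_ne_zero (h52_cv_ser_VVj q A (q : Qb))
  apply h1
  have h2 : heckeBetaBar Qb (M * q) q (heckeBetaBar Qb M q (h59_jbar M)) = 0 :=
    congrArg Subtype.val h0
  rw [← h52_cv_std_J2 M q, h2]
  rfl

/-- `J0 ^ q - J1 = g` (helper74's element). -/
theorem h52_cv_d1 : h52_cvJ0 M q A ^ q - h52_cvJ1 M q A = h74_gF M q A := by
  apply Subtype.ext
  show h59_jbar (M * q * q) ^ q - heckeAlphaBar Qb (M * q) q (heckeBetaBar Qb M q (h59_jbar M))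
    = h36_i0 M q (h59_jbar (M * q) ^ q - heckeBetaBar Qb M q (h59_jbar M))
  rw [map_sub, map_pow, ← h52_cv_J0_i0]
  rfl

/-- `J2 - J0 = z` (helper74's element). -/
theorem h52_cv_z : h52_cvJ2 M q A - h52_cvJ0 M q A = h74_zF M q hqM A := by
  apply Subtype.ext
  show heckeBetaBar Qb (M * q) q (heckeBetaBar Qb M q (h59_jbar M)) - h59_jbar (M * q * q)
    = h36_i2 M q hqM (h59_jbar (M * q)) - h36_i0 M q (h59_jbar (M * q))
  rw [← h52_cv_J0_i0, ← h52_cv_J2_i2]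

/-- `G1 = J1 / J0 ^ q`. -/
def h52_cvG1 : h69_F0 (M * q * q) (A.inertiaSubgroupIn ℚ) :=
  h52_cvJ1 M q A / h52_cvJ0 M q A ^ q

/-- `G3 = J2 / J0 ^ (q * q)`. -/
def h52_cvG3 : h69_F0 (M * q * q) (A.inertiaSubgroupIn ℚ) :=
  h52_cvJ2 M q A / h52_cvJ0 M q A ^ (q * q)

/-- `zt = J0 / J2`. -/
def h52_cvZt : h69_F0 (M * q * q) (A.inertiaSubgroupIn ℚ) :=
  h52_cvJ0 M q A / h52_cvJ2 M q A

include hqM in
theorem h52_cv_d1_ne : h52_cvJ0 M q A ^ q - h52_cvJ1 M q A ≠ 0 := by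
  rw [h52_cv_d1]
  exact h74_gF_ne_zero M q hqM A

include hqM in
theorem h52_cv_z_ne : h52_cvJ2 M q A - h52_cvJ0 M q A ≠ 0 := by
  rw [h52_cv_z M q hqM A]
  exact h74_zF_ne_zero M q hqM A

include hA

/-- `w c J0 = 0`. -/
theorem h52_cv_J0 (c : Fin 3) : h98_w2 M q hqM A ζ hζ hex c (h52_cvJ0 M q A) = 0 := by
  fin_cases c
  · refine h98_v1_eq M q hqM A hA ζ hζ hex _ _ ?_
    show h98_GV A (q : Qb) ((h59_jbar (M * q * q) : modularFunctionFieldBar (M * q * q)) :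
      LaurentSeries Qb) 0
    rw [h52_cv_std_J0]
    exact h52_cv_ser_j A _
  · refine h98_v2_eq M q hqM A hA ζ hζ hex _ _ ?_
    show h98_GV A (ζ - 1) (h98_midP M q hqM ζ hζ (h59_jbar (M * q * q))) 0
    rw [h52_cv_mid_J0]
    exact h52_cv_ser_j A _
  · refine h98_v3_eq M q hqM A hA ζ hζ hex _ _ ?_
    show h98_GV A (q : Qb) ((h36_W M q hqM (h59_jbar (M * q * q)) :
      modularFunctionFieldBar (M * q * q)) : LaurentSeries Qb) 0
    rw [h52_cv_conj_J0]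
    exact h52_cv_ser_VVj q A _

/-- `w c J1 = 0`. -/
theorem h52_cv_J1 (c : Fin 3) : h98_w2 M q hqM A ζ hζ hex c (h52_cvJ1 M q A) = 0 := by
  fin_cases c
  · refine h98_v1_eq M q hqM A hA ζ hζ hex _ _ ?_
    show h98_GV A (q : Qb) ((heckeAlphaBar Qb (M * q) q (heckeBetaBar Qb M q (h59_jbar M)) :
      modularFunctionFieldBar (M * q * q)) : LaurentSeries Qb) 0
    rw [h52_cv_std_J1]
    exact h52_cv_ser_Vj q A _
  · refine h98_v2_eq M q hqM A hA ζ hζ hex _ _ ?_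
    show h98_GV A (ζ - 1) (h98_midP M q hqM ζ hζ
      (heckeAlphaBar Qb (M * q) q (heckeBetaBar Qb M q (h59_jbar M)))) 0
    rw [h52_cv_mid_J1]
    exact h52_cv_ser_Vj q A _
  · refine h98_v3_eq M q hqM A hA ζ hζ hex _ _ ?_
    show h98_GV A (q : Qb) ((h36_W M q hqM
      (heckeAlphaBar Qb (M * q) q (heckeBetaBar Qb M q (h59_jbar M))) :
      modularFunctionFieldBar (M * q * q)) : LaurentSeries Qb) 0
    rw [h52_cv_conj_J1]
    exact h52_cv_ser_Vj q A _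

/-- `w (J2 - J0) = (0, 1, 0)`. -/
theorem h52_cv_z0 :
    h98_w2 M q hqM A ζ hζ hex 0 (h52_cvJ2 M q A - h52_cvJ0 M q A) = 0 := by
  rw [h52_cv_z]
  exact h74_w2_z0 M q hqM A hA ζ hζ hex

theorem h52_cv_z1 :
    h98_w2 M q hqM A ζ hζ hex 1 (h52_cvJ2 M q A - h52_cvJ0 M q A) = 1 := by
  rw [h52_cv_z]
  exact h74_w2_z1 M q hqM A hA ζ hζ hex

theorem h52_cv_z2 :
    h98_w2 M q hqM A ζ hζ hex 2 (h52_cvJ2 M q A - h52_cvJ0 M q A) = 0 := by
  rw [h52_cv_z]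
  exact h74_w2_z2 M q hqM A hA ζ hζ hex

/-- `w c J2 = 0`. -/
theorem h52_cv_J2 (c : Fin 3) : h98_w2 M q hqM A ζ hζ hex c (h52_cvJ2 M q A) = 0 := by
  fin_cases c
  · refine h98_v1_eq M q hqM A hA ζ hζ hex _ _ ?_
    show h98_GV A (q : Qb) ((heckeBetaBar Qb (M * q) q (heckeBetaBar Qb M q (h59_jbar M)) :
      modularFunctionFieldBar (M * q * q)) : LaurentSeries Qb) 0
    rw [h52_cv_std_J2]
    exact h52_cv_ser_VVj q A _
  · have hw := h98_w2_isVal M q hqM A hA ζ hζ hex 1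
    have h1 := h99_w_add_eq hw (h52_cv_J0_ne M q A)
      (g := h52_cvJ2 M q A - h52_cvJ0 M q A) (Or.inr (by
        rw [h52_cv_J0 M q hqM A hA ζ hζ hex 1, h52_cv_z1 M q hqM A hA ζ hζ hex]
        norm_num))
    have e : h52_cvJ0 M q A + (h52_cvJ2 M q A - h52_cvJ0 M q A) = h52_cvJ2 M q A := by ring
    rw [e, h52_cv_J0 M q hqM A hA ζ hζ hex 1] at h1
    exact h1.2
  · refine h98_v3_eq M q hqM A hA ζ hζ hex _ _ ?_
    show h98_GV A (q : Qb) ((h36_W M q hqM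
      (heckeBetaBar Qb (M * q) q (heckeBetaBar Qb M q (h59_jbar M))) :
      modularFunctionFieldBar (M * q * q)) : LaurentSeries Qb) 0
    rw [h52_cv_conj_J2]
    exact h52_cv_ser_j A _

/-! ### The congruences -/

/-- `J0 ^ q ≡ J1` on `C20`. -/
theorem h52_cv_d1_C20 :
    0 < h98_w2 M q hqM A ζ hζ hex 0 (h52_cvJ0 M q A ^ q - h52_cvJ1 M q A) := by
  rw [h52_cv_d1]
  exact h74_w2_g0 M q hqM A hA ζ hζ hex

/-- `J0 ^ q ≡ J1` on `C11`. -/
theorem h52_cv_d1_C11 :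
    0 < h98_w2 M q hqM A ζ hζ hex 1 (h52_cvJ0 M q A ^ q - h52_cvJ1 M q A) := by
  rw [h52_cv_d1]
  exact h74_w2_g1 M q hqM A hA ζ hζ hex

/-- `J1 ^ q ≡ J0` on `C02`. -/
theorem h52_cv_d2_C02 :
    h52_cvJ1 M q A ^ q - h52_cvJ0 M q A = 0 ∨
      0 < h98_w2 M q hqM A ζ hζ hex 2 (h52_cvJ1 M q A ^ q - h52_cvJ0 M q A) := by
  by_cases hd : h52_cvJ1 M q A ^ q - h52_cvJ0 M q A = 0
  · exact Or.inl hd
  right
  refine (h98_v3_pos_iff M q hqM A hA ζ hζ hex _ hd).mpr ?_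
  show ∃ h : h98_coe (M * q * q) (h36_W M q hqM
      (heckeAlphaBar Qb (M * q) q (heckeBetaBar Qb M q (h59_jbar M)) ^ q - h59_jbar (M * q * q)))
      ∈ h60_Os A, h60_rs A ⟨_, h⟩ = 0
  rw [map_sub, map_pow, map_sub, map_pow, h98_coe_apply, h98_coe_apply, h52_cv_conj_J1,
    h52_cv_conj_J0]
  exact h52_cv_ser_D2 q A hA

/-- `J2 ≡ J0 ^ (q * q)` on `C20`. -/
theorem h52_cv_d3_C20 :
    h52_cvJ2 M q A - h52_cvJ0 M q A ^ (q * q) = 0 ∨
      0 < h98_w2 M q hqM A ζ hζ hex 0 (h52_cvJ2 M q A - h52_cvJ0 M q A ^ (q * q)) := by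
  by_cases hd : h52_cvJ2 M q A - h52_cvJ0 M q A ^ (q * q) = 0
  · exact Or.inl hd
  right
  refine (h98_v1_pos_iff M q hqM A hA ζ hζ hex _ hd).mpr ?_
  show ∃ h : h98_coe (M * q * q)
      (heckeBetaBar Qb (M * q) q (heckeBetaBar Qb M q (h59_jbar M)) - h59_jbar (M * q * q) ^ (q * q))
      ∈ h60_Os A, h60_rs A ⟨_, h⟩ = 0
  rw [map_sub, map_pow, h98_coe_apply, h98_coe_apply, h52_cv_std_J2, h52_cv_std_J0]
  exact h52_cv_ser_D3 q A hA

/-! ### The vertical facts (V) of the cusp row -/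

/-- **(V1)** `G1 ≡ 1` on `C20`. -/
theorem h52_cv_G1_C20 :
    h52_cvG1 M q A = 1 ∨ 0 < h98_w2 M q hqM A ζ hζ hex 0 (h52_cvG1 M q A - 1) := by
  have hw := h98_w2_isVal M q hqM A hA ζ hζ hex 0
  have hJ := h52_cv_J0_ne M q A
  obtain ⟨hu, hu0⟩ := h52_cv_pow_inv hw hJ (h52_cv_J0 M q hqM A hA ζ hζ hex 0) q
  refine h52_cv_quot hw hu hu0
    (h52_cv_neg hw (Or.inr (h52_cv_d1_C20 M q hqM A hA ζ hζ hex))) ?_
  unfold h52_cvG1
  field_simp
  ring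

/-- **(V2)** `G1 ≡ 1` on `C11`. -/
theorem h52_cv_G1_C11 :
    h52_cvG1 M q A = 1 ∨ 0 < h98_w2 M q hqM A ζ hζ hex 1 (h52_cvG1 M q A - 1) := by
  have hw := h98_w2_isVal M q hqM A hA ζ hζ hex 1
  have hJ := h52_cv_J0_ne M q A
  obtain ⟨hu, hu0⟩ := h52_cv_pow_inv hw hJ (h52_cv_J0 M q hqM A hA ζ hζ hex 1) q
  refine h52_cv_quot hw hu hu0
    (h52_cv_neg hw (Or.inr (h52_cv_d1_C11 M q hqM A hA ζ hζ hex))) ?_
  unfold h52_cvG1
  field_simp
  ring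

/-- **(V3)** `G1 ^ q ≡ a ^ (q * q - 1)` on `C02` (`a = J0⁻¹`). -/
theorem h52_cv_G1_C02 :
    h52_cvG1 M q A ^ q = (h52_cvJ0 M q A)⁻¹ ^ (q * q - 1) ∨
      0 < h98_w2 M q hqM A ζ hζ hex 2
        (h52_cvG1 M q A ^ q - (h52_cvJ0 M q A)⁻¹ ^ (q * q - 1)) := by
  have hw := h98_w2_isVal M q hqM A hA ζ hζ hex 2
  have hJ := h52_cv_J0_ne M q A
  obtain ⟨hu, hu0⟩ := h52_cv_pow_inv hw hJ (h52_cv_J0 M q hqM A hA ζ hζ hex 2) (q * q)
  refine h52_cv_quot hw hu hu0 (h52_cv_d2_C02 M q hqM A hA ζ hζ hex) ?_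
  have hq : 1 ≤ q * q := Nat.one_le_iff_ne_zero.mpr (mul_ne_zero (NeZero.ne q) (NeZero.ne q))
  obtain ⟨n, hn⟩ : ∃ n, q * q = n + 1 := ⟨q * q - 1, (Nat.sub_add_cancel hq).symm⟩
  unfold h52_cvG1
  rw [div_pow, ← pow_mul, hn, Nat.add_sub_cancel, inv_pow]
  field_simp
  ring

/-- **(V4)** `G3 ≡ 1` on `C20`. -/
theorem h52_cv_G3_C20 :
    h52_cvG3 M q A = 1 ∨ 0 < h98_w2 M q hqM A ζ hζ hex 0 (h52_cvG3 M q A - 1) := by
  have hw := h98_w2_isVal M q hqM A hA ζ hζ hex 0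
  have hJ := h52_cv_J0_ne M q A
  obtain ⟨hu, hu0⟩ := h52_cv_pow_inv hw hJ (h52_cv_J0 M q hqM A hA ζ hζ hex 0) (q * q)
  refine h52_cv_quot hw hu hu0 (h52_cv_d3_C20 M q hqM A hA ζ hζ hex) ?_
  unfold h52_cvG3
  field_simp

/-- **(V5')** `G3 ≡ a ^ (q * q - 1)` on `C11` (`a = J0⁻¹`). -/
theorem h52_cv_G3_C11 :
    h52_cvG3 M q A = (h52_cvJ0 M q A)⁻¹ ^ (q * q - 1) ∨
      0 < h98_w2 M q hqM A ζ hζ hex 1
        (h52_cvG3 M q A - (h52_cvJ0 M q A)⁻¹ ^ (q * q - 1)) := by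
  have hw := h98_w2_isVal M q hqM A hA ζ hζ hex 1
  have hJ := h52_cv_J0_ne M q A
  obtain ⟨hu, hu0⟩ := h52_cv_pow_inv hw hJ (h52_cv_J0 M q hqM A hA ζ hζ hex 1) (q * q)
  refine h52_cv_quot hw hu hu0 (d := h52_cvJ2 M q A - h52_cvJ0 M q A)
    (Or.inr (by rw [h52_cv_z1 M q hqM A hA ζ hζ hex]; norm_num)) ?_
  have hq : 1 ≤ q * q := Nat.one_le_iff_ne_zero.mpr (mul_ne_zero (NeZero.ne q) (NeZero.ne q))
  obtain ⟨n, hn⟩ : ∃ n, q * q = n + 1 := ⟨q * q - 1, (Nat.sub_add_cancel hq).symm⟩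
  unfold h52_cvG3
  rw [hn, Nat.add_sub_cancel, inv_pow]
  field_simp
  ring

/-- **(V7)** `J2 * a ≡ 1` on `C11` (`a = J0⁻¹`). -/
theorem h52_cv_J2a_C11 :
    h52_cvJ2 M q A * (h52_cvJ0 M q A)⁻¹ = 1 ∨
      0 < h98_w2 M q hqM A ζ hζ hex 1 (h52_cvJ2 M q A * (h52_cvJ0 M q A)⁻¹ - 1) := by
  have hw := h98_w2_isVal M q hqM A hA ζ hζ hex 1
  have hJ := h52_cv_J0_ne M q A
  have hu0 : h98_w2 M q hqM A ζ hζ hex 1 (h52_cvJ0 M q A)⁻¹ = 0 := by
    rw [h99_w_inv hw hJ, h52_cv_J0 M q hqM A hA ζ hζ hex 1, neg_zero]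
  refine h52_cv_quot hw (inv_ne_zero hJ) hu0 (d := h52_cvJ2 M q A - h52_cvJ0 M q A)
    (Or.inr (by rw [h52_cv_z1 M q hqM A hA ζ hζ hex]; norm_num)) ?_
  field_simp

/-- **(V6)** `w c a = 0`, `w c G1 = 0`, `w c G3 = 0`, `w c zt = 0`. -/
theorem h52_cv_a (c : Fin 3) : h98_w2 M q hqM A ζ hζ hex c (h52_cvJ0 M q A)⁻¹ = 0 := by
  rw [h99_w_inv (h98_w2_isVal M q hqM A hA ζ hζ hex c) (h52_cv_J0_ne M q A),
    h52_cv_J0 M q hqM A hA ζ hζ hex c, neg_zero]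

theorem h52_cv_G1 (c : Fin 3) : h98_w2 M q hqM A ζ hζ hex c (h52_cvG1 M q A) = 0 := by
  have hw := h98_w2_isVal M q hqM A hA ζ hζ hex c
  obtain ⟨hu, hu0⟩ := h52_cv_pow_inv hw (h52_cv_J0_ne M q A)
    (h52_cv_J0 M q hqM A hA ζ hζ hex c) q
  unfold h52_cvG1
  rw [div_eq_mul_inv, hw.map_mul _ _ (h52_cv_J1_ne M q A) hu, hu0,
    h52_cv_J1 M q hqM A hA ζ hζ hex c, add_zero]

theorem h52_cv_G3 (c : Fin 3) : h98_w2 M q hqM A ζ hζ hex c (h52_cvG3 M q A) = 0 := by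
  have hw := h98_w2_isVal M q hqM A hA ζ hζ hex c
  obtain ⟨hu, hu0⟩ := h52_cv_pow_inv hw (h52_cv_J0_ne M q A)
    (h52_cv_J0 M q hqM A hA ζ hζ hex c) (q * q)
  unfold h52_cvG3
  rw [div_eq_mul_inv, hw.map_mul _ _ (h52_cv_J2_ne M q A) hu, hu0,
    h52_cv_J2 M q hqM A hA ζ hζ hex c, add_zero]

theorem h52_cv_zt (c : Fin 3) : h98_w2 M q hqM A ζ hζ hex c (h52_cvZt M q A) = 0 := by
  have hw := h98_w2_isVal M q hqM A hA ζ hζ hex c
  unfold h52_cvZt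
  rw [div_eq_mul_inv, hw.map_mul _ _ (h52_cv_J0_ne M q A) (inv_ne_zero (h52_cv_J2_ne M q A)),
    h99_w_inv hw (h52_cv_J2_ne M q A), h52_cv_J0 M q hqM A hA ζ hζ hex c,
    h52_cv_J2 M q hqM A hA ζ hζ hex c, neg_zero, add_zero]

/-- **(V8)** `zt - 1` is a uniformiser of `C11`: `w 1 (zt - 1) = 1` (and `zt - 1 ≠ 0`). -/
theorem h52_cv_zt_C11 :
    h52_cvZt M q A - 1 ≠ 0 ∧ h98_w2 M q hqM A ζ hζ hex 1 (h52_cvZt M q A - 1) = 1 := by
  have hw := h98_w2_isVal M q hqM A hA ζ hζ hex 1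
  have hJ2 := h52_cv_J2_ne M q A
  have hz := h52_cv_z_ne M q hqM A
  have e : h52_cvZt M q A - 1 = -(h52_cvJ2 M q A - h52_cvJ0 M q A) * (h52_cvJ2 M q A)⁻¹ := by
    unfold h52_cvZt
    field_simp
    ring
  refine ⟨?_, ?_⟩
  · rw [e]
    exact mul_ne_zero (neg_ne_zero.mpr hz) (inv_ne_zero hJ2)
  · rw [e, hw.map_mul _ _ (neg_ne_zero.mpr hz) (inv_ne_zero hJ2), h99_w_neg hw hz,
      h99_w_inv hw hJ2, h52_cv_z1 M q hqM A hA ζ hζ hex, h52_cv_J2 M q hqM A hA ζ hζ hex 1]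
    norm_num

end Val

end Fermat.Agent.S36
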