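import Mathlib
import Fermat.Agent.S34.h10_CuspMq
import Fermat.Agent.S34.h60_R2
import Fermat.Agent.S24.h78_Fibres
import Fermat.Agent.S36.h49_Pull2Deg

/-!
# S36 / row I-CUSP, sub-lemma (S63) (helper63): the middle cusps of `X₀(q²)`

Level `q²` (`M = 1`).  `F₁ = F(1·q)`, `F₂ = F(1·q·q)`, `i0 = α`, `i2 = β ∘ w` (`w` the swap of `F₁`).
`J0 = j(t)`, `J1 = j(t^q)`, `J2 = j(t^(q²))` in `F₂`.  Given helper36's middle embeddings
`mid ζ : F₂ → ℚ̄((t))` (`mid ∘ i0 = coe`, `mid ∘ i2 = (t ↦ ζ t) ∘ coe`) as a hypothesis, every place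
`P` of `F₂` of *middle type* (`ord J0 < 0`, `ord J1 = q ord J0 = q ord J2`) satisfies
`0 < ord_P (J0 / J2 - ζ)` for some primitive `q`-th root of unity `ζ`.

* `h63_level_one_regular` : at level one `j` is regular off the cusp;
* `h63_cusp_q` : a pole of `j₀` in `F(1·q)` with `ord j₁ = q ord j₀` is the standard cusp;
* `h63_mid_place` : the place `P_ζ = order ∘ mid ζ`, with `0 < ord (J0 / J2 - ζ)`;
* `h63_mid_cusp` : the statement above.
-/

set_option autoImplicit false
set_option synthInstance.maxHeartbeats 400000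
set_option linter.style.haveILetI false

noncomputable section

open ModularCurve AlgebraicCurve HahnSeries IntermediateField CongruenceSubgroup
open scoped MatrixGroups

namespace Fermat.Agent.S36

open Fermat.Agent.S34 Fermat.Agent.S37 Fermat.Agent.S24 Fermat.Agent.S18

local notation "Qb" => AlgebraicClosure ℚ

/-! ## Level one -/

/-- At level one, `j` has exactly one pole. -/
theorem h63_card_poles_one :
    Nat.card {v : Place Qb ↥(modularFunctionFieldBar 1) // v.ord (h59_jbar 1) < 0} = 1 := by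
  rw [h78_card_poles 1]
  unfold h47_orbCount
  have hsub : ∀ a b : SL(2, ℤ) ⧸ Gamma0 1, a = b := by
    intro a b
    induction a using QuotientGroup.induction_on with
    | H a =>
    induction b using QuotientGroup.induction_on with
    | H b =>
    apply QuotientGroup.eq.mpr
    rw [Gamma0_mem]
    exact Subsingleton.elim _ _
  rw [Nat.card_eq_one_iff_unique]
  refine ⟨⟨fun x y => ?_⟩, ⟨Quotient.mk'' (QuotientGroup.mk 1)⟩⟩
  induction x using Quotient.inductionOn' with
  | h x =>
  induction y using Quotient.inductionOn' with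
  | h y =>
  rw [hsub x y]

/-- At level one, `j` is regular off the cusp. -/
theorem h63_level_one_regular {PM : Place Qb ↥(modularFunctionFieldBar 1)}
    (hPM : h10_IsCusp (modularFunctionFieldBar 1) PM)
    (v : Place Qb ↥(modularFunctionFieldBar 1)) (hv : v ≠ PM) : 0 ≤ v.ord (h59_jbar 1) := by
  by_contra h
  push Not at h
  have hPMj : PM.ord (h59_jbar 1) < 0 := by
    rw [hPM.ord_eq, h10_order_jbar]; norm_num
  have hsub := (Nat.card_eq_one_iff_unique.mp h63_card_poles_one).1
  have := Subtype.ext_iff.mp (hsub.elim ⟨v, h⟩ ⟨PM, hPMj⟩)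
  exact hv this

/-! ## Level `q` -/

/-- The cusps of `X₀(q)`: a pole of `j₀ = α j` in `F(1·q)` at which `ord j₁ = q · ord j₀`
(`j₁ = β j`) is the standard cusp. -/
theorem h63_cusp_q (q : ℕ) [NeZero q] [Fact q.Prime]
    {Pinf : Place Qb ↥(modularFunctionFieldBar (1 * q))}
    (hPinf : h10_IsCusp (modularFunctionFieldBar (1 * q)) Pinf)
    (P : Place Qb ↥(modularFunctionFieldBar (1 * q)))
    (h0 : P.ord (heckeAlphaBar Qb 1 q (h59_jbar 1)) < 0)
    (h1 : P.ord (heckeBetaBar Qb 1 q (h59_jbar 1))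
      = q * P.ord (heckeAlphaBar Qb 1 q (h59_jbar 1))) :
    P = Pinf := by
  have hq : q.Prime := Fact.out
  have hq1 : ¬ q ∣ 1 := hq.not_dvd_one
  have hwα := h60_w_alpha 1 q hq1
  have hwβ := h60_w_beta 1 q hq1
  obtain ⟨PM, hPM⟩ := h10_exists_cusp (F := modularFunctionFieldBar 1)
    ⟨h59_jbar 1, h10_order_jbar 1⟩
  obtain ⟨P0, hP0⟩ := h10_exists_cusp0 (h60_w 1 q hq1) hwα hwβ
  by_contra hne
  by_cases hP0' : P = P0
  · subst hP0'
    have e1 := h10_ord0_alpha hwα hP0 (h59_jbar 1)
    have e2 := h10_ord0_beta hwβ hP0 (h59_jbar 1)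
    rw [h10_order_jbar] at e1 e2
    rw [e1, e2] at h1
    have h2 : (2 : ℤ) ≤ q := by exact_mod_cast hq.two_le
    nlinarith
  · have := h10_polar_alpha hwα hq hq1 hPM hPinf hP0 (h59_jbar 1)
      (h63_level_one_regular hPM) P hne hP0'
    omega

/-! ## Level `q²`: the middle places -/

section Mid

variable (q : ℕ) [NeZero q] [Fact q.Prime] (hq1 : ¬ q ∣ 1)
  (i0 i2 : modularFunctionFieldBar (1 * q) →+* modularFunctionFieldBar (1 * q * q))
  (hi0 : ∀ g, i0 g = heckeAlphaBar Qb (1 * q) q g)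
  (hi2 : ∀ g, i2 g = heckeBetaBar Qb (1 * q) q (h60_w 1 q hq1 g))

omit [Fact q.Prime] in
/-- `J0 = α (α j)`. -/
theorem h63_J0_eq : h59_jbar (1 * q * q)
    = heckeAlphaBar Qb (1 * q) q (heckeAlphaBar Qb 1 q (h59_jbar 1)) := by
  apply Subtype.ext
  rw [coe_heckeAlphaBar, coe_heckeAlphaBar, h59_coe_jbar, h59_coe_jbar]

omit [Fact q.Prime] in
/-- `J1 = β (j) = α (β j)`. -/
theorem h63_J1_eq : heckeBetaBar Qb (1 * q) q (h59_jbar (1 * q))
    = heckeAlphaBar Qb (1 * q) q (heckeBetaBar Qb 1 q (h59_jbar 1)) := by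
  apply Subtype.ext
  rw [coe_heckeAlphaBar, coe_heckeBetaBar, coe_heckeBetaBar, h59_coe_jbar, h59_coe_jbar]

include hi0 hi2 in
/-- **The middle place** of an embedding `E` with `E ∘ i0 = coe`, `E ∘ i2 = twist_ζ ∘ coe`:
its order function is `order ∘ E`, `ord J2 = -1` and `J0 / J2` takes the value `ζ` at it. -/
theorem h63_mid_place (E : modularFunctionFieldBar (1 * q * q) →+* LaurentSeries Qb)
    (ζ : Qb) (hζ : ζ ≠ 0)
    (hE0 : ∀ g : modularFunctionFieldBar (1 * q), E (i0 g) = (g : LaurentSeries Qb))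
    (hE2 : ∀ g : modularFunctionFieldBar (1 * q),
      E (i2 g) = h59_twistHom ζ hζ (g : LaurentSeries Qb)) :
    ∃ P : Place Qb ↥(modularFunctionFieldBar (1 * q * q)),
      (∀ f : ↥(modularFunctionFieldBar (1 * q * q)), f ≠ 0 → P.ord f = (E f).order) ∧
      P.ord (heckeBetaBar Qb (1 * q) q (heckeBetaBar Qb 1 q (h59_jbar 1))) = -1 ∧
      0 < P.ord (h59_jbar (1 * q * q)
        / heckeBetaBar Qb (1 * q) q (heckeBetaBar Qb 1 q (h59_jbar 1))
        - algebraMap Qb ↥(modularFunctionFieldBar (1 * q * q)) ζ) := by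
  have hq : q.Prime := Fact.out
  set J0 : ↥(modularFunctionFieldBar (1 * q * q)) := h59_jbar (1 * q * q) with hJ0
  set J2 : ↥(modularFunctionFieldBar (1 * q * q)) :=
    heckeBetaBar Qb (1 * q) q (heckeBetaBar Qb 1 q (h59_jbar 1)) with hJ2
  set u : LaurentSeries Qb := coeffEmb Qb jq with hu
  have huo : u.order = -1 := h59_order_coeffEmb_jq
  have hu0 : u ≠ 0 := by
    intro h
    rw [h] at huo
    simp at huo
  -- the values of `E`
  have hEJ0 : E J0 = u := by
    rw [hJ0, h63_J0_eq, ← hi0, hE0, coe_heckeAlphaBar, h59_coe_jbar]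
  have hEJ2 : E J2 = h59_twistHom ζ hζ u := by
    have e1 : J2 = i2 (heckeAlphaBar Qb 1 q (h59_jbar 1)) := by
      rw [hi2, h60_w_alpha]
    rw [e1, hE2, coe_heckeAlphaBar, h59_coe_jbar]
  have hEc : ∀ c : Qb, E (algebraMap Qb ↥(modularFunctionFieldBar (1 * q * q)) c)
      = HahnSeries.single 0 c := by
    intro c
    have e1 : algebraMap Qb ↥(modularFunctionFieldBar (1 * q * q)) c
        = i0 (algebraMap Qb ↥(modularFunctionFieldBar (1 * q)) c) := by
      rw [hi0]; exact ((heckeAlphaBar Qb (1 * q) q).commutes c).symm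
    rw [e1, hE0, h10_coe_algebraMap]
  have hvo : (h59_twistHom ζ hζ u).order = -1 := by
    rw [h59_twistHom_apply, h64_twist_order hζ, huo]
  -- the order function
  have hne : ∀ f : ↥(modularFunctionFieldBar (1 * q * q)), f ≠ 0 → E f ≠ 0 :=
    fun f hf => (map_ne_zero E).mpr hf
  have hord : h56_IsOrd Qb (fun f : ↥(modularFunctionFieldBar (1 * q * q)) => (E f).order) :=
    { map_mul := by
        intro f g hf hg
        show (E (f * g)).order = _
        rw [map_mul]
        exact HahnSeries.order_mul (hne f hf) (hne g hg)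
      map_add := by
        intro f g hf hg hfg
        show _ ≤ (E (f + g)).order
        rw [map_add]
        exact HahnSeries.min_order_le_order_add (by rw [← map_add]; exact hne _ hfg)
      map_algebraMap := by
        intro c hc
        show (E (algebraMap Qb _ c)).order = 0
        rw [hEc, HahnSeries.order_single hc] }
  have hJ0ne : J0 ≠ 0 := by
    intro h
    have : E J0 = 0 := by rw [h, map_zero]
    rw [hEJ0] at this
    exact hu0 this
  obtain ⟨P, hP⟩ := h10_exists_place_of_isOrd _ hord ⟨J0, hJ0ne, by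
    show (E J0).order = -1
    rw [hEJ0, huo]⟩
  have hJ2ne : J2 ≠ 0 := by
    intro h
    have h1 : E J2 = 0 := by rw [h, map_zero]
    rw [hEJ2] at h1
    rw [h1] at hvo
    simp at hvo
  have hPJ2 : P.ord J2 = -1 := by rw [hP J2 hJ2ne, hEJ2, hvo]
  refine ⟨P, hP, hPJ2, ?_⟩
  -- `z = J0 / J2 - ζ ≠ 0` by the standard expansion
  set z : ↥(modularFunctionFieldBar (1 * q * q)) :=
    J0 / J2 - algebraMap Qb ↥(modularFunctionFieldBar (1 * q * q)) ζ with hz
  set d : ↥(modularFunctionFieldBar (1 * q * q)) :=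
    J0 - algebraMap Qb ↥(modularFunctionFieldBar (1 * q * q)) ζ * J2 with hd
  have hzd : z = d / J2 := by
    rw [hz, hd, sub_div, mul_div_assoc, div_self hJ2ne, mul_one]
  have hdne : d ≠ 0 := by
    intro h
    have h1 : J0 = algebraMap Qb ↥(modularFunctionFieldBar (1 * q * q)) ζ * J2 :=
      sub_eq_zero.mp h
    have h2 := congrArg (fun f : ↥(modularFunctionFieldBar (1 * q * q)) =>
      (f : LaurentSeries Qb).order) h1
    rw [MulMemClass.coe_mul, HahnSeries.order_mul (by
        rw [h10_coe_algebraMap]; exact HahnSeries.single_ne_zero hζ)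
      (fun h0 => hJ2ne (Subtype.ext h0)), h10_coe_algebraMap, HahnSeries.order_single hζ,
      hJ0, h10_order_jbar, hJ2, h10_order_beta, h10_order_beta, h10_order_jbar] at h2
    have h3 : (2 : ℤ) ≤ q := by exact_mod_cast hq.two_le
    nlinarith
  have hzne : z ≠ 0 := by
    rw [hzd]; exact div_ne_zero hdne hJ2ne
  -- the order of `E d`
  have hEd : E d = u - HahnSeries.single 0 ζ * h59_twistHom ζ hζ u := by
    rw [hd, map_sub, map_mul, hEJ0, hEJ2, hEc]
  have hEdne : E d ≠ 0 := hne d hdne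
  have hdo : 0 ≤ (E d).order := by
    by_contra hlt
    push Not at hlt
    apply (HahnSeries.coeff_order_eq_zero.not).mpr hEdne
    have hc : ∀ k : ℤ, k < 0 → (E d).coeff k = 0 := by
      intro k hk
      rw [hEd, HahnSeries.coeff_sub, ← HahnSeries.C_apply, HahnSeries.C_mul_eq_smul,
        HahnSeries.coeff_smul, h59_twistHom_apply, h64_twist_coeff, smul_eq_mul]
      rcases (show k < -1 ∨ k = -1 by omega) with h | h
      · have : u.coeff k = 0 := HahnSeries.coeff_eq_zero_of_lt_order (by rw [huo]; exact h)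
        rw [this]; ring
      · subst h
        rw [zpow_neg_one]
        field_simp
        ring
    exact hc _ hlt
  have h1 : P.ord z = P.ord d - P.ord J2 := by
    rw [hzd, div_eq_mul_inv, P.ord_mul hdne (inv_ne_zero hJ2ne), Place.ord_inv]
    ring
  rw [h1, hPJ2, hP d hdne]
  omega

set_option maxHeartbeats 1600000 in
include hi0 hi2 in
/-- **(S63)** Every place of `F(q²)` of middle type (`ord J0 < 0`, `ord J1 = q ord J0 = q ord J2`)
is one of the middle places: `J0 / J2` takes a primitive `q`-th root of unity as value there. -/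
theorem h63_mid_cusp
    (mid : ∀ ζ : Qb, IsPrimitiveRoot ζ q →
      (modularFunctionFieldBar (1 * q * q) →+* LaurentSeries Qb))
    (hmid0 : ∀ (ζ : Qb) (hζ : IsPrimitiveRoot ζ q) (g : modularFunctionFieldBar (1 * q)),
      mid ζ hζ (i0 g) = (g : LaurentSeries Qb))
    (hmid2 : ∀ (ζ : Qb) (hζ : IsPrimitiveRoot ζ q) (g : modularFunctionFieldBar (1 * q)),
      mid ζ hζ (i2 g) = h59_twistHom ζ (hζ.ne_zero (NeZero.ne q)) (g : LaurentSeries Qb))
    (P : Place Qb ↥(modularFunctionFieldBar (1 * q * q)))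
    (h0 : P.ord (h59_jbar (1 * q * q)) < 0)
    (h1 : P.ord (heckeBetaBar Qb (1 * q) q (h59_jbar (1 * q)))
      = q * P.ord (h59_jbar (1 * q * q)))
    (h2 : P.ord (heckeBetaBar Qb (1 * q) q (h59_jbar (1 * q)))
      = q * P.ord (heckeBetaBar Qb (1 * q) q (heckeBetaBar Qb 1 q (h59_jbar 1)))) :
    ∃ ζ : Qb, IsPrimitiveRoot ζ q ∧
      0 < P.ord (h59_jbar (1 * q * q)
        / heckeBetaBar Qb (1 * q) q (heckeBetaBar Qb 1 q (h59_jbar 1))
        - algebraMap Qb ↥(modularFunctionFieldBar (1 * q * q)) ζ) := by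
  classical
  have hq : q.Prime := Fact.out
  have hq2 : (2 : ℤ) ≤ q := by exact_mod_cast hq.two_le
  -- the middle places
  choose Pz hPz1 hPz2 hPz3 using fun (ζ : Qb) (hζ : IsPrimitiveRoot ζ q) =>
    h63_mid_place q hq1 i0 i2 hi0 hi2 (mid ζ hζ) ζ (hζ.ne_zero (NeZero.ne q))
      (hmid0 ζ hζ) (hmid2 ζ hζ)
  -- the extension `F(q²) / F(q)` along `α`
  letI := algebraAlong (heckeAlphaBar Qb (1 * q) q)
  haveI := isScalarTower_along (heckeAlphaBar Qb (1 * q) q)
  haveI : FiniteDimensional ↥(modularFunctionFieldBar (1 * q))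
      ↥(modularFunctionFieldBar (1 * q * q)) := h88_finiteAlong_alpha (1 * q) q
  haveI := h88_hasPrincipalDivisors (1 * q * q)
  have hmap : ∀ y : ↥(modularFunctionFieldBar (1 * q)),
      algebraMap ↥(modularFunctionFieldBar (1 * q)) ↥(modularFunctionFieldBar (1 * q * q)) y
        = heckeAlphaBar Qb (1 * q) q y := fun _ => rfl
  -- the standard cusps
  obtain ⟨Pinf1, hPinf1⟩ := h10_exists_cusp (F := modularFunctionFieldBar (1 * q))
    ⟨h59_jbar (1 * q), h10_order_jbar (1 * q)⟩
  obtain ⟨Pinf2, hPinf2⟩ := h10_exists_cusp (F := modularFunctionFieldBar (1 * q * q))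
    ⟨h59_jbar (1 * q * q), h10_order_jbar (1 * q * q)⟩
  have hrinf : Pinf2.restrict ↥(modularFunctionFieldBar (1 * q)) = Pinf1 := by
    apply Place.ext
    ext y
    rw [Place.mem_restrict_iff, hmap, hPinf2.mem_iff, hPinf1.mem_iff, h10_order_alpha,
      map_eq_zero]
  have hrz : ∀ (ζ : Qb) (hζ : IsPrimitiveRoot ζ q),
      (Pz ζ hζ).restrict ↥(modularFunctionFieldBar (1 * q)) = Pinf1 := by
    intro ζ hζ
    apply Place.ext
    ext y
    rw [Place.mem_restrict_iff, hmap, hPinf1.mem_iff]
    by_cases hy : y = 0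
    · subst hy
      simp
    · have hy' : heckeAlphaBar Qb (1 * q) q y ≠ 0 :=
        (map_ne_zero (heckeAlphaBar Qb (1 * q) q)).mpr hy
      rw [h35_mem_iff_ord_nonneg _ hy', hPz1 ζ hζ _ hy', ← hi0, hmid0]
      simp [hy]
  -- the restriction of `P` is the standard cusp of `F(q)`
  have hr : P.restrict ↥(modularFunctionFieldBar (1 * q)) = Pinf1 := by
    apply h63_cusp_q q hPinf1
    · have h3 := P.ord_restrict (F := ↥(modularFunctionFieldBar (1 * q)))
        (heckeAlphaBar Qb 1 q (h59_jbar 1))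
      rw [hmap, ← h63_J0_eq] at h3
      have hpos : 0 < (P.ramificationIndex ↥(modularFunctionFieldBar (1 * q)) : ℤ) := by
        exact_mod_cast P.ramificationIndex_pos (F := ↥(modularFunctionFieldBar (1 * q)))
      rw [h3] at h0
      by_contra hcon
      push Not at hcon
      have := mul_nonneg hpos.le hcon
      omega
    · have h3 := P.ord_restrict (F := ↥(modularFunctionFieldBar (1 * q)))
        (heckeAlphaBar Qb 1 q (h59_jbar 1))
      have h4 := P.ord_restrict (F := ↥(modularFunctionFieldBar (1 * q)))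
        (heckeBetaBar Qb 1 q (h59_jbar 1))
      rw [hmap, ← h63_J0_eq] at h3
      rw [hmap, ← h63_J1_eq] at h4
      have hpos : 0 < (P.ramificationIndex ↥(modularFunctionFieldBar (1 * q)) : ℤ) := by
        exact_mod_cast P.ramificationIndex_pos (F := ↥(modularFunctionFieldBar (1 * q)))
      rw [h3, h4] at h1
      have h5 : (P.ramificationIndex ↥(modularFunctionFieldBar (1 * q)) : ℤ)
          * ((P.restrict ↥(modularFunctionFieldBar (1 * q))).ord
              (heckeBetaBar Qb 1 q (h59_jbar 1))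
            - q * (P.restrict ↥(modularFunctionFieldBar (1 * q))).ord
              (heckeAlphaBar Qb 1 q (h59_jbar 1))) = 0 := by
        linear_combination h1
      have h6 := (mul_eq_zero.mp h5).resolve_left hpos.ne'
      linarith
  -- orders at the standard cusp of `F(q²)`
  have hi0o : Pinf2.ord (h59_jbar (1 * q * q)) = -1 := by
    rw [hPinf2.ord_eq, h10_order_jbar]
  have hi1o : Pinf2.ord (heckeBetaBar Qb (1 * q) q (h59_jbar (1 * q))) = (q : ℤ) * -1 := by
    rw [hPinf2.ord_eq, h10_order_beta, h10_order_jbar]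
  have hi2o : Pinf2.ord (heckeBetaBar Qb (1 * q) q (heckeBetaBar Qb 1 q (h59_jbar 1)))
      = (q : ℤ) * ((q : ℤ) * -1) := by
    rw [hPinf2.ord_eq, h10_order_beta, h10_order_beta, h10_order_jbar]
  -- the middle places are distinct from the standard cusp and from each other
  have hzinf : ∀ (ζ : Qb) (hζ : IsPrimitiveRoot ζ q), Pz ζ hζ ≠ Pinf2 := by
    intro ζ hζ h
    have h3 := hPz2 ζ hζ
    rw [h, hi2o] at h3
    nlinarith
  have hzinj : ∀ (ζ : Qb) (hζ : IsPrimitiveRoot ζ q) (ζ' : Qb) (hζ' : IsPrimitiveRoot ζ' q),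
      Pz ζ hζ = Pz ζ' hζ' → ζ = ζ' := by
    intro ζ hζ ζ' hζ' h
    by_contra hne
    have ha := hPz3 ζ hζ
    have hb := hPz3 ζ' hζ'
    rw [← h] at hb
    set z := h59_jbar (1 * q * q)
      / heckeBetaBar Qb (1 * q) q (heckeBetaBar Qb 1 q (h59_jbar 1)) with hz
    have hane : z - algebraMap Qb ↥(modularFunctionFieldBar (1 * q * q)) ζ ≠ 0 := by
      intro h0
      rw [h0] at ha
      simp at ha
    have hbne : -(z - algebraMap Qb ↥(modularFunctionFieldBar (1 * q * q)) ζ') ≠ 0 := by
      intro h0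
      rw [neg_eq_zero] at h0
      rw [h0] at hb
      simp at hb
    have hsum : (z - algebraMap Qb ↥(modularFunctionFieldBar (1 * q * q)) ζ)
        + -(z - algebraMap Qb ↥(modularFunctionFieldBar (1 * q * q)) ζ')
        = algebraMap Qb ↥(modularFunctionFieldBar (1 * q * q)) (ζ' - ζ) := by
      rw [map_sub]; ring
    have hcne : algebraMap Qb ↥(modularFunctionFieldBar (1 * q * q)) (ζ' - ζ) ≠ 0 := by
      rw [Ne, map_eq_zero, sub_eq_zero]
      exact fun h0 => hne h0.symm
    have h3 := h35_ord_add (Pz ζ hζ) hane hbne (by rw [hsum]; exact hcne)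
    rw [hsum, h35_ord_algebraMap, h35_ord_neg] at h3
    have := lt_min ha hb
    omega
  -- the fibre over the standard cusp of `F(q)`
  have hqpos : 0 < q := hq.pos
  let S : Finset (Place Qb ↥(modularFunctionFieldBar (1 * q * q))) :=
    insert Pinf2 ((primitiveRoots q Qb).attach.image
      (fun ζ => Pz ζ.1 ((mem_primitiveRoots hqpos).mp ζ.2)))
  have hScard : S.card = q := by
    rw [Finset.card_insert_of_notMem, Finset.card_image_of_injective, Finset.card_attach]
    · obtain ⟨ζ, hζ⟩ := HasEnoughRootsOfUnity.exists_primitiveRoot Qb q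
      rw [hζ.card_primitiveRoots, Nat.totient_prime hq]
      omega
    · intro ζ ζ' h
      exact Subtype.ext (hzinj _ _ _ _ h)
    · intro h
      obtain ⟨ζ, -, hζ⟩ := Finset.mem_image.mp h
      exact hzinf _ _ hζ
  have hSsub : S ⊆ Pinf1.fiber ↥(modularFunctionFieldBar (1 * q * q)) := by
    intro x hx
    rcases Finset.mem_insert.mp hx with rfl | hx
    · exact Place.mem_fiber.mpr hrinf
    · obtain ⟨ζ, -, rfl⟩ := Finset.mem_image.mp hx
      exact Place.mem_fiber.mpr (hrz _ _)
  have hsum := h82_sum_ramificationIndex (F' := ↥(modularFunctionFieldBar (1 * q * q)))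
    (h88_isFF (1 * q)) Pinf1
  have hdeg : (Module.finrank ↥(modularFunctionFieldBar (1 * q))
      ↥(modularFunctionFieldBar (1 * q * q)) : ℤ) = q := by
    have h := h49_deg_alpha_dvd (1 * q) q hq (Dvd.intro_left 1 rfl)
    unfold finrankAlong at h
    exact_mod_cast h
  have hPS : P ∈ S := by
    by_contra hP
    have hm : P ∈ Pinf1.fiber ↥(modularFunctionFieldBar (1 * q * q)) := Place.mem_fiber.mpr hr
    have hsub : insert P S ⊆ Pinf1.fiber ↥(modularFunctionFieldBar (1 * q * q)) := by
      intro x hx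
      rcases Finset.mem_insert.mp hx with rfl | hx
      · exact hm
      · exact hSsub hx
    have hle : ∑ x ∈ insert P S,
        (x.ramificationIndex ↥(modularFunctionFieldBar (1 * q)) : ℤ)
        ≤ ∑ x ∈ Pinf1.fiber ↥(modularFunctionFieldBar (1 * q * q)),
          (x.ramificationIndex ↥(modularFunctionFieldBar (1 * q)) : ℤ) :=
      Finset.sum_le_sum_of_subset_of_nonneg hsub fun x _ _ => by positivity
    have hge : ((insert P S).card : ℤ) ≤ ∑ x ∈ insert P S,
        (x.ramificationIndex ↥(modularFunctionFieldBar (1 * q)) : ℤ) := by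
      have : ∀ x ∈ insert P S,
          (1 : ℤ) ≤ (x.ramificationIndex ↥(modularFunctionFieldBar (1 * q)) : ℤ) := by
        intro x _
        exact_mod_cast x.ramificationIndex_pos (F := ↥(modularFunctionFieldBar (1 * q)))
      have h3 := Finset.sum_le_sum this
      simpa using h3
    rw [Finset.card_insert_of_notMem hP, hScard] at hge
    rw [hsum, hdeg] at hle
    push_cast at hge
    omega
  rcases Finset.mem_insert.mp hPS with rfl | hP
  · exfalso
    rw [hi1o, hi2o] at h2
    have h3 : (q : ℤ) * ((q : ℤ) * q - 1) = 0 := by linear_combination h2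
    rcases mul_eq_zero.mp h3 with h4 | h4
    · omega
    · nlinarith
  · obtain ⟨ζ, -, rfl⟩ := Finset.mem_image.mp hP
    exact ⟨ζ.1, (mem_primitiveRoots hqpos).mp ζ.2, hPz3 _ _⟩

end Mid

end Fermat.Agent.S36
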