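import Mathlib
import Fermat.Agent.S36.h63_MidCusp
import Fermat.Agent.S36.h36_MidEmb
import Fermat.Agent.S18.h46_LevelTransfer

/-!
# S36, row I-CUSP, sub-lemma (S63): the middle cusps, unconditionally and at every level `L q²`

* `h63_mid_cusp_one` : `h63_mid_cusp` with the middle embeddings of `S36/h36_MidEmb.lean`
  plugged in: no hypothesis left at level `1 · q · q`.
* `h63_mid_restrict` : a place of `F(L q²)` of middle type restricts to a place of `F(q²)` of
  middle type, with a positive ramification factor.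
* `h63_mid_cusp_level` : every place `P` of `F(L q²)` of middle type
  (`ord J0 < 0`, `ord J1 = q ord J0 = q ord J2`) has `(J0 / J2)(P)` a primitive `q`-th root of
  unity.  No coprimality assumption on `L`.
-/

set_option autoImplicit false
set_option synthInstance.maxHeartbeats 400000
set_option linter.style.haveILetI false

noncomputable section

open ModularCurve AlgebraicCurve HahnSeries IntermediateField CongruenceSubgroup
open scoped MatrixGroups

namespace Fermat.Agent.S36

open Fermat.Agent.S34 Fermat.Agent.S37 Fermat.Agent.S24 Fermat.Agent.S18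

local notation "Qb" => AlgebraicClosure ℚ

/-- **(S63), unconditional at level `q²`.** -/
theorem h63_mid_cusp_one (q : ℕ) [NeZero q] [Fact q.Prime]
    (P : Place Qb ↥(modularFunctionFieldBar (1 * q * q)))
    (h0 : P.ord (h59_jbar (1 * q * q)) < 0)
    (h1 : P.ord (heckeBetaBar Qb (1 * q) q (h59_jbar (1 * q)))
      = q * P.ord (h59_jbar (1 * q * q)))
    (h2 : P.ord (heckeBetaBar Qb (1 * q) q (h59_jbar (1 * q)))
      = q * P.ord (heckeBetaBar Qb (1 * q) q (heckeBetaBar Qb 1 q (h59_jbar 1)))) :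
    ∃ ζ : Qb, IsPrimitiveRoot ζ q ∧
      0 < P.ord (h59_jbar (1 * q * q)
        / heckeBetaBar Qb (1 * q) q (heckeBetaBar Qb 1 q (h59_jbar 1))
        - algebraMap Qb ↥(modularFunctionFieldBar (1 * q * q)) ζ) := by
  have hq : q.Prime := Fact.out
  have hq1 : ¬ q ∣ 1 := hq.not_dvd_one
  exact h63_mid_cusp q hq1 (h36_i0 1 q) (h36_i2 1 q hq1) (fun g => rfl) (fun g => rfl)
    (fun ζ hζ => h36_mid 1 q hq1 ζ hζ.pow_eq_one (hζ.ne_one hq.one_lt))
    (fun ζ hζ g => h36_mid_i0 1 q hq1 ζ _ _ g)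
    (fun ζ hζ g => by rw [h36_mid_i2, h59_twistHom_apply]) P h0 h1 h2

section Level

variable (L q : ℕ) [NeZero L] [NeZero q]

/-- The inclusion `F(q²) ⊆ F(L q²)`. -/
def h63_incl : ↥(modularFunctionFieldBar (1 * q * q)) →ₐ[Qb]
    ↥(modularFunctionFieldBar (L * q * q)) :=
  IntermediateField.inclusion (h46_bar_le (N := 1 * q * q) (N₁ := L * q * q) ⟨L, by ring⟩)

theorem h63_coe_incl (f : ↥(modularFunctionFieldBar (1 * q * q))) :
    ((h63_incl L q f : ↥(modularFunctionFieldBar (L * q * q))) : LaurentSeries Qb) = f :=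
  IntermediateField.coe_inclusion _ f

theorem h63_incl_J0 : h63_incl L q (h59_jbar (1 * q * q)) = h59_jbar (L * q * q) := by
  apply Subtype.ext
  rw [h63_coe_incl, h59_coe_jbar, h59_coe_jbar]

theorem h63_incl_J1 : h63_incl L q (heckeBetaBar Qb (1 * q) q (h59_jbar (1 * q)))
    = heckeBetaBar Qb (L * q) q (h59_jbar (L * q)) := by
  apply Subtype.ext
  rw [h63_coe_incl, coe_heckeBetaBar, coe_heckeBetaBar, h59_coe_jbar, h59_coe_jbar]

theorem h63_incl_J2 :
    h63_incl L q (heckeBetaBar Qb (1 * q) q (heckeBetaBar Qb 1 q (h59_jbar 1)))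
    = heckeBetaBar Qb (L * q) q (heckeBetaBar Qb L q (h59_jbar L)) := by
  apply Subtype.ext
  rw [h63_coe_incl, coe_heckeBetaBar, coe_heckeBetaBar, coe_heckeBetaBar, coe_heckeBetaBar,
    h59_coe_jbar, h59_coe_jbar]

/-- **Restriction to level `q²`.** A place `P` of `F(L q²)` at which `j` has a pole restricts to
a place `P₁` of `F(q²)`: `ord_P (incl f) = m · ord_{P₁} f` with `m > 0`. -/
theorem h63_restrict_level (P : Place Qb ↥(modularFunctionFieldBar (L * q * q)))
    (h0 : P.ord (h59_jbar (L * q * q)) ≠ 0) :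
    ∃ (P1 : Place Qb ↥(modularFunctionFieldBar (1 * q * q))) (m : ℤ), 0 < m ∧
      ∀ f : ↥(modularFunctionFieldBar (1 * q * q)), P.ord (h63_incl L q f) = m * P1.ord f := by
  have hw := h46_isOrd_comp (h63_incl L q) P
  have hJne : h59_jbar (1 * q * q) ≠ 0 := by
    intro h
    have := h10_order_jbar (1 * q * q)
    rw [h] at this
    simp at this
  have hnt : ∃ f : ↥(modularFunctionFieldBar (1 * q * q)), f ≠ 0 ∧
      P.ord (h63_incl L q f) ≠ 0 := ⟨h59_jbar (1 * q * q), hJne, by rw [h63_incl_J0]; exact h0⟩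
  obtain ⟨m, hm, -, hmf⟩ := h56_placeOfOrd_ord hw hnt
  refine ⟨h56_placeOfOrd _ hw hnt, m, hm, fun f => ?_⟩
  by_cases hf : f = 0
  · subst hf
    rw [map_zero, Place.ord_zero, Place.ord_zero, mul_zero]
  · exact hmf f hf

variable [Fact q.Prime]

/-- **(S63) at level `L q²`.** Every place of `F(L q²)` of middle type (`ord J0 < 0`,
`ord J1 = q ord J0 = q ord J2`) is a middle cusp: `J0 / J2` takes a primitive `q`-th root of unity
as value there. -/
theorem h63_mid_cusp_level
    (P : Place Qb ↥(modularFunctionFieldBar (L * q * q)))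
    (h0 : P.ord (h59_jbar (L * q * q)) < 0)
    (h1 : P.ord (heckeBetaBar Qb (L * q) q (h59_jbar (L * q)))
      = q * P.ord (h59_jbar (L * q * q)))
    (h2 : P.ord (heckeBetaBar Qb (L * q) q (h59_jbar (L * q)))
      = q * P.ord (heckeBetaBar Qb (L * q) q (heckeBetaBar Qb L q (h59_jbar L)))) :
    ∃ ζ : Qb, IsPrimitiveRoot ζ q ∧
      0 < P.ord (h59_jbar (L * q * q)
        / heckeBetaBar Qb (L * q) q (heckeBetaBar Qb L q (h59_jbar L))
        - algebraMap Qb ↥(modularFunctionFieldBar (L * q * q)) ζ) := by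
  have hq : q.Prime := Fact.out
  have hqpos : (0 : ℤ) < q := by exact_mod_cast hq.pos
  obtain ⟨P1, m, hm, hP1⟩ := h63_restrict_level L q P (ne_of_lt h0)
  have e0 := hP1 (h59_jbar (1 * q * q))
  have e1 := hP1 (heckeBetaBar Qb (1 * q) q (h59_jbar (1 * q)))
  have e2 := hP1 (heckeBetaBar Qb (1 * q) q (heckeBetaBar Qb 1 q (h59_jbar 1)))
  rw [h63_incl_J0] at e0
  rw [h63_incl_J1] at e1
  rw [h63_incl_J2] at e2
  have g0 : P1.ord (h59_jbar (1 * q * q)) < 0 := by
    rw [e0] at h0
    by_contra h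
    push Not at h
    have := mul_nonneg hm.le h
    omega
  have g1 : P1.ord (heckeBetaBar Qb (1 * q) q (h59_jbar (1 * q)))
      = q * P1.ord (h59_jbar (1 * q * q)) := by
    rw [e1, e0] at h1
    have : m * P1.ord (heckeBetaBar Qb (1 * q) q (h59_jbar (1 * q)))
        = m * (q * P1.ord (h59_jbar (1 * q * q))) := by rw [h1]; ring
    exact mul_left_cancel₀ hm.ne' this
  have g2 : P1.ord (heckeBetaBar Qb (1 * q) q (h59_jbar (1 * q)))
      = q * P1.ord (heckeBetaBar Qb (1 * q) q (heckeBetaBar Qb 1 q (h59_jbar 1))) := by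
    rw [e1, e2] at h2
    have : m * P1.ord (heckeBetaBar Qb (1 * q) q (h59_jbar (1 * q)))
        = m * (q * P1.ord (heckeBetaBar Qb (1 * q) q (heckeBetaBar Qb 1 q (h59_jbar 1)))) := by
      rw [h2]; ring
    exact mul_left_cancel₀ hm.ne' this
  obtain ⟨ζ, hζ, hpos⟩ := h63_mid_cusp_one q P1 g0 g1 g2
  refine ⟨ζ, hζ, ?_⟩
  have e3 := hP1 (h59_jbar (1 * q * q)
        / heckeBetaBar Qb (1 * q) q (heckeBetaBar Qb 1 q (h59_jbar 1))
        - algebraMap Qb ↥(modularFunctionFieldBar (1 * q * q)) ζ)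
  rw [map_sub, map_div₀, h63_incl_J0, h63_incl_J2, AlgHom.commutes] at e3
  rw [e3]
  exact mul_pos hm hpos

end Level

end Fermat.Agent.S36
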