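import Mathlib
import Fermat.Agent.S36.h63_MidCuspLevel

/-!
# S36, row I-CUSP: the cyclotomic sum vanishes at the middle cusps

`zt := J0 / J2` at level `L q²` (`J0 = j`, `J2 = β' (β j)`).

* `h63_zt_order` : the `q`-expansion of `zt` has order `q² - 1`; hence `zt ≠ 0`, `zt - c ≠ 0` for
  every nonzero constant `c` and `∑ i < q, zt ^ i ≠ 0`.
* `h63_mid_sigma` : at every place of middle type, `0 < ord (∑ i < q, zt ^ i)`
  (the hypothesis `hkS` of `h16_mid_local_eq`).
-/

set_option autoImplicit false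
set_option synthInstance.maxHeartbeats 400000
set_option linter.style.haveILetI false
set_option linter.unusedSectionVars false

noncomputable section

open ModularCurve AlgebraicCurve HahnSeries IntermediateField CongruenceSubgroup
open scoped MatrixGroups

namespace Fermat.Agent.S36

open Fermat.Agent.S34 Fermat.Agent.S37 Fermat.Agent.S24 Fermat.Agent.S18

local notation "Qb" => AlgebraicClosure ℚ

section Sigma

variable (L q : ℕ) [NeZero L] [NeZero q]

/-- `zt = J0 / J2` at level `L q²`. -/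
def h63_zt : ↥(modularFunctionFieldBar (L * q * q)) :=
  h59_jbar (L * q * q) / heckeBetaBar Qb (L * q) q (heckeBetaBar Qb L q (h59_jbar L))

theorem h63_J0_ne_zero : h59_jbar (L * q * q) ≠ 0 := by
  intro h
  have := h10_order_jbar (L * q * q)
  rw [h] at this
  simp at this

theorem h63_J2_order :
    ((heckeBetaBar Qb (L * q) q (heckeBetaBar Qb L q (h59_jbar L)) :
      ↥(modularFunctionFieldBar (L * q * q))) : LaurentSeries Qb).order = -((q : ℤ) * q) := by
  rw [h10_order_beta, h10_order_beta, h10_order_jbar]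
  ring

theorem h63_J2_ne_zero :
    heckeBetaBar Qb (L * q) q (heckeBetaBar Qb L q (h59_jbar L)) ≠ 0 := by
  intro h
  have := h63_J2_order L q
  rw [h] at this
  have hq : (q : ℤ) ≠ 0 := by exact_mod_cast NeZero.ne q
  have h2 : (q : ℤ) * q ≠ 0 := mul_ne_zero hq hq
  rw [ZeroMemClass.coe_zero, HahnSeries.order_zero] at this
  omega

theorem h63_zt_ne_zero : h63_zt L q ≠ 0 :=
  div_ne_zero (h63_J0_ne_zero L q) (h63_J2_ne_zero L q)

/-- The `q`-expansion of `zt` has order `q² - 1`. -/
theorem h63_zt_order :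
    ((h63_zt L q : ↥(modularFunctionFieldBar (L * q * q))) : LaurentSeries Qb).order
      = (q : ℤ) * q - 1 := by
  have h1 : h63_zt L q * heckeBetaBar Qb (L * q) q (heckeBetaBar Qb L q (h59_jbar L))
      = h59_jbar (L * q * q) := div_mul_cancel₀ _ (h63_J2_ne_zero L q)
  have h2 := congrArg (fun f : ↥(modularFunctionFieldBar (L * q * q)) =>
    (f : LaurentSeries Qb).order) h1
  beta_reduce at h2
  rw [MulMemClass.coe_mul, HahnSeries.order_mul
    (fun h0 => h63_zt_ne_zero L q (Subtype.ext h0))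
    (fun h0 => h63_J2_ne_zero L q (Subtype.ext h0)), h63_J2_order, h10_order_jbar] at h2
  linarith

/-- `zt` is not a root of unity. -/
theorem h63_zt_pow_ne_one (hq : 2 ≤ q) (n : ℕ) (hn : n ≠ 0) : h63_zt L q ^ n ≠ 1 := by
  intro h
  have h2 := congrArg (fun f : ↥(modularFunctionFieldBar (L * q * q)) =>
    (f : LaurentSeries Qb).order) h
  beta_reduce at h2
  rw [SubmonoidClass.coe_pow, HahnSeries.order_pow, h63_zt_order, OneMemClass.coe_one,
    HahnSeries.order_one, nsmul_eq_mul] at h2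
  have h3 : (2 : ℤ) ≤ q := by exact_mod_cast hq
  have h4 : (n : ℤ) ≠ 0 := by exact_mod_cast hn
  have h5 : (q : ℤ) * q - 1 ≠ 0 := by nlinarith
  exact (mul_ne_zero h4 h5) h2

theorem h63_zt_sub_const_ne_zero (hq : 2 ≤ q) (c : Qb) (hc : c ≠ 0) :
    h63_zt L q - algebraMap Qb ↥(modularFunctionFieldBar (L * q * q)) c ≠ 0 := by
  intro h
  have h1 : h63_zt L q = algebraMap Qb ↥(modularFunctionFieldBar (L * q * q)) c :=
    sub_eq_zero.mp h
  have h2 := congrArg (fun f : ↥(modularFunctionFieldBar (L * q * q)) =>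
    (f : LaurentSeries Qb).order) h1
  beta_reduce at h2
  rw [h63_zt_order, h10_coe_algebraMap, HahnSeries.order_single hc] at h2
  have h3 : (2 : ℤ) ≤ q := by exact_mod_cast hq
  nlinarith

theorem h63_zt_sub_one_ne_zero (hq : 2 ≤ q) : h63_zt L q - 1 ≠ 0 := by
  have := h63_zt_sub_const_ne_zero L q hq 1 one_ne_zero
  rwa [map_one] at this

/-- The cyclotomic sum of `zt` is not zero. -/
theorem h63_sigma_ne_zero (hq : 2 ≤ q) :
    (∑ i ∈ Finset.range q, h63_zt L q ^ i) ≠ 0 := by
  intro h
  have h1 := mul_geom_sum (h63_zt L q) q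
  rw [h, mul_zero] at h1
  exact h63_zt_pow_ne_one L q hq q (NeZero.ne q) (sub_eq_zero.mp h1.symm)

variable [Fact q.Prime]

/-- **The cyclotomic sum vanishes at the middle cusps.** -/
theorem h63_mid_sigma
    (P : Place Qb ↥(modularFunctionFieldBar (L * q * q)))
    (h0 : P.ord (h59_jbar (L * q * q)) < 0)
    (h1 : P.ord (heckeBetaBar Qb (L * q) q (h59_jbar (L * q)))
      = q * P.ord (h59_jbar (L * q * q)))
    (h2 : P.ord (heckeBetaBar Qb (L * q) q (h59_jbar (L * q)))
      = q * P.ord (heckeBetaBar Qb (L * q) q (heckeBetaBar Qb L q (h59_jbar L)))) :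
    0 < P.ord (∑ i ∈ Finset.range q, (h59_jbar (L * q * q)
        / heckeBetaBar Qb (L * q) q (heckeBetaBar Qb L q (h59_jbar L))) ^ i) := by
  have hq : q.Prime := Fact.out
  obtain ⟨ζ, hζ, hpos⟩ := h63_mid_cusp_level L q P h0 h1 h2
  change 0 < P.ord (∑ i ∈ Finset.range q, h63_zt L q ^ i)
  change 0 < P.ord (h63_zt L q - algebraMap Qb ↥(modularFunctionFieldBar (L * q * q)) ζ)
    at hpos
  have hζ0 : ζ ≠ 0 := hζ.ne_zero (NeZero.ne q)
  have hzne := h63_zt_sub_const_ne_zero L q hq.two_le ζ hζ0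
  have hSne := h63_sigma_ne_zero L q hq.two_le
  -- `zt` is regular at `P`
  have hzmem : h63_zt L q ∈ P.toValuationSubring := by
    have e1 : h63_zt L q = (h63_zt L q - algebraMap Qb ↥(modularFunctionFieldBar (L * q * q)) ζ)
        + algebraMap Qb ↥(modularFunctionFieldBar (L * q * q)) ζ := by ring
    rw [e1]
    exact P.toValuationSubring.add_mem _ _
      ((h35_mem_iff_ord_nonneg P hzne).mpr hpos.le) (P.algebraMap_mem' ζ)
  -- factor the cyclotomic sum
  have hroot : (∑ i ∈ Finset.range q, (Polynomial.X : Polynomial Qb) ^ i).IsRoot ζ := by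
    rw [Polynomial.IsRoot.def, Polynomial.eval_finsetSum]
    simp only [Polynomial.eval_pow, Polynomial.eval_X]
    exact hζ.geom_sum_eq_zero hq.one_lt
  obtain ⟨g, hg⟩ := Polynomial.dvd_iff_isRoot.mpr hroot
  have hg' := congrArg (Polynomial.aeval (h63_zt L q)) hg
  simp only [map_sum, map_pow, map_mul, map_sub, Polynomial.aeval_X, Polynomial.aeval_C]
    at hg'
  have hgmem := h35_aeval_mem P hzmem g
  have hgne : Polynomial.aeval (h63_zt L q) g ≠ 0 := by
    intro h
    rw [h, mul_zero] at hg'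
    exact hSne hg'
  rw [hg', P.ord_mul hzne hgne]
  have := (h35_mem_iff_ord_nonneg P hgne).mp hgmem
  omega

end Sigma

end Fermat.Agent.S36
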