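import Mathlib
import Fermat.Agent.S36.h52_CuspVert
import Fermat.Agent.S36.h16_CuspGen
import Fermat.Agent.S36.h16_CuspRatio
import Fermat.Agent.S36.h63_MidSigma
import Fermat.Agent.S36.h80_FamInst

/-!
# S36, row I-CUSP: (X1) + (X2) at the cusp points of chart 2 (level `M q²`)

`V := h80_fam2 (M q²) I w` (chart `1 / j`), `w : Fin 3 → F₀ → ℤ` the three vertical valuations
(`0 = C20`, `1 = C11`, `2 = C02`), `m` a prime ideal of `V.B` containing `a = 1 / j`.

* `h63_CuspVert` : the vertical facts (V) consumed (fields = the statements of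
  `S36/h52_CuspVert.lean`); `h63_cuspVert_w2` : they hold for `h98_w2`.
* `h63_x1` : **(X1)** at most one vertical component passes through a cusp point.
* `h63_x2` : **(X2)** the vertical component through a cusp point has a local equation there:
  `q` on `C20`, `C02`, and `J0 / J2 - 1` on `C11`.
-/

set_option autoImplicit false
set_option synthInstance.maxHeartbeats 400000
set_option linter.style.haveILetI false
set_option linter.unusedSectionVars false

noncomputable section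

open ModularCurve AlgebraicCurve

namespace Fermat.Agent.S36

open Fermat.Agent.S34 Fermat.Agent.S37 Fermat.Agent.S24 Fermat.Agent.S18 Fermat.Agent.S40

local notation "Qb" => AlgebraicClosure ℚ

section X12

variable (M q : ℕ) [NeZero M] [NeZero q] [Fact q.Prime] (hqM : ¬ q ∣ M)
  (A : ValuationSubring Qb)

local notation "F0" => h69_F0 (M * q * q) (A.inertiaSubgroupIn ℚ)
local notation "FN" => modularFunctionFieldBar (M * q * q)

/-- The vertical facts (V) of the cusp row, for a triple of vertical valuations `w`. -/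
structure h63_CuspVert (w : Fin 3 → F0 → ℤ) : Prop where
  va : ∀ c, w c (h52_cvJ0 M q A)⁻¹ = 0
  vJ2 : ∀ c, w c (h52_cvJ2 M q A) = 0
  vG1 : ∀ c, w c (h52_cvG1 M q A) = 0
  vG3 : ∀ c, w c (h52_cvG3 M q A) = 0
  G1_C20 : h52_cvG1 M q A = 1 ∨ 0 < w 0 (h52_cvG1 M q A - 1)
  G1_C11 : h52_cvG1 M q A = 1 ∨ 0 < w 1 (h52_cvG1 M q A - 1)
  G1_C02 : h52_cvG1 M q A ^ q = (h52_cvJ0 M q A)⁻¹ ^ (q * q - 1) ∨
    0 < w 2 (h52_cvG1 M q A ^ q - (h52_cvJ0 M q A)⁻¹ ^ (q * q - 1))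
  G3_C20 : h52_cvG3 M q A = 1 ∨ 0 < w 0 (h52_cvG3 M q A - 1)
  G3_C11 : h52_cvG3 M q A = (h52_cvJ0 M q A)⁻¹ ^ (q * q - 1) ∨
    0 < w 1 (h52_cvG3 M q A - (h52_cvJ0 M q A)⁻¹ ^ (q * q - 1))
  J2a_C11 : h52_cvJ2 M q A * (h52_cvJ0 M q A)⁻¹ = 1 ∨
    0 < w 1 (h52_cvJ2 M q A * (h52_cvJ0 M q A)⁻¹ - 1)
  zt_C11 : w 1 (h52_cvZt M q A - 1) = 1
  q0 : w 0 (q : F0) = 1
  q1 : w 1 (q : F0) = (q : ℤ) - 1
  q2 : w 2 (q : F0) = 1

/-- The vertical facts hold for `h98_w2`. -/
theorem h63_cuspVert_w2 (hA : A.LiesOverPrime q) (ζ : Qb) (hζ : IsPrimitiveRoot ζ q)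
    (hex : h98_Ex M q hqM A ζ hζ) :
    h63_CuspVert M q A (h98_w2 M q hqM A ζ hζ hex) where
  va := h52_cv_a M q hqM A hA ζ hζ hex
  vJ2 := h52_cv_J2 M q hqM A hA ζ hζ hex
  vG1 := h52_cv_G1 M q hqM A hA ζ hζ hex
  vG3 := h52_cv_G3 M q hqM A hA ζ hζ hex
  G1_C20 := h52_cv_G1_C20 M q hqM A hA ζ hζ hex
  G1_C11 := h52_cv_G1_C11 M q hqM A hA ζ hζ hex
  G1_C02 := h52_cv_G1_C02 M q hqM A hA ζ hζ hex
  G3_C20 := h52_cv_G3_C20 M q hqM A hA ζ hζ hex
  G3_C11 := h52_cv_G3_C11 M q hqM A hA ζ hζ hex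
  J2a_C11 := h52_cv_J2a_C11 M q hqM A hA ζ hζ hex
  zt_C11 := (h52_cv_zt_C11 M q hqM A hA ζ hζ hex).2
  q0 := h98_hq0 M q hqM A hA ζ hζ hex
  q1 := h98_hq1 M q hqM A hA ζ hζ hex
  q2 := h98_hq2 M q hqM A hA ζ hζ hex

/-! ### Coercions to `F(M q²)` -/

include hqM in
theorem h63_coe_cvJ1 : ((h52_cvJ1 M q A : F0) : FN) = h16_J1 M q := by
  rw [h52_cv_coe_J1, h52_cv_J1_sh M q hqM]
  rfl

include hqM in
theorem h63_coe_cvG1 : ((h52_cvG1 M q A : F0) : FN) = h16_G1 M q := by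
  unfold h52_cvG1 h16_G1
  rw [Subfield.coe_div, SubmonoidClass.coe_pow, h63_coe_cvJ1 M q hqM A, h52_cv_coe_J0,
    div_eq_mul_inv, inv_pow]
  rfl

theorem h63_coe_cvG3 : ((h52_cvG3 M q A : F0) : FN) = h16_G3 M q := by
  unfold h52_cvG3 h16_G3
  rw [Subfield.coe_div, SubmonoidClass.coe_pow, h52_cv_coe_J2, h52_cv_coe_J0, div_eq_mul_inv,
    inv_pow]
  rfl

theorem h63_coe_cvZt : ((h52_cvZt M q A : F0) : FN) = h63_zt M q := by
  unfold h52_cvZt h63_zt
  rw [Subfield.coe_div, h52_cv_coe_J2, h52_cv_coe_J0]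

/-! ### The chart family and its ring -/

variable (w : Fin 3 → h69_F0 (M * q * q) (A.inertiaSubgroupIn ℚ) → ℤ)
  (hw_mul : ∀ c (f g : h69_F0 (M * q * q) (A.inertiaSubgroupIn ℚ)), f ≠ 0 → g ≠ 0 →
    w c (f * g) = w c f + w c g)
  (hw_add : ∀ c (f g : h69_F0 (M * q * q) (A.inertiaSubgroupIn ℚ)), f ≠ 0 → g ≠ 0 → f + g ≠ 0 →
    min (w c f) (w c g) ≤ w c (f + g))

local notation "VV" => h80_fam2 (M * q * q) (A.inertiaSubgroupIn ℚ) w hw_mul hw_add

theorem h63_v_inl (c : Fin 3) (f : F0) : (VV).v (Sum.inl c) f = w c f := rfl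

/-- Membership in the ring of chart 2. -/
theorem h63_mem_B (f : F0) (hv : ∀ c, 0 ≤ w c f)
    (hh : ∀ P : Place Qb FN, P.ord (h59_jbar (M * q * q)) ≤ 0 → 0 ≤ P.ord (f : FN)) :
    f ∈ (VV).B := by
  refine (h80_mem_famOf_B _ _ w hw_mul hw_add _ _ f).2 (Or.inr ⟨hv, fun P hP => hh P ?_⟩)
  rw [Place.ord_inv] at hP
  omega

/-- Every horizontal valuation of chart 2 is the order at a place of the chart. -/
theorem h63_hor (j : h80_HorIdx (h80_horOrd (M * q * q) (A.inertiaSubgroupIn ℚ)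
    (h59_jbar (M * q * q))⁻¹)) :
    ∃ P : Place Qb FN, P.ord (h59_jbar (M * q * q)) ≤ 0 ∧
      ∀ f : F0, (VV).v (Sum.inr j) f = P.ord (f : FN) := by
  obtain ⟨P, hP, e⟩ := h80_famOf_hor (M * q * q) (A.inertiaSubgroupIn ℚ)
    (h59_jbar (M * q * q))⁻¹ (Sum.inr j : Fin 3 ⊕ _) (h80_isHor_inr j)
  refine ⟨P, ?_, fun f => ?_⟩
  · rw [Place.ord_inv] at hP
    omega
  · have e' : (VV).v (Sum.inr j) f = (VV).v (Sum.inr (h80_horMk (h80_horOrd (M * q * q)
        (A.inertiaSubgroupIn ℚ) (h59_jbar (M * q * q))⁻¹) ⟨P, hP⟩)) f := by rw [← e]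
    rw [e']
    rfl

theorem h63_a_mem (hV : h63_CuspVert M q A w) : (h52_cvJ0 M q A)⁻¹ ∈ (VV).B := by
  refine h63_mem_B M q A w hw_mul hw_add _ (fun c => (hV.va c).ge) fun P hP => ?_
  rw [Subfield.coe_inv, h52_cv_coe_J0, Place.ord_inv]
  omega

include hqM in
theorem h63_G1_mem (hV : h63_CuspVert M q A w) : h52_cvG1 M q A ∈ (VV).B := by
  refine h63_mem_B M q A w hw_mul hw_add _ (fun c => (hV.vG1 c).ge) fun P hP => ?_
  rw [h63_coe_cvG1 M q hqM A]
  exact h16_G1_reg M q P hP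

theorem h63_G3_mem (hV : h63_CuspVert M q A w) : h52_cvG3 M q A ∈ (VV).B := by
  refine h63_mem_B M q A w hw_mul hw_add _ (fun c => (hV.vG3 c).ge) fun P hP => ?_
  rw [h63_coe_cvG3 M q A]
  exact h16_G3_reg M q P hP

/-! ### Elements of the chart ring -/

/-- `a = 1 / j` in the chart ring. -/
def h63_aB (hV : h63_CuspVert M q A w) : (VV).B :=
  ⟨(h52_cvJ0 M q A)⁻¹, h63_a_mem M q A w hw_mul hw_add hV⟩

/-- `G1` in the chart ring. -/
def h63_G1B (hV : h63_CuspVert M q A w) : (VV).B :=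
  ⟨h52_cvG1 M q A, h63_G1_mem M q hqM A w hw_mul hw_add hV⟩

/-- `G3` in the chart ring. -/
def h63_G3B (hV : h63_CuspVert M q A w) : (VV).B :=
  ⟨h52_cvG3 M q A, h63_G3_mem M q A w hw_mul hw_add hV⟩

/-- `b = J2 · a · (1 - G3) ^ (q²)` lies in the chart ring. -/
theorem h63_b_mem (hV : h63_CuspVert M q A w) :
    h52_cvJ2 M q A * (h52_cvJ0 M q A)⁻¹ * (1 - h52_cvG3 M q A) ^ (q * q) ∈ (VV).B := by
  by_cases hb0 : h52_cvJ2 M q A * (h52_cvJ0 M q A)⁻¹ * (1 - h52_cvG3 M q A) ^ (q * q) = 0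
  · rw [hb0]
    exact (VV).B.zero_mem
  have ht0 : (1 - h52_cvG3 M q A) ^ (q * q) ≠ 0 := right_ne_zero_of_mul hb0
  have hJa : h52_cvJ2 M q A * (h52_cvJ0 M q A)⁻¹ ≠ 0 := left_ne_zero_of_mul hb0
  have htB : (1 - h52_cvG3 M q A) ^ (q * q) ∈ (VV).B :=
    (VV).B.pow_mem ((VV).B.sub_mem (VV).B.one_mem (h63_G3_mem M q A w hw_mul hw_add hV)) _
  refine h63_mem_B M q A w hw_mul hw_add _ (fun c => ?_) fun P hP => ?_
  · rw [hw_mul c _ _ hJa ht0, hw_mul c _ _ (left_ne_zero_of_mul hJa) (right_ne_zero_of_mul hJa),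
      hV.vJ2 c, hV.va c]
    have := ((VV).mem_B _ ht0).1 htB (Sum.inl c)
    rw [h63_v_inl] at this
    omega
  · have e : ((h52_cvJ2 M q A * (h52_cvJ0 M q A)⁻¹ * (1 - h52_cvG3 M q A) ^ (q * q) :
        h69_F0 (M * q * q) (A.inertiaSubgroupIn ℚ)) : modularFunctionFieldBar (M * q * q))
        = h16_bb M q := by
      unfold h16_bb h16_tt
      rw [Subfield.coe_mul, Subfield.coe_mul, Subfield.coe_inv, SubmonoidClass.coe_pow,
        Subfield.coe_sub, Subfield.coe_one, h63_coe_cvG3, h52_cv_coe_J2, h52_cv_coe_J0]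
      rfl
    rw [e]
    exact h16_bb_reg M q P hP

/-- `t = (1 - G3) ^ (q²)` in the chart ring. -/
def h63_tB (hV : h63_CuspVert M q A w) : (VV).B :=
  ⟨(1 - h52_cvG3 M q A) ^ (q * q),
    (VV).B.pow_mem ((VV).B.sub_mem (VV).B.one_mem (h63_G3_mem M q A w hw_mul hw_add hV)) _⟩

/-- `b = J2 · a · t` in the chart ring. -/
def h63_bB (hV : h63_CuspVert M q A w) : (VV).B :=
  ⟨h52_cvJ2 M q A * (h52_cvJ0 M q A)⁻¹ * (1 - h52_cvG3 M q A) ^ (q * q),
    h63_b_mem M q A w hw_mul hw_add hV⟩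

theorem h63_tB_eq (hV : h63_CuspVert M q A w) :
    h63_tB M q A w hw_mul hw_add hV = (1 - h63_G3B M q A w hw_mul hw_add hV) ^ (q * q) :=
  Subtype.ext (by
    rw [SubmonoidClass.coe_pow, AddSubgroupClass.coe_sub, OneMemClass.coe_one]
    rfl)

theorem h63_coe_tB (hV : h63_CuspVert M q A w) :
    ((h63_tB M q A w hw_mul hw_add hV : (VV).B) : h69_F0 (M * q * q) (A.inertiaSubgroupIn ℚ))
      = (1 - h52_cvG3 M q A) ^ (q * q) := rfl

theorem h63_coe_bB (hV : h63_CuspVert M q A w) :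
    ((h63_bB M q A w hw_mul hw_add hV : (VV).B) : h69_F0 (M * q * q) (A.inertiaSubgroupIn ℚ))
      = h52_cvJ2 M q A * (h52_cvJ0 M q A)⁻¹ * (1 - h52_cvG3 M q A) ^ (q * q) := rfl

theorem h63_coe_aB (hV : h63_CuspVert M q A w) :
    ((h63_aB M q A w hw_mul hw_add hV : (VV).B) : h69_F0 (M * q * q) (A.inertiaSubgroupIn ℚ))
      = (h52_cvJ0 M q A)⁻¹ := rfl

theorem h63_coe_G1B (hV : h63_CuspVert M q A w) :
    ((h63_G1B M q hqM A w hw_mul hw_add hV : (VV).B) : h69_F0 (M * q * q) (A.inertiaSubgroupIn ℚ))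
      = h52_cvG1 M q A := rfl

theorem h63_coe_G3B (hV : h63_CuspVert M q A w) :
    ((h63_G3B M q A w hw_mul hw_add hV : (VV).B) : h69_F0 (M * q * q) (A.inertiaSubgroupIn ℚ))
      = h52_cvG3 M q A := rfl

/-! ### (X1): one vertical component through a cusp point -/

section Point

variable (hV : h63_CuspVert M q A w)
  (m : Ideal (h80_fam2 (M * q * q) (A.inertiaSubgroupIn ℚ) w hw_mul hw_add).B) [hm : m.IsPrime]
  (ha : h63_aB M q A w hw_mul hw_add hV ∈ m)

include hqM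

include ha in
theorem h63_E_mem : h63_aB M q A w hw_mul hw_add hV ^ (q * q - 1) ∈ m := by
  have hq : q.Prime := Fact.out
  refine Ideal.pow_mem_of_mem m ha _ ?_
  have := hq.two_le
  have h4 : 4 ≤ q * q := by nlinarith
  omega

include ha in
/-- `C20` and `C11` do not both pass through a cusp point. -/
theorem h63_excl_01 (h0 : (VV).Through m (Sum.inl 0)) (h1 : (VV).Through m (Sum.inl 1)) :
    False := by
  refine h16_branch_excl (VV) m h0 h1 (h63_G3B M q A w hw_mul hw_add hV)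
    (h63_aB M q A w hw_mul hw_add hV ^ (q * q - 1)) 1
    (h63_E_mem M q hqM A w hw_mul hw_add hV m ha) hV.G3_C20 ?_
  rw [pow_one, SubmonoidClass.coe_pow]
  exact hV.G3_C11

include ha in
/-- `C11` and `C02` do not both pass through a cusp point. -/
theorem h63_excl_12 (h1 : (VV).Through m (Sum.inl 1)) (h2 : (VV).Through m (Sum.inl 2)) :
    False := by
  refine h16_branch_excl (VV) m h1 h2 (h63_G1B M q hqM A w hw_mul hw_add hV)
    (h63_aB M q A w hw_mul hw_add hV ^ (q * q - 1)) q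
    (h63_E_mem M q hqM A w hw_mul hw_add hV m ha) hV.G1_C11 ?_
  rw [SubmonoidClass.coe_pow]
  exact hV.G1_C02

include ha in
/-- `C20` and `C02` do not both pass through a cusp point. -/
theorem h63_excl_02 (h0 : (VV).Through m (Sum.inl 0)) (h2 : (VV).Through m (Sum.inl 2)) :
    False := by
  refine h16_branch_excl (VV) m h0 h2 (h63_G1B M q hqM A w hw_mul hw_add hV)
    (h63_aB M q A w hw_mul hw_add hV ^ (q * q - 1)) q
    (h63_E_mem M q hqM A w hw_mul hw_add hV m ha) hV.G1_C20 ?_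
  rw [SubmonoidClass.coe_pow]
  exact hV.G1_C02

include ha in
/-- **(X1)** At most one vertical component passes through a cusp point. -/
theorem h63_x1 : ∃ c0 : Fin 3, ∀ c, (VV).Through m (Sum.inl c) → c = c0 := by
  by_cases h0 : (VV).Through m (Sum.inl 0)
  · refine ⟨0, fun c hc => ?_⟩
    fin_cases c
    · rfl
    · exact (h63_excl_01 M q hqM A w hw_mul hw_add hV m ha h0 hc).elim
    · exact (h63_excl_02 M q hqM A w hw_mul hw_add hV m ha h0 hc).elim
  by_cases h1 : (VV).Through m (Sum.inl 1)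
  · refine ⟨1, fun c hc => ?_⟩
    fin_cases c
    · exact (h0 hc).elim
    · rfl
    · exact (h63_excl_12 M q hqM A w hw_mul hw_add hV m ha h1 hc).elim
  · refine ⟨2, fun c hc => ?_⟩
    fin_cases c
    · exact (h0 hc).elim
    · exact (h1 hc).elim
    · rfl

include ha in
theorem h63_x1' {c c' : Fin 3} (hc : (VV).Through m (Sum.inl c))
    (hc' : (VV).Through m (Sum.inl c')) : c = c' := by
  obtain ⟨c0, h⟩ := h63_x1 M q hqM A w hw_mul hw_add hV m ha
  rw [h c hc, h c' hc']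

/-! ### (X2): the local equation of the vertical component through a cusp point -/

omit hqM [m.IsPrime] in
/-- `q` is a unit at every horizontal valuation. -/
theorem h63_hor_q (j : h80_HorIdx (h80_horOrd (M * q * q) (A.inertiaSubgroupIn ℚ)
    (h59_jbar (M * q * q))⁻¹)) :
    (VV).v (Sum.inr j) (q : h69_F0 (M * q * q) (A.inertiaSubgroupIn ℚ)) = 0 := by
  obtain ⟨P, -, hPv⟩ := h63_hor M q A w hw_mul hw_add j
  rw [hPv]
  have e : (((q : ℕ) : h69_F0 (M * q * q) (A.inertiaSubgroupIn ℚ)) :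
      modularFunctionFieldBar (M * q * q))
      = algebraMap Qb (modularFunctionFieldBar (M * q * q)) (q : Qb) := by
    rw [map_natCast]
    rfl
  rw [e]
  exact h35_ord_algebraMap P _

include ha in
/-- `G1 ≡ 1` at a cusp point of `C11`. -/
theorem h63_G1_sub_mem (h1 : (VV).Through m (Sum.inl 1)) :
    h63_G1B M q hqM A w hw_mul hw_add hV - 1 ∈ m := by
  refine h16_sub_mem (VV) m h1 (h63_G1B M q hqM A w hw_mul hw_add hV) 1 ?_
  rw [OneMemClass.coe_one]
  exact hV.G1_C11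

include ha in
/-- `G3` vanishes at a cusp point of `C11`. -/
theorem h63_G3_mem_m (h1 : (VV).Through m (Sum.inl 1)) :
    h63_G3B M q A w hw_mul hw_add hV ∈ m := by
  have hsub := h16_sub_mem (VV) m h1 (h63_G3B M q A w hw_mul hw_add hV)
    (h63_aB M q A w hw_mul hw_add hV ^ (q * q - 1)) (by
      rw [SubmonoidClass.coe_pow]
      exact hV.G3_C11)
  have := m.add_mem hsub (h63_E_mem M q hqM A w hw_mul hw_add hV m ha)
  rwa [sub_add_cancel] at this

include ha in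
/-- `t ∉ m` at a cusp point of `C11`. -/
theorem h63_t_not_mem (h1 : (VV).Through m (Sum.inl 1)) :
    h63_tB M q A w hw_mul hw_add hV ∉ m := by
  intro h
  rw [h63_tB_eq] at h
  exact h16_one_sub_not_mem (VV) m (h63_G3_mem_m M q hqM A w hw_mul hw_add hV m ha h1)
    (hm.mem_of_pow_mem _ h)

include ha in
/-- `b ∉ m` at a cusp point of `C11`. -/
theorem h63_b_not_mem (h1 : (VV).Through m (Sum.inl 1)) :
    h63_bB M q A w hw_mul hw_add hV ∉ m := by
  have ht := h63_t_not_mem M q hqM A w hw_mul hw_add hV m ha h1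
  have ht0 : ((h63_tB M q A w hw_mul hw_add hV : (VV).B) :
      h69_F0 (M * q * q) (A.inertiaSubgroupIn ℚ)) ≠ 0 := h80_ne_zero_of_not_mem (VV) ht
  have hbt : h63_bB M q A w hw_mul hw_add hV - h63_tB M q A w hw_mul hw_add hV ∈ m := by
    refine h16_sub_mem (VV) m h1 _ _ ?_
    rw [h63_coe_bB, h63_coe_tB]
    by_cases hone : h52_cvJ2 M q A * (h52_cvJ0 M q A)⁻¹ = 1
    · left
      rw [hone, one_mul]
    · right
      have hne : h52_cvJ2 M q A * (h52_cvJ0 M q A)⁻¹ - 1 ≠ 0 := sub_ne_zero.mpr hone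
      have e : h52_cvJ2 M q A * (h52_cvJ0 M q A)⁻¹ * (1 - h52_cvG3 M q A) ^ (q * q)
          - (1 - h52_cvG3 M q A) ^ (q * q)
          = (h52_cvJ2 M q A * (h52_cvJ0 M q A)⁻¹ - 1) * (1 - h52_cvG3 M q A) ^ (q * q) := by
        ring
      rw [h63_coe_tB] at ht0
      rw [e, (VV).map_mul _ _ _ hne ht0]
      have h2 : 0 < (VV).v (Sum.inl 1) (h52_cvJ2 M q A * (h52_cvJ0 M q A)⁻¹ - 1) :=
        hV.J2a_C11.resolve_left hone
      have h3 := h80_v_nonneg (VV) (Sum.inl 1) (h63_tB M q A w hw_mul hw_add hV)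
        (by rw [h63_coe_tB]; exact ht0)
      rw [h63_coe_tB] at h3
      omega
  intro h
  apply ht
  have := m.sub_mem h hbt
  rwa [sub_sub_cancel] at this

include ha in
/-- `zt = J0 / J2` is a unit at a cusp point of `C11`. -/
theorem h63_zt_unit (h1 : (VV).Through m (Sum.inl 1)) :
    h52_cvZt M q A ≠ 0 ∧ ∀ j, (VV).Through m j → (VV).v j (h52_cvZt M q A) = 0 := by
  obtain ⟨hz0, hzu⟩ := h16_unit_of_ratio (VV) m (z := h52_cvJ2 M q A * (h52_cvJ0 M q A)⁻¹)
    (h63_bB M q A w hw_mul hw_add hV) (h63_tB M q A w hw_mul hw_add hV)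
    (h63_b_not_mem M q hqM A w hw_mul hw_add hV m ha h1)
    (h63_t_not_mem M q hqM A w hw_mul hw_add hV m ha h1)
    (by rw [h63_coe_bB, h63_coe_tB]; exact mul_comm _ _)
  have hzt_eq : h52_cvZt M q A = (h52_cvJ2 M q A * (h52_cvJ0 M q A)⁻¹)⁻¹ := by
    unfold h52_cvZt
    rw [mul_inv, inv_inv, div_eq_mul_inv]
    exact mul_comm _ _
  refine ⟨by rw [hzt_eq]; exact inv_ne_zero hz0, fun j hj => ?_⟩
  rw [hzt_eq, h80_v_inv (VV) j hz0, hzu j hj, neg_zero]

include ha in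
/-- A cusp passes through a cusp point. -/
theorem h63_cusp_through :
    ∃ (j : h80_HorIdx (h80_horOrd (M * q * q) (A.inertiaSubgroupIn ℚ) (h59_jbar (M * q * q))⁻¹))
      (P : Place Qb (modularFunctionFieldBar (M * q * q))),
      (VV).Through m (Sum.inr j) ∧ P.ord (h16_J0 M q) < 0 ∧
      ∀ f : h69_F0 (M * q * q) (A.inertiaSubgroupIn ℚ),
        (VV).v (Sum.inr j) f = P.ord (f : modularFunctionFieldBar (M * q * q)) := by
  have hJ0 := h52_cv_J0_ne M q A
  have ha0 : ((h63_aB M q A w hw_mul hw_add hV : (VV).B) :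
      h69_F0 (M * q * q) (A.inertiaSubgroupIn ℚ)) ≠ 0 := by
    rw [h63_coe_aB]; exact inv_ne_zero hJ0
  obtain ⟨k, hk, hkpos⟩ := h16_exists_through_pos (VV) m (h63_aB M q A w hw_mul hw_add hV) ha ha0
  rw [h63_coe_aB] at hkpos
  rcases k with c | j
  · exfalso
    rw [h63_v_inl, hV.va c] at hkpos
    exact lt_irrefl 0 hkpos
  obtain ⟨P, hP, hPv⟩ := h63_hor M q A w hw_mul hw_add j
  refine ⟨j, P, hk, ?_, hPv⟩
  rw [hPv, Subfield.coe_inv, h52_cv_coe_J0, Place.ord_inv] at hkpos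
  have e : h16_J0 M q = h59_jbar (M * q * q) := rfl
  rw [e]
  omega

include ha in
/-- A cusp through a cusp point of `C11` is of middle type. -/
theorem h63_cusp_mid (h1 : (VV).Through m (Sum.inl 1))
    (j : h80_HorIdx (h80_horOrd (M * q * q) (A.inertiaSubgroupIn ℚ) (h59_jbar (M * q * q))⁻¹))
    (P : Place Qb (modularFunctionFieldBar (M * q * q)))
    (hk : (VV).Through m (Sum.inr j)) (hP0 : P.ord (h16_J0 M q) < 0)
    (hPv : ∀ f : h69_F0 (M * q * q) (A.inertiaSubgroupIn ℚ),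
      (VV).v (Sum.inr j) f = P.ord (f : modularFunctionFieldBar (M * q * q))) :
    P.ord (h16_J1 M q) = q * P.ord (h16_J0 M q) ∧
      P.ord (h16_J1 M q) = q * P.ord (h16_J2 M q) := by
  have hG1sub := h63_G1_sub_mem M q hqM A w hw_mul hw_add hV m ha h1
  have hG3m := h63_G3_mem_m M q hqM A w hw_mul hw_add hV m ha h1
  rcases h16_q2_mid M q P hP0 with h | h | h
  · exfalso
    have hG1ne : ((h63_G1B M q hqM A w hw_mul hw_add hV : (VV).B) :
        h69_F0 (M * q * q) (A.inertiaSubgroupIn ℚ)) ≠ 0 := by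
      rw [h63_coe_G1B]
      intro h0
      have h2 := h63_coe_cvG1 M q hqM A
      rw [h0, ZeroMemClass.coe_zero] at h2
      exact h16_G1_ne_zero M q h2.symm
    have hmem : h63_G1B M q hqM A w hw_mul hw_add hV ∈ m := by
      refine hk _ hG1ne ?_
      rw [hPv, h63_coe_G1B, h63_coe_cvG1 M q hqM A]
      exact h
    exact h16_not_mem_of_sub_one (VV) m hG1sub hmem
  · exfalso
    have hsub : h63_G3B M q A w hw_mul hw_add hV - 1 ∈ m := by
      have e1 : ((h63_G3B M q A w hw_mul hw_add hV - 1 : (VV).B) :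
          h69_F0 (M * q * q) (A.inertiaSubgroupIn ℚ)) = h52_cvG3 M q A - 1 := by
        rw [AddSubgroupClass.coe_sub, OneMemClass.coe_one, h63_coe_G3B]
      have e2 : ((h52_cvG3 M q A - 1 : h69_F0 (M * q * q) (A.inertiaSubgroupIn ℚ)) :
          modularFunctionFieldBar (M * q * q)) = h16_G3 M q - 1 := by
        rw [Subfield.coe_sub, Subfield.coe_one, h63_coe_cvG3]
      by_cases h0 : h52_cvG3 M q A - 1 = 0
      · have : h63_G3B M q A w hw_mul hw_add hV - 1 = 0 := Subtype.ext (by rw [e1, h0]; rfl)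
        rw [this]
        exact m.zero_mem
      · refine hk _ (by rw [e1]; exact h0) ?_
        rw [hPv, e1, e2]
        rcases h with h | h
        · exfalso
          apply h0
          apply Subtype.ext
          rw [e2, h, ZeroMemClass.coe_zero]
        · omega
    exact h16_not_mem_of_sub_one (VV) m hsub hG3m
  · exact h

include ha in
/-- **The local equation of `C11` at a cusp point**: `zt - 1`, `zt = J0 / J2`. -/
theorem h63_x2_mid (h1 : (VV).Through m (Sum.inl 1)) :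
    h52_cvZt M q A - 1 ≠ 0 ∧ (VV).v (Sum.inl 1) (h52_cvZt M q A - 1) = 1 ∧
      ∀ j, (VV).Through m j → j ≠ Sum.inl 1 → (VV).v j (h52_cvZt M q A - 1) = 0 := by
  have hq : q.Prime := Fact.out
  obtain ⟨hzt0, hzt⟩ := h63_zt_unit M q hqM A w hw_mul hw_add hV m ha h1
  have hx0 : h52_cvZt M q A - 1 ≠ 0 := by
    intro h
    have h2 : ((h52_cvZt M q A - 1 : h69_F0 (M * q * q) (A.inertiaSubgroupIn ℚ)) :
        modularFunctionFieldBar (M * q * q)) = h63_zt M q - 1 := by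
      rw [Subfield.coe_sub, Subfield.coe_one, h63_coe_cvZt]
    rw [h, ZeroMemClass.coe_zero] at h2
    exact h63_zt_sub_one_ne_zero M q hq.two_le h2.symm
  obtain ⟨j, P, hk, hP0, hPv⟩ := h63_cusp_through M q hqM A w hw_mul hw_add hV m ha
  have hmid := h63_cusp_mid M q hqM A w hw_mul hw_add hV m ha h1 j P hk hP0 hPv
  have hS := h63_mid_sigma M q P hP0 hmid.1 hmid.2
  have hkS : 0 < (VV).v (Sum.inr j) (∑ i ∈ Finset.range q, h52_cvZt M q A ^ i) := by
    rw [hPv]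
    have e : ((∑ i ∈ Finset.range q, h52_cvZt M q A ^ i :
        h69_F0 (M * q * q) (A.inertiaSubgroupIn ℚ)) : modularFunctionFieldBar (M * q * q))
        = ∑ i ∈ Finset.range q, h63_zt M q ^ i := by
      rw [AddSubmonoidClass.coe_finset_sum]
      refine Finset.sum_congr rfl fun i _ => ?_
      rw [SubmonoidClass.coe_pow, h63_coe_cvZt]
    rw [e]
    exact hS
  have hQ : (((q : ℕ) : (VV).B) : h69_F0 (M * q * q) (A.inertiaSubgroupIn ℚ))
      = ((q : ℕ) : h69_F0 (M * q * q) (A.inertiaSubgroupIn ℚ)) := rfl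
  have hQ0 : (((q : ℕ) : (VV).B) : h69_F0 (M * q * q) (A.inertiaSubgroupIn ℚ)) ≠ 0 := by
    rw [hQ]
    exact_mod_cast NeZero.ne q
  refine ⟨hx0, h16_mid_local_eq (VV) m q hq ((q : ℕ) : (VV).B) hQ hQ0 h1 ?_ ?_ hzt0 hzt hx0
    hV.zt_C11 hk ?_ hkS⟩
  · rw [hQ, Nat.cast_sub hq.one_le, Nat.cast_one]
    exact hV.q1
  · intro i hi hpos
    rcases i with c | j'
    · exact congrArg Sum.inl (h63_x1' M q hqM A w hw_mul hw_add hV m ha hi h1)
    · exfalso
      rw [hQ, h63_hor_q M q A w hw_mul hw_add j'] at hpos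
      exact lt_irrefl 0 hpos
  · rw [hQ]
    exact h63_hor_q M q A w hw_mul hw_add j

include ha in
/-- **(X2)** The vertical component through a cusp point has a local equation at the point. -/
theorem h63_x2 (c : Fin 3) (hc : (VV).Through m (Sum.inl c)) :
    ∃ π : h69_F0 (M * q * q) (A.inertiaSubgroupIn ℚ), π ≠ 0 ∧ (VV).v (Sum.inl c) π = 1 ∧
      ∀ k, (VV).Through m k → k ≠ Sum.inl c → (VV).v k π = 0 := by
  have hqne : ((q : ℕ) : h69_F0 (M * q * q) (A.inertiaSubgroupIn ℚ)) ≠ 0 := by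
    exact_mod_cast NeZero.ne q
  have hother : ∀ (c : Fin 3), (VV).Through m (Sum.inl c) → ∀ k, (VV).Through m k →
      k ≠ Sum.inl c → (VV).v k ((q : ℕ) : h69_F0 (M * q * q) (A.inertiaSubgroupIn ℚ)) = 0 := by
    intro c hc k hk hne
    rcases k with c' | j
    · exact absurd (congrArg Sum.inl (h63_x1' M q hqM A w hw_mul hw_add hV m ha hk hc)) hne
    · exact h63_hor_q M q A w hw_mul hw_add j
  by_cases h0 : c = 0
  · subst h0
    exact ⟨_, hqne, hV.q0, hother 0 hc⟩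
  by_cases h2 : c = 2
  · subst h2
    exact ⟨_, hqne, hV.q2, hother 2 hc⟩
  have h1 : c = 1 := by
    fin_cases c
    · exact absurd rfl h0
    · rfl
    · exact absurd rfl h2
  subst h1
  exact ⟨_, h63_x2_mid M q hqM A w hw_mul hw_add hV m ha hc⟩

end Point

/-! ### The same with the cusp condition in `∃`-form -/

section Exists

variable (hV : h63_CuspVert M q A w)
  (m : Ideal (h80_fam2 (M * q * q) (A.inertiaSubgroupIn ℚ) w hw_mul hw_add).B) [hm : m.IsPrime]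
  (ha : ∃ h : (h52_cvJ0 M q A)⁻¹ ∈ (h80_fam2 (M * q * q) (A.inertiaSubgroupIn ℚ) w hw_mul hw_add).B,
    (⟨(h52_cvJ0 M q A)⁻¹, h⟩ : (h80_fam2 (M * q * q) (A.inertiaSubgroupIn ℚ) w hw_mul hw_add).B) ∈ m)

include hqM hV ha in
/-- **(X1)**, cusp condition `∃ h, ⟨1 / j, h⟩ ∈ m`. -/
theorem h63_x1_of : ∃ c0 : Fin 3, ∀ c, (VV).Through m (Sum.inl c) → c = c0 := by
  obtain ⟨h, hm'⟩ := ha
  exact h63_x1 M q hqM A w hw_mul hw_add hV m hm'

include hqM hV ha in
/-- **(X2)**, cusp condition `∃ h, ⟨1 / j, h⟩ ∈ m`. -/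
theorem h63_x2_of (c : Fin 3) (hc : (VV).Through m (Sum.inl c)) :
    ∃ π : h69_F0 (M * q * q) (A.inertiaSubgroupIn ℚ), π ≠ 0 ∧ (VV).v (Sum.inl c) π = 1 ∧
      ∀ k, (VV).Through m k → k ≠ Sum.inl c → (VV).v k π = 0 := by
  obtain ⟨h, hm'⟩ := ha
  exact h63_x2 M q hqM A w hw_mul hw_add hV m hm' c hc

end Exists

end X12

end Fermat.Agent.S36
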