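/-
S36 / row I-CUSP (helper16): no zero of an integral partner passes through a point at infinity.

Generic (a valuation family `V`, a prime `m` of the chart ring, `a ∈ m` with `a * J0 = 1`).
If `J0` is integral over `c(R)[J2]` (`c : R → F` constants with values in the chart ring), then
no valuation through `m` is positive on `J2` (`h16_no_zero_core`, `h16_no_zero`):
reversing the integral equation gives `1 + Σ cᵢ(J2) a^i = 0`; the element
`f := 1 + Σ cᵢ(0) a^i` of the chart ring is `≡ 1` modulo `a` and is divisible by `J2` in the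
valuation ring of every valuation which is nonnegative on `J2`.

Use: `J0 = j(τ)`, `J2 = j(q²τ)` at level `M q²`, `m` a cusp point of the chart `1/j`: the
functions `f(q²τ)`, `f` regular on the chart `1/j` of level `M`, lie in the local ring at `m`.
-/
import Mathlib
import Fermat.Agent.S36.h16_CuspGen
import Fermat.Agent.S36.h94_NZGeneric
import Fermat.Agent.S36.h97_Noeth

set_option autoImplicit false

namespace Fermat.Agent.S36

open Polynomial

variable {F : Type*} [Field F] {ι : Type*}

/-- Polynomial expressions in an element which is nonnegative for `v_k`, with coefficients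
nonnegative for `v_k`, are nonnegative for `v_k`. -/
theorem h16_vge_eval₂ (V : h80_ValFam F ι) (k : ι) {R : Type*} [CommRing R] (c : R →+* F)
    (hc : ∀ r, h94_Vge V k 0 (c r)) {x : F} (hx : h94_Vge V k 0 x) (s : Polynomial R) :
    h94_Vge V k 0 (s.eval₂ c x) := by
  rw [Polynomial.eval₂_eq_sum, Polynomial.sum_def]
  refine Finset.sum_induction _ (h94_Vge V k 0) (fun _ _ => h94_vge_add V k)
    (h94_vge_zero V k 0) fun i _ => ?_
  have h1 := h94_vge_mul V k (hc (s.coeff i)) (h94_vge_pow V k hx i)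
  simpa using h1

/-- **No zero of `J2` through a point with `1/J0 ∈ m`**, when `J0` is integral over
`c(R)[J2]`. -/
theorem h16_no_zero_core (V : h80_ValFam F ι) {R : Type*} [CommRing R] (c : R →+* F)
    (hc : ∀ r, c r ∈ V.B) (m : Ideal V.B) [hm : m.IsPrime] (a : V.B) (ham : a ∈ m)
    {J0 J2 : F} (haJ : (a : F) * J0 = 1) (hJ2 : J2 ≠ 0)
    (hint : (Polynomial.eval₂RingHom c J2).IsIntegralElem J0)
    {k : ι} (hk : V.Through m k) : V.v k J2 ≤ 0 := by
  by_contra hpos
  push Not at hpos
  obtain ⟨p, hp, hp0⟩ := hint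
  have hJ0 : J0 ≠ 0 := by
    rintro rfl
    simp at haJ
  have ha : (a : F) = J0⁻¹ := eq_inv_of_mul_eq_one_left haJ
  set φ := Polynomial.eval₂RingHom c J2 with hφ
  have : Invertible J0 := invertibleOfNonzero hJ0
  have hr : p.reverse.eval₂ φ (a : F) = 0 := by
    have h1 := (Polynomial.eval₂_reverse_eq_zero_iff φ J0 p).2 hp0
    rwa [invOf_eq_inv, ← ha] at h1
  have hr0 : p.reverse.coeff 0 = 1 := by rw [Polynomial.coeff_zero_reverse, hp.leadingCoeff]
  set r := p.reverse with hrdef
  have hdec : ∀ s : Polynomial R, φ s = c (s.coeff 0) + J2 * φ s.divX := by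
    intro s
    conv_lhs => rw [← Polynomial.divX_mul_X_add s]
    rw [map_add, map_mul, hφ, Polynomial.coe_eval₂RingHom, Polynomial.eval₂_X,
      Polynomial.eval₂_C]
    ring
  have hsum : ((∑ i ∈ r.support, ⟨c ((r.coeff i).coeff 0), hc _⟩ * a ^ i : V.B) : F)
      + J2 * ∑ i ∈ r.support, φ (r.coeff i).divX * (a : F) ^ i = 0 := by
    rw [← hr, Polynomial.eval₂_eq_sum, Polynomial.sum_def, Finset.mul_sum]
    push_cast
    rw [← Finset.sum_add_distrib]
    refine Finset.sum_congr rfl fun i _ => ?_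
    rw [hdec (r.coeff i)]
    ring
  set fB : V.B := ∑ i ∈ r.support, ⟨c ((r.coeff i).coeff 0), hc _⟩ * a ^ i with hfB
  set g : F := ∑ i ∈ r.support, φ (r.coeff i).divX * (a : F) ^ i with hg
  have hR : Nontrivial R := by
    refine ⟨⟨0, 1, fun h01 => ?_⟩⟩
    have h1 : c 0 = c 1 := by rw [h01]
    rw [map_zero, map_one] at h1
    exact zero_ne_one h1
  have h0supp : 0 ∈ r.support := by
    rw [Polynomial.mem_support_iff, hr0]
    exact one_ne_zero
  have hf1 : fB - 1 ∈ m := by
    have e : fB = 1 + ∑ i ∈ r.support.erase 0, ⟨c ((r.coeff i).coeff 0), hc _⟩ * a ^ i := by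
      rw [hfB, ← Finset.add_sum_erase _ _ h0supp]
      congr 1
      apply Subtype.ext
      simp [hr0]
    rw [e, add_sub_cancel_left]
    exact Ideal.sum_mem _ fun i hi => Ideal.mul_mem_left _ _
      (Ideal.pow_mem_of_mem m ham i (Nat.pos_of_ne_zero (Finset.ne_of_mem_erase hi)))
  have hfm : fB ∉ m := h16_not_mem_of_sub_one V m hf1
  have hf0 : (fB : F) ≠ 0 := h80_ne_zero_of_not_mem V hfm
  have hvf : V.v k fB = 0 := h80_through_eq_zero V hk hfm
  have hcV : ∀ r', h94_Vge V k 0 (c r') := fun r' => by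
    by_cases h0 : c r' = 0
    · exact Or.inl h0
    · exact Or.inr (h80_v_nonneg V k ⟨_, hc r'⟩ h0)
  have hJ2V : h94_Vge V k 0 J2 := Or.inr hpos.le
  have haV : h94_Vge V k 0 (a : F) := by
    by_cases h0 : (a : F) = 0
    · exact Or.inl h0
    · exact Or.inr (h80_v_nonneg V k a h0)
  have hgV : h94_Vge V k 0 g := by
    refine Finset.sum_induction _ (h94_Vge V k 0) (fun _ _ => h94_vge_add V k)
      (h94_vge_zero V k 0) fun i _ => ?_
    have h1 : h94_Vge V k 0 (φ (r.coeff i).divX) := h16_vge_eval₂ V k c hcV hJ2V _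
    have h2 := h94_vge_mul V k h1 (h94_vge_pow V k haV i)
    simpa using h2
  have hg0 : g ≠ 0 := by
    intro hg'
    rw [hg', mul_zero, add_zero] at hsum
    exact hf0 hsum
  have hvg : 0 ≤ V.v k g := hgV.resolve_left hg0
  have e2 : (fB : F) = (-1) * (J2 * g) := by linear_combination hsum
  rw [e2, V.map_mul _ _ _ (by norm_num) (mul_ne_zero hJ2 hg0), V.map_mul _ _ _ hJ2 hg0,
    h16_v_neg_one] at hvf
  omega

/-- The same with the evaluation map `h97_ev` of the integrality statements of the chart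
rings. -/
theorem h16_no_zero (V : h80_ValFam F ι) {K0 : Type*} [Field K0] [Algebra K0 F]
    (A0 : Subring K0) (hc : ∀ r : A0, algebraMap K0 F (r : K0) ∈ V.B)
    (m : Ideal V.B) [hm : m.IsPrime] (a : V.B) (ham : a ∈ m)
    {J0 J2 : F} (haJ : (a : F) * J0 = 1) (hJ2 : J2 ≠ 0)
    (hint : (h97_ev A0 J2).IsIntegralElem J0)
    {k : ι} (hk : V.Through m k) : V.v k J2 ≤ 0 :=
  h16_no_zero_core V ((algebraMap K0 F).comp A0.subtype) hc m a ham haJ hJ2 hint hk

/-- Consequence: an element which is nonnegative at every valuation that is `≤ 0` on `J2` lies in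
the local ring at `m`. -/
theorem h16_inLoc_of_no_zero (V : h80_ValFam F ι) {K0 : Type*} [Field K0] [Algebra K0 F]
    (A0 : Subring K0) (hc : ∀ r : A0, algebraMap K0 F (r : K0) ∈ V.B)
    (m : Ideal V.B) [hm : m.IsPrime] (a : V.B) (ham : a ∈ m)
    {J0 J2 : F} (haJ : (a : F) * J0 = 1) (hJ2 : J2 ≠ 0)
    (hint : (h97_ev A0 J2).IsIntegralElem J0)
    {f : F} (hf : ∀ k, V.v k J2 ≤ 0 → f = 0 ∨ 0 ≤ V.v k f) : V.InLoc m f := by
  by_cases hf0 : f = 0
  · rw [hf0]
    exact ⟨0, 1, fun h1 => hm.ne_top ((Ideal.eq_top_iff_one m).mpr h1), by simp⟩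
  · exact (h80_inLoc_iff V m hf0).2 fun k hk =>
      (hf k (h16_no_zero V A0 hc m a ham haJ hJ2 hint hk)).resolve_left hf0

end Fermat.Agent.S36
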