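/-
S36 / row I-CUSP (helper16): the cusp points of the chart `{1/j finite}` at level `M q²`.

`F0 = h69_F0 (M q²) H`, `V` a valuation family on `F0` whose indices are three vertical ones
(`vert 0 = C20`, `vert 1 = C11`, `vert 2 = C02`) and restrictions of places of the chart
`{ord J0 ≤ 0}` (`hidx`).  For a prime `m` of the chart ring with `q ∈ m` and `1/j ∈ m` (a cusp
point of the special fibre) `h16_cusp_point` gives

* (X1) exactly one vertical component `c` passes through `m`;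
* (X2) a local equation of that component at `m` (`q` on `C20`, `C02`; `J0 / J2 - 1` on `C11`).

The vertical inputs are the hypotheses `hvJ`, `hq0`, `hq1`, `hq2`, `hG10`, `hG11`, `hG12`, `hG30`,
`hmid` (all are statements about the Gauss orders of explicit `q`-series), the horizontal input
is the middle-cusp statement `hS` at level `1 * q * q`.
-/
import Mathlib
import Fermat.Agent.S36.h16_CuspGen
import Fermat.Agent.S36.h16_CuspRatio
import Fermat.Agent.S36.h70_TorInst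
import Fermat.Agent.S19.h2_ModChartJ

set_option autoImplicit false
set_option synthInstance.maxHeartbeats 400000
set_option linter.style.haveILetI false
set_option linter.unusedSectionVars false

noncomputable section

namespace Fermat.Agent.S36

open AlgebraicCurve HahnSeries ModularCurve IntermediateField
open Fermat.Agent.S24 Fermat.Agent.S18 Fermat.Agent.S37 Fermat.Agent.S34 Fermat.Agent.S19

local notation "Qb" => AlgebraicClosure ℚ

section

variable (M q : ℕ) [NeZero M] [NeZero q] [Fact q.Prime] (H : Subgroup (Qb ≃ₐ[ℚ] Qb))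

theorem h16_jbar_mem_F0 (N : ℕ) [NeZero N] : h59_jbar N ∈ h69_F0 N H :=
  fun σ _ => h2_jbar_fix N σ

/-- `j(τ)` as an `H`-invariant function of level `M q²`. -/
def h16_J0F : ↥(h69_F0 (M * q * q) H) := ⟨h59_jbar (M * q * q), h16_jbar_mem_F0 H (M * q * q)⟩

/-- `j(qτ)` as an `H`-invariant function of level `M q²`. -/
def h16_J1F : ↥(h69_F0 (M * q * q) H) :=
  h70_bF0 (M * q) q H ⟨h59_jbar (M * q), h16_jbar_mem_F0 H (M * q)⟩

/-- `j(q²τ)` as an `H`-invariant function of level `M q²`. -/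
def h16_J2F : ↥(h69_F0 (M * q * q) H) :=
  h70_bF0 (M * q) q H (h70_bF0 M q H ⟨h59_jbar M, h16_jbar_mem_F0 H M⟩)

theorem h16_coe_J0F :
    ((h16_J0F M q H : ↥(h69_F0 (M * q * q) H)) : ↥(modularFunctionFieldBar (M * q * q)))
      = h16_J0 M q := rfl

theorem h16_coe_J1F :
    ((h16_J1F M q H : ↥(h69_F0 (M * q * q) H)) : ↥(modularFunctionFieldBar (M * q * q)))
      = h16_J1 M q := rfl

theorem h16_coe_J2F :
    ((h16_J2F M q H : ↥(h69_F0 (M * q * q) H)) : ↥(modularFunctionFieldBar (M * q * q)))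
      = h16_J2 M q := rfl

theorem h16_J0F_ne_zero : h16_J0F M q H ≠ 0 := fun h =>
  h16_J0_ne_zero M q (by rw [← h16_coe_J0F M q H, h]; rfl)

theorem h16_J1F_ne_zero : h16_J1F M q H ≠ 0 := fun h =>
  h16_J1_ne_zero M q (by rw [← h16_coe_J1F M q H, h]; rfl)

theorem h16_J2F_ne_zero : h16_J2F M q H ≠ 0 := fun h =>
  h16_J2_ne_zero M q (by rw [← h16_coe_J2F M q H, h]; rfl)

/-- `G₁ = j(qτ) / j(τ)^q` in `F0`. -/
def h16_G1F : ↥(h69_F0 (M * q * q) H) := h16_J1F M q H * (h16_J0F M q H)⁻¹ ^ q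

/-- `G₃ = j(q²τ) / j(τ)^(q²)` in `F0`. -/
def h16_G3F : ↥(h69_F0 (M * q * q) H) := h16_J2F M q H * (h16_J0F M q H)⁻¹ ^ (q * q)

/-- `t = (1 - G₃)^(q²)` in `F0`. -/
def h16_ttF : ↥(h69_F0 (M * q * q) H) := (1 - h16_G3F M q H) ^ (q * q)

/-- `b = (J2 / J0) t` in `F0`. -/
def h16_bbF : ↥(h69_F0 (M * q * q) H) :=
  h16_J2F M q H * (h16_J0F M q H)⁻¹ * h16_ttF M q H

theorem h16_coe_G1F :
    ((h16_G1F M q H : ↥(h69_F0 (M * q * q) H)) : ↥(modularFunctionFieldBar (M * q * q)))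
      = h16_G1 M q := rfl

theorem h16_coe_G3F :
    ((h16_G3F M q H : ↥(h69_F0 (M * q * q) H)) : ↥(modularFunctionFieldBar (M * q * q)))
      = h16_G3 M q := rfl

theorem h16_coe_ttF :
    ((h16_ttF M q H : ↥(h69_F0 (M * q * q) H)) : ↥(modularFunctionFieldBar (M * q * q)))
      = h16_tt M q := rfl

theorem h16_coe_bbF :
    ((h16_bbF M q H : ↥(h69_F0 (M * q * q) H)) : ↥(modularFunctionFieldBar (M * q * q)))
      = h16_bb M q := rfl

theorem h16_G1F_ne_zero : h16_G1F M q H ≠ 0 :=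
  mul_ne_zero (h16_J1F_ne_zero M q H) (pow_ne_zero _ (inv_ne_zero (h16_J0F_ne_zero M q H)))

theorem h16_G3F_ne_zero : h16_G3F M q H ≠ 0 :=
  mul_ne_zero (h16_J2F_ne_zero M q H) (pow_ne_zero _ (inv_ne_zero (h16_J0F_ne_zero M q H)))

end

/-! ### The hypotheses on the valuation family -/

section Point

variable (M q : ℕ) [NeZero M] [NeZero q] [Fact q.Prime] (H : Subgroup (Qb ≃ₐ[ℚ] Qb))
  {ι : Type*} (V : h80_ValFam ↥(h69_F0 (M * q * q) H) ι) (vert : Fin 3 → ι)

/-- **The inputs of row I-CUSP** for a valuation family `V` on `F0(M q²)` with vertical indices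
`vert 0 = C20`, `vert 1 = C11`, `vert 2 = C02`. -/
structure h16_CuspHyp : Prop where
  /-- every index is vertical or the restriction of a place of the chart `{ord J0 ≤ 0}` -/
  hidx : ∀ i : ι, (∃ c : Fin 3, i = vert c) ∨
    ∃ P : Place Qb ↥(modularFunctionFieldBar (M * q * q)), P.ord (h16_J0 M q) ≤ 0 ∧
      ∀ f : ↥(h69_F0 (M * q * q) H), f ≠ 0 →
        V.v i f = P.ord (f : ↥(modularFunctionFieldBar (M * q * q)))
  /-- `j(τ)`, `j(qτ)`, `j(q²τ)` are units on the three components -/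
  hvJ : ∀ c, V.v (vert c) (h16_J0F M q H) = 0 ∧ V.v (vert c) (h16_J1F M q H) = 0 ∧
    V.v (vert c) (h16_J2F M q H) = 0
  hq0 : V.v (vert 0) ((q : ℕ) : ↥(h69_F0 (M * q * q) H)) = 1
  hq1 : V.v (vert 1) ((q : ℕ) : ↥(h69_F0 (M * q * q) H)) = (q : ℤ) - 1
  hq2 : V.v (vert 2) ((q : ℕ) : ↥(h69_F0 (M * q * q) H)) = 1
  /-- `G₁ ≡ 1` on `C20` -/
  hG10 : 0 < V.v (vert 0) (h16_G1F M q H - 1)
  /-- `G₁ ≡ 1` on `C11` -/
  hG11 : 0 < V.v (vert 1) (h16_G1F M q H - 1)
  /-- `G₁^q ≡ (1/j)^(q²-1)` on `C02` -/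
  hG12 : 0 < V.v (vert 2) (h16_G1F M q H ^ q - (h16_J0F M q H)⁻¹ ^ (q * q - 1))
  /-- `G₃ ≡ 1` on `C20` -/
  hG30 : 0 < V.v (vert 0) (h16_G3F M q H - 1)
  /-- `j(q²τ) - j(τ)` is a uniformiser of `C11` -/
  hmid : V.v (vert 1) (h16_J2F M q H - h16_J0F M q H) = 1
  /-- the middle cusps of level `1 * q * q` -/
  hS : ∀ P' : Place Qb ↥(modularFunctionFieldBar (1 * q * q)), P'.ord (h16_J0 1 q) < 0 →
    P'.ord (h16_J1 1 q) = q * P'.ord (h16_J0 1 q) →
    P'.ord (h16_J1 1 q) = q * P'.ord (h16_J2 1 q) →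
    ∃ ζ : Qb, IsPrimitiveRoot ζ q ∧
      0 < P'.ord (h16_J0 1 q / h16_J2 1 q - algebraMap Qb _ ζ)

variable {M q H V vert}

namespace h16_CuspHyp

variable (h : h16_CuspHyp M q H V vert)
include h

/-- Membership in the chart ring. -/
theorem mem_B {f : ↥(h69_F0 (M * q * q) H)} (hf : f ≠ 0) (hv : ∀ c, 0 ≤ V.v (vert c) f)
    (hh : ∀ P : Place Qb ↥(modularFunctionFieldBar (M * q * q)), P.ord (h16_J0 M q) ≤ 0 →
      0 ≤ P.ord (f : ↥(modularFunctionFieldBar (M * q * q)))) : f ∈ V.B := by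
  rw [V.mem_B f hf]
  intro i
  rcases h.hidx i with ⟨c, rfl⟩ | ⟨P, hP, hPv⟩
  · exact hv c
  · rw [hPv f hf]
    exact hh P hP

theorem v_inv_J0 (c : Fin 3) : V.v (vert c) (h16_J0F M q H)⁻¹ = 0 := by
  rw [h80_v_inv V _ (h16_J0F_ne_zero M q H), (h.hvJ c).1, neg_zero]

theorem v_G1 (c : Fin 3) : V.v (vert c) (h16_G1F M q H) = 0 := by
  have h0 := h16_J0F_ne_zero M q H
  rw [h16_G1F, V.map_mul _ _ _ (h16_J1F_ne_zero M q H) (pow_ne_zero _ (inv_ne_zero h0)),
    h80_v_pow V _ (inv_ne_zero h0), h.v_inv_J0 c, (h.hvJ c).2.1]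
  simp

theorem v_G3 (c : Fin 3) : V.v (vert c) (h16_G3F M q H) = 0 := by
  have h0 := h16_J0F_ne_zero M q H
  rw [h16_G3F, V.map_mul _ _ _ (h16_J2F_ne_zero M q H) (pow_ne_zero _ (inv_ne_zero h0)),
    h80_v_pow V _ (inv_ne_zero h0), h.v_inv_J0 c, (h.hvJ c).2.2]
  simp

theorem inv_J0_mem : (h16_J0F M q H)⁻¹ ∈ V.B := by
  refine h.mem_B (inv_ne_zero (h16_J0F_ne_zero M q H)) (fun c => (h.v_inv_J0 c).ge) ?_
  intro P hP
  show 0 ≤ P.ord (h16_J0 M q)⁻¹
  rw [P.ord_inv]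
  omega

theorem G1_mem : h16_G1F M q H ∈ V.B :=
  h.mem_B (h16_G1F_ne_zero M q H) (fun c => (h.v_G1 c).ge) (fun P hP => h16_G1_reg M q P hP)

theorem G3_mem : h16_G3F M q H ∈ V.B :=
  h.mem_B (h16_G3F_ne_zero M q H) (fun c => (h.v_G3 c).ge) (fun P hP => h16_G3_reg M q P hP)

theorem tt_mem : h16_ttF M q H ∈ V.B :=
  pow_mem (V.B.sub_mem V.B.one_mem h.G3_mem) _

theorem bb_mem : h16_bbF M q H ∈ V.B := by
  by_cases hb : h16_bbF M q H = 0
  · rw [hb]
    exact V.B.zero_mem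
  have h0 := h16_J0F_ne_zero M q H
  have h2 := h16_J2F_ne_zero M q H
  have ht0 : h16_ttF M q H ≠ 0 := by
    intro ht
    apply hb
    rw [h16_bbF, ht, mul_zero]
  refine h.mem_B hb (fun c => ?_) (fun P hP => h16_bb_reg M q P hP)
  rw [h16_bbF, V.map_mul _ _ _ (mul_ne_zero h2 (inv_ne_zero h0)) ht0,
    V.map_mul _ _ _ h2 (inv_ne_zero h0), h.v_inv_J0 c, (h.hvJ c).2.2]
  have := h80_v_nonneg V (vert c) ⟨_, h.tt_mem⟩ ht0
  simpa using this

end h16_CuspHyp

/-- A natural number has order `0` at every place. -/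
theorem h16_ord_natCast (N : ℕ) [NeZero N] (H : Subgroup (Qb ≃ₐ[ℚ] Qb)) (n : ℕ)
    (P : Place Qb ↥(modularFunctionFieldBar N)) :
    P.ord (((n : ↥(h69_F0 N H)) : ↥(modularFunctionFieldBar N))) = 0 := by
  have h1 : ((n : ↥(h69_F0 N H)) : ↥(modularFunctionFieldBar N)) =
      algebraMap Qb ↥(modularFunctionFieldBar N) (n : Qb) := by
    rw [map_natCast]
    exact map_natCast (h69_F0 N H).subtype n
  rw [h1]
  exact h35_ord_algebraMap P _

theorem h16_natCast_ne_zero (N : ℕ) [NeZero N] (H : Subgroup (Qb ≃ₐ[ℚ] Qb)) {n : ℕ}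
    (hn : n ≠ 0) : ((n : ℕ) : ↥(h69_F0 N H)) ≠ 0 := by
  intro h0
  have h1 : ((n : ↥(h69_F0 N H)) : ↥(modularFunctionFieldBar N)) =
      algebraMap Qb ↥(modularFunctionFieldBar N) (n : Qb) := by
    rw [map_natCast]
    exact map_natCast (h69_F0 N H).subtype n
  rw [h0] at h1
  have h2 : algebraMap Qb ↥(modularFunctionFieldBar N) (n : Qb) = 0 := by
    rw [← h1]
    rfl
  have h3 : (n : Qb) = 0 :=
    (map_eq_zero_iff _ (algebraMap Qb ↥(modularFunctionFieldBar N)).injective).1 h2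
  exact hn (Nat.cast_eq_zero.1 h3)

namespace h16_CuspHyp

variable (h : h16_CuspHyp M q H V vert) (m : Ideal V.B) [hm : m.IsPrime]
  (a : V.B) (haJ : (a : ↥(h69_F0 (M * q * q) H)) * h16_J0F M q H = 1) (ham : a ∈ m)

include haJ in
theorem a_eq : (a : ↥(h69_F0 (M * q * q) H)) = (h16_J0F M q H)⁻¹ :=
  eq_inv_of_mul_eq_one_left haJ

include h in
/-- `C20` or `C11` through `m`: `G₁ - 1 ∈ m`. -/
theorem G1_sub_one_mem {c : Fin 3} (hc : c = 0 ∨ c = 1) (hthr : V.Through m (vert c)) :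
    (⟨_, h.G1_mem⟩ : V.B) - 1 ∈ m := by
  refine h16_sub_mem V m hthr ⟨_, h.G1_mem⟩ 1 (Or.inr ?_)
  rcases hc with rfl | rfl
  · exact h.hG10
  · exact h.hG11

include h in
/-- `C20` through `m`: `G₃ - 1 ∈ m`. -/
theorem G3_sub_one_mem (hthr : V.Through m (vert 0)) : (⟨_, h.G3_mem⟩ : V.B) - 1 ∈ m :=
  h16_sub_mem V m hthr ⟨_, h.G3_mem⟩ 1 (Or.inr h.hG30)

theorem qq_pos : 0 < q * q - 1 := by
  have := (Fact.out : q.Prime).two_le
  have : 4 ≤ q * q := by nlinarith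
  omega

include h haJ ham in
/-- `C11` through `m`: `G₃ ∈ m`. -/
theorem G3_mem_of_mid (hthr : V.Through m (vert 1)) : (⟨_, h.G3_mem⟩ : V.B) ∈ m := by
  have h0 := h16_J0F_ne_zero M q H
  have ha := a_eq a haJ
  have hpos := qq_pos (q := q)
  have e : h16_G3F M q H - (a : ↥(h69_F0 (M * q * q) H)) ^ (q * q - 1)
      = (h16_J2F M q H - h16_J0F M q H) * (h16_J0F M q H)⁻¹ ^ (q * q) := by
    have e1 : (h16_J0F M q H)⁻¹ ^ (q * q - 1) = h16_J0F M q H * (h16_J0F M q H)⁻¹ ^ (q * q) := by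
      have e2 : q * q = (q * q - 1) + 1 := by omega
      conv_rhs => rw [e2, pow_succ]
      field_simp
    rw [ha, e1, h16_G3F]
    ring
  have h1 : (⟨_, h.G3_mem⟩ : V.B) - a ^ (q * q - 1) ∈ m := by
    refine h16_sub_mem V m hthr ⟨_, h.G3_mem⟩ (a ^ (q * q - 1)) ?_
    by_cases hz : h16_J2F M q H - h16_J0F M q H = 0
    · left
      push_cast
      rw [← sub_eq_zero, e, hz, zero_mul]
    · right
      push_cast
      rw [e, V.map_mul _ _ _ hz (pow_ne_zero _ (inv_ne_zero h0)), h.hmid,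
        h80_v_pow V _ (inv_ne_zero h0), h.v_inv_J0]
      norm_num
  have h2 : a ^ (q * q - 1) ∈ m := Ideal.pow_mem_of_mem m ham _ hpos
  have h3 := m.add_mem h1 h2
  simpa using h3

include h haJ ham in
/-- `C02` through `m`: `G₁ ∈ m`. -/
theorem G1_mem_of_C02 (hthr : V.Through m (vert 2)) : (⟨_, h.G1_mem⟩ : V.B) ∈ m := by
  refine h16_mem_of_pow_sub V m hthr ⟨_, h.G1_mem⟩ (a ^ (q * q - 1)) q
    (Ideal.pow_mem_of_mem m ham _ (qq_pos (q := q))) (Or.inr ?_)
  push_cast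
  rw [a_eq a haJ]
  exact h.hG12

include h haJ ham in
/-- **(X1)**: at most one vertical component passes through a cusp point. -/
theorem vert_unique {c c' : Fin 3} (hc : V.Through m (vert c)) (hc' : V.Through m (vert c')) :
    c = c' := by
  have key : ∀ c c' : Fin 3, c < c' → V.Through m (vert c) → V.Through m (vert c') → False := by
    intro c c' hlt hc hc'
    have hcases : ∀ c c' : Fin 3, c < c' →
        (c = 0 ∧ c' = 1) ∨ (c = 0 ∧ c' = 2) ∨ (c = 1 ∧ c' = 2) := by decide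
    rcases hcases c c' hlt with ⟨rfl, rfl⟩ | ⟨rfl, rfl⟩ | ⟨rfl, rfl⟩
    · exact h16_not_mem_of_sub_one V m (h.G3_sub_one_mem m hc) (h.G3_mem_of_mid m a haJ ham hc')
    · exact h16_not_mem_of_sub_one V m (h.G1_sub_one_mem m (Or.inl rfl) hc)
        (h.G1_mem_of_C02 m a haJ ham hc')
    · exact h16_not_mem_of_sub_one V m (h.G1_sub_one_mem m (Or.inr rfl) hc)
        (h.G1_mem_of_C02 m a haJ ham hc')
  rcases lt_trichotomy c c' with hlt | heq | hgt
  · exact (key c c' hlt hc hc').elim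
  · exact heq
  · exact (key c' c hgt hc' hc).elim

include h in
/-- A point containing `q` lies on a vertical component. -/
theorem exists_vert (hqm : ((q : ℕ) : V.B) ∈ m) : ∃ c, V.Through m (vert c) := by
  have hq0 : (((q : ℕ) : V.B) : ↥(h69_F0 (M * q * q) H)) ≠ 0 :=
    h16_natCast_ne_zero (M * q * q) H (NeZero.ne q)
  obtain ⟨k, hk, hpos⟩ := h16_exists_through_pos V m _ hqm hq0
  rcases h.hidx k with ⟨c, rfl⟩ | ⟨P, hP, hPv⟩
  · exact ⟨c, hk⟩
  · exfalso
    rw [hPv _ hq0] at hpos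
    have := h16_ord_natCast (M * q * q) H q P
    change 0 < P.ord (((q : ℕ) : ↥(h69_F0 (M * q * q) H)) :
      ↥(modularFunctionFieldBar (M * q * q))) at hpos
    omega

include h haJ ham in
/-- **(X2) on `C20`, `C02`**: `q` is a local equation. -/
theorem locEq_q {c : Fin 3} (hc : V.Through m (vert c))
    (hvq : V.v (vert c) ((q : ℕ) : ↥(h69_F0 (M * q * q) H)) = 1) :
    ∃ π : ↥(h69_F0 (M * q * q) H), π ≠ 0 ∧ V.v (vert c) π = 1 ∧
      ∀ k, V.Through m k → k ≠ vert c → V.v k π = 0 := by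
  have hq0 : ((q : ℕ) : ↥(h69_F0 (M * q * q) H)) ≠ 0 :=
    h16_natCast_ne_zero (M * q * q) H (NeZero.ne q)
  refine ⟨_, hq0, hvq, fun k hk hne => ?_⟩
  rcases h.hidx k with ⟨c', rfl⟩ | ⟨P, hP, hPv⟩
  · exact absurd (congrArg vert (h.vert_unique m a haJ ham hk hc)) hne
  · rw [hPv _ hq0]
    exact h16_ord_natCast (M * q * q) H q P

include h haJ ham in
/-- **(X2) on `C11`**: `J0 / J2 - 1` is a local equation of the middle component at a cusp
point. -/
theorem locEq_mid (hc : V.Through m (vert 1)) :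
    ∃ π : ↥(h69_F0 (M * q * q) H), π ≠ 0 ∧ V.v (vert 1) π = 1 ∧
      ∀ k, V.Through m k → k ≠ vert 1 → V.v k π = 0 := by
  have hq : q.Prime := Fact.out
  have h0 := h16_J0F_ne_zero M q H
  have h2 := h16_J2F_ne_zero M q H
  have hG3 := h.G3_mem_of_mid m a haJ ham hc
  -- `t ∉ m`
  have ht : (⟨_, h.tt_mem⟩ : V.B) ∉ m := by
    have h1 : (1 : V.B) - ⟨_, h.G3_mem⟩ ∉ m := h16_one_sub_not_mem V m hG3
    intro h3
    have h4 : ((1 : V.B) - ⟨_, h.G3_mem⟩) ^ (q * q) ∈ m := h3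
    exact h1 (hm.mem_of_pow_mem _ h4)
  have ht0 : h16_ttF M q H ≠ 0 := h80_ne_zero_of_not_mem V ht
  -- `b - t ∈ m`
  have hbt : (⟨_, h.bb_mem⟩ : V.B) - ⟨_, h.tt_mem⟩ ∈ m := by
    refine h16_sub_mem V m hc _ _ ?_
    have e : h16_bbF M q H - h16_ttF M q H
        = (h16_J2F M q H - h16_J0F M q H) * (h16_J0F M q H)⁻¹ * h16_ttF M q H := by
      rw [h16_bbF]
      field_simp
    by_cases hz : h16_J2F M q H - h16_J0F M q H = 0
    · left
      show h16_bbF M q H = h16_ttF M q H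
      rw [← sub_eq_zero, e, hz]
      ring
    · right
      show 0 < V.v (vert 1) (h16_bbF M q H - h16_ttF M q H)
      rw [e, V.map_mul _ _ _ (mul_ne_zero hz (inv_ne_zero h0)) ht0,
        V.map_mul _ _ _ hz (inv_ne_zero h0), h.hmid, h.v_inv_J0]
      have h5 := h80_v_nonneg V (vert 1) ⟨_, h.tt_mem⟩ ht0
      have h6 : V.v (vert 1) (h16_ttF M q H) = V.v (vert 1) ((⟨_, h.tt_mem⟩ : V.B) :
        ↥(h69_F0 (M * q * q) H)) := rfl
      omega
  have hb : (⟨_, h.bb_mem⟩ : V.B) ∉ m := fun hb' => ht (by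
    have h3 := m.sub_mem hb' hbt
    simpa using h3)
  -- `J0 / J2` is a unit at `m`
  obtain ⟨hz0, hzu⟩ := h16_unit_of_ratio V m (z := h16_J2F M q H / h16_J0F M q H)
    ⟨_, h.bb_mem⟩ ⟨_, h.tt_mem⟩ hb ht (by
      show h16_ttF M q H * (h16_J2F M q H / h16_J0F M q H) = h16_bbF M q H
      rw [h16_bbF]
      field_simp)
  set zt := h16_J0F M q H / h16_J2F M q H with hzt
  have hzt0 : zt ≠ 0 := div_ne_zero h0 h2
  have hztu : ∀ j, V.Through m j → V.v j zt = 0 := by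
    intro j hj
    have e : zt = (h16_J2F M q H / h16_J0F M q H)⁻¹ := by rw [hzt, inv_div]
    rw [e, h80_v_inv V j hz0, hzu j hj, neg_zero]
  have hztq : zt ^ q ≠ 1 := by
    intro hc1
    apply h16_zt_pow_ne_one M q
    have h3 := congrArg (Subtype.val : ↥(h69_F0 (M * q * q) H) → _) hc1
    exact h3
  have hx0 : zt - 1 ≠ 0 := by
    intro hx
    apply hztq
    rw [sub_eq_zero.1 hx, one_pow]
  have hvx : V.v (vert 1) (zt - 1) = 1 := by
    have e : zt - 1 = (-1) * (h16_J2F M q H - h16_J0F M q H) * (h16_J2F M q H)⁻¹ := by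
      rw [hzt]
      field_simp
      ring
    have hz : h16_J2F M q H - h16_J0F M q H ≠ 0 := by
      intro hz
      apply hx0
      rw [e, hz]
      ring
    rw [e, V.map_mul _ _ _ (mul_ne_zero (by norm_num) hz) (inv_ne_zero h2),
      V.map_mul _ _ _ (by norm_num) hz, h16_v_neg_one, h.hmid, h80_v_inv V _ h2, (h.hvJ 1).2.2]
    norm_num
  -- a cusp through `m`
  have ha0 : ((a : V.B) : ↥(h69_F0 (M * q * q) H)) ≠ 0 := by
    rw [a_eq a haJ]
    exact inv_ne_zero h0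
  obtain ⟨k, hk, hkpos⟩ := h16_exists_through_pos V m a ham ha0
  have hQ0 : (((q : ℕ) : V.B) : ↥(h69_F0 (M * q * q) H)) ≠ 0 :=
    h16_natCast_ne_zero (M * q * q) H (NeZero.ne q)
  rcases h.hidx k with ⟨c', rfl⟩ | ⟨P, hP, hPv⟩
  · exfalso
    rw [a_eq a haJ, h.v_inv_J0] at hkpos
    exact lt_irrefl _ hkpos
  have hPcusp : P.ord (h16_J0 M q) < 0 := by
    rw [hPv _ ha0, a_eq a haJ] at hkpos
    have h3 : P.ord (((h16_J0F M q H)⁻¹ : ↥(h69_F0 (M * q * q) H)) :
        ↥(modularFunctionFieldBar (M * q * q))) = -P.ord (h16_J0 M q) := by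
      show P.ord (h16_J0 M q)⁻¹ = _
      rw [P.ord_inv]
    omega
  have hkS : 0 < V.v k (∑ i ∈ Finset.range q, zt ^ i) := by
    rcases h16_q2_mid M q P hPcusp with hG1 | hG3' | ⟨hm1, hm2⟩
    · exfalso
      have h3 : (⟨_, h.G1_mem⟩ : V.B) ∈ m := hk ⟨_, h.G1_mem⟩ (h16_G1F_ne_zero M q H) (by
        show 0 < V.v k (h16_G1F M q H)
        rw [hPv _ (h16_G1F_ne_zero M q H)]
        exact hG1)
      exact h16_not_mem_of_sub_one V m (h.G1_sub_one_mem m (Or.inr rfl) hc) h3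
    · exfalso
      have h5 : (⟨_, h.G3_mem⟩ : V.B) - 1 ∈ m := by
        refine h16_sub_mem V m hk ⟨_, h.G3_mem⟩ 1 ?_
        rcases hG3' with hz | hz
        · left
          show h16_G3F M q H = 1
          apply Subtype.ext
          show h16_G3 M q = 1
          exact sub_eq_zero.1 hz
        · right
          have hne : h16_G3F M q H - 1 ≠ 0 := by
            intro h6
            have h7 : h16_G3 M q - 1 = 0 :=
              congrArg (Subtype.val : ↥(h69_F0 (M * q * q) H) → _) h6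
            rw [h7, Place.ord_zero] at hz
            omega
          show 0 < V.v k (h16_G3F M q H - 1)
          rw [hPv _ hne]
          show 0 < P.ord (h16_G3 M q - 1)
          omega
      exact h16_not_mem_of_sub_one V m h5 hG3
    · obtain ⟨ζ, hζ, hpos⟩ := h16_mid_transfer M q h.hS P hPcusp hm1 hm2
      have hsum := hζ.geom_sum_eq_zero hq.one_lt
      have hge := h16_sigma_pos P (h16_J0 M q / h16_J2 M q) ζ q hsum hpos
      have hS0 : (∑ i ∈ Finset.range q, zt ^ i) ≠ 0 := by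
        intro hS
        apply hztq
        have h3 := geom_sum_mul zt q
        rw [hS, zero_mul] at h3
        exact sub_eq_zero.1 h3.symm
      rw [hPv _ hS0]
      have hcoe : ((∑ i ∈ Finset.range q, zt ^ i : ↥(h69_F0 (M * q * q) H)) :
          ↥(modularFunctionFieldBar (M * q * q)))
          = ∑ i ∈ Finset.range q, (h16_J0 M q / h16_J2 M q) ^ i := by
        push_cast
        rfl
      rw [hcoe]
      rcases hge with hz | hz
      · exfalso
        apply hS0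
        apply Subtype.ext
        rw [hcoe, hz]
        rfl
      · omega
  have hkq : V.v k (((q : ℕ) : V.B) : ↥(h69_F0 (M * q * q) H)) = 0 := by
    rw [hPv _ hQ0]
    exact h16_ord_natCast (M * q * q) H q P
  have hvq : V.v (vert 1) (((q : ℕ) : V.B) : ↥(h69_F0 (M * q * q) H)) = ((q - 1 : ℕ) : ℤ) := by
    rw [Nat.cast_sub hq.one_le, Nat.cast_one]
    exact h.hq1
  obtain ⟨h1, h2'⟩ := h16_mid_local_eq V m q hq ((q : ℕ) : V.B) rfl hQ0 hc hvq
    (fun i hi hpos => by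
      rcases h.hidx i with ⟨c', rfl⟩ | ⟨P', hP', hPv'⟩
      · rw [h.vert_unique m a haJ ham hi hc]
      · exfalso
        rw [hPv' _ hQ0] at hpos
        have h3 := h16_ord_natCast (M * q * q) H q P'
        change 0 < P'.ord (((q : ℕ) : ↥(h69_F0 (M * q * q) H)) :
          ↥(modularFunctionFieldBar (M * q * q))) at hpos
        omega)
    hzt0 hztu hx0 hvx hk hkq hkS
  exact ⟨zt - 1, hx0, h1, h2'⟩

include h haJ ham in
/-- **Row I-CUSP, (X1) + (X2).**  At a cusp point `m` (`q ∈ m`, `1/j ∈ m`) exactly one vertical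
component `c` passes through `m`, it is the only index through `m` at which `q` is positive, and
it has a local equation at `m`. -/
theorem cusp_point (hqm : ((q : ℕ) : V.B) ∈ m) :
    ∃ c : Fin 3, V.Through m (vert c) ∧ (∀ c', V.Through m (vert c') → c' = c) ∧
      (∀ i, V.Through m i → 0 < V.v i ((q : ℕ) : ↥(h69_F0 (M * q * q) H)) → i = vert c) ∧
      ∃ π : ↥(h69_F0 (M * q * q) H), π ≠ 0 ∧ V.v (vert c) π = 1 ∧
        ∀ k, V.Through m k → k ≠ vert c → V.v k π = 0 := by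
  obtain ⟨c, hc⟩ := h.exists_vert m hqm
  have hq0 : ((q : ℕ) : ↥(h69_F0 (M * q * q) H)) ≠ 0 :=
    h16_natCast_ne_zero (M * q * q) H (NeZero.ne q)
  refine ⟨c, hc, fun c' hc' => h.vert_unique m a haJ ham hc' hc, fun i hi hpos => ?_, ?_⟩
  · rcases h.hidx i with ⟨c', rfl⟩ | ⟨P', hP', hPv'⟩
    · rw [h.vert_unique m a haJ ham hi hc]
    · exfalso
      rw [hPv' _ hq0] at hpos
      have h3 := h16_ord_natCast (M * q * q) H q P'
      omega
  · have hcases : ∀ c : Fin 3, c = 0 ∨ c = 1 ∨ c = 2 := by decide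
    rcases hcases c with rfl | rfl | rfl
    · exact h.locEq_q m a haJ ham hc h.hq0
    · exact h.locEq_mid m a haJ ham hc
    · exact h.locEq_q m a haJ ham hc h.hq2

end h16_CuspHyp

end Point

end Fermat.Agent.S36
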