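/-
(INT-W) of row I-CUSP (helper16 #4207): at level `M q²`, `j(τ)` is integral over
`A0[j(q²τ)]`:

  `h91_J0_int_J2 : (h97_ev (h69_A0 A).toSubring (h16_J2F M q I)).IsIntegralElem (h16_J0F M q I)`.

Proof: `j(q²τ)` lies in the chart-1 ring of level `M q²` (vertical orders `0` by
`h52_cv_J2`, horizontal part `h16_q2_table`), hence is integral over `A0[j]` by the closed
(NOETH) `h91_noeth_q2`; transport by the swap `W` restricted to `F0` (`h98_WF0`), which
exchanges `j(τ)` and `j(q²τ)` and fixes the constants.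
-/
import Mathlib
import Fermat.Agent.S36.h91_NoethQ
import Fermat.Agent.S36.h16_CuspQ2
import Fermat.Agent.S36.h52_CuspVert
import Fermat.Agent.S36.h65_HorInt
import Fermat.Agent.S36.h98_V3
import Fermat.Agent.S36.h49_ExInst

set_option autoImplicit false
set_option synthInstance.maxHeartbeats 400000
set_option linter.unusedSectionVars false

noncomputable section

namespace Fermat.Agent.S36

open Polynomial IntermediateField ModularCurve CongruenceSubgroup AlgebraicCurve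
open scoped MatrixGroups
open Fermat.Agent.S34 Fermat.Agent.S18 Fermat.Agent.S19 Fermat.Agent.S24 Fermat.Agent.S37
  Fermat.Agent.S35

local notation "Qb" => AlgebraicClosure ℚ

section IntW

variable (M q : ℕ) [NeZero M] [NeZero q] [Fact q.Prime] (hqM : ¬ q ∣ M)
  (A : ValuationSubring Qb) (hA : A.LiesOverPrime q) (ζ : Qb) (hζ : IsPrimitiveRoot ζ q)
  (hex : h98_Ex M q hqM A ζ hζ)

/-- `W j(τ) = j(q²τ)` in `F(M q²)`. -/
theorem h91_W_jbar :
    h36_W M q hqM (h59_jbar (M * q * q)) =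
      heckeBetaBar Qb (M * q) q (heckeBetaBar Qb M q (h59_jbar M)) := by
  rw [h91_jbar_i0, h36_W_i0, h98_hi2, h91_jbar_alpha, h60_w_alpha]

/-- `W` exchanges `j(τ)` and `j(q²τ)` on `F0`. -/
theorem h91_WF0_J0 :
    h98_WF0 M q hqM A (h16_J0F M q (A.inertiaSubgroupIn ℚ)) =
      h16_J2F M q (A.inertiaSubgroupIn ℚ) :=
  Subtype.ext (h91_W_jbar M q hqM)

theorem h91_WF0_J2 :
    h98_WF0 M q hqM A (h16_J2F M q (A.inertiaSubgroupIn ℚ)) =
      h16_J0F M q (A.inertiaSubgroupIn ℚ) := by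
  rw [← h91_WF0_J0 M q hqM A, h98_WF0_WF0]

/-- `W` fixes the constants of `K0`. -/
theorem h91_WF0_const (a : h69_K0 (A.inertiaSubgroupIn ℚ)) :
    h98_WF0 M q hqM A (algebraMap (h69_K0 (A.inertiaSubgroupIn ℚ))
        (h69_F0 (M * q * q) (A.inertiaSubgroupIn ℚ)) a) =
      algebraMap (h69_K0 (A.inertiaSubgroupIn ℚ))
        (h69_F0 (M * q * q) (A.inertiaSubgroupIn ℚ)) a := by
  apply Subtype.ext
  rw [h98_coe_WF0, h69_inst_comm, h36_W_algebraMap]

include hA in
/-- `j(q²τ)` lies in the chart-1 ring of level `M q²`. -/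
theorem h91_J2F_mem_B :
    h16_J2F M q (A.inertiaSubgroupIn ℚ) ∈
      (h80_fam1 (M * q * q) (A.inertiaSubgroupIn ℚ) (h98_w2 M q hqM A ζ hζ hex)
        (h98_hw2mul M q hqM A hA ζ hζ hex) (h98_hw2add M q hqM A hA ζ hζ hex)).B := by
  have e : h16_J2F M q (A.inertiaSubgroupIn ℚ) = h52_cvJ2 M q A := Subtype.ext rfl
  refine (h80_mem_famOf_B (M * q * q) (A.inertiaSubgroupIn ℚ) (h98_w2 M q hqM A ζ hζ hex)
    (h98_hw2mul M q hqM A hA ζ hζ hex) (h98_hw2add M q hqM A hA ζ hζ hex)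
    (h59_jbar (M * q * q)) (h54_isChart_jbar (M * q * q)) _).mpr (Or.inr ⟨fun c => ?_, ?_⟩)
  · rw [e, h52_cv_J2 M q hqM A hA ζ hζ hex c]
  · intro P hP
    exact ((h16_q2_table M q P).1 hP).2

include hqM hA hex in
/-- `j(q²τ)` is integral over `A0[j(τ)]`. -/
theorem h91_J2_int_J0 :
    (h97_ev (h69_A0 A).toSubring (h16_J0F M q (A.inertiaSubgroupIn ℚ))).IsIntegralElem
      (h16_J2F M q (A.inertiaSubgroupIn ℚ)) :=
  (h91_noeth_q2 M q hqM A hA ζ hζ hex).2 _ (h91_J2F_mem_B M q hqM A hA ζ hζ hex)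

include hqM hA hex in
/-- **(INT-W)**: `j(τ)` is integral over `A0[j(q²τ)]`. -/
theorem h91_J0_int_J2 :
    (h97_ev (h69_A0 A).toSubring (h16_J2F M q (A.inertiaSubgroupIn ℚ))).IsIntegralElem
      (h16_J0F M q (A.inertiaSubgroupIn ℚ)) := by
  have h := h65_ev_map (h69_A0 A).toSubring (h98_WF0 M q hqM A) (h91_WF0_const M q hqM A)
    (h16_J0F M q (A.inertiaSubgroupIn ℚ)) (h16_J2F M q (A.inertiaSubgroupIn ℚ))
    (h91_J2_int_J0 M q hqM A hA ζ hζ hex)
  rw [h91_WF0_J0, h91_WF0_J2] at h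
  exact h

include hqM hA in
/-- **(INT-W)**, closed form (no existence hypothesis). -/
theorem h91_J0_int_J2_closed :
    (h97_ev (h69_A0 A).toSubring (h16_J2F M q (A.inertiaSubgroupIn ℚ))).IsIntegralElem
      (h16_J0F M q (A.inertiaSubgroupIn ℚ)) :=
  h91_J0_int_J2 M q hqM A hA (h36_zeta q) (h36_zeta_prim q)
    (h49_ex M q hqM A hA (h36_zeta q) (h36_zeta_prim q))

end IntW

end Fermat.Agent.S36
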