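/-
S36 / row I-CUSP (helper16): (NZ2) in closed form, at level `M q²`, chart `1/j`.

`h16_nz2`: at a point `m` of the chart `1/j` of level `M q²` with `1/j ∈ m` (a point at
infinity), no valuation through `m` is positive on `j(q²τ)`.

Inputs: the generic `h16_no_zero` (`h16_CuspNZ`), helper91's (INT-W) `h91_J0_int_J2`
(`j(τ)` is integral over `A0[j(q²τ)]`), and `h91_w2_hwA` (constants of `A0` have nonnegative
vertical valuations).

`h16_inLoc_of_reg2`: hence a function which is nonnegative on the three components and regular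
at the places with `ord j(q²τ) ≤ 0` lies in the local ring at `m`.
-/
import Mathlib
import Fermat.Agent.S36.h16_CuspNZ
import Fermat.Agent.S36.h91_IntW
import Fermat.Agent.S36.h80_FamInst

set_option autoImplicit false
set_option synthInstance.maxHeartbeats 400000
set_option linter.unusedSectionVars false

noncomputable section

namespace Fermat.Agent.S36

open AlgebraicCurve HahnSeries ModularCurve IntermediateField
open Fermat.Agent.S24 Fermat.Agent.S18 Fermat.Agent.S37 Fermat.Agent.S34 Fermat.Agent.S19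
  Fermat.Agent.S35

local notation "Qb" => AlgebraicClosure ℚ

section NZ2

variable (M q : ℕ) [NeZero M] [NeZero q] [Fact q.Prime] (hqM : ¬ q ∣ M)
  (A : ValuationSubring Qb) (hA : A.LiesOverPrime q) (ζ : Qb) (hζ : IsPrimitiveRoot ζ q)
  (hex : h98_Ex M q hqM A ζ hζ)

local notation "V2" => h80_fam2 (M * q * q) (A.inertiaSubgroupIn ℚ) (h98_w2 M q hqM A ζ hζ hex)
  (h98_hw2mul M q hqM A hA ζ hζ hex) (h98_hw2add M q hqM A hA ζ hζ hex)

/-- The constants of `A0` lie in the chart-2 ring of level `M q²`. -/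
theorem h16_const_mem_fam2 (a : h69_K0 (A.inertiaSubgroupIn ℚ)) (ha : a ∈ h69_A0 A) :
    algebraMap (h69_K0 (A.inertiaSubgroupIn ℚ)) (h69_F0 (M * q * q) (A.inertiaSubgroupIn ℚ)) a
      ∈ (V2).B := by
  refine (h80_mem_famOf_B (M * q * q) (A.inertiaSubgroupIn ℚ) (h98_w2 M q hqM A ζ hζ hex)
    (h98_hw2mul M q hqM A hA ζ hζ hex) (h98_hw2add M q hqM A hA ζ hζ hex)
    (h59_jbar (M * q * q))⁻¹ (h75_isChart_inv (h54_isChart_jbar (M * q * q))) _).mpr ?_
  by_cases h0 : a = 0
  · left
    rw [h0, map_zero]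
  · right
    refine ⟨fun c => h91_w2_hwA M q hqM A hA ζ hζ hex c a ha h0, fun P _ => ?_⟩
    have h1 : ((algebraMap (h69_K0 (A.inertiaSubgroupIn ℚ))
        (h69_F0 (M * q * q) (A.inertiaSubgroupIn ℚ)) a :
          h69_F0 (M * q * q) (A.inertiaSubgroupIn ℚ)) : modularFunctionFieldBar (M * q * q))
        = algebraMap Qb (modularFunctionFieldBar (M * q * q)) (a : Qb) :=
      h69_inst_comm (M * q * q) (A.inertiaSubgroupIn ℚ) a
    rw [h1, h35_ord_algebraMap]

include hqM in
/-- **(NZ2)**: no valuation through a point at infinity of the chart `1/j` of level `M q²` is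
positive on `j(q²τ)`. -/
theorem h16_nz2 (m : Ideal (V2).B) [hm : m.IsPrime] (a : (V2).B) (ham : a ∈ m)
    (haJ : (a : h69_F0 (M * q * q) (A.inertiaSubgroupIn ℚ))
      * h16_J0F M q (A.inertiaSubgroupIn ℚ) = 1) :
    ∀ k, (V2).Through m k → (V2).v k (h16_J2F M q (A.inertiaSubgroupIn ℚ)) ≤ 0 :=
  fun _ hk => h16_no_zero (V2) (h69_A0 A).toSubring
    (fun r => h16_const_mem_fam2 M q hqM A hA ζ hζ hex (r : h69_K0 (A.inertiaSubgroupIn ℚ)) r.2)
    m a ham haJ (h16_J2F_ne_zero M q (A.inertiaSubgroupIn ℚ)) (h91_J0_int_J2 M q hqM A hA ζ hζ hex) hk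

include hqM in
/-- A function which is nonnegative on the three components and regular at the places with
`ord j(q²τ) ≤ 0` lies in the local ring of every point at infinity of the chart `1/j`. -/
theorem h16_inLoc_of_reg2 (m : Ideal (V2).B) [hm : m.IsPrime] (a : (V2).B) (ham : a ∈ m)
    (haJ : (a : h69_F0 (M * q * q) (A.inertiaSubgroupIn ℚ))
      * h16_J0F M q (A.inertiaSubgroupIn ℚ) = 1)
    (f : h69_F0 (M * q * q) (A.inertiaSubgroupIn ℚ))
    (hv : ∀ c, f = 0 ∨ 0 ≤ h98_w2 M q hqM A ζ hζ hex c f)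
    (hh : ∀ P : Place Qb (modularFunctionFieldBar (M * q * q)), P.ord (h16_J2 M q) ≤ 0 →
      0 ≤ P.ord (f : modularFunctionFieldBar (M * q * q))) :
    (V2).InLoc m f := by
  refine h16_inLoc_of_no_zero (V2) (h69_A0 A).toSubring
    (fun r => h16_const_mem_fam2 M q hqM A hA ζ hζ hex (r : h69_K0 (A.inertiaSubgroupIn ℚ)) r.2)
    m a ham haJ (h16_J2F_ne_zero M q (A.inertiaSubgroupIn ℚ)) (h91_J0_int_J2 M q hqM A hA ζ hζ hex) ?_
  intro k hk
  rcases k with c | k
  · exact hv c
  · obtain ⟨P, hP, hk'⟩ := h80_famOf_hor (κ := Fin 3) (M * q * q) (A.inertiaSubgroupIn ℚ)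
      (h59_jbar (M * q * q))⁻¹ (Sum.inr k) ⟨k, rfl⟩
    rw [hk'] at hk ⊢
    right
    exact hh P hk

end NZ2

end Fermat.Agent.S36
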