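import Mathlib
import Fermat.Agent.S24.h78_Fibres
import Fermat.Agent.S24.h35_PlaceBasic
import Fermat.Agent.S18.RR_Chart
import Fermat.Prelude.Def_ModularCurve_HeckeOperator
import Fermat.Prelude.Def_AlgebraicCurve_Correspondence

/-!
# S36 / (REG-A) (helper51): the functions `j(dτ)`, `d ∣ N`, are regular off the cusps

`F = modularFunctionFieldBar N`, `j = h59_jbar N`, `A_N = h59_ringA N = Qb[j(q^d) : d ∣ N]`.

* `h51_coeff_mem_of_eval_nat` : a polynomial over a field of characteristic zero whose values at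
  all natural numbers lie in a subring containing `ℚ` has its coefficients in that subring
  (Lagrange interpolation).
* `h51_integral_of_norm` : `F / L` finite, `a ∈ F` with `Norm (c - a) ∈ S` for all `c : ℕ`
  ⟹ the characteristic polynomial of `a` has coefficients in `S`.
* `h51_norm_ringA` : the norm to `Qb(j)` of an element of `A_N` is a polynomial in `j`
  (S24: `h78_cusp_prod` + `h71_degree_core`).
* `h51_ringA_isIntegral`, `h51_ringA_regular` : **(REG-A)** every `a ∈ A_N` is integral over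
  `Qb[j]`, hence regular at every place at which `j` is regular ("the modular equation").
* `h51_alpha_mem_ringA`, `h51_beta_mem_ringA`, `h51_alpha_regular`, `h51_beta_regular`,
  `h51_beta_jbar_regular` : the degeneracy maps preserve `A_N`; so `j(qτ)` is regular wherever
  `j(τ)` is, at every level.
-/

set_option autoImplicit false

open ModularCurve AlgebraicCurve IntermediateField CongruenceSubgroup UpperHalfPlane
open scoped MatrixGroups

namespace Fermat.Agent.S36

open Fermat.Agent.S24 Fermat.Agent.S18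

local notation "Qb" => AlgebraicClosure ℚ

/-! ### Generic algebra -/

/-- A polynomial over a field of characteristic zero whose values at all natural numbers lie in
a subring `S` containing the rational numbers has all its coefficients in `S`. -/
theorem h51_coeff_mem_of_eval_nat {L : Type*} [Field L] [CharZero L] (S : Subring L)
    (hS : ∀ r : ℚ, (r : L) ∈ S) (f : Polynomial L) (hf : ∀ c : ℕ, f.eval (c : L) ∈ S) (k : ℕ) :
    f.coeff k ∈ S := by
  classical
  set s : Finset ℕ := Finset.range (f.natDegree + 1) with hs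
  set v : ℕ → L := fun i => (i : L) with hv
  have hinj : Set.InjOn v s := fun a _ b _ h => Nat.cast_injective h
  have hdeg : f.degree < s.card := by
    rw [hs, Finset.card_range]
    exact lt_of_le_of_lt Polynomial.degree_le_natDegree
      (by exact_mod_cast Nat.lt_succ_self f.natDegree)
  have hint := Lagrange.eq_interpolate hinj hdeg
  have hmem : f ∈ Polynomial.lifts S.subtype := by
    rw [hint, Lagrange.interpolate_apply]
    refine Subsemiring.sum_mem _ fun i _ => ?_
    refine Subsemiring.mul_mem _ ?_ ?_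
    · exact Polynomial.C_mem_lifts S.subtype ⟨_, hf i⟩
    · rw [Lagrange.basis]
      refine Subsemiring.prod_mem _ fun j _ => ?_
      rw [Lagrange.basisDivisor]
      refine Subsemiring.mul_mem _ ?_ ?_
      · have h1 : (v i - v j)⁻¹ = ((((i : ℚ) - (j : ℚ))⁻¹ : ℚ) : L) := by
          rw [hv]
          push_cast
          rfl
        rw [h1]
        exact Polynomial.C_mem_lifts S.subtype ⟨_, hS _⟩
      · have h2 : (Polynomial.X - Polynomial.C (v j) : Polynomial L)
            = Polynomial.X + Polynomial.C (-(v j)) := by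
          rw [Polynomial.C_neg, sub_eq_add_neg]
        rw [h2]
        refine Subsemiring.add_mem _ (Polynomial.X_mem_lifts _) ?_
        exact Polynomial.C_mem_lifts S.subtype ⟨_, S.neg_mem (natCast_mem S j)⟩
  obtain ⟨y, hy⟩ := (Polynomial.lifts_iff_coeff_lifts f).1 hmem k
  rw [← hy]
  exact y.2

/-- `F / L` finite, `a ∈ F`; if the norms of `c - a`, `c ∈ ℕ`, lie in a subring `S ⊇ ℚ` of `L`,
then `a` is a root of a monic polynomial with coefficients in `S` (its characteristic
polynomial). -/
theorem h51_integral_of_norm {L F : Type*} [Field L] [Field F] [Algebra L F]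
    [FiniteDimensional L F] [CharZero L] (S : Subring L) (hS : ∀ r : ℚ, (r : L) ∈ S) (a : F)
    (hN : ∀ c : ℕ, Algebra.norm L ((c : F) - a) ∈ S) :
    ∃ p : Polynomial L, p.Monic ∧ (∀ k, p.coeff k ∈ S) ∧ Polynomial.aeval a p = 0 := by
  classical
  let b := Module.finBasis L F
  set M := Algebra.leftMulMatrix b a with hM
  refine ⟨M.charpoly, Matrix.charpoly_monic M, ?_, ?_⟩
  · refine h51_coeff_mem_of_eval_nat S hS _ fun c => ?_
    rw [Matrix.eval_charpoly]
    have h1 : Matrix.scalar (Fin (Module.finrank L F)) (c : L) - M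
        = Algebra.leftMulMatrix b ((c : F) - a) := by
      rw [map_sub, ← hM]
      congr 1
      have h2 : (c : F) = algebraMap L F (c : L) := by simp
      rw [h2, AlgHom.commutes]
      rfl
    rw [h1, ← Algebra.norm_eq_matrix_det]
    exact hN c
  · have h := Matrix.aeval_self_charpoly M
    have h2 : Algebra.leftMulMatrix b (Polynomial.aeval a M.charpoly) = 0 := by
      rw [← Polynomial.aeval_algHom_apply]
      exact h
    exact Algebra.leftMulMatrix_injective b (by rw [h2, map_zero])

/-! ### The norm of an element of `A_N` -/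

/-- The norm to `Qb(j)` of an element of `A_N` is a polynomial in `j`. -/
theorem h51_norm_ringA (N : ℕ) [NeZero N] (a : ↥(modularFunctionFieldBar N))
    (ha : a ∈ h59_ringA N) :
    ∃ P : Polynomial Qb,
      algebraMap Qb⟮h59_jbar N⟯ ↥(modularFunctionFieldBar N) (Algebra.norm Qb⟮h59_jbar N⟯ a)
        = Polynomial.aeval (h59_jbar N) P := by
  classical
  have : Fintype (SL(2, ℤ) ⧸ Gamma0 N) := Fintype.ofFinite _
  have hXne : Nonempty (SL(2, ℤ) ⧸ Gamma0 N) := ⟨((1 : SL(2, ℤ)) : SL(2, ℤ) ⧸ Gamma0 N)⟩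
  have hinj : Function.Injective
      (fun x : SL(2, ℤ) ⧸ Gamma0 N => h83_psi N h78_iota (Quotient.out x)) := by
    intro x y hxy
    have h := h83_coset_eq_of_psi_eq N h78_iota hxy
    rwa [QuotientGroup.out_eq', QuotientGroup.out_eq'] at h
  obtain ⟨-, -, hnorm⟩ := h71_degree_core N
    (fun x : SL(2, ℤ) ⧸ Gamma0 N => h83_psi N h78_iota (Quotient.out x))
    hinj (fun x y c => by rw [h83_psi_const, h83_psi_const])
    (fun x y => by rw [h83_psi_jbar, h83_psi_jbar]) (by
      intro a' haA
      obtain ⟨P, g₀, hP⟩ := h78_cusp_prod N h78_iota a' haA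
      refine ⟨P, (g₀ : SL(2, ℤ) ⧸ Gamma0 N), ?_⟩
      show h83_psi N h78_iota (Quotient.out (g₀ : SL(2, ℤ) ⧸ Gamma0 N)) _ = _
      rw [h14_psi_out (h83_psi_mul_right N h78_iota) g₀, hP])
  obtain ⟨P, g₀, hP⟩ := h78_cusp_prod N h78_iota a ha
  refine ⟨P, ?_⟩
  have h1 := hnorm (g₀ : SL(2, ℤ) ⧸ Gamma0 N) a
  have h2 : h83_psi N h78_iota (Quotient.out (g₀ : SL(2, ℤ) ⧸ Gamma0 N))
      (Polynomial.aeval (h59_jbar N) P)
      = ∏ x : SL(2, ℤ) ⧸ Gamma0 N, h83_psi N h78_iota (Quotient.out x) a := by
    rw [h14_psi_out (h83_psi_mul_right N h78_iota) g₀, hP]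
  exact (h83_psi N h78_iota (Quotient.out (g₀ : SL(2, ℤ) ⧸ Gamma0 N))).injective
    (h1.trans h2.symm)

/-! ### (REG-A) -/

/-- **(REG-A), integral form**: every element of `A_N = Qb[j(q^d) : d ∣ N]` is integral over
`Qb[j]`. -/
theorem h51_ringA_isIntegral (N : ℕ) [NeZero N] (a : ↥(modularFunctionFieldBar N))
    (ha : a ∈ h59_ringA N) : IsIntegral (h75_ringA Qb (h59_jbar N)) a := by
  classical
  haveI : FiniteDimensional Qb⟮h59_jbar N⟯ ↥(modularFunctionFieldBar N) :=
    h78_finiteDimensional N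
  haveI : CharZero Qb⟮h59_jbar N⟯ :=
    charZero_of_injective_algebraMap (algebraMap Qb Qb⟮h59_jbar N⟯).injective
  let S : Subring Qb⟮h59_jbar N⟯ := (h75_ringA Qb (h59_jbar N)).toSubring.comap
    (algebraMap Qb⟮h59_jbar N⟯ ↥(modularFunctionFieldBar N))
  have hS : ∀ r : ℚ, ((r : Qb⟮h59_jbar N⟯)) ∈ S := by
    intro r
    show algebraMap Qb⟮h59_jbar N⟯ ↥(modularFunctionFieldBar N) (r : Qb⟮h59_jbar N⟯)
      ∈ h75_ringA Qb (h59_jbar N)
    rw [map_ratCast]
    have h1 : ((r : ↥(modularFunctionFieldBar N)))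
        = algebraMap Qb ↥(modularFunctionFieldBar N) (r : Qb) := (map_ratCast _ r).symm
    rw [h1]
    exact Subalgebra.algebraMap_mem _ _
  have hN : ∀ c : ℕ,
      Algebra.norm Qb⟮h59_jbar N⟯ ((c : ↥(modularFunctionFieldBar N)) - a) ∈ S := by
    intro c
    obtain ⟨P, hP⟩ := h51_norm_ringA N ((c : ↥(modularFunctionFieldBar N)) - a)
      ((h59_ringA N).sub_mem (natCast_mem _ c) ha)
    show algebraMap Qb⟮h59_jbar N⟯ ↥(modularFunctionFieldBar N) _ ∈ h75_ringA Qb (h59_jbar N)
    rw [hP]
    exact Polynomial.aeval_mem_adjoin_singleton Qb (h59_jbar N)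
  obtain ⟨p, hpm, hpc, hpa⟩ := h51_integral_of_norm S hS a hN
  have hp'm : (p.map (algebraMap Qb⟮h59_jbar N⟯ ↥(modularFunctionFieldBar N))).Monic :=
    hpm.map _
  have hlift : p.map (algebraMap Qb⟮h59_jbar N⟯ ↥(modularFunctionFieldBar N))
      ∈ Polynomial.lifts (algebraMap (h75_ringA Qb (h59_jbar N))
        ↥(modularFunctionFieldBar N)) := by
    rw [Polynomial.lifts_iff_coeff_lifts]
    intro k
    rw [Polynomial.coeff_map]
    exact ⟨⟨_, hpc k⟩, rfl⟩
  obtain ⟨q, hq, -, hqm⟩ := Polynomial.lifts_and_natDegree_eq_and_monic hlift hp'm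
  refine ⟨q, hqm, ?_⟩
  rw [← Polynomial.eval_map, hq, Polynomial.eval_map, ← Polynomial.aeval_def]
  exact hpa

theorem h51_jbar_ne_zero (N : ℕ) [NeZero N] : h59_jbar N ≠ 0 := by
  intro h
  apply h59_jbar_transcendental N
  rw [h]
  exact isAlgebraic_zero

/-- **(REG-A)**: every element of `A_N = Qb[j(q^d) : d ∣ N]` is regular at every place at which
`j` is regular (i.e. off the cusps). -/
theorem h51_ringA_regular (N : ℕ) [NeZero N] (a : ↥(modularFunctionFieldBar N))
    (ha : a ∈ h59_ringA N) (P : Place Qb ↥(modularFunctionFieldBar N))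
    (hP : 0 ≤ P.ord (h59_jbar N)) : 0 ≤ P.ord a := by
  by_cases ha0 : a = 0
  · rw [ha0, Place.ord_zero]
  have hjmem : h59_jbar N ∈ P.toValuationSubring :=
    (h35_mem_iff_ord_nonneg P (h51_jbar_ne_zero N)).2 hP
  have hmem := h24_integral_mem P (h75_ringA Qb (h59_jbar N)) (h75_ringA_le P hjmem) a
    (h51_ringA_isIntegral N a ha)
  exact (h35_mem_iff_ord_nonneg P ha0).1 hmem

/-! ### The degeneracy maps -/

section Degeneracy

variable (N q : ℕ) [NeZero N] [NeZero q]

/-- `α` maps `A_N` into `A_(Nq)`. -/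
theorem h51_alpha_mem_ringA (g : ↥(modularFunctionFieldBar N)) (hg : g ∈ h59_ringA N) :
    heckeAlphaBar Qb N q g ∈ h59_ringA (N * q) := by
  rw [h59_mem_ringA] at hg ⊢
  rw [coe_heckeAlphaBar]
  refine Algebra.adjoin_mono ?_ hg
  rintro x ⟨d, hd, hdN, hx⟩
  exact ⟨d, hd, Dvd.dvd.mul_right hdN q, hx⟩

/-- `β` maps `A_N` into `A_(Nq)`. -/
theorem h51_beta_mem_ringA (g : ↥(modularFunctionFieldBar N)) (hg : g ∈ h59_ringA N) :
    heckeBetaBar Qb N q g ∈ h59_ringA (N * q) := by
  rw [h59_mem_ringA] at hg ⊢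
  rw [coe_heckeBetaBar]
  generalize (g : LaurentSeries Qb) = y at hg
  induction hg using Algebra.adjoin_induction with
  | mem y hy =>
    obtain ⟨d, hd, hdN, rfl⟩ := hy
    rw [qExpand_qExpand]
    have hdvd : q * d ∣ N * q := by
      rw [mul_comm N q]
      exact Nat.mul_dvd_mul_left q hdN
    exact Algebra.subset_adjoin (h59_mem_gens Qb hdvd)
  | algebraMap r =>
    have h1 : qExpand Qb q (algebraMap Qb (LaurentSeries Qb) r)
        = algebraMap Qb (LaurentSeries Qb) r := by
      have h2 := congrArg (fun x : ↥(modularFunctionFieldBar (N * q)) => (x : LaurentSeries Qb))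
        ((heckeBetaBar Qb N q).commutes r)
      exact h2
    rw [h1]
    exact Subalgebra.algebraMap_mem _ r
  | add x y _ _ hx hy =>
    rw [map_add]
    exact add_mem hx hy
  | mul x y _ _ hx hy =>
    rw [map_mul]
    exact mul_mem hx hy

/-- `α g` is regular off the cusps of level `N q`, for `g ∈ A_N`. -/
theorem h51_alpha_regular (g : ↥(modularFunctionFieldBar N)) (hg : g ∈ h59_ringA N)
    (P : Place Qb ↥(modularFunctionFieldBar (N * q))) (hP : 0 ≤ P.ord (h59_jbar (N * q))) :
    0 ≤ P.ord (heckeAlphaBar Qb N q g) :=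
  h51_ringA_regular (N * q) _ (h51_alpha_mem_ringA N q g hg) P hP

/-- `β g` is regular off the cusps of level `N q`, for `g ∈ A_N`. -/
theorem h51_beta_regular (g : ↥(modularFunctionFieldBar N)) (hg : g ∈ h59_ringA N)
    (P : Place Qb ↥(modularFunctionFieldBar (N * q))) (hP : 0 ≤ P.ord (h59_jbar (N * q))) :
    0 ≤ P.ord (heckeBetaBar Qb N q g) :=
  h51_ringA_regular (N * q) _ (h51_beta_mem_ringA N q g hg) P hP

/-- `α j = j`. -/
theorem h51_alpha_jbar : heckeAlphaBar Qb N q (h59_jbar N) = h59_jbar (N * q) :=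
  Subtype.ext (by rw [coe_heckeAlphaBar, h59_coe_jbar, h59_coe_jbar])

/-- **`j(qτ)` is regular wherever `j(τ)` is**, at every level. -/
theorem h51_beta_jbar_regular (P : Place Qb ↥(modularFunctionFieldBar (N * q)))
    (hP : 0 ≤ P.ord (h59_jbar (N * q))) : 0 ≤ P.ord (heckeBetaBar Qb N q (h59_jbar N)) :=
  h51_beta_regular N q _ (h83_jbar_mem N) P hP

theorem h51_ramificationIndexAlong_pos {K F F' : Type*} [Field K] [Field F] [Field F']
    [Algebra K F] [Algebra K F'] (φ : F →ₐ[K] F') (hφ : φ.toRingHom.IsIntegral)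
    (w : Place K F') : 0 < Place.ramificationIndexAlong φ w := by
  letI := algebraAlong φ
  haveI := isScalarTower_along φ
  haveI := isIntegral_along φ hφ
  exact w.ramificationIndex_pos

/-- **(TP), place level, along `α`**: the place below a non-cusp place is a non-cusp place. -/
theorem h51_restrict_alpha_chart (hα : (heckeAlphaBar Qb N q).toRingHom.IsIntegral)
    (P : Place Qb ↥(modularFunctionFieldBar (N * q))) (hP : 0 ≤ P.ord (h59_jbar (N * q))) :
    0 ≤ (P.restrictAlong (heckeAlphaBar Qb N q) hα).ord (h59_jbar N) := by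
  have h1 := Place.ord_restrictAlong (heckeAlphaBar Qb N q) hα P (h59_jbar N)
  rw [h51_alpha_jbar] at h1
  have h2 := h51_ramificationIndexAlong_pos (heckeAlphaBar Qb N q) hα P
  have h3 : (0 : ℤ) < (Place.ramificationIndexAlong (heckeAlphaBar Qb N q) P : ℤ) := by
    exact_mod_cast h2
  rw [h1] at hP
  exact nonneg_of_mul_nonneg_right hP h3

/-- **(TP), place level, along `β`**: the place below a non-cusp place is a non-cusp place. -/
theorem h51_restrict_beta_chart (hβ : (heckeBetaBar Qb N q).toRingHom.IsIntegral)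
    (P : Place Qb ↥(modularFunctionFieldBar (N * q))) (hP : 0 ≤ P.ord (h59_jbar (N * q))) :
    0 ≤ (P.restrictAlong (heckeBetaBar Qb N q) hβ).ord (h59_jbar N) := by
  have h0 := h51_beta_jbar_regular N q P hP
  have h1 := Place.ord_restrictAlong (heckeBetaBar Qb N q) hβ P (h59_jbar N)
  have h2 := h51_ramificationIndexAlong_pos (heckeBetaBar Qb N q) hβ P
  have h3 : (0 : ℤ) < (Place.ramificationIndexAlong (heckeBetaBar Qb N q) P : ℤ) := by
    exact_mod_cast h2
  rw [h1] at h0
  exact nonneg_of_mul_nonneg_right h0 h3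

end Degeneracy

end Fermat.Agent.S36
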