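import Fermat.Agent.S36.h87_CuspGal

/-!
# S36 / (L3) cusps, part 5: poles of a function `J` through a Hauptmodul-type chart
(owner helper87)

For `ℓ = 2, 3` the chart of the S18 good-reduction datum is a Hauptmodul `x` with
`J x² = (x + 256)³`, resp. `J x³ = (x + 27)(x + 243)³`; the poles of `J` (the cusps) are the
zeros and the poles of `x`.  Abstractly (`h87_HJ m J x`): `ord J = -m ord x` at the zeros of
`x`, `ord J = ord x` at the poles of `x`, `ord J ≥ 0` elsewhere.

* `h87_hj_rel2`, `h87_hj_rel3` : the two relations give `h87_HJ 2`, `h87_HJ 3`;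
* `h87_squeeze_haupt` : every pole `Q` of `J̄` is the reduction of exactly one pole `P` of `J`,
  and `ord_P J = ord_Q J̄`;
* `h87_haupt_pole_smul` : the poles of `J` are fixed by inertia.
-/

set_option autoImplicit false

open AlgebraicCurve IntermediateField

namespace Fermat.Agent.S36

open Fermat.Agent.S18 Fermat.Agent.S27 Fermat.Agent.S24

variable {K F k Fb : Type*} [Field K] [Field F] [Algebra K F] [Field k] [Field Fb] [Algebra k Fb]

/-- orders of `x + c`, `c ≠ 0` a constant. -/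
theorem h87_ord_add_const (P : Place K F) (x : F) {c : K} (hc : c ≠ 0) :
    (0 < P.ord x → P.ord (x + algebraMap K F c) = 0) ∧
    (P.ord x < 0 → P.ord (x + algebraMap K F c) = P.ord x) ∧
    (P.ord x = 0 → 0 ≤ P.ord (x + algebraMap K F c)) := by
  have h1 : ∀ y : F, 0 < P.ord y → P.ord (y + algebraMap K F c) = 0 := by
    intro y hy
    have h0 : 0 < P.ord (y - algebraMap K F 0) := by rwa [map_zero, sub_zero]
    have := h87_ord_sub_eq_zero_of_value P (b := -c) (fun h => hc (by
      have := neg_eq_zero.mp h.symm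
      exact this)) h0
    rwa [map_neg, sub_neg_eq_add] at this
  refine ⟨h1 x, fun hx => ?_, fun hx => ?_⟩
  · have hx0 : x ≠ 0 := by
      rintro rfl
      rw [P.ord_zero] at hx
      exact lt_irrefl _ hx
    have hcF : algebraMap K F c ≠ 0 := by simpa using hc
    -- `x + c = c * x * (x⁻¹ + c⁻¹)`
    have hci : c⁻¹ ≠ 0 := inv_ne_zero hc
    have hy : 0 < P.ord x⁻¹ := by rw [P.ord_inv]; omega
    have h2 : P.ord (x⁻¹ + algebraMap K F c⁻¹) = 0 := by
      have h0 : 0 < P.ord (x⁻¹ - algebraMap K F 0) := by rwa [map_zero, sub_zero]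
      have := h87_ord_sub_eq_zero_of_value P (b := -c⁻¹) (fun h => hci (by
        have := neg_eq_zero.mp h.symm
        exact this)) h0
      rwa [map_neg, sub_neg_eq_add] at this
    have hne : x⁻¹ + algebraMap K F c⁻¹ ≠ 0 := by
      intro h0
      have h3 : x⁻¹ = algebraMap K F (-c⁻¹) := by
        rw [map_neg]
        exact eq_neg_of_add_eq_zero_left h0
      rw [h3, h35_ord_algebraMap] at hy
      exact lt_irrefl _ hy
    have hkey : x + algebraMap K F c =
        algebraMap K F c * x * (x⁻¹ + algebraMap K F c⁻¹) := by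
      rw [map_inv₀]
      field_simp
      ring
    rw [hkey, P.ord_mul (mul_ne_zero hcF hx0) hne, P.ord_mul hcF hx0, h35_ord_algebraMap, h2]
    ring
  · have hmem : x ∈ P.toValuationSubring := h24_mem_of_ord_nonneg P hx.ge
    exact h24_ord_nonneg_of_mem P (add_mem hmem (P.algebraMap_mem' c))

/-- `J` has its poles at the zeros and poles of `x`: order `-m ord x` at the zeros of `x`,
`ord x` at the poles, no pole elsewhere. -/
def h87_HJ (K : Type*) {F : Type*} [Field K] [Field F] [Algebra K F] (m : ℤ) (J x : F) : Prop :=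
  ∀ P : Place K F, (0 < P.ord x → P.ord J = -m * P.ord x) ∧
    (P.ord x < 0 → P.ord J = P.ord x) ∧ (P.ord x = 0 → 0 ≤ P.ord J)

/-- `J x² = (x + c)³`, `c ≠ 0`. -/
theorem h87_hj_rel2 {J x : F} {c : K} (hc : c ≠ 0) (hx0 : x ≠ 0) (hJ0 : J ≠ 0)
    (hrel : J * x ^ 2 = (x + algebraMap K F c) ^ 3) : h87_HJ K 2 J x := by
  intro P
  have hu0 : x + algebraMap K F c ≠ 0 := by
    intro h
    rw [h] at hrel
    simp only [ne_eq, OfNat.ofNat_ne_zero, not_false_eq_true, zero_pow] at hrel
    exact mul_ne_zero hJ0 (pow_ne_zero 2 hx0) hrel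
  have hord : P.ord J + 2 * P.ord x = 3 * P.ord (x + algebraMap K F c) := by
    have := congrArg P.ord hrel
    rw [P.ord_mul hJ0 (pow_ne_zero 2 hx0), ← zpow_natCast, P.ord_zpow, ← zpow_natCast,
      P.ord_zpow] at this
    push_cast at this
    exact this
  obtain ⟨h1, h2, h3⟩ := h87_ord_add_const P x hc
  refine ⟨fun h => ?_, fun h => ?_, fun h => ?_⟩
  · have := h1 h
    omega
  · have := h2 h
    omega
  · have := h3 h
    omega

/-- `J x³ = (x + c₁)(x + c₂)³`, `c₁, c₂ ≠ 0`. -/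
theorem h87_hj_rel3 {J x : F} {c₁ c₂ : K} (hc₁ : c₁ ≠ 0) (hc₂ : c₂ ≠ 0) (hx0 : x ≠ 0)
    (hJ0 : J ≠ 0)
    (hrel : J * x ^ 3 = (x + algebraMap K F c₁) * (x + algebraMap K F c₂) ^ 3) :
    h87_HJ K 3 J x := by
  intro P
  have hne : (x + algebraMap K F c₁) * (x + algebraMap K F c₂) ^ 3 ≠ 0 := by
    rw [← hrel]
    exact mul_ne_zero hJ0 (pow_ne_zero 3 hx0)
  have hu1 : x + algebraMap K F c₁ ≠ 0 := left_ne_zero_of_mul hne
  have hu2 : (x + algebraMap K F c₂) ^ 3 ≠ 0 := right_ne_zero_of_mul hne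
  have hord : P.ord J + 3 * P.ord x =
      P.ord (x + algebraMap K F c₁) + 3 * P.ord (x + algebraMap K F c₂) := by
    have := congrArg P.ord hrel
    rw [P.ord_mul hJ0 (pow_ne_zero 3 hx0), P.ord_mul hu1 hu2, ← zpow_natCast, P.ord_zpow,
      ← zpow_natCast, P.ord_zpow] at this
    push_cast at this
    exact this
  obtain ⟨h1, h2, h3⟩ := h87_ord_add_const P x hc₁
  obtain ⟨h1', h2', h3'⟩ := h87_ord_add_const P x hc₂
  refine ⟨fun h => ?_, fun h => ?_, fun h => ?_⟩
  · have := h1 h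
    have := h1' h
    omega
  · have := h2 h
    have := h2' h
    omega
  · have := h3 h
    have := h3' h
    omega

section Main

variable [IsAlgClosed K] [CharZero K] [IsAlgClosed k]
variable (R : h39_RedDatum K F k Fb) {x : F} {r0 : Place K F → Place k Fb}

/-- **[C1] through a Hauptmodul chart**: every pole `Q` of `J̄` is the reduction of exactly one
pole `P` of `J`, with the same order. -/
theorem h87_squeeze_haupt (hx : h39_Chart R x) (h0 : h87_IsR0 R x r0)
    (Z : Finset K) (hZA : ∀ z ∈ Z, z ∈ R.A)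
    (hZinj : ∀ z ∈ Z, ∀ z' ∈ Z, R.resK z = R.resK z' → z = z')
    (hZbr : ∀ (P : Place K F) (a : K), 2 ≤ P.ord (x - algebraMap K F a) → a ∈ Z)
    (hZ0 : (0 : K) ∈ Z) {m : ℤ} (hm : 0 < m) {J : F} {Jb : Fb}
    (hJK : h87_HJ K m J x) (hJk : h87_HJ k m Jb (R.redF x))
    (Q : Place k Fb) (hQ : Q.ord Jb < 0) :
    ∃ P : Place K F, r0 P = Q ∧ P.ord J = Q.ord Jb ∧
      ∀ P' : Place K F, r0 P' = Q → P'.ord J < 0 → P' = P := by
  have hw : h39_WeakChart R x := hx.toh39_WeakChart
  have hres0 : R.resK (0 : K) = 0 := by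
    rw [R.resK_of_mem R.A.zero_mem]
    exact map_zero R.res
  obtain ⟨-, hfib, hpole⟩ := h87_squeeze R hx h0 Z hZA hZinj hZbr
  obtain ⟨hk1, hk2, hk3⟩ := hJk Q
  rcases lt_trichotomy (Q.ord (R.redF x)) 0 with hneg | hzero | hpos
  · -- `Q` is a pole of `x̄`
    obtain ⟨P, hP, hord, huniq⟩ := hpole Q hneg
    have hPx : P.ord x < 0 := by rw [hord]; exact hneg
    refine ⟨P, hP, by rw [(hJK P).2.1 hPx, hord, hk2 hneg], fun P' hP' hJ' => ?_⟩
    refine huniq P' hP' ?_
    rcases lt_trichotomy (P'.ord x) 0 with h1 | h1 | h1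
    · exact h1
    · have := (hJK P').2.2 h1
      omega
    · exfalso
      have h2 : 0 < P'.ord (x - algebraMap K F 0) := by rwa [map_zero, sub_zero]
      have h3 := h87_r0_fibre R hw h0 R.A.zero_mem h2
      rw [hP', hres0, map_zero, sub_zero] at h3
      omega
  · have := hk3 hzero
    omega
  · -- `Q` is a zero of `x̄`
    have hQ' : 0 < Q.ord (R.redF x - algebraMap k Fb (R.resK (0 : K))) := by
      rwa [hres0, map_zero, sub_zero]
    obtain ⟨P, hP, hord, huniq⟩ := hfib Q 0 hZ0 hQ'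
    rw [hres0, map_zero, sub_zero, map_zero, sub_zero] at hord
    have hPx : 0 < P.ord x := by rw [hord]; exact hpos
    refine ⟨P, hP, by rw [(hJK P).1 hPx, hord, hk1 hpos], fun P' hP' hJ' => ?_⟩
    refine huniq P' hP' ?_
    rw [map_zero, sub_zero]
    rcases lt_trichotomy (P'.ord x) 0 with h1 | h1 | h1
    · exfalso
      have hnd : ¬ h39_InDisc R x P' := by
        rintro ⟨a, -, hv⟩
        rcases hv with h | h
        · rw [h, h35_ord_algebraMap] at h1
          exact lt_irrefl _ h1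
        · have := h87_ord_nonneg_of_value P' h
          omega
      have h3 := h87_r0_pole R hw h0 hnd
      rw [hP'] at h3
      omega
    · have := (hJK P').2.2 h1
      omega
    · exact h1

/-- **[C4] through a Hauptmodul chart**: every pole of `J` is fixed by inertia. -/
theorem h87_haupt_pole_smul (hx : h39_Chart R x) (h0 : h87_IsR0 R x r0)
    (Z : Finset K) (hZA : ∀ z ∈ Z, z ∈ R.A)
    (hZinj : ∀ z ∈ Z, ∀ z' ∈ Z, R.resK z = R.resK z' → z = z')
    (hZbr : ∀ (P : Place K F) (a : K), 2 ≤ P.ord (x - algebraMap K F a) → a ∈ Z)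
    (hZ0 : (0 : K) ∈ Z) {m : ℤ} {J : F} (hJK : h87_HJ K m J x)
    (g : SemilinearAut K F)
    (hgx : g • x = x) (hgO : ∀ f : F, f ∈ R.O ↔ g • f ∈ R.O)
    (hgred : ∀ f : F, f ∈ R.O → R.redF (g • f) = R.redF f)
    (P : Place K F) (hP : P.ord J < 0) : g • P = P := by
  rcases lt_trichotomy (P.ord x) 0 with h1 | h1 | h1
  · exact h87_pole_smul R hx h0 Z hZA hZinj hZbr g hgx hgO hgred P h1
  · have := (hJK P).2.2 h1
    omega
  · refine h87_fibre_smul R hx h0 Z hZA hZinj hZbr g hgx hgO hgred 0 hZ0 (map_zero _) P ?_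
    rwa [map_zero, sub_zero]

end Main

end Fermat.Agent.S36
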