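import Fermat.Agent.S36.h87_CuspMod
import Fermat.Agent.S36.h87_CuspHaupt
import Fermat.Agent.S18.GR_PlaceRed

/-!
# S36 / (L3) cusps, part 6: the cusps of the special fibre at every charted level
(owner helper87)

`h87_mod_cusp_charted` : at a charted level `N` (`5 ≤ ℓ ∨ 2 ∣ N ∨ 3 ∣ N`, `ℓ ∤ N`) there is a
place reduction `S : h39_PlaceRed R` (conservation + lifting of Riemann–Roch spaces) such that

* cusps reduce to poles of `j̄`;
* every pole `Q` of `j̄` is the reduction of exactly one cusp `P`, `ord_P j = ord_Q j̄`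
  (pole order of `j̄` = width), and `P` is fixed by the inertia group of `A`.

For `ℓ ≥ 5` the chart is `j` (`h87_mod_cusp`), for `ℓ = 3`, `2` the Hauptmoduln `h₂`, `h₃`
(`h87_mod_cusp_haupt`).
-/

set_option autoImplicit false
set_option synthInstance.maxHeartbeats 400000

noncomputable section

open ModularCurve AlgebraicCurve IntermediateField

namespace Fermat.Agent.S36

open Fermat.Agent.S18 Fermat.Agent.S37 Fermat.Agent.S24

local notation "Qb" => AlgebraicClosure ℚ

section Haupt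

variable {N : ℕ} [NeZero N] {A : ValuationSubring Qb}
  {R : h39_RedDatum Qb ↥(modularFunctionFieldBar N) (IsLocalRing.ResidueField A)
    ↥(modularFunctionFieldFullC (IsLocalRing.ResidueField A) N)}
  [IsAlgClosed (IsLocalRing.ResidueField A)]
  {r0 : Place Qb ↥(modularFunctionFieldBar N) →
    Place (IsLocalRing.ResidueField A) ↥(modularFunctionFieldFullC (IsLocalRing.ResidueField A) N)}

/-- the exceptional set `Z = {0, -m}` of a Hauptmodul chart. -/
theorem h87_haupt_Z (h : h54_IsModRed N A R) {ℓ : ℕ} [Fact ℓ.Prime] (hA : A.LiesOverPrime ℓ)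
    (x : ↥(modularFunctionFieldBar N)) (m : ℕ) (hm : ¬ ℓ ∣ m)
    (hbranch : ∀ (P : Place Qb ↥(modularFunctionFieldBar N)) (a : Qb),
      2 ≤ P.ord (x - algebraMap Qb ↥(modularFunctionFieldBar N) a) → a = 0 ∨ a = -(m : Qb)) :
    (∀ z ∈ ({0, -((m : ℕ) : Qb)} : Finset Qb), z ∈ R.A) ∧
    (∀ z ∈ ({0, -((m : ℕ) : Qb)} : Finset Qb), ∀ z' ∈ ({0, -((m : ℕ) : Qb)} : Finset Qb),
      R.resK z = R.resK z' → z = z') ∧
    (∀ (P : Place Qb ↥(modularFunctionFieldBar N)) (a : Qb),
      2 ≤ P.ord (x - algebraMap Qb ↥(modularFunctionFieldBar N) a) →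
        a ∈ ({0, -((m : ℕ) : Qb)} : Finset Qb)) := by
  classical
  refine ⟨?_, ?_, ?_⟩
  · intro z hz
    rw [h.A_eq]
    rcases Finset.mem_insert.1 hz with rfl | hz
    · exact zero_mem A
    · rw [Finset.mem_singleton.1 hz]
      exact neg_mem (natCast_mem A m)
  · have hmA : ((m : ℕ) : Qb) ∈ R.A := by rw [h.A_eq]; exact natCast_mem A m
    have hne : R.resK (-((m : ℕ) : Qb)) ≠ 0 := by
      rw [h54_resK_neg _ hmA, neg_ne_zero]
      exact h54_resK_natCast_ne_zero h hA m hm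
    intro z hz z' hz' hzz
    rcases Finset.mem_insert.1 hz with rfl | hz
    · rcases Finset.mem_insert.1 hz' with rfl | hz'
      · rfl
      · rw [Finset.mem_singleton.1 hz', h54_resK_zero] at hzz
        exact absurd hzz.symm hne
    · rcases Finset.mem_insert.1 hz' with rfl | hz'
      · rw [Finset.mem_singleton.1 hz, h54_resK_zero] at hzz
        exact absurd hzz hne
      · rw [Finset.mem_singleton.1 hz, Finset.mem_singleton.1 hz']
  · intro P a hP
    rcases hbranch P a hP with rfl | rfl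
    · exact Finset.mem_insert_self _ _
    · exact Finset.mem_insert_of_mem (Finset.mem_singleton.2 rfl)

/-- **[C1] + [C4] at level `N` through a Hauptmodul chart `x`.** -/
theorem h87_mod_cusp_haupt (h : h54_IsModRed N A R) {ℓ : ℕ} [Fact ℓ.Prime]
    (hA : A.LiesOverPrime ℓ) (x : ↥(modularFunctionFieldBar N)) (hchart : h39_Chart R x)
    (m : ℕ) (hm : ¬ ℓ ∣ m)
    (hbranch : ∀ (P : Place Qb ↥(modularFunctionFieldBar N)) (a : Qb),
      2 ≤ P.ord (x - algebraMap Qb ↥(modularFunctionFieldBar N) a) → a = 0 ∨ a = -(m : Qb))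
    {mJ : ℤ} (hmJ : 0 < mJ) (hJK : h87_HJ Qb mJ (h59_jbar N) x)
    (hJk : h87_HJ (IsLocalRing.ResidueField A) mJ (R.redF (h59_jbar N)) (R.redF x))
    (hgx : ∀ τ ∈ A.inertiaSubgroupIn ℚ,
      arithmeticGalois (modularFunctionFieldFull N) τ • x = x)
    (h0 : h87_IsR0 R x r0) :
    (∀ P : Place Qb ↥(modularFunctionFieldBar N), P.ord (h59_jbar N) < 0 →
      (r0 P).ord (R.redF (h59_jbar N)) < 0) ∧
    ∀ Q : Place (IsLocalRing.ResidueField A)
      ↥(modularFunctionFieldFullC (IsLocalRing.ResidueField A) N),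
      Q.ord (R.redF (h59_jbar N)) < 0 →
      ∃ P : Place Qb ↥(modularFunctionFieldBar N), r0 P = Q ∧
        P.ord (h59_jbar N) = Q.ord (R.redF (h59_jbar N)) ∧
        (∀ P' : Place Qb ↥(modularFunctionFieldBar N), r0 P' = Q → P'.ord (h59_jbar N) < 0 →
          P' = P) ∧
        ∀ τ ∈ A.inertiaSubgroupIn ℚ,
          arithmeticGalois (modularFunctionFieldFull N) τ • P = P := by
  classical
  obtain ⟨hZA, hZinj, hZbr⟩ := h87_haupt_Z h hA x m hm hbranch
  have hZ0 : (0 : Qb) ∈ ({0, -((m : ℕ) : Qb)} : Finset Qb) := Finset.mem_insert_self _ _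
  have hw : h39_WeakChart R x := hchart.toh39_WeakChart
  refine ⟨fun P hP => ?_, fun Q hQ => ?_⟩
  · -- cusps reduce to poles of `j̄`
    rcases lt_trichotomy (P.ord x) 0 with h1 | h1 | h1
    · have hnd : ¬ h39_InDisc R x P := by
        rintro ⟨a, -, hv⟩
        rcases hv with h | h
        · rw [h, h35_ord_algebraMap] at h1
          exact lt_irrefl _ h1
        · have := h87_ord_nonneg_of_value P h
          omega
      have h3 := h87_r0_pole R hw h0 hnd
      rw [(hJk (r0 P)).2.1 h3]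
      exact h3
    · have := (hJK P).2.2 h1
      omega
    · have h2 : 0 < P.ord (x - algebraMap Qb ↥(modularFunctionFieldBar N) 0) := by
        rwa [map_zero, sub_zero]
      have h3 := h87_r0_fibre R hw h0 (zero_mem R.A) h2
      rw [h54_resK_zero, map_zero, sub_zero] at h3
      rw [(hJk (r0 P)).1 h3]
      have : 0 < mJ * (r0 P).ord (R.redF x) := mul_pos hmJ h3
      linarith
  · obtain ⟨P, hP, hord, huniq⟩ := h87_squeeze_haupt R hchart h0 _ hZA hZinj hZbr hZ0 hmJ
      hJK hJk Q hQ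
    refine ⟨P, hP, hord, huniq, fun τ hτ => ?_⟩
    obtain ⟨-, hgO, hgred⟩ := h87_isModRed_smul h τ hτ
    exact h87_haupt_pole_smul R hchart h0 _ hZA hZinj hZbr hZ0 hJK _ (hgx τ hτ) hgO hgred P
      (by rw [hord]; exact hQ)

end Haupt

section Inst

variable (N : ℕ) [NeZero N] {ℓ : ℕ} [Fact ℓ.Prime] (hℓN : ¬ ℓ ∣ N)
  (A : ValuationSubring Qb) (hA : A.LiesOverPrime ℓ)
  {R : h39_RedDatum Qb ↥(modularFunctionFieldBar N) (IsLocalRing.ResidueField A)
    ↥(modularFunctionFieldFullC (IsLocalRing.ResidueField A) N)}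

include hℓN hA in
/-- the Hauptmodul chart `h₂` (`2 ∣ N`) with all the inputs of `h87_mod_cusp_haupt`. -/
theorem h87_h2_pack (h2 : 2 ∣ N) (h : h54_IsModRed N A R) :
    ∃ x : ↥(modularFunctionFieldBar N), h39_Chart R x ∧
      (∃ m : ℕ, ¬ ℓ ∣ m ∧ ∀ (P : Place Qb ↥(modularFunctionFieldBar N)) (a : Qb),
        2 ≤ P.ord (x - algebraMap Qb ↥(modularFunctionFieldBar N) a) → a = 0 ∨ a = -(m : Qb)) ∧
      (∃ mJ : ℤ, 0 < mJ ∧ h87_HJ Qb mJ (h59_jbar N) x ∧
        h87_HJ (IsLocalRing.ResidueField A) mJ (R.redF (h59_jbar N)) (R.redF x)) ∧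
      ∀ τ ∈ A.inertiaSubgroupIn ℚ, arithmeticGalois (modularFunctionFieldFull N) τ • x = x := by
  have hℓp : ℓ.Prime := Fact.out
  have hℓ2 : ℓ ≠ 2 := by
    rintro rfl
    exact hℓN h2
  have hc : CharP (IsLocalRing.ResidueField A) ℓ := h19_residueField_charP A ℓ hA
  have hxk := h59_h2k_mem_final (IsLocalRing.ResidueField A) N h2 hℓ2
  set x : ↥(modularFunctionFieldBar N) := ⟨h54_hm2 Qb, h59_hm2_mem_bar_final N h2⟩ with hxdef
  have hchart : h39_Chart R x := h3_chart_h2_of N hℓ2 A hA h x rfl hxk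
      (h59_h2_finrank_final N h2).1 (h59_h2_finrank_final N h2).2
      (h59_h2k_finrank_final (IsLocalRing.ResidueField A) N h2 hℓ2)
      (h39_mod_finrank_fb N hℓN A hA) (h39_mod_separable_fb N hℓN A hA)
  have hrel : h59_jbar N * x ^ 2 = (x + 256) ^ 3 := by
    apply Subtype.ext
    have e := h3_hm2_rel1 Qb
    have hj : ((h59_jbar N : ↥(modularFunctionFieldBar N)) : LaurentSeries Qb) = jqModC Qb := by
      rw [h54_coe_jbar N A, coeffMap_jqModC]
    change ((h59_jbar N : ↥(modularFunctionFieldBar N)) : LaurentSeries Qb)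
        * (x : LaurentSeries Qb) ^ 2 = ((x : LaurentSeries Qb) + 256) ^ 3
    rw [hj]
    exact e
  have hm : ¬ ℓ ∣ 64 := by
    have := h3_not_dvd_pow hℓp Nat.prime_two hℓ2 6
    norm_num at this
    exact this
  have hredx : R.redF x = ⟨h54_hm2 (IsLocalRing.ResidueField A), hxk⟩ := by
    apply Subtype.ext
    rw [h.redF_of_integral x (h54_hm2 A) (h3_coeffMap_hm2 A.subtype).symm]
    exact h3_coeffMap_hm2 (IsLocalRing.residue A)
  have hrelk : R.redF (h59_jbar N) * R.redF x ^ 2 = (R.redF x + 256) ^ 3 := by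
    rw [h54_redF_jbar h, hredx]
    exact Subtype.ext (h3_hm2_rel1 _)
  refine ⟨x, hchart, ⟨64, hm, fun P a hP => ?_⟩, ⟨2, by norm_num, ?_, ?_⟩, fun τ hτ => ?_⟩
  · rcases h36_branch_h2 N x hrel (h54_ord_j_sub_dvd N) P a hP with h0 | h1
    · exact Or.inl h0
    · right
      rw [h1]
      norm_num
  · refine h87_hj_rel2 (c := (256 : Qb)) (by norm_num) ?_ ?_ ?_
    · intro h0
      exact (h3_hm2_order Qb).2 (congrArg Subtype.val h0)
    · intro h0
      exact h59_jbar_transcendental N (h0 ▸ isAlgebraic_zero)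
    · rw [map_ofNat]
      exact hrel
  · refine h87_hj_rel2 (c := (256 : IsLocalRing.ResidueField A)) ?_ ?_ ?_ ?_
    · have := h19_natCast_residueField_ne_zero A ℓ hA 256 (by
        have := h3_not_dvd_pow hℓp Nat.prime_two hℓ2 8
        norm_num at this
        exact this)
      exact_mod_cast this
    · rw [hredx]
      intro h0
      exact (h3_hm2_order _).2 (congrArg Subtype.val h0)
    · rw [h54_redF_jbar h]
      intro h0
      exact h54_jk_transcendental _ N (h0 ▸ isAlgebraic_zero)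
    · rw [map_ofNat]
      exact hrelk
  · apply Subtype.ext
    show coeffMap ((τ : Qb ≃ₐ[ℚ] Qb) : Qb →+* Qb) (h54_hm2 Qb) = _
    exact h3_coeffMap_hm2 _

include hℓN hA in
/-- the Hauptmodul chart `h₃` (`3 ∣ N`) with all the inputs of `h87_mod_cusp_haupt`. -/
theorem h87_h3_pack (h3 : 3 ∣ N) (h : h54_IsModRed N A R) :
    ∃ x : ↥(modularFunctionFieldBar N), h39_Chart R x ∧
      (∃ m : ℕ, ¬ ℓ ∣ m ∧ ∀ (P : Place Qb ↥(modularFunctionFieldBar N)) (a : Qb),
        2 ≤ P.ord (x - algebraMap Qb ↥(modularFunctionFieldBar N) a) → a = 0 ∨ a = -(m : Qb)) ∧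
      (∃ mJ : ℤ, 0 < mJ ∧ h87_HJ Qb mJ (h59_jbar N) x ∧
        h87_HJ (IsLocalRing.ResidueField A) mJ (R.redF (h59_jbar N)) (R.redF x)) ∧
      ∀ τ ∈ A.inertiaSubgroupIn ℚ, arithmeticGalois (modularFunctionFieldFull N) τ • x = x := by
  have hℓp : ℓ.Prime := Fact.out
  have hℓ3 : ℓ ≠ 3 := by
    rintro rfl
    exact hℓN h3
  have hc : CharP (IsLocalRing.ResidueField A) ℓ := h19_residueField_charP A ℓ hA
  have hxk := h59_h3k_mem_final (IsLocalRing.ResidueField A) N h3 hℓ3
  set x : ↥(modularFunctionFieldBar N) := ⟨h54_hm3 Qb, h59_hm3_mem_bar_final N h3⟩ with hxdef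
  have hchart : h39_Chart R x := h3_chart_h3_of N hℓ3 A hA h x rfl hxk
      (h59_h3_finrank_final N h3).1 (h59_h3_finrank_final N h3).2
      (h59_h3k_finrank_final (IsLocalRing.ResidueField A) N h3 hℓ3)
      (h39_mod_finrank_fb N hℓN A hA) (h39_mod_separable_fb N hℓN A hA)
  have hrel : h59_jbar N * x ^ 3 = (x + 27) * (x + 243) ^ 3 := by
    apply Subtype.ext
    have e := (h24_hm3_rel_ring Qb).1
    have hj : ((h59_jbar N : ↥(modularFunctionFieldBar N)) : LaurentSeries Qb) = jqModC Qb := by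
      rw [h54_coe_jbar N A, coeffMap_jqModC]
    change ((h59_jbar N : ↥(modularFunctionFieldBar N)) : LaurentSeries Qb)
        * (x : LaurentSeries Qb) ^ 3
      = ((x : LaurentSeries Qb) + 27) * ((x : LaurentSeries Qb) + 243) ^ 3
    rw [hj]
    exact e
  have hm : ¬ ℓ ∣ 27 := by
    have := h3_not_dvd_pow hℓp Nat.prime_three hℓ3 3
    norm_num at this
    exact this
  have hm243 : ¬ ℓ ∣ 243 := by
    have := h3_not_dvd_pow hℓp Nat.prime_three hℓ3 5
    norm_num at this
    exact this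
  have hredx : R.redF x = ⟨h54_hm3 (IsLocalRing.ResidueField A), hxk⟩ := by
    apply Subtype.ext
    rw [h.redF_of_integral x (h54_hm3 A) (h24_coeffMap_hm3_h54 A.subtype).symm]
    exact h24_coeffMap_hm3_h54 (IsLocalRing.residue A)
  have hrelk : R.redF (h59_jbar N) * R.redF x ^ 3
      = (R.redF x + 27) * (R.redF x + 243) ^ 3 := by
    rw [h54_redF_jbar h, hredx]
    exact Subtype.ext (h24_hm3_rel_ring _).1
  refine ⟨x, hchart, ⟨27, hm, fun P a hP => ?_⟩, ⟨3, by norm_num, ?_, ?_⟩, fun τ hτ => ?_⟩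
  · rcases h36_branch_h3 N x hrel (h54_ord_j_sub_dvd N) P a hP with h0 | h1
    · exact Or.inl h0
    · right
      rw [h1]
      norm_num
  · refine h87_hj_rel3 (c₁ := (27 : Qb)) (c₂ := (243 : Qb)) (by norm_num) (by norm_num) ?_ ?_ ?_
    · intro h0
      exact (h3_hm3_order Qb).2 (congrArg Subtype.val h0)
    · intro h0
      exact h59_jbar_transcendental N (h0 ▸ isAlgebraic_zero)
    · rw [map_ofNat, map_ofNat]
      exact hrel
  · refine h87_hj_rel3 (c₁ := (27 : IsLocalRing.ResidueField A))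
      (c₂ := (243 : IsLocalRing.ResidueField A)) ?_ ?_ ?_ ?_ ?_
    · have := h19_natCast_residueField_ne_zero A ℓ hA 27 hm
      exact_mod_cast this
    · have := h19_natCast_residueField_ne_zero A ℓ hA 243 hm243
      exact_mod_cast this
    · rw [hredx]
      intro h0
      exact (h3_hm3_order _).2 (congrArg Subtype.val h0)
    · rw [h54_redF_jbar h]
      intro h0
      exact h54_jk_transcendental _ N (h0 ▸ isAlgebraic_zero)
    · rw [map_ofNat, map_ofNat]
      exact hrelk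
  · apply Subtype.ext
    show coeffMap ((τ : Qb ≃ₐ[ℚ] Qb) : Qb →+* Qb) (h54_hm3 Qb) = _
    exact h24_coeffMap_hm3_h54 _

include hℓN hA in
/-- **[C1] + [C4] at every charted level** (`5 ≤ ℓ ∨ 2 ∣ N ∨ 3 ∣ N`, `ℓ ∤ N`): there is a place
reduction `S` of the datum `R` such that the cusps reduce to poles of `j̄`, every pole `Q` of
`j̄` is the reduction of exactly one cusp `P`, with `ord_P j = ord_Q j̄`, and `P` is fixed by the
inertia group of `A`. -/
theorem h87_mod_cusp_exists (hch : 5 ≤ ℓ ∨ 2 ∣ N ∨ 3 ∣ N) (h : h54_IsModRed N A R) :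
    ∃ S : h39_PlaceRed R,
      (∀ P : Place Qb ↥(modularFunctionFieldBar N), P.ord (h59_jbar N) < 0 →
        (S.r0 P).ord (R.redF (h59_jbar N)) < 0) ∧
      ∀ Q : Place (IsLocalRing.ResidueField A)
        ↥(modularFunctionFieldFullC (IsLocalRing.ResidueField A) N),
        Q.ord (R.redF (h59_jbar N)) < 0 →
        ∃ P : Place Qb ↥(modularFunctionFieldBar N), S.r0 P = Q ∧
          P.ord (h59_jbar N) = Q.ord (R.redF (h59_jbar N)) ∧
          (∀ P' : Place Qb ↥(modularFunctionFieldBar N), S.r0 P' = Q →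
            P'.ord (h59_jbar N) < 0 → P' = P) ∧
          ∀ τ ∈ A.inertiaSubgroupIn ℚ,
            arithmeticGalois (modularFunctionFieldFull N) τ • P = P := by
  have hk : IsAlgClosed (IsLocalRing.ResidueField A) := h19_residueField_isAlgClosed A
  have key : ∀ x : ↥(modularFunctionFieldBar N), h39_Chart R x →
      (∃ m : ℕ, ¬ ℓ ∣ m ∧ ∀ (P : Place Qb ↥(modularFunctionFieldBar N)) (a : Qb),
        2 ≤ P.ord (x - algebraMap Qb ↥(modularFunctionFieldBar N) a) → a = 0 ∨ a = -(m : Qb)) →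
      (∃ mJ : ℤ, 0 < mJ ∧ h87_HJ Qb mJ (h59_jbar N) x ∧
        h87_HJ (IsLocalRing.ResidueField A) mJ (R.redF (h59_jbar N)) (R.redF x)) →
      (∀ τ ∈ A.inertiaSubgroupIn ℚ, arithmeticGalois (modularFunctionFieldFull N) τ • x = x) →
      ∃ S : h39_PlaceRed R,
      (∀ P : Place Qb ↥(modularFunctionFieldBar N), P.ord (h59_jbar N) < 0 →
        (S.r0 P).ord (R.redF (h59_jbar N)) < 0) ∧
      ∀ Q : Place (IsLocalRing.ResidueField A)
        ↥(modularFunctionFieldFullC (IsLocalRing.ResidueField A) N),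
        Q.ord (R.redF (h59_jbar N)) < 0 →
        ∃ P : Place Qb ↥(modularFunctionFieldBar N), S.r0 P = Q ∧
          P.ord (h59_jbar N) = Q.ord (R.redF (h59_jbar N)) ∧
          (∀ P' : Place Qb ↥(modularFunctionFieldBar N), S.r0 P' = Q →
            P'.ord (h59_jbar N) < 0 → P' = P) ∧
          ∀ τ ∈ A.inertiaSubgroupIn ℚ,
            arithmeticGalois (modularFunctionFieldFull N) τ • P = P := by
    rintro x hchart ⟨m, hm, hbranch⟩ ⟨mJ, hmJ, hJK, hJk⟩ hgx
    obtain ⟨S, h1, h2⟩ := h39_exists_placeRed' R hchart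
    have h0 : h87_IsR0 R x S.r0 := ⟨h1, h2, S.compat⟩
    exact ⟨S, h87_mod_cusp_haupt h hA x hchart m hm hbranch hmJ hJK hJk hgx h0⟩
  rcases hch with h5 | h2 | h3
  · have hchart : h39_Chart R (h59_jbar N) :=
      h54_chart_j_of N h5 A hA h (h39_mod_finrank_fb N hℓN A hA) (h39_mod_separable_fb N hℓN A hA)
    obtain ⟨S, h1, h2⟩ := h39_exists_placeRed' R hchart
    have h0 : h87_IsR0 R (h59_jbar N) S.r0 := ⟨h1, h2, S.compat⟩
    refine ⟨S, fun P hP => ?_, fun Q hQ => h87_mod_cusp h hA h5 hchart h0 Q hQ⟩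
    have hnd : ¬ h39_InDisc R (h59_jbar N) P := by
      rintro ⟨a, -, hv⟩
      rcases hv with hv | hv
      · rw [hv, h35_ord_algebraMap] at hP
        exact lt_irrefl _ hP
      · have := h87_ord_nonneg_of_value P hv
        omega
    exact h87_r0_pole R hchart.toh39_WeakChart h0 hnd
  · obtain ⟨x, hchart, hbr, hJ, hgx⟩ := h87_h2_pack N hℓN A hA h2 h
    exact key x hchart hbr hJ hgx
  · obtain ⟨x, hchart, hbr, hJ, hgx⟩ := h87_h3_pack N hℓN A hA h3 h
    exact key x hchart hbr hJ hgx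

end Inst

end Fermat.Agent.S36
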