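import Mathlib
import Fermat.Agent.S36.h87_CuspModH
import Fermat.Agent.S36.h22_K0LatGen
import Fermat.Agent.S36.h22_IntSer
import Fermat.Agent.S36.h5_ResK0
import Fermat.Agent.S36.h5_ChartDiv
import Fermat.Agent.S36.h69_K0
import Fermat.Agent.S34.h22_LatFamily
import Fermat.Agent.S18.GR_ON
import Fermat.Agent.S18.GR_RedAPI
import Fermat.Agent.S18.GR_LxDim
import Fermat.Agent.S18.h64_RankOneW

/-!
# S36 / I-CUSP (helper87): inertia-fixed lifts of the affine rings of the special fibre, level `L`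

Generic:

* `h87_latOne R` : a reduction datum as a one-component lattice datum (`h22_Lat`), with (ON)
  from a weak chart (`h87_latOne_on`);
* `h87_lift_reg` : `R` a reduction datum with a place reduction `S`, `x ∈ O` a chart function on
  both sides, `E` the polar divisor of `x`: every function `g` regular on the chart `x̄` of the
  special fibre is `red f` with `f ∈ O ∩ L(n E)` for some `n` (only (6) for `y = x` and (✱) are
  used).

Modular (level `L` prime to `q`, carrying a chart; `R` any datum with `h54_IsModRed L A R`):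

* `h87_hint_good` : the Gauss norm is discrete on the inertia-fixed functions
  (`f = q ^ n u`, `u ∈ O`, `red u ≠ 0`);
* `h87_lift_fixed` : **for `x = j` and `x = 1/j`**: every `g` regular on the chart `x̄` of the
  special fibre is the reduction of an INERTIA-FIXED `f ∈ O` which is regular on the chart `x`
  (at every place where `x` is).
-/

set_option autoImplicit false
set_option synthInstance.maxHeartbeats 400000

noncomputable section

open ModularCurve AlgebraicCurve IntermediateField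

namespace Fermat.Agent.S36

open Fermat.Agent.S18 Fermat.Agent.S37 Fermat.Agent.S24 Fermat.Agent.S34

section One

variable {K F k Fb : Type*} [Field K] [Field F] [Algebra K F] [Field k] [Field Fb] [Algebra k Fb]

/-- One reduction datum as a one-component lattice datum. -/
def h87_latOne (R : h39_RedDatum K F k Fb) : h22_Lat K F k Fb where
  A := R.A
  O := R.O.toSubring
  res := R.res
  red := R.red
  res_surjective := R.res_surjective
  mem_iff := R.mem_iff
  red_algebraMap := R.red_algebraMap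
  exists_scale f hf := by
    obtain ⟨c, hc, h1, h2⟩ := R.exists_scale f hf
    refine ⟨c, hc, h1, fun h0 => ?_⟩
    have h3 : R.redF (algebraMap K F c * f) = 0 := by
      rw [R.redF_of_mem h1]
      exact h0
    rcases (h39_redF_eq_zero_iff R h1).mp h3 with h | h
    · exact mul_ne_zero ((map_ne_zero _).mpr hc) hf h
    · exact h h2
  ker f hf h0 := by
    rcases eq_or_ne f 0 with rfl | hf0
    · refine ⟨0, ?_, 0, R.O.zero_mem, by rw [mul_zero]⟩
      rw [ValuationSubring.mem_nonunits_iff_or]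
      exact Or.inl rfl
    obtain ⟨c, hc, h1, h2⟩ := R.exists_scale f hf0
    have hcF : algebraMap K F c ≠ 0 := (map_ne_zero _).mpr hc
    have hfO : f ∈ R.O := hf
    have hfinv : f⁻¹ ∉ R.O := by
      have h3 : R.redF f = 0 := by
        rw [R.redF_of_mem hfO]
        exact h0
      rcases (h39_redF_eq_zero_iff R hfO).mp h3 with h | h
      · exact absurd h hf0
      · exact h
    refine ⟨c⁻¹, h22_inv_mem_nonunits R.A R.O R.mem_iff hfO hfinv hc h2, algebraMap K F c * f,
      h1, ?_⟩
    rw [map_inv₀]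
    field_simp

theorem h87_latOne_redF (R : h39_RedDatum K F k Fb) (f : F) :
    (h87_latOne R).redF f = R.redF f := by
  by_cases hf : f ∈ R.O
  · rw [(h87_latOne R).redF_of_mem hf, R.redF_of_mem hf]
    rfl
  · have hf' : f ∉ (h87_latOne R).O := hf
    unfold h22_Lat.redF h39_RedDatum.redF
    rw [dif_neg hf', dif_neg hf]

/-- (ON) for the one-component lattice of a reduction datum with a weak chart. -/
theorem h87_latOne_on (R : h39_RedDatum K F k Fb) {x : F} (hx : h39_WeakChart R x) :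
    h22_ON (h87_latOne R) := by
  intro V hV
  have : FiniteDimensional K V := hV
  obtain ⟨e, h1, h2, h3⟩ := h39_exists_on R hx V
  refine ⟨e, h1, h2, ?_⟩
  have h4 : (fun i => (h87_latOne R).redF (e i)) = fun i => R.redF (e i) :=
    funext fun i => h87_latOne_redF R (e i)
  rw [h4]
  exact h3

variable [IsAlgClosed K] [IsAlgClosed k]

/-- **Lifting the affine ring of a chart of the special fibre**: every `g` regular on the chart
`x̄` is `red f` with `f ∈ O ∩ L(n E)`, `E` the polar divisor of `x`. -/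
theorem h87_lift_reg (R : h39_RedDatum K F k Fb) (S : h39_PlaceRed R) {x : F}
    (hxK : h75_IsChart K x) (hxk : h75_IsChart k (R.redF x)) (hxO : x ∈ R.O)
    (E : Divisor K F) (hE : ∀ P : Place K F, E P = max (-P.ord x) 0)
    (hdeg : 0 < Divisor.degree E) (g : Fb) (hg : h39_Reg k (R.redF x) g) :
    ∃ (n : ℕ) (f : F), f ∈ R.O ∧ f ∈ riemannRochSpace (n • E) ∧ R.redF f = g := by
  classical
  have hx0 : x ≠ 0 := hxK.ne_zero
  have hxb0 : R.redF x ≠ 0 := hxk.ne_zero
  have hredx : R.red ⟨x, hxO⟩ = R.redF x := (R.redF_of_mem hxO).symm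
  have hEnn : ∀ P : Place K F, 0 ≤ E P := fun P => by
    rw [hE]
    exact le_max_right _ _
  -- every pole of `x̄` has a pole of `x` above it
  have hB : ∀ Q : Place k Fb, Q.ord (R.redF x) < 0 → 1 ≤ Finsupp.mapDomain S.r0 E Q := by
    intro Q hQ
    obtain ⟨Dx, hDx⟩ := h7_exists_div hxK x hx0
    have hc := S.compat x hxO (by rw [hredx]; exact hxb0) Dx hDx Q
    rw [hredx] at hc
    have hex : ∃ P, S.r0 P = Q ∧ P.ord x < 0 := by
      by_contra hcon
      have hall : ∀ P, S.r0 P = Q → 0 ≤ Dx P := by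
        intro P hP
        rw [hDx]
        by_contra hlt
        exact hcon ⟨P, hP, not_le.mp hlt⟩
      have := h87_mapDomain_nonneg S.r0 Dx Q hall
      omega
    obtain ⟨P, hP, hPx⟩ := hex
    have h1 := h87_mapDomain_ge S.r0 E Q (fun a _ => hEnn a) hP
    have h2 : 1 ≤ E P := by
      rw [hE]
      exact le_trans (by omega) (le_max_left _ _)
    omega
  have hA : ∀ Q : Place k Fb, 0 ≤ Finsupp.mapDomain S.r0 E Q :=
    fun Q => h87_mapDomain_nonneg S.r0 E Q (fun a _ => hEnn a)
  by_cases hg0 : g = 0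
  · exact ⟨0, 0, R.O.zero_mem, Submodule.zero_mem _, by rw [hg0]; exact h39_redF_zero R⟩
  obtain ⟨Dg, hDg⟩ := h7_exists_div hxk g hg0
  set ng : ℕ := ∑ Q ∈ Dg.support, (Dg Q).natAbs with hng
  have hbound : ∀ Q : Place k Fb, -(ng : ℤ) ≤ Q.ord g := by
    intro Q
    by_cases hQ : Q ∈ Dg.support
    · have h1 : (Dg Q).natAbs ≤ ng :=
        Finset.single_le_sum (f := fun Q => (Dg Q).natAbs) (fun _ _ => Nat.zero_le _) hQ
      rw [← hDg Q]
      omega
    · rw [Finsupp.notMem_support_iff] at hQ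
      rw [← hDg Q, hQ]
      omega
  set n : ℕ := max ng S.c.toNat with hn
  have hcdeg : S.c ≤ Divisor.degree (n • E) := by
    rw [map_nsmul, nsmul_eq_mul]
    have h1 : S.c ≤ (S.c.toNat : ℤ) := Int.self_le_toNat _
    have h2 : (S.c.toNat : ℤ) ≤ n := by exact_mod_cast le_max_right ng S.c.toNat
    nlinarith
  have hpush : Finsupp.mapDomain S.r0 (n • E) = n • Finsupp.mapDomain S.r0 E :=
    map_nsmul (Finsupp.mapDomain.addMonoidHom S.r0) n E
  have hgmem : g ∈ riemannRochSpace (Finsupp.mapDomain S.r0 (n • E)) := by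
    rw [mem_riemannRochSpace_iff]
    intro Q
    right
    rw [hpush, Finsupp.smul_apply, nsmul_eq_mul]
    rcases lt_or_ge (Q.ord (R.redF x)) 0 with hQ | hQ
    · have h1 := hB Q hQ
      have h2 := hbound Q
      have h3 : (ng : ℤ) ≤ n := by exact_mod_cast le_max_left ng S.c.toNat
      nlinarith
    · have h1 : g ∈ Q.toValuationSubring := hg Q ((h35_mem_iff_ord_nonneg Q hxb0).mpr hQ)
      have h2 := (h35_mem_iff_ord_nonneg Q hg0).mp h1
      have h3 := hA Q
      have h4 : (0 : ℤ) ≤ n := Int.natCast_nonneg n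
      nlinarith
  obtain ⟨f, hf, hfE, hfred⟩ := S.lift (n • E) hcdeg g hgmem
  exact ⟨n, f, hf, hfE, by rw [R.redF_of_mem hf]; exact hfred⟩

end One

section Mod

local notation "Qb" => AlgebraicClosure ℚ

/-- **Discreteness of the Gauss norm on the inertia-fixed functions** at a level of good
reduction: every nonzero inertia-fixed `f` is `q ^ n u` with `u ∈ O`, `red u ≠ 0`. -/
theorem h87_hint_good (L : ℕ) [NeZero L] {q : ℕ} [Fact q.Prime] (A : ValuationSubring Qb)
    (hA : A.LiesOverPrime q)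
    {R : h39_RedDatum Qb ↥(modularFunctionFieldBar L) (IsLocalRing.ResidueField A)
      ↥(modularFunctionFieldFullC (IsLocalRing.ResidueField A) L)}
    (h : h54_IsModRed L A R) (f : ↥(modularFunctionFieldBar L))
    (hfix : f ∈ h69_F0 L (A.inertiaSubgroupIn ℚ)) (hf : f ≠ 0) :
    ∃ n : ℤ, ((q : Qb) ^ n)⁻¹ • f ∈ R.O ∧ R.redF (((q : Qb) ^ n)⁻¹ • f) ≠ 0 := by
  obtain ⟨n, y₁, y₂, hy₁, hy₂, heq⟩ := h22_int_ser q A hA L f hf hfix
  have hsm : ((q : Qb) ^ n)⁻¹ • f =
      (algebraMap Qb ↥(modularFunctionFieldBar L) ((q : Qb) ^ n))⁻¹ * f := by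
    rw [Algebra.smul_def, map_inv₀]
  have hmem : (algebraMap Qb ↥(modularFunctionFieldBar L) ((q : Qb) ^ n))⁻¹ * f ∈ R.O :=
    (h.mem_iff _).mpr ⟨y₁, y₂, hy₂, heq⟩
  refine ⟨n, by rw [hsm]; exact hmem, ?_⟩
  rw [hsm, R.redF_of_mem hmem]
  intro h0
  have hred := h.red_eq _ hmem y₁ y₂ heq
  rw [h0] at hred
  apply hy₁
  rw [← hred]
  exact zero_mul _

/-- **Inertia-fixed lifts of the affine rings `Γ(j̄)`, `Γ(1/j̄)` of the special fibre** at a
charted level `L` prime to `q`. -/
theorem h87_lift_fixed (L : ℕ) [NeZero L] {q : ℕ} [Fact q.Prime] (hqL : ¬ q ∣ L)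
    (A : ValuationSubring Qb) (hA : A.LiesOverPrime q) (hch : 5 ≤ q ∨ 2 ∣ L ∨ 3 ∣ L)
    {R : h39_RedDatum Qb ↥(modularFunctionFieldBar L) (IsLocalRing.ResidueField A)
      ↥(modularFunctionFieldFullC (IsLocalRing.ResidueField A) L)}
    (h : h54_IsModRed L A R)
    (x : ↥(modularFunctionFieldBar L)) (hx : x = h59_jbar L ∨ x = (h59_jbar L)⁻¹)
    (g : ↥(modularFunctionFieldFullC (IsLocalRing.ResidueField A) L))
    (hg : h39_Reg (IsLocalRing.ResidueField A) (R.redF x) g) :
    ∃ f : ↥(modularFunctionFieldBar L), f ∈ h69_F0 L (A.inertiaSubgroupIn ℚ) ∧ f ∈ R.O ∧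
      R.redF f = g ∧ h39_Reg Qb x f := by
  classical
  have hq : q.Prime := Fact.out
  have hk : IsAlgClosed (IsLocalRing.ResidueField A) := h19_residueField_isAlgClosed A
  have hredj := h54_redF_jbar h
  have hw : h39_WeakChart R (h59_jbar L) := by
    refine ⟨h.mem_of_integral _ _ (h54_coe_jbar L A), ?_, h78_finiteDimensional L, ?_, ?_⟩
    · rw [hredj]
      exact h54_jk_transcendental _ L
    · rw [hredj, h39_mod_finrank_fb L hqL A hA, h78_finrank]
    · rw [hredj]
      exact h39_mod_separable_fb L hqL A hA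
  have hjK : h75_IsChart Qb (h59_jbar L) := h54_isChart_jbar L
  have hjk : h75_IsChart (IsLocalRing.ResidueField A) (R.redF (h59_jbar L)) :=
    h39_weakChart_isChart_red R hw
  -- a place reduction
  obtain ⟨S⟩ : Nonempty (h39_PlaceRed R) := by
    rcases hch with h5 | h2 | h3
    · exact h39_exists_placeRed R (h54_chart_j_of L h5 A hA h (h39_mod_finrank_fb L hqL A hA)
        (h39_mod_separable_fb L hqL A hA))
    · obtain ⟨xc, hc, -⟩ := h87_h2_pack L hqL A hA h2 h
      exact h39_exists_placeRed R hc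
    · obtain ⟨xc, hc, -⟩ := h87_h3_pack L hqL A hA h3 h
      exact h39_exists_placeRed R hc
  -- the chart data of `x`
  obtain ⟨hxK, hxk, hxO, hgx⟩ : h75_IsChart Qb x ∧
      h75_IsChart (IsLocalRing.ResidueField A) (R.redF x) ∧ x ∈ R.O ∧
      ∀ σ : Qb ≃ₐ[ℚ] Qb, arithmeticGalois (modularFunctionFieldFull L) σ • x = x := by
    rcases hx with rfl | rfl
    · exact ⟨hjK, hjk, hw.mem, fun σ => Fermat.Agent.S19.h2_jbar_fix L σ⟩
    · obtain ⟨hiO, hired⟩ := h39_inv_of_redF_ne_zero R hjk.ne_zero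
      refine ⟨h75_isChart_inv hjK, by rw [hired]; exact h75_isChart_inv hjk, hiO, fun σ => ?_⟩
      show arithmeticRingAut (modularFunctionFieldFull L) σ (h59_jbar L)⁻¹ = (h59_jbar L)⁻¹
      rw [map_inv₀]
      congr 1
      exact Fermat.Agent.S19.h2_jbar_fix L σ
  obtain ⟨E, hE, hEdeg⟩ := h7_exists_poleDiv hxK
  have hdeg : 0 < Divisor.degree E := by
    rw [hEdeg]
    have := hxK.fin
    exact_mod_cast Module.finrank_pos
  obtain ⟨n, f₁, hf₁O, hf₁E, hf₁red⟩ := h87_lift_reg R S hxK hxk hxO E hE hdeg g hg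
  -- invariance of `n • E`
  have hinv : ∀ σ ∈ A.inertiaSubgroupIn ℚ,
      arithmeticGalois (modularFunctionFieldFull L) σ • (n • E) = n • E := by
    intro σ _
    refine h5_ordfun_invariant _ x (hgx σ) (fun m => (n : ℤ) * max (-m) 0) (n • E) (fun v => ?_)
    rw [Finsupp.smul_apply, hE v, nsmul_eq_mul]
  have : FiniteDimensional Qb (riemannRochSpace (n • E)) := (h75_riemann hxK (n • E)).1
  have hspan : Submodule.span Qb {g' | g' ∈ riemannRochSpace (n • E) ∧
      g' ∈ (h69_F0 L (A.inertiaSubgroupIn ℚ)).toSubring} = riemannRochSpace (n • E) := by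
    have h' := h69_rr_span_F0 L (A.inertiaSubgroupIn ℚ) (n • E) hinv
    have hset : {g' | g' ∈ riemannRochSpace (n • E) ∧
        g' ∈ (h69_F0 L (A.inertiaSubgroupIn ℚ)).toSubring} =
        ((h69_F0 L (A.inertiaSubgroupIn ℚ) : Set ↥(modularFunctionFieldBar L)) ∩
          (riemannRochSpace (n • E) : Set ↥(modularFunctionFieldBar L))) := by
      ext g'
      exact ⟨fun hg' => ⟨hg'.2, hg'.1⟩, fun hg' => ⟨hg'.2, hg'.1⟩⟩
    rw [hset]
    exact h'
  set K0 : Subfield Qb := (IntermediateField.fixedField (A.inertiaSubgroupIn ℚ)).toSubfield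
    with hK0
  have hmemK0 : ∀ a : Qb, a ∈ K0 ↔ ∀ σ ∈ A.inertiaSubgroupIn ℚ, σ a = a := by
    intro a
    rw [hK0, IntermediateField.mem_toSubfield, IntermediateField.mem_fixedField_iff]
  obtain ⟨f0, h1, h2, h3, h4⟩ := h22_k0lat_lift (h87_latOne R) (h87_latOne_on R hw)
    (by
      show h39_RankOne R.A
      rw [h.A_eq]
      exact h64_rankOne_h39 hq A hA) K0
    (h69_F0 L (A.inertiaSubgroupIn ℚ)).toSubring
    (fun a ha => (h69_algebraMap_mem_F0 L _ a).2 ((hmemK0 a).1 ha))
    (q : Qb) ((hmemK0 _).2 fun σ _ => map_natCast σ q)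
    (by
      show (q : Qb) ∈ R.A.nonunits
      rw [h.A_eq]
      exact hA)
    (by exact_mod_cast hq.ne_zero)
    (fun a ha => by
      have ha' : a ∈ A := by
        rw [← h.A_eq]
        exact ha
      obtain ⟨a0, h1, h2, h3⟩ := h5_res_K0 q hq A hA a ha'
      refine ⟨a0, (hmemK0 a0).2 h2, ?_, ?_⟩
      · show a0 ∈ R.A
        rw [h.A_eq]
        exact h1
      · show a - a0 ∈ R.A.nonunits
        rw [h.A_eq]
        exact h3)
    (fun f hf hf0 => by
      obtain ⟨m, hm1, hm2⟩ := h87_hint_good L A hA h f hf hf0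
      exact ⟨m, hm1, by rw [h87_latOne_redF]; exact hm2⟩)
    (riemannRochSpace (n • E)) hspan f₁ hf₁E hf₁O
  refine ⟨f0, h2, h3, ?_, ?_⟩
  · rw [← h87_latOne_redF R f0, h4, h87_latOne_redF R f₁, hf₁red]
  · intro P hP
    by_cases hf00 : f0 = 0
    · rw [hf00]
      exact P.toValuationSubring.zero_mem
    · rcases mem_riemannRochSpace_iff.mp h1 P with h0 | h0
      · exact absurd h0 hf00
      · have hPx := (h35_mem_iff_ord_nonneg P hxK.ne_zero).mp hP
        rw [Finsupp.smul_apply, hE P, nsmul_eq_mul, max_eq_right (by omega)] at h0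
        exact (h35_mem_iff_ord_nonneg P hf00).mpr (by simpa using h0)

end Mod

end Fermat.Agent.S36
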