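import Mathlib
import Fermat.Agent.S36.h62_ResTransfer

/-!
# S36 / I-PTS (helper62): change of chart at a point

Two valuation families `V`, `V'` on the same field (two affine charts of the same model) and a
point `m` of the first chart lying in the second chart: every function of `V'.B` is regular at
`m` (`hB'`) and every function of `V.B` is a quotient of functions of `V'.B` with denominator a
unit at `m` (`hB`).  Then `m' := m B_m ∩ V'.B` is a prime of the second chart with the same local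
ring, the same maximal ideal of the local ring, and the same valuations through it:

* `h62_chart_change` : `InLoc`, `InMLoc`, `Through` agree at `m` and `m'`;
* `h62_unitStar_chart_change` : (UNIT\*) at `m'` gives (UNIT\*) at `m`.

Every statement of rows I-PTS / I-NZ at a point is expressed by `InLoc`, `InMLoc`, `Through` and
the values of the valuations, so the non-cusp points of chart 2 need no separate treatment.
-/

set_option autoImplicit false

namespace Fermat.Agent.S36

variable {F : Type*} [Field F] {ι : Type*}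

theorem h62_one_not_mem (V : h80_ValFam F ι) (m : Ideal V.B) [hm : m.IsPrime] : (1 : V.B) ∉ m :=
  fun h => hm.ne_top ((Ideal.eq_top_iff_one m).mpr h)

/-- `m B_m` is an ideal of the local ring. -/
theorem h62_inMLoc_mul_left (V : h80_ValFam F ι) (m : Ideal V.B) [hm : m.IsPrime] {x y : F}
    (hx : V.InLoc m x) (hy : V.InMLoc m y) : V.InMLoc m (x * y) := by
  obtain ⟨b, t, ht, hbt⟩ := hx
  obtain ⟨b', t', hb', ht', hbt'⟩ := hy
  refine ⟨b * b', t * t', m.mul_mem_left _ hb', fun h => (hm.mem_or_mem h).elim ht ht', ?_⟩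
  push_cast
  rw [← hbt, ← hbt']
  ring

/-- The maximal ideal of the local ring at `m` is `m B_m`. -/
theorem h62_mem_maximalIdeal_iff (V : h80_ValFam F ι) (m : Ideal V.B) [hm : m.IsPrime]
    (g : h62_locRing V m) :
    letI := h62_locRing_isLocalRing V m
    g ∈ IsLocalRing.maximalIdeal (h62_locRing V m) ↔ V.InMLoc m (g : F) := by
  letI := h62_locRing_isLocalRing V m
  refine ⟨fun h => ?_, h62_mem_maximalIdeal_of_inMLoc V m g⟩
  obtain ⟨b, t, ht, hbt⟩ := g.2
  refine ⟨b, t, ?_, ht, hbt⟩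
  by_contra hb
  rw [IsLocalRing.mem_maximalIdeal, mem_nonunits_iff] at h
  apply h
  have hb0 := h80_ne_zero_of_not_mem V hb
  have hg0 : (g : F) ≠ 0 := by
    intro h0
    rw [h0, mul_zero] at hbt
    exact hb0 hbt.symm
  have hinv : (g : F)⁻¹ ∈ h62_locRing V m := ⟨t, b, hb, by rw [← hbt]; field_simp⟩
  refine IsUnit.of_mul_eq_one (⟨(g : F)⁻¹, hinv⟩ : h62_locRing V m) ?_
  exact Subtype.ext (mul_inv_cancel₀ hg0)

/-- A valuation passes through `m` iff it is non-negative on the local ring at `m`. -/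
theorem h62_through_iff_nonneg (V : h80_ValFam F ι) (m : Ideal V.B) [hm : m.IsPrime] (i : ι) :
    V.Through m i ↔ ∀ f : F, f ≠ 0 → V.InLoc m f → 0 ≤ V.v i f := by
  constructor
  · intro hi f hf0 hf
    exact (h80_inLoc_iff V m hf0).1 hf i hi
  · intro h g hg0 hgpos
    by_contra hgm
    have h1 : V.InLoc m (g : F)⁻¹ :=
      ⟨1, g, hgm, by rw [mul_inv_cancel₀ hg0]; simp⟩
    have h2 := h (g : F)⁻¹ (inv_ne_zero hg0) h1
    rw [h80_v_inv V i hg0] at h2
    omega

/-- **Change of chart at a point.** -/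
theorem h62_chart_change {ι' : Type*} (V : h80_ValFam F ι) (V' : h80_ValFam F ι')
    (m : Ideal V.B) [hm : m.IsPrime]
    (hB' : ∀ f : V'.B, V.InLoc m (f : F))
    (hB : ∀ f : V.B, ∃ b t : V'.B, ¬ V.InMLoc m (t : F) ∧ (t : F) * (f : F) = (b : F)) :
    ∃ m' : Ideal V'.B, m'.IsPrime ∧ (∀ f : V'.B, f ∈ m' ↔ V.InMLoc m (f : F)) ∧
      (∀ f : F, V.InLoc m f ↔ V'.InLoc m' f) ∧ (∀ f : F, V.InMLoc m f ↔ V'.InMLoc m' f) ∧
      (∀ i i', (∀ f : F, f ≠ 0 → V.v i f = V'.v i' f) → (V.Through m i ↔ V'.Through m' i')) := by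
  letI := h62_locRing_isLocalRing V m
  have hle : V'.B ≤ h62_locRing V m := fun f hf => hB' ⟨f, hf⟩
  set incl : V'.B →+* h62_locRing V m := Subring.inclusion hle with hincl
  set m' : Ideal V'.B := Ideal.comap incl (IsLocalRing.maximalIdeal (h62_locRing V m)) with hm'
  have hm'prime : m'.IsPrime := Ideal.comap_isPrime incl _
  have hmem : ∀ f : V'.B, f ∈ m' ↔ V.InMLoc m (f : F) := by
    intro f
    rw [hm', Ideal.mem_comap, h62_mem_maximalIdeal_iff V m]
    rfl
  -- elements of `V'.B` outside `m'` are units at `m`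
  have hunit : ∀ t : V'.B, t ∉ m' → (t : F) ≠ 0 ∧ V.InLoc m (t : F)⁻¹ := by
    intro t ht
    exact h62_Res.inv_inLoc_of_not_inMLoc V m (hB' t) (fun h => ht ((hmem t).2 h))
  have hInLoc : ∀ f : F, V.InLoc m f ↔ V'.InLoc m' f := by
    intro f
    constructor
    · rintro ⟨b, t, ht, hbt⟩
      obtain ⟨b1, t1, ht1, hbt1⟩ := hB b
      obtain ⟨b2, t2, ht2, hbt2⟩ := hB t
      -- `f = b / t = (b1 / t1) / (b2 / t2)`
      have ht0 := h80_ne_zero_of_not_mem V ht
      have ht1m : t1 ∉ m' := fun h => ht1 ((hmem t1).1 h)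
      have ht2m : t2 ∉ m' := fun h => ht2 ((hmem t2).1 h)
      have hb2m : b2 ∉ m' := by
        intro h
        have h1 := (hmem b2).1 h
        rw [← hbt2] at h1
        -- `t2 * t ∈ m B_m` with `t2`, `t` units at `m`
        have hu2 := h62_Res.inv_inLoc_of_not_inMLoc V m (hB' t2) ht2
        have h3 : V.InMLoc m (t : F) := by
          have h4 : (t : F) = (t2 : F)⁻¹ * ((t2 : F) * (t : F)) := by
            rw [← mul_assoc, inv_mul_cancel₀ hu2.1, one_mul]
          rw [h4]
          exact h62_inMLoc_mul_left V m hu2.2 h1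
        obtain ⟨b3, t3, hb3, ht3, hbt3⟩ := h3
        have h5 : t3 * t = b3 := Subtype.ext (by push_cast; exact hbt3)
        exact (hm.mem_or_mem (h5 ▸ hb3)).elim ht3 ht
      refine ⟨b1 * t2, t1 * b2, fun h => (hm'prime.mem_or_mem h).elim ht1m hb2m, ?_⟩
      push_cast
      rw [← hbt1, ← hbt2, ← hbt]
      ring
    · rintro ⟨b', t', ht', hbt'⟩
      obtain ⟨ht'0, hinv⟩ := hunit t' ht'
      have h1 : f = (t' : F)⁻¹ * (b' : F) := by
        rw [← hbt', ← mul_assoc, inv_mul_cancel₀ ht'0, one_mul]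
      rw [h1]
      exact (h62_locRing V m).mul_mem hinv (hB' b')
  have hInMLoc : ∀ f : F, V.InMLoc m f ↔ V'.InMLoc m' f := by
    intro f
    constructor
    · rintro ⟨b, t, hb, ht, hbt⟩
      obtain ⟨b1, t1, ht1, hbt1⟩ := hB b
      obtain ⟨b2, t2, ht2, hbt2⟩ := hB t
      have ht1m : t1 ∉ m' := fun h => ht1 ((hmem t1).1 h)
      have ht2m : t2 ∉ m' := fun h => ht2 ((hmem t2).1 h)
      have hb2m : b2 ∉ m' := by
        intro h
        have h1 := (hmem b2).1 h
        rw [← hbt2] at h1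
        have hu2 := h62_Res.inv_inLoc_of_not_inMLoc V m (hB' t2) ht2
        have h3 : V.InMLoc m (t : F) := by
          have h4 : (t : F) = (t2 : F)⁻¹ * ((t2 : F) * (t : F)) := by
            rw [← mul_assoc, inv_mul_cancel₀ hu2.1, one_mul]
          rw [h4]
          exact h62_inMLoc_mul_left V m hu2.2 h1
        obtain ⟨b3, t3, hb3, ht3, hbt3⟩ := h3
        have h5 : t3 * t = b3 := Subtype.ext (by push_cast; exact hbt3)
        exact (hm.mem_or_mem (h5 ▸ hb3)).elim ht3 ht
      have hb1m : b1 ∈ m' := by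
        rw [hmem, ← hbt1]
        exact h62_inMLoc_mul_left V m (hB' t1) ⟨b, 1, hb, h62_one_not_mem V m, by simp⟩
      refine ⟨b1 * t2, t1 * b2, m'.mul_mem_right _ hb1m,
        fun h => (hm'prime.mem_or_mem h).elim ht1m hb2m, ?_⟩
      push_cast
      rw [← hbt1, ← hbt2, ← hbt]
      ring
    · rintro ⟨b', t', hb', ht', hbt'⟩
      obtain ⟨ht'0, hinv⟩ := hunit t' ht'
      have h1 : f = (t' : F)⁻¹ * (b' : F) := by
        rw [← hbt', ← mul_assoc, inv_mul_cancel₀ ht'0, one_mul]
      rw [h1]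
      exact h62_inMLoc_mul_left V m hinv ((hmem b').1 hb')
  refine ⟨m', hm'prime, hmem, hInLoc, hInMLoc, fun i i' hii' => ?_⟩
  rw [h62_through_iff_nonneg V m, h62_through_iff_nonneg V' m']
  constructor
  · intro h f hf0 hf
    rw [← hii' f hf0]
    exact h f hf0 ((hInLoc f).2 hf)
  · intro h f hf0 hf
    rw [hii' f hf0]
    exact h f hf0 ((hInLoc f).1 hf)

/-- **(UNIT\*) under change of chart.**  If the valuations of `V` through `m` also occur in `V'`
and a valuation of `V` is determined by its values, (UNIT\*) at `m'` gives (UNIT\*) at `m`. -/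
theorem h62_unitStar_chart_change {ι' : Type*} (V : h80_ValFam F ι) (V' : h80_ValFam F ι')
    (m : Ideal V.B) (m' : Ideal V'.B)
    (hthr : ∀ i i', (∀ f : F, f ≠ 0 → V.v i f = V'.v i' f) →
      (V.Through m i ↔ V'.Through m' i'))
    (hcorr : ∀ i, V.Through m i → ∃ i', ∀ f : F, f ≠ 0 → V.v i f = V'.v i' f)
    (hinj : ∀ i j, (∀ f : F, f ≠ 0 → V.v i f = V.v j f) → i = j)
    (h : h62_UnitStar V' m') : h62_UnitStar V m := by
  intro i hi
  obtain ⟨i', hi'⟩ := hcorr i hi
  obtain ⟨e, he0, he1, he⟩ := h i' ((hthr i i' hi').1 hi)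
  refine ⟨e, he0, by rw [hi' e he0, he1], fun j hj hji => ?_⟩
  obtain ⟨j', hj'⟩ := hcorr j hj
  rw [hj' e he0]
  refine he j' ((hthr j j' hj').1 hj) fun hji' => hji (hinj j i fun f hf0 => ?_)
  rw [hj' f hf0, hi' f hf0, hji']

end Fermat.Agent.S36
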