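import Mathlib
import Fermat.Agent.S36.h62_ChartChange
import Fermat.Agent.S18.GR_ChartPt
import Fermat.Agent.S18.RR_Riemann
import Fermat.Agent.S24.h35_PlaceBasic

/-!
# S36 / I-CUSP, I-PTS (helper87): the residue datum at a point from lifts of an affine ring

Generic (no modular input).  `V : h80_ValFam F ι`, `m` a prime of the chart ring `V.B`, `c` an
index through `m`, `(O, ρ)` a residue map of `v_c` (the first fields of `h62_Res`), `Fb / k` a
function field with a chart function `xb`, `Γ := h39_chartRing k xb = {g | h39_Reg k xb g}`.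

Hypotheses:

* `hlift` : every `g ∈ Γ` is `ρ f` for some `f ∈ O` regular at `m`;
* `hres`  : every `f ∈ O` regular at `m` is congruent modulo `m B_m` to an `l` regular at `m`
  with constant residue `ρ l ∈ k`  (`B_m / m B_m = k`).

Conclusions:

* `h87_exists_centre` : there is a place `Q` of `Fb` on the chart `xb` (the centre of `m` on the
  branch `c`) such that every function regular at `Q` is `ρ f` with `f` regular at `m`; and there
  is `s ∈ m B_m` with `v_c s = 0`.  These are the inputs of `h62_Res.ofSurj` with `o := Q.ord`;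
* `h87_exists_res` : the residue datum `R : h62_Res V m c Fb` with `R.O = O`, `R.ρ = ρ`,
  `R.o = Q.ord`;  `h87_res_nonempty`;
* `h87_hres_of_B` : `hres` from its chart-ring form (`∀ s : V.B, ∃ l : V.B, s - l ∈ m`, `ρ l ∈ k`).

Curve side: `h87_exists_frac` (a function regular at a place `P` of the chart `y` is `a / s`
with `a, s` regular on the chart, `s(P) = 1`).
-/

set_option autoImplicit false

noncomputable section

open AlgebraicCurve

namespace Fermat.Agent.S36

open Fermat.Agent.S18 Fermat.Agent.S24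

universe w

section Curve

variable {k : Type*} {Fb : Type w} [Field k] [Field Fb] [Algebra k Fb]

theorem h87_val_one (P : Place k Fb) : h39_Val P (1 : Fb) 1 := by
  have h := h39_val_algebraMap P (1 : k)
  rwa [map_one] at h

theorem h87_val_pow (P : Place k Fb) {f : Fb} {b : k} (hf : h39_Val P f b) (n : ℕ) :
    h39_Val P (f ^ n) (b ^ n) := by
  induction n with
  | zero => simpa using h87_val_one P
  | succ n ih =>
    rw [pow_succ, pow_succ]
    exact h39_val_mul P ih hf

/-- A function with value `1` at `P` is nonzero. -/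
theorem h87_ne_zero_of_val_one (P : Place k Fb) {f : Fb} (h1 : h39_Val P f 1) : f ≠ 0 := by
  rintro rfl
  have h0 : h39_Val P (0 : Fb) 0 := by
    have h := h39_val_algebraMap P (0 : k)
    rwa [map_zero] at h
  exact zero_ne_one (h39_val_unique P h0 h1)

variable [IsAlgClosed k]

/-- Auxiliary induction for `h87_exists_frac`: `S` contains the places of the chart where `g`
is not regular. -/
theorem h87_exists_frac_aux {y : Fb} (hy : h75_IsChart k y) (P : Place k Fb)
    (hP : y ∈ P.toValuationSubring) (S : Finset (Place k Fb)) :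
    ∀ g : Fb, g ∈ P.toValuationSubring →
      (∀ R : Place k Fb, y ∈ R.toValuationSubring → g ∉ R.toValuationSubring → R ∈ S) →
      ∃ s : Fb, h39_Reg k y s ∧ h39_Val P s 1 ∧ h39_Reg k y (s * g) := by
  classical
  induction S using Finset.induction_on with
  | empty =>
    intro g _ hbad
    refine ⟨1, (h39_chartRing k y).one_mem, h87_val_one P, ?_⟩
    rw [one_mul]
    intro R hR
    by_contra hg
    exact absurd (hbad R hR hg) (Finset.notMem_empty R)
  | insert Q S hQ ih =>
    intro g hgP hbad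
    by_cases hgood : y ∉ Q.toValuationSubring ∨ g ∈ Q.toValuationSubring
    · refine ih g hgP (fun R hR hg => ?_)
      rcases Finset.mem_insert.mp (hbad R hR hg) with rfl | h
      · rcases hgood with h | h
        · exact absurd hR h
        · exact absurd h hg
      · exact h
    · rw [not_or, not_not] at hgood
      obtain ⟨hQy, hgQ⟩ := hgood
      have hPQ : P ≠ Q := by
        rintro rfl
        exact hgQ hgP
      have hg0 : g ≠ 0 := by
        rintro rfl
        exact hgQ Q.toValuationSubring.zero_mem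
      obtain ⟨h, hh, hh1, hh0⟩ := h39_exists_separating hy P Q hP hQy hPQ
      have hh_ne : h ≠ 0 := h87_ne_zero_of_val_one P hh1
      have hordh : 0 < Q.ord h := by
        rcases (h39_val_zero_iff Q).mp hh0 with h' | h'
        · exact absurd h' hh_ne
        · exact h'
      set n : ℕ := (-Q.ord g).toNat with hn
      have hpow_ne : h ^ n ≠ 0 := pow_ne_zero n hh_ne
      have hpow_mem : h39_Reg k y (h ^ n) := (h39_chartRing k y).pow_mem hh n
      obtain ⟨s', hs', hs'1, hs'g⟩ := ih (h ^ n * g)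
        (P.toValuationSubring.mul_mem _ _ (hpow_mem P hP) hgP) (fun R hR hg' => by
          have hgR : g ∉ R.toValuationSubring := fun hgR =>
            hg' (R.toValuationSubring.mul_mem _ _ (hpow_mem R hR) hgR)
          rcases Finset.mem_insert.mp (hbad R hR hgR) with rfl | h'
          · exfalso
            apply hg'
            rw [h35_mem_iff_ord_nonneg R (mul_ne_zero hpow_ne hg0), R.ord_mul hpow_ne hg0]
            have h1 : R.ord (h ^ n) = n * R.ord h := by
              have := R.ord_zpow h (n : ℤ)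
              rwa [zpow_natCast] at this
            rw [h1]
            have h2 : (n : ℤ) = -R.ord g := by
              rw [hn]
              have : R.ord g < 0 := by
                by_contra hcon
                rw [not_lt] at hcon
                exact hgR ((h35_mem_iff_ord_nonneg R hg0).mpr hcon)
              exact Int.toNat_of_nonneg (by omega)
            have h3 : (0 : ℤ) ≤ n := Int.natCast_nonneg n
            nlinarith
          · exact h')
      refine ⟨s' * h ^ n, (h39_chartRing k y).mul_mem hs' hpow_mem, ?_, ?_⟩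
      · have := h39_val_mul P hs'1 (h87_val_pow P hh1 n)
        rwa [one_pow, mul_one] at this
      · rw [mul_assoc]
        exact hs'g

/-- **Local fractions on a chart**: a function regular at a place `P` of the chart `y` is `a / s`
with `a, s` regular on the chart, `s(P) = 1`. -/
theorem h87_exists_frac {y : Fb} (hy : h75_IsChart k y) (P : Place k Fb)
    (hP : y ∈ P.toValuationSubring) (g : Fb) (hg : g ∈ P.toValuationSubring) :
    ∃ s : Fb, h39_Reg k y s ∧ h39_Val P s 1 ∧ h39_Reg k y (s * g) := by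
  classical
  by_cases hg0 : g = 0
  · refine ⟨1, (h39_chartRing k y).one_mem, h87_val_one P, ?_⟩
    rw [hg0, mul_zero]
    exact (h39_chartRing k y).zero_mem
  · obtain ⟨D, hD⟩ := h7_exists_div hy g hg0
    refine h87_exists_frac_aux hy P hP D.support g hg (fun R _ hgR => ?_)
    rw [Finsupp.mem_support_iff, hD]
    intro h0
    exact hgR ((h35_mem_iff_ord_nonneg R hg0).mpr (by omega))

end Curve

section Build

variable {F : Type*} [Field F] {ι : Type*}
variable {k : Type*} {Fb : Type w} [Field k] [Field Fb] [Algebra k Fb]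

/-- `m B_m ⊆ B_m`. -/
theorem h87_inLoc_of_inMLoc (V : h80_ValFam F ι) (m : Ideal V.B) {f : F} (h : V.InMLoc m f) :
    V.InLoc m f := by
  obtain ⟨b, t, -, ht, hbt⟩ := h
  exact ⟨b, t, ht, hbt⟩

/-- `1 ∉ m B_m`. -/
theorem h87_not_inMLoc_one (V : h80_ValFam F ι) (m : Ideal V.B) : ¬ V.InMLoc m (1 : F) := by
  rintro ⟨b, t, hb, ht, hbt⟩
  rw [mul_one] at hbt
  exact ht (by rw [Subtype.ext hbt]; exact hb)

/-- `m B_m` is stable under subtraction. -/
theorem h87_inMLoc_sub (V : h80_ValFam F ι) (m : Ideal V.B) [hm : m.IsPrime] {x y : F}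
    (hx : V.InMLoc m x) (hy : V.InMLoc m y) : V.InMLoc m (x - y) := by
  have h1 : V.InLoc m (-1 : F) := (h62_locRing V m).neg_mem (h62_locRing V m).one_mem
  have h2 := h62_inMLoc_mul_left V m h1 hy
  have h3 := h80_inMLoc_add V m hx h2
  have h4 : x + -1 * y = x - y := by ring
  rwa [h4] at h3

/-- The kernel of the residue map on the local ring lies in `m B_m` (`c` passes through `m`). -/
theorem h87_inMLoc_of_res_zero (V : h80_ValFam F ι) (m : Ideal V.B) [hm : m.IsPrime] (c : ι)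
    (hc : V.Through m c) (O : Subring F) (ρ : O →+* Fb)
    (ρ_eq_zero : ∀ f : O, (f : F) ≠ 0 → (ρ f = 0 ↔ 0 < V.v c (f : F)))
    (f : O) (hf : V.InLoc m (f : F)) (h0 : ρ f = 0) : V.InMLoc m (f : F) := by
  by_cases hf0 : (f : F) = 0
  · rw [hf0]
    exact h80_inMLoc_zero V m
  · have hv := (ρ_eq_zero f hf0).1 h0
    obtain ⟨b, t, ht, hbt⟩ := hf
    have ht0 := h80_ne_zero_of_not_mem V ht
    have hb0 : (b : F) ≠ 0 := by
      rw [← hbt]
      exact mul_ne_zero ht0 hf0
    refine ⟨b, t, hc b hb0 ?_, ht, hbt⟩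
    rw [← hbt, V.map_mul c _ _ ht0 hf0]
    have := h80_v_nonneg V c t ht0
    omega

variable [IsAlgClosed k]

/-- **The centre of a point on a branch.**  From lifts of the affine ring `Γ` of the chart `xb`
into the local ring at `m` and `B_m / m B_m = k`: a place `Q` of `Fb` on the chart such that every
function regular at `Q` lifts to the local ring at `m`, and an element of `m B_m` which is a unit
of `v_c`. -/
theorem h87_exists_centre (V : h80_ValFam F ι) (m : Ideal V.B) [hm : m.IsPrime] (c : ι)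
    (hc : V.Through m c) (O : Subring F) (mem_O : ∀ f : F, f ≠ 0 → 0 ≤ V.v c f → f ∈ O)
    (ρ : O →+* Fb) (ρ_eq_zero : ∀ f : O, (f : F) ≠ 0 → (ρ f = 0 ↔ 0 < V.v c (f : F)))
    {xb : Fb} (hxb : h75_IsChart k xb)
    (hlift : ∀ g : Fb, h39_Reg k xb g → ∃ f : O, V.InLoc m (f : F) ∧ ρ f = g)
    (hres : ∀ f : O, V.InLoc m (f : F) → ∃ (a : k) (l : O), V.InLoc m (l : F) ∧
      ρ l = algebraMap k Fb a ∧ V.InMLoc m ((f : F) - (l : F))) :
    ∃ Q : Place k Fb, xb ∈ Q.toValuationSubring ∧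
      (∃ s : F, s ≠ 0 ∧ V.InMLoc m s ∧ V.v c s = 0) ∧
      ∀ g : Fb, g ≠ 0 → 0 ≤ Q.ord g → ∃ f : O, V.InLoc m (f : F) ∧ ρ f = g := by
  classical
  set L := h62_locRing V m with hL
  -- the local ring lies in `O`
  have hle : ∀ f : F, V.InLoc m f → f ∈ O := by
    intro f hf
    by_cases hf0 : f = 0
    · rw [hf0]
      exact O.zero_mem
    · exact mem_O f hf0 ((h80_inLoc_iff V m hf0).1 hf c hc)
  have hker := h87_inMLoc_of_res_zero V m c hc O ρ ρ_eq_zero
  have hconstReg : ∀ a : k, h39_Reg k xb (algebraMap k Fb a) :=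
    fun a => (h39_chartRing k xb).algebraMap_mem a
  -- a nonzero constant has no lift in `m B_m`
  have hconst : ∀ f : O, V.InMLoc m (f : F) → ∀ a : k, ρ f = algebraMap k Fb a → a = 0 := by
    intro f hfm a hfa
    by_contra ha
    obtain ⟨f₂, hf₂L, hf₂⟩ := hlift _ (hconstReg a⁻¹)
    have h1 : ρ (f * f₂ - 1) = 0 := by
      rw [map_sub, map_mul, hfa, hf₂, map_one, ← map_mul, mul_inv_cancel₀ ha, map_one, sub_self]
    have hfL : V.InLoc m (f : F) := h87_inLoc_of_inMLoc V m hfm
    have h2 : V.InLoc m ((f * f₂ - 1 : O) : F) :=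
      L.sub_mem (L.mul_mem hfL hf₂L) L.one_mem
    have h3 := hker _ h2 h1
    have h4 : V.InMLoc m ((f₂ : F) * (f : F)) := h62_inMLoc_mul_left V m hf₂L hfm
    have h5 := h87_inMLoc_sub V m h4 h3
    have h6 : (f₂ : F) * (f : F) - ((f * f₂ - 1 : O) : F) = 1 := by
      push_cast
      ring
    rw [h6] at h5
    exact h87_not_inMLoc_one V m h5
  -- the relation "`g - a` lifts into `m B_m`"
  have hex : ∀ g : Fb, h39_Reg k xb g →
      ∃ a : k, ∃ f : O, V.InMLoc m (f : F) ∧ ρ f = g - algebraMap k Fb a := by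
    intro g hg
    obtain ⟨f₀, hf₀L, hf₀⟩ := hlift g hg
    obtain ⟨a, l, -, hl, hfl⟩ := hres f₀ hf₀L
    exact ⟨a, f₀ - l, hfl, by rw [map_sub, hf₀, hl]⟩
  have huniq : ∀ (g : Fb) (a a' : k),
      (∃ f : O, V.InMLoc m (f : F) ∧ ρ f = g - algebraMap k Fb a) →
      (∃ f : O, V.InMLoc m (f : F) ∧ ρ f = g - algebraMap k Fb a') → a = a' := by
    rintro g a a' ⟨f, hfm, hf⟩ ⟨f', hfm', hf'⟩
    have h1 : V.InMLoc m ((f' - f : O) : F) := h87_inMLoc_sub V m hfm' hfm
    have h2 : ρ (f' - f) = algebraMap k Fb (a - a') := by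
      rw [map_sub, hf, hf', map_sub]
      ring
    exact sub_eq_zero.mp (hconst _ h1 _ h2)
  set Γ := h39_chartRing k xb with hΓ
  let φ₀ : Γ → k := fun g => Classical.choose (hex g.1 g.2)
  have hφ₀ : ∀ g : Γ, ∃ f : O, V.InMLoc m (f : F) ∧ ρ f = (g : Fb) - algebraMap k Fb (φ₀ g) :=
    fun g => Classical.choose_spec (hex g.1 g.2)
  have hφeq : ∀ (g : Γ) (a : k),
      (∃ f : O, V.InMLoc m (f : F) ∧ ρ f = (g : Fb) - algebraMap k Fb a) → φ₀ g = a :=
    fun g a h => huniq _ _ _ (hφ₀ g) h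
  have hzero : V.InMLoc m (((0 : O) : O) : F) := h80_inMLoc_zero V m
  let φ : Γ →ₐ[k] k :=
    { toFun := φ₀
      map_one' := hφeq 1 1 ⟨0, hzero, by
        rw [map_zero, map_one]
        exact (sub_self _).symm⟩
      map_mul' := by
        intro g g'
        obtain ⟨f, hfm, hf⟩ := hφ₀ g
        obtain ⟨f', hfm', hf'⟩ := hφ₀ g'
        obtain ⟨f₂, hf₂L, hf₂⟩ := hlift (g' : Fb) g'.2
        obtain ⟨la, hlaL, hla⟩ := hlift _ (hconstReg (φ₀ g))
        refine hφeq (g * g') (φ₀ g * φ₀ g') ⟨f * f₂ + la * f', ?_, ?_⟩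
        · have h1 : V.InMLoc m ((f₂ : F) * (f : F)) := h62_inMLoc_mul_left V m hf₂L hfm
          have h2 : V.InMLoc m ((la : F) * (f' : F)) := h62_inMLoc_mul_left V m hlaL hfm'
          have h3 := h80_inMLoc_add V m h1 h2
          have h4 : ((f * f₂ + la * f' : O) : F) = (f₂ : F) * (f : F) + (la : F) * (f' : F) := by
            push_cast
            ring
          rw [h4]
          exact h3
        · rw [map_add, map_mul, map_mul, hf, hf₂, hla, hf', map_mul]
          push_cast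
          ring
      map_zero' := hφeq 0 0 ⟨0, hzero, by
        rw [map_zero, map_zero]
        exact (sub_self _).symm⟩
      map_add' := by
        intro g g'
        obtain ⟨f, hfm, hf⟩ := hφ₀ g
        obtain ⟨f', hfm', hf'⟩ := hφ₀ g'
        refine hφeq (g + g') (φ₀ g + φ₀ g') ⟨f + f', h80_inMLoc_add V m hfm hfm', ?_⟩
        rw [map_add, hf, hf', map_add]
        push_cast
        ring
      commutes' := by
        intro r
        refine hφeq _ r ⟨0, hzero, ?_⟩
        rw [map_zero]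
        exact (sub_self _).symm }
  have hφapp : ∀ g : Γ, φ g = φ₀ g := fun _ => rfl
  obtain ⟨Q, hQx, hQ⟩ := h39_exists_place_of_algHom hxb φ
  refine ⟨Q, hQx, ?_, ?_⟩
  · -- an element of `m B_m` which is a unit of `v_c`
    have hxΓ : h39_Reg k xb xb := fun _ h => h
    obtain ⟨f, hfm, hf⟩ := hφ₀ ⟨xb, hxΓ⟩
    have hne : ρ f ≠ 0 := by
      rw [hf, sub_ne_zero]
      intro h
      have h' : xb = algebraMap k Fb (φ₀ ⟨xb, hxΓ⟩) := h
      have h'' : IsAlgebraic k xb := by
        rw [h']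
        exact isAlgebraic_algebraMap _
      exact hxb.tr h''
    have hf0 : (f : F) ≠ 0 := by
      intro h
      apply hne
      rw [show f = 0 from Subtype.ext h, map_zero]
    refine ⟨(f : F), hf0, hfm, ?_⟩
    have h1 : ¬ 0 < V.v c (f : F) := fun h => hne ((ρ_eq_zero f hf0).2 h)
    have h2 := (h80_inLoc_iff V m hf0).1 (h87_inLoc_of_inMLoc V m hfm) c hc
    omega
  · intro g hg0 hg
    have hgQ : g ∈ Q.toValuationSubring := (h35_mem_iff_ord_nonneg Q hg0).mpr hg
    obtain ⟨s, hs, hs1, hsg⟩ := h87_exists_frac hxb Q hQx g hgQ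
    obtain ⟨fs, hfsL, hfs⟩ := hlift s hs
    obtain ⟨fb, hfbL, hfb⟩ := hlift (s * g) hsg
    have hs0 : s ≠ 0 := h87_ne_zero_of_val_one Q hs1
    have hφs : φ₀ ⟨s, hs⟩ = 1 := h39_val_unique Q (hQ ⟨s, hs⟩) hs1
    have hfsm : ¬ V.InMLoc m (fs : F) := by
      intro h
      have h0 : φ₀ ⟨s, hs⟩ = 0 := hφeq ⟨s, hs⟩ 0 ⟨fs, h, by rw [hfs, map_zero, sub_zero]⟩
      rw [hφs] at h0
      exact one_ne_zero h0
    obtain ⟨hfs0, hinv⟩ := h62_Res.inv_inLoc_of_not_inMLoc V m hfsL hfsm
    have hfL : V.InLoc m ((fb : F) * (fs : F)⁻¹) := L.mul_mem hfbL hinv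
    refine ⟨⟨(fb : F) * (fs : F)⁻¹, hle _ hfL⟩, hfL, ?_⟩
    have hmul : ρ ⟨(fb : F) * (fs : F)⁻¹, hle _ hfL⟩ * ρ fs = ρ fb := by
      rw [← map_mul]
      refine congrArg ρ (Subtype.ext ?_)
      show (fb : F) * (fs : F)⁻¹ * (fs : F) = (fb : F)
      rw [inv_mul_cancel_right₀ hfs0]
    rw [hfs, hfb] at hmul
    have h2 : ρ ⟨(fb : F) * (fs : F)⁻¹, hle _ hfL⟩ * s = g * s := by
      rw [hmul, mul_comm]
    exact mul_right_cancel₀ hs0 h2

/-- **The residue datum at a point from lifts of the affine ring of a chart** (with its centre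
`Q`): `R.O = O`, `R.ρ = ρ`, `R.o = Q.ord`. -/
theorem h87_exists_res (V : h80_ValFam F ι) (m : Ideal V.B) [hm : m.IsPrime] (c : ι)
    (hc : V.Through m c) (O : Subring F) (mem_O : ∀ f : F, f ≠ 0 → 0 ≤ V.v c f → f ∈ O)
    (ρ : O →+* Fb) (ρ_eq_zero : ∀ f : O, (f : F) ≠ 0 → (ρ f = 0 ↔ 0 < V.v c (f : F)))
    {xb : Fb} (hxb : h75_IsChart k xb)
    (hlift : ∀ g : Fb, h39_Reg k xb g → ∃ f : O, V.InLoc m (f : F) ∧ ρ f = g)
    (hres : ∀ f : O, V.InLoc m (f : F) → ∃ (a : k) (l : O), V.InLoc m (l : F) ∧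
      ρ l = algebraMap k Fb a ∧ V.InMLoc m ((f : F) - (l : F))) :
    ∃ (Q : Place k Fb) (R : h62_Res V m c Fb), xb ∈ Q.toValuationSubring ∧ R.o = Q.ord ∧
      R.O = O ∧ ∀ (f : F) (h : f ∈ O) (h' : f ∈ R.O), R.ρ ⟨f, h'⟩ = ρ ⟨f, h⟩ := by
  obtain ⟨Q, hQx, hs, hsurj⟩ :=
    h87_exists_centre V m c hc O mem_O ρ ρ_eq_zero hxb hlift hres
  exact ⟨Q, h62_Res.ofSurj V m c hc O mem_O ρ ρ_eq_zero Q.ord
    (fun g h hg hh => Q.ord_mul hg hh) hs hsurj, hQx, rfl, rfl, fun _ _ _ => rfl⟩

theorem h87_res_nonempty (V : h80_ValFam F ι) (m : Ideal V.B) [hm : m.IsPrime] (c : ι)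
    (hc : V.Through m c) (O : Subring F) (mem_O : ∀ f : F, f ≠ 0 → 0 ≤ V.v c f → f ∈ O)
    (ρ : O →+* Fb) (ρ_eq_zero : ∀ f : O, (f : F) ≠ 0 → (ρ f = 0 ↔ 0 < V.v c (f : F)))
    {xb : Fb} (hxb : h75_IsChart k xb)
    (hlift : ∀ g : Fb, h39_Reg k xb g → ∃ f : O, V.InLoc m (f : F) ∧ ρ f = g)
    (hres : ∀ f : O, V.InLoc m (f : F) → ∃ (a : k) (l : O), V.InLoc m (l : F) ∧
      ρ l = algebraMap k Fb a ∧ V.InMLoc m ((f : F) - (l : F))) :
    Nonempty (h62_Res V m c Fb) := by
  obtain ⟨-, R, -⟩ := h87_exists_res V m c hc O mem_O ρ ρ_eq_zero hxb hlift hres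
  exact ⟨R⟩

omit [IsAlgClosed k] in
/-- `hres` from its chart-ring form: every element of the chart ring is congruent modulo `m` to
an element of the chart ring with constant residue. -/
theorem h87_hres_of_B (V : h80_ValFam F ι) (m : Ideal V.B) [hm : m.IsPrime] (c : ι)
    (hc : V.Through m c) (O : Subring F) (mem_O : ∀ f : F, f ≠ 0 → 0 ≤ V.v c f → f ∈ O)
    (ρ : O →+* Fb) (ρ_eq_zero : ∀ f : O, (f : F) ≠ 0 → (ρ f = 0 ↔ 0 < V.v c (f : F)))
    (hB : ∀ s : V.B, ∃ (a : k) (l : V.B) (hl : (l : F) ∈ O),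
      ρ ⟨(l : F), hl⟩ = algebraMap k Fb a ∧ s - l ∈ m) :
    ∀ f : O, V.InLoc m (f : F) → ∃ (a : k) (l : O), V.InLoc m (l : F) ∧
      ρ l = algebraMap k Fb a ∧ V.InMLoc m ((f : F) - (l : F)) := by
  intro f hf
  have hle : ∀ f : F, V.InLoc m f → f ∈ O := by
    intro f hf
    by_cases hf0 : f = 0
    · rw [hf0]
      exact O.zero_mem
    · exact mem_O f hf0 ((h80_inLoc_iff V m hf0).1 hf c hc)
  obtain ⟨b, t, ht, hbt⟩ := hf
  obtain ⟨ab, lb, hlbO, hlb, hblb⟩ := hB b
  obtain ⟨at', lt, hltO, hlt, htlt⟩ := hB t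
  have hltm : lt ∉ m := by
    intro h
    apply ht
    have := m.add_mem htlt h
    rwa [sub_add_cancel] at this
  have hlt0 : (lt : F) ≠ 0 := h80_ne_zero_of_not_mem V hltm
  have ht0 : (t : F) ≠ 0 := h80_ne_zero_of_not_mem V ht
  have hat : at' ≠ 0 := by
    rintro rfl
    rw [map_zero] at hlt
    have hv := (ρ_eq_zero ⟨(lt : F), hltO⟩ hlt0).1 hlt
    exact hltm (hc lt hlt0 hv)
  have hlL : V.InLoc m ((lb : F) * (lt : F)⁻¹) :=
    ⟨lb, lt, hltm, by rw [mul_comm, inv_mul_cancel_right₀ hlt0]⟩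
  refine ⟨ab / at', ⟨(lb : F) * (lt : F)⁻¹, hle _ hlL⟩, hlL, ?_, ?_⟩
  · have hmul : ρ ⟨(lb : F) * (lt : F)⁻¹, hle _ hlL⟩ * ρ ⟨(lt : F), hltO⟩ = ρ ⟨(lb : F), hlbO⟩ := by
      rw [← map_mul]
      refine congrArg ρ (Subtype.ext ?_)
      show (lb : F) * (lt : F)⁻¹ * (lt : F) = (lb : F)
      rw [inv_mul_cancel_right₀ hlt0]
    rw [hlt, hlb] at hmul
    have hat' : algebraMap k Fb at' ≠ 0 := by
      rw [Ne, map_eq_zero]
      exact hat
    rw [map_div₀, eq_div_iff hat']
    exact hmul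
  · refine ⟨lt * (b - lb) - lb * (t - lt), t * lt,
      m.sub_mem (m.mul_mem_left _ hblb) (m.mul_mem_left _ htlt),
      fun h => (hm.mem_or_mem h).elim ht hltm, ?_⟩
    show ((t * lt : V.B) : F) * ((f : F) - (lb : F) * (lt : F)⁻¹) =
      ((lt * (b - lb) - lb * (t - lt) : V.B) : F)
    push_cast
    rw [← hbt]
    field_simp
    ring

end Build

end Fermat.Agent.S36
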