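/-
S36 / row I-CUSP (helper87): point-free residue map of an upper level by a congruence of degree
one.

`v₁ : F₁ → ℤ`, `v : F → ℤ` are valuations (values at `0` irrelevant), `(O₁, ρ₁ : O₁ →+* Fb)` a
residue map of `v₁` (`O₁` its valuation ring, kernel `{v₁ > 0}`), `φ : F₁ →+* F` with
`v (φ g) = e * v₁ g` and residue degree one (`deg1`, in the binder shape of `h70_torM`).  Then the
valuation ring `h87_vRing v` of `v` carries a residue map `ρ` into the SAME field `Fb`, with kernel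
`{v > 0}` and `ρ f = ρ₁ y'` as soon as `f ≡ φ y'` modulo `{v > 0}`.

No point, no chart ring: compare `h62_Res.exists_of_congr`, which transports a residue datum AT A
POINT.  `h87_rho_of_congr` provides the fields `O`, `mem_O`, `ρ`, `ρ_eq_zero` of `h62_Res`.
-/
import Mathlib

set_option autoImplicit false

namespace Fermat.Agent.S36

section RhoCongr

variable {F : Type*} [Field F]

theorem h87_v_one (v : F → ℤ) (hmul : ∀ f g : F, f ≠ 0 → g ≠ 0 → v (f * g) = v f + v g) :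
    v 1 = 0 := by
  have h := hmul 1 1 one_ne_zero one_ne_zero
  rw [mul_one] at h
  omega

theorem h87_v_neg_one (v : F → ℤ)
    (hmul : ∀ f g : F, f ≠ 0 → g ≠ 0 → v (f * g) = v f + v g) : v (-1) = 0 := by
  have h := hmul (-1) (-1) (neg_ne_zero.2 one_ne_zero) (neg_ne_zero.2 one_ne_zero)
  rw [neg_mul_neg, mul_one, h87_v_one v hmul] at h
  omega

theorem h87_v_neg (v : F → ℤ) (hmul : ∀ f g : F, f ≠ 0 → g ≠ 0 → v (f * g) = v f + v g)
    {f : F} (hf : f ≠ 0) : v (-f) = v f := by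
  have h := hmul (-1) f (neg_ne_zero.2 one_ne_zero) hf
  rw [neg_one_mul, h87_v_neg_one v hmul, zero_add] at h
  exact h

theorem h87_pos_add (v : F → ℤ)
    (hadd : ∀ f g : F, f ≠ 0 → g ≠ 0 → f + g ≠ 0 → min (v f) (v g) ≤ v (f + g)) {x y : F}
    (hx : x = 0 ∨ 0 < v x) (hy : y = 0 ∨ 0 < v y) : x + y = 0 ∨ 0 < v (x + y) := by
  by_cases hx0 : x = 0
  · rw [hx0, zero_add]
    exact hy
  by_cases hy0 : y = 0
  · rw [hy0, add_zero]
    exact hx
  by_cases hxy : x + y = 0
  · exact Or.inl hxy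
  right
  have h := hadd x y hx0 hy0 hxy
  have h1 := hx.resolve_left hx0
  have h2 := hy.resolve_left hy0
  exact lt_of_lt_of_le (lt_min h1 h2) h

theorem h87_nn_add (v : F → ℤ)
    (hadd : ∀ f g : F, f ≠ 0 → g ≠ 0 → f + g ≠ 0 → min (v f) (v g) ≤ v (f + g)) {x y : F}
    (hx : x = 0 ∨ 0 ≤ v x) (hy : y = 0 ∨ 0 ≤ v y) : x + y = 0 ∨ 0 ≤ v (x + y) := by
  by_cases hx0 : x = 0
  · rw [hx0, zero_add]
    exact hy
  by_cases hy0 : y = 0
  · rw [hy0, add_zero]
    exact hx
  by_cases hxy : x + y = 0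
  · exact Or.inl hxy
  right
  have h := hadd x y hx0 hy0 hxy
  have h1 := hx.resolve_left hx0
  have h2 := hy.resolve_left hy0
  exact le_trans (le_min h1 h2) h

theorem h87_pos_neg (v : F → ℤ) (hmul : ∀ f g : F, f ≠ 0 → g ≠ 0 → v (f * g) = v f + v g)
    {x : F} (hx : x = 0 ∨ 0 < v x) : -x = 0 ∨ 0 < v (-x) := by
  by_cases hx0 : x = 0
  · left
    rw [hx0, neg_zero]
  · right
    rw [h87_v_neg v hmul hx0]
    exact hx.resolve_left hx0

theorem h87_nn_neg (v : F → ℤ) (hmul : ∀ f g : F, f ≠ 0 → g ≠ 0 → v (f * g) = v f + v g)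
    {x : F} (hx : x = 0 ∨ 0 ≤ v x) : -x = 0 ∨ 0 ≤ v (-x) := by
  by_cases hx0 : x = 0
  · left
    rw [hx0, neg_zero]
  · right
    rw [h87_v_neg v hmul hx0]
    exact hx.resolve_left hx0

theorem h87_pos_sub (v : F → ℤ) (hmul : ∀ f g : F, f ≠ 0 → g ≠ 0 → v (f * g) = v f + v g)
    (hadd : ∀ f g : F, f ≠ 0 → g ≠ 0 → f + g ≠ 0 → min (v f) (v g) ≤ v (f + g)) {x y : F}
    (hx : x = 0 ∨ 0 < v x) (hy : y = 0 ∨ 0 < v y) : x - y = 0 ∨ 0 < v (x - y) := by
  rw [sub_eq_add_neg]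
  exact h87_pos_add v hadd hx (h87_pos_neg v hmul hy)

theorem h87_nn_mul (v : F → ℤ) (hmul : ∀ f g : F, f ≠ 0 → g ≠ 0 → v (f * g) = v f + v g)
    {x y : F} (hx : x = 0 ∨ 0 ≤ v x) (hy : y = 0 ∨ 0 ≤ v y) : x * y = 0 ∨ 0 ≤ v (x * y) := by
  by_cases hx0 : x = 0
  · left
    rw [hx0, zero_mul]
  by_cases hy0 : y = 0
  · left
    rw [hy0, mul_zero]
  right
  rw [hmul x y hx0 hy0]
  have h1 := hx.resolve_left hx0
  have h2 := hy.resolve_left hy0
  omega

theorem h87_nn_mul_pos (v : F → ℤ) (hmul : ∀ f g : F, f ≠ 0 → g ≠ 0 → v (f * g) = v f + v g)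
    {x y : F} (hx : x = 0 ∨ 0 ≤ v x) (hy : y = 0 ∨ 0 < v y) : x * y = 0 ∨ 0 < v (x * y) := by
  by_cases hx0 : x = 0
  · left
    rw [hx0, zero_mul]
  by_cases hy0 : y = 0
  · left
    rw [hy0, mul_zero]
  right
  rw [hmul x y hx0 hy0]
  have h1 := hx.resolve_left hx0
  have h2 := hy.resolve_left hy0
  omega

/-- The valuation ring `{f | f = 0 ∨ 0 ≤ v f}` of a `ℤ`-valued valuation. -/
def h87_vRing (v : F → ℤ) (hmul : ∀ f g : F, f ≠ 0 → g ≠ 0 → v (f * g) = v f + v g)
    (hadd : ∀ f g : F, f ≠ 0 → g ≠ 0 → f + g ≠ 0 → min (v f) (v g) ≤ v (f + g)) : Subring F where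
  carrier := {f | f = 0 ∨ 0 ≤ v f}
  mul_mem' := fun hx hy => h87_nn_mul v hmul hx hy
  one_mem' := Or.inr (le_of_eq (h87_v_one v hmul).symm)
  add_mem' := fun hx hy => h87_nn_add v hadd hx hy
  zero_mem' := Or.inl rfl
  neg_mem' := fun hx => h87_nn_neg v hmul hx

theorem h87_mem_vRing (v : F → ℤ) (hmul : ∀ f g : F, f ≠ 0 → g ≠ 0 → v (f * g) = v f + v g)
    (hadd : ∀ f g : F, f ≠ 0 → g ≠ 0 → f + g ≠ 0 → min (v f) (v g) ≤ v (f + g)) (f : F) :
    f ∈ h87_vRing v hmul hadd ↔ f = 0 ∨ 0 ≤ v f := Iff.rfl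

variable {F₁ : Type*} [Field F₁] {Fb : Type*} [Field Fb]

/-- **Point-free residue map of the upper level from a congruence of degree one.** -/
theorem h87_rho_of_congr (v₁ : F₁ → ℤ) (v : F → ℤ)
    (hmul : ∀ f g : F, f ≠ 0 → g ≠ 0 → v (f * g) = v f + v g)
    (hadd : ∀ f g : F, f ≠ 0 → g ≠ 0 → f + g ≠ 0 → min (v f) (v g) ≤ v (f + g))
    (O₁ : Subring F₁) (mem_O₁ : ∀ f : F₁, f ≠ 0 → 0 ≤ v₁ f → f ∈ O₁)
    (nn_O₁ : ∀ f : O₁, (f : F₁) ≠ 0 → 0 ≤ v₁ (f : F₁))
    (ρ₁ : O₁ →+* Fb) (ρ₁_eq_zero : ∀ f : O₁, (f : F₁) ≠ 0 → (ρ₁ f = 0 ↔ 0 < v₁ (f : F₁)))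
    (φ : F₁ →+* F) (e : ℤ) (he : 0 < e) (tab : ∀ g : F₁, g ≠ 0 → v (φ g) = e * v₁ g)
    (deg1 : ∀ y : F, y ≠ 0 → v y = 0 → ∃ y' : F₁, y - φ y' = 0 ∨ 0 < v (y - φ y')) :
    ∃ ρ : h87_vRing v hmul hadd →+* Fb,
      (∀ f : h87_vRing v hmul hadd, (f : F) ≠ 0 → (ρ f = 0 ↔ 0 < v (f : F))) ∧
      ∀ (f : h87_vRing v hmul hadd) (y' : O₁),
        ((f : F) - φ (y' : F₁) = 0 ∨ 0 < v ((f : F) - φ (y' : F₁))) → ρ f = ρ₁ y' := by
  classical
  -- values of `φ` on `O₁`
  have hφnn : ∀ y' : O₁, φ (y' : F₁) = 0 ∨ 0 ≤ v (φ (y' : F₁)) := by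
    intro y'
    by_cases h0 : (y' : F₁) = 0
    · left
      rw [h0, map_zero]
    · right
      rw [tab _ h0]
      exact mul_nonneg he.le (nn_O₁ y' h0)
  have hφpos : ∀ y' : O₁, (φ (y' : F₁) = 0 ∨ 0 < v (φ (y' : F₁))) → ρ₁ y' = 0 := by
    intro y' h
    by_cases h0 : (y' : F₁) = 0
    · have : y' = 0 := Subtype.ext h0
      rw [this, map_zero]
    · have h1 := h.resolve_left ((map_ne_zero φ).2 h0)
      rw [tab _ h0] at h1
      refine (ρ₁_eq_zero y' h0).2 ?_
      by_contra h2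
      have h3 : e * v₁ (y' : F₁) ≤ 0 := mul_nonpos_of_nonneg_of_nonpos he.le (not_lt.1 h2)
      omega
  -- representatives
  have hrep : ∀ f : h87_vRing v hmul hadd, ∃ y' : O₁,
      (f : F) - φ (y' : F₁) = 0 ∨ 0 < v ((f : F) - φ (y' : F₁)) := by
    intro f
    by_cases hf : (f : F) = 0 ∨ 0 < v (f : F)
    · refine ⟨0, ?_⟩
      simpa using hf
    · have hf0 : (f : F) ≠ 0 := fun h => hf (Or.inl h)
      have hfv : v (f : F) = 0 := by
        have h1 : 0 ≤ v (f : F) := (f.2).resolve_left hf0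
        have h2 : ¬ 0 < v (f : F) := fun h => hf (Or.inr h)
        omega
      obtain ⟨y', hy'⟩ := deg1 (f : F) hf0 hfv
      have hy'0 : y' ≠ 0 := by
        rintro rfl
        rw [map_zero, sub_zero] at hy'
        exact hf hy'
      have hφy'0 : φ y' ≠ 0 := (map_ne_zero φ).2 hy'0
      -- `v (φ y') = 0`
      have hv : v (φ y') = 0 := by
        by_cases hd : (f : F) - φ y' = 0
        · rw [← sub_eq_zero.1 hd]
          exact hfv
        · have h1 := hy'.resolve_left hd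
          have h2 : φ y' = (f : F) + (-((f : F) - φ y')) := by ring
          have h3 := hadd (f : F) (-((f : F) - φ y')) hf0 (neg_ne_zero.2 hd)
            (by rw [← h2]; exact hφy'0)
          rw [← h2, h87_v_neg v hmul hd, hfv] at h3
          have h4 : (f : F) = φ y' + ((f : F) - φ y') := by ring
          have h5 := hadd (φ y') ((f : F) - φ y') hφy'0 hd (by rw [← h4]; exact hf0)
          rw [← h4, hfv] at h5
          have h6 := min_le_iff.1 h3
          have h7 := min_le_iff.1 h5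
          omega
      rw [tab y' hy'0] at hv
      have hw : v₁ y' = 0 := by
        rcases mul_eq_zero.1 hv with h | h
        · omega
        · exact h
      exact ⟨⟨y', mem_O₁ y' hy'0 (by omega)⟩, hy'⟩
  choose rep hrep using hrep
  -- uniqueness of the residue of a representative
  have hchar : ∀ (f : h87_vRing v hmul hadd) (y' : O₁),
      ((f : F) - φ (y' : F₁) = 0 ∨ 0 < v ((f : F) - φ (y' : F₁))) →
      ρ₁ (rep f) = ρ₁ y' := by
    intro f y' hy'
    have h1 := h87_pos_sub v hmul hadd hy' (hrep f)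
    have h2 : (f : F) - φ (y' : F₁) - ((f : F) - φ ((rep f : O₁) : F₁)) =
        φ (((rep f - y' : O₁)) : F₁) := by
      push_cast
      rw [map_sub]
      ring
    rw [h2] at h1
    have h3 := hφpos _ h1
    rw [map_sub, sub_eq_zero] at h3
    exact h3
  -- the residue map
  let ρ : h87_vRing v hmul hadd →+* Fb :=
    { toFun := fun f => ρ₁ (rep f)
      map_one' := by
        rw [hchar 1 1 (by simp), map_one]
      map_mul' := by
        intro f g
        rw [hchar (f * g) (rep f * rep g), map_mul]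
        have e1 : ((f * g : h87_vRing v hmul hadd) : F) - φ (((rep f * rep g : O₁)) : F₁) =
            (f : F) * ((g : F) - φ ((rep g : O₁) : F₁)) +
              φ ((rep g : O₁) : F₁) * ((f : F) - φ ((rep f : O₁) : F₁)) := by
          push_cast
          rw [map_mul]
          ring
        rw [e1]
        exact h87_pos_add v hadd (h87_nn_mul_pos v hmul f.2 (hrep g))
          (h87_nn_mul_pos v hmul (hφnn (rep g)) (hrep f))
      map_zero' := by
        rw [hchar 0 0 (by simp), map_zero]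
      map_add' := by
        intro f g
        rw [hchar (f + g) (rep f + rep g), map_add]
        have e1 : ((f + g : h87_vRing v hmul hadd) : F) - φ (((rep f + rep g : O₁)) : F₁) =
            ((f : F) - φ ((rep f : O₁) : F₁)) + ((g : F) - φ ((rep g : O₁) : F₁)) := by
          push_cast
          rw [map_add]
          ring
        rw [e1]
        exact h87_pos_add v hadd (hrep f) (hrep g) }
  have hρ : ∀ f : h87_vRing v hmul hadd, ρ f = ρ₁ (rep f) := fun _ => rfl
  refine ⟨ρ, ?_, ?_⟩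
  · intro f hf0
    constructor
    · intro h0
      rw [hρ] at h0
      by_cases hr0 : ((rep f : O₁) : F₁) = 0
      · have h1 := hrep f
        rw [hr0, map_zero, sub_zero] at h1
        exact h1.resolve_left hf0
      · have h1 : 0 < v₁ ((rep f : O₁) : F₁) := (ρ₁_eq_zero (rep f) hr0).1 h0
        have h2 : 0 < v (φ ((rep f : O₁) : F₁)) := by
          rw [tab _ hr0]
          exact mul_pos he h1
        have h3 := h87_pos_add v hadd (Or.inr h2 : φ ((rep f : O₁) : F₁) = 0 ∨ _) (hrep f)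
        have h4 : φ ((rep f : O₁) : F₁) + ((f : F) - φ ((rep f : O₁) : F₁)) = (f : F) := by ring
        rw [h4] at h3
        exact h3.resolve_left hf0
    · intro hpos
      rw [hρ, hchar f 0 (by
        right
        simpa using hpos), map_zero]
  · intro f y' hy'
    rw [hρ]
    exact hchar f y' hy'

end RhoCongr

end Fermat.Agent.S36
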