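/-
S36 / row I-CUSP (helper87): **the residue maps `ρ_C` of the three vertical valuations of level
`M q²`, with values in the function field `Fb(M)` of level `M` in characteristic `q`, point-free.**

`w2 = h98_w2 M q hqM A ζ hζ hex : Fin 3 → F0(M q²) → ℤ` (`0 = C20`, `1 = C11`, `2 = C02`),
`w1 = h98_w1 ..` (`0 = Z_F`, `1 = Z_V`), `a = h70_aF0 (M q) q I`, `b = h70_bF0 (M q) q I`,
`R₁ = h60_R1`, `R₂ = h60_R2` (level `M q`, residue field `Fb(M)`), `RM` any level-`M` datum with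
`h54_IsModRed`.

* `h87_rho_of_red` (generic): a reduction datum whose ring and reduction are read off an
  expansion `E` induces a residue map of the Gauss valuation `h98_gv E F0 π` on `F0`;
* `h87_rhoF_exists`, `h87_rhoV_exists` : the residue maps of `w1 0` and `w1 1` (`= red₁`, `red₂`);
* `h87_rho_C20`, `h87_rho_C11`, `h87_rho_C02` : for each `c` a subring `O` (`= {w2 c ≥ 0}`) and
  `ρ : O →+* Fb(M)` with kernel `{w2 c > 0}` (the fields `O`, `mem_O`, `ρ`, `ρ_eq_zero` of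
  `h62_Res`, for ANY family with `V.v (inl c) = w2 c`), the characterisation
  `f ≡ a y' ⟹ ρ f = red₁ y'` (resp. `b`, `red₂`), and the compatibility with level `M`:
  `ρ (a (α y)) = RM.redF y` for `C20`, `C11`, `ρ (b (β y)) = RM.redF y` for `C02`.
-/
import Mathlib
import Fermat.Agent.S36.h87_RhoCongr
import Fermat.Agent.S36.h98_V3
import Fermat.Agent.S34.h60_Pair

set_option autoImplicit false
set_option synthInstance.maxHeartbeats 400000
set_option linter.unusedSectionVars false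
set_option linter.style.haveILetI false

noncomputable section

open ModularCurve AlgebraicCurve

namespace Fermat.Agent.S36

open Fermat.Agent.S34 Fermat.Agent.S37 Fermat.Agent.S24 Fermat.Agent.S35 Fermat.Agent.S18
  Fermat.Agent.GAL Fermat.Agent.S40 Fermat.Agent.S19

local notation "Qb" => AlgebraicClosure ℚ

section Generic

variable {K : Type*} [Field K] {A : ValuationSubring K} {F : Type*} [Field F] [Algebra K F]
  {Fb : Type*} [Field Fb] [Algebra (IsLocalRing.ResidueField A) Fb]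

/-- A reduction datum `R` whose valuation ring and reduction map are read off an expansion `E`
gives a residue map of the Gauss valuation `h98_gv E F0 π` on the subfield `F0`. -/
theorem h87_rho_of_red (R : h39_RedDatum K F (IsLocalRing.ResidueField A) Fb)
    (cb : Fb →+* LaurentSeries (IsLocalRing.ResidueField A))
    (E : F →+* LaurentSeries K) (F0 : Subfield F) (π : K)
    (hsc : ∀ f : F0, f ≠ 0 → ∃ n : ℤ, h98_GV A π (E (f : F)) n)
    (hπ0 : π ≠ 0) (hπA : π ∈ A) (hπn : π⁻¹ ∉ A)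
    (hmem : ∀ f : F, f ∈ R.O ↔ E f ∈ h60_Os A)
    (hred : ∀ (f : F) (hf : f ∈ R.O), cb (R.red ⟨f, hf⟩) = h60_rs A ⟨E f, (hmem f).1 hf⟩) :
    ∃ (O : Subring F0) (ρ : O →+* Fb),
      (∀ f : F0, f ≠ 0 → 0 ≤ h98_gv E F0 π hsc f → f ∈ O) ∧
      (∀ f : O, (f : F0) ≠ 0 → 0 ≤ h98_gv E F0 π hsc (f : F0)) ∧
      (∀ f : O, (f : F0) ≠ 0 → (ρ f = 0 ↔ 0 < h98_gv E F0 π hsc (f : F0))) ∧
      (∀ f : O, ρ f = R.redF (((f : F0) : F))) ∧
      (∀ f : F0, f ∈ O ↔ (f : F) ∈ R.O) := by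
  classical
  let O : Subring F0 := R.O.toSubring.comap F0.subtype
  have hO : ∀ f : F0, f ∈ O ↔ (f : F) ∈ R.O := fun f => Iff.rfl
  let ρ : O →+* Fb :=
    { toFun := fun f => R.red ⟨((f : F0) : F), (hO f).1 f.2⟩
      map_one' := map_one R.red
      map_mul' := fun f g => map_mul R.red ⟨((f : F0) : F), (hO f).1 f.2⟩
        ⟨((g : F0) : F), (hO g).1 g.2⟩
      map_zero' := map_zero R.red
      map_add' := fun f g => map_add R.red ⟨((f : F0) : F), (hO f).1 f.2⟩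
        ⟨((g : F0) : F), (hO g).1 g.2⟩ }
  have hρ : ∀ f : O, ρ f = R.red ⟨((f : F0) : F), (hO f).1 f.2⟩ := fun _ => rfl
  refine ⟨O, ρ, ?_, ?_, ?_, ?_, hO⟩
  · intro f hf h
    exact (hmem _).2 ((h98_gv_nonneg_iff hsc hπ0 hπA hπn f hf).1 h)
  · intro f hf
    exact (h98_gv_nonneg_iff hsc hπ0 hπA hπn (f : F0) hf).2 ((hmem _).1 ((hO f).1 f.2))
  · intro f hf
    rw [h98_gv_pos_iff hsc hπ0 hπA hπn (f : F0) hf, hρ]
    constructor
    · intro h0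
      refine ⟨(hmem _).1 ((hO f).1 f.2), ?_⟩
      rw [← hred _ ((hO f).1 f.2), h0, map_zero]
    · rintro ⟨h1, h2⟩
      have h3 := hred _ ((hO f).1 f.2)
      exact (map_eq_zero cb).1 (h3.trans h2)
  · intro f
    rw [hρ, R.redF_of_mem ((hO f).1 f.2)]

end Generic

section RhoMod

variable (M q : ℕ) [NeZero M] [NeZero q] [Fact q.Prime] (hqM : ¬ q ∣ M)
  (A : ValuationSubring Qb) (hA : A.LiesOverPrime q) (ζ : Qb) (hζ : IsPrimitiveRoot ζ q)
  (hex : h98_Ex M q hqM A ζ hζ)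

/-- **Level `M q`, component `Z_F`**: the residue map of `w1 0` is `red₁`. -/
theorem h87_rhoF_exists :
    ∃ (O : Subring (h69_F0 (M * q) (A.inertiaSubgroupIn ℚ)))
      (ρ : O →+* ↥(modularFunctionFieldFullC (IsLocalRing.ResidueField A) M)),
      (∀ f : h69_F0 (M * q) (A.inertiaSubgroupIn ℚ), f ≠ 0 →
        0 ≤ h98_w1 M q hqM A ζ hζ hex 0 f → f ∈ O) ∧
      (∀ f : O, (f : h69_F0 (M * q) (A.inertiaSubgroupIn ℚ)) ≠ 0 →
        0 ≤ h98_w1 M q hqM A ζ hζ hex 0 (f : h69_F0 (M * q) (A.inertiaSubgroupIn ℚ))) ∧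
      (∀ f : O, (f : h69_F0 (M * q) (A.inertiaSubgroupIn ℚ)) ≠ 0 →
        (ρ f = 0 ↔
          0 < h98_w1 M q hqM A ζ hζ hex 0 (f : h69_F0 (M * q) (A.inertiaSubgroupIn ℚ)))) ∧
      (∀ f : O, ρ f = (h60_R1 M q hqM A hA).redF
        (((f : h69_F0 (M * q) (A.inertiaSubgroupIn ℚ)) : ↥(modularFunctionFieldBar (M * q))))) ∧
      (∀ f : h69_F0 (M * q) (A.inertiaSubgroupIn ℚ),
        f ∈ O ↔ (f : ↥(modularFunctionFieldBar (M * q))) ∈ (h60_R1 M q hqM A hA).O) :=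
  h87_rho_of_red (h60_R1 M q hqM A hA)
    ((modularFunctionFieldFullC (IsLocalRing.ResidueField A) M).val.toRingHom)
    (h98_coe (M * q)) (h69_F0 (M * q) (A.inertiaSubgroupIn ℚ)) (q : Qb)
    (fun g hg => hex.std1 g (h98_coe_ne1 M q A hg) (h98_fix1 M q A g))
    (h98_q_unif q A hA).1 (h98_q_unif q A hA).2.1 (h98_q_unif q A hA).2.2
    (h60_R1_mem_iff_Os M q hqM A hA)
    (fun f hf => h60_R1_coe_red M q hqM A hA f hf)

/-- **Level `M q`, component `Z_V`**: the residue map of `w1 1` is `red₂`. -/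
theorem h87_rhoV_exists :
    ∃ (O : Subring (h69_F0 (M * q) (A.inertiaSubgroupIn ℚ)))
      (ρ : O →+* ↥(modularFunctionFieldFullC (IsLocalRing.ResidueField A) M)),
      (∀ f : h69_F0 (M * q) (A.inertiaSubgroupIn ℚ), f ≠ 0 →
        0 ≤ h98_w1 M q hqM A ζ hζ hex 1 f → f ∈ O) ∧
      (∀ f : O, (f : h69_F0 (M * q) (A.inertiaSubgroupIn ℚ)) ≠ 0 →
        0 ≤ h98_w1 M q hqM A ζ hζ hex 1 (f : h69_F0 (M * q) (A.inertiaSubgroupIn ℚ))) ∧
      (∀ f : O, (f : h69_F0 (M * q) (A.inertiaSubgroupIn ℚ)) ≠ 0 →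
        (ρ f = 0 ↔
          0 < h98_w1 M q hqM A ζ hζ hex 1 (f : h69_F0 (M * q) (A.inertiaSubgroupIn ℚ)))) ∧
      (∀ f : O, ρ f = (h60_R2 M q hqM A hA).redF
        (((f : h69_F0 (M * q) (A.inertiaSubgroupIn ℚ)) : ↥(modularFunctionFieldBar (M * q))))) ∧
      (∀ f : h69_F0 (M * q) (A.inertiaSubgroupIn ℚ),
        f ∈ O ↔ (f : ↥(modularFunctionFieldBar (M * q))) ∈ (h60_R2 M q hqM A hA).O) := by
  have hmem : ∀ f : ↥(modularFunctionFieldBar (M * q)), f ∈ (h60_R2 M q hqM A hA).O ↔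
      ((h98_coe (M * q)).comp (h60_w M q hqM)) f ∈ h60_Os A := by
    intro f
    rw [h60_R2_mem_iff]
    exact h60_R1_mem_iff_Os M q hqM A hA _
  refine h87_rho_of_red (h60_R2 M q hqM A hA)
    ((modularFunctionFieldFullC (IsLocalRing.ResidueField A) M).val.toRingHom)
    ((h98_coe (M * q)).comp (h60_w M q hqM)) (h69_F0 (M * q) (A.inertiaSubgroupIn ℚ)) (q : Qb)
    (fun g hg => hex.std1 (h60_w M q hqM g)
      ((map_ne_zero (h60_w M q hqM)).mpr (h98_coe_ne1 M q A hg)) (h98_fix1w M q hqM A g))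
    (h98_q_unif q A hA).1 (h98_q_unif q A hA).2.1 (h98_q_unif q A hA).2.2 hmem ?_
  intro f hf
  have hf1 : h60_w M q hqM f ∈ (h60_R1 M q hqM A hA).O := (h60_R2_mem_iff M q hqM A hA f).1 hf
  have h1 : (h60_R2 M q hqM A hA).red ⟨f, hf⟩
      = (h60_R1 M q hqM A hA).red ⟨h60_w M q hqM f, hf1⟩ := by
    rw [← (h60_R2 M q hqM A hA).redF_of_mem hf, h60_R2_redF,
      (h60_R1 M q hqM A hA).redF_of_mem hf1]
  rw [h1]
  exact h60_R1_coe_red M q hqM A hA _ hf1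

include hA in
/-- **The step from level `M q` to level `M q²`**: a residue map of `w1 c₁` given by a reduction
datum `R` of level `M q`, a table row and the degree-one congruence give the residue map of
`w2 c`. -/
theorem h87_rho_up (c : Fin 3) (c₁ : Fin 2)
    (φ : h69_F0 (M * q) (A.inertiaSubgroupIn ℚ) →+* h69_F0 (M * q * q) (A.inertiaSubgroupIn ℚ))
    (e : ℤ) (he : 0 < e)
    (tab : ∀ g : h69_F0 (M * q) (A.inertiaSubgroupIn ℚ), g ≠ 0 →
      h98_w2 M q hqM A ζ hζ hex c (φ g) = e * h98_w1 M q hqM A ζ hζ hex c₁ g)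
    (deg1 : ∀ y : h69_F0 (M * q * q) (A.inertiaSubgroupIn ℚ), y ≠ 0 →
      h98_w2 M q hqM A ζ hζ hex c y = 0 →
      ∃ y' : h69_F0 (M * q) (A.inertiaSubgroupIn ℚ),
        y - φ y' = 0 ∨ 0 < h98_w2 M q hqM A ζ hζ hex c (y - φ y'))
    (R : h39_RedDatum Qb ↥(modularFunctionFieldBar (M * q)) (IsLocalRing.ResidueField A)
      ↥(modularFunctionFieldFullC (IsLocalRing.ResidueField A) M))
    (hq : ∃ (O₁ : Subring (h69_F0 (M * q) (A.inertiaSubgroupIn ℚ)))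
      (ρ₁ : O₁ →+* ↥(modularFunctionFieldFullC (IsLocalRing.ResidueField A) M)),
      (∀ f : h69_F0 (M * q) (A.inertiaSubgroupIn ℚ), f ≠ 0 →
        0 ≤ h98_w1 M q hqM A ζ hζ hex c₁ f → f ∈ O₁) ∧
      (∀ f : O₁, (f : h69_F0 (M * q) (A.inertiaSubgroupIn ℚ)) ≠ 0 →
        0 ≤ h98_w1 M q hqM A ζ hζ hex c₁ (f : h69_F0 (M * q) (A.inertiaSubgroupIn ℚ))) ∧
      (∀ f : O₁, (f : h69_F0 (M * q) (A.inertiaSubgroupIn ℚ)) ≠ 0 →
        (ρ₁ f = 0 ↔
          0 < h98_w1 M q hqM A ζ hζ hex c₁ (f : h69_F0 (M * q) (A.inertiaSubgroupIn ℚ)))) ∧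
      (∀ f : O₁, ρ₁ f = R.redF
        (((f : h69_F0 (M * q) (A.inertiaSubgroupIn ℚ)) : ↥(modularFunctionFieldBar (M * q))))) ∧
      (∀ f : h69_F0 (M * q) (A.inertiaSubgroupIn ℚ),
        f ∈ O₁ ↔ (f : ↥(modularFunctionFieldBar (M * q))) ∈ R.O)) :
    ∃ (O : Subring (h69_F0 (M * q * q) (A.inertiaSubgroupIn ℚ)))
      (ρ : O →+* ↥(modularFunctionFieldFullC (IsLocalRing.ResidueField A) M)),
      (∀ f : h69_F0 (M * q * q) (A.inertiaSubgroupIn ℚ),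
        f ∈ O ↔ f = 0 ∨ 0 ≤ h98_w2 M q hqM A ζ hζ hex c f) ∧
      (∀ f : O, (f : h69_F0 (M * q * q) (A.inertiaSubgroupIn ℚ)) ≠ 0 →
        (ρ f = 0 ↔
          0 < h98_w2 M q hqM A ζ hζ hex c (f : h69_F0 (M * q * q) (A.inertiaSubgroupIn ℚ)))) ∧
      (∀ (f : O) (y' : h69_F0 (M * q) (A.inertiaSubgroupIn ℚ)),
        (y' : ↥(modularFunctionFieldBar (M * q))) ∈ R.O →
        ((f : h69_F0 (M * q * q) (A.inertiaSubgroupIn ℚ)) - φ y' = 0 ∨
          0 < h98_w2 M q hqM A ζ hζ hex c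
            ((f : h69_F0 (M * q * q) (A.inertiaSubgroupIn ℚ)) - φ y')) →
        ρ f = R.redF (y' : ↥(modularFunctionFieldBar (M * q)))) ∧
      (∀ y' : h69_F0 (M * q) (A.inertiaSubgroupIn ℚ),
        (y' : ↥(modularFunctionFieldBar (M * q))) ∈ R.O →
        ∃ h : φ y' ∈ O, ρ ⟨φ y', h⟩ = R.redF (y' : ↥(modularFunctionFieldBar (M * q)))) := by
  obtain ⟨O₁, ρ₁, hmem₁, hnn₁, hz₁, hρ₁, hO₁⟩ := hq
  obtain ⟨ρ, hz, hchar⟩ := h87_rho_of_congr (h98_w1 M q hqM A ζ hζ hex c₁)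
    (h98_w2 M q hqM A ζ hζ hex c) (h98_hw2mul M q hqM A hA ζ hζ hex c)
    (h98_hw2add M q hqM A hA ζ hζ hex c) O₁ hmem₁ hnn₁ ρ₁ hz₁ φ e he tab deg1
  have hchar' : ∀ (f : h87_vRing (h98_w2 M q hqM A ζ hζ hex c)
        (h98_hw2mul M q hqM A hA ζ hζ hex c) (h98_hw2add M q hqM A hA ζ hζ hex c))
      (y' : h69_F0 (M * q) (A.inertiaSubgroupIn ℚ)),
      (y' : ↥(modularFunctionFieldBar (M * q))) ∈ R.O →
      ((f : h69_F0 (M * q * q) (A.inertiaSubgroupIn ℚ)) - φ y' = 0 ∨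
        0 < h98_w2 M q hqM A ζ hζ hex c
          ((f : h69_F0 (M * q * q) (A.inertiaSubgroupIn ℚ)) - φ y')) →
      ρ f = R.redF (y' : ↥(modularFunctionFieldBar (M * q))) := by
    intro f y' hy' h
    have h1 := hchar f ⟨y', (hO₁ y').2 hy'⟩ h
    rw [h1, hρ₁]
  refine ⟨_, ρ, fun f => Iff.rfl, hz, hchar', ?_⟩
  intro y' hy'
  have hmem : φ y' ∈ h87_vRing (h98_w2 M q hqM A ζ hζ hex c)
      (h98_hw2mul M q hqM A hA ζ hζ hex c) (h98_hw2add M q hqM A hA ζ hζ hex c) := by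
    by_cases h0 : y' = 0
    · left
      rw [h0, map_zero]
    · right
      rw [tab y' h0]
      exact mul_nonneg he.le (hnn₁ ⟨y', (hO₁ y').2 hy'⟩ h0)
  refine ⟨hmem, hchar' ⟨φ y', hmem⟩ y' hy' (Or.inl ?_)⟩
  exact sub_self _

variable {RM : h39_RedDatum Qb ↥(modularFunctionFieldBar M) (IsLocalRing.ResidueField A)
    ↥(modularFunctionFieldFullC (IsLocalRing.ResidueField A) M)}
  (hRM : h54_IsModRed M A RM)

include hA hRM in
/-- **`ρ_20`**: the residue map of `C20` (`w2 0`), with values in `Fb(M)`; `ρ (a (α y)) = ȳ`. -/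
theorem h87_rho_C20 :
    ∃ (O : Subring (h69_F0 (M * q * q) (A.inertiaSubgroupIn ℚ)))
      (ρ : O →+* ↥(modularFunctionFieldFullC (IsLocalRing.ResidueField A) M)),
      (∀ f : h69_F0 (M * q * q) (A.inertiaSubgroupIn ℚ),
        f ∈ O ↔ f = 0 ∨ 0 ≤ h98_w2 M q hqM A ζ hζ hex 0 f) ∧
      (∀ f : O, (f : h69_F0 (M * q * q) (A.inertiaSubgroupIn ℚ)) ≠ 0 →
        (ρ f = 0 ↔
          0 < h98_w2 M q hqM A ζ hζ hex 0 (f : h69_F0 (M * q * q) (A.inertiaSubgroupIn ℚ)))) ∧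
      (∀ (f : O) (y' : h69_F0 (M * q) (A.inertiaSubgroupIn ℚ)),
        (y' : ↥(modularFunctionFieldBar (M * q))) ∈ (h60_R1 M q hqM A hA).O →
        ((f : h69_F0 (M * q * q) (A.inertiaSubgroupIn ℚ))
            - h70_aF0 (M * q) q (A.inertiaSubgroupIn ℚ) y' = 0 ∨
          0 < h98_w2 M q hqM A ζ hζ hex 0
            ((f : h69_F0 (M * q * q) (A.inertiaSubgroupIn ℚ))
              - h70_aF0 (M * q) q (A.inertiaSubgroupIn ℚ) y')) →
        ρ f = (h60_R1 M q hqM A hA).redF (y' : ↥(modularFunctionFieldBar (M * q)))) ∧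
      (∀ y : h69_F0 M (A.inertiaSubgroupIn ℚ), (y : ↥(modularFunctionFieldBar M)) ∈ RM.O →
        ∃ h : h70_aF0 (M * q) q (A.inertiaSubgroupIn ℚ)
            (h70_aF0 M q (A.inertiaSubgroupIn ℚ) y) ∈ O,
          ρ ⟨_, h⟩ = RM.redF (y : ↥(modularFunctionFieldBar M))) := by
  obtain ⟨O, ρ, hO, hz, hchar, hlift⟩ := h87_rho_up M q hqM A hA ζ hζ hex 0 0
    (h70_aF0 (M * q) q (A.inertiaSubgroupIn ℚ)) 1 one_pos
    (fun g hg => by rw [one_mul]; exact h98_hV0a0 M q hqM A hA ζ hζ hex g hg)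
    (h98_hV1 M q hqM A hA ζ hζ hex) (h60_R1 M q hqM A hA)
    (h87_rhoF_exists M q hqM A hA ζ hζ hex)
  refine ⟨O, ρ, hO, hz, hchar, ?_⟩
  intro y hy
  have hy1 : ((h70_aF0 M q (A.inertiaSubgroupIn ℚ) y : h69_F0 (M * q) (A.inertiaSubgroupIn ℚ)) :
      ↥(modularFunctionFieldBar (M * q))) ∈ (h60_R1 M q hqM A hA).O :=
    (h60_R1_alpha_mem_iff M q hqM A hA hRM _).2 hy
  obtain ⟨h, hh⟩ := hlift _ hy1
  refine ⟨h, ?_⟩
  rw [hh]
  exact h60_R1_redF_alpha M q hqM A hA hRM _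

include hA hRM in
/-- **`ρ_11`**: the residue map of `C11` (`w2 1`), with values in `Fb(M)`; `ρ (a (α y)) = ȳ`. -/
theorem h87_rho_C11 :
    ∃ (O : Subring (h69_F0 (M * q * q) (A.inertiaSubgroupIn ℚ)))
      (ρ : O →+* ↥(modularFunctionFieldFullC (IsLocalRing.ResidueField A) M)),
      (∀ f : h69_F0 (M * q * q) (A.inertiaSubgroupIn ℚ),
        f ∈ O ↔ f = 0 ∨ 0 ≤ h98_w2 M q hqM A ζ hζ hex 1 f) ∧
      (∀ f : O, (f : h69_F0 (M * q * q) (A.inertiaSubgroupIn ℚ)) ≠ 0 →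
        (ρ f = 0 ↔
          0 < h98_w2 M q hqM A ζ hζ hex 1 (f : h69_F0 (M * q * q) (A.inertiaSubgroupIn ℚ)))) ∧
      (∀ (f : O) (y' : h69_F0 (M * q) (A.inertiaSubgroupIn ℚ)),
        (y' : ↥(modularFunctionFieldBar (M * q))) ∈ (h60_R1 M q hqM A hA).O →
        ((f : h69_F0 (M * q * q) (A.inertiaSubgroupIn ℚ))
            - h70_aF0 (M * q) q (A.inertiaSubgroupIn ℚ) y' = 0 ∨
          0 < h98_w2 M q hqM A ζ hζ hex 1
            ((f : h69_F0 (M * q * q) (A.inertiaSubgroupIn ℚ))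
              - h70_aF0 (M * q) q (A.inertiaSubgroupIn ℚ) y')) →
        ρ f = (h60_R1 M q hqM A hA).redF (y' : ↥(modularFunctionFieldBar (M * q)))) ∧
      (∀ y : h69_F0 M (A.inertiaSubgroupIn ℚ), (y : ↥(modularFunctionFieldBar M)) ∈ RM.O →
        ∃ h : h70_aF0 (M * q) q (A.inertiaSubgroupIn ℚ)
            (h70_aF0 M q (A.inertiaSubgroupIn ℚ) y) ∈ O,
          ρ ⟨_, h⟩ = RM.redF (y : ↥(modularFunctionFieldBar M))) := by
  have hq : q.Prime := Fact.out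
  have he : (0 : ℤ) < (q : ℤ) - 1 := by
    have := hq.two_le
    omega
  obtain ⟨O, ρ, hO, hz, hchar, hlift⟩ := h87_rho_up M q hqM A hA ζ hζ hex 1 0
    (h70_aF0 (M * q) q (A.inertiaSubgroupIn ℚ)) ((q : ℤ) - 1) he
    (h98_hV0a1 M q hqM A hA ζ hζ hex)
    (h98_hV2 M q hqM A hA ζ hζ hex) (h60_R1 M q hqM A hA)
    (h87_rhoF_exists M q hqM A hA ζ hζ hex)
  refine ⟨O, ρ, hO, hz, hchar, ?_⟩
  intro y hy
  have hy1 : ((h70_aF0 M q (A.inertiaSubgroupIn ℚ) y : h69_F0 (M * q) (A.inertiaSubgroupIn ℚ)) :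
      ↥(modularFunctionFieldBar (M * q))) ∈ (h60_R1 M q hqM A hA).O :=
    (h60_R1_alpha_mem_iff M q hqM A hA hRM _).2 hy
  obtain ⟨h, hh⟩ := hlift _ hy1
  refine ⟨h, ?_⟩
  rw [hh]
  exact h60_R1_redF_alpha M q hqM A hA hRM _

include hA hRM in
/-- **`ρ_02`**: the residue map of `C02` (`w2 2`), with values in `Fb(M)`; `ρ (b (β y)) = ȳ`. -/
theorem h87_rho_C02 :
    ∃ (O : Subring (h69_F0 (M * q * q) (A.inertiaSubgroupIn ℚ)))
      (ρ : O →+* ↥(modularFunctionFieldFullC (IsLocalRing.ResidueField A) M)),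
      (∀ f : h69_F0 (M * q * q) (A.inertiaSubgroupIn ℚ),
        f ∈ O ↔ f = 0 ∨ 0 ≤ h98_w2 M q hqM A ζ hζ hex 2 f) ∧
      (∀ f : O, (f : h69_F0 (M * q * q) (A.inertiaSubgroupIn ℚ)) ≠ 0 →
        (ρ f = 0 ↔
          0 < h98_w2 M q hqM A ζ hζ hex 2 (f : h69_F0 (M * q * q) (A.inertiaSubgroupIn ℚ)))) ∧
      (∀ (f : O) (y' : h69_F0 (M * q) (A.inertiaSubgroupIn ℚ)),
        (y' : ↥(modularFunctionFieldBar (M * q))) ∈ (h60_R2 M q hqM A hA).O →
        ((f : h69_F0 (M * q * q) (A.inertiaSubgroupIn ℚ))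
            - h70_bF0 (M * q) q (A.inertiaSubgroupIn ℚ) y' = 0 ∨
          0 < h98_w2 M q hqM A ζ hζ hex 2
            ((f : h69_F0 (M * q * q) (A.inertiaSubgroupIn ℚ))
              - h70_bF0 (M * q) q (A.inertiaSubgroupIn ℚ) y')) →
        ρ f = (h60_R2 M q hqM A hA).redF (y' : ↥(modularFunctionFieldBar (M * q)))) ∧
      (∀ y : h69_F0 M (A.inertiaSubgroupIn ℚ), (y : ↥(modularFunctionFieldBar M)) ∈ RM.O →
        ∃ h : h70_bF0 (M * q) q (A.inertiaSubgroupIn ℚ)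
            (h70_bF0 M q (A.inertiaSubgroupIn ℚ) y) ∈ O,
          ρ ⟨_, h⟩ = RM.redF (y : ↥(modularFunctionFieldBar M))) := by
  obtain ⟨O, ρ, hO, hz, hchar, hlift⟩ := h87_rho_up M q hqM A hA ζ hζ hex 2 1
    (h70_bF0 (M * q) q (A.inertiaSubgroupIn ℚ)) 1 one_pos
    (fun g hg => by rw [one_mul]; exact h98_hV0b2 M q hqM A hA ζ hζ hex g hg)
    (h98_hV1b M q hqM A hA ζ hζ hex) (h60_R2 M q hqM A hA)
    (h87_rhoV_exists M q hqM A hA ζ hζ hex)
  refine ⟨O, ρ, hO, hz, hchar, ?_⟩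
  intro y hy
  have hy1 : ((h70_bF0 M q (A.inertiaSubgroupIn ℚ) y : h69_F0 (M * q) (A.inertiaSubgroupIn ℚ)) :
      ↥(modularFunctionFieldBar (M * q))) ∈ (h60_R2 M q hqM A hA).O :=
    (h60_R2_beta_mem_iff M q hqM A hA hRM _).2 hy
  obtain ⟨h, hh⟩ := hlift _ hy1
  refine ⟨h, ?_⟩
  rw [hh]
  exact h60_R2_redF_beta M q hqM A hA hRM _

end RhoMod

end Fermat.Agent.S36
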