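/-
S36 / row I-CUSP (helper87): **(X3), the residue datum at a point of level `M q²` from the residue
maps `ρ_C` and the inertia-fixed lifts of the affine ring of level `M`.**

* `h87_x3_of_rho` (plug, any chart family `V` of `F0(M q²)`, any branch `i`, any lifting map
  `e : F0(M) → F0(M q²)`): from a residue map `(O, ρ)` of `V.v i` with `ρ ∘ e = red_M`
  (`h87_rho_C20 / C11 / C02`), `e y` regular at `m` for the `y` regular on the `1/j`-chart of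
  level `M`, and `B / m = k` on constants: a residue datum `R : h62_Res V m i Fb(M)` with
  `R.O = O`, `R.ρ = ρ`, `R.o = Q.ord` for a place `Q` of the `1/j̄`-chart of `Fb(M)`.
* `h87_aa_regular`, `h87_aa_mem_B` : `a (α y)` lies in the chart ring of the `1/j`-chart of level
  `M q²` (`h80_famOf .. (j⁻¹) ..`, vertical valuations `h98_w2`) for every inertia-fixed `y ∈ O_M`
  regular on the `1/j`-chart of level `M`.
* `h87_x3_C20`, `h87_x3_C11` : (X3) at every point of the `1/j`-chart through `C20`, resp. `C11`.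
-/
import Mathlib
import Fermat.Agent.S36.h87_RhoMod
import Fermat.Agent.S36.h87_LiftFixed
import Fermat.Agent.S36.h87_ResBuild
import Fermat.Agent.S36.h80_FamInst
import Fermat.Agent.S36.h51_RegA
import Fermat.Agent.S36.h69_DegQ2

set_option autoImplicit false
set_option synthInstance.maxHeartbeats 400000
set_option linter.unusedSectionVars false
set_option linter.style.haveILetI false

noncomputable section

open ModularCurve AlgebraicCurve

namespace Fermat.Agent.S36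

open Fermat.Agent.S34 Fermat.Agent.S37 Fermat.Agent.S24 Fermat.Agent.S35 Fermat.Agent.S18
  Fermat.Agent.GAL Fermat.Agent.S40 Fermat.Agent.S19

local notation "Qb" => AlgebraicClosure ℚ

section X3

variable (M q : ℕ) [NeZero M] [NeZero q] [Fact q.Prime] (hqM : ¬ q ∣ M)
  (A : ValuationSubring Qb) (hA : A.LiesOverPrime q)

include hqM hA in
/-- **(X3), plug.** -/
theorem h87_x3_of_rho {ι : Type*}
    (V : h80_ValFam (h69_F0 (M * q * q) (A.inertiaSubgroupIn ℚ)) ι) (m : Ideal V.B)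
    [hm : m.IsPrime] (i : ι) (hi : V.Through m i) (hch : 5 ≤ q ∨ 2 ∣ M ∨ 3 ∣ M)
    {RM : h39_RedDatum Qb ↥(modularFunctionFieldBar M) (IsLocalRing.ResidueField A)
      ↥(modularFunctionFieldFullC (IsLocalRing.ResidueField A) M)}
    (hRM : h54_IsModRed M A RM)
    (O : Subring (h69_F0 (M * q * q) (A.inertiaSubgroupIn ℚ)))
    (ρ : O →+* ↥(modularFunctionFieldFullC (IsLocalRing.ResidueField A) M))
    (hO : ∀ f : h69_F0 (M * q * q) (A.inertiaSubgroupIn ℚ), f ≠ 0 → 0 ≤ V.v i f → f ∈ O)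
    (hz : ∀ f : O, (f : h69_F0 (M * q * q) (A.inertiaSubgroupIn ℚ)) ≠ 0 →
      (ρ f = 0 ↔ 0 < V.v i (f : h69_F0 (M * q * q) (A.inertiaSubgroupIn ℚ))))
    (e : h69_F0 M (A.inertiaSubgroupIn ℚ) →+* h69_F0 (M * q * q) (A.inertiaSubgroupIn ℚ))
    (he : ∀ y : h69_F0 M (A.inertiaSubgroupIn ℚ), (y : ↥(modularFunctionFieldBar M)) ∈ RM.O →
      ∃ h : e y ∈ O, ρ ⟨e y, h⟩ = RM.redF (y : ↥(modularFunctionFieldBar M)))
    (hec : ∀ (y : h69_F0 M (A.inertiaSubgroupIn ℚ)) (a : Qb),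
      (y : ↥(modularFunctionFieldBar M)) = algebraMap Qb ↥(modularFunctionFieldBar M) a →
      ((e y : h69_F0 (M * q * q) (A.inertiaSubgroupIn ℚ)) : ↥(modularFunctionFieldBar (M * q * q)))
        = algebraMap Qb ↥(modularFunctionFieldBar (M * q * q)) a)
    (hloc : ∀ y : h69_F0 M (A.inertiaSubgroupIn ℚ), (y : ↥(modularFunctionFieldBar M)) ∈ RM.O →
      h39_Reg Qb (h59_jbar M)⁻¹ (y : ↥(modularFunctionFieldBar M)) → V.InLoc m (e y))
    (hK : ∀ s : V.B, ∃ (a : Qb) (_ : a ∈ A) (l : V.B),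
      (((l : h69_F0 (M * q * q) (A.inertiaSubgroupIn ℚ))) : ↥(modularFunctionFieldBar (M * q * q)))
        = algebraMap Qb ↥(modularFunctionFieldBar (M * q * q)) a ∧ s - l ∈ m) :
    ∃ (Q : Place (IsLocalRing.ResidueField A)
        ↥(modularFunctionFieldFullC (IsLocalRing.ResidueField A) M))
      (R : h62_Res V m i ↥(modularFunctionFieldFullC (IsLocalRing.ResidueField A) M)),
      (h54_jk (IsLocalRing.ResidueField A) M)⁻¹ ∈ Q.toValuationSubring ∧ R.o = Q.ord ∧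
      R.O = O ∧ ∀ (f : h69_F0 (M * q * q) (A.inertiaSubgroupIn ℚ)) (h : f ∈ O) (h' : f ∈ R.O),
        R.ρ ⟨f, h'⟩ = ρ ⟨f, h⟩ := by
  classical
  have hq : q.Prime := Fact.out
  haveI hk : IsAlgClosed (IsLocalRing.ResidueField A) := h19_residueField_isAlgClosed A
  have hredj := h54_redF_jbar hRM
  have hw : h39_WeakChart RM (h59_jbar M) := by
    refine ⟨hRM.mem_of_integral _ _ (h54_coe_jbar M A), ?_, h78_finiteDimensional M, ?_, ?_⟩
    · rw [hredj]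
      exact h54_jk_transcendental _ M
    · rw [hredj, h39_mod_finrank_fb M hqM A hA, h78_finrank]
    · rw [hredj]
      exact h39_mod_separable_fb M hqM A hA
  have hjk : h75_IsChart (IsLocalRing.ResidueField A) (RM.redF (h59_jbar M)) :=
    h39_weakChart_isChart_red RM hw
  obtain ⟨hiO, hired⟩ := h39_inv_of_redF_ne_zero RM hjk.ne_zero
  have hxb : h75_IsChart (IsLocalRing.ResidueField A) (RM.redF (h59_jbar M)⁻¹) := by
    rw [hired]
    exact h75_isChart_inv hjk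
  have hxbeq : RM.redF (h59_jbar M)⁻¹ = (h54_jk (IsLocalRing.ResidueField A) M)⁻¹ := by
    rw [hired, hredj]
  -- lifts of the affine ring
  have hlift : ∀ g : ↥(modularFunctionFieldFullC (IsLocalRing.ResidueField A) M),
      h39_Reg (IsLocalRing.ResidueField A) (RM.redF (h59_jbar M)⁻¹) g →
      ∃ f : O, V.InLoc m (f : h69_F0 (M * q * q) (A.inertiaSubgroupIn ℚ)) ∧ ρ f = g := by
    intro g hg
    obtain ⟨f, hfF0, hfO, hfred, hfreg⟩ :=
      h87_lift_fixed M hqM A hA hch hRM (h59_jbar M)⁻¹ (Or.inr rfl) g hg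
    obtain ⟨h, hh⟩ := he ⟨f, hfF0⟩ hfO
    exact ⟨⟨e ⟨f, hfF0⟩, h⟩, hloc ⟨f, hfF0⟩ hfO hfreg, hh.trans hfred⟩
  -- the residue field
  have hB : ∀ s : V.B, ∃ (a : IsLocalRing.ResidueField A) (l : V.B)
      (hl : (l : h69_F0 (M * q * q) (A.inertiaSubgroupIn ℚ)) ∈ O),
      ρ ⟨(l : h69_F0 (M * q * q) (A.inertiaSubgroupIn ℚ)), hl⟩
        = algebraMap (IsLocalRing.ResidueField A)
          ↥(modularFunctionFieldFullC (IsLocalRing.ResidueField A) M) a ∧ s - l ∈ m := by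
    intro s
    obtain ⟨a, ha, l, hl, hsl⟩ := hK s
    have hfix : ∀ σ ∈ A.inertiaSubgroupIn ℚ, σ a = a := by
      refine (h69_algebraMap_mem_F0 (M * q * q) (A.inertiaSubgroupIn ℚ) a).1 ?_
      rw [← hl]
      exact (l : h69_F0 (M * q * q) (A.inertiaSubgroupIn ℚ)).2
    have hyF0 : algebraMap Qb ↥(modularFunctionFieldBar M) a ∈ h69_F0 M (A.inertiaSubgroupIn ℚ) :=
      (h69_algebraMap_mem_F0 M (A.inertiaSubgroupIn ℚ) a).2 hfix
    have haR : a ∈ RM.A := by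
      rw [hRM.A_eq]
      exact ha
    have hyO : algebraMap Qb ↥(modularFunctionFieldBar M) a ∈ RM.O := (RM.mem_iff a).1 haR
    obtain ⟨h, hh⟩ := he ⟨_, hyF0⟩ hyO
    have hel : e ⟨_, hyF0⟩ = (l : h69_F0 (M * q * q) (A.inertiaSubgroupIn ℚ)) := by
      apply Subtype.ext
      rw [hec ⟨_, hyF0⟩ a rfl, hl]
    have hlO : (l : h69_F0 (M * q * q) (A.inertiaSubgroupIn ℚ)) ∈ O := by
      rw [← hel]
      exact h
    refine ⟨RM.res ⟨a, haR⟩, l, hlO, ?_, hsl⟩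
    have h1 : (⟨(l : h69_F0 (M * q * q) (A.inertiaSubgroupIn ℚ)), hlO⟩ : O)
        = ⟨e ⟨_, hyF0⟩, h⟩ := Subtype.ext hel.symm
    rw [h1, hh, RM.redF_of_mem hyO]
    exact RM.red_algebraMap a haR hyO
  have hres := h87_hres_of_B V m i hi O hO ρ hz hB
  obtain ⟨Q, R, hQ, hRo, hRO, hRρ⟩ := h87_exists_res V m i hi O hO ρ hz hxb hlift hres
  refine ⟨Q, R, ?_, hRo, hRO, hRρ⟩
  rw [← hxbeq]
  exact hQ

end X3

/-! ### Regularity of `α`-lifts on the `1/j`-chart -/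

/-- `α` maps the functions regular on the `1/j`-chart of level `N` to functions regular on the
`1/j`-chart of level `N ℓ`. -/
theorem h87_alpha_reg_inv (N ℓ : ℕ) [NeZero N] [NeZero ℓ] (g : ↥(modularFunctionFieldBar N))
    (hg : h39_Reg Qb (h59_jbar N)⁻¹ g) :
    h39_Reg Qb (h59_jbar (N * ℓ))⁻¹ (heckeAlphaBar Qb N ℓ g) := by
  intro P hP
  by_cases hg0 : g = 0
  · rw [hg0, map_zero]
    exact zero_mem _
  have hj0 : h59_jbar N ≠ 0 := h51_jbar_ne_zero N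
  have hj1 : h59_jbar (N * ℓ) ≠ 0 := h51_jbar_ne_zero (N * ℓ)
  have hα := h88_alphaIntegral N ℓ
  have h1 := Place.ord_restrictAlong (heckeAlphaBar Qb N ℓ) hα P (h59_jbar N)⁻¹
  rw [map_inv₀, h88_alpha_jbar] at h1
  have h2 : 0 ≤ P.ord (h59_jbar (N * ℓ))⁻¹ := (h35_mem_iff_ord_nonneg P (inv_ne_zero hj1)).1 hP
  have h3 : (0 : ℤ) < (Place.ramificationIndexAlong (heckeAlphaBar Qb N ℓ) P : ℤ) := by
    exact_mod_cast h51_ramificationIndexAlong_pos (heckeAlphaBar Qb N ℓ) hα P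
  rw [h1] at h2
  have h4 : 0 ≤ (P.restrictAlong (heckeAlphaBar Qb N ℓ) hα).ord (h59_jbar N)⁻¹ :=
    nonneg_of_mul_nonneg_right h2 h3
  have h5 := hg _ ((h35_mem_iff_ord_nonneg _ (inv_ne_zero hj0)).2 h4)
  have h6 := (h35_mem_iff_ord_nonneg _ hg0).1 h5
  have h7 := Place.ord_restrictAlong (heckeAlphaBar Qb N ℓ) hα P g
  refine (h35_mem_iff_ord_nonneg P ((map_ne_zero _).2 hg0)).2 ?_
  rw [h7]
  exact mul_nonneg h3.le h6

/-- Regularity on a chart is transported by an integral embedding of function fields. -/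
theorem h87_reg_along {K F F' : Type*} [Field K] [Field F] [Field F'] [Algebra K F]
    [Algebra K F'] (φ : F →ₐ[K] F') (hφ : φ.toRingHom.IsIntegral) {x g : F} (hx : x ≠ 0)
    (hg : h39_Reg K x g) : h39_Reg K (φ x) (φ g) := by
  intro P hP
  by_cases hg0 : g = 0
  · rw [hg0, map_zero]
    exact zero_mem _
  have h1 := Place.ord_restrictAlong φ hφ P x
  have h2 : 0 ≤ P.ord (φ x) := (h35_mem_iff_ord_nonneg P ((map_ne_zero φ).2 hx)).1 hP
  have h3 : (0 : ℤ) < (Place.ramificationIndexAlong φ P : ℤ) := by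
    exact_mod_cast h51_ramificationIndexAlong_pos φ hφ P
  rw [h1] at h2
  have h4 : 0 ≤ (P.restrictAlong φ hφ).ord x := nonneg_of_mul_nonneg_right h2 h3
  have h5 := hg _ ((h35_mem_iff_ord_nonneg _ hx).2 h4)
  have h6 := (h35_mem_iff_ord_nonneg _ hg0).1 h5
  have h7 := Place.ord_restrictAlong φ hφ P g
  refine (h35_mem_iff_ord_nonneg P ((map_ne_zero φ).2 hg0)).2 ?_
  rw [h7]
  exact mul_nonneg h3.le h6

/-- **A root of a polynomial over the chart ring whose leading coefficient is a unit at `m` lies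
in the local ring at `m`** (the local ring is the intersection of the valuation rings through
`m`, hence integrally closed). -/
theorem h87_inLoc_of_rel {F : Type*} [Field F] {ι : Type*} (V : h80_ValFam F ι) (m : Ideal V.B)
    [hm : m.IsPrime] {u : F} (hu : u ≠ 0) (D : ℕ) (p : ℕ → V.B)
    (hrel : ∑ j ∈ Finset.range (D + 1), (p j : F) * u ^ j = 0) (hD : p D ∉ m) :
    V.InLoc m u := by
  refine (h80_inLoc_iff V m hu).2 (fun i hi => ?_)
  by_contra hneg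
  have hneg' : V.v i u < 0 := not_le.1 hneg
  have ht0 : u⁻¹ ≠ 0 := inv_ne_zero hu
  have htv : 0 < V.v i u⁻¹ := by
    rw [h80_v_inv V i hu]
    omega
  have h1 : (p D : F) = - ∑ j ∈ Finset.range D, (p j : F) * (u⁻¹) ^ (D - j) := by
    rw [Finset.sum_range_succ] at hrel
    have h2 : (p D : F) * u ^ D = - ∑ j ∈ Finset.range D, (p j : F) * u ^ j := by
      linear_combination hrel
    have hD0 : u ^ D ≠ 0 := pow_ne_zero D hu
    have h3 : (p D : F) = (- ∑ j ∈ Finset.range D, (p j : F) * u ^ j) * (u ^ D)⁻¹ := by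
      rw [← h2, mul_assoc, mul_inv_cancel₀ hD0, mul_one]
    rw [h3, neg_mul, Finset.sum_mul]
    congr 1
    refine Finset.sum_congr rfl (fun j hj => ?_)
    have hjD : j < D := Finset.mem_range.1 hj
    rw [mul_assoc]
    congr 1
    have e : u ^ D = u ^ j * u ^ (D - j) := by
      rw [← pow_add]
      congr 1
      omega
    rw [e, inv_pow, mul_inv, ← mul_assoc, mul_inv_cancel₀ (pow_ne_zero j hu), one_mul]
  have hterm : ∀ j ∈ Finset.range D, (p j : F) * (u⁻¹) ^ (D - j) = 0 ∨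
      0 < V.v i ((p j : F) * (u⁻¹) ^ (D - j)) := by
    intro j hj
    have hjD : 1 ≤ D - j := by
      have := Finset.mem_range.1 hj
      omega
    refine h87_nn_mul_pos (V.v i) (V.map_mul i) ?_ (Or.inr ?_)
    · by_cases h0 : (p j : F) = 0
      · exact Or.inl h0
      · exact Or.inr (h80_v_nonneg V i (p j) h0)
    · rw [h80_v_pow V i ht0]
      exact mul_pos (by exact_mod_cast hjD) htv
  have hsum : ∑ j ∈ Finset.range D, (p j : F) * (u⁻¹) ^ (D - j) = 0 ∨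
      0 < V.v i (∑ j ∈ Finset.range D, (p j : F) * (u⁻¹) ^ (D - j)) :=
    Finset.sum_induction _ (fun x => x = 0 ∨ 0 < V.v i x)
      (fun a b ha hb => h87_pos_add (V.v i) (V.map_add i) ha hb) (Or.inl rfl) hterm
  have hpD0 : (p D : F) ≠ 0 := h80_ne_zero_of_not_mem V hD
  have hpDv : V.v i (p D : F) = 0 := h80_through_eq_zero V hi hD
  have h4 := h87_pos_neg (V.v i) (V.map_mul i) hsum
  rw [← h1] at h4
  rcases h4 with h4 | h4
  · exact hpD0 h4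
  · omega

section X3Mod

variable (M q : ℕ) [NeZero M] [NeZero q] [Fact q.Prime] (hqM : ¬ q ∣ M)
  (A : ValuationSubring Qb) (hA : A.LiesOverPrime q) (ζ : Qb) (hζ : IsPrimitiveRoot ζ q)
  (hex : h98_Ex M q hqM A ζ hζ)
  {RM : h39_RedDatum Qb ↥(modularFunctionFieldBar M) (IsLocalRing.ResidueField A)
    ↥(modularFunctionFieldFullC (IsLocalRing.ResidueField A) M)}
  (hRM : h54_IsModRed M A RM)

include hA hRM in
/-- The three vertical valuations are nonnegative on `a (α y)`, `y ∈ O_M` inertia-fixed. -/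
theorem h87_aa_vert (y : h69_F0 M (A.inertiaSubgroupIn ℚ))
    (hy : (y : ↥(modularFunctionFieldBar M)) ∈ RM.O) (hy0 : y ≠ 0) (c : Fin 3) :
    0 ≤ h98_w2 M q hqM A ζ hζ hex c
      (h70_aF0 (M * q) q (A.inertiaSubgroupIn ℚ) (h70_aF0 M q (A.inertiaSubgroupIn ℚ) y)) := by
  have hq : q.Prime := Fact.out
  have hg0 : h70_aF0 M q (A.inertiaSubgroupIn ℚ) y ≠ 0 := (map_ne_zero _).2 hy0
  have hF : 0 ≤ h98_w1 M q hqM A ζ hζ hex 0 (h70_aF0 M q (A.inertiaSubgroupIn ℚ) y) := by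
    obtain ⟨O₁, ρ₁, -, hnn₁, -, -, hO₁⟩ := h87_rhoF_exists M q hqM A hA ζ hζ hex
    have hm : h70_aF0 M q (A.inertiaSubgroupIn ℚ) y ∈ O₁ :=
      (hO₁ _).2 ((h60_R1_alpha_mem_iff M q hqM A hA hRM _).2 hy)
    exact hnn₁ ⟨_, hm⟩ hg0
  have hV : 0 ≤ h98_w1 M q hqM A ζ hζ hex 1 (h70_aF0 M q (A.inertiaSubgroupIn ℚ) y) := by
    obtain ⟨O₁, ρ₁, -, hnn₁, -, -, hO₁⟩ := h87_rhoV_exists M q hqM A hA ζ hζ hex
    have hm : h70_aF0 M q (A.inertiaSubgroupIn ℚ) y ∈ O₁ :=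
      (hO₁ _).2 ((h60_R2_alpha_mem_iff M q hqM A hA hRM _).2 hy)
    exact hnn₁ ⟨_, hm⟩ hg0
  fin_cases c
  · show 0 ≤ h98_w2 M q hqM A ζ hζ hex 0 _
    rw [h98_hV0a0 M q hqM A hA ζ hζ hex _ hg0]
    exact hF
  · show 0 ≤ h98_w2 M q hqM A ζ hζ hex 1 _
    rw [h98_hV0a1 M q hqM A hA ζ hζ hex _ hg0]
    have := hq.one_le
    exact mul_nonneg (by omega) hF
  · show 0 ≤ h98_w2 M q hqM A ζ hζ hex 2 _
    rw [h98_hV0a2 M q hqM A hA ζ hζ hex _ hg0]
    exact hV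

include hA hRM in
/-- **`a (α y)` lies in the chart ring of the `1/j`-chart of level `M q²`.** -/
theorem h87_aa_mem_B (hx : h75_IsChart Qb (h59_jbar (M * q * q))⁻¹)
    (y : h69_F0 M (A.inertiaSubgroupIn ℚ))
    (hy : (y : ↥(modularFunctionFieldBar M)) ∈ RM.O)
    (hreg : h39_Reg Qb (h59_jbar M)⁻¹ (y : ↥(modularFunctionFieldBar M))) :
    h70_aF0 (M * q) q (A.inertiaSubgroupIn ℚ) (h70_aF0 M q (A.inertiaSubgroupIn ℚ) y) ∈
      (h80_famOf (M * q * q) (A.inertiaSubgroupIn ℚ) (h98_w2 M q hqM A ζ hζ hex)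
        (h98_hw2mul M q hqM A hA ζ hζ hex) (h98_hw2add M q hqM A hA ζ hζ hex)
        (h59_jbar (M * q * q))⁻¹ hx).B := by
  rw [h80_mem_famOf_B]
  by_cases hy0 : y = 0
  · left
    rw [hy0, map_zero, map_zero]
  right
  refine ⟨fun c => h87_aa_vert M q hqM A hA ζ hζ hex hRM y hy hy0 c, fun P hP => ?_⟩
  have h1 := h87_alpha_reg_inv (M * q) q _ (h87_alpha_reg_inv M q _ hreg)
  have hj : (h59_jbar (M * q * q))⁻¹ ≠ 0 := inv_ne_zero (h51_jbar_ne_zero (M * q * q))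
  have h2 := h1 P ((h35_mem_iff_ord_nonneg P hj).2 hP)
  have hne : heckeAlphaBar Qb (M * q) q (heckeAlphaBar Qb M q (y : ↥(modularFunctionFieldBar M)))
      ≠ 0 := by
    refine (map_ne_zero _).2 ((map_ne_zero _).2 ?_)
    exact fun h => hy0 (Subtype.ext h)
  exact (h35_mem_iff_ord_nonneg P hne).1 h2

include hqM hA hRM in
/-- **(X3) on `C20`** at a point of the `1/j`-chart of level `M q²`. -/
theorem h87_x3_C20 (hch : 5 ≤ q ∨ 2 ∣ M ∨ 3 ∣ M)
    (hx : h75_IsChart Qb (h59_jbar (M * q * q))⁻¹)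
    (m : Ideal (h80_famOf (M * q * q) (A.inertiaSubgroupIn ℚ) (h98_w2 M q hqM A ζ hζ hex)
        (h98_hw2mul M q hqM A hA ζ hζ hex) (h98_hw2add M q hqM A hA ζ hζ hex)
        (h59_jbar (M * q * q))⁻¹ hx).B) [hm : m.IsPrime]
    (hi : (h80_famOf (M * q * q) (A.inertiaSubgroupIn ℚ) (h98_w2 M q hqM A ζ hζ hex)
        (h98_hw2mul M q hqM A hA ζ hζ hex) (h98_hw2add M q hqM A hA ζ hζ hex)
        (h59_jbar (M * q * q))⁻¹ hx).Through m (Sum.inl 0))
    (hK : ∀ s : (h80_famOf (M * q * q) (A.inertiaSubgroupIn ℚ) (h98_w2 M q hqM A ζ hζ hex)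
        (h98_hw2mul M q hqM A hA ζ hζ hex) (h98_hw2add M q hqM A hA ζ hζ hex)
        (h59_jbar (M * q * q))⁻¹ hx).B, ∃ (a : Qb) (_ : a ∈ A)
        (l : (h80_famOf (M * q * q) (A.inertiaSubgroupIn ℚ) (h98_w2 M q hqM A ζ hζ hex)
        (h98_hw2mul M q hqM A hA ζ hζ hex) (h98_hw2add M q hqM A hA ζ hζ hex)
        (h59_jbar (M * q * q))⁻¹ hx).B),
      (((l : h69_F0 (M * q * q) (A.inertiaSubgroupIn ℚ))) : ↥(modularFunctionFieldBar (M * q * q)))
        = algebraMap Qb ↥(modularFunctionFieldBar (M * q * q)) a ∧ s - l ∈ m) :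
    ∃ (Q : Place (IsLocalRing.ResidueField A)
        ↥(modularFunctionFieldFullC (IsLocalRing.ResidueField A) M))
      (R : h62_Res (h80_famOf (M * q * q) (A.inertiaSubgroupIn ℚ) (h98_w2 M q hqM A ζ hζ hex)
        (h98_hw2mul M q hqM A hA ζ hζ hex) (h98_hw2add M q hqM A hA ζ hζ hex)
        (h59_jbar (M * q * q))⁻¹ hx) m (Sum.inl 0)
        ↥(modularFunctionFieldFullC (IsLocalRing.ResidueField A) M)),
      (h54_jk (IsLocalRing.ResidueField A) M)⁻¹ ∈ Q.toValuationSubring ∧ R.o = Q.ord ∧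
      (∀ f : h69_F0 (M * q * q) (A.inertiaSubgroupIn ℚ),
        f ∈ R.O ↔ f = 0 ∨ 0 ≤ h98_w2 M q hqM A ζ hζ hex 0 f) ∧
      (∀ (f : R.O) (y' : h69_F0 (M * q) (A.inertiaSubgroupIn ℚ)),
        (y' : ↥(modularFunctionFieldBar (M * q))) ∈ (h60_R1 M q hqM A hA).O →
        ((f : h69_F0 (M * q * q) (A.inertiaSubgroupIn ℚ))
            - h70_aF0 (M * q) q (A.inertiaSubgroupIn ℚ) y' = 0 ∨
          0 < h98_w2 M q hqM A ζ hζ hex 0
            ((f : h69_F0 (M * q * q) (A.inertiaSubgroupIn ℚ))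
              - h70_aF0 (M * q) q (A.inertiaSubgroupIn ℚ) y')) →
        R.ρ f = (h60_R1 M q hqM A hA).redF (y' : ↥(modularFunctionFieldBar (M * q)))) ∧
      (∀ y : h69_F0 M (A.inertiaSubgroupIn ℚ), (y : ↥(modularFunctionFieldBar M)) ∈ RM.O →
        ∃ h : h70_aF0 (M * q) q (A.inertiaSubgroupIn ℚ)
            (h70_aF0 M q (A.inertiaSubgroupIn ℚ) y) ∈ R.O,
          R.ρ ⟨_, h⟩ = RM.redF (y : ↥(modularFunctionFieldBar M))) := by
  obtain ⟨O, ρ, hO, hz, hchar, hlift⟩ := h87_rho_C20 M q hqM A hA ζ hζ hex hRM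
  obtain ⟨Q, R, hQ, hRo, hRO, hRρ⟩ := h87_x3_of_rho M q hqM A hA _ m (Sum.inl 0) hi hch hRM O ρ
    (fun f hf h => (hO f).2 (Or.inr h)) hz
    ((h70_aF0 (M * q) q (A.inertiaSubgroupIn ℚ)).comp (h70_aF0 M q (A.inertiaSubgroupIn ℚ)))
    hlift
    (fun y a hya => by
      show heckeAlphaBar Qb (M * q) q (heckeAlphaBar Qb M q (y : ↥(modularFunctionFieldBar M)))
        = _
      rw [hya, AlgHom.commutes, AlgHom.commutes])
    (fun y hy hreg => ⟨⟨_, h87_aa_mem_B M q hqM A hA ζ hζ hex hRM hx y hy hreg⟩, 1,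
      fun h => hm.ne_top ((Ideal.eq_top_iff_one _).2 h), by
        rw [OneMemClass.coe_one, one_mul]
        rfl⟩) hK
  refine ⟨Q, R, hQ, hRo, ?_, ?_, ?_⟩
  · intro f
    rw [hRO]
    exact hO f
  · intro f y' hy' h
    have hf : (f : h69_F0 (M * q * q) (A.inertiaSubgroupIn ℚ)) ∈ O := hRO ▸ f.2
    have h1 := hRρ _ hf f.2
    have h2 := hchar ⟨_, hf⟩ y' hy' h
    rw [← h2, ← h1]
  · intro y hy
    obtain ⟨h, hh⟩ := hlift y hy
    have h' : h70_aF0 (M * q) q (A.inertiaSubgroupIn ℚ)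
        (h70_aF0 M q (A.inertiaSubgroupIn ℚ) y) ∈ R.O := hRO ▸ h
    exact ⟨h', (hRρ _ h h').trans hh⟩

include hqM hA hRM in
/-- **(X3) on `C11`** at a point of the `1/j`-chart of level `M q²`. -/
theorem h87_x3_C11 (hch : 5 ≤ q ∨ 2 ∣ M ∨ 3 ∣ M)
    (hx : h75_IsChart Qb (h59_jbar (M * q * q))⁻¹)
    (m : Ideal (h80_famOf (M * q * q) (A.inertiaSubgroupIn ℚ) (h98_w2 M q hqM A ζ hζ hex)
        (h98_hw2mul M q hqM A hA ζ hζ hex) (h98_hw2add M q hqM A hA ζ hζ hex)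
        (h59_jbar (M * q * q))⁻¹ hx).B) [hm : m.IsPrime]
    (hi : (h80_famOf (M * q * q) (A.inertiaSubgroupIn ℚ) (h98_w2 M q hqM A ζ hζ hex)
        (h98_hw2mul M q hqM A hA ζ hζ hex) (h98_hw2add M q hqM A hA ζ hζ hex)
        (h59_jbar (M * q * q))⁻¹ hx).Through m (Sum.inl 1))
    (hK : ∀ s : (h80_famOf (M * q * q) (A.inertiaSubgroupIn ℚ) (h98_w2 M q hqM A ζ hζ hex)
        (h98_hw2mul M q hqM A hA ζ hζ hex) (h98_hw2add M q hqM A hA ζ hζ hex)
        (h59_jbar (M * q * q))⁻¹ hx).B, ∃ (a : Qb) (_ : a ∈ A)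
        (l : (h80_famOf (M * q * q) (A.inertiaSubgroupIn ℚ) (h98_w2 M q hqM A ζ hζ hex)
        (h98_hw2mul M q hqM A hA ζ hζ hex) (h98_hw2add M q hqM A hA ζ hζ hex)
        (h59_jbar (M * q * q))⁻¹ hx).B),
      (((l : h69_F0 (M * q * q) (A.inertiaSubgroupIn ℚ))) : ↥(modularFunctionFieldBar (M * q * q)))
        = algebraMap Qb ↥(modularFunctionFieldBar (M * q * q)) a ∧ s - l ∈ m) :
    ∃ (Q : Place (IsLocalRing.ResidueField A)
        ↥(modularFunctionFieldFullC (IsLocalRing.ResidueField A) M))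
      (R : h62_Res (h80_famOf (M * q * q) (A.inertiaSubgroupIn ℚ) (h98_w2 M q hqM A ζ hζ hex)
        (h98_hw2mul M q hqM A hA ζ hζ hex) (h98_hw2add M q hqM A hA ζ hζ hex)
        (h59_jbar (M * q * q))⁻¹ hx) m (Sum.inl 1)
        ↥(modularFunctionFieldFullC (IsLocalRing.ResidueField A) M)),
      (h54_jk (IsLocalRing.ResidueField A) M)⁻¹ ∈ Q.toValuationSubring ∧ R.o = Q.ord ∧
      (∀ f : h69_F0 (M * q * q) (A.inertiaSubgroupIn ℚ),
        f ∈ R.O ↔ f = 0 ∨ 0 ≤ h98_w2 M q hqM A ζ hζ hex 1 f) ∧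
      (∀ (f : R.O) (y' : h69_F0 (M * q) (A.inertiaSubgroupIn ℚ)),
        (y' : ↥(modularFunctionFieldBar (M * q))) ∈ (h60_R1 M q hqM A hA).O →
        ((f : h69_F0 (M * q * q) (A.inertiaSubgroupIn ℚ))
            - h70_aF0 (M * q) q (A.inertiaSubgroupIn ℚ) y' = 0 ∨
          0 < h98_w2 M q hqM A ζ hζ hex 1
            ((f : h69_F0 (M * q * q) (A.inertiaSubgroupIn ℚ))
              - h70_aF0 (M * q) q (A.inertiaSubgroupIn ℚ) y')) →
        R.ρ f = (h60_R1 M q hqM A hA).redF (y' : ↥(modularFunctionFieldBar (M * q)))) ∧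
      (∀ y : h69_F0 M (A.inertiaSubgroupIn ℚ), (y : ↥(modularFunctionFieldBar M)) ∈ RM.O →
        ∃ h : h70_aF0 (M * q) q (A.inertiaSubgroupIn ℚ)
            (h70_aF0 M q (A.inertiaSubgroupIn ℚ) y) ∈ R.O,
          R.ρ ⟨_, h⟩ = RM.redF (y : ↥(modularFunctionFieldBar M))) := by
  obtain ⟨O, ρ, hO, hz, hchar, hlift⟩ := h87_rho_C11 M q hqM A hA ζ hζ hex hRM
  obtain ⟨Q, R, hQ, hRo, hRO, hRρ⟩ := h87_x3_of_rho M q hqM A hA _ m (Sum.inl 1) hi hch hRM O ρ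
    (fun f hf h => (hO f).2 (Or.inr h)) hz
    ((h70_aF0 (M * q) q (A.inertiaSubgroupIn ℚ)).comp (h70_aF0 M q (A.inertiaSubgroupIn ℚ)))
    hlift
    (fun y a hya => by
      show heckeAlphaBar Qb (M * q) q (heckeAlphaBar Qb M q (y : ↥(modularFunctionFieldBar M)))
        = _
      rw [hya, AlgHom.commutes, AlgHom.commutes])
    (fun y hy hreg => ⟨⟨_, h87_aa_mem_B M q hqM A hA ζ hζ hex hRM hx y hy hreg⟩, 1,
      fun h => hm.ne_top ((Ideal.eq_top_iff_one _).2 h), by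
        rw [OneMemClass.coe_one, one_mul]
        rfl⟩) hK
  refine ⟨Q, R, hQ, hRo, ?_, ?_, ?_⟩
  · intro f
    rw [hRO]
    exact hO f
  · intro f y' hy' h
    have hf : (f : h69_F0 (M * q * q) (A.inertiaSubgroupIn ℚ)) ∈ O := hRO ▸ f.2
    have h1 := hRρ _ hf f.2
    have h2 := hchar ⟨_, hf⟩ y' hy' h
    rw [← h2, ← h1]
  · intro y hy
    obtain ⟨h, hh⟩ := hlift y hy
    have h' : h70_aF0 (M * q) q (A.inertiaSubgroupIn ℚ)
        (h70_aF0 M q (A.inertiaSubgroupIn ℚ) y) ∈ R.O := hRO ▸ h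
    exact ⟨h', (hRρ _ h h').trans hh⟩

include hA hRM in
/-- The three vertical valuations are nonnegative on `b (β y)`, `y ∈ O_M` inertia-fixed. -/
theorem h87_bb_vert (y : h69_F0 M (A.inertiaSubgroupIn ℚ))
    (hy : (y : ↥(modularFunctionFieldBar M)) ∈ RM.O) (hy0 : y ≠ 0) (c : Fin 3) :
    0 ≤ h98_w2 M q hqM A ζ hζ hex c
      (h70_bF0 (M * q) q (A.inertiaSubgroupIn ℚ) (h70_bF0 M q (A.inertiaSubgroupIn ℚ) y)) := by
  have hq : q.Prime := Fact.out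
  have hg0 : h70_bF0 M q (A.inertiaSubgroupIn ℚ) y ≠ 0 := (map_ne_zero _).2 hy0
  have hF : 0 ≤ h98_w1 M q hqM A ζ hζ hex 0 (h70_bF0 M q (A.inertiaSubgroupIn ℚ) y) := by
    obtain ⟨O₁, ρ₁, -, hnn₁, -, -, hO₁⟩ := h87_rhoF_exists M q hqM A hA ζ hζ hex
    have hm : h70_bF0 M q (A.inertiaSubgroupIn ℚ) y ∈ O₁ :=
      (hO₁ _).2 ((h60_R1_beta_mem_iff M q hqM A hA hRM _).2 hy)
    exact hnn₁ ⟨_, hm⟩ hg0
  have hV : 0 ≤ h98_w1 M q hqM A ζ hζ hex 1 (h70_bF0 M q (A.inertiaSubgroupIn ℚ) y) := by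
    obtain ⟨O₁, ρ₁, -, hnn₁, -, -, hO₁⟩ := h87_rhoV_exists M q hqM A hA ζ hζ hex
    have hm : h70_bF0 M q (A.inertiaSubgroupIn ℚ) y ∈ O₁ :=
      (hO₁ _).2 ((h60_R2_beta_mem_iff M q hqM A hA hRM _).2 hy)
    exact hnn₁ ⟨_, hm⟩ hg0
  fin_cases c
  · show 0 ≤ h98_w2 M q hqM A ζ hζ hex 0 _
    rw [h98_hV0b0 M q hqM A hA ζ hζ hex _ hg0]
    exact hF
  · show 0 ≤ h98_w2 M q hqM A ζ hζ hex 1 _
    rw [h98_hV0b1 M q hqM A hA ζ hζ hex _ hg0]
    have := hq.one_le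
    exact mul_nonneg (by omega) hV
  · show 0 ≤ h98_w2 M q hqM A ζ hζ hex 2 _
    rw [h98_hV0b2 M q hqM A hA ζ hζ hex _ hg0]
    exact hV

include hA hRM in
/-- **`b (β y)` is regular at a point `m` of the `1/j`-chart of level `M q²` through which no
zero of `J₂ = b (β j)` passes** (`1 / J₂ ∈ B_m`). -/
theorem h87_bb_inLoc (hx : h75_IsChart Qb (h59_jbar (M * q * q))⁻¹)
    (m : Ideal (h80_famOf (M * q * q) (A.inertiaSubgroupIn ℚ) (h98_w2 M q hqM A ζ hζ hex)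
        (h98_hw2mul M q hqM A hA ζ hζ hex) (h98_hw2add M q hqM A hA ζ hζ hex)
        (h59_jbar (M * q * q))⁻¹ hx).B) [hm : m.IsPrime]
    (hJ2 : (h80_famOf (M * q * q) (A.inertiaSubgroupIn ℚ) (h98_w2 M q hqM A ζ hζ hex)
        (h98_hw2mul M q hqM A hA ζ hζ hex) (h98_hw2add M q hqM A hA ζ hζ hex)
        (h59_jbar (M * q * q))⁻¹ hx).InLoc m
      (h70_bF0 (M * q) q (A.inertiaSubgroupIn ℚ)
        (h70_bF0 M q (A.inertiaSubgroupIn ℚ) (h69_jF0 M (A.inertiaSubgroupIn ℚ))))⁻¹)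
    (y : h69_F0 M (A.inertiaSubgroupIn ℚ))
    (hy : (y : ↥(modularFunctionFieldBar M)) ∈ RM.O)
    (hreg : h39_Reg Qb (h59_jbar M)⁻¹ (y : ↥(modularFunctionFieldBar M))) :
    (h80_famOf (M * q * q) (A.inertiaSubgroupIn ℚ) (h98_w2 M q hqM A ζ hζ hex)
        (h98_hw2mul M q hqM A hA ζ hζ hex) (h98_hw2add M q hqM A hA ζ hζ hex)
        (h59_jbar (M * q * q))⁻¹ hx).InLoc m
      (h70_bF0 (M * q) q (A.inertiaSubgroupIn ℚ) (h70_bF0 M q (A.inertiaSubgroupIn ℚ) y)) := by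
  have h1m : (1 : (h80_famOf (M * q * q) (A.inertiaSubgroupIn ℚ) (h98_w2 M q hqM A ζ hζ hex)
        (h98_hw2mul M q hqM A hA ζ hζ hex) (h98_hw2add M q hqM A hA ζ hζ hex)
        (h59_jbar (M * q * q))⁻¹ hx).B) ∉ m := fun h => hm.ne_top ((Ideal.eq_top_iff_one _).2 h)
  by_cases hy0 : y = 0
  · rw [hy0, map_zero, map_zero]
    exact ⟨0, 1, h1m, by simp⟩
  have hf0 : h70_bF0 (M * q) q (A.inertiaSubgroupIn ℚ)
      (h70_bF0 M q (A.inertiaSubgroupIn ℚ) y) ≠ 0 := (map_ne_zero _).2 ((map_ne_zero _).2 hy0)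
  have hjM : h59_jbar M ≠ 0 := h51_jbar_ne_zero M
  have hJ2ne : (h70_bF0 (M * q) q (A.inertiaSubgroupIn ℚ)
      (h70_bF0 M q (A.inertiaSubgroupIn ℚ) (h69_jF0 M (A.inertiaSubgroupIn ℚ))))⁻¹ ≠ 0 := by
    refine inv_ne_zero ((map_ne_zero _).2 ((map_ne_zero _).2 ?_))
    exact fun h => hjM (congrArg Subtype.val h)
  refine (h80_inLoc_iff _ m hf0).2 (fun i hi => ?_)
  rcases i with c | j
  · exact h87_bb_vert M q hqM A hA ζ hζ hex hRM y hy hy0 c
  · obtain ⟨P, hP, hPi⟩ := h80_famOf_hor (κ := Fin 3) (M * q * q) (A.inertiaSubgroupIn ℚ)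
      (h59_jbar (M * q * q))⁻¹ (Sum.inr j) ⟨j, rfl⟩
    obtain rfl : j = h80_horMk _ ⟨P, hP⟩ := Sum.inr.inj hPi
    have h1 := (h80_inLoc_iff _ m hJ2ne).1 hJ2 _ hi
    have h2 : 0 ≤ P.ord (heckeBetaBar Qb (M * q) q (heckeBetaBar Qb M q (h59_jbar M)))⁻¹ := h1
    have hreg1 := h87_reg_along (heckeBetaBar Qb M q) (h88_betaIntegral M q) (inv_ne_zero hjM) hreg
    have hne1 : heckeBetaBar Qb M q (h59_jbar M)⁻¹ ≠ 0 := (map_ne_zero _).2 (inv_ne_zero hjM)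
    have hreg2 := h87_reg_along (heckeBetaBar Qb (M * q) q) (h88_betaIntegral (M * q) q) hne1 hreg1
    rw [map_inv₀, map_inv₀] at hreg2
    have hne2 : (heckeBetaBar Qb (M * q) q (heckeBetaBar Qb M q (h59_jbar M)))⁻¹ ≠ 0 :=
      inv_ne_zero ((map_ne_zero _).2 ((map_ne_zero _).2 hjM))
    have h3 := hreg2 P ((h35_mem_iff_ord_nonneg P hne2).2 h2)
    have hne3 : heckeBetaBar Qb (M * q) q (heckeBetaBar Qb M q (y : ↥(modularFunctionFieldBar M)))
        ≠ 0 := by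
      refine (map_ne_zero _).2 ((map_ne_zero _).2 ?_)
      exact fun h => hy0 (Subtype.ext h)
    exact (h35_mem_iff_ord_nonneg P hne3).1 h3

include hqM hA hRM in
/-- **(X3) on `C02`** at a point of the `1/j`-chart of level `M q²` through which no zero of
`J₂ = b (β j)` passes. -/
theorem h87_x3_C02 (hch : 5 ≤ q ∨ 2 ∣ M ∨ 3 ∣ M)
    (hx : h75_IsChart Qb (h59_jbar (M * q * q))⁻¹)
    (m : Ideal (h80_famOf (M * q * q) (A.inertiaSubgroupIn ℚ) (h98_w2 M q hqM A ζ hζ hex)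
        (h98_hw2mul M q hqM A hA ζ hζ hex) (h98_hw2add M q hqM A hA ζ hζ hex)
        (h59_jbar (M * q * q))⁻¹ hx).B) [hm : m.IsPrime]
    (hi : (h80_famOf (M * q * q) (A.inertiaSubgroupIn ℚ) (h98_w2 M q hqM A ζ hζ hex)
        (h98_hw2mul M q hqM A hA ζ hζ hex) (h98_hw2add M q hqM A hA ζ hζ hex)
        (h59_jbar (M * q * q))⁻¹ hx).Through m (Sum.inl 2))
    (hJ2 : (h80_famOf (M * q * q) (A.inertiaSubgroupIn ℚ) (h98_w2 M q hqM A ζ hζ hex)
        (h98_hw2mul M q hqM A hA ζ hζ hex) (h98_hw2add M q hqM A hA ζ hζ hex)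
        (h59_jbar (M * q * q))⁻¹ hx).InLoc m
      (h70_bF0 (M * q) q (A.inertiaSubgroupIn ℚ)
        (h70_bF0 M q (A.inertiaSubgroupIn ℚ) (h69_jF0 M (A.inertiaSubgroupIn ℚ))))⁻¹)
    (hK : ∀ s : (h80_famOf (M * q * q) (A.inertiaSubgroupIn ℚ) (h98_w2 M q hqM A ζ hζ hex)
        (h98_hw2mul M q hqM A hA ζ hζ hex) (h98_hw2add M q hqM A hA ζ hζ hex)
        (h59_jbar (M * q * q))⁻¹ hx).B, ∃ (a : Qb) (_ : a ∈ A)
        (l : (h80_famOf (M * q * q) (A.inertiaSubgroupIn ℚ) (h98_w2 M q hqM A ζ hζ hex)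
        (h98_hw2mul M q hqM A hA ζ hζ hex) (h98_hw2add M q hqM A hA ζ hζ hex)
        (h59_jbar (M * q * q))⁻¹ hx).B),
      (((l : h69_F0 (M * q * q) (A.inertiaSubgroupIn ℚ))) : ↥(modularFunctionFieldBar (M * q * q)))
        = algebraMap Qb ↥(modularFunctionFieldBar (M * q * q)) a ∧ s - l ∈ m) :
    ∃ (Q : Place (IsLocalRing.ResidueField A)
        ↥(modularFunctionFieldFullC (IsLocalRing.ResidueField A) M))
      (R : h62_Res (h80_famOf (M * q * q) (A.inertiaSubgroupIn ℚ) (h98_w2 M q hqM A ζ hζ hex)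
        (h98_hw2mul M q hqM A hA ζ hζ hex) (h98_hw2add M q hqM A hA ζ hζ hex)
        (h59_jbar (M * q * q))⁻¹ hx) m (Sum.inl 2)
        ↥(modularFunctionFieldFullC (IsLocalRing.ResidueField A) M)),
      (h54_jk (IsLocalRing.ResidueField A) M)⁻¹ ∈ Q.toValuationSubring ∧ R.o = Q.ord ∧
      (∀ f : h69_F0 (M * q * q) (A.inertiaSubgroupIn ℚ),
        f ∈ R.O ↔ f = 0 ∨ 0 ≤ h98_w2 M q hqM A ζ hζ hex 2 f) ∧
      (∀ (f : R.O) (y' : h69_F0 (M * q) (A.inertiaSubgroupIn ℚ)),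
        (y' : ↥(modularFunctionFieldBar (M * q))) ∈ (h60_R2 M q hqM A hA).O →
        ((f : h69_F0 (M * q * q) (A.inertiaSubgroupIn ℚ))
            - h70_bF0 (M * q) q (A.inertiaSubgroupIn ℚ) y' = 0 ∨
          0 < h98_w2 M q hqM A ζ hζ hex 2
            ((f : h69_F0 (M * q * q) (A.inertiaSubgroupIn ℚ))
              - h70_bF0 (M * q) q (A.inertiaSubgroupIn ℚ) y')) →
        R.ρ f = (h60_R2 M q hqM A hA).redF (y' : ↥(modularFunctionFieldBar (M * q)))) ∧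
      (∀ y : h69_F0 M (A.inertiaSubgroupIn ℚ), (y : ↥(modularFunctionFieldBar M)) ∈ RM.O →
        ∃ h : h70_bF0 (M * q) q (A.inertiaSubgroupIn ℚ)
            (h70_bF0 M q (A.inertiaSubgroupIn ℚ) y) ∈ R.O,
          R.ρ ⟨_, h⟩ = RM.redF (y : ↥(modularFunctionFieldBar M))) := by
  obtain ⟨O, ρ, hO, hz, hchar, hlift⟩ := h87_rho_C02 M q hqM A hA ζ hζ hex hRM
  obtain ⟨Q, R, hQ, hRo, hRO, hRρ⟩ := h87_x3_of_rho M q hqM A hA _ m (Sum.inl 2) hi hch hRM O ρ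
    (fun f hf h => (hO f).2 (Or.inr h)) hz
    ((h70_bF0 (M * q) q (A.inertiaSubgroupIn ℚ)).comp (h70_bF0 M q (A.inertiaSubgroupIn ℚ)))
    hlift
    (fun y a hya => by
      show heckeBetaBar Qb (M * q) q (heckeBetaBar Qb M q (y : ↥(modularFunctionFieldBar M)))
        = _
      rw [hya, AlgHom.commutes, AlgHom.commutes])
    (fun y hy hreg => h87_bb_inLoc M q hqM A hA ζ hζ hex hRM hx m hJ2 y hy hreg) hK
  refine ⟨Q, R, hQ, hRo, ?_, ?_, ?_⟩
  · intro f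
    rw [hRO]
    exact hO f
  · intro f y' hy' h
    have hf : (f : h69_F0 (M * q * q) (A.inertiaSubgroupIn ℚ)) ∈ O := hRO ▸ f.2
    have h1 := hRρ _ hf f.2
    have h2 := hchar ⟨_, hf⟩ y' hy' h
    rw [← h2, ← h1]
  · intro y hy
    obtain ⟨h, hh⟩ := hlift y hy
    have h' : h70_bF0 (M * q) q (A.inertiaSubgroupIn ℚ)
        (h70_bF0 M q (A.inertiaSubgroupIn ℚ) y) ∈ R.O := hRO ▸ h
    exact ⟨h', (hRρ _ h h').trans hh⟩

end X3Mod

end Fermat.Agent.S36
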