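/-
S36 / row I-CUSP (helper87): **(X3) in closed form** at the points at infinity of the chart `1/j`
of level `M q²`.

`V2 := h80_fam2 (M q²) I (h98_w2 ..)`.  For a maximal ideal `m ∋ q` of the chart ring with
`1/j ∈ m` (binders `a`, `ham`, `haJ` as in `h16_nz2` / `h16_cusp_premise`) and every vertical
`c : Fin 3` through `m`:

* `h87_x3_closed` : a residue datum `R : h62_Res V2 m (Sum.inl c) Fb(M)` with `R.o = Q.ord` for a
  place `Q` of `Fb(M)` on the chart `1/j̄`;
* `h87_x3_hX3` : the binder `hX3` of `h46_cusp_out` at that point;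
* `h87_hK_q2b` : (RESK) on constants at `V2`: every element of the chart ring is congruent modulo
  `m` to a constant of `A`.

The only side condition is the charted-level hypothesis `5 ≤ q ∨ 2 ∣ M ∨ 3 ∣ M` of
`h29_S36_of_charted`.
-/
import Mathlib
import Fermat.Agent.S36.h87_X3
import Fermat.Agent.S36.h65_NoethQ2b
import Fermat.Agent.S36.h16_CuspNZ2
import Fermat.Agent.S36.h89_ResK
import Fermat.Agent.S18.h39_Mod

set_option autoImplicit false
set_option synthInstance.maxHeartbeats 400000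
set_option linter.unusedSectionVars false
set_option linter.style.haveILetI false

noncomputable section

open ModularCurve AlgebraicCurve

namespace Fermat.Agent.S36

open Fermat.Agent.S34 Fermat.Agent.S37 Fermat.Agent.S24 Fermat.Agent.S35 Fermat.Agent.S18
  Fermat.Agent.GAL Fermat.Agent.S40 Fermat.Agent.S19

local notation "Qb" => AlgebraicClosure ℚ

section X3Closed

variable (M q : ℕ) [NeZero M] [NeZero q] [Fact q.Prime] (hqM : ¬ q ∣ M)
  (A : ValuationSubring Qb) (hA : A.LiesOverPrime q) (ζ : Qb) (hζ : IsPrimitiveRoot ζ q)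
  (hex : h98_Ex M q hqM A ζ hζ)

local notation "V2" => h80_fam2 (M * q * q) (A.inertiaSubgroupIn ℚ) (h98_w2 M q hqM A ζ hζ hex)
  (h98_hw2mul M q hqM A hA ζ hζ hex) (h98_hw2add M q hqM A hA ζ hζ hex)

/-- **(RESK) on constants, chart `1/j` of level `M q²`**: every element of the chart ring is
congruent modulo a maximal ideal `m ∋ q` to a constant of `A`. -/
theorem h87_hK_q2b (m : Ideal (V2).B) (hm : m.IsMaximal) (hqm : ((q : ℕ) : (V2).B) ∈ m)
    (s : (V2).B) :
    ∃ (a : Qb) (_ : a ∈ A) (l : (V2).B),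
      (((l : h69_F0 (M * q * q) (A.inertiaSubgroupIn ℚ))) : ↥(modularFunctionFieldBar (M * q * q)))
        = algebraMap Qb ↥(modularFunctionFieldBar (M * q * q)) a ∧ s - l ∈ m := by
  have hx0 : h69_jF0 (M * q * q) (A.inertiaSubgroupIn ℚ) ≠ 0 := fun h =>
    h59_jbar_transcendental (M * q * q)
      (by rw [show h59_jbar (M * q * q) = 0 from congrArg Subtype.val h]; exact isAlgebraic_zero)
  obtain ⟨a, ha, hab⟩ := @h89_resK (M * q * q) _ q _ A _ _
    (h69_jF0 (M * q * q) (A.inertiaSubgroupIn ℚ))⁻¹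
    (h75_isChart_inv (h54_isChart_jbar (M * q * q))) (h98_w2 M q hqM A ζ hζ hex)
    (h98_hw2mul M q hqM A hA ζ hζ hex) (h98_hw2add M q hqM A hA ζ hζ hex) hA
    (h65_hwA_of_hR (M * q * q) A _ _ (h91_hR_w98 M q hqM A hA ζ hζ hex))
    (fun c => h91_hR_w98 M q hqM A hA ζ hζ hex c _
      (h75_gaussRing_x_inv (h69_A0 A) hx0) (inv_ne_zero hx0))
    (h65_noeth_q2b M q hqM A hA ζ hζ hex).2 m hm hqm s
  exact ⟨(a : Qb), ha, _, h69_inst_comm (M * q * q) (A.inertiaSubgroupIn ℚ) a, hab⟩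

include hqM in
/-- **(X3), closed**: the residue datum of every vertical through a point at infinity of the
chart `1/j` of level `M q²`. -/
theorem h87_x3_closed (hch : 5 ≤ q ∨ 2 ∣ M ∨ 3 ∣ M) (m : Ideal (V2).B) (hm : m.IsMaximal)
    (hqm : ((q : ℕ) : (V2).B) ∈ m) (a : (V2).B) (ham : a ∈ m)
    (haJ : (a : h69_F0 (M * q * q) (A.inertiaSubgroupIn ℚ))
      * h16_J0F M q (A.inertiaSubgroupIn ℚ) = 1)
    (c : Fin 3) (hc : (V2).Through m (Sum.inl c)) :
    ∃ (Q : Place (IsLocalRing.ResidueField A)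
        ↥(modularFunctionFieldFullC (IsLocalRing.ResidueField A) M))
      (R : h62_Res (V2) m (Sum.inl c)
        ↥(modularFunctionFieldFullC (IsLocalRing.ResidueField A) M)),
      (h54_jk (IsLocalRing.ResidueField A) M)⁻¹ ∈ Q.toValuationSubring ∧ R.o = Q.ord := by
  haveI hmp : m.IsPrime := hm.isPrime
  have hRM := h39_modRed_spec M hqM A hA
  have hK := h87_hK_q2b M q hqM A hA ζ hζ hex m hm hqm
  have h3 : ∀ i : Fin 3, i = 0 ∨ i = 1 ∨ i = 2 := by decide
  rcases h3 c with rfl | rfl | rfl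
  · obtain ⟨Q, R, hQ, hRo, -⟩ := h87_x3_C20 M q hqM A hA ζ hζ hex hRM hch
      (h75_isChart_inv (h54_isChart_jbar (M * q * q))) m (hm := hmp) hc hK
    exact ⟨Q, R, hQ, hRo⟩
  · obtain ⟨Q, R, hQ, hRo, -⟩ := h87_x3_C11 M q hqM A hA ζ hζ hex hRM hch
      (h75_isChart_inv (h54_isChart_jbar (M * q * q))) m (hm := hmp) hc hK
    exact ⟨Q, R, hQ, hRo⟩
  · have hne : h16_J2F M q (A.inertiaSubgroupIn ℚ) ≠ 0 :=
      h16_J2F_ne_zero M q (A.inertiaSubgroupIn ℚ)
    have hJ2 : (V2).InLoc m (h16_J2F M q (A.inertiaSubgroupIn ℚ))⁻¹ := by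
      refine (h80_inLoc_iff (V2) m (inv_ne_zero hne)).2 (fun k hk => ?_)
      rw [h80_v_inv (V2) k hne]
      have := h16_nz2 M q hqM A hA ζ hζ hex m a ham haJ k hk
      omega
    obtain ⟨Q, R, hQ, hRo, -⟩ := h87_x3_C02 M q hqM A hA ζ hζ hex hRM hch
      (h75_isChart_inv (h54_isChart_jbar (M * q * q))) m (hm := hmp) hc hJ2 hK
    exact ⟨Q, R, hQ, hRo⟩

include hqM in
/-- **The binder `hX3` of `h46_cusp_out`** at a point at infinity of the chart `1/j`. -/
theorem h87_x3_hX3 (hch : 5 ≤ q ∨ 2 ∣ M ∨ 3 ∣ M) (m : Ideal (V2).B) (hm : m.IsMaximal)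
    (hqm : ((q : ℕ) : (V2).B) ∈ m) (a : (V2).B) (ham : a ∈ m)
    (haJ : (a : h69_F0 (M * q * q) (A.inertiaSubgroupIn ℚ))
      * h16_J0F M q (A.inertiaSubgroupIn ℚ) = 1)
    (c : Fin 3) (hc : (V2).Through m (Sum.inl c)) :
    ∃ (Fb : Type) (_ : Field Fb), Nonempty (h62_Res (V2) m (Sum.inl c) Fb) := by
  obtain ⟨-, R, -⟩ := h87_x3_closed M q hqM A hA ζ hζ hex hch m hm hqm a ham haJ c hc
  exact ⟨_, inferInstance, ⟨R⟩⟩

end X3Closed

end Fermat.Agent.S36
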