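import Mathlib
import Fermat.Agent.S36.h61_Asm

/-!
# S36: transfer of a point between two charts (helper96)

Two valuation families `V1`, `V2` on the same field `F0` (the two charts `{x finite}`,
`{1/x finite}`): `0 ≤ v x0` for all valuations of `V1`, `v x0 ≤ 0` for all valuations of `V2`, and
a valuation of one family at which `x0` is a unit is (as a function) a valuation of the other.

A prime `𝔪` of the chart ring `V2.B` with `x0⁻¹ ∉ 𝔪` is then also a point of the first chart: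

* `h96_scale_into` : `u ^ n * g` lies in the other chart ring for `n` large;
* `h96_xferIdeal` : the ideal `𝔪1 = {f ∈ V1.B | f ∈ 𝔪 B_𝔪}` of `V1.B`; it is prime
  (`h96_xferIdeal_isPrime`), and maximal as soon as the residue field of `𝔪` consists of
  "constants" (`h96_xferIdeal_isMaximal`);
* `h96_xfer_through`, `h96_xfer_through'` : the valuations through `𝔪` and through `𝔪1` are the
  same functions;
* `h96_xfer_inLoc` : `B_𝔪1 = B_𝔪` inside `F0`;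
* `h96_hnz2_of_hnz1` : the binder `hnz2` of `h61_principal_of_loc` (the `(LOC-δ)` datum at every
  closed point of the second chart) from `hnz1` and the datum at the points with `x0⁻¹ ∈ 𝔪` only.
-/

set_option autoImplicit false

namespace Fermat.Agent.S36

open AlgebraicCurve Fermat.Agent.S24 Fermat.Agent.S18 Fermat.Agent.S34 IsLocalRing

section Scale

variable {F0 : Type*} [Field F0] {ι ι' : Type*} (V : h80_ValFam F0 ι) (V' : h80_ValFam F0 ι')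

/-- **Scaling into another chart ring.**  `u ∈ V'.B`, and every valuation of `V'` at which `u` is
a unit is a valuation of `V`.  Then for `g ∈ V.B` some `u ^ n * g` lies in `V'.B`. -/
theorem h96_scale_into (u : F0) (hu0 : u ≠ 0) (hu : ∀ i', 0 ≤ V'.v i' u)
    (hcorr : ∀ i', V'.v i' u = 0 → ∃ i, ∀ f : F0, V.v i f = V'.v i' f)
    (g : F0) (hg : g ∈ V.B) : ∃ n : ℕ, u ^ n * g ∈ V'.B := by
  classical
  by_cases hg0 : g = 0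
  · exact ⟨0, by rw [hg0, mul_zero]; exact V'.B.zero_mem⟩
  have hfin := V'.finite_supp g hg0
  refine ⟨∑ i' ∈ hfin.toFinset, (V'.v i' g).natAbs, ?_⟩
  set n := ∑ i' ∈ hfin.toFinset, (V'.v i' g).natAbs with hn
  have hun0 : u ^ n ≠ 0 := pow_ne_zero n hu0
  rw [V'.mem_B _ (mul_ne_zero hun0 hg0)]
  intro i'
  rw [V'.map_mul i' _ _ hun0 hg0, h80_v_pow V' i' hu0]
  rcases (hu i').eq_or_lt with h0 | hpos
  · obtain ⟨i, hi⟩ := hcorr i' h0.symm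
    have h1 := (V.mem_B g hg0).1 hg i
    rw [hi] at h1
    rw [← h0, mul_zero, zero_add]
    exact h1
  · by_cases hmem : V'.v i' g = 0
    · rw [hmem, add_zero]
      positivity
    · have hi'S : i' ∈ hfin.toFinset := (Set.Finite.mem_toFinset hfin).2 hmem
      have hle : (V'.v i' g).natAbs ≤ n :=
        Finset.single_le_sum (f := fun i' => (V'.v i' g).natAbs) (fun _ _ => Nat.zero_le _) hi'S
      have h1 : (n : ℤ) ≤ n * V'.v i' u := by nlinarith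
      have h3 : ((V'.v i' g).natAbs : ℤ) ≤ n := by exact_mod_cast hle
      omega

end Scale

section Xfer

variable {F0 : Type*} [Field F0] {ι1 ι2 : Type*} (V1 : h80_ValFam F0 ι1) (V2 : h80_ValFam F0 ι2)

/-- An element of the chart ring lying in `𝔪 B_𝔪` lies in `𝔪`. -/
theorem h96_mem_of_inMLoc {ι : Type*} (V : h80_ValFam F0 ι) (𝔪 : Ideal V.B) [h𝔪 : 𝔪.IsPrime]
    (g : V.B) (h : V.InMLoc 𝔪 (g : F0)) : g ∈ 𝔪 := by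
  obtain ⟨b, t, hb, ht, hbt⟩ := h
  have h1 : t * g = b := Subtype.ext (by push_cast; exact hbt)
  have h2 : t * g ∈ 𝔪 := h1 ▸ hb
  exact (h𝔪.mem_or_mem h2).resolve_left ht

/-- `𝔪 B_𝔪` is stable under multiplication by `B_𝔪`. -/
theorem h96_inMLoc_mul {ι : Type*} (V : h80_ValFam F0 ι) (𝔪 : Ideal V.B) [h𝔪 : 𝔪.IsPrime]
    {x c : F0} (hx : V.InMLoc 𝔪 x) (hc : V.InLoc 𝔪 c) : V.InMLoc 𝔪 (c * x) := by
  obtain ⟨b, t, hb, ht, hbt⟩ := hx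
  obtain ⟨b', t', ht', hbt'⟩ := hc
  refine ⟨b' * b, t' * t, 𝔪.mul_mem_left _ hb, fun h => (h𝔪.mem_or_mem h).elim ht' ht, ?_⟩
  push_cast
  rw [← hbt, ← hbt']
  ring

theorem h96_inLoc_of_inMLoc {ι : Type*} (V : h80_ValFam F0 ι) (𝔪 : Ideal V.B) {x : F0}
    (hx : V.InMLoc 𝔪 x) : V.InLoc 𝔪 x := by
  obtain ⟨b, t, _, ht, hbt⟩ := hx
  exact ⟨b, t, ht, hbt⟩

/-- `1 ∉ 𝔪 B_𝔪`. -/
theorem h96_not_inMLoc_one {ι : Type*} (V : h80_ValFam F0 ι) (𝔪 : Ideal V.B) [h𝔪 : 𝔪.IsPrime] :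
    ¬ V.InMLoc 𝔪 (1 : F0) := by
  intro h
  have := h96_mem_of_inMLoc V 𝔪 1 (by simpa using h)
  exact h94_one_not_mem V 𝔪 this

/-- In `B_𝔪`, a product lies in `𝔪 B_𝔪` only if a factor does. -/
theorem h96_inMLoc_of_mul {ι : Type*} (V : h80_ValFam F0 ι) (𝔪 : Ideal V.B) [h𝔪 : 𝔪.IsPrime]
    {x y : F0} (hx : V.InLoc 𝔪 x) (hy : V.InLoc 𝔪 y) (h : V.InMLoc 𝔪 (x * y)) :
    V.InMLoc 𝔪 x ∨ V.InMLoc 𝔪 y := by
  have h1 : (⟨x, hx⟩ : h94_Bm V 𝔪) * ⟨y, hy⟩ ∈ maximalIdeal (h94_Bm V 𝔪) :=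
    (h94_mem_max_Bm_iff V 𝔪 _).2 h
  rcases (maximalIdeal.isMaximal (h94_Bm V 𝔪)).isPrime.mem_or_mem h1 with h2 | h2
  · exact Or.inl ((h94_mem_max_Bm_iff V 𝔪 _).1 h2)
  · exact Or.inr ((h94_mem_max_Bm_iff V 𝔪 _).1 h2)

/-- An element of `B_𝔪` outside `𝔪 B_𝔪` is a unit of `B_𝔪`. -/
theorem h96_unit_of_not_inMLoc {ι : Type*} (V : h80_ValFam F0 ι) (𝔪 : Ideal V.B)
    [h𝔪 : 𝔪.IsPrime] {x : F0} (hx : V.InLoc 𝔪 x) (h : ¬ V.InMLoc 𝔪 x) :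
    V.InLoc 𝔪 x⁻¹ ∧ x ≠ 0 := by
  have h1 : (⟨x, hx⟩ : h94_Bm V 𝔪) ∉ maximalIdeal (h94_Bm V 𝔪) := fun h2 =>
    h ((h94_mem_max_Bm_iff V 𝔪 _).1 h2)
  have h2 : IsUnit (⟨x, hx⟩ : h94_Bm V 𝔪) := by
    by_contra h3
    exact h1 ((IsLocalRing.mem_maximalIdeal _).2 h3)
  exact (h94_isUnit_Bm_iff V 𝔪 _).1 h2

variable (x0 : F0)

/-- **The point of chart 1 cut out by a point of chart 2**: `{f ∈ V1.B | f ∈ 𝔪 B_𝔪}`, an ideal as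
soon as `V1.B ⊆ B_𝔪` (`hsub`). -/
def h96_xferIdeal (𝔪 : Ideal V2.B) [h𝔪 : 𝔪.IsPrime] (hsub : ∀ f : V1.B, V2.InLoc 𝔪 (f : F0)) :
    Ideal V1.B where
  carrier := {f | V2.InMLoc 𝔪 (f : F0)}
  add_mem' := by
    intro a b ha hb
    show V2.InMLoc 𝔪 ((a + b : V1.B) : F0)
    push_cast
    exact h80_inMLoc_add V2 𝔪 ha hb
  zero_mem' := by
    show V2.InMLoc 𝔪 ((0 : V1.B) : F0)
    push_cast
    exact h80_inMLoc_zero V2 𝔪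
  smul_mem' := by
    intro c x hx
    show V2.InMLoc 𝔪 ((c • x : V1.B) : F0)
    rw [smul_eq_mul]
    push_cast
    exact h96_inMLoc_mul V2 𝔪 hx (hsub c)

theorem h96_mem_xferIdeal (𝔪 : Ideal V2.B) [h𝔪 : 𝔪.IsPrime]
    (hsub : ∀ f : V1.B, V2.InLoc 𝔪 (f : F0)) (f : V1.B) :
    f ∈ h96_xferIdeal V1 V2 𝔪 hsub ↔ V2.InMLoc 𝔪 (f : F0) := Iff.rfl

theorem h96_xferIdeal_isPrime (𝔪 : Ideal V2.B) [h𝔪 : 𝔪.IsPrime]
    (hsub : ∀ f : V1.B, V2.InLoc 𝔪 (f : F0)) : (h96_xferIdeal V1 V2 𝔪 hsub).IsPrime := by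
  refine ⟨?_, ?_⟩
  · intro htop
    have h1 : (1 : V1.B) ∈ h96_xferIdeal V1 V2 𝔪 hsub := by rw [htop]; trivial
    have h2 : V2.InMLoc 𝔪 (((1 : V1.B) : F0)) := h1
    exact h96_not_inMLoc_one V2 𝔪 (by simpa using h2)
  · intro a b hab
    have h1 : V2.InMLoc 𝔪 (((a * b : V1.B)) : F0) := hab
    rw [Subring.coe_mul] at h1
    exact h96_inMLoc_of_mul V2 𝔪 (hsub a) (hsub b) h1

/-- `V1.B ⊆ B_𝔪` when `x0⁻¹ ∉ 𝔪`. -/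
theorem h96_xfer_sub (hx00 : x0 ≠ 0) (hx2 : ∀ i, V2.v i x0 ≤ 0)
    (h21 : ∀ i2, V2.v i2 x0 = 0 → ∃ i1, ∀ f : F0, V1.v i1 f = V2.v i2 f)
    (𝔪 : Ideal V2.B) [h𝔪 : 𝔪.IsPrime] (t0 : V2.B) (ht0 : (t0 : F0) = x0⁻¹) (ht0m : t0 ∉ 𝔪)
    (f : V1.B) : V2.InLoc 𝔪 (f : F0) := by
  have hinv0 : x0⁻¹ ≠ 0 := inv_ne_zero hx00
  obtain ⟨n, hn⟩ := h96_scale_into V1 V2 x0⁻¹ hinv0
    (fun i => by rw [h80_v_inv V2 i hx00]; have := hx2 i; omega)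
    (fun i hi => h21 i (by rw [h80_v_inv V2 i hx00] at hi; omega)) (f : F0) f.2
  refine ⟨⟨_, hn⟩, t0 ^ n, fun h => ht0m (h𝔪.mem_of_pow_mem n h), ?_⟩
  push_cast
  rw [ht0]

/-- `x0 ∈ B_𝔪` when `x0⁻¹ ∉ 𝔪`. -/
theorem h96_xfer_x0 (hx00 : x0 ≠ 0) (𝔪 : Ideal V2.B) (t0 : V2.B) (ht0 : (t0 : F0) = x0⁻¹)
    (ht0m : t0 ∉ 𝔪) : V2.InLoc 𝔪 x0 :=
  ⟨1, t0, ht0m, by rw [ht0, inv_mul_cancel₀ hx00]; simp⟩

/-- **Valuations through the point, chart 2 → chart 1.** -/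
theorem h96_xfer_through (hx00 : x0 ≠ 0) (𝔪 : Ideal V2.B) [h𝔪 : 𝔪.IsPrime]
    (hsub : ∀ f : V1.B, V2.InLoc 𝔪 (f : F0)) {i1 : ι1} {i2 : ι2}
    (hsame : ∀ f : F0, V1.v i1 f = V2.v i2 f) (hthr : V2.Through 𝔪 i2) :
    V1.Through (h96_xferIdeal V1 V2 𝔪 hsub) i1 := by
  intro f hf0 hpos
  rw [hsame] at hpos
  exact h94_inMLoc_of_vge V2 𝔪 hthr (hsub f) (Or.inr (by omega))

/-- `x0` is a unit at every valuation through the transferred point. -/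
theorem h96_xfer_x0_unit (hx00 : x0 ≠ 0) (hx1 : ∀ i, 0 ≤ V1.v i x0) (𝔪 : Ideal V2.B)
    [h𝔪 : 𝔪.IsPrime] (hsub : ∀ f : V1.B, V2.InLoc 𝔪 (f : F0)) (t0 : V2.B)
    (ht0 : (t0 : F0) = x0⁻¹) {i1 : ι1} (hthr : V1.Through (h96_xferIdeal V1 V2 𝔪 hsub) i1) :
    V1.v i1 x0 = 0 := by
  by_contra hne
  have hpos : 0 < V1.v i1 x0 := lt_of_le_of_ne (hx1 i1) (Ne.symm hne)
  have hxB : x0 ∈ V1.B := (V1.mem_B x0 hx00).2 hx1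
  have h1 : V2.InMLoc 𝔪 x0 := hthr ⟨x0, hxB⟩ hx00 hpos
  have h2 := h96_inMLoc_mul V2 𝔪 h1 (h94_B_le_Bm V2 𝔪 t0)
  rw [ht0, inv_mul_cancel₀ hx00] at h2
  exact h96_not_inMLoc_one V2 𝔪 h2

/-- **Valuations through the point, chart 1 → chart 2.** -/
theorem h96_xfer_through' (hx00 : x0 ≠ 0) (hx1 : ∀ i, 0 ≤ V1.v i x0)
    (h12 : ∀ i1, V1.v i1 x0 = 0 → ∃ i2, ∀ f : F0, V2.v i2 f = V1.v i1 f)
    (𝔪 : Ideal V2.B) [h𝔪 : 𝔪.IsPrime] (hsub : ∀ f : V1.B, V2.InLoc 𝔪 (f : F0)) (t0 : V2.B)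
    (ht0 : (t0 : F0) = x0⁻¹) {i1 : ι1} {i2 : ι2}
    (hsame : ∀ f : F0, V2.v i2 f = V1.v i1 f)
    (hthr : V1.Through (h96_xferIdeal V1 V2 𝔪 hsub) i1) : V2.Through 𝔪 i2 := by
  intro g hg0 hpos
  have hx0u := h96_xfer_x0_unit V1 V2 x0 hx00 hx1 𝔪 hsub t0 ht0 hthr
  obtain ⟨n, hn⟩ := h96_scale_into V2 V1 x0 hx00 hx1 h12 (g : F0) g.2
  have hne : x0 ^ n * (g : F0) ≠ 0 := mul_ne_zero (pow_ne_zero n hx00) hg0
  have hv : 0 < V1.v i1 (x0 ^ n * (g : F0)) := by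
    rw [V1.map_mul i1 _ _ (pow_ne_zero n hx00) hg0, h80_v_pow V1 i1 hx00, hx0u, ← hsame]
    simpa using hpos
  have h1 : V2.InMLoc 𝔪 (x0 ^ n * (g : F0)) := hthr ⟨_, hn⟩ hne hv
  have h2 := h96_inMLoc_mul V2 𝔪 h1 (h94_B_le_Bm V2 𝔪 (t0 ^ n))
  have h3 : ((t0 ^ n : V2.B) : F0) * (x0 ^ n * (g : F0)) = (g : F0) := by
    push_cast
    rw [ht0, ← mul_assoc, ← mul_pow, inv_mul_cancel₀ hx00, one_pow, one_mul]
  rw [h3] at h2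
  exact h96_mem_of_inMLoc V2 𝔪 g h2

/-- **The local rings coincide**: `B_𝔪1 ⊆ B_𝔪` (only the valuation correspondence `h21` at the
valuations through `𝔪` is used). -/
theorem h96_xfer_inLoc (hx00 : x0 ≠ 0) (𝔪 : Ideal V2.B) [h𝔪 : 𝔪.IsPrime]
    (hsub : ∀ f : V1.B, V2.InLoc 𝔪 (f : F0))
    (h21 : ∀ i2, V2.Through 𝔪 i2 → ∃ i1, ∀ f : F0, V1.v i1 f = V2.v i2 f)
    {f : F0} (hf : V1.InLoc (h96_xferIdeal V1 V2 𝔪 hsub) f) : V2.InLoc 𝔪 f := by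
  haveI := h96_xferIdeal_isPrime V1 V2 𝔪 hsub
  by_cases hf0 : f = 0
  · rw [hf0]
    exact ⟨0, 1, h94_one_not_mem V2 𝔪, by simp⟩
  rw [h80_inLoc_iff V2 𝔪 hf0]
  intro i2 hi2
  obtain ⟨i1, hi1⟩ := h21 i2 hi2
  have h1 := (h80_inLoc_iff V1 _ hf0).1 hf i1
    (h96_xfer_through V1 V2 x0 hx00 𝔪 hsub hi1 hi2)
  rw [hi1] at h1
  exact h1

/-- **Maximality of the transferred point.**  `hres`: modulo `𝔪`, every element of `V2.B` is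
congruent to a "constant" `l`, which is either in `𝔪` or a unit of `V1.B`. -/
theorem h96_xferIdeal_isMaximal (𝔪 : Ideal V2.B) [h𝔪 : 𝔪.IsPrime]
    (hsub : ∀ f : V1.B, V2.InLoc 𝔪 (f : F0))
    (hres : ∀ s : V2.B, ∃ l : V2.B, s - l ∈ 𝔪 ∧
      (l ∈ 𝔪 ∨ ((l : F0) ∈ V1.B ∧ (l : F0)⁻¹ ∈ V1.B))) :
    (h96_xferIdeal V1 V2 𝔪 hsub).IsMaximal := by
  haveI hP := h96_xferIdeal_isPrime V1 V2 𝔪 hsub
  rw [Ideal.isMaximal_iff]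
  refine ⟨fun h1 => hP.ne_top ((Ideal.eq_top_iff_one _).2 h1), ?_⟩
  intro J f hIJ hf hfJ
  -- `f` is a unit of `B_𝔪`
  have hfm : ¬ V2.InMLoc 𝔪 (f : F0) := hf
  obtain ⟨hfinv, hf0⟩ := h96_unit_of_not_inMLoc V2 𝔪 (hsub f) hfm
  obtain ⟨b, t, ht, hbt⟩ := hfinv
  obtain ⟨lb, hlb, hlb'⟩ := hres b
  obtain ⟨lt, hlt, hlt'⟩ := hres t
  have hltm : lt ∉ 𝔪 := fun h => ht (by simpa using 𝔪.add_mem hlt h)
  have hbm : b ∉ 𝔪 := by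
    intro hb
    -- then `f⁻¹ ∈ 𝔪 B_𝔪`, impossible
    have h1 : V2.InMLoc 𝔪 ((f : F0)⁻¹) := ⟨b, t, hb, ht, hbt⟩
    have h2 := h96_inMLoc_mul V2 𝔪 h1 (hsub f)
    rw [mul_inv_cancel₀ hf0] at h2
    exact h96_not_inMLoc_one V2 𝔪 h2
  have hlbm : lb ∉ 𝔪 := fun h => hbm (by simpa using 𝔪.add_mem hlb h)
  obtain ⟨hlb1, -⟩ := hlb'.resolve_left hlbm
  obtain ⟨hlt1, hlt1'⟩ := hlt'.resolve_left hltm
  have hlt0 : (lt : F0) ≠ 0 := h80_ne_zero_of_not_mem V2 hltm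
  have ht0 : (t : F0) ≠ 0 := h80_ne_zero_of_not_mem V2 ht
  -- `g := lb / lt ∈ V1.B` with `f * g - 1 ∈ 𝔪1`
  set g : V1.B := ⟨(lb : F0), hlb1⟩ * ⟨(lt : F0)⁻¹, hlt1'⟩ with hg
  have hkey : f * g - 1 ∈ h96_xferIdeal V1 V2 𝔪 hsub := by
    show V2.InMLoc 𝔪 (((f * g - 1 : V1.B)) : F0)
    have e1 : ((f * g - 1 : V1.B) : F0) =
        ((f : F0) * ((t : F0)⁻¹ * (lt : F0)⁻¹)) *
          ((lb : F0) * (t : F0) - (b : F0) * (lt : F0)) := by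
      have hb' : (b : F0) = (t : F0) * (f : F0)⁻¹ := hbt.symm
      rw [hg]
      push_cast
      rw [hb']
      field_simp
    rw [e1]
    have h1 : V2.InMLoc 𝔪 ((lb : F0) * (t : F0) - (b : F0) * (lt : F0)) := by
      have h2 : lb * t - b * lt ∈ 𝔪 := by
        have e2 : lb * t - b * lt = lb * (t - lt) - (b - lb) * lt := by ring
        rw [e2]
        exact 𝔪.sub_mem (𝔪.mul_mem_left _ hlt) (𝔪.mul_mem_right _ hlb)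
      refine ⟨lb * t - b * lt, 1, h2, h94_one_not_mem V2 𝔪, ?_⟩
      push_cast
      ring
    have h3 : V2.InLoc 𝔪 ((f : F0) * ((t : F0)⁻¹ * (lt : F0)⁻¹)) := by
      have hA : V2.InLoc 𝔪 ((t : F0)⁻¹) := ⟨1, t, ht, by rw [mul_inv_cancel₀ ht0]; simp⟩
      have hB : V2.InLoc 𝔪 ((lt : F0)⁻¹) := ⟨1, lt, hltm, by rw [mul_inv_cancel₀ hlt0]; simp⟩
      exact (h94_Bm V2 𝔪).mul_mem (hsub f) ((h94_Bm V2 𝔪).mul_mem hA hB)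
    exact h96_inMLoc_mul V2 𝔪 h1 h3
  have h4 : (1 : V1.B) = f * g - (f * g - 1) := by ring
  rw [h4]
  exact J.sub_mem (J.mul_mem_right _ hfJ) (hIJ hkey)

end Xfer

/-! ### The `(LOC-δ)` binder of the second chart from the first chart and the cusp points -/

section Hnz

variable {K F k Rb : Type*} [Field K] [Field F] [Algebra K F] [Field k] [CommRing Rb]
  [Algebra k Rb]

/-- **`hnz2` from `hnz1`.**  `V1`, `V2` the valuation families of the two charts of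
`h61_principal_of_loc` (`x0` the chart function: `v x0 ≤ 0` on `V2`; an index of `V2` at which
`x0` is a unit belongs to `V1` as well - `h21`, respecting the vertical sets and
multiplicities).  If the `(LOC-δ)` datum exists at every closed point of chart 1
(`hnz1`) and at the closed points of chart 2 containing `x0⁻¹` (`hcusp`: the points over the poles
of `x0`), then it exists at every closed point of chart 2.  `hres`: the residue fields of the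
other points of chart 2 consist of constants. -/
theorem h96_hnz2_of_hnz1 (D : h22_Lat K F k Rb) {F0 : Type*} [Field F0] (ψ : F0 →+* F)
    (x0 : F0) (hx00 : x0 ≠ 0)
    {ι1 ι2 : Type*} (V1 : h80_ValFam F0 ι1) (V2 : h80_ValFam F0 ι2)
    (hB1 : ∀ b : V1.B, ψ (b : F0) ∈ D.O) (hB2 : ∀ b : V2.B, ψ (b : F0) ∈ D.O)
    (vert1 : Set ι1) (a1 : ι1 → ℕ) (vert2 : Set ι2) (a2 : ι2 → ℕ) (Ez : Divisor K F)
    (hx2 : ∀ i, V2.v i x0 ≤ 0)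
    (h21 : ∀ i2, V2.v i2 x0 = 0 → ∃ i1, (∀ f : F0, V1.v i1 f = V2.v i2 f) ∧
      (i1 ∈ vert1 ↔ i2 ∈ vert2) ∧ (i2 ∈ vert2 → a1 i1 = a2 i2))
    (t0 : V2.B) (ht0 : (t0 : F0) = x0⁻¹)
    (hres : ∀ 𝔪 : Ideal V2.B, 𝔪.IsMaximal → (∀ t : V2.B, D.redF (ψ (t : F0)) = 0 → t ∈ 𝔪) →
      t0 ∉ 𝔪 → ∀ s : V2.B, ∃ l : V2.B, s - l ∈ 𝔪 ∧
        (l ∈ 𝔪 ∨ ((l : F0) ∈ V1.B ∧ (l : F0)⁻¹ ∈ V1.B)))
    (hnz1 : ∀ 𝔪 : Ideal V1.B, 𝔪.IsMaximal → (∀ t : V1.B, D.redF (ψ (t : F0)) = 0 → t ∈ 𝔪) →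
      ∃ e y : F0, e ≠ 0 ∧ y ≠ 0 ∧ V1.InLoc 𝔪 y ∧ V1.InLoc 𝔪 y⁻¹ ∧
        (∀ i, i ∉ vert1 → V1.Through 𝔪 i → ∀ P : Place K F,
          (∀ f : F0, f ≠ 0 → V1.v i f = P.ord (ψ f)) → V1.v i e = Ez P) ∧
        ∀ C ∈ vert1, V1.Through 𝔪 C → (e = y ∨ (a1 C : ℤ) ≤ V1.v C (e - y)))
    (hcusp : ∀ 𝔪 : Ideal V2.B, 𝔪.IsMaximal → (∀ t : V2.B, D.redF (ψ (t : F0)) = 0 → t ∈ 𝔪) →
      t0 ∈ 𝔪 →
      ∃ e y : F0, e ≠ 0 ∧ y ≠ 0 ∧ V2.InLoc 𝔪 y ∧ V2.InLoc 𝔪 y⁻¹ ∧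
        (∀ i, i ∉ vert2 → V2.Through 𝔪 i → ∀ P : Place K F,
          (∀ f : F0, f ≠ 0 → V2.v i f = P.ord (ψ f)) → V2.v i e = Ez P) ∧
        ∀ C ∈ vert2, V2.Through 𝔪 C → (e = y ∨ (a2 C : ℤ) ≤ V2.v C (e - y))) :
    ∀ 𝔪 : Ideal V2.B, 𝔪.IsMaximal → (∀ t : V2.B, D.redF (ψ (t : F0)) = 0 → t ∈ 𝔪) →
      ∃ e y : F0, e ≠ 0 ∧ y ≠ 0 ∧ V2.InLoc 𝔪 y ∧ V2.InLoc 𝔪 y⁻¹ ∧
        (∀ i, i ∉ vert2 → V2.Through 𝔪 i → ∀ P : Place K F,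
          (∀ f : F0, f ≠ 0 → V2.v i f = P.ord (ψ f)) → V2.v i e = Ez P) ∧
        ∀ C ∈ vert2, V2.Through 𝔪 C → (e = y ∨ (a2 C : ℤ) ≤ V2.v C (e - y)) := by
  intro 𝔪 hmax hker
  by_cases ht0m : t0 ∈ 𝔪
  · exact hcusp 𝔪 hmax hker ht0m
  haveI h𝔪 : 𝔪.IsPrime := hmax.isPrime
  have h21' : ∀ i2, V2.v i2 x0 = 0 → ∃ i1, ∀ f : F0, V1.v i1 f = V2.v i2 f := fun i2 hi2 => by
    obtain ⟨i1, h, -⟩ := h21 i2 hi2
    exact ⟨i1, h⟩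
  have hsub : ∀ f : V1.B, V2.InLoc 𝔪 (f : F0) :=
    h96_xfer_sub V1 V2 x0 hx00 hx2 h21' 𝔪 t0 ht0 ht0m
  have hx0loc : V2.InLoc 𝔪 x0 := h96_xfer_x0 V2 x0 hx00 𝔪 t0 ht0 ht0m
  have hx0inv : V2.InLoc 𝔪 x0⁻¹ := by rw [← ht0]; exact h94_B_le_Bm V2 𝔪 t0
  have hx0thr : ∀ i2, V2.Through 𝔪 i2 → V2.v i2 x0 = 0 := fun i2 hi2 =>
    h80_through_eq_zero_of_unit V2 𝔪 hx00 hx0loc hx0inv hi2
  set 𝔪1 := h96_xferIdeal V1 V2 𝔪 hsub with h𝔪1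
  have hmax1 : 𝔪1.IsMaximal :=
    h96_xferIdeal_isMaximal V1 V2 𝔪 hsub (hres 𝔪 hmax hker ht0m)
  haveI hP1 : 𝔪1.IsPrime := hmax1.isPrime
  -- the kernel of the reduction lies in `𝔪1`
  have hker1 : ∀ t : V1.B, D.redF (ψ (t : F0)) = 0 → t ∈ 𝔪1 := by
    intro f hf
    have hinv0 : x0⁻¹ ≠ 0 := inv_ne_zero hx00
    obtain ⟨n, hn⟩ := h96_scale_into V1 V2 x0⁻¹ hinv0
      (fun i => by rw [h80_v_inv V2 i hx00]; have := hx2 i; omega)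
      (fun i hi => h21' i (by rw [h80_v_inv V2 i hx00] at hi; omega)) (f : F0) f.2
    have hred : D.redF (ψ (x0⁻¹ ^ n * (f : F0))) = 0 := by
      have h1 : ψ (x0⁻¹ ^ n) ∈ D.O := by
        have := hB2 (t0 ^ n)
        rwa [Subring.coe_pow, ht0] at this
      rw [map_mul, h51_redF_mul D h1 (hB1 f), hf, mul_zero]
    have h2 : (⟨_, hn⟩ : V2.B) ∈ 𝔪 := hker ⟨_, hn⟩ hred
    have h3 : V2.InMLoc 𝔪 (x0⁻¹ ^ n * (f : F0)) :=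
      ⟨⟨_, hn⟩, 1, h2, h94_one_not_mem V2 𝔪, by simp⟩
    have h4 := h96_inMLoc_mul V2 𝔪 h3 ((h94_Bm V2 𝔪).pow_mem hx0loc n)
    have h5 : x0 ^ n * (x0⁻¹ ^ n * (f : F0)) = (f : F0) := by
      rw [← mul_assoc, ← mul_pow, mul_inv_cancel₀ hx00, one_pow, one_mul]
    rw [h5] at h4
    exact h4
  obtain ⟨e, y, he0, hy0, hy, hy', hhor, hvert⟩ := hnz1 𝔪1 hmax1 hker1
  have h21thr : ∀ i2, V2.Through 𝔪 i2 → ∃ i1, ∀ f : F0, V1.v i1 f = V2.v i2 f :=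
    fun i2 hi2 => h21' i2 (hx0thr i2 hi2)
  refine ⟨e, y, he0, hy0, h96_xfer_inLoc V1 V2 x0 hx00 𝔪 hsub h21thr hy,
    h96_xfer_inLoc V1 V2 x0 hx00 𝔪 hsub h21thr hy', ?_, ?_⟩
  · intro i2 hi2v hi2 P hP
    obtain ⟨i1, hsame, hv, -⟩ := h21 i2 (hx0thr i2 hi2)
    have hthr1 : V1.Through 𝔪1 i1 := h96_xfer_through V1 V2 x0 hx00 𝔪 hsub hsame hi2
    have h1 := hhor i1 (fun h => hi2v (hv.1 h)) hthr1 P (fun f hf => by rw [hsame]; exact hP f hf)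
    rw [← hsame]
    exact h1
  · intro C hC hthr
    obtain ⟨i1, hsame, hv, ha⟩ := h21 C (hx0thr C hthr)
    have hthr1 : V1.Through 𝔪1 i1 := h96_xfer_through V1 V2 x0 hx00 𝔪 hsub hsame hthr
    have h1 := hvert i1 (hv.2 hC) hthr1
    rw [hsame, ha hC] at h1
    exact h1

end Hnz

end Fermat.Agent.S36
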