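import Mathlib
import Fermat.Agent.S36.h96_ChartXfer
import Fermat.Agent.S36.h89_ResK
import Fermat.Agent.S36.h80_FamInst

/-!
# S36 / rows I-E, I-FAM: the chart-2 clause of `hwit` from the chart-1 clause (helper89)

`h61_geomN_of_data` (`S36/h61_Plug.lean`) asks for the `(LOC-δ)` datum at every maximal ideal
`𝔪 ∋ q` of BOTH chart rings `h80_fam1` (`j` finite) and `h80_fam2` (`1/j` finite).  A point of
chart 2 with `1/j ∉ 𝔪` is a point of chart 1 (helper96's transfer, `S36/h96_ChartXfer.lean`), so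
chart 2 only needs the points with `1/j ∈ 𝔪` (the cusp points, row I-CUSP).

* `h89_xfer_q` : the transfer `h96_hnz2_of_hnz1` with ABSTRACT fibre predicates instead of the
  lattice premise, and the vertical clause indexed by `κ` (generic; only the exported pieces of
  `h96_ChartXfer` are used);
* `h89_hwit_chart2` : the modular instance, in the VERBATIM clause shape of `hwit` of
  `h61_geomN_of_data` (premise `q0 ∈ 𝔪`): the chart-2 clause from the chart-1 clause and the datum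
  at the points with `q0 ∈ 𝔪` and `1/j ∈ 𝔪`.  Inputs: `hwA` (constants of `A0`), `hwJ`
  (`w c j = 0`), `hint2` (integrality of the chart-2 ring over `A0[1/j]`, the second conclusion
  of `h80_famOf_noeth` for `h80_fam2`).
-/

set_option autoImplicit false
set_option linter.unusedSectionVars false
set_option linter.unusedVariables false
set_option linter.style.haveILetI false

noncomputable section

namespace Fermat.Agent.S36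

open AlgebraicCurve ModularCurve Polynomial
open Fermat.Agent.S18 Fermat.Agent.S24 Fermat.Agent.S19 Fermat.Agent.S34

local notation "Qb" => AlgebraicClosure ℚ

/-! ## The transfer with abstract fibre predicates -/

section Generic

variable {K F : Type*} [Field K] [Field F] [Algebra K F]

/-- **Transfer of the `(LOC-δ)` datum from chart 1 to chart 2**, with abstract fibre predicates
`fib1`, `fib2` ("the point lies on the special fibre") and the vertical valuations indexed by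
`P1 : κ → ι1`, `P2 : κ → ι2`. -/
theorem h89_xfer_q {F0 : Type*} [Field F0] (ψ : F0 →+* F) (x0 : F0) (hx00 : x0 ≠ 0)
    {ι1 ι2 κ : Type*} (V1 : h80_ValFam F0 ι1) (V2 : h80_ValFam F0 ι2)
    (P1 : κ → ι1) (P2 : κ → ι2) (a : κ → ℕ) (Ez : Divisor K F)
    (hx2 : ∀ i, V2.v i x0 ≤ 0)
    (h21 : ∀ i2, V2.v i2 x0 = 0 → ∃ i1, (∀ f : F0, V1.v i1 f = V2.v i2 f) ∧
      (i1 ∈ Set.range P1 → i2 ∈ Set.range P2) ∧ (∀ c, i2 = P2 c → i1 = P1 c))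
    (t0 : V2.B) (ht0 : (t0 : F0) = x0⁻¹)
    (fib1 : Ideal V1.B → Prop) (fib2 : Ideal V2.B → Prop)
    (hfib : ∀ (𝔪 : Ideal V2.B) [𝔪.IsPrime] (hsub : ∀ f : V1.B, V2.InLoc 𝔪 (f : F0)),
      fib2 𝔪 → fib1 (h96_xferIdeal V1 V2 𝔪 hsub))
    (hres : ∀ 𝔪 : Ideal V2.B, 𝔪.IsMaximal → fib2 𝔪 → t0 ∉ 𝔪 → ∀ s : V2.B, ∃ l : V2.B,
      s - l ∈ 𝔪 ∧ (l ∈ 𝔪 ∨ ((l : F0) ∈ V1.B ∧ (l : F0)⁻¹ ∈ V1.B)))
    (hnz1 : ∀ 𝔪 : Ideal V1.B, 𝔪.IsMaximal → fib1 𝔪 →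
      ∃ e y : F0, e ≠ 0 ∧ y ≠ 0 ∧ V1.InLoc 𝔪 y ∧ V1.InLoc 𝔪 y⁻¹ ∧
        (∀ i, i ∉ Set.range P1 → V1.Through 𝔪 i → ∀ P : Place K F,
          (∀ f : F0, f ≠ 0 → V1.v i f = P.ord (ψ f)) → V1.v i e = Ez P) ∧
        ∀ c : κ, V1.Through 𝔪 (P1 c) → (e = y ∨ (a c : ℤ) ≤ V1.v (P1 c) (e - y)))
    (hcusp : ∀ 𝔪 : Ideal V2.B, 𝔪.IsMaximal → fib2 𝔪 → t0 ∈ 𝔪 →
      ∃ e y : F0, e ≠ 0 ∧ y ≠ 0 ∧ V2.InLoc 𝔪 y ∧ V2.InLoc 𝔪 y⁻¹ ∧
        (∀ i, i ∉ Set.range P2 → V2.Through 𝔪 i → ∀ P : Place K F,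
          (∀ f : F0, f ≠ 0 → V2.v i f = P.ord (ψ f)) → V2.v i e = Ez P) ∧
        ∀ c : κ, V2.Through 𝔪 (P2 c) → (e = y ∨ (a c : ℤ) ≤ V2.v (P2 c) (e - y))) :
    ∀ 𝔪 : Ideal V2.B, 𝔪.IsMaximal → fib2 𝔪 →
      ∃ e y : F0, e ≠ 0 ∧ y ≠ 0 ∧ V2.InLoc 𝔪 y ∧ V2.InLoc 𝔪 y⁻¹ ∧
        (∀ i, i ∉ Set.range P2 → V2.Through 𝔪 i → ∀ P : Place K F,
          (∀ f : F0, f ≠ 0 → V2.v i f = P.ord (ψ f)) → V2.v i e = Ez P) ∧
        ∀ c : κ, V2.Through 𝔪 (P2 c) → (e = y ∨ (a c : ℤ) ≤ V2.v (P2 c) (e - y)) := by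
  intro 𝔪 hmax hf2
  by_cases ht0m : t0 ∈ 𝔪
  · exact hcusp 𝔪 hmax hf2 ht0m
  haveI h𝔪 : 𝔪.IsPrime := hmax.isPrime
  have h21' : ∀ i2, V2.v i2 x0 = 0 → ∃ i1, ∀ f : F0, V1.v i1 f = V2.v i2 f := fun i2 hi2 => by
    obtain ⟨i1, h, -⟩ := h21 i2 hi2
    exact ⟨i1, h⟩
  have hsub : ∀ f : V1.B, V2.InLoc 𝔪 (f : F0) :=
    h96_xfer_sub V1 V2 x0 hx00 hx2 h21' 𝔪 t0 ht0 ht0m
  have hx0loc : V2.InLoc 𝔪 x0 := h96_xfer_x0 V2 x0 hx00 𝔪 t0 ht0 ht0m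
  have hx0inv : V2.InLoc 𝔪 x0⁻¹ := by rw [← ht0]; exact h94_B_le_Bm V2 𝔪 t0
  have hx0thr : ∀ i2, V2.Through 𝔪 i2 → V2.v i2 x0 = 0 := fun i2 hi2 =>
    h80_through_eq_zero_of_unit V2 𝔪 hx00 hx0loc hx0inv hi2
  have hmax1 : (h96_xferIdeal V1 V2 𝔪 hsub).IsMaximal :=
    h96_xferIdeal_isMaximal V1 V2 𝔪 hsub (hres 𝔪 hmax hf2 ht0m)
  haveI hP1 : (h96_xferIdeal V1 V2 𝔪 hsub).IsPrime := hmax1.isPrime
  obtain ⟨e, y, he0, hy0, hy, hy', hhor, hvert⟩ := hnz1 _ hmax1 (hfib 𝔪 hsub hf2)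
  have h21thr : ∀ i2, V2.Through 𝔪 i2 → ∃ i1, ∀ f : F0, V1.v i1 f = V2.v i2 f :=
    fun i2 hi2 => h21' i2 (hx0thr i2 hi2)
  refine ⟨e, y, he0, hy0, h96_xfer_inLoc V1 V2 x0 hx00 𝔪 hsub h21thr hy,
    h96_xfer_inLoc V1 V2 x0 hx00 𝔪 hsub h21thr hy', ?_, ?_⟩
  · intro i2 hi2v hi2 P hP
    obtain ⟨i1, hsame, hv, -⟩ := h21 i2 (hx0thr i2 hi2)
    have hthr1 : V1.Through (h96_xferIdeal V1 V2 𝔪 hsub) i1 :=
      h96_xfer_through V1 V2 x0 hx00 𝔪 hsub hsame hi2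
    have h1 := hhor i1 (fun h => hi2v (hv h)) hthr1 P (fun f hf => by rw [hsame]; exact hP f hf)
    rw [← hsame]
    exact h1
  · intro c hthr
    obtain ⟨i1, hsame, -, hc⟩ := h21 (P2 c) (hx0thr (P2 c) hthr)
    have hi1 : i1 = P1 c := hc c rfl
    subst hi1
    have hthr1 : V1.Through (h96_xferIdeal V1 V2 𝔪 hsub) (P1 c) :=
      h96_xfer_through V1 V2 x0 hx00 𝔪 hsub hsame hthr
    have h1 := hvert c hthr1
    rw [hsame] at h1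
    exact h1

end Generic

/-! ## The modular instance: the two `j`-charts of `h80_FamInst` -/

section Modular

variable (N : ℕ) [NeZero N] (q : ℕ) [Fact q.Prime] (A : ValuationSubring Qb)

variable {κ : Type*} [Finite κ]
  (w : κ → ↥(h69_F0 N (A.inertiaSubgroupIn ℚ)) → ℤ)
  (hw_mul : ∀ c (f g : ↥(h69_F0 N (A.inertiaSubgroupIn ℚ))), f ≠ 0 → g ≠ 0 →
    w c (f * g) = w c f + w c g)
  (hw_add : ∀ c (f g : ↥(h69_F0 N (A.inertiaSubgroupIn ℚ))), f ≠ 0 → g ≠ 0 → f + g ≠ 0 →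
    min (w c f) (w c g) ≤ w c (f + g))

local notation "VA" => h80_fam1 N (A.inertiaSubgroupIn ℚ) w hw_mul hw_add
local notation "VB" => h80_fam2 N (A.inertiaSubgroupIn ℚ) w hw_mul hw_add

/-- `q0 ∈ V.B` for both charts. -/
theorem h89_q0_mem_famOf (a : κ → ℕ)
    (q0 : ↥(h69_F0 N (A.inertiaSubgroupIn ℚ)))
    (hq0 : (q0 : modularFunctionFieldBar N) =
      algebraMap Qb (modularFunctionFieldBar N) (q : Qb))
    (hwq : ∀ c, w c q0 = a c)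
    (x : modularFunctionFieldBar N) (hx : h75_IsChart Qb x) :
    q0 ∈ (h80_famOf N (A.inertiaSubgroupIn ℚ) w hw_mul hw_add x hx).B := by
  refine (h80_mem_famOf_B N (A.inertiaSubgroupIn ℚ) w hw_mul hw_add x hx q0).2 (Or.inr ⟨?_, ?_⟩)
  · intro c
    rw [hwq]
    positivity
  · intro P _
    rw [hq0, h35_ord_algebraMap]

include hw_mul in
/-- `w c 1 = 0`. -/
theorem h89_w_one (c : κ) : w c 1 = 0 := by
  have h := hw_mul c 1 1 one_ne_zero one_ne_zero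
  rw [mul_one] at h
  omega

include hw_mul in
/-- `w c f⁻¹ = 0` when `w c f = 0`. -/
theorem h89_w_inv_eq_zero (c : κ) (f : ↥(h69_F0 N (A.inertiaSubgroupIn ℚ))) (hf : f ≠ 0)
    (h0 : w c f = 0) : w c f⁻¹ = 0 := by
  have h := hw_mul c _ _ hf (inv_ne_zero hf)
  rw [mul_inv_cancel₀ hf, h89_w_one N A w hw_mul, h0] at h
  omega

/-- `hx2` of the transfer: `j` has non-positive valuation at every index of chart 2. -/
theorem h89_fam2_J_le (J : ↥(h69_F0 N (A.inertiaSubgroupIn ℚ)))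
    (hJ : (J : modularFunctionFieldBar N) = h59_jbar N) (hwJ : ∀ c, w c J = 0) :
    ∀ i, (VB).v i J ≤ 0 := by
  intro i
  rcases i with c | j
  · rw [h80_fam2, h80_famOf_v_inl]
    exact (hwJ c).le
  · obtain ⟨⟨P, hP⟩, rfl⟩ := h80_horMk_surj _ j
    have hP' : 0 ≤ P.ord (h59_jbar N)⁻¹ := hP
    rw [Place.ord_inv] at hP'
    show P.ord (J : modularFunctionFieldBar N) ≤ 0
    rw [hJ]
    omega

/-- `h21` of the transfer: an index of chart 2 at which `j` is a unit is an index of chart 1. -/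
theorem h89_fam_h21 (J : ↥(h69_F0 N (A.inertiaSubgroupIn ℚ)))
    (hJ : (J : modularFunctionFieldBar N) = h59_jbar N) :
    ∀ i2, (VB).v i2 J = 0 → ∃ i1,
      (∀ f : ↥(h69_F0 N (A.inertiaSubgroupIn ℚ)), (VA).v i1 f = (VB).v i2 f) ∧
      (i1 ∈ Set.range (Sum.inl : κ → _) → i2 ∈ Set.range (Sum.inl : κ → _)) ∧
      (∀ c : κ, i2 = Sum.inl c → i1 = Sum.inl c) := by
  intro i2 hi2
  rcases i2 with c | j
  · refine ⟨Sum.inl c, fun f => ?_, fun _ => ⟨c, rfl⟩, fun c' hc' => by rw [Sum.inl.inj hc']⟩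
    rw [h80_fam1, h80_fam2, h80_famOf_v_inl, h80_famOf_v_inl]
  · obtain ⟨⟨P, hP⟩, rfl⟩ := h80_horMk_surj _ j
    have hi2' : P.ord (J : modularFunctionFieldBar N) = 0 := hi2
    rw [hJ] at hi2'
    have hP1 : 0 ≤ P.ord (h59_jbar N) := hi2'.ge
    refine ⟨Sum.inr (h80_horMk _ ⟨P, hP1⟩), fun f => ?_, ?_, ?_⟩
    · have e1 : (VA).v (Sum.inr (h80_horMk _ ⟨P, hP1⟩)) f =
          P.ord (f : modularFunctionFieldBar N) := rfl
      have e2 : (VB).v (Sum.inr (h80_horMk _ ⟨P, hP⟩)) f =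
          P.ord (f : modularFunctionFieldBar N) := rfl
      exact e1.trans e2.symm
    · rintro ⟨c, hc⟩
      exact absurd hc (by simp)
    · intro c hc
      exact absurd hc (by simp)

/-- The constants of `A0` lie in the ring of chart 1. -/
theorem h89_const_mem_fam1
    (hwA : ∀ c (a : ↥(h69_K0 (A.inertiaSubgroupIn ℚ))), a ∈ h69_A0 A → a ≠ 0 →
      0 ≤ w c (algebraMap (h69_K0 (A.inertiaSubgroupIn ℚ))
        (h69_F0 N (A.inertiaSubgroupIn ℚ)) a))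
    (c : ↥(h69_K0 (A.inertiaSubgroupIn ℚ))) (hc : c ∈ h69_A0 A) :
    algebraMap (h69_K0 (A.inertiaSubgroupIn ℚ)) (h69_F0 N (A.inertiaSubgroupIn ℚ)) c ∈
      (VA).B := by
  refine (h80_mem_famOf_B N (A.inertiaSubgroupIn ℚ) w hw_mul hw_add _ (h54_isChart_jbar N)
    _).2 ?_
  by_cases h0 : c = 0
  · left
    rw [h0, map_zero]
  · right
    refine ⟨fun c' => hwA c' c hc h0, fun P _ => ?_⟩
    rw [h69_inst_comm, h35_ord_algebraMap]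

/-- `hres` of the transfer: at a point `𝔪 ∋ q` of chart 2, every element of the chart ring is
congruent to a constant of `A0`, which lies in `𝔪` or is a unit of the ring of chart 1. -/
theorem h89_fam2_hres (hA : A.LiesOverPrime q)
    (hwA : ∀ c (a : ↥(h69_K0 (A.inertiaSubgroupIn ℚ))), a ∈ h69_A0 A → a ≠ 0 →
      0 ≤ w c (algebraMap (h69_K0 (A.inertiaSubgroupIn ℚ))
        (h69_F0 N (A.inertiaSubgroupIn ℚ)) a))
    (hTm : (h59_jbar N)⁻¹ ∈ h69_F0 N (A.inertiaSubgroupIn ℚ))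
    (hwT : ∀ c, 0 ≤ w c ⟨(h59_jbar N)⁻¹, hTm⟩)
    (hint2 : ∀ f ∈ (VB).B, (h97_ev (h69_A0 A).toSubring
      (⟨(h59_jbar N)⁻¹, hTm⟩ : ↥(h69_F0 N (A.inertiaSubgroupIn ℚ)))).IsIntegralElem f)
    (𝔪 : Ideal (VB).B) (hmax : 𝔪.IsMaximal) (hqm : ((q : ℕ) : (VB).B) ∈ 𝔪) (s : (VB).B) :
    ∃ l : (VB).B, s - l ∈ 𝔪 ∧
      (l ∈ 𝔪 ∨ ((l : ↥(h69_F0 N (A.inertiaSubgroupIn ℚ))) ∈ (VA).B ∧
        (l : ↥(h69_F0 N (A.inertiaSubgroupIn ℚ)))⁻¹ ∈ (VA).B)) := by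
  have hxT : h75_IsChart Qb
      (((⟨(h59_jbar N)⁻¹, hTm⟩ : ↥(h69_F0 N (A.inertiaSubgroupIn ℚ))) :
        modularFunctionFieldBar N)) := h75_isChart_inv (h54_isChart_jbar N)
  obtain ⟨c, hc, hs⟩ := @h89_resK N _ q _ A κ _
    (⟨(h59_jbar N)⁻¹, hTm⟩ : ↥(h69_F0 N (A.inertiaSubgroupIn ℚ))) hxT w hw_mul hw_add hA hwA
    hwT hint2 𝔪 hmax hqm s
  refine ⟨_, hs, ?_⟩
  by_cases hnu : ((c : ↥(h69_K0 (A.inertiaSubgroupIn ℚ))) : Qb) ∈ A.nonunits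
  · exact Or.inl (h89_nonunit_const_mem N q A
      (⟨(h59_jbar N)⁻¹, hTm⟩ : ↥(h69_F0 N (A.inertiaSubgroupIn ℚ))) hxT w hw_mul hw_add hA hwA
      𝔪 hqm c hc hnu)
  · right
    have hcA : ((c : ↥(h69_K0 (A.inertiaSubgroupIn ℚ))) : Qb) ∈ A := (h69_mem_A0 A c).mp hc
    have hv : A.valuation ((c : ↥(h69_K0 (A.inertiaSubgroupIn ℚ))) : Qb) = 1 :=
      le_antisymm ((A.valuation_le_one_iff _).2 hcA) (not_lt.mp hnu)
    have hcinv : c⁻¹ ∈ h69_A0 A := by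
      rw [h69_mem_A0]
      have e : (((c⁻¹ : ↥(h69_K0 (A.inertiaSubgroupIn ℚ))) :
          ↥(h69_K0 (A.inertiaSubgroupIn ℚ))) : Qb) =
          ((c : ↥(h69_K0 (A.inertiaSubgroupIn ℚ))) : Qb)⁻¹ := rfl
      rw [e, ← A.valuation_le_one_iff, map_inv₀, hv, inv_one]
    refine ⟨h89_const_mem_fam1 N A w hw_mul hw_add hwA c hc, ?_⟩
    have h2 := h89_const_mem_fam1 N A w hw_mul hw_add hwA c⁻¹ hcinv
    rw [map_inv₀] at h2
    exact h2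

/-- **The chart-2 clause of `hwit` of `h61_geomN_of_data` from its chart-1 clause** and the
`(LOC-δ)` datum at the points of chart 2 containing `q0` and `1/j`.

`J`, `T` are ANY elements of `F0` with underlying functions `j`, `1/j` (e.g. `h65_J0 N I`,
`h69_jF0 N I`, `⟨(h59_jbar N)⁻¹, h80_jbar_inv_mem_F0 N I⟩`; `hJ hT := rfl`). -/
theorem h89_hwit_chart2 (hA : A.LiesOverPrime q) (a : κ → ℕ)
    (q0 : ↥(h69_F0 N (A.inertiaSubgroupIn ℚ)))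
    (hq0 : (q0 : modularFunctionFieldBar N) =
      algebraMap Qb (modularFunctionFieldBar N) (q : Qb))
    (hwq : ∀ c, w c q0 = a c)
    (hwA : ∀ c (a : ↥(h69_K0 (A.inertiaSubgroupIn ℚ))), a ∈ h69_A0 A → a ≠ 0 →
      0 ≤ w c (algebraMap (h69_K0 (A.inertiaSubgroupIn ℚ))
        (h69_F0 N (A.inertiaSubgroupIn ℚ)) a))
    (J T : ↥(h69_F0 N (A.inertiaSubgroupIn ℚ)))
    (hJ : (J : modularFunctionFieldBar N) = h59_jbar N)
    (hT : (T : modularFunctionFieldBar N) = (h59_jbar N)⁻¹)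
    (hwJ : ∀ c, w c J = 0)
    (hint2 : ∀ f ∈ (VB).B, (h97_ev (h69_A0 A).toSubring T).IsIntegralElem f)
    (Ez : Divisor Qb (modularFunctionFieldBar N))
    (h1 : ∀ 𝔪 : Ideal (VA).B, 𝔪.IsMaximal →
      (∃ hq0B : q0 ∈ (VA).B, (⟨q0, hq0B⟩ : (VA).B) ∈ 𝔪) →
      ∃ e y : ↥(h69_F0 N (A.inertiaSubgroupIn ℚ)), e ≠ 0 ∧ y ≠ 0 ∧
        (VA).InLoc 𝔪 y ∧ (VA).InLoc 𝔪 y⁻¹ ∧
        (∀ i, i ∉ Set.range Sum.inl → (VA).Through 𝔪 i →
          ∀ P : Place Qb (modularFunctionFieldBar N),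
            (∀ f : ↥(h69_F0 N (A.inertiaSubgroupIn ℚ)), f ≠ 0 →
              (VA).v i f = P.ord (f : modularFunctionFieldBar N)) →
            (VA).v i e = Ez P) ∧
        ∀ c : κ, (VA).Through 𝔪 (Sum.inl c) → (e = y ∨ (a c : ℤ) ≤ w c (e - y)))
    (hcusp : ∀ 𝔪 : Ideal (VB).B, 𝔪.IsMaximal →
      (∃ hq0B : q0 ∈ (VB).B, (⟨q0, hq0B⟩ : (VB).B) ∈ 𝔪) →
      (∃ hTB : T ∈ (VB).B, (⟨T, hTB⟩ : (VB).B) ∈ 𝔪) →
      ∃ e y : ↥(h69_F0 N (A.inertiaSubgroupIn ℚ)), e ≠ 0 ∧ y ≠ 0 ∧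
        (VB).InLoc 𝔪 y ∧ (VB).InLoc 𝔪 y⁻¹ ∧
        (∀ i, i ∉ Set.range Sum.inl → (VB).Through 𝔪 i →
          ∀ P : Place Qb (modularFunctionFieldBar N),
            (∀ f : ↥(h69_F0 N (A.inertiaSubgroupIn ℚ)), f ≠ 0 →
              (VB).v i f = P.ord (f : modularFunctionFieldBar N)) →
            (VB).v i e = Ez P) ∧
        ∀ c : κ, (VB).Through 𝔪 (Sum.inl c) → (e = y ∨ (a c : ℤ) ≤ w c (e - y))) :
    ∀ 𝔪 : Ideal (VB).B, 𝔪.IsMaximal →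
      (∃ hq0B : q0 ∈ (VB).B, (⟨q0, hq0B⟩ : (VB).B) ∈ 𝔪) →
      ∃ e y : ↥(h69_F0 N (A.inertiaSubgroupIn ℚ)), e ≠ 0 ∧ y ≠ 0 ∧
        (VB).InLoc 𝔪 y ∧ (VB).InLoc 𝔪 y⁻¹ ∧
        (∀ i, i ∉ Set.range Sum.inl → (VB).Through 𝔪 i →
          ∀ P : Place Qb (modularFunctionFieldBar N),
            (∀ f : ↥(h69_F0 N (A.inertiaSubgroupIn ℚ)), f ≠ 0 →
              (VB).v i f = P.ord (f : modularFunctionFieldBar N)) →
            (VB).v i e = Ez P) ∧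
        ∀ c : κ, (VB).Through 𝔪 (Sum.inl c) → (e = y ∨ (a c : ℤ) ≤ w c (e - y)) := by
  classical
  obtain ⟨Tv, hTm⟩ := T
  change Tv = (h59_jbar N)⁻¹ at hT
  subst hT
  have hj0 : h59_jbar N ≠ 0 := (h54_isChart_jbar N).ne_zero
  have hJ0 : J ≠ 0 := by
    intro h
    apply hj0
    rw [← hJ, h]
    rfl
  have hTJ : (⟨(h59_jbar N)⁻¹, hTm⟩ : ↥(h69_F0 N (A.inertiaSubgroupIn ℚ))) = J⁻¹ :=
    Subtype.ext (by rw [Subfield.coe_inv, hJ])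
  have hwT : ∀ c, w c ⟨(h59_jbar N)⁻¹, hTm⟩ = 0 := fun c => by
    rw [hTJ]
    exact h89_w_inv_eq_zero N A w hw_mul c J hJ0 (hwJ c)
  have hxT : h75_IsChart Qb (h59_jbar N)⁻¹ := h75_isChart_inv (h54_isChart_jbar N)
  have hTB : (⟨(h59_jbar N)⁻¹, hTm⟩ : ↥(h69_F0 N (A.inertiaSubgroupIn ℚ))) ∈ (VB).B :=
    (h80_mem_famOf_B N (A.inertiaSubgroupIn ℚ) w hw_mul hw_add _ hxT _).2
      (Or.inr ⟨fun c => (hwT c).ge, fun P hP => hP⟩)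
  have hq0B1 : q0 ∈ (VA).B :=
    h89_q0_mem_famOf N q A w hw_mul hw_add a q0 hq0 hwq _ (h54_isChart_jbar N)
  have key := h89_xfer_q (K := Qb) (F := modularFunctionFieldBar N)
    (h69_F0 N (A.inertiaSubgroupIn ℚ)).subtype J hJ0 (VA) (VB)
    (Sum.inl : κ → _) (Sum.inl : κ → _) a Ez
    (h89_fam2_J_le N A w hw_mul hw_add J hJ hwJ) (h89_fam_h21 N A w hw_mul hw_add J hJ)
    (⟨⟨(h59_jbar N)⁻¹, hTm⟩, hTB⟩ : (VB).B) hTJ
    (fun 𝔪 => ∃ hq0B : q0 ∈ (VA).B, (⟨q0, hq0B⟩ : (VA).B) ∈ 𝔪)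
    (fun 𝔪 => ∃ hq0B : q0 ∈ (VB).B, (⟨q0, hq0B⟩ : (VB).B) ∈ 𝔪)
    (by
      intro 𝔪 h𝔪 hsub hf
      obtain ⟨hq0B, hqm⟩ := hf
      refine ⟨hq0B1, ?_⟩
      show (VB).InMLoc 𝔪 q0
      exact ⟨⟨q0, hq0B⟩, 1, hqm, h94_one_not_mem (VB) 𝔪, by simp⟩)
    (by
      intro 𝔪 hmax hf _ s
      obtain ⟨hq0B, hqm⟩ := hf
      have hqm' : ((q : ℕ) : (VB).B) ∈ 𝔪 := by
        have e : ((q : ℕ) : (VB).B) = ⟨q0, hq0B⟩ := by
          apply Subtype.ext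
          apply Subtype.ext
          show (((q : ℕ) : ↥(h69_F0 N (A.inertiaSubgroupIn ℚ))) : modularFunctionFieldBar N) =
            (q0 : modularFunctionFieldBar N)
          rw [hq0, map_natCast]
          rfl
        rw [e]
        exact hqm
      exact h89_fam2_hres N q A w hw_mul hw_add hA hwA hTm (fun c => (hwT c).ge) hint2 𝔪 hmax
        hqm' s)
    (by
      intro 𝔪 hmax hf
      obtain ⟨e, y, he0, hy0, hy, hy', hhor, hvert⟩ := h1 𝔪 hmax hf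
      exact ⟨e, y, he0, hy0, hy, hy', hhor, fun c hc => hvert c hc⟩)
    (by
      intro 𝔪 hmax hf ht0
      obtain ⟨e, y, he0, hy0, hy, hy', hhor, hvert⟩ := hcusp 𝔪 hmax hf ⟨hTB, ht0⟩
      exact ⟨e, y, he0, hy0, hy, hy', hhor, fun c hc => hvert c hc⟩)
  intro 𝔪 hmax hf
  obtain ⟨e, y, he0, hy0, hy, hy', hhor, hvert⟩ := key 𝔪 hmax hf
  exact ⟨e, y, he0, hy0, hy, hy', hhor, fun c hc => hvert c hc⟩

end Modular

end Fermat.Agent.S36
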