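import Fermat.Agent.S36.h61_Asm
import Fermat.Agent.S36.h80_ChartPlace

/-!
# S36 / row E adapter (helper46): the chart-family binders of `h61_principal_of_loc`

`D` a lattice datum on `F / K`, `ψ : F0 →+* F` the inclusion of the carrier of the rational
functions, `w c` (`c : κ`, `κ` finite) the vertical valuations of `F0`, `U` a set of places of
`F / K` (a chart) and `V := h80_placeFam ψ U w ..` the chart family (vertical indices
`Sum.inl c`, horizontal indices the restricted places of `U`).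

From the ONE comparison statement

  `(C3)  ∀ f : F0, f ≠ 0 → (ψ f ∈ D.O ↔ ∀ c, 0 ≤ w c f)`

and a constant `q0 ∈ F0` (`ψ q0 = algebraMap K F qK`, `qK` in the maximal ideal of `D.A`) with
`w c q0 = a c ≥ 1`, this file produces, in the verbatim binder shapes of
`h61_principal_of_loc` / `h29_geomN_of_loc_jbar`, for `vert := Set.range Sum.inl` and the
multiplicities `Sum.elim a (fun _ => 1)`:

* `h46_E_hB`     : elements of `V.B` lie in `O` and are regular on the chart;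
* `h46_E_hvert`, `h46_E_ha` : `vert` is finite, the multiplicities are `≥ 1`;
* `h46_E_hVAL`   : vertical valuations `≥ a` ⟹ in `O` with zero reduction;
* `h46_E_hvertO` : elements of `F0 ∩ O` have nonnegative vertical valuations;
* `h46_E_hhor`   : every non-vertical index is the order at a place of the chart;
* `h46_E_q_mem_B`, `h46_E_ker` : `q0 ∈ V.B`, and `q0 ∈ 𝔪` for every ideal `𝔪` containing the
  kernel of the reduction (the premise of `hnz1`/`hnz2`);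
* `h46_E_huz`    : `uz ≡ 1` modulo `a` at the vertical valuations ⟹ `red uz = 1`.
-/

set_option autoImplicit false

namespace Fermat.Agent.S36

open AlgebraicCurve Fermat.Agent.S24 Fermat.Agent.S18 Fermat.Agent.S34

variable {K F k Rb : Type*} [Field K] [Field F] [Algebra K F] [Field k] [CommRing Rb]
  [Algebra k Rb]
variable {F0 : Type*} [Field F0] (ψ : F0 →+* F) (U : Set (Place K F))
variable {κ : Type*} [Finite κ] (w : κ → F0 → ℤ)
  (hw_mul : ∀ c (f g : F0), f ≠ 0 → g ≠ 0 → w c (f * g) = w c f + w c g)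
  (hw_add : ∀ c (f g : F0), f ≠ 0 → g ≠ 0 → f + g ≠ 0 → min (w c f) (w c g) ≤ w c (f + g))
  (hfin : ∀ f : F, f ≠ 0 → {P : Place K F | P ∈ U ∧ P.ord f ≠ 0}.Finite)

/-- `vert` is finite. -/
theorem h46_E_hvert :
    (Set.range (Sum.inl : κ → κ ⊕ h80_HorIdx (h80_placeOrd ψ U))).Finite :=
  Set.finite_range _

omit [Finite κ] in
/-- The multiplicities are `≥ 1` on `vert`. -/
theorem h46_E_ha (a : κ → ℕ) (ha : ∀ c, 1 ≤ a c) :
    ∀ C ∈ Set.range (Sum.inl : κ → κ ⊕ h80_HorIdx (h80_placeOrd ψ U)),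
      1 ≤ (Sum.elim a (fun _ => 1) : κ ⊕ h80_HorIdx (h80_placeOrd ψ U) → ℕ) C := by
  rintro _ ⟨c, rfl⟩
  exact ha c

/-- **`hB`**: elements of the chart ring lie in `O` and are regular on the chart. -/
theorem h46_E_hB (D : h22_Lat K F k Rb)
    (hC3 : ∀ f : F0, f ≠ 0 → (ψ f ∈ D.O ↔ ∀ c, 0 ≤ w c f))
    (cond : Place K F → Prop) (hU : ∀ P, cond P → P ∈ U) :
    ∀ b : (h80_placeFam ψ U w hw_mul hw_add hfin).B,
      ψ (b : F0) ∈ D.O ∧ ∀ v : Place K F, cond v → 0 ≤ v.ord (ψ (b : F0)) := by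
  intro b
  by_cases hb0 : (b : F0) = 0
  · rw [hb0, map_zero]
    exact ⟨D.O.zero_mem, fun v _ => by rw [Place.ord_zero]⟩
  · rcases (h80_mem_placeFam_B ψ U w hw_mul hw_add hfin (b : F0)).mp b.2 with h0 | ⟨h1, h2⟩
    · exact absurd h0 hb0
    · exact ⟨(hC3 _ hb0).mpr h1, fun v hv => h2 v (hU v hv)⟩

/-- **`hVAL`** `= (C3c)`: vertical valuations `≥ a` ⟹ in `O` with zero reduction. -/
theorem h46_E_hVAL (D : h22_Lat K F k Rb)
    (hC3 : ∀ f : F0, f ≠ 0 → (ψ f ∈ D.O ↔ ∀ c, 0 ≤ w c f))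
    (q0 : F0) (hq0 : q0 ≠ 0) (a : κ → ℕ) (hwq : ∀ c, w c q0 = a c)
    (qK : K) (hqK : qK ∈ D.A.nonunits) (hψq : ψ q0 = algebraMap K F qK) :
    ∀ h : F0, h ≠ 0 →
      (∀ C ∈ Set.range (Sum.inl : κ → κ ⊕ h80_HorIdx (h80_placeOrd ψ U)),
        ((Sum.elim a (fun _ => 1) : κ ⊕ h80_HorIdx (h80_placeOrd ψ U) → ℕ) C : ℤ) ≤
          (h80_placeFam ψ U w hw_mul hw_add hfin).v C h) →
      ψ h ∈ D.O ∧ D.redF (ψ h) = 0 := by
  intro h hh0 hv
  have hg0 : h / q0 ≠ 0 := div_ne_zero hh0 hq0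
  have hhq : h = q0 * (h / q0) := by field_simp
  have hwg : ∀ c, 0 ≤ w c (h / q0) := by
    intro c
    have h1 : ((a c : ℕ) : ℤ) ≤ w c h := hv (Sum.inl c) ⟨c, rfl⟩
    have h2 : w c (q0 * (h / q0)) = w c q0 + w c (h / q0) := hw_mul c q0 (h / q0) hq0 hg0
    rw [← hhq, hwq c] at h2
    omega
  have hgO : ψ (h / q0) ∈ D.O := (hC3 _ hg0).mpr hwg
  have e : ψ h = algebraMap K F qK * ψ (h / q0) := by
    rw [← hψq, ← map_mul, ← hhq]
  rw [e]
  exact ⟨D.O.mul_mem ((D.mem_iff qK).1 (D.A.nonunits_le hqK)) hgO, h50_redF_const_mul D hqK hgO⟩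

/-- **`hvertO`** `= (C3a)`: elements of `F0 ∩ O` have nonnegative vertical valuations. -/
theorem h46_E_hvertO (D : h22_Lat K F k Rb)
    (hC3 : ∀ f : F0, f ≠ 0 → (ψ f ∈ D.O ↔ ∀ c, 0 ≤ w c f)) :
    ∀ g : F0, g ≠ 0 → ψ g ∈ D.O →
      ∀ C ∈ Set.range (Sum.inl : κ → κ ⊕ h80_HorIdx (h80_placeOrd ψ U)),
        0 ≤ (h80_placeFam ψ U w hw_mul hw_add hfin).v C g := by
  rintro g hg0 hgO _ ⟨c, rfl⟩
  exact (hC3 g hg0).mp hgO c

/-- **`hhor`**: every non-vertical index is the order at a place of the chart. -/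
theorem h46_E_hhor (cond : Place K F → Prop) (hU : ∀ P, P ∈ U → cond P) :
    ∀ i, i ∉ Set.range (Sum.inl : κ → κ ⊕ h80_HorIdx (h80_placeOrd ψ U)) →
      ∃ P : Place K F, cond P ∧
        ∀ f : F0, f ≠ 0 → (h80_placeFam ψ U w hw_mul hw_add hfin).v i f = P.ord (ψ f) := by
  intro i hi
  have hhor : h80_IsHor i := by
    by_contra hn
    obtain ⟨c, rfl⟩ := (h80_not_isHor_iff i).mp hn
    exact hi ⟨c, rfl⟩
  obtain ⟨P, hP, rfl⟩ := h80_placeFam_hor ψ U i hhor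
  exact ⟨P, hU P hP, fun f _ => rfl⟩

/-- The constant `q0` lies in the chart ring. -/
theorem h46_E_q_mem_B (q0 : F0) (a : κ → ℕ) (hwq : ∀ c, w c q0 = a c)
    (qK : K) (hψq : ψ q0 = algebraMap K F qK) :
    q0 ∈ (h80_placeFam ψ U w hw_mul hw_add hfin).B := by
  rw [h80_mem_placeFam_B]
  refine Or.inr ⟨fun c => ?_, fun P _ => ?_⟩
  · rw [hwq c]
    exact Int.natCast_nonneg _
  · rw [hψq, h35_ord_algebraMap]

/-- An ideal of the chart ring containing the kernel of the reduction contains `q0`. -/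
theorem h46_E_ker (D : h22_Lat K F k Rb) (q0 : F0)
    (hqB : q0 ∈ (h80_placeFam ψ U w hw_mul hw_add hfin).B)
    (qK : K) (hqK : qK ∈ D.A.nonunits) (hψq : ψ q0 = algebraMap K F qK)
    (𝔪 : Ideal (h80_placeFam ψ U w hw_mul hw_add hfin).B)
    (hker : ∀ t : (h80_placeFam ψ U w hw_mul hw_add hfin).B,
      D.redF (ψ (t : F0)) = 0 → t ∈ 𝔪) :
    (⟨q0, hqB⟩ : (h80_placeFam ψ U w hw_mul hw_add hfin).B) ∈ 𝔪 := by
  refine hker _ ?_
  have h1 := h50_redF_const_mul D hqK D.O.one_mem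
  rw [mul_one] at h1
  show D.redF (ψ q0) = 0
  rw [hψq]
  exact h1

omit [Finite κ] in
include hw_mul in
/-- **`huz`**: a function `≡ 1` modulo `a` at the vertical valuations has reduction `1`. -/
theorem h46_E_huz (D : h22_Lat K F k Rb)
    (hC3 : ∀ f : F0, f ≠ 0 → (ψ f ∈ D.O ↔ ∀ c, 0 ≤ w c f))
    (q0 : F0) (hq0 : q0 ≠ 0) (a : κ → ℕ) (hwq : ∀ c, w c q0 = a c)
    (qK : K) (hqK : qK ∈ D.A.nonunits) (hψq : ψ q0 = algebraMap K F qK)
    (uz0 : F0) (huz : uz0 - 1 = 0 ∨ ∀ c, (a c : ℤ) ≤ w c (uz0 - 1)) :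
    ∃ h : ψ uz0 ∈ D.O, D.red ⟨ψ uz0, h⟩ = 1 := by
  have hone : D.redF (1 : F) = 1 := by
    rw [D.redF_of_mem D.O.one_mem]
    exact map_one D.red
  by_cases h0 : uz0 - 1 = 0
  · have h1 : ψ uz0 = 1 := by rw [sub_eq_zero.1 h0, map_one]
    have hO : ψ uz0 ∈ D.O := by
      rw [h1]
      exact D.O.one_mem
    refine ⟨hO, ?_⟩
    rw [← D.redF_of_mem hO, h1, hone]
  · have hv := huz.resolve_left h0
    -- `(C3c)` for `uz0 - 1`
    have hg0 : (uz0 - 1) / q0 ≠ 0 := div_ne_zero h0 hq0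
    have hhq : uz0 - 1 = q0 * ((uz0 - 1) / q0) := by field_simp
    have hwg : ∀ c, 0 ≤ w c ((uz0 - 1) / q0) := by
      intro c
      have h1 := hv c
      have h2 : w c (q0 * ((uz0 - 1) / q0)) = w c q0 + w c ((uz0 - 1) / q0) :=
        hw_mul c q0 ((uz0 - 1) / q0) hq0 hg0
      rw [← hhq, hwq c] at h2
      omega
    have hgO : ψ ((uz0 - 1) / q0) ∈ D.O := (hC3 _ hg0).mpr hwg
    have e : ψ (uz0 - 1) = algebraMap K F qK * ψ ((uz0 - 1) / q0) := by
      rw [← hψq, ← map_mul, ← hhq]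
    have hO1 : ψ (uz0 - 1) ∈ D.O := by
      rw [e]
      exact D.O.mul_mem ((D.mem_iff qK).1 (D.A.nonunits_le hqK)) hgO
    have hred1 : D.redF (ψ (uz0 - 1)) = 0 := by
      rw [e]
      exact h50_redF_const_mul D hqK hgO
    have e2 : ψ uz0 = ψ (uz0 - 1) + 1 := by
      rw [map_sub, map_one, sub_add_cancel]
    have hO : ψ uz0 ∈ D.O := by
      rw [e2]
      exact D.O.add_mem hO1 D.O.one_mem
    refine ⟨hO, ?_⟩
    rw [← D.redF_of_mem hO, e2, h51_redF_add D hO1 D.O.one_mem, hred1, hone, zero_add]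

end Fermat.Agent.S36
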