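import Fermat.Agent.S36.h46_SpanK0
import Fermat.Agent.S36.h69_K0

/-!
# S36 / row I-BR (helper46): the `hspan` binder of `(LG)` at the modular level

`D` any lattice datum on `F̄(N)` whose valuation ring of constants lies over `q`, `H` the inertia
group of `D.A`, `F0 = h69_F0 N H` the carrier of the `H`-fixed functions.  If an `H`-fixed element
of `O` with zero reduction is divisible by `q` in `O` (row I-LAT), then for every `H`-invariant
divisor `E` the reductions of the `H`-fixed elements of `L(E) ∩ O` span `red (L(E) ∩ O)`.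

* `h46_hspan_F0` : the statement with the set `{g | (g ∈ F0 ∧ g ∈ L(E)) ∧ g ∈ O}`.
* `h46_hspan_F0_sub` : the statement with the image of `{g : F0 | g ∈ L(E) ∧ g ∈ O}` under
  the inclusion `F0 → F` (the `hspan` binder of `h46_principal_of_valFam` for `ψ` the inclusion).
* `h46_inv_combo` : `n • E1 + j • Ez` is invariant if `E1` and `Ez` are.
* `h46_hspan_family`, `h46_hspan_family_A` : the family form (all `j`, `n`), literally the `hspan`
  binder of `h61_principal_of_loc`.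
-/

set_option autoImplicit false

open AlgebraicCurve ModularCurve

namespace Fermat.Agent.S36

open Fermat.Agent.S18 Fermat.Agent.S34

local notation "Qb" => AlgebraicClosure ℚ

theorem h46_natCast_mem_of_liesOver {q : ℕ} (A : ValuationSubring Qb) (hA : A.LiesOverPrime q) :
    (q : Qb) ∈ A := A.nonunits_subset hA

theorem h46_natCast_inv_not_mem {q : ℕ} (hq : q ≠ 0) (A : ValuationSubring Qb)
    (hA : A.LiesOverPrime q) : (q : Qb)⁻¹ ∉ A := by
  intro h
  have hq0 : (q : Qb) ≠ 0 := by exact_mod_cast hq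
  have h1 : A.valuation (q : Qb) < 1 := A.mem_nonunits_iff.mp hA
  have h2 : A.valuation ((q : Qb)⁻¹) ≤ 1 := (A.valuation_le_one_iff _).mpr h
  have h3 : A.valuation (q : Qb) * A.valuation ((q : Qb)⁻¹) = 1 := by
    rw [← map_mul, mul_inv_cancel₀ hq0, map_one]
  have h4 : A.valuation (q : Qb) * A.valuation ((q : Qb)⁻¹) < 1 :=
    mul_lt_one_of_lt_of_le h1 h2
  rw [h3] at h4
  exact lt_irrefl _ h4

variable (N : ℕ) {k Rb : Type*} [Field k] [CommRing Rb] [Algebra k Rb]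

/-- **`hspan` at the modular level**, set form. -/
theorem h46_hspan_F0 {q : ℕ} (hq : q.Prime)
    (D : h22_Lat Qb (modularFunctionFieldBar N) k Rb) (hA : D.A.LiesOverPrime q)
    (hON : h22_ON D) (hrank : h39_RankOne D.A)
    (hdivq : ∀ f : modularFunctionFieldBar N, f ∈ h69_F0 N (D.A.inertiaSubgroupIn ℚ) →
      f ∈ D.O → D.redF f = 0 → ((q : Qb)⁻¹) • f ∈ D.O)
    (E : Divisor Qb (modularFunctionFieldBar N)) [Module.Finite Qb (riemannRochSpace E)]
    (hE : ∀ σ ∈ D.A.inertiaSubgroupIn ℚ,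
      arithmeticGalois (modularFunctionFieldFull N) σ • E = E) :
    ∀ a ∈ h51_Rd D E, a ∈ Submodule.span k (D.redF ''
      {g | (g ∈ h69_F0 N (D.A.inertiaSubgroupIn ℚ) ∧ g ∈ riemannRochSpace E) ∧ g ∈ D.O}) := by
  set H := D.A.inertiaSubgroupIn ℚ with hH
  have hcF0 : ∀ c : Qb, (∀ σ ∈ H, σ c = c) →
      algebraMap Qb (modularFunctionFieldBar N) c ∈ h69_F0 N H :=
    fun c hc => (h69_algebraMap_mem_F0 N H c).mpr hc
  have hqfix : ∀ σ ∈ H, σ (q : Qb) = (q : Qb) := fun σ _ => map_natCast σ q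
  have hqifix : ∀ σ ∈ H, σ ((q : Qb)⁻¹) = (q : Qb)⁻¹ := fun σ hσ => by
    rw [map_inv₀, hqfix σ hσ]
  refine h46_span_Rd_of_form D hON hrank (q : Qb) (h46_natCast_mem_of_liesOver D.A hA)
    (h46_natCast_inv_not_mem hq.ne_zero D.A hA) E
    {g | g ∈ h69_F0 N H ∧ g ∈ riemannRochSpace E} (fun f hf => hf.2) ?_
    {c : Qb | ∀ σ ∈ H, σ c = c} ?_ ?_ ?_ ?_
  · intro f hf
    have h := h69_rr_span_F0 N H E hE
    have hf' : f ∈ Submodule.span Qb ((h69_F0 N H : Set (modularFunctionFieldBar N)) ∩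
        (riemannRochSpace E : Set (modularFunctionFieldBar N))) := by
      rw [h]
      exact hf
    exact hf'
  · intro c
    obtain ⟨a, rfl⟩ := D.res_surjective c
    obtain ⟨a0, ha0, hfix, hnear⟩ := h5_res_K0 q hq D.A hA (a : Qb) a.2
    refine ⟨a0, hfix, ha0, ?_⟩
    have h1 : D.resK ((a : Qb) - a0) = 0 :=
      (h22_resK_eq_zero_iff D (D.A.sub_mem a.2 ha0)).mpr hnear
    rw [D.resK_of_mem (D.A.sub_mem a.2 ha0)] at h1
    rw [D.resK_of_mem ha0]
    have h2 : (⟨(a : Qb) - a0, D.A.sub_mem a.2 ha0⟩ : D.A) = a - ⟨a0, ha0⟩ := rfl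
    rw [h2, map_sub, sub_eq_zero] at h1
    exact h1.symm
  · rintro f ⟨hf1, hf2⟩ g ⟨hg1, hg2⟩ c hc
    refine ⟨?_, Submodule.sub_mem _ hf2 (Submodule.smul_mem _ c hg2)⟩
    rw [Algebra.smul_def]
    exact (h69_F0 N H).sub_mem hf1 ((h69_F0 N H).mul_mem (hcF0 c hc) hg1)
  · rintro f ⟨hf1, hf2⟩
    refine ⟨?_, Submodule.smul_mem _ _ hf2⟩
    rw [Algebra.smul_def]
    exact (h69_F0 N H).mul_mem (hcF0 _ hqfix) hf1
  · rintro f ⟨hf1, hf2⟩ hfO hred
    refine ⟨⟨?_, Submodule.smul_mem _ _ hf2⟩, hdivq f hf1 hfO hred⟩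
    rw [Algebra.smul_def]
    exact (h69_F0 N H).mul_mem (hcF0 _ hqifix) hf1

/-- **`hspan` at the modular level**, in the shape of the `hspan` binder of
`h46_principal_of_valFam` for `ψ := (h69_F0 N H).subtype`. -/
theorem h46_hspan_F0_sub {q : ℕ} (hq : q.Prime)
    (D : h22_Lat Qb (modularFunctionFieldBar N) k Rb) (hA : D.A.LiesOverPrime q)
    (hON : h22_ON D) (hrank : h39_RankOne D.A)
    (hdivq : ∀ f : modularFunctionFieldBar N, f ∈ h69_F0 N (D.A.inertiaSubgroupIn ℚ) →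
      f ∈ D.O → D.redF f = 0 → ((q : Qb)⁻¹) • f ∈ D.O)
    (E : Divisor Qb (modularFunctionFieldBar N)) [Module.Finite Qb (riemannRochSpace E)]
    (hE : ∀ σ ∈ D.A.inertiaSubgroupIn ℚ,
      arithmeticGalois (modularFunctionFieldFull N) σ • E = E) :
    ∀ a ∈ h51_Rd D E, a ∈ Submodule.span k (D.redF ''
      ((h69_F0 N (D.A.inertiaSubgroupIn ℚ)).subtype ''
        {g : h69_F0 N (D.A.inertiaSubgroupIn ℚ) |
          (g : modularFunctionFieldBar N) ∈ riemannRochSpace E ∧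
            (g : modularFunctionFieldBar N) ∈ D.O})) := by
  intro a ha
  refine Submodule.span_mono ?_ (h46_hspan_F0 N hq D hA hON hrank hdivq E hE a ha)
  rintro _ ⟨g, ⟨⟨hg1, hg2⟩, hg3⟩, rfl⟩
  exact ⟨g, ⟨⟨g, hg1⟩, ⟨hg2, hg3⟩, rfl⟩, rfl⟩

/-- `n • E1 + j • Ez` is invariant if `E1` and `Ez` are. -/
theorem h46_inv_combo {K F : Type*} [Field K] [Field F] [Algebra K F]
    (σ : SemilinearAut K F) (E1 Ez : Divisor K F) (h1 : σ • E1 = E1) (hz : σ • Ez = Ez)
    (n : ℕ) (j : ℤ) : σ • (n • E1 + j • Ez) = n • E1 + j • Ez := by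
  have e1 : σ • (n • E1) = n • (σ • E1) :=
    map_nsmul (DistribSMul.toAddMonoidHom (Divisor K F) σ) n E1
  have e2 : σ • (j • Ez) = j • (σ • Ez) :=
    map_zsmul (DistribSMul.toAddMonoidHom (Divisor K F) σ) j Ez
  rw [smul_add, e1, e2, h1, hz]

/-- **`hspan` for the family `n • E1 + j • Ez`**, literally the `hspan` binder of
`h61_principal_of_loc` / `h46_principal_of_valFam` for `ψ := (h69_F0 N H).subtype`,
`H := D.A.inertiaSubgroupIn ℚ` (for all `j`, `n`). -/
theorem h46_hspan_family {q : ℕ} (hq : q.Prime)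
    (D : h22_Lat Qb (modularFunctionFieldBar N) k Rb) (hA : D.A.LiesOverPrime q)
    (hON : h22_ON D) (hrank : h39_RankOne D.A)
    (hdivq : ∀ f : modularFunctionFieldBar N, f ∈ h69_F0 N (D.A.inertiaSubgroupIn ℚ) →
      f ∈ D.O → D.redF f = 0 → ((q : Qb)⁻¹) • f ∈ D.O)
    (hfin : ∀ D' : Divisor Qb (modularFunctionFieldBar N),
      Module.Finite Qb (riemannRochSpace D'))
    (E1 Ez : Divisor Qb (modularFunctionFieldBar N))
    (hE1 : ∀ σ ∈ D.A.inertiaSubgroupIn ℚ,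
      arithmeticGalois (modularFunctionFieldFull N) σ • E1 = E1)
    (hEz : ∀ σ ∈ D.A.inertiaSubgroupIn ℚ,
      arithmeticGalois (modularFunctionFieldFull N) σ • Ez = Ez)
    (j : ℤ) (n : ℕ) :
    ∀ a ∈ h51_Rd D (n • E1 + j • Ez), a ∈ Submodule.span k (D.redF ''
      ((h69_F0 N (D.A.inertiaSubgroupIn ℚ)).subtype ''
        {g : h69_F0 N (D.A.inertiaSubgroupIn ℚ) |
          (h69_F0 N (D.A.inertiaSubgroupIn ℚ)).subtype g ∈ riemannRochSpace (n • E1 + j • Ez) ∧
            (h69_F0 N (D.A.inertiaSubgroupIn ℚ)).subtype g ∈ D.O})) := by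
  have := hfin (n • E1 + j • Ez)
  exact h46_hspan_F0_sub N hq D hA hON hrank hdivq (n • E1 + j • Ez)
    (fun σ hσ => h46_inv_combo _ E1 Ez (hE1 σ hσ) (hEz σ hσ) n j)

/-- The same with the valuation ring `A = D.A` named explicitly. -/
theorem h46_hspan_family_A {q : ℕ} (hq : q.Prime) (A : ValuationSubring Qb)
    (hA : A.LiesOverPrime q)
    (D : h22_Lat Qb (modularFunctionFieldBar N) k Rb) (hDA : D.A = A)
    (hON : h22_ON D) (hrank : h39_RankOne D.A)
    (hdivq : ∀ f : modularFunctionFieldBar N, f ∈ h69_F0 N (A.inertiaSubgroupIn ℚ) →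
      f ∈ D.O → D.redF f = 0 → ((q : Qb)⁻¹) • f ∈ D.O)
    (hfin : ∀ D' : Divisor Qb (modularFunctionFieldBar N),
      Module.Finite Qb (riemannRochSpace D'))
    (E1 Ez : Divisor Qb (modularFunctionFieldBar N))
    (hE1 : ∀ σ ∈ A.inertiaSubgroupIn ℚ,
      arithmeticGalois (modularFunctionFieldFull N) σ • E1 = E1)
    (hEz : ∀ σ ∈ A.inertiaSubgroupIn ℚ,
      arithmeticGalois (modularFunctionFieldFull N) σ • Ez = Ez)
    (j : ℤ) (n : ℕ) :
    ∀ a ∈ h51_Rd D (n • E1 + j • Ez), a ∈ Submodule.span k (D.redF ''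
      ((h69_F0 N (A.inertiaSubgroupIn ℚ)).subtype ''
        {g : h69_F0 N (A.inertiaSubgroupIn ℚ) |
          (h69_F0 N (A.inertiaSubgroupIn ℚ)).subtype g ∈ riemannRochSpace (n • E1 + j • Ez) ∧
            (h69_F0 N (A.inertiaSubgroupIn ℚ)).subtype g ∈ D.O})) := by
  subst hDA
  exact h46_hspan_family N hq D hA hON hrank hdivq hfin E1 Ez hE1 hEz j n

end Fermat.Agent.S36
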