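import Fermat.Agent.S36.h61_GeomNLoc
import Fermat.Agent.S36.h46_EBinders
import Fermat.Agent.S36.h46_SpanInst
import Fermat.Agent.S36.h80_FamInst
import Fermat.Agent.S36.h5_ChartDiv

/-!
# S36 / row I-E (helper61): the E-plug

`h61_geomN_of_data`: at a level `N`, for the inertia group `I` of `A` over `q`, the carrier
`F₀ = h69_F0 N I`, the chart families `h80_fam1`, `h80_fam2` (helper80) of the vertical
valuations `w`, a lattice `D` with `D.A = A` and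

* the lattice binders (`hON`, `hinv`, `hrank`, `j, j⁻¹ ∈ O`, `(GEN)` for the polar divisor of
  `j`, `hdivq`),
* `(C3)` : `f ∈ F₀`, `f ≠ 0` : `f ∈ O ↔ ∀ c, 0 ≤ w c f`, and `w c q = a c ≥ 1`,
* for every `lam ^ n`-torsion class `z` with `Pnew z` fixed by `I`: an `I`-invariant divisor
  `Ez` of degree `0` with `[Ez] = c • z`, a function `uz ∈ F₀` with `lam ^ n Ez = div uz`,
  `uz ≡ 1` modulo `a` at the vertical valuations, and `(LOC-δ)` at every closed point of the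
  special fibre (`q ∈ 𝔪`) of both chart families,

every such `z` is killed by `c`.  All other binders of `h61_principal_of_loc` are discharged
(helper46's `h46_E_*`, `h46_hspan_family_A`; helper5's chart divisors).
-/

set_option autoImplicit false

namespace Fermat.Agent.S36

open AlgebraicCurve ModularCurve Fermat.Agent.S24 Fermat.Agent.S18 Fermat.Agent.S34

local notation "Qb" => AlgebraicClosure ℚ

theorem h61_geomN_of_data (N : ℕ) [NeZero N] {q : ℕ} (hq : q.Prime)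
    (A : ValuationSubring Qb) (hA : A.LiesOverPrime q)
    {k Rb : Type*} [Field k] [CommRing Rb] [Algebra k Rb] [Nontrivial Rb]
    (D : h22_Lat Qb (modularFunctionFieldBar N) k Rb) (hDA : D.A = A) (hON : h22_ON D)
    (hinv : ∀ (f : modularFunctionFieldBar N) (hf : f ∈ D.O), IsUnit (D.red ⟨f, hf⟩) → f⁻¹ ∈ D.O)
    (hrank : h39_RankOne D.A)
    (hx : h59_jbar N ∈ D.O) (hxi : (h59_jbar N)⁻¹ ∈ D.O)
    (hgen : ∀ E1 : Divisor Qb (modularFunctionFieldBar N),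
      (∀ v : Place Qb (modularFunctionFieldBar N), E1 v = max 0 (-v.ord (h59_jbar N))) →
      ∃ N0 : ℕ, ∀ n, N0 ≤ n → ∀ a ∈ h51_Rd D ((n + 1) • E1), ∃ b ∈ h51_Rd D (n • E1),
        ∃ c ∈ h51_Rd D (n • E1), a = b + D.redF (h59_jbar N) * c)
    (hdivq : ∀ f : modularFunctionFieldBar N, f ∈ h69_F0 N (A.inertiaSubgroupIn ℚ) →
      f ∈ D.O → D.redF f = 0 → ((q : Qb)⁻¹) • f ∈ D.O)
    {κ : Type*} [Finite κ] (w : κ → h69_F0 N (A.inertiaSubgroupIn ℚ) → ℤ)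
    (hw_mul : ∀ c (f g : h69_F0 N (A.inertiaSubgroupIn ℚ)), f ≠ 0 → g ≠ 0 →
      w c (f * g) = w c f + w c g)
    (hw_add : ∀ c (f g : h69_F0 N (A.inertiaSubgroupIn ℚ)), f ≠ 0 → g ≠ 0 → f + g ≠ 0 →
      min (w c f) (w c g) ≤ w c (f + g))
    (a : κ → ℕ) (ha : ∀ c, 1 ≤ a c)
    (q0 : h69_F0 N (A.inertiaSubgroupIn ℚ))
    (hq0 : (q0 : modularFunctionFieldBar N) = algebraMap Qb (modularFunctionFieldBar N) (q : Qb))
    (hwq : ∀ c, w c q0 = a c)
    (hC3 : ∀ f : h69_F0 N (A.inertiaSubgroupIn ℚ), f ≠ 0 →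
      ((f : modularFunctionFieldBar N) ∈ D.O ↔ ∀ c, 0 ≤ w c f))
    (lam : ℕ) (hlam : (lam : k) ≠ 0) (c : ℕ) (Pnew : JZero N → Prop)
    (hwit : ∀ (n : ℕ) (z : JZero N), lam ^ n • z = 0 → Pnew z →
      (∀ s ∈ A.inertiaSubgroupIn ℚ, s • z = z) →
      ∃ (Ez : Divisor.degZero (K := Qb) (F := modularFunctionFieldBar N))
        (uz : h69_F0 N (A.inertiaSubgroupIn ℚ)),
        Pic0.mk Ez = c • z ∧
        (∀ σ ∈ A.inertiaSubgroupIn ℚ, arithmeticGalois (modularFunctionFieldFull N) σ •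
          (Ez : Divisor Qb (modularFunctionFieldBar N)) = Ez) ∧
        uz ≠ 0 ∧
        (∀ v : Place Qb (modularFunctionFieldBar N),
          ((lam ^ n : ℕ) : ℤ) * (Ez : Divisor Qb (modularFunctionFieldBar N)) v =
            v.ord (uz : modularFunctionFieldBar N)) ∧
        (uz - 1 = 0 ∨ ∀ c, (a c : ℤ) ≤ w c (uz - 1)) ∧
        (∀ 𝔪 : Ideal (h80_fam1 N (A.inertiaSubgroupIn ℚ) w hw_mul hw_add).B, 𝔪.IsMaximal →
          (∃ hq0B : q0 ∈ (h80_fam1 N (A.inertiaSubgroupIn ℚ) w hw_mul hw_add).B,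
            (⟨q0, hq0B⟩ : (h80_fam1 N (A.inertiaSubgroupIn ℚ) w hw_mul hw_add).B) ∈ 𝔪) →
          ∃ e y : h69_F0 N (A.inertiaSubgroupIn ℚ), e ≠ 0 ∧ y ≠ 0 ∧
            (h80_fam1 N (A.inertiaSubgroupIn ℚ) w hw_mul hw_add).InLoc 𝔪 y ∧
            (h80_fam1 N (A.inertiaSubgroupIn ℚ) w hw_mul hw_add).InLoc 𝔪 y⁻¹ ∧
            (∀ i, i ∉ Set.range Sum.inl →
              (h80_fam1 N (A.inertiaSubgroupIn ℚ) w hw_mul hw_add).Through 𝔪 i →
              ∀ P : Place Qb (modularFunctionFieldBar N),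
                (∀ f : h69_F0 N (A.inertiaSubgroupIn ℚ), f ≠ 0 →
                  (h80_fam1 N (A.inertiaSubgroupIn ℚ) w hw_mul hw_add).v i f =
                    P.ord (f : modularFunctionFieldBar N)) →
                (h80_fam1 N (A.inertiaSubgroupIn ℚ) w hw_mul hw_add).v i e =
                  (Ez : Divisor Qb (modularFunctionFieldBar N)) P) ∧
            ∀ c : κ, (h80_fam1 N (A.inertiaSubgroupIn ℚ) w hw_mul hw_add).Through 𝔪 (Sum.inl c) →
              (e = y ∨ (a c : ℤ) ≤ w c (e - y))) ∧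
        (∀ 𝔪 : Ideal (h80_fam2 N (A.inertiaSubgroupIn ℚ) w hw_mul hw_add).B, 𝔪.IsMaximal →
          (∃ hq0B : q0 ∈ (h80_fam2 N (A.inertiaSubgroupIn ℚ) w hw_mul hw_add).B,
            (⟨q0, hq0B⟩ : (h80_fam2 N (A.inertiaSubgroupIn ℚ) w hw_mul hw_add).B) ∈ 𝔪) →
          ∃ e y : h69_F0 N (A.inertiaSubgroupIn ℚ), e ≠ 0 ∧ y ≠ 0 ∧
            (h80_fam2 N (A.inertiaSubgroupIn ℚ) w hw_mul hw_add).InLoc 𝔪 y ∧
            (h80_fam2 N (A.inertiaSubgroupIn ℚ) w hw_mul hw_add).InLoc 𝔪 y⁻¹ ∧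
            (∀ i, i ∉ Set.range Sum.inl →
              (h80_fam2 N (A.inertiaSubgroupIn ℚ) w hw_mul hw_add).Through 𝔪 i →
              ∀ P : Place Qb (modularFunctionFieldBar N),
                (∀ f : h69_F0 N (A.inertiaSubgroupIn ℚ), f ≠ 0 →
                  (h80_fam2 N (A.inertiaSubgroupIn ℚ) w hw_mul hw_add).v i f =
                    P.ord (f : modularFunctionFieldBar N)) →
                (h80_fam2 N (A.inertiaSubgroupIn ℚ) w hw_mul hw_add).v i e =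
                  (Ez : Divisor Qb (modularFunctionFieldBar N)) P) ∧
            ∀ c : κ, (h80_fam2 N (A.inertiaSubgroupIn ℚ) w hw_mul hw_add).Through 𝔪 (Sum.inl c) →
              (e = y ∨ (a c : ℤ) ≤ w c (e - y)))) :
    ∀ (n : ℕ) (z : JZero N), lam ^ n • z = 0 → Pnew z →
      (∀ s ∈ A.inertiaSubgroupIn ℚ, s • z = z) → c • z = 0 := by
  classical
  intro n z hz hP hfix
  obtain ⟨Ez, uz, hcls, hEzinv, huz0, hdivz, huz1, hnz1, hnz2⟩ := hwit n z hz hP hfix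
  have hy := h54_isChart_jbar N
  have : HasPrincipalDivisors Qb (modularFunctionFieldBar N) := h75_hasPrincipalDivisors hy
  obtain ⟨E1, E2, hE1def, hE1, hE2, hdisj, hdivx, hE1inv, -⟩ := h5_jbar_chart_divisors N
  obtain ⟨N0, hgenN⟩ := hgen E1 hE1def
  have hfinRR : ∀ D' : Divisor Qb (modularFunctionFieldBar N),
      Module.Finite Qb (riemannRochSpace D') := fun D' => (h75_riemann hy D').1
  -- notation
  set ψ : h69_F0 N (A.inertiaSubgroupIn ℚ) →+* modularFunctionFieldBar N :=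
    (h69_F0 N (A.inertiaSubgroupIn ℚ)).subtype with hψ
  have hqK : (q : Qb) ∈ D.A.nonunits := by rw [hDA]; exact hA
  have hq00 : q0 ≠ 0 := by
    intro h0
    have h1 : (q0 : modularFunctionFieldBar N) = 0 := by rw [h0]; rfl
    rw [hq0] at h1
    have h2 : (q : Qb) = 0 := by
      have := (algebraMap Qb (modularFunctionFieldBar N)).injective
      exact this (by rw [h1, map_zero])
    exact hq.ne_zero (by exact_mod_cast h2)
  have hψq : ψ q0 = algebraMap Qb (modularFunctionFieldBar N) (q : Qb) := hq0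
  have hC3' : ∀ f : h69_F0 N (A.inertiaSubgroupIn ℚ), f ≠ 0 →
      (ψ f ∈ D.O ↔ ∀ c, 0 ≤ w c f) := hC3
  have hm : (((lam ^ n : ℕ)) : k) ≠ 0 := by
    rw [Nat.cast_pow]
    exact pow_ne_zero n hlam
  -- the two chart sets
  have hfin1 : ∀ f : modularFunctionFieldBar N, f ≠ 0 →
      {P : Place Qb (modularFunctionFieldBar N) |
        P ∈ h80_chartSet Qb (h59_jbar N) ∧ P.ord f ≠ 0}.Finite :=
    fun f hf => (h75_finite_ord_ne hy f hf).subset fun _ hP => hP.2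
  have hfin2 : ∀ f : modularFunctionFieldBar N, f ≠ 0 →
      {P : Place Qb (modularFunctionFieldBar N) |
        P ∈ h80_chartSet Qb (h59_jbar N)⁻¹ ∧ P.ord f ≠ 0}.Finite :=
    fun f hf => (h75_finite_ord_ne hy f hf).subset fun _ hP => hP.2
  have hU2 : ∀ P : Place Qb (modularFunctionFieldBar N),
      P ∈ h80_chartSet Qb (h59_jbar N)⁻¹ ↔ P.ord (h59_jbar N) ≤ 0 := by
    intro P
    rw [h80_mem_chartSet, P.ord_inv]
    omega
  have hqB1 := h46_E_q_mem_B ψ (h80_chartSet Qb (h59_jbar N)) w hw_mul hw_add hfin1 q0 a hwq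
    (q : Qb) hψq
  have hqB2 := h46_E_q_mem_B ψ (h80_chartSet Qb (h59_jbar N)⁻¹) w hw_mul hw_add hfin2 q0 a hwq
    (q : Qb) hψq
  refine h61_kill_of_loc hy D hON hinv hrank (h59_jbar N) hy.ne_zero hx hxi E1 E2 hE1 hE2
    hdisj hdivx (h29_polar_degree_pos hy E1 E2 hE1 hE2 hdivx) N0 hgenN ψ
    ⟨h59_jbar N, h80_jbar_mem_F0 N _⟩ rfl
    (h80_fam1 N (A.inertiaSubgroupIn ℚ) w hw_mul hw_add)
    (h80_fam2 N (A.inertiaSubgroupIn ℚ) w hw_mul hw_add)
    (h46_E_hB ψ (h80_chartSet Qb (h59_jbar N)) w hw_mul hw_add hfin1 D hC3'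
      (fun v => 0 ≤ v.ord (h59_jbar N)) (fun P hP => hP))
    (h46_E_hB ψ (h80_chartSet Qb (h59_jbar N)⁻¹) w hw_mul hw_add hfin2 D hC3'
      (fun v => v.ord (h59_jbar N) ≤ 0) (fun P hP => (hU2 P).2 hP))
    (Set.range Sum.inl) (h46_E_hvert ψ (h80_chartSet Qb (h59_jbar N)))
    (Sum.elim a (fun _ => 1)) (h46_E_ha ψ (h80_chartSet Qb (h59_jbar N)) a ha)
    (h46_E_hVAL ψ (h80_chartSet Qb (h59_jbar N)) w hw_mul hw_add hfin1 D hC3' q0 hq00 a hwq
      (q : Qb) hqK hψq)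
    (h46_E_hvertO ψ (h80_chartSet Qb (h59_jbar N)) w hw_mul hw_add hfin1 D hC3')
    (h46_E_hhor ψ (h80_chartSet Qb (h59_jbar N)) w hw_mul hw_add hfin1
      (fun v => 0 ≤ v.ord (h59_jbar N)) (fun P hP => hP))
    (Set.range Sum.inl) (h46_E_hvert ψ (h80_chartSet Qb (h59_jbar N)⁻¹))
    (Sum.elim a (fun _ => 1)) (h46_E_ha ψ (h80_chartSet Qb (h59_jbar N)⁻¹) a ha)
    (h46_E_hVAL ψ (h80_chartSet Qb (h59_jbar N)⁻¹) w hw_mul hw_add hfin2 D hC3' q0 hq00 a hwq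
      (q : Qb) hqK hψq)
    (h46_E_hvertO ψ (h80_chartSet Qb (h59_jbar N)⁻¹) w hw_mul hw_add hfin2 D hC3')
    (h46_E_hhor ψ (h80_chartSet Qb (h59_jbar N)⁻¹) w hw_mul hw_add hfin2
      (fun v => v.ord (h59_jbar N) ≤ 0) (fun P hP => (hU2 P).1 hP))
    (lam ^ n) hm c z Ez hcls (ψ uz) ?_ hdivz
    (h46_E_huz ψ w hw_mul D hC3' q0 hq00 a hwq (q : Qb) hqK hψq uz huz1) ?_ ?_ ?_
  · intro h0
    exact huz0 (ψ.injective (by rw [h0, map_zero]))
  · intro j n' _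
    exact h46_hspan_family_A N hq A hA D hDA hON hrank hdivq hfinRR E1
      (Ez : Divisor Qb (modularFunctionFieldBar N)) (fun σ _ => hE1inv σ) hEzinv j n'
  · intro 𝔪 h𝔪 hker
    have hqm := h46_E_ker ψ (h80_chartSet Qb (h59_jbar N)) w hw_mul hw_add hfin1 D q0 hqB1
      (q : Qb) hqK hψq 𝔪 hker
    obtain ⟨e, y, he0, hy0, hyL, hyL', hhor, hvert⟩ := hnz1 𝔪 h𝔪 ⟨hqB1, hqm⟩
    refine ⟨e, y, he0, hy0, hyL, hyL', hhor, ?_⟩
    rintro _ ⟨c', rfl⟩ hthr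
    exact hvert c' hthr
  · intro 𝔪 h𝔪 hker
    have hqm := h46_E_ker ψ (h80_chartSet Qb (h59_jbar N)⁻¹) w hw_mul hw_add hfin2 D q0 hqB2
      (q : Qb) hqK hψq 𝔪 hker
    obtain ⟨e, y, he0, hy0, hyL, hyL', hhor, hvert⟩ := hnz2 𝔪 h𝔪 ⟨hqB2, hqm⟩
    refine ⟨e, y, he0, hy0, hyL, hyL', hhor, ?_⟩
    rintro _ ⟨c', rfl⟩ hthr
    exact hvert c' hthr

end Fermat.Agent.S36
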