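/-
S36 / I-NR, (NRc) (helper49): residues of the norms along `α` and `β` of a function which is
congruent to constants on the three vertical components of level `M q²`.

* `h49_CongC A s c` : the series `s` is congruent to the constant `c` modulo the Gauss ideal;
* `h49_nrc_alpha_std`, `h49_nrc_beta_std`, `h49_nrc_alpha_conj`, `h49_nrc_beta_conj` :
  the four congruences at the series level, at any level `N` with `q ∣ N`;
* `h49_NRc` : **(NRc)** for the concrete valuations `h98_w2`, `h98_w1` on `h69_F0`, constants in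
  `h69_K0` - the binder `hNR` of `h94_nz_charts`;
* `h49_NRc_roots` : the same for constants with `z k ^ n = 1`.
-/
import Mathlib
import Fermat.Agent.S36.h49_ExInst
import Fermat.Agent.S36.h69_K0Inst

set_option autoImplicit false
set_option synthInstance.maxHeartbeats 400000
set_option linter.style.haveILetI false

noncomputable section

open ModularCurve AlgebraicCurve

namespace Fermat.Agent.S36

open Fermat.Agent.S34 Fermat.Agent.S37 Fermat.Agent.S24 Fermat.Agent.S35 Fermat.Agent.S18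
  Fermat.Agent.GAL Fermat.Agent.S40

local notation "Qb" => AlgebraicClosure ℚ

/-! ## Congruence to a constant at the series level -/

/-- The series `s` is congruent to the constant `c` modulo the Gauss ideal of `A`. -/
def h49_CongC (A : ValuationSubring Qb) (s : LaurentSeries Qb) (c : Qb) : Prop :=
  ∃ h : s - algebraMap Qb (LaurentSeries Qb) c ∈ h60_Os A, h60_rs A ⟨_, h⟩ = 0

theorem h49_congC_mem (A : ValuationSubring Qb) {s : LaurentSeries Qb} {c : Qb} (hc : c ∈ A)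
    (h : h49_CongC A s c) :
    ∃ hs : s ∈ h60_Os A, h60_rs A ⟨s, hs⟩ = h60_rs A ⟨_, h60_const_mem A hc⟩ := by
  obtain ⟨h1, h2⟩ := h
  have e0 : s = (s - algebraMap Qb (LaurentSeries Qb) c) + algebraMap Qb (LaurentSeries Qb) c := by
    ring
  have hs : s ∈ h60_Os A := by
    rw [e0]
    exact add_mem h1 (h60_const_mem A hc)
  refine ⟨hs, ?_⟩
  have e : (⟨s, hs⟩ : h60_Os A) = ⟨_, h1⟩ + ⟨_, h60_const_mem A hc⟩ := Subtype.ext e0
  rw [e, map_add, h2, zero_add]

theorem h49_congC_of_rs (A : ValuationSubring Qb) {s : LaurentSeries Qb} {c : Qb} (hc : c ∈ A)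
    (hs : s ∈ h60_Os A) (h : h60_rs A ⟨s, hs⟩ = h60_rs A ⟨_, h60_const_mem A hc⟩) :
    h49_CongC A s c :=
  h98_rs_sub_zero hs (h60_const_mem A hc) h

theorem h49_rs_const_mul (A : ValuationSubring Qb) {a b : Qb} (ha : a ∈ A) (hb : b ∈ A) :
    h60_rs A ⟨_, h60_const_mem A (A.mul_mem _ _ ha hb)⟩
      = h60_rs A ⟨_, h60_const_mem A ha⟩ * h60_rs A ⟨_, h60_const_mem A hb⟩ := by
  rw [← map_mul]
  exact congrArg (h60_rs A) (Subtype.ext (map_mul _ _ _))

theorem h49_rs_const_pow (A : ValuationSubring Qb) {a : Qb} (ha : a ∈ A) (n : ℕ) :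
    h60_rs A ⟨_, h60_const_mem A (pow_mem ha n)⟩ = h60_rs A ⟨_, h60_const_mem A ha⟩ ^ n := by
  rw [← map_pow]
  exact congrArg (h60_rs A) (Subtype.ext (map_pow _ _ _))

theorem h49_rs_const_frob (q : ℕ) [Fact q.Prime] (A : ValuationSubring Qb)
    [CharP (IsLocalRing.ResidueField A) q] {a : Qb} (ha : a ∈ A) :
    coeffMap (frobenius (IsLocalRing.ResidueField A) q) (h60_rs A ⟨_, h60_const_mem A ha⟩)
      = h60_rs A ⟨_, h60_const_mem A (pow_mem ha q)⟩ := by
  rw [h60_rs_const A ha, h60_rs_const A (pow_mem ha q), coeffMap_algebraMap, frobenius_def,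
    ← map_pow]
  rfl

/-! ## The four congruences at the series level -/

/-- `N_α f ≡ c₀ c₁^(q-1)` at the standard cusp when `f ≡ c₀` there and `f ≡ c₁` along the
conjugate embeddings. -/
theorem h49_nrc_alpha_std (N q : ℕ) [NeZero N] [NeZero q] (hq : q.Prime) (hqN : q ∣ N)
    (A : ValuationSubring Qb)
    (E : Fin (q - 1) → modularFunctionFieldBar (N * q) →+* LaurentSeries Qb)
    (hEα : ∀ (i : Fin (q - 1)) (e : modularFunctionFieldBar N),
      E i (heckeAlphaBar Qb N q e) = (e : LaurentSeries Qb))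
    (hEinj : Function.Injective E)
    (hEne : ∀ i : Fin (q - 1), E i ≠ (modularFunctionFieldBar (N * q)).val.toRingHom)
    (f : modularFunctionFieldBar (N * q)) {c₀ c₁ : Qb} (hc₀ : c₀ ∈ A) (hc₁ : c₁ ∈ A)
    (h0 : h49_CongC A (f : LaurentSeries Qb) c₀) (h1 : ∀ i, h49_CongC A (E i f) c₁) :
    h49_CongC A ((h67_normAlong (heckeAlphaBar Qb N q) f : modularFunctionFieldBar N) :
      LaurentSeries Qb) (c₀ * c₁ ^ (q - 1)) := by
  obtain ⟨hf, hf'⟩ := h49_congC_mem A hc₀ h0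
  have hE : ∀ i, E i f ∈ h60_Os A := fun i => (h49_congC_mem A hc₁ (h1 i)).1
  have hE' : ∀ i, h60_rs A ⟨E i f, hE i⟩ = h60_rs A ⟨_, h60_const_mem A hc₁⟩ :=
    fun i => (h49_congC_mem A hc₁ (h1 i)).2
  obtain ⟨h, hh⟩ := h49_normRes_alpha N q hq hqN A E hEα hEinj hEne f hf hE
  refine h49_congC_of_rs A (A.mul_mem _ _ hc₀ (pow_mem hc₁ _)) h ?_
  rw [hh, hf', h49_rs_const_mul A hc₀ (pow_mem hc₁ _), h49_rs_const_pow A hc₁]
  congr 1
  rw [Finset.prod_congr rfl (fun i _ => hE' i), Finset.prod_const, Finset.card_univ,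
    Fintype.card_fin]

/-- `N_β f ≡ c₀^q` at the standard cusp when `f ≡ c₀` there. -/
theorem h49_nrc_beta_std (N q : ℕ) [NeZero N] [NeZero q] [Fact q.Prime] (hqN : q ∣ N)
    (A : ValuationSubring Qb) [CharP (IsLocalRing.ResidueField A) q]
    (f : modularFunctionFieldBar (N * q)) {c₀ : Qb} (hc₀ : c₀ ∈ A)
    (h0 : h49_CongC A (f : LaurentSeries Qb) c₀) :
    h49_CongC A ((h67_normAlong (heckeBetaBar Qb N q) f : modularFunctionFieldBar N) :
      LaurentSeries Qb) (c₀ ^ q) := by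
  obtain ⟨hf, hf'⟩ := h49_congC_mem A hc₀ h0
  obtain ⟨h, hh⟩ := h49_normRes_beta N q hqN A f hf
  refine h49_congC_of_rs A (pow_mem hc₀ _) h ?_
  rw [hh, hf', h49_rs_const_frob q A hc₀]

/-- `w (N_α f) ≡ c₂^q` at the standard cusp when `W f ≡ c₂` there. -/
theorem h49_nrc_alpha_conj (N q : ℕ) [NeZero N] [NeZero q] [Fact q.Prime] (hqN : q ∣ N)
    (A : ValuationSubring Qb) [CharP (IsLocalRing.ResidueField A) q]
    (w : modularFunctionFieldBar N →+* modularFunctionFieldBar N) (hww : ∀ e, w (w e) = e)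
    (W : modularFunctionFieldBar (N * q) →+* modularFunctionFieldBar (N * q))
    (hWW : ∀ f, W (W f) = f)
    (h : ∀ e, W (heckeAlphaBar Qb N q e) = heckeBetaBar Qb N q (w e))
    (f : modularFunctionFieldBar (N * q)) {c₂ : Qb} (hc₂ : c₂ ∈ A)
    (h2 : h49_CongC A ((W f : modularFunctionFieldBar (N * q)) : LaurentSeries Qb) c₂) :
    h49_CongC A ((w (h67_normAlong (heckeAlphaBar Qb N q) f) : modularFunctionFieldBar N) :
      LaurentSeries Qb) (c₂ ^ q) := by
  rw [← h49_normAlong_conj N q w hww W hWW h f]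
  exact h49_nrc_beta_std N q hqN A (W f) hc₂ h2

/-- `w (N_β f) ≡ c₁^(q-1) c₂` at the standard cusp when `W f ≡ c₂` there and `W f ≡ c₁` along
the conjugate embeddings. -/
theorem h49_nrc_beta_conj (N q : ℕ) [NeZero N] [NeZero q] (hq : q.Prime) (hqN : q ∣ N)
    (A : ValuationSubring Qb)
    (w : modularFunctionFieldBar N →+* modularFunctionFieldBar N) (hww : ∀ e, w (w e) = e)
    (W : modularFunctionFieldBar (N * q) →+* modularFunctionFieldBar (N * q))
    (hWW : ∀ f, W (W f) = f)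
    (h : ∀ e, W (heckeAlphaBar Qb N q e) = heckeBetaBar Qb N q (w e))
    (E : Fin (q - 1) → modularFunctionFieldBar (N * q) →+* LaurentSeries Qb)
    (hEα : ∀ (i : Fin (q - 1)) (e : modularFunctionFieldBar N),
      E i (heckeAlphaBar Qb N q e) = (e : LaurentSeries Qb))
    (hEinj : Function.Injective E)
    (hEne : ∀ i : Fin (q - 1), E i ≠ (modularFunctionFieldBar (N * q)).val.toRingHom)
    (f : modularFunctionFieldBar (N * q)) {c₁ c₂ : Qb} (hc₁ : c₁ ∈ A) (hc₂ : c₂ ∈ A)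
    (h2 : h49_CongC A ((W f : modularFunctionFieldBar (N * q)) : LaurentSeries Qb) c₂)
    (h1 : ∀ i, h49_CongC A (E i (W f)) c₁) :
    h49_CongC A ((w (h67_normAlong (heckeBetaBar Qb N q) f) : modularFunctionFieldBar N) :
      LaurentSeries Qb) (c₁ ^ (q - 1) * c₂) := by
  rw [h49_normAlong_conj' N q w hww W hWW h f, mul_comm (c₁ ^ (q - 1)) c₂]
  exact h49_nrc_alpha_std N q hq hqN A E hEα hEinj hEne (W f) hc₂ hc₁ h2 h1

/-! ## From valuations on `F0` to series congruences and back -/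

theorem h49_congC_of_eq (A : ValuationSubring Qb) {s : LaurentSeries Qb} {c : Qb}
    (e : s - algebraMap Qb (LaurentSeries Qb) c = 0) : h49_CongC A s c := by
  have h : s - algebraMap Qb (LaurentSeries Qb) c ∈ h60_Os A := by
    rw [e]
    exact zero_mem _
  refine ⟨h, ?_⟩
  have e' : (⟨_, h⟩ : h60_Os A) = 0 := Subtype.ext e
  rw [e', map_zero]

/-- Expansion of `g - z`, `z` a constant of `K0`. -/
theorem h49_X_sub_const {N : ℕ} (H : Subgroup (Qb ≃ₐ[ℚ] Qb))
    (X : modularFunctionFieldBar N →+* LaurentSeries Qb)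
    (hX : ∀ c : Qb, X (algebraMap Qb (modularFunctionFieldBar N) c)
      = algebraMap Qb (LaurentSeries Qb) c)
    (g : h69_F0 N H) (z : h69_K0 H) :
    X ((g - algebraMap (h69_K0 H) (h69_F0 N H) z : h69_F0 N H) : modularFunctionFieldBar N)
      = X (g : modularFunctionFieldBar N) - algebraMap Qb (LaurentSeries Qb) (z : Qb) := by
  rw [← hX, ← map_sub]
  rfl

/-- A valuation congruence `g ≡ z` gives the series congruence of the expansion. -/
theorem h49_congC_of_val {N : ℕ} (A : ValuationSubring Qb) (H : Subgroup (Qb ≃ₐ[ℚ] Qb))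
    (X : modularFunctionFieldBar N →+* LaurentSeries Qb)
    (hX : ∀ c : Qb, X (algebraMap Qb (modularFunctionFieldBar N) c)
      = algebraMap Qb (LaurentSeries Qb) c)
    (v : h69_F0 N H → ℤ)
    (hv : ∀ f : h69_F0 N H, f ≠ 0 → 0 < v f →
      ∃ h : X (f : modularFunctionFieldBar N) ∈ h60_Os A, h60_rs A ⟨_, h⟩ = 0)
    (g : h69_F0 N H) (z : h69_K0 H)
    (h : g - algebraMap (h69_K0 H) (h69_F0 N H) z = 0 ∨
      1 ≤ v (g - algebraMap (h69_K0 H) (h69_F0 N H) z)) :
    h49_CongC A (X (g : modularFunctionFieldBar N)) (z : Qb) := by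
  have e := h49_X_sub_const H X hX g z
  by_cases hd : g - algebraMap (h69_K0 H) (h69_F0 N H) z = 0
  · apply h49_congC_of_eq
    rw [← e, hd]
    exact map_zero X
  · have hpos : 0 < v (g - algebraMap (h69_K0 H) (h69_F0 N H) z) := by
      rcases h with h | h
      · exact absurd h hd
      · exact lt_of_lt_of_le zero_lt_one h
    obtain ⟨h1, h2⟩ := hv _ hd hpos
    unfold h49_CongC
    rw [← e]
    exact ⟨h1, h2⟩

/-- A series congruence of the expansion gives the valuation congruence `g ≡ z`. -/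
theorem h49_val_of_congC {N : ℕ} (A : ValuationSubring Qb) (H : Subgroup (Qb ≃ₐ[ℚ] Qb))
    (X : modularFunctionFieldBar N →+* LaurentSeries Qb)
    (hX : ∀ c : Qb, X (algebraMap Qb (modularFunctionFieldBar N) c)
      = algebraMap Qb (LaurentSeries Qb) c)
    (v : h69_F0 N H → ℤ)
    (hv : ∀ f : h69_F0 N H, f ≠ 0 →
      (∃ h : X (f : modularFunctionFieldBar N) ∈ h60_Os A, h60_rs A ⟨_, h⟩ = 0) → 0 < v f)
    (g : h69_F0 N H) (z : h69_K0 H)
    (h : h49_CongC A (X (g : modularFunctionFieldBar N)) (z : Qb)) :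
    g - algebraMap (h69_K0 H) (h69_F0 N H) z = 0 ∨
      1 ≤ v (g - algebraMap (h69_K0 H) (h69_F0 N H) z) := by
  have e := h49_X_sub_const H X hX g z
  by_cases hd : g - algebraMap (h69_K0 H) (h69_F0 N H) z = 0
  · exact Or.inl hd
  · right
    unfold h49_CongC at h
    rw [← e] at h
    have := hv _ hd h
    omega

section NRc

variable (M q : ℕ) [NeZero M] [NeZero q] [Fact q.Prime] (hqM : ¬ q ∣ M)
  (A : ValuationSubring Qb) (hA : A.LiesOverPrime q) (ζ : Qb) (hζ : IsPrimitiveRoot ζ q)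

include hA in
/-- Transfer of a congruence to a constant from the middle expansion to the conjugate
embeddings, for `g` and for `W g`. -/
theorem h49_congC_fam
    (E : Fin (q - 1) → modularFunctionFieldBar (M * q * q) →+* LaurentSeries Qb)
    (hEα : ∀ (i : Fin (q - 1)) (e : modularFunctionFieldBar (M * q)),
      E i (heckeAlphaBar Qb (M * q) q e) = (e : LaurentSeries Qb))
    (hfam : ∀ (u : modularFunctionFieldBar (M * q * q)),
      (∀ τ ∈ A.inertiaSubgroupIn ℚ,
        arithmeticRingAut (modularFunctionFieldFull (M * q * q)) τ u = u) →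
      ∀ n : ℤ, h98_GV A (ζ - 1) (h98_midP M q hqM ζ hζ u) n →
        ∀ i, h98_GV A (ζ - 1) (E i u) n)
    (g : h69_F0 (M * q * q) (A.inertiaSubgroupIn ℚ)) (z : h69_K0 (A.inertiaSubgroupIn ℚ))
    (h : h49_CongC A (h98_midP M q hqM ζ hζ (g : modularFunctionFieldBar (M * q * q)))
      (z : Qb)) :
    (∀ i, h49_CongC A (E i (g : modularFunctionFieldBar (M * q * q))) (z : Qb)) ∧
    (∀ i, h49_CongC A (E i (h36_W M q hqM (g : modularFunctionFieldBar (M * q * q))))
      (z : Qb)) := by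
  have hz := h98_zeta_unif q A hA ζ hζ
  have hmidC : ∀ c : Qb, h98_midP M q hqM ζ hζ
      (algebraMap Qb (modularFunctionFieldBar (M * q * q)) c)
        = algebraMap Qb (LaurentSeries Qb) c := fun c => h36_mid_algebraMap M q hqM ζ _ _ c
  have hEC : ∀ (i : Fin (q - 1)) (c : Qb), E i
      (algebraMap Qb (modularFunctionFieldBar (M * q * q)) c)
        = algebraMap Qb (LaurentSeries Qb) c := fun i c => h49_E_const (M * q) q (E i) (hEα i) c
  have hEWC : ∀ (i : Fin (q - 1)) (c : Qb), ((E i).comp (h36_W M q hqM))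
      (algebraMap Qb (modularFunctionFieldBar (M * q * q)) c)
        = algebraMap Qb (LaurentSeries Qb) c := fun i c => by
    rw [RingHom.comp_apply, h36_W_algebraMap, hEC]
  set d : h69_F0 (M * q * q) (A.inertiaSubgroupIn ℚ) :=
    g - algebraMap (h69_K0 (A.inertiaSubgroupIn ℚ)) (h69_F0 (M * q * q) (A.inertiaSubgroupIn ℚ)) z
    with hd_def
  have e1 := h49_X_sub_const (A.inertiaSubgroupIn ℚ) (h98_midP M q hqM ζ hζ) hmidC g z
  have e2 : ∀ i, E i (d : modularFunctionFieldBar (M * q * q))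
      = E i (g : modularFunctionFieldBar (M * q * q)) - algebraMap Qb (LaurentSeries Qb) (z : Qb) :=
    fun i => h49_X_sub_const (A.inertiaSubgroupIn ℚ) (E i) (hEC i) g z
  have e3 : ∀ i, E i (h36_W M q hqM (d : modularFunctionFieldBar (M * q * q)))
      = E i (h36_W M q hqM (g : modularFunctionFieldBar (M * q * q)))
        - algebraMap Qb (LaurentSeries Qb) (z : Qb) :=
    fun i => h49_X_sub_const (A.inertiaSubgroupIn ℚ) ((E i).comp (h36_W M q hqM)) (hEWC i) g z
  by_cases hd : d = 0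
  · constructor
    · intro i
      apply h49_congC_of_eq
      rw [← e2 i, hd]
      exact map_zero (E i)
    · intro i
      apply h49_congC_of_eq
      rw [← e3 i, hd]
      show E i (h36_W M q hqM 0) = 0
      rw [map_zero, map_zero]
  · have hd0 : (d : modularFunctionFieldBar (M * q * q)) ≠ 0 := fun h0 => hd (Subtype.ext h0)
    have hfix := h98_fix2 M q A d
    obtain ⟨n, hn⟩ := (h49_ex M q hqM A hA ζ hζ).mid (d : modularFunctionFieldBar (M * q * q))
      hd0 hfix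
    have hpos : 0 < n := by
      refine (h98_GV_pos_iff hz.1 hz.2.1 hz.2.2.1 hn).mpr ?_
      unfold h49_CongC at h
      rw [← e1] at h
      exact h
    constructor
    · intro i
      have h1 := (h98_GV_pos_iff hz.1 hz.2.1 hz.2.2.1 (hfam _ hfix n hn i)).mp hpos
      unfold h49_CongC
      rw [← e2 i]
      exact h1
    · intro i
      have hnW : h98_GV A (ζ - 1) (h98_midP M q hqM ζ hζ
          (h36_W M q hqM (d : modularFunctionFieldBar (M * q * q)))) n :=
        h98_mid_GV_W M q hqM A hA (h36_i0 M q) (h36_i2 M q hqM) (h98_hi0 M q) (h98_hi2 M q hqM)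
          (h36_i02_gen M q hqM) (h98_midP M q hqM) (h98_midP_i0 M q hqM) (h98_midP_i2 M q hqM)
          (h36_W M q hqM) (h36_W_i0 M q hqM) (h36_W_i2 M q hqM) ζ hζ
          (d : modularFunctionFieldBar (M * q * q)) hfix n hn
      have h1 := (h98_GV_pos_iff hz.1 hz.2.1 hz.2.2.1
        (hfam _ (h98_fix2W M q hqM A d) n hnW i)).mp hpos
      unfold h49_CongC
      rw [← e3 i]
      exact h1

variable (hex : h98_Ex M q hqM A ζ hζ)

include hA in
/-- **(NRc)** Residues of the norms of a function congruent to constants on the three vertical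
components: the binder `hNR` of `h94_nz_charts` for the concrete valuations. -/
theorem h49_NRc (g : h69_F0 (M * q * q) (A.inertiaSubgroupIn ℚ))
    (z : Fin 3 → h69_K0 (A.inertiaSubgroupIn ℚ))
    (hzA : ∀ k, ((z k : h69_K0 (A.inertiaSubgroupIn ℚ)) : Qb) ∈ A)
    (hg : ∀ k, g - algebraMap (h69_K0 (A.inertiaSubgroupIn ℚ))
        (h69_F0 (M * q * q) (A.inertiaSubgroupIn ℚ)) (z k) = 0 ∨
      1 ≤ h98_w2 M q hqM A ζ hζ hex k (g - algebraMap (h69_K0 (A.inertiaSubgroupIn ℚ))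
        (h69_F0 (M * q * q) (A.inertiaSubgroupIn ℚ)) (z k))) :
    (h70_NaF0 (M * q) q (A.inertiaSubgroupIn ℚ) g
        - algebraMap (h69_K0 (A.inertiaSubgroupIn ℚ)) (h69_F0 (M * q) (A.inertiaSubgroupIn ℚ))
          (z 0 * z 1 ^ (q - 1)) = 0 ∨
      1 ≤ h98_w1 M q hqM A ζ hζ hex 0 (h70_NaF0 (M * q) q (A.inertiaSubgroupIn ℚ) g
        - algebraMap (h69_K0 (A.inertiaSubgroupIn ℚ)) (h69_F0 (M * q) (A.inertiaSubgroupIn ℚ))
          (z 0 * z 1 ^ (q - 1)))) ∧
    (h70_NaF0 (M * q) q (A.inertiaSubgroupIn ℚ) g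
        - algebraMap (h69_K0 (A.inertiaSubgroupIn ℚ)) (h69_F0 (M * q) (A.inertiaSubgroupIn ℚ))
          (z 2 ^ q) = 0 ∨
      1 ≤ h98_w1 M q hqM A ζ hζ hex 1 (h70_NaF0 (M * q) q (A.inertiaSubgroupIn ℚ) g
        - algebraMap (h69_K0 (A.inertiaSubgroupIn ℚ)) (h69_F0 (M * q) (A.inertiaSubgroupIn ℚ))
          (z 2 ^ q))) ∧
    (h70_NbF0 (M * q) q (A.inertiaSubgroupIn ℚ) g
        - algebraMap (h69_K0 (A.inertiaSubgroupIn ℚ)) (h69_F0 (M * q) (A.inertiaSubgroupIn ℚ))
          (z 0 ^ q) = 0 ∨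
      1 ≤ h98_w1 M q hqM A ζ hζ hex 0 (h70_NbF0 (M * q) q (A.inertiaSubgroupIn ℚ) g
        - algebraMap (h69_K0 (A.inertiaSubgroupIn ℚ)) (h69_F0 (M * q) (A.inertiaSubgroupIn ℚ))
          (z 0 ^ q))) ∧
    (h70_NbF0 (M * q) q (A.inertiaSubgroupIn ℚ) g
        - algebraMap (h69_K0 (A.inertiaSubgroupIn ℚ)) (h69_F0 (M * q) (A.inertiaSubgroupIn ℚ))
          (z 1 ^ (q - 1) * z 2) = 0 ∨
      1 ≤ h98_w1 M q hqM A ζ hζ hex 1 (h70_NbF0 (M * q) q (A.inertiaSubgroupIn ℚ) g
        - algebraMap (h69_K0 (A.inertiaSubgroupIn ℚ)) (h69_F0 (M * q) (A.inertiaSubgroupIn ℚ))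
          (z 1 ^ (q - 1) * z 2))) := by
  have hq : q.Prime := Fact.out
  haveI : CharP (IsLocalRing.ResidueField A) q := h19_residueField_charP A q hA
  obtain ⟨E, hEα, hEinj, hEne, hfam⟩ := h98_midfam M q hqM A hA ζ hζ
  have hqN : q ∣ M * q := Dvd.intro_left M rfl
  -- the three series congruences of `g`
  have H0 : h49_CongC A (((g : modularFunctionFieldBar (M * q * q))) : LaurentSeries Qb)
      (z 0 : Qb) :=
    h49_congC_of_val A _ (h98_coe (M * q * q)) (fun _ => rfl) (h98_v1 M q hqM A ζ hζ hex)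
      (fun f hf hpos => (h98_v1_pos_iff M q hqM A hA ζ hζ hex f hf).mp hpos) g (z 0) (hg 0)
  have H1m : h49_CongC A (h98_midP M q hqM ζ hζ (g : modularFunctionFieldBar (M * q * q)))
      (z 1 : Qb) :=
    h49_congC_of_val A _ (h98_midP M q hqM ζ hζ)
      (fun c => h36_mid_algebraMap M q hqM ζ _ _ c) (h98_v2 M q hqM A ζ hζ hex)
      (fun f hf hpos => (h98_v2_pos_iff M q hqM A hA ζ hζ hex f hf).mp hpos) g (z 1) (hg 1)
  have H2 : h49_CongC A ((h36_W M q hqM (g : modularFunctionFieldBar (M * q * q)) :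
      modularFunctionFieldBar (M * q * q)) : LaurentSeries Qb) (z 2 : Qb) :=
    h49_congC_of_val A _ ((h98_coe (M * q * q)).comp (h36_W M q hqM))
      (fun c => by rw [RingHom.comp_apply, h36_W_algebraMap]; rfl)
      (h98_v3 M q hqM A ζ hζ hex)
      (fun f hf hpos => (h98_v3_pos_iff M q hqM A hA ζ hζ hex f hf).mp hpos) g (z 2) (hg 2)
  obtain ⟨H1, H1W⟩ := h49_congC_fam M q hqM A hA ζ hζ E hEα hfam g (z 1) H1m
  refine ⟨?_, ?_, ?_, ?_⟩
  · have hC := h49_nrc_alpha_std (M * q) q hq hqN A E hEα hEinj hEne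
      (g : modularFunctionFieldBar (M * q * q)) (hzA 0) (hzA 1) H0 H1
    exact h49_val_of_congC A _ (h98_coe (M * q)) (fun _ => rfl) (h98_wF M q hqM A ζ hζ hex)
      (fun f hf h => (h98_wF_pos_iff M q hqM A hA ζ hζ hex f hf).mpr h)
      (h70_NaF0 (M * q) q (A.inertiaSubgroupIn ℚ) g) (z 0 * z 1 ^ (q - 1)) hC
  · have hC := h49_nrc_alpha_conj (M * q) q hqN A (h60_w M q hqM) (h60_w_w M q hqM)
      (h36_W M q hqM) (h36_W_W M q hqM) (h98_hWα M q hqM)
      (g : modularFunctionFieldBar (M * q * q)) (hzA 2) H2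
    exact h49_val_of_congC A _ ((h98_coe (M * q)).comp (h60_w M q hqM))
      (fun c => by rw [RingHom.comp_apply, h60_w_algebraMap]; rfl)
      (h98_wV M q hqM A ζ hζ hex)
      (fun f hf h => (h98_wV_pos_iff M q hqM A hA ζ hζ hex f hf).mpr h)
      (h70_NaF0 (M * q) q (A.inertiaSubgroupIn ℚ) g) (z 2 ^ q) hC
  · have hC := h49_nrc_beta_std (M * q) q hqN A
      (g : modularFunctionFieldBar (M * q * q)) (hzA 0) H0
    exact h49_val_of_congC A _ (h98_coe (M * q)) (fun _ => rfl) (h98_wF M q hqM A ζ hζ hex)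
      (fun f hf h => (h98_wF_pos_iff M q hqM A hA ζ hζ hex f hf).mpr h)
      (h70_NbF0 (M * q) q (A.inertiaSubgroupIn ℚ) g) (z 0 ^ q) hC
  · have hC := h49_nrc_beta_conj (M * q) q hq hqN A (h60_w M q hqM) (h60_w_w M q hqM)
      (h36_W M q hqM) (h36_W_W M q hqM) (h98_hWα M q hqM) E hEα hEinj hEne
      (g : modularFunctionFieldBar (M * q * q)) (hzA 1) (hzA 2) H2 H1W
    exact h49_val_of_congC A _ ((h98_coe (M * q)).comp (h60_w M q hqM))
      (fun c => by rw [RingHom.comp_apply, h60_w_algebraMap]; rfl)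
      (h98_wV M q hqM A ζ hζ hex)
      (fun f hf h => (h98_wV_pos_iff M q hqM A hA ζ hζ hex f hf).mpr h)
      (h70_NbF0 (M * q) q (A.inertiaSubgroupIn ℚ) g) (z 1 ^ (q - 1) * z 2) hC

omit [NeZero M] [NeZero q] [Fact q.Prime] in
/-- Roots of unity lie in every valuation subring. -/
theorem h49_root_mem {x : Qb} {n : ℕ} (hn : n ≠ 0) (hx : x ^ n = 1) : x ∈ A := by
  rcases A.mem_or_inv_mem x with h | h
  · exact h
  · obtain ⟨m, rfl⟩ := Nat.exists_eq_succ_of_ne_zero hn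
    rw [pow_succ] at hx
    have e : x = x⁻¹ ^ m := by
      rw [inv_pow]
      exact (inv_eq_of_mul_eq_one_right hx).symm
    rw [e]
    exact pow_mem h _

include hA in
/-- **(NRc)** for roots of unity: verbatim the binder `hNR` of `h94_nz_charts`. -/
theorem h49_NRc_roots (n : ℕ) (hn : n ≠ 0)
    (g : h69_F0 (M * q * q) (A.inertiaSubgroupIn ℚ))
    (z : Fin 3 → h69_K0 (A.inertiaSubgroupIn ℚ)) (hz : ∀ k, z k ^ n = 1)
    (hg : ∀ k, g - algebraMap (h69_K0 (A.inertiaSubgroupIn ℚ))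
        (h69_F0 (M * q * q) (A.inertiaSubgroupIn ℚ)) (z k) = 0 ∨
      1 ≤ h98_w2 M q hqM A ζ hζ hex k (g - algebraMap (h69_K0 (A.inertiaSubgroupIn ℚ))
        (h69_F0 (M * q * q) (A.inertiaSubgroupIn ℚ)) (z k))) :
    (h70_NaF0 (M * q) q (A.inertiaSubgroupIn ℚ) g
        - algebraMap (h69_K0 (A.inertiaSubgroupIn ℚ)) (h69_F0 (M * q) (A.inertiaSubgroupIn ℚ))
          (z 0 * z 1 ^ (q - 1)) = 0 ∨
      1 ≤ h98_w1 M q hqM A ζ hζ hex 0 (h70_NaF0 (M * q) q (A.inertiaSubgroupIn ℚ) g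
        - algebraMap (h69_K0 (A.inertiaSubgroupIn ℚ)) (h69_F0 (M * q) (A.inertiaSubgroupIn ℚ))
          (z 0 * z 1 ^ (q - 1)))) ∧
    (h70_NaF0 (M * q) q (A.inertiaSubgroupIn ℚ) g
        - algebraMap (h69_K0 (A.inertiaSubgroupIn ℚ)) (h69_F0 (M * q) (A.inertiaSubgroupIn ℚ))
          (z 2 ^ q) = 0 ∨
      1 ≤ h98_w1 M q hqM A ζ hζ hex 1 (h70_NaF0 (M * q) q (A.inertiaSubgroupIn ℚ) g
        - algebraMap (h69_K0 (A.inertiaSubgroupIn ℚ)) (h69_F0 (M * q) (A.inertiaSubgroupIn ℚ))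
          (z 2 ^ q))) ∧
    (h70_NbF0 (M * q) q (A.inertiaSubgroupIn ℚ) g
        - algebraMap (h69_K0 (A.inertiaSubgroupIn ℚ)) (h69_F0 (M * q) (A.inertiaSubgroupIn ℚ))
          (z 0 ^ q) = 0 ∨
      1 ≤ h98_w1 M q hqM A ζ hζ hex 0 (h70_NbF0 (M * q) q (A.inertiaSubgroupIn ℚ) g
        - algebraMap (h69_K0 (A.inertiaSubgroupIn ℚ)) (h69_F0 (M * q) (A.inertiaSubgroupIn ℚ))
          (z 0 ^ q))) ∧
    (h70_NbF0 (M * q) q (A.inertiaSubgroupIn ℚ) g
        - algebraMap (h69_K0 (A.inertiaSubgroupIn ℚ)) (h69_F0 (M * q) (A.inertiaSubgroupIn ℚ))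
          (z 1 ^ (q - 1) * z 2) = 0 ∨
      1 ≤ h98_w1 M q hqM A ζ hζ hex 1 (h70_NbF0 (M * q) q (A.inertiaSubgroupIn ℚ) g
        - algebraMap (h69_K0 (A.inertiaSubgroupIn ℚ)) (h69_F0 (M * q) (A.inertiaSubgroupIn ℚ))
          (z 1 ^ (q - 1) * z 2))) :=
  h49_NRc M q hqM A hA ζ hζ hex g z
    (fun k => h49_root_mem A hn
      (congrArg (fun x : h69_K0 (A.inertiaSubgroupIn ℚ) => (x : Qb)) (hz k))) hg

end NRc

end Fermat.Agent.S36
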