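import Mathlib
import Fermat.Agent.S36.h94_NZPts
import Fermat.Agent.S36.h98_W2
import Fermat.Agent.S36.h69_K0Inst

/-!
# S36 / row NZ, modular layer (helper94)

Level `N q` over `N` (in use: `N = M q`), `H ≤ Gal(ℚ̄/ℚ)`, `F0(N) := h69_F0 N H`,
`K0 := h69_K0 H`, `a := h70_aF0`, `b := h70_bF0` (pull-backs), `Na := h70_NaF0`, `Nb := h70_NbF0`
(norms).

* `h94_Ma = a ∘ Na`, `h94_Mb = b ∘ Nb` : the maps `Mα`, `Mβ` of `h94_nz_charts_self` /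
  `h94_hnz_pts`; multiplicative, non-vanishing, compatible with the constants;
* `h94_hMres_of_NRc` : `hMres` from the residue table (NRc) on the level-`N` valuations and the
  four lines `a0, a2, b0, b2` of the table (V0);
* `h94_int_vert` : the vertical half of (INT'): `w2 k (Mα t), w2 k (Mβ t) ≥ 0` from (V0)+(N1);
* `h94_hNU_of_int` : `hNU` at a triple point from (INT') and (N2), (N3);
* `h94_hTa`, `h94_hTb` : `hTα`, `hTβ` from the norm relations of `h70_norm_rel_pair`;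
* `h94_hV0b1`, `h94_hV0b2` : the two lines of (V0) for `b` on `C11`, `C02` missing in
  `h98_W2` (`w2 1 ∘ b = (q - 1) w1 1`, `w2 2 ∘ b = w1 1`).
-/

set_option autoImplicit false
set_option linter.unusedSectionVars false
set_option linter.unusedVariables false
set_option linter.style.haveILetI false

noncomputable section

open ModularCurve AlgebraicCurve

namespace Fermat.Agent.S36

open Fermat.Agent.S34 Fermat.Agent.S37 Fermat.Agent.S24 Fermat.Agent.S35 Fermat.Agent.S18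
  Fermat.Agent.GAL Fermat.Agent.S40

local notation "Qb" => AlgebraicClosure ℚ

section Abstract

variable (N q : ℕ) [NeZero N] [NeZero q] (H : Subgroup (Qb ≃ₐ[ℚ] Qb))

/-- `Mα = α^* ∘ N_α` on the `H`-fixed functions. -/
def h94_Ma (f : h69_F0 (N * q) H) : h69_F0 (N * q) H := h70_aF0 N q H (h70_NaF0 N q H f)

/-- `Mβ = β^* ∘ N_β` on the `H`-fixed functions. -/
def h94_Mb (f : h69_F0 (N * q) H) : h69_F0 (N * q) H := h70_bF0 N q H (h70_NbF0 N q H f)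

theorem h94_Ma_mul (f g : h69_F0 (N * q) H) :
    h94_Ma N q H (f * g) = h94_Ma N q H f * h94_Ma N q H g := by
  unfold h94_Ma
  rw [map_mul, map_mul]

theorem h94_Mb_mul (f g : h69_F0 (N * q) H) :
    h94_Mb N q H (f * g) = h94_Mb N q H f * h94_Mb N q H g := by
  unfold h94_Mb
  rw [map_mul, map_mul]

theorem h94_Ma_ne_zero (f : h69_F0 (N * q) H) (hf : f ≠ 0) : h94_Ma N q H f ≠ 0 := by
  unfold h94_Ma
  exact (map_ne_zero _).2 ((map_ne_zero _).2 hf)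

theorem h94_Mb_ne_zero (f : h69_F0 (N * q) H) (hf : f ≠ 0) : h94_Mb N q H f ≠ 0 := by
  unfold h94_Mb
  exact (map_ne_zero _).2 ((map_ne_zero _).2 hf)

/-- `a` fixes the constants. -/
theorem h94_aF0_algebraMap (c : h69_K0 H) :
    h70_aF0 N q H (algebraMap (h69_K0 H) (h69_F0 N H) c)
      = algebraMap (h69_K0 H) (h69_F0 (N * q) H) c := by
  apply Subtype.ext
  rw [h70_coe_aF0, h69_inst_comm, h69_inst_comm, AlgHom.commutes]

/-- `b` fixes the constants. -/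
theorem h94_bF0_algebraMap (c : h69_K0 H) :
    h70_bF0 N q H (algebraMap (h69_K0 H) (h69_F0 N H) c)
      = algebraMap (h69_K0 H) (h69_F0 (N * q) H) c := by
  apply Subtype.ext
  rw [h70_coe_bF0, h69_inst_comm, h69_inst_comm, AlgHom.commutes]

/-- Transport of a congruence to a constant along a pull-back. -/
theorem h94_pull_cong (φ : h69_F0 N H →+* h69_F0 (N * q) H)
    (hφc : ∀ c : h69_K0 H, φ (algebraMap (h69_K0 H) (h69_F0 N H) c)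
      = algebraMap (h69_K0 H) (h69_F0 (N * q) H) c)
    (wt : h69_F0 (N * q) H → ℤ) (ws : h69_F0 N H → ℤ)
    (htab : ∀ g : h69_F0 N H, g ≠ 0 → wt (φ g) = ws g)
    (x : h69_F0 N H) (c : h69_K0 H)
    (h : x - algebraMap (h69_K0 H) (h69_F0 N H) c = 0 ∨
      1 ≤ ws (x - algebraMap (h69_K0 H) (h69_F0 N H) c)) :
    φ x - algebraMap (h69_K0 H) (h69_F0 (N * q) H) c = 0 ∨
      1 ≤ wt (φ x - algebraMap (h69_K0 H) (h69_F0 (N * q) H) c) := by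
  have e : φ x - algebraMap (h69_K0 H) (h69_F0 (N * q) H) c
      = φ (x - algebraMap (h69_K0 H) (h69_F0 N H) c) := by
    rw [map_sub, hφc]
  rw [e]
  by_cases h0 : x - algebraMap (h69_K0 H) (h69_F0 N H) c = 0
  · left
    rw [h0, map_zero]
  · right
    rw [htab _ h0]
    exact h.resolve_left h0

/-- **`hMres` from (NRc) and (V0).** -/
theorem h94_hMres_of_NRc (w2 : Fin 3 → h69_F0 (N * q) H → ℤ) (w1 : Fin 2 → h69_F0 N H → ℤ)
    (hV0a0 : ∀ g : h69_F0 N H, g ≠ 0 → w2 0 (h70_aF0 N q H g) = w1 0 g)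
    (hV0a2 : ∀ g : h69_F0 N H, g ≠ 0 → w2 2 (h70_aF0 N q H g) = w1 1 g)
    (hV0b0 : ∀ g : h69_F0 N H, g ≠ 0 → w2 0 (h70_bF0 N q H g) = w1 0 g)
    (hV0b2 : ∀ g : h69_F0 N H, g ≠ 0 → w2 2 (h70_bF0 N q H g) = w1 1 g)
    (g : h69_F0 (N * q) H) (c1 c2 c3 c4 : h69_K0 H)
    (h : (h70_NaF0 N q H g - algebraMap (h69_K0 H) (h69_F0 N H) c1 = 0 ∨
          1 ≤ w1 0 (h70_NaF0 N q H g - algebraMap (h69_K0 H) (h69_F0 N H) c1)) ∧
        (h70_NaF0 N q H g - algebraMap (h69_K0 H) (h69_F0 N H) c2 = 0 ∨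
          1 ≤ w1 1 (h70_NaF0 N q H g - algebraMap (h69_K0 H) (h69_F0 N H) c2)) ∧
        (h70_NbF0 N q H g - algebraMap (h69_K0 H) (h69_F0 N H) c3 = 0 ∨
          1 ≤ w1 0 (h70_NbF0 N q H g - algebraMap (h69_K0 H) (h69_F0 N H) c3)) ∧
        (h70_NbF0 N q H g - algebraMap (h69_K0 H) (h69_F0 N H) c4 = 0 ∨
          1 ≤ w1 1 (h70_NbF0 N q H g - algebraMap (h69_K0 H) (h69_F0 N H) c4))) :
    (h94_Ma N q H g - algebraMap (h69_K0 H) (h69_F0 (N * q) H) c1 = 0 ∨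
        1 ≤ w2 0 (h94_Ma N q H g - algebraMap (h69_K0 H) (h69_F0 (N * q) H) c1)) ∧
      (h94_Ma N q H g - algebraMap (h69_K0 H) (h69_F0 (N * q) H) c2 = 0 ∨
        1 ≤ w2 2 (h94_Ma N q H g - algebraMap (h69_K0 H) (h69_F0 (N * q) H) c2)) ∧
      (h94_Mb N q H g - algebraMap (h69_K0 H) (h69_F0 (N * q) H) c3 = 0 ∨
        1 ≤ w2 0 (h94_Mb N q H g - algebraMap (h69_K0 H) (h69_F0 (N * q) H) c3)) ∧
      (h94_Mb N q H g - algebraMap (h69_K0 H) (h69_F0 (N * q) H) c4 = 0 ∨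
        1 ≤ w2 2 (h94_Mb N q H g - algebraMap (h69_K0 H) (h69_F0 (N * q) H) c4)) :=
  ⟨h94_pull_cong N q H (h70_aF0 N q H) (h94_aF0_algebraMap N q H) (w2 0) (w1 0) hV0a0 _ c1 h.1,
    h94_pull_cong N q H (h70_aF0 N q H) (h94_aF0_algebraMap N q H) (w2 2) (w1 1) hV0a2 _ c2
      h.2.1,
    h94_pull_cong N q H (h70_bF0 N q H) (h94_bF0_algebraMap N q H) (w2 0) (w1 0) hV0b0 _ c3
      h.2.2.1,
    h94_pull_cong N q H (h70_bF0 N q H) (h94_bF0_algebraMap N q H) (w2 2) (w1 1) hV0b2 _ c4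
      h.2.2.2⟩

/-- **The vertical half of (INT').**  If `t` is integral on the three vertical valuations, so
are `Mα t` and `Mβ t`. -/
theorem h94_int_vert (hq : 1 ≤ q) (w2 : Fin 3 → h69_F0 (N * q) H → ℤ)
    (w1 : Fin 2 → h69_F0 N H → ℤ)
    (hV0a0 : ∀ g : h69_F0 N H, g ≠ 0 → w2 0 (h70_aF0 N q H g) = w1 0 g)
    (hV0a1 : ∀ g : h69_F0 N H, g ≠ 0 → w2 1 (h70_aF0 N q H g) = ((q : ℤ) - 1) * w1 0 g)
    (hV0a2 : ∀ g : h69_F0 N H, g ≠ 0 → w2 2 (h70_aF0 N q H g) = w1 1 g)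
    (hV0b0 : ∀ g : h69_F0 N H, g ≠ 0 → w2 0 (h70_bF0 N q H g) = w1 0 g)
    (hV0b1 : ∀ g : h69_F0 N H, g ≠ 0 → w2 1 (h70_bF0 N q H g) = ((q : ℤ) - 1) * w1 1 g)
    (hV0b2 : ∀ g : h69_F0 N H, g ≠ 0 → w2 2 (h70_bF0 N q H g) = w1 1 g)
    (hN1aF : ∀ u : h69_F0 (N * q) H, u ≠ 0 → w1 0 (h70_NaF0 N q H u) = w2 0 u + w2 1 u)
    (hN1aV : ∀ u : h69_F0 (N * q) H, u ≠ 0 → w1 1 (h70_NaF0 N q H u) = (q : ℤ) * w2 2 u)
    (hN1bF : ∀ u : h69_F0 (N * q) H, u ≠ 0 → w1 0 (h70_NbF0 N q H u) = (q : ℤ) * w2 0 u)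
    (hN1bV : ∀ u : h69_F0 (N * q) H, u ≠ 0 → w1 1 (h70_NbF0 N q H u) = w2 1 u + w2 2 u)
    (t : h69_F0 (N * q) H) (ht : t ≠ 0) (hv : ∀ k, 0 ≤ w2 k t) :
    (∀ k, 0 ≤ w2 k (h94_Ma N q H t)) ∧ ∀ k, 0 ≤ w2 k (h94_Mb N q H t) := by
  have hNa0 : h70_NaF0 N q H t ≠ 0 := (map_ne_zero _).2 ht
  have hNb0 : h70_NbF0 N q H t ≠ 0 := (map_ne_zero _).2 ht
  have hq' : (0 : ℤ) ≤ (q : ℤ) - 1 := by
    have : (1 : ℤ) ≤ q := by exact_mod_cast hq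
    omega
  have hq'' : (0 : ℤ) ≤ (q : ℤ) := Int.natCast_nonneg q
  have h0 := hv 0
  have h1 := hv 1
  have h2 := hv 2
  constructor
  · intro k
    unfold h94_Ma
    fin_cases k
    · show 0 ≤ w2 0 _
      rw [hV0a0 _ hNa0, hN1aF t ht]
      omega
    · show 0 ≤ w2 1 _
      rw [hV0a1 _ hNa0, hN1aF t ht]
      exact mul_nonneg hq' (by omega)
    · show 0 ≤ w2 2 _
      rw [hV0a2 _ hNa0, hN1aV t ht]
      exact mul_nonneg hq'' h2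
  · intro k
    unfold h94_Mb
    fin_cases k
    · show 0 ≤ w2 0 _
      rw [hV0b0 _ hNb0, hN1bF t ht]
      exact mul_nonneg hq'' h0
    · show 0 ≤ w2 1 _
      rw [hV0b1 _ hNb0, hN1bV t ht]
      exact mul_nonneg hq' (by omega)
    · show 0 ≤ w2 2 _
      rw [hV0b2 _ hNb0, hN1bV t ht]
      omega

/-- **`hNU` at a triple point** from (INT') and (N2), (N3). -/
theorem h94_hNU_of_int {ι : Type*} (V : h80_ValFam (h69_F0 (N * q) H) ι) (P : Fin 3 → ι)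
    (w2 : Fin 3 → h69_F0 (N * q) H → ℤ) (hw : ∀ k f, V.v (P k) f = w2 k f)
    (hN2 : ∀ u : h69_F0 (N * q) H, u ≠ 0 → (∀ c, w2 c u = 0) →
      h70_aF0 N q H (h70_NaF0 N q H u) - u ^ q = 0 ∨
        0 < w2 2 (h70_aF0 N q H (h70_NaF0 N q H u) - u ^ q))
    (hN3 : ∀ u : h69_F0 (N * q) H, u ≠ 0 → (∀ c, w2 c u = 0) →
      h70_bF0 N q H (h70_NbF0 N q H u) - u ^ q = 0 ∨
        0 < w2 0 (h70_bF0 N q H (h70_NbF0 N q H u) - u ^ q))
    (𝔪 : Ideal V.B) (h𝔪 : 𝔪.IsMaximal) (h3 : ∀ k, V.Through 𝔪 (P k))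
    (hint : ∀ t : V.B, V.InLoc 𝔪 (h94_Ma N q H (t : h69_F0 (N * q) H)) ∧
      V.InLoc 𝔪 (h94_Mb N q H (t : h69_F0 (N * q) H)))
    (y : h69_F0 (N * q) H) (hy : V.InLoc 𝔪 y) :
    V.InLoc 𝔪 (h94_Ma N q H y) ∧ V.InLoc 𝔪 (h94_Mb N q H y) := by
  haveI : 𝔪.IsPrime := h𝔪.isPrime
  have hall : ∀ t : V.B, t ∉ 𝔪 → (t : h69_F0 (N * q) H) ≠ 0 ∧
      ∀ c, w2 c (t : h69_F0 (N * q) H) = 0 := by
    intro t ht
    have ht0 : (t : h69_F0 (N * q) H) ≠ 0 := h80_ne_zero_of_not_mem V ht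
    refine ⟨ht0, fun c => ?_⟩
    have h1 : 0 ≤ V.v (P c) (t : h69_F0 (N * q) H) := h80_v_nonneg V (P c) t ht0
    have h2 : ¬ 0 < V.v (P c) (t : h69_F0 (N * q) H) := fun hpos => ht (h3 c t ht0 hpos)
    rw [hw] at h1 h2
    omega
  constructor
  · refine h94_nu_of_cong V 𝔪 (P 2) (h3 2) (h94_Ma N q H) q (h94_Ma_mul N q H)
      (h94_Ma_ne_zero N q H) (fun t => (hint t).1) (fun t ht => ?_) y hy
    obtain ⟨ht0, hz⟩ := hall t ht
    unfold h94_Vge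
    rw [hw]
    rcases hN2 _ ht0 hz with h | h
    · exact Or.inl h
    · right
      have h' : 0 < w2 2 (h94_Ma N q H (t : h69_F0 (N * q) H) - (t : h69_F0 (N * q) H) ^ q) := h
      omega
  · refine h94_nu_of_cong V 𝔪 (P 0) (h3 0) (h94_Mb N q H) q (h94_Mb_mul N q H)
      (h94_Mb_ne_zero N q H) (fun t => (hint t).2) (fun t ht => ?_) y hy
    obtain ⟨ht0, hz⟩ := hall t ht
    unfold h94_Vge
    rw [hw]
    rcases hN3 _ ht0 hz with h | h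
    · exact Or.inl h
    · right
      have h' : 0 < w2 0 (h94_Mb N q H (t : h69_F0 (N * q) H) - (t : h69_F0 (N * q) H) ^ q) := h
      omega

/-- **(INT') from its two halves**: if `Mα t`, `Mβ t` are integral at the non-vertical
valuations of `V` for `t ∈ V.B`, then `Mα`, `Mβ` map `V.B` into itself. -/
theorem h94_int_of_halves (hq : 1 ≤ q) {ι : Type*} (V : h80_ValFam (h69_F0 (N * q) H) ι)
    (P : Fin 3 → ι) (w2 : Fin 3 → h69_F0 (N * q) H → ℤ) (hw : ∀ k f, V.v (P k) f = w2 k f)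
    (w1 : Fin 2 → h69_F0 N H → ℤ)
    (hV0a0 : ∀ g : h69_F0 N H, g ≠ 0 → w2 0 (h70_aF0 N q H g) = w1 0 g)
    (hV0a1 : ∀ g : h69_F0 N H, g ≠ 0 → w2 1 (h70_aF0 N q H g) = ((q : ℤ) - 1) * w1 0 g)
    (hV0a2 : ∀ g : h69_F0 N H, g ≠ 0 → w2 2 (h70_aF0 N q H g) = w1 1 g)
    (hV0b0 : ∀ g : h69_F0 N H, g ≠ 0 → w2 0 (h70_bF0 N q H g) = w1 0 g)
    (hV0b1 : ∀ g : h69_F0 N H, g ≠ 0 → w2 1 (h70_bF0 N q H g) = ((q : ℤ) - 1) * w1 1 g)
    (hV0b2 : ∀ g : h69_F0 N H, g ≠ 0 → w2 2 (h70_bF0 N q H g) = w1 1 g)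
    (hN1aF : ∀ u : h69_F0 (N * q) H, u ≠ 0 → w1 0 (h70_NaF0 N q H u) = w2 0 u + w2 1 u)
    (hN1aV : ∀ u : h69_F0 (N * q) H, u ≠ 0 → w1 1 (h70_NaF0 N q H u) = (q : ℤ) * w2 2 u)
    (hN1bF : ∀ u : h69_F0 (N * q) H, u ≠ 0 → w1 0 (h70_NbF0 N q H u) = (q : ℤ) * w2 0 u)
    (hN1bV : ∀ u : h69_F0 (N * q) H, u ≠ 0 → w1 1 (h70_NbF0 N q H u) = w2 1 u + w2 2 u)
    (hhorInt : ∀ t : V.B, (t : h69_F0 (N * q) H) ≠ 0 → ∀ i, (∀ k, i ≠ P k) →
      0 ≤ V.v i (h94_Ma N q H (t : h69_F0 (N * q) H)) ∧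
        0 ≤ V.v i (h94_Mb N q H (t : h69_F0 (N * q) H)))
    (t : V.B) :
    h94_Ma N q H (t : h69_F0 (N * q) H) ∈ V.B ∧ h94_Mb N q H (t : h69_F0 (N * q) H) ∈ V.B := by
  classical
  by_cases ht : (t : h69_F0 (N * q) H) = 0
  · have h1 : h94_Ma N q H (t : h69_F0 (N * q) H) = 0 := by
      unfold h94_Ma
      rw [ht, map_zero, map_zero]
    have h2 : h94_Mb N q H (t : h69_F0 (N * q) H) = 0 := by
      unfold h94_Mb
      rw [ht, map_zero, map_zero]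
    rw [h1, h2]
    exact ⟨V.B.zero_mem, V.B.zero_mem⟩
  have hv : ∀ k, 0 ≤ w2 k (t : h69_F0 (N * q) H) := fun k => by
    rw [← hw]
    exact h80_v_nonneg V (P k) t ht
  obtain ⟨hva, hvb⟩ := h94_int_vert N q H hq w2 w1 hV0a0 hV0a1 hV0a2 hV0b0 hV0b1 hV0b2
    hN1aF hN1aV hN1bF hN1bV _ ht hv
  constructor
  · rw [V.mem_B _ (h94_Ma_ne_zero N q H _ ht)]
    intro i
    by_cases hi : ∃ k, i = P k
    · obtain ⟨k, rfl⟩ := hi
      rw [hw]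
      exact hva k
    · exact (hhorInt t ht i (fun k hk => hi ⟨k, hk⟩)).1
  · rw [V.mem_B _ (h94_Mb_ne_zero N q H _ ht)]
    intro i
    by_cases hi : ∃ k, i = P k
    · obtain ⟨k, rfl⟩ := hi
      rw [hw]
      exact hvb k
    · exact (hhorInt t ht i (fun k hk => hi ⟨k, hk⟩)).2

/-- `hTα` from the norm relation along `α`. -/
theorem h94_hTa (u : h69_F0 (N * q) H) (m : ℕ) (φ : modularFunctionFieldBar N) (κ : Qb)
    (hφF : φ ∈ h69_F0 N H) (hκ : ∀ σ ∈ H, σ κ = κ)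
    (hN : h67_normAlong (heckeAlphaBar Qb N q) (u : modularFunctionFieldBar (N * q))
      = algebraMap Qb (modularFunctionFieldBar N) κ * φ ^ m) :
    h94_Ma N q H u = algebraMap (h69_K0 H) (h69_F0 (N * q) H) ⟨κ, (h69_mem_K0 H κ).2 hκ⟩ *
      (h70_aF0 N q H ⟨φ, hφF⟩) ^ m := by
  apply Subtype.ext
  unfold h94_Ma
  rw [h70_coe_aF0, h70_coe_NaF0, hN, map_mul, map_pow, AlgHom.commutes]
  rfl

/-- `hTβ` from the norm relation along `β`. -/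
theorem h94_hTb (u : h69_F0 (N * q) H) (m : ℕ) (φ : modularFunctionFieldBar N) (κ : Qb)
    (hφF : φ ∈ h69_F0 N H) (hκ : ∀ σ ∈ H, σ κ = κ)
    (hN : h67_normAlong (heckeBetaBar Qb N q) (u : modularFunctionFieldBar (N * q))
      = algebraMap Qb (modularFunctionFieldBar N) κ * φ ^ m) :
    h94_Mb N q H u = algebraMap (h69_K0 H) (h69_F0 (N * q) H) ⟨κ, (h69_mem_K0 H κ).2 hκ⟩ *
      (h70_bF0 N q H ⟨φ, hφF⟩) ^ m := by
  apply Subtype.ext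
  unfold h94_Mb
  rw [h70_coe_bF0, h70_coe_NbF0, hN, map_mul, map_pow, AlgHom.commutes]
  rfl

end Abstract

/-! ### The two missing lines of (V0) for `h98_w2` -/

section VZero

variable (M q : ℕ) [NeZero M] [NeZero q] [Fact q.Prime] (hqM : ¬ q ∣ M)
  (A : ValuationSubring Qb) (hA : A.LiesOverPrime q) (ζ : Qb) (hζ : IsPrimitiveRoot ζ q)
  (hex : h98_Ex M q hqM A ζ hζ)

include hA in
/-- (V0) `w2 1 ∘ b = (q - 1) w1 1` (`C11` lies over `Z_V` along `β`, `e = q - 1`). -/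
theorem h94_hV0b1 : ∀ g : h69_F0 (M * q) (A.inertiaSubgroupIn ℚ), g ≠ 0 →
    h98_w2 M q hqM A ζ hζ hex 1 (h70_bF0 (M * q) q (A.inertiaSubgroupIn ℚ) g)
      = ((q : ℤ) - 1) * h98_w1 M q hqM A ζ hζ hex 1 g := by
  intro g hg
  have hq : q.Prime := Fact.out
  refine h98_v2_eq M q hqM A hA ζ hζ hex _ _ ?_
  have h1 := h98_V0_sh_mid M q hqM A hA (h36_i2 M q hqM) (h98_hi2 M q hqM) (h98_midP M q hqM)
    (h98_midP_i2 M q hqM) ζ hζ (g : modularFunctionFieldBar (M * q)) _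
    (h98_wV_spec M q hqM A ζ hζ hex g hg)
  have e : ((q - 1 : ℕ) : ℤ) = (q : ℤ) - 1 := by
    rw [Nat.cast_sub hq.one_le, Nat.cast_one]
  rw [e] at h1
  exact h1

include hA in
/-- (V0) `w2 2 ∘ b = w1 1` (`C02` lies over `Z_V` along `β`, `e = 1`). -/
theorem h94_hV0b2 : ∀ g : h69_F0 (M * q) (A.inertiaSubgroupIn ℚ), g ≠ 0 →
    h98_w2 M q hqM A ζ hζ hex 2 (h70_bF0 (M * q) q (A.inertiaSubgroupIn ℚ) g)
      = h98_w1 M q hqM A ζ hζ hex 1 g := by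
  intro g hg
  refine h98_v3_eq M q hqM A hA ζ hζ hex _ _ ?_
  exact h98_V0_sh_conj M q hqM A (h36_i0 M q) (h36_i2 M q hqM) (h98_hi0 M q) (h98_hi2 M q hqM)
    (h36_W M q hqM) (h36_W_i2 M q hqM) (q : Qb) (g : modularFunctionFieldBar (M * q)) _
    (h98_wV_spec M q hqM A ζ hζ hex g hg)

end VZero

end Fermat.Agent.S36
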