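import Mathlib
import Fermat.Agent.S36.h94_NZMod
import Fermat.Agent.S36.h70_TorWrap
import Fermat.Agent.S36.h80_FamInst

/-!
# S36 / row NZ, the witness (helper94)

`h94_hwit_abs` : level `N q` over `N`, `H ≤ Gal(ℚ̄/ℚ)`, three vertical valuations `w` on
`F0 = h69_F0 (N q) H`, the two `j`-charts `h80_fam1`, `h80_fam2`.  From the output `(E4, u4)` of
TOR-M (an `H`-rational Kummer pair, `q`-new, `u4 ≡ 1 mod a`), the K-row, the norm residue table,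
(NU) at the triple points and the per-point data of I-PTS (chart 1, predicate `fib1`) and I-CUSP
(chart 2, predicate `cusp2`), it produces the witness `(Ez, uz)` of `hwit` of `h61_geomN_of_data`:
`[Ez] = (q² - 1) [E4]`, `Ez` `H`-invariant, `m Ez = div uz`, `uz ≡ 1 mod a`, and the local
statement (LOC-δ) at every `fib1`-point of chart 1 and every `cusp2`-point of chart 2.

Proof: `h70_norm_rel_pair` gives the two norm relations, `h94_hTa`/`h94_hTb` put them in the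
shape of `h94_hnz_pts`, which gives `Γ`; `h70_kummer_twist` with `h := Γ`, `u' := u4^(q²-1)/Γ^m`
gives `Ez = (q² - 1) E4 - div Γ`.
-/

set_option autoImplicit false
set_option linter.unusedSectionVars false
set_option linter.unusedVariables false
set_option linter.style.haveILetI false
set_option maxHeartbeats 1600000

noncomputable section

open ModularCurve AlgebraicCurve

namespace Fermat.Agent.S36

open Fermat.Agent.S34 Fermat.Agent.S37 Fermat.Agent.S24 Fermat.Agent.S35 Fermat.Agent.S18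
  Fermat.Agent.GAL Fermat.Agent.S40

local notation "Qb" => AlgebraicClosure ℚ


/-- (hhor) for a chart family: a non-vertical index is a place. -/
theorem h94_fam_hhor (N : ℕ) [NeZero N] (H : Subgroup (Qb ≃ₐ[ℚ] Qb))
    (w : Fin 3 → h69_F0 N H → ℤ)
    (hw_mul : ∀ c (f g : h69_F0 N H), f ≠ 0 → g ≠ 0 → w c (f * g) = w c f + w c g)
    (hw_add : ∀ c (f g : h69_F0 N H), f ≠ 0 → g ≠ 0 → f + g ≠ 0 →
      min (w c f) (w c g) ≤ w c (f + g))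
    (x : modularFunctionFieldBar N) (hx : h75_IsChart Qb x)
    (i : Fin 3 ⊕ h80_HorIdx (h80_horOrd N H x)) (hi : i ∉ Set.range Sum.inl) :
    ∃ Pl : Place Qb (modularFunctionFieldBar N), ∀ f : h69_F0 N H, f ≠ 0 →
      (h80_famOf N H w hw_mul hw_add x hx).v i f = Pl.ord ((h69_F0 N H).subtype f) := by
  rcases i with c | j
  · exact absurd ⟨c, rfl⟩ hi
  · obtain ⟨P, hP, hi'⟩ := h80_famOf_hor (κ := Fin 3) N H x (Sum.inr j) ⟨j, rfl⟩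
    refine ⟨P, fun f _ => ?_⟩
    rw [hi']
    rfl

/-- (hq0h) for a chart family: a nonzero constant is a unit at the non-vertical indices. -/
theorem h94_fam_hq0h (N : ℕ) [NeZero N] (H : Subgroup (Qb ≃ₐ[ℚ] Qb))
    (w : Fin 3 → h69_F0 N H → ℤ)
    (hw_mul : ∀ c (f g : h69_F0 N H), f ≠ 0 → g ≠ 0 → w c (f * g) = w c f + w c g)
    (hw_add : ∀ c (f g : h69_F0 N H), f ≠ 0 → g ≠ 0 → f + g ≠ 0 →
      min (w c f) (w c g) ≤ w c (f + g))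
    (x : modularFunctionFieldBar N) (hx : h75_IsChart Qb x)
    (q0 : h69_F0 N H) (c0 : Qb)
    (hq0 : (q0 : modularFunctionFieldBar N) = algebraMap Qb (modularFunctionFieldBar N) c0)
    (i : Fin 3 ⊕ h80_HorIdx (h80_horOrd N H x)) (hi : i ∉ Set.range Sum.inl) :
    (h80_famOf N H w hw_mul hw_add x hx).v i q0 = 0 := by
  rcases i with c | j
  · exact absurd ⟨c, rfl⟩ hi
  · obtain ⟨P, hP, hi'⟩ := h80_famOf_hor (κ := Fin 3) N H x (Sum.inr j) ⟨j, rfl⟩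
    rw [hi']
    show P.ord (q0 : modularFunctionFieldBar N) = 0
    rw [hq0]
    exact h35_ord_algebraMap P c0

/-- **The witness of `hwit`** (abstract level `N q` over `N`). -/
theorem h94_hwit_abs (N q : ℕ) [NeZero N] [NeZero q] (H : Subgroup (Qb ≃ₐ[ℚ] Qb))
    (w : Fin 3 → h69_F0 (N * q) H → ℤ)
    (hw_mul : ∀ c (f g : h69_F0 (N * q) H), f ≠ 0 → g ≠ 0 → w c (f * g) = w c f + w c g)
    (hw_add : ∀ c (f g : h69_F0 (N * q) H), f ≠ 0 → g ≠ 0 → f + g ≠ 0 →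
      min (w c f) (w c g) ≤ w c (f + g))
    (a : Fin 3 → ℕ) (ha : ∀ k, 1 ≤ a k)
    (q0 : h69_F0 (N * q) H) (c0 : Qb) (hc0 : c0 ≠ 0)
    (hq0 : (q0 : modularFunctionFieldBar (N * q)) = algebraMap Qb (modularFunctionFieldBar (N * q)) c0)
    (hwq : ∀ k, w k q0 = a k)
    (hCRT : ∀ t : Fin 3 → h69_F0 (N * q) H, (∀ c, t c ≠ 0) → ∀ n : ℤ,
      ∃ g : h69_F0 (N * q) H, g ≠ 0 ∧ ∀ c, (g - t c = 0 ∨ n ≤ w c (g - t c)))
    (fib1 : Ideal (h80_fam1 (N * q) H w hw_mul hw_add).B → Prop)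
    (hfib1 : ∀ 𝔪 : Ideal (h80_fam1 (N * q) H w hw_mul hw_add).B, 𝔪.IsMaximal →
      ∀ k : Fin 3, (h80_fam1 (N * q) H w hw_mul hw_add).Through 𝔪 (Sum.inl k) → fib1 𝔪)
    (cusp2 : Ideal (h80_fam2 (N * q) H w hw_mul hw_add).B → Prop)
    (hclass1 : ∀ 𝔪 : Ideal (h80_fam1 (N * q) H w hw_mul hw_add).B, 𝔪.IsMaximal → fib1 𝔪 →
      (∀ k : Fin 3, (h80_fam1 (N * q) H w hw_mul hw_add).Through 𝔪 (Sum.inl k)) ∨
        ∃ k0 : Fin 3, ∀ k : Fin 3, (h80_fam1 (N * q) H w hw_mul hw_add).Through 𝔪 (Sum.inl k) → k = k0)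
    (hone2 : ∀ 𝔪 : Ideal (h80_fam2 (N * q) H w hw_mul hw_add).B, 𝔪.IsMaximal → cusp2 𝔪 →
      ∃ k0 : Fin 3, ∀ k : Fin 3, (h80_fam2 (N * q) H w hw_mul hw_add).Through 𝔪 (Sum.inl k) → k = k0)
    (hconst1 : ∀ c : h69_K0 H, c ≠ 0 → w 0 (algebraMap (h69_K0 H) (h69_F0 (N * q) H) c) = 0 → ∀ i, (h80_fam1 (N * q) H w hw_mul hw_add).v i (algebraMap (h69_K0 H) (h69_F0 (N * q) H) c) = 0)
    {m : ℕ} (hn : ((m : ℕ) : h69_F0 (N * q) H) ≠ 0) (hnv : w 0 ((m : ℕ) : h69_F0 (N * q) H) = 0)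
    (hroots : ∀ ξ : h69_F0 (N * q) H, ξ ^ m = 1 → ∃ z : h69_K0 H, algebraMap (h69_K0 H) (h69_F0 (N * q) H) z = ξ)
    (hprim : ∃ ω : h69_K0 H, IsPrimitiveRoot ω m)
    (hroot : ∀ c : h69_K0 H, c ≠ 0 → w 0 (algebraMap (h69_K0 H) (h69_F0 (N * q) H) c) = 0 → ∃ b : h69_K0 H, b ≠ 0 ∧
      (algebraMap (h69_K0 H) (h69_F0 (N * q) H) (b ^ m - c) = 0 ∨ 1 ≤ w 0 (algebraMap (h69_K0 H) (h69_F0 (N * q) H) (b ^ m - c))))
    (hw02 : ∀ c : h69_K0 H, c ≠ 0 → w 2 (algebraMap (h69_K0 H) (h69_F0 (N * q) H) c) = w 0 (algebraMap (h69_K0 H) (h69_F0 (N * q) H) c))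
    (π : h69_K0 H) (hπ0 : π ≠ 0) (hπ : w 0 (algebraMap (h69_K0 H) (h69_F0 (N * q) H) π) = 1)
    (hMres : ∀ (g : h69_F0 (N * q) H) (z : Fin 3 → h69_K0 H), (∀ k, z k ^ m = 1) →
      (∀ k, g - algebraMap (h69_K0 H) (h69_F0 (N * q) H) (z k) = 0 ∨ 1 ≤ w k (g - algebraMap (h69_K0 H) (h69_F0 (N * q) H) (z k))) →
        (h94_Ma N q H g - algebraMap (h69_K0 H) (h69_F0 (N * q) H) (z 0 * z 1 ^ (q - 1)) = 0 ∨
          1 ≤ w 0 (h94_Ma N q H g - algebraMap (h69_K0 H) (h69_F0 (N * q) H) (z 0 * z 1 ^ (q - 1)))) ∧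
        (h94_Ma N q H g - algebraMap (h69_K0 H) (h69_F0 (N * q) H) (z 2 ^ q) = 0 ∨ 1 ≤ w 2 (h94_Ma N q H g - algebraMap (h69_K0 H) (h69_F0 (N * q) H) (z 2 ^ q))) ∧
        (h94_Mb N q H g - algebraMap (h69_K0 H) (h69_F0 (N * q) H) (z 0 ^ q) = 0 ∨ 1 ≤ w 0 (h94_Mb N q H g - algebraMap (h69_K0 H) (h69_F0 (N * q) H) (z 0 ^ q))) ∧
        (h94_Mb N q H g - algebraMap (h69_K0 H) (h69_F0 (N * q) H) (z 1 ^ (q - 1) * z 2) = 0 ∨
          1 ≤ w 2 (h94_Mb N q H g - algebraMap (h69_K0 H) (h69_F0 (N * q) H) (z 1 ^ (q - 1) * z 2))))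
    (hNU1 : ∀ 𝔪 : Ideal (h80_fam1 (N * q) H w hw_mul hw_add).B, 𝔪.IsMaximal → (∀ k : Fin 3, (h80_fam1 (N * q) H w hw_mul hw_add).Through 𝔪 (Sum.inl k)) →
      ∀ y : h69_F0 (N * q) H, y ≠ 0 → (h80_fam1 (N * q) H w hw_mul hw_add).InLoc 𝔪 y → (h80_fam1 (N * q) H w hw_mul hw_add).InLoc 𝔪 y⁻¹ →
        (h80_fam1 (N * q) H w hw_mul hw_add).InLoc 𝔪 (h94_Ma N q H y) ∧ (h80_fam1 (N * q) H w hw_mul hw_add).InLoc 𝔪 (h94_Mb N q H y))
    (E4 : Divisor.degZero (K := Qb) (F := modularFunctionFieldBar (N * q)))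
    (hE4inv : ∀ σ ∈ H, arithmeticGalois (modularFunctionFieldFull (N * q)) σ • (E4 : Divisor Qb (modularFunctionFieldBar (N * q))) = E4)
    (hE4new : h67_DivNew N q (E4 : Divisor Qb (modularFunctionFieldBar (N * q))))
    (u4 : h69_F0 (N * q) H) (hu40 : u4 ≠ 0)
    (hord4 : ∀ v : Place Qb (modularFunctionFieldBar (N * q)), (m : ℤ) * (E4 : Divisor Qb (modularFunctionFieldBar (N * q))) v = v.ord (u4 : modularFunctionFieldBar (N * q)))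
    (hu4 : ∀ k, u4 - 1 = 0 ∨ (a k : ℤ) ≤ w k (u4 - 1))
    (hU1 : ∀ 𝔪 : Ideal (h80_fam1 (N * q) H w hw_mul hw_add).B, 𝔪.IsMaximal → fib1 𝔪 → ∀ i, (h80_fam1 (N * q) H w hw_mul hw_add).Through 𝔪 i →
      ∃ e : h69_F0 (N * q) H, e ≠ 0 ∧ (h80_fam1 (N * q) H w hw_mul hw_add).v i e = 1 ∧ ∀ j, (h80_fam1 (N * q) H w hw_mul hw_add).Through 𝔪 j → j ≠ i → (h80_fam1 (N * q) H w hw_mul hw_add).v j e = 0)
    (hU2 : ∀ 𝔪 : Ideal (h80_fam2 (N * q) H w hw_mul hw_add).B, 𝔪.IsMaximal → cusp2 𝔪 → ∀ i, (h80_fam2 (N * q) H w hw_mul hw_add).Through 𝔪 i →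
      ∃ e : h69_F0 (N * q) H, e ≠ 0 ∧ (h80_fam2 (N * q) H w hw_mul hw_add).v i e = 1 ∧ ∀ j, (h80_fam2 (N * q) H w hw_mul hw_add).Through 𝔪 j → j ≠ i → (h80_fam2 (N * q) H w hw_mul hw_add).v j e = 0)
    (hLG1 : ∀ 𝔪 : Ideal (h80_fam1 (N * q) H w hw_mul hw_add).B, 𝔪.IsMaximal → fib1 𝔪 → ∀ e ω : h69_F0 (N * q) H,
      (∀ c, (h80_fam1 (N * q) H w hw_mul hw_add).Through 𝔪 c → 0 < (h80_fam1 (N * q) H w hw_mul hw_add).v c q0 → 0 ≤ (h80_fam1 (N * q) H w hw_mul hw_add).v c e) →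
      ω ≠ 0 → (h80_fam1 (N * q) H w hw_mul hw_add).InLoc 𝔪 ω → (h80_fam1 (N * q) H w hw_mul hw_add).InLoc 𝔪 ω⁻¹ →
      (∀ c, (h80_fam1 (N * q) H w hw_mul hw_add).Through 𝔪 c → 0 < (h80_fam1 (N * q) H w hw_mul hw_add).v c q0 →
        (e ^ m * ω = 1 ∨ (h80_fam1 (N * q) H w hw_mul hw_add).v c q0 ≤ (h80_fam1 (N * q) H w hw_mul hw_add).v c (e ^ m * ω - 1))) →
      ∃ (ζ : _ → h69_F0 (N * q) H) (y : h69_F0 (N * q) H),
        (∀ c, (h80_fam1 (N * q) H w hw_mul hw_add).Through 𝔪 c → 0 < (h80_fam1 (N * q) H w hw_mul hw_add).v c q0 → (h80_fam1 (N * q) H w hw_mul hw_add).InLoc 𝔪 (ζ c) ∧ ζ c ^ m = 1) ∧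
        y ≠ 0 ∧ (h80_fam1 (N * q) H w hw_mul hw_add).InLoc 𝔪 y ∧ (h80_fam1 (N * q) H w hw_mul hw_add).InLoc 𝔪 y⁻¹ ∧
        ∀ c, (h80_fam1 (N * q) H w hw_mul hw_add).Through 𝔪 c → 0 < (h80_fam1 (N * q) H w hw_mul hw_add).v c q0 →
          (e = ζ c * y ∨ (h80_fam1 (N * q) H w hw_mul hw_add).v c q0 ≤ (h80_fam1 (N * q) H w hw_mul hw_add).v c (e - ζ c * y)))
    (hLG2 : ∀ 𝔪 : Ideal (h80_fam2 (N * q) H w hw_mul hw_add).B, 𝔪.IsMaximal → cusp2 𝔪 → ∀ e ω : h69_F0 (N * q) H,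
      (∀ c, (h80_fam2 (N * q) H w hw_mul hw_add).Through 𝔪 c → 0 < (h80_fam2 (N * q) H w hw_mul hw_add).v c q0 → 0 ≤ (h80_fam2 (N * q) H w hw_mul hw_add).v c e) →
      ω ≠ 0 → (h80_fam2 (N * q) H w hw_mul hw_add).InLoc 𝔪 ω → (h80_fam2 (N * q) H w hw_mul hw_add).InLoc 𝔪 ω⁻¹ →
      (∀ c, (h80_fam2 (N * q) H w hw_mul hw_add).Through 𝔪 c → 0 < (h80_fam2 (N * q) H w hw_mul hw_add).v c q0 →
        (e ^ m * ω = 1 ∨ (h80_fam2 (N * q) H w hw_mul hw_add).v c q0 ≤ (h80_fam2 (N * q) H w hw_mul hw_add).v c (e ^ m * ω - 1))) →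
      ∃ (ζ : _ → h69_F0 (N * q) H) (y : h69_F0 (N * q) H),
        (∀ c, (h80_fam2 (N * q) H w hw_mul hw_add).Through 𝔪 c → 0 < (h80_fam2 (N * q) H w hw_mul hw_add).v c q0 → (h80_fam2 (N * q) H w hw_mul hw_add).InLoc 𝔪 (ζ c) ∧ ζ c ^ m = 1) ∧
        y ≠ 0 ∧ (h80_fam2 (N * q) H w hw_mul hw_add).InLoc 𝔪 y ∧ (h80_fam2 (N * q) H w hw_mul hw_add).InLoc 𝔪 y⁻¹ ∧
        ∀ c, (h80_fam2 (N * q) H w hw_mul hw_add).Through 𝔪 c → 0 < (h80_fam2 (N * q) H w hw_mul hw_add).v c q0 →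
          (e = ζ c * y ∨ (h80_fam2 (N * q) H w hw_mul hw_add).v c q0 ≤ (h80_fam2 (N * q) H w hw_mul hw_add).v c (e - ζ c * y))) :
    ∃ (Ez : Divisor.degZero (K := Qb) (F := modularFunctionFieldBar (N * q))) (uz : h69_F0 (N * q) H),
      Pic0.mk Ez = (q ^ 2 - 1) • Pic0.mk E4 ∧
      (∀ σ ∈ H, arithmeticGalois (modularFunctionFieldFull (N * q)) σ • (Ez : Divisor Qb (modularFunctionFieldBar (N * q))) = Ez) ∧
      uz ≠ 0 ∧
      (∀ v : Place Qb (modularFunctionFieldBar (N * q)), (m : ℤ) * (Ez : Divisor Qb (modularFunctionFieldBar (N * q))) v = v.ord (uz : modularFunctionFieldBar (N * q))) ∧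
      (uz - 1 = 0 ∨ ∀ c, (a c : ℤ) ≤ w c (uz - 1)) ∧
      (∀ 𝔪 : Ideal (h80_fam1 (N * q) H w hw_mul hw_add).B, 𝔪.IsMaximal → fib1 𝔪 →
        ∃ e y : h69_F0 (N * q) H, e ≠ 0 ∧ y ≠ 0 ∧
            (h80_fam1 (N * q) H w hw_mul hw_add).InLoc 𝔪 y ∧
            (h80_fam1 (N * q) H w hw_mul hw_add).InLoc 𝔪 y⁻¹ ∧
            (∀ i, i ∉ Set.range Sum.inl →
              (h80_fam1 (N * q) H w hw_mul hw_add).Through 𝔪 i →
              ∀ P : Place Qb (modularFunctionFieldBar (N * q)),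
                (∀ f : h69_F0 (N * q) H, f ≠ 0 →
                  (h80_fam1 (N * q) H w hw_mul hw_add).v i f =
                    P.ord (f : modularFunctionFieldBar (N * q))) →
                (h80_fam1 (N * q) H w hw_mul hw_add).v i e =
                  (Ez : Divisor Qb (modularFunctionFieldBar (N * q))) P) ∧
            ∀ c : Fin 3, (h80_fam1 (N * q) H w hw_mul hw_add).Through 𝔪 (Sum.inl c) →
              (e = y ∨ (a c : ℤ) ≤ w c (e - y))) ∧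
      (∀ 𝔪 : Ideal (h80_fam2 (N * q) H w hw_mul hw_add).B, 𝔪.IsMaximal → cusp2 𝔪 →
        ∃ e y : h69_F0 (N * q) H, e ≠ 0 ∧ y ≠ 0 ∧
            (h80_fam2 (N * q) H w hw_mul hw_add).InLoc 𝔪 y ∧
            (h80_fam2 (N * q) H w hw_mul hw_add).InLoc 𝔪 y⁻¹ ∧
            (∀ i, i ∉ Set.range Sum.inl →
              (h80_fam2 (N * q) H w hw_mul hw_add).Through 𝔪 i →
              ∀ P : Place Qb (modularFunctionFieldBar (N * q)),
                (∀ f : h69_F0 (N * q) H, f ≠ 0 →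
                  (h80_fam2 (N * q) H w hw_mul hw_add).v i f =
                    P.ord (f : modularFunctionFieldBar (N * q))) →
                (h80_fam2 (N * q) H w hw_mul hw_add).v i e =
                  (Ez : Divisor Qb (modularFunctionFieldBar (N * q))) P) ∧
            ∀ c : Fin 3, (h80_fam2 (N * q) H w hw_mul hw_add).Through 𝔪 (Sum.inl c) →
              (e = y ∨ (a c : ℤ) ≤ w c (e - y))) := by
  classical
  have hq1 : 1 ≤ q := Nat.one_le_iff_ne_zero.mpr (NeZero.ne q)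
  have hq00 : q0 ≠ 0 := by
    intro h0
    have h1 : (q0 : modularFunctionFieldBar (N * q)) = 0 := by rw [h0]; rfl
    rw [hq0] at h1
    exact hc0 ((map_eq_zero (algebraMap Qb (modularFunctionFieldBar (N * q)))).1 h1)
  have hu4F : (u4 : modularFunctionFieldBar (N * q)) ≠ 0 := fun h0 => hu40 (Subtype.ext h0)
  -- the two norm relations
  obtain ⟨⟨φa, κa, hφa0, -, hφaF, -, hκa0, hκaH, hNa⟩,
      ⟨φb, κb, hφb0, -, hφbF, -, hκb0, hκbH, hNb⟩⟩ :=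
    h70_norm_rel_pair N q H E4 hE4inv hE4new (u4 : modularFunctionFieldBar (N * q)) hu4F m hord4 u4.2
  have hTa := h94_hTa N q H u4 m φa κa hφaF hκaH hNa
  have hTb := h94_hTb N q H u4 m φb κb hφbF hκbH hNb
  have hκa0' : (⟨κa, (h69_mem_K0 H κa).2 hκaH⟩ : h69_K0 H) ≠ 0 := fun h0 =>
    hκa0 (congrArg Subtype.val h0)
  have hκb0' : (⟨κb, (h69_mem_K0 H κb).2 hκbH⟩ : h69_K0 H) ≠ 0 := fun h0 =>
    hκb0 (congrArg Subtype.val h0)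
  have hΦa0 : h70_aF0 N q H ⟨φa, hφaF⟩ ≠ 0 :=
    (map_ne_zero (h70_aF0 N q H)).2 (fun h0 => hφa0 (congrArg Subtype.val h0))
  have hΦb0 : h70_bF0 N q H ⟨φb, hφbF⟩ ≠ 0 :=
    (map_ne_zero (h70_bF0 N q H)).2 (fun h0 => hφb0 (congrArg Subtype.val h0))
  obtain ⟨Γ, hΓ0, hΓc, hΓ⟩ := h94_hnz_pts (K := h69_K0 H) (h69_F0 (N * q) H).subtype
    (E4 : Divisor Qb (modularFunctionFieldBar (N * q))) w a ha (q := q) (n := m) hq1
    (h80_fam1 (N * q) H w hw_mul hw_add) (h80_fam2 (N * q) H w hw_mul hw_add) Sum.inl Sum.inl (fun _ _ => rfl) (fun _ _ => rfl)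
    (Set.range Sum.inl) (Sum.elim a fun _ => 1)
    (fun C => ⟨fun ⟨k, hk⟩ => ⟨k, hk.symm⟩, fun ⟨k, hk⟩ => ⟨k, hk.symm⟩⟩) (fun _ => rfl)
    (Set.range Sum.inl) (Sum.elim a fun _ => 1)
    (fun C => ⟨fun ⟨k, hk⟩ => ⟨k, hk.symm⟩, fun ⟨k, hk⟩ => ⟨k, hk.symm⟩⟩) (fun _ => rfl)
    (h94_fam_hhor (N * q) H w hw_mul hw_add _ _)
    (h94_fam_hhor (N * q) H w hw_mul hw_add _ _)
    q0 hq00 hwq
    (h94_fam_hq0h (N * q) H w hw_mul hw_add _ _ q0 c0 hq0)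
    (h94_fam_hq0h (N * q) H w hw_mul hw_add _ _ q0 c0 hq0)
    hCRT fib1 hfib1 cusp2 hclass1 hone2 hconst1 hn hnv hroots hprim hroot hw02 π hπ0 hπ
    (h94_Ma N q H) (h94_Mb N q H) (h94_Ma_mul N q H) (h94_Ma_ne_zero N q H)
    (h94_Mb_mul N q H) (h94_Mb_ne_zero N q H) hMres hNU1 u4 hu40 hu4 hord4
    ⟨κa, (h69_mem_K0 H κa).2 hκaH⟩ ⟨κb, (h69_mem_K0 H κb).2 hκbH⟩ hκa0' hκb0'
    (h70_aF0 N q H ⟨φa, hφaF⟩) (h70_bF0 N q H ⟨φb, hφbF⟩) hΦa0 hΦb0 hTa hTb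
    hU1 hU2 hLG1 hLG2
  have hΓF : (Γ : modularFunctionFieldBar (N * q)) ≠ 0 := fun h0 => hΓ0 (Subtype.ext h0)
  have hrel : (u4 : modularFunctionFieldBar (N * q)) ^ (q ^ 2 - 1) =
      algebraMap Qb (modularFunctionFieldBar (N * q)) 1 * (Γ : modularFunctionFieldBar (N * q)) ^ m *
        ((u4 ^ (q ^ 2 - 1) / Γ ^ m : h69_F0 (N * q) H) : modularFunctionFieldBar (N * q)) := by
    have h1 : ((u4 ^ (q ^ 2 - 1) / Γ ^ m : h69_F0 (N * q) H) : modularFunctionFieldBar (N * q)) =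
        (u4 : modularFunctionFieldBar (N * q)) ^ (q ^ 2 - 1) / (Γ : modularFunctionFieldBar (N * q)) ^ m := rfl
    rw [h1, map_one, one_mul, mul_div_cancel₀ _ (pow_ne_zero m hΓF)]
  obtain ⟨Ez, hcls, hinv, huz0, hordz, hEz, -⟩ := h70_kummer_twist (N * q) H E4 hE4inv
    (u4 : modularFunctionFieldBar (N * q)) hu4F m (q ^ 2 - 1) hord4 1 one_ne_zero (Γ : modularFunctionFieldBar (N * q))
    ((u4 ^ (q ^ 2 - 1) / Γ ^ m : h69_F0 (N * q) H) : modularFunctionFieldBar (N * q)) hΓF Γ.2 hrel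
  obtain ⟨hc1, hc2⟩ := hΓ (Ez : Divisor Qb (modularFunctionFieldBar (N * q))) hEz
  refine ⟨Ez, u4 ^ (q ^ 2 - 1) / Γ ^ m, hcls, hinv, fun h0 => huz0 (by rw [h0]; rfl), hordz,
    ?_, ?_, ?_⟩
  · by_cases h1 : u4 ^ (q ^ 2 - 1) / Γ ^ m - 1 = 0
    · exact Or.inl h1
    · exact Or.inr fun c => (hΓc c).resolve_left h1
  · intro 𝔪 h𝔪 hf
    obtain ⟨e, y, he0, hy0, hy, hyi, hhor, hvert⟩ := hc1 𝔪 h𝔪 hf
    exact ⟨e, y, he0, hy0, hy, hyi, hhor, fun c hc => hvert (Sum.inl c) ⟨c, rfl⟩ hc⟩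
  · intro 𝔪 h𝔪 hf
    obtain ⟨e, y, he0, hy0, hy, hyi, hhor, hvert⟩ := hc2 𝔪 h𝔪 hf
    exact ⟨e, y, he0, hy0, hy, hyi, hhor, fun c hc => hvert (Sum.inl c) ⟨c, rfl⟩ hc⟩

end Fermat.Agent.S36
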