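import Mathlib
import Fermat.Agent.S36.h98_V3
import Fermat.Agent.S36.h70_K6Gauss
import Fermat.Agent.S36.h49_ExInst

/-!
# S36 / row I-TOR : TOR-M with every binder discharged (helper98)

`h70_torM` (helper70) applied to the concrete vertical valuations `h98_w2`, `h98_w1`:
the 18 binders of `h98_W2`, (V1)-(V3) of `h98_V12`/`h98_V3`, (K6+) of `h70_K6Gauss`.

* `h98_hCval`, `h98_hCroot` : the binders `hCval`, `hCroot` of `h70_torM` for `h98_w1`;
* `h98_torM` : TOR-M for any `hex : h98_Ex ..`;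
* `h98_torM_closed` : TOR-M with `hex := h49_ex ..` — no hypothesis left.
-/

set_option autoImplicit false
set_option synthInstance.maxHeartbeats 400000
set_option linter.unusedSectionVars false
set_option linter.style.haveILetI false

noncomputable section

open ModularCurve AlgebraicCurve

namespace Fermat.Agent.S36

open Fermat.Agent.S34 Fermat.Agent.S37 Fermat.Agent.S24 Fermat.Agent.S35 Fermat.Agent.S18
  Fermat.Agent.GAL Fermat.Agent.S40 Fermat.Agent.S19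

local notation "Qb" => AlgebraicClosure ℚ

section TorM

variable (M q : ℕ) [NeZero M] [NeZero q] [Fact q.Prime] (hqM : ¬ q ∣ M)
  (A : ValuationSubring Qb) (hA : A.LiesOverPrime q) (ζ : Qb) (hζ : IsPrimitiveRoot ζ q)
  (hex : h98_Ex M q hqM A ζ hζ)

include hA

/-- **`hCval`** of `h70_torM` for `h98_w1`. -/
theorem h98_hCval : ∀ k : h69_F0 (M * q) (A.inertiaSubgroupIn ℚ), k ≠ 0 →
    h70_IsConst (M * q) (A.inertiaSubgroupIn ℚ) k →
    h98_w1 M q hqM A ζ hζ hex 0 k = h98_w1 M q hqM A ζ hζ hex 1 k :=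
  h70_K6_val q A (M * q) hA (h98_coe (M * q)) ((h98_coe (M * q)).comp (h60_w M q hqM))
    (fun _ => rfl) (fun c => by rw [RingHom.comp_apply, h60_w_algebraMap]; rfl)
    (h98_w1 M q hqM A ζ hζ hex 0) (h98_w1 M q hqM A ζ hζ hex 1)
    (fun f hf => h98_wF_spec M q hqM A ζ hζ hex f hf)
    (fun f hf => h98_wV_spec M q hqM A ζ hζ hex f hf)

/-- **`hCroot`** of `h70_torM` for `h98_w1`. -/
theorem h98_hCroot (m : ℕ) (hm : m ≠ 0) : ∀ k : h69_F0 (M * q) (A.inertiaSubgroupIn ℚ), k ≠ 0 →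
    h70_IsConst (M * q) (A.inertiaSubgroupIn ℚ) k → h98_w1 M q hqM A ζ hζ hex 0 k = 0 →
    ∃ c : h69_F0 (M * q) (A.inertiaSubgroupIn ℚ), c ≠ 0 ∧ h98_w1 M q hqM A ζ hζ hex 0 c = 0 ∧
      h98_w1 M q hqM A ζ hζ hex 1 c = 0 ∧
      (k - c ^ m = 0 ∨ (0 < h98_w1 M q hqM A ζ hζ hex 0 (k - c ^ m) ∧
        0 < h98_w1 M q hqM A ζ hζ hex 1 (k - c ^ m))) :=
  h70_K6_root q A (M * q) hA (h98_coe (M * q)) ((h98_coe (M * q)).comp (h60_w M q hqM))
    (fun _ => rfl) (fun c => by rw [RingHom.comp_apply, h60_w_algebraMap]; rfl)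
    (h98_w1 M q hqM A ζ hζ hex 0) (h98_w1 M q hqM A ζ hζ hex 1)
    (fun f hf => h98_wF_spec M q hqM A ζ hζ hex f hf)
    (fun f hf => h98_wV_spec M q hqM A ζ hζ hex f hf) m hm

/-- **TOR-M** for the concrete valuations `h98_w2`: every inertia-fixed, `m`-torsion, `q`-new
class `x` of `J₀(M q²)` (`gcd(q, m) = 1`) has an inertia-rational Kummer pair `(E4, u4)` of
`(q² - 1) • x` with `u4 ≡ 1` modulo `q` at the three vertical valuations. -/
theorem h98_torM (m : ℕ) (hm : 0 < m) (hqm : Nat.Coprime q m)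
    (x : JZero (M * q * q)) (hx : ∀ σ ∈ A.inertiaSubgroupIn ℚ, σ • x = x)
    (hnew : h67_Jnew (M * q) q x) (hmx : m • x = 0) :
    ∃ (E4 : Divisor.degZero (K := Qb) (F := modularFunctionFieldBar (M * q * q)))
      (u4 : h69_F0 (M * q * q) (A.inertiaSubgroupIn ℚ)),
      Pic0.mk E4 = (q ^ 2 - 1) • x ∧
      (∀ σ ∈ A.inertiaSubgroupIn ℚ, arithmeticGalois (modularFunctionFieldFull (M * q * q)) σ •
        (E4 : Divisor Qb (modularFunctionFieldBar (M * q * q))) = E4) ∧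
      h67_DivNew (M * q) q (E4 : Divisor Qb (modularFunctionFieldBar (M * q * q))) ∧
      u4 ≠ 0 ∧
      (∀ v : Place Qb (modularFunctionFieldBar (M * q * q)),
        (m : ℤ) * (E4 : Divisor Qb (modularFunctionFieldBar (M * q * q))) v
          = v.ord (u4 : modularFunctionFieldBar (M * q * q))) ∧
      ∀ c : Fin 3, u4 - 1 = 0 ∨
        h98_w2 M q hqM A ζ hζ hex c (q : h69_F0 (M * q * q) (A.inertiaSubgroupIn ℚ))
          ≤ h98_w2 M q hqM A ζ hζ hex c (u4 - 1) :=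
  h70_torM (M * q) q (A.inertiaSubgroupIn ℚ) (Fact.out : q.Prime) (dvd_mul_left q M) m hm hqm
    (h98_w2 M q hqM A ζ hζ hex) (h98_w1 M q hqM A ζ hζ hex)
    (h98_hw2mul M q hqM A hA ζ hζ hex) (h98_hw2add M q hqM A hA ζ hζ hex)
    (h98_hw1mul M q hqM A hA ζ hζ hex) (h98_hw1add M q hqM A hA ζ hζ hex)
    (h98_hV0a0 M q hqM A hA ζ hζ hex) (h98_hV0a1 M q hqM A hA ζ hζ hex)
    (h98_hV0a2 M q hqM A hA ζ hζ hex) (h98_hV0b0 M q hqM A hA ζ hζ hex)
    (h98_hq0 M q hqM A hA ζ hζ hex) (h98_hq1 M q hqM A hA ζ hζ hex)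
    (h98_hq2 M q hqM A hA ζ hζ hex)
    (h98_hV1 M q hqM A hA ζ hζ hex) (h98_hV2 M q hqM A hA ζ hζ hex)
    (h98_hV3 M q hqM A hA ζ hζ hex)
    (h98_hN1aF M q hqM A hA ζ hζ hex) (h98_hN1aV M q hqM A hA ζ hζ hex)
    (h98_hN1bF M q hqM A hA ζ hζ hex) (h98_hN1bV M q hqM A hA ζ hζ hex)
    (h98_hN2 M q hqM A hA ζ hζ hex) (h98_hN3 M q hqM A hA ζ hζ hex)
    (h98_hN4 M q hqM A hA ζ hζ hex)
    (h98_hCval M q hqM A hA ζ hζ hex) (h98_hCroot M q hqM A hA ζ hζ hex m hm.ne')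
    x hx hnew hmx

/-- **TOR-M, closed form**: `h98_torM` with the existence input `h49_ex`; the congruence in the
form `a c ≤ w2 c (u4 - 1)` with `a = ![1, q - 1, 1]`. -/
theorem h98_torM_closed (m : ℕ) (hm : 0 < m) (hqm : Nat.Coprime q m)
    (x : JZero (M * q * q)) (hx : ∀ σ ∈ A.inertiaSubgroupIn ℚ, σ • x = x)
    (hnew : h67_Jnew (M * q) q x) (hmx : m • x = 0) :
    ∃ (E4 : Divisor.degZero (K := Qb) (F := modularFunctionFieldBar (M * q * q)))
      (u4 : h69_F0 (M * q * q) (A.inertiaSubgroupIn ℚ)),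
      Pic0.mk E4 = (q ^ 2 - 1) • x ∧
      (∀ σ ∈ A.inertiaSubgroupIn ℚ, arithmeticGalois (modularFunctionFieldFull (M * q * q)) σ •
        (E4 : Divisor Qb (modularFunctionFieldBar (M * q * q))) = E4) ∧
      h67_DivNew (M * q) q (E4 : Divisor Qb (modularFunctionFieldBar (M * q * q))) ∧
      u4 ≠ 0 ∧
      (∀ v : Place Qb (modularFunctionFieldBar (M * q * q)),
        (m : ℤ) * (E4 : Divisor Qb (modularFunctionFieldBar (M * q * q))) v
          = v.ord (u4 : modularFunctionFieldBar (M * q * q))) ∧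
      ∀ c : Fin 3, u4 - 1 = 0 ∨
        (((![1, q - 1, 1] : Fin 3 → ℕ) c : ℕ) : ℤ)
          ≤ h98_w2 M q hqM A ζ hζ (h49_ex M q hqM A hA ζ hζ) c (u4 - 1) := by
  have hq : q.Prime := Fact.out
  obtain ⟨E4, u4, h1, h2, h3, h4, h5, h6⟩ :=
    h98_torM M q hqM A hA ζ hζ (h49_ex M q hqM A hA ζ hζ) m hm hqm x hx hnew hmx
  have e : (((q - 1 : ℕ) : ℕ) : ℤ) = (q : ℤ) - 1 := by
    rw [Nat.cast_sub hq.one_le, Nat.cast_one]
  have hwq : ∀ c : Fin 3, h98_w2 M q hqM A ζ hζ (h49_ex M q hqM A hA ζ hζ) c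
      (q : h69_F0 (M * q * q) (A.inertiaSubgroupIn ℚ))
      = (((![1, q - 1, 1] : Fin 3 → ℕ) c : ℕ) : ℤ) := by
    intro c
    fin_cases c
    · exact (h98_hq0 M q hqM A hA ζ hζ _).trans (by simp)
    · exact (h98_hq1 M q hqM A hA ζ hζ _).trans e.symm
    · exact (h98_hq2 M q hqM A hA ζ hζ _).trans (by simp)
  refine ⟨E4, u4, h1, h2, h3, h4, h5, fun c => ?_⟩
  rcases h6 c with h | h
  · exact Or.inl h
  · right
    rw [hwq c] at h
    exact h

end TorM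

end Fermat.Agent.S36
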