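import Mathlib
import Fermat.Agent.S36.h94_NZFinal
import Fermat.Agent.S36.h69_NZConst
import Fermat.Agent.S36.h74_W2Sep
import Fermat.Agent.S36.h74_IntNorm
import Fermat.Agent.S36.h49_NRc
import Fermat.Agent.S36.h98_TorM
import Fermat.Agent.S36.h88_ValComplete

/-!
# S36 / row NZ, the witness at level `M q²` (helper94)

`h94_hwit_w2` : `h94_hwit_abs` at `N := M q`, `H := A.inertiaSubgroupIn ℚ`, `w := h98_w2`,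
`a := ![1, q - 1, 1]`, `q0 := q`, with TOR-M (`h98_torM_closed`), the K row (`h69_NZConst`),
(CRT) (`h88_crt_val`), the norm residue table (`h49_NRc_roots`) and (NU) (`h74_IntNorm`)
discharged.  What stays: the per-point data of I-PTS (chart 1, predicate `fib1`) and I-CUSP
(chart 2, predicate `cusp2`).  Conclusion: the witness `(Ez, uz)` of `hwit` of
`h61_geomN_of_data` for an `m`-torsion, `q`-new, inertia-fixed class `x`, with the class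
`(q² - 1)² • x`, and the two local clauses at the `fib1`- resp. `cusp2`-points.
-/

set_option autoImplicit false
set_option linter.unusedSectionVars false
set_option linter.unusedVariables false
set_option linter.style.haveILetI false
set_option maxHeartbeats 1600000

noncomputable section

open ModularCurve AlgebraicCurve

namespace Fermat.Agent.S36

open Fermat.Agent.S34 Fermat.Agent.S37 Fermat.Agent.S24 Fermat.Agent.S35 Fermat.Agent.S18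
  Fermat.Agent.GAL Fermat.Agent.S40

local notation "Qb" => AlgebraicClosure ℚ


/-- (hwq) `w2 c q = ![1, q - 1, 1] c`. -/
theorem h94_w2_q (M q : ℕ) [NeZero M] [NeZero q] [Fact q.Prime] (hqM : ¬ q ∣ M)
    (A : ValuationSubring Qb) (hA : A.LiesOverPrime q) (ζ : Qb) (hζ : IsPrimitiveRoot ζ q)
    (hex : h98_Ex M q hqM A ζ hζ) (c : Fin 3) :
    (h98_w2 M q hqM A ζ hζ hex) c ((q : ℕ) : h69_F0 (M * q * q) (A.inertiaSubgroupIn ℚ)) = (((![1, q - 1, 1] : Fin 3 → ℕ) c : ℕ) : ℤ) := by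
  have hq : q.Prime := Fact.out
  have e : (((q - 1 : ℕ) : ℕ) : ℤ) = (q : ℤ) - 1 := by
    rw [Nat.cast_sub hq.one_le, Nat.cast_one]
  fin_cases c
  · exact (h98_hq0 M q hqM A hA ζ hζ hex).trans (by simp)
  · exact (h98_hq1 M q hqM A hA ζ hζ hex).trans e.symm
  · exact (h98_hq2 M q hqM A hA ζ hζ hex).trans (by simp)

/-- (CRT) for `h98_w2`. -/
theorem h94_w2_hCRT (M q : ℕ) [NeZero M] [NeZero q] [Fact q.Prime] (hqM : ¬ q ∣ M)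
    (A : ValuationSubring Qb) (hA : A.LiesOverPrime q) (ζ : Qb) (hζ : IsPrimitiveRoot ζ q)
    (hex : h98_Ex M q hqM A ζ hζ) :
    ∀ t : Fin 3 → h69_F0 (M * q * q) (A.inertiaSubgroupIn ℚ), (∀ c, t c ≠ 0) → ∀ n : ℤ,
      ∃ g : h69_F0 (M * q * q) (A.inertiaSubgroupIn ℚ), g ≠ 0 ∧ ∀ c, (g - t c = 0 ∨ n ≤ (h98_w2 M q hqM A ζ hζ hex) c (g - t c)) := by
  intro t ht n
  obtain ⟨g, hg, h⟩ := h88_crt_val (h98_w2 M q hqM A ζ hζ hex) (h98_w2_isVal M q hqM A hA ζ hζ hex)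
    (h74_w2_hnorm M q hqM A hA ζ hζ hex) (h74_w2_hne M q hqM A hA ζ hζ hex) t ht n
  exact ⟨g, hg, fun c => (h c).1⟩

/-- (hMres) for `h98_w2`, from (NRc) and the table (V0). -/
theorem h94_w2_hMres (M q : ℕ) [NeZero M] [NeZero q] [Fact q.Prime] (hqM : ¬ q ∣ M)
    (A : ValuationSubring Qb) (hA : A.LiesOverPrime q) (ζ : Qb) (hζ : IsPrimitiveRoot ζ q)
    (hex : h98_Ex M q hqM A ζ hζ) (m : ℕ) (hm : m ≠ 0) :
    ∀ (g : h69_F0 (M * q * q) (A.inertiaSubgroupIn ℚ)) (z : Fin 3 → h69_K0 (A.inertiaSubgroupIn ℚ)), (∀ k, z k ^ m = 1) →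
      (∀ k, g - algebraMap (h69_K0 (A.inertiaSubgroupIn ℚ)) (h69_F0 (M * q * q) (A.inertiaSubgroupIn ℚ)) (z k) = 0 ∨
        1 ≤ (h98_w2 M q hqM A ζ hζ hex) k (g - algebraMap (h69_K0 (A.inertiaSubgroupIn ℚ)) (h69_F0 (M * q * q) (A.inertiaSubgroupIn ℚ)) (z k))) →
        (h94_Ma (M * q) q (A.inertiaSubgroupIn ℚ) g - algebraMap (h69_K0 (A.inertiaSubgroupIn ℚ)) (h69_F0 (M * q * q) (A.inertiaSubgroupIn ℚ)) (z 0 * z 1 ^ (q - 1)) = 0 ∨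
          1 ≤ (h98_w2 M q hqM A ζ hζ hex) 0 (h94_Ma (M * q) q (A.inertiaSubgroupIn ℚ) g -
            algebraMap (h69_K0 (A.inertiaSubgroupIn ℚ)) (h69_F0 (M * q * q) (A.inertiaSubgroupIn ℚ)) (z 0 * z 1 ^ (q - 1)))) ∧
        (h94_Ma (M * q) q (A.inertiaSubgroupIn ℚ) g - algebraMap (h69_K0 (A.inertiaSubgroupIn ℚ)) (h69_F0 (M * q * q) (A.inertiaSubgroupIn ℚ)) (z 2 ^ q) = 0 ∨
          1 ≤ (h98_w2 M q hqM A ζ hζ hex) 2 (h94_Ma (M * q) q (A.inertiaSubgroupIn ℚ) g - algebraMap (h69_K0 (A.inertiaSubgroupIn ℚ)) (h69_F0 (M * q * q) (A.inertiaSubgroupIn ℚ)) (z 2 ^ q))) ∧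
        (h94_Mb (M * q) q (A.inertiaSubgroupIn ℚ) g - algebraMap (h69_K0 (A.inertiaSubgroupIn ℚ)) (h69_F0 (M * q * q) (A.inertiaSubgroupIn ℚ)) (z 0 ^ q) = 0 ∨
          1 ≤ (h98_w2 M q hqM A ζ hζ hex) 0 (h94_Mb (M * q) q (A.inertiaSubgroupIn ℚ) g - algebraMap (h69_K0 (A.inertiaSubgroupIn ℚ)) (h69_F0 (M * q * q) (A.inertiaSubgroupIn ℚ)) (z 0 ^ q))) ∧
        (h94_Mb (M * q) q (A.inertiaSubgroupIn ℚ) g - algebraMap (h69_K0 (A.inertiaSubgroupIn ℚ)) (h69_F0 (M * q * q) (A.inertiaSubgroupIn ℚ)) (z 1 ^ (q - 1) * z 2) = 0 ∨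
          1 ≤ (h98_w2 M q hqM A ζ hζ hex) 2 (h94_Mb (M * q) q (A.inertiaSubgroupIn ℚ) g -
            algebraMap (h69_K0 (A.inertiaSubgroupIn ℚ)) (h69_F0 (M * q * q) (A.inertiaSubgroupIn ℚ)) (z 1 ^ (q - 1) * z 2))) := by
  intro g z hz hg
  exact h94_hMres_of_NRc (M * q) q (A.inertiaSubgroupIn ℚ) (h98_w2 M q hqM A ζ hζ hex) (h98_w1 M q hqM A ζ hζ hex)
    (h98_hV0a0 M q hqM A hA ζ hζ hex) (h98_hV0a2 M q hqM A hA ζ hζ hex)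
    (h98_hV0b0 M q hqM A hA ζ hζ hex) (h94_hV0b2 M q hqM A hA ζ hζ hex) g _ _ _ _
    (h49_NRc_roots M q hqM A hA ζ hζ hex m hm g z hz hg)

/-- (NU) at the triple points of chart 1 for `h98_w2`. -/
theorem h94_w2_hNU (M q : ℕ) [NeZero M] [NeZero q] [Fact q.Prime] (hqM : ¬ q ∣ M)
    (A : ValuationSubring Qb) (hA : A.LiesOverPrime q) (ζ : Qb) (hζ : IsPrimitiveRoot ζ q)
    (hex : h98_Ex M q hqM A ζ hζ) :
    ∀ 𝔪 : Ideal (h80_fam1 (M * q * q) (A.inertiaSubgroupIn ℚ) (h98_w2 M q hqM A ζ hζ hex) (h98_hw2mul M q hqM A hA ζ hζ hex) (h98_hw2add M q hqM A hA ζ hζ hex)).B, 𝔪.IsMaximal → (∀ k : Fin 3, (h80_fam1 (M * q * q) (A.inertiaSubgroupIn ℚ) (h98_w2 M q hqM A ζ hζ hex) (h98_hw2mul M q hqM A hA ζ hζ hex) (h98_hw2add M q hqM A hA ζ hζ hex)).Through 𝔪 (Sum.inl k)) →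
      ∀ y : h69_F0 (M * q * q) (A.inertiaSubgroupIn ℚ), y ≠ 0 → (h80_fam1 (M * q * q) (A.inertiaSubgroupIn ℚ) (h98_w2 M q hqM A ζ hζ hex) (h98_hw2mul M q hqM A hA ζ hζ hex) (h98_hw2add M q hqM A hA ζ hζ hex)).InLoc 𝔪 y → (h80_fam1 (M * q * q) (A.inertiaSubgroupIn ℚ) (h98_w2 M q hqM A ζ hζ hex) (h98_hw2mul M q hqM A hA ζ hζ hex) (h98_hw2add M q hqM A hA ζ hζ hex)).InLoc 𝔪 y⁻¹ →
        (h80_fam1 (M * q * q) (A.inertiaSubgroupIn ℚ) (h98_w2 M q hqM A ζ hζ hex) (h98_hw2mul M q hqM A hA ζ hζ hex) (h98_hw2add M q hqM A hA ζ hζ hex)).InLoc 𝔪 (h94_Ma (M * q) q (A.inertiaSubgroupIn ℚ) y) ∧ (h80_fam1 (M * q * q) (A.inertiaSubgroupIn ℚ) (h98_w2 M q hqM A ζ hζ hex) (h98_hw2mul M q hqM A hA ζ hζ hex) (h98_hw2add M q hqM A hA ζ hζ hex)).InLoc 𝔪 (h94_Mb (M * q) q (A.inertiaSubgroupIn ℚ) y) := by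
  intro 𝔪 h𝔪 h3 y _ hy _
  haveI := h𝔪
  haveI : 𝔪.IsPrime := h𝔪.isPrime
  exact h94_hNU_of_int (M * q) q (A.inertiaSubgroupIn ℚ) (h80_fam1 (M * q * q) (A.inertiaSubgroupIn ℚ) (h98_w2 M q hqM A ζ hζ hex) (h98_hw2mul M q hqM A hA ζ hζ hex) (h98_hw2add M q hqM A hA ζ hζ hex)) Sum.inl (h98_w2 M q hqM A ζ hζ hex) (fun _ _ => rfl)
    (h98_hN2 M q hqM A hA ζ hζ hex) (h98_hN3 M q hqM A hA ζ hζ hex) 𝔪 h𝔪 h3
    (fun t => ⟨h94_B_le_Bm (h80_fam1 (M * q * q) (A.inertiaSubgroupIn ℚ) (h98_w2 M q hqM A ζ hζ hex) (h98_hw2mul M q hqM A hA ζ hζ hex) (h98_hw2add M q hqM A hA ζ hζ hex)) 𝔪 ⟨_, h74_int_Malpha M q hqM A hA ζ hζ hex t t.2⟩,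
      h94_B_le_Bm (h80_fam1 (M * q * q) (A.inertiaSubgroupIn ℚ) (h98_w2 M q hqM A ζ hζ hex) (h98_hw2mul M q hqM A hA ζ hζ hex) (h98_hw2add M q hqM A hA ζ hζ hex)) 𝔪 ⟨_, h74_int_Mbeta M q hqM A hA ζ hζ hex t t.2⟩⟩) y hy

/-- **The witness of `hwit` at level `M q²`**, from the per-point data. -/
theorem h94_hwit_w2 (M q : ℕ) [NeZero M] [NeZero q] [Fact q.Prime] (hqM : ¬ q ∣ M)
    (A : ValuationSubring Qb) (hA : A.LiesOverPrime q) (ζ : Qb) (hζ : IsPrimitiveRoot ζ q)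
    (hex : h98_Ex M q hqM A ζ hζ)
    (m : ℕ) (hm : 0 < m) (hqm : Nat.Coprime q m)
    (x : JZero (M * q * q)) (hx : ∀ σ ∈ A.inertiaSubgroupIn ℚ, σ • x = x)
    (hnew : h67_Jnew (M * q) q x) (hmx : m • x = 0)
    (fib1 : Ideal (h80_fam1 (M * q * q) (A.inertiaSubgroupIn ℚ) (h98_w2 M q hqM A ζ hζ hex) (h98_hw2mul M q hqM A hA ζ hζ hex) (h98_hw2add M q hqM A hA ζ hζ hex)).B → Prop)
    (hfib1 : ∀ 𝔪 : Ideal (h80_fam1 (M * q * q) (A.inertiaSubgroupIn ℚ) (h98_w2 M q hqM A ζ hζ hex) (h98_hw2mul M q hqM A hA ζ hζ hex) (h98_hw2add M q hqM A hA ζ hζ hex)).B, 𝔪.IsMaximal →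
      ∀ k : Fin 3, (h80_fam1 (M * q * q) (A.inertiaSubgroupIn ℚ) (h98_w2 M q hqM A ζ hζ hex) (h98_hw2mul M q hqM A hA ζ hζ hex) (h98_hw2add M q hqM A hA ζ hζ hex)).Through 𝔪 (Sum.inl k) → fib1 𝔪)
    (cusp2 : Ideal (h80_fam2 (M * q * q) (A.inertiaSubgroupIn ℚ) (h98_w2 M q hqM A ζ hζ hex) (h98_hw2mul M q hqM A hA ζ hζ hex) (h98_hw2add M q hqM A hA ζ hζ hex)).B → Prop)
    (hclass1 : ∀ 𝔪 : Ideal (h80_fam1 (M * q * q) (A.inertiaSubgroupIn ℚ) (h98_w2 M q hqM A ζ hζ hex) (h98_hw2mul M q hqM A hA ζ hζ hex) (h98_hw2add M q hqM A hA ζ hζ hex)).B, 𝔪.IsMaximal → fib1 𝔪 →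
      (∀ k : Fin 3, (h80_fam1 (M * q * q) (A.inertiaSubgroupIn ℚ) (h98_w2 M q hqM A ζ hζ hex) (h98_hw2mul M q hqM A hA ζ hζ hex) (h98_hw2add M q hqM A hA ζ hζ hex)).Through 𝔪 (Sum.inl k)) ∨
        ∃ k0 : Fin 3, ∀ k : Fin 3, (h80_fam1 (M * q * q) (A.inertiaSubgroupIn ℚ) (h98_w2 M q hqM A ζ hζ hex) (h98_hw2mul M q hqM A hA ζ hζ hex) (h98_hw2add M q hqM A hA ζ hζ hex)).Through 𝔪 (Sum.inl k) → k = k0)
    (hone2 : ∀ 𝔪 : Ideal (h80_fam2 (M * q * q) (A.inertiaSubgroupIn ℚ) (h98_w2 M q hqM A ζ hζ hex) (h98_hw2mul M q hqM A hA ζ hζ hex) (h98_hw2add M q hqM A hA ζ hζ hex)).B, 𝔪.IsMaximal → cusp2 𝔪 →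
      ∃ k0 : Fin 3, ∀ k : Fin 3, (h80_fam2 (M * q * q) (A.inertiaSubgroupIn ℚ) (h98_w2 M q hqM A ζ hζ hex) (h98_hw2mul M q hqM A hA ζ hζ hex) (h98_hw2add M q hqM A hA ζ hζ hex)).Through 𝔪 (Sum.inl k) → k = k0)
    (hU1 : ∀ 𝔪 : Ideal (h80_fam1 (M * q * q) (A.inertiaSubgroupIn ℚ) (h98_w2 M q hqM A ζ hζ hex) (h98_hw2mul M q hqM A hA ζ hζ hex) (h98_hw2add M q hqM A hA ζ hζ hex)).B, 𝔪.IsMaximal → fib1 𝔪 → ∀ i, (h80_fam1 (M * q * q) (A.inertiaSubgroupIn ℚ) (h98_w2 M q hqM A ζ hζ hex) (h98_hw2mul M q hqM A hA ζ hζ hex) (h98_hw2add M q hqM A hA ζ hζ hex)).Through 𝔪 i →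
      ∃ e : h69_F0 (M * q * q) (A.inertiaSubgroupIn ℚ), e ≠ 0 ∧ (h80_fam1 (M * q * q) (A.inertiaSubgroupIn ℚ) (h98_w2 M q hqM A ζ hζ hex) (h98_hw2mul M q hqM A hA ζ hζ hex) (h98_hw2add M q hqM A hA ζ hζ hex)).v i e = 1 ∧ ∀ j, (h80_fam1 (M * q * q) (A.inertiaSubgroupIn ℚ) (h98_w2 M q hqM A ζ hζ hex) (h98_hw2mul M q hqM A hA ζ hζ hex) (h98_hw2add M q hqM A hA ζ hζ hex)).Through 𝔪 j → j ≠ i → (h80_fam1 (M * q * q) (A.inertiaSubgroupIn ℚ) (h98_w2 M q hqM A ζ hζ hex) (h98_hw2mul M q hqM A hA ζ hζ hex) (h98_hw2add M q hqM A hA ζ hζ hex)).v j e = 0)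
    (hU2 : ∀ 𝔪 : Ideal (h80_fam2 (M * q * q) (A.inertiaSubgroupIn ℚ) (h98_w2 M q hqM A ζ hζ hex) (h98_hw2mul M q hqM A hA ζ hζ hex) (h98_hw2add M q hqM A hA ζ hζ hex)).B, 𝔪.IsMaximal → cusp2 𝔪 → ∀ i, (h80_fam2 (M * q * q) (A.inertiaSubgroupIn ℚ) (h98_w2 M q hqM A ζ hζ hex) (h98_hw2mul M q hqM A hA ζ hζ hex) (h98_hw2add M q hqM A hA ζ hζ hex)).Through 𝔪 i →
      ∃ e : h69_F0 (M * q * q) (A.inertiaSubgroupIn ℚ), e ≠ 0 ∧ (h80_fam2 (M * q * q) (A.inertiaSubgroupIn ℚ) (h98_w2 M q hqM A ζ hζ hex) (h98_hw2mul M q hqM A hA ζ hζ hex) (h98_hw2add M q hqM A hA ζ hζ hex)).v i e = 1 ∧ ∀ j, (h80_fam2 (M * q * q) (A.inertiaSubgroupIn ℚ) (h98_w2 M q hqM A ζ hζ hex) (h98_hw2mul M q hqM A hA ζ hζ hex) (h98_hw2add M q hqM A hA ζ hζ hex)).Through 𝔪 j → j ≠ i → (h80_fam2 (M * q * q) (A.inertiaSubgroupIn ℚ) (h98_w2 M q hqM A ζ hζ hex)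 (h98_hw2mul M q hqM A hA ζ hζ hex) (h98_hw2add M q hqM A hA ζ hζ hex)).v j e = 0)
    (hLG1 : ∀ 𝔪 : Ideal (h80_fam1 (M * q * q) (A.inertiaSubgroupIn ℚ) (h98_w2 M q hqM A ζ hζ hex) (h98_hw2mul M q hqM A hA ζ hζ hex) (h98_hw2add M q hqM A hA ζ hζ hex)).B, 𝔪.IsMaximal → fib1 𝔪 → ∀ e ω : h69_F0 (M * q * q) (A.inertiaSubgroupIn ℚ),
      (∀ c, (h80_fam1 (M * q * q) (A.inertiaSubgroupIn ℚ) (h98_w2 M q hqM A ζ hζ hex) (h98_hw2mul M q hqM A hA ζ hζ hex) (h98_hw2add M q hqM A hA ζ hζ hex)).Through 𝔪 c → 0 < (h80_fam1 (M * q * q) (A.inertiaSubgroupIn ℚ) (h98_w2 M q hqM A ζ hζ hex) (h98_hw2mul M q hqM A hA ζ hζ hex) (h98_hw2add M q hqM A hA ζ hζ hex)).v c ((q : ℕ) : h69_F0 (M * q * q) (A.inertiaSubgroupIn ℚ)) → 0 ≤ (h80_fam1 (M * q * q) (A.inertiaSubgroupIn ℚ) (h98_w2 M q hqM A ζ hζ hex) (h98_hw2mul M q hqM A hA ζ hζ hex) (h98_hw2add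 M q hqM A hA ζ hζ hex)).v c e) →
      ω ≠ 0 → (h80_fam1 (M * q * q) (A.inertiaSubgroupIn ℚ) (h98_w2 M q hqM A ζ hζ hex) (h98_hw2mul M q hqM A hA ζ hζ hex) (h98_hw2add M q hqM A hA ζ hζ hex)).InLoc 𝔪 ω → (h80_fam1 (M * q * q) (A.inertiaSubgroupIn ℚ) (h98_w2 M q hqM A ζ hζ hex) (h98_hw2mul M q hqM A hA ζ hζ hex) (h98_hw2add M q hqM A hA ζ hζ hex)).InLoc 𝔪 ω⁻¹ →
      (∀ c, (h80_fam1 (M * q * q) (A.inertiaSubgroupIn ℚ) (h98_w2 M q hqM A ζ hζ hex) (h98_hw2mul M q hqM A hA ζ hζ hex) (h98_hw2add M q hqM A hA ζ hζ hex)).Through 𝔪 c → 0 < (h80_fam1 (M * q * q) (A.inertiaSubgroupIn ℚ) (h98_w2 M q hqM A ζ hζ hex) (h98_hw2mul M q hqM A hA ζ hζ hex) (h98_hw2add M q hqM A hA ζ hζ hex)).v c ((q : ℕ) : h69_F0 (M * q * q) (A.inertiaSubgroupIn ℚ)) →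
        (e ^ m * ω = 1 ∨ (h80_fam1 (M * q * q) (A.inertiaSubgroupIn ℚ) (h98_w2 M q hqM A ζ hζ hex) (h98_hw2mul M q hqM A hA ζ hζ hex) (h98_hw2add M q hqM A hA ζ hζ hex)).v c ((q : ℕ) : h69_F0 (M * q * q) (A.inertiaSubgroupIn ℚ)) ≤ (h80_fam1 (M * q * q) (A.inertiaSubgroupIn ℚ) (h98_w2 M q hqM A ζ hζ hex) (h98_hw2mul M q hqM A hA ζ hζ hex) (h98_hw2add M q hqM A hA ζ hζ hex)).v c (e ^ m * ω - 1))) →
      ∃ (ξ : _ → h69_F0 (M * q * q) (A.inertiaSubgroupIn ℚ)) (y : h69_F0 (M * q * q) (A.inertiaSubgroupIn ℚ)),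
        (∀ c, (h80_fam1 (M * q * q) (A.inertiaSubgroupIn ℚ) (h98_w2 M q hqM A ζ hζ hex) (h98_hw2mul M q hqM A hA ζ hζ hex) (h98_hw2add M q hqM A hA ζ hζ hex)).Through 𝔪 c → 0 < (h80_fam1 (M * q * q) (A.inertiaSubgroupIn ℚ) (h98_w2 M q hqM A ζ hζ hex) (h98_hw2mul M q hqM A hA ζ hζ hex) (h98_hw2add M q hqM A hA ζ hζ hex)).v c ((q : ℕ) : h69_F0 (M * q * q) (A.inertiaSubgroupIn ℚ)) → (h80_fam1 (M * q * q) (A.inertiaSubgroupIn ℚ) (h98_w2 M q hqM A ζ hζ hex) (h98_hw2mul M q hqM A hA ζ hζ hex) (h98_hw2add M q hqM A hA ζ hζ hex)).InLoc 𝔪 (ξ c) ∧ ξ c ^ m = 1) ∧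
        y ≠ 0 ∧ (h80_fam1 (M * q * q) (A.inertiaSubgroupIn ℚ) (h98_w2 M q hqM A ζ hζ hex) (h98_hw2mul M q hqM A hA ζ hζ hex) (h98_hw2add M q hqM A hA ζ hζ hex)).InLoc 𝔪 y ∧ (h80_fam1 (M * q * q) (A.inertiaSubgroupIn ℚ) (h98_w2 M q hqM A ζ hζ hex) (h98_hw2mul M q hqM A hA ζ hζ hex) (h98_hw2add M q hqM A hA ζ hζ hex)).InLoc 𝔪 y⁻¹ ∧
        ∀ c, (h80_fam1 (M * q * q) (A.inertiaSubgroupIn ℚ) (h98_w2 M q hqM A ζ hζ hex) (h98_hw2mul M q hqM A hA ζ hζ hex) (h98_hw2add M q hqM A hA ζ hζ hex)).Through 𝔪 c → 0 < (h80_fam1 (M * q * q) (A.inertiaSubgroupIn ℚ) (h98_w2 M q hqM A ζ hζ hex) (h98_hw2mul M q hqM A hA ζ hζ hex) (h98_hw2add M q hqM A hA ζ hζ hex)).v c ((q : ℕ) : h69_F0 (M * q * q) (A.inertiaSubgroupIn ℚ)) →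
          (e = ξ c * y ∨ (h80_fam1 (M * q * q) (A.inertiaSubgroupIn ℚ) (h98_w2 M q hqM A ζ hζ hex) (h98_hw2mul M q hqM A hA ζ hζ hex) (h98_hw2add M q hqM A hA ζ hζ hex)).v c ((q : ℕ) : h69_F0 (M * q * q) (A.inertiaSubgroupIn ℚ)) ≤ (h80_fam1 (M * q * q) (A.inertiaSubgroupIn ℚ) (h98_w2 M q hqM A ζ hζ hex) (h98_hw2mul M q hqM A hA ζ hζ hex) (h98_hw2add M q hqM A hA ζ hζ hex)).v c (e - ξ c * y)))
    (hLG2 : ∀ 𝔪 : Ideal (h80_fam2 (M * q * q) (A.inertiaSubgroupIn ℚ) (h98_w2 M q hqM A ζ hζ hex) (h98_hw2mul M q hqM A hA ζ hζ hex) (h98_hw2add M q hqM A hA ζ hζ hex)).B, 𝔪.IsMaximal → cusp2 𝔪 → ∀ e ω : h69_F0 (M * q * q) (A.inertiaSubgroupIn ℚ),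
      (∀ c, (h80_fam2 (M * q * q) (A.inertiaSubgroupIn ℚ) (h98_w2 M q hqM A ζ hζ hex) (h98_hw2mul M q hqM A hA ζ hζ hex) (h98_hw2add M q hqM A hA ζ hζ hex)).Through 𝔪 c → 0 < (h80_fam2 (M * q * q) (A.inertiaSubgroupIn ℚ) (h98_w2 M q hqM A ζ hζ hex) (h98_hw2mul M q hqM A hA ζ hζ hex) (h98_hw2add M q hqM A hA ζ hζ hex)).v c ((q : ℕ) : h69_F0 (M * q * q) (A.inertiaSubgroupIn ℚ)) → 0 ≤ (h80_fam2 (M * q * q) (A.inertiaSubgroupIn ℚ) (h98_w2 M q hqM A ζ hζ hex) (h98_hw2mul M q hqM A hA ζ hζ hex) (h98_hw2add M q hqM A hA ζ hζ hex)).v c e) →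
      ω ≠ 0 → (h80_fam2 (M * q * q) (A.inertiaSubgroupIn ℚ) (h98_w2 M q hqM A ζ hζ hex) (h98_hw2mul M q hqM A hA ζ hζ hex) (h98_hw2add M q hqM A hA ζ hζ hex)).InLoc 𝔪 ω → (h80_fam2 (M * q * q) (A.inertiaSubgroupIn ℚ) (h98_w2 M q hqM A ζ hζ hex) (h98_hw2mul M q hqM A hA ζ hζ hex) (h98_hw2add M q hqM A hA ζ hζ hex)).InLoc 𝔪 ω⁻¹ →
      (∀ c, (h80_fam2 (M * q * q) (A.inertiaSubgroupIn ℚ) (h98_w2 M q hqM A ζ hζ hex) (h98_hw2mul M q hqM A hA ζ hζ hex) (h98_hw2add M q hqM A hA ζ hζ hex)).Through 𝔪 c → 0 < (h80_fam2 (M * q * q) (A.inertiaSubgroupIn ℚ) (h98_w2 M q hqM A ζ hζ hex) (h98_hw2mul M q hqM A hA ζ hζ hex) (h98_hw2add M q hqM A hA ζ hζ hex)).v c ((q : ℕ) : h69_F0 (M * q * q) (A.inertiaSubgroupIn ℚ)) →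
        (e ^ m * ω = 1 ∨ (h80_fam2 (M * q * q) (A.inertiaSubgroupIn ℚ) (h98_w2 M q hqM A ζ hζ hex) (h98_hw2mul M q hqM A hA ζ hζ hex) (h98_hw2add M q hqM A hA ζ hζ hex)).v c ((q : ℕ) : h69_F0 (M * q * q) (A.inertiaSubgroupIn ℚ)) ≤ (h80_fam2 (M * q * q) (A.inertiaSubgroupIn ℚ) (h98_w2 M q hqM A ζ hζ hex) (h98_hw2mul M q hqM A hA ζ hζ hex) (h98_hw2add M q hqM A hA ζ hζ hex)).v c (e ^ m * ω - 1))) →
      ∃ (ξ : _ → h69_F0 (M * q * q) (A.inertiaSubgroupIn ℚ)) (y : h69_F0 (M * q * q) (A.inertiaSubgroupIn ℚ)),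
        (∀ c, (h80_fam2 (M * q * q) (A.inertiaSubgroupIn ℚ) (h98_w2 M q hqM A ζ hζ hex) (h98_hw2mul M q hqM A hA ζ hζ hex) (h98_hw2add M q hqM A hA ζ hζ hex)).Through 𝔪 c → 0 < (h80_fam2 (M * q * q) (A.inertiaSubgroupIn ℚ) (h98_w2 M q hqM A ζ hζ hex) (h98_hw2mul M q hqM A hA ζ hζ hex) (h98_hw2add M q hqM A hA ζ hζ hex)).v c ((q : ℕ) : h69_F0 (M * q * q) (A.inertiaSubgroupIn ℚ)) → (h80_fam2 (M * q * q) (A.inertiaSubgroupIn ℚ) (h98_w2 M q hqM A ζ hζ hex) (h98_hw2mul M q hqM A hA ζ hζ hex) (h98_hw2add M q hqM A hA ζ hζ hex)).InLoc 𝔪 (ξ c) ∧ ξ c ^ m = 1) ∧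
        y ≠ 0 ∧ (h80_fam2 (M * q * q) (A.inertiaSubgroupIn ℚ) (h98_w2 M q hqM A ζ hζ hex) (h98_hw2mul M q hqM A hA ζ hζ hex) (h98_hw2add M q hqM A hA ζ hζ hex)).InLoc 𝔪 y ∧ (h80_fam2 (M * q * q) (A.inertiaSubgroupIn ℚ) (h98_w2 M q hqM A ζ hζ hex) (h98_hw2mul M q hqM A hA ζ hζ hex) (h98_hw2add M q hqM A hA ζ hζ hex)).InLoc 𝔪 y⁻¹ ∧
        ∀ c, (h80_fam2 (M * q * q) (A.inertiaSubgroupIn ℚ) (h98_w2 M q hqM A ζ hζ hex) (h98_hw2mul M q hqM A hA ζ hζ hex) (h98_hw2add M q hqM A hA ζ hζ hex)).Through 𝔪 c → 0 < (h80_fam2 (M * q * q) (A.inertiaSubgroupIn ℚ) (h98_w2 M q hqM A ζ hζ hex) (h98_hw2mul M q hqM A hA ζ hζ hex) (h98_hw2add M q hqM A hA ζ hζ hex)).v c ((q : ℕ) : h69_F0 (M * q * q) (A.inertiaSubgroupIn ℚ)) →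
          (e = ξ c * y ∨ (h80_fam2 (M * q * q) (A.inertiaSubgroupIn ℚ) (h98_w2 M q hqM A ζ hζ hex) (h98_hw2mul M q hqM A hA ζ hζ hex) (h98_hw2add M q hqM A hA ζ hζ hex)).v c ((q : ℕ) : h69_F0 (M * q * q) (A.inertiaSubgroupIn ℚ)) ≤ (h80_fam2 (M * q * q) (A.inertiaSubgroupIn ℚ) (h98_w2 M q hqM A ζ hζ hex) (h98_hw2mul M q hqM A hA ζ hζ hex) (h98_hw2add M q hqM A hA ζ hζ hex)).v c (e - ξ c * y))) :
    ∃ (Ez : Divisor.degZero (K := Qb) (F := modularFunctionFieldBar (M * q * q))) (uz : h69_F0 (M * q * q) (A.inertiaSubgroupIn ℚ)),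
      Pic0.mk Ez = ((q ^ 2 - 1) ^ 2) • x ∧
      (∀ σ ∈ A.inertiaSubgroupIn ℚ,
        arithmeticGalois (modularFunctionFieldFull (M * q * q)) σ • (Ez : Divisor Qb (modularFunctionFieldBar (M * q * q))) = Ez) ∧
      uz ≠ 0 ∧
      (∀ v : Place Qb (modularFunctionFieldBar (M * q * q)), (m : ℤ) * (Ez : Divisor Qb (modularFunctionFieldBar (M * q * q))) v = v.ord (uz : modularFunctionFieldBar (M * q * q))) ∧
      (uz - 1 = 0 ∨ ∀ c, ((![1, q - 1, 1] : Fin 3 → ℕ) c : ℤ) ≤ (h98_w2 M q hqM A ζ hζ hex) c (uz - 1)) ∧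
      (∀ 𝔪 : Ideal (h80_fam1 (M * q * q) (A.inertiaSubgroupIn ℚ) (h98_w2 M q hqM A ζ hζ hex) (h98_hw2mul M q hqM A hA ζ hζ hex) (h98_hw2add M q hqM A hA ζ hζ hex)).B, 𝔪.IsMaximal → fib1 𝔪 →
        ∃ e y : h69_F0 (M * q * q) (A.inertiaSubgroupIn ℚ), e ≠ 0 ∧ y ≠ 0 ∧
            (h80_fam1 (M * q * q) (A.inertiaSubgroupIn ℚ) (h98_w2 M q hqM A ζ hζ hex) (h98_hw2mul M q hqM A hA ζ hζ hex) (h98_hw2add M q hqM A hA ζ hζ hex)).InLoc 𝔪 y ∧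
            (h80_fam1 (M * q * q) (A.inertiaSubgroupIn ℚ) (h98_w2 M q hqM A ζ hζ hex) (h98_hw2mul M q hqM A hA ζ hζ hex) (h98_hw2add M q hqM A hA ζ hζ hex)).InLoc 𝔪 y⁻¹ ∧
            (∀ i, i ∉ Set.range Sum.inl →
              (h80_fam1 (M * q * q) (A.inertiaSubgroupIn ℚ) (h98_w2 M q hqM A ζ hζ hex) (h98_hw2mul M q hqM A hA ζ hζ hex) (h98_hw2add M q hqM A hA ζ hζ hex)).Through 𝔪 i →
              ∀ P : Place Qb (modularFunctionFieldBar (M * q * q)),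
                (∀ f : h69_F0 (M * q * q) (A.inertiaSubgroupIn ℚ), f ≠ 0 →
                  (h80_fam1 (M * q * q) (A.inertiaSubgroupIn ℚ) (h98_w2 M q hqM A ζ hζ hex) (h98_hw2mul M q hqM A hA ζ hζ hex) (h98_hw2add M q hqM A hA ζ hζ hex)).v i f =
                    P.ord (f : modularFunctionFieldBar (M * q * q))) →
                (h80_fam1 (M * q * q) (A.inertiaSubgroupIn ℚ) (h98_w2 M q hqM A ζ hζ hex) (h98_hw2mul M q hqM A hA ζ hζ hex) (h98_hw2add M q hqM A hA ζ hζ hex)).v i e =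
                  (Ez : Divisor Qb (modularFunctionFieldBar (M * q * q))) P) ∧
            ∀ c : Fin 3, (h80_fam1 (M * q * q) (A.inertiaSubgroupIn ℚ) (h98_w2 M q hqM A ζ hζ hex) (h98_hw2mul M q hqM A hA ζ hζ hex) (h98_hw2add M q hqM A hA ζ hζ hex)).Through 𝔪 (Sum.inl c) →
              (e = y ∨ ((![1, q - 1, 1] : Fin 3 → ℕ) c : ℤ) ≤ (h98_w2 M q hqM A ζ hζ hex) c (e - y))) ∧
      (∀ 𝔪 : Ideal (h80_fam2 (M * q * q) (A.inertiaSubgroupIn ℚ) (h98_w2 M q hqM A ζ hζ hex) (h98_hw2mul M q hqM A hA ζ hζ hex) (h98_hw2add M q hqM A hA ζ hζ hex)).B, 𝔪.IsMaximal → cusp2 𝔪 →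
        ∃ e y : h69_F0 (M * q * q) (A.inertiaSubgroupIn ℚ), e ≠ 0 ∧ y ≠ 0 ∧
            (h80_fam2 (M * q * q) (A.inertiaSubgroupIn ℚ) (h98_w2 M q hqM A ζ hζ hex) (h98_hw2mul M q hqM A hA ζ hζ hex) (h98_hw2add M q hqM A hA ζ hζ hex)).InLoc 𝔪 y ∧
            (h80_fam2 (M * q * q) (A.inertiaSubgroupIn ℚ) (h98_w2 M q hqM A ζ hζ hex) (h98_hw2mul M q hqM A hA ζ hζ hex) (h98_hw2add M q hqM A hA ζ hζ hex)).InLoc 𝔪 y⁻¹ ∧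
            (∀ i, i ∉ Set.range Sum.inl →
              (h80_fam2 (M * q * q) (A.inertiaSubgroupIn ℚ) (h98_w2 M q hqM A ζ hζ hex) (h98_hw2mul M q hqM A hA ζ hζ hex) (h98_hw2add M q hqM A hA ζ hζ hex)).Through 𝔪 i →
              ∀ P : Place Qb (modularFunctionFieldBar (M * q * q)),
                (∀ f : h69_F0 (M * q * q) (A.inertiaSubgroupIn ℚ), f ≠ 0 →
                  (h80_fam2 (M * q * q) (A.inertiaSubgroupIn ℚ) (h98_w2 M q hqM A ζ hζ hex) (h98_hw2mul M q hqM A hA ζ hζ hex) (h98_hw2add M q hqM A hA ζ hζ hex)).v i f =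
                    P.ord (f : modularFunctionFieldBar (M * q * q))) →
                (h80_fam2 (M * q * q) (A.inertiaSubgroupIn ℚ) (h98_w2 M q hqM A ζ hζ hex) (h98_hw2mul M q hqM A hA ζ hζ hex) (h98_hw2add M q hqM A hA ζ hζ hex)).v i e =
                  (Ez : Divisor Qb (modularFunctionFieldBar (M * q * q))) P) ∧
            ∀ c : Fin 3, (h80_fam2 (M * q * q) (A.inertiaSubgroupIn ℚ) (h98_w2 M q hqM A ζ hζ hex) (h98_hw2mul M q hqM A hA ζ hζ hex) (h98_hw2add M q hqM A hA ζ hζ hex)).Through 𝔪 (Sum.inl c) →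
              (e = y ∨ ((![1, q - 1, 1] : Fin 3 → ℕ) c : ℤ) ≤ (h98_w2 M q hqM A ζ hζ hex) c (e - y))) := by
  classical
  have hq : q.Prime := Fact.out
  have hqm' : ¬ q ∣ m := (Nat.Prime.coprime_iff_not_dvd hq).1 hqm
  have hm0 : m ≠ 0 := hm.ne'
  have ha : ∀ k : Fin 3, 1 ≤ (![1, q - 1, 1] : Fin 3 → ℕ) k := by
    intro k
    have := hq.two_le
    fin_cases k
    · simp
    · show 1 ≤ q - 1
      omega
    · simp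
  have hqQ : ((q : ℕ) : Qb) ≠ 0 := Nat.cast_ne_zero.mpr hq.ne_zero
  have hq0 : ((((q : ℕ) : h69_F0 (M * q * q) (A.inertiaSubgroupIn ℚ)) : h69_F0 (M * q * q) (A.inertiaSubgroupIn ℚ)) : modularFunctionFieldBar (M * q * q)) = algebraMap Qb (modularFunctionFieldBar (M * q * q)) ((q : ℕ) : Qb) := by
    rw [map_natCast]
    rfl
  have hπ0 : ((q : ℕ) : h69_K0 (A.inertiaSubgroupIn ℚ)) ≠ 0 := by
    intro h0
    exact hqQ (by simpa using congrArg (algebraMap (h69_K0 (A.inertiaSubgroupIn ℚ)) Qb) h0)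
  have hconst1 : ∀ c : h69_K0 (A.inertiaSubgroupIn ℚ), c ≠ 0 → (h98_w2 M q hqM A ζ hζ hex) 0 (algebraMap (h69_K0 (A.inertiaSubgroupIn ℚ)) (h69_F0 (M * q * q) (A.inertiaSubgroupIn ℚ)) c) = 0 →
      ∀ i, (h80_fam1 (M * q * q) (A.inertiaSubgroupIn ℚ) (h98_w2 M q hqM A ζ hζ hex) (h98_hw2mul M q hqM A hA ζ hζ hex) (h98_hw2add M q hqM A hA ζ hζ hex)).v i (algebraMap (h69_K0 (A.inertiaSubgroupIn ℚ)) (h69_F0 (M * q * q) (A.inertiaSubgroupIn ℚ)) c) = 0 :=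
    h69_hconst_placeFam M q hqM A hA ζ hζ hex (h80_chartSet Qb (h59_jbar (M * q * q)))
      (h98_hw2mul M q hqM A hA ζ hζ hex) (h98_hw2add M q hqM A hA ζ hζ hex)
      (fun f hf => (h75_finite_ord_ne (h54_isChart_jbar (M * q * q)) f hf).subset
        fun _ hP => hP.2)
  obtain ⟨E4, u4, hcls4, hinv4, hnew4, hu40, hord4, hu4⟩ :=
    h98_torM_closed M q hqM A hA ζ hζ m hm hqm x hx hnew hmx
  obtain ⟨Ez, uz, hcls, hinv, huz0, hordz, hcong, hc1, hc2⟩ :=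
    h94_hwit_abs (M * q) q (A.inertiaSubgroupIn ℚ) (h98_w2 M q hqM A ζ hζ hex) (h98_hw2mul M q hqM A hA ζ hζ hex)
      (h98_hw2add M q hqM A hA ζ hζ hex) (![1, q - 1, 1] : Fin 3 → ℕ) ha ((q : ℕ) : h69_F0 (M * q * q) (A.inertiaSubgroupIn ℚ)) ((q : ℕ) : Qb) hqQ hq0
      (h94_w2_q M q hqM A hA ζ hζ hex) (h94_w2_hCRT M q hqM A hA ζ hζ hex)
      fib1 hfib1 cusp2 hclass1 hone2
      hconst1
      (m := m) (h69_hn M q A m hm0) (h69_hnv M q hqM A hA ζ hζ hex m hqm' 0)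
      (h69_hroots (M * q * q) (A.inertiaSubgroupIn ℚ) m hm0) (h69_hprim q A hA m hm0 hqm')
      (h69_hroot M q hqM A hA ζ hζ hex m hm0) (h69_hw02 M q hqM A hA ζ hζ hex)
      ((q : ℕ) : h69_K0 (A.inertiaSubgroupIn ℚ)) hπ0 (h69_hpi M q hqM A hA ζ hζ hex)
      (h94_w2_hMres M q hqM A hA ζ hζ hex m hm0) (h94_w2_hNU M q hqM A hA ζ hζ hex)
      E4 hinv4 hnew4 u4 hu40 hord4 hu4 hU1 hU2 hLG1 hLG2
  refine ⟨Ez, uz, ?_, hinv, huz0, hordz, hcong, hc1, hc2⟩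
  rw [hcls, hcls4, smul_smul, ← pow_two]

end Fermat.Agent.S36
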