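import Mathlib
import Fermat.Agent.S36.h94_NZWit
import Fermat.Agent.S36.h61_Plug
import Fermat.Agent.S36.h17_LatMod
import Fermat.Agent.S36.h99_Comp3Closed
import Fermat.Agent.S36.h29_S36Charted

/-!
# S36 / the charted geometric input from the point rows (helper94)

* `h94_Rows M q hqM A hA ζ hζ hex` : the conjunction of the rows that are still hypotheses at
  level `M q²` (`V1 = h80_fam1`, `V2 = h80_fam2` for `w = h98_w2`, `q0 = q`):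
  I-PTS (`hclass1`, `hU1`, `hLG1` = the three conclusions of `h62_pts_mod`), I-CUSP (a predicate
  `cusp2` containing the points of chart 2 with `q ∈ 𝔪`, `1/j ∈ 𝔪`, and `hone2`, `hU2`, `hLG2`
  there), and the chart-2 transfer `hxfer` (= `h89_hwit_chart2`).
* `h94_geomN_of_rows` : `h94_Rows` implies the body of (GEOM-N) at the charted level `M q²`,
  with `c = (q² - 1)²`:  I-LAT (`h17_LatMod`), COMP3-M (`h99_hC3_closed_98`), TOR-M, the K row,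
  CRT, the norm residue table, (NU) and the Kummer twist are all discharged
  (`h61_geomN_of_data` applied to `h94_hwit_final`).
* `h94_hch_of_rows` : the hypothesis `hch` of `h29_S36_of_charted` from `h94_Rows` at every
  charted level.
-/

set_option autoImplicit false
set_option linter.unusedSectionVars false
set_option linter.unusedVariables false
set_option linter.style.haveILetI false
set_option maxHeartbeats 1600000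

noncomputable section

open ModularCurve AlgebraicCurve

namespace Fermat.Agent.S36

open Fermat.Agent.S34 Fermat.Agent.S37 Fermat.Agent.S24 Fermat.Agent.S35 Fermat.Agent.S18
  Fermat.Agent.GAL Fermat.Agent.S40

local notation "Qb" => AlgebraicClosure ℚ


/-- The rows that are still hypotheses at level `M q²` (see the file header). -/
def h94_Rows (M q : ℕ) [NeZero M] [NeZero q] [Fact q.Prime] (hqM : ¬ q ∣ M)
    (A : ValuationSubring Qb) (hA : A.LiesOverPrime q) (ζ : Qb) (hζ : IsPrimitiveRoot ζ q)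
    (hex : h98_Ex M q hqM A ζ hζ) : Prop :=
  (∀ 𝔪 : Ideal (h80_fam1 (M * q * q) (A.inertiaSubgroupIn ℚ) (h98_w2 M q hqM A ζ hζ hex) (h98_hw2mul M q hqM A hA ζ hζ hex) (h98_hw2add M q hqM A hA ζ hζ hex)).B, 𝔪.IsMaximal →
      (∀ k : Fin 3, (h80_fam1 (M * q * q) (A.inertiaSubgroupIn ℚ) (h98_w2 M q hqM A ζ hζ hex) (h98_hw2mul M q hqM A hA ζ hζ hex) (h98_hw2add M q hqM A hA ζ hζ hex)).Through 𝔪 (Sum.inl k)) ∨
        ∃ k0 : Fin 3, ∀ k : Fin 3, (h80_fam1 (M * q * q) (A.inertiaSubgroupIn ℚ) (h98_w2 M q hqM A ζ hζ hex) (h98_hw2mul M q hqM A hA ζ hζ hex) (h98_hw2add M q hqM A hA ζ hζ hex)).Through 𝔪 (Sum.inl k) → k = k0) ∧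
  (∀ 𝔪 : Ideal (h80_fam1 (M * q * q) (A.inertiaSubgroupIn ℚ) (h98_w2 M q hqM A ζ hζ hex) (h98_hw2mul M q hqM A hA ζ hζ hex) (h98_hw2add M q hqM A hA ζ hζ hex)).B, 𝔪.IsMaximal → (∃ k : Fin 3, (h80_fam1 (M * q * q) (A.inertiaSubgroupIn ℚ) (h98_w2 M q hqM A ζ hζ hex) (h98_hw2mul M q hqM A hA ζ hζ hex) (h98_hw2add M q hqM A hA ζ hζ hex)).Through 𝔪 (Sum.inl k)) → ∀ i, (h80_fam1 (M * q * q) (A.inertiaSubgroupIn ℚ) (h98_w2 M q hqM A ζ hζ hex) (h98_hw2mul M q hqM A hA ζ hζ hex) (h98_hw2add M q hqM A hA ζ hζ hex)).Through 𝔪 i →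
      ∃ e : h69_F0 (M * q * q) (A.inertiaSubgroupIn ℚ), e ≠ 0 ∧ (h80_fam1 (M * q * q) (A.inertiaSubgroupIn ℚ) (h98_w2 M q hqM A ζ hζ hex) (h98_hw2mul M q hqM A hA ζ hζ hex) (h98_hw2add M q hqM A hA ζ hζ hex)).v i e = 1 ∧ ∀ j, (h80_fam1 (M * q * q) (A.inertiaSubgroupIn ℚ) (h98_w2 M q hqM A ζ hζ hex) (h98_hw2mul M q hqM A hA ζ hζ hex) (h98_hw2add M q hqM A hA ζ hζ hex)).Through 𝔪 j → j ≠ i → (h80_fam1 (M * q * q) (A.inertiaSubgroupIn ℚ) (h98_w2 M q hqM A ζ hζ hex) (h98_hw2mul M q hqM A hA ζ hζ hex) (h98_hw2add M q hqM A hA ζ hζ hex)).v j e = 0) ∧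
  (∀ m : ℕ, 0 < m → Nat.Coprime q m → ∀ 𝔪 : Ideal (h80_fam1 (M * q * q) (A.inertiaSubgroupIn ℚ) (h98_w2 M q hqM A ζ hζ hex) (h98_hw2mul M q hqM A hA ζ hζ hex) (h98_hw2add M q hqM A hA ζ hζ hex)).B, 𝔪.IsMaximal → (∃ k : Fin 3, (h80_fam1 (M * q * q) (A.inertiaSubgroupIn ℚ) (h98_w2 M q hqM A ζ hζ hex) (h98_hw2mul M q hqM A hA ζ hζ hex) (h98_hw2add M q hqM A hA ζ hζ hex)).Through 𝔪 (Sum.inl k)) → ∀ e ω : h69_F0 (M * q * q) (A.inertiaSubgroupIn ℚ),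
      (∀ c, (h80_fam1 (M * q * q) (A.inertiaSubgroupIn ℚ) (h98_w2 M q hqM A ζ hζ hex) (h98_hw2mul M q hqM A hA ζ hζ hex) (h98_hw2add M q hqM A hA ζ hζ hex)).Through 𝔪 c → 0 < (h80_fam1 (M * q * q) (A.inertiaSubgroupIn ℚ) (h98_w2 M q hqM A ζ hζ hex) (h98_hw2mul M q hqM A hA ζ hζ hex) (h98_hw2add M q hqM A hA ζ hζ hex)).v c ((q : ℕ) : h69_F0 (M * q * q) (A.inertiaSubgroupIn ℚ)) → 0 ≤ (h80_fam1 (M * q * q) (A.inertiaSubgroupIn ℚ) (h98_w2 M q hqM A ζ hζ hex) (h98_hw2mul M q hqM A hA ζ hζ hex) (h98_hw2add M q hqM A hA ζ hζ hex)).v c e) →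
      ω ≠ 0 → (h80_fam1 (M * q * q) (A.inertiaSubgroupIn ℚ) (h98_w2 M q hqM A ζ hζ hex) (h98_hw2mul M q hqM A hA ζ hζ hex) (h98_hw2add M q hqM A hA ζ hζ hex)).InLoc 𝔪 ω → (h80_fam1 (M * q * q) (A.inertiaSubgroupIn ℚ) (h98_w2 M q hqM A ζ hζ hex) (h98_hw2mul M q hqM A hA ζ hζ hex) (h98_hw2add M q hqM A hA ζ hζ hex)).InLoc 𝔪 ω⁻¹ →
      (∀ c, (h80_fam1 (M * q * q) (A.inertiaSubgroupIn ℚ) (h98_w2 M q hqM A ζ hζ hex) (h98_hw2mul M q hqM A hA ζ hζ hex) (h98_hw2add M q hqM A hA ζ hζ hex)).Through 𝔪 c → 0 < (h80_fam1 (M * q * q) (A.inertiaSubgroupIn ℚ) (h98_w2 M q hqM A ζ hζ hex) (h98_hw2mul M q hqM A hA ζ hζ hex) (h98_hw2add M q hqM A hA ζ hζ hex)).v c ((q : ℕ) : h69_F0 (M * q * q) (A.inertiaSubgroupIn ℚ)) →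
        (e ^ m * ω = 1 ∨ (h80_fam1 (M * q * q) (A.inertiaSubgroupIn ℚ) (h98_w2 M q hqM A ζ hζ hex) (h98_hw2mul M q hqM A hA ζ hζ hex) (h98_hw2add M q hqM A hA ζ hζ hex)).v c ((q : ℕ) : h69_F0 (M * q * q) (A.inertiaSubgroupIn ℚ)) ≤ (h80_fam1 (M * q * q) (A.inertiaSubgroupIn ℚ) (h98_w2 M q hqM A ζ hζ hex) (h98_hw2mul M q hqM A hA ζ hζ hex) (h98_hw2add M q hqM A hA ζ hζ hex)).v c (e ^ m * ω - 1))) →
      ∃ (ξ : _ → h69_F0 (M * q * q) (A.inertiaSubgroupIn ℚ)) (y : h69_F0 (M * q * q) (A.inertiaSubgroupIn ℚ)),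
        (∀ c, (h80_fam1 (M * q * q) (A.inertiaSubgroupIn ℚ) (h98_w2 M q hqM A ζ hζ hex) (h98_hw2mul M q hqM A hA ζ hζ hex) (h98_hw2add M q hqM A hA ζ hζ hex)).Through 𝔪 c → 0 < (h80_fam1 (M * q * q) (A.inertiaSubgroupIn ℚ) (h98_w2 M q hqM A ζ hζ hex) (h98_hw2mul M q hqM A hA ζ hζ hex) (h98_hw2add M q hqM A hA ζ hζ hex)).v c ((q : ℕ) : h69_F0 (M * q * q) (A.inertiaSubgroupIn ℚ)) → (h80_fam1 (M * q * q) (A.inertiaSubgroupIn ℚ) (h98_w2 M q hqM A ζ hζ hex) (h98_hw2mul M q hqM A hA ζ hζ hex) (h98_hw2add M q hqM A hA ζ hζ hex)).InLoc 𝔪 (ξ c) ∧ ξ c ^ m = 1) ∧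
        y ≠ 0 ∧ (h80_fam1 (M * q * q) (A.inertiaSubgroupIn ℚ) (h98_w2 M q hqM A ζ hζ hex) (h98_hw2mul M q hqM A hA ζ hζ hex) (h98_hw2add M q hqM A hA ζ hζ hex)).InLoc 𝔪 y ∧ (h80_fam1 (M * q * q) (A.inertiaSubgroupIn ℚ) (h98_w2 M q hqM A ζ hζ hex) (h98_hw2mul M q hqM A hA ζ hζ hex) (h98_hw2add M q hqM A hA ζ hζ hex)).InLoc 𝔪 y⁻¹ ∧
        ∀ c, (h80_fam1 (M * q * q) (A.inertiaSubgroupIn ℚ) (h98_w2 M q hqM A ζ hζ hex) (h98_hw2mul M q hqM A hA ζ hζ hex) (h98_hw2add M q hqM A hA ζ hζ hex)).Through 𝔪 c → 0 < (h80_fam1 (M * q * q) (A.inertiaSubgroupIn ℚ) (h98_w2 M q hqM A ζ hζ hex) (h98_hw2mul M q hqM A hA ζ hζ hex) (h98_hw2add M q hqM A hA ζ hζ hex)).v c ((q : ℕ) : h69_F0 (M * q * q) (A.inertiaSubgroupIn ℚ)) →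
          (e = ξ c * y ∨ (h80_fam1 (M * q * q) (A.inertiaSubgroupIn ℚ) (h98_w2 M q hqM A ζ hζ hex) (h98_hw2mul M q hqM A hA ζ hζ hex) (h98_hw2add M q hqM A hA ζ hζ hex)).v c ((q : ℕ) : h69_F0 (M * q * q) (A.inertiaSubgroupIn ℚ)) ≤ (h80_fam1 (M * q * q) (A.inertiaSubgroupIn ℚ) (h98_w2 M q hqM A ζ hζ hex) (h98_hw2mul M q hqM A hA ζ hζ hex) (h98_hw2add M q hqM A hA ζ hζ hex)).v c (e - ξ c * y))) ∧
  ∃ cusp2 : Ideal (h80_fam2 (M * q * q) (A.inertiaSubgroupIn ℚ) (h98_w2 M q hqM A ζ hζ hex) (h98_hw2mul M q hqM A hA ζ hζ hex) (h98_hw2add M q hqM A hA ζ hζ hex)).B → Prop,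
  (∀ 𝔪 : Ideal (h80_fam2 (M * q * q) (A.inertiaSubgroupIn ℚ) (h98_w2 M q hqM A ζ hζ hex) (h98_hw2mul M q hqM A hA ζ hζ hex) (h98_hw2add M q hqM A hA ζ hζ hex)).B, 𝔪.IsMaximal →
      (∃ hq0B : ((q : ℕ) : h69_F0 (M * q * q) (A.inertiaSubgroupIn ℚ)) ∈ (h80_fam2 (M * q * q) (A.inertiaSubgroupIn ℚ) (h98_w2 M q hqM A ζ hζ hex) (h98_hw2mul M q hqM A hA ζ hζ hex) (h98_hw2add M q hqM A hA ζ hζ hex)).B, (⟨((q : ℕ) : h69_F0 (M * q * q) (A.inertiaSubgroupIn ℚ)), hq0B⟩ : (h80_fam2 (M * q * q) (A.inertiaSubgroupIn ℚ) (h98_w2 M q hqM A ζ hζ hex) (h98_hw2mul M q hqM A hA ζ hζ hex) (h98_hw2add M q hqM A hA ζ hζ hex)).B) ∈ 𝔪) →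
      (∃ hTB : (⟨(h59_jbar (M * q * q))⁻¹, h80_jbar_inv_mem_F0 (M * q * q) (A.inertiaSubgroupIn ℚ)⟩ : h69_F0 (M * q * q) (A.inertiaSubgroupIn ℚ)) ∈ (h80_fam2 (M * q * q) (A.inertiaSubgroupIn ℚ) (h98_w2 M q hqM A ζ hζ hex) (h98_hw2mul M q hqM A hA ζ hζ hex) (h98_hw2add M q hqM A hA ζ hζ hex)).B, (⟨(⟨(h59_jbar (M * q * q))⁻¹, h80_jbar_inv_mem_F0 (M * q * q) (A.inertiaSubgroupIn ℚ)⟩ : h69_F0 (M * q * q) (A.inertiaSubgroupIn ℚ)), hTB⟩ : (h80_fam2 (M * q * q) (A.inertiaSubgroupIn ℚ) (h98_w2 M q hqM A ζ hζ hex) (h98_hw2mul M q hqM A hA ζ hζ hex) (h98_hw2add M q hqM A hA ζ hζ hex)).B) ∈ 𝔪) → cusp2 𝔪) ∧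
  (∀ 𝔪 : Ideal (h80_fam2 (M * q * q) (A.inertiaSubgroupIn ℚ) (h98_w2 M q hqM A ζ hζ hex) (h98_hw2mul M q hqM A hA ζ hζ hex) (h98_hw2add M q hqM A hA ζ hζ hex)).B, 𝔪.IsMaximal → cusp2 𝔪 →
      ∃ k0 : Fin 3, ∀ k : Fin 3, (h80_fam2 (M * q * q) (A.inertiaSubgroupIn ℚ) (h98_w2 M q hqM A ζ hζ hex) (h98_hw2mul M q hqM A hA ζ hζ hex) (h98_hw2add M q hqM A hA ζ hζ hex)).Through 𝔪 (Sum.inl k) → k = k0) ∧
  (∀ 𝔪 : Ideal (h80_fam2 (M * q * q) (A.inertiaSubgroupIn ℚ) (h98_w2 M q hqM A ζ hζ hex) (h98_hw2mul M q hqM A hA ζ hζ hex) (h98_hw2add M q hqM A hA ζ hζ hex)).B, 𝔪.IsMaximal → cusp2 𝔪 → ∀ i, (h80_fam2 (M * q * q) (A.inertiaSubgroupIn ℚ) (h98_w2 M q hqM A ζ hζ hex) (h98_hw2mul M q hqM A hA ζ hζ hex) (h98_hw2add M q hqM A hA ζ hζ hex)).Through 𝔪 i →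
      ∃ e : h69_F0 (M * q * q) (A.inertiaSubgroupIn ℚ), e ≠ 0 ∧ (h80_fam2 (M * q * q) (A.inertiaSubgroupIn ℚ) (h98_w2 M q hqM A ζ hζ hex) (h98_hw2mul M q hqM A hA ζ hζ hex) (h98_hw2add M q hqM A hA ζ hζ hex)).v i e = 1 ∧ ∀ j, (h80_fam2 (M * q * q) (A.inertiaSubgroupIn ℚ) (h98_w2 M q hqM A ζ hζ hex) (h98_hw2mul M q hqM A hA ζ hζ hex) (h98_hw2add M q hqM A hA ζ hζ hex)).Through 𝔪 j → j ≠ i → (h80_fam2 (M * q * q) (A.inertiaSubgroupIn ℚ) (h98_w2 M q hqM A ζ hζ hex) (h98_hw2mul M q hqM A hA ζ hζ hex) (h98_hw2add M q hqM A hA ζ hζ hex)).v j e = 0) ∧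
  (∀ m : ℕ, 0 < m → Nat.Coprime q m → ∀ 𝔪 : Ideal (h80_fam2 (M * q * q) (A.inertiaSubgroupIn ℚ) (h98_w2 M q hqM A ζ hζ hex) (h98_hw2mul M q hqM A hA ζ hζ hex) (h98_hw2add M q hqM A hA ζ hζ hex)).B, 𝔪.IsMaximal → cusp2 𝔪 → ∀ e ω : h69_F0 (M * q * q) (A.inertiaSubgroupIn ℚ),
      (∀ c, (h80_fam2 (M * q * q) (A.inertiaSubgroupIn ℚ) (h98_w2 M q hqM A ζ hζ hex) (h98_hw2mul M q hqM A hA ζ hζ hex) (h98_hw2add M q hqM A hA ζ hζ hex)).Through 𝔪 c → 0 < (h80_fam2 (M * q * q) (A.inertiaSubgroupIn ℚ) (h98_w2 M q hqM A ζ hζ hex) (h98_hw2mul M q hqM A hA ζ hζ hex) (h98_hw2add M q hqM A hA ζ hζ hex)).v c ((q : ℕ) : h69_F0 (M * q * q) (A.inertiaSubgroupIn ℚ)) → 0 ≤ (h80_fam2 (M * q * q) (A.inertiaSubgroupIn ℚ) (h98_w2 M q hqM A ζ hζ hex) (h98_hw2mul M q hqM A hA ζ hζ hex) (h98_hw2add M q hqM A hA ζ hζ hex)).v c e) →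
      ω ≠ 0 → (h80_fam2 (M * q * q) (A.inertiaSubgroupIn ℚ) (h98_w2 M q hqM A ζ hζ hex) (h98_hw2mul M q hqM A hA ζ hζ hex) (h98_hw2add M q hqM A hA ζ hζ hex)).InLoc 𝔪 ω → (h80_fam2 (M * q * q) (A.inertiaSubgroupIn ℚ) (h98_w2 M q hqM A ζ hζ hex) (h98_hw2mul M q hqM A hA ζ hζ hex) (h98_hw2add M q hqM A hA ζ hζ hex)).InLoc 𝔪 ω⁻¹ →
      (∀ c, (h80_fam2 (M * q * q) (A.inertiaSubgroupIn ℚ) (h98_w2 M q hqM A ζ hζ hex) (h98_hw2mul M q hqM A hA ζ hζ hex) (h98_hw2add M q hqM A hA ζ hζ hex)).Through 𝔪 c → 0 < (h80_fam2 (M * q * q) (A.inertiaSubgroupIn ℚ) (h98_w2 M q hqM A ζ hζ hex) (h98_hw2mul M q hqM A hA ζ hζ hex) (h98_hw2add M q hqM A hA ζ hζ hex)).v c ((q : ℕ) : h69_F0 (M * q * q) (A.inertiaSubgroupIn ℚ)) →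
        (e ^ m * ω = 1 ∨ (h80_fam2 (M * q * q) (A.inertiaSubgroupIn ℚ) (h98_w2 M q hqM A ζ hζ hex) (h98_hw2mul M q hqM A hA ζ hζ hex) (h98_hw2add M q hqM A hA ζ hζ hex)).v c ((q : ℕ) : h69_F0 (M * q * q) (A.inertiaSubgroupIn ℚ)) ≤ (h80_fam2 (M * q * q) (A.inertiaSubgroupIn ℚ) (h98_w2 M q hqM A ζ hζ hex) (h98_hw2mul M q hqM A hA ζ hζ hex) (h98_hw2add M q hqM A hA ζ hζ hex)).v c (e ^ m * ω - 1))) →
      ∃ (ξ : _ → h69_F0 (M * q * q) (A.inertiaSubgroupIn ℚ)) (y : h69_F0 (M * q * q) (A.inertiaSubgroupIn ℚ)),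
        (∀ c, (h80_fam2 (M * q * q) (A.inertiaSubgroupIn ℚ) (h98_w2 M q hqM A ζ hζ hex) (h98_hw2mul M q hqM A hA ζ hζ hex) (h98_hw2add M q hqM A hA ζ hζ hex)).Through 𝔪 c → 0 < (h80_fam2 (M * q * q) (A.inertiaSubgroupIn ℚ) (h98_w2 M q hqM A ζ hζ hex) (h98_hw2mul M q hqM A hA ζ hζ hex) (h98_hw2add M q hqM A hA ζ hζ hex)).v c ((q : ℕ) : h69_F0 (M * q * q) (A.inertiaSubgroupIn ℚ)) → (h80_fam2 (M * q * q) (A.inertiaSubgroupIn ℚ) (h98_w2 M q hqM A ζ hζ hex) (h98_hw2mul M q hqM A hA ζ hζ hex) (h98_hw2add M q hqM A hA ζ hζ hex)).InLoc 𝔪 (ξ c) ∧ ξ c ^ m = 1) ∧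
        y ≠ 0 ∧ (h80_fam2 (M * q * q) (A.inertiaSubgroupIn ℚ) (h98_w2 M q hqM A ζ hζ hex) (h98_hw2mul M q hqM A hA ζ hζ hex) (h98_hw2add M q hqM A hA ζ hζ hex)).InLoc 𝔪 y ∧ (h80_fam2 (M * q * q) (A.inertiaSubgroupIn ℚ) (h98_w2 M q hqM A ζ hζ hex) (h98_hw2mul M q hqM A hA ζ hζ hex) (h98_hw2add M q hqM A hA ζ hζ hex)).InLoc 𝔪 y⁻¹ ∧
        ∀ c, (h80_fam2 (M * q * q) (A.inertiaSubgroupIn ℚ) (h98_w2 M q hqM A ζ hζ hex) (h98_hw2mul M q hqM A hA ζ hζ hex) (h98_hw2add M q hqM A hA ζ hζ hex)).Through 𝔪 c → 0 < (h80_fam2 (M * q * q) (A.inertiaSubgroupIn ℚ) (h98_w2 M q hqM A ζ hζ hex) (h98_hw2mul M q hqM A hA ζ hζ hex) (h98_hw2add M q hqM A hA ζ hζ hex)).v c ((q : ℕ) : h69_F0 (M * q * q) (A.inertiaSubgroupIn ℚ)) →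
          (e = ξ c * y ∨ (h80_fam2 (M * q * q) (A.inertiaSubgroupIn ℚ) (h98_w2 M q hqM A ζ hζ hex) (h98_hw2mul M q hqM A hA ζ hζ hex) (h98_hw2add M q hqM A hA ζ hζ hex)).v c ((q : ℕ) : h69_F0 (M * q * q) (A.inertiaSubgroupIn ℚ)) ≤ (h80_fam2 (M * q * q) (A.inertiaSubgroupIn ℚ) (h98_w2 M q hqM A ζ hζ hex) (h98_hw2mul M q hqM A hA ζ hζ hex) (h98_hw2add M q hqM A hA ζ hζ hex)).v c (e - ξ c * y))) ∧
  (∀ Ez : Divisor Qb (modularFunctionFieldBar (M * q * q)),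
      (∀ 𝔪 : Ideal (h80_fam1 (M * q * q) (A.inertiaSubgroupIn ℚ) (h98_w2 M q hqM A ζ hζ hex) (h98_hw2mul M q hqM A hA ζ hζ hex) (h98_hw2add M q hqM A hA ζ hζ hex)).B, 𝔪.IsMaximal →
        (∃ hq0B : ((q : ℕ) : h69_F0 (M * q * q) (A.inertiaSubgroupIn ℚ)) ∈ (h80_fam1 (M * q * q) (A.inertiaSubgroupIn ℚ) (h98_w2 M q hqM A ζ hζ hex) (h98_hw2mul M q hqM A hA ζ hζ hex) (h98_hw2add M q hqM A hA ζ hζ hex)).B, (⟨((q : ℕ) : h69_F0 (M * q * q) (A.inertiaSubgroupIn ℚ)), hq0B⟩ : (h80_fam1 (M * q * q) (A.inertiaSubgroupIn ℚ) (h98_w2 M q hqM A ζ hζ hex) (h98_hw2mul M q hqM A hA ζ hζ hex) (h98_hw2add M q hqM A hA ζ hζ hex)).B) ∈ 𝔪) →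
        ∃ e y : h69_F0 (M * q * q) (A.inertiaSubgroupIn ℚ), e ≠ 0 ∧ y ≠ 0 ∧
          (h80_fam1 (M * q * q) (A.inertiaSubgroupIn ℚ) (h98_w2 M q hqM A ζ hζ hex) (h98_hw2mul M q hqM A hA ζ hζ hex) (h98_hw2add M q hqM A hA ζ hζ hex)).InLoc 𝔪 y ∧
          (h80_fam1 (M * q * q) (A.inertiaSubgroupIn ℚ) (h98_w2 M q hqM A ζ hζ hex) (h98_hw2mul M q hqM A hA ζ hζ hex) (h98_hw2add M q hqM A hA ζ hζ hex)).InLoc 𝔪 y⁻¹ ∧
          (∀ i, i ∉ Set.range Sum.inl →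
            (h80_fam1 (M * q * q) (A.inertiaSubgroupIn ℚ) (h98_w2 M q hqM A ζ hζ hex) (h98_hw2mul M q hqM A hA ζ hζ hex) (h98_hw2add M q hqM A hA ζ hζ hex)).Through 𝔪 i →
            ∀ P : Place Qb (modularFunctionFieldBar (M * q * q)),
              (∀ f : h69_F0 (M * q * q) (A.inertiaSubgroupIn ℚ), f ≠ 0 →
                (h80_fam1 (M * q * q) (A.inertiaSubgroupIn ℚ) (h98_w2 M q hqM A ζ hζ hex) (h98_hw2mul M q hqM A hA ζ hζ hex) (h98_hw2add M q hqM A hA ζ hζ hex)).v i f =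
                  P.ord (f : modularFunctionFieldBar (M * q * q))) →
              (h80_fam1 (M * q * q) (A.inertiaSubgroupIn ℚ) (h98_w2 M q hqM A ζ hζ hex) (h98_hw2mul M q hqM A hA ζ hζ hex) (h98_hw2add M q hqM A hA ζ hζ hex)).v i e =
                (Ez : Divisor Qb (modularFunctionFieldBar (M * q * q))) P) ∧
          ∀ c : Fin 3, (h80_fam1 (M * q * q) (A.inertiaSubgroupIn ℚ) (h98_w2 M q hqM A ζ hζ hex) (h98_hw2mul M q hqM A hA ζ hζ hex) (h98_hw2add M q hqM A hA ζ hζ hex)).Through 𝔪 (Sum.inl c) →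
            (e = y ∨ ((![1, q - 1, 1] : Fin 3 → ℕ) c : ℤ) ≤ (h98_w2 M q hqM A ζ hζ hex) c (e - y))) →
      (∀ 𝔪 : Ideal (h80_fam2 (M * q * q) (A.inertiaSubgroupIn ℚ) (h98_w2 M q hqM A ζ hζ hex) (h98_hw2mul M q hqM A hA ζ hζ hex) (h98_hw2add M q hqM A hA ζ hζ hex)).B, 𝔪.IsMaximal →
        (∃ hq0B : ((q : ℕ) : h69_F0 (M * q * q) (A.inertiaSubgroupIn ℚ)) ∈ (h80_fam2 (M * q * q) (A.inertiaSubgroupIn ℚ) (h98_w2 M q hqM A ζ hζ hex) (h98_hw2mul M q hqM A hA ζ hζ hex) (h98_hw2add M q hqM A hA ζ hζ hex)).B, (⟨((q : ℕ) : h69_F0 (M * q * q) (A.inertiaSubgroupIn ℚ)), hq0B⟩ : (h80_fam2 (M * q * q) (A.inertiaSubgroupIn ℚ) (h98_w2 M q hqM A ζ hζ hex) (h98_hw2mul M q hqM A hA ζ hζ hex) (h98_hw2add M q hqM A hA ζ hζ hex)).B) ∈ 𝔪) →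
        (∃ hTB : (⟨(h59_jbar (M * q * q))⁻¹, h80_jbar_inv_mem_F0 (M * q * q) (A.inertiaSubgroupIn ℚ)⟩ : h69_F0 (M * q * q) (A.inertiaSubgroupIn ℚ)) ∈ (h80_fam2 (M * q * q) (A.inertiaSubgroupIn ℚ) (h98_w2 M q hqM A ζ hζ hex) (h98_hw2mul M q hqM A hA ζ hζ hex) (h98_hw2add M q hqM A hA ζ hζ hex)).B, (⟨(⟨(h59_jbar (M * q * q))⁻¹, h80_jbar_inv_mem_F0 (M * q * q) (A.inertiaSubgroupIn ℚ)⟩ : h69_F0 (M * q * q) (A.inertiaSubgroupIn ℚ)), hTB⟩ : (h80_fam2 (M * q * q) (A.inertiaSubgroupIn ℚ) (h98_w2 M q hqM A ζ hζ hex) (h98_hw2mul M q hqM A hA ζ hζ hex) (h98_hw2add M q hqM A hA ζ hζ hex)).B) ∈ 𝔪) →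
        ∃ e y : h69_F0 (M * q * q) (A.inertiaSubgroupIn ℚ), e ≠ 0 ∧ y ≠ 0 ∧
          (h80_fam2 (M * q * q) (A.inertiaSubgroupIn ℚ) (h98_w2 M q hqM A ζ hζ hex) (h98_hw2mul M q hqM A hA ζ hζ hex) (h98_hw2add M q hqM A hA ζ hζ hex)).InLoc 𝔪 y ∧
          (h80_fam2 (M * q * q) (A.inertiaSubgroupIn ℚ) (h98_w2 M q hqM A ζ hζ hex) (h98_hw2mul M q hqM A hA ζ hζ hex) (h98_hw2add M q hqM A hA ζ hζ hex)).InLoc 𝔪 y⁻¹ ∧
          (∀ i, i ∉ Set.range Sum.inl →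
            (h80_fam2 (M * q * q) (A.inertiaSubgroupIn ℚ) (h98_w2 M q hqM A ζ hζ hex) (h98_hw2mul M q hqM A hA ζ hζ hex) (h98_hw2add M q hqM A hA ζ hζ hex)).Through 𝔪 i →
            ∀ P : Place Qb (modularFunctionFieldBar (M * q * q)),
              (∀ f : h69_F0 (M * q * q) (A.inertiaSubgroupIn ℚ), f ≠ 0 →
                (h80_fam2 (M * q * q) (A.inertiaSubgroupIn ℚ) (h98_w2 M q hqM A ζ hζ hex) (h98_hw2mul M q hqM A hA ζ hζ hex) (h98_hw2add M q hqM A hA ζ hζ hex)).v i f =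
                  P.ord (f : modularFunctionFieldBar (M * q * q))) →
              (h80_fam2 (M * q * q) (A.inertiaSubgroupIn ℚ) (h98_w2 M q hqM A ζ hζ hex) (h98_hw2mul M q hqM A hA ζ hζ hex) (h98_hw2add M q hqM A hA ζ hζ hex)).v i e =
                (Ez : Divisor Qb (modularFunctionFieldBar (M * q * q))) P) ∧
          ∀ c : Fin 3, (h80_fam2 (M * q * q) (A.inertiaSubgroupIn ℚ) (h98_w2 M q hqM A ζ hζ hex) (h98_hw2mul M q hqM A hA ζ hζ hex) (h98_hw2add M q hqM A hA ζ hζ hex)).Through 𝔪 (Sum.inl c) →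
            (e = y ∨ ((![1, q - 1, 1] : Fin 3 → ℕ) c : ℤ) ≤ (h98_w2 M q hqM A ζ hζ hex) c (e - y))) →
      ∀ 𝔪 : Ideal (h80_fam2 (M * q * q) (A.inertiaSubgroupIn ℚ) (h98_w2 M q hqM A ζ hζ hex) (h98_hw2mul M q hqM A hA ζ hζ hex) (h98_hw2add M q hqM A hA ζ hζ hex)).B, 𝔪.IsMaximal →
        (∃ hq0B : ((q : ℕ) : h69_F0 (M * q * q) (A.inertiaSubgroupIn ℚ)) ∈ (h80_fam2 (M * q * q) (A.inertiaSubgroupIn ℚ) (h98_w2 M q hqM A ζ hζ hex) (h98_hw2mul M q hqM A hA ζ hζ hex) (h98_hw2add M q hqM A hA ζ hζ hex)).B, (⟨((q : ℕ) : h69_F0 (M * q * q) (A.inertiaSubgroupIn ℚ)), hq0B⟩ : (h80_fam2 (M * q * q) (A.inertiaSubgroupIn ℚ) (h98_w2 M q hqM A ζ hζ hex) (h98_hw2mul M q hqM A hA ζ hζ hex) (h98_hw2add M q hqM A hA ζ hζ hex)).B) ∈ 𝔪) →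
        ∃ e y : h69_F0 (M * q * q) (A.inertiaSubgroupIn ℚ), e ≠ 0 ∧ y ≠ 0 ∧
          (h80_fam2 (M * q * q) (A.inertiaSubgroupIn ℚ) (h98_w2 M q hqM A ζ hζ hex) (h98_hw2mul M q hqM A hA ζ hζ hex) (h98_hw2add M q hqM A hA ζ hζ hex)).InLoc 𝔪 y ∧
          (h80_fam2 (M * q * q) (A.inertiaSubgroupIn ℚ) (h98_w2 M q hqM A ζ hζ hex) (h98_hw2mul M q hqM A hA ζ hζ hex) (h98_hw2add M q hqM A hA ζ hζ hex)).InLoc 𝔪 y⁻¹ ∧
          (∀ i, i ∉ Set.range Sum.inl →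
            (h80_fam2 (M * q * q) (A.inertiaSubgroupIn ℚ) (h98_w2 M q hqM A ζ hζ hex) (h98_hw2mul M q hqM A hA ζ hζ hex) (h98_hw2add M q hqM A hA ζ hζ hex)).Through 𝔪 i →
            ∀ P : Place Qb (modularFunctionFieldBar (M * q * q)),
              (∀ f : h69_F0 (M * q * q) (A.inertiaSubgroupIn ℚ), f ≠ 0 →
                (h80_fam2 (M * q * q) (A.inertiaSubgroupIn ℚ) (h98_w2 M q hqM A ζ hζ hex) (h98_hw2mul M q hqM A hA ζ hζ hex) (h98_hw2add M q hqM A hA ζ hζ hex)).v i f =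
                  P.ord (f : modularFunctionFieldBar (M * q * q))) →
              (h80_fam2 (M * q * q) (A.inertiaSubgroupIn ℚ) (h98_w2 M q hqM A ζ hζ hex) (h98_hw2mul M q hqM A hA ζ hζ hex) (h98_hw2add M q hqM A hA ζ hζ hex)).v i e =
                (Ez : Divisor Qb (modularFunctionFieldBar (M * q * q))) P) ∧
          ∀ c : Fin 3, (h80_fam2 (M * q * q) (A.inertiaSubgroupIn ℚ) (h98_w2 M q hqM A ζ hζ hex) (h98_hw2mul M q hqM A hA ζ hζ hex) (h98_hw2add M q hqM A hA ζ hζ hex)).Through 𝔪 (Sum.inl c) →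
            (e = y ∨ ((![1, q - 1, 1] : Fin 3 → ℕ) c : ℤ) ≤ (h98_w2 M q hqM A ζ hζ hex) c (e - y)))

/-- **(GEOM-N) at the charted level `M q²` from the rows.** -/
theorem h94_geomN_of_rows (M q : ℕ) [NeZero M] [NeZero q] [Fact q.Prime] (hqM : ¬ q ∣ M)
    (A : ValuationSubring Qb) (hA : A.LiesOverPrime q) (ζ : Qb) (hζ : IsPrimitiveRoot ζ q)
    (hex : h98_Ex M q hqM A ζ hζ) (lam : ℕ) (hlamp : lam.Prime) (hlq : lam ≠ q)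
    (hrows : h94_Rows M q hqM A hA ζ hζ hex) :
    ∀ (n : ℕ) (z : JZero (M * q * q)), lam ^ n • z = 0 → h67_Jnew (M * q) q z →
      (∀ s ∈ A.inertiaSubgroupIn ℚ, s • z = z) → ((q ^ 2 - 1) ^ 2) • z = 0 := by
  obtain ⟨hclass1, hU1, hLG1, cusp2, hcusp2, hone2, hU2, hLG2, hxfer⟩ := hrows
  have hq : q.Prime := Fact.out
  have hcop : ∀ n : ℕ, Nat.Coprime q (lam ^ n) := fun n =>
    Nat.Coprime.pow_right n ((Nat.coprime_primes hq hlamp).2 (Ne.symm hlq))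
  have ha : ∀ c : Fin 3, 1 ≤ (![1, q - 1, 1] : Fin 3 → ℕ) c := by
    intro c
    have := hq.two_le
    fin_cases c
    · simp
    · show 1 ≤ q - 1
      omega
    · simp
  have hq0 : ((((q : ℕ) : h69_F0 (M * q * q) (A.inertiaSubgroupIn ℚ)) : h69_F0 (M * q * q) (A.inertiaSubgroupIn ℚ)) : modularFunctionFieldBar (M * q * q)) = algebraMap Qb (modularFunctionFieldBar (M * q * q)) ((q : ℕ) : Qb) := by
    rw [map_natCast]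
    rfl
  have hlam : ((lam : ℕ) : IsLocalRing.ResidueField A) ≠ 0 := by
    haveI : CharP (IsLocalRing.ResidueField A) q := h19_residueField_charP A q hA
    intro h0
    rw [CharP.cast_eq_zero_iff (IsLocalRing.ResidueField A) q] at h0
    exact hlq ((Nat.prime_dvd_prime_iff_eq hq hlamp).mp h0).symm
  haveI := h17_D2_nontrivial (M * q * q) q A hA (h17_jbar0 (M * q * q) (A.inertiaSubgroupIn ℚ))
    (h17_jbar0_chart (M * q * q) (A.inertiaSubgroupIn ℚ))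
  exact h61_geomN_of_data (M * q * q) hq A hA (h17_D2j (M * q * q) q A hA) rfl
    (h17_D2_on (M * q * q) q A hA _ _) (h17_D2_hinv (M * q * q) q A hA _ _)
    (h17_D2_rank (M * q * q) q A hA _ _) (h17_D2j_x_mem (M * q * q) q A hA)
    (h17_D2j_x_inv_mem (M * q * q) q A hA)
    (fun E1 hE1 => h17_D2_gen (M * q * q) q A hA _ _ E1 hE1)
    (fun f hf hO hr => (h17_D2_hdiv (M * q * q) q A hA _ _ f hf hO hr).2)
    (h98_w2 M q hqM A ζ hζ hex) (h98_hw2mul M q hqM A hA ζ hζ hex) (h98_hw2add M q hqM A hA ζ hζ hex)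
    (![1, q - 1, 1] : Fin 3 → ℕ) ha ((q : ℕ) : h69_F0 (M * q * q) (A.inertiaSubgroupIn ℚ)) hq0 (h94_w2_q M q hqM A hA ζ hζ hex)
    (h99_hC3_closed_98 M q hqM A hA ζ hζ hex) lam hlam ((q ^ 2 - 1) ^ 2)
    (h67_Jnew (M * q) q)
    (fun n z hz hP hfix => h94_hwit_final M q hqM A hA ζ hζ hex (lam ^ n)
      (pow_pos hlamp.pos n) (hcop n) z hfix hP hz hclass1 hU1
      (hLG1 (lam ^ n) (pow_pos hlamp.pos n) (hcop n)) cusp2 hcusp2 hone2 hU2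
      (hLG2 (lam ^ n) (pow_pos hlamp.pos n) (hcop n)) hxfer)

/-- **The hypothesis `hch` of `h29_S36_of_charted` from the rows.** -/
theorem h94_hch_of_rows
    (hrows : ∀ (L q : ℕ) [NeZero L] [NeZero q] [Fact q.Prime] (hqL : ¬ q ∣ L),
      (∃ r : ℕ, r.Prime ∧ r % 12 = 11 ∧ r ∣ L) → (5 ≤ q ∨ 2 ∣ L ∨ 3 ∣ L) →
      ∀ (A : ValuationSubring Qb) (hA : A.LiesOverPrime q),
        ∃ (ζ : Qb) (hζ : IsPrimitiveRoot ζ q) (hex : h98_Ex L q hqL A ζ hζ),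
          h94_Rows L q hqL A hA ζ hζ hex) :
    ∀ (L q : ℕ) [NeZero L] [NeZero q] (lam : ℕ), q.Prime → ¬ q ∣ L → lam.Prime →
      lam ≠ q → (∃ r : ℕ, r.Prime ∧ r % 12 = 11 ∧ r ∣ L) → (5 ≤ q ∨ 2 ∣ L ∨ 3 ∣ L) →
      ∀ A : ValuationSubring Qb, A.LiesOverPrime q → ∃ c : ℕ, 0 < c ∧
        ∀ (n : ℕ) (x : JZero (L * q * q)), lam ^ n • x = 0 → h67_Jnew (L * q) q x →
          (∀ s ∈ A.inertiaSubgroupIn ℚ, s • x = x) → c • x = 0 := by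
  intro L q _ _ lam hq hqL hlamp hlq hr h5 A hA
  haveI : Fact q.Prime := ⟨hq⟩
  obtain ⟨ζ, hζ, hex, h⟩ := hrows L q hqL hr h5 A hA
  refine ⟨(q ^ 2 - 1) ^ 2, ?_, h94_geomN_of_rows L q hqL A hA ζ hζ hex lam hlamp hlq h⟩
  have h2 := hq.two_le
  have h3 : 2 ^ 2 ≤ q ^ 2 := Nat.pow_le_pow_left h2 2
  have h4 : 0 < q ^ 2 - 1 := by omega
  exact pow_pos h4 2

end Fermat.Agent.S36
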