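import Mathlib
import Fermat.Agent.S36.h29_PtsClosed
import Fermat.Agent.S36.h94_RowsInst
import Fermat.Agent.S36.h49_ExInst
import Fermat.Agent.S36.h70_GeomNAux
import Fermat.Agent.S36.h29_S36Charted

/-!
# S36: the charted geometric input, closed (helper29)

* `h29_rows_closed` : `h94_Rows L q hqL A hA ζ hζ hex` at every charted level (`ζ := h36_zeta q`,
  `hex := h49_ex ..`), from the closed I-PTS row (`h29_pts_rows_closed`) and helper94's
  `h94_rows_of_pts` (I-CUSP and the chart-2 transfer plugged);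
* `h29_hch_closed`  : **the hypothesis `hch` of `h29_S36_of_charted`**, with no hypothesis
  (`h94_hch_of_rows`).
-/

set_option autoImplicit false
set_option synthInstance.maxHeartbeats 400000
set_option maxHeartbeats 1600000
set_option linter.unusedSectionVars false
set_option linter.unusedVariables false
set_option linter.style.haveILetI false

noncomputable section

open ModularCurve AlgebraicCurve

namespace Fermat.Agent.S36

open Fermat.Agent.S34 Fermat.Agent.S37 Fermat.Agent.S24 Fermat.Agent.S35 Fermat.Agent.S18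
open Fermat.Agent.S27 Fermat.Agent.S19

local notation "Qb" => AlgebraicClosure ℚ

/-- **The rows at a charted level**: `L` divisible by a prime `r ≡ 11 (mod 12)` (no elliptic
points), `q ∤ L`, and `5 ≤ q ∨ 2 ∣ L ∨ 3 ∣ L`. -/
theorem h29_rows_closed (L q : ℕ) [NeZero L] [NeZero q] [Fact q.Prime] (hqL : ¬ q ∣ L)
    (hr : ∃ r : ℕ, r.Prime ∧ r % 12 = 11 ∧ r ∣ L) (hch : 5 ≤ q ∨ 2 ∣ L ∨ 3 ∣ L)
    (A : ValuationSubring Qb) (hA : A.LiesOverPrime q) :
    h94_Rows L q hqL A hA (h36_zeta q) (h36_zeta_prim q)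
      (h49_ex L q hqL A hA (h36_zeta q) (h36_zeta_prim q)) := by
  obtain ⟨r, hrp, hr12, hrL⟩ := hr
  obtain ⟨h2, h3⟩ := h70_nu_zero r L hrp hr12 hrL
  obtain ⟨p1, p2, p3⟩ := h29_pts_rows_closed L q hqL A hA (h36_zeta q) (h36_zeta_prim q)
    (h49_ex L q hqL A hA (h36_zeta q) (h36_zeta_prim q)) hch h2 h3
  exact h94_rows_of_pts L q hqL A hA (h36_zeta q) (h36_zeta_prim q)
    (h49_ex L q hqL A hA (h36_zeta q) (h36_zeta_prim q)) hch p1 p2 p3

/-- **The hypothesis `hch` of `h29_S36_of_charted`**, closed. -/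
theorem h29_hch_closed :
    ∀ (L q : ℕ) [NeZero L] [NeZero q] (lam : ℕ), q.Prime → ¬ q ∣ L → lam.Prime →
      lam ≠ q → (∃ r : ℕ, r.Prime ∧ r % 12 = 11 ∧ r ∣ L) → (5 ≤ q ∨ 2 ∣ L ∨ 3 ∣ L) →
      ∀ A : ValuationSubring Qb, A.LiesOverPrime q → ∃ c : ℕ, 0 < c ∧
        ∀ (n : ℕ) (x : JZero (L * q * q)), lam ^ n • x = 0 → h67_Jnew (L * q) q x →
          (∀ s ∈ A.inertiaSubgroupIn ℚ, s • x = x) → c • x = 0 :=
  h94_hch_of_rows (fun L q _ _ _ hqL hr hch A hA =>
    ⟨h36_zeta q, h36_zeta_prim q, h49_ex L q hqL A hA (h36_zeta q) (h36_zeta_prim q),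
      h29_rows_closed L q hqL hr hch A hA⟩)

end Fermat.Agent.S36
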