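/-
S36 / I-CUSP, the vertical facts (V) (helper49).

`N = L q²`, `J0 = j(τ)`, `J1 = j(qτ)`, `J2 = j(q²τ)` as elements of `F0 = h69_F0 (L q²) I`:
  `J0F = h69_jF0 (L*q*q) I`, `J1F = h70_bF0 (L*q) q I (h69_jF0 (L*q) I)`,
  `J2F = h70_bF0 (L*q) q I (h70_bF0 L q I (h69_jF0 L I))`.

The three expansions (standard, middle `h98_midP ζ`, standard of `h36_W`) of `(J0, J1, J2)` are
`(J, J(t^q), J(t^(q²)))`, `(J, J(t^q), twist_ζ J)`, `(J(t^(q²)), J(t^q), J)`; with the Frobenius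
congruence `j̄^q = j̄(t^q)` this gives the values of the vertical valuations `h98_w2` on
`J0, J1, J2`, on `D1 = J1 - J0^q`, `D2 = J1^q - J0`, `D3 = J2 - J0^(q²)`, `J2 - J0`, and on the
functions `G1 = J1 / J0^q`, `G3 = J2 / J0^(q²)` of the cusp analysis.
-/
import Mathlib
import Fermat.Agent.S36.h98_V12
import Fermat.Agent.S36.h74_W2Sep
import Fermat.Agent.S36.h69_DegQ2

set_option autoImplicit false
set_option synthInstance.maxHeartbeats 400000
set_option linter.style.haveILetI false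
set_option linter.unusedSectionVars false

noncomputable section

open ModularCurve AlgebraicCurve

namespace Fermat.Agent.S36

open Fermat.Agent.S34 Fermat.Agent.S37 Fermat.Agent.S24 Fermat.Agent.S35 Fermat.Agent.S18
  Fermat.Agent.GAL Fermat.Agent.S40

local notation "Qb" => AlgebraicClosure ℚ

/-! ## Reduction calculus in the Gauss ring -/

section Red

variable {A : ValuationSubring Qb}

/-- `s` lies in the Gauss ring of `A` and reduces to `r`. -/
def h49_Red (A : ValuationSubring Qb) (s : LaurentSeries Qb)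
    (r : LaurentSeries (IsLocalRing.ResidueField A)) : Prop :=
  ∃ h : s ∈ h60_Os A, h60_rs A ⟨s, h⟩ = r

theorem h49_Red.congr {s : LaurentSeries Qb} {r r' : LaurentSeries (IsLocalRing.ResidueField A)}
    (hs : h49_Red A s r) (e : r = r') : h49_Red A s r' := e ▸ hs

theorem h49_Red.sub {s t : LaurentSeries Qb} {r r' : LaurentSeries (IsLocalRing.ResidueField A)}
    (hs : h49_Red A s r) (ht : h49_Red A t r') : h49_Red A (s - t) (r - r') := by
  obtain ⟨h1, rfl⟩ := hs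
  obtain ⟨h2, rfl⟩ := ht
  refine ⟨sub_mem h1 h2, ?_⟩
  have e : (⟨_, sub_mem h1 h2⟩ : h60_Os A) = ⟨s, h1⟩ - ⟨t, h2⟩ := rfl
  rw [e, map_sub]

theorem h49_Red.mul {s t : LaurentSeries Qb} {r r' : LaurentSeries (IsLocalRing.ResidueField A)}
    (hs : h49_Red A s r) (ht : h49_Red A t r') : h49_Red A (s * t) (r * r') := by
  obtain ⟨h1, rfl⟩ := hs
  obtain ⟨h2, rfl⟩ := ht
  refine ⟨mul_mem h1 h2, ?_⟩
  have e : (⟨_, mul_mem h1 h2⟩ : h60_Os A) = ⟨s, h1⟩ * ⟨t, h2⟩ := rfl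
  rw [e, map_mul]

theorem h49_Red.pow {s : LaurentSeries Qb} {r : LaurentSeries (IsLocalRing.ResidueField A)}
    (hs : h49_Red A s r) (n : ℕ) : h49_Red A (s ^ n) (r ^ n) := by
  obtain ⟨h1, rfl⟩ := hs
  refine ⟨pow_mem h1 n, ?_⟩
  have e : (⟨_, pow_mem h1 n⟩ : h60_Os A) = ⟨s, h1⟩ ^ n := rfl
  rw [e, map_pow]

theorem h49_Red.qExp {s : LaurentSeries Qb} {r : LaurentSeries (IsLocalRing.ResidueField A)}
    (hs : h49_Red A s r) (n : ℕ) [NeZero n] :
    h49_Red A (qExpand Qb n s) (qExpand (IsLocalRing.ResidueField A) n r) := by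
  obtain ⟨h1, rfl⟩ := hs
  exact ⟨h60_qExpand_mem A n h1, h60_rs_qExpand A n ⟨s, h1⟩⟩

theorem h49_Red.ne_zero {s : LaurentSeries Qb} {r : LaurentSeries (IsLocalRing.ResidueField A)}
    (hs : h49_Red A s r) (hr : r ≠ 0) : s ≠ 0 := by
  obtain ⟨h1, rfl⟩ := hs
  exact h60_ne_zero_of_rs A hr

/-- A series with nonzero reduction has Gauss order `0`. -/
theorem h49_Red.gv {s : LaurentSeries Qb} {r : LaurentSeries (IsLocalRing.ResidueField A)}
    (hs : h49_Red A s r) (hr : r ≠ 0) (π : Qb) : h98_GV A π s 0 := by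
  obtain ⟨h1, rfl⟩ := hs
  exact h98_GV_of_eq h1 hr (by rw [neg_zero, zpow_zero, map_one, one_mul])

/-- The `j`-series. -/
theorem h49_red_J (A : ValuationSubring Qb) :
    h49_Red A (coeffEmb Qb jq) (jqModC (IsLocalRing.ResidueField A)) := by
  have h := (h60_JOs A).2
  have e := h60_rs_JOs A
  rw [← h60_coe_JOs A]
  exact ⟨h, e⟩

/-- The twist by a `q`-th root of unity does not change the reduction. -/
theorem h49_Red.twist (q : ℕ) [Fact q.Prime] (hA : A.LiesOverPrime q) (ζ : Qb)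
    (hζ : IsPrimitiveRoot ζ q) {s : LaurentSeries Qb}
    {r : LaurentSeries (IsLocalRing.ResidueField A)} (hs : h49_Red A s r) :
    h49_Red A (h59_twistHom ζ (hζ.ne_zero (Fact.out : q.Prime).ne_zero) s) r := by
  have hq : q.Prime := Fact.out
  obtain ⟨h1, rfl⟩ := hs
  have hζ0 : ζ ≠ 0 := hζ.ne_zero hq.ne_zero
  have hζA : ζ ∈ A := h8_zeta_mem q A ζ hζ
  have hne : ζ ≠ 1 := hζ.ne_one hq.one_lt
  have hres := h98_res_zeta q A hA ζ hζ hζA
  obtain ⟨h, -⟩ := h21_twistHom_theta A ζ hζA hres hζ0 hne ⟨s, h1⟩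
  have hcA : ζ - 1 ∈ A := sub_mem hζA A.one_mem
  have hc0 : ζ - 1 ≠ 0 := sub_ne_zero.mpr hne
  have e0 : h59_twistHom ζ hζ0 s
      = s + algebraMap Qb (LaurentSeries Qb) (ζ - 1) *
          (algebraMap Qb (LaurentSeries Qb) ((ζ - 1)⁻¹) * (h59_twistHom ζ hζ0 s - s)) := by
    rw [← mul_assoc, ← map_mul, mul_inv_cancel₀ hc0, map_one, one_mul]
    ring
  have hT : h59_twistHom ζ hζ0 s ∈ h60_Os A := by
    rw [e0]
    exact add_mem h1 (mul_mem (h60_const_mem A hcA) h)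
  refine ⟨hT, ?_⟩
  have e1 : (⟨h59_twistHom ζ hζ0 s, hT⟩ : h60_Os A)
      = ⟨s, h1⟩ + ⟨_, h60_const_mem A hcA⟩ * ⟨_, h⟩ := Subtype.ext e0
  have e2 : h60_rs A ⟨_, h60_const_mem A hcA⟩ = 0 := by
    rw [h60_rs_const A hcA]
    have e3 : (⟨ζ - 1, hcA⟩ : A) = ⟨ζ, hζA⟩ - 1 := rfl
    rw [e3, map_sub, hres, map_one, sub_self, map_zero]
  rw [e1, map_add, map_mul, e2, zero_mul, add_zero]

end Red

/-! ## Residue identities -/

section Res

variable (k : Type*) [Field k] (q : ℕ) [Fact q.Prime] [NeZero q] [CharP k q]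

omit [CharP k q] in
theorem h49_cv_jk_ne_zero : jqModC k ≠ 0 := by
  intro h
  have h1 := coeff_jqModC_neg_one (K := k)
  rw [h, HahnSeries.coeff_zero] at h1
  exact zero_ne_one h1

omit [CharP k q] in
theorem h49_cv_E_ne_zero {x : LaurentSeries k} (hx : x ≠ 0) : qExpand k q x ≠ 0 := by
  intro h
  exact hx (qExpand_injective (R := k) q (by rw [h, map_zero]))

omit [CharP k q] in
theorem h49_cv_jk_sub_E_ne_zero (x : LaurentSeries k) : jqModC k - qExpand k q x ≠ 0 :=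
  fun h => h60_qExpand_ne_jq k q x (sub_eq_zero.mp h).symm

omit [CharP k q] in
theorem h49_cv_E_sub_jk_ne_zero (x : LaurentSeries k) : qExpand k q x - jqModC k ≠ 0 :=
  fun h => h60_qExpand_ne_jq k q x (sub_eq_zero.mp h)

/-- `(j̄(t^q))^q = j̄(t^(q²))`. -/
theorem h49_cv_E_pow : qExpand k q (jqModC k) ^ q = qExpand k q (qExpand k q (jqModC k)) := by
  rw [← map_pow, h60_jq_pow k q]

/-- `j̄^(q²) = j̄(t^(q²))`. -/
theorem h49_cv_jk_pow_sq : jqModC k ^ (q ^ 2) = qExpand k q (qExpand k q (jqModC k)) := by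
  rw [sq, pow_mul, h60_jq_pow k q, h49_cv_E_pow]

/-- `(j̄(t^(q²)))^q = j̄(t^(q³))`. -/
theorem h49_cv_EE_pow : qExpand k q (qExpand k q (jqModC k)) ^ q
    = qExpand k q (qExpand k q (qExpand k q (jqModC k))) := by
  rw [← map_pow, h49_cv_E_pow]

/-- `(j̄(t^(q²)))^(q²) = j̄(t^(q⁴))`. -/
theorem h49_cv_EE_pow_sq : qExpand k q (qExpand k q (jqModC k)) ^ (q ^ 2)
    = qExpand k q (qExpand k q (qExpand k q (qExpand k q (jqModC k)))) := by
  rw [← map_pow, ← map_pow, h49_cv_jk_pow_sq]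

end Res

/-! ## The three expansions of `J0, J1, J2` -/

section Mod

variable (L q : ℕ) [NeZero L] [NeZero q] [Fact q.Prime] (hqL : ¬ q ∣ L)
  (A : ValuationSubring Qb) (hA : A.LiesOverPrime q) (ζ : Qb) (hζ : IsPrimitiveRoot ζ q)

theorem h49_cv_J0_eq : h59_jbar (L * q * q) = h36_i0 L q (h59_jbar (L * q)) :=
  (h19_heckeAlphaBar_jbar (L * q) q).symm

theorem h49_cv_J1_eq :
    heckeBetaBar Qb (L * q) q (h59_jbar (L * q))
      = h36_i0 L q (heckeBetaBar Qb L q (h59_jbar L)) := by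
  apply Subtype.ext
  rw [coe_heckeBetaBar, h59_coe_jbar, h36_coe_i0, coe_heckeBetaBar, h59_coe_jbar]

theorem h49_cv_J2_eq :
    heckeBetaBar Qb (L * q) q (heckeBetaBar Qb L q (h59_jbar L))
      = h36_i2 L q hqL (h59_jbar (L * q)) := by
  show _ = heckeBetaBar Qb (L * q) q (h60_w L q hqL (h59_jbar (L * q)))
  rw [h74_w_jbar]

/-- The three expansion embeddings of `F(L q²)`: standard, middle, standard of `W`. -/
def h49_cv_X (c : Fin 3) : modularFunctionFieldBar (L * q * q) →+* LaurentSeries Qb :=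
  ![h98_coe (L * q * q), h98_midP L q hqL ζ hζ, (h98_coe (L * q * q)).comp (h36_W L q hqL)] c

theorem h49_cv_X_zero (f : modularFunctionFieldBar (L * q * q)) :
    h49_cv_X L q hqL ζ hζ 0 f = (f : LaurentSeries Qb) := rfl

theorem h49_cv_X_one (f : modularFunctionFieldBar (L * q * q)) :
    h49_cv_X L q hqL ζ hζ 1 f = h98_midP L q hqL ζ hζ f := rfl

theorem h49_cv_X_two (f : modularFunctionFieldBar (L * q * q)) :
    h49_cv_X L q hqL ζ hζ 2 f
      = ((h36_W L q hqL f : modularFunctionFieldBar (L * q * q)) : LaurentSeries Qb) := rfl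

/-- Expansions of `J0 = j(τ)`. -/
theorem h49_cv_X_J0 (c : Fin 3) :
    h49_cv_X L q hqL ζ hζ c (h59_jbar (L * q * q))
      = ![coeffEmb Qb jq, coeffEmb Qb jq, qExpand Qb q (qExpand Qb q (coeffEmb Qb jq))] c := by
  fin_cases c
  · exact h59_coe_jbar (L * q * q)
  · show h98_midP L q hqL ζ hζ (h59_jbar (L * q * q)) = coeffEmb Qb jq
    rw [h49_cv_J0_eq, h98_midP_i0, h59_coe_jbar]
  · show ((h36_W L q hqL (h59_jbar (L * q * q)) : modularFunctionFieldBar (L * q * q)) :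
      LaurentSeries Qb) = qExpand Qb q (qExpand Qb q (coeffEmb Qb jq))
    rw [h49_cv_J0_eq, h36_W_i0, ← h49_cv_J2_eq L q hqL, coe_heckeBetaBar, coe_heckeBetaBar,
      h59_coe_jbar]

/-- Expansions of `J1 = j(qτ)`. -/
theorem h49_cv_X_J1 (c : Fin 3) :
    h49_cv_X L q hqL ζ hζ c (heckeBetaBar Qb (L * q) q (h59_jbar (L * q)))
      = qExpand Qb q (coeffEmb Qb jq) := by
  have e : ((heckeBetaBar Qb (L * q) q (h59_jbar (L * q)) :
      modularFunctionFieldBar (L * q * q)) : LaurentSeries Qb) = qExpand Qb q (coeffEmb Qb jq) := by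
    rw [coe_heckeBetaBar, h59_coe_jbar]
  fin_cases c
  · exact e
  · show h98_midP L q hqL ζ hζ (heckeBetaBar Qb (L * q) q (h59_jbar (L * q))) = _
    rw [h49_cv_J1_eq, h98_midP_i0, coe_heckeBetaBar, h59_coe_jbar]
  · show ((h36_W L q hqL (heckeBetaBar Qb (L * q) q (h59_jbar (L * q))) :
      modularFunctionFieldBar (L * q * q)) : LaurentSeries Qb) = _
    rw [h49_cv_J1_eq, h36_W_i0, ← h36_i0_beta L q hqL, ← h49_cv_J1_eq, e]

/-- Expansions of `J2 = j(q²τ)`. -/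
theorem h49_cv_X_J2 (c : Fin 3) :
    h49_cv_X L q hqL ζ hζ c (heckeBetaBar Qb (L * q) q (heckeBetaBar Qb L q (h59_jbar L)))
      = ![qExpand Qb q (qExpand Qb q (coeffEmb Qb jq)),
          h59_twistHom ζ (hζ.ne_zero (NeZero.ne q)) (coeffEmb Qb jq), coeffEmb Qb jq] c := by
  fin_cases c
  · show ((heckeBetaBar Qb (L * q) q (heckeBetaBar Qb L q (h59_jbar L)) :
      modularFunctionFieldBar (L * q * q)) : LaurentSeries Qb) = _
    rw [coe_heckeBetaBar, coe_heckeBetaBar, h59_coe_jbar]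
    rfl
  · show h98_midP L q hqL ζ hζ (heckeBetaBar Qb (L * q) q (heckeBetaBar Qb L q (h59_jbar L))) = _
    rw [h49_cv_J2_eq L q hqL, h98_midP_i2, h59_coe_jbar]
    rfl
  · show ((h36_W L q hqL (heckeBetaBar Qb (L * q) q (heckeBetaBar Qb L q (h59_jbar L))) :
      modularFunctionFieldBar (L * q * q)) : LaurentSeries Qb) = _
    rw [h49_cv_J2_eq L q hqL, h36_W_i2, ← h49_cv_J0_eq, h59_coe_jbar]
    rfl

end Mod

/-! ## Reductions of the expansions and the vertical valuations -/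

section Val

variable (L q : ℕ) [NeZero L] [NeZero q] [Fact q.Prime] (hqL : ¬ q ∣ L)
  (A : ValuationSubring Qb) (hA : A.LiesOverPrime q) (ζ : Qb) (hζ : IsPrimitiveRoot ζ q)

/-- The reductions of the three expansions of `J0`. -/
def h49_cv_r0 (c : Fin 3) : LaurentSeries (IsLocalRing.ResidueField A) :=
  ![jqModC (IsLocalRing.ResidueField A), jqModC (IsLocalRing.ResidueField A),
    qExpand (IsLocalRing.ResidueField A) q
      (qExpand (IsLocalRing.ResidueField A) q (jqModC (IsLocalRing.ResidueField A)))] c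

/-- The reductions of the three expansions of `J2`. -/
def h49_cv_r2 (c : Fin 3) : LaurentSeries (IsLocalRing.ResidueField A) :=
  ![qExpand (IsLocalRing.ResidueField A) q
      (qExpand (IsLocalRing.ResidueField A) q (jqModC (IsLocalRing.ResidueField A))),
    jqModC (IsLocalRing.ResidueField A), jqModC (IsLocalRing.ResidueField A)] c

theorem h49_cv_r0_ne_zero (c : Fin 3) : h49_cv_r0 q A c ≠ 0 := by
  fin_cases c
  · exact h49_cv_jk_ne_zero _
  · exact h49_cv_jk_ne_zero _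
  · exact h49_cv_E_ne_zero _ q (h49_cv_E_ne_zero _ q (h49_cv_jk_ne_zero _))

theorem h49_cv_r2_ne_zero (c : Fin 3) : h49_cv_r2 q A c ≠ 0 := by
  fin_cases c
  · exact h49_cv_E_ne_zero _ q (h49_cv_E_ne_zero _ q (h49_cv_jk_ne_zero _))
  · exact h49_cv_jk_ne_zero _
  · exact h49_cv_jk_ne_zero _

theorem h49_cv_red_J0 (c : Fin 3) :
    h49_Red A (h49_cv_X L q hqL ζ hζ c (h59_jbar (L * q * q))) (h49_cv_r0 q A c) := by
  rw [h49_cv_X_J0]
  fin_cases c
  · exact h49_red_J A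
  · exact h49_red_J A
  · exact ((h49_red_J A).qExp q).qExp q

theorem h49_cv_red_J1 (c : Fin 3) :
    h49_Red A (h49_cv_X L q hqL ζ hζ c (heckeBetaBar Qb (L * q) q (h59_jbar (L * q))))
      (qExpand (IsLocalRing.ResidueField A) q (jqModC (IsLocalRing.ResidueField A))) := by
  rw [h49_cv_X_J1]
  exact (h49_red_J A).qExp q

include hA in
theorem h49_cv_red_J2 (c : Fin 3) :
    h49_Red A (h49_cv_X L q hqL ζ hζ c
      (heckeBetaBar Qb (L * q) q (heckeBetaBar Qb L q (h59_jbar L)))) (h49_cv_r2 q A c) := by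
  rw [h49_cv_X_J2]
  fin_cases c
  · exact ((h49_red_J A).qExp q).qExp q
  · exact (h49_red_J A).twist q hA ζ hζ
  · exact h49_red_J A

variable (hex : h98_Ex L q hqL A ζ hζ)

include hA in
/-- A nonzero reduction along the `c`-th expansion gives `w2 c = 0`. -/
theorem h49_cv_w_eq_zero (c : Fin 3) (x : h69_F0 (L * q * q) (A.inertiaSubgroupIn ℚ))
    {r : LaurentSeries (IsLocalRing.ResidueField A)}
    (h : h49_Red A (h49_cv_X L q hqL ζ hζ c (x : modularFunctionFieldBar (L * q * q))) r)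
    (hr : r ≠ 0) : h98_w2 L q hqL A ζ hζ hex c x = 0 := by
  fin_cases c
  · exact h98_v1_eq L q hqL A hA ζ hζ hex x 0 (h.gv hr _)
  · exact h98_v2_eq L q hqL A hA ζ hζ hex x 0 (h.gv hr _)
  · exact h98_v3_eq L q hqL A hA ζ hζ hex x 0 (h.gv hr _)

theorem h49_cv_ne_zero (c : Fin 3) (x : h69_F0 (L * q * q) (A.inertiaSubgroupIn ℚ))
    {r : LaurentSeries (IsLocalRing.ResidueField A)}
    (h : h49_Red A (h49_cv_X L q hqL ζ hζ c (x : modularFunctionFieldBar (L * q * q))) r)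
    (hr : r ≠ 0) : x ≠ 0 := by
  intro h0
  apply h.ne_zero hr
  rw [h0]
  exact map_zero _

include hA in
/-- A zero reduction along the `c`-th expansion gives `0 < w2 c`. -/
theorem h49_cv_w_pos (c : Fin 3) (x : h69_F0 (L * q * q) (A.inertiaSubgroupIn ℚ)) (hx : x ≠ 0)
    (h : h49_Red A (h49_cv_X L q hqL ζ hζ c (x : modularFunctionFieldBar (L * q * q))) 0) :
    0 < h98_w2 L q hqL A ζ hζ hex c x := by
  fin_cases c
  · exact (h98_v1_pos_iff L q hqL A hA ζ hζ hex x hx).mpr h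
  · exact (h98_v2_pos_iff L q hqL A hA ζ hζ hex x hx).mpr h
  · exact (h98_v3_pos_iff L q hqL A hA ζ hζ hex x hx).mpr h

/-- `J0 = j(τ)` as an element of `F0(L q²)`. -/
abbrev h49_J0F : h69_F0 (L * q * q) (A.inertiaSubgroupIn ℚ) :=
  h69_jF0 (L * q * q) (A.inertiaSubgroupIn ℚ)

/-- `J1 = j(qτ)` as an element of `F0(L q²)`. -/
abbrev h49_J1F : h69_F0 (L * q * q) (A.inertiaSubgroupIn ℚ) :=
  h70_bF0 (L * q) q (A.inertiaSubgroupIn ℚ) (h69_jF0 (L * q) (A.inertiaSubgroupIn ℚ))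

/-- `J2 = j(q²τ)` as an element of `F0(L q²)`. -/
abbrev h49_J2F : h69_F0 (L * q * q) (A.inertiaSubgroupIn ℚ) :=
  h70_bF0 (L * q) q (A.inertiaSubgroupIn ℚ)
    (h70_bF0 L q (A.inertiaSubgroupIn ℚ) (h69_jF0 L (A.inertiaSubgroupIn ℚ)))

theorem h49_coe_J0F : ((h49_J0F L q A : h69_F0 (L * q * q) (A.inertiaSubgroupIn ℚ)) :
    modularFunctionFieldBar (L * q * q)) = h59_jbar (L * q * q) := rfl

theorem h49_coe_J1F : ((h49_J1F L q A : h69_F0 (L * q * q) (A.inertiaSubgroupIn ℚ)) :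
    modularFunctionFieldBar (L * q * q)) = heckeBetaBar Qb (L * q) q (h59_jbar (L * q)) := rfl

theorem h49_coe_J2F : ((h49_J2F L q A : h69_F0 (L * q * q) (A.inertiaSubgroupIn ℚ)) :
    modularFunctionFieldBar (L * q * q))
      = heckeBetaBar Qb (L * q) q (heckeBetaBar Qb L q (h59_jbar L)) := rfl

include hA in
/-- **(V-d)** `J0, J1, J2` are units for the three vertical valuations. -/
theorem h49_cv_w_J0 (c : Fin 3) : h98_w2 L q hqL A ζ hζ hex c (h49_J0F L q A) = 0 :=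
  h49_cv_w_eq_zero L q hqL A hA ζ hζ hex c _ (h49_cv_red_J0 L q hqL A ζ hζ c)
    (h49_cv_r0_ne_zero q A c)

include hA in
theorem h49_cv_w_J1 (c : Fin 3) : h98_w2 L q hqL A ζ hζ hex c (h49_J1F L q A) = 0 :=
  h49_cv_w_eq_zero L q hqL A hA ζ hζ hex c _ (h49_cv_red_J1 L q hqL A ζ hζ c)
    (h49_cv_E_ne_zero _ q (h49_cv_jk_ne_zero _))

include hA in
theorem h49_cv_w_J2 (c : Fin 3) : h98_w2 L q hqL A ζ hζ hex c (h49_J2F L q A) = 0 :=
  h49_cv_w_eq_zero L q hqL A hA ζ hζ hex c _ (h49_cv_red_J2 L q hqL A hA ζ hζ c)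
    (h49_cv_r2_ne_zero q A c)

theorem h49_J0F_ne_zero : h49_J0F L q A ≠ 0 := by
  intro h0
  have h1 : h59_jbar (L * q * q) = 0 := congrArg Subtype.val h0
  apply (h49_red_J A).ne_zero (h49_cv_jk_ne_zero _)
  rw [← h59_coe_jbar (L * q * q), h1]
  rfl

theorem h49_J1F_ne_zero : h49_J1F L q A ≠ 0 := by
  intro h0
  have h1 : heckeBetaBar Qb (L * q) q (h59_jbar (L * q)) = 0 := congrArg Subtype.val h0
  apply ((h49_red_J A).qExp q).ne_zero (h49_cv_E_ne_zero _ q (h49_cv_jk_ne_zero _))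
  have h2 : ((heckeBetaBar Qb (L * q) q (h59_jbar (L * q)) :
      modularFunctionFieldBar (L * q * q)) : LaurentSeries Qb) = qExpand Qb q (coeffEmb Qb jq) := by
    rw [coe_heckeBetaBar, h59_coe_jbar]
  rw [← h2, h1]
  rfl

theorem h49_J2F_ne_zero : h49_J2F L q A ≠ 0 := by
  intro h0
  have h1 : heckeBetaBar Qb (L * q) q (heckeBetaBar Qb L q (h59_jbar L)) = 0 :=
    congrArg Subtype.val h0
  apply (((h49_red_J A).qExp q).qExp q).ne_zero
    (h49_cv_E_ne_zero _ q (h49_cv_E_ne_zero _ q (h49_cv_jk_ne_zero _)))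
  have h2 : ((heckeBetaBar Qb (L * q) q (heckeBetaBar Qb L q (h59_jbar L)) :
      modularFunctionFieldBar (L * q * q)) : LaurentSeries Qb)
        = qExpand Qb q (qExpand Qb q (coeffEmb Qb jq)) := by
    rw [coe_heckeBetaBar, coe_heckeBetaBar, h59_coe_jbar]
  rw [← h2, h1]
  rfl

/-! ### The expansions on `F0` and the difference functions -/

/-- The three expansions, on `F0`. -/
def h49_cv_Y (c : Fin 3) : h69_F0 (L * q * q) (A.inertiaSubgroupIn ℚ) →+* LaurentSeries Qb :=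
  (h49_cv_X L q hqL ζ hζ c).comp (h69_F0 (L * q * q) (A.inertiaSubgroupIn ℚ)).subtype

theorem h49_cv_Y_J0 (c : Fin 3) :
    h49_Red A (h49_cv_Y L q hqL A ζ hζ c (h49_J0F L q A)) (h49_cv_r0 q A c) :=
  h49_cv_red_J0 L q hqL A ζ hζ c

theorem h49_cv_Y_J1 (c : Fin 3) :
    h49_Red A (h49_cv_Y L q hqL A ζ hζ c (h49_J1F L q A))
      (qExpand (IsLocalRing.ResidueField A) q (jqModC (IsLocalRing.ResidueField A))) :=
  h49_cv_red_J1 L q hqL A ζ hζ c

include hA in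
theorem h49_cv_Y_J2 (c : Fin 3) :
    h49_Red A (h49_cv_Y L q hqL A ζ hζ c (h49_J2F L q A)) (h49_cv_r2 q A c) :=
  h49_cv_red_J2 L q hqL A hA ζ hζ c

include hA in
theorem h49_cv_wY_eq_zero (c : Fin 3) (x : h69_F0 (L * q * q) (A.inertiaSubgroupIn ℚ))
    {r : LaurentSeries (IsLocalRing.ResidueField A)}
    (h : h49_Red A (h49_cv_Y L q hqL A ζ hζ c x) r) (hr : r ≠ 0) :
    h98_w2 L q hqL A ζ hζ hex c x = 0 :=
  h49_cv_w_eq_zero L q hqL A hA ζ hζ hex c x h hr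

theorem h49_cv_Y_ne_zero (c : Fin 3) (x : h69_F0 (L * q * q) (A.inertiaSubgroupIn ℚ))
    {r : LaurentSeries (IsLocalRing.ResidueField A)}
    (h : h49_Red A (h49_cv_Y L q hqL A ζ hζ c x) r) (hr : r ≠ 0) : x ≠ 0 :=
  h49_cv_ne_zero L q hqL A ζ hζ c x h hr

include hA in
theorem h49_cv_wY_pos (c : Fin 3) (x : h69_F0 (L * q * q) (A.inertiaSubgroupIn ℚ)) (hx : x ≠ 0)
    {r : LaurentSeries (IsLocalRing.ResidueField A)}
    (h : h49_Red A (h49_cv_Y L q hqL A ζ hζ c x) r) (hr : r = 0) :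
    0 < h98_w2 L q hqL A ζ hζ hex c x :=
  h49_cv_w_pos L q hqL A hA ζ hζ hex c x hx (hr ▸ h)

/-- Reduction of the expansions of `D1 = J1 - J0^q`. -/
theorem h49_cv_Y_D1 (c : Fin 3) :
    h49_Red A (h49_cv_Y L q hqL A ζ hζ c (h49_J1F L q A - h49_J0F L q A ^ q))
      (qExpand (IsLocalRing.ResidueField A) q (jqModC (IsLocalRing.ResidueField A))
        - h49_cv_r0 q A c ^ q) := by
  rw [map_sub, map_pow]
  exact (h49_cv_Y_J1 L q hqL A ζ hζ c).sub ((h49_cv_Y_J0 L q hqL A ζ hζ c).pow q)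

/-- Reduction of the expansions of `D2 = J1^q - J0`. -/
theorem h49_cv_Y_D2 (c : Fin 3) :
    h49_Red A (h49_cv_Y L q hqL A ζ hζ c (h49_J1F L q A ^ q - h49_J0F L q A))
      (qExpand (IsLocalRing.ResidueField A) q (jqModC (IsLocalRing.ResidueField A)) ^ q
        - h49_cv_r0 q A c) := by
  rw [map_sub, map_pow]
  exact ((h49_cv_Y_J1 L q hqL A ζ hζ c).pow q).sub (h49_cv_Y_J0 L q hqL A ζ hζ c)

include hA in
/-- Reduction of the expansions of `D3 = J2 - J0^(q²)`. -/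
theorem h49_cv_Y_D3 (c : Fin 3) :
    h49_Red A (h49_cv_Y L q hqL A ζ hζ c (h49_J2F L q A - h49_J0F L q A ^ (q ^ 2)))
      (h49_cv_r2 q A c - h49_cv_r0 q A c ^ (q ^ 2)) := by
  rw [map_sub, map_pow]
  exact (h49_cv_Y_J2 L q hqL A hA ζ hζ c).sub ((h49_cv_Y_J0 L q hqL A ζ hζ c).pow (q ^ 2))

include hA in
/-- Reduction of the expansions of `Z = J2 - J0`. -/
theorem h49_cv_Y_Z (c : Fin 3) :
    h49_Red A (h49_cv_Y L q hqL A ζ hζ c (h49_J2F L q A - h49_J0F L q A))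
      (h49_cv_r2 q A c - h49_cv_r0 q A c) := by
  rw [map_sub]
  exact (h49_cv_Y_J2 L q hqL A hA ζ hζ c).sub (h49_cv_Y_J0 L q hqL A ζ hζ c)

/-! ### (D1) `D1 = J1 - J0^q` : `w = (>0, >0, 0)` -/

include hA hqL hζ in
theorem h49_D1_ne_zero : h49_J1F L q A - h49_J0F L q A ^ q ≠ 0 := by
  haveI : CharP (IsLocalRing.ResidueField A) q := h19_residueField_charP A q hA
  refine h49_cv_Y_ne_zero L q hqL A ζ hζ 2 _ (h49_cv_Y_D1 L q hqL A ζ hζ 2) ?_
  show qExpand (IsLocalRing.ResidueField A) q (jqModC (IsLocalRing.ResidueField A))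
    - qExpand (IsLocalRing.ResidueField A) q (qExpand (IsLocalRing.ResidueField A) q
        (jqModC (IsLocalRing.ResidueField A))) ^ q ≠ 0
  rw [h49_cv_EE_pow, ← map_sub]
  exact h49_cv_E_ne_zero _ q (h49_cv_jk_sub_E_ne_zero _ q _)

include hA in
theorem h49_cv_w_D1_zero :
    0 < h98_w2 L q hqL A ζ hζ hex 0 (h49_J1F L q A - h49_J0F L q A ^ q) := by
  haveI : CharP (IsLocalRing.ResidueField A) q := h19_residueField_charP A q hA
  refine h49_cv_wY_pos L q hqL A hA ζ hζ hex 0 _ (h49_D1_ne_zero L q hqL A hA ζ hζ)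
    (h49_cv_Y_D1 L q hqL A ζ hζ 0) ?_
  show qExpand (IsLocalRing.ResidueField A) q (jqModC (IsLocalRing.ResidueField A))
    - jqModC (IsLocalRing.ResidueField A) ^ q = 0
  rw [h60_jq_pow, sub_self]

include hA in
theorem h49_cv_w_D1_one :
    0 < h98_w2 L q hqL A ζ hζ hex 1 (h49_J1F L q A - h49_J0F L q A ^ q) := by
  haveI : CharP (IsLocalRing.ResidueField A) q := h19_residueField_charP A q hA
  refine h49_cv_wY_pos L q hqL A hA ζ hζ hex 1 _ (h49_D1_ne_zero L q hqL A hA ζ hζ)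
    (h49_cv_Y_D1 L q hqL A ζ hζ 1) ?_
  show qExpand (IsLocalRing.ResidueField A) q (jqModC (IsLocalRing.ResidueField A))
    - jqModC (IsLocalRing.ResidueField A) ^ q = 0
  rw [h60_jq_pow, sub_self]

include hA in
theorem h49_cv_w_D1_two :
    h98_w2 L q hqL A ζ hζ hex 2 (h49_J1F L q A - h49_J0F L q A ^ q) = 0 := by
  haveI : CharP (IsLocalRing.ResidueField A) q := h19_residueField_charP A q hA
  refine h49_cv_wY_eq_zero L q hqL A hA ζ hζ hex 2 _ (h49_cv_Y_D1 L q hqL A ζ hζ 2) ?_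
  show qExpand (IsLocalRing.ResidueField A) q (jqModC (IsLocalRing.ResidueField A))
    - qExpand (IsLocalRing.ResidueField A) q (qExpand (IsLocalRing.ResidueField A) q
        (jqModC (IsLocalRing.ResidueField A))) ^ q ≠ 0
  rw [h49_cv_EE_pow, ← map_sub]
  exact h49_cv_E_ne_zero _ q (h49_cv_jk_sub_E_ne_zero _ q _)

/-! ### (D2) `D2 = J1^q - J0` : `w = (0, 0, >0)` -/

include hA hqL hζ in
theorem h49_D2_ne_zero : h49_J1F L q A ^ q - h49_J0F L q A ≠ 0 := by
  haveI : CharP (IsLocalRing.ResidueField A) q := h19_residueField_charP A q hA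
  refine h49_cv_Y_ne_zero L q hqL A ζ hζ 0 _ (h49_cv_Y_D2 L q hqL A ζ hζ 0) ?_
  show qExpand (IsLocalRing.ResidueField A) q (jqModC (IsLocalRing.ResidueField A)) ^ q
    - jqModC (IsLocalRing.ResidueField A) ≠ 0
  rw [h49_cv_E_pow]
  exact h49_cv_E_sub_jk_ne_zero _ q _

include hA in
theorem h49_cv_w_D2_zero :
    h98_w2 L q hqL A ζ hζ hex 0 (h49_J1F L q A ^ q - h49_J0F L q A) = 0 := by
  haveI : CharP (IsLocalRing.ResidueField A) q := h19_residueField_charP A q hA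
  refine h49_cv_wY_eq_zero L q hqL A hA ζ hζ hex 0 _ (h49_cv_Y_D2 L q hqL A ζ hζ 0) ?_
  show qExpand (IsLocalRing.ResidueField A) q (jqModC (IsLocalRing.ResidueField A)) ^ q
    - jqModC (IsLocalRing.ResidueField A) ≠ 0
  rw [h49_cv_E_pow]
  exact h49_cv_E_sub_jk_ne_zero _ q _

include hA in
theorem h49_cv_w_D2_one :
    h98_w2 L q hqL A ζ hζ hex 1 (h49_J1F L q A ^ q - h49_J0F L q A) = 0 := by
  haveI : CharP (IsLocalRing.ResidueField A) q := h19_residueField_charP A q hA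
  refine h49_cv_wY_eq_zero L q hqL A hA ζ hζ hex 1 _ (h49_cv_Y_D2 L q hqL A ζ hζ 1) ?_
  show qExpand (IsLocalRing.ResidueField A) q (jqModC (IsLocalRing.ResidueField A)) ^ q
    - jqModC (IsLocalRing.ResidueField A) ≠ 0
  rw [h49_cv_E_pow]
  exact h49_cv_E_sub_jk_ne_zero _ q _

include hA in
theorem h49_cv_w_D2_two :
    0 < h98_w2 L q hqL A ζ hζ hex 2 (h49_J1F L q A ^ q - h49_J0F L q A) := by
  haveI : CharP (IsLocalRing.ResidueField A) q := h19_residueField_charP A q hA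
  refine h49_cv_wY_pos L q hqL A hA ζ hζ hex 2 _ (h49_D2_ne_zero L q hqL A hA ζ hζ)
    (h49_cv_Y_D2 L q hqL A ζ hζ 2) ?_
  show qExpand (IsLocalRing.ResidueField A) q (jqModC (IsLocalRing.ResidueField A)) ^ q
    - qExpand (IsLocalRing.ResidueField A) q (qExpand (IsLocalRing.ResidueField A) q
        (jqModC (IsLocalRing.ResidueField A))) = 0
  rw [h49_cv_E_pow, sub_self]

/-! ### (D3) `D3 = J2 - J0^(q²)` : `w = (>0, 0, 0)` -/

include hA hqL hζ in
theorem h49_D3_ne_zero : h49_J2F L q A - h49_J0F L q A ^ (q ^ 2) ≠ 0 := by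
  haveI : CharP (IsLocalRing.ResidueField A) q := h19_residueField_charP A q hA
  refine h49_cv_Y_ne_zero L q hqL A ζ hζ 1 _ (h49_cv_Y_D3 L q hqL A hA ζ hζ 1) ?_
  show jqModC (IsLocalRing.ResidueField A) - jqModC (IsLocalRing.ResidueField A) ^ (q ^ 2) ≠ 0
  rw [h49_cv_jk_pow_sq]
  exact h49_cv_jk_sub_E_ne_zero _ q _

include hA in
theorem h49_cv_w_D3_zero :
    0 < h98_w2 L q hqL A ζ hζ hex 0 (h49_J2F L q A - h49_J0F L q A ^ (q ^ 2)) := by
  haveI : CharP (IsLocalRing.ResidueField A) q := h19_residueField_charP A q hA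
  refine h49_cv_wY_pos L q hqL A hA ζ hζ hex 0 _ (h49_D3_ne_zero L q hqL A hA ζ hζ)
    (h49_cv_Y_D3 L q hqL A hA ζ hζ 0) ?_
  show qExpand (IsLocalRing.ResidueField A) q (qExpand (IsLocalRing.ResidueField A) q
        (jqModC (IsLocalRing.ResidueField A)))
    - jqModC (IsLocalRing.ResidueField A) ^ (q ^ 2) = 0
  rw [h49_cv_jk_pow_sq, sub_self]

include hA in
theorem h49_cv_w_D3_one :
    h98_w2 L q hqL A ζ hζ hex 1 (h49_J2F L q A - h49_J0F L q A ^ (q ^ 2)) = 0 := by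
  haveI : CharP (IsLocalRing.ResidueField A) q := h19_residueField_charP A q hA
  refine h49_cv_wY_eq_zero L q hqL A hA ζ hζ hex 1 _ (h49_cv_Y_D3 L q hqL A hA ζ hζ 1) ?_
  show jqModC (IsLocalRing.ResidueField A) - jqModC (IsLocalRing.ResidueField A) ^ (q ^ 2) ≠ 0
  rw [h49_cv_jk_pow_sq]
  exact h49_cv_jk_sub_E_ne_zero _ q _

include hA in
theorem h49_cv_w_D3_two :
    h98_w2 L q hqL A ζ hζ hex 2 (h49_J2F L q A - h49_J0F L q A ^ (q ^ 2)) = 0 := by
  haveI : CharP (IsLocalRing.ResidueField A) q := h19_residueField_charP A q hA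
  refine h49_cv_wY_eq_zero L q hqL A hA ζ hζ hex 2 _ (h49_cv_Y_D3 L q hqL A hA ζ hζ 2) ?_
  show jqModC (IsLocalRing.ResidueField A)
    - qExpand (IsLocalRing.ResidueField A) q (qExpand (IsLocalRing.ResidueField A) q
        (jqModC (IsLocalRing.ResidueField A))) ^ (q ^ 2) ≠ 0
  rw [h49_cv_EE_pow_sq]
  exact h49_cv_jk_sub_E_ne_zero _ q _

/-! ### (Z) `Z = J2 - J0` : `w = (0, 1, 0)` -/

theorem h49_Z_eq_zm : h49_J2F L q A - h49_J0F L q A = h98_zm L q hqL A := by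
  apply Subtype.ext
  rw [h98_coe_zm]
  show heckeBetaBar Qb (L * q) q (heckeBetaBar Qb L q (h59_jbar L)) - h59_jbar (L * q * q) = _
  rw [h49_cv_J2_eq L q hqL, h49_cv_J0_eq]

include hA hqL hζ in
theorem h49_Z_ne_zero : h49_J2F L q A - h49_J0F L q A ≠ 0 := by
  rw [h49_Z_eq_zm L q hqL]
  exact h98_zm_ne_zero L q hqL A hA ζ hζ

include hA in
theorem h49_cv_w_Z_zero :
    h98_w2 L q hqL A ζ hζ hex 0 (h49_J2F L q A - h49_J0F L q A) = 0 := by
  refine h49_cv_wY_eq_zero L q hqL A hA ζ hζ hex 0 _ (h49_cv_Y_Z L q hqL A hA ζ hζ 0) ?_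
  show qExpand (IsLocalRing.ResidueField A) q (qExpand (IsLocalRing.ResidueField A) q
        (jqModC (IsLocalRing.ResidueField A))) - jqModC (IsLocalRing.ResidueField A) ≠ 0
  exact h49_cv_E_sub_jk_ne_zero _ q _

include hA in
theorem h49_cv_w_Z_one :
    h98_w2 L q hqL A ζ hζ hex 1 (h49_J2F L q A - h49_J0F L q A) = 1 := by
  rw [h49_Z_eq_zm L q hqL]
  exact h98_w2_zm L q hqL A hA ζ hζ hex

include hA in
theorem h49_cv_w_Z_two :
    h98_w2 L q hqL A ζ hζ hex 2 (h49_J2F L q A - h49_J0F L q A) = 0 := by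
  refine h49_cv_wY_eq_zero L q hqL A hA ζ hζ hex 2 _ (h49_cv_Y_Z L q hqL A hA ζ hζ 2) ?_
  show jqModC (IsLocalRing.ResidueField A)
    - qExpand (IsLocalRing.ResidueField A) q (qExpand (IsLocalRing.ResidueField A) q
        (jqModC (IsLocalRing.ResidueField A))) ≠ 0
  exact h49_cv_jk_sub_E_ne_zero _ q _

end Val

end Fermat.Agent.S36
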