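/-
S36 / row I-CUSP (helper16): the instance of `h16_CuspHyp` at the chart `1/j` of level `M q²`
with the three vertical valuations `h98_w2`, and the exports (X1), (X2) at a cusp point.

Inputs: helper49's exact vertical values (`h49_CuspVert`), `h98_hq0/1/2`, helper63's middle
cusps of level `q²` (`h63_mid_cusp_one`), the family API (`h80_FamInst`).
-/
import Mathlib
import Fermat.Agent.S36.h16_CuspQ2
import Fermat.Agent.S36.h49_CuspVert
import Fermat.Agent.S36.h63_MidCuspLevel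
import Fermat.Agent.S36.h80_FamInst

set_option autoImplicit false
set_option synthInstance.maxHeartbeats 400000
set_option linter.unusedSectionVars false

noncomputable section

namespace Fermat.Agent.S36

open AlgebraicCurve HahnSeries ModularCurve IntermediateField
open Fermat.Agent.S24 Fermat.Agent.S18 Fermat.Agent.S37 Fermat.Agent.S34 Fermat.Agent.S19
  Fermat.Agent.S35

local notation "Qb" => AlgebraicClosure ℚ

theorem h16_w_mul_unit {F : Type*} [Field F] {w : F → ℤ} (hw : h99_IsVal w) {d u : F}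
    (hd : d ≠ 0) (hu : u ≠ 0) (hu0 : w u = 0) : w (d * u) = w d := by
  rw [hw.map_mul d u hd hu, hu0, add_zero]

theorem h16_w_pow_inv {F : Type*} [Field F] {w : F → ℤ} (hw : h99_IsVal w) {x : F} (hx : x ≠ 0)
    (hx0 : w x = 0) (n : ℕ) : (x ^ n)⁻¹ ≠ 0 ∧ w (x ^ n)⁻¹ = 0 := by
  refine ⟨inv_ne_zero (pow_ne_zero n hx), ?_⟩
  rw [h99_w_inv hw (pow_ne_zero n hx), h99_w_pow hw hx, hx0, mul_zero, neg_zero]

section Inst

variable (M q : ℕ) [NeZero M] [NeZero q] [Fact q.Prime] (hqM : ¬ q ∣ M)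
  (A : ValuationSubring Qb) (hA : A.LiesOverPrime q) (ζ : Qb) (hζ : IsPrimitiveRoot ζ q)
  (hex : h98_Ex M q hqM A ζ hζ)

local notation "V2" => h80_fam2 (M * q * q) (A.inertiaSubgroupIn ℚ) (h98_w2 M q hqM A ζ hζ hex)
  (h98_hw2mul M q hqM A hA ζ hζ hex) (h98_hw2add M q hqM A hA ζ hζ hex)

local notation "II" => A.inertiaSubgroupIn ℚ

include hA in
/-- `G₁ ≡ 1` on `C20`, `C11`. -/
theorem h16_inst_G1 (c : Fin 3)
    (hc : 0 < h98_w2 M q hqM A ζ hζ hex c (h16_J1F M q II - h16_J0F M q II ^ q))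
    (hne : h16_J1F M q II - h16_J0F M q II ^ q ≠ 0) :
    0 < h98_w2 M q hqM A ζ hζ hex c (h16_G1F M q II - 1) := by
  have hw := h98_w2_isVal M q hqM A hA ζ hζ hex c
  have hJ := h16_J0F_ne_zero M q II
  have hJ0 : h98_w2 M q hqM A ζ hζ hex c (h16_J0F M q II) = 0 :=
    h49_cv_w_J0 M q hqM A hA ζ hζ hex c
  obtain ⟨hu, hu0⟩ := h16_w_pow_inv hw hJ hJ0 q
  have e : h16_G1F M q II - 1
      = (h16_J1F M q II - h16_J0F M q II ^ q) * (h16_J0F M q II ^ q)⁻¹ := by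
    rw [h16_G1F, inv_pow, sub_mul, mul_inv_cancel₀ (pow_ne_zero q hJ)]
  rw [e, h16_w_mul_unit hw hne hu hu0]
  exact hc

include hA in
/-- `G₁^q ≡ (1/j)^(q²-1)` on `C02`. -/
theorem h16_inst_G1_C02
    (hc : 0 < h98_w2 M q hqM A ζ hζ hex 2 (h16_J1F M q II ^ q - h16_J0F M q II))
    (hne : h16_J1F M q II ^ q - h16_J0F M q II ≠ 0) :
    0 < h98_w2 M q hqM A ζ hζ hex 2
      (h16_G1F M q II ^ q - (h16_J0F M q II)⁻¹ ^ (q * q - 1)) := by
  have hw := h98_w2_isVal M q hqM A hA ζ hζ hex 2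
  have hJ := h16_J0F_ne_zero M q II
  have hJ0 : h98_w2 M q hqM A ζ hζ hex 2 (h16_J0F M q II) = 0 :=
    h49_cv_w_J0 M q hqM A hA ζ hζ hex 2
  obtain ⟨hu, hu0⟩ := h16_w_pow_inv hw hJ hJ0 (q * q)
  have hq : 1 ≤ q * q := Nat.one_le_iff_ne_zero.mpr (mul_ne_zero (NeZero.ne q) (NeZero.ne q))
  obtain ⟨n, hn⟩ : ∃ n, q * q = n + 1 := ⟨q * q - 1, (Nat.sub_add_cancel hq).symm⟩
  have e : h16_G1F M q II ^ q - (h16_J0F M q II)⁻¹ ^ (q * q - 1)
      = (h16_J1F M q II ^ q - h16_J0F M q II) * (h16_J0F M q II ^ (q * q))⁻¹ := by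
    have key : ∀ x : ↥(h69_F0 (M * q * q) II), x ≠ 0 → (x ^ n)⁻¹ = x * (x ^ (n + 1))⁻¹ :=
      fun x hx => by
        rw [pow_succ]
        field_simp
    rw [h16_G1F, mul_pow, ← pow_mul, hn, Nat.add_sub_cancel, inv_pow, inv_pow, sub_mul]
    congr 1
    exact key _ hJ
  rw [e, h16_w_mul_unit hw hne hu hu0]
  exact hc

include hA in
/-- `G₃ ≡ 1` on `C20`. -/
theorem h16_inst_G3_C20
    (hc : 0 < h98_w2 M q hqM A ζ hζ hex 0 (h16_J2F M q II - h16_J0F M q II ^ (q * q)))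
    (hne : h16_J2F M q II - h16_J0F M q II ^ (q * q) ≠ 0) :
    0 < h98_w2 M q hqM A ζ hζ hex 0 (h16_G3F M q II - 1) := by
  have hw := h98_w2_isVal M q hqM A hA ζ hζ hex 0
  have hJ := h16_J0F_ne_zero M q II
  have hJ0 : h98_w2 M q hqM A ζ hζ hex 0 (h16_J0F M q II) = 0 :=
    h49_cv_w_J0 M q hqM A hA ζ hζ hex 0
  obtain ⟨hu, hu0⟩ := h16_w_pow_inv hw hJ hJ0 (q * q)
  have e : h16_G3F M q II - 1
      = (h16_J2F M q II - h16_J0F M q II ^ (q * q)) * (h16_J0F M q II ^ (q * q))⁻¹ := by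
    rw [h16_G3F, inv_pow, sub_mul, mul_inv_cancel₀ (pow_ne_zero (q * q) hJ)]
  rw [e, h16_w_mul_unit hw hne hu hu0]
  exact hc

include hqM hA hζ in
/-- **The instance**: the chart `1/j` of level `M q²` with the three vertical valuations
`h98_w2` satisfies the hypotheses of the cusp-point analysis. -/
theorem h16_cuspHyp : h16_CuspHyp M q II (V2) Sum.inl where
  hidx := by
    intro i
    rcases i with c | k
    · exact Or.inl ⟨c, rfl⟩
    · right
      obtain ⟨P, hP, hk⟩ := h80_famOf_hor (κ := Fin 3) (M * q * q) II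
        (h59_jbar (M * q * q))⁻¹ (Sum.inr k) ⟨k, rfl⟩
      refine ⟨P, ?_, fun f _ => ?_⟩
      · rw [Place.ord_inv] at hP
        show P.ord (h59_jbar (M * q * q)) ≤ 0
        omega
      · rw [hk]
        rfl
  hvJ := fun c => ⟨h49_cv_w_J0 M q hqM A hA ζ hζ hex c, h49_cv_w_J1 M q hqM A hA ζ hζ hex c,
    h49_cv_w_J2 M q hqM A hA ζ hζ hex c⟩
  hq0 := h98_hq0 M q hqM A hA ζ hζ hex
  hq1 := h98_hq1 M q hqM A hA ζ hζ hex
  hq2 := h98_hq2 M q hqM A hA ζ hζ hex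
  hG10 := by
    have h1 : h16_J1F M q II - h16_J0F M q II ^ q ≠ 0 := h49_D1_ne_zero M q hqM A hA ζ hζ
    exact h16_inst_G1 M q hqM A hA ζ hζ hex 0 (h49_cv_w_D1_zero M q hqM A hA ζ hζ hex) h1
  hG11 := by
    have h1 : h16_J1F M q II - h16_J0F M q II ^ q ≠ 0 := h49_D1_ne_zero M q hqM A hA ζ hζ
    exact h16_inst_G1 M q hqM A hA ζ hζ hex 1 (h49_cv_w_D1_one M q hqM A hA ζ hζ hex) h1
  hG12 := by
    have h1 : h16_J1F M q II ^ q - h16_J0F M q II ≠ 0 := h49_D2_ne_zero M q hqM A hA ζ hζ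
    exact h16_inst_G1_C02 M q hqM A hA ζ hζ hex (h49_cv_w_D2_two M q hqM A hA ζ hζ hex) h1
  hG30 := by
    have h1 : h16_J2F M q II - h16_J0F M q II ^ (q * q) ≠ 0 := by
      have h2 := h49_D3_ne_zero M q hqM A hA ζ hζ
      rwa [sq] at h2
    have h3 : 0 < h98_w2 M q hqM A ζ hζ hex 0 (h16_J2F M q II - h16_J0F M q II ^ (q * q)) := by
      have h2 := h49_cv_w_D3_zero M q hqM A hA ζ hζ hex
      rwa [sq] at h2
    exact h16_inst_G3_C20 M q hqM A hA ζ hζ hex h3 h1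
  hmid := h49_cv_w_Z_one M q hqM A hA ζ hζ hex
  hS := fun P' h0 h1 h2 => h63_mid_cusp_one q P' h0 h1 h2

include hqM hA hζ in
/-- **Row I-CUSP, (X1) + (X2)** at the chart `1/j` of level `M q²`: at a point `m` with
`1/j ∈ m` and `q ∈ m`, exactly one vertical component `c0` passes through `m`, it is the only
index through `m` at which `q` is positive, and it has a local equation at `m`. -/
theorem h16_cusp_point (m : Ideal (V2).B) [hm : m.IsPrime] (a : (V2).B)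
    (haJ : (a : ↥(h69_F0 (M * q * q) II)) * h16_J0F M q II = 1) (ham : a ∈ m)
    (hqm : ((q : ℕ) : (V2).B) ∈ m) :
    ∃ c0 : Fin 3, (V2).Through m (Sum.inl c0) ∧ (∀ c, (V2).Through m (Sum.inl c) → c = c0) ∧
      (∀ i, (V2).Through m i → 0 < (V2).v i ((q : ℕ) : ↥(h69_F0 (M * q * q) II)) →
        i = Sum.inl c0) ∧
      ∃ π : ↥(h69_F0 (M * q * q) II), π ≠ 0 ∧ (V2).v (Sum.inl c0) π = 1 ∧
        ∀ k, (V2).Through m k → k ≠ Sum.inl c0 → (V2).v k π = 0 :=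
  (h16_cuspHyp M q hqM A hA ζ hζ hex).cusp_point m a haJ ham hqm

include hqM hA hζ in
/-- (X1) in the shape of the consumer (`h46_CuspOut`). -/
theorem h16_cusp_X1 (m : Ideal (V2).B) [hm : m.IsPrime] (a : (V2).B)
    (haJ : (a : ↥(h69_F0 (M * q * q) II)) * h16_J0F M q II = 1) (ham : a ∈ m)
    (hqm : ((q : ℕ) : (V2).B) ∈ m) :
    ∃ c0 : Fin 3, ∀ c, (V2).Through m (Sum.inl c) → c = c0 := by
  obtain ⟨c0, -, h1, -⟩ := h16_cusp_point M q hqM A hA ζ hζ hex m a haJ ham hqm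
  exact ⟨c0, h1⟩

include hqM hA hζ in
/-- (X2) in the shape of the consumer (`h46_CuspOut`). -/
theorem h16_cusp_X2 (m : Ideal (V2).B) [hm : m.IsPrime] (a : (V2).B)
    (haJ : (a : ↥(h69_F0 (M * q * q) II)) * h16_J0F M q II = 1) (ham : a ∈ m)
    (hqm : ((q : ℕ) : (V2).B) ∈ m) :
    ∀ c, (V2).Through m (Sum.inl c) →
      ∃ π : ↥(h69_F0 (M * q * q) II), π ≠ 0 ∧ (V2).v (Sum.inl c) π = 1 ∧
        ∀ k, (V2).Through m k → k ≠ Sum.inl c → (V2).v k π = 0 := by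
  obtain ⟨c0, -, h1, -, h2⟩ := h16_cusp_point M q hqM A hA ζ hζ hex m a haJ ham hqm
  intro c hc
  rw [h1 c hc]
  exact h2

/-! ### The cusp premise in helper89's shape (`hcusp` of `h89_hwit_chart2`) -/

/-- From the premises `q0 ∈ m`, `T ∈ m` (`q0 = q`, `T = 1/j`) to the binders `a`, `haJ`, `ham`,
`hqm` of the statements above. -/
theorem h16_cusp_premise (m : Ideal (V2).B)
    (q0 T : ↥(h69_F0 (M * q * q) II))
    (hq0 : (q0 : modularFunctionFieldBar (M * q * q))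
      = algebraMap Qb (modularFunctionFieldBar (M * q * q)) (q : Qb))
    (hT : (T : modularFunctionFieldBar (M * q * q)) = (h59_jbar (M * q * q))⁻¹)
    (hq : ∃ hq0B : q0 ∈ (V2).B, (⟨q0, hq0B⟩ : (V2).B) ∈ m)
    (hTm : ∃ hTB : T ∈ (V2).B, (⟨T, hTB⟩ : (V2).B) ∈ m) :
    ∃ a : (V2).B, (a : ↥(h69_F0 (M * q * q) II)) = T ∧
      (a : ↥(h69_F0 (M * q * q) II)) * h16_J0F M q II = 1 ∧ a ∈ m ∧
      ((q : ℕ) : (V2).B) ∈ m := by
  obtain ⟨hq0B, hq0m⟩ := hq
  obtain ⟨hTB, hTm⟩ := hTm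
  refine ⟨⟨T, hTB⟩, rfl, ?_, hTm, ?_⟩
  · apply Subtype.ext
    show (T : modularFunctionFieldBar (M * q * q)) * h59_jbar (M * q * q) = 1
    rw [hT]
    exact inv_mul_cancel₀ (h54_isChart_jbar (M * q * q)).ne_zero
  · have e : ((q : ℕ) : (V2).B) = ⟨q0, hq0B⟩ := by
      apply Subtype.ext
      apply Subtype.ext
      show ((q : ℕ) : modularFunctionFieldBar (M * q * q)) = (q0 : modularFunctionFieldBar (M * q * q))
      rw [hq0, map_natCast]
    rw [e]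
    exact hq0m

end Inst

end Fermat.Agent.S36
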