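/-
S36 / row I-CUSP (helper16): the row in the shape of its consumer (`h94_hwit_final`).

* `h16_cusp2` : the cusp predicate on the maximal ideals of the chart `1/j` of level `M q²`
  (`q ∈ 𝔪` and `1/j ∈ 𝔪`, spelled as the two premises of `hcusp2` of `h94_hwit_final`);
* `h16_cusp_hone2` (X1), `h16_cusp_hX2` (X2), `h16_cusp_hcq`;
* `h16_cusp_row_of_X3` : from the residue data (X3), the binders `hU2`, `hLG2` of
  `h94_hwit_final` (via helper46's `h46_cusp_out`).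
-/
import Mathlib
import Fermat.Agent.S36.h16_CuspInst
import Fermat.Agent.S36.h46_CuspOut
import Fermat.Agent.S36.h65_NoethQ2
import Fermat.Agent.S36.h91_NoethQ

set_option autoImplicit false
set_option synthInstance.maxHeartbeats 400000
set_option linter.unusedSectionVars false

noncomputable section

namespace Fermat.Agent.S36

open AlgebraicCurve HahnSeries ModularCurve IntermediateField
open Fermat.Agent.S24 Fermat.Agent.S18 Fermat.Agent.S37 Fermat.Agent.S34 Fermat.Agent.S19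
  Fermat.Agent.S35

local notation "Qb" => AlgebraicClosure ℚ

section Row

variable (M q : ℕ) [NeZero M] [NeZero q] [Fact q.Prime] (hqM : ¬ q ∣ M)
  (A : ValuationSubring Qb) (hA : A.LiesOverPrime q) (ζ : Qb) (hζ : IsPrimitiveRoot ζ q)
  (hex : h98_Ex M q hqM A ζ hζ)

local notation "V2" => h80_fam2 (M * q * q) (A.inertiaSubgroupIn ℚ) (h98_w2 M q hqM A ζ hζ hex)
  (h98_hw2mul M q hqM A hA ζ hζ hex) (h98_hw2add M q hqM A hA ζ hζ hex)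

local notation "II" => A.inertiaSubgroupIn ℚ

/-- **The cusp predicate** on the ideals of the chart `1/j` of level `M q²`: `q ∈ 𝔪` and
`1/j ∈ 𝔪` (in the spelling of the premises of `hcusp2` of `h94_hwit_final`). -/
def h16_cusp2 (𝔪 : Ideal (V2).B) : Prop :=
  (∃ hq0B : ((q : ℕ) : ↥(h69_F0 (M * q * q) II)) ∈ (V2).B,
    (⟨((q : ℕ) : ↥(h69_F0 (M * q * q) II)), hq0B⟩ : (V2).B) ∈ 𝔪) ∧
  (∃ hTB : (⟨(h59_jbar (M * q * q))⁻¹, h80_jbar_inv_mem_F0 (M * q * q) II⟩ :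
      ↥(h69_F0 (M * q * q) II)) ∈ (V2).B,
    (⟨(⟨(h59_jbar (M * q * q))⁻¹, h80_jbar_inv_mem_F0 (M * q * q) II⟩ :
      ↥(h69_F0 (M * q * q) II)), hTB⟩ : (V2).B) ∈ 𝔪)

/-- `hcusp2` of `h94_hwit_final` for `cusp2 := h16_cusp2`. -/
theorem h16_cusp2_intro (𝔪 : Ideal (V2).B) (_h𝔪 : 𝔪.IsMaximal)
    (h1 : ∃ hq0B : ((q : ℕ) : ↥(h69_F0 (M * q * q) II)) ∈ (V2).B,
      (⟨((q : ℕ) : ↥(h69_F0 (M * q * q) II)), hq0B⟩ : (V2).B) ∈ 𝔪)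
    (h2 : ∃ hTB : (⟨(h59_jbar (M * q * q))⁻¹, h80_jbar_inv_mem_F0 (M * q * q) II⟩ :
        ↥(h69_F0 (M * q * q) II)) ∈ (V2).B,
      (⟨(⟨(h59_jbar (M * q * q))⁻¹, h80_jbar_inv_mem_F0 (M * q * q) II⟩ :
        ↥(h69_F0 (M * q * q) II)), hTB⟩ : (V2).B) ∈ 𝔪) :
    h16_cusp2 M q hqM A hA ζ hζ hex 𝔪 := ⟨h1, h2⟩

/-- The data at a cusp point: `a = 1/j ∈ 𝔪` and `q ∈ 𝔪`. -/
theorem h16_cusp2_data (𝔪 : Ideal (V2).B) (h : h16_cusp2 M q hqM A hA ζ hζ hex 𝔪) :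
    ∃ a : (V2).B,
      (a : ↥(h69_F0 (M * q * q) II)) * h16_J0F M q II = 1 ∧ a ∈ 𝔪 ∧
      ((q : ℕ) : (V2).B) ∈ 𝔪 := by
  obtain ⟨a, -, h1, h2, h3⟩ := h16_cusp_premise M q hqM A hA ζ hζ hex 𝔪
    ((q : ℕ) : ↥(h69_F0 (M * q * q) II))
    (⟨(h59_jbar (M * q * q))⁻¹, h80_jbar_inv_mem_F0 (M * q * q) II⟩ : ↥(h69_F0 (M * q * q) II))
    (by
      show ((q : ℕ) : modularFunctionFieldBar (M * q * q)) = _
      rw [map_natCast]) rfl h.1 h.2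
  exact ⟨a, h1, h2, h3⟩

/-- `hcq`: a cusp point contains `q`. -/
theorem h16_cusp_hcq (𝔪 : Ideal (V2).B) (_h𝔪 : 𝔪.IsMaximal)
    (h : h16_cusp2 M q hqM A hA ζ hζ hex 𝔪) : ((q : ℕ) : (V2).B) ∈ 𝔪 := by
  obtain ⟨_, -, -, h3⟩ := h16_cusp2_data M q hqM A hA ζ hζ hex 𝔪 h
  exact h3

include hζ in
/-- **(X1) = `hone2`** of `h94_hwit_final`: exactly one vertical component through a cusp
point. -/
theorem h16_cusp_hone2 (𝔪 : Ideal (V2).B) (h𝔪 : 𝔪.IsMaximal)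
    (h : h16_cusp2 M q hqM A hA ζ hζ hex 𝔪) :
    ∃ k0 : Fin 3, ∀ k : Fin 3, (V2).Through 𝔪 (Sum.inl k) → k = k0 := by
  have := h𝔪.isPrime
  obtain ⟨a, h1, h2, h3⟩ := h16_cusp2_data M q hqM A hA ζ hζ hex 𝔪 h
  exact h16_cusp_X1 M q hqM A hA ζ hζ hex 𝔪 a h1 h2 h3

include hζ in
/-- **(X2)** in the shape of `hX2` of `h46_cusp_out`: a local equation of the vertical
component through a cusp point. -/
theorem h16_cusp_hX2 (𝔪 : Ideal (V2).B) (h𝔪 : 𝔪.IsMaximal)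
    (h : h16_cusp2 M q hqM A hA ζ hζ hex 𝔪) :
    ∀ c : Fin 3, (V2).Through 𝔪 (Sum.inl c) →
      ∃ π : ↥(h69_F0 (M * q * q) II), π ≠ 0 ∧ (V2).v (Sum.inl c) π = 1 ∧
        ∀ k, (V2).Through 𝔪 k → k ≠ Sum.inl c → (V2).v k π = 0 := by
  have := h𝔪.isPrime
  obtain ⟨a, h1, h2, h3⟩ := h16_cusp2_data M q hqM A hA ζ hζ hex 𝔪 h
  exact h16_cusp_X2 M q hqM A hA ζ hζ hex 𝔪 a h1 h2 h3

include hζ in
/-- The vertical component through a cusp point exists. -/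
theorem h16_cusp_through (𝔪 : Ideal (V2).B) (h𝔪 : 𝔪.IsMaximal)
    (h : h16_cusp2 M q hqM A hA ζ hζ hex 𝔪) :
    ∃ c0 : Fin 3, (V2).Through 𝔪 (Sum.inl c0) ∧
      (∀ c, (V2).Through 𝔪 (Sum.inl c) → c = c0) ∧
      ∀ i, (V2).Through 𝔪 i → 0 < (V2).v i ((q : ℕ) : ↥(h69_F0 (M * q * q) II)) →
        i = Sum.inl c0 := by
  have := h𝔪.isPrime
  obtain ⟨a, h1, h2, h3⟩ := h16_cusp2_data M q hqM A hA ζ hζ hex 𝔪 h
  obtain ⟨c0, hc0, hu, hq, -⟩ := h16_cusp_point M q hqM A hA ζ hζ hex 𝔪 a h1 h2 h3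
  exact ⟨c0, hc0, hu, hq⟩

include hA in
/-- `q` is positive on the three components. -/
theorem h16_w2_q_pos (c : Fin 3) :
    0 < h98_w2 M q hqM A ζ hζ hex c ((q : ℕ) : ↥(h69_F0 (M * q * q) II)) := by
  have hq2 : 2 ≤ q := (Fact.out : q.Prime).two_le
  have hcases : c = 0 ∨ c = 1 ∨ c = 2 := by
    revert c
    decide
  rcases hcases with rfl | rfl | rfl
  · rw [h98_hq0 M q hqM A hA ζ hζ hex]
    norm_num
  · rw [h98_hq1 M q hqM A hA ζ hζ hex]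
    have : (2 : ℤ) ≤ q := by exact_mod_cast hq2
    omega
  · rw [h98_hq2 M q hqM A hA ζ hζ hex]
    norm_num

universe u

include hζ in
/-- **Row I-CUSP from the residue data (X3)**: the binders `hU2` and `hLG2` of
`h94_hwit_final` (for `cusp2 := h16_cusp2`, every exponent `n` prime to `q`). -/
theorem h16_cusp_row_of_X3
    (hX3 : ∀ 𝔪 : Ideal (V2).B, 𝔪.IsMaximal → h16_cusp2 M q hqM A hA ζ hζ hex 𝔪 →
      ∀ c : Fin 3, (V2).Through 𝔪 (Sum.inl c) →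
        ∃ (Fb : Type u) (_ : Field Fb), Nonempty (h62_Res (V2) 𝔪 (Sum.inl c) Fb))
    {n : ℕ} (hn : ¬ q ∣ n) :
    (∀ 𝔪 : Ideal (V2).B, 𝔪.IsMaximal → h16_cusp2 M q hqM A hA ζ hζ hex 𝔪 →
      ∀ i, (V2).Through 𝔪 i →
      ∃ e : ↥(h69_F0 (M * q * q) II), e ≠ 0 ∧ (V2).v i e = 1 ∧
        ∀ j, (V2).Through 𝔪 j → j ≠ i → (V2).v j e = 0) ∧
    (∀ 𝔪 : Ideal (V2).B, 𝔪.IsMaximal → h16_cusp2 M q hqM A hA ζ hζ hex 𝔪 →
      ∀ e ω : ↥(h69_F0 (M * q * q) II),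
      (∀ c, (V2).Through 𝔪 c → 0 < (V2).v c ((q : ℕ) : ↥(h69_F0 (M * q * q) II)) →
        0 ≤ (V2).v c e) →
      ω ≠ 0 → (V2).InLoc 𝔪 ω → (V2).InLoc 𝔪 ω⁻¹ →
      (∀ c, (V2).Through 𝔪 c → 0 < (V2).v c ((q : ℕ) : ↥(h69_F0 (M * q * q) II)) →
        (e ^ n * ω = 1 ∨
          (V2).v c ((q : ℕ) : ↥(h69_F0 (M * q * q) II)) ≤ (V2).v c (e ^ n * ω - 1))) →
      ∃ (ξ : Fin 3 ⊕ h80_HorIdx (h80_horOrd (M * q * q) II (h59_jbar (M * q * q))⁻¹) →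
            ↥(h69_F0 (M * q * q) II))
          (y : ↥(h69_F0 (M * q * q) II)),
        (∀ c, (V2).Through 𝔪 c → 0 < (V2).v c ((q : ℕ) : ↥(h69_F0 (M * q * q) II)) →
          (V2).InLoc 𝔪 (ξ c) ∧ ξ c ^ n = 1) ∧
        y ≠ 0 ∧ (V2).InLoc 𝔪 y ∧ (V2).InLoc 𝔪 y⁻¹ ∧
        ∀ c, (V2).Through 𝔪 c → 0 < (V2).v c ((q : ℕ) : ↥(h69_F0 (M * q * q) II)) →
          (e = ξ c * y ∨
            (V2).v c ((q : ℕ) : ↥(h69_F0 (M * q * q) II)) ≤ (V2).v c (e - ξ c * y))) :=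
  h46_cusp_out (M * q * q) q A hA (h98_w2 M q hqM A ζ hζ hex)
    (h98_hw2mul M q hqM A hA ζ hζ hex) (h98_hw2add M q hqM A hA ζ hζ hex)
    (h91_w2_hwA M q hqM A hA ζ hζ hex)
    (fun c => h49_cv_w_J0 M q hqM A hA ζ hζ hex c)
    (h16_w2_q_pos M q hqM A hA ζ hζ hex)
    (h65_hvert_q2 M q hqM A hA ζ hζ hex)
    (h16_cusp2 M q hqM A hA ζ hζ hex)
    (h16_cusp_hcq M q hqM A hA ζ hζ hex)
    (h16_cusp_hX2 M q hqM A hA ζ hζ hex)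
    hX3 hn

end Row

end Fermat.Agent.S36
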