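import Mathlib

/-!
# S36 / row L3 (cusps), Mathlib-only core of the log form (H3)  (helper16)

Setting of the application: `B` is the `K₀`-rational local ring of the level-`qL` model at a cusp
point of the component `Z_F`, `q` the residue characteristic (`B / qB` is the local ring of the
special fibre, a DVR with uniformiser `σ̄`), `σ = α^* s` the equation of the cusp section,
`τ = β^* t`.  The geometric inputs are `τ ∣ σ ^ M` (the only horizontal prime through the point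
on which `τ` vanishes is the cusp) and `τ ≡ σ ^ n mod q` (`red₁ (β^* t) = (red₁ (α^* s)) ^ q`).

* `h16_eq_unit_mul_pow_of_dvd_pow` : `τ ∣ σ ^ M`, `σ` prime `⟹ τ = u * σ ^ a`, `u` a unit.
* `h16_log_core` : **the log form** `τ = σ ^ n * (1 + q * d)`.
* `h16_log_core_of_dvd_unit_mul` : the same from `τ ∣ u * σ ^ M`, `u` a unit.
* `h16_log_core_of_chain` : the shape in which the modular side produces the divisibility:
  `τ ∣ c₁`, `c₁ = c₀ ^ q' * v` (`v` a unit), `c₀ = u * σ ^ w` (`u` a unit)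
  (`c₀ = 1 / j₀`, `c₁ = 1 / j₁`).
-/

set_option autoImplicit false

namespace Fermat.Agent.S36

variable {B : Type*} [CommRing B] [IsDomain B]

/-- A divisor of a power of a prime element is a unit times a power of it. -/
theorem h16_eq_unit_mul_pow_of_dvd_pow {σ τ : B} (hσ : Prime σ) {M : ℕ} (h : τ ∣ σ ^ M) :
    ∃ (u : Bˣ) (a : ℕ), a ≤ M ∧ τ = (u : B) * σ ^ a := by
  obtain ⟨a, ha, hassoc⟩ := (dvd_prime_pow hσ M).1 h
  obtain ⟨u, hu⟩ := hassoc.symm
  exact ⟨u, a, ha, by rw [← hu, mul_comm]⟩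

/-- **The log form.**  `σ` prime, `(q)` prime, `σ ∉ (q)`, `(q, σ) ≠ ⊤`, `τ ∣ σ ^ M` and
`τ ≡ σ ^ n mod q`  `⟹`  `τ = σ ^ n * (1 + q * d)`. -/
theorem h16_log_core (q σ τ : B) (hσ : Prime σ) (hq : (Ideal.span {q} : Ideal B).IsPrime)
    (hσq : σ ∉ (Ideal.span {q} : Ideal B)) (hqσ : (Ideal.span {q, σ} : Ideal B) ≠ ⊤)
    {M n : ℕ} (hdvd : τ ∣ σ ^ M) (hred : τ - σ ^ n ∈ (Ideal.span {q} : Ideal B)) :
    ∃ d : B, τ = σ ^ n * (1 + q * d) := by
  obtain ⟨u, a, -, hτ⟩ := h16_eq_unit_mul_pow_of_dvd_pow hσ hdvd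
  have hpow : ∀ k : ℕ, σ ^ k ∉ (Ideal.span {q} : Ideal B) := fun k hk => hσq (hq.mem_of_pow_mem k hk)
  have hqmem : q ∈ (Ideal.span {q, σ} : Ideal B) := Ideal.subset_span (by simp)
  have hσmem : σ ∈ (Ideal.span {q, σ} : Ideal B) := Ideal.subset_span (by simp)
  have hle : (Ideal.span {q} : Ideal B) ≤ Ideal.span {q, σ} := by
    rw [Ideal.span_le]
    intro x hx
    rw [Set.mem_singleton_iff] at hx
    rw [hx]
    exact hqmem
  rcases lt_trichotomy a n with hlt | heq | hgt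
  · -- `a < n`: `u - σ ^ (n - a) ∈ (q)`, so the unit `u` lies in `(q, σ)`
    exfalso
    have h1 : σ ^ a * ((u : B) - σ ^ (n - a)) ∈ (Ideal.span {q} : Ideal B) := by
      have : σ ^ a * ((u : B) - σ ^ (n - a)) = τ - σ ^ n := by
        rw [hτ, mul_sub, ← pow_add, Nat.add_sub_cancel' hlt.le]
        ring
      rw [this]
      exact hred
    have h2 : (u : B) - σ ^ (n - a) ∈ (Ideal.span {q} : Ideal B) :=
      (hq.mem_or_mem h1).resolve_left (hpow a)
    have h3 : σ ^ (n - a) ∈ (Ideal.span {q, σ} : Ideal B) :=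
      Ideal.pow_mem_of_mem _ hσmem _ (by omega)
    have h4 : (u : B) ∈ (Ideal.span {q, σ} : Ideal B) := by
      have := Ideal.add_mem _ (hle h2) h3
      rwa [sub_add_cancel] at this
    exact hqσ (Ideal.eq_top_of_isUnit_mem _ h4 u.isUnit)
  · -- `a = n`
    subst heq
    have h1 : σ ^ a * ((u : B) - 1) ∈ (Ideal.span {q} : Ideal B) := by
      have : σ ^ a * ((u : B) - 1) = τ - σ ^ a := by
        rw [hτ]
        ring
      rw [this]
      exact hred
    have h2 : (u : B) - 1 ∈ (Ideal.span {q} : Ideal B) :=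
      (hq.mem_or_mem h1).resolve_left (hpow a)
    obtain ⟨d, hd⟩ := Ideal.mem_span_singleton'.1 h2
    refine ⟨d, ?_⟩
    rw [hτ]
    have : (u : B) = 1 + q * d := by
      rw [mul_comm q d, hd]
      ring
    rw [this]
    ring
  · -- `a > n`: `σ ^ (a - n) * u - 1 ∈ (q)`, so `1 ∈ (q, σ)`
    exfalso
    have h1 : σ ^ n * (σ ^ (a - n) * (u : B) - 1) ∈ (Ideal.span {q} : Ideal B) := by
      have : σ ^ n * (σ ^ (a - n) * (u : B) - 1) = τ - σ ^ n := by
        rw [hτ, mul_sub, ← mul_assoc, ← pow_add, Nat.add_sub_cancel' hgt.le]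
        ring
      rw [this]
      exact hred
    have h2 : σ ^ (a - n) * (u : B) - 1 ∈ (Ideal.span {q} : Ideal B) :=
      (hq.mem_or_mem h1).resolve_left (hpow n)
    have h3 : σ ^ (a - n) * (u : B) ∈ (Ideal.span {q, σ} : Ideal B) :=
      Ideal.mul_mem_right _ _ (Ideal.pow_mem_of_mem _ hσmem _ (by omega))
    have h4 : (1 : B) ∈ (Ideal.span {q, σ} : Ideal B) := by
      have := Ideal.sub_mem _ h3 (hle h2)
      rwa [sub_sub_cancel] at this
    exact hqσ ((Ideal.eq_top_iff_one _).2 h4)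

/-- The log form from `τ ∣ u * σ ^ M` with `u` a unit. -/
theorem h16_log_core_of_dvd_unit_mul (q σ τ : B) (hσ : Prime σ)
    (hq : (Ideal.span {q} : Ideal B).IsPrime)
    (hσq : σ ∉ (Ideal.span {q} : Ideal B)) (hqσ : (Ideal.span {q, σ} : Ideal B) ≠ ⊤)
    {M n : ℕ} {u : B} (hu : IsUnit u) (hdvd : τ ∣ u * σ ^ M)
    (hred : τ - σ ^ n ∈ (Ideal.span {q} : Ideal B)) :
    ∃ d : B, τ = σ ^ n * (1 + q * d) :=
  h16_log_core q σ τ hσ hq hσq hqσ ((hu.dvd_mul_left).1 hdvd) hred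

/-- The log form in the shape produced by the modular side: `τ ∣ c₁`, `c₁ = c₀ ^ q' * v` with
`v` a unit (`c₁ = 1 / j₁`, `c₀ = 1 / j₀`, `v = (j₁ / j₀ ^ q)⁻¹`), `c₀ = u * σ ^ w` with `u` a unit
(the cusp is the only horizontal prime through the point on which `1 / j₀` vanishes). -/
theorem h16_log_core_of_chain (q σ τ : B) (hσ : Prime σ)
    (hq : (Ideal.span {q} : Ideal B).IsPrime)
    (hσq : σ ∉ (Ideal.span {q} : Ideal B)) (hqσ : (Ideal.span {q, σ} : Ideal B) ≠ ⊤)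
    {n q' w : ℕ} {c₀ c₁ u v : B} (hu : IsUnit u) (hv : IsUnit v)
    (h0 : c₀ = u * σ ^ w) (h1 : c₁ = c₀ ^ q' * v) (hτ : τ ∣ c₁)
    (hred : τ - σ ^ n ∈ (Ideal.span {q} : Ideal B)) :
    ∃ d : B, τ = σ ^ n * (1 + q * d) := by
  refine h16_log_core_of_dvd_unit_mul q σ τ hσ hq hσq hqσ (M := w * q')
    ((hu.pow q').mul hv) ?_ hred
  have : c₁ = u ^ q' * v * σ ^ (w * q') := by
    rw [h1, h0, mul_pow, ← pow_mul]
    ring
  rw [← this]
  exact hτ

end Fermat.Agent.S36
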