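/-
S36 / row I-VAL, (V11-EX) (helper18): EXISTENCE of the `ℤ`-valued Gauss order of an
inertia-fixed function on the *middle* expansion of `F(M q²)` (and on the standard expansion).

* `h18_Bdd A π` : the subring of *bounded* Laurent series (`π ^ s * Y` is `A`-integral);
* `h18_bounded_gv` : a nonzero bounded series whose coefficients are all of the form
  `π ^ n * unit` is `π ^ m * (A-integral series with nonzero reduction)`;
* `h18_exists_rat_multiple` : every nonzero polynomial over `ℚ̄` divides a nonzero rational one;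
* `h18_gv_exists_gen` : for a ring hom `E : F(N) → ℚ̄((t))` fixing constants and `j`, with
  `E j_N` bounded, and `f ≠ 0` with `E f` coefficientwise fixed by a set `P` of automorphisms
  whose fixed elements are `π ^ n * unit`:  `∃ n, h98_GV A π (E f) n`;
* `h18_std_gv_exists` : the standard expansion at any level `N` (`π = q`, `P` = inertia);
* `h18_mid_gv_exists` : the middle expansion at level `M q²` (`π = ζ - 1`, helper49's binders).
-/
import Mathlib
import Fermat.Agent.S36.h49_MidGal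
import Fermat.Agent.S36.h98_NRVal
import Fermat.Agent.S18.h69_PowerBasis
import Fermat.Agent.S34.h31_IntSeriesMod
import Fermat.Agent.S18.h64_RankOne

set_option autoImplicit false
set_option synthInstance.maxHeartbeats 400000
set_option linter.style.haveILetI false

noncomputable section

open ModularCurve AlgebraicCurve

namespace Fermat.Agent.S36

open Fermat.Agent.S34 Fermat.Agent.S37 Fermat.Agent.S24 Fermat.Agent.S35 Fermat.Agent.S18
  Fermat.Agent.GAL Fermat.Agent.S40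

local notation "Qb" => AlgebraicClosure ℚ

/-! ## Bounded series -/

section Core

variable {K : Type*} [Field K] (A : ValuationSubring K)

theorem h18_coeff_const_mul (c : K) (Y : LaurentSeries K) (k : ℤ) :
    (algebraMap K (LaurentSeries K) c * Y).coeff k = c * Y.coeff k := by
  rw [algebraMap_laurentSeries_eq_single]
  exact HahnSeries.coeff_single_zero_mul

theorem h18_const_mem_int {c : K} (hc : c ∈ A) :
    algebraMap K (LaurentSeries K) c ∈ h31_intSeries A := by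
  rw [algebraMap_laurentSeries_eq_single]
  exact h31_single_mem A 0 hc

/-- Bounded Laurent series: `π ^ s * Y` is `A`-integral for some `s`. -/
def h18_Bdd (π : K) (hπ : π ∈ A) : Subring (LaurentSeries K) where
  carrier := {Y | ∃ s : ℕ, algebraMap K (LaurentSeries K) (π ^ s) * Y ∈ h31_intSeries A}
  mul_mem' := by
    rintro a b ⟨s, hs⟩ ⟨t, ht⟩
    refine ⟨s + t, ?_⟩
    have h : algebraMap K (LaurentSeries K) (π ^ (s + t)) * (a * b)
        = (algebraMap K (LaurentSeries K) (π ^ s) * a)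
          * (algebraMap K (LaurentSeries K) (π ^ t) * b) := by
      rw [pow_add, map_mul]
      ring
    rw [h]
    exact mul_mem hs ht
  one_mem' := ⟨0, by
    rw [pow_zero, map_one, one_mul]
    exact one_mem _⟩
  add_mem' := by
    rintro a b ⟨s, hs⟩ ⟨t, ht⟩
    refine ⟨s + t, ?_⟩
    have h : algebraMap K (LaurentSeries K) (π ^ (s + t)) * (a + b)
        = algebraMap K (LaurentSeries K) (π ^ t) * (algebraMap K (LaurentSeries K) (π ^ s) * a)
          + algebraMap K (LaurentSeries K) (π ^ s)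
            * (algebraMap K (LaurentSeries K) (π ^ t) * b) := by
      rw [pow_add, map_mul]
      ring
    rw [h]
    exact add_mem (mul_mem (h18_const_mem_int A (pow_mem hπ t)) hs)
      (mul_mem (h18_const_mem_int A (pow_mem hπ s)) ht)
  zero_mem' := ⟨0, by
    rw [mul_zero]
    exact zero_mem _⟩
  neg_mem' := by
    rintro a ⟨s, hs⟩
    exact ⟨s, by rw [mul_neg]; exact neg_mem hs⟩

theorem h18_mem_Bdd {π : K} {hπ : π ∈ A} {Y : LaurentSeries K} :
    Y ∈ h18_Bdd A π hπ ↔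
      ∃ s : ℕ, algebraMap K (LaurentSeries K) (π ^ s) * Y ∈ h31_intSeries A := Iff.rfl

theorem h18_int_mem_Bdd {π : K} (hπ : π ∈ A) {Y : LaurentSeries K}
    (hY : Y ∈ h31_intSeries A) : Y ∈ h18_Bdd A π hπ :=
  ⟨0, by rw [pow_zero, map_one, one_mul]; exact hY⟩

/-- Constants are bounded (rank one). -/
theorem h18_const_mem_Bdd {π : K} (hπ : π ∈ A)
    (hR : ∀ δ : K, δ ≠ 0 → ∃ n : ℕ, ∃ t ∈ A, π ^ n = δ * t) (c : K) :
    algebraMap K (LaurentSeries K) c ∈ h18_Bdd A π hπ := by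
  rcases eq_or_ne c 0 with rfl | hc
  · rw [map_zero]
    exact zero_mem _
  · obtain ⟨n, t, ht, hnt⟩ := hR c⁻¹ (inv_ne_zero hc)
    refine ⟨n, ?_⟩
    rw [← map_mul]
    have h : π ^ n * c = t := by
      rw [hnt]
      field_simp
    rw [h]
    exact h18_const_mem_int A ht

/-- Polynomials (over `K`) in a bounded series are bounded. -/
theorem h18_aeval_mem_Bdd {π : K} (hπ : π ∈ A)
    (hR : ∀ δ : K, δ ≠ 0 → ∃ n : ℕ, ∃ t ∈ A, π ^ n = δ * t)
    {x : LaurentSeries K} (hx : x ∈ h18_Bdd A π hπ) (P : Polynomial K) :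
    Polynomial.aeval x P ∈ h18_Bdd A π hπ := by
  rw [Polynomial.aeval_eq_sum_range]
  refine sum_mem fun i _ => ?_
  rw [Algebra.smul_def]
  exact mul_mem (h18_const_mem_Bdd A hπ hR _) (pow_mem hx i)

/-- **Bounded series core.**  A nonzero bounded series all of whose nonzero coefficients are of
the form `π ^ n * unit` is `π ^ m` times an `A`-integral series with nonzero reduction. -/
theorem h18_bounded_gv (π : K) (hπ0 : π ≠ 0) (hπA : π ∈ A) (hπn : π⁻¹ ∉ A)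
    (Good : K → Prop)
    (hDV : ∀ a, Good a → a ≠ 0 → ∃ (n : ℤ) (u : K), u ∈ A ∧ u⁻¹ ∈ A ∧ a = π ^ n * u)
    (Y : LaurentSeries K) (hY0 : Y ≠ 0) (hYg : ∀ k, Good (Y.coeff k))
    (hYb : Y ∈ h18_Bdd A π hπA) :
    ∃ (m : ℤ) (z : LaurentSeries A), coeffMap (IsLocalRing.residue A) z ≠ 0 ∧
      coeffMap A.subtype z = algebraMap K (LaurentSeries K) (π ^ (-m)) * Y := by
  obtain ⟨s, hs⟩ := hYb
  have hs' : ∀ k, π ^ s * Y.coeff k ∈ A := by
    intro k
    have := hs k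
    rwa [h18_coeff_const_mul] at this
  -- the set of exponents
  let Pn : ℤ → Prop := fun n => ∃ k, Y.coeff k ≠ 0 ∧ ∃ u : K, u ∈ A ∧ u⁻¹ ∈ A ∧
    Y.coeff k = π ^ n * u
  have hbdd : ∃ b : ℤ, ∀ n, Pn n → b ≤ n := by
    refine ⟨-(s : ℤ), ?_⟩
    rintro n ⟨k, hk0, u, hu, hu', hku⟩
    have h1 := hs' k
    rw [hku] at h1
    have hu0 : u ≠ 0 := by
      rintro rfl
      rw [mul_zero] at hku
      exact hk0 hku
    have h2 : π ^ ((s : ℤ) + n) = (π ^ s * (π ^ n * u)) * u⁻¹ := by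
      rw [zpow_add₀ hπ0, zpow_natCast]
      field_simp
    have h3 : π ^ ((s : ℤ) + n) ∈ A := by
      rw [h2]
      exact mul_mem h1 hu'
    have := h98_zpow_mem_nonneg hπA hπn h3
    omega
  have hinh : ∃ n, Pn n := by
    obtain ⟨k, hk⟩ : ∃ k, Y.coeff k ≠ 0 := by
      by_contra hcon
      push_neg at hcon
      exact hY0 (HahnSeries.ext (funext fun k => by rw [hcon k]; rfl))
    obtain ⟨n, u, hu, hu', hku⟩ := hDV _ (hYg k) hk
    exact ⟨n, k, hk, u, hu, hu', hku⟩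
  obtain ⟨m, ⟨k0, hk0, u0, hu0, hu0', hku0⟩, hmin⟩ := Int.exists_least_of_bdd hbdd hinh
  -- all coefficients of `π ^ (-m) * Y` are integral
  have hint : algebraMap K (LaurentSeries K) (π ^ (-m)) * Y ∈ h31_intSeries A := by
    intro k
    rw [h18_coeff_const_mul]
    rcases eq_or_ne (Y.coeff k) 0 with h0 | h0
    · rw [h0, mul_zero]
      exact zero_mem _
    · obtain ⟨n, u, hu, hu', hku⟩ := hDV _ (hYg k) h0
      have hmn : m ≤ n := hmin n ⟨k, h0, u, hu, hu', hku⟩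
      obtain ⟨d, hd⟩ : ∃ d : ℕ, n - m = d := ⟨(n - m).toNat, by omega⟩
      have h1 : π ^ (-m) * Y.coeff k = π ^ d * u := by
        rw [hku, ← mul_assoc, ← zpow_add₀ hπ0, ← zpow_natCast, ← hd]
        congr 2
        ring
      rw [h1]
      exact mul_mem (pow_mem hπA d) hu
  obtain ⟨z, hz⟩ := (h31_mem_intSeries_iff A _).1 hint
  refine ⟨m, z, ?_, hz⟩
  intro hred
  have h1 : (coeffMap (IsLocalRing.residue A) z).coeff k0 = 0 := by rw [hred]; rfl
  rw [coeffMap_coeff] at h1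
  have h2 : ((z.coeff k0 : A) : K) = u0 := by
    have := congrArg (fun y : LaurentSeries K => y.coeff k0) hz
    simp only [coeffMap_coeff, h18_coeff_const_mul] at this
    rw [hku0, ← mul_assoc, ← zpow_add₀ hπ0] at this
    simpa using this
  have hunit : IsUnit (z.coeff k0) := by
    refine IsUnit.of_mul_eq_one (⟨u0⁻¹, hu0'⟩ : A) (Subtype.ext ?_)
    have hu00 : u0 ≠ 0 := by
      rintro rfl
      rw [mul_zero] at hku0
      exact hk0 hku0
    show ((z.coeff k0 : A) : K) * u0⁻¹ = 1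
    rw [h2]
    exact mul_inv_cancel₀ hu00
  exact (IsLocalRing.residue_ne_zero_iff_isUnit _).2 hunit h1

/-- `q`-expansion substitution preserves integrality. -/
theorem h18_qExpand_mem_int (N : ℕ) [NeZero N] {x : LaurentSeries K}
    (hx : x ∈ h31_intSeries A) : qExpand K N x ∈ h31_intSeries A := by
  intro k
  by_cases hk : (N : ℤ) ∣ k
  · obtain ⟨m, rfl⟩ := hk
    rw [qExpand_coeff_mul]
    exact hx m
  · rw [qExpand_coeff_of_not_dvd N x hk]
    exact zero_mem _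

/-- `j` has `A`-integral expansion. -/
theorem h18_jq_mem_int : jqModC K ∈ h31_intSeries A := by
  rw [← coeffMap_jqModC A.subtype]
  exact h31_coeffMap_mem A _

/-- the twist by a unit of `A` preserves integrality. -/
theorem h18_twist_mem_int {w : K} (hw0 : w ≠ 0) (hw : w ∈ A) (hw' : w⁻¹ ∈ A)
    {x : LaurentSeries K} (hx : x ∈ h31_intSeries A) :
    h59_twistHom w hw0 x ∈ h31_intSeries A := by
  intro k
  rw [h59_twistHom_apply, h64_twist_coeff]
  exact mul_mem (hx k) (h98_unit_zpow_mem hw hw' k)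

theorem h18_nonunit_mem {π : K} (hπ : π ∈ A.nonunits) : π ∈ A :=
  (A.valuation_le_one_iff π).1 (le_of_lt ((ValuationSubring.mem_nonunits_iff A).1 hπ))

theorem h18_nonunit_inv_not_mem {π : K} (hπ : π ∈ A.nonunits) (hπ0 : π ≠ 0) : π⁻¹ ∉ A := by
  intro h
  have h1 : A.valuation π < 1 := (ValuationSubring.mem_nonunits_iff A).1 hπ
  have h2 : A.valuation π⁻¹ ≤ 1 := (A.valuation_le_one_iff _).2 h
  have h3 : A.valuation π * A.valuation π⁻¹ = 1 := by
    rw [← map_mul, mul_inv_cancel₀ hπ0, map_one]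
  have h4 : A.valuation π * A.valuation π⁻¹ ≤ A.valuation π * 1 := mul_le_mul' le_rfl h2
  rw [h3, mul_one] at h4
  exact absurd h1 (not_lt.2 h4)

end Core

/-! ## Rational denominators -/

/-- Every nonzero polynomial over `ℚ̄` divides a nonzero polynomial with rational
coefficients. -/
theorem h18_exists_rat_multiple (q0 : Polynomial Qb) (hq0 : q0 ≠ 0) :
    ∃ (Q0 : Polynomial ℚ) (c : Polynomial Qb), Q0 ≠ 0 ∧
      q0 * c = Q0.map (algebraMap ℚ Qb) := by
  classical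
  have hs : q0.Splits := IsAlgClosed.splits q0
  have hprod := hs.eq_prod_roots
  have hdvd : (q0.roots.map (fun a => Polynomial.X - Polynomial.C a)).prod ∣
      (q0.roots.map (fun a => (minpoly ℚ a).map (algebraMap ℚ Qb))).prod := by
    refine Multiset.prod_dvd_prod_of_dvd _ _ (fun a _ => ?_)
    rw [Polynomial.dvd_iff_isRoot, Polynomial.IsRoot, Polynomial.eval_map,
      ← Polynomial.aeval_def]
    exact minpoly.aeval ℚ a
  obtain ⟨d, hd⟩ := hdvd
  have hlc : q0.leadingCoeff ≠ 0 := Polynomial.leadingCoeff_ne_zero.2 hq0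
  refine ⟨(q0.roots.map (fun a => minpoly ℚ a)).prod,
    Polynomial.C (q0.leadingCoeff)⁻¹ * d, ?_, ?_⟩
  · rw [Ne, Multiset.prod_eq_zero_iff]
    simp only [Multiset.mem_map, not_exists, not_and]
    intro a _ h
    exact minpoly.ne_zero ((AlgebraicClosure.isAlgebraic ℚ).isAlgebraic a).isIntegral h
  · rw [Polynomial.map_multiset_prod, Multiset.map_map]
    have h1 : q0.roots.map ((fun p => Polynomial.map (algebraMap ℚ Qb) p) ∘ fun a => minpoly ℚ a)
        = q0.roots.map (fun a => (minpoly ℚ a).map (algebraMap ℚ Qb)) := rfl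
    rw [h1, hd]
    have h2 : Polynomial.C q0.leadingCoeff * Polynomial.C (q0.leadingCoeff)⁻¹
        = (1 : Polynomial Qb) := by
      rw [← Polynomial.C_mul, mul_inv_cancel₀ hlc, Polynomial.C_1]
    calc q0 * (Polynomial.C (q0.leadingCoeff)⁻¹ * d)
        = (Polynomial.C q0.leadingCoeff
            * (q0.roots.map (fun a => Polynomial.X - Polynomial.C a)).prod)
          * (Polynomial.C (q0.leadingCoeff)⁻¹ * d) := by rw [← hprod]
      _ = (q0.roots.map (fun a => Polynomial.X - Polynomial.C a)).prod * d := by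
        linear_combination
          ((q0.roots.map (fun a => Polynomial.X - Polynomial.C a)).prod * d) * h2

/-! ## The generic existence theorem -/

theorem h18_coe_aeval_jbar (N : ℕ) (R : Polynomial Qb) :
    ((Polynomial.aeval (h59_jbar N) R : ↥(modularFunctionFieldBar N)) : LaurentSeries Qb)
      = Polynomial.aeval (jqModC Qb) R := by
  have h := Polynomial.aeval_algHom_apply (modularFunctionFieldBar N).val (h59_jbar N) R
  rw [← h69_coe_jbar N]
  exact h.symm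

/-- A polynomial with rational coefficients in `j` has rational coefficients: it is fixed by
every coefficientwise Galois action. -/
theorem h18_rat_aeval_fixed (Q0 : Polynomial ℚ) (τ : Qb ≃ₐ[ℚ] Qb) :
    coeffMap ((τ : Qb ≃ₐ[ℚ] Qb) : Qb →+* Qb)
        (Polynomial.aeval (jqModC Qb) (Q0.map (algebraMap ℚ Qb)))
      = Polynomial.aeval (jqModC Qb) (Q0.map (algebraMap ℚ Qb)) := by
  have h1 : Polynomial.aeval (jqModC Qb) (Q0.map (algebraMap ℚ Qb))
      = coeffEmb Qb (Polynomial.eval₂ (algebraMap ℚ (LaurentSeries ℚ)) jq Q0) := by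
    rw [Polynomial.aeval_def, Polynomial.eval₂_map, Polynomial.hom_eval₂, h69_coeffEmb_jq]
    congr 1
    exact RingHom.ext_rat _ _
  rw [h1, coeffMap_coeffEmb]

/-- **Generic existence of the Gauss order.**  `E : F(N) → ℚ̄((t))` a ring hom fixing constants
and `j`, with `E j_N` bounded; `P` a set of automorphisms of `ℚ̄` whose common fixed elements are
`π ^ n * unit`; `f ≠ 0` with `E f` coefficientwise `P`-fixed.  Then `E f` has a `π`-adic Gauss
valuation in `ℤ`. -/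
theorem h18_gv_exists_gen (N q : ℕ) [NeZero N] (hq : q.Prime) (A : ValuationSubring Qb)
    (hA : A.LiesOverPrime q) (π : Qb) (hπ0 : π ≠ 0) (hπ : π ∈ A.nonunits)
    (P : (Qb ≃ₐ[ℚ] Qb) → Prop)
    (hDV : ∀ a : Qb, (∀ τ, P τ → τ a = a) → a ≠ 0 →
      ∃ (n : ℤ) (u : Qb), u ∈ A ∧ u⁻¹ ∈ A ∧ a = π ^ n * u)
    (E : ↥(modularFunctionFieldBar N) →+* LaurentSeries Qb)
    (hEc : ∀ c : Qb, E (algebraMap Qb ↥(modularFunctionFieldBar N) c)
      = algebraMap Qb (LaurentSeries Qb) c)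
    (hEj : E (h59_jbar N) = jqModC Qb)
    (hEjN : E (h69_jN N) ∈ h18_Bdd A π (h18_nonunit_mem A hπ))
    (f : ↥(modularFunctionFieldBar N)) (hf : f ≠ 0)
    (hfix : ∀ τ, P τ → coeffMap ((τ : Qb ≃ₐ[ℚ] Qb) : Qb →+* Qb) (E f) = E f) :
    ∃ n : ℤ, h98_GV A π (E f) n := by
  classical
  have hπA : π ∈ A := h18_nonunit_mem A hπ
  have hπn : π⁻¹ ∉ A := h18_nonunit_inv_not_mem A hπ hπ0
  have hR : ∀ δ : Qb, δ ≠ 0 → ∃ n : ℕ, ∃ t ∈ A, π ^ n = δ * t :=
    fun δ hδ => h64_rankOne_Qbar hq A hA π hπ δ hδ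
  -- `E` as an algebra hom
  let Ea : ↥(modularFunctionFieldBar N) →ₐ[Qb] LaurentSeries Qb := { E with commutes' := hEc }
  have hEa : ∀ x, Ea x = E x := fun _ => rfl
  have hE1 : ∀ R : Polynomial Qb,
      E (Polynomial.aeval (h59_jbar N) R) = Polynomial.aeval (jqModC Qb) R := by
    intro R
    rw [← hEa, ← Polynomial.aeval_algHom_apply, hEa, hEj]
  obtain ⟨p, q0, hq0, hrep⟩ := h69_exists_repr N f
  obtain ⟨Q0, c, hQ0, hc⟩ := h18_exists_rat_multiple q0 hq0
  -- the identity in `F`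
  have key : Polynomial.aeval (h59_jbar N) (Q0.map (algebraMap ℚ Qb)) * f
      = ∑ i, Polynomial.aeval (h59_jbar N) (c * p i) * h69_jN N ^ (i : ℕ) := by
    apply Subtype.ext
    simp only [MulMemClass.coe_mul, AddSubmonoidClass.coe_finsetSum, SubmonoidClass.coe_pow,
      h18_coe_aeval_jbar, h69_coe_jN]
    rw [← hc, map_mul, mul_right_comm, hrep, Finset.sum_mul]
    refine Finset.sum_congr rfl fun i _ => ?_
    rw [map_mul]
    ring
  -- apply `E`
  have key2 : Polynomial.aeval (jqModC Qb) (Q0.map (algebraMap ℚ Qb)) * E f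
      = ∑ i, Polynomial.aeval (jqModC Qb) (c * p i) * E (h69_jN N) ^ (i : ℕ) := by
    have h := congrArg E key
    rw [map_mul, map_sum, hE1] at h
    rw [h]
    refine Finset.sum_congr rfl fun i _ => ?_
    rw [map_mul, map_pow, hE1]
  set Qs : LaurentSeries Qb := Polynomial.aeval (jqModC Qb) (Q0.map (algebraMap ℚ Qb)) with hQs
  have hQs0 : Qs ≠ 0 := by
    rw [hQs, ← h69_coeffEmb_jq]
    refine h59_aeval_jq_ne_zero Qb ?_
    exact (Polynomial.map_ne_zero_iff (algebraMap ℚ Qb).injective).2 hQ0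
  have hEf0 : E f ≠ 0 := (map_ne_zero E).2 hf
  have hY0 : Qs * E f ≠ 0 := mul_ne_zero hQs0 hEf0
  have hjq : jqModC Qb ∈ h18_Bdd A π hπA := h18_int_mem_Bdd A hπA (h18_jq_mem_int A)
  have hQsB : Qs ∈ h18_Bdd A π hπA := h18_aeval_mem_Bdd A hπA hR hjq _
  have hYB : Qs * E f ∈ h18_Bdd A π hπA := by
    rw [key2]
    exact sum_mem fun i _ => mul_mem (h18_aeval_mem_Bdd A hπA hR hjq _) (pow_mem hEjN _)
  have hQsfix : ∀ τ : Qb ≃ₐ[ℚ] Qb, coeffMap ((τ : Qb ≃ₐ[ℚ] Qb) : Qb →+* Qb) Qs = Qs :=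
    fun τ => h18_rat_aeval_fixed Q0 τ
  have hYfix : ∀ τ, P τ → coeffMap ((τ : Qb ≃ₐ[ℚ] Qb) : Qb →+* Qb) (Qs * E f) = Qs * E f := by
    intro τ hτ
    rw [map_mul, hQsfix, hfix τ hτ]
  have hcoeff : ∀ (Y : LaurentSeries Qb),
      (∀ τ, P τ → coeffMap ((τ : Qb ≃ₐ[ℚ] Qb) : Qb →+* Qb) Y = Y) →
      ∀ k τ, P τ → τ (Y.coeff k) = Y.coeff k := by
    intro Y hY k τ hτ
    have h := congrArg (fun y : LaurentSeries Qb => y.coeff k) (hY τ hτ)
    exact h
  obtain ⟨m, zP, hzP, hzPe⟩ := h18_bounded_gv A π hπ0 hπA hπn (fun a => ∀ τ, P τ → τ a = a) hDV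
    (Qs * E f) hY0 (hcoeff _ hYfix) hYB
  obtain ⟨m', zQ, hzQ, hzQe⟩ := h18_bounded_gv A π hπ0 hπA hπn (fun a => ∀ τ, P τ → τ a = a) hDV
    Qs hQs0 (hcoeff _ (fun τ _ => hQsfix τ)) hQsB
  refine ⟨m - m', ?_⟩
  have heq : algebraMap Qb (LaurentSeries Qb) (π ^ (-(m - m'))) * E f * coeffMap A.subtype zQ
      = coeffMap A.subtype zP := by
    rw [hzQe, hzPe]
    have h1 : π ^ (-(m - m')) * π ^ (-m') = π ^ (-m) := by
      rw [← zpow_add₀ hπ0]
      congr 1
      ring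
    rw [← h1, map_mul]
    ring
  have hmem : algebraMap Qb (LaurentSeries Qb) (π ^ (-(m - m'))) * E f ∈ h60_Os A :=
    ⟨zP, zQ, hzQ, heq⟩
  refine ⟨hmem, ?_⟩
  intro h0
  have h2 := h60_rs_spec A ⟨_, hmem⟩ zP zQ heq
  rw [h0, zero_mul] at h2
  exact hzP h2.symm

/-! ## The standard expansion -/

/-- **Standard expansion, any level**: an inertia-fixed `f ≠ 0` has a `q`-adic Gauss valuation
in `ℤ`. -/
theorem h18_std_gv_exists (N q : ℕ) [NeZero N] [Fact q.Prime] (A : ValuationSubring Qb)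
    (hA : A.LiesOverPrime q) (f : ↥(modularFunctionFieldBar N)) (hf : f ≠ 0)
    (hfix : ∀ τ ∈ A.inertiaSubgroupIn ℚ,
      arithmeticRingAut (modularFunctionFieldFull N) τ f = f) :
    ∃ n : ℤ, h98_GV A (q : Qb) (f : LaurentSeries Qb) n := by
  have hq : q.Prime := Fact.out
  have hq0 : (q : Qb) ≠ 0 := Nat.cast_ne_zero.2 hq.ne_zero
  refine h18_gv_exists_gen N q hq A hA (q : Qb) hq0 hA (fun τ => τ ∈ A.inertiaSubgroupIn ℚ)
    (fun a ha ha0 => ?_)
    ((modularFunctionFieldBar N).val : ↥(modularFunctionFieldBar N) →+* LaurentSeries Qb)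
    (fun c => rfl) (h69_coe_jbar N) ?_ f hf ?_
  · obtain ⟨m, u, hu, hu', h⟩ := h8_unr_unit q A hA a ha0 ha
    exact ⟨m, u, hu, hu', h⟩
  · refine h18_int_mem_Bdd A _ ?_
    show ((h69_jN N : ↥(modularFunctionFieldBar N)) : LaurentSeries Qb) ∈ _
    rw [h69_coe_jN]
    exact h18_qExpand_mem_int A N (h18_jq_mem_int A)
  · intro τ hτ
    have h := congrArg (fun x : ↥(modularFunctionFieldBar N) => (x : LaurentSeries Qb))
      (hfix τ hτ)
    exact h

/-! ## The middle expansion -/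

/-- **(V11-EX)** For a middle embedding `E` for `ζ` at level `M q²` (helper49's binders) and an
inertia-fixed `f ≠ 0`: `E f` has a `(ζ - 1)`-adic Gauss valuation in `ℤ`. -/
theorem h18_mid_gv_exists (M q : ℕ) [NeZero M] [NeZero q] [Fact q.Prime] (hqM : ¬ q ∣ M)
    (A : ValuationSubring Qb) (hA : A.LiesOverPrime q)
    (i0 i2 : ↥(modularFunctionFieldBar (M * q)) →+* ↥(modularFunctionFieldBar (M * q * q)))
    (hi0 : ∀ g, i0 g = heckeAlphaBar Qb (M * q) q g)
    (hi2 : ∀ g, i2 g = heckeBetaBar Qb (M * q) q (h60_w M q hqM g))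
    (hgen : Subfield.closure (Set.range i0 ∪ Set.range i2) = ⊤)
    (ζ : Qb) (hζ0 : ζ ≠ 0) (hζ : IsPrimitiveRoot ζ q)
    (E : ↥(modularFunctionFieldBar (M * q * q)) →+* LaurentSeries Qb)
    (hE0 : ∀ g, E (i0 g) = (g : LaurentSeries Qb))
    (hE2 : ∀ g, E (i2 g) = h59_twistHom ζ hζ0 (g : LaurentSeries Qb))
    (f : ↥(modularFunctionFieldBar (M * q * q))) (hf : f ≠ 0)
    (hfix : ∀ τ ∈ A.inertiaSubgroupIn ℚ,
      arithmeticRingAut (modularFunctionFieldFull (M * q * q)) τ f = f) :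
    ∃ n : ℤ, h98_GV A (ζ - 1) (E f) n := by
  have hq : q.Prime := Fact.out
  have hπ0 : ζ - 1 ≠ 0 := h8_zeta_sub_one_ne q ζ hζ
  have hζA : ζ ∈ A := h8_zeta_mem q A ζ hζ
  have hζA' : ζ⁻¹ ∈ A := h8_zeta_mem q A ζ⁻¹ hζ.inv
  -- the uniformiser and the discreteness
  have hπDV : ζ - 1 ∈ A.nonunits ∧ ∀ a : Qb,
      (∀ τ, (τ ∈ A.inertiaSubgroupIn ℚ ∧ τ ζ = ζ) → τ a = a) → a ≠ 0 →
      ∃ (n : ℤ) (u : Qb), u ∈ A ∧ u⁻¹ ∈ A ∧ a = (ζ - 1) ^ n * u := by
    by_cases hq2 : q = 2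
    · subst hq2
      have hζ2 : ζ = -1 := hζ.eq_neg_one_of_two_right
      have h2 : ((2 : ℕ) : Qb) = 2 := by norm_num
      have hπ2 : ζ - 1 = -(2 : Qb) := by rw [hζ2]; ring
      refine ⟨?_, fun a ha ha0 => ?_⟩
      · rw [ValuationSubring.mem_nonunits_iff, hπ2, Valuation.map_neg, ← h2]
        exact (ValuationSubring.mem_nonunits_iff A).1 hA
      · obtain ⟨m, u, hu, hu', h⟩ := h8_unr_unit 2 A hA a ha0
          (fun σ hσ => ha σ ⟨hσ, by rw [hζ2, map_neg, map_one]⟩)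
        have hneg1 : (-1 : Qb) ∈ A := neg_mem (one_mem _)
        have hneg1' : (-1 : Qb)⁻¹ ∈ A := by
          rw [show (-1 : Qb)⁻¹ = -1 by norm_num]
          exact hneg1
        refine ⟨m, (-1 : Qb) ^ m * u, mul_mem (h98_unit_zpow_mem hneg1 hneg1' m) hu, ?_, ?_⟩
        · rw [mul_inv, ← zpow_neg]
          exact mul_mem (h98_unit_zpow_mem hneg1 hneg1' (-m)) hu'
        · rw [h, hπ2, h2, ← mul_assoc, ← mul_zpow]
          norm_num
    · refine ⟨?_, fun a ha ha0 => ?_⟩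
      · rw [ValuationSubring.mem_nonunits_iff]
        exact (h8_val_zeta_lt q hq2 A hA ζ hζ).2
      · obtain ⟨n, u, hu, hu', h⟩ := h8_tame_unit q hq2 A hA ζ hζ a ha0
          (fun σ hσ hσζ => ha σ ⟨hσ, hσζ⟩)
        exact ⟨n, u, hu, hu', h⟩
  obtain ⟨hπ, hDV⟩ := hπDV
  refine h18_gv_exists_gen (M * q * q) q hq A hA (ζ - 1) hπ0 hπ
    (fun τ => τ ∈ A.inertiaSubgroupIn ℚ ∧ τ ζ = ζ) hDV E ?_ ?_ ?_ f hf ?_
  · -- constants
    intro c
    have h1 : algebraMap Qb ↥(modularFunctionFieldBar (M * q * q)) c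
        = i0 (algebraMap Qb ↥(modularFunctionFieldBar (M * q)) c) := by
      rw [hi0]
      exact ((heckeAlphaBar Qb (M * q) q).commutes c).symm
    rw [h1, hE0]
    rfl
  · -- `j`
    have h1 : h59_jbar (M * q * q) = i0 (h59_jbar (M * q)) := by
      rw [hi0]
      exact Subtype.ext (by rw [coe_heckeAlphaBar]; rfl)
    rw [h1, hE0, h69_coe_jbar]
  · -- `j_N`
    have hjN : h69_jN (M * q * q) = i2 (heckeAlphaBar Qb M q (h69_jN M)) := by
      rw [hi2, h60_w_alpha]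
      apply Subtype.ext
      rw [coe_heckeBetaBar, coe_heckeBetaBar, h69_coe_jN, h69_coe_jN, qExpand_qExpand,
        qExpand_qExpand]
      exact qExpand_congr (by ring) _
    rw [hjN, hE2, coe_heckeAlphaBar, h69_coe_jN]
    exact h18_int_mem_Bdd A _ (h18_twist_mem_int A hζ0 hζA hζA'
      (h18_qExpand_mem_int A M (h18_jq_mem_int A)))
  · rintro τ ⟨hτ, hτζ⟩
    have h1 := h49_mid_galois_mod M q hqM i0 i2 hi0 hi2 hgen τ ζ hζ0 ζ hζ0 hτζ E E
      hE0 hE2 hE0 hE2 f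
    rw [hfix τ hτ] at h1
    exact h1.symm

/-! ## Uniformity in `ζ`, twists, and the swap `W` -/

/-- the twist fixes constants. -/
theorem h18_twist_const (w : Qb) (hw : w ≠ 0) (c : Qb) :
    h59_twistHom w hw (algebraMap Qb (LaurentSeries Qb) c)
      = algebraMap Qb (LaurentSeries Qb) c := by
  ext k
  rw [h59_twistHom_apply, h64_twist_coeff, algebraMap_laurentSeries_eq_single,
    HahnSeries.coeff_single]
  split_ifs with h
  · rw [h, zpow_zero, mul_one]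
  · rw [zero_mul]

/-- twists compose. -/
theorem h18_twist_twist_inv (w : Qb) (hw : w ≠ 0) (x : LaurentSeries Qb) :
    h59_twistHom w hw (h59_twistHom w⁻¹ (inv_ne_zero hw) x) = x := by
  ext k
  rw [h59_twistHom_apply, h64_twist_coeff, h59_twistHom_apply, h64_twist_coeff, mul_assoc,
    ← mul_zpow, inv_mul_cancel₀ hw, one_zpow, mul_one]

theorem h18_twist_inv_twist (w : Qb) (hw : w ≠ 0) (x : LaurentSeries Qb) :
    h59_twistHom w⁻¹ (inv_ne_zero hw) (h59_twistHom w hw x) = x := by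
  ext k
  rw [h59_twistHom_apply, h64_twist_coeff, h59_twistHom_apply, h64_twist_coeff, mul_assoc,
    ← mul_zpow, mul_inv_cancel₀ hw, one_zpow, mul_one]

/-- the twist by a unit of `A` preserves the Gauss ring. -/
theorem h18_twist_mem_Os (A : ValuationSubring Qb) {w : Qb} (hw0 : w ≠ 0) (hw : w ∈ A)
    (hw' : w⁻¹ ∈ A) {x : LaurentSeries Qb} (hx : x ∈ h60_Os A) :
    h59_twistHom w hw0 x ∈ h60_Os A := by
  let wA : Aˣ := ⟨⟨w, hw⟩, ⟨w⁻¹, hw'⟩, Subtype.ext (mul_inv_cancel₀ hw0),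
    Subtype.ext (inv_mul_cancel₀ hw0)⟩
  have h := h60_twist_mem A wA hx
  rw [h49_twist_eq] at h
  exact h

/-- the twist by a unit of `A` preserves the Gauss valuation. -/
theorem h18_GV_twist (A : ValuationSubring Qb) {w : Qb} (hw0 : w ≠ 0) (hw : w ∈ A)
    (hw' : w⁻¹ ∈ A) {π : Qb} {s : LaurentSeries Qb} {n : ℤ} (h : h98_GV A π s n) :
    h98_GV A π (h59_twistHom w hw0 s) n := by
  obtain ⟨hx, hrs⟩ := h
  set x : LaurentSeries Qb := algebraMap Qb (LaurentSeries Qb) (π ^ (-n)) * s with hxdef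
  have hxinv : x⁻¹ ∈ h60_Os A := h60_inv_mem A ⟨x, hx⟩ hrs
  have h1 : h59_twistHom w hw0 x ∈ h60_Os A := h18_twist_mem_Os A hw0 hw hw' hx
  have h2 : h59_twistHom w hw0 x⁻¹ ∈ h60_Os A := h18_twist_mem_Os A hw0 hw hw' hxinv
  have hx0 : x ≠ 0 := h60_ne_zero_of_rs A (f := ⟨x, hx⟩) hrs
  have h3 : (⟨_, h1⟩ : h60_Os A) * ⟨_, h2⟩ = 1 := by
    apply Subtype.ext
    show h59_twistHom w hw0 x * h59_twistHom w hw0 x⁻¹ = 1
    rw [← map_mul, mul_inv_cancel₀ hx0, map_one]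
  have h4 : h60_rs A ⟨_, h1⟩ ≠ 0 := by
    intro h0
    have h5 := congrArg (h60_rs A) h3
    rw [map_mul, h0, zero_mul, map_one] at h5
    exact zero_ne_one h5
  refine h98_GV_of_eq h1 h4 ?_
  rw [hxdef, map_mul, h18_twist_const]

section Mid

variable (M q : ℕ) [NeZero M] [NeZero q] [Fact q.Prime] (hqM : ¬ q ∣ M)
  (A : ValuationSubring Qb) (hA : A.LiesOverPrime q)
  (i0 i2 : ↥(modularFunctionFieldBar (M * q)) →+* ↥(modularFunctionFieldBar (M * q * q)))
  (hi0 : ∀ g, i0 g = heckeAlphaBar Qb (M * q) q g)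
  (hi2 : ∀ g, i2 g = heckeBetaBar Qb (M * q) q (h60_w M q hqM g))
  (hgen : Subfield.closure (Set.range i0 ∪ Set.range i2) = ⊤)

include hA hi0 hi2 hgen in
/-- Transfer of the Gauss order between two middle embeddings (for `ζ₁` and `ζ'`), expressed
with the uniformiser `ζ - 1` of a third primitive root. -/
theorem h18_mid_gv_transfer (ζ : Qb) (hζ : IsPrimitiveRoot ζ q)
    (ζ₁ : Qb) (hζ₁0 : ζ₁ ≠ 0) (hζ₁ : IsPrimitiveRoot ζ₁ q)
    (E₁ : ↥(modularFunctionFieldBar (M * q * q)) →+* LaurentSeries Qb)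
    (hE0 : ∀ g, E₁ (i0 g) = (g : LaurentSeries Qb))
    (hE2 : ∀ g, E₁ (i2 g) = h59_twistHom ζ₁ hζ₁0 (g : LaurentSeries Qb))
    (ζ' : Qb) (hζ'0 : ζ' ≠ 0) (hζ' : IsPrimitiveRoot ζ' q)
    (E' : ↥(modularFunctionFieldBar (M * q * q)) →+* LaurentSeries Qb)
    (hE0' : ∀ g, E' (i0 g) = (g : LaurentSeries Qb))
    (hE2' : ∀ g, E' (i2 g) = h59_twistHom ζ' hζ'0 (g : LaurentSeries Qb))
    (f : ↥(modularFunctionFieldBar (M * q * q)))
    (hfix : ∀ τ ∈ A.inertiaSubgroupIn ℚ,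
      arithmeticRingAut (modularFunctionFieldFull (M * q * q)) τ f = f)
    (n : ℤ) (h : h98_GV A (ζ₁ - 1) (E₁ f) n) : h98_GV A (ζ - 1) (E' f) n := by
  have hq : q.Prime := Fact.out
  -- `ζ' = ζ₁ ^ j`, `q ∤ j`
  have hpow : ∀ (η : Qb), IsPrimitiveRoot η q → ∃ j : ℕ, ¬ q ∣ j ∧ η ^ j = ζ' := by
    intro η hη
    obtain ⟨i, hi, hiζ⟩ := hη.eq_pow_of_pow_eq_one hζ'.pow_eq_one
    refine ⟨i, fun hdvd => ?_, hiζ⟩
    have hi0 : i = 0 := Nat.eq_zero_of_dvd_of_lt hdvd hi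
    rw [hi0, pow_zero] at hiζ
    exact hζ'.ne_one hq.one_lt hiζ.symm
  obtain ⟨j, hj, hjζ⟩ := hpow ζ₁ hζ₁
  obtain ⟨τ, hτ, hτζ⟩ := h49_exists_inertia_pow q A hA ζ₁ hζ₁ j hj
  rw [hjζ] at hτζ
  obtain ⟨hx, hrs⟩ := h
  obtain ⟨h', hrs'⟩ := h49_mid_indep M q hqM A i0 i2 hi0 hi2 hgen τ hτ ζ₁ hζ₁0 ζ' hζ'0 hτζ
    E₁ E' hE0 hE2 hE0' hE2' f (hfix τ hτ) ((ζ₁ - 1) ^ (-n)) hx
  have hτc : τ ((ζ₁ - 1) ^ (-n)) = (ζ' - 1) ^ (-n) := by
    rw [map_zpow₀, map_sub, map_one, hτζ]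
  -- the unit `(ζ' - 1) / (ζ - 1)`
  obtain ⟨k, hk, hkζ⟩ := hpow ζ hζ
  have hπ0 : ζ - 1 ≠ 0 := h8_zeta_sub_one_ne q ζ hζ
  have hval : A.valuation ((ζ' - 1) / (ζ - 1)) = 1 := by
    rw [map_div₀, ← hkζ, h8_val_zeta_pow q A ζ hζ k hk]
    exact div_self ((map_ne_zero _).2 hπ0)
  obtain ⟨hu, hu'⟩ := h8_unit_of_val_one A _ hval
  have hu0 : (ζ' - 1) / (ζ - 1) ≠ 0 := by
    intro h0
    rw [h0, map_zero] at hval
    exact zero_ne_one hval
  refine h98_GV_of_scale (ε := ((ζ' - 1) / (ζ - 1)) ^ (-n)) (h98_unit_zpow_mem hu hu' _) ?_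
    (zpow_ne_zero _ hu0) ?_ ⟨h', by rw [hrs']; exact hrs⟩
  · rw [← zpow_neg]
    exact h98_unit_zpow_mem hu hu' _
  · rw [hτc, ← mul_zpow, mul_div_cancel₀ _ hπ0]

include hA hi0 hi2 hgen in
/-- **(V11-EX), uniform form**: one `n` for ALL middle embeddings (all primitive `q`-th roots
`ζ'`), measured with the fixed uniformiser `ζ - 1`. -/
theorem h18_mid_gv_uniform (ζ : Qb) (hζ : IsPrimitiveRoot ζ q)
    (f : ↥(modularFunctionFieldBar (M * q * q))) (hf : f ≠ 0)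
    (hfix : ∀ τ ∈ A.inertiaSubgroupIn ℚ,
      arithmeticRingAut (modularFunctionFieldFull (M * q * q)) τ f = f) :
    ∃ n : ℤ, ∀ (ζ' : Qb) (hζ'0 : ζ' ≠ 0), IsPrimitiveRoot ζ' q →
      ∀ E' : ↥(modularFunctionFieldBar (M * q * q)) →+* LaurentSeries Qb,
        (∀ g, E' (i0 g) = (g : LaurentSeries Qb)) →
        (∀ g, E' (i2 g) = h59_twistHom ζ' hζ'0 (g : LaurentSeries Qb)) →
        h98_GV A (ζ - 1) (E' f) n := by
  by_cases hex : ∃ (ζ₁ : Qb) (hζ₁0 : ζ₁ ≠ 0) (_ : IsPrimitiveRoot ζ₁ q)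
      (E₁ : ↥(modularFunctionFieldBar (M * q * q)) →+* LaurentSeries Qb),
      (∀ g, E₁ (i0 g) = (g : LaurentSeries Qb)) ∧
      (∀ g, E₁ (i2 g) = h59_twistHom ζ₁ hζ₁0 (g : LaurentSeries Qb))
  · obtain ⟨ζ₁, hζ₁0, hζ₁, E₁, hE0, hE2⟩ := hex
    obtain ⟨n, hn⟩ := h18_mid_gv_exists M q hqM A hA i0 i2 hi0 hi2 hgen ζ₁ hζ₁0 hζ₁ E₁ hE0 hE2
      f hf hfix
    exact ⟨n, fun ζ' hζ'0 hζ' E' hE0' hE2' =>
      h18_mid_gv_transfer M q hqM A hA i0 i2 hi0 hi2 hgen ζ hζ ζ₁ hζ₁0 hζ₁ E₁ hE0 hE2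
        ζ' hζ'0 hζ' E' hE0' hE2' f hfix n hn⟩
  · exact ⟨0, fun ζ' hζ'0 hζ' E' hE0' hE2' => absurd ⟨ζ', hζ'0, hζ', E', hE0', hE2'⟩ hex⟩

include hA hi0 hi2 hgen in
/-- **`v₁₁ ∘ W = v₁₁`** on inertia-fixed functions, for any ring endomorphism `W` swapping
`i0` and `i2`. -/
theorem h18_mid_gv_W
    (W : ↥(modularFunctionFieldBar (M * q * q)) →+* ↥(modularFunctionFieldBar (M * q * q)))
    (hW0 : ∀ g, W (i0 g) = i2 g) (hW2 : ∀ g, W (i2 g) = i0 g)
    (ζ : Qb) (hζ0 : ζ ≠ 0) (hζ : IsPrimitiveRoot ζ q)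
    (E : ↥(modularFunctionFieldBar (M * q * q)) →+* LaurentSeries Qb)
    (hE0 : ∀ g, E (i0 g) = (g : LaurentSeries Qb))
    (hE2 : ∀ g, E (i2 g) = h59_twistHom ζ hζ0 (g : LaurentSeries Qb))
    (f : ↥(modularFunctionFieldBar (M * q * q)))
    (hfix : ∀ τ ∈ A.inertiaSubgroupIn ℚ,
      arithmeticRingAut (modularFunctionFieldFull (M * q * q)) τ f = f)
    (n : ℤ) (h : h98_GV A (ζ - 1) (E f) n) : h98_GV A (ζ - 1) (E (W f)) n := by
  set E'' : ↥(modularFunctionFieldBar (M * q * q)) →+* LaurentSeries Qb :=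
    (h59_twistHom ζ⁻¹ (inv_ne_zero hζ0)).comp (E.comp W) with hE''
  have hE''a : ∀ x, E'' x = h59_twistHom ζ⁻¹ (inv_ne_zero hζ0) (E (W x)) := fun _ => rfl
  have hE0'' : ∀ g, E'' (i0 g) = (g : LaurentSeries Qb) := by
    intro g
    rw [hE''a, hW0, hE2, h18_twist_inv_twist]
  have hE2'' : ∀ g, E'' (i2 g)
      = h59_twistHom ζ⁻¹ (inv_ne_zero hζ0) (g : LaurentSeries Qb) := by
    intro g
    rw [hE''a, hW2, hE0]
  have h1 : h98_GV A (ζ - 1) (E'' f) n :=
    h18_mid_gv_transfer M q hqM A hA i0 i2 hi0 hi2 hgen ζ hζ ζ hζ0 hζ E hE0 hE2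
      ζ⁻¹ (inv_ne_zero hζ0) hζ.inv E'' hE0'' hE2'' f hfix n h
  have h2 : E (W f) = h59_twistHom ζ hζ0 (E'' f) := by
    rw [hE''a, h18_twist_twist_inv]
  rw [h2]
  exact h18_GV_twist A hζ0 (h8_zeta_mem q A ζ hζ) (h8_zeta_mem q A ζ⁻¹ hζ.inv) h1

include hi0 hi2 hgen in
/-- A ring endomorphism `W` swapping `i0` and `i2` commutes with the arithmetic Galois action;
in particular it preserves inertia-fixed functions. -/
theorem h18_W_galois
    (W : ↥(modularFunctionFieldBar (M * q * q)) →+* ↥(modularFunctionFieldBar (M * q * q)))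
    (hW0 : ∀ g, W (i0 g) = i2 g) (hW2 : ∀ g, W (i2 g) = i0 g)
    (τ : Qb ≃ₐ[ℚ] Qb) (f : ↥(modularFunctionFieldBar (M * q * q))) :
    W (arithmeticRingAut (modularFunctionFieldFull (M * q * q)) τ f)
      = arithmeticRingAut (modularFunctionFieldFull (M * q * q)) τ (W f) := by
  have hτ0 : ∀ g, i0 (arithmeticRingAut (modularFunctionFieldFull (M * q)) τ g)
      = arithmeticRingAut (modularFunctionFieldFull (M * q * q)) τ (i0 g) := by
    intro g
    rw [hi0, hi0, h49_alpha_galois]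
  have hτ2 : ∀ g, i2 (arithmeticRingAut (modularFunctionFieldFull (M * q)) τ g)
      = arithmeticRingAut (modularFunctionFieldFull (M * q * q)) τ (i2 g) := by
    intro g
    rw [hi2, hi2, h60_w_galois, h49_beta_galois]
  set T : ↥(modularFunctionFieldBar (M * q * q)) →+* ↥(modularFunctionFieldBar (M * q * q)) :=
    ((arithmeticRingAut (modularFunctionFieldFull (M * q * q)) τ :
      ↥(modularFunctionFieldBar (M * q * q)) ≃+* ↥(modularFunctionFieldBar (M * q * q))) :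
        ↥(modularFunctionFieldBar (M * q * q)) →+* ↥(modularFunctionFieldBar (M * q * q)))
    with hT
  have hTa : ∀ x, T x = arithmeticRingAut (modularFunctionFieldFull (M * q * q)) τ x :=
    fun _ => rfl
  have key : W.comp T = T.comp W := by
    refine RingHom.eq_of_eqOn_of_field_closure_eq_top hgen ?_
    rintro x (⟨g, rfl⟩ | ⟨g, rfl⟩)
    · show W (T (i0 g)) = T (W (i0 g))
      rw [hTa, hTa, ← hτ0, hW0, hW0, hτ2]
    · show W (T (i2 g)) = T (W (i2 g))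
      rw [hTa, hTa, ← hτ2, hW2, hW2, hτ0]
  have := congrArg (fun φ : ↥(modularFunctionFieldBar (M * q * q)) →+*
    ↥(modularFunctionFieldBar (M * q * q)) => φ f) key
  exact this

end Mid

end Fermat.Agent.S36

end
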