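/-
S36 / row I-VAL (EX1) (helper18): the existence statement `h36_EX L q hqL A 1` of helper36's
`S36/h36_W2.lean` — every nonzero inertia-fixed function of level `L q²` has a `ℤ`-valued Gauss
order on the middle expansion (uniformiser `ζ - 1`), for every prime `q` (`q = 2` included).
One call of `h18_mid_gv_exists`.
-/
import Mathlib
import Fermat.Agent.S36.h18_MidGV
import Fermat.Agent.S36.h36_W2

set_option autoImplicit false
set_option synthInstance.maxHeartbeats 400000

noncomputable section

open ModularCurve AlgebraicCurve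

namespace Fermat.Agent.S36

open Fermat.Agent.S34 Fermat.Agent.S37 Fermat.Agent.S24 Fermat.Agent.S35 Fermat.Agent.S18
  Fermat.Agent.GAL Fermat.Agent.S40

local notation "Qb" => AlgebraicClosure ℚ

/-- **(EX1)**: the middle expansion has Gauss orders on the inertia-fixed functions. -/
theorem h18_ex1 (L q : ℕ) [NeZero L] [NeZero q] [Fact q.Prime] (hqL : ¬ q ∣ L)
    (A : ValuationSubring Qb) (hA : A.LiesOverPrime q) : h36_EX L q hqL A 1 := by
  intro f hf
  have hf' : (f : ↥(modularFunctionFieldBar (L * q * q))) ≠ 0 := fun h => hf (Subtype.ext h)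
  have hfix : ∀ τ ∈ A.inertiaSubgroupIn ℚ,
      arithmeticRingAut (modularFunctionFieldFull (L * q * q)) τ
        (f : ↥(modularFunctionFieldBar (L * q * q))) = f := fun τ hτ => f.2 τ hτ
  have h := h18_mid_gv_exists L q hqL A hA (h36_i0 L q) (h36_i2 L q hqL) (fun _ => rfl)
    (fun _ => rfl) (h36_i02_gen L q hqL) (h36_zeta q)
    ((h36_zeta_prim q).ne_zero (NeZero.ne q)) (h36_zeta_prim q)
    (h36_mid L q hqL (h36_zeta q) (h36_zeta_pow q) (h36_zeta_ne_one q))
    (h36_mid_i0 L q hqL (h36_zeta q) (h36_zeta_pow q) (h36_zeta_ne_one q))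
    (fun g => by rw [h36_mid_i2]; rfl)
    (f : ↥(modularFunctionFieldBar (L * q * q))) hf' hfix
  exact h

end Fermat.Agent.S36

end
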