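/-
S36 / row I-VAL (EX0), (EX2), (EX) (helper18): the existence statements `h36_EX L q hqL A c` of
helper36's `S36/h36_W2.lean` for all three expansions `c : Fin 3` — so every theorem of
`h36_W2` taking `(hex : h36_EX L q hqL A c)` is unconditional.

* `h18_ex0` : the standard expansion (`h18_std_gv_exists`);
* `h18_ex2` : the standard expansion of `W f` (`h18_W_galois` + `h18_std_gv_exists`);
* `h18_ex_all` : `∀ c, h36_EX L q hqL A c` (with `h18_ex1`).
-/
import Mathlib
import Fermat.Agent.S36.h18_Ex1

set_option autoImplicit false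
set_option synthInstance.maxHeartbeats 400000

noncomputable section

open ModularCurve AlgebraicCurve

namespace Fermat.Agent.S36

open Fermat.Agent.S34 Fermat.Agent.S37 Fermat.Agent.S24 Fermat.Agent.S35 Fermat.Agent.S18
  Fermat.Agent.GAL Fermat.Agent.S40

local notation "Qb" => AlgebraicClosure ℚ

/-- **(EX0)**: the standard expansion has Gauss orders on the inertia-fixed functions. -/
theorem h18_ex0 (L q : ℕ) [NeZero L] [NeZero q] [Fact q.Prime] (hqL : ¬ q ∣ L)
    (A : ValuationSubring Qb) (hA : A.LiesOverPrime q) : h36_EX L q hqL A 0 := by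
  intro f hf
  have hf' : (f : ↥(modularFunctionFieldBar (L * q * q))) ≠ 0 := fun h => hf (Subtype.ext h)
  have hfix : ∀ τ ∈ A.inertiaSubgroupIn ℚ,
      arithmeticRingAut (modularFunctionFieldFull (L * q * q)) τ
        (f : ↥(modularFunctionFieldBar (L * q * q))) = f := fun τ hτ => f.2 τ hτ
  exact h18_std_gv_exists (L * q * q) q A hA
    (f : ↥(modularFunctionFieldBar (L * q * q))) hf' hfix

/-- **(EX2)**: the standard expansion of `W f` has Gauss orders on the inertia-fixed
functions. -/
theorem h18_ex2 (L q : ℕ) [NeZero L] [NeZero q] [Fact q.Prime] (hqL : ¬ q ∣ L)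
    (A : ValuationSubring Qb) (hA : A.LiesOverPrime q) : h36_EX L q hqL A 2 := by
  intro f hf
  have hf' : (f : ↥(modularFunctionFieldBar (L * q * q))) ≠ 0 := fun h => hf (Subtype.ext h)
  have hW0 : h36_W L q hqL (f : ↥(modularFunctionFieldBar (L * q * q))) ≠ 0 := by
    intro h
    exact hf' ((map_eq_zero (h36_W L q hqL)).1 h)
  have hfix : ∀ τ ∈ A.inertiaSubgroupIn ℚ,
      arithmeticRingAut (modularFunctionFieldFull (L * q * q)) τ
        (h36_W L q hqL (f : ↥(modularFunctionFieldBar (L * q * q))))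
        = h36_W L q hqL (f : ↥(modularFunctionFieldBar (L * q * q))) := by
    intro τ hτ
    rw [← h18_W_galois L q hqL (h36_i0 L q) (h36_i2 L q hqL) (fun _ => rfl) (fun _ => rfl)
      (h36_i02_gen L q hqL) (h36_W L q hqL) (h36_W_i0 L q hqL) (h36_W_i2 L q hqL) τ
      (f : ↥(modularFunctionFieldBar (L * q * q)))]
    exact congrArg _ (f.2 τ hτ)
  exact h18_std_gv_exists (L * q * q) q A hA
    (h36_W L q hqL (f : ↥(modularFunctionFieldBar (L * q * q)))) hW0 hfix

/-- **(EX)**: all three expansions. -/
theorem h18_ex_all (L q : ℕ) [NeZero L] [NeZero q] [Fact q.Prime] (hqL : ¬ q ∣ L)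
    (A : ValuationSubring Qb) (hA : A.LiesOverPrime q) : ∀ c : Fin 3, h36_EX L q hqL A c := by
  intro c
  fin_cases c
  · exact h18_ex0 L q hqL A hA
  · exact h18_ex1 L q hqL A hA
  · exact h18_ex2 L q hqL A hA

end Fermat.Agent.S36

end
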