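import Mathlib
import Fermat.Agent.S36.h64_CuspSum

/-!
# S36 row H, (W-CUSP)(ii) transport (helper64): level one is `k(j̄)`

* `h64_fullC_one` : `modularFunctionFieldFullC k 1 = k⟮jqModC k⟯` inside `LaurentSeries k`;
* `h64_mem_adjoin_jk_of_level_one` : an element of `modularFunctionFieldFullC k M` whose
  `Q`-expansion lies in the level-one field is a rational function of `h54_jk k M`;
* `h64_ord_of_level_one`, `h64_cusp_sum_level_one` : the (CUSP-SUM) statements of
  `h64_CuspSum` with the hypothesis `W ∈ k(j̄)` replaced by `W` has a level-one expansion.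
-/

set_option autoImplicit false

noncomputable section

open AlgebraicCurve IntermediateField ModularCurve
open scoped MatrixGroups
open Fermat.Agent.S18 Fermat.Agent.S24 Fermat.Agent.S27 Fermat.Agent.S34 Fermat.Agent.S37

namespace Fermat.Agent.S36

section Modular

variable (k : Type) [Field k] (M : ℕ) [NeZero M]

/-- The level-one modular function field over `k` is `k(j̄)`. -/
theorem h64_fullC_one :
    modularFunctionFieldFullC k 1 = IntermediateField.adjoin k {jqModC k} := by
  apply le_antisymm
  · rw [modularFunctionFieldFullC, adjoin_le_iff]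
    rintro x ⟨d, hne, hdvd, rfl⟩
    have hd : d = 1 := Nat.dvd_one.mp hdvd
    subst hd
    rw [qExpand_one_apply]
    exact subset_adjoin k _ (Set.mem_singleton _)
  · rw [adjoin_le_iff]
    rintro x hx
    rw [Set.mem_singleton_iff] at hx
    subst hx
    exact jqModC_mem_full k 1

/-- An element of the level-`M` field whose `Q`-expansion lies in the level-one field is a
rational function of `j̄`. -/
theorem h64_mem_adjoin_jk_of_level_one {W : ↥(modularFunctionFieldFullC k M)}
    (h1 : ((W : ↥(modularFunctionFieldFullC k M)) : LaurentSeries k) ∈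
      modularFunctionFieldFullC k 1) :
    W ∈ k⟮h54_jk k M⟯ := by
  have hmap : (k⟮h54_jk k M⟯).map (modularFunctionFieldFullC k M).val
      = IntermediateField.adjoin k {jqModC k} := by
    rw [adjoin_map, Set.image_singleton]
    rfl
  rw [h64_fullC_one, ← hmap] at h1
  obtain ⟨y, hy, hyW⟩ := h1
  have : y = W := Subtype.ext hyW
  rw [← this]
  exact hy

/-- (W-CUSP) pointwise, level-one form. -/
theorem h64_ord_of_level_one {W : ↥(modularFunctionFieldFullC k M)} (hW0 : W ≠ 0)
    (h1 : ((W : ↥(modularFunctionFieldFullC k M)) : LaurentSeries k) ∈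
      modularFunctionFieldFullC k 1) (d : ℤ)
    (hord : ((W : ↥(modularFunctionFieldFullC k M)) : LaurentSeries k).order = d)
    (y : Place k ↥(modularFunctionFieldFullC k M)) (hy : y.ord (h54_jk k M) < 0) :
    y.ord W = - d * y.ord (h54_jk k M) :=
  h64_ord_of_mem_adjoin_jk k M hW0 (h64_mem_adjoin_jk_of_level_one k M h1) d hord y hy

end Modular

section Residue

local notation "Qb" => AlgebraicClosure ℚ

variable (M q : ℕ) [NeZero M] [Fact q.Prime] (hqM : ¬ q ∣ M)
  (A : ValuationSubring Qb) (hA : A.LiesOverPrime q)

include hqM hA in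
/-- **(CUSP-SUM)**, level-one form: for `W` on the reduction of `X₀(M)` modulo `q ∤ M` whose
`Q`-expansion is a level-one function of order `d`: `∑_{y over j̄ = ∞} ord_y W = d * ψ(M)`. -/
theorem h64_cusp_sum_level_one
    (T : Finset (Place (IsLocalRing.ResidueField A)
      ↥(modularFunctionFieldFullC (IsLocalRing.ResidueField A) M)))
    (hT : ∀ P, P ∈ T ↔ P.ord (h54_jk (IsLocalRing.ResidueField A) M) < 0)
    {W : ↥(modularFunctionFieldFullC (IsLocalRing.ResidueField A) M)} (hW0 : W ≠ 0)
    (h1 : ((W : ↥(modularFunctionFieldFullC (IsLocalRing.ResidueField A) M)) :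
      LaurentSeries (IsLocalRing.ResidueField A)) ∈
      modularFunctionFieldFullC (IsLocalRing.ResidueField A) 1) (d : ℤ)
    (hord : ((W : ↥(modularFunctionFieldFullC (IsLocalRing.ResidueField A) M)) :
      LaurentSeries (IsLocalRing.ResidueField A)).order = d) :
    ∑ P ∈ T, P.ord W = d * (dedekindPsi M : ℤ) :=
  h64_cusp_sum M q hqM A hA T hT hW0
    (h64_mem_adjoin_jk_of_level_one (IsLocalRing.ResidueField A) M h1) d hord

end Residue

end Fermat.Agent.S36

end
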