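import Mathlib
import Fermat.Agent.S28.Orders
import Fermat.Agent.S36.h20_RhoD
import Fermat.Agent.S36.h64_LevelOne

/-!
# S36 / (HASSE) package, rows (U) and (W-CUSP) (helper20): the modular unit `u`

`J = j(Q)`, `J₁ = j(Q^q) = w J`, `ρ = h20_rho M q = (1/q) dJ₁/dJ`,
`u = ρ ^ 6 * (J ^ 4 * (J - 1728) ^ 3) / (J₁ ^ 4 * (J₁ - 1728) ^ 3)`  (`= Δ(qτ)/Δ(τ)` up to a
constant).

* series level: `h20_uS K q`, of order `q - 1` over every field (`h20_uS_order`), in `h60_Os A`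
  over `ℚ̄` with reduction `h20_uS k q` (`h20_rs_uO`); in characteristic `q`,
  `ū * (j ^ 4 * (j - 1728) ^ 3) ^ (q - 1) = (θ j) ^ (6 * (q - 1))` (`h20_uS_char`);
* `h20_u M q : F(Mq)` with expansion `h20_uS ℚ̄ q`; `h20_u_eq` : it is the function of
  `h20_u_ord` / `h65_unit_u`; `h20_u_ord'` : order `0` wherever `J` is finite;
* (U) `h20_u_mem` (`u ∈ O₁`), `h20_redF_u_ne_zero` (`W := red₁ u ≠ 0`), `h20_w_u`
  (`w u = (q ^ 12 * u)⁻¹`), `h20_u_mem2` (`q ^ 12 * u ∈ O₂`) and the reductions of `u⁻¹`,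
  `q ^ 12 * u` along both branches;
* (W-CUSP) `h20_redF_u_order` (the expansion of `W` has order `q - 1`), `h20_redF_u_level_one`
  (it is a level-one function), `h20_cusp_sum` : `∑_{P over j̄ = ∞} ord_P W = (q - 1) ψ(M)`.
-/

set_option autoImplicit false
set_option synthInstance.maxHeartbeats 400000

noncomputable section

open ModularCurve AlgebraicCurve IntermediateField
open scoped MatrixGroups

namespace Fermat.Agent.S36

open Fermat.Agent.S18 Fermat.Agent.S24 Fermat.Agent.S28 Fermat.Agent.S34 Fermat.Agent.S37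

local notation "Qb" => AlgebraicClosure ℚ

/-! ### Series level -/

section SeriesRing

variable (R : Type*) [CommRing R]

theorem h20_LT_TJ : h33_LT (h20_TJ R) (-1) (-1) := by
  refine ⟨h20_TJ_coeff_neg_one R, fun m hm => ?_⟩
  rw [h20_TJ, h20_thetaFun_coeff, (h33_LT_jqModC (A := R)).2 m hm, mul_zero]

theorem h20_LT_sub_const {f : LaurentSeries R} {n : ℤ} {c : R} (hf : h33_LT f n c) (hn : n < 0) :
    h33_LT (f - 1728) n c := by
  have h1 : (1728 : LaurentSeries R) = ((1728 : ℕ) : LaurentSeries R) := by norm_num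
  have h2 := h33_LT_natCast (A := R) 1728
  refine ⟨?_, fun m hm => ?_⟩
  · rw [HahnSeries.coeff_sub, hf.1, h1, h2.2 n hn, sub_zero]
  · rw [HahnSeries.coeff_sub, hf.2 m hm, h1, h2.2 m (lt_trans hm hn), sub_zero]

variable (q : ℕ) [NeZero q]

theorem h20_LT_Vj : h33_LT (qExpand R q (jqModC R)) ((q : ℤ) * (-1)) 1 := by
  have h := h33_LT_expand (h33_LT_jqModC (A := R)) q (NeZero.ne q)
  rwa [expand_eq_qExpand] at h

theorem h20_LT_VTJ : h33_LT (qExpand R q (h20_TJ R)) ((q : ℤ) * (-1)) (-1) := by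
  have h := h33_LT_expand (h20_LT_TJ R) q (NeZero.ne q)
  rwa [expand_eq_qExpand] at h

end SeriesRing

section SeriesField

variable (K : Type*) [Field K] (q : ℕ) [NeZero q]

/-- The expansion of the modular unit
`u = ρ⁶ j⁴ (j - 1728)³ / (j(Q^q)⁴ (j(Q^q) - 1728)³)`. -/
def h20_uS : LaurentSeries K :=
  h20_rhoS K q ^ 6 * (jqModC K ^ 4 * (jqModC K - 1728) ^ 3)
    / (qExpand K q (jqModC K) ^ 4 * (qExpand K q (jqModC K) - 1728) ^ 3)

theorem h20_LT_den :
    h33_LT (qExpand K q (jqModC K) ^ 4 * (qExpand K q (jqModC K) - 1728) ^ 3)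
      (((4 : ℕ) : ℤ) * ((q : ℤ) * (-1)) + ((3 : ℕ) : ℤ) * ((q : ℤ) * (-1))) (1 ^ 4 * 1 ^ 3) := by
  have hq : ((q : ℤ) * (-1)) < 0 := by
    have : (0 : ℤ) < q := by exact_mod_cast Nat.pos_of_ne_zero (NeZero.ne q)
    linarith
  exact h33_LT_mul (h33_LT_pow (h20_LT_Vj K q) 4)
    (h33_LT_pow (h20_LT_sub_const K (h20_LT_Vj K q) hq) 3)

theorem h20_LT_num :
    h33_LT (jqModC K ^ 4 * (jqModC K - 1728) ^ 3)
      (((4 : ℕ) : ℤ) * (-1) + ((3 : ℕ) : ℤ) * (-1)) (1 ^ 4 * 1 ^ 3) :=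
  h33_LT_mul (h33_LT_pow (h33_LT_jqModC (A := K)) 4)
    (h33_LT_pow (h20_LT_sub_const K (h33_LT_jqModC (A := K)) (by norm_num)) 3)

theorem h20_den_ne_zero :
    qExpand K q (jqModC K) ^ 4 * (qExpand K q (jqModC K) - 1728) ^ 3 ≠ 0 :=
  (h33_LT_order (h20_LT_den K q) (by norm_num)).2

theorem h20_num_ne_zero : jqModC K ^ 4 * (jqModC K - 1728) ^ 3 ≠ 0 :=
  (h33_LT_order (h20_LT_num K) (by norm_num)).2

/-- `u * (j(Q^q)⁴ (j(Q^q) - 1728)³) * (θ j)⁶ = (θ j)(Q^q)⁶ * (j⁴ (j - 1728)³)`. -/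
theorem h20_uS_spec :
    h20_uS K q * ((qExpand K q (jqModC K) ^ 4 * (qExpand K q (jqModC K) - 1728) ^ 3)
        * h20_TJ K ^ 6)
      = qExpand K q (h20_TJ K) ^ 6 * (jqModC K ^ 4 * (jqModC K - 1728) ^ 3) := by
  rw [h20_uS, ← mul_assoc, div_mul_cancel₀ _ (h20_den_ne_zero K q), ← h20_rhoS_mul K q]
  ring

theorem h20_uS_ne_zero : h20_uS K q ≠ 0 := by
  intro h
  have h1 := h20_uS_spec K q
  rw [h, zero_mul] at h1
  have h2 : h33_LT (qExpand K q (h20_TJ K) ^ 6 * (jqModC K ^ 4 * (jqModC K - 1728) ^ 3)) _ _ :=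
    h33_LT_mul (h33_LT_pow (h20_LT_VTJ K q) 6) (h20_LT_num K)
  exact (h33_LT_order h2 (by norm_num)).2 h1.symm

/-- **The expansion of `u` has order `q - 1`.** -/
theorem h20_uS_order : (h20_uS K q).order = (q : ℤ) - 1 := by
  have h1 := h20_uS_spec K q
  have h2 : h33_LT (qExpand K q (h20_TJ K) ^ 6 * (jqModC K ^ 4 * (jqModC K - 1728) ^ 3)) _ _ :=
    h33_LT_mul (h33_LT_pow (h20_LT_VTJ K q) 6) (h20_LT_num K)
  have h3 : h33_LT ((qExpand K q (jqModC K) ^ 4 * (qExpand K q (jqModC K) - 1728) ^ 3)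
      * h20_TJ K ^ 6) _ _ :=
    h33_LT_mul (h20_LT_den K q) (h33_LT_pow (h20_LT_TJ K) 6)
  have o2 := (h33_LT_order h2 (by norm_num)).1
  have o3 := h33_LT_order h3 (by norm_num)
  have o1 := HahnSeries.order_mul (h20_uS_ne_zero K q) o3.2
  rw [h1, o2, o3.1] at o1
  push_cast at o1
  linarith

end SeriesField

section SeriesChar

variable (k : Type*) [Field k] (q : ℕ) [NeZero q] [Fact q.Prime] [CharP k q]

/-- In characteristic `q`: `j(Q^q) - 1728 = (j - 1728) ^ q`. -/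
theorem h20_jq_sub_pow_char : qExpand k q (jqModC k) - 1728 = (jqModC k - 1728) ^ q := by
  rw [h87_pow_char k q (jqModC k - 1728), map_sub, map_sub, coeffMap_jqModC, map_ofNat,
    map_ofNat]

/-- In characteristic `q`: `ū * (j⁴ (j - 1728)³) ^ (q - 1) = (θ j) ^ (6 (q - 1))`. -/
theorem h20_uS_char :
    h20_uS k q * (jqModC k ^ 4 * (jqModC k - 1728) ^ 3) ^ (q - 1)
      = h20_TJ k ^ (6 * (q - 1)) := by
  have hq : q = (q - 1) + 1 := (Nat.succ_pred_eq_of_pos (Fact.out : q.Prime).pos).symm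
  have hden := h20_den_ne_zero k q
  rw [h20_uS, div_mul_eq_mul_div, div_eq_iff hden, h20_rhoS_char, h20_jq_sub_pow_char,
    h20_jq_pow_char]
  have e1 : (jqModC k ^ q) ^ 4 * ((jqModC k - 1728) ^ q) ^ 3
      = (jqModC k ^ 4 * (jqModC k - 1728) ^ 3) * (jqModC k ^ 4 * (jqModC k - 1728) ^ 3) ^ (q - 1) := by
    rw [← pow_succ', ← hq]
    generalize jqModC k - 1728 = b
    generalize jqModC k = a
    ring
  rw [e1]
  generalize jqModC k ^ 4 * (jqModC k - 1728) ^ 3 = N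
  generalize h20_TJ k = T
  ring

end SeriesChar

/-! ### Integrality over `ℚ̄` -/

section Integral

variable (A : ValuationSubring Qb) (q : ℕ) [NeZero q]

/-- `j` as an element of `h60_Os A`. -/
def h20_JO : h60_Os A :=
  ⟨jqModC Qb, by rw [← coeffMap_jqModC A.subtype]; exact h60_int_mem A _⟩

theorem h20_rs_JO : h60_rs A (h20_JO A) = jqModC (IsLocalRing.ResidueField A) := by
  have h2 : h20_JO A = ⟨coeffMap A.subtype (jqModC A), h60_int_mem A _⟩ :=
    Subtype.ext (coeffMap_jqModC A.subtype).symm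
  rw [h2, h60_rs_int, coeffMap_jqModC]

/-- `j(Q^q)` as an element of `h60_Os A`. -/
def h20_VJO : h60_Os A := ⟨qExpand Qb q (jqModC Qb), h60_qExpand_mem A q (h20_JO A).2⟩

theorem h20_rs_VJO :
    h60_rs A (h20_VJO A q) = qExpand (IsLocalRing.ResidueField A) q
      (jqModC (IsLocalRing.ResidueField A)) := by
  have h := h60_rs_qExpand A q (h20_JO A)
  rw [h20_rs_JO] at h
  exact h

/-- The denominator `j(Q^q)⁴ (j(Q^q) - 1728)³` as an element of `h60_Os A`. -/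
def h20_denO : h60_Os A := h20_VJO A q ^ 4 * (h20_VJO A q - 1728) ^ 3

theorem h20_rs_denO :
    h60_rs A (h20_denO A q)
      = qExpand (IsLocalRing.ResidueField A) q (jqModC (IsLocalRing.ResidueField A)) ^ 4
        * (qExpand (IsLocalRing.ResidueField A) q (jqModC (IsLocalRing.ResidueField A))
            - 1728) ^ 3 := by
  rw [h20_denO, map_mul, map_pow, map_pow, map_sub, map_ofNat, h20_rs_VJO]

theorem h20_rs_denO_ne_zero : h60_rs A (h20_denO A q) ≠ 0 := by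
  rw [h20_rs_denO]
  exact h20_den_ne_zero _ q

/-- The inverse of the denominator as an element of `h60_Os A`. -/
def h20_denInvO : h60_Os A :=
  ⟨((h20_denO A q : h60_Os A) : LaurentSeries Qb)⁻¹,
    h60_inv_mem A (h20_denO A q) (h20_rs_denO_ne_zero A q)⟩

theorem h20_rs_denInvO : h60_rs A (h20_denInvO A q) = (h60_rs A (h20_denO A q))⁻¹ :=
  h60_rs_inv A (h20_denO A q) (h20_rs_denO_ne_zero A q)

/-- `u` as an element of `h60_Os A`. -/
def h20_uO : h60_Os A :=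
  h20_rhoO A q ^ 6 * (h20_JO A ^ 4 * (h20_JO A - 1728) ^ 3) * h20_denInvO A q

theorem h20_coe_uO : ((h20_uO A q : h60_Os A) : LaurentSeries Qb) = h20_uS Qb q := by
  rw [h20_uS, div_eq_mul_inv]
  rfl

theorem h20_uS_mem : h20_uS Qb q ∈ h60_Os A := by
  rw [← h20_coe_uO A q]
  exact (h20_uO A q).2

/-- **The reduction of `u`** is the same series over the residue field. -/
theorem h20_rs_uO : h60_rs A (h20_uO A q) = h20_uS (IsLocalRing.ResidueField A) q := by
  rw [h20_uO, map_mul, map_mul, map_pow, map_mul, map_pow, map_pow, map_sub, map_ofNat,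
    h20_rs_rhoO, h20_rs_JO, h20_rs_denInvO, h20_rs_denO, h20_uS, div_eq_mul_inv]

end Integral

/-! ### The function `u ∈ F(Mq)` -/

section U

variable (M q : ℕ) [NeZero M] [NeZero q]

/-- **The modular unit** `u = ρ⁶ J⁴ (J - 1728)³ / (J₁⁴ (J₁ - 1728)³) ∈ F(Mq)`. -/
def h20_u : ↥(modularFunctionFieldBar (M * q)) :=
  h20_rho M q ^ 6 * (h59_jbar (M * q) ^ 4 * (h59_jbar (M * q) - 1728) ^ 3)
    / (h20_J1 M q ^ 4 * (h20_J1 M q - 1728) ^ 3)

omit [NeZero M] [NeZero q] in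
theorem h20_coe_num :
    ((h59_jbar (M * q) ^ 4 * (h59_jbar (M * q) - 1728) ^ 3 :
        ↥(modularFunctionFieldBar (M * q))) : LaurentSeries Qb)
      = jqModC Qb ^ 4 * (jqModC Qb - 1728) ^ 3 := by
  rw [← h20_coe_jbar (M * q)]
  rfl

omit [NeZero M] in
theorem h20_coe_den :
    ((h20_J1 M q ^ 4 * (h20_J1 M q - 1728) ^ 3 :
        ↥(modularFunctionFieldBar (M * q))) : LaurentSeries Qb)
      = qExpand Qb q (jqModC Qb) ^ 4 * (qExpand Qb q (jqModC Qb) - 1728) ^ 3 := by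
  rw [← h20_coe_J1 M q]
  rfl

omit [NeZero M] [NeZero q] in
theorem h20_numF_ne_zero :
    h59_jbar (M * q) ^ 4 * (h59_jbar (M * q) - 1728) ^ 3 ≠ 0 := by
  intro h
  have h1 := h20_coe_num M q
  rw [h, IntermediateField.coe_zero] at h1
  exact h20_num_ne_zero Qb h1.symm

omit [NeZero M] in
theorem h20_denF_ne_zero :
    h20_J1 M q ^ 4 * (h20_J1 M q - 1728) ^ 3 ≠ 0 := by
  intro h
  have h1 := h20_coe_den M q
  rw [h, IntermediateField.coe_zero] at h1
  exact h20_den_ne_zero Qb q h1.symm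

/-- The expansion of `u`. -/
theorem h20_coe_u :
    ((h20_u M q : ↥(modularFunctionFieldBar (M * q))) : LaurentSeries Qb) = h20_uS Qb q := by
  have h1 : ((h20_u M q : ↥(modularFunctionFieldBar (M * q))) : LaurentSeries Qb)
      = ((h20_rho M q : ↥(modularFunctionFieldBar (M * q))) : LaurentSeries Qb) ^ 6
        * ((h59_jbar (M * q) ^ 4 * (h59_jbar (M * q) - 1728) ^ 3 :
            ↥(modularFunctionFieldBar (M * q))) : LaurentSeries Qb)
        / ((h20_J1 M q ^ 4 * (h20_J1 M q - 1728) ^ 3 :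
            ↥(modularFunctionFieldBar (M * q))) : LaurentSeries Qb) := rfl
  rw [h1, h20_coe_num, h20_coe_den, h20_coe_rho, h20_uS]

theorem h20_u_ne_zero : h20_u M q ≠ 0 := by
  intro h
  have h1 := h20_coe_u M q
  rw [h, IntermediateField.coe_zero] at h1
  exact h20_uS_ne_zero Qb q h1.symm

end U

/-! ### (U) and (W-CUSP) -/

section R1

variable (M q : ℕ) [NeZero M] [NeZero q] [Fact q.Prime] (hqM : ¬ q ∣ M)
  (A : ValuationSubring Qb) (hA : A.LiesOverPrime q)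

/-- `h20_u` is the function of `h20_u_ord` / `h65_unit_u`. -/
theorem h20_u_eq :
    h20_u M q = h20_rho M q ^ 6 * (h59_jbar (M * q) ^ 4 * (h59_jbar (M * q) - 1728) ^ 3)
      / (h60_w M q hqM (h59_jbar (M * q)) ^ 4
          * (h60_w M q hqM (h59_jbar (M * q)) - 1728) ^ 3) := by
  rw [h20_w_J0, h20_u]

include hqM in
/-- **(U), `huB`**: `u` has order `0` wherever `J` is finite (level without elliptic elements). -/
theorem h20_u_ord'
    (hEll : ∀ g : SL(2, ℤ), g⁻¹ * ModularGroup.S * g ∉ CongruenceSubgroup.Gamma0 (M * q) ∧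
      g⁻¹ * (ModularGroup.S * ModularGroup.T) * g ∉ CongruenceSubgroup.Gamma0 (M * q))
    (P : Place Qb ↥(modularFunctionFieldBar (M * q)))
    (hP : h59_jbar (M * q) ∈ P.toValuationSubring) :
    P.ord (h20_u M q) = 0 := by
  rw [h20_u_eq M q hqM]
  exact h20_u_ord M q hqM hEll P hP

/-- **(U), `hu1`**: `u ∈ O₁`. -/
theorem h20_u_mem : h20_u M q ∈ (h60_R1 M q hqM A hA).O := by
  rw [h60_R1_mem_iff_Os, h20_coe_u]
  exact h20_uS_mem A q

/-- The expansion of `W = red₁ u` is `h20_uS k q`. -/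
theorem h20_coe_redF_u :
    (((h60_R1 M q hqM A hA).redF (h20_u M q) :
        ↥(modularFunctionFieldFullC (IsLocalRing.ResidueField A) M)) :
          LaurentSeries (IsLocalRing.ResidueField A))
      = h20_uS (IsLocalRing.ResidueField A) q := by
  rw [(h60_R1 M q hqM A hA).redF_of_mem (h20_u_mem M q hqM A hA), h60_R1_coe_red]
  have h2 : (⟨((h20_u M q : ↥(modularFunctionFieldBar (M * q))) : LaurentSeries Qb),
      (h60_R1_mem_iff_Os M q hqM A hA (h20_u M q)).mp (h20_u_mem M q hqM A hA)⟩ :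
        h60_Os A) = h20_uO A q :=
    Subtype.ext ((h20_coe_u M q).trans (h20_coe_uO A q).symm)
  rw [h2, h20_rs_uO]

/-- **(U), `hW`**: `W = red₁ u ≠ 0`. -/
theorem h20_redF_u_ne_zero : (h60_R1 M q hqM A hA).redF (h20_u M q) ≠ 0 := by
  intro h
  have h1 := h20_coe_redF_u M q hqM A hA
  rw [h, IntermediateField.coe_zero] at h1
  exact h20_uS_ne_zero _ q h1.symm

/-- `u⁻¹ ∈ O₁`. -/
theorem h20_u_inv_mem : (h20_u M q)⁻¹ ∈ (h60_R1 M q hqM A hA).O :=
  (h39_inv_of_redF_ne_zero _ (h20_redF_u_ne_zero M q hqM A hA)).1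

theorem h20_redF_u_inv :
    (h60_R1 M q hqM A hA).redF (h20_u M q)⁻¹
      = ((h60_R1 M q hqM A hA).redF (h20_u M q))⁻¹ :=
  (h39_inv_of_redF_ne_zero _ (h20_redF_u_ne_zero M q hqM A hA)).2

/-- **(W-CUSP)(iii)**: the expansion of `W` has order `q - 1`. -/
theorem h20_redF_u_order :
    (((h60_R1 M q hqM A hA).redF (h20_u M q) :
        ↥(modularFunctionFieldFullC (IsLocalRing.ResidueField A) M)) :
          LaurentSeries (IsLocalRing.ResidueField A)).order = (q : ℤ) - 1 := by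
  rw [h20_coe_redF_u]
  exact h20_uS_order _ q

/-- **(W-CUSP)(ii)**: the expansion of `W` is a level-one function. -/
theorem h20_redF_u_level_one :
    (((h60_R1 M q hqM A hA).redF (h20_u M q) :
        ↥(modularFunctionFieldFullC (IsLocalRing.ResidueField A) M)) :
          LaurentSeries (IsLocalRing.ResidueField A))
      ∈ modularFunctionFieldFullC (IsLocalRing.ResidueField A) 1 := by
  have hq1 : ¬ q ∣ 1 := fun h => (Fact.out : q.Prime).one_lt.ne' (Nat.dvd_one.mp h)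
  rw [h20_coe_redF_u, ← h20_coe_redF_u 1 q hq1 A hA]
  exact SetLike.coe_mem _

/-- **(W-CUSP)**: `∑_{P over j̄ = ∞} ord_P W = (q - 1) ψ(M)`  (`hcusp` of `h81_CountHyp`). -/
theorem h20_cusp_sum
    (T : Finset (Place (IsLocalRing.ResidueField A)
      ↥(modularFunctionFieldFullC (IsLocalRing.ResidueField A) M)))
    (hT : ∀ P, P ∈ T ↔ P.ord (h54_jk (IsLocalRing.ResidueField A) M) < 0) :
    ∑ P ∈ T, P.ord ((h60_R1 M q hqM A hA).redF (h20_u M q))
      = ((q : ℤ) - 1) * (dedekindPsi M : ℤ) :=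
  h64_cusp_sum_level_one M q hqM A hA T hT (h20_redF_u_ne_zero M q hqM A hA)
    (h20_redF_u_level_one M q hqM A hA) _ (h20_redF_u_order M q hqM A hA)

/-- **(U)**: `w u = (q ^ 12 * u)⁻¹`. -/
theorem h20_w_u :
    h60_w M q hqM (h20_u M q)
      = (((q : ℕ) : ↥(modularFunctionFieldBar (M * q))) ^ 12 * h20_u M q)⁻¹ := by
  have hq : ((q : ℕ) : ↥(modularFunctionFieldBar (M * q))) ≠ 0 := by
    rw [← map_natCast (algebraMap Qb ↥(modularFunctionFieldBar (M * q)))]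
    exact (map_ne_zero _).mpr (Nat.cast_ne_zero.mpr (NeZero.ne q))
  have hρ := h20_rho_ne_zero M q
  have hN := h20_numF_ne_zero M q
  have hD := h20_denF_ne_zero M q
  have e1 : h60_w M q hqM (h59_jbar (M * q) ^ 4 * (h59_jbar (M * q) - 1728) ^ 3)
      = h20_J1 M q ^ 4 * (h20_J1 M q - 1728) ^ 3 := by
    rw [map_mul, map_pow, map_pow, map_sub, map_ofNat, h20_w_J0]
  have e2 : h60_w M q hqM (h20_J1 M q ^ 4 * (h20_J1 M q - 1728) ^ 3)
      = h59_jbar (M * q) ^ 4 * (h59_jbar (M * q) - 1728) ^ 3 := by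
    rw [map_mul, map_pow, map_pow, map_sub, map_ofNat, h20_w_J1]
  rw [h20_u, map_div₀, map_mul, map_pow, e1, e2, h20_w_rho_eq M q hqM]
  generalize h59_jbar (M * q) ^ 4 * (h59_jbar (M * q) - 1728) ^ 3 = N at hN ⊢
  generalize h20_J1 M q ^ 4 * (h20_J1 M q - 1728) ^ 3 = D at hD ⊢
  field_simp

/-- **(U), `hu2`**: `q ^ 12 * u ∈ O₂`. -/
theorem h20_u_mem2 :
    ((q : ℕ) : ↥(modularFunctionFieldBar (M * q))) ^ 12 * h20_u M q
      ∈ (h60_R2 M q hqM A hA).O := by
  have hq : ((q : ℕ) : ↥(modularFunctionFieldBar (M * q))) ≠ 0 := by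
    rw [← map_natCast (algebraMap Qb ↥(modularFunctionFieldBar (M * q)))]
    exact (map_ne_zero _).mpr (Nat.cast_ne_zero.mpr (NeZero.ne q))
  rw [h60_R2_mem_iff, map_mul, map_pow, map_natCast, h20_w_u M q hqM, mul_inv, ← mul_assoc,
    mul_inv_cancel₀ (pow_ne_zero 12 hq), one_mul]
  exact h20_u_inv_mem M q hqM A hA

/-- `red₂ (q ^ 12 * u) = W⁻¹`. -/
theorem h20_redF2_u :
    (h60_R2 M q hqM A hA).redF (((q : ℕ) : ↥(modularFunctionFieldBar (M * q))) ^ 12 * h20_u M q)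
      = ((h60_R1 M q hqM A hA).redF (h20_u M q))⁻¹ := by
  have hq : ((q : ℕ) : ↥(modularFunctionFieldBar (M * q))) ≠ 0 := by
    rw [← map_natCast (algebraMap Qb ↥(modularFunctionFieldBar (M * q)))]
    exact (map_ne_zero _).mpr (Nat.cast_ne_zero.mpr (NeZero.ne q))
  rw [h60_R2_redF, map_mul, map_pow, map_natCast, h20_w_u M q hqM, mul_inv, ← mul_assoc,
    mul_inv_cancel₀ (pow_ne_zero 12 hq), one_mul, h20_redF_u_inv]

/-- (U), `hu2` in the `algebraMap` form of `h81_CountHyp` (`π = q`). -/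
theorem h20_hu2 :
    algebraMap Qb ↥(modularFunctionFieldBar (M * q)) ((q : ℕ) : Qb) ^ 12 * h20_u M q
      ∈ (h60_R2 M q hqM A hA).O := by
  rw [map_natCast]
  exact h20_u_mem2 M q hqM A hA

/-- The residue of `q` vanishes (`hπ1'` of `h81_CountHyp`). -/
theorem h20_R1_resK_q : (h60_R1 M q hqM A hA).resK ((q : ℕ) : Qb) = 0 := by
  have hqA : ((q : ℕ) : Qb) ∈ A := natCast_mem A q
  have hqA1 : ((q : ℕ) : Qb) ∈ (h60_R1 M q hqM A hA).A := by
    rw [h60_R1_A]
    exact hqA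
  have : CharP (IsLocalRing.ResidueField A) q := h19_residueField_charP A q hA
  rw [(h60_R1 M q hqM A hA).resK_of_mem hqA1, h60_R1_res M q hqM A hA _ hqA1 hqA]
  have h1 : (⟨((q : ℕ) : Qb), hqA⟩ : A) = ((q : ℕ) : A) := Subtype.ext rfl
  rw [h1, map_natCast, CharP.cast_eq_zero]

/-- The residue of `q` vanishes (`hπ2'` of `h81_CountHyp`). -/
theorem h20_R2_resK_q : (h60_R2 M q hqM A hA).resK ((q : ℕ) : Qb) = 0 := by
  have hqA : ((q : ℕ) : Qb) ∈ A := natCast_mem A q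
  have hqA2 : ((q : ℕ) : Qb) ∈ (h60_R2 M q hqM A hA).A := by
    rw [h60_R2_A]
    exact hqA
  have : CharP (IsLocalRing.ResidueField A) q := h19_residueField_charP A q hA
  rw [(h60_R2 M q hqM A hA).resK_of_mem hqA2, h60_R2_res M q hqM A hA _ hqA2 hqA]
  have h1 : (⟨((q : ℕ) : Qb), hqA⟩ : A) = ((q : ℕ) : A) := Subtype.ext rfl
  rw [h1, map_natCast, CharP.cast_eq_zero]

/-- `red₁ q = 0`. -/
theorem h20_R1_redF_q :
    (h60_R1 M q hqM A hA).redF ((q : ℕ) : ↥(modularFunctionFieldBar (M * q))) = 0 := by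
  have hqA1 : ((q : ℕ) : Qb) ∈ (h60_R1 M q hqM A hA).A := by
    rw [h60_R1_A]
    exact natCast_mem A q
  rw [← map_natCast (algebraMap Qb ↥(modularFunctionFieldBar (M * q))),
    h39_redF_algebraMap _ hqA1, h20_R1_resK_q, map_zero]

theorem h20_R1_q_mem :
    ((q : ℕ) : ↥(modularFunctionFieldBar (M * q))) ∈ (h60_R1 M q hqM A hA).O := by
  have hqA1 : ((q : ℕ) : Qb) ∈ (h60_R1 M q hqM A hA).A := by
    rw [h60_R1_A]
    exact natCast_mem A q
  rw [← map_natCast (algebraMap Qb ↥(modularFunctionFieldBar (M * q)))]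
  exact ((h60_R1 M q hqM A hA).mem_iff _).mp hqA1

/-- `q ^ 12 * u ∈ O₁`. -/
theorem h20_q12u_mem1 :
    ((q : ℕ) : ↥(modularFunctionFieldBar (M * q))) ^ 12 * h20_u M q
      ∈ (h60_R1 M q hqM A hA).O :=
  (h60_R1 M q hqM A hA).O.mul_mem _ _
    ((h60_R1 M q hqM A hA).O.pow_mem (h20_R1_q_mem M q hqM A hA) 12) (h20_u_mem M q hqM A hA)

/-- `red₁ (q ^ 12 * u) = 0`. -/
theorem h20_redF1_q12u :
    (h60_R1 M q hqM A hA).redF (((q : ℕ) : ↥(modularFunctionFieldBar (M * q))) ^ 12 * h20_u M q)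
      = 0 := by
  rw [h39_redF_mul _ ((h60_R1 M q hqM A hA).O.pow_mem (h20_R1_q_mem M q hqM A hA) 12)
    (h20_u_mem M q hqM A hA), h39_redF_pow _ (h20_R1_q_mem M q hqM A hA), h20_R1_redF_q]
  simp

/-- `u⁻¹ ∈ O₂`. -/
theorem h20_u_inv_mem2 : (h20_u M q)⁻¹ ∈ (h60_R2 M q hqM A hA).O := by
  rw [h60_R2_mem_iff, map_inv₀, h20_w_u M q hqM, inv_inv]
  exact h20_q12u_mem1 M q hqM A hA

/-- `red₂ u⁻¹ = 0`. -/
theorem h20_redF2_u_inv : (h60_R2 M q hqM A hA).redF (h20_u M q)⁻¹ = 0 := by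
  rw [h60_R2_redF, map_inv₀, h20_w_u M q hqM, inv_inv]
  exact h20_redF1_q12u M q hqM A hA

/-- **(U)**: `W * (j̄⁴ (j̄ - 1728)³) ^ (q - 1) = (red₁ ρ) ^ 6`. -/
theorem h20_W_rel :
    (h60_R1 M q hqM A hA).redF (h20_u M q)
        * (h54_jk (IsLocalRing.ResidueField A) M ^ 4
            * (h54_jk (IsLocalRing.ResidueField A) M - 1728) ^ 3) ^ (q - 1)
      = (h60_R1 M q hqM A hA).redF (h20_rho M q) ^ 6 := by
  have : CharP (IsLocalRing.ResidueField A) q := h19_residueField_charP A q hA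
  apply Subtype.ext
  have h1 : ((((h60_R1 M q hqM A hA).redF (h20_u M q)
        * (h54_jk (IsLocalRing.ResidueField A) M ^ 4
            * (h54_jk (IsLocalRing.ResidueField A) M - 1728) ^ 3) ^ (q - 1) :
        ↥(modularFunctionFieldFullC (IsLocalRing.ResidueField A) M)) :
          LaurentSeries (IsLocalRing.ResidueField A)))
      = (((h60_R1 M q hqM A hA).redF (h20_u M q) :
          ↥(modularFunctionFieldFullC (IsLocalRing.ResidueField A) M)) :
            LaurentSeries (IsLocalRing.ResidueField A))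
        * (jqModC (IsLocalRing.ResidueField A) ^ 4
            * (jqModC (IsLocalRing.ResidueField A) - 1728) ^ 3) ^ (q - 1) := rfl
  have h2 : ((((h60_R1 M q hqM A hA).redF (h20_rho M q) ^ 6 :
        ↥(modularFunctionFieldFullC (IsLocalRing.ResidueField A) M)) :
          LaurentSeries (IsLocalRing.ResidueField A)))
      = (((h60_R1 M q hqM A hA).redF (h20_rho M q) :
          ↥(modularFunctionFieldFullC (IsLocalRing.ResidueField A) M)) :
            LaurentSeries (IsLocalRing.ResidueField A)) ^ 6 := rfl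
  rw [h1, h2, h20_coe_redF_u, h20_uS_char, h20_coe_redF_rho, h20_rhoS_char, ← pow_mul,
    mul_comm]

end R1

end Fermat.Agent.S36

end
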