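import Mathlib
import Fermat.Agent.S36.h69_ConstA
import Fermat.Agent.S36.h91_IntW
import Fermat.Agent.S36.h16_CuspNZ

/-!
# S36 / I-CUSP (helper69): constants in the chart rings (`hc`) and (NZ2) closed

* `h69_hc_famOf` : the constants of `A₀` lie in the chart ring of any chart family `h80_famOf`
  whose vertical valuations are non-negative on `A₀` — the binder `hc` of `h16_no_zero`;
  closed instances `h69_hc_fam1_q2`, `h69_hc_fam2_q2` (level `M q²`, `w2`) and `h69_hc_fam1_q`,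
  `h69_hc_fam2_q` (level `M q`, `w1`).
* `h69_NZ2` : **(NZ2)** no zero of `j(q²τ)` passes through a cusp point of the chart `1/j` of
  level `M q²` (`h16_no_zero` + `h91_J0_int_J2` + `hc`), no hypothesis left.
-/

set_option autoImplicit false
set_option synthInstance.maxHeartbeats 400000
set_option linter.style.haveILetI false
set_option linter.unusedSectionVars false

noncomputable section

open ModularCurve AlgebraicCurve

namespace Fermat.Agent.S36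

open Fermat.Agent.S34 Fermat.Agent.S37 Fermat.Agent.S24 Fermat.Agent.S35 Fermat.Agent.S18
  Fermat.Agent.GAL Fermat.Agent.S40 Fermat.Agent.S05

local notation "Qb" => AlgebraicClosure ℚ

section Gen

variable (N : ℕ) [NeZero N] (A : ValuationSubring Qb)
variable {κ : Type*} [Finite κ] (w : κ → h69_F0 N (A.inertiaSubgroupIn ℚ) → ℤ)
  (hw_mul : ∀ c (f g : h69_F0 N (A.inertiaSubgroupIn ℚ)), f ≠ 0 → g ≠ 0 →
    w c (f * g) = w c f + w c g)
  (hw_add : ∀ c (f g : h69_F0 N (A.inertiaSubgroupIn ℚ)), f ≠ 0 → g ≠ 0 → f + g ≠ 0 →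
    min (w c f) (w c g) ≤ w c (f + g))
  (x : modularFunctionFieldBar N) (hx : h75_IsChart Qb x)

/-- **(hc)** the constants of `A₀` lie in the chart ring of any chart family. -/
theorem h69_hc_famOf
    (hwA : ∀ c (a : h69_K0 (A.inertiaSubgroupIn ℚ)), a ∈ h69_A0 A → a ≠ 0 →
      0 ≤ w c (algebraMap (h69_K0 (A.inertiaSubgroupIn ℚ)) (h69_F0 N (A.inertiaSubgroupIn ℚ)) a)) :
    ∀ r : (h69_A0 A).toSubring,
      algebraMap (h69_K0 (A.inertiaSubgroupIn ℚ)) (h69_F0 N (A.inertiaSubgroupIn ℚ))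
        (r : h69_K0 (A.inertiaSubgroupIn ℚ)) ∈
        (h80_famOf N (A.inertiaSubgroupIn ℚ) w hw_mul hw_add x hx).B := by
  intro r
  rw [h80_mem_famOf_B]
  by_cases h0 : (r : h69_K0 (A.inertiaSubgroupIn ℚ)) = 0
  · left
    rw [h0, map_zero]
  · right
    refine ⟨fun c => hwA c r r.2 h0, fun P _ => ?_⟩
    have h1 : ((algebraMap (h69_K0 (A.inertiaSubgroupIn ℚ)) (h69_F0 N (A.inertiaSubgroupIn ℚ))
        (r : h69_K0 (A.inertiaSubgroupIn ℚ)) : h69_F0 N (A.inertiaSubgroupIn ℚ)) :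
        modularFunctionFieldBar N)
          = algebraMap Qb (modularFunctionFieldBar N)
            ((r : h69_K0 (A.inertiaSubgroupIn ℚ)) : Qb) :=
      h69_inst_comm N (A.inertiaSubgroupIn ℚ) (r : h69_K0 (A.inertiaSubgroupIn ℚ))
    rw [h1, h35_ord_algebraMap]

end Gen

section Mod

variable (M q : ℕ) [NeZero M] [NeZero q] [Fact q.Prime] (hqM : ¬ q ∣ M)
  (A : ValuationSubring Qb) (hA : A.LiesOverPrime q) (ζ : Qb) (hζ : IsPrimitiveRoot ζ q)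
  (hex : h98_Ex M q hqM A ζ hζ)

include hA

/-- `hc` for chart 1 at level `M q²`. -/
theorem h69_hc_fam1_q2 : ∀ r : (h69_A0 A).toSubring,
    algebraMap (h69_K0 (A.inertiaSubgroupIn ℚ)) (h69_F0 (M * q * q) (A.inertiaSubgroupIn ℚ))
      (r : h69_K0 (A.inertiaSubgroupIn ℚ)) ∈
      (h80_fam1 (M * q * q) (A.inertiaSubgroupIn ℚ) (h98_w2 M q hqM A ζ hζ hex)
        (h98_hw2mul M q hqM A hA ζ hζ hex) (h98_hw2add M q hqM A hA ζ hζ hex)).B :=
  h69_hc_famOf (M * q * q) A _ _ _ _ _ (h69_hwA2 M q hqM A hA ζ hζ hex)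

/-- `hc` for chart 2 at level `M q²`. -/
theorem h69_hc_fam2_q2 : ∀ r : (h69_A0 A).toSubring,
    algebraMap (h69_K0 (A.inertiaSubgroupIn ℚ)) (h69_F0 (M * q * q) (A.inertiaSubgroupIn ℚ))
      (r : h69_K0 (A.inertiaSubgroupIn ℚ)) ∈
      (h80_fam2 (M * q * q) (A.inertiaSubgroupIn ℚ) (h98_w2 M q hqM A ζ hζ hex)
        (h98_hw2mul M q hqM A hA ζ hζ hex) (h98_hw2add M q hqM A hA ζ hζ hex)).B :=
  h69_hc_famOf (M * q * q) A _ _ _ _ _ (h69_hwA2 M q hqM A hA ζ hζ hex)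

/-- `hc` for chart 1 at level `M q`. -/
theorem h69_hc_fam1_q : ∀ r : (h69_A0 A).toSubring,
    algebraMap (h69_K0 (A.inertiaSubgroupIn ℚ)) (h69_F0 (M * q) (A.inertiaSubgroupIn ℚ))
      (r : h69_K0 (A.inertiaSubgroupIn ℚ)) ∈
      (h80_fam1 (M * q) (A.inertiaSubgroupIn ℚ) (h98_w1 M q hqM A ζ hζ hex)
        (h98_hw1mul M q hqM A hA ζ hζ hex) (h98_hw1add M q hqM A hA ζ hζ hex)).B :=
  h69_hc_famOf (M * q) A _ _ _ _ _ (h69_hwA1 M q hqM A hA ζ hζ hex)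

/-- `hc` for chart 2 at level `M q`. -/
theorem h69_hc_fam2_q : ∀ r : (h69_A0 A).toSubring,
    algebraMap (h69_K0 (A.inertiaSubgroupIn ℚ)) (h69_F0 (M * q) (A.inertiaSubgroupIn ℚ))
      (r : h69_K0 (A.inertiaSubgroupIn ℚ)) ∈
      (h80_fam2 (M * q) (A.inertiaSubgroupIn ℚ) (h98_w1 M q hqM A ζ hζ hex)
        (h98_hw1mul M q hqM A hA ζ hζ hex) (h98_hw1add M q hqM A hA ζ hζ hex)).B :=
  h69_hc_famOf (M * q) A _ _ _ _ _ (h69_hwA1 M q hqM A hA ζ hζ hex)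

omit hA in
/-- `j(q²τ) ≠ 0`. -/
theorem h69_J2F_ne_zero (H : Subgroup (Qb ≃ₐ[ℚ] Qb)) : h16_J2F M q H ≠ 0 := by
  unfold h16_J2F
  refine (map_ne_zero _).mpr ((map_ne_zero _).mpr ?_)
  intro h
  have h1 : ((⟨h59_jbar M, h16_jbar_mem_F0 H M⟩ : h69_F0 M H) : modularFunctionFieldBar M) = 0 := by
    rw [h]; rfl
  exact h65_jbar_ne_zero M h1

/-- **(NZ2)**: no zero of `j(q²τ)` passes through a cusp point of the chart `1/j` at level
`M q²` (`m` prime, `a ∈ m` with `a * j = 1`). -/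
theorem h69_NZ2
    (m : Ideal (h80_fam2 (M * q * q) (A.inertiaSubgroupIn ℚ) (h98_w2 M q hqM A ζ hζ hex)
      (h98_hw2mul M q hqM A hA ζ hζ hex) (h98_hw2add M q hqM A hA ζ hζ hex)).B) [m.IsPrime]
    (a : (h80_fam2 (M * q * q) (A.inertiaSubgroupIn ℚ) (h98_w2 M q hqM A ζ hζ hex)
      (h98_hw2mul M q hqM A hA ζ hζ hex) (h98_hw2add M q hqM A hA ζ hζ hex)).B)
    (ham : a ∈ m)
    (haJ : (a : h69_F0 (M * q * q) (A.inertiaSubgroupIn ℚ)) *
      h16_J0F M q (A.inertiaSubgroupIn ℚ) = 1) :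
    ∀ k, (h80_fam2 (M * q * q) (A.inertiaSubgroupIn ℚ) (h98_w2 M q hqM A ζ hζ hex)
        (h98_hw2mul M q hqM A hA ζ hζ hex) (h98_hw2add M q hqM A hA ζ hζ hex)).Through m k →
      (h80_fam2 (M * q * q) (A.inertiaSubgroupIn ℚ) (h98_w2 M q hqM A ζ hζ hex)
        (h98_hw2mul M q hqM A hA ζ hζ hex) (h98_hw2add M q hqM A hA ζ hζ hex)).v k
        (h16_J2F M q (A.inertiaSubgroupIn ℚ)) ≤ 0 :=
  fun _ hk => h16_no_zero _ (h69_A0 A).toSubring (h69_hc_fam2_q2 M q hqM A hA ζ hζ hex) m a ham haJ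
    (h69_J2F_ne_zero M q (A.inertiaSubgroupIn ℚ)) (h91_J0_int_J2 M q hqM A hA ζ hζ hex) hk

omit hA in
/-- `T * j = 1` for `T := 1/j` in `F₀`. -/
theorem h69_T_mul_J0F (H : Subgroup (Qb ≃ₐ[ℚ] Qb)) :
    (⟨(h59_jbar (M * q * q))⁻¹, h80_jbar_inv_mem_F0 (M * q * q) H⟩ : h69_F0 (M * q * q) H) *
      h16_J0F M q H = 1 :=
  Subtype.ext (inv_mul_cancel₀ (h65_jbar_ne_zero (M * q * q)))

/-- `T = 1/j` lies in the chart-2 ring of level `M q²`. -/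
theorem h69_T_mem_fam2 :
    (⟨(h59_jbar (M * q * q))⁻¹, h80_jbar_inv_mem_F0 (M * q * q) (A.inertiaSubgroupIn ℚ)⟩ :
        h69_F0 (M * q * q) (A.inertiaSubgroupIn ℚ)) ∈
      (h80_fam2 (M * q * q) (A.inertiaSubgroupIn ℚ) (h98_w2 M q hqM A ζ hζ hex)
        (h98_hw2mul M q hqM A hA ζ hζ hex) (h98_hw2add M q hqM A hA ζ hζ hex)).B := by
  have e : (⟨(h59_jbar (M * q * q))⁻¹, h80_jbar_inv_mem_F0 (M * q * q) (A.inertiaSubgroupIn ℚ)⟩ :
      h69_F0 (M * q * q) (A.inertiaSubgroupIn ℚ)) = (h65_J0 (M * q * q) (A.inertiaSubgroupIn ℚ))⁻¹ :=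
    Subtype.ext rfl
  refine (h80_mem_famOf_B (M * q * q) (A.inertiaSubgroupIn ℚ) (h98_w2 M q hqM A ζ hζ hex)
    (h98_hw2mul M q hqM A hA ζ hζ hex) (h98_hw2add M q hqM A hA ζ hζ hex)
    (h59_jbar (M * q * q))⁻¹ (h75_isChart_inv (h54_isChart_jbar (M * q * q))) _).mpr
    (Or.inr ⟨fun c => ?_, fun P hP => hP⟩)
  rw [e]
  exact h69_hwx2_inv M q hqM A hA ζ hζ hex c

/-- **(NZ2)** from the cusp premise `T = 1/j ∈ m` (the shape of the `hcusp` binder of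
`h89_hwit_chart2`). -/
theorem h69_NZ2_T
    (m : Ideal (h80_fam2 (M * q * q) (A.inertiaSubgroupIn ℚ) (h98_w2 M q hqM A ζ hζ hex)
      (h98_hw2mul M q hqM A hA ζ hζ hex) (h98_hw2add M q hqM A hA ζ hζ hex)).B) [m.IsPrime]
    (hT : ∃ hTB : (⟨(h59_jbar (M * q * q))⁻¹,
        h80_jbar_inv_mem_F0 (M * q * q) (A.inertiaSubgroupIn ℚ)⟩ :
        h69_F0 (M * q * q) (A.inertiaSubgroupIn ℚ)) ∈
          (h80_fam2 (M * q * q) (A.inertiaSubgroupIn ℚ) (h98_w2 M q hqM A ζ hζ hex)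
            (h98_hw2mul M q hqM A hA ζ hζ hex) (h98_hw2add M q hqM A hA ζ hζ hex)).B,
      (⟨_, hTB⟩ : (h80_fam2 (M * q * q) (A.inertiaSubgroupIn ℚ) (h98_w2 M q hqM A ζ hζ hex)
        (h98_hw2mul M q hqM A hA ζ hζ hex) (h98_hw2add M q hqM A hA ζ hζ hex)).B) ∈ m) :
    ∀ k, (h80_fam2 (M * q * q) (A.inertiaSubgroupIn ℚ) (h98_w2 M q hqM A ζ hζ hex)
        (h98_hw2mul M q hqM A hA ζ hζ hex) (h98_hw2add M q hqM A hA ζ hζ hex)).Through m k →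
      (h80_fam2 (M * q * q) (A.inertiaSubgroupIn ℚ) (h98_w2 M q hqM A ζ hζ hex)
        (h98_hw2mul M q hqM A hA ζ hζ hex) (h98_hw2add M q hqM A hA ζ hζ hex)).v k
        (h16_J2F M q (A.inertiaSubgroupIn ℚ)) ≤ 0 := by
  obtain ⟨hTB, hTm⟩ := hT
  exact h69_NZ2 M q hqM A hA ζ hζ hex m ⟨_, hTB⟩ hTm
    (h69_T_mul_J0F M q (A.inertiaSubgroupIn ℚ))

end Mod

end Fermat.Agent.S36
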