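import Mathlib
import Fermat.Agent.S36.h83_ResMq
import Fermat.Agent.S36.h69_CuspNZ2
import Fermat.Agent.S36.h65_NoethQ

/-!
# S36 / I-PTS (M8), (M5): the level-`Mq` residue data of the `j`-chart family, CLOSED (helper22)

`V1 := h80_fam1 (M q) I (h98_w1 ..) ..`.  All from helper83's `h83_res_fam1` with the binder
`hconst` discharged (`h83_hconst_of_resk` + `h69_hc_fam1_q` + `h65_noeth_q`).

* `h22_q_mem_of_through` : a vertical through `s` ⟹ `q ∈ s`;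
* `h22_J0_mem_fam1_q`    : `j ∈ V1.B`;
* `h22_hconst_q`         : the binder `hconst` of `h83_res_fam1` at every maximal `s ∋ q`;
* `h22_res_q_closed`     : the eight conjuncts of `h83_res_fam1`, hypothesis `hch` only;
* `h22_hRes_closed`      : `hRes` of `h60_hQ_mod` VERBATIM;
* `h22_hR1F_closed`, `h22_hR1V_closed` : `hR1F`, `hR1V` of `h62_pts_mod` VERBATIM.
-/

set_option autoImplicit false
set_option linter.unusedSectionVars false
set_option synthInstance.maxHeartbeats 400000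

noncomputable section

open AlgebraicCurve ModularCurve IntermediateField

namespace Fermat.Agent.S36

open Fermat.Agent.S34 Fermat.Agent.S18 Fermat.Agent.S37 Fermat.Agent.S24 Fermat.Agent.S27

local notation "Qb" => AlgebraicClosure ℚ

section ResClosed

variable (M q : ℕ) [NeZero M] [NeZero q] [Fact q.Prime] (hqM : ¬ q ∣ M)
  (A : ValuationSubring Qb) (hA : A.LiesOverPrime q)
  (ζ : Qb) (hζ : IsPrimitiveRoot ζ q) (hex : h98_Ex M q hqM A ζ hζ)

include hA in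
/-- A vertical through `s` ⟹ `q ∈ s`. -/
theorem h22_q_mem_of_through
    (s : Ideal (h80_fam1 (M * q) (A.inertiaSubgroupIn ℚ) (h98_w1 M q hqM A ζ hζ hex)
      (h98_hw1mul M q hqM A hA ζ hζ hex) (h98_hw1add M q hqM A hA ζ hζ hex)).B) (c : Fin 2)
    (hc : (h80_fam1 (M * q) (A.inertiaSubgroupIn ℚ) (h98_w1 M q hqM A ζ hζ hex)
      (h98_hw1mul M q hqM A hA ζ hζ hex) (h98_hw1add M q hqM A hA ζ hζ hex)).Through s
        (Sum.inl c)) :
    ((q : ℕ) : (h80_fam1 (M * q) (A.inertiaSubgroupIn ℚ) (h98_w1 M q hqM A ζ hζ hex)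
      (h98_hw1mul M q hqM A hA ζ hζ hex) (h98_hw1add M q hqM A hA ζ hζ hex)).B) ∈ s := by
  have hq : q.Prime := Fact.out
  have hq0 : ((q : ℕ) : ↥(h69_F0 (M * q) (A.inertiaSubgroupIn ℚ))) ≠ 0 :=
    Nat.cast_ne_zero.mpr hq.ne_zero
  have h1 : h98_w1 M q hqM A ζ hζ hex c
      ((q : ℕ) : ↥(h69_F0 (M * q) (A.inertiaSubgroupIn ℚ))) = 1 := by
    rw [h69_w1_eq_vq M q hqM A hA ζ hζ hex c _ hq0]
    exact h22_vq_q M q hqM A hA c
  refine hc _ ?_ ?_
  · rw [SubringClass.coe_natCast]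
    exact hq0
  · rw [SubringClass.coe_natCast]
    show 0 < h98_w1 M q hqM A ζ hζ hex c _
    rw [h1]
    exact one_pos

include hA in
/-- `j` lies in the chart ring of the `j`-chart of level `M q`. -/
theorem h22_J0_mem_fam1_q :
    h65_J0 (M * q) (A.inertiaSubgroupIn ℚ) ∈
      (h80_fam1 (M * q) (A.inertiaSubgroupIn ℚ) (h98_w1 M q hqM A ζ hζ hex)
        (h98_hw1mul M q hqM A hA ζ hζ hex) (h98_hw1add M q hqM A hA ζ hζ hex)).B := by
  unfold h80_fam1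
  rw [h80_mem_famOf_B]
  exact Or.inr ⟨h69_hwx1 M q hqM A hA ζ hζ hex, fun P hP => hP⟩

include hA in
/-- **`hconst` of `h83_res_fam1`** at every maximal ideal containing `q`. -/
theorem h22_hconst_q
    (s : Ideal (h80_fam1 (M * q) (A.inertiaSubgroupIn ℚ) (h98_w1 M q hqM A ζ hζ hex)
      (h98_hw1mul M q hqM A hA ζ hζ hex) (h98_hw1add M q hqM A hA ζ hζ hex)).B)
    [hs : s.IsMaximal]
    (hqs : ((q : ℕ) : (h80_fam1 (M * q) (A.inertiaSubgroupIn ℚ) (h98_w1 M q hqM A ζ hζ hex)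
      (h98_hw1mul M q hqM A hA ζ hζ hex) (h98_hw1add M q hqM A hA ζ hζ hex)).B) ∈ s) :
    ∀ t : (h80_fam1 (M * q) (A.inertiaSubgroupIn ℚ) (h98_w1 M q hqM A ζ hζ hex)
        (h98_hw1mul M q hqM A hA ζ hζ hex) (h98_hw1add M q hqM A hA ζ hζ hex)).B, t ∉ s →
      ∃ l : (h80_fam1 (M * q) (A.inertiaSubgroupIn ℚ) (h98_w1 M q hqM A ζ hζ hex)
          (h98_hw1mul M q hqM A hA ζ hζ hex) (h98_hw1add M q hqM A hA ζ hζ hex)).B,
        (∃ a : Qb, ((l : ↥(h69_F0 (M * q) (A.inertiaSubgroupIn ℚ))) :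
          ↥(modularFunctionFieldBar (M * q))) = algebraMap Qb _ a) ∧ t * l - 1 ∈ s :=
  fun t ht => h83_hconst_of_resk q A hA (M * q) _ s
    (h69_hc_fam1_q M q hqM A hA ζ hζ hex) (h65_J0 (M * q) (A.inertiaSubgroupIn ℚ))
    (h22_J0_mem_fam1_q M q hqM A hA ζ hζ hex) (h65_noeth_q M q hqM A hA ζ hζ hex).2 hqs t ht

include hA in
/-- **(RES) at level `q` for the `j`-chart family with `w := h98_w1`, CLOSED**: the eight
conjuncts of `h83_res_fam1` at every maximal `s` and every vertical `c` through `s`. -/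
theorem h22_res_q_closed (hch : 5 ≤ q ∨ 2 ∣ M ∨ 3 ∣ M)
    (s : Ideal (h80_fam1 (M * q) (A.inertiaSubgroupIn ℚ) (h98_w1 M q hqM A ζ hζ hex)
      (h98_hw1mul M q hqM A hA ζ hζ hex) (h98_hw1add M q hqM A hA ζ hζ hex)).B)
    [hs : s.IsMaximal] (c : Fin 2)
    (hc : (h80_fam1 (M * q) (A.inertiaSubgroupIn ℚ) (h98_w1 M q hqM A ζ hζ hex)
      (h98_hw1mul M q hqM A hA ζ hζ hex) (h98_hw1add M q hqM A hA ζ hζ hex)).Through s
        (Sum.inl c)) :
    ∃ (P : Place (IsLocalRing.ResidueField A)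
        ↥(modularFunctionFieldFullC (IsLocalRing.ResidueField A) M))
      (R : h62_Res (h80_fam1 (M * q) (A.inertiaSubgroupIn ℚ) (h98_w1 M q hqM A ζ hζ hex)
        (h98_hw1mul M q hqM A hA ζ hζ hex) (h98_hw1add M q hqM A hA ζ hζ hex)) s (Sum.inl c)
        ↥(modularFunctionFieldFullC (IsLocalRing.ResidueField A) M)),
      P ≠ h11_placeInftyC (IsLocalRing.ResidueField A) M ∧ R.o = P.ord ∧
      (∀ f : ↥(h69_F0 (M * q) (A.inertiaSubgroupIn ℚ)),
        f ∈ R.O ↔ (f : ↥(modularFunctionFieldBar (M * q))) ∈ (h60_pair M q hqM A hA c).O) ∧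
      (∀ f : R.O, ∃ hf : ((f : ↥(h69_F0 (M * q) (A.inertiaSubgroupIn ℚ))) :
          ↥(modularFunctionFieldBar (M * q))) ∈ (h60_pair M q hqM A hA c).O,
        R.ρ f = (h60_pair M q hqM A hA c).red ⟨_, hf⟩) ∧
      (∀ f : R.O, R.ρ f = (h60_pair M q hqM A hA c).redF
        ((f : ↥(h69_F0 (M * q) (A.inertiaSubgroupIn ℚ))) : ↥(modularFunctionFieldBar (M * q)))) ∧
      (∀ b : (h80_fam1 (M * q) (A.inertiaSubgroupIn ℚ) (h98_w1 M q hqM A ζ hζ hex)
          (h98_hw1mul M q hqM A hA ζ hζ hex) (h98_hw1add M q hqM A hA ζ hζ hex)).B,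
        (h60_pair M q hqM A hA c).redF
          ((b : ↥(h69_F0 (M * q) (A.inertiaSubgroupIn ℚ))) : ↥(modularFunctionFieldBar (M * q))) ∈
            P.toValuationSubring) ∧
      (∀ b : (h80_fam1 (M * q) (A.inertiaSubgroupIn ℚ) (h98_w1 M q hqM A ζ hζ hex)
          (h98_hw1mul M q hqM A hA ζ hζ hex) (h98_hw1add M q hqM A hA ζ hζ hex)).B,
        b ∈ s ↔ h39_Val P ((h60_pair M q hqM A hA c).redF
          ((b : ↥(h69_F0 (M * q) (A.inertiaSubgroupIn ℚ))) :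
            ↥(modularFunctionFieldBar (M * q)))) 0) ∧
      ∃ g : ↥(modularFunctionFieldFullC (IsLocalRing.ResidueField A) M), P.ord g = 1 :=
  h83_res_fam1 M q hqM A hA (h98_w1 M q hqM A ζ hζ hex)
    (h98_hw1mul M q hqM A hA ζ hζ hex) (h98_hw1add M q hqM A hA ζ hζ hex)
    (fun c f hf => h69_w1_nonneg_iff M q hqM A hA ζ hζ hex c f hf)
    (fun c f hf => h69_w1_pos_iff M q hqM A hA ζ hζ hex c f hf) hch s
    (h22_hconst_q M q hqM A hA ζ hζ hex s (h22_q_mem_of_through M q hqM A hA ζ hζ hex s c hc))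
    c hc

include hA in
/-- **`hRes` of `h60_hQ_mod`, CLOSED.** -/
theorem h22_hRes_closed (hch : 5 ≤ q ∨ 2 ∣ M ∨ 3 ∣ M) :
    ∀ s : Ideal (h80_fam1 (M * q) (A.inertiaSubgroupIn ℚ) (h98_w1 M q hqM A ζ hζ hex)
        (h98_hw1mul M q hqM A hA ζ hζ hex) (h98_hw1add M q hqM A hA ζ hζ hex)).B,
      s.IsMaximal →
      (h80_fam1 (M * q) (A.inertiaSubgroupIn ℚ) (h98_w1 M q hqM A ζ hζ hex)
        (h98_hw1mul M q hqM A hA ζ hζ hex) (h98_hw1add M q hqM A hA ζ hζ hex)).Through s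
          (Sum.inl 0) →
      ∃ (y : Place (IsLocalRing.ResidueField A)
          ↥(modularFunctionFieldFullC (IsLocalRing.ResidueField A) M))
        (R₁ : h62_Res (h80_fam1 (M * q) (A.inertiaSubgroupIn ℚ) (h98_w1 M q hqM A ζ hζ hex)
          (h98_hw1mul M q hqM A hA ζ hζ hex) (h98_hw1add M q hqM A hA ζ hζ hex)) s (Sum.inl 0)
          ↥(modularFunctionFieldFullC (IsLocalRing.ResidueField A) M)),
        R₁.o = y.ord ∧
        ∀ f : R₁.O, ∃ hf : (h69_F0 (M * q) (A.inertiaSubgroupIn ℚ)).subtype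
            (f : h69_F0 (M * q) (A.inertiaSubgroupIn ℚ)) ∈ (h60_R1 M q hqM A hA).O,
          R₁.ρ f = (h60_R1 M q hqM A hA).red
            ⟨(h69_F0 (M * q) (A.inertiaSubgroupIn ℚ)).subtype
              (f : h69_F0 (M * q) (A.inertiaSubgroupIn ℚ)), hf⟩ := by
  intro s hs hF
  obtain ⟨P, R, -, ho, -, hρ, -, -, -, -⟩ := h22_res_q_closed M q hqM A hA ζ hζ hex hch s 0 hF
  exact ⟨P, R, ho, fun f => hρ f⟩

include hA in
/-- **`hR1F` of `h62_pts_mod`, CLOSED.** -/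
theorem h22_hR1F_closed (hch : 5 ≤ q ∨ 2 ∣ M ∨ 3 ∣ M) :
    ∀ s : Ideal (h80_fam1 (M * q) (A.inertiaSubgroupIn ℚ) (h98_w1 M q hqM A ζ hζ hex)
        (h98_hw1mul M q hqM A hA ζ hζ hex) (h98_hw1add M q hqM A hA ζ hζ hex)).B,
      s.IsMaximal →
      (h80_fam1 (M * q) (A.inertiaSubgroupIn ℚ) (h98_w1 M q hqM A ζ hζ hex)
        (h98_hw1mul M q hqM A hA ζ hζ hex) (h98_hw1add M q hqM A hA ζ hζ hex)).Through s
          (Sum.inl 0) →
      ∃ (Fb : Type) (_ : Field Fb)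
        (R : h62_Res (h80_fam1 (M * q) (A.inertiaSubgroupIn ℚ) (h98_w1 M q hqM A ζ hζ hex)
          (h98_hw1mul M q hqM A hA ζ hζ hex) (h98_hw1add M q hqM A hA ζ hζ hex)) s (Sum.inl 0)
          Fb), ∃ g : Fb, g ≠ 0 ∧ 0 < R.o g := by
  intro s hs hF
  obtain ⟨P, R, -, ho, -, -, -, -, -, g, hg⟩ :=
    h22_res_q_closed M q hqM A hA ζ hζ hex hch s 0 hF
  refine ⟨_, inferInstance, R, g, ?_, ?_⟩
  · rintro rfl
    rw [P.ord_zero] at hg
    exact zero_ne_one hg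
  · rw [ho, hg]
    exact one_pos

include hA in
/-- **`hR1V` of `h62_pts_mod`, CLOSED.** -/
theorem h22_hR1V_closed (hch : 5 ≤ q ∨ 2 ∣ M ∨ 3 ∣ M) :
    ∀ s : Ideal (h80_fam1 (M * q) (A.inertiaSubgroupIn ℚ) (h98_w1 M q hqM A ζ hζ hex)
        (h98_hw1mul M q hqM A hA ζ hζ hex) (h98_hw1add M q hqM A hA ζ hζ hex)).B,
      s.IsMaximal →
      (h80_fam1 (M * q) (A.inertiaSubgroupIn ℚ) (h98_w1 M q hqM A ζ hζ hex)
        (h98_hw1mul M q hqM A hA ζ hζ hex) (h98_hw1add M q hqM A hA ζ hζ hex)).Through s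
          (Sum.inl 1) →
      ∃ (Fb : Type) (_ : Field Fb)
        (R : h62_Res (h80_fam1 (M * q) (A.inertiaSubgroupIn ℚ) (h98_w1 M q hqM A ζ hζ hex)
          (h98_hw1mul M q hqM A hA ζ hζ hex) (h98_hw1add M q hqM A hA ζ hζ hex)) s (Sum.inl 1)
          Fb), ∃ g : Fb, g ≠ 0 ∧ 0 < R.o g := by
  intro s hs hV
  obtain ⟨P, R, -, ho, -, -, -, -, -, g, hg⟩ :=
    h22_res_q_closed M q hqM A hA ζ hζ hex hch s 1 hV
  refine ⟨_, inferInstance, R, g, ?_, ?_⟩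
  · rintro rfl
    rw [P.ord_zero] at hg
    exact zero_ne_one hg
  · rw [ho, hg]
    exact one_pos

end ResClosed

end Fermat.Agent.S36

end
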