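import Mathlib
import Fermat.Agent.S36.h62_ResTransfer
import Fermat.Agent.S36.h94_NZGeneric

/-!
# S36 / I-PTS, (RES-DEG1): residue data along a direction of residue degree one  (helper27)

`φ : F₁ →+* F` (a degeneracy map), `V₁`, `V` valuation families, `c₁`, `c` indices with
`v_c ∘ φ = e · v_{c₁}` (`e ≥ 1`) and **residue degree one** in the form (V1) of the toric row:

  `∀ y ≠ 0, v_c y = 0 → ∃ y', y - φ y' = 0 ∨ 0 < v_c (y - φ y')`.

Then a residue datum `R₁ : h62_Res V₁ m₁ c₁ Fb₁` at the lower level gives a residue datum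
`h27_resDegOne … : h62_Res V m c Fb₁` at the upper level, with the SAME residue field and order
function.  No residue map has to be constructed from expansions: the congruence (V1) defines it.

* `h27_valRing V c` : the valuation ring `{f | f = 0 ∨ 0 ≤ v_c f}`;
* `h27_resDegOne` : the residue datum;  `h27_resDegOne_O`, `h27_resDegOne_o` (`rfl`);
* `h27_resDegOne_spec` : `f ≡ φ y'` modulo `{v_c > 0}` implies `ρ f = ρ₁ y'`;
  `h27_resDegOne_phi` : `ρ (φ y') = ρ₁ y'`;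
* `h27_resDegOne_uniq` : every ring hom on the valuation ring which kills `{v_c > 0}` and is
  `j ∘ ρ₁` on `φ (R₁.O)` is `j ∘ ρ`.
-/

set_option autoImplicit false

namespace Fermat.Agent.S36

universe w₁

section ValRing

variable {F : Type*} [Field F] {ι : Type*}

/-- The valuation ring of `v_c`. -/
def h27_valRing (V : h80_ValFam F ι) (c : ι) : Subring F where
  carrier := {f | h94_Vge V c 0 f}
  zero_mem' := h94_vge_zero V c 0
  one_mem' := Or.inr (by rw [h80_v_one])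
  add_mem' := fun ha hb => h94_vge_add V c ha hb
  mul_mem' := fun ha hb => by
    have h := h94_vge_mul V c ha hb
    rwa [add_zero] at h
  neg_mem' := fun ha => h94_vge_neg V c ha

theorem h27_mem_valRing (V : h80_ValFam F ι) (c : ι) (f : F) :
    f ∈ h27_valRing V c ↔ (f = 0 ∨ 0 ≤ V.v c f) := Iff.rfl

/-- An element congruent to a unit of the valuation is a unit of the valuation. -/
theorem h27_v_eq_zero_of_cong (V : h80_ValFam F ι) (i : ι) {φ f : F} (hf0 : f ≠ 0)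
    (hf : V.v i f = 0) (h : h94_Vge V i 1 (φ - f)) : φ ≠ 0 ∧ V.v i φ = 0 := by
  have hφ0 : φ ≠ 0 := by
    rintro rfl
    rw [zero_sub] at h
    have h' := h94_vge_neg V i h
    rw [neg_neg] at h'
    have := h'.resolve_left hf0
    omega
  refine ⟨hφ0, ?_⟩
  by_cases hd : φ - f = 0
  · rw [sub_eq_zero.1 hd]; exact hf
  have hd1 := h.resolve_left hd
  have h1 := V.map_add i f (φ - f) hf0 hd (by rw [add_sub_cancel]; exact hφ0)
  rw [add_sub_cancel] at h1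
  have hnd : -(φ - f) ≠ 0 := neg_ne_zero.2 hd
  have h2 := V.map_add i φ (-(φ - f)) hφ0 hnd
    (by rw [← sub_eq_add_neg, sub_sub_cancel]; exact hf0)
  rw [← sub_eq_add_neg, sub_sub_cancel, h94_v_neg V i hd] at h2
  omega

end ValRing

section Transfer

variable {F₁ F : Type*} [Field F₁] [Field F] {ι₁ ι : Type*}
  {V₁ : h80_ValFam F₁ ι₁} {m₁ : Ideal V₁.B} {c₁ : ι₁} {Fb₁ : Type w₁} [Field Fb₁]

/-- Elements of `R₁.O` have nonnegative valuation. -/
theorem h27_res_O_nonneg (R₁ : h62_Res V₁ m₁ c₁ Fb₁) (y : R₁.O) (hy : (y : F₁) ≠ 0) :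
    0 ≤ V₁.v c₁ (y : F₁) := by
  by_contra hneg
  have hinv0 : (y : F₁)⁻¹ ≠ 0 := inv_ne_zero hy
  have hvinv : V₁.v c₁ (y : F₁)⁻¹ = - V₁.v c₁ (y : F₁) := h80_v_inv V₁ c₁ hy
  have hmem : (y : F₁)⁻¹ ∈ R₁.O := R₁.mem_O _ hinv0 (by omega)
  have h0 : R₁.ρ ⟨(y : F₁)⁻¹, hmem⟩ = 0 := (R₁.ρ_eq_zero ⟨_, hmem⟩ hinv0).2 (by
    show 0 < V₁.v c₁ (y : F₁)⁻¹
    omega)
  have h1 : y * ⟨(y : F₁)⁻¹, hmem⟩ = 1 := Subtype.ext (mul_inv_cancel₀ hy)
  have h2 := congrArg R₁.ρ h1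
  rw [map_mul, h0, mul_zero, map_one] at h2
  exact zero_ne_one h2

/-- The residue of an element of `R₁.O` which is zero or of positive valuation vanishes. -/
theorem h27_res_rho_zero (R₁ : h62_Res V₁ m₁ c₁ Fb₁) (d : R₁.O)
    (h : (d : F₁) = 0 ∨ 0 < V₁.v c₁ (d : F₁)) : R₁.ρ d = 0 := by
  by_cases hd : (d : F₁) = 0
  · have : d = 0 := Subtype.ext hd
    rw [this, map_zero]
  · exact (R₁.ρ_eq_zero d hd).2 (h.resolve_left hd)

/-- The hypotheses of the transfer: `v_c ∘ φ = e · v_{c₁}` and residue degree one. -/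
structure h27_DegOne (V₁ : h80_ValFam F₁ ι₁) (c₁ : ι₁) (V : h80_ValFam F ι) (c : ι)
    (φ : F₁ →+* F) : Prop where
  tab : ∃ e : ℤ, 1 ≤ e ∧ ∀ g : F₁, g ≠ 0 → V.v c (φ g) = e * V₁.v c₁ g
  res : ∀ y : F, y ≠ 0 → V.v c y = 0 → ∃ y' : F₁, y - φ y' = 0 ∨ 0 < V.v c (y - φ y')

variable {V : h80_ValFam F ι} {c : ι} {φ : F₁ →+* F}

theorem h27_degOne_pos (H : h27_DegOne V₁ c₁ V c φ) {d : F₁} (h : h94_Vge V c 1 (φ d)) :
    d = 0 ∨ 0 < V₁.v c₁ d := by
  obtain ⟨e, he, htab⟩ := H.tab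
  by_cases hd : d = 0
  · exact Or.inl hd
  right
  have hφd : φ d ≠ 0 := (map_ne_zero φ).2 hd
  have h1 := h.resolve_left hφd
  rw [htab d hd] at h1
  by_contra hneg
  have h2 : e * V₁.v c₁ d ≤ 0 := mul_nonpos_of_nonneg_of_nonpos (by omega) (by omega)
  omega

theorem h27_degOne_unit (H : h27_DegOne V₁ c₁ V c φ) {d : F₁} (hd : d ≠ 0)
    (h : V.v c (φ d) = 0) : V₁.v c₁ d = 0 := by
  obtain ⟨e, he, htab⟩ := H.tab
  rw [htab d hd] at h
  rcases mul_eq_zero.1 h with h0 | h0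
  · omega
  · exact h0

theorem h27_degOne_mem (H : h27_DegOne V₁ c₁ V c φ) (R₁ : h62_Res V₁ m₁ c₁ Fb₁) (y : R₁.O) :
    h94_Vge V c 0 (φ (y : F₁)) := by
  obtain ⟨e, he, htab⟩ := H.tab
  by_cases hy : (y : F₁) = 0
  · left
    rw [hy, map_zero]
  · right
    rw [htab _ hy]
    exact mul_nonneg (by omega) (h27_res_O_nonneg R₁ y hy)

/-- `g` is the residue of `f`: `f ≡ φ y'` modulo `{v_c > 0}` with `ρ₁ y' = g`. -/
def h27_ResRel (R₁ : h62_Res V₁ m₁ c₁ Fb₁) (V : h80_ValFam F ι) (c : ι) (φ : F₁ →+* F)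
    (f : F) (g : Fb₁) : Prop :=
  ∃ y' : R₁.O, h94_Vge V c 1 (f - φ (y' : F₁)) ∧ R₁.ρ y' = g

theorem h27_resRel_unique (H : h27_DegOne V₁ c₁ V c φ) (R₁ : h62_Res V₁ m₁ c₁ Fb₁) {f : F}
    {g g' : Fb₁} (h : h27_ResRel R₁ V c φ f g) (h' : h27_ResRel R₁ V c φ f g') : g = g' := by
  obtain ⟨y, hy, rfl⟩ := h
  obtain ⟨y', hy', rfl⟩ := h'
  have h1 : h94_Vge V c 1 (φ ((y - y' : R₁.O) : F₁)) := by
    have e0 : ((y - y' : R₁.O) : F₁) = (y : F₁) - (y' : F₁) := rfl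
    have e1 : φ ((y - y' : R₁.O) : F₁) = (f - φ (y' : F₁)) - (f - φ (y : F₁)) := by
      rw [e0, map_sub]
      ring
    rw [e1]
    exact h94_vge_sub V c hy' hy
  have h2 := h27_res_rho_zero R₁ (y - y') (h27_degOne_pos H h1)
  rw [map_sub] at h2
  exact sub_eq_zero.1 h2

theorem h27_resRel_exists (H : h27_DegOne V₁ c₁ V c φ) (R₁ : h62_Res V₁ m₁ c₁ Fb₁) (f : F)
    (hf : h94_Vge V c 0 f) : ∃ g : Fb₁, h27_ResRel R₁ V c φ f g := by
  by_cases h1 : h94_Vge V c 1 f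
  · exact ⟨0, 0, by simpa using h1, map_zero _⟩
  · have hf0 : f ≠ 0 := fun h => h1 (Or.inl h)
    have hv0 : V.v c f = 0 := by
      have h2 := hf.resolve_left hf0
      have h3 : ¬ 1 ≤ V.v c f := fun h => h1 (Or.inr h)
      omega
    obtain ⟨y', hy'⟩ := H.res f hf0 hv0
    have hcong : h94_Vge V c 1 (f - φ y') := by
      rcases hy' with h | h
      · exact Or.inl h
      · exact Or.inr (by omega)
    have hcong' : h94_Vge V c 1 (φ y' - f) := by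
      have := h94_vge_neg V c hcong
      rwa [neg_sub] at this
    obtain ⟨hφ0, hφv⟩ := h27_v_eq_zero_of_cong V c hf0 hv0 hcong'
    have hy'0 : y' ≠ 0 := fun h => hφ0 (by rw [h, map_zero])
    have hy'v := h27_degOne_unit H hy'0 hφv
    have hmem : y' ∈ R₁.O := R₁.mem_O y' hy'0 (by omega)
    exact ⟨R₁.ρ ⟨y', hmem⟩, ⟨y', hmem⟩, hcong, rfl⟩

theorem h27_resRel_one (R₁ : h62_Res V₁ m₁ c₁ Fb₁) : h27_ResRel R₁ V c φ 1 1 :=
  ⟨1, by simp [h94_vge_zero], map_one _⟩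

theorem h27_resRel_zero (R₁ : h62_Res V₁ m₁ c₁ Fb₁) : h27_ResRel R₁ V c φ 0 0 :=
  ⟨0, by simp [h94_vge_zero], map_zero _⟩

theorem h27_resRel_add (R₁ : h62_Res V₁ m₁ c₁ Fb₁) {f f' : F} {g g' : Fb₁}
    (h : h27_ResRel R₁ V c φ f g) (h' : h27_ResRel R₁ V c φ f' g') :
    h27_ResRel R₁ V c φ (f + f') (g + g') := by
  obtain ⟨y, hy, rfl⟩ := h
  obtain ⟨y', hy', rfl⟩ := h'
  refine ⟨y + y', ?_, map_add _ _ _⟩
  have e0 : ((y + y' : R₁.O) : F₁) = (y : F₁) + (y' : F₁) := rfl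
  have e1 : f + f' - φ ((y + y' : R₁.O) : F₁) = (f - φ (y : F₁)) + (f' - φ (y' : F₁)) := by
    rw [e0, map_add]
    ring
  rw [e1]
  exact h94_vge_add V c hy hy'

theorem h27_resRel_mul (H : h27_DegOne V₁ c₁ V c φ) (R₁ : h62_Res V₁ m₁ c₁ Fb₁) {f f' : F}
    {g g' : Fb₁} (hf : h94_Vge V c 0 f) (h : h27_ResRel R₁ V c φ f g)
    (h' : h27_ResRel R₁ V c φ f' g') : h27_ResRel R₁ V c φ (f * f') (g * g') := by
  obtain ⟨y, hy, rfl⟩ := h
  obtain ⟨y', hy', rfl⟩ := h'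
  refine ⟨y * y', ?_, map_mul _ _ _⟩
  have e0 : ((y * y' : R₁.O) : F₁) = (y : F₁) * (y' : F₁) := rfl
  have e1 : f * f' - φ ((y * y' : R₁.O) : F₁)
      = f * (f' - φ (y' : F₁)) + φ (y' : F₁) * (f - φ (y : F₁)) := by
    rw [e0, map_mul]
    ring
  rw [e1]
  exact h94_vge_add V c (h94_vge_mul_left V c hy' hf)
    (h94_vge_mul_left V c hy (h27_degOne_mem H R₁ y'))

theorem h27_resRel_phi (R₁ : h62_Res V₁ m₁ c₁ Fb₁) (y : R₁.O) :
    h27_ResRel R₁ V c φ (φ (y : F₁)) (R₁.ρ y) :=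
  ⟨y, by rw [sub_self]; exact h94_vge_zero V c 1, rfl⟩

/-- The residue map at the upper level. -/
noncomputable def h27_resMap (H : h27_DegOne V₁ c₁ V c φ) (R₁ : h62_Res V₁ m₁ c₁ Fb₁) :
    h27_valRing V c →+* Fb₁ where
  toFun f := Classical.choose (h27_resRel_exists H R₁ (f : F) f.2)
  map_one' := h27_resRel_unique H R₁
    (Classical.choose_spec (h27_resRel_exists H R₁ ((1 : h27_valRing V c) : F)
      (1 : h27_valRing V c).2))
    (h27_resRel_one R₁)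
  map_zero' := h27_resRel_unique H R₁
    (Classical.choose_spec (h27_resRel_exists H R₁ ((0 : h27_valRing V c) : F)
      (0 : h27_valRing V c).2))
    (h27_resRel_zero R₁)
  map_mul' x y := h27_resRel_unique H R₁
    (Classical.choose_spec (h27_resRel_exists H R₁ ((x * y : h27_valRing V c) : F)
      (x * y).2))
    (h27_resRel_mul H R₁ x.2
      (Classical.choose_spec (h27_resRel_exists H R₁ (x : F) x.2))
      (Classical.choose_spec (h27_resRel_exists H R₁ (y : F) y.2)))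
  map_add' x y := h27_resRel_unique H R₁
    (Classical.choose_spec (h27_resRel_exists H R₁ ((x + y : h27_valRing V c) : F)
      (x + y).2))
    (h27_resRel_add R₁
      (Classical.choose_spec (h27_resRel_exists H R₁ (x : F) x.2))
      (Classical.choose_spec (h27_resRel_exists H R₁ (y : F) y.2)))

theorem h27_resMap_rel (H : h27_DegOne V₁ c₁ V c φ) (R₁ : h62_Res V₁ m₁ c₁ Fb₁)
    (f : h27_valRing V c) : h27_ResRel R₁ V c φ (f : F) (h27_resMap H R₁ f) :=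
  Classical.choose_spec (h27_resRel_exists H R₁ (f : F) f.2)

theorem h27_resMap_eq (H : h27_DegOne V₁ c₁ V c φ) (R₁ : h62_Res V₁ m₁ c₁ Fb₁)
    (f : h27_valRing V c) {g : Fb₁} (h : h27_ResRel R₁ V c φ (f : F) g) :
    h27_resMap H R₁ f = g :=
  h27_resRel_unique H R₁ (h27_resMap_rel H R₁ f) h

theorem h27_resMap_eq_zero (H : h27_DegOne V₁ c₁ V c φ) (R₁ : h62_Res V₁ m₁ c₁ Fb₁)
    (f : h27_valRing V c) (hf : (f : F) ≠ 0) :
    h27_resMap H R₁ f = 0 ↔ 0 < V.v c (f : F) := by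
  constructor
  · intro h0
    by_contra hpos
    have hv0 : V.v c (f : F) = 0 := by
      have h2 := (f.2 : h94_Vge V c 0 (f : F)).resolve_left hf
      omega
    obtain ⟨y', hy'⟩ := H.res (f : F) hf hv0
    have hcong : h94_Vge V c 1 ((f : F) - φ y') := by
      rcases hy' with h | h
      · exact Or.inl h
      · exact Or.inr (by omega)
    have hcong' : h94_Vge V c 1 (φ y' - (f : F)) := by
      have := h94_vge_neg V c hcong
      rwa [neg_sub] at this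
    obtain ⟨hφ0, hφv⟩ := h27_v_eq_zero_of_cong V c hf hv0 hcong'
    have hy'0 : y' ≠ 0 := fun h => hφ0 (by rw [h, map_zero])
    have hy'v := h27_degOne_unit H hy'0 hφv
    have hmem : y' ∈ R₁.O := R₁.mem_O y' hy'0 (by omega)
    have h1 := h27_resMap_eq H R₁ f ⟨⟨y', hmem⟩, hcong, rfl⟩
    rw [h0] at h1
    have h2 : 0 < V₁.v c₁ y' := (R₁.ρ_eq_zero ⟨y', hmem⟩ hy'0).1 h1.symm
    have h3 : V₁.v c₁ y' = 0 := hy'v
    omega
  · intro hpos
    refine h27_resMap_eq H R₁ f ⟨0, ?_, map_zero _⟩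
    have e0 : (f : F) - φ ((0 : R₁.O) : F₁) = (f : F) := by
      rw [show ((0 : R₁.O) : F₁) = 0 from rfl, map_zero, sub_zero]
    rw [e0]
    exact Or.inr (by omega)

/-- **(RES-DEG1).** The residue datum at the upper level, along a direction of residue degree
one: same residue field, same order function. -/
noncomputable def h27_resDegOne (R₁ : h62_Res V₁ m₁ c₁ Fb₁) (V : h80_ValFam F ι)
    (m : Ideal V.B) [hm : m.IsPrime] (c : ι) (hc : V.Through m c) (φ : F₁ →+* F)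
    (H : h27_DegOne V₁ c₁ V c φ)
    (hloc : ∀ f : F₁, V₁.InLoc m₁ f → V.InLoc m (φ f))
    (hs : ∃ s : F, s ≠ 0 ∧ V.InMLoc m s ∧ V.v c s = 0) :
    h62_Res V m c Fb₁ :=
  h62_Res.ofSurj V m c hc (h27_valRing V c) (fun _ _ hf => Or.inr hf) (h27_resMap H R₁)
    (h27_resMap_eq_zero H R₁) R₁.o R₁.o_mul hs (fun g hg0 hg => by
      obtain ⟨f₁, hf₁L, hf₁⟩ := R₁.surj g hg0 hg
      refine ⟨⟨φ (f₁ : F₁), h27_degOne_mem H R₁ f₁⟩, hloc _ hf₁L, ?_⟩
      rw [← hf₁]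
      exact h27_resMap_eq H R₁ _ (h27_resRel_phi R₁ f₁))

section Spec

variable (R₁ : h62_Res V₁ m₁ c₁ Fb₁) (V) (m : Ideal V.B) [hm : m.IsPrime] (c)
  (hc : V.Through m c) (φ) (H : h27_DegOne V₁ c₁ V c φ)
  (hloc : ∀ f : F₁, V₁.InLoc m₁ f → V.InLoc m (φ f))
  (hs : ∃ s : F, s ≠ 0 ∧ V.InMLoc m s ∧ V.v c s = 0)

theorem h27_resDegOne_O : (h27_resDegOne R₁ V m c hc φ H hloc hs).O = h27_valRing V c := rfl

theorem h27_resDegOne_o : (h27_resDegOne R₁ V m c hc φ H hloc hs).o = R₁.o := rfl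

theorem h27_resDegOne_rho : (h27_resDegOne R₁ V m c hc φ H hloc hs).ρ = h27_resMap H R₁ := rfl

/-- **(SPEC)**: `f ≡ φ y'` modulo `{v_c > 0}` implies `ρ f = ρ₁ y'`. -/
theorem h27_resDegOne_spec (f : (h27_resDegOne R₁ V m c hc φ H hloc hs).O) (y' : R₁.O)
    (h : (f : F) - φ (y' : F₁) = 0 ∨ 0 < V.v c ((f : F) - φ (y' : F₁))) :
    (h27_resDegOne R₁ V m c hc φ H hloc hs).ρ f = R₁.ρ y' := by
  refine h27_resMap_eq H R₁ f ⟨y', ?_, rfl⟩
  rcases h with h | h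
  · exact Or.inl h
  · exact Or.inr (by omega)

/-- `ρ (φ y') = ρ₁ y'`. -/
theorem h27_resDegOne_phi (y' : R₁.O)
    (h : φ (y' : F₁) ∈ (h27_resDegOne R₁ V m c hc φ H hloc hs).O) :
    (h27_resDegOne R₁ V m c hc φ H hloc hs).ρ ⟨φ (y' : F₁), h⟩ = R₁.ρ y' :=
  h27_resMap_eq H R₁ _ (h27_resRel_phi R₁ y')

theorem h27_resDegOne_phi_mem (y' : R₁.O) :
    φ (y' : F₁) ∈ (h27_resDegOne R₁ V m c hc φ H hloc hs).O :=
  h27_degOne_mem H R₁ y'

/-- **(UNIQ)**: a ring hom on the valuation ring which kills `{v_c > 0}` and is `j ∘ ρ₁` on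
`φ (R₁.O)` is `j ∘ ρ`. -/
theorem h27_resDegOne_uniq {L : Type*} [Ring L] (ρ' : h27_valRing V c →+* L)
    (j : Fb₁ →+* L)
    (hker : ∀ f : h27_valRing V c, (f : F) ≠ 0 → 0 < V.v c (f : F) → ρ' f = 0)
    (hφ : ∀ y' : R₁.O, ρ' ⟨φ (y' : F₁), h27_degOne_mem H R₁ y'⟩ = j (R₁.ρ y'))
    (f : h27_valRing V c) : ρ' f = j (h27_resMap H R₁ f) := by
  obtain ⟨y', hy', hg⟩ := h27_resMap_rel H R₁ f
  rw [← hg, ← hφ y']
  have hd : ρ' (f - ⟨φ (y' : F₁), h27_degOne_mem H R₁ y'⟩) = 0 := by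
    by_cases h0 : (f : F) - φ (y' : F₁) = 0
    · have : f - ⟨φ (y' : F₁), h27_degOne_mem H R₁ y'⟩ = 0 := Subtype.ext h0
      rw [this, map_zero]
    · have h1 : 1 ≤ V.v c ((f : F) - φ (y' : F₁)) := hy'.resolve_left h0
      exact hker _ h0 (by
        show 0 < V.v c ((f : F) - φ (y' : F₁))
        omega)
  rw [map_sub] at hd
  exact sub_eq_zero.1 hd

end Spec

end Transfer

end Fermat.Agent.S36
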