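import Fermat.Agent.S36.h29_GeomNLoc
import Fermat.Agent.S36.h46_EBinders
import Fermat.Agent.S36.h46_SpanInst
import Fermat.Agent.S36.h80_ChartInv
import Fermat.Agent.S36.h5_ChartDiv

/-!
# S36 / row I-E (helper29): the final plug with the row outputs as hypotheses

At a level `M`, for a valuation ring `A` of `ℚ̄` over `q`, `H := A.inertiaSubgroupIn ℚ`,
`F0 := h69_F0 M H`, `ψ := F0.subtype`, chart function `j = h59_jbar M`:

* **I-LAT**: a lattice `D` on `F̄(M)` with `D.A = A`, `hON`, `hinv`, `hrank`, `j, j⁻¹ ∈ O`,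
  `(GEN)` (`N0`, `hgen`) and `hdivq` (an `H`-fixed element of `O` with zero reduction is `q`
  times an element of `O`);
* the chart divisors `E1`, `E2` of `j` (`h5_jbar_chart_divisors`);
* **I-VAL**: vertical valuations `w : κ → F0 → ℤ` (`κ` finite), multiplicative and
  ultrametric, with `w c q = a c ≥ 1`;
* **COMP3-M**: the ONE iff `f ∈ O ↔ ∀ c, 0 ≤ w c f` on `F0 ∖ {0}`;
* **TOR-M + NZ-M**: for every `lam ^ n`-torsion class `z` with `Pnew z`, fixed by `H`, an
  `H`-invariant degree-zero divisor `Ez` with `[Ez] = c • z`, a function `uz ∈ F0` with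
  `div uz = lam ^ n Ez` and `uz ≡ 1` modulo `a` at the vertical valuations, and `(LOC-δ)` at
  every closed point of the special fibre of the two chart families
  `V1 := h80_placeFam ψ {P | 0 ≤ ord_P j} w ..`, `V2 := h80_placeFam ψ {P | 0 ≤ ord_P j⁻¹} w ..`.

Conclusion: every such `z` is killed by `c` (the tail of the hypothesis `hch` of
`h29_S36_of_charted`). All the chart-family binders of `h61_principal_of_loc`
(`h46_EBinders`), `(SPAN)` (`h46_hspan_family_A`), `huz`, Riemann–Roch and the Picard step are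
done inside.

* `h29_chart_fin` : `hfin` of `h80_placeFam` for any set of places of `F̄(M)`;
* `h29_polar_eq` : `E1 v = max 0 (-ord_v x)` from the chart binders;
* `h29_final_plug` : the plug.
-/

set_option autoImplicit false

namespace Fermat.Agent.S36

open AlgebraicCurve ModularCurve Fermat.Agent.S24 Fermat.Agent.S18 Fermat.Agent.S34
  Fermat.Agent.S19

local notation "Qb" => AlgebraicClosure ℚ

/-- The polar-divisor formula from the chart binders of `h46_principal_of_local`. -/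
theorem h29_polar_eq {K F : Type*} [Field K] [Field F] [Algebra K F] (x : F)
    (E1 E2 : Divisor K F) (hE1 : ∀ v : Place K F, 0 ≤ E1 v) (hE2 : ∀ v : Place K F, 0 ≤ E2 v)
    (hdisj : ∀ v : Place K F, E1 v = 0 ∨ E2 v = 0)
    (hdivx : ∀ v : Place K F, v.ord x = E2 v - E1 v) (v : Place K F) :
    E1 v = max 0 (-v.ord x) := by
  have h1 := hE1 v
  have h2 := hE2 v
  have h3 := hdivx v
  rcases hdisj v with h | h <;> omega

section Modular

variable (M : ℕ) [NeZero M]

/-- `hfin` of `h80_placeFam` at a modular level, for any set of places. -/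
theorem h29_chart_fin (U : Set (Place Qb (modularFunctionFieldBar M)))
    (f : modularFunctionFieldBar M) (hf : f ≠ 0) :
    {P : Place Qb (modularFunctionFieldBar M) | P ∈ U ∧ P.ord f ≠ 0}.Finite :=
  (h75_finite_ord_ne (h54_isChart_jbar M) f hf).subset fun _ hP => hP.2

variable {q : ℕ} (hq : q.Prime) (A : ValuationSubring Qb) (hA : A.LiesOverPrime q)
  {k Rb : Type*} [Field k] [CommRing Rb] [Algebra k Rb]

set_option maxHeartbeats 400000 in
include hq hA in
/-- **The final plug** (row I-E): lattice + vertical valuations + `(C3)` + the toric witnesses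
with `(LOC-δ)` ⟹ every `lam ^ n`-torsion, `Pnew`, `H`-fixed class is killed by `c`. -/
theorem h29_final_plug [Nontrivial Rb]
    (D : h22_Lat Qb (modularFunctionFieldBar M) k Rb) (hDA : D.A = A) (hON : h22_ON D)
    (hinv : ∀ (f : modularFunctionFieldBar M) (hf : f ∈ D.O), IsUnit (D.red ⟨f, hf⟩) → f⁻¹ ∈ D.O)
    (hrank : h39_RankOne D.A)
    (hx : h59_jbar M ∈ D.O) (hxi : (h59_jbar M)⁻¹ ∈ D.O)
    (E1 E2 : Divisor Qb (modularFunctionFieldBar M))
    (hE1 : ∀ v : Place Qb (modularFunctionFieldBar M), 0 ≤ E1 v)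
    (hE2 : ∀ v : Place Qb (modularFunctionFieldBar M), 0 ≤ E2 v)
    (hdisj : ∀ v : Place Qb (modularFunctionFieldBar M), E1 v = 0 ∨ E2 v = 0)
    (hdivx : ∀ v : Place Qb (modularFunctionFieldBar M), v.ord (h59_jbar M) = E2 v - E1 v)
    (N0 : ℕ)
    (hgen : ∀ n, N0 ≤ n → ∀ a ∈ h51_Rd D ((n + 1) • E1), ∃ b ∈ h51_Rd D (n • E1),
      ∃ c ∈ h51_Rd D (n • E1), a = b + D.redF (h59_jbar M) * c)
    (hdivq : ∀ f : modularFunctionFieldBar M, f ∈ h69_F0 M (A.inertiaSubgroupIn ℚ) →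
      f ∈ D.O → D.redF f = 0 → ((q : Qb)⁻¹) • f ∈ D.O)
    {κ : Type*} [Finite κ] (w : κ → h69_F0 M (A.inertiaSubgroupIn ℚ) → ℤ)
    (hw_mul : ∀ c (f g : h69_F0 M (A.inertiaSubgroupIn ℚ)), f ≠ 0 → g ≠ 0 →
      w c (f * g) = w c f + w c g)
    (hw_add : ∀ c (f g : h69_F0 M (A.inertiaSubgroupIn ℚ)), f ≠ 0 → g ≠ 0 → f + g ≠ 0 →
      min (w c f) (w c g) ≤ w c (f + g))
    (a : κ → ℕ) (ha : ∀ c, 1 ≤ a c)
    (hwq : ∀ c, w c (q : h69_F0 M (A.inertiaSubgroupIn ℚ)) = a c)
    (hC3 : ∀ f : h69_F0 M (A.inertiaSubgroupIn ℚ), f ≠ 0 →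
      ((f : modularFunctionFieldBar M) ∈ D.O ↔ ∀ c, 0 ≤ w c f))
    (hfin1 : ∀ f : modularFunctionFieldBar M, f ≠ 0 →
      {P : Place Qb (modularFunctionFieldBar M) |
        P ∈ h80_chartSet Qb (h59_jbar M) ∧ P.ord f ≠ 0}.Finite)
    (hfin2 : ∀ f : modularFunctionFieldBar M, f ≠ 0 →
      {P : Place Qb (modularFunctionFieldBar M) |
        P ∈ h80_chartSet Qb (h59_jbar M)⁻¹ ∧ P.ord f ≠ 0}.Finite)
    (lam : ℕ) (hlam : (lam : k) ≠ 0) (c : ℕ) (Pnew : JZero M → Prop)
    (hNZ : ∀ (n : ℕ) (z : JZero M), lam ^ n • z = 0 → Pnew z →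
      (∀ s ∈ A.inertiaSubgroupIn ℚ, s • z = z) →
      ∃ (Ez : Divisor.degZero (K := Qb) (F := modularFunctionFieldBar M))
        (uz : h69_F0 M (A.inertiaSubgroupIn ℚ)),
        Pic0.mk Ez = c • z ∧
        (∀ σ ∈ A.inertiaSubgroupIn ℚ, arithmeticGalois (modularFunctionFieldFull M) σ •
          (Ez : Divisor Qb (modularFunctionFieldBar M)) = Ez) ∧
        uz ≠ 0 ∧
        (∀ v : Place Qb (modularFunctionFieldBar M),
          ((lam ^ n : ℕ) : ℤ) * (Ez : Divisor Qb (modularFunctionFieldBar M)) v =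
            v.ord (uz : modularFunctionFieldBar M)) ∧
        (uz - 1 = 0 ∨ ∀ c, (a c : ℤ) ≤ w c (uz - 1)) ∧
        (∀ 𝔪 : Ideal (h80_placeFam (h69_F0 M (A.inertiaSubgroupIn ℚ)).subtype
              (h80_chartSet Qb (h59_jbar M)) w hw_mul hw_add hfin1).B, 𝔪.IsMaximal →
          (∀ t : (h80_placeFam (h69_F0 M (A.inertiaSubgroupIn ℚ)).subtype
              (h80_chartSet Qb (h59_jbar M)) w hw_mul hw_add hfin1).B,
            D.redF ((h69_F0 M (A.inertiaSubgroupIn ℚ)).subtype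
              (t : h69_F0 M (A.inertiaSubgroupIn ℚ))) = 0 → t ∈ 𝔪) →
          ∃ e y : h69_F0 M (A.inertiaSubgroupIn ℚ), e ≠ 0 ∧ y ≠ 0 ∧
            (h80_placeFam (h69_F0 M (A.inertiaSubgroupIn ℚ)).subtype
              (h80_chartSet Qb (h59_jbar M)) w hw_mul hw_add hfin1).InLoc 𝔪 y ∧
            (h80_placeFam (h69_F0 M (A.inertiaSubgroupIn ℚ)).subtype
              (h80_chartSet Qb (h59_jbar M)) w hw_mul hw_add hfin1).InLoc 𝔪 y⁻¹ ∧
            (∀ i, i ∉ Set.range (Sum.inl : κ → κ ⊕ h80_HorIdx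
                (h80_placeOrd (h69_F0 M (A.inertiaSubgroupIn ℚ)).subtype
                  (h80_chartSet Qb (h59_jbar M)))) →
              (h80_placeFam (h69_F0 M (A.inertiaSubgroupIn ℚ)).subtype
                (h80_chartSet Qb (h59_jbar M)) w hw_mul hw_add hfin1).Through 𝔪 i →
              ∀ P : Place Qb (modularFunctionFieldBar M),
                (∀ f : h69_F0 M (A.inertiaSubgroupIn ℚ), f ≠ 0 →
                  (h80_placeFam (h69_F0 M (A.inertiaSubgroupIn ℚ)).subtype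
                    (h80_chartSet Qb (h59_jbar M)) w hw_mul hw_add hfin1).v i f =
                    P.ord ((h69_F0 M (A.inertiaSubgroupIn ℚ)).subtype f)) →
                (h80_placeFam (h69_F0 M (A.inertiaSubgroupIn ℚ)).subtype
                  (h80_chartSet Qb (h59_jbar M)) w hw_mul hw_add hfin1).v i e =
                  (Ez : Divisor Qb (modularFunctionFieldBar M)) P) ∧
            ∀ C ∈ Set.range (Sum.inl : κ → κ ⊕ h80_HorIdx
                (h80_placeOrd (h69_F0 M (A.inertiaSubgroupIn ℚ)).subtype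
                  (h80_chartSet Qb (h59_jbar M)))),
              (h80_placeFam (h69_F0 M (A.inertiaSubgroupIn ℚ)).subtype
                (h80_chartSet Qb (h59_jbar M)) w hw_mul hw_add hfin1).Through 𝔪 C →
              (e = y ∨ ((Sum.elim a (fun _ => 1) : κ ⊕ h80_HorIdx
                  (h80_placeOrd (h69_F0 M (A.inertiaSubgroupIn ℚ)).subtype
                    (h80_chartSet Qb (h59_jbar M))) → ℕ) C : ℤ) ≤
                (h80_placeFam (h69_F0 M (A.inertiaSubgroupIn ℚ)).subtype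
                  (h80_chartSet Qb (h59_jbar M)) w hw_mul hw_add hfin1).v C (e - y))) ∧
        (∀ 𝔪 : Ideal (h80_placeFam (h69_F0 M (A.inertiaSubgroupIn ℚ)).subtype
              (h80_chartSet Qb (h59_jbar M)⁻¹) w hw_mul hw_add hfin2).B, 𝔪.IsMaximal →
          (∀ t : (h80_placeFam (h69_F0 M (A.inertiaSubgroupIn ℚ)).subtype
              (h80_chartSet Qb (h59_jbar M)⁻¹) w hw_mul hw_add hfin2).B,
            D.redF ((h69_F0 M (A.inertiaSubgroupIn ℚ)).subtype
              (t : h69_F0 M (A.inertiaSubgroupIn ℚ))) = 0 → t ∈ 𝔪) →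
          ∃ e y : h69_F0 M (A.inertiaSubgroupIn ℚ), e ≠ 0 ∧ y ≠ 0 ∧
            (h80_placeFam (h69_F0 M (A.inertiaSubgroupIn ℚ)).subtype
              (h80_chartSet Qb (h59_jbar M)⁻¹) w hw_mul hw_add hfin2).InLoc 𝔪 y ∧
            (h80_placeFam (h69_F0 M (A.inertiaSubgroupIn ℚ)).subtype
              (h80_chartSet Qb (h59_jbar M)⁻¹) w hw_mul hw_add hfin2).InLoc 𝔪 y⁻¹ ∧
            (∀ i, i ∉ Set.range (Sum.inl : κ → κ ⊕ h80_HorIdx
                (h80_placeOrd (h69_F0 M (A.inertiaSubgroupIn ℚ)).subtype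
                  (h80_chartSet Qb (h59_jbar M)⁻¹))) →
              (h80_placeFam (h69_F0 M (A.inertiaSubgroupIn ℚ)).subtype
                (h80_chartSet Qb (h59_jbar M)⁻¹) w hw_mul hw_add hfin2).Through 𝔪 i →
              ∀ P : Place Qb (modularFunctionFieldBar M),
                (∀ f : h69_F0 M (A.inertiaSubgroupIn ℚ), f ≠ 0 →
                  (h80_placeFam (h69_F0 M (A.inertiaSubgroupIn ℚ)).subtype
                    (h80_chartSet Qb (h59_jbar M)⁻¹) w hw_mul hw_add hfin2).v i f =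
                    P.ord ((h69_F0 M (A.inertiaSubgroupIn ℚ)).subtype f)) →
                (h80_placeFam (h69_F0 M (A.inertiaSubgroupIn ℚ)).subtype
                  (h80_chartSet Qb (h59_jbar M)⁻¹) w hw_mul hw_add hfin2).v i e =
                  (Ez : Divisor Qb (modularFunctionFieldBar M)) P) ∧
            ∀ C ∈ Set.range (Sum.inl : κ → κ ⊕ h80_HorIdx
                (h80_placeOrd (h69_F0 M (A.inertiaSubgroupIn ℚ)).subtype
                  (h80_chartSet Qb (h59_jbar M)⁻¹))),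
              (h80_placeFam (h69_F0 M (A.inertiaSubgroupIn ℚ)).subtype
                (h80_chartSet Qb (h59_jbar M)⁻¹) w hw_mul hw_add hfin2).Through 𝔪 C →
              (e = y ∨ ((Sum.elim a (fun _ => 1) : κ ⊕ h80_HorIdx
                  (h80_placeOrd (h69_F0 M (A.inertiaSubgroupIn ℚ)).subtype
                    (h80_chartSet Qb (h59_jbar M)⁻¹)) → ℕ) C : ℤ) ≤
                (h80_placeFam (h69_F0 M (A.inertiaSubgroupIn ℚ)).subtype
                  (h80_chartSet Qb (h59_jbar M)⁻¹) w hw_mul hw_add hfin2).v C (e - y)))) :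
    ∀ (n : ℕ) (z : JZero M), lam ^ n • z = 0 → Pnew z →
      (∀ s ∈ A.inertiaSubgroupIn ℚ, s • z = z) → c • z = 0 := by
  -- notation
  have hq0 : ((q : ℕ) : h69_F0 M (A.inertiaSubgroupIn ℚ)) ≠ 0 := by
    exact_mod_cast hq.ne_zero
  have hqK : (q : Qb) ∈ D.A.nonunits := by
    rw [hDA]
    exact hA
  have hψq : (h69_F0 M (A.inertiaSubgroupIn ℚ)).subtype
      ((q : ℕ) : h69_F0 M (A.inertiaSubgroupIn ℚ)) =
      algebraMap Qb (modularFunctionFieldBar M) (q : Qb) := by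
    rw [map_natCast, map_natCast]
  have hC3' : ∀ f : h69_F0 M (A.inertiaSubgroupIn ℚ), f ≠ 0 →
      ((h69_F0 M (A.inertiaSubgroupIn ℚ)).subtype f ∈ D.O ↔ ∀ c, 0 ≤ w c f) := hC3
  have hfinRR : ∀ D' : Divisor Qb (modularFunctionFieldBar M),
      Module.Finite Qb (riemannRochSpace D') :=
    fun D' => (h75_riemann (h54_isChart_jbar M) D').1
  have hE1inv : ∀ σ ∈ A.inertiaSubgroupIn ℚ,
      arithmeticGalois (modularFunctionFieldFull M) σ • E1 = E1 := fun σ _ =>
    h5_polar_invariant _ (h59_jbar M) (h2_jbar_fix M σ) E1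
      (h29_polar_eq (h59_jbar M) E1 E2 hE1 hE2 hdisj hdivx)
  have hU2a : ∀ P : Place Qb (modularFunctionFieldBar M),
      P.ord (h59_jbar M) ≤ 0 → P ∈ h80_chartSet Qb (h59_jbar M)⁻¹ := by
    intro P hP
    show 0 ≤ P.ord (h59_jbar M)⁻¹
    rw [Place.ord_inv]
    omega
  have hU2b : ∀ P : Place Qb (modularFunctionFieldBar M),
      P ∈ h80_chartSet Qb (h59_jbar M)⁻¹ → P.ord (h59_jbar M) ≤ 0 := by
    intro P hP
    have h1 : 0 ≤ P.ord (h59_jbar M)⁻¹ := hP
    rw [Place.ord_inv] at h1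
    omega
  refine h29_geomN_of_loc_jbar M D hON hinv hrank hx hxi E1 E2 hE1 hE2 hdisj hdivx N0 hgen
    (h69_F0 M (A.inertiaSubgroupIn ℚ)).subtype
    ⟨h59_jbar M, fun σ _ => h2_jbar_fix M σ⟩ rfl
    (h80_placeFam (h69_F0 M (A.inertiaSubgroupIn ℚ)).subtype
      (h80_chartSet Qb (h59_jbar M)) w hw_mul hw_add hfin1)
    (h80_placeFam (h69_F0 M (A.inertiaSubgroupIn ℚ)).subtype
      (h80_chartSet Qb (h59_jbar M)⁻¹) w hw_mul hw_add hfin2)
    (h46_E_hB _ _ w hw_mul hw_add hfin1 D hC3' (fun v => 0 ≤ v.ord (h59_jbar M))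
      (fun _ hP => hP))
    (h46_E_hB _ _ w hw_mul hw_add hfin2 D hC3' (fun v => v.ord (h59_jbar M) ≤ 0) hU2a)
    _ (h46_E_hvert _ _) (Sum.elim a (fun _ => 1)) (h46_E_ha _ _ a ha)
    (h46_E_hVAL _ _ w hw_mul hw_add hfin1 D hC3' _ hq0 a hwq _ hqK hψq)
    (h46_E_hvertO _ _ w hw_mul hw_add hfin1 D hC3')
    (h46_E_hhor _ _ w hw_mul hw_add hfin1 (fun v => 0 ≤ v.ord (h59_jbar M)) (fun _ hP => hP))
    _ (h46_E_hvert _ _) (Sum.elim a (fun _ => 1)) (h46_E_ha _ _ a ha)
    (h46_E_hVAL _ _ w hw_mul hw_add hfin2 D hC3' _ hq0 a hwq _ hqK hψq)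
    (h46_E_hvertO _ _ w hw_mul hw_add hfin2 D hC3')
    (h46_E_hhor _ _ w hw_mul hw_add hfin2 (fun v => v.ord (h59_jbar M) ≤ 0) hU2b)
    lam hlam c Pnew (A.inertiaSubgroupIn ℚ) ?_
  intro n z hz hP hfix
  obtain ⟨Ez, uz, hcls, hEzinv, huz0, hdivz, hcong, hnz1, hnz2⟩ := hNZ n z hz hP hfix
  refine ⟨Ez, (uz : modularFunctionFieldBar M), hcls, ?_, hdivz, ?_, ?_, hnz1, hnz2⟩
  · intro h
    exact huz0 (Subtype.ext h)
  · have h1 := h46_E_huz (h69_F0 M (A.inertiaSubgroupIn ℚ)).subtype w hw_mul D hC3'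
      ((q : ℕ) : h69_F0 M (A.inertiaSubgroupIn ℚ)) hq0 a hwq (q : Qb) hqK hψq uz hcong
    exact h1
  · exact fun j n' _ => h46_hspan_family_A M hq A hA D hDA hON hrank hdivq hfinRR E1
      (Ez : Divisor Qb (modularFunctionFieldBar M)) hE1inv hEzinv j n'

end Modular

end Fermat.Agent.S36
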