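import Fermat.Agent.S36.h46_LocGlobal
import Fermat.Agent.S27.RRFull
import Fermat.Agent.S18.h54_ModLevel

/-!
# S36 / row I-E (helper29): `GeomN` from a toric witness with local data

The last step of the chain of ARCH v2: the engine `h46_principal_of_local` (LG) with

* `HasPrincipalDivisors`, `hfin`, `hdeg1` discharged by a chart `y` of `F` (`h75_IsChart K y`,
  in the modular case `y = j = h59_jbar M`);
* `hdim` discharged by Riemann–Roch (`h15_finrank_rr_of_deg`): for `n ≥ 2 g`,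
  `deg (n E1 + j Ez) = n deg E1 > 2 g - 2`, so both spaces have dimension `n deg E1 + 1 - g`;
* the conclusion turned into the Picard statement `c • z = 0` (`[Ez] = c • z`).

Exports:

* `h29_polar_degree_pos` : the polar divisor of a chart has positive degree;
* `h29_hdim_of_rr` : the `hdim` binder of `h46_principal_of_local`;
* `h29_pic0_mk_eq_zero` : a principal degree-zero divisor has trivial class;
* `h29_kill_of_witness` : generic pointwise form (`F` any function field with a chart);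
* `h29_geomN_of_witness` : the modular quantified form at a level `M`, conclusion
  `∀ n z, lam ^ n • z = 0 → Pnew z → (∀ s ∈ H, s • z = z) → c • z = 0`;
* `h29_geomN_of_witness_jbar` : the same with the chart function `x := h59_jbar M`
  (`hx0`, `hE1deg` discharged).
-/

set_option autoImplicit false

namespace Fermat.Agent.S36

open AlgebraicCurve ModularCurve Fermat.Agent.S24 Fermat.Agent.S18 Fermat.Agent.S34

section Generic

variable {K F k Rb : Type*} [Field K] [Field F] [Algebra K F] [Field k] [CommRing Rb]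
  [Algebra k Rb]

/-- The polar divisor of a chart function has positive degree. -/
theorem h29_polar_degree_pos [IsAlgClosed K] {x : F} (hx : h75_IsChart K x)
    (E1 E2 : Divisor K F) (hE1 : ∀ v : Place K F, 0 ≤ E1 v) (hE2 : ∀ v : Place K F, 0 ≤ E2 v)
    (hdivx : ∀ v : Place K F, v.ord x = E2 v - E1 v) : 0 < Divisor.degree E1 := by
  by_contra hcon
  have hall : ∀ v : Place K F, E1 v = 0 := by
    intro v
    by_contra hv
    exact hcon (h7_degree_pos hx E1 hE1 v (lt_of_le_of_ne (hE1 v) (Ne.symm hv)))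
  have hxL : x ∈ riemannRochSpace (0 : Divisor K F) := by
    rw [mem_riemannRochSpace_iff]
    intro v
    right
    rw [hdivx v, hall v]
    simpa using hE2 v
  rw [h7_rr_zero_eq hx, Submodule.mem_span_singleton] at hxL
  obtain ⟨a, ha⟩ := hxL
  apply hx.tr
  rw [← ha, ← Algebra.algebraMap_eq_smul_one]
  exact isAlgebraic_algebraMap a

/-- The `hdim` binder of `h46_principal_of_local` from Riemann–Roch: for `n ≥ 2 g` and
`deg Ez = 0`, `l(n E1 + j Ez) = l(n E1)`. -/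
theorem h29_hdim_of_rr [IsAlgClosed K] {y : F} (hy : h75_IsChart K y) (E1 Ez : Divisor K F)
    (hE1deg : 0 < Divisor.degree E1) (hdeg : Divisor.degree Ez = 0) (j : ℤ) (n : ℕ)
    (hn : 2 * h75_genus K y ≤ n) :
    Module.finrank K (riemannRochSpace (n • E1 + j • Ez)) =
      Module.finrank K (riemannRochSpace (n • E1)) := by
  have hd2 : Divisor.degree (n • E1) = n * Divisor.degree E1 := by
    rw [map_nsmul, nsmul_eq_mul]
  have hd1 : Divisor.degree (n • E1 + j • Ez) = n * Divisor.degree E1 := by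
    rw [map_add, map_zsmul, hdeg, smul_zero, add_zero, hd2]
  have hlt : 2 * (h75_genus K y : ℤ) - 2 < n * Divisor.degree E1 := by
    have h1 : (2 * (h75_genus K y : ℤ)) ≤ n := by exact_mod_cast hn
    have h2 : (n : ℤ) ≤ n * Divisor.degree E1 := by
      have h3 : (0 : ℤ) ≤ n := Int.natCast_nonneg n
      nlinarith
    omega
  have e1 := Fermat.Agent.S27.h15_finrank_rr_of_deg hy (n • E1 + j • Ez) (by rw [hd1]; exact hlt)
  have e2 := Fermat.Agent.S27.h15_finrank_rr_of_deg hy (n • E1) (by rw [hd2]; exact hlt)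
  rw [hd1] at e1
  rw [hd2] at e2
  exact_mod_cast e1.trans e2.symm

/-- A principal divisor of degree zero has trivial class in `Pic0`. -/
theorem h29_pic0_mk_eq_zero (E : Divisor.degZero (K := K) (F := F))
    (h : (E : Divisor K F) ∈ Divisor.principal (K := K) (F := F)) : Pic0.mk E = 0 := by
  unfold Pic0.mk
  exact (QuotientAddGroup.eq_zero_iff _).mpr (AddSubgroup.mem_addSubgroupOf.mpr h)

/-- **(LG) + (RR), pointwise.** A class `z` such that `c • z` is the class of a toric witness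
`(Ez, uz)` with the local data of `h46_principal_of_local` is killed by `c`. The binders are
those of `h46_principal_of_local`; `HasPrincipalDivisors`, `hfin`, `hdeg1`, `hdim` are
discharged from a chart `y` (Riemann–Roch), at the price of `hE1deg`. -/
theorem h29_kill_of_witness [IsAlgClosed K] [Nontrivial Rb] {y : F} (hy : h75_IsChart K y)
    (D : h22_Lat K F k Rb) (hON : h22_ON D)
    (hinv : ∀ (f : F) (hf : f ∈ D.O), IsUnit (D.red ⟨f, hf⟩) → f⁻¹ ∈ D.O)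
    (hrank : h39_RankOne D.A)
    (x : F) (hx0 : x ≠ 0) (hx : x ∈ D.O) (hxi : x⁻¹ ∈ D.O)
    (E1 E2 : Divisor K F) (hE1 : ∀ v : Place K F, 0 ≤ E1 v) (hE2 : ∀ v : Place K F, 0 ≤ E2 v)
    (hdisj : ∀ v : Place K F, E1 v = 0 ∨ E2 v = 0)
    (hdivx : ∀ v : Place K F, v.ord x = E2 v - E1 v)
    (hE1deg : 0 < Divisor.degree E1) (N0 : ℕ)
    (hgen : ∀ n, N0 ≤ n → ∀ a ∈ h51_Rd D ((n + 1) • E1), ∃ b ∈ h51_Rd D (n • E1),
      ∃ c ∈ h51_Rd D (n • E1), a = b + D.redF x * c)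
    (T1 T2 : Subring F)
    (hT1 : ∀ f ∈ T1, f ∈ D.O ∧ ∀ v : Place K F, 0 ≤ v.ord x → 0 ≤ v.ord f)
    (hT2 : ∀ f ∈ T2, f ∈ D.O ∧ ∀ v : Place K F, v.ord x ≤ 0 → 0 ≤ v.ord f)
    (m : ℕ) (hm : (m : k) ≠ 0) (c : ℕ) (z : Pic0 K F)
    (Ez : Divisor.degZero (K := K) (F := F)) (hcls : Pic0.mk Ez = c • z)
    (uz : F) (huz0 : uz ≠ 0)
    (hdivz : ∀ v : Place K F, (m : ℤ) * (Ez : Divisor K F) v = v.ord uz)
    (huz : ∃ h : uz ∈ D.O, D.red ⟨uz, h⟩ = 1)
    (G0 : ℤ → ℕ → Set F) (hG0 : ∀ j n, ∀ g ∈ G0 j n, g ∈ D.O)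
    (hspan : ∀ (j : ℤ) (n : ℕ), N0 ≤ n → ∀ a ∈ h51_Rd D (n • E1 + j • (Ez : Divisor K F)),
      a ∈ Submodule.span k (D.redF '' G0 j n))
    (hloc1 : ∀ (j : ℤ) (n : ℕ), N0 ≤ n → ∀ g ∈ G0 j n, ∀ 𝔪 : Ideal T1, 𝔪.IsMaximal →
        (∀ t : T1, D.redF (t : F) = 0 → t ∈ 𝔪) →
        ∃ b : T1, b ∉ 𝔪 ∧ ∃ a : T1, D.redF (b : F) * D.redF g = D.redF (a : F))
    (hloc2 : ∀ (j : ℤ) (n : ℕ), N0 ≤ n → ∀ g ∈ G0 j n, ∀ 𝔪 : Ideal T2, 𝔪.IsMaximal →
        (∀ t : T2, D.redF (t : F) = 0 → t ∈ 𝔪) →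
        ∃ b : T2, b ∉ 𝔪 ∧ ∃ a : T2, D.redF (b : F) * D.redF (x⁻¹ ^ n * g) = D.redF (a : F)) :
    c • z = 0 := by
  have : HasPrincipalDivisors K F := h75_hasPrincipalDivisors hy
  have hfin : ∀ D' : Divisor K F, FiniteDimensional K (riemannRochSpace D') :=
    fun D' => (h75_riemann hy D').1
  have hdeg1 : ∀ P : Place K F, P.deg = 1 := h75_deg_eq_one hy
  have hdeg : Divisor.degree (Ez : Divisor K F) = 0 := Divisor.mem_degZero.mp Ez.2
  have hprin : (Ez : Divisor K F) ∈ Divisor.principal (K := K) (F := F) :=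
    h46_principal_of_local D hON hinv hrank hfin hdeg1 x hx0 hx hxi E1 E2 hE1 hE2 hdisj hdivx
      (max N0 (2 * h75_genus K y))
      (fun n hn => hgen n (le_trans (le_max_left _ _) hn)) m hm (Ez : Divisor K F) uz hdeg huz0
      hdivz huz
      (fun j n hn => h29_hdim_of_rr hy E1 (Ez : Divisor K F) hE1deg hdeg j n
        (le_trans (le_max_right _ _) hn))
      T1 T2 hT1 hT2 G0 hG0
      (fun j n hn => hspan j n (le_trans (le_max_left _ _) hn))
      (fun j n hn => hloc1 j n (le_trans (le_max_left _ _) hn))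
      (fun j n hn => hloc2 j n (le_trans (le_max_left _ _) hn))
  rw [← hcls]
  exact h29_pic0_mk_eq_zero Ez hprin

end Generic

section Modular

local notation "Qb" => AlgebraicClosure ℚ

variable (M : ℕ) [NeZero M] {k Rb : Type*} [Field k] [CommRing Rb] [Algebra k Rb]

/-- **Row I-E: `GeomN` from witnesses.** At a level `M`: a lattice datum `D` on `F̄(M)` with the
lattice binders of `h46_principal_of_local`, and for every `lam ^ n`-torsion class `z` with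
`Pnew z`, fixed by `H`, a toric witness `(Ez, uz, G0)` of `c • z` with the local data. Then
every such `z` is killed by `c`. -/
theorem h29_geomN_of_witness [Nontrivial Rb]
    (D : h22_Lat Qb (modularFunctionFieldBar M) k Rb) (hON : h22_ON D)
    (hinv : ∀ (f : modularFunctionFieldBar M) (hf : f ∈ D.O), IsUnit (D.red ⟨f, hf⟩) → f⁻¹ ∈ D.O)
    (hrank : h39_RankOne D.A)
    (x : modularFunctionFieldBar M) (hx0 : x ≠ 0) (hx : x ∈ D.O) (hxi : x⁻¹ ∈ D.O)
    (E1 E2 : Divisor Qb (modularFunctionFieldBar M))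
    (hE1 : ∀ v : Place Qb (modularFunctionFieldBar M), 0 ≤ E1 v)
    (hE2 : ∀ v : Place Qb (modularFunctionFieldBar M), 0 ≤ E2 v)
    (hdisj : ∀ v : Place Qb (modularFunctionFieldBar M), E1 v = 0 ∨ E2 v = 0)
    (hdivx : ∀ v : Place Qb (modularFunctionFieldBar M), v.ord x = E2 v - E1 v)
    (hE1deg : 0 < Divisor.degree E1) (N0 : ℕ)
    (hgen : ∀ n, N0 ≤ n → ∀ a ∈ h51_Rd D ((n + 1) • E1), ∃ b ∈ h51_Rd D (n • E1),
      ∃ c ∈ h51_Rd D (n • E1), a = b + D.redF x * c)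
    (T1 T2 : Subring (modularFunctionFieldBar M))
    (hT1 : ∀ f ∈ T1, f ∈ D.O ∧
      ∀ v : Place Qb (modularFunctionFieldBar M), 0 ≤ v.ord x → 0 ≤ v.ord f)
    (hT2 : ∀ f ∈ T2, f ∈ D.O ∧
      ∀ v : Place Qb (modularFunctionFieldBar M), v.ord x ≤ 0 → 0 ≤ v.ord f)
    (lam : ℕ) (hlam : (lam : k) ≠ 0) (c : ℕ)
    (Pnew : JZero M → Prop) (H : Subgroup (Qb ≃ₐ[ℚ] Qb))
    (hwit : ∀ (n : ℕ) (z : JZero M), lam ^ n • z = 0 → Pnew z → (∀ s ∈ H, s • z = z) →
      ∃ (Ez : Divisor.degZero (K := Qb) (F := modularFunctionFieldBar M))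
        (uz : modularFunctionFieldBar M) (G0 : ℤ → ℕ → Set (modularFunctionFieldBar M)),
        Pic0.mk Ez = c • z ∧ uz ≠ 0 ∧
        (∀ v : Place Qb (modularFunctionFieldBar M),
          ((lam ^ n : ℕ) : ℤ) * (Ez : Divisor Qb (modularFunctionFieldBar M)) v = v.ord uz) ∧
        (∃ h : uz ∈ D.O, D.red ⟨uz, h⟩ = 1) ∧
        (∀ j n', ∀ g ∈ G0 j n', g ∈ D.O) ∧
        (∀ (j : ℤ) (n' : ℕ), N0 ≤ n' →
          ∀ a ∈ h51_Rd D (n' • E1 + j • (Ez : Divisor Qb (modularFunctionFieldBar M))),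
            a ∈ Submodule.span k (D.redF '' G0 j n')) ∧
        (∀ (j : ℤ) (n' : ℕ), N0 ≤ n' → ∀ g ∈ G0 j n', ∀ 𝔪 : Ideal T1, 𝔪.IsMaximal →
          (∀ t : T1, D.redF (t : modularFunctionFieldBar M) = 0 → t ∈ 𝔪) →
          ∃ b : T1, b ∉ 𝔪 ∧ ∃ a : T1, D.redF (b : modularFunctionFieldBar M) * D.redF g =
            D.redF (a : modularFunctionFieldBar M)) ∧
        (∀ (j : ℤ) (n' : ℕ), N0 ≤ n' → ∀ g ∈ G0 j n', ∀ 𝔪 : Ideal T2, 𝔪.IsMaximal →
          (∀ t : T2, D.redF (t : modularFunctionFieldBar M) = 0 → t ∈ 𝔪) →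
          ∃ b : T2, b ∉ 𝔪 ∧ ∃ a : T2, D.redF (b : modularFunctionFieldBar M) *
            D.redF (x⁻¹ ^ n' * g) = D.redF (a : modularFunctionFieldBar M))) :
    ∀ (n : ℕ) (z : JZero M), lam ^ n • z = 0 → Pnew z → (∀ s ∈ H, s • z = z) → c • z = 0 := by
  intro n z hz hP hfix
  obtain ⟨Ez, uz, G0, hcls, huz0, hdivz, huz, hG0, hspan, hloc1, hloc2⟩ := hwit n z hz hP hfix
  have hm : (((lam ^ n : ℕ)) : k) ≠ 0 := by
    rw [Nat.cast_pow]
    exact pow_ne_zero n hlam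
  exact h29_kill_of_witness (h54_isChart_jbar M) D hON hinv hrank x hx0 hx hxi E1 E2 hE1 hE2
    hdisj hdivx hE1deg N0 hgen T1 T2 hT1 hT2 (lam ^ n) hm c z Ez hcls uz huz0 hdivz huz G0 hG0
    hspan hloc1 hloc2

/-- `h29_geomN_of_witness` with the chart function `x := j = h59_jbar M`: `hx0` and `hE1deg`
are discharged. -/
theorem h29_geomN_of_witness_jbar [Nontrivial Rb]
    (D : h22_Lat Qb (modularFunctionFieldBar M) k Rb) (hON : h22_ON D)
    (hinv : ∀ (f : modularFunctionFieldBar M) (hf : f ∈ D.O), IsUnit (D.red ⟨f, hf⟩) → f⁻¹ ∈ D.O)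
    (hrank : h39_RankOne D.A)
    (hx : h59_jbar M ∈ D.O) (hxi : (h59_jbar M)⁻¹ ∈ D.O)
    (E1 E2 : Divisor Qb (modularFunctionFieldBar M))
    (hE1 : ∀ v : Place Qb (modularFunctionFieldBar M), 0 ≤ E1 v)
    (hE2 : ∀ v : Place Qb (modularFunctionFieldBar M), 0 ≤ E2 v)
    (hdisj : ∀ v : Place Qb (modularFunctionFieldBar M), E1 v = 0 ∨ E2 v = 0)
    (hdivx : ∀ v : Place Qb (modularFunctionFieldBar M), v.ord (h59_jbar M) = E2 v - E1 v)
    (N0 : ℕ)
    (hgen : ∀ n, N0 ≤ n → ∀ a ∈ h51_Rd D ((n + 1) • E1), ∃ b ∈ h51_Rd D (n • E1),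
      ∃ c ∈ h51_Rd D (n • E1), a = b + D.redF (h59_jbar M) * c)
    (T1 T2 : Subring (modularFunctionFieldBar M))
    (hT1 : ∀ f ∈ T1, f ∈ D.O ∧
      ∀ v : Place Qb (modularFunctionFieldBar M), 0 ≤ v.ord (h59_jbar M) → 0 ≤ v.ord f)
    (hT2 : ∀ f ∈ T2, f ∈ D.O ∧
      ∀ v : Place Qb (modularFunctionFieldBar M), v.ord (h59_jbar M) ≤ 0 → 0 ≤ v.ord f)
    (lam : ℕ) (hlam : (lam : k) ≠ 0) (c : ℕ)
    (Pnew : JZero M → Prop) (H : Subgroup (Qb ≃ₐ[ℚ] Qb))
    (hwit : ∀ (n : ℕ) (z : JZero M), lam ^ n • z = 0 → Pnew z → (∀ s ∈ H, s • z = z) →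
      ∃ (Ez : Divisor.degZero (K := Qb) (F := modularFunctionFieldBar M))
        (uz : modularFunctionFieldBar M) (G0 : ℤ → ℕ → Set (modularFunctionFieldBar M)),
        Pic0.mk Ez = c • z ∧ uz ≠ 0 ∧
        (∀ v : Place Qb (modularFunctionFieldBar M),
          ((lam ^ n : ℕ) : ℤ) * (Ez : Divisor Qb (modularFunctionFieldBar M)) v = v.ord uz) ∧
        (∃ h : uz ∈ D.O, D.red ⟨uz, h⟩ = 1) ∧
        (∀ j n', ∀ g ∈ G0 j n', g ∈ D.O) ∧
        (∀ (j : ℤ) (n' : ℕ), N0 ≤ n' →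
          ∀ a ∈ h51_Rd D (n' • E1 + j • (Ez : Divisor Qb (modularFunctionFieldBar M))),
            a ∈ Submodule.span k (D.redF '' G0 j n')) ∧
        (∀ (j : ℤ) (n' : ℕ), N0 ≤ n' → ∀ g ∈ G0 j n', ∀ 𝔪 : Ideal T1, 𝔪.IsMaximal →
          (∀ t : T1, D.redF (t : modularFunctionFieldBar M) = 0 → t ∈ 𝔪) →
          ∃ b : T1, b ∉ 𝔪 ∧ ∃ a : T1, D.redF (b : modularFunctionFieldBar M) * D.redF g =
            D.redF (a : modularFunctionFieldBar M)) ∧
        (∀ (j : ℤ) (n' : ℕ), N0 ≤ n' → ∀ g ∈ G0 j n', ∀ 𝔪 : Ideal T2, 𝔪.IsMaximal →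
          (∀ t : T2, D.redF (t : modularFunctionFieldBar M) = 0 → t ∈ 𝔪) →
          ∃ b : T2, b ∉ 𝔪 ∧ ∃ a : T2, D.redF (b : modularFunctionFieldBar M) *
            D.redF ((h59_jbar M)⁻¹ ^ n' * g) = D.redF (a : modularFunctionFieldBar M))) :
    ∀ (n : ℕ) (z : JZero M), lam ^ n • z = 0 → Pnew z → (∀ s ∈ H, s • z = z) → c • z = 0 :=
  h29_geomN_of_witness M D hON hinv hrank (h59_jbar M) (h54_isChart_jbar M).ne_zero hx hxi E1 E2
    hE1 hE2 hdisj hdivx
    (h29_polar_degree_pos (h54_isChart_jbar M) E1 E2 hE1 hE2 hdivx) N0 hgen T1 T2 hT1 hT2 lam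
    hlam c Pnew H hwit

end Modular

end Fermat.Agent.S36
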