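import Fermat.Agent.S36.h29_FinalPlug
import Fermat.Agent.S36.h96_ChartXfer
import Fermat.Agent.S36.h70_TorWrap

/-!
# S36 / row I-E (helper29): the binder `hNZ` of `h29_final_plug` from the row outputs

`hNZ` of `h29_final_plug` asks, for every torsion class `z`, for a toric witness `(Ez, uz)` with
`(LOC-δ)` at every closed point of the special fibre of both chart families. This file produces
it from

* **TOR-M** (`h70_torM`): `(E4, u4)`, `[E4] = c1 • z`, `E4` `H`-invariant, `div u4 = m E4`;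
* **NZ-M** (`h94_hnz_pts`): `Γ ∈ F0`, the congruence of `u4 ^ c2 / Γ ^ m` and, for the divisor
  `Ez = c2 E4 - div Γ`, `(LOC-δ)` at the fibre points of chart 1 (`fib1`) and at the cusp points
  of chart 2 (`cusp2`);
* **(RESK)** (`hres`, the hypothesis of `h96_hnz2_of_hnz1`): residue fields of the non-cusp
  points of chart 2 consist of constants.

Contents:

* `h29_LocD` : the `(LOC-δ)` datum at a closed point (the conclusion of the binders `hnz1`,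
  `hnz2` of `h61_principal_of_loc`), as a reducible abbreviation;
* `h29_w_one`, `h29_w_inv`, `h29_w_unit` : elementary facts on the vertical valuations;
* `h29_chart2_le`, `h29_chart21`, `h29_inv_mem_chart2` : the binders `hx2`, `h21`, `t0` of
  `h96_hnz2_of_hnz1` for the pair of chart families `h80_placeFam ψ {0 ≤ ord x} w`,
  `h80_placeFam ψ {0 ≤ ord x⁻¹} w`;
* `h29_hnz2_of_chart1` : `hnz2` from `hnz1`, the cusp points and `(RESK)` for that pair;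
* `h29_twist_witness` : the Kummer twist `(E4, u4) ↦ (c2 E4 - div Γ, u4 ^ c2 / Γ ^ m)`;
* `h29_hNZ_of_rows` : the body of `hNZ` of `h29_final_plug` (pointwise in `(n, z)`).
-/

set_option autoImplicit false

namespace Fermat.Agent.S36

open AlgebraicCurve ModularCurve Fermat.Agent.S24 Fermat.Agent.S18 Fermat.Agent.S34
  Fermat.Agent.S19

local notation "Qb" => AlgebraicClosure ℚ

/-- The `(LOC-δ)` datum at a closed point `𝔪` of a chart family: a local equation `e` of `Ez`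
and a unit `y` of the local ring with `e ≡ y` modulo `a C` on the vertical branches through
`𝔪`. This is the conclusion of the binders `hnz1`, `hnz2` of `h61_principal_of_loc`. -/
abbrev h29_LocD {K F : Type*} [Field K] [Field F] [Algebra K F] {F0 : Type*} [Field F0]
    (ψ : F0 →+* F) {ι : Type*} (V : h80_ValFam F0 ι) (vert : Set ι) (a : ι → ℕ)
    (Ez : Divisor K F) (𝔪 : Ideal V.B) : Prop :=
  ∃ e y : F0, e ≠ 0 ∧ y ≠ 0 ∧ V.InLoc 𝔪 y ∧ V.InLoc 𝔪 y⁻¹ ∧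
    (∀ i, i ∉ vert → V.Through 𝔪 i → ∀ P : Place K F,
      (∀ f : F0, f ≠ 0 → V.v i f = P.ord (ψ f)) → V.v i e = Ez P) ∧
    ∀ C ∈ vert, V.Through 𝔪 C → (e = y ∨ (a C : ℤ) ≤ V.v C (e - y))

section Generic

variable {K F k Rb : Type*} [Field K] [Field F] [Algebra K F] [Field k] [CommRing Rb]
  [Algebra k Rb]
variable {F0 : Type*} [Field F0] (ψ : F0 →+* F)
variable {κ : Type*} (w : κ → F0 → ℤ)
  (hw_mul : ∀ c (f g : F0), f ≠ 0 → g ≠ 0 → w c (f * g) = w c f + w c g)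

include hw_mul in
theorem h29_w_one (c : κ) : w c 1 = 0 := by
  have h := hw_mul c 1 1 one_ne_zero one_ne_zero
  rw [mul_one] at h
  omega

include hw_mul in
theorem h29_w_inv (c : κ) {f : F0} (hf : f ≠ 0) : w c f⁻¹ = -w c f := by
  have h := hw_mul c f f⁻¹ hf (inv_ne_zero hf)
  rw [mul_inv_cancel₀ hf, h29_w_one w hw_mul c] at h
  omega

include hw_mul in
/-- A function with `w ≥ 0` and `w (1/f) ≥ 0` has `w = 0`. -/
theorem h29_w_unit (c : κ) {f : F0} (hf : f ≠ 0) (h1 : 0 ≤ w c f) (h2 : 0 ≤ w c f⁻¹) :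
    w c f = 0 := by
  rw [h29_w_inv w hw_mul c hf] at h2
  omega

variable [Finite κ]
  (hw_add : ∀ c (f g : F0), f ≠ 0 → g ≠ 0 → f + g ≠ 0 → min (w c f) (w c g) ≤ w c (f + g))
  (x0 : F0) (x : F) (hψx : ψ x0 = x)
  (hfin1 : ∀ f : F, f ≠ 0 → {P : Place K F | P ∈ h80_chartSet K x ∧ P.ord f ≠ 0}.Finite)
  (hfin2 : ∀ f : F, f ≠ 0 → {P : Place K F | P ∈ h80_chartSet K x⁻¹ ∧ P.ord f ≠ 0}.Finite)

include hψx in
/-- `hx2` of `h96_hnz2_of_hnz1`: the chart function is `≤ 0` at every index of chart 2. -/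
theorem h29_chart2_le (hwx : ∀ c, w c x0 = 0) :
    ∀ i, (h80_placeFam ψ (h80_chartSet K x⁻¹) w hw_mul hw_add hfin2).v i x0 ≤ 0 := by
  intro i
  by_cases hi : h80_IsHor i
  · obtain ⟨P, hP, rfl⟩ := h80_placeFam_hor ψ (h80_chartSet K x⁻¹) i hi
    rw [h80_placeFam_v_mk, hψx]
    have h1 : 0 ≤ P.ord x⁻¹ := hP
    rw [Place.ord_inv] at h1
    omega
  · obtain ⟨c, rfl⟩ := (h80_not_isHor_iff i).mp hi
    rw [h80_placeFam_v_inl, hwx c]

include hψx in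
/-- `h21` of `h96_hnz2_of_hnz1`: an index of chart 2 at which the chart function is a unit is
an index of chart 1 (same valuation, same type, same multiplicity). -/
theorem h29_chart21 (a : κ → ℕ) :
    ∀ i2, (h80_placeFam ψ (h80_chartSet K x⁻¹) w hw_mul hw_add hfin2).v i2 x0 = 0 →
      ∃ i1, (∀ f : F0, (h80_placeFam ψ (h80_chartSet K x) w hw_mul hw_add hfin1).v i1 f =
          (h80_placeFam ψ (h80_chartSet K x⁻¹) w hw_mul hw_add hfin2).v i2 f) ∧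
        (i1 ∈ Set.range (Sum.inl : κ → κ ⊕ h80_HorIdx (h80_placeOrd ψ (h80_chartSet K x))) ↔
          i2 ∈ Set.range (Sum.inl : κ → κ ⊕ h80_HorIdx (h80_placeOrd ψ (h80_chartSet K x⁻¹)))) ∧
        (i2 ∈ Set.range (Sum.inl : κ → κ ⊕ h80_HorIdx (h80_placeOrd ψ (h80_chartSet K x⁻¹))) →
          (Sum.elim a (fun _ => 1) : κ ⊕ h80_HorIdx (h80_placeOrd ψ (h80_chartSet K x)) → ℕ) i1 =
          (Sum.elim a (fun _ => 1) :
            κ ⊕ h80_HorIdx (h80_placeOrd ψ (h80_chartSet K x⁻¹)) → ℕ) i2) := by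
  intro i2 h0
  by_cases hi : h80_IsHor i2
  · obtain ⟨P, hP, rfl⟩ := h80_placeFam_hor ψ (h80_chartSet K x⁻¹) i2 hi
    have h1 : P.ord (ψ x0) = 0 := by
      rw [← h80_placeFam_v_mk ψ (h80_chartSet K x⁻¹) w hw_mul hw_add hfin2 P hP x0]
      exact h0
    rw [hψx] at h1
    have hP1 : P ∈ h80_chartSet K x := by
      show 0 ≤ P.ord x
      omega
    refine ⟨Sum.inr (h80_horMk (h80_placeOrd ψ (h80_chartSet K x)) ⟨P, hP1⟩), fun f => ?_,
      ⟨?_, ?_⟩, ?_⟩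
    · rw [h80_placeFam_v_mk, h80_placeFam_v_mk]
    · rintro ⟨c, hc⟩
      exact absurd hc Sum.inl_ne_inr
    · rintro ⟨c, hc⟩
      exact absurd hc Sum.inl_ne_inr
    · rintro ⟨c, hc⟩
      exact absurd hc Sum.inl_ne_inr
  · obtain ⟨c, rfl⟩ := (h80_not_isHor_iff i2).mp hi
    refine ⟨Sum.inl c, fun f => ?_, ⟨fun _ => ⟨c, rfl⟩, fun _ => ⟨c, rfl⟩⟩, fun _ => ?_⟩
    · rw [h80_placeFam_v_inl, h80_placeFam_v_inl]
    · rw [Sum.elim_inl, Sum.elim_inl]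

include hψx in
/-- `t0` of `h96_hnz2_of_hnz1`: the inverse of the chart function lies in the ring of chart 2. -/
theorem h29_inv_mem_chart2 (hx00 : x0 ≠ 0) (hwx : ∀ c, w c x0 = 0) :
    x0⁻¹ ∈ (h80_placeFam ψ (h80_chartSet K x⁻¹) w hw_mul hw_add hfin2).B := by
  rw [h80_mem_placeFam_B]
  refine Or.inr ⟨fun c => ?_, fun P hP => ?_⟩
  · rw [h29_w_inv w hw_mul c hx00, hwx c]
    simp
  · rw [map_inv₀, hψx]
    exact hP

include hψx in
/-- **`hnz2` from `hnz1`** for the pair of chart families of a chart function `x`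
(`h96_hnz2_of_hnz1` with `hB1`, `hB2`, `hx2`, `h21` discharged): `(LOC-δ)` at every closed point
of chart 1 and at the closed points of chart 2 containing `x⁻¹`, plus `(RESK)`, give `(LOC-δ)`
at every closed point of chart 2. -/
theorem h29_hnz2_of_chart1 (D : h22_Lat K F k Rb)
    (hC3 : ∀ f : F0, f ≠ 0 → (ψ f ∈ D.O ↔ ∀ c, 0 ≤ w c f))
    (a : κ → ℕ) (hx00 : x0 ≠ 0) (hxO : x ∈ D.O) (hxiO : x⁻¹ ∈ D.O) (Ez : Divisor K F)
    (t0 : (h80_placeFam ψ (h80_chartSet K x⁻¹) w hw_mul hw_add hfin2).B)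
    (ht0 : (t0 : F0) = x0⁻¹)
    (hres : ∀ 𝔪 : Ideal (h80_placeFam ψ (h80_chartSet K x⁻¹) w hw_mul hw_add hfin2).B,
      𝔪.IsMaximal →
      (∀ t : (h80_placeFam ψ (h80_chartSet K x⁻¹) w hw_mul hw_add hfin2).B,
        D.redF (ψ (t : F0)) = 0 → t ∈ 𝔪) →
      t0 ∉ 𝔪 → ∀ s : (h80_placeFam ψ (h80_chartSet K x⁻¹) w hw_mul hw_add hfin2).B,
        ∃ l : (h80_placeFam ψ (h80_chartSet K x⁻¹) w hw_mul hw_add hfin2).B, s - l ∈ 𝔪 ∧
          (l ∈ 𝔪 ∨ ((l : F0) ∈ (h80_placeFam ψ (h80_chartSet K x) w hw_mul hw_add hfin1).B ∧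
            (l : F0)⁻¹ ∈ (h80_placeFam ψ (h80_chartSet K x) w hw_mul hw_add hfin1).B)))
    (hnz1 : ∀ 𝔪 : Ideal (h80_placeFam ψ (h80_chartSet K x) w hw_mul hw_add hfin1).B,
      𝔪.IsMaximal →
      (∀ t : (h80_placeFam ψ (h80_chartSet K x) w hw_mul hw_add hfin1).B,
        D.redF (ψ (t : F0)) = 0 → t ∈ 𝔪) →
      h29_LocD ψ (h80_placeFam ψ (h80_chartSet K x) w hw_mul hw_add hfin1)
        (Set.range Sum.inl) (Sum.elim a (fun _ => 1)) Ez 𝔪)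
    (hcusp : ∀ 𝔪 : Ideal (h80_placeFam ψ (h80_chartSet K x⁻¹) w hw_mul hw_add hfin2).B,
      𝔪.IsMaximal →
      (∀ t : (h80_placeFam ψ (h80_chartSet K x⁻¹) w hw_mul hw_add hfin2).B,
        D.redF (ψ (t : F0)) = 0 → t ∈ 𝔪) →
      t0 ∈ 𝔪 →
      h29_LocD ψ (h80_placeFam ψ (h80_chartSet K x⁻¹) w hw_mul hw_add hfin2)
        (Set.range Sum.inl) (Sum.elim a (fun _ => 1)) Ez 𝔪) :
    ∀ 𝔪 : Ideal (h80_placeFam ψ (h80_chartSet K x⁻¹) w hw_mul hw_add hfin2).B,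
      𝔪.IsMaximal →
      (∀ t : (h80_placeFam ψ (h80_chartSet K x⁻¹) w hw_mul hw_add hfin2).B,
        D.redF (ψ (t : F0)) = 0 → t ∈ 𝔪) →
      h29_LocD ψ (h80_placeFam ψ (h80_chartSet K x⁻¹) w hw_mul hw_add hfin2)
        (Set.range Sum.inl) (Sum.elim a (fun _ => 1)) Ez 𝔪 := by
  have hxi0 : x0⁻¹ ≠ 0 := inv_ne_zero hx00
  have hwx : ∀ c, w c x0 = 0 := fun c =>
    h29_w_unit w hw_mul c hx00 ((hC3 x0 hx00).mp (by rw [hψx]; exact hxO) c)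
      ((hC3 x0⁻¹ hxi0).mp (by rw [map_inv₀, hψx]; exact hxiO) c)
  exact h96_hnz2_of_hnz1 D ψ x0 hx00
    (h80_placeFam ψ (h80_chartSet K x) w hw_mul hw_add hfin1)
    (h80_placeFam ψ (h80_chartSet K x⁻¹) w hw_mul hw_add hfin2)
    (fun b => (h46_E_hB ψ _ w hw_mul hw_add hfin1 D hC3
      (fun P => P ∈ h80_chartSet K x) (fun _ h => h) b).1)
    (fun b => (h46_E_hB ψ _ w hw_mul hw_add hfin2 D hC3
      (fun P => P ∈ h80_chartSet K x⁻¹) (fun _ h => h) b).1)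
    (Set.range Sum.inl) (Sum.elim a (fun _ => 1)) (Set.range Sum.inl) (Sum.elim a (fun _ => 1))
    Ez (h29_chart2_le ψ w hw_mul hw_add x0 x hψx hfin2 hwx)
    (h29_chart21 ψ w hw_mul hw_add x0 x hψx hfin1 hfin2 a) t0 ht0 hres hnz1 hcusp

end Generic

section Modular

variable (M : ℕ) [NeZero M] (H : Subgroup (Qb ≃ₐ[ℚ] Qb))

/-- **The Kummer twist of a toric pair by a function of `F0`** (`h70_kummer_twist` with
`κ = 1`): from `(E4, u4)` (`[E4] = c1 • z`, `E4` `H`-invariant, `div u4 = m E4`) and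
`Γ ∈ F0`, `Γ ≠ 0`, the divisor `Ez = c2 E4 - div Γ` of degree zero with `[Ez] = (c2 * c1) • z`,
`H`-invariant, `div (u4 ^ c2 / Γ ^ m) = m Ez`. -/
theorem h29_twist_witness (m c1 c2 : ℕ) (z : JZero M)
    (E4 : Divisor.degZero (K := Qb) (F := modularFunctionFieldBar M))
    (u4 : h69_F0 M H) (hcls : Pic0.mk E4 = c1 • z)
    (hE4 : ∀ σ ∈ H, arithmeticGalois (modularFunctionFieldFull M) σ •
      (E4 : Divisor Qb (modularFunctionFieldBar M)) = E4)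
    (hu4 : u4 ≠ 0)
    (hord : ∀ v : Place Qb (modularFunctionFieldBar M),
      (m : ℤ) * (E4 : Divisor Qb (modularFunctionFieldBar M)) v =
        v.ord (u4 : modularFunctionFieldBar M))
    (Γ : h69_F0 M H) (hΓ : Γ ≠ 0) :
    ∃ Ez : Divisor.degZero (K := Qb) (F := modularFunctionFieldBar M),
      Pic0.mk Ez = (c2 * c1) • z ∧
      (∀ σ ∈ H, arithmeticGalois (modularFunctionFieldFull M) σ •
        (Ez : Divisor Qb (modularFunctionFieldBar M)) = Ez) ∧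
      u4 ^ c2 / Γ ^ m ≠ 0 ∧
      (∀ v : Place Qb (modularFunctionFieldBar M),
        (m : ℤ) * (Ez : Divisor Qb (modularFunctionFieldBar M)) v =
          v.ord ((u4 ^ c2 / Γ ^ m : h69_F0 M H) : modularFunctionFieldBar M)) ∧
      ∀ v : Place Qb (modularFunctionFieldBar M),
        (Ez : Divisor Qb (modularFunctionFieldBar M)) v =
          (c2 : ℤ) * (E4 : Divisor Qb (modularFunctionFieldBar M)) v -
            v.ord (Γ : modularFunctionFieldBar M) := by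
  have hu4F : (u4 : modularFunctionFieldBar M) ≠ 0 := fun h => hu4 (Subtype.ext h)
  have hΓF : (Γ : modularFunctionFieldBar M) ≠ 0 := fun h => hΓ (Subtype.ext h)
  have hrel : (u4 : modularFunctionFieldBar M) ^ c2 =
      algebraMap Qb (modularFunctionFieldBar M) 1 * (Γ : modularFunctionFieldBar M) ^ m *
        ((u4 ^ c2 / Γ ^ m : h69_F0 M H) : modularFunctionFieldBar M) := by
    rw [map_one, one_mul]
    push_cast
    field_simp
  obtain ⟨Ez, hcls', hinv, hu', hord', hval, -⟩ :=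
    h70_kummer_twist M H E4 hE4 (u4 : modularFunctionFieldBar M) hu4F m c2 hord 1 one_ne_zero
      (Γ : modularFunctionFieldBar M)
      ((u4 ^ c2 / Γ ^ m : h69_F0 M H) : modularFunctionFieldBar M) hΓF Γ.2 hrel
  refine ⟨Ez, ?_, hinv, ?_, hord', hval⟩
  · rw [hcls', hcls, mul_smul]
  · intro h
    apply hu'
    rw [h]
    rfl

variable {k Rb : Type*} [Field k] [CommRing Rb] [Algebra k Rb]
  (D : h22_Lat Qb (modularFunctionFieldBar M) k Rb)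
  {κ : Type*} [Finite κ] (w : κ → h69_F0 M H → ℤ)
  (hw_mul : ∀ c (f g : h69_F0 M H), f ≠ 0 → g ≠ 0 → w c (f * g) = w c f + w c g)
  (hw_add : ∀ c (f g : h69_F0 M H), f ≠ 0 → g ≠ 0 → f + g ≠ 0 →
    min (w c f) (w c g) ≤ w c (f + g))
  (a : κ → ℕ)
  (hfin1 : ∀ f : modularFunctionFieldBar M, f ≠ 0 →
    {P : Place Qb (modularFunctionFieldBar M) |
      P ∈ h80_chartSet Qb (h59_jbar M) ∧ P.ord f ≠ 0}.Finite)
  (hfin2 : ∀ f : modularFunctionFieldBar M, f ≠ 0 →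
    {P : Place Qb (modularFunctionFieldBar M) |
      P ∈ h80_chartSet Qb (h59_jbar M)⁻¹ ∧ P.ord f ≠ 0}.Finite)

local notation "ψM" => Subfield.subtype (h69_F0 M H)
local notation "VM1" =>
  h80_placeFam (Subfield.subtype (h69_F0 M H)) (h80_chartSet Qb (h59_jbar M)) w hw_mul hw_add
    hfin1
local notation "VM2" =>
  h80_placeFam (Subfield.subtype (h69_F0 M H)) (h80_chartSet Qb (h59_jbar M)⁻¹) w hw_mul hw_add
    hfin2

set_option maxHeartbeats 800000 in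
/-- **The body of `hNZ` of `h29_final_plug` from the row outputs** (pointwise in the class
`z`; `m = lam ^ n`): TOR-M `(E4, u4)` + NZ-M `(Γ, congruence, (LOC-δ)` at the fibre points of
chart 1 and at the cusp points of chart 2`)` + `(RESK)`. The class is `(c2 * c1) • z`. -/
theorem h29_hNZ_of_rows
    (hC3 : ∀ f : h69_F0 M H, f ≠ 0 →
      ((f : modularFunctionFieldBar M) ∈ D.O ↔ ∀ c, 0 ≤ w c f))
    (hx : h59_jbar M ∈ D.O) (hxi : (h59_jbar M)⁻¹ ∈ D.O)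
    (m c1 c2 : ℕ) (z : JZero M)
    -- TOR-M
    (E4 : Divisor.degZero (K := Qb) (F := modularFunctionFieldBar M))
    (u4 : h69_F0 M H) (hcls : Pic0.mk E4 = c1 • z)
    (hE4 : ∀ σ ∈ H, arithmeticGalois (modularFunctionFieldFull M) σ •
      (E4 : Divisor Qb (modularFunctionFieldBar M)) = E4)
    (hu4 : u4 ≠ 0)
    (hord : ∀ v : Place Qb (modularFunctionFieldBar M),
      (m : ℤ) * (E4 : Divisor Qb (modularFunctionFieldBar M)) v =
        v.ord (u4 : modularFunctionFieldBar M))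
    -- the two classes of closed points
    (fib1 : Ideal (VM1).B → Prop)
    (hfib1 : ∀ 𝔪 : Ideal (VM1).B, 𝔪.IsMaximal →
      (∀ t : (VM1).B, D.redF (ψM (t : h69_F0 M H)) = 0 → t ∈ 𝔪) → fib1 𝔪)
    (t0 : (VM2).B) (ht0 : (t0 : h69_F0 M H) =
      (⟨h59_jbar M, fun σ _ => h2_jbar_fix M σ⟩ : h69_F0 M H)⁻¹)
    (cusp2 : Ideal (VM2).B → Prop)
    (hcusp2 : ∀ 𝔪 : Ideal (VM2).B, 𝔪.IsMaximal →
      (∀ t : (VM2).B, D.redF (ψM (t : h69_F0 M H)) = 0 → t ∈ 𝔪) → t0 ∈ 𝔪 → cusp2 𝔪)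
    -- (RESK)
    (hres : ∀ 𝔪 : Ideal (VM2).B, 𝔪.IsMaximal →
      (∀ t : (VM2).B, D.redF (ψM (t : h69_F0 M H)) = 0 → t ∈ 𝔪) →
      t0 ∉ 𝔪 → ∀ s : (VM2).B, ∃ l : (VM2).B, s - l ∈ 𝔪 ∧
        (l ∈ 𝔪 ∨ ((l : h69_F0 M H) ∈ (VM1).B ∧ (l : h69_F0 M H)⁻¹ ∈ (VM1).B)))
    -- NZ-M (the conclusion of `h94_hnz_pts`)
    (hpts : ∃ Γ : h69_F0 M H, Γ ≠ 0 ∧
      (∀ c, u4 ^ c2 / Γ ^ m - 1 = 0 ∨ (a c : ℤ) ≤ w c (u4 ^ c2 / Γ ^ m - 1)) ∧
      ∀ Ez : Divisor Qb (modularFunctionFieldBar M),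
        (∀ Pl : Place Qb (modularFunctionFieldBar M),
          Ez Pl = ((c2 : ℕ) : ℤ) * (E4 : Divisor Qb (modularFunctionFieldBar M)) Pl -
            Pl.ord (ψM Γ)) →
        (∀ 𝔪 : Ideal (VM1).B, 𝔪.IsMaximal → fib1 𝔪 →
          h29_LocD ψM (VM1) (Set.range Sum.inl) (Sum.elim a (fun _ => 1)) Ez 𝔪) ∧
        (∀ 𝔪 : Ideal (VM2).B, 𝔪.IsMaximal → cusp2 𝔪 →
          h29_LocD ψM (VM2) (Set.range Sum.inl) (Sum.elim a (fun _ => 1)) Ez 𝔪)) :
    ∃ (Ez : Divisor.degZero (K := Qb) (F := modularFunctionFieldBar M)) (uz : h69_F0 M H),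
      Pic0.mk Ez = (c2 * c1) • z ∧
      (∀ σ ∈ H, arithmeticGalois (modularFunctionFieldFull M) σ •
        (Ez : Divisor Qb (modularFunctionFieldBar M)) = Ez) ∧
      uz ≠ 0 ∧
      (∀ v : Place Qb (modularFunctionFieldBar M),
        (m : ℤ) * (Ez : Divisor Qb (modularFunctionFieldBar M)) v =
          v.ord (uz : modularFunctionFieldBar M)) ∧
      (uz - 1 = 0 ∨ ∀ c, (a c : ℤ) ≤ w c (uz - 1)) ∧
      (∀ 𝔪 : Ideal (VM1).B, 𝔪.IsMaximal →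
        (∀ t : (VM1).B, D.redF (ψM (t : h69_F0 M H)) = 0 → t ∈ 𝔪) →
        h29_LocD ψM (VM1) (Set.range Sum.inl) (Sum.elim a (fun _ => 1))
          (Ez : Divisor Qb (modularFunctionFieldBar M)) 𝔪) ∧
      (∀ 𝔪 : Ideal (VM2).B, 𝔪.IsMaximal →
        (∀ t : (VM2).B, D.redF (ψM (t : h69_F0 M H)) = 0 → t ∈ 𝔪) →
        h29_LocD ψM (VM2) (Set.range Sum.inl) (Sum.elim a (fun _ => 1))
          (Ez : Divisor Qb (modularFunctionFieldBar M)) 𝔪) := by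
  obtain ⟨Γ, hΓ, hcong, hloc⟩ := hpts
  obtain ⟨Ez, hclsE, hinvE, huz, hdivz, hval⟩ :=
    h29_twist_witness M H m c1 c2 z E4 u4 hcls hE4 hu4 hord Γ hΓ
  obtain ⟨hl1, hl2⟩ := hloc (Ez : Divisor Qb (modularFunctionFieldBar M)) hval
  have hnz1 : ∀ 𝔪 : Ideal (VM1).B, 𝔪.IsMaximal →
      (∀ t : (VM1).B, D.redF (ψM (t : h69_F0 M H)) = 0 → t ∈ 𝔪) →
      h29_LocD ψM (VM1) (Set.range Sum.inl) (Sum.elim a (fun _ => 1))
        (Ez : Divisor Qb (modularFunctionFieldBar M)) 𝔪 :=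
    fun 𝔪 h𝔪 hker => hl1 𝔪 h𝔪 (hfib1 𝔪 h𝔪 hker)
  have hx00 : (⟨h59_jbar M, fun σ _ => h2_jbar_fix M σ⟩ : h69_F0 M H) ≠ 0 := by
    intro h
    exact (h54_isChart_jbar M).ne_zero (congrArg Subtype.val h)
  refine ⟨Ez, u4 ^ c2 / Γ ^ m, hclsE, hinvE, huz, hdivz, ?_, hnz1, ?_⟩
  · by_cases h0 : u4 ^ c2 / Γ ^ m - 1 = 0
    · exact Or.inl h0
    · exact Or.inr fun c => (hcong c).resolve_left h0
  · exact h29_hnz2_of_chart1 ψM w hw_mul hw_add
      (⟨h59_jbar M, fun σ _ => h2_jbar_fix M σ⟩ : h69_F0 M H) (h59_jbar M) rfl hfin1 hfin2 D hC3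
      a hx00 hx hxi (Ez : Divisor Qb (modularFunctionFieldBar M)) t0 ht0 hres hnz1
      (fun 𝔪 h𝔪 hker ht => hl2 𝔪 h𝔪 (hcusp2 𝔪 h𝔪 hker ht))

end Modular

section Final

variable (M : ℕ) [NeZero M] {q : ℕ} (hq : q.Prime) (A : ValuationSubring Qb)
  (hA : A.LiesOverPrime q) {k Rb : Type*} [Field k] [CommRing Rb] [Algebra k Rb]
  (D : h22_Lat Qb (modularFunctionFieldBar M) k Rb)
  {κ : Type*} [Finite κ] (w : κ → h69_F0 M (A.inertiaSubgroupIn ℚ) → ℤ)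
  (hw_mul : ∀ c (f g : h69_F0 M (A.inertiaSubgroupIn ℚ)), f ≠ 0 → g ≠ 0 →
    w c (f * g) = w c f + w c g)
  (hw_add : ∀ c (f g : h69_F0 M (A.inertiaSubgroupIn ℚ)), f ≠ 0 → g ≠ 0 → f + g ≠ 0 →
    min (w c f) (w c g) ≤ w c (f + g))
  (a : κ → ℕ)
  (hfin1 : ∀ f : modularFunctionFieldBar M, f ≠ 0 →
    {P : Place Qb (modularFunctionFieldBar M) |
      P ∈ h80_chartSet Qb (h59_jbar M) ∧ P.ord f ≠ 0}.Finite)
  (hfin2 : ∀ f : modularFunctionFieldBar M, f ≠ 0 →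
    {P : Place Qb (modularFunctionFieldBar M) |
      P ∈ h80_chartSet Qb (h59_jbar M)⁻¹ ∧ P.ord f ≠ 0}.Finite)

local notation "ψA" => Subfield.subtype (h69_F0 M (A.inertiaSubgroupIn ℚ))
local notation "VA1" =>
  h80_placeFam (Subfield.subtype (h69_F0 M (A.inertiaSubgroupIn ℚ)))
    (h80_chartSet Qb (h59_jbar M)) w hw_mul hw_add hfin1
local notation "VA2" =>
  h80_placeFam (Subfield.subtype (h69_F0 M (A.inertiaSubgroupIn ℚ)))
    (h80_chartSet Qb (h59_jbar M)⁻¹) w hw_mul hw_add hfin2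

set_option maxHeartbeats 800000 in
include hq hA in
/-- **The final plug in terms of the rows TOR-M, NZ-M, (RESK)**: `h29_final_plug` with its
binder `hNZ` produced by `h29_hNZ_of_rows`. For every `lam ^ n`-torsion, `Pnew`, `H`-fixed class
`z`: a toric pair `(E4, u4)` of `c1 • z` (TOR-M) and the conclusion of `h94_hnz_pts` for it
(NZ-M). Then `(c2 * c1) • z = 0`. -/
theorem h29_final_plug_rows [Nontrivial Rb] (hDA : D.A = A) (hON : h22_ON D)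
    (hinv : ∀ (f : modularFunctionFieldBar M) (hf : f ∈ D.O), IsUnit (D.red ⟨f, hf⟩) → f⁻¹ ∈ D.O)
    (hrank : h39_RankOne D.A)
    (hx : h59_jbar M ∈ D.O) (hxi : (h59_jbar M)⁻¹ ∈ D.O)
    (E1 E2 : Divisor Qb (modularFunctionFieldBar M))
    (hE1 : ∀ v : Place Qb (modularFunctionFieldBar M), 0 ≤ E1 v)
    (hE2 : ∀ v : Place Qb (modularFunctionFieldBar M), 0 ≤ E2 v)
    (hdisj : ∀ v : Place Qb (modularFunctionFieldBar M), E1 v = 0 ∨ E2 v = 0)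
    (hdivx : ∀ v : Place Qb (modularFunctionFieldBar M), v.ord (h59_jbar M) = E2 v - E1 v)
    (N0 : ℕ)
    (hgen : ∀ n, N0 ≤ n → ∀ a ∈ h51_Rd D ((n + 1) • E1), ∃ b ∈ h51_Rd D (n • E1),
      ∃ c ∈ h51_Rd D (n • E1), a = b + D.redF (h59_jbar M) * c)
    (hdivq : ∀ f : modularFunctionFieldBar M, f ∈ h69_F0 M (A.inertiaSubgroupIn ℚ) →
      f ∈ D.O → D.redF f = 0 → ((q : Qb)⁻¹) • f ∈ D.O)
    (ha : ∀ c, 1 ≤ a c)
    (hwq : ∀ c, w c (q : h69_F0 M (A.inertiaSubgroupIn ℚ)) = a c)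
    (hC3 : ∀ f : h69_F0 M (A.inertiaSubgroupIn ℚ), f ≠ 0 →
      ((f : modularFunctionFieldBar M) ∈ D.O ↔ ∀ c, 0 ≤ w c f))
    (lam : ℕ) (hlam : (lam : k) ≠ 0) (c1 c2 : ℕ) (Pnew : JZero M → Prop)
    -- the two classes of closed points, and (RESK)
    (fib1 : Ideal (VA1).B → Prop)
    (hfib1 : ∀ 𝔪 : Ideal (VA1).B, 𝔪.IsMaximal →
      (∀ t : (VA1).B, D.redF (ψA (t : h69_F0 M (A.inertiaSubgroupIn ℚ))) = 0 → t ∈ 𝔪) → fib1 𝔪)
    (t0 : (VA2).B) (ht0 : (t0 : h69_F0 M (A.inertiaSubgroupIn ℚ)) =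
      (⟨h59_jbar M, fun σ _ => h2_jbar_fix M σ⟩ : h69_F0 M (A.inertiaSubgroupIn ℚ))⁻¹)
    (cusp2 : Ideal (VA2).B → Prop)
    (hcusp2 : ∀ 𝔪 : Ideal (VA2).B, 𝔪.IsMaximal →
      (∀ t : (VA2).B, D.redF (ψA (t : h69_F0 M (A.inertiaSubgroupIn ℚ))) = 0 → t ∈ 𝔪) →
      t0 ∈ 𝔪 → cusp2 𝔪)
    (hres : ∀ 𝔪 : Ideal (VA2).B, 𝔪.IsMaximal →
      (∀ t : (VA2).B, D.redF (ψA (t : h69_F0 M (A.inertiaSubgroupIn ℚ))) = 0 → t ∈ 𝔪) →
      t0 ∉ 𝔪 → ∀ s : (VA2).B, ∃ l : (VA2).B, s - l ∈ 𝔪 ∧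
        (l ∈ 𝔪 ∨ ((l : h69_F0 M (A.inertiaSubgroupIn ℚ)) ∈ (VA1).B ∧
          (l : h69_F0 M (A.inertiaSubgroupIn ℚ))⁻¹ ∈ (VA1).B)))
    -- TOR-M and NZ-M
    (hrows : ∀ (n : ℕ) (z : JZero M), lam ^ n • z = 0 → Pnew z →
      (∀ s ∈ A.inertiaSubgroupIn ℚ, s • z = z) →
      ∃ (E4 : Divisor.degZero (K := Qb) (F := modularFunctionFieldBar M))
        (u4 : h69_F0 M (A.inertiaSubgroupIn ℚ)),
        Pic0.mk E4 = c1 • z ∧
        (∀ σ ∈ A.inertiaSubgroupIn ℚ, arithmeticGalois (modularFunctionFieldFull M) σ •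
          (E4 : Divisor Qb (modularFunctionFieldBar M)) = E4) ∧
        u4 ≠ 0 ∧
        (∀ v : Place Qb (modularFunctionFieldBar M),
          ((lam ^ n : ℕ) : ℤ) * (E4 : Divisor Qb (modularFunctionFieldBar M)) v =
            v.ord (u4 : modularFunctionFieldBar M)) ∧
        ∃ Γ : h69_F0 M (A.inertiaSubgroupIn ℚ), Γ ≠ 0 ∧
          (∀ c, u4 ^ c2 / Γ ^ (lam ^ n) - 1 = 0 ∨
            (a c : ℤ) ≤ w c (u4 ^ c2 / Γ ^ (lam ^ n) - 1)) ∧
          ∀ Ez : Divisor Qb (modularFunctionFieldBar M),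
            (∀ Pl : Place Qb (modularFunctionFieldBar M),
              Ez Pl = ((c2 : ℕ) : ℤ) * (E4 : Divisor Qb (modularFunctionFieldBar M)) Pl -
                Pl.ord (ψA Γ)) →
            (∀ 𝔪 : Ideal (VA1).B, 𝔪.IsMaximal → fib1 𝔪 →
              h29_LocD ψA (VA1) (Set.range Sum.inl) (Sum.elim a (fun _ => 1)) Ez 𝔪) ∧
            (∀ 𝔪 : Ideal (VA2).B, 𝔪.IsMaximal → cusp2 𝔪 →
              h29_LocD ψA (VA2) (Set.range Sum.inl) (Sum.elim a (fun _ => 1)) Ez 𝔪)) :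
    ∀ (n : ℕ) (z : JZero M), lam ^ n • z = 0 → Pnew z →
      (∀ s ∈ A.inertiaSubgroupIn ℚ, s • z = z) → (c2 * c1) • z = 0 := by
  refine h29_final_plug M hq A hA D hDA hON hinv hrank hx hxi E1 E2 hE1 hE2 hdisj hdivx N0 hgen
    hdivq w hw_mul hw_add a ha hwq hC3 hfin1 hfin2 lam hlam (c2 * c1) Pnew ?_
  intro n z hz hP hfix
  obtain ⟨E4, u4, hcls, hE4, hu4, hord, hpts⟩ := hrows n z hz hP hfix
  exact h29_hNZ_of_rows M (A.inertiaSubgroupIn ℚ) D w hw_mul hw_add a hfin1 hfin2 hC3 hx hxi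
    (lam ^ n) c1 c2 z E4 u4 hcls hE4 hu4 hord fib1 hfib1 t0 ht0 cusp2 hcusp2 hres hpts

end Final

end Fermat.Agent.S36
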