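import Mathlib
import Fermat.Agent.S36.h69_Desc
import Fermat.Agent.S33.h52_Degen

/-!
# S36, row TOR: the front end

For a class `x ∈ J₀(N q)` fixed by a subgroup `H` of `Gal(ℚ̄/ℚ)`, killed by `m` and `q`-new
(`h67_Jnew N q x`), `h29_tor_front` produces the `H`-rational data consumed by the toric core:

* an `H`-invariant divisor `E` of degree `0` with class `x` and an `H`-fixed function `u` with
  `div u = m E` (leading coefficient `1`) -- this is (K1), `h69_desc_torsion`;
* `H`-fixed functions `φa`, `φb` of level `N` (leading coefficient `1`) with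
  `α_* E = div φa`, `β_* E = div φb` (newness + (K1) for principal divisors);
* `H`-fixed constants `κa`, `κb ≠ 0` with `N_α u = κa φa ^ m`, `N_β u = κb φb ^ m`.

Generic bricks: `h29_normAlong_smul` (the norm along `ψ` commutes with intertwined semilinear
automorphisms) and `h29_fixed_gen_of_principal` (an `H`-invariant principal divisor of degree
`0` has an `H`-fixed generator with leading coefficient `1`).
-/

set_option autoImplicit false
set_option linter.unusedSectionVars false
set_option linter.style.haveILetI false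

open AlgebraicCurve ModularCurve

namespace Fermat.Agent.S36

open Fermat.Agent.GAL Fermat.Agent.S35 Fermat.Agent.S37 Fermat.Agent.S33

local notation "Qb" => AlgebraicClosure ℚ
local notation "Γℚ" => (AlgebraicClosure ℚ ≃ₐ[ℚ] AlgebraicClosure ℚ)

/-! ## Generic: the norm commutes with intertwined semilinear automorphisms -/

section Generic

variable {K F F' : Type*} [Field K] [Field F] [Field F'] [Algebra K F] [Algebra K F']

/-- The norm along `ψ : F → F'` commutes with semilinear automorphisms intertwined by `ψ`. -/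
theorem h29_normAlong_smul (ψ : F →ₐ[K] F') {g : SemilinearAut K F} {g' : SemilinearAut K F'}
    (h : SemilinearAut.IntertwinesAlong (ψ : F →+* F') g g') (y : F') :
    h67_normAlong ψ (g' • y) = g • h67_normAlong ψ y := by
  letI := algebraAlong ψ
  have he : RingHom.comp (algebraMap F F') (↑(SemilinearAut.toRingAut g) : F →+* F) =
      RingHom.comp (↑(SemilinearAut.toRingAut g') : F' →+* F') (algebraMap F F') := by
    refine RingHom.ext fun x => ?_
    exact (h x).symm
  have key := Algebra.norm_eq_of_equiv_equiv (SemilinearAut.toRingAut g)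
    (SemilinearAut.toRingAut g') he y
  show Algebra.norm F (SemilinearAut.toRingAut g' y) =
    SemilinearAut.toRingAut g (Algebra.norm F y)
  rw [key, RingEquiv.apply_symm_apply]

/-- the order of a power -/
theorem h29_place_ord_pow (v : Place K F) {f : F} (hf : f ≠ 0) (n : ℕ) :
    v.ord (f ^ n) = n * v.ord f := by
  induction n with
  | zero => rw [pow_zero, v.ord_one, Nat.cast_zero, zero_mul]
  | succ k ih =>
    rw [pow_succ, v.ord_mul (pow_ne_zero k hf) hf, ih]
    push_cast
    ring

end Generic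

/-! ## The modular statements -/

section Modular

variable (N : ℕ) [NeZero N]

omit [NeZero N] in
/-- the leading coefficient of a power -/
theorem h29_lc_pow (φ : modularFunctionFieldBar N) (m : ℕ) :
    h69_lc N (φ ^ m) = h69_lc N φ ^ m := by
  induction m with
  | zero =>
    rw [pow_zero, pow_zero]
    have h2 := h69_lc_algebraMap N 1
    rwa [map_one] at h2
  | succ k ih => rw [pow_succ, h69_lc_mul, ih, pow_succ]

/-- **(K1) for principal divisors**: an `H`-invariant principal divisor of degree `0` has an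
`H`-fixed generator with leading coefficient `1`. -/
theorem h29_fixed_gen_of_principal (H : Subgroup Γℚ)
    (D : Divisor Qb (modularFunctionFieldBar N))
    (hdeg : D ∈ Divisor.degZero (K := Qb) (F := modularFunctionFieldBar N))
    (hD : ∀ σ ∈ H, arithmeticGalois (modularFunctionFieldFull N) σ • D = D)
    (hprin : D.IsPrincipal) :
    ∃ φ : modularFunctionFieldBar N, φ ≠ 0 ∧ h69_lc N φ = 1 ∧
      (∀ v : Place Qb (modularFunctionFieldBar N), D v = v.ord φ) ∧
      ∀ σ ∈ H, arithmeticGalois (modularFunctionFieldFull N) σ • φ = φ := by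
  have h0 : (Pic0.mk ⟨D, hdeg⟩ : JZero N) = 0 := by
    refine (QuotientAddGroup.eq_zero_iff _).mpr ?_
    rw [AddSubgroup.mem_addSubgroupOf]
    exact Divisor.mem_principal.mpr hprin
  obtain ⟨φ, hφ, hlc, hord, hfix⟩ := h69_desc_torsion_gen
    (arithmeticGalois (modularFunctionFieldFull N)) (h69_lc N) (h69_lc_mul N)
    (h69_lc_algebraMap N) (h69_lc_smul N) (h69_const N) H
    (⟨D, hdeg⟩ : Divisor.degZero (K := Qb) (F := modularFunctionFieldBar N)) hD 1
    (by rw [one_smul]; exact h0)
  refine ⟨φ, hφ, hlc, fun v => ?_, hfix⟩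
  have h1 := hord v
  rw [Nat.cast_one, one_mul] at h1
  exact h1

variable (q : ℕ) [NeZero q]

/-- The data of one push-forward: an `H`-fixed generator of `ψ_* E` and the `H`-fixed constant
comparing `N_ψ u` with its `m`-th power. -/
theorem h29_tor_front_along (H : Subgroup Γℚ) (m : ℕ)
    (ψ : modularFunctionFieldBar N →ₐ[Qb] modularFunctionFieldBar (N * q))
    (hψ : ψ.toRingHom.IsIntegral) (hfin : FiniteAlong Qb ψ) (hNF : NormFormulaAlong Qb ψ hfin)
    (hint : ∀ σ : Γℚ, SemilinearAut.IntertwinesAlong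
      (ψ : modularFunctionFieldBar N →+* modularFunctionFieldBar (N * q))
      (arithmeticGalois (modularFunctionFieldFull N) σ)
      (arithmeticGalois (modularFunctionFieldFull (N * q)) σ))
    (E : Divisor.degZero (K := Qb) (F := modularFunctionFieldBar (N * q)))
    (hE : ∀ σ ∈ H, arithmeticGalois (modularFunctionFieldFull (N * q)) σ •
      (E : Divisor Qb (modularFunctionFieldBar (N * q))) = E)
    (u : modularFunctionFieldBar (N * q)) (hu : u ≠ 0)
    (hdiv : ∀ v : Place Qb (modularFunctionFieldBar (N * q)),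
      (m : ℤ) * (E : Divisor Qb (modularFunctionFieldBar (N * q))) v = v.ord u)
    (hufix : ∀ σ ∈ H, arithmeticGalois (modularFunctionFieldFull (N * q)) σ • u = u)
    (hprin : (Divisor.pushforwardAlong ψ hψ
      (E : Divisor Qb (modularFunctionFieldBar (N * q)))).IsPrincipal) :
    ∃ (φ : modularFunctionFieldBar N) (κ : Qb), φ ≠ 0 ∧ h69_lc N φ = 1 ∧
      (∀ σ ∈ H, arithmeticGalois (modularFunctionFieldFull N) σ • φ = φ) ∧
      (∀ v : Place Qb (modularFunctionFieldBar N), Divisor.pushforwardAlong ψ hψ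
        (E : Divisor Qb (modularFunctionFieldBar (N * q))) v = v.ord φ) ∧
      κ ≠ 0 ∧ (∀ σ ∈ H, σ κ = κ) ∧
      h67_normAlong ψ u = algebraMap Qb (modularFunctionFieldBar N) κ * φ ^ m := by
  -- the generator of the push-forward
  have hPfix : ∀ σ ∈ H, arithmeticGalois (modularFunctionFieldFull N) σ •
      Divisor.pushforwardAlong ψ hψ (E : Divisor Qb (modularFunctionFieldBar (N * q))) =
      Divisor.pushforwardAlong ψ hψ (E : Divisor Qb (modularFunctionFieldBar (N * q))) := by
    intro σ hσ
    rw [← h67_pushforwardAlong_smul ψ hψ (hint σ), hE σ hσ]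
  obtain ⟨φ, hφ, hlc, hord, hφfix⟩ := h29_fixed_gen_of_principal N H _
    (Divisor.pushforwardAlong_mem_degZero ψ hψ E.2) hPfix hprin
  -- the norm of `u`
  have hNu : h67_normAlong ψ u ≠ 0 := h67_normAlong_ne_zero ψ hfin hu
  have hordN : ∀ v : Place Qb (modularFunctionFieldBar N),
      v.ord (h67_normAlong ψ u) = v.ord (φ ^ m) := by
    intro v
    have h1 := h67_pushforwardAlong_principal ψ hψ hfin hNF
      (E := m • (E : Divisor Qb (modularFunctionFieldBar (N * q)))) hu (fun w => by
        rw [Finsupp.smul_apply, nsmul_eq_mul]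
        exact hdiv w) v
    rw [← h1, map_nsmul, Finsupp.smul_apply, hord v, h29_place_ord_pow v hφ, nsmul_eq_mul]
  have hφm : φ ^ m ≠ 0 := pow_ne_zero m hφ
  have hquot : h67_normAlong ψ u * (φ ^ m)⁻¹ ≠ 0 := mul_ne_zero hNu (inv_ne_zero hφm)
  obtain ⟨κ, hκ⟩ := h69_const N _ hquot (fun v => by
    rw [v.ord_mul hNu (inv_ne_zero hφm), v.ord_inv, hordN v, add_neg_cancel])
  have hNeq : h67_normAlong ψ u = algebraMap Qb (modularFunctionFieldBar N) κ * φ ^ m := by
    rw [← hκ, inv_mul_cancel_right₀ hφm]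
  have hκ0 : κ ≠ 0 := by
    rintro rfl
    rw [map_zero, zero_mul] at hNeq
    exact hNu hNeq
  have hlcN : h69_lc N (h67_normAlong ψ u) = κ := by
    rw [hNeq, h69_lc_mul, h69_lc_algebraMap]
    have h1 : h69_lc N (φ ^ m) = 1 := by rw [h29_lc_pow, hlc, one_pow]
    rw [h1, mul_one]
  refine ⟨φ, κ, hφ, hlc, hφfix, hord, hκ0, fun σ hσ => ?_, hNeq⟩
  have h1 : arithmeticGalois (modularFunctionFieldFull N) σ • h67_normAlong ψ u =
      h67_normAlong ψ u := by
    rw [← h29_normAlong_smul ψ (hint σ), hufix σ hσ]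
  have h2 := h69_lc_smul N σ (h67_normAlong ψ u)
  rw [h1, hlcN] at h2
  exact h2.symm

/-- **The front end of TOR.** -/
theorem h29_tor_front (H : Subgroup Γℚ) (m : ℕ)
    (x : JZero (N * q)) (hfix : ∀ σ ∈ H, σ • x = x) (hmx : m • x = 0)
    (hnew : h67_Jnew N q x) :
    ∃ (E : Divisor.degZero (K := Qb) (F := modularFunctionFieldBar (N * q)))
      (u : modularFunctionFieldBar (N * q)) (φa φb : modularFunctionFieldBar N) (κa κb : Qb),
      Pic0.mk E = x ∧
      (∀ σ ∈ H, arithmeticGalois (modularFunctionFieldFull (N * q)) σ •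
        (E : Divisor Qb (modularFunctionFieldBar (N * q))) = E) ∧
      u ≠ 0 ∧ h69_lc (N * q) u = 1 ∧
      (∀ v : Place Qb (modularFunctionFieldBar (N * q)),
        (m : ℤ) * (E : Divisor Qb (modularFunctionFieldBar (N * q))) v = v.ord u) ∧
      (∀ σ ∈ H, arithmeticGalois (modularFunctionFieldFull (N * q)) σ • u = u) ∧
      φa ≠ 0 ∧ φb ≠ 0 ∧ h69_lc N φa = 1 ∧ h69_lc N φb = 1 ∧
      (∀ σ ∈ H, arithmeticGalois (modularFunctionFieldFull N) σ • φa = φa) ∧
      (∀ σ ∈ H, arithmeticGalois (modularFunctionFieldFull N) σ • φb = φb) ∧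
      (∀ v : Place Qb (modularFunctionFieldBar N),
        Divisor.pushforwardAlong (heckeAlphaBar Qb N q) (h88_alphaIntegral N q)
          (E : Divisor Qb (modularFunctionFieldBar (N * q))) v = v.ord φa) ∧
      (∀ v : Place Qb (modularFunctionFieldBar N),
        Divisor.pushforwardAlong (heckeBetaBar Qb N q) (h88_betaIntegral N q)
          (E : Divisor Qb (modularFunctionFieldBar (N * q))) v = v.ord φb) ∧
      κa ≠ 0 ∧ κb ≠ 0 ∧ (∀ σ ∈ H, σ κa = κa) ∧ (∀ σ ∈ H, σ κb = κb) ∧
      h67_normAlong (heckeAlphaBar Qb N q) u =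
        algebraMap Qb (modularFunctionFieldBar N) κa * φa ^ m ∧
      h67_normAlong (heckeBetaBar Qb N q) u =
        algebraMap Qb (modularFunctionFieldBar N) κb * φb ^ m := by
  have : NeZero (N * q) := ⟨Nat.mul_ne_zero (NeZero.ne N) (NeZero.ne q)⟩
  obtain ⟨E, u, rfl, hE, hu, hlc, hdiv, hufix⟩ := h69_desc_torsion (N * q) H x hfix m hmx
  obtain ⟨ha, hb⟩ := (h52_jnew_iff N q _).mp hnew
  have hpa := (h52_pushAlpha_eq_zero_iff N q E).mp ha
  have hpb := (h52_pushBeta_eq_zero_iff N q E).mp hb
  obtain ⟨φa, κa, hφa, hlca, hφafix, horda, hκa, hκafix, hNa⟩ :=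
    h29_tor_front_along N q H m (heckeAlphaBar Qb N q) (h88_alphaIntegral N q)
      (h88_finiteAlong_alpha N q) (h52_NF_alpha N q) (h67_intertwines_alpha N q) E hE u hu hdiv
      hufix hpa
  obtain ⟨φb, κb, hφb, hlcb, hφbfix, hordb, hκb, hκbfix, hNb⟩ :=
    h29_tor_front_along N q H m (heckeBetaBar Qb N q) (h88_betaIntegral N q)
      (h88_finiteAlong_beta N q) (h52_NF_beta N q) (h67_intertwines_beta N q) E hE u hu hdiv
      hufix hpb
  exact ⟨E, u, φa, φb, κa, κb, rfl, hE, hu, hlc, hdiv, hufix, hφa, hφb, hlca, hlcb, hφafix,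
    hφbfix, horda, hordb, hκa, hκb, hκafix, hκbfix, hNa, hNb⟩

end Modular

end Fermat.Agent.S36
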