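import Mathlib

/-!
# S36 / generic "gluing with units" (helper33)

Mathlib-only commutative algebra replacing the nodal gluing lemma at non-nodal / non-reduced
points (board #3223 (b)).

* `h33_coeff_mem_of_eval_mem` : Vandermonde extraction. If `∑ i, t j ^ i • c i ∈ W` for `m + 1`
  distinct scalars `t j`, then every coefficient `c i` lies in the subspace `W`.
* `h33_mem_of_pow_mem` : `S` a subalgebra of a `k`-algebra `B`, `M` a `k`-subspace with `1 ∈ M`
  and `b ^ m ∈ S` for all `b ∈ M`, `m` invertible in the infinite field `k`; then `M ⊆ S`.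
* `h33_glue_units` : if moreover `S * M ⊆ M`, then `M = S`.
* `h33_glue_units_twist` : `V` an `S`-stable subspace containing a unit `v0` of `B`
  (`w * v0 = 1`, `w ^ m ∈ S`) with `b ^ m ∈ S` for all `b ∈ V`; then `V = v0 * S`.
* `h33_inv_mem_of_finite` : in a finite-dimensional algebra the inverse of a unit lying in a
  subalgebra lies in the subalgebra (so `w ^ m ∈ S` is automatic there).
* `h33_glue_units_twist_finite` : the twisted statement for finite-dimensional `B`.
* `h33_unipotent_mem` : characteristic `q`, `q ∤ m`, `u - 1` nilpotent, `u ^ m ∈ S`; then `u ∈ S`.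
* `h33_value_pow_eq` : two characters of `B` agreeing on `S` take values on `b` (with
  `b ^ m ∈ S`) whose `m`-th powers agree.
-/

set_option autoImplicit false

namespace Fermat.Agent.S36

open Finset

/-- Vandermonde extraction: a polynomial expression `∑ i, t ^ i • c i` of degree `≤ m` with
coefficients in a vector space, taking values in a subspace `W` at `m + 1` distinct scalars, has
all its coefficients in `W`. -/
theorem h33_coeff_mem_of_eval_mem {k V : Type*} [Field k] [AddCommGroup V] [Module k V]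
    (W : Submodule k V) (m : ℕ) (c : Fin (m + 1) → V) (t : Fin (m + 1) → k)
    (ht : Function.Injective t)
    (h : ∀ j, ∑ i : Fin (m + 1), t j ^ (i : ℕ) • c i ∈ W) (i : Fin (m + 1)) : c i ∈ W := by
  classical
  set A : Matrix (Fin (m + 1)) (Fin (m + 1)) k := Matrix.vandermonde t with hA
  have hdet : A.det ≠ 0 := Matrix.det_vandermonde_ne_zero_iff.mpr ht
  have hunit : IsUnit A.det := isUnit_iff_ne_zero.mpr hdet
  have hinv : A⁻¹ * A = 1 := Matrix.nonsing_inv_mul A hunit
  have key : c i = ∑ j, A⁻¹ i j • ∑ l : Fin (m + 1), t j ^ (l : ℕ) • c l := by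
    have h1 : ∑ j, A⁻¹ i j • ∑ l : Fin (m + 1), t j ^ (l : ℕ) • c l =
        ∑ l, (∑ j, A⁻¹ i j * A j l) • c l := by
      simp_rw [Finset.smul_sum, smul_smul]
      rw [Finset.sum_comm]
      refine Finset.sum_congr rfl fun l _ => ?_
      rw [Finset.sum_smul]
      refine Finset.sum_congr rfl fun j _ => ?_
      rw [hA, Matrix.vandermonde_apply]
    rw [h1]
    have h2 : ∀ l, (∑ j, A⁻¹ i j * A j l) = (1 : Matrix (Fin (m + 1)) (Fin (m + 1)) k) i l := by
      intro l
      rw [← hinv, Matrix.mul_apply]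
    simp_rw [h2, Matrix.one_apply]
    simp
  rw [key]
  exact Submodule.sum_mem _ fun j _ => Submodule.smul_mem _ _ (h j)

/-- Core of "gluing with units": if `1 ∈ M` and all `m`-th powers of elements of the subspace
`M` lie in the subalgebra `S`, with `m` invertible in the infinite field `k`, then `M ⊆ S`. -/
theorem h33_mem_of_pow_mem {k B : Type*} [Field k] [Infinite k] [CommRing B] [Algebra k B]
    (S : Subalgebra k B) (M : Submodule k B) (h1 : (1 : B) ∈ M) (m : ℕ) (hm : (m : k) ≠ 0)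
    (hpow : ∀ b ∈ M, b ^ m ∈ S) {b : B} (hb : b ∈ M) : b ∈ S := by
  classical
  have hm0 : m ≠ 0 := by
    rintro rfl
    exact hm Nat.cast_zero
  obtain ⟨m', rfl⟩ := Nat.exists_eq_succ_of_ne_zero hm0
  -- `m' + 2` distinct scalars
  obtain ⟨t⟩ : Nonempty (Fin (m' + 1 + 1) ↪ k) :=
    ⟨(⟨fun i : Fin (m' + 1 + 1) => (i : ℕ), Fin.val_injective⟩ : Fin (m' + 1 + 1) ↪ ℕ).trans
      (Infinite.natEmbedding k)⟩
  -- coefficients of `(t + b) ^ m` as a polynomial in `t`
  let c : Fin (m' + 1 + 1) → B := fun i => ((m' + 1).choose (i : ℕ) : k) • b ^ (m' + 1 - (i : ℕ))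
  have hval : ∀ s : k, ∑ i : Fin (m' + 1 + 1), s ^ (i : ℕ) • c i = (s • (1 : B) + b) ^ (m' + 1) := by
    intro s
    rw [add_pow, Finset.sum_range]
    refine Finset.sum_congr rfl fun i _ => ?_
    simp only [c]
    rw [smul_pow, one_pow]
    simp only [Algebra.smul_def, mul_one, map_natCast]
    ring
  have hmem : ∀ j, ∑ i : Fin (m' + 1 + 1), t j ^ (i : ℕ) • c i ∈ Subalgebra.toSubmodule S := by
    intro j
    rw [hval]
    exact hpow _ (M.add_mem (M.smul_mem _ h1) hb)
  have hc := h33_coeff_mem_of_eval_mem (Subalgebra.toSubmodule S) (m' + 1) c t t.injective hmem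
    ⟨m', by omega⟩
  -- the coefficient of `t ^ m'` is `(m' + 1) • b`
  have hcm : c ⟨m', by omega⟩ = ((m' + 1 : ℕ) : k) • b := by
    simp only [c]
    rw [Nat.choose_succ_self_right]
    have : m' + 1 - m' = 1 := by omega
    rw [this, pow_one]
  rw [hcm] at hc
  have hb' : b = (((m' + 1 : ℕ) : k))⁻¹ • (((m' + 1 : ℕ) : k) • b) := by
    rw [smul_smul, inv_mul_cancel₀ hm, one_smul]
  rw [hb']
  exact (Subalgebra.toSubmodule S).smul_mem _ hc

/-- "Gluing with units" (#3223 (b)): `S` a subalgebra of `B`, `M` an `S`-stable subspace with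
`1 ∈ M` and `b ^ m ∈ S` for all `b ∈ M`, `m` invertible in the infinite field `k`; then
`M = S`. -/
theorem h33_glue_units {k B : Type*} [Field k] [Infinite k] [CommRing B] [Algebra k B]
    (S : Subalgebra k B) (M : Submodule k B) (hSM : ∀ s ∈ S, ∀ b ∈ M, s * b ∈ M)
    (h1 : (1 : B) ∈ M) (m : ℕ) (hm : (m : k) ≠ 0) (hpow : ∀ b ∈ M, b ^ m ∈ S) (b : B) :
    b ∈ M ↔ b ∈ S := by
  refine ⟨fun hb => h33_mem_of_pow_mem S M h1 m hm hpow hb, fun hb => ?_⟩
  have := hSM b hb 1 h1
  rwa [mul_one] at this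

/-- Twisted "gluing with units": `V` an `S`-stable subspace containing an element `v0` which is
a unit of `B` (`w * v0 = 1`) with `w ^ m ∈ S`, and such that `b ^ m ∈ S` for all `b ∈ V`. Then
`V = v0 * S`. -/
theorem h33_glue_units_twist {k B : Type*} [Field k] [Infinite k] [CommRing B] [Algebra k B]
    (S : Subalgebra k B) (V : Submodule k B) (hSV : ∀ s ∈ S, ∀ b ∈ V, s * b ∈ V)
    (v0 w : B) (hv0 : v0 ∈ V) (hw : w * v0 = 1) (m : ℕ) (hm : (m : k) ≠ 0)
    (hwm : w ^ m ∈ S) (hpow : ∀ b ∈ V, b ^ m ∈ S) (b : B) :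
    b ∈ V ↔ ∃ s ∈ S, b = v0 * s := by
  -- `M := w * V`
  let M : Submodule k B := V.map (LinearMap.mulLeft k w)
  have hM : ∀ x, x ∈ M ↔ ∃ y ∈ V, w * y = x := fun x => by
    simp only [M, Submodule.mem_map, LinearMap.mulLeft_apply]
  have h1 : (1 : B) ∈ M := (hM 1).mpr ⟨v0, hv0, hw⟩
  have hpowM : ∀ x ∈ M, x ^ m ∈ S := by
    intro x hx
    obtain ⟨y, hy, rfl⟩ := (hM x).mp hx
    rw [mul_pow]
    exact S.mul_mem hwm (hpow y hy)
  have hSM : ∀ s ∈ S, ∀ x ∈ M, s * x ∈ M := by
    intro s hs x hx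
    obtain ⟨y, hy, rfl⟩ := (hM x).mp hx
    exact (hM _).mpr ⟨s * y, hSV s hs y hy, by ring⟩
  have hiff := h33_glue_units S M hSM h1 m hm hpowM
  constructor
  · intro hb
    refine ⟨w * b, (hiff _).mp ((hM _).mpr ⟨b, hb, rfl⟩), ?_⟩
    calc b = (w * v0) * b := by rw [hw, one_mul]
      _ = v0 * (w * b) := by ring
  · rintro ⟨s, hs, rfl⟩
    have := hSV s hs v0 hv0
    rwa [mul_comm] at this

/-- In a finite-dimensional commutative algebra, the inverse of a unit lying in a subalgebra
lies in the subalgebra. -/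
theorem h33_inv_mem_of_finite {k B : Type*} [Field k] [CommRing B] [Algebra k B]
    [FiniteDimensional k B] (S : Subalgebra k B) {s w : B} (hs : s ∈ S) (hw : w * s = 1) :
    w ∈ S := by
  -- multiplication by `s` on `S` is injective, hence surjective
  let f : S →ₗ[k] S := LinearMap.mulLeft k (⟨s, hs⟩ : S)
  have hinj : Function.Injective f := by
    rw [← LinearMap.ker_eq_bot, LinearMap.ker_eq_bot']
    intro x hx
    have hx' : s * (x : B) = 0 := by
      have := congrArg (Subtype.val) hx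
      simpa [f] using this
    apply Subtype.ext
    calc (x : B) = (w * s) * x := by rw [hw, one_mul]
      _ = w * (s * x) := by ring
      _ = 0 := by rw [hx', mul_zero]
  have hsurj : Function.Surjective f := LinearMap.surjective_of_injective hinj
  obtain ⟨x, hx⟩ := hsurj 1
  have hx' : s * (x : B) = 1 := by
    have := congrArg (Subtype.val) hx
    simpa [f] using this
  have : w = x := by
    calc w = w * (s * x) := by rw [hx', mul_one]
      _ = (w * s) * x := by ring
      _ = x := by rw [hw, one_mul]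
  rw [this]
  exact x.2

/-- Twisted "gluing with units" in a finite-dimensional algebra: `V` an `S`-stable subspace
containing a unit `v0` of `B`, with `b ^ m ∈ S` for all `b ∈ V`. Then `V = v0 * S`. -/
theorem h33_glue_units_twist_finite {k B : Type*} [Field k] [Infinite k] [CommRing B]
    [Algebra k B] [FiniteDimensional k B]
    (S : Subalgebra k B) (V : Submodule k B) (hSV : ∀ s ∈ S, ∀ b ∈ V, s * b ∈ V)
    (v0 : B) (hv0 : v0 ∈ V) (hunit : IsUnit v0) (m : ℕ) (hm : (m : k) ≠ 0)
    (hpow : ∀ b ∈ V, b ^ m ∈ S) (b : B) :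
    b ∈ V ↔ ∃ s ∈ S, b = v0 * s := by
  obtain ⟨w, hw⟩ := hunit.exists_left_inv
  have hwm : w ^ m ∈ S := by
    refine h33_inv_mem_of_finite S (hpow v0 hv0) ?_
    rw [← mul_pow, hw, one_pow]
  exact h33_glue_units_twist S V hSV v0 w hv0 hw m hm hwm hpow b

/-- Unipotent part: in characteristic `q`, if `u - 1` is nilpotent and `u ^ m ∈ S` with
`q ∤ m`, then `u ∈ S`. -/
theorem h33_unipotent_mem {k B : Type*} [Field k] [CommRing B] [Algebra k B]
    (q : ℕ) [hq : Fact q.Prime] [CharP k q]
    (S : Subalgebra k B) {u : B} (hu : IsNilpotent (u - 1)) (m : ℕ) (hqm : ¬ q ∣ m)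
    (hum : u ^ m ∈ S) : u ∈ S := by
  rcases subsingleton_or_nontrivial B with hB | hB
  · rw [Subsingleton.elim u 0]
    exact S.zero_mem
  have : CharP B q := charP_of_injective_algebraMap (algebraMap k B).injective q
  obtain ⟨N, hN⟩ := hu
  -- `u ^ (q ^ (N + 1)) = 1`
  have hlt : N ≤ q ^ (N + 1) := by
    have h1 : N < q ^ N := Nat.lt_pow_self hq.out.one_lt
    have h2 : q ^ N ≤ q ^ (N + 1) := Nat.pow_le_pow_right hq.out.pos (Nat.le_succ N)
    omega
  have hz : (u - 1) ^ q ^ (N + 1) = 0 := pow_eq_zero_of_le hlt hN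
  have hone : u ^ q ^ (N + 1) = 1 := by
    rw [sub_pow_char_pow, one_pow, sub_eq_zero] at hz
    exact hz
  have hcop : Nat.Coprime m (q ^ (N + 1)) :=
    Nat.Coprime.pow_right _ ((Nat.Prime.coprime_iff_not_dvd hq.out).mpr hqm).symm
  have hgt : 1 < q ^ (N + 1) := Nat.one_lt_pow (Nat.succ_ne_zero N) hq.out.one_lt
  obtain ⟨i, -, hi⟩ := Nat.exists_mul_mod_eq_one_of_coprime hcop hgt
  have hdecomp : m * i = q ^ (N + 1) * (m * i / q ^ (N + 1)) + 1 := by
    have := Nat.div_add_mod (m * i) (q ^ (N + 1))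
    rw [hi] at this
    exact this.symm
  have hu' : u = (u ^ m) ^ i := by
    rw [← pow_mul, hdecomp, pow_add, pow_mul, hone, one_pow, one_mul, pow_one]
  rw [hu']
  exact S.pow_mem hum i

/-- Constants: two characters of `B` agreeing on `S` take values on an element `b` with
`b ^ m ∈ S` whose `m`-th powers agree. -/
theorem h33_value_pow_eq {k B : Type*} [Field k] [CommRing B] [Algebra k B]
    (S : Subalgebra k B) (e1 e2 : B →ₐ[k] k) (hS : ∀ s ∈ S, e1 s = e2 s) (m : ℕ) {b : B}
    (hb : b ^ m ∈ S) : e1 b ^ m = e2 b ^ m := by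
  rw [← map_pow, ← map_pow]
  exact hS _ hb

end Fermat.Agent.S36
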