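import Fermat.Agent.S34.h50_EShortH22
import Fermat.Agent.S34.h51_Glue

/-!
# S36 / (L1-d): local denominators + strictness + dimension ⟹ `htg` ⟹ principal (helper33)

Generic layer on top of the frozen S34 lattice layer (`h22_Lat`, `h51_Rd`, `h50_eshort_h22`);
no modular input.

For a lattice datum `D : h22_Lat K F k Rb` and a chart function `y` (`y = x` or `y = x⁻¹`):

* `h33_G D y : Subring F` - integral functions regular where `y` is regular (the chart ring);
* `h33_Gb D y : Subalgebra k Rb` - its reduction (the affine ring of the chart `{y finite}` of the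
  special fibre);
* `h33_LocMem S a` - "`a` is locally in `S`": for every maximal ideal `I` of the subalgebra `S`
  there is a denominator `s ∉ I` with `s * a ∈ S`.

Main results:

* `h33_mem_of_locMem` (LG-1) : `h33_LocMem S a → a ∈ S` (the denominator ideal is the unit ideal).
* `h33_locMem_zero/add/smul/sum/of_mem`, `h33_locMem_redF_sum` : linearity (sections defined over
  a smaller field of constants suffice).
* `h33_locMem_of_subring` (LG-4) : the local hypothesis checked at the maximal ideals of a subring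
  `G0` of the chart ring with the same reduction (e.g. the `K0`-rational chart ring).
* `h33_Rd_le_of_local` : `red (L(n D0 - E) ∩ O) ⊆ red (L(n D0) ∩ O)` from local membership on the
  two charts and strictness.
* `h33_htg_of_local` (LG-2) : the hypothesis `htg` of `h50_eshort_h22`, by inclusion + dimension.
* `h33_principal_of_local` (LG-3) : hence `E` is principal.
-/

set_option autoImplicit false

noncomputable section

open AlgebraicCurve Module

namespace Fermat.Agent.S36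

open Fermat.Agent.S34

variable {K F k Rb : Type*} [Field K] [Field F] [Algebra K F] [Field k] [CommRing Rb]
  [Algebra k Rb]

/-! ### Chart rings -/

theorem h33_ord_nonneg_iff (v : Place K F) (g : F) :
    0 ≤ v.ord g ↔ v.adicValuation g ≤ 1 := by
  rw [v.adicValuation_le_one_iff]
  constructor
  · exact fun h => Or.inr h
  · rintro (rfl | h)
    · rw [v.ord_zero]
    · exact h

/-- The chart ring: integral functions which are regular wherever `y` is regular. -/
def h33_G (D : h22_Lat K F k Rb) (y : F) : Subring F where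
  carrier := {g | g ∈ D.O ∧ ∀ v : Place K F, 0 ≤ v.ord y → 0 ≤ v.ord g}
  mul_mem' := by
    rintro a b ⟨ha, ha'⟩ ⟨hb, hb'⟩
    refine ⟨D.O.mul_mem ha hb, fun v hv => ?_⟩
    have h1 := (h33_ord_nonneg_iff v a).mp (ha' v hv)
    have h2 := (h33_ord_nonneg_iff v b).mp (hb' v hv)
    rw [h33_ord_nonneg_iff, map_mul]
    exact mul_le_one' h1 h2
  one_mem' := ⟨D.O.one_mem, fun v _ => by rw [v.ord_one]⟩
  add_mem' := by
    rintro a b ⟨ha, ha'⟩ ⟨hb, hb'⟩
    refine ⟨D.O.add_mem ha hb, fun v hv => ?_⟩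
    have h1 := (h33_ord_nonneg_iff v a).mp (ha' v hv)
    have h2 := (h33_ord_nonneg_iff v b).mp (hb' v hv)
    rw [h33_ord_nonneg_iff]
    exact (Valuation.map_add _ _ _).trans (max_le h1 h2)
  zero_mem' := ⟨D.O.zero_mem, fun v _ => by rw [v.ord_zero]⟩
  neg_mem' := by
    rintro a ⟨ha, ha'⟩
    refine ⟨D.O.neg_mem ha, fun v hv => ?_⟩
    have h1 := (h33_ord_nonneg_iff v a).mp (ha' v hv)
    rw [h33_ord_nonneg_iff, Valuation.map_neg]
    exact h1

theorem h33_mem_G_iff (D : h22_Lat K F k Rb) (y g : F) :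
    g ∈ h33_G D y ↔ g ∈ D.O ∧ ∀ v : Place K F, 0 ≤ v.ord y → 0 ≤ v.ord g :=
  Iff.rfl

theorem h33_algebraMap_mem_G (D : h22_Lat K F k Rb) (y : F) {a : K} (ha : a ∈ D.A) :
    algebraMap K F a ∈ h33_G D y :=
  ⟨(D.mem_iff a).mp ha, fun v _ =>
    (h33_ord_nonneg_iff v _).mpr (v.adicValuation_algebraMap_le_one a)⟩

/-- The reduction of the chart ring: the affine ring of the chart `{y finite}` of the special
fibre, a `k`-subalgebra of `Rb`. -/
def h33_Gb (D : h22_Lat K F k Rb) (y : F) : Subalgebra k Rb where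
  carrier := {a | ∃ g : F, g ∈ h33_G D y ∧ D.redF g = a}
  mul_mem' := by
    rintro _ _ ⟨g, hg, rfl⟩ ⟨g', hg', rfl⟩
    exact ⟨g * g', (h33_G D y).mul_mem hg hg', h51_redF_mul D hg.1 hg'.1⟩
  add_mem' := by
    rintro _ _ ⟨g, hg, rfl⟩ ⟨g', hg', rfl⟩
    exact ⟨g + g', (h33_G D y).add_mem hg hg', h51_redF_add D hg.1 hg'.1⟩
  algebraMap_mem' := by
    intro c
    obtain ⟨a, rfl⟩ := D.res_surjective c
    refine ⟨algebraMap K F (a : K), h33_algebraMap_mem_G D y a.2, ?_⟩
    rw [D.redF_of_mem ((D.mem_iff _).mp a.2), D.red_algebraMap (a : K) a.2]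

theorem h33_mem_Gb_iff (D : h22_Lat K F k Rb) (y : F) (a : Rb) :
    a ∈ h33_Gb D y ↔ ∃ g : F, g ∈ h33_G D y ∧ D.redF g = a :=
  Iff.rfl

theorem h33_redF_mem_Gb (D : h22_Lat K F k Rb) (y : F) {g : F} (hg : g ∈ h33_G D y) :
    D.redF g ∈ h33_Gb D y :=
  ⟨g, hg, rfl⟩

/-! ### Local membership and the denominator ideal -/

/-- `a` is locally in the subalgebra `S`: at every maximal ideal `I` of `S` there is a
denominator `s ∉ I` with `s * a ∈ S`. -/
def h33_LocMem (S : Subalgebra k Rb) (a : Rb) : Prop :=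
  ∀ I : Ideal S, I.IsMaximal → ∃ s : S, s ∉ I ∧ (s : Rb) * a ∈ S

/-- (LG-1): an element which is locally in `S` at every maximal ideal of `S` is in `S`. -/
theorem h33_mem_of_locMem (S : Subalgebra k Rb) {a : Rb} (h : h33_LocMem S a) : a ∈ S := by
  -- the denominator ideal
  let J : Ideal S :=
    { carrier := {s | (s : Rb) * a ∈ S}
      add_mem' := by
        intro s t hs ht
        show ((s + t : S) : Rb) * a ∈ S
        rw [Subalgebra.coe_add, add_mul]
        exact S.add_mem hs ht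
      zero_mem' := by
        show ((0 : S) : Rb) * a ∈ S
        rw [Subalgebra.coe_zero, zero_mul]
        exact S.zero_mem
      smul_mem' := by
        intro c s hs
        show ((c • s : S) : Rb) * a ∈ S
        rw [smul_eq_mul, Subalgebra.coe_mul, mul_assoc]
        exact S.mul_mem c.2 hs }
  have hJ : J = ⊤ := by
    by_contra hne
    obtain ⟨I, hI, hJI⟩ := Ideal.exists_le_maximal J hne
    obtain ⟨s, hsI, hs⟩ := h I hI
    exact hsI (hJI hs)
  have h1 : (1 : S) ∈ J := by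
    rw [hJ]
    trivial
  have h2 : ((1 : S) : Rb) * a ∈ S := h1
  rwa [Subalgebra.coe_one, one_mul] at h2

theorem h33_locMem_of_mem (S : Subalgebra k Rb) {a : Rb} (h : a ∈ S) : h33_LocMem S a := by
  intro I hI
  refine ⟨1, fun h1 => hI.ne_top ((Ideal.eq_top_iff_one I).mpr h1), ?_⟩
  rw [Subalgebra.coe_one, one_mul]
  exact h

theorem h33_locMem_zero (S : Subalgebra k Rb) : h33_LocMem S (0 : Rb) :=
  h33_locMem_of_mem S S.zero_mem

theorem h33_locMem_add (S : Subalgebra k Rb) {a b : Rb} (ha : h33_LocMem S a)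
    (hb : h33_LocMem S b) : h33_LocMem S (a + b) := by
  intro I hI
  obtain ⟨s, hsI, hs⟩ := ha I hI
  obtain ⟨t, htI, ht⟩ := hb I hI
  refine ⟨s * t, fun hst => ?_, ?_⟩
  · rcases hI.isPrime.mem_or_mem hst with h | h
    · exact hsI h
    · exact htI h
  · have e : ((s * t : S) : Rb) * (a + b) = (t : Rb) * ((s : Rb) * a) + (s : Rb) * ((t : Rb) * b) := by
      rw [Subalgebra.coe_mul]
      ring
    rw [e]
    exact S.add_mem (S.mul_mem t.2 hs) (S.mul_mem s.2 ht)

theorem h33_locMem_smul (S : Subalgebra k Rb) (c : k) {a : Rb} (ha : h33_LocMem S a) :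
    h33_LocMem S (c • a) := by
  intro I hI
  obtain ⟨s, hsI, hs⟩ := ha I hI
  refine ⟨s, hsI, ?_⟩
  rw [mul_smul_comm]
  exact S.smul_mem hs c

theorem h33_locMem_mul_left (S : Subalgebra k Rb) {b a : Rb} (hb : b ∈ S)
    (ha : h33_LocMem S a) : h33_LocMem S (b * a) := by
  intro I hI
  obtain ⟨s, hsI, hs⟩ := ha I hI
  refine ⟨s, hsI, ?_⟩
  have e : (s : Rb) * (b * a) = b * ((s : Rb) * a) := by ring
  rw [e]
  exact S.mul_mem hb hs

theorem h33_locMem_sum (S : Subalgebra k Rb) {ι : Type*} (s : Finset ι) (a : ι → Rb)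
    (h : ∀ i ∈ s, h33_LocMem S (a i)) : h33_LocMem S (∑ i ∈ s, a i) := by
  classical
  induction s using Finset.induction_on with
  | empty =>
    rw [Finset.sum_empty]
    exact h33_locMem_zero S
  | insert i s hi ih =>
    rw [Finset.sum_insert hi]
    exact h33_locMem_add S (h i (Finset.mem_insert_self i s))
      (ih fun j hj => h j (Finset.mem_insert_of_mem hj))

/-- Linearity over the valuation ring of constants: if the reductions of the `g i` are locally
in `S`, so is the reduction of every integral combination. -/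
theorem h33_locMem_redF_sum (D : h22_Lat K F k Rb) (S : Subalgebra k Rb) {ι : Type*}
    (s : Finset ι) (c : ι → K) (g : ι → F) (hc : ∀ i, c i ∈ D.A) (hg : ∀ i, g i ∈ D.O)
    (h : ∀ i ∈ s, h33_LocMem S (D.redF (g i))) :
    h33_LocMem S (D.redF (∑ i ∈ s, c i • g i)) := by
  rw [h22_redF_sum_smul D s c g hc hg]
  exact h33_locMem_sum S s _ fun i hi => h33_locMem_smul S _ (h i hi)

/-- (LG-4): the local hypothesis may be checked at the maximal ideals of a subring `G0` of the
chart ring with the same reduction (for instance the chart ring over a smaller field of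
constants). The maximal ideals met contain the kernel of the reduction. -/
theorem h33_locMem_of_subring (D : h22_Lat K F k Rb) (y : F) (G0 : Subring F)
    (hG0 : ∀ g ∈ G0, g ∈ h33_G D y)
    (hsurj : ∀ a ∈ h33_Gb D y, ∃ g ∈ G0, D.redF g = a) (a : Rb)
    (h : ∀ m : Ideal G0, m.IsMaximal → (∀ g : G0, D.redF (g : F) = 0 → g ∈ m) →
      ∃ t : G0, t ∉ m ∧ ∃ c : G0, D.redF (t : F) * a = D.redF (c : F)) :
    h33_LocMem (h33_Gb D y) a := by
  -- the reduction as a ring homomorphism `G0 → Gb`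
  let φ : G0 →+* h33_Gb D y :=
    { toFun := fun g => ⟨D.redF (g : F), h33_redF_mem_Gb D y (hG0 g g.2)⟩
      map_one' := Subtype.ext (h51_redF_one D)
      map_mul' := fun g g' => Subtype.ext
        (h51_redF_mul D (hG0 g g.2).1 (hG0 g' g'.2).1)
      map_zero' := Subtype.ext (by
        show D.redF ((0 : G0) : F) = 0
        rw [Subring.coe_zero, D.redF_of_mem D.O.zero_mem]
        exact map_zero D.red)
      map_add' := fun g g' => Subtype.ext
        (h51_redF_add D (hG0 g g.2).1 (hG0 g' g'.2).1) }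
  have hφ : Function.Surjective φ := by
    rintro ⟨b, hb⟩
    obtain ⟨g, hg, hgb⟩ := hsurj b hb
    exact ⟨⟨g, hg⟩, Subtype.ext hgb⟩
  intro I hI
  have hm : (I.comap φ).IsMaximal := Ideal.comap_isMaximal_of_surjective φ hφ
  obtain ⟨t, htm, c, hc⟩ := h (I.comap φ) hm (fun g hg => by
    rw [Ideal.mem_comap]
    have : φ g = 0 := Subtype.ext hg
    rw [this]
    exact I.zero_mem)
  refine ⟨φ t, fun ht => htm (Ideal.mem_comap.mpr ht), ?_⟩
  show D.redF (t : F) * a ∈ h33_Gb D y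
  rw [hc]
  exact h33_redF_mem_Gb D y (hG0 c c.2)

/-! ### Finite-dimensionality of `red (L(E') ∩ O)` -/

theorem h33_Rd_finite (D : h22_Lat K F k Rb) (hON : h22_ON D) (E' : Divisor K F)
    [Module.Finite K (riemannRochSpace E')] : Module.Finite k (h51_Rd D E') := by
  classical
  obtain ⟨e, heV, heO, hind⟩ := hON (riemannRochSpace E') inferInstance
  have hle : h51_Rd D E' ≤ Submodule.span k (Set.range fun i => D.redF (e i)) := by
    rintro a ⟨f, hf, hfO, rfl⟩
    obtain ⟨c, hc, hcA⟩ := h22_on_span D (riemannRochSpace E') e heV heO hind f hf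
    rw [hc, h22_redF_sum_smul D Finset.univ c e (hcA hfO) heO]
    exact Submodule.sum_mem _ fun i _ =>
      Submodule.smul_mem _ _ (Submodule.subset_span ⟨i, rfl⟩)
  have : Module.Finite k (Submodule.span k (Set.range fun i => D.redF (e i))) :=
    FiniteDimensional.span_of_finite k (Set.finite_range _)
  exact Submodule.finiteDimensional_of_le hle

/-! ### Inclusion, `htg`, and principality -/

/-- Inclusion step: local membership on the two charts and strictness give
`red (L(n D0 - E) ∩ O) ⊆ red (L(n D0) ∩ O)`. -/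
theorem h33_Rd_le_of_local (D : h22_Lat K F k Rb)
    (x : F) (hx0 : x ≠ 0) (hxO : x ∈ D.O) (hxiO : x⁻¹ ∈ D.O)
    (D0 : Divisor K F) (n : ℕ)
    (hstrict : ∀ a b : F, a ∈ D.O → b ∈ D.O →
        (∀ v : Place K F, 0 ≤ v.ord x → 0 ≤ v.ord a) →
        (∀ v : Place K F, v.ord x ≤ 0 → 0 ≤ v.ord b) →
        D.redF a = D.redF x ^ n * D.redF b →
        ∃ f : F, f ∈ riemannRochSpace (n • D0) ∧ f ∈ D.O ∧ D.redF f = D.redF a)
    (E : Divisor K F)
    (hloc1 : ∀ f : F, f ∈ riemannRochSpace (n • D0 - E) → f ∈ D.O →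
        h33_LocMem (h33_Gb D x) (D.redF f))
    (hloc2 : ∀ f : F, f ∈ riemannRochSpace (n • D0 - E) → f ∈ D.O →
        h33_LocMem (h33_Gb D x⁻¹) (D.redF x⁻¹ ^ n * D.redF f)) :
    h51_Rd D (n • D0 - E) ≤ h51_Rd D (n • D0) := by
  rintro _ ⟨f, hfL, hfO, rfl⟩
  obtain ⟨a', ha', hared⟩ := h33_mem_of_locMem _ (hloc1 f hfL hfO)
  obtain ⟨b', hb', hbred⟩ := h33_mem_of_locMem _ (hloc2 f hfL hfO)
  have hxx : D.redF x * D.redF x⁻¹ = 1 := by
    rw [← h51_redF_mul D hxO hxiO, mul_inv_cancel₀ hx0, h51_redF_one]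
  have hab : D.redF a' = D.redF x ^ n * D.redF b' := by
    rw [hared, hbred, ← mul_assoc, ← mul_pow, hxx, one_pow, one_mul]
  obtain ⟨f', hf'L, hf'O, hf'red⟩ := hstrict a' b' ha'.1 hb'.1 ha'.2
    (fun v hv => hb'.2 v (by rw [v.ord_inv]; omega)) hab
  exact ⟨f', hf'L, hf'O, by rw [hf'red, hared]⟩

/-- (LG-2): **`htg` by inclusion + dimension.** Local membership on the two charts, strictness
and `dim L(n D0 - E) = dim L(n D0)` give the hypothesis `htg` of `h50_eshort_h22`. -/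
theorem h33_htg_of_local (D : h22_Lat K F k Rb) (hON : h22_ON D)
    (hfin : ∀ E' : Divisor K F, Module.Finite K (riemannRochSpace E'))
    (x : F) (hx0 : x ≠ 0) (hxO : x ∈ D.O) (hxiO : x⁻¹ ∈ D.O)
    (D0 : Divisor K F)
    (n2 : ℕ) (hstrict : ∀ n, n2 ≤ n → ∀ a b : F, a ∈ D.O → b ∈ D.O →
        (∀ v : Place K F, 0 ≤ v.ord x → 0 ≤ v.ord a) →
        (∀ v : Place K F, v.ord x ≤ 0 → 0 ≤ v.ord b) →
        D.redF a = D.redF x ^ n * D.redF b →
        ∃ f : F, f ∈ riemannRochSpace (n • D0) ∧ f ∈ D.O ∧ D.redF f = D.redF a)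
    (E : Divisor K F)
    (n0 : ℕ) (hRR : ∀ n, n0 ≤ n → Module.finrank K (riemannRochSpace (n • D0 - E)) =
        Module.finrank K (riemannRochSpace (n • D0)))
    (n1 : ℕ)
    (hloc1 : ∀ n, n1 ≤ n → ∀ f : F, f ∈ riemannRochSpace (n • D0 - E) → f ∈ D.O →
        h33_LocMem (h33_Gb D x) (D.redF f))
    (hloc2 : ∀ n, n1 ≤ n → ∀ f : F, f ∈ riemannRochSpace (n • D0 - E) → f ∈ D.O →
        h33_LocMem (h33_Gb D x⁻¹) (D.redF x⁻¹ ^ n * D.redF f)) :
    ∀ n, max n0 (max n1 n2) ≤ n → ∀ s0 : F, s0 ∈ riemannRochSpace (n • D0) → s0 ∈ D.O →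
        ∃ g0 : F, g0 ∈ riemannRochSpace (n • D0 - E) ∧ g0 ∈ D.O ∧ D.redF g0 = D.redF s0 := by
  intro n hn s0 hs0L hs0O
  have hn0 : n0 ≤ n := le_trans (le_max_left _ _) hn
  have hn1 : n1 ≤ n := le_trans (le_trans (le_max_left _ _) (le_max_right _ _)) hn
  have hn2 : n2 ≤ n := le_trans (le_trans (le_max_right _ _) (le_max_right _ _)) hn
  have := hfin (n • D0 - E)
  have := hfin (n • D0)
  have := h33_Rd_finite D hON (n • D0)
  have hle : h51_Rd D (n • D0 - E) ≤ h51_Rd D (n • D0) :=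
    h33_Rd_le_of_local D x hx0 hxO hxiO D0 n (hstrict n hn2) E (hloc1 n hn1) (hloc2 n hn1)
  have hfr : Module.finrank k (h51_Rd D (n • D0 - E)) = Module.finrank k (h51_Rd D (n • D0)) := by
    rw [h51_finrank_Rd D hON, h51_finrank_Rd D hON, hRR n hn0]
  have heq : h51_Rd D (n • D0 - E) = h51_Rd D (n • D0) :=
    Submodule.eq_of_le_of_finrank_eq hle hfr
  have hmem : D.redF s0 ∈ h51_Rd D (n • D0 - E) := by
    rw [heq]
    exact ⟨s0, hs0L, hs0O, rfl⟩
  obtain ⟨g0, hg0L, hg0O, hg0⟩ := hmem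
  exact ⟨g0, hg0L, hg0O, hg0⟩

/-- (LG-3): **local generators with trivial constants ⟹ trivial class.** The hypotheses of
`h50_eshort_h22` with `htg` replaced by local membership on the two charts (at every maximal ideal
of the two chart rings of the special fibre) and the Riemann–Roch equality
`dim L(n D0 - E) = dim L(n D0)`. -/
theorem h33_principal_of_local [IsAlgClosed K] [HasPrincipalDivisors K F] [Nontrivial Rb]
    (D : h22_Lat K F k Rb) (hON : h22_ON D)
    (hinv : ∀ (f : F) (hf : f ∈ D.O), IsUnit (D.red ⟨f, hf⟩) → f⁻¹ ∈ D.O)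
    (hrank : ∀ a d : K, a ≠ 0 → a ∈ D.A.nonunits → d ≠ 0 → ∃ n : ℕ, d * (a ^ n)⁻¹ ∉ D.A)
    (hfin : ∀ E' : Divisor K F, Module.Finite K (riemannRochSpace E'))
    (x : F) (hx0 : x ≠ 0) (hxO : x ∈ D.O) (hxiO : x⁻¹ ∈ D.O)
    (hval : ∀ v : Place K F, 0 ≤ v.ord x → ∃ c : K, 0 < v.ord (x - algebraMap K F c))
    (D0 : Divisor K F) (hD0 : ∀ v : Place K F, D0 v = max 0 (-v.ord x))
    (hEV : ∀ y : F, (y = x ∨ y = x⁻¹) → ∀ f : F, f ∈ D.O →
        (∀ v : Place K F, 0 ≤ v.ord y → 0 ≤ v.ord f) →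
        ∀ (v : Place K F) (c : K), c ∈ D.A → 0 < v.ord (y - algebraMap K F c) →
        ∃ d : K, d ∈ D.A ∧ (f = algebraMap K F d ∨ 0 < v.ord (f - algebraMap K F d)))
    (n2 : ℕ) (hstrict : ∀ n, n2 ≤ n → ∀ a b : F, a ∈ D.O → b ∈ D.O →
        (∀ v : Place K F, 0 ≤ v.ord x → 0 ≤ v.ord a) →
        (∀ v : Place K F, v.ord x ≤ 0 → 0 ≤ v.ord b) →
        D.redF a = D.redF x ^ n * D.redF b →
        ∃ f : F, f ∈ riemannRochSpace (n • D0) ∧ f ∈ D.O ∧ D.redF f = D.redF a)
    {m : ℕ} (hm : IsUnit ((m : ℕ) : Rb))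
    (E : Divisor K F) (u : F) (hdiv : ∀ v : Place K F, (m : ℤ) * E v = v.ord u)
    (huO : u ∈ D.O) (hured : D.red ⟨u, huO⟩ = 1)
    (n0 : ℕ) (hRR : ∀ n, n0 ≤ n → Module.finrank K (riemannRochSpace (n • D0 - E)) =
        Module.finrank K (riemannRochSpace (n • D0)))
    (n1 : ℕ)
    (hloc1 : ∀ n, n1 ≤ n → ∀ f : F, f ∈ riemannRochSpace (n • D0 - E) → f ∈ D.O →
        h33_LocMem (h33_Gb D x) (D.redF f))
    (hloc2 : ∀ n, n1 ≤ n → ∀ f : F, f ∈ riemannRochSpace (n • D0 - E) → f ∈ D.O →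
        h33_LocMem (h33_Gb D x⁻¹) (D.redF x⁻¹ ^ n * D.redF f)) :
    ∃ g : F, g ≠ 0 ∧ ∀ v : Place K F, E v = v.ord g :=
  h50_eshort_h22 D hON hinv hrank hfin x hx0 hxO hxiO hval D0 hD0 hEV n2 hstrict hm E u hdiv
    huO hured (max n0 (max n1 n2))
    (h33_htg_of_local D hON hfin x hx0 hxO hxiO D0 n2 hstrict E n0 hRR n1 hloc1 hloc2)

end Fermat.Agent.S36
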