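import Fermat.Agent.S34.h50_LastGen

/-!
# S36 / (L1-d') (helper46): reductions of "rational" elements span `red (V ∩ O)`

Generic layer (no modular input) on top of the frozen generic S34 lattice layer (`h22_Lat`,
`h22_ON`).

Setting: a lattice datum `D : h22_Lat K F k Rb` with orthonormal bases (`h22_ON D`) and rank one
valuation ring, a uniformiser-like constant `q` (`q ∈ A`, `q⁻¹ ∉ A`), a finite-dimensional
`K`-subspace `V` of `F` and a set `S0 ⊆ V` of "rational" elements (in the application: the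
elements of `V = L(E)` fixed by the inertia group, `E` an invariant divisor) such that

* `V ≤ span_K S0` (vector-space descent);
* `S0` is stable under `f - c • g` for `c` in a set `C0` of constants whose integral members
  surject onto the residue field, and under multiplication by `q`;
* an element of `S0 ∩ O` with zero reduction is divisible by `q` in `S0 ∩ O`
  (`ker red ∩ F₀ = q O₀`).

Then the reduction of every element of `V ∩ O` is a `k`-linear combination of reductions of
elements of `S0 ∩ O` (`h46_span_of_form`).  In particular (`h46_span_Rd_of_form`)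
`red (L(E) ∩ O) ≤ span_k red (S0 ∩ O)`: this is the hypothesis `hspan` of `h46_Rd_le_of_local`.
-/

set_option autoImplicit false

namespace Fermat.Agent.S36

open AlgebraicCurve Fermat.Agent.S18 Fermat.Agent.S34

variable {K F k Rb : Type*} [Field K] [Field F] [Algebra K F] [Field k] [CommRing Rb]
  [Algebra k Rb]

/-- Scalar multiplication by an integral constant preserves `O`. -/
theorem h46_smul_mem_O (D : h22_Lat K F k Rb) {a : K} (ha : a ∈ D.A) {f : F} (hf : f ∈ D.O) :
    a • f ∈ D.O := by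
  rw [Algebra.smul_def]
  exact D.O.mul_mem ((D.mem_iff a).mp ha) hf

/-- **Reductions of rational elements span.** -/
theorem h46_span_of_form (D : h22_Lat K F k Rb) (hON : h22_ON D) (hrank : h39_RankOne D.A)
    (q : K) (hqA : q ∈ D.A) (hqi : q⁻¹ ∉ D.A)
    (V : Submodule K F) [Module.Finite K V]
    (S0 : Set F) (hS0V : ∀ f ∈ S0, f ∈ V) (hK3 : ∀ f ∈ V, f ∈ Submodule.span K S0)
    (C0 : Set K) (hC0 : ∀ c : k, ∃ c' ∈ C0, c' ∈ D.A ∧ D.resK c' = c)
    (hsub : ∀ f ∈ S0, ∀ g ∈ S0, ∀ c ∈ C0, f - c • g ∈ S0)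
    (hqS : ∀ f ∈ S0, q • f ∈ S0)
    (hdiv : ∀ f ∈ S0, f ∈ D.O → D.redF f = 0 → q⁻¹ • f ∈ S0 ∧ q⁻¹ • f ∈ D.O) :
    ∀ f ∈ V, f ∈ D.O →
      D.redF f ∈ Submodule.span k (D.redF '' {g | g ∈ S0 ∧ g ∈ D.O}) := by
  classical
  have hq0 : q ≠ 0 := by
    rintro rfl
    apply hqi
    rw [inv_zero]
    exact D.A.zero_mem
  -- the span of the reductions is finite-dimensional
  obtain ⟨e, heV, heO, hind⟩ := hON V inferInstance
  have hW0le : Submodule.span k (D.redF '' {g | g ∈ S0 ∧ g ∈ D.O}) ≤
      Submodule.span k (Set.range fun i => D.redF (e i)) := by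
    rw [Submodule.span_le]
    rintro _ ⟨g, ⟨hgS, hgO⟩, rfl⟩
    obtain ⟨c, hc, hcA⟩ := h22_on_span D V e heV heO hind g (hS0V g hgS)
    rw [hc, h22_redF_sum_smul D Finset.univ c e (hcA hgO) heO]
    exact Submodule.sum_mem _ fun i _ =>
      Submodule.smul_mem _ _ (Submodule.subset_span ⟨i, rfl⟩)
  have hfin1 : FiniteDimensional k (Submodule.span k (Set.range fun i => D.redF (e i))) :=
    FiniteDimensional.span_of_finite k (Set.finite_range _)
  have hfin0 : FiniteDimensional k (Submodule.span k (D.redF '' {g | g ∈ S0 ∧ g ∈ D.O})) :=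
    Submodule.finiteDimensional_of_le hW0le
  -- a basis of the span made of reductions of elements of `S0 ∩ O`
  obtain ⟨ψ, hψS, hψspan, hψind⟩ :=
    Submodule.exists_fun_fin_finrank_span_eq k (D.redF '' {g | g ∈ S0 ∧ g ∈ D.O})
  choose φ hφ using fun i => hψS i
  have hφS : ∀ i, φ i ∈ S0 := fun i => (hφ i).1.1
  have hφO : ∀ i, φ i ∈ D.O := fun i => (hφ i).1.2
  have hφred : ∀ i, D.redF (φ i) = ψ i := fun i => (hφ i).2
  have hind' : LinearIndependent k (fun i => D.redF (φ i)) := by
    have e1 : (fun i => D.redF (φ i)) = ψ := funext hφred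
    rw [e1]
    exact hψind
  -- key claim: the `φ i` span `V` over `K`
  have hVU : V ≤ Submodule.span K (Set.range φ) := by
    by_contra hnot
    -- some element of `S0` is outside the span
    have hex : ∃ h ∈ S0, h ∉ Submodule.span K (Set.range φ) := by
      by_contra hall
      exact hnot fun f hf => Submodule.span_le.2
        (fun g hg => by_contra fun hg' => hall ⟨g, hg, hg'⟩) (hK3 f hf)
    obtain ⟨h0, hh0S, hh0U⟩ := hex
    -- scale it into `O`
    have hscale : ∃ h ∈ S0, h ∈ D.O ∧ h ∉ Submodule.span K (Set.range φ) := by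
      have hh00 : h0 ≠ 0 := by
        rintro rfl
        exact hh0U (Submodule.zero_mem _)
      obtain ⟨c, hc0, hcO, -⟩ := D.exists_scale h0 hh00
      obtain ⟨n, hn⟩ := hrank q hqA hqi c hc0
      have hpow : ∀ n : ℕ, q ^ n • h0 ∈ S0 := by
        intro n
        induction n with
        | zero => simpa using hh0S
        | succ n ih =>
          have h1 := hqS _ ih
          rwa [smul_smul, ← pow_succ'] at h1
      refine ⟨q ^ n • h0, hpow n, ?_, ?_⟩
      · have e1 : q ^ n • h0 = (q ^ n * c⁻¹) • (algebraMap K F c * h0) := by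
          rw [Algebra.smul_def, Algebra.smul_def, map_mul, mul_assoc,
            ← mul_assoc (algebraMap K F c⁻¹), ← map_mul, inv_mul_cancel₀ hc0, map_one, one_mul]
        rw [e1]
        exact h46_smul_mem_O D hn hcO
      · intro hmem
        apply hh0U
        have e1 : h0 = (q ^ n)⁻¹ • (q ^ n • h0) := by
          rw [smul_smul, inv_mul_cancel₀ (pow_ne_zero n hq0), one_smul]
        rw [e1]
        exact Submodule.smul_mem _ _ hmem
    obtain ⟨h, hhS, hhO, hhU⟩ := hscale
    -- successive division by `q`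
    have hseq : ∀ N : ℕ, ∃ hN ∈ S0, hN ∈ D.O ∧
        q ^ N • hN - h ∈ Submodule.span K (Set.range φ) := by
      intro N
      induction N with
      | zero => exact ⟨h, hhS, hhO, by simp⟩
      | succ N ih =>
        obtain ⟨hN, hNS, hNO, hNU⟩ := ih
        have hmem : D.redF hN ∈ Submodule.span k (Set.range ψ) := by
          rw [hψspan]
          exact Submodule.subset_span ⟨hN, ⟨hNS, hNO⟩, rfl⟩
        obtain ⟨cb, hcb⟩ := (Submodule.mem_span_range_iff_exists_fun k).1 hmem
        choose c hcC hcA hcres using fun i => hC0 (cb i)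
        have hgS : ∀ s : Finset (Fin (Module.finrank k
            (Submodule.span k (D.redF '' {g | g ∈ S0 ∧ g ∈ D.O})))),
            hN - ∑ i ∈ s, c i • φ i ∈ S0 := by
          intro s
          induction s using Finset.induction_on with
          | empty => simpa using hNS
          | insert i s his ih' =>
            rw [Finset.sum_insert his]
            have h1 := hsub _ ih' (φ i) (hφS i) (c i) (hcC i)
            have e1 : hN - (c i • φ i + ∑ i ∈ s, c i • φ i) =
                hN - ∑ i ∈ s, c i • φ i - c i • φ i := by abel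
            rw [e1]
            exact h1
        have hsumO : (∑ i, c i • φ i) ∈ D.O := h22_sum_smul_mem D Finset.univ c φ hcA hφO
        have hgO : hN - ∑ i, c i • φ i ∈ D.O := D.O.sub_mem hNO hsumO
        have hgred : D.redF (hN - ∑ i, c i • φ i) = 0 := by
          rw [h50_redF_sub D hNO hsumO, h22_redF_sum_smul D Finset.univ c φ hcA hφO, ← hcb,
            sub_eq_zero]
          refine Finset.sum_congr rfl fun i _ => ?_
          rw [hcres i, hφred i]
        obtain ⟨hdS, hdO⟩ := hdiv _ (hgS Finset.univ) hgO hgred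
        refine ⟨q⁻¹ • (hN - ∑ i, c i • φ i), hdS, hdO, ?_⟩
        have e1 : q ^ (N + 1) • q⁻¹ • (hN - ∑ i, c i • φ i) - h =
            (q ^ N • hN - h) - q ^ N • ∑ i, c i • φ i := by
          rw [smul_smul, pow_succ, mul_assoc, mul_inv_cancel₀ hq0, mul_one, smul_sub]
          abel
        rw [e1]
        exact Submodule.sub_mem _ hNU (Submodule.smul_mem _ _ (Submodule.sum_mem _ fun i _ =>
          Submodule.smul_mem _ _ (Submodule.subset_span ⟨i, rfl⟩)))
    -- a functional killing the span with nonzero value at `h`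
    obtain ⟨lam, hlam, hker⟩ := Submodule.exists_le_ker_of_notMem hhU
    have hhV : h ∈ V := hS0V h hhS
    have hn0 : 0 < Module.finrank K V := by
      have hh0 : h ≠ 0 := by
        rintro rfl
        exact hhU (Submodule.zero_mem _)
      have hne : (⟨h, hhV⟩ : V) ≠ 0 := fun h1 => hh0 (congrArg Subtype.val h1)
      exact Module.finrank_pos_iff_exists_ne_zero.2 ⟨_, hne⟩
    obtain ⟨j0, hj0⟩ := h22_exists_pivot D.A (fun j => lam (e j)) ⟨0, hn0⟩
    have hl0 : lam (e j0) ≠ 0 := by
      intro h0'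
      have hall : ∀ j, lam (e j) = 0 := by
        intro j
        have h1 := hj0 j
        rw [h0', map_zero] at h1
        exact (map_eq_zero _).1 (le_antisymm h1 zero_le)
      obtain ⟨a, ha, -⟩ := h22_on_span D V e heV heO hind h hhV
      apply hlam
      rw [ha, map_sum]
      exact Finset.sum_eq_zero fun j _ => by rw [map_smul, hall j, smul_zero]
    have hbound : ∀ y ∈ V, y ∈ D.O → lam y * (lam (e j0))⁻¹ ∈ D.A := by
      intro y hyV hyO
      obtain ⟨a, ha, haA⟩ := h22_on_span D V e heV heO hind y hyV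
      rw [ha, map_sum, Finset.sum_mul]
      refine Subring.sum_mem D.A.toSubring fun j _ => ?_
      rw [map_smul, smul_eq_mul, mul_assoc]
      refine D.A.mul_mem _ _ (haA hyO j) ?_
      rw [← D.A.valuation_le_one_iff, map_mul, map_inv₀]
      have hpos : 0 < D.A.valuation (lam (e j0)) := by
        rw [pos_iff_ne_zero]
        exact fun h1 => hl0 ((map_eq_zero _).1 h1)
      exact (mul_inv_le_one_of_le₀ (hj0 j) (le_of_lt hpos))
    -- contradiction with rank one
    have hd0 : lam h * (lam (e j0))⁻¹ ≠ 0 := mul_ne_zero hlam (inv_ne_zero hl0)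
    obtain ⟨n, hn⟩ := hrank q hqA hqi _ hd0
    obtain ⟨hN, hNS, hNO, hNU⟩ := hseq (n + 1)
    have h1 : lam (q ^ (n + 1) • hN - h) = 0 := LinearMap.mem_ker.1 (hker hNU)
    have hqn : q ^ (n + 1) ≠ 0 := pow_ne_zero _ hq0
    have h2 : lam hN = lam h * (q ^ (n + 1))⁻¹ := by
      rw [map_sub, map_smul, smul_eq_mul, sub_eq_zero] at h1
      rw [← h1, mul_comm, ← mul_assoc, inv_mul_cancel₀ hqn, one_mul]
    have h3 := hbound hN (hS0V hN hNS) hNO
    rw [h2] at h3
    apply hqi
    have e2 : q⁻¹ = (lam h * (q ^ (n + 1))⁻¹ * (lam (e j0))⁻¹) *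
        (q ^ n * (lam h * (lam (e j0))⁻¹)⁻¹) := by
      have hqn' : q ^ n ≠ 0 := pow_ne_zero _ hq0
      rw [pow_succ]
      field_simp
    rw [e2]
    exact D.A.mul_mem _ _ h3 hn
  -- conclusion
  intro f hfV hfO
  obtain ⟨c, hc⟩ := (Submodule.mem_span_range_iff_exists_fun K).1 (hVU hfV)
  have hcA := h22_on_coeff_mem D φ hφO hind' c (by rw [hc]; exact hfO)
  rw [← hc, h22_redF_sum_smul D Finset.univ c φ hcA hφO]
  exact Submodule.sum_mem _ fun i _ =>
    Submodule.smul_mem _ _ (Submodule.subset_span ⟨φ i, ⟨hφS i, hφO i⟩, rfl⟩)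

/-- **The `hspan` hypothesis of `h46_Rd_le_of_local`** for `V = L(E)`. -/
theorem h46_span_Rd_of_form (D : h22_Lat K F k Rb) (hON : h22_ON D) (hrank : h39_RankOne D.A)
    (q : K) (hqA : q ∈ D.A) (hqi : q⁻¹ ∉ D.A)
    (E : Divisor K F) [Module.Finite K (riemannRochSpace E)]
    (S0 : Set F) (hS0V : ∀ f ∈ S0, f ∈ riemannRochSpace E)
    (hK3 : ∀ f ∈ riemannRochSpace E, f ∈ Submodule.span K S0)
    (C0 : Set K) (hC0 : ∀ c : k, ∃ c' ∈ C0, c' ∈ D.A ∧ D.resK c' = c)
    (hsub : ∀ f ∈ S0, ∀ g ∈ S0, ∀ c ∈ C0, f - c • g ∈ S0)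
    (hqS : ∀ f ∈ S0, q • f ∈ S0)
    (hdiv : ∀ f ∈ S0, f ∈ D.O → D.redF f = 0 → q⁻¹ • f ∈ S0 ∧ q⁻¹ • f ∈ D.O) :
    ∀ a ∈ h51_Rd D E, a ∈ Submodule.span k (D.redF '' {g | g ∈ S0 ∧ g ∈ D.O}) := by
  rintro a ⟨f, hf, hfO, rfl⟩
  exact h46_span_of_form D hON hrank q hqA hqi (riemannRochSpace E) S0 hS0V hK3 C0 hC0 hsub hqS
    hdiv f hf hfO

end Fermat.Agent.S36
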