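import Mathlib
import Fermat.Agent.S36.h46_SpanK0
import Fermat.Agent.S36.h69_K0

/-!
# S36 / row I-BR : the `hspan` instance

helper33.  The `hspan` binder of `h46_principal_of_local` (`S36/h46_LocGlobal.lean`) at the
modular level, for ANY lattice `D : h22_Lat ℚ̄ F̄(N) k Rb` whose ring of constants is the
valuation subring `A` of `ℚ̄` over `q`:

* `h33_hC0`        : the `hC0` binder of `h46_span_of_form` from (K8) = `h5_res_K0`
                     (every residue class has an inertia-fixed lift); any function field.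
* `h33_G0`         : the generating sets `G0 := F0 ∩ L(E) ∩ O` (`F0 = h69_F0 N I`, `I` the inertia
                     group of `A`).
* `h33_hspan_inst` : `R_D(E) ⊆ span_k (red '' G0)` for every `I`-invariant divisor `E`, from
                     (K3) = `h69_rr_span_F0`, (K8) and the single lattice input
                     `hdiv : f ∈ F0 ∩ O, red f = 0 ⟹ f / q ∈ O`.
* `h33_hspan_family` : the family form `∀ j n, N0 ≤ n → …` for `E = n • E1 + j • Ez` with
                     `E1`, `Ez` invariant, verbatim the `hspan` binder of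
                     `h46_principal_of_local` with `G0 j n := h33_G0 N A D (n • E1 + j • Ez)`.
-/

set_option autoImplicit false

noncomputable section

open AlgebraicCurve ModularCurve Fermat.Agent.S18 Fermat.Agent.S34

namespace Fermat.Agent.S36

local notation "Qb" => AlgebraicClosure ℚ

section Generic

variable {F k Rb : Type*} [Field F] [Algebra Qb F] [Field k] [CommRing Rb] [Algebra k Rb]

/-- **`hC0`** of `h46_span_of_form`: every element of the residue field of the lattice is the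
residue of an inertia-fixed element of `A` ((K8) = `h5_res_K0`). -/
theorem h33_hC0 (q : ℕ) (hq : q.Prime) (A : ValuationSubring Qb) (hA : A.LiesOverPrime q)
    (D : h22_Lat Qb F k Rb) (hDA : D.A = A) :
    ∀ c : k, ∃ c' ∈ {c' : Qb | ∀ σ ∈ A.inertiaSubgroupIn ℚ, σ c' = c'},
      c' ∈ D.A ∧ D.resK c' = c := by
  subst hDA
  intro c
  obtain ⟨⟨a, ha⟩, rfl⟩ := D.res_surjective c
  obtain ⟨a0, ha0, hfix, hnear⟩ := h5_res_K0 q hq D.A hA a ha
  refine ⟨a0, hfix, ha0, ?_⟩
  rw [D.resK_of_mem ha0]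
  have h0 : D.res (⟨a, ha⟩ - ⟨a0, ha0⟩) = 0 := (h22_res_eq_zero_iff D _).mpr hnear
  rw [map_sub, sub_eq_zero] at h0
  exact h0.symm

end Generic

section Modular

variable (N : ℕ) {k Rb : Type*} [Field k] [CommRing Rb] [Algebra k Rb]

/-- The generating set of `R_D(E)`: the inertia-fixed elements of `L(E) ∩ O`. -/
def h33_G0 (A : ValuationSubring Qb) (D : h22_Lat Qb (modularFunctionFieldBar N) k Rb)
    (E : Divisor Qb (modularFunctionFieldBar N)) : Set (modularFunctionFieldBar N) :=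
  {g | g ∈ h69_F0 N (A.inertiaSubgroupIn ℚ) ∧ g ∈ riemannRochSpace E ∧ g ∈ D.O}

theorem h33_mem_G0 (A : ValuationSubring Qb) (D : h22_Lat Qb (modularFunctionFieldBar N) k Rb)
    (E : Divisor Qb (modularFunctionFieldBar N)) (g : modularFunctionFieldBar N) :
    g ∈ h33_G0 N A D E ↔
      g ∈ h69_F0 N (A.inertiaSubgroupIn ℚ) ∧ g ∈ riemannRochSpace E ∧ g ∈ D.O := Iff.rfl

/-- The `hG0` binder. -/
theorem h33_G0_mem_O (A : ValuationSubring Qb) (D : h22_Lat Qb (modularFunctionFieldBar N) k Rb)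
    (E : Divisor Qb (modularFunctionFieldBar N)) :
    ∀ g ∈ h33_G0 N A D E, g ∈ D.O := fun _ hg => hg.2.2

/-- **The `hspan` instance.**  `D` any lattice of `F̄(N)` over the valuation subring `A` of `ℚ̄`
above `q`, orthonormalisable, of rank one.  If the inertia-fixed elements of `O` with zero
reduction are divisible by `q` in `O` (the only lattice input, `hdiv`), then for every
inertia-invariant divisor `E` the reductions of the inertia-fixed elements of `L(E) ∩ O` span
`R_D(E)` over the residue field. -/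
theorem h33_hspan_inst (q : ℕ) (hq : q.Prime) (A : ValuationSubring Qb) (hA : A.LiesOverPrime q)
    (D : h22_Lat Qb (modularFunctionFieldBar N) k Rb) (hDA : D.A = A)
    (hON : h22_ON D) (hrank : h39_RankOne D.A)
    (hfin : ∀ D' : Divisor Qb (modularFunctionFieldBar N),
      FiniteDimensional Qb (riemannRochSpace D'))
    (hdiv : ∀ f ∈ h69_F0 N (A.inertiaSubgroupIn ℚ), f ∈ D.O → D.redF f = 0 →
      (q : Qb)⁻¹ • f ∈ D.O)
    (E : Divisor Qb (modularFunctionFieldBar N))
    (hE : ∀ σ ∈ A.inertiaSubgroupIn ℚ,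
      arithmeticGalois (modularFunctionFieldFull N) σ • E = E) :
    ∀ a ∈ h51_Rd D E, a ∈ Submodule.span k (D.redF '' h33_G0 N A D E) := by
  classical
  have hq0 : (q : Qb) ≠ 0 := by exact_mod_cast hq.ne_zero
  have hfinE : Module.Finite Qb (riemannRochSpace E) := hfin E
  -- the set of rational elements of `L(E)`
  set S0 : Set (modularFunctionFieldBar N) :=
    {g | g ∈ h69_F0 N (A.inertiaSubgroupIn ℚ) ∧ g ∈ riemannRochSpace E} with hS0
  have hcF0 : ∀ c : Qb, (∀ σ ∈ A.inertiaSubgroupIn ℚ, σ c = c) →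
      algebraMap Qb (modularFunctionFieldBar N) c ∈ h69_F0 N (A.inertiaSubgroupIn ℚ) :=
    fun c hc => (h69_algebraMap_mem_F0 N (A.inertiaSubgroupIn ℚ) c).mpr hc
  have hqfix : ∀ σ ∈ A.inertiaSubgroupIn ℚ, σ (q : Qb) = (q : Qb) := fun σ _ => map_natCast σ q
  have hqifix : ∀ σ ∈ A.inertiaSubgroupIn ℚ, σ ((q : Qb)⁻¹) = (q : Qb)⁻¹ := fun σ hσ => by
    rw [map_inv₀, hqfix σ hσ]
  have hsmulS0 : ∀ c : Qb, (∀ σ ∈ A.inertiaSubgroupIn ℚ, σ c = c) → ∀ f ∈ S0, c • f ∈ S0 := by
    intro c hc f hf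
    refine ⟨?_, Submodule.smul_mem _ c hf.2⟩
    rw [Algebra.smul_def]
    exact (h69_F0 N (A.inertiaSubgroupIn ℚ)).mul_mem (hcF0 c hc) hf.1
  have hqA : (q : Qb) ∈ D.A := natCast_mem D.A q
  have hqi : (q : Qb)⁻¹ ∉ D.A := by
    rw [hDA]
    intro hmem
    have hA' : (q : Qb) ∈ A.nonunits := hA
    rcases (ValuationSubring.mem_nonunits_iff_or A).mp hA' with h | h
    · exact hq0 h
    · exact h hmem
  have key := h46_span_Rd_of_form D hON hrank (q : Qb) hqA hqi E S0 (fun f hf => hf.2)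
    (fun f hf => by
      have h := h69_rr_span_F0 N (A.inertiaSubgroupIn ℚ) E hE
      have hf' : f ∈ Submodule.span Qb
          ((h69_F0 N (A.inertiaSubgroupIn ℚ) : Set (modularFunctionFieldBar N)) ∩
            (riemannRochSpace E : Set (modularFunctionFieldBar N))) := by
        rw [h]; exact hf
      exact hf')
    {c' : Qb | ∀ σ ∈ A.inertiaSubgroupIn ℚ, σ c' = c'} (h33_hC0 q hq A hA D hDA)
    (fun f hf g hg c hc => by
      refine ⟨?_, Submodule.sub_mem _ hf.2 (Submodule.smul_mem _ c hg.2)⟩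
      exact (h69_F0 N (A.inertiaSubgroupIn ℚ)).sub_mem hf.1 (hsmulS0 c hc g hg).1)
    (fun f hf => hsmulS0 _ hqfix f hf)
    (fun f hf hfO hred => ⟨hsmulS0 _ hqifix f hf, hdiv f hf.1 hfO hred⟩)
  intro a ha
  have h1 := key a ha
  have hset : {g | g ∈ S0 ∧ g ∈ D.O} = h33_G0 N A D E := by
    ext g
    exact ⟨fun hg => ⟨hg.1.1, hg.1.2, hg.2⟩, fun hg => ⟨⟨hg.1, hg.2.1⟩, hg.2.2⟩⟩
  rw [hset] at h1
  exact h1

/-- **The `hspan` binder of `h46_principal_of_local`**, verbatim, with
`G0 j n := h33_G0 N A D (n • E1 + j • Ez)`, for inertia-invariant `E1` and `Ez`. -/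
theorem h33_hspan_family (q : ℕ) (hq : q.Prime) (A : ValuationSubring Qb)
    (hA : A.LiesOverPrime q)
    (D : h22_Lat Qb (modularFunctionFieldBar N) k Rb) (hDA : D.A = A)
    (hON : h22_ON D) (hrank : h39_RankOne D.A)
    (hfin : ∀ D' : Divisor Qb (modularFunctionFieldBar N),
      FiniteDimensional Qb (riemannRochSpace D'))
    (hdiv : ∀ f ∈ h69_F0 N (A.inertiaSubgroupIn ℚ), f ∈ D.O → D.redF f = 0 →
      (q : Qb)⁻¹ • f ∈ D.O)
    (E1 Ez : Divisor Qb (modularFunctionFieldBar N))
    (hE1 : ∀ σ ∈ A.inertiaSubgroupIn ℚ,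
      arithmeticGalois (modularFunctionFieldFull N) σ • E1 = E1)
    (hEz : ∀ σ ∈ A.inertiaSubgroupIn ℚ,
      arithmeticGalois (modularFunctionFieldFull N) σ • Ez = Ez) (N0 : ℕ) :
    ∀ (j : ℤ) (n : ℕ), N0 ≤ n → ∀ a ∈ h51_Rd D (n • E1 + j • Ez),
      a ∈ Submodule.span k (D.redF '' h33_G0 N A D (n • E1 + j • Ez)) := by
  intro j n _ a ha
  refine h33_hspan_inst N q hq A hA D hDA hON hrank hfin hdiv (n • E1 + j • Ez) ?_ a ha
  intro σ hσ
  rw [smul_add, smul_comm (arithmeticGalois (modularFunctionFieldFull N) σ) n E1,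
    smul_comm (arithmeticGalois (modularFunctionFieldFull N) σ) j Ez, hE1 σ hσ, hEz σ hσ]

end Modular

end Fermat.Agent.S36
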