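/-
S36 / row I-VAL, existence half of the Gauss orders (helper35).

`h98_GV A π s n` (helper98, `S36/h98_NRVal`) says that the Laurent series `s` has `π`-adic Gauss
order `n`.  Existence of such an `n` fails for general ratios of series over a non-discrete
valuation ring; it holds for *bounded series with coefficients in a discretely valued subfield*.

* `h35_BS A C π hπA` : the subring of `K((q))` of series with all coefficients in the subfield
  `C` and bounded denominators (`π ^ m * coeff ∈ A` for one `m`);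
* `h35_GV_of_bounded` : a nonzero bounded `C`-series has a Gauss order, provided `π` is a
  uniformiser for `C` (`hdv`);
* `h35_GV_of_ratio` : the same for `x` with `x * Q = P`, `P, Q` bounded `C`-series;
* `h35_const_mem_BS`, `h35_int_mem_BS` : constants of `C` and integral `C`-series are bounded.
-/
import Mathlib
import Fermat.Agent.S36.h98_NRVal
import Fermat.Agent.S34.h31_IntSeriesMod

set_option autoImplicit false

noncomputable section

open ModularCurve

namespace Fermat.Agent.S36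

open Fermat.Agent.S34

section Bounded

variable {K : Type*} [Field K] (A : ValuationSubring K) (C : Subfield K) (π : K)

/-- coefficient of a constant multiple. -/
theorem h35_coeff_const_mul (a : K) (Y : LaurentSeries K) (i : ℤ) :
    (algebraMap K (LaurentSeries K) a * Y).coeff i = a * Y.coeff i := by
  rw [algebraMap_laurentSeries_eq_single, HahnSeries.coeff_single_zero_mul]

/-- Bounded `C`-series: all coefficients in `C`, and `π ^ m * coeff ∈ A` for one `m`. -/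
def h35_BS (hπA : π ∈ A) : Subring (LaurentSeries K) where
  carrier := {Y | (∀ i, Y.coeff i ∈ C) ∧ ∃ m : ℕ, ∀ i, π ^ m * Y.coeff i ∈ A}
  mul_mem' := by
    rintro a b ⟨ha, m, hm⟩ ⟨hb, m', hm'⟩
    refine ⟨fun i => ?_, m + m', fun i => ?_⟩
    · rw [HahnSeries.coeff_mul]
      exact Subfield.sum_mem C fun ij _ => C.mul_mem (ha _) (hb _)
    · rw [HahnSeries.coeff_mul, Finset.mul_sum]
      refine Subring.sum_mem A.toSubring fun ij _ => ?_
      have e : π ^ (m + m') * (a.coeff ij.1 * b.coeff ij.2)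
          = (π ^ m * a.coeff ij.1) * (π ^ m' * b.coeff ij.2) := by ring
      rw [e]
      exact A.mul_mem _ _ (hm _) (hm' _)
  one_mem' := by
    refine ⟨fun i => ?_, 0, fun i => ?_⟩
    · rw [HahnSeries.coeff_one]
      split_ifs
      · exact C.one_mem
      · exact C.zero_mem
    · rw [HahnSeries.coeff_one, pow_zero, one_mul]
      split_ifs
      · exact A.one_mem
      · exact A.zero_mem
  add_mem' := by
    rintro a b ⟨ha, m, hm⟩ ⟨hb, m', hm'⟩
    refine ⟨fun i => ?_, m + m', fun i => ?_⟩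
    · rw [HahnSeries.coeff_add]
      exact C.add_mem (ha _) (hb _)
    · rw [HahnSeries.coeff_add, mul_add]
      refine A.add_mem _ _ ?_ ?_
      · have e : π ^ (m + m') * a.coeff i = π ^ m' * (π ^ m * a.coeff i) := by ring
        rw [e]
        exact A.mul_mem _ _ (pow_mem hπA _) (hm _)
      · have e : π ^ (m + m') * b.coeff i = π ^ m * (π ^ m' * b.coeff i) := by ring
        rw [e]
        exact A.mul_mem _ _ (pow_mem hπA _) (hm' _)
  zero_mem' := by
    refine ⟨fun i => ?_, 0, fun i => ?_⟩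
    · rw [HahnSeries.coeff_zero]
      exact C.zero_mem
    · rw [HahnSeries.coeff_zero, mul_zero]
      exact A.zero_mem
  neg_mem' := by
    rintro a ⟨ha, m, hm⟩
    refine ⟨fun i => ?_, m, fun i => ?_⟩
    · rw [HahnSeries.coeff_neg]
      exact C.neg_mem (ha _)
    · rw [HahnSeries.coeff_neg, mul_neg]
      exact A.neg_mem _ (hm _)

variable {A C π}

theorem h35_mem_BS (hπA : π ∈ A) (Y : LaurentSeries K) :
    Y ∈ h35_BS A C π hπA ↔ (∀ i, Y.coeff i ∈ C) ∧ ∃ m : ℕ, ∀ i, π ^ m * Y.coeff i ∈ A :=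
  Iff.rfl

/-- an `A`-integral series with coefficients in `C` is bounded. -/
theorem h35_int_mem_BS (hπA : π ∈ A) (Y : LaurentSeries K) (hC : ∀ i, Y.coeff i ∈ C)
    (hA : ∀ i, Y.coeff i ∈ A) : Y ∈ h35_BS A C π hπA :=
  ⟨hC, 0, fun i => by rw [pow_zero, one_mul]; exact hA i⟩

/-- a uniformiser-bounded constant of `C` is a bounded series. -/
theorem h35_const_mem_BS (hπA : π ∈ A) (hπ0 : π ≠ 0)
    (hdv : ∀ c ∈ C, c ≠ 0 → ∃ n : ℤ, c * π ^ (-n) ∈ A ∧ (c * π ^ (-n))⁻¹ ∈ A)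
    {c : K} (hc : c ∈ C) : algebraMap K (LaurentSeries K) c ∈ h35_BS A C π hπA := by
  rcases eq_or_ne c 0 with rfl | hc0
  · rw [map_zero]
    exact Subring.zero_mem _
  obtain ⟨n, hn, -⟩ := hdv c hc hc0
  have hcoeff : ∀ i : ℤ, (algebraMap K (LaurentSeries K) c).coeff i = if i = 0 then c else 0 := by
    intro i
    have h1 : algebraMap K (LaurentSeries K) c = algebraMap K (LaurentSeries K) c * 1 :=
      (mul_one _).symm
    rw [h1, h35_coeff_const_mul, HahnSeries.coeff_one]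
    split_ifs <;> simp
  refine ⟨fun i => ?_, (-n).toNat, fun i => ?_⟩
  · rw [hcoeff]
    split_ifs
    · exact hc
    · exact C.zero_mem
  · rw [hcoeff]
    split_ifs
    · -- `π ^ m * c = (c * π ^ (-n)) * π ^ (m + n)` with `m + n ≥ 0`
      have e : π ^ (-n).toNat * c = (c * π ^ (-n)) * π ^ (((-n).toNat : ℤ) + n) := by
        rw [zpow_add₀ hπ0, zpow_natCast, zpow_neg]
        field_simp
      rw [e]
      refine A.mul_mem _ _ hn ?_
      obtain ⟨k, hk⟩ : ∃ k : ℕ, (((-n).toNat : ℤ) + n) = k := ⟨(((-n).toNat : ℤ) + n).toNat, by omega⟩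
      rw [hk, zpow_natCast]
      exact pow_mem hπA k
    · rw [mul_zero]
      exact A.zero_mem

/-- **Existence of the Gauss order for bounded `C`-series.** -/
theorem h35_GV_of_bounded (hπ0 : π ≠ 0) (hπA : π ∈ A) (hπn : π⁻¹ ∉ A)
    (hdv : ∀ c ∈ C, c ≠ 0 → ∃ n : ℤ, c * π ^ (-n) ∈ A ∧ (c * π ^ (-n))⁻¹ ∈ A)
    (Y : LaurentSeries K) (hY0 : Y ≠ 0) (hY : Y ∈ h35_BS A C π hπA) :
    ∃ n : ℤ, h98_GV A π Y n := by
  obtain ⟨hC, m, hm⟩ := hY
  -- the set of orders of the nonzero coefficients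
  let S : ℤ → Prop := fun n => ∃ i, Y.coeff i ≠ 0 ∧ Y.coeff i * π ^ (-n) ∈ A ∧
    (Y.coeff i * π ^ (-n))⁻¹ ∈ A
  have hne : ∃ n, S n := by
    obtain ⟨i, hi⟩ : ∃ i, Y.coeff i ≠ 0 := by
      by_contra hcon
      push Not at hcon
      exact hY0 (HahnSeries.ext (funext hcon))
    obtain ⟨n, hn1, hn2⟩ := hdv _ (hC i) hi
    exact ⟨n, i, hi, hn1, hn2⟩
  have hbdd : ∃ b : ℤ, ∀ n, S n → b ≤ n := by
    refine ⟨-(m : ℤ), ?_⟩
    rintro n ⟨i, hi, -, hn2⟩
    have h1 : π ^ ((m : ℤ) + n) = (π ^ m * Y.coeff i) * (Y.coeff i * π ^ (-n))⁻¹ := by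
      rw [zpow_add₀ hπ0, zpow_natCast, zpow_neg]
      field_simp
    have h2 : π ^ ((m : ℤ) + n) ∈ A := by
      rw [h1]
      exact A.mul_mem _ _ (hm i) hn2
    have := h98_zpow_mem_nonneg hπA hπn h2
    omega
  obtain ⟨n0, ⟨i0, hi0, hn01, hn02⟩, hmin⟩ := Int.exists_least_of_bdd hbdd hne
  -- all coefficients of `π ^ (-n0) * Y` are integral
  have hall : ∀ i, π ^ (-n0) * Y.coeff i ∈ A := by
    intro i
    rcases eq_or_ne (Y.coeff i) 0 with h0 | h0
    · rw [h0, mul_zero]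
      exact A.zero_mem
    obtain ⟨n, hn1, hn2⟩ := hdv _ (hC i) h0
    have hle : n0 ≤ n := hmin n ⟨i, h0, hn1, hn2⟩
    obtain ⟨k, hk⟩ : ∃ k : ℕ, n - n0 = k := ⟨(n - n0).toNat, by omega⟩
    have e : π ^ (-n0) * Y.coeff i = (Y.coeff i * π ^ (-n)) * π ^ k := by
      rw [← zpow_natCast π k, ← hk, zpow_sub₀ hπ0, zpow_neg, zpow_neg]
      field_simp
    rw [e]
    exact A.mul_mem _ _ hn1 (pow_mem hπA k)
  have hint : algebraMap K (LaurentSeries K) (π ^ (-n0)) * Y ∈ h31_intSeries A := by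
    intro i
    rw [h35_coeff_const_mul]
    exact hall i
  obtain ⟨y, hy⟩ := (h31_mem_intSeries_iff A _).mp hint
  refine ⟨n0, ?_⟩
  have hmem : algebraMap K (LaurentSeries K) (π ^ (-n0)) * Y ∈ h60_Os A := by
    rw [← hy]
    exact h60_int_mem A y
  refine ⟨hmem, ?_⟩
  have hrs : h60_rs A ⟨_, hmem⟩ = coeffMap (IsLocalRing.residue A) y := by
    have h1 : (⟨_, hmem⟩ : h60_Os A) = ⟨coeffMap A.subtype y, h60_int_mem A y⟩ :=
      Subtype.ext hy.symm
    rw [h1, h60_rs_int]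
  rw [hrs]
  intro h0
  have h1 : (coeffMap (IsLocalRing.residue A) y).coeff i0 = 0 := by rw [h0]; rfl
  rw [coeffMap_coeff, IsLocalRing.residue_eq_zero_iff] at h1
  -- `y.coeff i0` is a unit of `A`
  have hval : ((y.coeff i0 : A) : K) = π ^ (-n0) * Y.coeff i0 := by
    have h2 := congrArg (fun s : LaurentSeries K => s.coeff i0) hy
    simp only [coeffMap_coeff, h35_coeff_const_mul] at h2
    exact h2
  have hunit : IsUnit (y.coeff i0) := by
    have hinv : (π ^ (-n0) * Y.coeff i0)⁻¹ ∈ A := by rw [mul_comm]; exact hn02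
    refine IsUnit.of_mul_eq_one (b := ⟨_, hinv⟩) ?_
    apply Subtype.ext
    show ((y.coeff i0 : A) : K) * (π ^ (-n0) * Y.coeff i0)⁻¹ = 1
    rw [hval]
    exact mul_inv_cancel₀ (mul_ne_zero (zpow_ne_zero _ hπ0) hi0)
  exact (IsLocalRing.mem_maximalIdeal _).mp h1 hunit

/-- **Existence of the Gauss order for ratios of bounded `C`-series.** -/
theorem h35_GV_of_ratio (hπ0 : π ≠ 0) (hπA : π ∈ A) (hπn : π⁻¹ ∉ A)
    (hdv : ∀ c ∈ C, c ≠ 0 → ∃ n : ℤ, c * π ^ (-n) ∈ A ∧ (c * π ^ (-n))⁻¹ ∈ A)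
    (x P Q : LaurentSeries K) (hx : x ≠ 0) (hQ0 : Q ≠ 0)
    (hP : P ∈ h35_BS A C π hπA) (hQ : Q ∈ h35_BS A C π hπA) (h : x * Q = P) :
    ∃ n : ℤ, h98_GV A π x n := by
  have hP0 : P ≠ 0 := by rw [← h]; exact mul_ne_zero hx hQ0
  obtain ⟨nP, hnP⟩ := h35_GV_of_bounded hπ0 hπA hπn hdv P hP0 hP
  obtain ⟨nQ, hnQ⟩ := h35_GV_of_bounded hπ0 hπA hπn hdv Q hQ0 hQ
  refine ⟨nP + -nQ, ?_⟩
  have e : x = P * Q⁻¹ := by rw [← h, mul_inv_cancel_right₀ hQ0]
  rw [e]
  exact h98_GV_mul hπ0 hnP (h98_GV_inv hnQ)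

end Bounded

end Fermat.Agent.S36

end
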