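/-
S36 / row I-VAL (helper35): EXISTENCE of the `ℤ`-valued Gauss order on the MIDDLE expansion.

Level `M q²`, `q ∤ M`, `A` a valuation ring of `ℚ̄` over `q`, `I` its inertia group, `ζ` a
primitive `q`-th root of unity, `E = h36_mid ζ` the middle-cusp embedding (helper36).

* `h35_mid_gv_exists` : for every nonzero `I`-fixed function `f` of level `M q²` there is
  `n : ℤ` with `h98_GV A (ζ - 1) (h36_mid ζ f) n`  (so `w2 1` is `ℤ`-valued, `w2 1 (q) = q - 1`).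

Proof: every function is `P / Q` with `P, Q` bounded under ALL middle embeddings
(`h35_exists_midB_frac`, from `h36_i02_gen` and helper22's bounded fractions at level `M q`);
the space of such denominators is inertia-stable (`h49_mid_galois_mod`), so `P, Q` can be taken
inertia-fixed (`h69_span_fixed`); then `E P`, `E Q` are bounded series whose coefficients are
fixed by `I_ζ = {σ ∈ I | σ ζ = ζ}`, a field with uniformiser `ζ - 1` (helper8's `h8_val_tame`,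
resp. `h8_val_unr` for `q = 2`), and `h35_GV_of_ratio` applies.
-/
import Mathlib
import Fermat.Agent.S36.h35_GVBounded
import Fermat.Agent.S36.h22_IntSer
import Fermat.Agent.S36.h36_MidEmb
import Fermat.Agent.S36.h49_MidGal
import Fermat.Agent.S40.h8_Tame
import Fermat.Agent.S18.h64_RankOne

set_option autoImplicit false
set_option synthInstance.maxHeartbeats 400000

noncomputable section

open ModularCurve AlgebraicCurve

namespace Fermat.Agent.S36

open Fermat.Agent.S34 Fermat.Agent.S37 Fermat.Agent.S24 Fermat.Agent.S35 Fermat.Agent.S18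
  Fermat.Agent.S33 Fermat.Agent.S40

local notation "Qb" => AlgebraicClosure ℚ

section Roots

variable (A : ValuationSubring Qb)

/-- integer powers of a root of unity lie in `A`. -/
theorem h35_root_zpow_mem {ζ : Qb} {n : ℕ} (hn : 0 < n) (hζ : ζ ^ n = 1) (k : ℤ) : ζ ^ k ∈ A := by
  have hint : IsIntegral ℤ ζ := IsIntegral.of_pow hn (by rw [hζ]; exact isIntegral_one)
  have h1 : ζ ∈ A := h14_unr_mem_of_isIntegral A hint
  have hinv : ζ⁻¹ = ζ ^ (n - 1) := by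
    apply inv_eq_of_mul_eq_one_right
    rw [← pow_succ', Nat.sub_add_cancel hn, hζ]
  have h2 : ζ⁻¹ ∈ A := by rw [hinv]; exact pow_mem h1 _
  exact h98_unit_zpow_mem h1 h2 k

/-- twisting by a root of unity preserves bounded series. -/
theorem h35_twist_bdd {ζ : Qb} {n : ℕ} (hn : 0 < n) (hζ : ζ ^ n = 1)
    {g : LaurentSeries Qb} (hg : g ∈ h22_bddSeries A) : h64_twist ζ g ∈ h22_bddSeries A := by
  obtain ⟨c, hc, hcg⟩ := hg
  refine ⟨c, hc, fun i => ?_⟩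
  have h1 := hcg i
  rw [h22_coeff_C_mul] at h1 ⊢
  rw [h64_twist_coeff, ← mul_assoc]
  exact A.mul_mem _ _ h1 (h35_root_zpow_mem A hn hζ i)

end Roots

section Mid

variable (M q : ℕ) [NeZero M] [NeZero q] [Fact q.Prime] (hqM : ¬ q ∣ M)
  (A : ValuationSubring Qb)

/-- Functions of level `M q²` whose expansions under ALL middle embeddings are bounded. -/
def h35_MidB : Subring ↥(modularFunctionFieldBar (M * q * q)) where
  carrier := {x | ∀ (ζ : Qb) (hζ : ζ ^ q = 1) (hζ1 : ζ ≠ 1),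
    h36_mid M q hqM ζ hζ hζ1 x ∈ h22_bddSeries A}
  mul_mem' := fun ha hb ζ hζ hζ1 => by
    rw [map_mul]; exact mul_mem (ha ζ hζ hζ1) (hb ζ hζ hζ1)
  one_mem' := fun ζ hζ hζ1 => by rw [map_one]; exact one_mem _
  add_mem' := fun ha hb ζ hζ hζ1 => by
    rw [map_add]; exact add_mem (ha ζ hζ hζ1) (hb ζ hζ hζ1)
  zero_mem' := fun ζ hζ hζ1 => by rw [map_zero]; exact zero_mem _
  neg_mem' := fun ha ζ hζ hζ1 => by rw [map_neg]; exact neg_mem (ha ζ hζ hζ1)

theorem h35_mem_MidB (x : ↥(modularFunctionFieldBar (M * q * q))) :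
    x ∈ h35_MidB M q hqM A ↔ ∀ (ζ : Qb) (hζ : ζ ^ q = 1) (hζ1 : ζ ≠ 1),
      h36_mid M q hqM ζ hζ hζ1 x ∈ h22_bddSeries A := Iff.rfl

theorem h35_i0_mem_MidB (P : ↥(modularFunctionFieldBar (M * q)))
    (hP : (P : LaurentSeries Qb) ∈ h22_bddSeries A) : h36_i0 M q P ∈ h35_MidB M q hqM A :=
  fun ζ hζ hζ1 => by rw [h36_mid_i0]; exact hP

theorem h35_i2_mem_MidB (P : ↥(modularFunctionFieldBar (M * q)))
    (hP : (P : LaurentSeries Qb) ∈ h22_bddSeries A) :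
    h36_i2 M q hqM P ∈ h35_MidB M q hqM A :=
  fun ζ hζ hζ1 => by rw [h36_mid_i2]; exact h35_twist_bdd A (NeZero.pos q) hζ hP

theorem h35_const_mem_MidB (c : Qb) :
    algebraMap Qb ↥(modularFunctionFieldBar (M * q * q)) c ∈ h35_MidB M q hqM A :=
  fun ζ hζ hζ1 => by
    rw [h36_mid_algebraMap, algebraMap_laurentSeries_eq_single]
    exact h22_C_mem_bdd A c

/-- Every function of level `M q²` is `P / Q` with `P, Q` bounded under all middle
embeddings. -/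
theorem h35_exists_midB_frac (f : ↥(modularFunctionFieldBar (M * q * q))) :
    ∃ P Q : ↥(modularFunctionFieldBar (M * q * q)), P ∈ h35_MidB M q hqM A ∧
      Q ∈ h35_MidB M q hqM A ∧ Q ≠ 0 ∧ f * Q = P := by
  have hcl : Subfield.closure
      ((h35_MidB M q hqM A : Set ↥(modularFunctionFieldBar (M * q * q)))) = ⊤ := by
    rw [eq_top_iff, ← h36_i02_gen M q hqM, Subfield.closure_le]
    rintro x (⟨g, rfl⟩ | ⟨g, rfl⟩)
    · obtain ⟨P, Q, hP, hQ, hQ0, hfQ⟩ := h22_exists_bdd_frac (M * q) A g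
      have h1 : h36_i0 M q g = h36_i0 M q P / h36_i0 M q Q := by
        rw [eq_div_iff ((map_ne_zero _).2 hQ0), ← map_mul, hfQ]
      rw [SetLike.mem_coe, h1]
      exact div_mem (Subfield.subset_closure (h35_i0_mem_MidB M q hqM A P hP))
        (Subfield.subset_closure (h35_i0_mem_MidB M q hqM A Q hQ))
    · obtain ⟨P, Q, hP, hQ, hQ0, hfQ⟩ := h22_exists_bdd_frac (M * q) A g
      have h1 : h36_i2 M q hqM g = h36_i2 M q hqM P / h36_i2 M q hqM Q := by
        rw [eq_div_iff ((map_ne_zero _).2 hQ0), ← map_mul, hfQ]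
      rw [SetLike.mem_coe, h1]
      exact div_mem (Subfield.subset_closure (h35_i2_mem_MidB M q hqM A P hP))
        (Subfield.subset_closure (h35_i2_mem_MidB M q hqM A Q hQ))
  by_cases hf : f = 0
  · exact ⟨0, 1, zero_mem _, one_mem _, one_ne_zero, by rw [hf, zero_mul]⟩
  have hmem : f ∈ Subfield.closure
      ((h35_MidB M q hqM A : Set ↥(modularFunctionFieldBar (M * q * q)))) := by
    rw [hcl]; trivial
  obtain ⟨y, hy, z, hz, hyz⟩ := Subfield.mem_closure_iff.1 hmem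
  rw [Subring.closure_eq] at hy hz
  have hz0 : z ≠ 0 := by
    rintro rfl
    rw [div_zero] at hyz
    exact hf hyz.symm
  refine ⟨y, z, hy, hz, hz0, ?_⟩
  rw [← hyz]
  field_simp

/-- The middle embeddings intertwine the Galois action: `E_ζ (σ x) = σ (E_{σ⁻¹ ζ} x)`. -/
theorem h35_mid_smul (σ : Qb ≃ₐ[ℚ] Qb) (ζ : Qb) (hζ : ζ ^ q = 1) (hζ1 : ζ ≠ 1)
    (ζ' : Qb) (hζ' : ζ' ^ q = 1) (hζ'1 : ζ' ≠ 1) (hσ : σ ζ = ζ')
    (x : ↥(modularFunctionFieldBar (M * q * q))) :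
    h36_mid M q hqM ζ' hζ' hζ'1
        (arithmeticGalois (modularFunctionFieldFull (M * q * q)) σ • x) =
      coeffMap (σ : Qb →+* Qb) (h36_mid M q hqM ζ hζ hζ1 x) :=
  h49_mid_galois_mod M q hqM (h36_i0 M q) (h36_i2 M q hqM) (fun _ => rfl) (fun _ => rfl)
    (h36_i02_gen M q hqM) σ ζ (h36_zq_ne_zero q hζ) ζ' (h36_zq_ne_zero q hζ') hσ
    (h36_mid M q hqM ζ hζ hζ1) (h36_mid M q hqM ζ' hζ' hζ'1)
    (h36_mid_i0 M q hqM ζ hζ hζ1) (fun g => by rw [h36_mid_i2]; rfl)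
    (h36_mid_i0 M q hqM ζ' hζ' hζ'1) (fun g => by rw [h36_mid_i2]; rfl) x

/-- Inertia preserves `h35_MidB`. -/
theorem h35_MidB_smul (σ : Qb ≃ₐ[ℚ] Qb) (hσ : σ ∈ A.inertiaSubgroupIn ℚ)
    {x : ↥(modularFunctionFieldBar (M * q * q))} (hx : x ∈ h35_MidB M q hqM A) :
    arithmeticGalois (modularFunctionFieldFull (M * q * q)) σ • x ∈ h35_MidB M q hqM A := by
  intro ζ hζ hζ1
  have hζ0 : (σ.symm ζ) ^ q = 1 := by rw [← map_pow, hζ, map_one]
  have hζ01 : σ.symm ζ ≠ 1 := fun h => hζ1 (by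
    have h2 := congrArg σ h
    rwa [AlgEquiv.apply_symm_apply, map_one] at h2)
  rw [h35_mid_smul M q hqM σ (σ.symm ζ) hζ0 hζ01 ζ hζ hζ1 (σ.apply_symm_apply ζ) x]
  exact h22_coeffMap_bdd A σ hσ (hx _ hζ0 hζ01)

/-- **Fixed fractions for the middle embeddings.**  An inertia-fixed function of level `M q²`
is `P / Q` with `P, Q` inertia-fixed and bounded under all middle embeddings. -/
theorem h35_exists_fixed_midB_frac (f : ↥(modularFunctionFieldBar (M * q * q)))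
    (hf : f ∈ h69_F0 (M * q * q) (A.inertiaSubgroupIn ℚ)) :
    ∃ P Q : ↥(modularFunctionFieldBar (M * q * q)),
      P ∈ h69_F0 (M * q * q) (A.inertiaSubgroupIn ℚ) ∧
      Q ∈ h69_F0 (M * q * q) (A.inertiaSubgroupIn ℚ) ∧ P ∈ h35_MidB M q hqM A ∧
      Q ∈ h35_MidB M q hqM A ∧ Q ≠ 0 ∧ f * Q = P := by
  let V : Submodule Qb ↥(modularFunctionFieldBar (M * q * q)) :=
    { carrier := {Q | Q ∈ h35_MidB M q hqM A ∧ f * Q ∈ h35_MidB M q hqM A}
      add_mem' := by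
        rintro a b ⟨ha1, ha2⟩ ⟨hb1, hb2⟩
        refine ⟨add_mem ha1 hb1, ?_⟩
        rw [mul_add]
        exact add_mem ha2 hb2
      zero_mem' := ⟨zero_mem _, by rw [mul_zero]; exact zero_mem _⟩
      smul_mem' := by
        rintro c a ⟨ha1, ha2⟩
        refine ⟨?_, ?_⟩
        · rw [Algebra.smul_def]
          exact mul_mem (h35_const_mem_MidB M q hqM A c) ha1
        · rw [Algebra.smul_def, mul_left_comm]
          exact mul_mem (h35_const_mem_MidB M q hqM A c) ha2 }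
  have hVstab : ∀ σ ∈ A.inertiaSubgroupIn ℚ, ∀ v ∈ V,
      arithmeticGalois (modularFunctionFieldFull (M * q * q)) σ • v ∈ V := by
    rintro σ hσ v ⟨hv1, hv2⟩
    refine ⟨h35_MidB_smul M q hqM A σ hσ hv1, ?_⟩
    have h1 : f * (arithmeticGalois (modularFunctionFieldFull (M * q * q)) σ • v) =
        arithmeticGalois (modularFunctionFieldFull (M * q * q)) σ • (f * v) := by
      rw [smul_mul', (h69_mem_F0 (M * q * q) _ f).1 hf σ hσ]
    rw [h1]
    exact h35_MidB_smul M q hqM A σ hσ hv2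
  have hspan := h69_span_fixed (M * q * q) (A.inertiaSubgroupIn ℚ) V hVstab
  obtain ⟨P0, Q0, hP0, hQ0, hQ0ne, hfQ0⟩ := h35_exists_midB_frac M q hqM A f
  have hQ0V : Q0 ∈ V := ⟨hQ0, by rw [hfQ0]; exact hP0⟩
  obtain ⟨Q, ⟨hQV, hQfix⟩, hQne⟩ : ∃ Q, Q ∈ {g | g ∈ V ∧
      ∀ σ ∈ A.inertiaSubgroupIn ℚ,
        arithmeticGalois (modularFunctionFieldFull (M * q * q)) σ • g = g} ∧ Q ≠ 0 := by
    by_contra hcon
    push Not at hcon
    have hbot : Submodule.span Qb {g | g ∈ V ∧ ∀ σ ∈ A.inertiaSubgroupIn ℚ,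
        arithmeticGalois (modularFunctionFieldFull (M * q * q)) σ • g = g} ≤ ⊥ :=
      Submodule.span_le.mpr fun g hg => by
        rw [hcon g hg]
        exact Submodule.zero_mem _
    rw [hspan] at hbot
    exact hQ0ne ((Submodule.mem_bot Qb).1 (hbot hQ0V))
  exact ⟨f * Q, Q, (h69_F0 (M * q * q) _).mul_mem hf ((h69_mem_F0 (M * q * q) _ Q).2 hQfix),
    (h69_mem_F0 (M * q * q) _ Q).2 hQfix, hQV.2, hQV.1, hQne, rfl⟩

end Mid

/-! ### The coefficient field: elements fixed by `I_ζ` -/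

section Coeff

variable (q : ℕ) [Fact q.Prime] (A : ValuationSubring Qb)

/-- The field of constants fixed by `I_ζ = {σ ∈ I | σ ζ = ζ}`. -/
def h35_Cz (ζ : Qb) : Subfield Qb where
  carrier := {c | ∀ σ ∈ A.inertiaSubgroupIn ℚ, σ ζ = ζ → σ c = c}
  mul_mem' := fun ha hb σ hσ h => by rw [map_mul, ha σ hσ h, hb σ hσ h]
  one_mem' := fun σ _ _ => map_one σ
  add_mem' := fun ha hb σ hσ h => by rw [map_add, ha σ hσ h, hb σ hσ h]
  zero_mem' := fun σ _ _ => map_zero σ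
  neg_mem' := fun ha σ hσ h => by rw [map_neg, ha σ hσ h]
  inv_mem' := fun a ha σ hσ h => by rw [map_inv₀, ha σ hσ h]

theorem h35_mem_Cz (ζ c : Qb) :
    c ∈ h35_Cz A ζ ↔ ∀ σ ∈ A.inertiaSubgroupIn ℚ, σ ζ = ζ → σ c = c := Iff.rfl

/-- `v (ζ - 1) < 1` for every prime `q` (including `q = 2`). -/
theorem h35_val_zeta_lt (hA : A.LiesOverPrime q) (ζ : Qb) (hζ : IsPrimitiveRoot ζ q) :
    A.valuation (ζ - 1) < 1 := by
  have hq : q.Prime := Fact.out
  have h1 := h8_val_p q A ζ hζ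
  have h2 := h8_val_p_lt q A hA
  by_contra hcon
  rw [not_lt] at hcon
  have h3 : (1 : A.ValueGroup) ≤ A.valuation (ζ - 1) ^ (q - 1) := one_le_pow₀ hcon
  rw [← h1] at h3
  exact absurd h2 (not_lt.2 h3)

/-- The value group of the field fixed by `I_ζ` is generated by `v (ζ - 1)` (every `q`). -/
theorem h35_val_Cz (hA : A.LiesOverPrime q) (ζ : Qb) (hζ : IsPrimitiveRoot ζ q) (c : Qb)
    (hc0 : c ≠ 0) (hc : c ∈ h35_Cz A ζ) :
    ∃ n : ℤ, A.valuation c = A.valuation (ζ - 1) ^ n := by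
  by_cases hq2 : q = 2
  · subst hq2
    have hζ2 : ζ = -1 := hζ.eq_neg_one_of_two_right
    have hfix : ∀ σ ∈ A.inertiaSubgroupIn ℚ, σ c = c := fun σ hσ =>
      hc σ hσ (by rw [hζ2, map_neg, map_one])
    obtain ⟨m, hm⟩ := h8_val_unr 2 A hA c hc0 hfix
    refine ⟨m, ?_⟩
    have h1 : A.valuation (ζ - 1) = A.valuation ((2 : ℕ) : Qb) := by
      rw [hζ2, show (-1 : Qb) - 1 = -((2 : ℕ) : Qb) by push_cast; ring, Valuation.map_neg]
    rw [h1]
    exact hm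
  · exact h8_val_tame q hq2 A hA ζ hζ c hc0 hc

end Coeff

/-! ### The main theorem -/

section Main

variable (M q : ℕ) [NeZero M] [NeZero q] [Fact q.Prime] (hqM : ¬ q ∣ M)
  (A : ValuationSubring Qb)

omit [NeZero q] in
/-- a `q`-th root of unity `≠ 1` is primitive (`q` prime). -/
theorem h35_isPrimitiveRoot {ζ : Qb} (hζ : ζ ^ q = 1) (hζ1 : ζ ≠ 1) : IsPrimitiveRoot ζ q := by
  have hq : q.Prime := Fact.out
  have h1 : orderOf ζ ∣ q := orderOf_dvd_of_pow_eq_one hζ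
  rcases (Nat.dvd_prime hq).1 h1 with h | h
  · exact absurd (orderOf_eq_one_iff.1 h) hζ1
  · rw [← h]
    exact IsPrimitiveRoot.orderOf ζ

omit [NeZero q] in
theorem h35_zeta_sub_one_ne {ζ : Qb} (hζ1 : ζ ≠ 1) : ζ - 1 ≠ 0 := sub_ne_zero.2 hζ1

omit [Fact (Nat.Prime q)] in
theorem h35_zeta_sub_one_mem {ζ : Qb} (hζ : ζ ^ q = 1) : ζ - 1 ∈ A := by
  have h := h35_root_zpow_mem A (NeZero.pos q) hζ 1
  rw [zpow_one] at h
  exact sub_mem h A.one_mem

omit [NeZero q] in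
/-- `ζ - 1` is a non-unit of `A` (every prime `q`, including `2`). -/
theorem h35_zeta_sub_one_inv_not_mem (hA : A.LiesOverPrime q) {ζ : Qb} (hζ : ζ ^ q = 1)
    (hζ1 : ζ ≠ 1) : (ζ - 1)⁻¹ ∉ A := by
  have hπlt := h35_val_zeta_lt q A hA ζ (h35_isPrimitiveRoot q hζ hζ1)
  intro h
  have h1 : A.valuation (ζ - 1)⁻¹ ≤ 1 := (A.valuation_le_one_iff _).2 h
  rw [map_inv₀] at h1
  have h2 : 0 < A.valuation (ζ - 1) :=
    zero_lt_iff.2 ((map_ne_zero _).2 (h35_zeta_sub_one_ne hζ1))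
  have h3 : 1 ≤ A.valuation (ζ - 1) := by
    rw [inv_le_one₀ h2] at h1
    exact h1
  exact absurd hπlt (not_lt.2 h3)

omit [NeZero q] in
/-- `(ζ - 1) ^ (q - 1) = q * ε` with `ε` a unit of `A` (helper98's change-of-uniformiser
binder). -/
theorem h35_zeta_unif {ζ : Qb} (hζ : ζ ^ q = 1) (hζ1 : ζ ≠ 1) :
    ∃ ε : Qb, ε ∈ A ∧ ε⁻¹ ∈ A ∧ ε ≠ 0 ∧ (ζ - 1) ^ (q - 1) = (q : Qb) * ε := by
  have hq : q.Prime := Fact.out
  have hq0 : (q : Qb) ≠ 0 := Nat.cast_ne_zero.2 hq.ne_zero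
  have hπ0 := h35_zeta_sub_one_ne hζ1
  have hv := h8_val_p q A ζ (h35_isPrimitiveRoot q hζ hζ1)
  have hval : A.valuation ((ζ - 1) ^ (q - 1) / (q : Qb)) = 1 := by
    rw [map_div₀, map_pow, ← hv]
    exact div_self ((map_ne_zero _).2 hq0)
  obtain ⟨h1, h2⟩ := h8_unit_of_val_one A _ hval
  exact ⟨_, h1, h2, div_ne_zero (pow_ne_zero _ hπ0) hq0, by field_simp⟩

/-- **(V11-EX)**: every nonzero inertia-fixed function of level `M q²` has a `(ζ - 1)`-adic
Gauss order on the middle expansion. -/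
theorem h35_mid_gv_exists (hA : A.LiesOverPrime q) (ζ : Qb) (hζq : ζ ^ q = 1) (hζ1 : ζ ≠ 1)
    (f : ↥(modularFunctionFieldBar (M * q * q))) (hf : f ≠ 0)
    (hfix : f ∈ h69_F0 (M * q * q) (A.inertiaSubgroupIn ℚ)) :
    ∃ n : ℤ, h98_GV A (ζ - 1) (h36_mid M q hqM ζ hζq hζ1 f) n := by
  have hq : q.Prime := Fact.out
  have hζ : IsPrimitiveRoot ζ q := h35_isPrimitiveRoot q hζq hζ1
  have hπ0 : ζ - 1 ≠ 0 := h35_zeta_sub_one_ne hζ1
  have hπA : ζ - 1 ∈ A := h35_zeta_sub_one_mem q A hζq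
  have hπlt := h35_val_zeta_lt q A hA ζ hζ
  have hπnon : ζ - 1 ∈ A.nonunits := (ValuationSubring.mem_nonunits_iff A).2 hπlt
  have hπn : (ζ - 1)⁻¹ ∉ A := h35_zeta_sub_one_inv_not_mem q A hA hζq hζ1
  -- the uniformiser property of `ζ - 1` on the field fixed by `I_ζ`
  have hdv : ∀ c ∈ h35_Cz A ζ, c ≠ 0 →
      ∃ n : ℤ, c * (ζ - 1) ^ (-n) ∈ A ∧ (c * (ζ - 1) ^ (-n))⁻¹ ∈ A := by
    intro c hc hc0
    obtain ⟨n, hn⟩ := h35_val_Cz q A hA ζ hζ c hc0 hc
    refine ⟨n, h8_unit_of_val_one A _ ?_⟩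
    rw [map_mul, map_zpow₀, hn, ← zpow_add₀ ((map_ne_zero _).2 hπ0), add_neg_cancel, zpow_zero]
  -- fixed bounded fraction
  obtain ⟨P, Q, hPfix, hQfix, hPB, hQB, hQ0, hfQ⟩ :=
    h35_exists_fixed_midB_frac M q hqM A f hfix
  set E := h36_mid M q hqM ζ hζq hζ1 with hE
  -- bounded + fixed coefficients ⟹ bounded `C`-series
  have hBS : ∀ x : ↥(modularFunctionFieldBar (M * q * q)),
      x ∈ h69_F0 (M * q * q) (A.inertiaSubgroupIn ℚ) → x ∈ h35_MidB M q hqM A →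
      E x ∈ h35_BS A (h35_Cz A ζ) (ζ - 1) hπA := by
    intro x hxfix hxB
    refine ⟨fun i σ hσ hσζ => ?_, ?_⟩
    · have h1 := h35_mid_smul M q hqM σ ζ hζq hζ1 ζ hζq hζ1 hσζ x
      rw [(h69_mem_F0 (M * q * q) _ x).1 hxfix σ hσ] at h1
      have h2 := congrArg (fun s : LaurentSeries Qb => s.coeff i) h1
      simp only [coeffMap_coeff] at h2
      exact h2.symm
    · obtain ⟨c, hc, hcg⟩ := hxB ζ hζq hζ1
      obtain ⟨n, t, ht, hnt⟩ := h64_rankOne_Qbar hq A hA (ζ - 1) hπnon c hc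
      refine ⟨n, fun i => ?_⟩
      have h1 := hcg i
      rw [h22_coeff_C_mul] at h1
      have e : (ζ - 1) ^ n * (E x).coeff i = t * (c * (E x).coeff i) := by
        rw [hnt]; ring
      rw [e]
      exact A.mul_mem _ _ ht h1
  have hEf : E f ≠ 0 := (map_ne_zero E).2 hf
  have hEQ : E Q ≠ 0 := (map_ne_zero E).2 hQ0
  exact h35_GV_of_ratio hπ0 hπA hπn hdv (E f) (E P) (E Q) hEf hEQ (hBS P hPfix hPB)
    (hBS Q hQfix hQB) (by rw [← map_mul, hfQ])

/-- (V11-EX) in the literal shape of the `hsc` binder of helper98's `h98_gv`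
(`S36/h98_GaussFun`): `E := h36_mid ζ`, `F0 := h69_F0 (M q²) I`, `π := ζ - 1`. -/
theorem h35_mid_hsc (hA : A.LiesOverPrime q) (ζ : Qb) (hζq : ζ ^ q = 1) (hζ1 : ζ ≠ 1) :
    ∀ f : h69_F0 (M * q * q) (A.inertiaSubgroupIn ℚ), f ≠ 0 →
      ∃ n : ℤ, h98_GV A (ζ - 1)
        (h36_mid M q hqM ζ hζq hζ1 (f : ↥(modularFunctionFieldBar (M * q * q)))) n :=
  fun f hf => h35_mid_gv_exists M q hqM A hA ζ hζq hζ1 f
    (fun h => hf (Subtype.ext h)) f.2

end Main

end Fermat.Agent.S36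

end
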