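import Mathlib
import Fermat.Agent.S36.h36_W2
import Fermat.Agent.S36.h70_TorInst
import Fermat.Agent.S18.h19_ResField

/-!
# S36, row I-VAL: existence at the two cusp expansions, the level-`q` valuations, the table (V0)

* `h36_smul_eq`, `h36_W_galois`, `h36_W_mem_F0` : the swap `h36_W` commutes with the arithmetic
  Galois action and preserves `h69_F0`;
* `h36_ex0`, `h36_ex2` : `h36_EX c` for `c = 0, 2` (from `h22_int_ser`);
* `h36_emb1`, `h36_w1` : the two expansions / valuations at level `L q`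
  (`0` = expansion at `∞`, `Z_F`;  `1` = expansion at `∞` after `h60_w`, `Z_V`), with
  `h36_w1_ex`, `h36_w1_gv`, `h36_w1_eq`, `h36_w1_isVal`, `h36_w1_q`;
* series identities `h36_emb_i0`, `h36_emb_i2` and the Gauss-order table `h36_gv_i0`, `h36_gv_i2`;
* `h36_GV_twist` : a twist by a `q`-th root of unity preserves Gauss orders (and reductions:
  `h36_twist_Os`);
* **(V0)** in the `ℤ`-valued form of `h70_torM`: `h36_V0a0`, `h36_V0a1`, `h36_V0a2`, `h36_V0b0`,
  `h36_V0b1`, `h36_V0b2`.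
-/

set_option autoImplicit false
set_option synthInstance.maxHeartbeats 400000
set_option linter.style.haveILetI false
set_option linter.unusedSectionVars false

noncomputable section

open ModularCurve AlgebraicCurve

namespace Fermat.Agent.S36

open Fermat.Agent.S34 Fermat.Agent.S37 Fermat.Agent.S24 Fermat.Agent.S35 Fermat.Agent.S18
  Fermat.Agent.GAL Fermat.Agent.S40

local notation "Qb" => AlgebraicClosure ℚ

/-! ## Galois equivariance of the swap -/

section Galois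

theorem h36_smul_eq (N : ℕ) (σ : Qb ≃ₐ[ℚ] Qb) (x : ↥(modularFunctionFieldBar N)) :
    arithmeticGalois (modularFunctionFieldFull N) σ • x =
      arithmeticRingAut (modularFunctionFieldFull N) σ x := rfl

variable (L q : ℕ) [NeZero L] [NeZero q] [Fact q.Prime] (hqL : ¬ q ∣ L)

theorem h36_i0_galois (τ : Qb ≃ₐ[ℚ] Qb) (g : ↥(modularFunctionFieldBar (L * q))) :
    h36_i0 L q (arithmeticRingAut (modularFunctionFieldFull (L * q)) τ g) =
      arithmeticRingAut (modularFunctionFieldFull (L * q * q)) τ (h36_i0 L q g) :=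
  h49_alpha_galois (K := Qb) (N := L * q) (ℓ := q) τ g

theorem h36_i2_galois (τ : Qb ≃ₐ[ℚ] Qb) (g : ↥(modularFunctionFieldBar (L * q))) :
    h36_i2 L q hqL (arithmeticRingAut (modularFunctionFieldFull (L * q)) τ g) =
      arithmeticRingAut (modularFunctionFieldFull (L * q * q)) τ (h36_i2 L q hqL g) := by
  show heckeBetaBar Qb (L * q) q (h60_w L q hqL _) = _
  rw [h60_w_galois]
  exact h49_beta_galois (K := Qb) (N := L * q) (ℓ := q) τ (h60_w L q hqL g)

/-- The swap commutes with the arithmetic Galois action. -/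
theorem h36_W_galois (τ : Qb ≃ₐ[ℚ] Qb) (f : ↥(modularFunctionFieldBar (L * q * q))) :
    h36_W L q hqL (arithmeticRingAut (modularFunctionFieldFull (L * q * q)) τ f) =
      arithmeticRingAut (modularFunctionFieldFull (L * q * q)) τ (h36_W L q hqL f) := by
  set T : ↥(modularFunctionFieldBar (L * q * q)) →+* ↥(modularFunctionFieldBar (L * q * q)) :=
    ((arithmeticRingAut (modularFunctionFieldFull (L * q * q)) τ :
      ↥(modularFunctionFieldBar (L * q * q)) ≃+* ↥(modularFunctionFieldBar (L * q * q))) :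
        ↥(modularFunctionFieldBar (L * q * q)) →+* ↥(modularFunctionFieldBar (L * q * q))) with hT
  have hTa : ∀ x, T x = arithmeticRingAut (modularFunctionFieldFull (L * q * q)) τ x :=
    fun _ => rfl
  have key : (h36_W L q hqL).comp T = T.comp (h36_W L q hqL) := by
    refine h36_hom_ext L q hqL (fun g => ?_) (fun g => ?_)
    · show h36_W L q hqL (T (h36_i0 L q g)) = T (h36_W L q hqL (h36_i0 L q g))
      rw [hTa, hTa, ← h36_i0_galois, h36_W_i0, h36_W_i0, h36_i2_galois]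
    · show h36_W L q hqL (T (h36_i2 L q hqL g)) = T (h36_W L q hqL (h36_i2 L q hqL g))
      rw [hTa, hTa, ← h36_i2_galois, h36_W_i2, h36_W_i2, h36_i0_galois]
  have := congrArg (fun φ : ↥(modularFunctionFieldBar (L * q * q)) →+*
    ↥(modularFunctionFieldBar (L * q * q)) => φ f) key
  exact this

/-- The swap preserves the `H`-fixed functions. -/
theorem h36_W_mem_F0 (H : Subgroup (Qb ≃ₐ[ℚ] Qb)) (f : ↥(modularFunctionFieldBar (L * q * q)))
    (hf : f ∈ h69_F0 (L * q * q) H) : h36_W L q hqL f ∈ h69_F0 (L * q * q) H := by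
  rw [h69_mem_F0] at hf ⊢
  intro σ hσ
  rw [h36_smul_eq, ← h36_W_galois, ← h36_smul_eq, hf σ hσ]

/-- The level-`q` swap preserves the `H`-fixed functions. -/
theorem h36_w_mem_F0 (H : Subgroup (Qb ≃ₐ[ℚ] Qb)) (g : ↥(modularFunctionFieldBar (L * q)))
    (hg : g ∈ h69_F0 (L * q) H) : h60_w L q hqL g ∈ h69_F0 (L * q) H := by
  rw [h69_mem_F0] at hg ⊢
  intro σ hσ
  rw [h36_smul_eq, ← h60_w_galois, ← h36_smul_eq, hg σ hσ]

end Galois

/-! ## Existence of the Gauss order at the expansion at `∞` -/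

section Exist

variable (q : ℕ) [NeZero q] [Fact q.Prime] (A : ValuationSubring Qb) (hA : A.LiesOverPrime q)

include hA in
/-- `h22_int_ser` in `h98_GV` form: every nonzero inertia-fixed function of level `N` has a
`q`-adic Gauss order at `∞`. -/
theorem h36_gv_int_ser (N : ℕ) [NeZero N] (f : ↥(modularFunctionFieldBar N)) (hf : f ≠ 0)
    (hfix : f ∈ h69_F0 N (A.inertiaSubgroupIn ℚ)) :
    ∃ n : ℤ, h98_GV A (q : Qb) (f : LaurentSeries Qb) n := by
  obtain ⟨n, y₁, y₂, h1, h2, h⟩ := h22_int_ser q A hA N f hf hfix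
  refine ⟨n, ?_⟩
  have e : (((algebraMap Qb ↥(modularFunctionFieldBar N) ((q : Qb) ^ n))⁻¹ * f :
      ↥(modularFunctionFieldBar N)) : LaurentSeries Qb) =
      algebraMap Qb (LaurentSeries Qb) ((q : Qb) ^ (-n)) * (f : LaurentSeries Qb) := by
    rw [zpow_neg, map_inv₀]
    rfl
  rw [e] at h
  have hmem : algebraMap Qb (LaurentSeries Qb) ((q : Qb) ^ (-n)) * (f : LaurentSeries Qb) ∈
      h60_Os A := ⟨y₁, y₂, h2, h⟩
  refine ⟨hmem, fun h0 => ?_⟩
  have h3 := h60_rs_spec A ⟨_, hmem⟩ y₁ y₂ h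
  rw [h0, zero_mul] at h3
  exact h1 h3.symm

end Exist

section Level2

variable (L q : ℕ) [NeZero L] [NeZero q] [Fact q.Prime] (hqL : ¬ q ∣ L)
  (A : ValuationSubring Qb) (hA : A.LiesOverPrime q)

include hA in
/-- **(EX0)** -/
theorem h36_ex0 : h36_EX L q hqL A 0 := by
  intro f hf
  have hf' : (f : ↥(modularFunctionFieldBar (L * q * q))) ≠ 0 := fun h => hf (Subtype.ext h)
  exact h36_gv_int_ser q A hA (L * q * q) _ hf' f.2

include hA in
/-- **(EX2)** -/
theorem h36_ex2 : h36_EX L q hqL A 2 := by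
  intro f hf
  have hf' : (f : ↥(modularFunctionFieldBar (L * q * q))) ≠ 0 := fun h => hf (Subtype.ext h)
  have hW : h36_W L q hqL (f : ↥(modularFunctionFieldBar (L * q * q))) ≠ 0 :=
    (map_ne_zero _).mpr hf'
  exact h36_gv_int_ser q A hA (L * q * q) _ hW (h36_W_mem_F0 L q hqL _ _ f.2)

/-! ## The two valuations at level `L q` -/

/-- The two expansions of `F(L q)`: at `∞`, and at `∞` after the swap `h60_w`. -/
def h36_emb1 : Fin 2 → (↥(modularFunctionFieldBar (L * q)) →+* LaurentSeries Qb) :=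
  ![(modularFunctionFieldBar (L * q)).val.toRingHom,
    ((modularFunctionFieldBar (L * q)).val.toRingHom).comp (h60_w L q hqL)]

theorem h36_emb1_zero (g : ↥(modularFunctionFieldBar (L * q))) :
    h36_emb1 L q hqL 0 g = (g : LaurentSeries Qb) := rfl

theorem h36_emb1_one (g : ↥(modularFunctionFieldBar (L * q))) :
    h36_emb1 L q hqL 1 g = ((h60_w L q hqL g : ↥(modularFunctionFieldBar (L * q))) :
      LaurentSeries Qb) := rfl

theorem h36_emb1_algebraMap (c : Fin 2) (a : Qb) :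
    h36_emb1 L q hqL c (algebraMap Qb ↥(modularFunctionFieldBar (L * q)) a) =
      algebraMap Qb (LaurentSeries Qb) a := by
  fin_cases c
  · rfl
  · show ((h60_w L q hqL (algebraMap Qb ↥(modularFunctionFieldBar (L * q)) a) :
      ↥(modularFunctionFieldBar (L * q))) : LaurentSeries Qb) = _
    rw [h60_w_algebraMap]
    rfl

/-- **The two vertical valuations at level `L q`** (`0` = `Z_F`, `1` = `Z_V`). -/
def h36_w1 (c : Fin 2) (g : ↥(h69_F0 (L * q) (A.inertiaSubgroupIn ℚ))) : ℤ :=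
  h36_gord A (q : Qb) (h36_emb1 L q hqL c (g : ↥(modularFunctionFieldBar (L * q))))

include hA in
theorem h36_w1_ex (c : Fin 2) (g : ↥(h69_F0 (L * q) (A.inertiaSubgroupIn ℚ))) (hg : g ≠ 0) :
    ∃ n : ℤ, h98_GV A (q : Qb)
      (h36_emb1 L q hqL c (g : ↥(modularFunctionFieldBar (L * q)))) n := by
  have hg' : (g : ↥(modularFunctionFieldBar (L * q))) ≠ 0 := fun h => hg (Subtype.ext h)
  fin_cases c
  · exact h36_gv_int_ser q A hA (L * q) _ hg' g.2
  · exact h36_gv_int_ser q A hA (L * q) _ ((map_ne_zero (h60_w L q hqL)).mpr hg')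
      (h36_w_mem_F0 L q hqL _ _ g.2)

include hA in
theorem h36_w1_gv (c : Fin 2) (g : ↥(h69_F0 (L * q) (A.inertiaSubgroupIn ℚ))) (hg : g ≠ 0) :
    h98_GV A (q : Qb) (h36_emb1 L q hqL c (g : ↥(modularFunctionFieldBar (L * q))))
      (h36_w1 L q hqL A c g) :=
  h36_gord_spec A (h36_w1_ex L q hqL A hA c g hg)

include hA in
theorem h36_w1_eq (c : Fin 2) (g : ↥(h69_F0 (L * q) (A.inertiaSubgroupIn ℚ))) (n : ℤ)
    (h : h98_GV A (q : Qb) (h36_emb1 L q hqL c (g : ↥(modularFunctionFieldBar (L * q)))) n) :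
    h36_w1 L q hqL A c g = n :=
  h36_gord_eq A (h36_q_spec q A hA).1 (h36_q_spec q A hA).2.1 (h36_q_spec q A hA).2.2 h

theorem h36_w1_zero (c : Fin 2) : h36_w1 L q hqL A c 0 = 0 := by
  show h36_gord A (q : Qb) (h36_emb1 L q hqL c (0 : ↥(modularFunctionFieldBar (L * q)))) = 0
  rw [map_zero]
  exact h36_gord_zero A _

include hA in
theorem h36_w1_eq_gv (c : Fin 2) :
    h36_w1 L q hqL A c =
      h98_gv (h36_emb1 L q hqL c) (h69_F0 (L * q) (A.inertiaSubgroupIn ℚ)) (q : Qb)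
        (h36_w1_ex L q hqL A hA c) := by
  funext g
  by_cases hg : g = 0
  · rw [hg, h36_w1_zero, h98_gv_zero]
  · exact h36_w1_eq L q hqL A hA c g _ (h98_gv_spec _ _ _ (h36_w1_ex L q hqL A hA c) g hg)

include hA in
theorem h36_w1_isVal (c : Fin 2) : h99_IsVal (h36_w1 L q hqL A c) := by
  rw [h36_w1_eq_gv L q hqL A hA c]
  exact h98_gv_isVal (h36_w1_ex L q hqL A hA c) (h36_q_spec q A hA).1 (h36_q_spec q A hA).2.1
    (h36_q_spec q A hA).2.2

include hA in
theorem h36_w1_nonneg_iff (c : Fin 2) (g : ↥(h69_F0 (L * q) (A.inertiaSubgroupIn ℚ)))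
    (hg : g ≠ 0) :
    0 ≤ h36_w1 L q hqL A c g ↔
      h36_emb1 L q hqL c (g : ↥(modularFunctionFieldBar (L * q))) ∈ h60_Os A := by
  rw [h36_w1_eq_gv L q hqL A hA c]
  exact h98_gv_nonneg_iff (h36_w1_ex L q hqL A hA c) (h36_q_spec q A hA).1
    (h36_q_spec q A hA).2.1 (h36_q_spec q A hA).2.2 g hg

include hA in
theorem h36_w1_pos_iff (c : Fin 2) (g : ↥(h69_F0 (L * q) (A.inertiaSubgroupIn ℚ)))
    (hg : g ≠ 0) :
    0 < h36_w1 L q hqL A c g ↔
      ∃ h : h36_emb1 L q hqL c (g : ↥(modularFunctionFieldBar (L * q))) ∈ h60_Os A,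
        h60_rs A ⟨_, h⟩ = 0 := by
  rw [h36_w1_eq_gv L q hqL A hA c]
  exact h98_gv_pos_iff (h36_w1_ex L q hqL A hA c) (h36_q_spec q A hA).1
    (h36_q_spec q A hA).2.1 (h36_q_spec q A hA).2.2 g hg

include hA in
/-- The Gauss order of a constant at level `L q`. -/
theorem h36_w1_const (c : Fin 2) (a u : Qb) (m : ℤ) (hu : u ∈ A) (hu' : u⁻¹ ∈ A) (hu0 : u ≠ 0)
    (ha : a = (q : Qb) ^ m * u) :
    h98_GV A (q : Qb) (h36_emb1 L q hqL c (algebraMap Qb ↥(modularFunctionFieldBar (L * q)) a))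
      m := by
  have hq0 : (q : Qb) ≠ 0 := (h36_q_spec q A hA).1
  rw [h36_emb1_algebraMap]
  have h2 := h98_GV_unit_mul (A := A) hq0 hu hu' hu0 (h98_GV_pi_zpow (A := A) hq0 m)
  rw [← map_mul, mul_comm, ← ha] at h2
  exact h2

include hA in
theorem h36_w1_q (c : Fin 2) :
    h36_w1 L q hqL A c ((q : ℕ) : ↥(h69_F0 (L * q) (A.inertiaSubgroupIn ℚ))) = 1 := by
  have h := h36_w1_const L q hqL A hA c (q : Qb) 1 1 (one_mem A)
    (by rw [inv_one]; exact one_mem A) one_ne_zero (by rw [zpow_one, mul_one])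
  refine h36_w1_eq L q hqL A hA c _ _ ?_
  have e : (((q : ℕ) : ↥(h69_F0 (L * q) (A.inertiaSubgroupIn ℚ))) :
      ↥(modularFunctionFieldBar (L * q))) =
      algebraMap Qb ↥(modularFunctionFieldBar (L * q)) (q : Qb) := by
    rw [map_natCast]
    rfl
  rw [e]
  exact h

/-- `w1 1 g = w1 0 (w g)`. -/
theorem h36_w1_one_eq (g : ↥(h69_F0 (L * q) (A.inertiaSubgroupIn ℚ))) :
    h36_w1 L q hqL A 1 g =
      h36_gord A (q : Qb) ((h60_w L q hqL (g : ↥(modularFunctionFieldBar (L * q))) :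
        ↥(modularFunctionFieldBar (L * q))) : LaurentSeries Qb) := rfl

/-! ## Twists by `q`-th roots of unity -/

include hA in
/-- A twist by a primitive `q`-th root of unity preserves `h60_Os A` and the reduction. -/
theorem h36_twist_Os (ζ : Qb) (hζ : IsPrimitiveRoot ζ q) {s : LaurentSeries Qb}
    (hs : s ∈ h60_Os A) :
    ∃ h : h64_twist ζ s ∈ h60_Os A, h60_rs A ⟨_, h⟩ = h60_rs A ⟨s, hs⟩ := by
  have hq : q.Prime := Fact.out
  haveI : CharP (IsLocalRing.ResidueField A) q := h19_residueField_charP A q hA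
  have hmem : ζ ∈ A := h8_zeta_mem q A ζ hζ
  have hpow : (⟨ζ, hmem⟩ : A) ^ q = 1 := Subtype.ext (by
    show ζ ^ q = 1
    exact hζ.pow_eq_one)
  have hu : IsUnit (⟨ζ, hmem⟩ : A) := IsUnit.of_pow_eq_one hpow hq.ne_zero
  set ζA : Aˣ := hu.unit with hζA
  have hζA' : ((ζA : Aˣ) : A) = ⟨ζ, hmem⟩ := hu.unit_spec
  have hζAq : ζA ^ q = 1 := Units.ext (by rw [Units.val_pow_eq_pow_val, hζA', hpow]; rfl)
  have hres := h60_units_map_residue A q ζA hζAq
  have h1 := h60_twist_mem A ζA hs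
  have h2 := h60_rs_twist A ζA hres ⟨s, hs⟩
  have e : h87_twist (Units.map ((A.subtype : A →+* Qb) : A →* Qb) ζA) s = h64_twist ζ s := by
    rw [h49_twist_eq, h59_twistHom_apply]
    congr 1
  have hmem' : h64_twist ζ s ∈ h60_Os A := by
    rw [← e]
    exact h1
  refine ⟨hmem', ?_⟩
  have e1 : (⟨_, hmem'⟩ : h60_Os A) = ⟨_, h1⟩ := Subtype.ext e.symm
  rw [e1]
  exact h2

theorem h36_twist_const (ζ : Qb) (a : Qb) :
    h64_twist ζ (algebraMap Qb (LaurentSeries Qb) a) = algebraMap Qb (LaurentSeries Qb) a := by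
  ext k
  rw [h64_twist_coeff, algebraMap_laurentSeries_eq_single]
  by_cases hk : k = 0
  · subst hk
    simp
  · rw [HahnSeries.coeff_single_of_ne hk, zero_mul]

include hA in
/-- A twist by a primitive `q`-th root of unity preserves Gauss orders. -/
theorem h36_GV_twist (ζ : Qb) (hζ : IsPrimitiveRoot ζ q) {π : Qb} {s : LaurentSeries Qb} {n : ℤ}
    (h : h98_GV A π s n) : h98_GV A π (h64_twist ζ s) n := by
  obtain ⟨h1, h2⟩ := h
  obtain ⟨h3, h4⟩ := h36_twist_Os q A hA ζ hζ h1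
  have hζ0 : ζ ≠ 0 := hζ.ne_zero (Fact.out : q.Prime).ne_zero
  refine h98_GV_of_eq h3 ?_ ?_
  · rw [h4]
    exact h2
  · rw [← h59_twistHom_apply ζ hζ0, ← h59_twistHom_apply ζ hζ0, map_mul, h59_twistHom_apply,
      h59_twistHom_apply, h36_twist_const]

/-! ## Series identities and the Gauss-order table -/

theorem h36_emb_i0_zero (g : ↥(modularFunctionFieldBar (L * q))) :
    h36_emb L q hqL 0 (h36_i0 L q g) = h36_emb1 L q hqL 0 g :=
  h36_coe_i0 L q g

theorem h36_emb_i0_one (g : ↥(modularFunctionFieldBar (L * q))) :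
    h36_emb L q hqL 1 (h36_i0 L q g) = h36_emb1 L q hqL 0 g :=
  h36_mid_i0 L q hqL (h36_zeta q) (h36_zeta_pow q) (h36_zeta_ne_one q) g

theorem h36_emb_i0_two (g : ↥(modularFunctionFieldBar (L * q))) :
    h36_emb L q hqL 2 (h36_i0 L q g) = qExpand Qb q (h36_emb1 L q hqL 1 g) := by
  rw [h36_emb_two, h36_W_i0, h36_coe_i2]
  rfl

theorem h36_emb_i2_zero (g : ↥(modularFunctionFieldBar (L * q))) :
    h36_emb L q hqL 0 (h36_i2 L q hqL g) = qExpand Qb q (h36_emb1 L q hqL 1 g) := by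
  rw [h36_emb_zero, h36_coe_i2]
  rfl

theorem h36_emb_i2_one (g : ↥(modularFunctionFieldBar (L * q))) :
    h36_emb L q hqL 1 (h36_i2 L q hqL g) = h64_twist (h36_zeta q) (h36_emb1 L q hqL 0 g) :=
  h36_mid_i2 L q hqL (h36_zeta q) (h36_zeta_pow q) (h36_zeta_ne_one q) g

theorem h36_emb_i2_two (g : ↥(modularFunctionFieldBar (L * q))) :
    h36_emb L q hqL 2 (h36_i2 L q hqL g) = h36_emb1 L q hqL 0 g := by
  rw [h36_emb_two, h36_W_i2, h36_coe_i0]
  rfl

/-- the source expansion at level `L q` of the expansion `c` along `i0`: `0, 0, 1`. -/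
def h36_src0 : Fin 3 → Fin 2 := ![0, 0, 1]

/-- the source expansion at level `L q` of the expansion `c` along `i2`: `1, 0, 0`. -/
def h36_src2 : Fin 3 → Fin 2 := ![1, 0, 0]

include hA in
/-- **(V0), Gauss-order form, along `i0`.** -/
theorem h36_gv_i0 (c : Fin 3) (g : ↥(modularFunctionFieldBar (L * q))) (n : ℤ)
    (h : h98_GV A (q : Qb) (h36_emb1 L q hqL (h36_src0 c) g) n) :
    h98_GV A (h36_pi q c) (h36_emb L q hqL c (h36_i0 L q g)) ((h36_e q c : ℤ) * n) := by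
  obtain ⟨ε, hε, hε', hε0, hpow⟩ := h36_pi_pow q A c
  fin_cases c
  · have h' : h98_GV A (q : Qb) (h36_emb L q hqL 0 (h36_i0 L q g)) n := by
      rw [h36_emb_i0_zero]
      exact h
    exact h98_GV_change hε hε' hε0 hpow h'
  · have h' : h98_GV A (q : Qb) (h36_emb L q hqL 1 (h36_i0 L q g)) n := by
      rw [h36_emb_i0_one]
      exact h
    exact h98_GV_change hε hε' hε0 hpow h'
  · have h' : h98_GV A (q : Qb) (h36_emb L q hqL 2 (h36_i0 L q g)) n := by
      rw [h36_emb_i0_two]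
      exact h36_GV_qExpand A q h
    exact h98_GV_change hε hε' hε0 hpow h'

include hA in
/-- **(V0), Gauss-order form, along `i2`.** -/
theorem h36_gv_i2 (c : Fin 3) (g : ↥(modularFunctionFieldBar (L * q))) (n : ℤ)
    (h : h98_GV A (q : Qb) (h36_emb1 L q hqL (h36_src2 c) g) n) :
    h98_GV A (h36_pi q c) (h36_emb L q hqL c (h36_i2 L q hqL g)) ((h36_e q c : ℤ) * n) := by
  obtain ⟨ε, hε, hε', hε0, hpow⟩ := h36_pi_pow q A c
  fin_cases c
  · have h' : h98_GV A (q : Qb) (h36_emb L q hqL 0 (h36_i2 L q hqL g)) n := by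
      rw [h36_emb_i2_zero]
      exact h36_GV_qExpand A q h
    exact h98_GV_change hε hε' hε0 hpow h'
  · have h' : h98_GV A (q : Qb) (h36_emb L q hqL 1 (h36_i2 L q hqL g)) n := by
      rw [h36_emb_i2_one]
      exact h36_GV_twist q A hA _ (h36_zeta_prim q) h
    exact h98_GV_change hε hε' hε0 hpow h'
  · have h' : h98_GV A (q : Qb) (h36_emb L q hqL 2 (h36_i2 L q hqL g)) n := by
      rw [h36_emb_i2_two]
      exact h
    exact h98_GV_change hε hε' hε0 hpow h'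

/-! ## (MID-3): the reduction table -/

theorem h36_rs_i0_zero (g : ↥(modularFunctionFieldBar (L * q)))
    (h : h36_emb1 L q hqL 0 g ∈ h60_Os A) :
    ∃ h' : h36_emb L q hqL 0 (h36_i0 L q g) ∈ h60_Os A, h60_rs A ⟨_, h'⟩ = h60_rs A ⟨_, h⟩ :=
  h98_rs_congr h (h36_emb_i0_zero L q hqL g).symm

theorem h36_rs_i0_one (g : ↥(modularFunctionFieldBar (L * q)))
    (h : h36_emb1 L q hqL 0 g ∈ h60_Os A) :
    ∃ h' : h36_emb L q hqL 1 (h36_i0 L q g) ∈ h60_Os A, h60_rs A ⟨_, h'⟩ = h60_rs A ⟨_, h⟩ :=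
  h98_rs_congr h (h36_emb_i0_one L q hqL g).symm

theorem h36_rs_i0_two (g : ↥(modularFunctionFieldBar (L * q)))
    (h : h36_emb1 L q hqL 1 g ∈ h60_Os A) :
    ∃ h' : h36_emb L q hqL 2 (h36_i0 L q g) ∈ h60_Os A,
      h60_rs A ⟨_, h'⟩ = qExpand (IsLocalRing.ResidueField A) q (h60_rs A ⟨_, h⟩) := by
  obtain ⟨h1, h2⟩ := h98_rs_congr (h60_qExpand_mem A q h) (h36_emb_i0_two L q hqL g).symm
  exact ⟨h1, h2.trans (h60_rs_qExpand A q ⟨_, h⟩)⟩

theorem h36_rs_i2_zero (g : ↥(modularFunctionFieldBar (L * q)))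
    (h : h36_emb1 L q hqL 1 g ∈ h60_Os A) :
    ∃ h' : h36_emb L q hqL 0 (h36_i2 L q hqL g) ∈ h60_Os A,
      h60_rs A ⟨_, h'⟩ = qExpand (IsLocalRing.ResidueField A) q (h60_rs A ⟨_, h⟩) := by
  obtain ⟨h1, h2⟩ := h98_rs_congr (h60_qExpand_mem A q h) (h36_emb_i2_zero L q hqL g).symm
  exact ⟨h1, h2.trans (h60_rs_qExpand A q ⟨_, h⟩)⟩

include hA in
theorem h36_rs_i2_one (g : ↥(modularFunctionFieldBar (L * q)))
    (h : h36_emb1 L q hqL 0 g ∈ h60_Os A) :
    ∃ h' : h36_emb L q hqL 1 (h36_i2 L q hqL g) ∈ h60_Os A, h60_rs A ⟨_, h'⟩ = h60_rs A ⟨_, h⟩ := by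
  obtain ⟨h3, h4⟩ := h36_twist_Os q A hA _ (h36_zeta_prim q) h
  obtain ⟨h1, h2⟩ := h98_rs_congr h3 (h36_emb_i2_one L q hqL g).symm
  exact ⟨h1, h2.trans h4⟩

theorem h36_rs_i2_two (g : ↥(modularFunctionFieldBar (L * q)))
    (h : h36_emb1 L q hqL 0 g ∈ h60_Os A) :
    ∃ h' : h36_emb L q hqL 2 (h36_i2 L q hqL g) ∈ h60_Os A, h60_rs A ⟨_, h'⟩ = h60_rs A ⟨_, h⟩ :=
  h98_rs_congr h (h36_emb_i2_two L q hqL g).symm


/-! ## (V0) in the `ℤ`-valued form of `h70_torM` -/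

theorem h36_coe_aF0 (g : ↥(h69_F0 (L * q) (A.inertiaSubgroupIn ℚ))) :
    ((h70_aF0 (L * q) q (A.inertiaSubgroupIn ℚ) g :
      ↥(h69_F0 (L * q * q) (A.inertiaSubgroupIn ℚ))) : ↥(modularFunctionFieldBar (L * q * q))) =
      h36_i0 L q (g : ↥(modularFunctionFieldBar (L * q))) := rfl

theorem h36_coe_bF0 (g : ↥(h69_F0 (L * q) (A.inertiaSubgroupIn ℚ))) :
    ((h70_bF0 (L * q) q (A.inertiaSubgroupIn ℚ) g :
      ↥(h69_F0 (L * q * q) (A.inertiaSubgroupIn ℚ))) : ↥(modularFunctionFieldBar (L * q * q))) =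
      h36_i2 L q hqL (h60_w L q hqL (g : ↥(modularFunctionFieldBar (L * q)))) :=
  (h36_i2_w L q hqL _).symm

include hA in
/-- **(V0)** along `a`, all three components: `w2 c (a g) = e_c * w1 (src0 c) g`. -/
theorem h36_V0a (c : Fin 3) (g : ↥(h69_F0 (L * q) (A.inertiaSubgroupIn ℚ))) (hg : g ≠ 0) :
    h36_w2 L q hqL A c (h70_aF0 (L * q) q (A.inertiaSubgroupIn ℚ) g) =
      (h36_e q c : ℤ) * h36_w1 L q hqL A (h36_src0 c) g := by
  refine h36_w2_eq L q hqL A hA c _ _ ?_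
  rw [h36_coe_aF0]
  exact h36_gv_i0 L q hqL A hA c _ _ (h36_w1_gv L q hqL A hA _ g hg)

include hA in
/-- **(V0)** along `b`, all three components: `w2 c (b g) = e_c * w1 (![0, 1, 1] c) g`. -/
theorem h36_V0b (c : Fin 3) (g : ↥(h69_F0 (L * q) (A.inertiaSubgroupIn ℚ))) (hg : g ≠ 0) :
    h36_w2 L q hqL A c (h70_bF0 (L * q) q (A.inertiaSubgroupIn ℚ) g) =
      (h36_e q c : ℤ) * h36_w1 L q hqL A (![0, 1, 1] c) g := by
  refine h36_w2_eq L q hqL A hA c _ _ ?_
  rw [h36_coe_bF0]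
  refine h36_gv_i2 L q hqL A hA c _ _ ?_
  fin_cases c
  · -- source `1` of `w g` is `coe (w (w g)) = coe g`
    have e : h36_emb1 L q hqL (h36_src2 0)
        (h60_w L q hqL (g : ↥(modularFunctionFieldBar (L * q)))) =
        h36_emb1 L q hqL 0 (g : ↥(modularFunctionFieldBar (L * q))) := by
      show ((h60_w L q hqL (h60_w L q hqL (g : ↥(modularFunctionFieldBar (L * q)))) :
        ↥(modularFunctionFieldBar (L * q))) : LaurentSeries Qb) = _
      rw [h60_w_w]
      rfl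
    have h0 := h36_w1_gv L q hqL A hA 0 g hg
    rw [← e] at h0
    exact h0
  · exact h36_w1_gv L q hqL A hA 1 g hg
  · exact h36_w1_gv L q hqL A hA 1 g hg

include hA in
theorem h36_V0a0 (g : ↥(h69_F0 (L * q) (A.inertiaSubgroupIn ℚ))) (hg : g ≠ 0) :
    h36_w2 L q hqL A 0 (h70_aF0 (L * q) q (A.inertiaSubgroupIn ℚ) g) =
      h36_w1 L q hqL A 0 g := by
  have h := h36_V0a L q hqL A hA 0 g hg
  simpa [h36_src0] using h

include hA in
theorem h36_V0a1 (g : ↥(h69_F0 (L * q) (A.inertiaSubgroupIn ℚ))) (hg : g ≠ 0) :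
    h36_w2 L q hqL A 1 (h70_aF0 (L * q) q (A.inertiaSubgroupIn ℚ) g) =
      ((q : ℤ) - 1) * h36_w1 L q hqL A 0 g := by
  have hq : q.Prime := Fact.out
  have h := h36_V0a L q hqL A hA 1 g hg
  have e : ((h36_e q 1 : ℕ) : ℤ) = (q : ℤ) - 1 := by
    rw [h36_e_one]
    have := hq.one_le
    omega
  rw [e] at h
  exact h

include hA in
theorem h36_V0a2 (g : ↥(h69_F0 (L * q) (A.inertiaSubgroupIn ℚ))) (hg : g ≠ 0) :
    h36_w2 L q hqL A 2 (h70_aF0 (L * q) q (A.inertiaSubgroupIn ℚ) g) =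
      h36_w1 L q hqL A 1 g := by
  have h := h36_V0a L q hqL A hA 2 g hg
  simpa [h36_src0] using h

include hA in
theorem h36_V0b0 (g : ↥(h69_F0 (L * q) (A.inertiaSubgroupIn ℚ))) (hg : g ≠ 0) :
    h36_w2 L q hqL A 0 (h70_bF0 (L * q) q (A.inertiaSubgroupIn ℚ) g) =
      h36_w1 L q hqL A 0 g := by
  have h := h36_V0b L q hqL A hA 0 g hg
  simpa using h

include hA in
theorem h36_V0b1 (g : ↥(h69_F0 (L * q) (A.inertiaSubgroupIn ℚ))) (hg : g ≠ 0) :
    h36_w2 L q hqL A 1 (h70_bF0 (L * q) q (A.inertiaSubgroupIn ℚ) g) =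
      ((q : ℤ) - 1) * h36_w1 L q hqL A 1 g := by
  have hq : q.Prime := Fact.out
  have h := h36_V0b L q hqL A hA 1 g hg
  have e : ((h36_e q 1 : ℕ) : ℤ) = (q : ℤ) - 1 := by
    rw [h36_e_one]
    have := hq.one_le
    omega
  rw [e] at h
  simpa using h

include hA in
theorem h36_V0b2 (g : ↥(h69_F0 (L * q) (A.inertiaSubgroupIn ℚ))) (hg : g ≠ 0) :
    h36_w2 L q hqL A 2 (h70_bF0 (L * q) q (A.inertiaSubgroupIn ℚ) g) =
      h36_w1 L q hqL A 1 g := by
  have h := h36_V0b L q hqL A hA 2 g hg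
  simpa using h

end Level2

end Fermat.Agent.S36
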