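import Fermat.Agent.S36.h41_MidTheta
import Fermat.Agent.S36.h36_W2
import Fermat.Agent.S36.h20_Rho
import Fermat.Agent.S36.h69_DegQ2

/-!
# S36, row I-VAL, (MID-4): the element `z` with `w2 c z = (0, 1, 0)` (helper41)

Level `L q²`, `q ∤ L`, `A` over `q`, `I` the inertia group of `A`, `F0 = h69_F0 (L q q) I`.
`z := i2 j - i0 j` with `j = h59_jbar (L q)`:

* `h41_zF0`   : `z` as an element of `F0`;
* `h41_mid4`  : `z ≠ 0` and the Gauss orders of the three expansions `h36_emb c z` in the
  uniformisers `q, ζ - 1, q` are `0, 1, 0` (target statement of helper36's I-VAL EXPORT v1).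
-/

set_option autoImplicit false
set_option synthInstance.maxHeartbeats 400000

noncomputable section

open ModularCurve AlgebraicCurve

namespace Fermat.Agent.S36

open Fermat.Agent.S34 Fermat.Agent.S37 Fermat.Agent.S24 Fermat.Agent.S35 Fermat.Agent.S18
  Fermat.Agent.GAL Fermat.Agent.S40

local notation "Qb" => AlgebraicClosure ℚ

section Series

variable {K : Type*} [Field K] (A : ValuationSubring K)

/-- An `A`-integral series with nonzero reduction has Gauss order `0`. -/
theorem h41_GV_int (π : K) (Y : LaurentSeries A)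
    (hY : coeffMap (IsLocalRing.residue A) Y ≠ 0) : h98_GV A π (coeffMap A.subtype Y) 0 := by
  refine h98_GV_of_eq (h60_int_mem A Y) ?_ (by simp)
  rw [h60_rs_int]
  exact hY

/-- `j(t^(q²)) - j(t)` over any nontrivial ring is nonzero (coefficient of `t⁻¹`). -/
theorem h41_jdiff_ne_zero (R : Type*) [CommRing R] [Nontrivial R] (q : ℕ) [NeZero q]
    (hq : 2 ≤ q) : qExpand R q (qExpand R q (jqModC R)) - jqModC R ≠ 0 := by
  intro h
  have h1 := congrArg (fun s : LaurentSeries R => s.coeff (-1)) h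
  simp only [HahnSeries.coeff_sub, HahnSeries.coeff_zero] at h1
  rw [qExpand_coeff_of_not_dvd (N := q), coeff_jqModC_neg_one] at h1
  · simp at h1
  · rintro ⟨m, hm⟩
    have h2 : (q : ℤ) ∣ 1 := ⟨-m, by linarith⟩
    have h3 := Int.le_of_dvd one_pos h2
    have h4 : (2 : ℤ) ≤ q := by exact_mod_cast hq
    omega

end Series

section Mid4

variable (L q : ℕ) [NeZero L] [NeZero q] [Fact q.Prime] (hqL : ¬ q ∣ L)
  (A : ValuationSubring Qb) (hA : A.LiesOverPrime q)

/-- `z = i2 j - i0 j`, `j = h59_jbar (L q)`, as an element of `F0 (L q q)`. -/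
def h41_zF0 : h69_F0 (L * q * q) (A.inertiaSubgroupIn ℚ) :=
  h70_bF0 (L * q) q (A.inertiaSubgroupIn ℚ)
      (h70_bF0 L q (A.inertiaSubgroupIn ℚ) (h69_jF0 L (A.inertiaSubgroupIn ℚ)))
    - h70_aF0 (L * q) q (A.inertiaSubgroupIn ℚ) (h69_jF0 (L * q) (A.inertiaSubgroupIn ℚ))

include hqL in
theorem h41_coe_zF0 :
    ((h41_zF0 L q A : h69_F0 (L * q * q) (A.inertiaSubgroupIn ℚ)) :
        modularFunctionFieldBar (L * q * q))
      = h36_i2 L q hqL (h59_jbar (L * q)) - h36_i0 L q (h59_jbar (L * q)) := by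
  show heckeBetaBar Qb (L * q) q (heckeBetaBar Qb L q (h59_jbar L))
      - heckeAlphaBar Qb (L * q) q (h59_jbar (L * q))
    = heckeBetaBar Qb (L * q) q (h60_w L q hqL (h59_jbar (L * q)))
      - heckeAlphaBar Qb (L * q) q (h59_jbar (L * q))
  rw [h20_w_J0]
  rfl

include hqL in
/-- The standard expansion of `z` is `j(t^(q²)) - j(t)`. -/
theorem h41_series_zF0 :
    (((h41_zF0 L q A : h69_F0 (L * q * q) (A.inertiaSubgroupIn ℚ)) :
        modularFunctionFieldBar (L * q * q)) : LaurentSeries Qb)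
      = qExpand Qb q (qExpand Qb q (jqModC Qb)) - jqModC Qb := by
  rw [h41_coe_zF0 L q hqL A]
  have h1 : ((h36_i2 L q hqL (h59_jbar (L * q)) - h36_i0 L q (h59_jbar (L * q)) :
      modularFunctionFieldBar (L * q * q)) : LaurentSeries Qb)
      = ((h36_i2 L q hqL (h59_jbar (L * q)) : modularFunctionFieldBar (L * q * q)) :
          LaurentSeries Qb)
        - ((h36_i0 L q (h59_jbar (L * q)) : modularFunctionFieldBar (L * q * q)) :
          LaurentSeries Qb) := rfl
  rw [h1, h36_coe_i2, h36_coe_i0, h20_w_J0, h20_coe_J1, h20_coe_jbar]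

include hqL hA in
/-- **(MID-4), the element.**  `z = i2 j - i0 j` is a nonzero element of `F0` whose three
expansions have Gauss orders `0, 1, 0`. -/
theorem h41_mid4 :
    ∃ z : h69_F0 (L * q * q) (A.inertiaSubgroupIn ℚ), z ≠ 0 ∧
      h98_GV A (q : Qb) (h36_emb L q hqL 0 (z : modularFunctionFieldBar (L * q * q))) 0 ∧
      h98_GV A (h36_zeta q - 1)
        (h36_emb L q hqL 1 (z : modularFunctionFieldBar (L * q * q))) 1 ∧
      h98_GV A (q : Qb) (h36_emb L q hqL 2 (z : modularFunctionFieldBar (L * q * q))) 0 := by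
  have hq : q.Prime := Fact.out
  have hk : Nontrivial (IsLocalRing.ResidueField A) := inferInstance
  -- the integral series `Y = j(t^(q²)) - j(t)`
  set Y : LaurentSeries A := qExpand A q (qExpand A q (jqModC A)) - jqModC A with hY
  have hYK : coeffMap A.subtype Y = qExpand Qb q (qExpand Qb q (jqModC Qb)) - jqModC Qb := by
    rw [hY, map_sub, coeffMap_qExpand, coeffMap_qExpand, coeffMap_jqModC]
  have hYk : coeffMap (IsLocalRing.residue A) Y ≠ 0 := by
    rw [hY, map_sub, coeffMap_qExpand, coeffMap_qExpand, coeffMap_jqModC]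
    exact h41_jdiff_ne_zero (IsLocalRing.ResidueField A) q hq.two_le
  have hG0 : h98_GV A (q : Qb) (qExpand Qb q (qExpand Qb q (jqModC Qb)) - jqModC Qb) 0 := by
    rw [← hYK]
    exact h41_GV_int A (q : Qb) Y hYk
  have hYneg : coeffMap (IsLocalRing.residue A) (-Y) ≠ 0 := by
    rw [map_neg]
    exact neg_ne_zero.mpr hYk
  have hG2 : h98_GV A (q : Qb) (-(qExpand Qb q (qExpand Qb q (jqModC Qb)) - jqModC Qb)) 0 := by
    rw [← hYK, ← map_neg]
    exact h41_GV_int A (q : Qb) (-Y) hYneg
  have hz := h41_series_zF0 L q hqL A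
  have hcoe := h41_coe_zF0 L q hqL A
  refine ⟨h41_zF0 L q A, ?_, ?_, ?_, ?_⟩
  · intro h0
    have h1 : (((h41_zF0 L q A : h69_F0 (L * q * q) (A.inertiaSubgroupIn ℚ)) :
        modularFunctionFieldBar (L * q * q)) : LaurentSeries Qb) = 0 := by
      rw [h0]
      rfl
    rw [hz] at h1
    exact h41_jdiff_ne_zero Qb q hq.two_le h1
  · rw [h36_emb_zero, hz]
    exact hG0
  · -- the middle expansion
    rw [h36_emb_one, hcoe]
    have hs : ((h59_jbar (L * q) : modularFunctionFieldBar (L * q)) : LaurentSeries Qb)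
        ∈ h60_Os A := by
      rw [h20_coe_jbar, ← coeffMap_jqModC A.subtype]
      exact h60_int_mem A (jqModC A)
    have hrs : h60_rs A ⟨_, hs⟩ = jqModC (IsLocalRing.ResidueField A) := by
      have e : (⟨((h59_jbar (L * q) : modularFunctionFieldBar (L * q)) : LaurentSeries Qb), hs⟩ :
          h60_Os A) = ⟨coeffMap A.subtype (jqModC A), h60_int_mem A (jqModC A)⟩ := by
        apply Subtype.ext
        show ((h59_jbar (L * q) : modularFunctionFieldBar (L * q)) : LaurentSeries Qb)
          = coeffMap A.subtype (jqModC A)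
        rw [h20_coe_jbar, coeffMap_jqModC]
      rw [e, h60_rs_int, coeffMap_jqModC]
    have hθ : h20_thetaFun (h60_rs A ⟨_, hs⟩) ≠ 0 := by
      rw [hrs]
      exact h20_TJ_ne_zero (IsLocalRing.ResidueField A)
    exact h41_mid_GV L q hqL A hA (h36_zeta q) (h36_zeta_prim q) (h59_jbar (L * q)) hs hθ
  · rw [h36_emb_two, hcoe, map_sub, h36_W_i2, h36_W_i0]
    have h1 : ((h36_i0 L q (h59_jbar (L * q)) - h36_i2 L q hqL (h59_jbar (L * q)) :
        modularFunctionFieldBar (L * q * q)) : LaurentSeries Qb)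
        = -(((h36_i2 L q hqL (h59_jbar (L * q)) - h36_i0 L q (h59_jbar (L * q)) :
          modularFunctionFieldBar (L * q * q)) : LaurentSeries Qb)) := by
      rw [← neg_sub]
      rfl
    rw [h1, ← hcoe, hz]
    exact hG2

end Mid4

end Fermat.Agent.S36

end
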