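import Fermat.Agent.S34.h60_SerRed

/-!
# S36, row I-VAL, (MID-4): the twist-theta core (helper41)

`T_c : ∑ a_n t^n ↦ ∑ a_n c^n t^n` the coefficient twist (`h87_twist c`).

* `h41_gs c n` : the geometric sum `g_n(c)` with `(c - 1) g_n(c) = c^n - 1`, `n : ℤ`;
* `h41_dtw c` : the divided twist `∑ a_n t^n ↦ ∑ g_n(c) a_n t^n`, so that
  `C (c - 1) * h41_dtw c f = T_c f - f`;
* `h41_twist_theta` : `A` a valuation subring of `K` with residue field `k`, `ζ ∈ Aˣ` with
  residue `1`, `θ` any map on `k((t))` with `coeff n (θ f) = n * coeff n f` and the Leibniz rule.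
  Then for every ratio `s` of `A`-integral series (`s ∈ h60_Os A`) the series
  `(ζ - 1)⁻¹ (T_ζ s - s)` is again such a ratio, with reduction `θ (s̄)`.
-/

set_option autoImplicit false

noncomputable section

open ModularCurve HahnSeries

namespace Fermat.Agent.S36

open Fermat.Agent.S18 Fermat.Agent.S37 Fermat.Agent.S34

section Geo

variable {R S : Type*} [CommRing R] [CommRing S]

/-- The geometric sum `g_n(c) = (c^n - 1)/(c - 1)`, for `n : ℤ` and a unit `c`. -/
def h41_gs (c : Rˣ) (n : ℤ) : R :=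
  if 0 ≤ n then ∑ i ∈ Finset.range n.toNat, (c : R) ^ i
  else -(((c ^ n : Rˣ) : R) * ∑ i ∈ Finset.range (-n).toNat, (c : R) ^ i)

theorem h41_gs_spec (c : Rˣ) (n : ℤ) :
    ((c : R) - 1) * h41_gs c n = ((c ^ n : Rˣ) : R) - 1 := by
  unfold h41_gs
  split_ifs with h
  · obtain ⟨m, rfl⟩ := Int.eq_ofNat_of_zero_le h
    rw [Int.toNat_natCast, mul_comm, geom_sum_mul, zpow_natCast, Units.val_pow_eq_pow_val]
  · obtain ⟨m, hm⟩ : ∃ m : ℕ, n = -(m : ℤ) := ⟨(-n).toNat, by omega⟩
    subst hm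
    rw [neg_neg, Int.toNat_natCast]
    have h1 : (∑ i ∈ Finset.range m, (c : R) ^ i) * ((c : R) - 1) = (c : R) ^ m - 1 :=
      geom_sum_mul _ _
    have h2 : ((c ^ (-(m : ℤ)) : Rˣ) : R) * (c : R) ^ m = 1 := by
      rw [← Units.val_pow_eq_pow_val, ← Units.val_mul, zpow_neg, zpow_natCast, inv_mul_cancel,
        Units.val_one]
    calc ((c : R) - 1) * -(((c ^ (-(m : ℤ)) : Rˣ) : R) * ∑ i ∈ Finset.range m, (c : R) ^ i)
        = -(((c ^ (-(m : ℤ)) : Rˣ) : R)
            * ((∑ i ∈ Finset.range m, (c : R) ^ i) * ((c : R) - 1))) := by ring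
      _ = ((c ^ (-(m : ℤ)) : Rˣ) : R) - ((c ^ (-(m : ℤ)) : Rˣ) : R) * (c : R) ^ m := by
          rw [h1]; ring
      _ = ((c ^ (-(m : ℤ)) : Rˣ) : R) - 1 := by rw [h2]

/-- Under a ring homomorphism sending `c` to `1`, `g_n(c)` goes to `n`. -/
theorem h41_gs_map (φ : R →+* S) (c : Rˣ) (hc : φ (c : R) = 1) (n : ℤ) :
    φ (h41_gs c n) = (n : S) := by
  have hu : ∀ m : ℤ, φ ((c ^ m : Rˣ) : R) = 1 := by
    intro m
    have h1 : Units.map (φ : R →* S) c = 1 := Units.ext (by simpa using hc)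
    have h2 : Units.map (φ : R →* S) (c ^ m) = 1 := by rw [map_zpow, h1, one_zpow]
    calc φ ((c ^ m : Rˣ) : R) = ((Units.map (φ : R →* S) (c ^ m) : Sˣ) : S) := rfl
      _ = 1 := by rw [h2, Units.val_one]
  unfold h41_gs
  split_ifs with h
  · obtain ⟨m, rfl⟩ := Int.eq_ofNat_of_zero_le h
    rw [Int.toNat_natCast, map_sum]
    simp [hc]
  · obtain ⟨m, hm⟩ : ∃ m : ℕ, n = -(m : ℤ) := ⟨(-n).toNat, by omega⟩
    subst hm
    rw [neg_neg, Int.toNat_natCast, map_neg, map_mul, hu, one_mul, map_sum]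
    simp [hc]

/-- The divided twist `∑ a_n t^n ↦ ∑ g_n(c) a_n t^n`. -/
def h41_dtw (c : Rˣ) (f : LaurentSeries R) : LaurentSeries R where
  coeff n := h41_gs c n * f.coeff n
  isPWO_support' := f.isPWO_support.mono (fun n hn => by
    simp only [Function.mem_support, ne_eq, HahnSeries.mem_support] at hn ⊢
    intro h0
    exact hn (by rw [h0, mul_zero]))

@[simp]
theorem h41_dtw_coeff (c : Rˣ) (f : LaurentSeries R) (n : ℤ) :
    (h41_dtw c f).coeff n = h41_gs c n * f.coeff n := rfl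

/-- `(c - 1) * (divided twist) = twist - id`. -/
theorem h41_dtw_spec (c : Rˣ) (f : LaurentSeries R) :
    HahnSeries.C ((c : R) - 1) * h41_dtw c f = h87_twist c f - f := by
  ext n
  rw [C_mul_eq_smul, coeff_smul, smul_eq_mul, h41_dtw_coeff, ← mul_assoc, h41_gs_spec,
    HahnSeries.coeff_sub, h87_twist_coeff]
  ring

/-- Reduction of the divided twist: the coefficients are multiplied by `n`. -/
theorem h41_coeffMap_dtw_coeff (φ : R →+* S) (c : Rˣ) (hc : φ (c : R) = 1) (f : LaurentSeries R)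
    (n : ℤ) : (coeffMap φ (h41_dtw c f)).coeff n = (n : S) * (coeffMap φ f).coeff n := by
  rw [coeffMap_coeff, h41_dtw_coeff, map_mul, h41_gs_map φ c hc, coeffMap_coeff]

/-- The geometric sums commute with ring homomorphisms. -/
theorem h41_gs_hom (φ : R →+* S) (c : Rˣ) (n : ℤ) :
    φ (h41_gs c n) = h41_gs (Units.map (φ : R →* S) c) n := by
  have hu : ∀ m : ℤ, φ ((c ^ m : Rˣ) : R) = (((Units.map (φ : R →* S) c) ^ m : Sˣ) : S) := by
    intro m
    calc φ ((c ^ m : Rˣ) : R) = ((Units.map (φ : R →* S) (c ^ m) : Sˣ) : S) := rfl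
      _ = _ := by rw [map_zpow]
  unfold h41_gs
  split_ifs with h
  · rw [map_sum]
    refine Finset.sum_congr rfl fun i _ => ?_
    rw [map_pow]
    rfl
  · rw [map_neg, map_mul, hu, map_sum]
    congr 2
    refine Finset.sum_congr rfl fun i _ => ?_
    rw [map_pow]
    rfl

theorem h41_coeffMap_dtw (φ : R →+* S) (c : Rˣ) (f : LaurentSeries R) :
    coeffMap φ (h41_dtw c f) = h41_dtw (Units.map (φ : R →* S) c) (coeffMap φ f) := by
  ext n
  rw [coeffMap_coeff, h41_dtw_coeff, h41_dtw_coeff, coeffMap_coeff, map_mul, h41_gs_hom]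

end Geo

section Ser

/-- Pure algebra behind the key identity. -/
theorem h41_alg1 {R : Type*} [CommRing R] (ci c Ts s Y1 Y2 TY1 TY2 D1 D2 : R)
    (hci : ci * c = 1) (hT : Ts * TY2 = TY1) (h1 : c * D1 = TY1 - Y1) (h2 : c * D2 = TY2 - Y2)
    (hs : s * Y2 = Y1) : ci * (Ts - s) * (Y2 * TY2) = D1 * Y2 - Y1 * D2 := by
  have e : (Ts - s) * (Y2 * TY2) = c * (D1 * Y2 - Y1 * D2) := by
    have e1 : c * (D1 * Y2 - Y1 * D2) = (c * D1) * Y2 - Y1 * (c * D2) := by ring
    rw [e1, h1, h2, ← hT, ← hs]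
    ring
  rw [mul_assoc, e, ← mul_assoc, hci, one_mul]

/-- Pure algebra behind the quotient rule. -/
theorem h41_alg2 {R : Type*} [CommRing R] (θr r y2 θy2 : R) :
    θr * (y2 * y2) = (θr * y2 + r * θy2) * y2 - (r * y2) * θy2 := by ring

theorem h41_algebraMap_eq_C {K : Type*} [Field K] (c : K) :
    algebraMap K (LaurentSeries K) c = (HahnSeries.C c : LaurentSeries K) := by
  rw [algebraMap_laurentSeries_eq_single]
  rfl

variable {K : Type*} [Field K] (A : ValuationSubring K)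

/-- **(MID-4), series form.**  `ζ` a unit of `A` with residue `1`, `ζ ≠ 1`; `θ` a map on `k((t))`
with `coeff n (θ f) = n * coeff n f` and the Leibniz rule.  For every ratio `s` of `A`-integral
series, `(ζ - 1)⁻¹ (s(ζ t) - s(t))` is again such a ratio and its reduction is `θ (s̄)`. -/
theorem h41_twist_theta (ζ : Aˣ) (hζ : IsLocalRing.residue A (ζ : A) = 1)
    (hζ1 : ((ζ : A) : K) ≠ 1)
    (θk : LaurentSeries (IsLocalRing.ResidueField A) → LaurentSeries (IsLocalRing.ResidueField A))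
    (hcoef : ∀ (f : LaurentSeries (IsLocalRing.ResidueField A)) (n : ℤ),
      (θk f).coeff n = (n : IsLocalRing.ResidueField A) * f.coeff n)
    (hleib : ∀ f g : LaurentSeries (IsLocalRing.ResidueField A),
      θk (f * g) = θk f * g + f * θk g)
    (s : h60_Os A) :
    ∃ h : algebraMap K (LaurentSeries K) ((((ζ : A) : K) - 1)⁻¹)
        * (h87_twist (Units.map ((A.subtype : A →+* K) : A →* K) ζ) (s : LaurentSeries K)
          - (s : LaurentSeries K)) ∈ h60_Os A,
      h60_rs A ⟨_, h⟩ = θk (h60_rs A s) := by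
  obtain ⟨y₁, y₂, hy, hsy⟩ := s.2
  have hζk1 : Units.map ((IsLocalRing.residue A : A →+* IsLocalRing.ResidueField A) :
      A →* IsLocalRing.ResidueField A) ζ = 1 := Units.ext hζ
  have hne : ((ζ : A) : K) - 1 ≠ 0 := sub_ne_zero.mpr hζ1
  -- the key identity over `K`
  have hT : h87_twist (Units.map ((A.subtype : A →+* K) : A →* K) ζ) (s : LaurentSeries K)
      * h87_twist (Units.map ((A.subtype : A →+* K) : A →* K) ζ) (coeffMap A.subtype y₂)
      = h87_twist (Units.map ((A.subtype : A →+* K) : A →* K) ζ) (coeffMap A.subtype y₁) := by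
    rw [← map_mul, hsy]
  have hd : ∀ Y : LaurentSeries K, (HahnSeries.C (((ζ : A) : K) - 1) : LaurentSeries K)
      * h41_dtw (Units.map ((A.subtype : A →+* K) : A →* K) ζ) Y
      = h87_twist (Units.map ((A.subtype : A →+* K) : A →* K) ζ) Y - Y :=
    fun Y => h41_dtw_spec (Units.map ((A.subtype : A →+* K) : A →* K) ζ) Y
  have hCC : (HahnSeries.C ((((ζ : A) : K) - 1)⁻¹) : LaurentSeries K)
      * HahnSeries.C (((ζ : A) : K) - 1) = 1 := by
    rw [← map_mul, inv_mul_cancel₀ hne, map_one]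
  have hkey : algebraMap K (LaurentSeries K) ((((ζ : A) : K) - 1)⁻¹)
        * (h87_twist (Units.map ((A.subtype : A →+* K) : A →* K) ζ) (s : LaurentSeries K)
          - (s : LaurentSeries K))
        * coeffMap A.subtype (y₂ * h87_twist ζ y₂)
      = coeffMap A.subtype (h41_dtw ζ y₁ * y₂ - y₁ * h41_dtw ζ y₂) := by
    rw [map_mul, h87_coeffMap_twist, map_sub, map_mul, map_mul, h41_coeffMap_dtw,
      h41_coeffMap_dtw, h41_algebraMap_eq_C]
    exact h41_alg1 _ _ _ _ _ _ _ _ _ _ hCC hT (hd _) (hd _) hsy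
  -- reductions
  have hrz₂ : coeffMap (IsLocalRing.residue A) (y₂ * h87_twist ζ y₂)
      = coeffMap (IsLocalRing.residue A) y₂ * coeffMap (IsLocalRing.residue A) y₂ := by
    rw [map_mul, h87_coeffMap_twist, hζk1, h87_twist_one]
  have hθ : ∀ y : LaurentSeries A, coeffMap (IsLocalRing.residue A) (h41_dtw ζ y)
      = θk (coeffMap (IsLocalRing.residue A) y) := by
    intro y
    ext n
    rw [h41_coeffMap_dtw_coeff (IsLocalRing.residue A) ζ hζ, hcoef]
  have hrz₁ : coeffMap (IsLocalRing.residue A) (h41_dtw ζ y₁ * y₂ - y₁ * h41_dtw ζ y₂)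
      = θk (coeffMap (IsLocalRing.residue A) y₁) * coeffMap (IsLocalRing.residue A) y₂
        - coeffMap (IsLocalRing.residue A) y₁ * θk (coeffMap (IsLocalRing.residue A) y₂) := by
    rw [map_sub, map_mul, map_mul, hθ, hθ]
  have hrz₂ne : coeffMap (IsLocalRing.residue A) (y₂ * h87_twist ζ y₂) ≠ 0 := by
    rw [hrz₂]
    exact mul_ne_zero hy hy
  have hmem : algebraMap K (LaurentSeries K) ((((ζ : A) : K) - 1)⁻¹)
        * (h87_twist (Units.map ((A.subtype : A →+* K) : A →* K) ζ) (s : LaurentSeries K)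
          - (s : LaurentSeries K)) ∈ h60_Os A :=
    ⟨_, _, hrz₂ne, hkey⟩
  refine ⟨hmem, ?_⟩
  refine h60_rs_eq A ⟨_, hmem⟩ (h41_dtw ζ y₁ * y₂ - y₁ * h41_dtw ζ y₂) (y₂ * h87_twist ζ y₂)
    hrz₂ne hkey _ ?_
  have hr : h60_rs A s * coeffMap (IsLocalRing.residue A) y₂
      = coeffMap (IsLocalRing.residue A) y₁ := h60_rs_spec A s y₁ y₂ hsy
  rw [hrz₂, hrz₁, ← hr, hleib]
  exact h41_alg2 _ _ _ _

end Ser

end Fermat.Agent.S36

end
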