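import Fermat.Agent.S36.h46_LocGlobal
import Fermat.Agent.S36.h94_LocGlueVal

/-!
# S36 / row E glue (helper46): the local rows in the language of `h80_ValFam` ⟹ `(LG)`

This file connects the local rows (helper80 `h80_ValFam`, helper94 `h94_hloc_of_glue`) with the
generic local-global lemma `h46_trivial_gluing` / `h46_principal_of_local`.

* `h46_redF_mem_of_local_hom`, `h46_hloc_range`, `h46_trivial_gluing_hom`,
  `h46_principal_of_local_hom` : the **hom form** of `(LG)`: the chart rings are abstract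
  commutative rings `B1, B2` with ring homs `ψ1, ψ2` to `F` (instead of subrings of `F`).
* `h46_clear_of_glue` (valuations only): a congruence `t f ≡ b` modulo the vertical valuations
  through the point `m` can be improved, after multiplying `t, b` by some `τ ∉ m`, to a
  congruence at ALL vertical valuations (the finitely many not through `m` are cleared).
* `h46_localOK_of_glue` : with the lattice hypothesis `(VAL)` ("vertical valuations `≥ a` ⟹ the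
  reduction vanishes") this is `red t * red f = red b`.
* `h46_hloc_of_eq` : the same from a local equation `e` and ONE unit `y` with `e ≡ y` on every
  vertical branch through `m` (output of `h94_loc_glue_val` with `ζ = 1`).
* `h46_hloc_valFam` : the `hloc` binder (hom form) from these local data at every closed point.
* `h46_principal_of_valFam` : `(LG)` with all local data in the `h80_ValFam` language.
-/

set_option autoImplicit false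

namespace Fermat.Agent.S36

open AlgebraicCurve Fermat.Agent.S24 Fermat.Agent.S18 Fermat.Agent.S34

variable {K F k Rb : Type*} [Field K] [Field F] [Algebra K F] [Field k] [CommRing Rb]
  [Algebra k Rb]

/-! ### Hom form of the denominator-ideal lemma -/

/-- **Denominator ideal, hom form.** `ψ : B →+* F` with image in `O`, `γ : Rb`; if at every
maximal ideal `𝔪` of `B` containing the kernel of the reduction some `t ∉ 𝔪` has
`red (ψ t) * γ ∈ red (ψ B)`, then `γ ∈ red (ψ B)`. -/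
theorem h46_redF_mem_of_local_hom (D : h22_Lat K F k Rb) {B : Type*} [CommRing B] (ψ : B →+* F)
    (hψ : ∀ b : B, ψ b ∈ D.O) (γ : Rb)
    (hloc : ∀ 𝔪 : Ideal B, 𝔪.IsMaximal → (∀ t : B, D.redF (ψ t) = 0 → t ∈ 𝔪) →
      ∃ t : B, t ∉ 𝔪 ∧ ∃ a : B, D.redF (ψ t) * γ = D.redF (ψ a)) :
    ∃ a : B, D.redF (ψ a) = γ := by
  let φ : B →+* Rb := D.red.comp (ψ.codRestrict D.O hψ)
  have hφ : ∀ b : B, φ b = D.redF (ψ b) := fun b => by
    rw [D.redF_of_mem (hψ b)]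
    rfl
  obtain ⟨a, ha⟩ := h46_mem_range_of_local φ γ (fun 𝔪 h𝔪 hker => by
    obtain ⟨t, ht, a, ha⟩ := hloc 𝔪 h𝔪 (fun t ht => hker (by
      rw [RingHom.mem_ker, hφ]
      exact ht))
    exact ⟨t, ht, a, by rw [hφ, hφ]; exact ha⟩)
  exact ⟨a, by rw [← hφ]; exact ha⟩

/-- The local hypothesis for the image subring `ψ.range` from the local hypothesis for `B`. -/
theorem h46_hloc_range (D : h22_Lat K F k Rb) {B : Type*} [CommRing B] (ψ : B →+* F) (γ : Rb)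
    (hloc : ∀ 𝔪 : Ideal B, 𝔪.IsMaximal → (∀ t : B, D.redF (ψ t) = 0 → t ∈ 𝔪) →
      ∃ t : B, t ∉ 𝔪 ∧ ∃ a : B, D.redF (ψ t) * γ = D.redF (ψ a)) :
    ∀ 𝔪 : Ideal ψ.range, 𝔪.IsMaximal → (∀ t : ψ.range, D.redF (t : F) = 0 → t ∈ 𝔪) →
      ∃ b : ψ.range, b ∉ 𝔪 ∧ ∃ a : ψ.range, D.redF (b : F) * γ = D.redF (a : F) := by
  intro 𝔪 h𝔪 hker
  have hsurj : Function.Surjective ψ.rangeRestrict := ψ.rangeRestrict_surjective
  have hmax : (𝔪.comap ψ.rangeRestrict).IsMaximal :=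
    Ideal.comap_isMaximal_of_surjective _ hsurj
  obtain ⟨t, ht, a, ha⟩ := hloc _ hmax (fun t ht => by
    rw [Ideal.mem_comap]
    exact hker _ ht)
  exact ⟨ψ.rangeRestrict t, fun h => ht (Ideal.mem_comap.2 h), ψ.rangeRestrict a, ha⟩

/-- **(LG2), hom form.** `h46_trivial_gluing` with chart rings `ψ1 : B1 →+* F`,
`ψ2 : B2 →+* F`. -/
theorem h46_trivial_gluing_hom [HasPrincipalDivisors K F] (D : h22_Lat K F k Rb) (hON : h22_ON D)
    (hfin : ∀ D' : Divisor K F, Module.Finite K (riemannRochSpace D'))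
    (x : F) (hx0 : x ≠ 0) (hx : x ∈ D.O) (hxi : x⁻¹ ∈ D.O)
    (E1 E2 : Divisor K F) (hE1 : ∀ v : Place K F, 0 ≤ E1 v) (hE2 : ∀ v : Place K F, 0 ≤ E2 v)
    (hdisj : ∀ v : Place K F, E1 v = 0 ∨ E2 v = 0)
    (hdivx : ∀ v : Place K F, v.ord x = E2 v - E1 v) (N0 : ℕ)
    (hgen : ∀ n, N0 ≤ n → ∀ a ∈ h51_Rd D ((n + 1) • E1), ∃ b ∈ h51_Rd D (n • E1),
      ∃ c ∈ h51_Rd D (n • E1), a = b + D.redF x * c)
    (Ez : Divisor K F)
    (hdim : ∀ (j : ℤ) (n : ℕ), N0 ≤ n →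
      Module.finrank K (riemannRochSpace (n • E1 + j • Ez)) =
        Module.finrank K (riemannRochSpace (n • E1)))
    {B1 B2 : Type*} [CommRing B1] [CommRing B2] (ψ1 : B1 →+* F) (ψ2 : B2 →+* F)
    (hB1 : ∀ b : B1, ψ1 b ∈ D.O ∧ ∀ v : Place K F, 0 ≤ v.ord x → 0 ≤ v.ord (ψ1 b))
    (hB2 : ∀ b : B2, ψ2 b ∈ D.O ∧ ∀ v : Place K F, v.ord x ≤ 0 → 0 ≤ v.ord (ψ2 b))
    (G0 : ℤ → ℕ → Set F) (hG0 : ∀ j n, ∀ g ∈ G0 j n, g ∈ D.O)
    (hspan : ∀ (j : ℤ) (n : ℕ), N0 ≤ n → ∀ a ∈ h51_Rd D (n • E1 + j • Ez),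
      a ∈ Submodule.span k (D.redF '' G0 j n))
    (hloc1 : ∀ (j : ℤ) (n : ℕ), N0 ≤ n → ∀ g ∈ G0 j n, ∀ 𝔪 : Ideal B1, 𝔪.IsMaximal →
        (∀ t : B1, D.redF (ψ1 t) = 0 → t ∈ 𝔪) →
        ∃ t : B1, t ∉ 𝔪 ∧ ∃ a : B1, D.redF (ψ1 t) * D.redF g = D.redF (ψ1 a))
    (hloc2 : ∀ (j : ℤ) (n : ℕ), N0 ≤ n → ∀ g ∈ G0 j n, ∀ 𝔪 : Ideal B2, 𝔪.IsMaximal →
        (∀ t : B2, D.redF (ψ2 t) = 0 → t ∈ 𝔪) →
        ∃ t : B2, t ∉ 𝔪 ∧ ∃ a : B2, D.redF (ψ2 t) * D.redF (x⁻¹ ^ n * g) = D.redF (ψ2 a)) :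
    ∀ (j : ℤ) (n : ℕ), N0 ≤ n → h51_Rd D (n • E1 + j • Ez) = h51_Rd D (n • E1) := by
  have hT1 : ∀ f ∈ ψ1.range, f ∈ D.O ∧ ∀ v : Place K F, 0 ≤ v.ord x → 0 ≤ v.ord f := by
    rintro _ ⟨b, rfl⟩
    exact hB1 b
  have hT2 : ∀ f ∈ ψ2.range, f ∈ D.O ∧ ∀ v : Place K F, v.ord x ≤ 0 → 0 ≤ v.ord f := by
    rintro _ ⟨b, rfl⟩
    exact hB2 b
  exact h46_trivial_gluing D hON hfin x hx0 hx hxi E1 E2 hE1 hE2 hdisj hdivx N0 hgen Ez hdim
    ψ1.range ψ2.range hT1 hT2 G0 hG0 hspan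
    (fun j n hn g hg => h46_hloc_range D ψ1 _ (hloc1 j n hn g hg))
    (fun j n hn g hg => h46_hloc_range D ψ2 _ (hloc2 j n hn g hg))

/-- **(LG), hom form.** `h46_principal_of_local` with chart rings `ψ1 : B1 →+* F`,
`ψ2 : B2 →+* F`. -/
theorem h46_principal_of_local_hom [IsAlgClosed K] [HasPrincipalDivisors K F] [Nontrivial Rb]
    (D : h22_Lat K F k Rb) (hON : h22_ON D)
    (hinv : ∀ (f : F) (hf : f ∈ D.O), IsUnit (D.red ⟨f, hf⟩) → f⁻¹ ∈ D.O)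
    (hrank : h39_RankOne D.A)
    (hfin : ∀ D' : Divisor K F, FiniteDimensional K (riemannRochSpace D'))
    (hdeg1 : ∀ P : Place K F, P.deg = 1)
    (x : F) (hx0 : x ≠ 0) (hx : x ∈ D.O) (hxi : x⁻¹ ∈ D.O)
    (E1 E2 : Divisor K F) (hE1 : ∀ v : Place K F, 0 ≤ E1 v) (hE2 : ∀ v : Place K F, 0 ≤ E2 v)
    (hdisj : ∀ v : Place K F, E1 v = 0 ∨ E2 v = 0)
    (hdivx : ∀ v : Place K F, v.ord x = E2 v - E1 v) (N0 : ℕ)
    (hgen : ∀ n, N0 ≤ n → ∀ a ∈ h51_Rd D ((n + 1) • E1), ∃ b ∈ h51_Rd D (n • E1),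
      ∃ c ∈ h51_Rd D (n • E1), a = b + D.redF x * c)
    (m : ℕ) (hm : (m : k) ≠ 0)
    (Ez : Divisor K F) (uz : F) (hdeg : Divisor.degree Ez = 0) (huz0 : uz ≠ 0)
    (hdivz : ∀ v : Place K F, (m : ℤ) * Ez v = v.ord uz)
    (huz : ∃ h : uz ∈ D.O, D.red ⟨uz, h⟩ = 1)
    (hdim : ∀ (j : ℤ) (n : ℕ), N0 ≤ n →
      Module.finrank K (riemannRochSpace (n • E1 + j • Ez)) =
        Module.finrank K (riemannRochSpace (n • E1)))
    {B1 B2 : Type*} [CommRing B1] [CommRing B2] (ψ1 : B1 →+* F) (ψ2 : B2 →+* F)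
    (hB1 : ∀ b : B1, ψ1 b ∈ D.O ∧ ∀ v : Place K F, 0 ≤ v.ord x → 0 ≤ v.ord (ψ1 b))
    (hB2 : ∀ b : B2, ψ2 b ∈ D.O ∧ ∀ v : Place K F, v.ord x ≤ 0 → 0 ≤ v.ord (ψ2 b))
    (G0 : ℤ → ℕ → Set F) (hG0 : ∀ j n, ∀ g ∈ G0 j n, g ∈ D.O)
    (hspan : ∀ (j : ℤ) (n : ℕ), N0 ≤ n → ∀ a ∈ h51_Rd D (n • E1 + j • Ez),
      a ∈ Submodule.span k (D.redF '' G0 j n))
    (hloc1 : ∀ (j : ℤ) (n : ℕ), N0 ≤ n → ∀ g ∈ G0 j n, ∀ 𝔪 : Ideal B1, 𝔪.IsMaximal →
        (∀ t : B1, D.redF (ψ1 t) = 0 → t ∈ 𝔪) →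
        ∃ t : B1, t ∉ 𝔪 ∧ ∃ a : B1, D.redF (ψ1 t) * D.redF g = D.redF (ψ1 a))
    (hloc2 : ∀ (j : ℤ) (n : ℕ), N0 ≤ n → ∀ g ∈ G0 j n, ∀ 𝔪 : Ideal B2, 𝔪.IsMaximal →
        (∀ t : B2, D.redF (ψ2 t) = 0 → t ∈ 𝔪) →
        ∃ t : B2, t ∉ 𝔪 ∧ ∃ a : B2, D.redF (ψ2 t) * D.redF (x⁻¹ ^ n * g) = D.redF (ψ2 a)) :
    Ez ∈ Divisor.principal (K := K) (F := F) := by
  have hlast : h51_LastStep D E1 N0 m :=
    h50_lastStep D hON hinv hrank hfin hdeg1 x hx0 hx hxi E1 E2 hE1 hE2 hdisj hdivx N0 hgen m hm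
  have htriv := h46_trivial_gluing_hom D hON hfin x hx0 hx hxi E1 E2 hE1 hE2 hdisj hdivx N0 hgen
    Ez hdim ψ1 ψ2 hB1 hB2 G0 hG0 hspan hloc1 hloc2
  obtain ⟨e, he, hmem⟩ := hlast Ez uz hdeg huz0 hdivz huz htriv
  exact h51_principal_of_section hdeg1 Ez hdeg e he hmem

/-! ### The valuation-family form of the local hypothesis -/

section ValFam

variable {F0 : Type*} [Field F0] {ι : Type*} (V : h80_ValFam F0 ι)

/-- **Clearing the vertical valuations not through `m`.** If `t f ≡ b` modulo `a C` at every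
vertical valuation `C ∈ vert` through `m` (`t ∉ m`), then after multiplying `t` and `b` by a
suitable `τ ∉ m` the congruence holds at every `C ∈ vert`. -/
theorem h46_clear_of_glue (m : Ideal V.B) [hm : m.IsPrime] (vert : Set ι) (hvert : vert.Finite)
    (a : ι → ℤ) (f : F0) (t b : V.B) (ht : t ∉ m)
    (hglue : ∀ C ∈ vert, V.Through m C →
      ((t : F0) * f = (b : F0) ∨ a C ≤ V.v C ((t : F0) * f - (b : F0)))) :
    ∃ t' b' : V.B, t' ∉ m ∧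
      ((t' : F0) * f = (b' : F0) ∨ ∀ C ∈ vert, a C ≤ V.v C ((t' : F0) * f - (b' : F0))) := by
  classical
  by_cases h0 : (t : F0) * f - (b : F0) = 0
  · exact ⟨t, b, ht, Or.inl (sub_eq_zero.1 h0)⟩
  let E : ι → ℤ := fun i => if i ∈ vert then a i else V.v i ((t : F0) * f - (b : F0))
  have hEin : ∀ i, i ∈ vert → E i = a i := fun i hi => if_pos hi
  have hEout : ∀ i, i ∉ vert → E i = V.v i ((t : F0) * f - (b : F0)) := fun i hi => if_neg hi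
  have hfin : {i | V.v i ((t : F0) * f - (b : F0)) < E i}.Finite :=
    hvert.subset (fun i hi => by
      by_contra hiv
      have hi' : V.v i ((t : F0) * f - (b : F0)) < E i := hi
      rw [hEout i hiv] at hi'
      exact lt_irrefl _ hi')
  have hS : ∀ i, V.v i ((t : F0) * f - (b : F0)) < E i → ¬ V.Through m i := by
    intro i hi hthr
    by_cases hiv : i ∈ vert
    · rw [hEin i hiv] at hi
      rcases hglue i hiv hthr with h1 | h1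
      · exact h0 (sub_eq_zero.2 h1)
      · exact absurd hi (not_lt.2 h1)
    · rw [hEout i hiv] at hi
      exact lt_irrefl _ hi
  obtain ⟨τ, hτ, hτh⟩ := h80_exists_clear V m h0 E hfin hS
  refine ⟨τ * t, τ * b, ?_, Or.inr fun C hC => ?_⟩
  · intro hmem
    rcases hm.mem_or_mem hmem with h1 | h1
    · exact hτ h1
    · exact ht h1
  · have h1 := hτh C
    rw [hEin C hC] at h1
    have e1 : ((τ * t : V.B) : F0) * f - ((τ * b : V.B) : F0) =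
        (τ : F0) * ((t : F0) * f - (b : F0)) := by
      push_cast
      ring
    rw [e1]
    exact h1

/-- **(LOCAL-OK) from a congruence through `m`.** `(VAL)`: an element of `F0` whose vertical
valuations are `≥ a` lies in `O` and has zero reduction. Then a congruence `t f ≡ b` at the
vertical valuations through `m` gives `red t' * red f = red b'` with `t' ∉ m`. -/
theorem h46_localOK_of_glue (D : h22_Lat K F k Rb) (ψ : F0 →+* F)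
    (hBO : ∀ b : V.B, ψ (b : F0) ∈ D.O) (vert : Set ι) (hvert : vert.Finite) (a : ι → ℤ)
    (hVAL : ∀ h : F0, h ≠ 0 → (∀ C ∈ vert, a C ≤ V.v C h) → ψ h ∈ D.O ∧ D.redF (ψ h) = 0)
    (m : Ideal V.B) [hm : m.IsPrime] (f : F0) (hfO : ψ f ∈ D.O) (t b : V.B) (ht : t ∉ m)
    (hglue : ∀ C ∈ vert, V.Through m C →
      ((t : F0) * f = (b : F0) ∨ a C ≤ V.v C ((t : F0) * f - (b : F0)))) :
    ∃ t' : V.B, t' ∉ m ∧ ∃ b' : V.B,
      D.redF (ψ (t' : F0)) * D.redF (ψ f) = D.redF (ψ (b' : F0)) := by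
  obtain ⟨t', b', ht', h⟩ := h46_clear_of_glue V m vert hvert a f t b ht hglue
  refine ⟨t', ht', b', ?_⟩
  rw [← h51_redF_mul D (hBO t') hfO, ← map_mul]
  by_cases h0 : (t' : F0) * f - (b' : F0) = 0
  · rw [sub_eq_zero.1 h0]
  · have h1 : ∀ C ∈ vert, a C ≤ V.v C ((t' : F0) * f - (b' : F0)) :=
      h.resolve_left (fun h2 => h0 (sub_eq_zero.2 h2))
    obtain ⟨hO, hred⟩ := hVAL _ h0 h1
    have e1 : ψ ((t' : F0) * f) = ψ ((t' : F0) * f - (b' : F0)) + ψ (b' : F0) := by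
      rw [← map_add, sub_add_cancel]
    rw [e1, h51_redF_add D hO (hBO b'), hred, zero_add]

/-- **(LOCAL-OK) from a local equation glued by ONE unit.** `e` a local equation at `m` (`f / e`
in the local ring `B_m`), `y ∈ B_m` with `e ≡ y` modulo `a C` at every vertical valuation through
`m` (the output of `h94_loc_glue_val` once the gluing constants are `1`). -/
theorem h46_hloc_of_eq (D : h22_Lat K F k Rb) (ψ : F0 →+* F)
    (hBO : ∀ b : V.B, ψ (b : F0) ∈ D.O) (vert : Set ι) (hvert : vert.Finite) (a : ι → ℕ)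
    (hVAL : ∀ h : F0, h ≠ 0 → (∀ C ∈ vert, (a C : ℤ) ≤ V.v C h) →
      ψ h ∈ D.O ∧ D.redF (ψ h) = 0)
    (m : Ideal V.B) [hmax : m.IsMaximal] (e : F0) (he0 : e ≠ 0) (y : F0) (hy : V.InLoc m y)
    (hglue : ∀ C ∈ vert, V.Through m C → (e = y ∨ (a C : ℤ) ≤ V.v C (e - y)))
    (f : F0) (hf : V.InLoc m (f / e)) (hfO : ψ f ∈ D.O) :
    ∃ t : V.B, t ∉ m ∧ ∃ b : V.B,
      D.redF (ψ (t : F0)) * D.redF (ψ f) = D.redF (ψ (b : F0)) := by
  have hprime : m.IsPrime := hmax.isPrime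
  obtain ⟨t, b, ht, htb⟩ := h94_hloc_of_glue V m
    (fun C : {C : ι // C ∈ vert ∧ V.Through m C} => (C : ι)) (fun C => a (C : ι))
    (fun C => C.2.2) e he0 (fun _ => 1) y hy
    (fun C => by
      rw [one_mul]
      exact hglue C.1 C.2.1 C.2.2) f hf
  refine h46_localOK_of_glue V D ψ hBO vert hvert (fun C => (a C : ℤ)) hVAL m f hfO t b ht ?_
  intro C hC hthr
  have h1 := htb ⟨C, hC, hthr⟩
  rw [one_mul] at h1
  exact h1

/-- **The `hloc` binder of the hom form of `(LG)`** for the chart ring `V.B` (with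
`ψ ∘ V.B.subtype`), from local equations glued by one unit at every closed point of the special
fibre. -/
theorem h46_hloc_valFam (D : h22_Lat K F k Rb) (ψ : F0 →+* F)
    (hBO : ∀ b : V.B, ψ (b : F0) ∈ D.O) (vert : Set ι) (hvert : vert.Finite) (a : ι → ℕ)
    (hVAL : ∀ h : F0, h ≠ 0 → (∀ C ∈ vert, (a C : ℤ) ≤ V.v C h) →
      ψ h ∈ D.O ∧ D.redF (ψ h) = 0)
    (g : F0) (hgO : ψ g ∈ D.O)
    (hlocal : ∀ 𝔪 : Ideal V.B, 𝔪.IsMaximal → (∀ t : V.B, D.redF (ψ (t : F0)) = 0 → t ∈ 𝔪) →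
      ∃ e y : F0, e ≠ 0 ∧ V.InLoc 𝔪 y ∧ V.InLoc 𝔪 (g / e) ∧
        ∀ C ∈ vert, V.Through 𝔪 C → (e = y ∨ (a C : ℤ) ≤ V.v C (e - y))) :
    ∀ 𝔪 : Ideal V.B, 𝔪.IsMaximal → (∀ t : V.B, D.redF ((ψ.comp V.B.subtype) t) = 0 → t ∈ 𝔪) →
      ∃ t : V.B, t ∉ 𝔪 ∧ ∃ b : V.B,
        D.redF ((ψ.comp V.B.subtype) t) * D.redF (ψ g) = D.redF ((ψ.comp V.B.subtype) b) := by
  intro 𝔪 h𝔪 hker
  obtain ⟨e, y, he0, hy, hge, hglue⟩ := hlocal 𝔪 h𝔪 hker
  exact h46_hloc_of_eq V D ψ hBO vert hvert a hVAL 𝔪 e he0 y hy hglue g hge hgO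

end ValFam

/-! ### `(LG)` with all local data in the `h80_ValFam` language -/

/-- **(LG), valuation-family form.** The carrier `F0` of the rational functions (`ψ : F0 →+* F`),
two valuation families `V1, V2` on `F0` whose rings of integers `V1.B, V2.B` are the two chart
rings, finite sets `vert1, vert2` of vertical valuations with multiplicities `a1, a2`
(`(VAL)`: vertical valuations `≥ a` ⟹ zero reduction), spanning sets `G0 j n ⊆ F0`, and at every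
closed point of the special fibre of each chart a local equation `e` of the section `g` glued
by ONE unit `y` on the vertical branches through the point. Then the divisor `Ez` of the toric
witness is principal. -/
theorem h46_principal_of_valFam [IsAlgClosed K] [HasPrincipalDivisors K F] [Nontrivial Rb]
    (D : h22_Lat K F k Rb) (hON : h22_ON D)
    (hinv : ∀ (f : F) (hf : f ∈ D.O), IsUnit (D.red ⟨f, hf⟩) → f⁻¹ ∈ D.O)
    (hrank : h39_RankOne D.A)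
    (hfin : ∀ D' : Divisor K F, FiniteDimensional K (riemannRochSpace D'))
    (hdeg1 : ∀ P : Place K F, P.deg = 1)
    (x : F) (hx0 : x ≠ 0) (hx : x ∈ D.O) (hxi : x⁻¹ ∈ D.O)
    (E1 E2 : Divisor K F) (hE1 : ∀ v : Place K F, 0 ≤ E1 v) (hE2 : ∀ v : Place K F, 0 ≤ E2 v)
    (hdisj : ∀ v : Place K F, E1 v = 0 ∨ E2 v = 0)
    (hdivx : ∀ v : Place K F, v.ord x = E2 v - E1 v) (N0 : ℕ)
    (hgen : ∀ n, N0 ≤ n → ∀ a ∈ h51_Rd D ((n + 1) • E1), ∃ b ∈ h51_Rd D (n • E1),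
      ∃ c ∈ h51_Rd D (n • E1), a = b + D.redF x * c)
    (m : ℕ) (hm : (m : k) ≠ 0)
    (Ez : Divisor K F) (uz : F) (hdeg : Divisor.degree Ez = 0) (huz0 : uz ≠ 0)
    (hdivz : ∀ v : Place K F, (m : ℤ) * Ez v = v.ord uz)
    (huz : ∃ h : uz ∈ D.O, D.red ⟨uz, h⟩ = 1)
    (hdim : ∀ (j : ℤ) (n : ℕ), N0 ≤ n →
      Module.finrank K (riemannRochSpace (n • E1 + j • Ez)) =
        Module.finrank K (riemannRochSpace (n • E1)))
    {F0 : Type*} [Field F0] (ψ : F0 →+* F) (x0 : F0) (hψx : ψ x0 = x)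
    {ι1 ι2 : Type*} (V1 : h80_ValFam F0 ι1) (V2 : h80_ValFam F0 ι2)
    (hB1 : ∀ b : V1.B, ψ (b : F0) ∈ D.O ∧
      ∀ v : Place K F, 0 ≤ v.ord x → 0 ≤ v.ord (ψ (b : F0)))
    (hB2 : ∀ b : V2.B, ψ (b : F0) ∈ D.O ∧
      ∀ v : Place K F, v.ord x ≤ 0 → 0 ≤ v.ord (ψ (b : F0)))
    (vert1 : Set ι1) (hvert1 : vert1.Finite) (a1 : ι1 → ℕ)
    (hVAL1 : ∀ h : F0, h ≠ 0 → (∀ C ∈ vert1, (a1 C : ℤ) ≤ V1.v C h) →
      ψ h ∈ D.O ∧ D.redF (ψ h) = 0)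
    (vert2 : Set ι2) (hvert2 : vert2.Finite) (a2 : ι2 → ℕ)
    (hVAL2 : ∀ h : F0, h ≠ 0 → (∀ C ∈ vert2, (a2 C : ℤ) ≤ V2.v C h) →
      ψ h ∈ D.O ∧ D.redF (ψ h) = 0)
    (G0 : ℤ → ℕ → Set F0) (hG0 : ∀ j n, ∀ g ∈ G0 j n, ψ g ∈ D.O)
    (hspan : ∀ (j : ℤ) (n : ℕ), N0 ≤ n → ∀ a ∈ h51_Rd D (n • E1 + j • Ez),
      a ∈ Submodule.span k (D.redF '' (ψ '' G0 j n)))
    (hloc1 : ∀ (j : ℤ) (n : ℕ), N0 ≤ n → ∀ g ∈ G0 j n, ∀ 𝔪 : Ideal V1.B, 𝔪.IsMaximal →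
        (∀ t : V1.B, D.redF (ψ (t : F0)) = 0 → t ∈ 𝔪) →
        ∃ e y : F0, e ≠ 0 ∧ V1.InLoc 𝔪 y ∧ V1.InLoc 𝔪 (g / e) ∧
          ∀ C ∈ vert1, V1.Through 𝔪 C → (e = y ∨ (a1 C : ℤ) ≤ V1.v C (e - y)))
    (hloc2 : ∀ (j : ℤ) (n : ℕ), N0 ≤ n → ∀ g ∈ G0 j n, ∀ 𝔪 : Ideal V2.B, 𝔪.IsMaximal →
        (∀ t : V2.B, D.redF (ψ (t : F0)) = 0 → t ∈ 𝔪) →
        ∃ e y : F0, e ≠ 0 ∧ V2.InLoc 𝔪 y ∧ V2.InLoc 𝔪 (x0⁻¹ ^ n * g / e) ∧
          ∀ C ∈ vert2, V2.Through 𝔪 C → (e = y ∨ (a2 C : ℤ) ≤ V2.v C (e - y))) :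
    Ez ∈ Divisor.principal (K := K) (F := F) := by
  have hxin : ∀ (n : ℕ) (g : F0), ψ (x0⁻¹ ^ n * g) = x⁻¹ ^ n * ψ g := fun n g => by
    rw [map_mul, map_pow, map_inv₀, hψx]
  refine h46_principal_of_local_hom D hON hinv hrank hfin hdeg1 x hx0 hx hxi E1 E2 hE1 hE2 hdisj
    hdivx N0 hgen m hm Ez uz hdeg huz0 hdivz huz hdim (ψ.comp V1.B.subtype)
    (ψ.comp V2.B.subtype) hB1 hB2 (fun j n => ψ '' G0 j n) ?_ hspan ?_ ?_
  · rintro j n _ ⟨g, hg, rfl⟩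
    exact hG0 j n g hg
  · rintro j n hn _ ⟨g, hg, rfl⟩
    exact h46_hloc_valFam V1 D ψ (fun b => (hB1 b).1) vert1 hvert1 a1 hVAL1 g (hG0 j n g hg)
      (hloc1 j n hn g hg)
  · rintro j n hn _ ⟨g, hg, rfl⟩
    rw [← hxin n g]
    have hgO : ψ (x0⁻¹ ^ n * g) ∈ D.O := by
      rw [hxin n g]
      exact D.O.mul_mem (D.O.pow_mem hxi n) (hG0 j n g hg)
    exact h46_hloc_valFam V2 D ψ (fun b => (hB2 b).1) vert2 hvert2 a2 hVAL2 (x0⁻¹ ^ n * g) hgO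
      (hloc2 j n hn g hg)

end Fermat.Agent.S36
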