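import Fermat.Agent.S36.h46_EBinders
import Fermat.Agent.S36.h46_SpanInst
import Fermat.Agent.S36.h80_FamInst
import Fermat.Agent.S36.h29_GeomNLoc

/-!
# S36 / row E adapter at the modular level (helper46)

Level `M`, `H` a subgroup of `Gal(ℚ̄/ℚ)`, `F0 := h69_F0 M H` (the `H`-fixed functions),
`ψ := (h69_F0 M H).subtype`, chart function `j = h59_jbar M`, vertical valuations
`w : κ → F0 → ℤ` and the two chart families `V1 := h80_fam1 M H w ..`, `V2 := h80_fam2 M H w ..`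
of helper80.  `D` is any lattice datum on `F̄(M)`.

From the ONE comparison statement

  `(C3)  ∀ f : F0, f ≠ 0 → (ψ f ∈ D.O ↔ ∀ c, 0 ≤ w c f)`

and `w c q = a c ≥ 1`, `D.A` over `q`:

* `h46_Emod_hB1`, `h46_Emod_hB2`, `h46_Emod_hVAL1`, `h46_Emod_hVAL2`, `h46_Emod_hvertO1`,
  `h46_Emod_hvertO2`, `h46_Emod_hhor1`, `h46_Emod_hhor2` : the chart-family binders of
  `h29_geomN_of_loc_jbar` for `V1`, `V2`, `vert := Set.range Sum.inl`,
  `a' := Sum.elim a (fun _ => 1)`;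
* `h46_geomN_of_comp3` : `h29_geomN_of_loc_jbar` with all these binders discharged and `huz`
  replaced by `uz ≡ 1` modulo `a` at the vertical valuations (`uz ∈ F0`);
* `h46_geomN_of_comp3_span` : moreover `hspan` is discharged (`H` the inertia group of `D.A`,
  from `hdivq` and the invariance of `E1` and of the witness divisor).
-/

set_option autoImplicit false

open AlgebraicCurve ModularCurve

namespace Fermat.Agent.S36

open Fermat.Agent.S18 Fermat.Agent.S24 Fermat.Agent.S19 Fermat.Agent.S34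

local notation "Qb" => AlgebraicClosure ℚ

section Binders

variable (M : ℕ) [NeZero M] (H : Subgroup (Qb ≃ₐ[ℚ] Qb))
variable {κ : Type*} [Finite κ] (w : κ → h69_F0 M H → ℤ)
  (hw_mul : ∀ c (f g : h69_F0 M H), f ≠ 0 → g ≠ 0 → w c (f * g) = w c f + w c g)
  (hw_add : ∀ c (f g : h69_F0 M H), f ≠ 0 → g ≠ 0 → f + g ≠ 0 →
    min (w c f) (w c g) ≤ w c (f + g))
variable {k Rb : Type*} [Field k] [CommRing Rb] [Algebra k Rb]
  (D : h22_Lat Qb (modularFunctionFieldBar M) k Rb)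
  (hC3 : ∀ f : h69_F0 M H, f ≠ 0 → ((h69_F0 M H).subtype f ∈ D.O ↔ ∀ c, 0 ≤ w c f))

omit [NeZero M] in
/-- The constant `q` of `F0` is nonzero. -/
theorem h46_Emod_q_ne (q : ℕ) (hq0 : q ≠ 0) : ((q : ℕ) : h69_F0 M H) ≠ 0 := by
  intro h
  have h1 : (h69_F0 M H).subtype ((q : ℕ) : h69_F0 M H) = 0 := by rw [h, map_zero]
  rw [map_natCast, ← map_natCast (algebraMap Qb (modularFunctionFieldBar M)) q] at h1
  have h2 : (q : Qb) = 0 :=
    (algebraMap Qb (modularFunctionFieldBar M)).injective (by rw [h1, map_zero])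
  exact hq0 (by exact_mod_cast h2)

omit [NeZero M] in
/-- The constant `q` of `F0` is the constant `q` of `ℚ̄`. -/
theorem h46_Emod_q_eq (q : ℕ) :
    (h69_F0 M H).subtype ((q : ℕ) : h69_F0 M H) =
      algebraMap Qb (modularFunctionFieldBar M) (q : Qb) := by
  rw [map_natCast, map_natCast]

omit [NeZero M] in
theorem h46_Emod_fin1 [NeZero M] : ∀ f : modularFunctionFieldBar M, f ≠ 0 →
    {P : Place Qb (modularFunctionFieldBar M) |
      P ∈ h80_chartSet Qb (h59_jbar M) ∧ P.ord f ≠ 0}.Finite :=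
  fun f hf => (h75_finite_ord_ne (h54_isChart_jbar M) f hf).subset fun _ hP => hP.2

omit [NeZero M] in
theorem h46_Emod_fin2 [NeZero M] : ∀ f : modularFunctionFieldBar M, f ≠ 0 →
    {P : Place Qb (modularFunctionFieldBar M) |
      P ∈ h80_chartSet Qb (h59_jbar M)⁻¹ ∧ P.ord f ≠ 0}.Finite :=
  fun f hf => (h75_finite_ord_ne (h75_isChart_inv (h54_isChart_jbar M)) f hf).subset
    fun _ hP => hP.2

include hC3 in
theorem h46_Emod_hB1 :
    ∀ b : (h80_fam1 M H w hw_mul hw_add).B,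
      (h69_F0 M H).subtype (b : h69_F0 M H) ∈ D.O ∧
        ∀ v : Place Qb (modularFunctionFieldBar M), 0 ≤ v.ord (h59_jbar M) →
          0 ≤ v.ord ((h69_F0 M H).subtype (b : h69_F0 M H)) :=
  h46_E_hB (h69_F0 M H).subtype (h80_chartSet Qb (h59_jbar M)) w hw_mul hw_add (h46_Emod_fin1 M) D hC3
    (fun v => 0 ≤ v.ord (h59_jbar M)) (fun _ hP => hP)

include hC3 in
theorem h46_Emod_hB2 :
    ∀ b : (h80_fam2 M H w hw_mul hw_add).B,
      (h69_F0 M H).subtype (b : h69_F0 M H) ∈ D.O ∧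
        ∀ v : Place Qb (modularFunctionFieldBar M), v.ord (h59_jbar M) ≤ 0 →
          0 ≤ v.ord ((h69_F0 M H).subtype (b : h69_F0 M H)) :=
  h46_E_hB (h69_F0 M H).subtype (h80_chartSet Qb (h59_jbar M)⁻¹) w hw_mul hw_add (h46_Emod_fin2 M) D hC3
    (fun v => v.ord (h59_jbar M) ≤ 0) (fun P hP => by
      show 0 ≤ P.ord (h59_jbar M)⁻¹
      rw [P.ord_inv]
      have hP' : P.ord (h59_jbar M) ≤ 0 := hP
      omega)

include hC3 in
theorem h46_Emod_hVAL1 (q : ℕ) (hq0 : q ≠ 0) (hA : D.A.LiesOverPrime q) (a : κ → ℕ)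
    (hwq : ∀ c, w c ((q : ℕ) : h69_F0 M H) = a c) :
    ∀ h : h69_F0 M H, h ≠ 0 →
      (∀ C ∈ Set.range (Sum.inl : κ → κ ⊕ h80_HorIdx (h80_horOrd M H (h59_jbar M))),
        ((Sum.elim a (fun _ => 1) :
          κ ⊕ h80_HorIdx (h80_horOrd M H (h59_jbar M)) → ℕ) C : ℤ) ≤
          (h80_fam1 M H w hw_mul hw_add).v C h) →
      (h69_F0 M H).subtype h ∈ D.O ∧ D.redF ((h69_F0 M H).subtype h) = 0 :=
  h46_E_hVAL (h69_F0 M H).subtype (h80_chartSet Qb (h59_jbar M)) w hw_mul hw_add (h46_Emod_fin1 M) D hC3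
    ((q : ℕ) : h69_F0 M H) (h46_Emod_q_ne M H q hq0) a hwq (q : Qb) hA (h46_Emod_q_eq M H q)

include hC3 in
theorem h46_Emod_hVAL2 (q : ℕ) (hq0 : q ≠ 0) (hA : D.A.LiesOverPrime q) (a : κ → ℕ)
    (hwq : ∀ c, w c ((q : ℕ) : h69_F0 M H) = a c) :
    ∀ h : h69_F0 M H, h ≠ 0 →
      (∀ C ∈ Set.range (Sum.inl : κ → κ ⊕ h80_HorIdx (h80_horOrd M H (h59_jbar M)⁻¹)),
        ((Sum.elim a (fun _ => 1) :
          κ ⊕ h80_HorIdx (h80_horOrd M H (h59_jbar M)⁻¹) → ℕ) C : ℤ) ≤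
          (h80_fam2 M H w hw_mul hw_add).v C h) →
      (h69_F0 M H).subtype h ∈ D.O ∧ D.redF ((h69_F0 M H).subtype h) = 0 :=
  h46_E_hVAL (h69_F0 M H).subtype (h80_chartSet Qb (h59_jbar M)⁻¹) w hw_mul hw_add (h46_Emod_fin2 M) D hC3
    ((q : ℕ) : h69_F0 M H) (h46_Emod_q_ne M H q hq0) a hwq (q : Qb) hA (h46_Emod_q_eq M H q)

include hC3 in
theorem h46_Emod_hvertO1 :
    ∀ g : h69_F0 M H, g ≠ 0 → (h69_F0 M H).subtype g ∈ D.O →
      ∀ C ∈ Set.range (Sum.inl : κ → κ ⊕ h80_HorIdx (h80_horOrd M H (h59_jbar M))),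
        0 ≤ (h80_fam1 M H w hw_mul hw_add).v C g :=
  h46_E_hvertO (h69_F0 M H).subtype (h80_chartSet Qb (h59_jbar M)) w hw_mul hw_add (h46_Emod_fin1 M) D hC3

include hC3 in
theorem h46_Emod_hvertO2 :
    ∀ g : h69_F0 M H, g ≠ 0 → (h69_F0 M H).subtype g ∈ D.O →
      ∀ C ∈ Set.range (Sum.inl : κ → κ ⊕ h80_HorIdx (h80_horOrd M H (h59_jbar M)⁻¹)),
        0 ≤ (h80_fam2 M H w hw_mul hw_add).v C g :=
  h46_E_hvertO (h69_F0 M H).subtype (h80_chartSet Qb (h59_jbar M)⁻¹) w hw_mul hw_add (h46_Emod_fin2 M) D hC3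

theorem h46_Emod_hhor1 :
    ∀ i, i ∉ Set.range (Sum.inl : κ → κ ⊕ h80_HorIdx (h80_horOrd M H (h59_jbar M))) →
      ∃ P : Place Qb (modularFunctionFieldBar M), 0 ≤ P.ord (h59_jbar M) ∧
        ∀ f : h69_F0 M H, f ≠ 0 →
          (h80_fam1 M H w hw_mul hw_add).v i f = P.ord ((h69_F0 M H).subtype f) :=
  h46_E_hhor (h69_F0 M H).subtype (h80_chartSet Qb (h59_jbar M)) w hw_mul hw_add (h46_Emod_fin1 M)
    (fun v => 0 ≤ v.ord (h59_jbar M)) (fun _ hP => hP)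

theorem h46_Emod_hhor2 :
    ∀ i, i ∉ Set.range (Sum.inl : κ → κ ⊕ h80_HorIdx (h80_horOrd M H (h59_jbar M)⁻¹)) →
      ∃ P : Place Qb (modularFunctionFieldBar M), P.ord (h59_jbar M) ≤ 0 ∧
        ∀ f : h69_F0 M H, f ≠ 0 →
          (h80_fam2 M H w hw_mul hw_add).v i f = P.ord ((h69_F0 M H).subtype f) :=
  h46_E_hhor (h69_F0 M H).subtype (h80_chartSet Qb (h59_jbar M)⁻¹) w hw_mul hw_add (h46_Emod_fin2 M)
    (fun v => v.ord (h59_jbar M) ≤ 0) (fun P hP => by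
      have hP' : 0 ≤ P.ord (h59_jbar M)⁻¹ := hP
      rw [P.ord_inv] at hP'
      show P.ord (h59_jbar M) ≤ 0
      omega)

end Binders

section Plug

variable (M : ℕ) [NeZero M] {k Rb : Type*} [Field k] [CommRing Rb] [Algebra k Rb]

/-- **The final plug minus the witness.** `h29_geomN_of_loc_jbar` for the chart families
`h80_fam1`, `h80_fam2` of the vertical valuations `w`, with all chart-family binders discharged
from `(C3)` and `w c q = a c ≥ 1`, and `huz` replaced by `uz ≡ 1` modulo `a` at the vertical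
valuations. -/
theorem h46_geomN_of_comp3 [Nontrivial Rb]
    (D : h22_Lat Qb (modularFunctionFieldBar M) k Rb) (hON : h22_ON D)
    (hinv : ∀ (f : modularFunctionFieldBar M) (hf : f ∈ D.O), IsUnit (D.red ⟨f, hf⟩) → f⁻¹ ∈ D.O)
    (hrank : h39_RankOne D.A)
    (hx : h59_jbar M ∈ D.O) (hxi : (h59_jbar M)⁻¹ ∈ D.O)
    (E1 E2 : Divisor Qb (modularFunctionFieldBar M))
    (hE1 : ∀ v : Place Qb (modularFunctionFieldBar M), 0 ≤ E1 v)
    (hE2 : ∀ v : Place Qb (modularFunctionFieldBar M), 0 ≤ E2 v)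
    (hdisj : ∀ v : Place Qb (modularFunctionFieldBar M), E1 v = 0 ∨ E2 v = 0)
    (hdivx : ∀ v : Place Qb (modularFunctionFieldBar M), v.ord (h59_jbar M) = E2 v - E1 v)
    (N0 : ℕ)
    (hgen : ∀ n, N0 ≤ n → ∀ a ∈ h51_Rd D ((n + 1) • E1), ∃ b ∈ h51_Rd D (n • E1),
      ∃ c ∈ h51_Rd D (n • E1), a = b + D.redF (h59_jbar M) * c)
    (H : Subgroup (Qb ≃ₐ[ℚ] Qb)) {κ : Type*} [Finite κ] (w : κ → h69_F0 M H → ℤ)
    (hw_mul : ∀ c (f g : h69_F0 M H), f ≠ 0 → g ≠ 0 → w c (f * g) = w c f + w c g)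
    (hw_add : ∀ c (f g : h69_F0 M H), f ≠ 0 → g ≠ 0 → f + g ≠ 0 →
      min (w c f) (w c g) ≤ w c (f + g))
    (hC3 : ∀ f : h69_F0 M H, f ≠ 0 → ((h69_F0 M H).subtype f ∈ D.O ↔ ∀ c, 0 ≤ w c f))
    (q : ℕ) (hq0 : q ≠ 0) (hA : D.A.LiesOverPrime q) (a : κ → ℕ) (ha : ∀ c, 1 ≤ a c)
    (hwq : ∀ c, w c ((q : ℕ) : h69_F0 M H) = a c)
    (lam : ℕ) (hlam : (lam : k) ≠ 0) (c : ℕ) (Pnew : JZero M → Prop)
    (hwit : ∀ (n : ℕ) (z : JZero M), lam ^ n • z = 0 → Pnew z → (∀ s ∈ H, s • z = z) →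
      ∃ (Ez : Divisor.degZero (K := Qb) (F := modularFunctionFieldBar M)) (uz : h69_F0 M H),
        Pic0.mk Ez = c • z ∧ uz ≠ 0 ∧
        (∀ v : Place Qb (modularFunctionFieldBar M),
          ((lam ^ n : ℕ) : ℤ) * (Ez : Divisor Qb (modularFunctionFieldBar M)) v =
            v.ord ((h69_F0 M H).subtype uz)) ∧
        (uz - 1 = 0 ∨ ∀ c, (a c : ℤ) ≤ w c (uz - 1)) ∧
        (∀ (j : ℤ) (n' : ℕ), N0 ≤ n' →
          ∀ a ∈ h51_Rd D (n' • E1 + j • (Ez : Divisor Qb (modularFunctionFieldBar M))),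
            a ∈ Submodule.span k (D.redF '' ((h69_F0 M H).subtype '' {g : h69_F0 M H |
              (h69_F0 M H).subtype g ∈ riemannRochSpace
                (n' • E1 + j • (Ez : Divisor Qb (modularFunctionFieldBar M))) ∧
              (h69_F0 M H).subtype g ∈ D.O}))) ∧
        (∀ 𝔪 : Ideal (h80_fam1 M H w hw_mul hw_add).B, 𝔪.IsMaximal →
          (∀ t : (h80_fam1 M H w hw_mul hw_add).B,
            D.redF ((h69_F0 M H).subtype (t : h69_F0 M H)) = 0 → t ∈ 𝔪) →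
          ∃ e y : h69_F0 M H, e ≠ 0 ∧ y ≠ 0 ∧ (h80_fam1 M H w hw_mul hw_add).InLoc 𝔪 y ∧
            (h80_fam1 M H w hw_mul hw_add).InLoc 𝔪 y⁻¹ ∧
            (∀ i, i ∉ Set.range (Sum.inl : κ → κ ⊕ h80_HorIdx (h80_horOrd M H (h59_jbar M))) →
              (h80_fam1 M H w hw_mul hw_add).Through 𝔪 i →
              ∀ P : Place Qb (modularFunctionFieldBar M),
                (∀ f : h69_F0 M H, f ≠ 0 →
                  (h80_fam1 M H w hw_mul hw_add).v i f = P.ord ((h69_F0 M H).subtype f)) →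
                (h80_fam1 M H w hw_mul hw_add).v i e =
                  (Ez : Divisor Qb (modularFunctionFieldBar M)) P) ∧
            ∀ C ∈ Set.range (Sum.inl : κ → κ ⊕ h80_HorIdx (h80_horOrd M H (h59_jbar M))),
              (h80_fam1 M H w hw_mul hw_add).Through 𝔪 C →
              (e = y ∨ ((Sum.elim a (fun _ => 1) :
                  κ ⊕ h80_HorIdx (h80_horOrd M H (h59_jbar M)) → ℕ) C : ℤ) ≤
                (h80_fam1 M H w hw_mul hw_add).v C (e - y))) ∧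
        (∀ 𝔪 : Ideal (h80_fam2 M H w hw_mul hw_add).B, 𝔪.IsMaximal →
          (∀ t : (h80_fam2 M H w hw_mul hw_add).B,
            D.redF ((h69_F0 M H).subtype (t : h69_F0 M H)) = 0 → t ∈ 𝔪) →
          ∃ e y : h69_F0 M H, e ≠ 0 ∧ y ≠ 0 ∧ (h80_fam2 M H w hw_mul hw_add).InLoc 𝔪 y ∧
            (h80_fam2 M H w hw_mul hw_add).InLoc 𝔪 y⁻¹ ∧
            (∀ i, i ∉ Set.range
                (Sum.inl : κ → κ ⊕ h80_HorIdx (h80_horOrd M H (h59_jbar M)⁻¹)) →
              (h80_fam2 M H w hw_mul hw_add).Through 𝔪 i →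
              ∀ P : Place Qb (modularFunctionFieldBar M),
                (∀ f : h69_F0 M H, f ≠ 0 →
                  (h80_fam2 M H w hw_mul hw_add).v i f = P.ord ((h69_F0 M H).subtype f)) →
                (h80_fam2 M H w hw_mul hw_add).v i e =
                  (Ez : Divisor Qb (modularFunctionFieldBar M)) P) ∧
            ∀ C ∈ Set.range (Sum.inl : κ → κ ⊕ h80_HorIdx (h80_horOrd M H (h59_jbar M)⁻¹)),
              (h80_fam2 M H w hw_mul hw_add).Through 𝔪 C →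
              (e = y ∨ ((Sum.elim a (fun _ => 1) :
                  κ ⊕ h80_HorIdx (h80_horOrd M H (h59_jbar M)⁻¹) → ℕ) C : ℤ) ≤
                (h80_fam2 M H w hw_mul hw_add).v C (e - y)))) :
    ∀ (n : ℕ) (z : JZero M), lam ^ n • z = 0 → Pnew z → (∀ s ∈ H, s • z = z) → c • z = 0 := by
  refine h29_geomN_of_loc_jbar M D hON hinv hrank hx hxi E1 E2 hE1 hE2 hdisj hdivx N0 hgen
    (h69_F0 M H).subtype ⟨h59_jbar M, h80_jbar_mem_F0 M H⟩ rfl
    (h80_fam1 M H w hw_mul hw_add) (h80_fam2 M H w hw_mul hw_add)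
    (h46_Emod_hB1 M H w hw_mul hw_add D hC3) (h46_Emod_hB2 M H w hw_mul hw_add D hC3)
    (Set.range Sum.inl) (Set.finite_range _) (Sum.elim a (fun _ => 1))
    (by rintro _ ⟨c, rfl⟩; exact ha c)
    (h46_Emod_hVAL1 M H w hw_mul hw_add D hC3 q hq0 hA a hwq)
    (h46_Emod_hvertO1 M H w hw_mul hw_add D hC3)
    (h46_Emod_hhor1 M H w hw_mul hw_add)
    (Set.range Sum.inl) (Set.finite_range _) (Sum.elim a (fun _ => 1))
    (by rintro _ ⟨c, rfl⟩; exact ha c)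
    (h46_Emod_hVAL2 M H w hw_mul hw_add D hC3 q hq0 hA a hwq)
    (h46_Emod_hvertO2 M H w hw_mul hw_add D hC3)
    (h46_Emod_hhor2 M H w hw_mul hw_add)
    lam hlam c Pnew H ?_
  intro n z hz hP hfix
  obtain ⟨Ez, uz, hcls, huz0, hdivz, huz1, hspan, hnz1, hnz2⟩ := hwit n z hz hP hfix
  refine ⟨Ez, (h69_F0 M H).subtype uz, hcls, ?_, hdivz, ?_, hspan, hnz1, hnz2⟩
  · intro h
    exact huz0 ((h69_F0 M H).subtype.injective (by rw [h, map_zero]))
  · exact h46_E_huz (h69_F0 M H).subtype w hw_mul D hC3 ((q : ℕ) : h69_F0 M H)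
      (h46_Emod_q_ne M H q hq0) a hwq (q : Qb) hA (h46_Emod_q_eq M H q) uz huz1

/-- **The final plug minus the witness, `hspan` discharged.** `H` is the inertia group of
`A = D.A` (over the prime `q`); `hspan` follows from `hdivq` (an inertia-fixed element of `O`
with zero reduction is divisible by `q` in `O`) and the invariance of the witness divisor.
What remains is exactly: the lattice binders, `(C3)`, `w c q = a c`, and for every torsion
point a witness `(Ez, uz)` with `[Ez] = c • z`, `div uz = lam ^ n • Ez`, `uz ≡ 1` modulo `a`,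
`Ez` invariant, and the local data `hnz1`, `hnz2` at the closed points of the two charts. -/
theorem h46_geomN_of_comp3_span [Nontrivial Rb]
    (D : h22_Lat Qb (modularFunctionFieldBar M) k Rb) (hON : h22_ON D)
    (hinv : ∀ (f : modularFunctionFieldBar M) (hf : f ∈ D.O), IsUnit (D.red ⟨f, hf⟩) → f⁻¹ ∈ D.O)
    (hrank : h39_RankOne D.A)
    (hx : h59_jbar M ∈ D.O) (hxi : (h59_jbar M)⁻¹ ∈ D.O)
    (E1 E2 : Divisor Qb (modularFunctionFieldBar M))
    (hE1 : ∀ v : Place Qb (modularFunctionFieldBar M), 0 ≤ E1 v)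
    (hE2 : ∀ v : Place Qb (modularFunctionFieldBar M), 0 ≤ E2 v)
    (hdisj : ∀ v : Place Qb (modularFunctionFieldBar M), E1 v = 0 ∨ E2 v = 0)
    (hdivx : ∀ v : Place Qb (modularFunctionFieldBar M), v.ord (h59_jbar M) = E2 v - E1 v)
    (N0 : ℕ)
    (hgen : ∀ n, N0 ≤ n → ∀ a ∈ h51_Rd D ((n + 1) • E1), ∃ b ∈ h51_Rd D (n • E1),
      ∃ c ∈ h51_Rd D (n • E1), a = b + D.redF (h59_jbar M) * c)
    (A : ValuationSubring Qb) (hDA : D.A = A)
    {κ : Type*} [Finite κ] (w : κ → h69_F0 M (A.inertiaSubgroupIn ℚ) → ℤ)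
    (hw_mul : ∀ c (f g : h69_F0 M (A.inertiaSubgroupIn ℚ)), f ≠ 0 → g ≠ 0 →
      w c (f * g) = w c f + w c g)
    (hw_add : ∀ c (f g : h69_F0 M (A.inertiaSubgroupIn ℚ)), f ≠ 0 → g ≠ 0 → f + g ≠ 0 →
      min (w c f) (w c g) ≤ w c (f + g))
    (hC3 : ∀ f : h69_F0 M (A.inertiaSubgroupIn ℚ), f ≠ 0 →
      ((h69_F0 M (A.inertiaSubgroupIn ℚ)).subtype f ∈ D.O ↔ ∀ c, 0 ≤ w c f))
    (q : ℕ) (hq : q.Prime) (hA : A.LiesOverPrime q) (a : κ → ℕ) (ha : ∀ c, 1 ≤ a c)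
    (hwq : ∀ c, w c ((q : ℕ) : h69_F0 M (A.inertiaSubgroupIn ℚ)) = a c)
    (hdivq : ∀ f : modularFunctionFieldBar M, f ∈ h69_F0 M (A.inertiaSubgroupIn ℚ) →
      f ∈ D.O → D.redF f = 0 → ((q : Qb)⁻¹) • f ∈ D.O)
    (lam : ℕ) (hlam : (lam : k) ≠ 0) (c : ℕ) (Pnew : JZero M → Prop)
    (hwit : ∀ (n : ℕ) (z : JZero M), lam ^ n • z = 0 → Pnew z →
      (∀ s ∈ A.inertiaSubgroupIn ℚ, s • z = z) →
      ∃ (Ez : Divisor.degZero (K := Qb) (F := modularFunctionFieldBar M))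
        (uz : h69_F0 M (A.inertiaSubgroupIn ℚ)),
        Pic0.mk Ez = c • z ∧ uz ≠ 0 ∧
        (∀ v : Place Qb (modularFunctionFieldBar M),
          ((lam ^ n : ℕ) : ℤ) * (Ez : Divisor Qb (modularFunctionFieldBar M)) v =
            v.ord ((h69_F0 M (A.inertiaSubgroupIn ℚ)).subtype uz)) ∧
        (uz - 1 = 0 ∨ ∀ c, (a c : ℤ) ≤ w c (uz - 1)) ∧
        (∀ σ ∈ A.inertiaSubgroupIn ℚ, arithmeticGalois (modularFunctionFieldFull M) σ •
          (Ez : Divisor Qb (modularFunctionFieldBar M)) = Ez) ∧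
        (∀ 𝔪 : Ideal (h80_fam1 M (A.inertiaSubgroupIn ℚ) w hw_mul hw_add).B, 𝔪.IsMaximal →
          (∀ t : (h80_fam1 M (A.inertiaSubgroupIn ℚ) w hw_mul hw_add).B,
            D.redF ((h69_F0 M (A.inertiaSubgroupIn ℚ)).subtype
              (t : h69_F0 M (A.inertiaSubgroupIn ℚ))) = 0 → t ∈ 𝔪) →
          ∃ e y : h69_F0 M (A.inertiaSubgroupIn ℚ), e ≠ 0 ∧ y ≠ 0 ∧
            (h80_fam1 M (A.inertiaSubgroupIn ℚ) w hw_mul hw_add).InLoc 𝔪 y ∧
            (h80_fam1 M (A.inertiaSubgroupIn ℚ) w hw_mul hw_add).InLoc 𝔪 y⁻¹ ∧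
            (∀ i, i ∉ Set.range (Sum.inl :
                κ → κ ⊕ h80_HorIdx (h80_horOrd M (A.inertiaSubgroupIn ℚ) (h59_jbar M))) →
              (h80_fam1 M (A.inertiaSubgroupIn ℚ) w hw_mul hw_add).Through 𝔪 i →
              ∀ P : Place Qb (modularFunctionFieldBar M),
                (∀ f : h69_F0 M (A.inertiaSubgroupIn ℚ), f ≠ 0 →
                  (h80_fam1 M (A.inertiaSubgroupIn ℚ) w hw_mul hw_add).v i f =
                    P.ord ((h69_F0 M (A.inertiaSubgroupIn ℚ)).subtype f)) →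
                (h80_fam1 M (A.inertiaSubgroupIn ℚ) w hw_mul hw_add).v i e =
                  (Ez : Divisor Qb (modularFunctionFieldBar M)) P) ∧
            ∀ C ∈ Set.range (Sum.inl :
                κ → κ ⊕ h80_HorIdx (h80_horOrd M (A.inertiaSubgroupIn ℚ) (h59_jbar M))),
              (h80_fam1 M (A.inertiaSubgroupIn ℚ) w hw_mul hw_add).Through 𝔪 C →
              (e = y ∨ ((Sum.elim a (fun _ => 1) :
                  κ ⊕ h80_HorIdx (h80_horOrd M (A.inertiaSubgroupIn ℚ) (h59_jbar M)) → ℕ) C :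
                    ℤ) ≤
                (h80_fam1 M (A.inertiaSubgroupIn ℚ) w hw_mul hw_add).v C (e - y))) ∧
        (∀ 𝔪 : Ideal (h80_fam2 M (A.inertiaSubgroupIn ℚ) w hw_mul hw_add).B, 𝔪.IsMaximal →
          (∀ t : (h80_fam2 M (A.inertiaSubgroupIn ℚ) w hw_mul hw_add).B,
            D.redF ((h69_F0 M (A.inertiaSubgroupIn ℚ)).subtype
              (t : h69_F0 M (A.inertiaSubgroupIn ℚ))) = 0 → t ∈ 𝔪) →
          ∃ e y : h69_F0 M (A.inertiaSubgroupIn ℚ), e ≠ 0 ∧ y ≠ 0 ∧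
            (h80_fam2 M (A.inertiaSubgroupIn ℚ) w hw_mul hw_add).InLoc 𝔪 y ∧
            (h80_fam2 M (A.inertiaSubgroupIn ℚ) w hw_mul hw_add).InLoc 𝔪 y⁻¹ ∧
            (∀ i, i ∉ Set.range (Sum.inl :
                κ → κ ⊕ h80_HorIdx (h80_horOrd M (A.inertiaSubgroupIn ℚ) (h59_jbar M)⁻¹)) →
              (h80_fam2 M (A.inertiaSubgroupIn ℚ) w hw_mul hw_add).Through 𝔪 i →
              ∀ P : Place Qb (modularFunctionFieldBar M),
                (∀ f : h69_F0 M (A.inertiaSubgroupIn ℚ), f ≠ 0 →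
                  (h80_fam2 M (A.inertiaSubgroupIn ℚ) w hw_mul hw_add).v i f =
                    P.ord ((h69_F0 M (A.inertiaSubgroupIn ℚ)).subtype f)) →
                (h80_fam2 M (A.inertiaSubgroupIn ℚ) w hw_mul hw_add).v i e =
                  (Ez : Divisor Qb (modularFunctionFieldBar M)) P) ∧
            ∀ C ∈ Set.range (Sum.inl :
                κ → κ ⊕ h80_HorIdx (h80_horOrd M (A.inertiaSubgroupIn ℚ) (h59_jbar M)⁻¹)),
              (h80_fam2 M (A.inertiaSubgroupIn ℚ) w hw_mul hw_add).Through 𝔪 C →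
              (e = y ∨ ((Sum.elim a (fun _ => 1) :
                  κ ⊕ h80_HorIdx (h80_horOrd M (A.inertiaSubgroupIn ℚ) (h59_jbar M)⁻¹) → ℕ) C :
                    ℤ) ≤
                (h80_fam2 M (A.inertiaSubgroupIn ℚ) w hw_mul hw_add).v C (e - y)))) :
    ∀ (n : ℕ) (z : JZero M), lam ^ n • z = 0 → Pnew z →
      (∀ s ∈ A.inertiaSubgroupIn ℚ, s • z = z) → c • z = 0 := by
  subst hDA
  have hy := h54_isChart_jbar M
  have : HasPrincipalDivisors Qb (modularFunctionFieldBar M) := h75_hasPrincipalDivisors hy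
  have hfin : ∀ D' : Divisor Qb (modularFunctionFieldBar M),
      Module.Finite Qb (riemannRochSpace D') := fun D' => (h75_riemann hy D').1
  have hE1max : ∀ v : Place Qb (modularFunctionFieldBar M),
      E1 v = max 0 (-v.ord (h59_jbar M)) := by
    intro v
    have h1 := hE1 v
    have h2 := hE2 v
    have h3 := hdivx v
    rcases hdisj v with h4 | h4
    · rw [h4, h3, h4]
      have : E2 v - 0 = E2 v := sub_zero _
      rw [this, max_eq_left (by omega)]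
    · rw [h3, h4, zero_sub, neg_neg, max_eq_right h1]
  have hE1inv : ∀ σ ∈ D.A.inertiaSubgroupIn ℚ,
      arithmeticGalois (modularFunctionFieldFull M) σ • E1 = E1 :=
    fun σ _ => h5_polar_invariant _ _ (h2_jbar_fix M σ) E1 hE1max
  refine h46_geomN_of_comp3 M D hON hinv hrank hx hxi E1 E2 hE1 hE2 hdisj hdivx N0 hgen
    (D.A.inertiaSubgroupIn ℚ) w hw_mul hw_add hC3 q hq.ne_zero hA a ha hwq lam hlam c Pnew ?_
  intro n z hz hP hfix
  obtain ⟨Ez, uz, hcls, huz0, hdivz, huz1, hEz, hnz1, hnz2⟩ := hwit n z hz hP hfix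
  exact ⟨Ez, uz, hcls, huz0, hdivz, huz1,
    fun j n' _ => h46_hspan_family M hq D hA hON hrank hdivq hfin E1
      (Ez : Divisor Qb (modularFunctionFieldBar M)) hE1inv hEz j n', hnz1, hnz2⟩

end Plug

end Fermat.Agent.S36
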