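import Fermat.Agent.S34.h50_LastStep
import Fermat.Agent.S34.h63_Strict

/-!
# S36 / (L1-d) (helper46): local data on the two chart rings ⟹ trivial gluing

Generic layer (no modular input) on top of the frozen generic S34 layer (`h22_Lat`, `h51_Rd`,
`h50_gen_up`, `h50_strict_of_gen`, `h50_lastStep`).

Setting: a lattice datum `D : h22_Lat K F k Rb` (any `Rb`, reduced or not), a balanced chart
function `x` (`x, x⁻¹ ∈ O`), two subrings `T1, T2` of `F` ("chart rings", in the application the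
`K₀`-rational elements of `O` regular where `x`, resp. `x⁻¹`, is regular) and a divisor `E'`.

* `h46_mem_range_of_local` (Mathlib only, **denominator ideal**): `φ : T →+* Rb`, `γ : Rb`; if at
  every maximal ideal `𝔪 ⊇ ker φ` of `T` there is a denominator `b ∉ 𝔪` with `φ b * γ ∈ φ T`, then
  `γ ∈ φ T`.
* `h46_local_of_branches` (Mathlib only): the local hypothesis from branch data (jointly injective
  projections `pr i : Rb →+* Rbi i`; the branches not through `𝔪` are killed by elements of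
  `T \ 𝔪`).
* `h46_redF_mem_of_local` : the same for `φ = red|T`.
* `h46_Rd_le_of_local` : local data on both charts for a spanning set of `red (L(n E1 + E') ∩ O)`
  + two-chart strictness ⟹ `red (L(n E1 + E') ∩ O) ≤ red (L(n E1) ∩ O)`.
* `h46_Rd_eq_of_local` : equality, by dimension.
* `h46_trivial_gluing` : the trivial-gluing binder of `h51_LastStep` from local data and `(GEN)`.
* `h46_principal_of_local` : the divisor `Ez` of a toric witness with these local data is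
  principal (`h50_lastStep` + `h51_principal_of_section`).
-/

set_option autoImplicit false

namespace Fermat.Agent.S36

open AlgebraicCurve Fermat.Agent.S24 Fermat.Agent.S18 Fermat.Agent.S34

/-! ### The denominator ideal (Mathlib only) -/

/-- **Denominator ideal.** If at every maximal ideal `𝔪` of `T` containing `ker φ` some
`b ∉ 𝔪` has `φ b * γ ∈ φ T`, then `γ ∈ φ T`. -/
theorem h46_mem_range_of_local {T Rb : Type*} [CommRing T] [CommRing Rb] (φ : T →+* Rb) (γ : Rb)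
    (hloc : ∀ 𝔪 : Ideal T, 𝔪.IsMaximal → RingHom.ker φ ≤ 𝔪 →
      ∃ b : T, b ∉ 𝔪 ∧ ∃ a : T, φ b * γ = φ a) :
    ∃ a : T, φ a = γ := by
  let I : Ideal T :=
    { carrier := {r | ∃ a : T, φ r * γ = φ a}
      add_mem' := by
        rintro r s ⟨a, ha⟩ ⟨b, hb⟩
        exact ⟨a + b, by rw [map_add, add_mul, ha, hb, map_add]⟩
      zero_mem' := ⟨0, by rw [map_zero, zero_mul]⟩
      smul_mem' := by
        rintro c r ⟨a, ha⟩
        exact ⟨c * a, by rw [smul_eq_mul, map_mul, mul_assoc, ha, map_mul]⟩ }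
  have hI : I = ⊤ := by
    by_contra hne
    obtain ⟨𝔪, h𝔪, hle⟩ := Ideal.exists_le_maximal I hne
    have hker : RingHom.ker φ ≤ 𝔪 := fun t ht =>
      hle ⟨0, by rw [RingHom.mem_ker.1 ht, zero_mul, map_zero]⟩
    obtain ⟨b, hb, a, ha⟩ := hloc 𝔪 h𝔪 hker
    exact hb (hle ⟨a, ha⟩)
  have h1 : (1 : T) ∈ I := by
    rw [hI]
    exact Submodule.mem_top
  obtain ⟨a, ha⟩ := h1
  exact ⟨a, by rw [← ha, map_one, one_mul]⟩

/-- **Branches.** The local hypothesis of `h46_mem_range_of_local` at a prime `𝔪` from branch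
data: the projections `pr i` are jointly injective, every branch `i ∉ S` ("not through `𝔪`") is
killed by some `t ∉ 𝔪`, and `φ b * γ = φ a` holds on the branches `i ∈ S`. -/
theorem h46_local_of_branches {T Rb : Type*} [CommRing T] [CommRing Rb] (φ : T →+* Rb) (γ : Rb)
    {ι : Type*} [Finite ι] {Rbi : ι → Type*} [∀ i, CommRing (Rbi i)]
    (pr : ∀ i, Rb →+* Rbi i) (hpr : ∀ a : Rb, (∀ i, pr i a = 0) → a = 0)
    (𝔪 : Ideal T) [h𝔪 : 𝔪.IsPrime] (S : Set ι)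
    (hout : ∀ i, i ∉ S → ∃ t : T, t ∉ 𝔪 ∧ pr i (φ t) = 0)
    (b a : T) (hb : b ∉ 𝔪) (hba : ∀ i ∈ S, pr i (φ b * γ) = pr i (φ a)) :
    ∃ b' : T, b' ∉ 𝔪 ∧ ∃ a' : T, φ b' * γ = φ a' := by
  classical
  cases nonempty_fintype ι
  choose! t ht using hout
  let τ : T := ∏ i ∈ Finset.univ.filter (fun i => i ∉ S), t i
  have hτ : τ ∉ 𝔪 := by
    intro h
    obtain ⟨i, hi, hmem⟩ := (Ideal.IsPrime.prod_mem_iff (p := 𝔪)).1 h
    exact (ht i (Finset.mem_filter.1 hi).2).1 hmem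
  have hτ0 : ∀ i, i ∉ S → pr i (φ τ) = 0 := by
    intro i hi
    have h1 : pr i (φ τ) = ∏ j ∈ Finset.univ.filter (fun i => i ∉ S), pr i (φ (t j)) := by
      rw [map_prod, map_prod]
    rw [h1]
    exact Finset.prod_eq_zero (Finset.mem_filter.2 ⟨Finset.mem_univ i, hi⟩) (ht i hi).2
  refine ⟨τ * b, ?_, τ * a, ?_⟩
  · intro h
    rcases h𝔪.mem_or_mem h with h | h
    · exact hτ h
    · exact hb h
  · have h0 : φ (τ * b) * γ - φ (τ * a) = 0 := by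
      apply hpr
      intro i
      have e : φ (τ * b) * γ - φ (τ * a) = φ τ * (φ b * γ) - φ τ * φ a := by
        rw [map_mul, map_mul, mul_assoc]
      rw [e, map_sub, map_mul (pr i) (φ τ) (φ b * γ), map_mul (pr i) (φ τ) (φ a)]
      by_cases hi : i ∈ S
      · rw [hba i hi, sub_self]
      · rw [hτ0 i hi, zero_mul, zero_mul, sub_self]
    exact sub_eq_zero.1 h0

/-! ### The lattice form -/

variable {K F k Rb : Type*} [Field K] [Field F] [Algebra K F] [Field k] [CommRing Rb]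
  [Algebra k Rb]

/-- The reduction map restricted to a subring of `O`. -/
noncomputable def h46_redT (D : h22_Lat K F k Rb) (T : Subring F) (hTO : T ≤ D.O) : T →+* Rb :=
  D.red.comp (Subring.inclusion hTO)

theorem h46_redT_apply (D : h22_Lat K F k Rb) (T : Subring F) (hTO : T ≤ D.O) (t : T) :
    h46_redT D T hTO t = D.redF (t : F) := by
  rw [D.redF_of_mem (hTO t.2)]
  rfl

/-- **Denominator ideal, lattice form.** `T ≤ O` a subring, `γ : Rb`; if at every maximal ideal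
`𝔪` of `T` containing the kernel of the reduction some `b ∉ 𝔪` has `red b * γ ∈ red T`, then
`γ ∈ red T`. -/
theorem h46_redF_mem_of_local (D : h22_Lat K F k Rb) (T : Subring F) (hTO : T ≤ D.O) (γ : Rb)
    (hloc : ∀ 𝔪 : Ideal T, 𝔪.IsMaximal → (∀ t : T, D.redF (t : F) = 0 → t ∈ 𝔪) →
      ∃ b : T, b ∉ 𝔪 ∧ ∃ a : T, D.redF (b : F) * γ = D.redF (a : F)) :
    ∃ a : T, D.redF (a : F) = γ := by
  obtain ⟨a, ha⟩ := h46_mem_range_of_local (h46_redT D T hTO) γ (fun 𝔪 h𝔪 hker => by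
    obtain ⟨b, hb, a, ha⟩ := hloc 𝔪 h𝔪 (fun t ht => hker (by
      rw [RingHom.mem_ker, h46_redT_apply]
      exact ht))
    exact ⟨b, hb, a, by rw [h46_redT_apply, h46_redT_apply]; exact ha⟩)
  exact ⟨a, by rw [← h46_redT_apply D T hTO]; exact ha⟩

/-- **(LG1): inclusion from local data and two-chart strictness.** -/
theorem h46_Rd_le_of_local (D : h22_Lat K F k Rb) (x : F) (hx0 : x ≠ 0) (hxO : x ∈ D.O)
    (hxiO : x⁻¹ ∈ D.O) (E1 E' : Divisor K F) (n : ℕ)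
    (hstr : ∀ a b : F, a ∈ D.O → b ∈ D.O →
        (∀ v : Place K F, 0 ≤ v.ord x → 0 ≤ v.ord a) →
        (∀ v : Place K F, v.ord x ≤ 0 → 0 ≤ v.ord b) →
        D.redF a = D.redF x ^ n * D.redF b →
        ∃ f : F, f ∈ riemannRochSpace (n • E1) ∧ f ∈ D.O ∧ D.redF f = D.redF a)
    (T1 T2 : Subring F)
    (hT1 : ∀ f ∈ T1, f ∈ D.O ∧ ∀ v : Place K F, 0 ≤ v.ord x → 0 ≤ v.ord f)
    (hT2 : ∀ f ∈ T2, f ∈ D.O ∧ ∀ v : Place K F, v.ord x ≤ 0 → 0 ≤ v.ord f)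
    (G0 : Set F) (hG0 : ∀ g ∈ G0, g ∈ D.O)
    (hspan : ∀ a ∈ h51_Rd D (n • E1 + E'), a ∈ Submodule.span k (D.redF '' G0))
    (hloc1 : ∀ g ∈ G0, ∀ 𝔪 : Ideal T1, 𝔪.IsMaximal → (∀ t : T1, D.redF (t : F) = 0 → t ∈ 𝔪) →
        ∃ b : T1, b ∉ 𝔪 ∧ ∃ a : T1, D.redF (b : F) * D.redF g = D.redF (a : F))
    (hloc2 : ∀ g ∈ G0, ∀ 𝔪 : Ideal T2, 𝔪.IsMaximal → (∀ t : T2, D.redF (t : F) = 0 → t ∈ 𝔪) →
        ∃ b : T2, b ∉ 𝔪 ∧ ∃ a : T2, D.redF (b : F) * D.redF (x⁻¹ ^ n * g) = D.redF (a : F)) :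
    h51_Rd D (n • E1 + E') ≤ h51_Rd D (n • E1) := by
  have hT1O : T1 ≤ D.O := fun f hf => (hT1 f hf).1
  have hT2O : T2 ≤ D.O := fun f hf => (hT2 f hf).1
  intro a ha
  refine Submodule.span_le.2 ?_ (hspan a ha)
  rintro _ ⟨g, hg, rfl⟩
  have hgO : g ∈ D.O := hG0 g hg
  obtain ⟨a1, ha1⟩ := h46_redF_mem_of_local D T1 hT1O (D.redF g) (hloc1 g hg)
  obtain ⟨a2, ha2⟩ := h46_redF_mem_of_local D T2 hT2O (D.redF (x⁻¹ ^ n * g)) (hloc2 g hg)
  have hxn : x ^ n ∈ D.O := D.O.pow_mem hxO n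
  have hxin : x⁻¹ ^ n * g ∈ D.O := D.O.mul_mem (D.O.pow_mem hxiO n) hgO
  have hgx : g = x ^ n * (x⁻¹ ^ n * g) := by
    rw [← mul_assoc, ← mul_pow, mul_inv_cancel₀ hx0, one_pow, one_mul]
  have hred : D.redF (a1 : F) = D.redF x ^ n * D.redF (a2 : F) := by
    rw [ha1, ha2, ← h51_redF_pow D hxO, ← h51_redF_mul D hxn hxin, ← hgx]
  obtain ⟨f, hfL, hfO, hfred⟩ := hstr (a1 : F) (a2 : F) (hT1O a1.2) (hT2O a2.2)
    (hT1 _ a1.2).2 (hT2 _ a2.2).2 hred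
  exact ⟨f, hfL, hfO, by rw [hfred, ha1]⟩

/-- **(LG1'): equality by dimension.** -/
theorem h46_Rd_eq_of_local (D : h22_Lat K F k Rb) (hON : h22_ON D) (x : F) (hx0 : x ≠ 0)
    (hxO : x ∈ D.O) (hxiO : x⁻¹ ∈ D.O) (E1 E' : Divisor K F) (n : ℕ)
    [Module.Finite K (riemannRochSpace (n • E1 + E'))]
    [Module.Finite K (riemannRochSpace (n • E1))]
    (hdim : Module.finrank K (riemannRochSpace (n • E1 + E')) =
      Module.finrank K (riemannRochSpace (n • E1)))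
    (hstr : ∀ a b : F, a ∈ D.O → b ∈ D.O →
        (∀ v : Place K F, 0 ≤ v.ord x → 0 ≤ v.ord a) →
        (∀ v : Place K F, v.ord x ≤ 0 → 0 ≤ v.ord b) →
        D.redF a = D.redF x ^ n * D.redF b →
        ∃ f : F, f ∈ riemannRochSpace (n • E1) ∧ f ∈ D.O ∧ D.redF f = D.redF a)
    (T1 T2 : Subring F)
    (hT1 : ∀ f ∈ T1, f ∈ D.O ∧ ∀ v : Place K F, 0 ≤ v.ord x → 0 ≤ v.ord f)
    (hT2 : ∀ f ∈ T2, f ∈ D.O ∧ ∀ v : Place K F, v.ord x ≤ 0 → 0 ≤ v.ord f)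
    (G0 : Set F) (hG0 : ∀ g ∈ G0, g ∈ D.O)
    (hspan : ∀ a ∈ h51_Rd D (n • E1 + E'), a ∈ Submodule.span k (D.redF '' G0))
    (hloc1 : ∀ g ∈ G0, ∀ 𝔪 : Ideal T1, 𝔪.IsMaximal → (∀ t : T1, D.redF (t : F) = 0 → t ∈ 𝔪) →
        ∃ b : T1, b ∉ 𝔪 ∧ ∃ a : T1, D.redF (b : F) * D.redF g = D.redF (a : F))
    (hloc2 : ∀ g ∈ G0, ∀ 𝔪 : Ideal T2, 𝔪.IsMaximal → (∀ t : T2, D.redF (t : F) = 0 → t ∈ 𝔪) →
        ∃ b : T2, b ∉ 𝔪 ∧ ∃ a : T2, D.redF (b : F) * D.redF (x⁻¹ ^ n * g) = D.redF (a : F)) :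
    h51_Rd D (n • E1 + E') = h51_Rd D (n • E1) := by
  have hle := h46_Rd_le_of_local D x hx0 hxO hxiO E1 E' n hstr T1 T2 hT1 hT2 G0 hG0 hspan
    hloc1 hloc2
  have : Module.Finite k (h51_Rd D (n • E1)) := h63_Rd_finite D hON (n • E1)
  refine Submodule.eq_of_le_of_finrank_eq hle ?_
  rw [h51_finrank_Rd D hON (n • E1 + E'), h51_finrank_Rd D hON (n • E1), hdim]

/-- **(LG2): the trivial-gluing binder of `h51_LastStep`** from `(GEN)` (the `hstrict` binder of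
`h50_lastStep`), the dimension formula and local data on the two chart rings for every
`j : ℤ`, `n ≥ N0`. -/
theorem h46_trivial_gluing [HasPrincipalDivisors K F] (D : h22_Lat K F k Rb) (hON : h22_ON D)
    (hfin : ∀ D' : Divisor K F, Module.Finite K (riemannRochSpace D'))
    (x : F) (hx0 : x ≠ 0) (hx : x ∈ D.O) (hxi : x⁻¹ ∈ D.O)
    (E1 E2 : Divisor K F) (hE1 : ∀ v : Place K F, 0 ≤ E1 v) (hE2 : ∀ v : Place K F, 0 ≤ E2 v)
    (hdisj : ∀ v : Place K F, E1 v = 0 ∨ E2 v = 0)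
    (hdivx : ∀ v : Place K F, v.ord x = E2 v - E1 v) (N0 : ℕ)
    (hgen : ∀ n, N0 ≤ n → ∀ a ∈ h51_Rd D ((n + 1) • E1), ∃ b ∈ h51_Rd D (n • E1),
      ∃ c ∈ h51_Rd D (n • E1), a = b + D.redF x * c)
    (Ez : Divisor K F)
    (hdim : ∀ (j : ℤ) (n : ℕ), N0 ≤ n →
      Module.finrank K (riemannRochSpace (n • E1 + j • Ez)) =
        Module.finrank K (riemannRochSpace (n • E1)))
    (T1 T2 : Subring F)
    (hT1 : ∀ f ∈ T1, f ∈ D.O ∧ ∀ v : Place K F, 0 ≤ v.ord x → 0 ≤ v.ord f)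
    (hT2 : ∀ f ∈ T2, f ∈ D.O ∧ ∀ v : Place K F, v.ord x ≤ 0 → 0 ≤ v.ord f)
    (G0 : ℤ → ℕ → Set F) (hG0 : ∀ j n, ∀ g ∈ G0 j n, g ∈ D.O)
    (hspan : ∀ (j : ℤ) (n : ℕ), N0 ≤ n → ∀ a ∈ h51_Rd D (n • E1 + j • Ez),
      a ∈ Submodule.span k (D.redF '' G0 j n))
    (hloc1 : ∀ (j : ℤ) (n : ℕ), N0 ≤ n → ∀ g ∈ G0 j n, ∀ 𝔪 : Ideal T1, 𝔪.IsMaximal →
        (∀ t : T1, D.redF (t : F) = 0 → t ∈ 𝔪) →
        ∃ b : T1, b ∉ 𝔪 ∧ ∃ a : T1, D.redF (b : F) * D.redF g = D.redF (a : F))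
    (hloc2 : ∀ (j : ℤ) (n : ℕ), N0 ≤ n → ∀ g ∈ G0 j n, ∀ 𝔪 : Ideal T2, 𝔪.IsMaximal →
        (∀ t : T2, D.redF (t : F) = 0 → t ∈ 𝔪) →
        ∃ b : T2, b ∉ 𝔪 ∧ ∃ a : T2, D.redF (b : F) * D.redF (x⁻¹ ^ n * g) = D.redF (a : F)) :
    ∀ (j : ℤ) (n : ℕ), N0 ≤ n → h51_Rd D (n • E1 + j • Ez) = h51_Rd D (n • E1) := by
  intro j n hn
  have hxL : x ∈ riemannRochSpace E1 := by
    rw [h50_mem_rr_iff]
    intro v
    refine Or.inr ?_
    rw [hdivx v]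
    have := hE2 v
    omega
  have hgenup : ∀ n, N0 ≤ n → ∀ f : F, f ∈ riemannRochSpace ((n + 1) • E1) → f ∈ D.O →
      ∃ b c : F, b ∈ riemannRochSpace (n • E1) ∧ b ∈ D.O ∧ c ∈ riemannRochSpace (n • E1) ∧
        c ∈ D.O ∧ f = b + x * c :=
    fun n hn f hfL hfO => h50_gen_up D hON hfin x hx E1 hE1 hxL n (hgen n hn) f hfL hfO
  have hstr : ∀ a b : F, a ∈ D.O → b ∈ D.O →
      (∀ v : Place K F, 0 ≤ v.ord x → 0 ≤ v.ord a) →
      (∀ v : Place K F, v.ord x ≤ 0 → 0 ≤ v.ord b) →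
      D.redF a = D.redF x ^ n * D.redF b →
      ∃ f : F, f ∈ riemannRochSpace (n • E1) ∧ f ∈ D.O ∧ D.redF f = D.redF a :=
    fun a b haO hbO ha hb hred =>
      h50_strict_of_gen D x hx0 hx hxi E1 E2 hE1 hE2 hdisj hdivx N0 hgenup n hn a b haO hbO
        ha hb hred
  have := hfin (n • E1 + j • Ez)
  have := hfin (n • E1)
  exact h46_Rd_eq_of_local D hON x hx0 hx hxi E1 (j • Ez) n (hdim j n hn) hstr T1 T2 hT1 hT2
    (G0 j n) (hG0 j n) (hspan j n hn) (hloc1 j n hn) (hloc2 j n hn)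

/-- **(LG): the divisor of a toric witness with local data on the two chart rings is
principal.** All hypotheses of `h50_lastStep` (`(GEN)` included), a toric witness `(Ez, uz)`
(`deg Ez = 0`, `m Ez = div uz`, `uz ∈ O`, `red uz = 1`), the dimension formula and the local data
of `h46_trivial_gluing`. -/
theorem h46_principal_of_local [IsAlgClosed K] [HasPrincipalDivisors K F] [Nontrivial Rb]
    (D : h22_Lat K F k Rb) (hON : h22_ON D)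
    (hinv : ∀ (f : F) (hf : f ∈ D.O), IsUnit (D.red ⟨f, hf⟩) → f⁻¹ ∈ D.O)
    (hrank : h39_RankOne D.A)
    (hfin : ∀ D' : Divisor K F, FiniteDimensional K (riemannRochSpace D'))
    (hdeg1 : ∀ P : Place K F, P.deg = 1)
    (x : F) (hx0 : x ≠ 0) (hx : x ∈ D.O) (hxi : x⁻¹ ∈ D.O)
    (E1 E2 : Divisor K F) (hE1 : ∀ v : Place K F, 0 ≤ E1 v) (hE2 : ∀ v : Place K F, 0 ≤ E2 v)
    (hdisj : ∀ v : Place K F, E1 v = 0 ∨ E2 v = 0)
    (hdivx : ∀ v : Place K F, v.ord x = E2 v - E1 v) (N0 : ℕ)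
    (hgen : ∀ n, N0 ≤ n → ∀ a ∈ h51_Rd D ((n + 1) • E1), ∃ b ∈ h51_Rd D (n • E1),
      ∃ c ∈ h51_Rd D (n • E1), a = b + D.redF x * c)
    (m : ℕ) (hm : (m : k) ≠ 0)
    (Ez : Divisor K F) (uz : F) (hdeg : Divisor.degree Ez = 0) (huz0 : uz ≠ 0)
    (hdivz : ∀ v : Place K F, (m : ℤ) * Ez v = v.ord uz)
    (huz : ∃ h : uz ∈ D.O, D.red ⟨uz, h⟩ = 1)
    (hdim : ∀ (j : ℤ) (n : ℕ), N0 ≤ n →
      Module.finrank K (riemannRochSpace (n • E1 + j • Ez)) =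
        Module.finrank K (riemannRochSpace (n • E1)))
    (T1 T2 : Subring F)
    (hT1 : ∀ f ∈ T1, f ∈ D.O ∧ ∀ v : Place K F, 0 ≤ v.ord x → 0 ≤ v.ord f)
    (hT2 : ∀ f ∈ T2, f ∈ D.O ∧ ∀ v : Place K F, v.ord x ≤ 0 → 0 ≤ v.ord f)
    (G0 : ℤ → ℕ → Set F) (hG0 : ∀ j n, ∀ g ∈ G0 j n, g ∈ D.O)
    (hspan : ∀ (j : ℤ) (n : ℕ), N0 ≤ n → ∀ a ∈ h51_Rd D (n • E1 + j • Ez),
      a ∈ Submodule.span k (D.redF '' G0 j n))
    (hloc1 : ∀ (j : ℤ) (n : ℕ), N0 ≤ n → ∀ g ∈ G0 j n, ∀ 𝔪 : Ideal T1, 𝔪.IsMaximal →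
        (∀ t : T1, D.redF (t : F) = 0 → t ∈ 𝔪) →
        ∃ b : T1, b ∉ 𝔪 ∧ ∃ a : T1, D.redF (b : F) * D.redF g = D.redF (a : F))
    (hloc2 : ∀ (j : ℤ) (n : ℕ), N0 ≤ n → ∀ g ∈ G0 j n, ∀ 𝔪 : Ideal T2, 𝔪.IsMaximal →
        (∀ t : T2, D.redF (t : F) = 0 → t ∈ 𝔪) →
        ∃ b : T2, b ∉ 𝔪 ∧ ∃ a : T2, D.redF (b : F) * D.redF (x⁻¹ ^ n * g) = D.redF (a : F)) :
    Ez ∈ Divisor.principal (K := K) (F := F) := by
  have hlast : h51_LastStep D E1 N0 m :=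
    h50_lastStep D hON hinv hrank hfin hdeg1 x hx0 hx hxi E1 E2 hE1 hE2 hdisj hdivx N0 hgen m hm
  have htriv := h46_trivial_gluing D hON hfin x hx0 hx hxi E1 E2 hE1 hE2 hdisj hdivx N0 hgen Ez
    hdim T1 T2 hT1 hT2 G0 hG0 hspan hloc1 hloc2
  obtain ⟨e, he, hmem⟩ := hlast Ez uz hdeg huz0 hdivz huz htriv
  exact h51_principal_of_section hdeg1 Ez hdeg e he hmem

end Fermat.Agent.S36
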