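import Mathlib
import Fermat.Agent.S36.h80_LocGen
import Fermat.Agent.S36.h80_LocUnit
import Fermat.Agent.S36.h62_NodeIface

/-!
# (COORD) and the slope congruence (TH0) at a regular node  (helper48)

On top of the shared NODE INTERFACE `h62_Node` (helper62, `S36/h62_NodeIface.lean`) in the
vocabulary `h80_ValFam F ι` (helper80): `F` the `K₀`-rational function field, `v i` the `ℤ`-valued
valuations (vertical = components of the special fibre, horizontal = closed points of the generic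
fibre), `B` the chart ring, `m` the point.

* `h48_Coord V m c1 b o1` : **(COORD)**: `o1 = ord_s ∘ red₁` on the `v c1`-units: additive on
  products, zero on the elements of `B` outside `m`, and `o1 b = 1`.
* `h48_th0_node` : **(TH0)**: at a regular node (`h62_Node`) with (COORD), if all orders of `f`
  at the horizontal valuations through `m` are divisible by `n`, then
  `v c2 f - v c1 f ≡ o1 (f / q ^ (v c1 f))` modulo `n`.
* `h48_NodeDatum`, `h48_NodeDatum.h48_th0` : the same statement for a self-contained datum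
  (local equations in `F`, uniformiser `q : F`).
-/

set_option autoImplicit false

namespace Fermat.Agent.S36

variable {F : Type*} [Field F] {ι : Type*}

/-- The NODE INTERFACE at the point `m` (a regular node of thickness one): `c1, c2` are the two
components through the node, `q` is the uniformiser of the base, `ords` is `ord_s ∘ red₁`
(used only on elements with `v c1 = 0`). -/
structure h48_NodeDatum (V : h80_ValFam F ι) (m : Ideal V.B) (c1 c2 : ι) (q : F)
    (ords : F → ℤ) where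
  hc : c1 ≠ c2
  thr1 : V.Through m c1
  thr2 : V.Through m c2
  /-- local equations of the two components -/
  a : F
  b : F
  /-- the unit `ψ` with `a * b = q * ψ` -/
  ψ : F
  ha0 : a ≠ 0
  hb0 : b ≠ 0
  hψ0 : ψ ≠ 0
  hab : a * b = q * ψ
  hψ : ∀ i, V.Through m i → V.v i ψ = 0
  ha1 : V.v c1 a = 1
  ha : ∀ i, V.Through m i → i ≠ c1 → V.v i a = 0
  hb1 : V.v c2 b = 1
  hb : ∀ i, V.Through m i → i ≠ c2 → V.v i b = 0
  /-- (UNIT*) at the horizontal valuations through the node -/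
  hunit : ∀ i, V.Through m i → i ≠ c1 → i ≠ c2 → V.UnitStar m i
  ords_mul : ∀ f g : F, f ≠ 0 → g ≠ 0 → V.v c1 f = 0 → V.v c1 g = 0 →
    ords (f * g) = ords f + ords g
  /-- elements of `B` outside `m` do not vanish at the node -/
  ords_not_mem : ∀ t : V.B, t ∉ m → ords (t : F) = 0
  /-- `red₁ b` is a local parameter at the node -/
  ords_b : ords b = 1

namespace h48_NodeDatum

variable {V : h80_ValFam F ι} {m : Ideal V.B} {c1 c2 : ι} {q : F} {ords : F → ℤ}
  (N : h48_NodeDatum V m c1 c2 q ords)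

include N

theorem h48_ords_one : ords 1 = 0 := by
  have h := N.ords_mul 1 1 one_ne_zero one_ne_zero (h80_v_one V c1) (h80_v_one V c1)
  rw [mul_one] at h
  omega

theorem h48_ords_inv {x : F} (hx : x ≠ 0) (hv : V.v c1 x = 0) : ords x⁻¹ = - ords x := by
  have hv' : V.v c1 x⁻¹ = 0 := by rw [h80_v_inv V c1 hx, hv, neg_zero]
  have h := N.ords_mul x x⁻¹ hx (inv_ne_zero hx) hv hv'
  rw [mul_inv_cancel₀ hx, N.h48_ords_one] at h
  omega

theorem h48_ords_pow {x : F} (hx : x ≠ 0) (hv : V.v c1 x = 0) (k : ℕ) :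
    ords (x ^ k) = k * ords x := by
  induction k with
  | zero => simp [N.h48_ords_one]
  | succ k ih =>
    have hvk : V.v c1 (x ^ k) = 0 := by rw [h80_v_pow V c1 hx, hv, mul_zero]
    rw [pow_succ, N.ords_mul _ _ (pow_ne_zero k hx) hx hvk hv, ih]
    push_cast
    ring

theorem h48_ords_zpow {x : F} (hx : x ≠ 0) (hv : V.v c1 x = 0) (k : ℤ) :
    ords (x ^ k) = k * ords x := by
  cases k with
  | ofNat k => simpa using N.h48_ords_pow hx hv k
  | negSucc k =>
    have hvk : V.v c1 (x ^ (k + 1)) = 0 := by rw [h80_v_pow V c1 hx, hv, mul_zero]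
    rw [zpow_negSucc, N.h48_ords_inv (pow_ne_zero _ hx) hvk, N.h48_ords_pow hx hv]
    push_cast [Int.negSucc_eq]
    ring

theorem h48_q_ne_zero : q ≠ 0 := by
  intro h
  have h1 : N.a * N.b = 0 := by
    have h2 := N.hab
    simp only [h, zero_mul] at h2
    exact h2
  exact mul_ne_zero N.ha0 N.hb0 h1

/-- The uniformiser `q` of the base has order one on the first component. -/
theorem h48_v_q : V.v c1 q = 1 := by
  have h1 := V.map_mul c1 N.a N.b N.ha0 N.hb0
  have h2 := V.map_mul c1 q N.ψ N.h48_q_ne_zero N.hψ0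
  rw [N.hab] at h1
  rw [h1, N.ha1, N.hb c1 N.thr1 N.hc, N.hψ c1 N.thr1] at h2
  omega

/-- The uniformiser `q` of the base has order one on the second component. -/
theorem h48_v_q' : V.v c2 q = 1 := by
  have h1 := V.map_mul c2 N.a N.b N.ha0 N.hb0
  have h2 := V.map_mul c2 q N.ψ N.h48_q_ne_zero N.hψ0
  rw [N.hab] at h1
  rw [h1, N.hb1, N.ha c2 N.thr2 (Ne.symm N.hc), N.hψ c2 N.thr2] at h2
  omega

/-- Units of the local ring at the node do not vanish at the node. -/
theorem h48_ords_unit [hm : m.IsPrime] {h : F} (h0 : h ≠ 0)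
    (hh : ∀ i, V.Through m i → V.v i h = 0) : ords h = 0 := by
  obtain ⟨⟨b, t, ht, hbt⟩, ⟨b', t', ht', hbt'⟩⟩ := h80_inLoc_of_through_zero V m h0 hh
  have hb : b ∉ m := by
    intro hb
    have hprod : (t * t' : V.B) = b * b' := by
      apply Subtype.ext
      show (t : F) * (t' : F) = (b : F) * (b' : F)
      rw [← hbt, ← hbt']
      field_simp
    have hmem : (t * t' : V.B) ∈ m := by
      rw [hprod]
      exact m.mul_mem_right _ hb
    rcases hm.mem_or_mem hmem with h | h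
    exacts [ht h, ht' h]
  have ht0 : (t : F) ≠ 0 := h80_ne_zero_of_not_mem V ht
  have hvt : V.v c1 t = 0 := h80_through_eq_zero V N.thr1 ht
  have h1 := N.ords_mul t h ht0 h0 hvt (hh _ N.thr1)
  rw [hbt, N.ords_not_mem b hb, N.ords_not_mem t ht] at h1
  omega

/-- **(TH0)**, the slope congruence at a regular node: if the orders of `f` at all valuations
through the node other than the two components are divisible by `n`, then
`v₂ f - v₁ f ≡ ord_s (red₁ (f / q ^ v₁ f))` modulo `n`. -/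
theorem h48_th0 [hm : m.IsPrime] (n : ℕ) {f : F} (hf : f ≠ 0)
    (hdiv : ∀ i, V.Through m i → i ≠ c1 → i ≠ c2 → (n : ℤ) ∣ V.v i f) :
    (n : ℤ) ∣ (V.v c2 f - V.v c1 f) - ords (f / q ^ (V.v c1 f)) := by
  obtain ⟨h, w, h0, hw0, hh, hw, hfac⟩ :=
    h80_node_factor V m c1 c2 N.hc N.ha0 N.hb0 (fun _ => N.ha1) N.ha (fun _ => N.hb1) N.hb n
      N.hunit hf hdiv
  set α := V.v c1 f with hα
  set β := V.v c2 f with hβ
  have hq0 := N.h48_q_ne_zero
  have hb0 := N.hb0
  have hψ0 := N.hψ0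
  have ha : N.a = q * N.ψ / N.b := by
    rw [← N.hab]
    field_simp
  have hkey : f / q ^ α = h * N.ψ ^ α * N.b ^ (β - α) * w ^ n := by
    rw [hfac, ha, div_zpow, mul_zpow, zpow_sub₀ hb0]
    have hqα : q ^ α ≠ 0 := zpow_ne_zero _ hq0
    have hbα : N.b ^ α ≠ 0 := zpow_ne_zero _ hb0
    field_simp
  have hvh : V.v c1 h = 0 := hh _ N.thr1
  have hvψ : V.v c1 N.ψ = 0 := N.hψ _ N.thr1
  have hvb : V.v c1 N.b = 0 := N.hb _ N.thr1 N.hc
  have hvw : V.v c1 w = 0 := hw _ N.thr1 (Or.inl rfl)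
  have hvψα : V.v c1 (N.ψ ^ α) = 0 := by rw [h80_v_zpow V _ hψ0, hvψ, mul_zero]
  have hvbk : V.v c1 (N.b ^ (β - α)) = 0 := by rw [h80_v_zpow V _ hb0, hvb, mul_zero]
  have hvwn : V.v c1 (w ^ n) = 0 := by rw [h80_v_pow V _ hw0, hvw, mul_zero]
  have h1 : V.v c1 (h * N.ψ ^ α) = 0 := by
    rw [V.map_mul _ _ _ h0 (zpow_ne_zero _ hψ0), hvh, hvψα, add_zero]
  have h2 : V.v c1 (h * N.ψ ^ α * N.b ^ (β - α)) = 0 := by
    rw [V.map_mul _ _ _ (mul_ne_zero h0 (zpow_ne_zero _ hψ0)) (zpow_ne_zero _ hb0), h1, hvbk,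
      add_zero]
  have hords : ords (f / q ^ α) = (β - α) + n * ords w := by
    rw [hkey, N.ords_mul _ _ (mul_ne_zero (mul_ne_zero h0 (zpow_ne_zero _ hψ0))
        (zpow_ne_zero _ hb0)) (pow_ne_zero _ hw0) h2 hvwn,
      N.ords_mul _ _ (mul_ne_zero h0 (zpow_ne_zero _ hψ0)) (zpow_ne_zero _ hb0) h1 hvbk,
      N.ords_mul _ _ h0 (zpow_ne_zero _ hψ0) hvh hvψα,
      N.h48_ords_unit h0 hh, N.h48_ords_zpow hψ0 hvψ, N.h48_ords_unit hψ0 N.hψ,
      N.h48_ords_zpow hb0 hvb, N.ords_b, N.h48_ords_pow hw0 hvw]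
    ring
  rw [hords]
  exact ⟨- ords w, by ring⟩

end h48_NodeDatum

/-- **(COORD)** at a node: `o1` is `ord_s ∘ red₁` (used only on elements with `v c1 = 0`):
additive on products of `v c1`-units, zero on the elements of `B` outside `m`, and `b` (the
local equation of the other branch) reduces to a local parameter at the node. -/
structure h48_Coord (V : h80_ValFam F ι) (m : Ideal V.B) (c1 : ι) (b : V.B) (o1 : F → ℤ) :
    Prop where
  o_mul : ∀ f g : F, f ≠ 0 → g ≠ 0 → V.v c1 f = 0 → V.v c1 g = 0 → o1 (f * g) = o1 f + o1 g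
  o_not_mem : ∀ t : V.B, t ∉ m → o1 (t : F) = 0
  o_b : o1 (b : F) = 1

/-- A regular node (`h62_Node`) with (COORD) is a node datum. -/
noncomputable def h48_NodeDatum.ofNode {V : h80_ValFam F ι} {q : ℕ} {m : Ideal V.B} {c1 c2 : ι}
    {a b : V.B} {o1 : F → ℤ} (h : h62_Node V q m c1 c2 a b) (hc : h48_Coord V m c1 b o1) :
    h48_NodeDatum V m c1 c2 (q : F) o1 where
  hc := h.c_ne
  thr1 := h.thr1
  thr2 := h.thr2
  a := a
  b := b
  ψ := (a : F) * b / q
  ha0 := h.a_ne
  hb0 := h.b_ne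
  hψ0 := h.psi.1
  hab := by
    have := h.q_ne
    field_simp
  hψ := h.psi.2
  ha1 := h.va1
  ha := h.va
  hb1 := h.vb2
  hb := h.vb
  hunit := fun i hi _ _ => h.unitStar i hi
  ords_mul := hc.o_mul
  ords_not_mem := hc.o_not_mem
  ords_b := hc.o_b

/-- **(TH0)** at a regular node of the shared interface: if the orders of `f` at the horizontal
valuations through the node are divisible by `n`, then
`v₂ f - v₁ f ≡ ord_s (red₁ (f / q ^ v₁ f))` modulo `n`. -/
theorem h48_th0_node {V : h80_ValFam F ι} {q : ℕ} {m : Ideal V.B} {c1 c2 : ι} {a b : V.B}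
    {o1 : F → ℤ} (h : h62_Node V q m c1 c2 a b) (hc : h48_Coord V m c1 b o1) (n : ℕ) {f : F}
    (hf : f ≠ 0) (hdiv : ∀ i, V.Through m i → i ≠ c1 → i ≠ c2 → (n : ℤ) ∣ V.v i f) :
    (n : ℤ) ∣ (V.v c2 f - V.v c1 f) - o1 (f / (q : F) ^ (V.v c1 f)) := by
  have : m.IsPrime := h.isMax.isPrime
  exact (h48_NodeDatum.ofNode h hc).h48_th0 n hf hdiv

/-- Units of the local ring at a node have `o1 = 0`. -/
theorem h48_coord_unit {V : h80_ValFam F ι} {q : ℕ} {m : Ideal V.B} {c1 c2 : ι} {a b : V.B}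
    {o1 : F → ℤ} (h : h62_Node V q m c1 c2 a b) (hc : h48_Coord V m c1 b o1) {u : F} (hu : u ≠ 0)
    (hh : ∀ i, V.Through m i → V.v i u = 0) : o1 u = 0 := by
  have : m.IsPrime := h.isMax.isPrime
  exact (h48_NodeDatum.ofNode h hc).h48_ords_unit hu hh

/-- `o1` of an integer power of a `v c1`-unit. -/
theorem h48_coord_zpow {V : h80_ValFam F ι} {q : ℕ} {m : Ideal V.B} {c1 c2 : ι} {a b : V.B}
    {o1 : F → ℤ} (h : h62_Node V q m c1 c2 a b) (hc : h48_Coord V m c1 b o1) {x : F} (hx : x ≠ 0)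
    (hv : V.v c1 x = 0) (k : ℤ) : o1 (x ^ k) = k * o1 x :=
  (h48_NodeDatum.ofNode h hc).h48_ords_zpow hx hv k

end Fermat.Agent.S36
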