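/-
S36 / I-CUSP (X3-REG) (helper49): regularity of the lifts `e0 f`, `e2 f` at level `M q²`.

`e0 = α ∘ α` (`f(τ) ↦ f(τ)`), `e2 = β ∘ β` (`f(τ) ↦ f(q²τ)`), as maps `F0(M) → F0(M q²)`.
For an inertia-fixed `f` of level `M` which is Gauss-integral (`coe f ∈ h60_Os A`) and regular on
the chart `1/j` of level `M`:

* `h49_cr_e0_mem` : `e0 f` lies in the chart ring of the chart `1/j` of level `M q²`;
* `h49_cr_e2_inLoc` : `e2 f` lies in the local ring at every point `m` of that chart through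
  which no zero of `j(q²τ)` passes (binder `hJ2` = (NZ2) of helper16).

Vertical halves: the three expansions of `e0 f` are `(s, s, s(t^(q²)))`, those of `e2 f` are
`(s(t^(q²)), twist_ζ s, s)` with `s = coe f`.  Horizontal halves: restriction of places along
`α ∘ α` resp. `β ∘ β`.
-/
import Mathlib
import Fermat.Agent.S36.h49_CuspVert
import Fermat.Agent.S36.h16_CuspQ2
import Fermat.Agent.S36.h80_FamInst
import Fermat.Agent.S36.h51_RegA

set_option autoImplicit false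
set_option synthInstance.maxHeartbeats 400000
set_option linter.style.haveILetI false
set_option linter.unusedSectionVars false

noncomputable section

open ModularCurve AlgebraicCurve

namespace Fermat.Agent.S36

open Fermat.Agent.S34 Fermat.Agent.S37 Fermat.Agent.S24 Fermat.Agent.S35 Fermat.Agent.S18
  Fermat.Agent.GAL Fermat.Agent.S40

local notation "Qb" => AlgebraicClosure ℚ

/-! ## Places: pull-back along an integral embedding keeps the sign of the order -/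

section Places

variable {K F F' : Type*} [Field K] [Field F] [Field F'] [Algebra K F] [Algebra K F']

theorem h49_cr_ord_nonneg (φ : F →ₐ[K] F') (hφ : φ.toRingHom.IsIntegral) (P : Place K F') (f : F)
    (h : 0 ≤ (P.restrictAlong φ hφ).ord f) : 0 ≤ P.ord (φ f) := by
  rw [Place.ord_restrictAlong φ hφ P f]
  exact mul_nonneg (Int.natCast_nonneg _) h

theorem h49_cr_ord_nonpos (φ : F →ₐ[K] F') (hφ : φ.toRingHom.IsIntegral) (P : Place K F') (f : F)
    (h : P.ord (φ f) ≤ 0) : (P.restrictAlong φ hφ).ord f ≤ 0 := by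
  rw [Place.ord_restrictAlong φ hφ P f] at h
  have h2 := h51_ramificationIndexAlong_pos φ hφ P
  have h3 : (0 : ℤ) < (Place.ramificationIndexAlong φ P : ℤ) := by exact_mod_cast h2
  by_contra hc
  have h4 := mul_pos h3 (not_le.mp hc)
  omega

/-- If `f` is regular wherever `x⁻¹` is, then `φ f` is regular at every place where `φ x` has
non-positive order. -/
theorem h49_cr_reg_pull (φ : F →ₐ[K] F') (hφ : φ.toRingHom.IsIntegral) {x f : F}
    (hreg : h39_Reg K x⁻¹ f) (P : Place K F') (hP : P.ord (φ x) ≤ 0) : 0 ≤ P.ord (φ f) := by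
  by_cases hf : f = 0
  · rw [hf, map_zero, Place.ord_zero]
  have h1 := h49_cr_ord_nonpos φ hφ P x hP
  have h2 : x⁻¹ ∈ (P.restrictAlong φ hφ).toValuationSubring := by
    by_cases hx : x = 0
    · rw [hx, inv_zero]
      exact zero_mem _
    · rw [h35_mem_iff_ord_nonneg _ (inv_ne_zero hx), Place.ord_inv]
      omega
  have h3 := hreg _ h2
  rw [h35_mem_iff_ord_nonneg _ hf] at h3
  exact h49_cr_ord_nonneg φ hφ P f h3

/-- Regularity on the chart `x⁻¹` is transported by an integral embedding. -/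
theorem h49_cr_reg_map (φ : F →ₐ[K] F') (hφ : φ.toRingHom.IsIntegral) {x f : F}
    (hreg : h39_Reg K x⁻¹ f) : h39_Reg K (φ x)⁻¹ (φ f) := by
  intro P hP
  by_cases hf : φ f = 0
  · rw [hf]
    exact zero_mem _
  rw [h35_mem_iff_ord_nonneg _ hf]
  apply h49_cr_reg_pull φ hφ hreg P
  by_cases hx : φ x = 0
  · rw [hx, Place.ord_zero]
  · rw [h35_mem_iff_ord_nonneg _ (inv_ne_zero hx), Place.ord_inv] at hP
    omega

/-- The order form of regularity on the chart `x⁻¹`. -/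
theorem h49_cr_reg_ord {x f : F} (hreg : h39_Reg K x⁻¹ f) (P : Place K F) (hP : P.ord x ≤ 0) :
    0 ≤ P.ord f := by
  by_cases hf : f = 0
  · rw [hf, Place.ord_zero]
  have h2 : x⁻¹ ∈ P.toValuationSubring := by
    by_cases hx : x = 0
    · rw [hx, inv_zero]
      exact zero_mem _
    · rw [h35_mem_iff_ord_nonneg _ (inv_ne_zero hx), Place.ord_inv]
      omega
  have h3 := hreg _ h2
  rwa [h35_mem_iff_ord_nonneg _ hf] at h3

end Places

/-! ## The lifts `e0`, `e2` -/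

section Lift

variable (M q : ℕ) [NeZero M] [NeZero q] [Fact q.Prime] (hqM : ¬ q ∣ M)
  (A : ValuationSubring Qb) (hA : A.LiesOverPrime q) (ζ : Qb) (hζ : IsPrimitiveRoot ζ q)

/-- `e0 = α ∘ α : F0(M) → F0(M q²)`. -/
def h49_cr_e0 (H : Subgroup (Qb ≃ₐ[ℚ] Qb)) : h69_F0 M H →+* h69_F0 (M * q * q) H :=
  (h70_aF0 (M * q) q H).comp (h70_aF0 M q H)

/-- `e2 = β ∘ β : F0(M) → F0(M q²)`. -/
def h49_cr_e2 (H : Subgroup (Qb ≃ₐ[ℚ] Qb)) : h69_F0 M H →+* h69_F0 (M * q * q) H :=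
  (h70_bF0 (M * q) q H).comp (h70_bF0 M q H)

theorem h49_cr_e0_apply (H : Subgroup (Qb ≃ₐ[ℚ] Qb)) (f : h69_F0 M H) :
    h49_cr_e0 M q H f = h70_aF0 (M * q) q H (h70_aF0 M q H f) := rfl

theorem h49_cr_e2_apply (H : Subgroup (Qb ≃ₐ[ℚ] Qb)) (f : h69_F0 M H) :
    h49_cr_e2 M q H f = h70_bF0 (M * q) q H (h70_bF0 M q H f) := rfl

theorem h49_cr_coe_e0 (H : Subgroup (Qb ≃ₐ[ℚ] Qb)) (f : h69_F0 M H) :
    ((h49_cr_e0 M q H f : h69_F0 (M * q * q) H) : modularFunctionFieldBar (M * q * q))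
      = heckeAlphaBar Qb (M * q) q (heckeAlphaBar Qb M q (f : modularFunctionFieldBar M)) := rfl

theorem h49_cr_coe_e2 (H : Subgroup (Qb ≃ₐ[ℚ] Qb)) (f : h69_F0 M H) :
    ((h49_cr_e2 M q H f : h69_F0 (M * q * q) H) : modularFunctionFieldBar (M * q * q))
      = heckeBetaBar Qb (M * q) q (heckeBetaBar Qb M q (f : modularFunctionFieldBar M)) := rfl

/-- `e0 f = i0 (α f)`. -/
theorem h49_cr_e0_i0 (g : modularFunctionFieldBar M) :
    heckeAlphaBar Qb (M * q) q (heckeAlphaBar Qb M q g) = h36_i0 M q (heckeAlphaBar Qb M q g) :=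
  rfl

/-- `e2 f = i2 (α f)`. -/
theorem h49_cr_e2_i2 (g : modularFunctionFieldBar M) :
    heckeBetaBar Qb (M * q) q (heckeBetaBar Qb M q g) = h36_i2 M q hqM (heckeAlphaBar Qb M q g) :=
  (h36_i2_alpha M q hqM g).symm

/-! ### The three expansions -/

theorem h49_cr_X_e0 (c : Fin 3) (g : modularFunctionFieldBar M) :
    h49_cv_X M q hqM ζ hζ c (heckeAlphaBar Qb (M * q) q (heckeAlphaBar Qb M q g))
      = ![(g : LaurentSeries Qb), (g : LaurentSeries Qb),
          qExpand Qb q (qExpand Qb q (g : LaurentSeries Qb))] c := by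
  fin_cases c
  · show ((heckeAlphaBar Qb (M * q) q (heckeAlphaBar Qb M q g) :
      modularFunctionFieldBar (M * q * q)) : LaurentSeries Qb) = _
    rw [coe_heckeAlphaBar, coe_heckeAlphaBar]
    rfl
  · show h98_midP M q hqM ζ hζ (heckeAlphaBar Qb (M * q) q (heckeAlphaBar Qb M q g)) = _
    rw [h49_cr_e0_i0, h98_midP_i0, coe_heckeAlphaBar]
    rfl
  · show ((h36_W M q hqM (heckeAlphaBar Qb (M * q) q (heckeAlphaBar Qb M q g)) :
      modularFunctionFieldBar (M * q * q)) : LaurentSeries Qb) = _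
    rw [h49_cr_e0_i0, h36_W_i0, ← h49_cr_e2_i2, coe_heckeBetaBar, coe_heckeBetaBar]
    rfl

theorem h49_cr_X_e2 (c : Fin 3) (g : modularFunctionFieldBar M) :
    h49_cv_X M q hqM ζ hζ c (heckeBetaBar Qb (M * q) q (heckeBetaBar Qb M q g))
      = ![qExpand Qb q (qExpand Qb q (g : LaurentSeries Qb)),
          h59_twistHom ζ (hζ.ne_zero (NeZero.ne q)) (g : LaurentSeries Qb),
          (g : LaurentSeries Qb)] c := by
  fin_cases c
  · show ((heckeBetaBar Qb (M * q) q (heckeBetaBar Qb M q g) :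
      modularFunctionFieldBar (M * q * q)) : LaurentSeries Qb) = _
    rw [coe_heckeBetaBar, coe_heckeBetaBar]
    rfl
  · show h98_midP M q hqM ζ hζ (heckeBetaBar Qb (M * q) q (heckeBetaBar Qb M q g)) = _
    rw [h49_cr_e2_i2 M q hqM, h98_midP_i2, coe_heckeAlphaBar]
    rfl
  · show ((h36_W M q hqM (heckeBetaBar Qb (M * q) q (heckeBetaBar Qb M q g)) :
      modularFunctionFieldBar (M * q * q)) : LaurentSeries Qb) = _
    rw [h49_cr_e2_i2 M q hqM, h36_W_i2, ← h49_cr_e0_i0, coe_heckeAlphaBar, coe_heckeAlphaBar]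
    rfl

/-- The twist of a Gauss-integral series is Gauss-integral. -/
theorem h49_cr_twist_mem {s : LaurentSeries Qb} (hs : s ∈ h60_Os A) (hA : A.LiesOverPrime q) :
    h59_twistHom ζ (hζ.ne_zero (Fact.out : q.Prime).ne_zero) s ∈ h60_Os A := by
  have h : h49_Red A s (h60_rs A ⟨s, hs⟩) := ⟨hs, rfl⟩
  exact (h.twist q hA ζ hζ).1

include hA in
/-- All three expansions of `e0 f` are Gauss-integral. -/
theorem h49_cr_X_e0_mem (c : Fin 3) (g : modularFunctionFieldBar M)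
    (hg : (g : LaurentSeries Qb) ∈ h60_Os A) :
    h49_cv_X M q hqM ζ hζ c (heckeAlphaBar Qb (M * q) q (heckeAlphaBar Qb M q g)) ∈ h60_Os A := by
  rw [h49_cr_X_e0]
  fin_cases c
  · exact hg
  · exact hg
  · exact h60_qExpand_mem A q (h60_qExpand_mem A q hg)

include hA in
/-- All three expansions of `e2 f` are Gauss-integral. -/
theorem h49_cr_X_e2_mem (c : Fin 3) (g : modularFunctionFieldBar M)
    (hg : (g : LaurentSeries Qb) ∈ h60_Os A) :
    h49_cv_X M q hqM ζ hζ c (heckeBetaBar Qb (M * q) q (heckeBetaBar Qb M q g)) ∈ h60_Os A := by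
  rw [h49_cr_X_e2]
  fin_cases c
  · exact h60_qExpand_mem A q (h60_qExpand_mem A q hg)
  · exact h49_cr_twist_mem q A ζ hζ hg hA
  · exact hg

variable (hex : h98_Ex M q hqM A ζ hζ)

include hA in
/-- `0 ≤ w2 c x` iff the `c`-th expansion of `x` is Gauss-integral. -/
theorem h49_cr_w_nonneg_iff (c : Fin 3) (x : h69_F0 (M * q * q) (A.inertiaSubgroupIn ℚ))
    (hx : x ≠ 0) :
    0 ≤ h98_w2 M q hqM A ζ hζ hex c x ↔
      h49_cv_X M q hqM ζ hζ c (x : modularFunctionFieldBar (M * q * q)) ∈ h60_Os A := by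
  fin_cases c
  · show 0 ≤ h98_v1 M q hqM A ζ hζ hex x ↔
      ((x : modularFunctionFieldBar (M * q * q)) : LaurentSeries Qb) ∈ h60_Os A
    exact h98_gv_nonneg_iff _ (h98_q_unif q A hA).1 (h98_q_unif q A hA).2.1
      (h98_q_unif q A hA).2.2 x hx
  · show 0 ≤ h98_v2 M q hqM A ζ hζ hex x ↔
      h98_midP M q hqM ζ hζ (x : modularFunctionFieldBar (M * q * q)) ∈ h60_Os A
    exact h98_gv_nonneg_iff _ (h98_zeta_unif q A hA ζ hζ).1 (h98_zeta_unif q A hA ζ hζ).2.1
      (h98_zeta_unif q A hA ζ hζ).2.2.1 x hx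
  · show 0 ≤ h98_v3 M q hqM A ζ hζ hex x ↔
      ((h36_W M q hqM (x : modularFunctionFieldBar (M * q * q)) :
        modularFunctionFieldBar (M * q * q)) : LaurentSeries Qb) ∈ h60_Os A
    exact h98_gv_nonneg_iff _ (h98_q_unif q A hA).1 (h98_q_unif q A hA).2.1
      (h98_q_unif q A hA).2.2 x hx

include hA in
/-- **Vertical half for `e0`**. -/
theorem h49_cr_w_e0 (f : h69_F0 M (A.inertiaSubgroupIn ℚ))
    (hO : ((f : modularFunctionFieldBar M) : LaurentSeries Qb) ∈ h60_Os A) (c : Fin 3)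
    (h0 : h49_cr_e0 M q (A.inertiaSubgroupIn ℚ) f ≠ 0) :
    0 ≤ h98_w2 M q hqM A ζ hζ hex c (h49_cr_e0 M q (A.inertiaSubgroupIn ℚ) f) := by
  rw [h49_cr_w_nonneg_iff M q hqM A hA ζ hζ hex c _ h0, h49_cr_coe_e0]
  exact h49_cr_X_e0_mem M q hqM A hA ζ hζ c _ hO

include hA in
/-- **Vertical half for `e2`**. -/
theorem h49_cr_w_e2 (f : h69_F0 M (A.inertiaSubgroupIn ℚ))
    (hO : ((f : modularFunctionFieldBar M) : LaurentSeries Qb) ∈ h60_Os A) (c : Fin 3)
    (h0 : h49_cr_e2 M q (A.inertiaSubgroupIn ℚ) f ≠ 0) :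
    0 ≤ h98_w2 M q hqM A ζ hζ hex c (h49_cr_e2 M q (A.inertiaSubgroupIn ℚ) f) := by
  rw [h49_cr_w_nonneg_iff M q hqM A hA ζ hζ hex c _ h0, h49_cr_coe_e2]
  exact h49_cr_X_e2_mem M q hqM A hA ζ hζ c _ hO

/-! ### Horizontal halves -/

/-- **Horizontal half for `e0`**: `e0 f` is regular where `1/j` is regular (level `M q²`). -/
theorem h49_cr_hor_e0 (g : modularFunctionFieldBar M) (hreg : h39_Reg Qb (h59_jbar M)⁻¹ g)
    (P : Place Qb (modularFunctionFieldBar (M * q * q))) (hP : P.ord (h59_jbar (M * q * q)) ≤ 0) :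
    0 ≤ P.ord (heckeAlphaBar Qb (M * q) q (heckeAlphaBar Qb M q g)) := by
  have h1 : h39_Reg Qb (h59_jbar (M * q))⁻¹ (heckeAlphaBar Qb M q g) := by
    have := h49_cr_reg_map (heckeAlphaBar Qb M q) (h88_alphaIntegral M q) hreg
    rwa [h51_alpha_jbar] at this
  refine h49_cr_reg_pull (heckeAlphaBar Qb (M * q) q) (h88_alphaIntegral (M * q) q) h1 P ?_
  rw [h51_alpha_jbar]
  exact hP

/-- **Horizontal half for `e2`**: `e2 f` is regular where `j(q²τ)` has no zero. -/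
theorem h49_cr_hor_e2 (g : modularFunctionFieldBar M) (hreg : h39_Reg Qb (h59_jbar M)⁻¹ g)
    (P : Place Qb (modularFunctionFieldBar (M * q * q)))
    (hP : P.ord (heckeBetaBar Qb (M * q) q (heckeBetaBar Qb M q (h59_jbar M))) ≤ 0) :
    0 ≤ P.ord (heckeBetaBar Qb (M * q) q (heckeBetaBar Qb M q g)) := by
  have h1 : h39_Reg Qb (heckeBetaBar Qb M q (h59_jbar M))⁻¹ (heckeBetaBar Qb M q g) :=
    h49_cr_reg_map (heckeBetaBar Qb M q) (h88_betaIntegral M q) hreg
  exact h49_cr_reg_pull (heckeBetaBar Qb (M * q) q) (h88_betaIntegral (M * q) q) h1 P hP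

/-! ### The chart ring and the local rings -/

include hA in
/-- **(REG0)** `e0` maps the Gauss-integral, inertia-fixed functions of level `M` which are regular
on the chart `1/j` into the chart ring of the chart `1/j` of level `M q²`. -/
theorem h49_cr_e0_mem (f : h69_F0 M (A.inertiaSubgroupIn ℚ))
    (hO : ((f : modularFunctionFieldBar M) : LaurentSeries Qb) ∈ h60_Os A)
    (hreg : h39_Reg Qb (h59_jbar M)⁻¹ (f : modularFunctionFieldBar M)) :
    h49_cr_e0 M q (A.inertiaSubgroupIn ℚ) f ∈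
      (h80_fam2 (M * q * q) (A.inertiaSubgroupIn ℚ) (h98_w2 M q hqM A ζ hζ hex)
        (h98_hw2mul M q hqM A hA ζ hζ hex) (h98_hw2add M q hqM A hA ζ hζ hex)).B := by
  unfold h80_fam2
  rw [h80_mem_famOf_B]
  by_cases h0 : h49_cr_e0 M q (A.inertiaSubgroupIn ℚ) f = 0
  · exact Or.inl h0
  refine Or.inr ⟨fun c => h49_cr_w_e0 M q hqM A hA ζ hζ hex f hO c h0, fun P hP => ?_⟩
  rw [h49_cr_coe_e0]
  refine h49_cr_hor_e0 M q _ hreg P ?_
  rw [Place.ord_inv] at hP
  omega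

include hA in
/-- **(REG2)** `e2 f` lies in the local ring at every point of the chart `1/j` of level `M q²`
through which no zero of `j(q²τ)` passes. -/
theorem h49_cr_e2_inLoc (f : h69_F0 M (A.inertiaSubgroupIn ℚ))
    (hO : ((f : modularFunctionFieldBar M) : LaurentSeries Qb) ∈ h60_Os A)
    (hreg : h39_Reg Qb (h59_jbar M)⁻¹ (f : modularFunctionFieldBar M))
    (m : Ideal (h80_fam2 (M * q * q) (A.inertiaSubgroupIn ℚ) (h98_w2 M q hqM A ζ hζ hex)
        (h98_hw2mul M q hqM A hA ζ hζ hex) (h98_hw2add M q hqM A hA ζ hζ hex)).B) [m.IsPrime]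
    (hJ2 : ∀ k, (h80_fam2 (M * q * q) (A.inertiaSubgroupIn ℚ) (h98_w2 M q hqM A ζ hζ hex)
        (h98_hw2mul M q hqM A hA ζ hζ hex) (h98_hw2add M q hqM A hA ζ hζ hex)).Through m k →
      (h80_fam2 (M * q * q) (A.inertiaSubgroupIn ℚ) (h98_w2 M q hqM A ζ hζ hex)
        (h98_hw2mul M q hqM A hA ζ hζ hex) (h98_hw2add M q hqM A hA ζ hζ hex)).v k
          (h16_J2F M q (A.inertiaSubgroupIn ℚ)) ≤ 0) :
    (h80_fam2 (M * q * q) (A.inertiaSubgroupIn ℚ) (h98_w2 M q hqM A ζ hζ hex)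
        (h98_hw2mul M q hqM A hA ζ hζ hex) (h98_hw2add M q hqM A hA ζ hζ hex)).InLoc m
      (h49_cr_e2 M q (A.inertiaSubgroupIn ℚ) f) := by
  by_cases h0 : h49_cr_e2 M q (A.inertiaSubgroupIn ℚ) f = 0
  · rw [h0]
    exact ⟨0, 1, fun h1 => (Ideal.IsPrime.ne_top inferInstance) ((Ideal.eq_top_iff_one m).mpr h1),
      by simp⟩
  rw [h80_inLoc_iff _ m h0]
  intro i hi
  rcases i with c | j
  · exact h49_cr_w_e2 M q hqM A hA ζ hζ hex f hO c h0
  · have h2 := hJ2 _ hi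
    obtain ⟨P, hP, hPj⟩ := h80_famOf_hor (κ := Fin 3) (M * q * q) (A.inertiaSubgroupIn ℚ)
      (h59_jbar (M * q * q))⁻¹ (Sum.inr j) (h80_isHor_inr j)
    rw [hPj] at h2 ⊢
    exact h49_cr_hor_e2 M q _ hreg P h2

/-! ### The same statements in the output shape of `h87_lift_fixed` -/

/-- Gauss-integrality from membership in the ring of a modular reduction datum of level `M`. -/
theorem h49_cr_mem_Os
    {R : h39_RedDatum Qb ↥(modularFunctionFieldBar M) (IsLocalRing.ResidueField A)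
      ↥(modularFunctionFieldFullC (IsLocalRing.ResidueField A) M)} (h : h54_IsModRed M A R)
    (g : modularFunctionFieldBar M) (hg : g ∈ R.O) : (g : LaurentSeries Qb) ∈ h60_Os A :=
  (h.mem_iff g).mp hg

include hA in
/-- **(REG0)** in the output shape of `h87_lift_fixed`. -/
theorem h49_cr_e0_mem_of_red
    {R : h39_RedDatum Qb ↥(modularFunctionFieldBar M) (IsLocalRing.ResidueField A)
      ↥(modularFunctionFieldFullC (IsLocalRing.ResidueField A) M)} (h : h54_IsModRed M A R)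
    (f : modularFunctionFieldBar M) (hfix : f ∈ h69_F0 M (A.inertiaSubgroupIn ℚ)) (hfO : f ∈ R.O)
    (hreg : h39_Reg Qb (h59_jbar M)⁻¹ f) :
    h49_cr_e0 M q (A.inertiaSubgroupIn ℚ) ⟨f, hfix⟩ ∈
      (h80_fam2 (M * q * q) (A.inertiaSubgroupIn ℚ) (h98_w2 M q hqM A ζ hζ hex)
        (h98_hw2mul M q hqM A hA ζ hζ hex) (h98_hw2add M q hqM A hA ζ hζ hex)).B :=
  h49_cr_e0_mem M q hqM A hA ζ hζ hex ⟨f, hfix⟩ (h49_cr_mem_Os M A h f hfO) hreg

include hA in
/-- `e0 f` lies in every local ring of the chart `1/j` of level `M q²`. -/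
theorem h49_cr_e0_inLoc (f : h69_F0 M (A.inertiaSubgroupIn ℚ))
    (hO : ((f : modularFunctionFieldBar M) : LaurentSeries Qb) ∈ h60_Os A)
    (hreg : h39_Reg Qb (h59_jbar M)⁻¹ (f : modularFunctionFieldBar M))
    (m : Ideal (h80_fam2 (M * q * q) (A.inertiaSubgroupIn ℚ) (h98_w2 M q hqM A ζ hζ hex)
        (h98_hw2mul M q hqM A hA ζ hζ hex) (h98_hw2add M q hqM A hA ζ hζ hex)).B) [m.IsPrime] :
    (h80_fam2 (M * q * q) (A.inertiaSubgroupIn ℚ) (h98_w2 M q hqM A ζ hζ hex)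
        (h98_hw2mul M q hqM A hA ζ hζ hex) (h98_hw2add M q hqM A hA ζ hζ hex)).InLoc m
      (h49_cr_e0 M q (A.inertiaSubgroupIn ℚ) f) :=
  ⟨⟨_, h49_cr_e0_mem M q hqM A hA ζ hζ hex f hO hreg⟩, 1,
    fun h1 => (Ideal.IsPrime.ne_top inferInstance) ((Ideal.eq_top_iff_one m).mpr h1), by simp⟩

include hA in
/-- **(REG2)** in the output shape of `h87_lift_fixed`. -/
theorem h49_cr_e2_inLoc_of_red
    {R : h39_RedDatum Qb ↥(modularFunctionFieldBar M) (IsLocalRing.ResidueField A)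
      ↥(modularFunctionFieldFullC (IsLocalRing.ResidueField A) M)} (h : h54_IsModRed M A R)
    (f : modularFunctionFieldBar M) (hfix : f ∈ h69_F0 M (A.inertiaSubgroupIn ℚ)) (hfO : f ∈ R.O)
    (hreg : h39_Reg Qb (h59_jbar M)⁻¹ f)
    (m : Ideal (h80_fam2 (M * q * q) (A.inertiaSubgroupIn ℚ) (h98_w2 M q hqM A ζ hζ hex)
        (h98_hw2mul M q hqM A hA ζ hζ hex) (h98_hw2add M q hqM A hA ζ hζ hex)).B) [m.IsPrime]
    (hJ2 : ∀ k, (h80_fam2 (M * q * q) (A.inertiaSubgroupIn ℚ) (h98_w2 M q hqM A ζ hζ hex)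
        (h98_hw2mul M q hqM A hA ζ hζ hex) (h98_hw2add M q hqM A hA ζ hζ hex)).Through m k →
      (h80_fam2 (M * q * q) (A.inertiaSubgroupIn ℚ) (h98_w2 M q hqM A ζ hζ hex)
        (h98_hw2mul M q hqM A hA ζ hζ hex) (h98_hw2add M q hqM A hA ζ hζ hex)).v k
          (h16_J2F M q (A.inertiaSubgroupIn ℚ)) ≤ 0) :
    (h80_fam2 (M * q * q) (A.inertiaSubgroupIn ℚ) (h98_w2 M q hqM A ζ hζ hex)
        (h98_hw2mul M q hqM A hA ζ hζ hex) (h98_hw2add M q hqM A hA ζ hζ hex)).InLoc m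
      (h49_cr_e2 M q (A.inertiaSubgroupIn ℚ) ⟨f, hfix⟩) :=
  h49_cr_e2_inLoc M q hqM A hA ζ hζ hex ⟨f, hfix⟩ (h49_cr_mem_Os M A h f hfO) hreg m hJ2

end Lift

end Fermat.Agent.S36
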