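/-
S36 / I-PTS, I-Q (helper49): the residue data of the chart `j` of level `M q` at every point of
the special fibre, by the builder route (no node theorem).

`V1 = h80_fam1 (M q) I (h98_w1 ..)`, `s` a maximal ideal of `V1.B` through the vertical
component `c` (`0 = Z_F`, `1 = Z_V`).  Then there are a place `y` of `X₀(M)_k` on the chart
`j̄` and a residue datum `R : h62_Res V1 s (inl c) Fb(M)` with `R.o = y.ord` and
`R.ρ = red₁` (resp. `red₂`).

Proof: `h87_exists_res` (helper87) with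
* `(O, ρ)` := `h87_rhoF_exists` / `h87_rhoV_exists`;
* `hlift` : `g` regular on the chart `j̄` lifts by `h87_lift_fixed` to `f0` of level `M`, and
  `α f0` (resp. `β f0`) lies in `V1.B` with `red₁ (α f0) = g` (resp. `red₂ (β f0) = g`);
* `hres` : `B / s = k` (`h65_resK_q`).
-/
import Mathlib
import Fermat.Agent.S36.h49_CuspReg
import Fermat.Agent.S36.h87_RhoMod
import Fermat.Agent.S36.h87_LiftFixed
import Fermat.Agent.S36.h87_ResBuild
import Fermat.Agent.S36.h65_Hmax0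
import Fermat.Agent.S34.h84_FrobMod

set_option autoImplicit false
set_option synthInstance.maxHeartbeats 400000
set_option linter.style.haveILetI false
set_option linter.unusedSectionVars false

noncomputable section

open ModularCurve AlgebraicCurve

namespace Fermat.Agent.S36

open Fermat.Agent.S34 Fermat.Agent.S37 Fermat.Agent.S24 Fermat.Agent.S35 Fermat.Agent.S18
  Fermat.Agent.GAL Fermat.Agent.S40

local notation "Qb" => AlgebraicClosure ℚ

/-! ## Places -/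

section Places

variable {K F F' : Type*} [Field K] [Field F] [Field F'] [Algebra K F] [Algebra K F']

/-- Membership in the valuation ring of the restricted place. -/
theorem h49_rq_mem_restrict_iff (φ : F →ₐ[K] F') (hφ : φ.toRingHom.IsIntegral) (P : Place K F')
    (f : F) : f ∈ (P.restrictAlong φ hφ).toValuationSubring ↔ φ f ∈ P.toValuationSubring := by
  by_cases hf : f = 0
  · rw [hf, map_zero]
    exact ⟨fun _ => zero_mem _, fun _ => zero_mem _⟩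
  have hf' : φ f ≠ 0 := (map_ne_zero φ.toRingHom).mpr hf
  rw [h35_mem_iff_ord_nonneg _ hf, h35_mem_iff_ord_nonneg _ hf', Place.ord_restrictAlong φ hφ P f]
  have h2 := h51_ramificationIndexAlong_pos φ hφ P
  have h3 : (0 : ℤ) < (Place.ramificationIndexAlong φ P : ℤ) := by exact_mod_cast h2
  constructor
  · intro h
    exact mul_nonneg h3.le h
  · intro h
    by_contra hc
    have h4 := mul_neg_of_pos_of_neg h3 (not_le.mp hc)
    omega

/-- Regularity on the chart `x` is transported by an integral embedding. -/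
theorem h49_rq_reg_map (φ : F →ₐ[K] F') (hφ : φ.toRingHom.IsIntegral) {x f : F}
    (hreg : h39_Reg K x f) : h39_Reg K (φ x) (φ f) := by
  intro P hP
  rw [← h49_rq_mem_restrict_iff φ hφ P] at hP ⊢
  exact hreg _ hP

end Places

/-! ## The lifts at level `M q` -/

section Lift

variable (M q : ℕ) [NeZero M] [NeZero q] [Fact q.Prime] (hqM : ¬ q ∣ M)
  (A : ValuationSubring Qb) (hA : A.LiesOverPrime q) (ζ : Qb) (hζ : IsPrimitiveRoot ζ q)
  (hex : h98_Ex M q hqM A ζ hζ)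

include hA in
/-- Membership in the chart ring of the chart `j` of level `M q`. -/
theorem h49_rq_mem_fam1 (x : h69_F0 (M * q) (A.inertiaSubgroupIn ℚ))
    (hs1 : (x : modularFunctionFieldBar (M * q)) ∈ (h60_R1 M q hqM A hA).O)
    (hs2 : h60_w M q hqM (x : modularFunctionFieldBar (M * q)) ∈ (h60_R1 M q hqM A hA).O)
    (hreg : h39_Reg Qb (h59_jbar (M * q)) (x : modularFunctionFieldBar (M * q))) :
    x ∈ (h80_fam1 (M * q) (A.inertiaSubgroupIn ℚ) (h98_w1 M q hqM A ζ hζ hex)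
      (h98_hw1mul M q hqM A hA ζ hζ hex) (h98_hw1add M q hqM A hA ζ hζ hex)).B := by
  unfold h80_fam1
  rw [h80_mem_famOf_B]
  by_cases hs0 : x = 0
  · exact Or.inl hs0
  have hx0 : (x : modularFunctionFieldBar (M * q)) ≠ 0 := fun h => hs0 (Subtype.ext h)
  refine Or.inr ⟨fun c => ?_, fun P hP => ?_⟩
  · have hu := h98_q_unif q A hA
    fin_cases c
    · show 0 ≤ h98_wF M q hqM A ζ hζ hex x
      exact (h98_gv_nonneg_iff _ hu.1 hu.2.1 hu.2.2 x hs0).mpr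
        ((h60_R1_mem_iff_Os M q hqM A hA _).mp hs1)
    · show 0 ≤ h98_wV M q hqM A ζ hζ hex x
      exact (h98_gv_nonneg_iff _ hu.1 hu.2.1 hu.2.2 x hs0).mpr
        ((h60_R1_mem_iff_Os M q hqM A hA _).mp hs2)
  · have hj0 : h59_jbar (M * q) ≠ 0 := (h54_isChart_jbar (M * q)).ne_zero
    have h1 := hreg P ((h35_mem_iff_ord_nonneg P hj0).mpr hP)
    exact (h35_mem_iff_ord_nonneg P hx0).mp h1

variable {RM : h39_RedDatum Qb ↥(modularFunctionFieldBar M) (IsLocalRing.ResidueField A)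
      ↥(modularFunctionFieldFullC (IsLocalRing.ResidueField A) M)}
  (hRM : h54_IsModRed M A RM)

include hA hRM in
/-- `α f0 ∈ V1.B` for `f0` inertia-fixed, Gauss-integral and regular on the chart `j` of level
`M`. -/
theorem h49_rq_alpha_mem (f0 : modularFunctionFieldBar M)
    (hfix : f0 ∈ h69_F0 M (A.inertiaSubgroupIn ℚ)) (hfO : f0 ∈ RM.O)
    (hreg : h39_Reg Qb (h59_jbar M) f0) :
    h70_aF0 M q (A.inertiaSubgroupIn ℚ) ⟨f0, hfix⟩ ∈
      (h80_fam1 (M * q) (A.inertiaSubgroupIn ℚ) (h98_w1 M q hqM A ζ hζ hex)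
        (h98_hw1mul M q hqM A hA ζ hζ hex) (h98_hw1add M q hqM A hA ζ hζ hex)).B := by
  refine h49_rq_mem_fam1 M q hqM A hA ζ hζ hex _ ?_ ?_ ?_
  · exact h60_R1_alpha_mem M q hqM A hA hRM ⟨f0, hfO⟩
  · show h60_w M q hqM (heckeAlphaBar Qb M q f0) ∈ (h60_R1 M q hqM A hA).O
    rw [h60_w_alpha]
    exact h60_R1_beta_mem M q hqM A hA hRM ⟨f0, hfO⟩
  · show h39_Reg Qb (h59_jbar (M * q)) (heckeAlphaBar Qb M q f0)
    have := h49_rq_reg_map (heckeAlphaBar Qb M q) (h88_alphaIntegral M q) hreg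
    rwa [h51_alpha_jbar] at this

include hA hRM in
/-- `β f0 ∈ V1.B` for `f0` inertia-fixed, Gauss-integral and regular on the chart `j` of level
`M`. -/
theorem h49_rq_beta_mem (f0 : modularFunctionFieldBar M)
    (hfix : f0 ∈ h69_F0 M (A.inertiaSubgroupIn ℚ)) (hfO : f0 ∈ RM.O)
    (hreg : h39_Reg Qb (h59_jbar M) f0) :
    h70_bF0 M q (A.inertiaSubgroupIn ℚ) ⟨f0, hfix⟩ ∈
      (h80_fam1 (M * q) (A.inertiaSubgroupIn ℚ) (h98_w1 M q hqM A ζ hζ hex)
        (h98_hw1mul M q hqM A hA ζ hζ hex) (h98_hw1add M q hqM A hA ζ hζ hex)).B := by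
  refine h49_rq_mem_fam1 M q hqM A hA ζ hζ hex _ ?_ ?_ ?_
  · exact h60_R1_beta_mem M q hqM A hA hRM ⟨f0, hfO⟩
  · show h60_w M q hqM (heckeBetaBar Qb M q f0) ∈ (h60_R1 M q hqM A hA).O
    rw [h60_w_beta]
    exact h60_R1_alpha_mem M q hqM A hA hRM ⟨f0, hfO⟩
  · show h39_Reg Qb (h59_jbar (M * q)) (heckeBetaBar Qb M q f0)
    have h1 := h49_rq_reg_map (heckeBetaBar Qb M q) (h88_betaIntegral M q) hreg
    intro P hP
    refine h1 P ?_
    have hj0 : h59_jbar (M * q) ≠ 0 := (h54_isChart_jbar (M * q)).ne_zero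
    have h2 := h51_beta_jbar_regular M q P ((h35_mem_iff_ord_nonneg P hj0).mp hP)
    by_cases h0 : heckeBetaBar Qb M q (h59_jbar M) = 0
    · rw [h0]
      exact zero_mem _
    · exact (h35_mem_iff_ord_nonneg P h0).mpr h2

end Lift

/-! ## The residue data -/

section Res

variable (M q : ℕ) [NeZero M] [NeZero q] [Fact q.Prime] (hqM : ¬ q ∣ M)
  (A : ValuationSubring Qb) (hA : A.LiesOverPrime q) (ζ : Qb) (hζ : IsPrimitiveRoot ζ q)
  (hex : h98_Ex M q hqM A ζ hζ)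

include hA in
/-- `q` lies in every maximal ideal through a vertical component. -/
theorem h49_rq_q_mem (c : Fin 2)
    (s : Ideal (h80_fam1 (M * q) (A.inertiaSubgroupIn ℚ) (h98_w1 M q hqM A ζ hζ hex)
      (h98_hw1mul M q hqM A hA ζ hζ hex) (h98_hw1add M q hqM A hA ζ hζ hex)).B)
    (hc : (h80_fam1 (M * q) (A.inertiaSubgroupIn ℚ) (h98_w1 M q hqM A ζ hζ hex)
      (h98_hw1mul M q hqM A hA ζ hζ hex) (h98_hw1add M q hqM A hA ζ hζ hex)).Through s
        (Sum.inl c)) :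
    ((q : ℕ) : (h80_fam1 (M * q) (A.inertiaSubgroupIn ℚ) (h98_w1 M q hqM A ζ hζ hex)
      (h98_hw1mul M q hqM A hA ζ hζ hex) (h98_hw1add M q hqM A hA ζ hζ hex)).B) ∈ s := by
  have hq : q.Prime := Fact.out
  have hq0 : (q : h69_F0 (M * q) (A.inertiaSubgroupIn ℚ)) ≠ 0 :=
    h70_natCast_ne_zero _ _ hq.ne_zero
  refine hc _ hq0 ?_
  show 0 < h98_w1 M q hqM A ζ hζ hex c (q : h69_F0 (M * q) (A.inertiaSubgroupIn ℚ))
  rw [h65_w1_q M q hqM A hA ζ hζ hex c]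
  exact one_pos

set_option maxHeartbeats 1600000 in
include hA in
/-- **RES at level `M q`, component `Z_F`** (strong form). -/
theorem h49_rq_F (hch : 5 ≤ q ∨ 2 ∣ M ∨ 3 ∣ M)
    (s : Ideal (h80_fam1 (M * q) (A.inertiaSubgroupIn ℚ) (h98_w1 M q hqM A ζ hζ hex)
      (h98_hw1mul M q hqM A hA ζ hζ hex) (h98_hw1add M q hqM A hA ζ hζ hex)).B)
    (hs : s.IsMaximal)
    (hF : (h80_fam1 (M * q) (A.inertiaSubgroupIn ℚ) (h98_w1 M q hqM A ζ hζ hex)
      (h98_hw1mul M q hqM A hA ζ hζ hex) (h98_hw1add M q hqM A hA ζ hζ hex)).Through s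
        (Sum.inl 0)) :
    ∃ (y : Place (IsLocalRing.ResidueField A)
          ↥(modularFunctionFieldFullC (IsLocalRing.ResidueField A) M))
      (R₁ : h62_Res (h80_fam1 (M * q) (A.inertiaSubgroupIn ℚ) (h98_w1 M q hqM A ζ hζ hex)
        (h98_hw1mul M q hqM A hA ζ hζ hex) (h98_hw1add M q hqM A hA ζ hζ hex)) s (Sum.inl 0)
          ↥(modularFunctionFieldFullC (IsLocalRing.ResidueField A) M)),
      R₁.o = y.ord ∧
      (∀ f : R₁.O, ∃ hf : ((f : h69_F0 (M * q) (A.inertiaSubgroupIn ℚ)) :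
          modularFunctionFieldBar (M * q)) ∈ (h60_R1 M q hqM A hA).O,
        R₁.ρ f = (h60_R1 M q hqM A hA).red ⟨_, hf⟩) ∧
      h54_jk (IsLocalRing.ResidueField A) M ∈ y.toValuationSubring := by
  haveI : s.IsPrime := hs.isPrime
  haveI : IsAlgClosed (IsLocalRing.ResidueField A) := h19_residueField_isAlgClosed A
  have hRM := h39_modRed_spec M hqM A hA
  obtain ⟨O, ρ, hmemO, -, hρ0, hρ, hOiff⟩ := h87_rhoF_exists M q hqM A hA ζ hζ hex
  have hqs := h49_rq_q_mem M q hqM A hA ζ hζ hex 0 s hF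
  -- lifts
  have hlift : ∀ g : ↥(modularFunctionFieldFullC (IsLocalRing.ResidueField A) M),
      h39_Reg (IsLocalRing.ResidueField A) (h54_jk (IsLocalRing.ResidueField A) M) g →
      ∃ f : O, (h80_fam1 (M * q) (A.inertiaSubgroupIn ℚ) (h98_w1 M q hqM A ζ hζ hex)
        (h98_hw1mul M q hqM A hA ζ hζ hex) (h98_hw1add M q hqM A hA ζ hζ hex)).InLoc s
          (f : h69_F0 (M * q) (A.inertiaSubgroupIn ℚ)) ∧ ρ f = g := by
    intro g hg
    obtain ⟨f0, hfix, hfO, hred, hreg⟩ := h87_lift_fixed M hqM A hA hch hRM (h59_jbar M)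
      (Or.inl rfl) g (by rw [h54_redF_jbar hRM]; exact hg)
    have hB := h49_rq_alpha_mem M q hqM A hA ζ hζ hex hRM f0 hfix hfO hreg
    have hxO : h70_aF0 M q (A.inertiaSubgroupIn ℚ) ⟨f0, hfix⟩ ∈ O :=
      (hOiff _).mpr (h60_R1_alpha_mem M q hqM A hA hRM ⟨f0, hfO⟩)
    refine ⟨⟨_, hxO⟩, ⟨⟨_, hB⟩, 1, fun h1 => hs.ne_top ((Ideal.eq_top_iff_one s).mpr h1),
      by simp⟩, ?_⟩
    rw [hρ]
    show (h60_R1 M q hqM A hA).redF (heckeAlphaBar Qb M q f0) = g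
    rw [h60_R1_redF_alpha M q hqM A hA hRM, hred]
  -- residue field
  have hB : ∀ b : (h80_fam1 (M * q) (A.inertiaSubgroupIn ℚ) (h98_w1 M q hqM A ζ hζ hex)
      (h98_hw1mul M q hqM A hA ζ hζ hex) (h98_hw1add M q hqM A hA ζ hζ hex)).B,
      ∃ (a : IsLocalRing.ResidueField A)
        (l : (h80_fam1 (M * q) (A.inertiaSubgroupIn ℚ) (h98_w1 M q hqM A ζ hζ hex)
          (h98_hw1mul M q hqM A hA ζ hζ hex) (h98_hw1add M q hqM A hA ζ hζ hex)).B)
        (hl : (l : h69_F0 (M * q) (A.inertiaSubgroupIn ℚ)) ∈ O),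
        ρ ⟨(l : h69_F0 (M * q) (A.inertiaSubgroupIn ℚ)), hl⟩
            = algebraMap (IsLocalRing.ResidueField A)
                ↥(modularFunctionFieldFullC (IsLocalRing.ResidueField A) M) a ∧ b - l ∈ s := by
    intro b
    obtain ⟨a0, ha0, h, hb⟩ := h65_resK_q M q hqM A hA ζ hζ hex s hs hqs b
    have haA : (a0 : Qb) ∈ (h60_R1 M q hqM A hA).A := by
      rw [h60_R1_A]
      exact ha0
    have hlO : algebraMap (h69_K0 (A.inertiaSubgroupIn ℚ))
        (h69_F0 (M * q) (A.inertiaSubgroupIn ℚ)) a0 ∈ O :=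
      (hOiff _).mpr (((h60_R1 M q hqM A hA).mem_iff (a0 : Qb)).mp haA)
    refine ⟨(h60_R1 M q hqM A hA).resK (a0 : Qb), ⟨_, h⟩, hlO, ?_, hb⟩
    rw [hρ]
    exact h39_redF_algebraMap (h60_R1 M q hqM A hA) haA
  have hres := h87_hres_of_B _ s (Sum.inl 0) hF O hmemO ρ hρ0 hB
  obtain ⟨y, R, hy, hRo, hRO, hRρ⟩ := h87_exists_res _ s (Sum.inl 0) hF O hmemO ρ hρ0
    (h84_isChart_jk M q hqM A hA) hlift hres
  refine ⟨y, R, hRo, fun f => ?_, hy⟩
  have hfO : (f : h69_F0 (M * q) (A.inertiaSubgroupIn ℚ)) ∈ O := hRO ▸ f.2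
  have hf1 := (hOiff _).mp hfO
  refine ⟨hf1, ?_⟩
  rw [hRρ _ hfO f.2, hρ]
  exact (h60_R1 M q hqM A hA).redF_of_mem hf1

set_option maxHeartbeats 1600000 in
include hA in
/-- **RES at level `M q`, component `Z_V`** (strong form). -/
theorem h49_rq_V (hch : 5 ≤ q ∨ 2 ∣ M ∨ 3 ∣ M)
    (s : Ideal (h80_fam1 (M * q) (A.inertiaSubgroupIn ℚ) (h98_w1 M q hqM A ζ hζ hex)
      (h98_hw1mul M q hqM A hA ζ hζ hex) (h98_hw1add M q hqM A hA ζ hζ hex)).B)
    (hs : s.IsMaximal)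
    (hV : (h80_fam1 (M * q) (A.inertiaSubgroupIn ℚ) (h98_w1 M q hqM A ζ hζ hex)
      (h98_hw1mul M q hqM A hA ζ hζ hex) (h98_hw1add M q hqM A hA ζ hζ hex)).Through s
        (Sum.inl 1)) :
    ∃ (y : Place (IsLocalRing.ResidueField A)
          ↥(modularFunctionFieldFullC (IsLocalRing.ResidueField A) M))
      (R₁ : h62_Res (h80_fam1 (M * q) (A.inertiaSubgroupIn ℚ) (h98_w1 M q hqM A ζ hζ hex)
        (h98_hw1mul M q hqM A hA ζ hζ hex) (h98_hw1add M q hqM A hA ζ hζ hex)) s (Sum.inl 1)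
          ↥(modularFunctionFieldFullC (IsLocalRing.ResidueField A) M)),
      R₁.o = y.ord ∧
      (∀ f : R₁.O, ∃ hf : ((f : h69_F0 (M * q) (A.inertiaSubgroupIn ℚ)) :
          modularFunctionFieldBar (M * q)) ∈ (h60_R2 M q hqM A hA).O,
        R₁.ρ f = (h60_R2 M q hqM A hA).red ⟨_, hf⟩) ∧
      h54_jk (IsLocalRing.ResidueField A) M ∈ y.toValuationSubring := by
  haveI : s.IsPrime := hs.isPrime
  haveI : IsAlgClosed (IsLocalRing.ResidueField A) := h19_residueField_isAlgClosed A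
  have hRM := h39_modRed_spec M hqM A hA
  obtain ⟨O, ρ, hmemO, -, hρ0, hρ, hOiff⟩ := h87_rhoV_exists M q hqM A hA ζ hζ hex
  have hqs := h49_rq_q_mem M q hqM A hA ζ hζ hex 1 s hV
  -- lifts
  have hlift : ∀ g : ↥(modularFunctionFieldFullC (IsLocalRing.ResidueField A) M),
      h39_Reg (IsLocalRing.ResidueField A) (h54_jk (IsLocalRing.ResidueField A) M) g →
      ∃ f : O, (h80_fam1 (M * q) (A.inertiaSubgroupIn ℚ) (h98_w1 M q hqM A ζ hζ hex)
        (h98_hw1mul M q hqM A hA ζ hζ hex) (h98_hw1add M q hqM A hA ζ hζ hex)).InLoc s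
          (f : h69_F0 (M * q) (A.inertiaSubgroupIn ℚ)) ∧ ρ f = g := by
    intro g hg
    obtain ⟨f0, hfix, hfO, hred, hreg⟩ := h87_lift_fixed M hqM A hA hch hRM (h59_jbar M)
      (Or.inl rfl) g (by rw [h54_redF_jbar hRM]; exact hg)
    have hB := h49_rq_beta_mem M q hqM A hA ζ hζ hex hRM f0 hfix hfO hreg
    have hxO : h70_bF0 M q (A.inertiaSubgroupIn ℚ) ⟨f0, hfix⟩ ∈ O := by
      refine (hOiff _).mpr ?_
      show h60_w M q hqM (heckeBetaBar Qb M q f0) ∈ (h60_R1 M q hqM A hA).O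
      rw [h60_w_beta]
      exact h60_R1_alpha_mem M q hqM A hA hRM ⟨f0, hfO⟩
    refine ⟨⟨_, hxO⟩, ⟨⟨_, hB⟩, 1, fun h1 => hs.ne_top ((Ideal.eq_top_iff_one s).mpr h1),
      by simp⟩, ?_⟩
    rw [hρ]
    show (h60_R2 M q hqM A hA).redF (heckeBetaBar Qb M q f0) = g
    rw [h60_R2_redF_beta M q hqM A hA hRM, hred]
  -- residue field
  have hB : ∀ b : (h80_fam1 (M * q) (A.inertiaSubgroupIn ℚ) (h98_w1 M q hqM A ζ hζ hex)
      (h98_hw1mul M q hqM A hA ζ hζ hex) (h98_hw1add M q hqM A hA ζ hζ hex)).B,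
      ∃ (a : IsLocalRing.ResidueField A)
        (l : (h80_fam1 (M * q) (A.inertiaSubgroupIn ℚ) (h98_w1 M q hqM A ζ hζ hex)
          (h98_hw1mul M q hqM A hA ζ hζ hex) (h98_hw1add M q hqM A hA ζ hζ hex)).B)
        (hl : (l : h69_F0 (M * q) (A.inertiaSubgroupIn ℚ)) ∈ O),
        ρ ⟨(l : h69_F0 (M * q) (A.inertiaSubgroupIn ℚ)), hl⟩
            = algebraMap (IsLocalRing.ResidueField A)
                ↥(modularFunctionFieldFullC (IsLocalRing.ResidueField A) M) a ∧ b - l ∈ s := by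
    intro b
    obtain ⟨a0, ha0, h, hb⟩ := h65_resK_q M q hqM A hA ζ hζ hex s hs hqs b
    have haA : (a0 : Qb) ∈ (h60_R2 M q hqM A hA).A := by
      rw [h60_R2_A]
      exact ha0
    have hlO : algebraMap (h69_K0 (A.inertiaSubgroupIn ℚ))
        (h69_F0 (M * q) (A.inertiaSubgroupIn ℚ)) a0 ∈ O :=
      (hOiff _).mpr (((h60_R2 M q hqM A hA).mem_iff (a0 : Qb)).mp haA)
    refine ⟨(h60_R2 M q hqM A hA).resK (a0 : Qb), ⟨_, h⟩, hlO, ?_, hb⟩
    rw [hρ]
    exact h39_redF_algebraMap (h60_R2 M q hqM A hA) haA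
  have hres := h87_hres_of_B _ s (Sum.inl 1) hV O hmemO ρ hρ0 hB
  obtain ⟨y, R, hy, hRo, hRO, hRρ⟩ := h87_exists_res _ s (Sum.inl 1) hV O hmemO ρ hρ0
    (h84_isChart_jk M q hqM A hA) hlift hres
  refine ⟨y, R, hRo, fun f => ?_, hy⟩
  have hfO : (f : h69_F0 (M * q) (A.inertiaSubgroupIn ℚ)) ∈ O := hRO ▸ f.2
  have hf1 := (hOiff _).mp hfO
  refine ⟨hf1, ?_⟩
  rw [hRρ _ hfO f.2, hρ]
  exact (h60_R2 M q hqM A hA).redF_of_mem hf1

/-- A function of positive order at a place on the chart `j̄`. -/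
theorem h49_rq_exists_pos
    (y : Place (IsLocalRing.ResidueField A)
      ↥(modularFunctionFieldFullC (IsLocalRing.ResidueField A) M))
    (hy : h54_jk (IsLocalRing.ResidueField A) M ∈ y.toValuationSubring)
    (hqM : ¬ q ∣ M) (hA : A.LiesOverPrime q) :
    ∃ g : ↥(modularFunctionFieldFullC (IsLocalRing.ResidueField A) M), g ≠ 0 ∧ 0 < y.ord g := by
  haveI : IsAlgClosed (IsLocalRing.ResidueField A) := h19_residueField_isAlgClosed A
  have hx := h84_isChart_jk M q hqM A hA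
  obtain ⟨b, hb⟩ := h39_exists_val hx y hy
  obtain ⟨π, -, hπ, -⟩ := h39_exists_uniformizer hx y b hb
  refine ⟨π, ?_, by rw [hπ]; exact one_pos⟩
  rintro rfl
  rw [Place.ord_zero] at hπ
  exact zero_ne_one hπ

include hA in
/-- **`hR1F`** of `h62_pts_mod`. -/
theorem h49_hR1F (hch : 5 ≤ q ∨ 2 ∣ M ∨ 3 ∣ M) :
    ∀ s : Ideal (h80_fam1 (M * q) (A.inertiaSubgroupIn ℚ) (h98_w1 M q hqM A ζ hζ hex)
      (h98_hw1mul M q hqM A hA ζ hζ hex) (h98_hw1add M q hqM A hA ζ hζ hex)).B, s.IsMaximal →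
    (h80_fam1 (M * q) (A.inertiaSubgroupIn ℚ) (h98_w1 M q hqM A ζ hζ hex)
      (h98_hw1mul M q hqM A hA ζ hζ hex) (h98_hw1add M q hqM A hA ζ hζ hex)).Through s
        (Sum.inl 0) →
    ∃ (Fb : Type) (_ : Field Fb)
      (R : h62_Res (h80_fam1 (M * q) (A.inertiaSubgroupIn ℚ) (h98_w1 M q hqM A ζ hζ hex)
        (h98_hw1mul M q hqM A hA ζ hζ hex) (h98_hw1add M q hqM A hA ζ hζ hex)) s (Sum.inl 0) Fb),
      ∃ g : Fb, g ≠ 0 ∧ 0 < R.o g := by
  intro s hs hF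
  obtain ⟨y, R, hRo, -, hy⟩ := h49_rq_F M q hqM A hA ζ hζ hex hch s hs hF
  obtain ⟨g, hg0, hg⟩ := h49_rq_exists_pos M q A y hy hqM hA
  exact ⟨_, inferInstance, R, g, hg0, by rw [hRo]; exact hg⟩

include hA in
/-- **`hR1V`** of `h62_pts_mod`. -/
theorem h49_hR1V (hch : 5 ≤ q ∨ 2 ∣ M ∨ 3 ∣ M) :
    ∀ s : Ideal (h80_fam1 (M * q) (A.inertiaSubgroupIn ℚ) (h98_w1 M q hqM A ζ hζ hex)
      (h98_hw1mul M q hqM A hA ζ hζ hex) (h98_hw1add M q hqM A hA ζ hζ hex)).B, s.IsMaximal →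
    (h80_fam1 (M * q) (A.inertiaSubgroupIn ℚ) (h98_w1 M q hqM A ζ hζ hex)
      (h98_hw1mul M q hqM A hA ζ hζ hex) (h98_hw1add M q hqM A hA ζ hζ hex)).Through s
        (Sum.inl 1) →
    ∃ (Fb : Type) (_ : Field Fb)
      (R : h62_Res (h80_fam1 (M * q) (A.inertiaSubgroupIn ℚ) (h98_w1 M q hqM A ζ hζ hex)
        (h98_hw1mul M q hqM A hA ζ hζ hex) (h98_hw1add M q hqM A hA ζ hζ hex)) s (Sum.inl 1) Fb),
      ∃ g : Fb, g ≠ 0 ∧ 0 < R.o g := by
  intro s hs hV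
  obtain ⟨y, R, hRo, -, hy⟩ := h49_rq_V M q hqM A hA ζ hζ hex hch s hs hV
  obtain ⟨g, hg0, hg⟩ := h49_rq_exists_pos M q A y hy hqM hA
  exact ⟨_, inferInstance, R, g, hg0, by rw [hRo]; exact hg⟩

include hA in
/-- **`hRes`** of `h60_hQ_mod` (helper60), verbatim. -/
theorem h49_hRes (hch : 5 ≤ q ∨ 2 ∣ M ∨ 3 ∣ M) :
    ∀ s : Ideal (h80_fam1 (M * q) (A.inertiaSubgroupIn ℚ) (h98_w1 M q hqM A ζ hζ hex)
        (h98_hw1mul M q hqM A hA ζ hζ hex) (h98_hw1add M q hqM A hA ζ hζ hex)).B,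
      s.IsMaximal →
      (h80_fam1 (M * q) (A.inertiaSubgroupIn ℚ) (h98_w1 M q hqM A ζ hζ hex)
        (h98_hw1mul M q hqM A hA ζ hζ hex) (h98_hw1add M q hqM A hA ζ hζ hex)).Through s
          (Sum.inl 0) →
      ∃ (y : Place (IsLocalRing.ResidueField A)
          ↥(modularFunctionFieldFullC (IsLocalRing.ResidueField A) M))
        (R₁ : h62_Res (h80_fam1 (M * q) (A.inertiaSubgroupIn ℚ) (h98_w1 M q hqM A ζ hζ hex)
          (h98_hw1mul M q hqM A hA ζ hζ hex) (h98_hw1add M q hqM A hA ζ hζ hex)) s (Sum.inl 0)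
          ↥(modularFunctionFieldFullC (IsLocalRing.ResidueField A) M)),
        R₁.o = y.ord ∧
        ∀ f : R₁.O, ∃ hf : (h69_F0 (M * q) (A.inertiaSubgroupIn ℚ)).subtype
            (f : h69_F0 (M * q) (A.inertiaSubgroupIn ℚ)) ∈ (h60_R1 M q hqM A hA).O,
          R₁.ρ f = (h60_R1 M q hqM A hA).red
            ⟨(h69_F0 (M * q) (A.inertiaSubgroupIn ℚ)).subtype
              (f : h69_F0 (M * q) (A.inertiaSubgroupIn ℚ)), hf⟩ := by
  intro s hs hF
  obtain ⟨y, R, hRo, hR, -⟩ := h49_rq_F M q hqM A hA ζ hζ hex hch s hs hF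
  exact ⟨y, R, hRo, hR⟩

end Res

end Fermat.Agent.S36
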