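import Mathlib
import Fermat.Agent.S36.h51_RegA
import Fermat.Agent.S34.h60_R2
import Fermat.Agent.S34.h10_CuspMq

/-!
# S36 / (POLE-SET) (helper51): `j(τ)` and `j(qτ)` have the same poles; chart 1 is saturated

`q` prime, `q ∤ M`.  At the levels `M q` and `M q²`:

* `h51_pole_beta_iff`, `h51_pole_beta_iff2` : a place is a pole of `j` iff it is a pole of
  `β j = j(qτ)` (`⟸` is (REG-A), `S36/h51_RegA`; `⟹` uses the swap `w` of level `M q`).
* `h51_chart_alpha_iff` (any level), `h51_chart_beta_iff`, `h51_chart_beta_iff2` : a place `P` of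
  the upper level is a chart-1 place (`0 ≤ ord_P j`) iff the place below it along `α` (resp. `β`)
  is a chart-1 place: **chart 1 is saturated for both degeneracy maps**, i.e. every place over a
  non-cusp place is a non-cusp place and conversely.
-/

set_option autoImplicit false

open ModularCurve AlgebraicCurve IntermediateField

namespace Fermat.Agent.S36

open Fermat.Agent.S24 Fermat.Agent.S18 Fermat.Agent.S34 Fermat.Agent.S37

local notation "Qb" => AlgebraicClosure ℚ

/-- Chart 1 is saturated along `α`, at every level. -/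
theorem h51_chart_alpha_iff (N q : ℕ) [NeZero N] [NeZero q]
    (hα : (heckeAlphaBar Qb N q).toRingHom.IsIntegral)
    (P : Place Qb ↥(modularFunctionFieldBar (N * q))) :
    0 ≤ P.ord (h59_jbar (N * q))
      ↔ 0 ≤ (P.restrictAlong (heckeAlphaBar Qb N q) hα).ord (h59_jbar N) := by
  refine ⟨h51_restrict_alpha_chart N q hα P, fun h => ?_⟩
  have h1 := Place.ord_restrictAlong (heckeAlphaBar Qb N q) hα P (h59_jbar N)
  rw [h51_alpha_jbar] at h1
  rw [h1]
  exact mul_nonneg (Int.natCast_nonneg _) h

section LevelMq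

variable (M q : ℕ) [NeZero M] [NeZero q] [Fact q.Prime] (hqM : ¬ q ∣ M)

/-- The swap `w` acts on places: `ord_P (w g) = ord_(P') g`. -/
theorem h51_exists_swap_place (P : Place Qb ↥(modularFunctionFieldBar (M * q))) :
    ∃ P' : Place Qb ↥(modularFunctionFieldBar (M * q)),
      ∀ g : ↥(modularFunctionFieldBar (M * q)), P.ord (h60_w M q hqM g) = P'.ord g := by
  set σ := h10_swapAut (w := h60_w M q hqM) (h60_w_algebraMap M q hqM) (h60_w_w M q hqM)
    with hσ
  refine ⟨σ⁻¹ • P, fun g => ?_⟩
  have h := Place.ord_smul σ (σ⁻¹ • P) g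
  rw [smul_inv_smul] at h
  exact h

include hqM in
/-- **Level `M q`**: `j(τ)` and `j(qτ)` have the same poles. -/
theorem h51_pole_beta_iff (P : Place Qb ↥(modularFunctionFieldBar (M * q))) :
    P.ord (h59_jbar (M * q)) < 0 ↔ P.ord (heckeBetaBar Qb M q (h59_jbar M)) < 0 := by
  constructor
  · intro hP
    obtain ⟨P', hP'⟩ := h51_exists_swap_place M q hqM P
    have h1 : P'.ord (heckeBetaBar Qb M q (h59_jbar M)) < 0 := by
      rw [← hP', h60_w_beta, h51_alpha_jbar]
      exact hP
    have h2 : P'.ord (h59_jbar (M * q)) < 0 := by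
      by_contra hcon
      exact absurd (h51_beta_jbar_regular M q P' (not_lt.mp hcon)) (not_le.mpr h1)
    rw [← h60_w_alpha M q hqM, hP', h51_alpha_jbar]
    exact h2
  · intro hP
    by_contra hcon
    exact absurd (h51_beta_jbar_regular M q P (not_lt.mp hcon)) (not_le.mpr hP)

omit [Fact q.Prime] in
/-- `β ∘ α = α ∘ β` (both are `g ↦ g(q^q)`). -/
theorem h51_beta_alpha (g : ↥(modularFunctionFieldBar M)) :
    heckeBetaBar Qb (M * q) q (heckeAlphaBar Qb M q g)
      = heckeAlphaBar Qb (M * q) q (heckeBetaBar Qb M q g) :=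
  Subtype.ext (by
    rw [coe_heckeBetaBar, coe_heckeAlphaBar, coe_heckeAlphaBar, coe_heckeBetaBar])

include hqM in
/-- **Level `M q²`**: `j(τ)` and `j(qτ)` have the same poles. -/
theorem h51_pole_beta_iff2 (P : Place Qb ↥(modularFunctionFieldBar (M * q * q))) :
    P.ord (h59_jbar (M * q * q)) < 0
      ↔ P.ord (heckeBetaBar Qb (M * q) q (h59_jbar (M * q))) < 0 := by
  constructor
  · intro hP
    have hα : (heckeAlphaBar Qb (M * q) q).toRingHom.IsIntegral := h88_alphaIntegral (M * q) q
    have he := h51_ramificationIndexAlong_pos (heckeAlphaBar Qb (M * q) q) hα P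
    have heZ : (0 : ℤ) < (Place.ramificationIndexAlong (heckeAlphaBar Qb (M * q) q) P : ℤ) := by
      exact_mod_cast he
    have h1 := Place.ord_restrictAlong (heckeAlphaBar Qb (M * q) q) hα P (h59_jbar (M * q))
    rw [h51_alpha_jbar] at h1
    have h2 : (P.restrictAlong (heckeAlphaBar Qb (M * q) q) hα).ord (h59_jbar (M * q)) < 0 := by
      by_contra hcon
      have h0 : 0 ≤ P.ord (h59_jbar (M * q * q)) := by
        rw [h1]
        exact mul_nonneg heZ.le (not_lt.mp hcon)
      exact absurd h0 (not_le.mpr hP)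
    have h3 := (h51_pole_beta_iff M q hqM _).1 h2
    have h4 := Place.ord_restrictAlong (heckeAlphaBar Qb (M * q) q) hα P
      (heckeBetaBar Qb M q (h59_jbar M))
    rw [← h51_alpha_jbar M q, h51_beta_alpha, h4]
    exact mul_neg_of_pos_of_neg heZ h3
  · intro hP
    by_contra hcon
    exact absurd (h51_beta_jbar_regular (M * q) q P (not_lt.mp hcon)) (not_le.mpr hP)

include hqM in
/-- **Chart 1 is saturated along `β`**, levels `(M, M q)`. -/
theorem h51_chart_beta_iff (hβ : (heckeBetaBar Qb M q).toRingHom.IsIntegral)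
    (P : Place Qb ↥(modularFunctionFieldBar (M * q))) :
    0 ≤ P.ord (h59_jbar (M * q))
      ↔ 0 ≤ (P.restrictAlong (heckeBetaBar Qb M q) hβ).ord (h59_jbar M) := by
  refine ⟨h51_restrict_beta_chart M q hβ P, fun h => ?_⟩
  have h1 := Place.ord_restrictAlong (heckeBetaBar Qb M q) hβ P (h59_jbar M)
  have h2 : 0 ≤ P.ord (heckeBetaBar Qb M q (h59_jbar M)) := by
    rw [h1]
    exact mul_nonneg (Int.natCast_nonneg _) h
  by_contra hcon
  exact absurd h2 (not_le.mpr ((h51_pole_beta_iff M q hqM P).1 (not_le.mp hcon)))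

include hqM in
/-- **Chart 1 is saturated along `β`**, levels `(M q, M q²)`. -/
theorem h51_chart_beta_iff2 (hβ : (heckeBetaBar Qb (M * q) q).toRingHom.IsIntegral)
    (P : Place Qb ↥(modularFunctionFieldBar (M * q * q))) :
    0 ≤ P.ord (h59_jbar (M * q * q))
      ↔ 0 ≤ (P.restrictAlong (heckeBetaBar Qb (M * q) q) hβ).ord (h59_jbar (M * q)) := by
  refine ⟨h51_restrict_beta_chart (M * q) q hβ P, fun h => ?_⟩
  have h1 := Place.ord_restrictAlong (heckeBetaBar Qb (M * q) q) hβ P (h59_jbar (M * q))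
  have h2 : 0 ≤ P.ord (heckeBetaBar Qb (M * q) q (h59_jbar (M * q))) := by
    rw [h1]
    exact mul_nonneg (Int.natCast_nonneg _) h
  by_contra hcon
  exact absurd h2 (not_le.mpr ((h51_pole_beta_iff2 M q hqM P).1 (not_le.mp hcon)))

end LevelMq

end Fermat.Agent.S36
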