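import Mathlib
import Fermat.Agent.S36.h51_PtsCases
import Fermat.Agent.S36.h65_HorTable
import Fermat.Agent.S36.h69_TabB

/-!
# S36 / I-PTS (TRI-MOD) (helper51): the local equations of `C20` and `C02` at the triple points

`q` prime, `q ∤ M`, `I` the inertia group.  `V₁` is the chart-1 family of level `M q`
(`h80_fam1` with the verticals `h98_w1`: `inl 0 = Z_F`, `inl 1 = Z_V`) and `V₂` the chart-1
family of level `M q²` (`h80_fam1` with the verticals `h98_w2`: `inl 0 = C20`, `inl 1 = C11`,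
`inl 2 = C02`); `a = α^*`, `b = β^*` on the `I`-fixed functions.

* `h51_hvt_a`, `h51_hvt_b` : the vertical tables in the shape `hvt` of `h65_hc_mem_a/_b`;
* `h51_a_mem`, `h51_b_mem` : `a (V₁.B) ⊆ V₂.B`, `b (V₁.B) ⊆ V₂.B`;
* `h51_tri_C02`, `h51_tri_C20` : at a point `m` of `V₂`, the image under `a` (resp. `b`) of the
  local equation of `Z_V` (resp. `Z_F`) at the node `m₁ ⊇ a⁻¹ m` (resp. `b⁻¹ m`) of level `M q` is
  a local equation of `C02` (resp. `C20`) at `m`;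
* `h51_tri_mod` : the binder `htri` of `h51_pts_unitStar` / `h51_pts_eq`, from the second and
  third conclusions of `h14_class'` and (UNIT\*) at the two nodes below.
-/

set_option autoImplicit false
set_option linter.unusedSectionVars false

noncomputable section

open ModularCurve AlgebraicCurve

namespace Fermat.Agent.S36

open Fermat.Agent.S34 Fermat.Agent.S37 Fermat.Agent.S24 Fermat.Agent.S18

local notation "Qb" => AlgebraicClosure ℚ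

/-- Every index of a chart family is vertical or horizontal. -/
theorem h51_vert_or_hor {κ P F : Type*} {h : P → F → ℤ} (k : κ ⊕ h80_HorIdx h) :
    (∃ c : κ, k = Sum.inl c) ∨ h80_IsHor k := by
  rcases k with c | j
  · exact Or.inl ⟨c, rfl⟩
  · exact Or.inr ⟨j, rfl⟩

section TriMod

variable (M q : ℕ) [NeZero M] [NeZero q] [Fact q.Prime] (hqM : ¬ q ∣ M)
  (A : ValuationSubring Qb) (hA : A.LiesOverPrime q) (ζ : Qb) (hζ : IsPrimitiveRoot ζ q)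
  (hex : h98_Ex M q hqM A ζ hζ)

local notation "V₁" => h80_fam1 (M * q) (A.inertiaSubgroupIn ℚ) (h98_w1 M q hqM A ζ hζ hex)
  (h98_hw1mul M q hqM A hA ζ hζ hex) (h98_hw1add M q hqM A hA ζ hζ hex)

local notation "V₂" => h80_fam1 (M * q * q) (A.inertiaSubgroupIn ℚ) (h98_w2 M q hqM A ζ hζ hex)
  (h98_hw2mul M q hqM A hA ζ hζ hex) (h98_hw2add M q hqM A hA ζ hζ hex)

local notation "aa" => h70_aF0 (M * q) q (A.inertiaSubgroupIn ℚ)
local notation "bb" => h70_bF0 (M * q) q (A.inertiaSubgroupIn ℚ)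

include hA

/-- The vertical table of `a = α^*` in the shape `hvt` of `h65_hc_mem_a`, `h65_hc_a`. -/
theorem h51_hvt_a : ∀ c : Fin 3, ∃ (c₁ : Fin 2) (e : ℤ), 0 ≤ e ∧
    ∀ g : h69_F0 (M * q) (A.inertiaSubgroupIn ℚ), g ≠ 0 →
      h98_w2 M q hqM A ζ hζ hex c (aa g) = e * h98_w1 M q hqM A ζ hζ hex c₁ g := by
  intro c
  obtain ⟨e, he, h⟩ := h69_hta M q hqM A hA ζ hζ hex c
  exact ⟨_, e, he.le, h⟩

/-- The vertical table of `b = β^*` in the shape `hvt` of `h65_hc_mem_b`, `h65_hc_b`. -/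
theorem h51_hvt_b : ∀ c : Fin 3, ∃ (c₁ : Fin 2) (e : ℤ), 0 ≤ e ∧
    ∀ g : h69_F0 (M * q) (A.inertiaSubgroupIn ℚ), g ≠ 0 →
      h98_w2 M q hqM A ζ hζ hex c (bb g) = e * h98_w1 M q hqM A ζ hζ hex c₁ g := by
  intro c
  obtain ⟨e, he, h⟩ := h69_htb M q hqM A hA ζ hζ hex c
  exact ⟨_, e, he.le, h⟩

/-- `a (V₁.B) ⊆ V₂.B`. -/
theorem h51_a_mem (g : h69_F0 (M * q) (A.inertiaSubgroupIn ℚ)) (hg : g ∈ (V₁).B) :
    aa g ∈ (V₂).B :=
  h65_hc_mem_a (M * q) q (A.inertiaSubgroupIn ℚ) (h98_w1 M q hqM A ζ hζ hex)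
    (h98_hw1mul M q hqM A hA ζ hζ hex) (h98_hw1add M q hqM A hA ζ hζ hex)
    (h98_w2 M q hqM A ζ hζ hex) (h98_hw2mul M q hqM A hA ζ hζ hex)
    (h98_hw2add M q hqM A hA ζ hζ hex) (h51_hvt_a M q hqM A hA ζ hζ hex) g hg

/-- `b (V₁.B) ⊆ V₂.B`. -/
theorem h51_b_mem (g : h69_F0 (M * q) (A.inertiaSubgroupIn ℚ)) (hg : g ∈ (V₁).B) :
    bb g ∈ (V₂).B :=
  h65_hc_mem_b M q hqM (A.inertiaSubgroupIn ℚ) (h98_w1 M q hqM A ζ hζ hex)
    (h98_hw1mul M q hqM A hA ζ hζ hex) (h98_hw1add M q hqM A hA ζ hζ hex)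
    (h98_w2 M q hqM A ζ hζ hex) (h98_hw2mul M q hqM A hA ζ hζ hex)
    (h98_hw2add M q hqM A hA ζ hζ hex) (h51_hvt_b M q hqM A hA ζ hζ hex) g hg

/-- **The local equation of `C02` at `m`**, from the node `m₁ ⊇ a⁻¹ m` of level `M q`:
`a` maps `C02` onto `Z_V` with multiplicity one and `C20`, `C11` onto `Z_F`. -/
theorem h51_tri_C02 (m : Ideal (V₂).B) (m₁ : Ideal (V₁).B)
    (hm₁ : ∀ f : (V₁).B, (⟨aa (f : h69_F0 (M * q) (A.inertiaSubgroupIn ℚ)),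
      h51_a_mem M q hqM A hA ζ hζ hex f f.2⟩ : (V₂).B) ∈ m → f ∈ m₁)
    (hF : (V₁).Through m₁ (Sum.inl 0)) (hV : (V₁).Through m₁ (Sum.inl 1))
    (hU : h62_UnitStar (V₁) m₁) :
    ∃ π : h69_F0 (M * q * q) (A.inertiaSubgroupIn ℚ), π ≠ 0 ∧ (V₂).v (Sum.inl 2) π = 1 ∧
      ∀ k, (V₂).Through m k → k ≠ Sum.inl 2 → (V₂).v k π = 0 := by
  have hq : q.Prime := Fact.out
  refine h51_eq_of_node (V₁) (V₂) m (Sum.inl : Fin 3 → _) h80_IsHor
    (fun k _ => h51_vert_or_hor k) 2 (Sum.inl 1) (Sum.inl 0) (by simp) h80_IsHor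
    (fun k₁ hk₁ hk => h80_not_isHor_inl _ (hk ▸ hk₁)) (aa : _ →+* _) m₁ hV hF hU
    (fun g hg => h98_hV0a2 M q hqM A hA ζ hζ hex g hg) (fun c' hc' => ?_) (fun k hk hkm => ?_)
  · -- the other verticals lie over `Z_F`
    have h3 : ∀ i : Fin 3, i = 0 ∨ i = 1 ∨ i = 2 := by decide
    rcases h3 c' with rfl | rfl | rfl
    · exact ⟨1, fun g hg => by
        rw [one_mul]; exact h98_hV0a0 M q hqM A hA ζ hζ hex g hg⟩
    · exact ⟨(q : ℤ) - 1, fun g hg => h98_hV0a1 M q hqM A hA ζ hζ hex g hg⟩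
    · exact absurd rfl hc'
  · obtain ⟨k₁, e, hk₁, hthr, -, he⟩ := h65_hc_a (M * q) q (A.inertiaSubgroupIn ℚ)
      (h98_w1 M q hqM A ζ hζ hex) (h98_hw1mul M q hqM A hA ζ hζ hex)
      (h98_hw1add M q hqM A hA ζ hζ hex) (h98_w2 M q hqM A ζ hζ hex)
      (h98_hw2mul M q hqM A hA ζ hζ hex) (h98_hw2add M q hqM A hA ζ hζ hex)
      (h51_hvt_a M q hqM A hA ζ hζ hex) m m₁ hm₁ k hk hkm
    exact ⟨k₁, e, hk₁, hthr, he⟩

include hqM in
/-- **The local equation of `C20` at `m`**, from the node `m₁ ⊇ b⁻¹ m` of level `M q`: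
`b` maps `C20` onto `Z_F` with multiplicity one and `C11`, `C02` onto `Z_V`. -/
theorem h51_tri_C20 (m : Ideal (V₂).B) (m₁ : Ideal (V₁).B)
    (hm₁ : ∀ f : (V₁).B, (⟨bb (f : h69_F0 (M * q) (A.inertiaSubgroupIn ℚ)),
      h51_b_mem M q hqM A hA ζ hζ hex f f.2⟩ : (V₂).B) ∈ m → f ∈ m₁)
    (hF : (V₁).Through m₁ (Sum.inl 0)) (hV : (V₁).Through m₁ (Sum.inl 1))
    (hU : h62_UnitStar (V₁) m₁) :
    ∃ π : h69_F0 (M * q * q) (A.inertiaSubgroupIn ℚ), π ≠ 0 ∧ (V₂).v (Sum.inl 0) π = 1 ∧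
      ∀ k, (V₂).Through m k → k ≠ Sum.inl 0 → (V₂).v k π = 0 := by
  have hq : q.Prime := Fact.out
  refine h51_eq_of_node (V₁) (V₂) m (Sum.inl : Fin 3 → _) h80_IsHor
    (fun k _ => h51_vert_or_hor k) 0 (Sum.inl 0) (Sum.inl 1) (by simp) h80_IsHor
    (fun k₁ hk₁ hk => h80_not_isHor_inl _ (hk ▸ hk₁)) (bb : _ →+* _) m₁ hF hV hU
    (fun g hg => h98_hV0b0 M q hqM A hA ζ hζ hex g hg) (fun c' hc' => ?_) (fun k hk hkm => ?_)
  · -- the other verticals lie over `Z_V`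
    have h3 : ∀ i : Fin 3, i = 0 ∨ i = 1 ∨ i = 2 := by decide
    rcases h3 c' with rfl | rfl | rfl
    · exact absurd rfl hc'
    · exact ⟨(q : ℤ) - 1, fun g hg => h69_hV0b1 M q hqM A hA ζ hζ hex g hg⟩
    · exact ⟨1, fun g hg => by
        rw [one_mul]; exact h69_hV0b2 M q hqM A hA ζ hζ hex g hg⟩
  · obtain ⟨k₁, e, hk₁, hthr, -, he⟩ := h65_hc_b M q hqM (A.inertiaSubgroupIn ℚ)
      (h98_w1 M q hqM A ζ hζ hex) (h98_hw1mul M q hqM A hA ζ hζ hex)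
      (h98_hw1add M q hqM A hA ζ hζ hex) (h98_w2 M q hqM A ζ hζ hex)
      (h98_hw2mul M q hqM A hA ζ hζ hex) (h98_hw2add M q hqM A hA ζ hζ hex)
      (h51_hvt_b M q hqM A hA ζ hζ hex) m m₁ hm₁ k hk hkm
    exact ⟨k₁, e, hk₁, hthr, he⟩

/-- **(TRI-MOD)**: the binder `htri` of `h51_pts_unitStar` at the modular families.  `ha`, `hb` are
any proofs of `a (V₁.B) ⊆ V₂.B`, `b (V₁.B) ⊆ V₂.B` (e.g. `h51_a_mem`, `h51_b_mem`); `hA2`, `hB2`
are the second and third conclusions of `h14_class'` at `m` (the contractions of `m` are nodes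
of level `M q`), `hUa`, `hUb` is (UNIT\*) at these two nodes. -/
theorem h51_tri_mod
    (ha : ∀ g ∈ (V₁).B, aa g ∈ (V₂).B) (hb : ∀ g ∈ (V₁).B, bb g ∈ (V₂).B)
    (m : Ideal (V₂).B)
    (hA2 : (V₁).Through (m.comap ((aa : _ →+* _).restrict (V₁).B (V₂).B ha)) (Sum.inl 0) ∧
      (V₁).Through (m.comap ((aa : _ →+* _).restrict (V₁).B (V₂).B ha)) (Sum.inl 1))
    (hB2 : (V₁).Through (m.comap ((bb : _ →+* _).restrict (V₁).B (V₂).B hb)) (Sum.inl 0) ∧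
      (V₁).Through (m.comap ((bb : _ →+* _).restrict (V₁).B (V₂).B hb)) (Sum.inl 1))
    (hUa : h62_UnitStar (V₁) (m.comap ((aa : _ →+* _).restrict (V₁).B (V₂).B ha)))
    (hUb : h62_UnitStar (V₁) (m.comap ((bb : _ →+* _).restrict (V₁).B (V₂).B hb))) :
    (∃ π : h69_F0 (M * q * q) (A.inertiaSubgroupIn ℚ), π ≠ 0 ∧ (V₂).v (Sum.inl 0) π = 1 ∧
      ∀ k, (V₂).Through m k → k ≠ Sum.inl 0 → (V₂).v k π = 0) ∧
    (∃ π : h69_F0 (M * q * q) (A.inertiaSubgroupIn ℚ), π ≠ 0 ∧ (V₂).v (Sum.inl 2) π = 1 ∧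
      ∀ k, (V₂).Through m k → k ≠ Sum.inl 2 → (V₂).v k π = 0) :=
  ⟨h51_tri_C20 M q hqM A hA ζ hζ hex m _ (fun f hf => Ideal.mem_comap.2 hf) hB2.1 hB2.2 hUb,
    h51_tri_C02 M q hqM A hA ζ hζ hex m _ (fun f hf => Ideal.mem_comap.2 hf) hA2.1 hA2.2 hUa⟩

end TriMod

end Fermat.Agent.S36
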