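/-
S36 / row I-CUSP, inputs of (X3): lifts along `e0 = α ∘ α` and `e2 = β ∘ β` (helper52).

Level `M q²`, `q ∤ M` prime, `A` a valuation ring of `ℚ̄` over `q`, `I` its inertia group,
`F0 := h69_F0 (M q²) I`, `w := h98_w2 M q hqM A ζ hζ hex` (`0 = C20`, `1 = C11`, `2 = C02`),
`V := h80_fam2 (M q²) I w ..` the chart of `1/j`.

`e0 f (τ) = f (τ)` and `e2 f (τ) = f (q² τ)` for `f` an `I`-fixed function of level `M`.
A function `f` of level `M` "in the chart-2 ring" is: `f ∈ F0(M)`, its expansion lies in the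
Gauss ring `h60_Os A`, and `h39_Reg Qb (h59_jbar M)⁻¹ f` (regular where `1/j` is).

* `h52_cl_vert_e0`, `h52_cl_vert_e2` : the vertical values of `e0 f`, `e2 f` are `≥ 0`;
* `h52_cl_e0_mem` : `e0 f ∈ V.B`;
* `h52_cl_int` : `j(τ)` is integral over `A₀[j(q² τ)]`;
* `h52_cl_no_zero` : no zero of `j(q² τ)` passes through a cusp point;
* `h52_cl_e2_inLoc` : `e2 f` lies in the local ring of every cusp point through which only `C02`
  passes.
-/
import Mathlib
import Fermat.Agent.S36.h52_CuspVert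
import Fermat.Agent.S36.h80_FamInst
import Fermat.Agent.S36.h94_NZMod
import Fermat.Agent.S36.h16_CuspRatio
import Fermat.Agent.S36.h65_NoethQ2
import Fermat.Agent.S36.h98_V3

set_option autoImplicit false
set_option synthInstance.maxHeartbeats 400000
set_option linter.unusedSectionVars false

noncomputable section

open ModularCurve AlgebraicCurve Polynomial

namespace Fermat.Agent.S36

open Fermat.Agent.S34 Fermat.Agent.S37 Fermat.Agent.S24 Fermat.Agent.S18 Fermat.Agent.S40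

local notation "Qb" => AlgebraicClosure ℚ

theorem h52_cl_jbar_ne (N : ℕ) [NeZero N] : h59_jbar N ≠ 0 := fun h =>
  h59_jbar_transcendental N (by rw [h]; exact isAlgebraic_zero)

section Vert

variable (M q : ℕ) [NeZero M] [NeZero q] [Fact q.Prime] (hqM : ¬ q ∣ M)
  (A : ValuationSubring Qb) (hA : A.LiesOverPrime q) (ζ : Qb) (hζ : IsPrimitiveRoot ζ q)
  (hex : h98_Ex M q hqM A ζ hζ)

include hA

/-- Level `M q`: the two vertical values of `α f` are `≥ 0` for `f` of level `M` with Gauss-integral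
expansion. -/
theorem h52_cl_w1_alpha (f : h69_F0 M (A.inertiaSubgroupIn ℚ)) (hf : f ≠ 0)
    (hO : ((f : modularFunctionFieldBar M) : LaurentSeries Qb) ∈ h60_Os A) (c : Fin 2) :
    0 ≤ h98_w1 M q hqM A ζ hζ hex c (h70_aF0 M q (A.inertiaSubgroupIn ℚ) f) := by
  have hg : h70_aF0 M q (A.inertiaSubgroupIn ℚ) f ≠ 0 := (_root_.map_ne_zero _).mpr hf
  obtain ⟨h1, h2, h3⟩ := h98_q_unif q A hA
  fin_cases c
  · show 0 ≤ h98_wF M q hqM A ζ hζ hex _
    rw [h98_GV_nonneg_iff h1 h2 h3 (h98_wF_spec M q hqM A ζ hζ hex _ hg), h70_coe_aF0,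
      coe_heckeAlphaBar]
    exact hO
  · show 0 ≤ h98_wV M q hqM A ζ hζ hex _
    rw [h98_GV_nonneg_iff h1 h2 h3 (h98_wV_spec M q hqM A ζ hζ hex _ hg), h70_coe_aF0,
      h60_w_alpha, coe_heckeBetaBar]
    exact h60_qExpand_mem A q hO

/-- Level `M q`: the two vertical values of `β f` are `≥ 0`. -/
theorem h52_cl_w1_beta (f : h69_F0 M (A.inertiaSubgroupIn ℚ)) (hf : f ≠ 0)
    (hO : ((f : modularFunctionFieldBar M) : LaurentSeries Qb) ∈ h60_Os A) (c : Fin 2) :
    0 ≤ h98_w1 M q hqM A ζ hζ hex c (h70_bF0 M q (A.inertiaSubgroupIn ℚ) f) := by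
  have hg : h70_bF0 M q (A.inertiaSubgroupIn ℚ) f ≠ 0 := (_root_.map_ne_zero _).mpr hf
  obtain ⟨h1, h2, h3⟩ := h98_q_unif q A hA
  fin_cases c
  · show 0 ≤ h98_wF M q hqM A ζ hζ hex _
    rw [h98_GV_nonneg_iff h1 h2 h3 (h98_wF_spec M q hqM A ζ hζ hex _ hg), h70_coe_bF0,
      coe_heckeBetaBar]
    exact h60_qExpand_mem A q hO
  · show 0 ≤ h98_wV M q hqM A ζ hζ hex _
    rw [h98_GV_nonneg_iff h1 h2 h3 (h98_wV_spec M q hqM A ζ hζ hex _ hg), h70_coe_bF0,
      h60_w_beta, coe_heckeAlphaBar]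
    exact hO

/-- **Vertical values of `e0 f = f(τ)`** at level `M q²`. -/
theorem h52_cl_vert_e0 (f : h69_F0 M (A.inertiaSubgroupIn ℚ)) (hf : f ≠ 0)
    (hO : ((f : modularFunctionFieldBar M) : LaurentSeries Qb) ∈ h60_Os A) (c : Fin 3) :
    0 ≤ h98_w2 M q hqM A ζ hζ hex c
      (h70_aF0 (M * q) q (A.inertiaSubgroupIn ℚ) (h70_aF0 M q (A.inertiaSubgroupIn ℚ) f)) := by
  have hg : h70_aF0 M q (A.inertiaSubgroupIn ℚ) f ≠ 0 := (_root_.map_ne_zero _).mpr hf
  have h0 := h52_cl_w1_alpha M q hqM A hA ζ hζ hex f hf hO 0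
  have h1 := h52_cl_w1_alpha M q hqM A hA ζ hζ hex f hf hO 1
  have hq : (0 : ℤ) ≤ (q : ℤ) - 1 := by
    have := (Fact.out : q.Prime).one_le
    omega
  fin_cases c
  · show 0 ≤ h98_w2 M q hqM A ζ hζ hex 0 _
    rw [h98_hV0a0 M q hqM A hA ζ hζ hex _ hg]
    exact h0
  · show 0 ≤ h98_w2 M q hqM A ζ hζ hex 1 _
    rw [h98_hV0a1 M q hqM A hA ζ hζ hex _ hg]
    exact mul_nonneg hq h0
  · show 0 ≤ h98_w2 M q hqM A ζ hζ hex 2 _
    rw [h98_hV0a2 M q hqM A hA ζ hζ hex _ hg]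
    exact h1

/-- **Vertical values of `e2 f = f(q² τ)`** at level `M q²`. -/
theorem h52_cl_vert_e2 (f : h69_F0 M (A.inertiaSubgroupIn ℚ)) (hf : f ≠ 0)
    (hO : ((f : modularFunctionFieldBar M) : LaurentSeries Qb) ∈ h60_Os A) (c : Fin 3) :
    0 ≤ h98_w2 M q hqM A ζ hζ hex c
      (h70_bF0 (M * q) q (A.inertiaSubgroupIn ℚ) (h70_bF0 M q (A.inertiaSubgroupIn ℚ) f)) := by
  have hg : h70_bF0 M q (A.inertiaSubgroupIn ℚ) f ≠ 0 := (_root_.map_ne_zero _).mpr hf
  have h0 := h52_cl_w1_beta M q hqM A hA ζ hζ hex f hf hO 0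
  have h1 := h52_cl_w1_beta M q hqM A hA ζ hζ hex f hf hO 1
  have hq : (0 : ℤ) ≤ (q : ℤ) - 1 := by
    have := (Fact.out : q.Prime).one_le
    omega
  fin_cases c
  · show 0 ≤ h98_w2 M q hqM A ζ hζ hex 0 _
    rw [h98_hV0b0 M q hqM A hA ζ hζ hex _ hg]
    exact h0
  · show 0 ≤ h98_w2 M q hqM A ζ hζ hex 1 _
    rw [h94_hV0b1 M q hqM A hA ζ hζ hex _ hg]
    exact mul_nonneg hq h1
  · show 0 ≤ h98_w2 M q hqM A ζ hζ hex 2 _
    rw [h94_hV0b2 M q hqM A hA ζ hζ hex _ hg]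
    exact h1

end Vert

/-! ## Horizontal values along `α ∘ α` -/

section Hor

variable (M q : ℕ) [NeZero M] [NeZero q] [Fact q.Prime]

/-- `f(τ)` is regular at every place of level `M q²` where `1/j` is regular, for `f` of level `M`
regular where `1/j` is. -/
theorem h52_cl_hor_e0 (f : ↥(modularFunctionFieldBar M)) (hreg : h39_Reg Qb (h59_jbar M)⁻¹ f)
    (P : Place Qb ↥(modularFunctionFieldBar (M * q * q)))
    (hP : 0 ≤ P.ord (h59_jbar (M * q * q))⁻¹) :
    0 ≤ P.ord (heckeAlphaBar Qb (M * q) q (heckeAlphaBar Qb M q f)) := by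
  by_cases hf : f = 0
  · rw [hf, map_zero, map_zero, Place.ord_zero]
  have hi1 : (heckeAlphaBar Qb (M * q) q).toRingHom.IsIntegral :=
    h88_isIntegral_of_finiteAlong _ (h88_finiteAlong_alpha (M * q) q)
  have hi0 : (heckeAlphaBar Qb M q).toRingHom.IsIntegral :=
    h88_isIntegral_of_finiteAlong _ (h88_finiteAlong_alpha M q)
  have e1 : (0 : ℤ) < (Place.ramificationIndexAlong (heckeAlphaBar Qb (M * q) q) P : ℤ) := by
    exact_mod_cast h16_ramificationIndexAlong_pos _ hi1 P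
  have e0 : (0 : ℤ) < (Place.ramificationIndexAlong (heckeAlphaBar Qb M q)
      (P.restrictAlong (heckeAlphaBar Qb (M * q) q) hi1) : ℤ) := by
    exact_mod_cast h16_ramificationIndexAlong_pos _ hi0 _
  have hr : ∀ g : ↥(modularFunctionFieldBar M),
      P.ord (heckeAlphaBar Qb (M * q) q (heckeAlphaBar Qb M q g)) =
        (Place.ramificationIndexAlong (heckeAlphaBar Qb (M * q) q) P : ℤ) *
          ((Place.ramificationIndexAlong (heckeAlphaBar Qb M q)
            (P.restrictAlong (heckeAlphaBar Qb (M * q) q) hi1) : ℤ) *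
            ((P.restrictAlong (heckeAlphaBar Qb (M * q) q) hi1).restrictAlong
              (heckeAlphaBar Qb M q) hi0).ord g) := fun g => by
    rw [Place.ord_restrictAlong _ hi1, Place.ord_restrictAlong _ hi0]
  have hj : heckeAlphaBar Qb (M * q) q (heckeAlphaBar Qb M q (h59_jbar M)⁻¹) =
      (h59_jbar (M * q * q))⁻¹ := by
    rw [map_inv₀, map_inv₀, h88_alpha_jbar, h88_alpha_jbar]
  have h1 : 0 ≤ ((P.restrictAlong (heckeAlphaBar Qb (M * q) q) hi1).restrictAlong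
      (heckeAlphaBar Qb M q) hi0).ord (h59_jbar M)⁻¹ := by
    have h2 := hr (h59_jbar M)⁻¹
    rw [hj] at h2
    rw [h2] at hP
    by_contra hneg
    push Not at hneg
    have h3 := mul_pos e1 e0
    nlinarith
  have hjne : (h59_jbar M)⁻¹ ≠ 0 := inv_ne_zero (h52_cl_jbar_ne M)
  have h2 : f ∈ ((P.restrictAlong (heckeAlphaBar Qb (M * q) q) hi1).restrictAlong
      (heckeAlphaBar Qb M q) hi0).toValuationSubring :=
    hreg _ ((h35_mem_iff_ord_nonneg _ hjne).mpr h1)
  have h3 := (h35_mem_iff_ord_nonneg _ hf).mp h2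
  rw [hr]
  exact mul_nonneg e1.le (mul_nonneg e0.le h3)

end Hor

/-! ## The chart-2 ring: `e0 f ∈ V.B` -/

section Mem

variable (M q : ℕ) [NeZero M] [NeZero q] [Fact q.Prime] (hqM : ¬ q ∣ M)
  (A : ValuationSubring Qb) (hA : A.LiesOverPrime q) (ζ : Qb) (hζ : IsPrimitiveRoot ζ q)
  (hex : h98_Ex M q hqM A ζ hζ)

local notation "V2" => h80_fam2 (M * q * q) (A.inertiaSubgroupIn ℚ) (h98_w2 M q hqM A ζ hζ hex)
  (h98_hw2mul M q hqM A hA ζ hζ hex) (h98_hw2add M q hqM A hA ζ hζ hex)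

local notation "V1" => h80_fam1 (M * q * q) (A.inertiaSubgroupIn ℚ) (h98_w2 M q hqM A ζ hζ hex)
  (h98_hw2mul M q hqM A hA ζ hζ hex) (h98_hw2add M q hqM A hA ζ hζ hex)

/-- **`e0` maps the chart-2 ring of level `M` into the chart-2 ring of level `M q²`.** -/
theorem h52_cl_e0_mem (f : h69_F0 M (A.inertiaSubgroupIn ℚ))
    (hO : ((f : modularFunctionFieldBar M) : LaurentSeries Qb) ∈ h60_Os A)
    (hreg : h39_Reg Qb (h59_jbar M)⁻¹ (f : modularFunctionFieldBar M)) :
    h70_aF0 (M * q) q (A.inertiaSubgroupIn ℚ) (h70_aF0 M q (A.inertiaSubgroupIn ℚ) f) ∈ (V2).B := by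
  by_cases hf : f = 0
  · rw [hf, map_zero, map_zero]
    exact Subring.zero_mem _
  rw [h80_fam2, h80_mem_famOf_B]
  right
  exact ⟨fun c => h52_cl_vert_e0 M q hqM A hA ζ hζ hex f hf hO c,
    fun P hP => h52_cl_hor_e0 M q (f : modularFunctionFieldBar M) hreg P hP⟩

/-- `j(q² τ)` lies in the chart-1 ring. -/
theorem h52_cl_J2_mem_fam1 : h52_cvJ2 M q A ∈ (V1).B := by
  rw [h80_fam1, h80_mem_famOf_B]
  right
  exact ⟨fun c => (h52_cv_J2 M q hqM A hA ζ hζ hex c).ge,
    fun P hP => ((h16_q2_table M q P).1 hP).2⟩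

/-- `W` fixes the constants of `F0`. -/
theorem h52_cl_W_const (a : h69_K0 (A.inertiaSubgroupIn ℚ)) :
    h98_WF0 M q hqM A (algebraMap (h69_K0 (A.inertiaSubgroupIn ℚ))
      (h69_F0 (M * q * q) (A.inertiaSubgroupIn ℚ)) a) =
      algebraMap (h69_K0 (A.inertiaSubgroupIn ℚ)) (h69_F0 (M * q * q) (A.inertiaSubgroupIn ℚ)) a :=
  Subtype.ext (by rw [h98_coe_WF0, h69_inst_comm, h36_W_algebraMap])

include hqM hA hex in
/-- **`j(τ)` is integral over `A₀[j(q² τ)]`** (the Atkin-Lehner image of the integrality of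
`j(q² τ)` over `A₀[j(τ)]`). -/
theorem h52_cl_int :
    (h97_ev (h69_A0 A).toSubring (h52_cvJ2 M q A)).IsIntegralElem (h52_cvJ0 M q A) := by
  have h1 := (h65_noeth_q2 M q hqM A hA ζ hζ hex).2 (h52_cvJ2 M q A)
    (h52_cl_J2_mem_fam1 M q hqM A hA ζ hζ hex)
  have h2 := h65_ev_map (h69_A0 A).toSubring (h98_WF0 M q hqM A) (h52_cl_W_const M q hqM A)
    (h65_J0 (M * q * q) (A.inertiaSubgroupIn ℚ)) (h52_cvJ2 M q A) h1
  have e1 : h98_WF0 M q hqM A (h65_J0 (M * q * q) (A.inertiaSubgroupIn ℚ)) = h52_cvJ2 M q A :=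
    Subtype.ext (by
      rw [h98_coe_WF0, h52_cv_coe_J2]
      exact h52_cv_W_J0 M q hqM)
  have e2 : h98_WF0 M q hqM A (h52_cvJ2 M q A) = h52_cvJ0 M q A :=
    Subtype.ext (by
      rw [h98_coe_WF0, h52_cv_coe_J2, h52_cv_coe_J0]
      exact h52_cv_W_J2 M q hqM)
  rw [e1, e2] at h2
  exact h2

/-- The constants of `A₀` lie in the chart-2 ring. -/
theorem h52_cl_const_mem (k : ↥(h69_A0 A).toSubring) :
    algebraMap (h69_K0 (A.inertiaSubgroupIn ℚ)) (h69_F0 (M * q * q) (A.inertiaSubgroupIn ℚ))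
      (k : h69_K0 (A.inertiaSubgroupIn ℚ)) ∈ (V2).B := by
  rw [h80_fam2, h80_mem_famOf_B]
  by_cases hk : (k : h69_K0 (A.inertiaSubgroupIn ℚ)) = 0
  · left
    rw [hk, map_zero]
  · right
    refine ⟨fun c => h65_hwA_of_hR (M * q * q) A _ _ (h91_hR_w98 M q hqM A hA ζ hζ hex) c _ k.2 hk,
      fun P' _ => ?_⟩
    rw [h69_inst_comm, h35_ord_algebraMap]

/-- **No zero of `j(q² τ)` passes through a point where `1/j(τ)` vanishes**: a horizontal place
`P` of the chart of `1/j` through a prime `m ∋ 1/j` has `ord_P j(q² τ) ≤ 0`. -/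
theorem h52_cl_no_zero (m : Ideal (V2).B) [hm : m.IsPrime] (a : (V2).B)
    (haJ : (a : h69_F0 (M * q * q) (A.inertiaSubgroupIn ℚ)) * h52_cvJ0 M q A = 1) (ham : a ∈ m)
    (P : Place Qb ↥(modularFunctionFieldBar (M * q * q)))
    (hP : 0 ≤ P.ord (h59_jbar (M * q * q))⁻¹)
    (hthr : (V2).Through m (Sum.inr (h80_horMk
      (h80_horOrd (M * q * q) (A.inertiaSubgroupIn ℚ) (h59_jbar (M * q * q))⁻¹) ⟨P, hP⟩))) :
    P.ord (heckeBetaBar Qb (M * q) q (heckeBetaBar Qb M q (h59_jbar M))) ≤ 0 := by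
  by_contra hpos
  push Not at hpos
  obtain ⟨p, hp, hp0⟩ := h52_cl_int M q hqM A hA ζ hζ hex
  -- the constant terms, as elements of the chart ring
  let cB : ↥(h69_A0 A).toSubring → (V2).B := fun k =>
    ⟨_, h52_cl_const_mem M q hqM A hA ζ hζ hex k⟩
  let hB : (V2).B := ∑ i ∈ Finset.range (p.natDegree + 1),
    cB ((p.coeff i).coeff 0) * a ^ (p.natDegree - i)
  -- `hB ≡ 1` modulo `a`
  have h1 : hB - 1 ∈ m := by
    have e : hB - 1 = ∑ i ∈ Finset.range p.natDegree,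
        cB ((p.coeff i).coeff 0) * a ^ (p.natDegree - i) := by
      show (∑ i ∈ Finset.range (p.natDegree + 1),
        cB ((p.coeff i).coeff 0) * a ^ (p.natDegree - i)) - 1 = _
      rw [Finset.sum_range_succ, Nat.sub_self, pow_zero, mul_one]
      have h11 : cB ((p.coeff p.natDegree).coeff 0) = 1 := by
        apply Subtype.ext
        show algebraMap (h69_K0 (A.inertiaSubgroupIn ℚ))
          (h69_F0 (M * q * q) (A.inertiaSubgroupIn ℚ))
          (((p.coeff p.natDegree).coeff 0 : ↥(h69_A0 A).toSubring) :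
            h69_K0 (A.inertiaSubgroupIn ℚ)) = 1
        rw [hp.coeff_natDegree, Polynomial.coeff_one_zero]
        simp
      rw [h11, add_sub_cancel_right]
    rw [e]
    refine Ideal.sum_mem _ (fun i hi => ?_)
    have hi' : i < p.natDegree := Finset.mem_range.mp hi
    exact m.mul_mem_left _ (Ideal.pow_mem_of_mem m ham _ (by omega))
  have h2 : hB ∉ m := fun h => hm.ne_top ((Ideal.eq_top_iff_one m).mpr (by
    have h3 := m.sub_mem h h1
    rwa [sub_sub_cancel] at h3))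
  -- the relation of integrality, multiplied by `a ^ N`
  have hsum : ∑ i ∈ Finset.range (p.natDegree + 1),
      h97_ev (h69_A0 A).toSubring (h52_cvJ2 M q A) (p.coeff i) *
        (a : h69_F0 (M * q * q) (A.inertiaSubgroupIn ℚ)) ^ (p.natDegree - i) = 0 := by
    have h3 : (a : h69_F0 (M * q * q) (A.inertiaSubgroupIn ℚ)) ^ p.natDegree *
        Polynomial.eval₂ (h97_ev (h69_A0 A).toSubring (h52_cvJ2 M q A)) (h52_cvJ0 M q A) p = 0 := by
      rw [hp0, mul_zero]
    rw [Polynomial.eval₂_eq_sum_range, Finset.mul_sum] at h3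
    rw [← h3]
    refine Finset.sum_congr rfl (fun i hi => ?_)
    have hi' : i ≤ p.natDegree := Nat.lt_succ_iff.mp (Finset.mem_range.mp hi)
    have h4 : (a : h69_F0 (M * q * q) (A.inertiaSubgroupIn ℚ)) ^ p.natDegree =
        (a : h69_F0 (M * q * q) (A.inertiaSubgroupIn ℚ)) ^ (p.natDegree - i) *
          (a : h69_F0 (M * q * q) (A.inertiaSubgroupIn ℚ)) ^ i := by
      rw [← pow_add, Nat.sub_add_cancel hi']
    have h5 : (a : h69_F0 (M * q * q) (A.inertiaSubgroupIn ℚ)) ^ i * h52_cvJ0 M q A ^ i = 1 := by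
      rw [← mul_pow, haJ, one_pow]
    rw [h4]
    calc h97_ev (h69_A0 A).toSubring (h52_cvJ2 M q A) (p.coeff i) *
          (a : h69_F0 (M * q * q) (A.inertiaSubgroupIn ℚ)) ^ (p.natDegree - i)
        = h97_ev (h69_A0 A).toSubring (h52_cvJ2 M q A) (p.coeff i) *
          (a : h69_F0 (M * q * q) (A.inertiaSubgroupIn ℚ)) ^ (p.natDegree - i) *
            ((a : h69_F0 (M * q * q) (A.inertiaSubgroupIn ℚ)) ^ i * h52_cvJ0 M q A ^ i) := by
          rw [h5, mul_one]
      _ = _ := by ring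
  have hdec : ∀ c : Polynomial ↥(h69_A0 A).toSubring,
      h97_ev (h69_A0 A).toSubring (h52_cvJ2 M q A) c =
        h97_ev (h69_A0 A).toSubring (h52_cvJ2 M q A) c.divX * h52_cvJ2 M q A +
          algebraMap (h69_K0 (A.inertiaSubgroupIn ℚ)) (h69_F0 (M * q * q) (A.inertiaSubgroupIn ℚ))
            ((c.coeff 0 : ↥(h69_A0 A).toSubring) : h69_K0 (A.inertiaSubgroupIn ℚ)) := by
    intro c
    conv_lhs => rw [← Polynomial.divX_mul_X_add c]
    rw [map_add, map_mul, h97_ev_X, h97_ev_C]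
  have hBcoe : ((hB : (V2).B) : h69_F0 (M * q * q) (A.inertiaSubgroupIn ℚ)) =
      ∑ i ∈ Finset.range (p.natDegree + 1),
        algebraMap (h69_K0 (A.inertiaSubgroupIn ℚ)) (h69_F0 (M * q * q) (A.inertiaSubgroupIn ℚ))
          (((p.coeff i).coeff 0 : ↥(h69_A0 A).toSubring) : h69_K0 (A.inertiaSubgroupIn ℚ)) *
            (a : h69_F0 (M * q * q) (A.inertiaSubgroupIn ℚ)) ^ (p.natDegree - i) := by
    show (V2).B.subtype (∑ i ∈ Finset.range (p.natDegree + 1),
      cB ((p.coeff i).coeff 0) * a ^ (p.natDegree - i)) = _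
    rw [map_sum]
    refine Finset.sum_congr rfl (fun i _ => ?_)
    rw [map_mul, map_pow]
    rfl
  have hfac : ((hB : (V2).B) : h69_F0 (M * q * q) (A.inertiaSubgroupIn ℚ)) =
      -(h52_cvJ2 M q A * ∑ i ∈ Finset.range (p.natDegree + 1),
        h97_ev (h69_A0 A).toSubring (h52_cvJ2 M q A) (p.coeff i).divX *
          (a : h69_F0 (M * q * q) (A.inertiaSubgroupIn ℚ)) ^ (p.natDegree - i)) := by
    rw [hBcoe, Finset.mul_sum, eq_neg_iff_add_eq_zero, ← Finset.sum_add_distrib, ← hsum]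
    refine Finset.sum_congr rfl (fun i _ => ?_)
    rw [hdec (p.coeff i)]
    ring
  -- `hB ≠ 0`
  have hB0 : ((hB : (V2).B) : h69_F0 (M * q * q) (A.inertiaSubgroupIn ℚ)) ≠ 0 := by
    intro h0
    apply h2
    have : hB = 0 := Subtype.ext h0
    rw [this]
    exact m.zero_mem
  -- the order of `hB` at `P`
  have hJ2F : ((h52_cvJ2 M q A : h69_F0 (M * q * q) (A.inertiaSubgroupIn ℚ)) :
      modularFunctionFieldBar (M * q * q)) ≠ 0 := by
    intro h0
    rw [h52_cv_coe_J2] at h0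
    rw [h0, Place.ord_zero] at hpos
    exact lt_irrefl _ hpos
  have hJ2mem : ((h52_cvJ2 M q A : h69_F0 (M * q * q) (A.inertiaSubgroupIn ℚ)) :
      modularFunctionFieldBar (M * q * q)) ∈ P.toValuationSubring.toSubring :=
    (h35_mem_iff_ord_nonneg P hJ2F).mpr hpos.le
  have hamem : ((a : h69_F0 (M * q * q) (A.inertiaSubgroupIn ℚ)) :
      modularFunctionFieldBar (M * q * q)) ∈ P.toValuationSubring.toSubring := by
    have e : (a : h69_F0 (M * q * q) (A.inertiaSubgroupIn ℚ)) = (h52_cvJ0 M q A)⁻¹ :=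
      eq_inv_of_mul_eq_one_left haJ
    rw [e]
    exact (h35_mem_iff_ord_nonneg P (inv_ne_zero (h52_cl_jbar_ne (M * q * q)))).mpr hP
  have hev : ∀ d : Polynomial ↥(h69_A0 A).toSubring,
      ((h97_ev (h69_A0 A).toSubring (h52_cvJ2 M q A) d :
        h69_F0 (M * q * q) (A.inertiaSubgroupIn ℚ)) : modularFunctionFieldBar (M * q * q)) ∈
        P.toValuationSubring.toSubring := by
    intro d
    refine h89_ev_mem ((h69_F0 (M * q * q) (A.inertiaSubgroupIn ℚ)).subtype.comp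
      (h97_ev (h69_A0 A).toSubring (h52_cvJ2 M q A))) P.toValuationSubring.toSubring
      (fun k => ?_) ?_ d
    · rw [RingHom.comp_apply, h97_ev_C]
      exact P.algebraMap_mem' _
    · rw [RingHom.comp_apply, h97_ev_X]
      exact hJ2mem
  set T : h69_F0 (M * q * q) (A.inertiaSubgroupIn ℚ) := ∑ i ∈ Finset.range (p.natDegree + 1),
    h97_ev (h69_A0 A).toSubring (h52_cvJ2 M q A) (p.coeff i).divX *
      (a : h69_F0 (M * q * q) (A.inertiaSubgroupIn ℚ)) ^ (p.natDegree - i) with hT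
  have hT0 : T ≠ 0 := by
    intro h0
    apply hB0
    rw [hfac, h0, mul_zero, neg_zero]
  have hTmem : ((T : h69_F0 (M * q * q) (A.inertiaSubgroupIn ℚ)) :
      modularFunctionFieldBar (M * q * q)) ∈ P.toValuationSubring.toSubring := by
    have e : ((T : h69_F0 (M * q * q) (A.inertiaSubgroupIn ℚ)) :
        modularFunctionFieldBar (M * q * q)) = ∑ i ∈ Finset.range (p.natDegree + 1),
        ((h97_ev (h69_A0 A).toSubring (h52_cvJ2 M q A) (p.coeff i).divX :
          h69_F0 (M * q * q) (A.inertiaSubgroupIn ℚ)) : modularFunctionFieldBar (M * q * q)) *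
          ((a : h69_F0 (M * q * q) (A.inertiaSubgroupIn ℚ)) :
            modularFunctionFieldBar (M * q * q)) ^ (p.natDegree - i) := by
      show (h69_F0 (M * q * q) (A.inertiaSubgroupIn ℚ)).subtype T = _
      rw [hT, map_sum]
      refine Finset.sum_congr rfl (fun i _ => ?_)
      rw [map_mul, map_pow]
      rfl
    rw [e]
    exact Subring.sum_mem _ (fun i _ => Subring.mul_mem _ (hev _) (Subring.pow_mem _ hamem _))
  have hTF : ((T : h69_F0 (M * q * q) (A.inertiaSubgroupIn ℚ)) :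
      modularFunctionFieldBar (M * q * q)) ≠ 0 := fun h0 => hT0 (Subtype.ext h0)
  have hTord := (h35_mem_iff_ord_nonneg P hTF).mp hTmem
  have hord : 0 < P.ord (((hB : (V2).B) : h69_F0 (M * q * q) (A.inertiaSubgroupIn ℚ)) :
      modularFunctionFieldBar (M * q * q)) := by
    rw [hfac]
    show 0 < P.ord (-(((h52_cvJ2 M q A : h69_F0 (M * q * q) (A.inertiaSubgroupIn ℚ)) :
      modularFunctionFieldBar (M * q * q)) *
        ((T : h69_F0 (M * q * q) (A.inertiaSubgroupIn ℚ)) : modularFunctionFieldBar (M * q * q))))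
    rw [h35_ord_neg, P.ord_mul hJ2F hTF, h52_cv_coe_J2]
    omega
  exact h2 (hthr hB hB0 hord)

/-- **`e2 f = f(q² τ)` lies in the local ring of every point where `1/j(τ)` vanishes** (in
particular of the cusp points on `C02`), for `f` in the chart-2 ring of level `M`. -/
theorem h52_cl_e2_inLoc (m : Ideal (V2).B) [hm : m.IsPrime] (a : (V2).B)
    (haJ : (a : h69_F0 (M * q * q) (A.inertiaSubgroupIn ℚ)) * h52_cvJ0 M q A = 1) (ham : a ∈ m)
    (f : h69_F0 M (A.inertiaSubgroupIn ℚ))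
    (hO : ((f : modularFunctionFieldBar M) : LaurentSeries Qb) ∈ h60_Os A)
    (hreg : h39_Reg Qb (h59_jbar M)⁻¹ (f : modularFunctionFieldBar M)) :
    (V2).InLoc m (h70_bF0 (M * q) q (A.inertiaSubgroupIn ℚ)
      (h70_bF0 M q (A.inertiaSubgroupIn ℚ) f)) := by
  by_cases hf : f = 0
  · rw [hf, map_zero, map_zero]
    exact ⟨0, 1, fun h => hm.ne_top ((Ideal.eq_top_iff_one m).mpr h), by simp⟩
  have hne : h70_bF0 (M * q) q (A.inertiaSubgroupIn ℚ) (h70_bF0 M q (A.inertiaSubgroupIn ℚ) f) ≠ 0 :=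
    (_root_.map_ne_zero _).mpr ((_root_.map_ne_zero _).mpr hf)
  rw [h80_inLoc_iff (V2) m hne]
  intro i hi
  rcases i with c | j
  · exact h52_cl_vert_e2 M q hqM A hA ζ hζ hex f hf hO c
  · obtain ⟨P, hP, hj⟩ := h80_famOf_hor (κ := Fin 3) (M * q * q) (A.inertiaSubgroupIn ℚ)
      (h59_jbar (M * q * q))⁻¹ (Sum.inr j) (h80_isHor_inr j)
    obtain rfl := Sum.inr_injective hj
    have hz := h52_cl_no_zero M q hqM A hA ζ hζ hex m a haJ ham P hP hi
    show 0 ≤ P.ord (heckeBetaBar Qb (M * q) q (heckeBetaBar Qb M q (f : modularFunctionFieldBar M)))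
    have hi1 : (heckeBetaBar Qb (M * q) q).toRingHom.IsIntegral :=
      h88_isIntegral_of_finiteAlong _ (h88_finiteAlong_beta (M * q) q)
    have hi0 : (heckeBetaBar Qb M q).toRingHom.IsIntegral :=
      h88_isIntegral_of_finiteAlong _ (h88_finiteAlong_beta M q)
    have e1 : (0 : ℤ) < (Place.ramificationIndexAlong (heckeBetaBar Qb (M * q) q) P : ℤ) := by
      exact_mod_cast h16_ramificationIndexAlong_pos _ hi1 P
    have e0 : (0 : ℤ) < (Place.ramificationIndexAlong (heckeBetaBar Qb M q)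
        (P.restrictAlong (heckeBetaBar Qb (M * q) q) hi1) : ℤ) := by
      exact_mod_cast h16_ramificationIndexAlong_pos _ hi0 _
    have hr : ∀ g : ↥(modularFunctionFieldBar M),
        P.ord (heckeBetaBar Qb (M * q) q (heckeBetaBar Qb M q g)) =
          (Place.ramificationIndexAlong (heckeBetaBar Qb (M * q) q) P : ℤ) *
            ((Place.ramificationIndexAlong (heckeBetaBar Qb M q)
              (P.restrictAlong (heckeBetaBar Qb (M * q) q) hi1) : ℤ) *
              ((P.restrictAlong (heckeBetaBar Qb (M * q) q) hi1).restrictAlong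
                (heckeBetaBar Qb M q) hi0).ord g) := fun g => by
      rw [Place.ord_restrictAlong _ hi1, Place.ord_restrictAlong _ hi0]
    have h1 : 0 ≤ ((P.restrictAlong (heckeBetaBar Qb (M * q) q) hi1).restrictAlong
        (heckeBetaBar Qb M q) hi0).ord (h59_jbar M)⁻¹ := by
      rw [hr] at hz
      rw [Place.ord_inv]
      by_contra hneg
      push Not at hneg
      have h3 := mul_pos e1 e0
      nlinarith
    have hjne : (h59_jbar M)⁻¹ ≠ 0 := inv_ne_zero (h52_cl_jbar_ne M)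
    have h2 : (f : modularFunctionFieldBar M) ∈
        ((P.restrictAlong (heckeBetaBar Qb (M * q) q) hi1).restrictAlong
          (heckeBetaBar Qb M q) hi0).toValuationSubring :=
      hreg _ ((h35_mem_iff_ord_nonneg _ hjne).mpr h1)
    have hfF : (f : modularFunctionFieldBar M) ≠ 0 := fun h0 => hf (Subtype.ext h0)
    have h3 := (h35_mem_iff_ord_nonneg _ hfF).mp h2
    rw [hr]
    exact mul_nonneg e1.le (mul_nonneg e0.le h3)

/-! ### The same statements for the lifts produced by `h87_lift_fixed` -/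

/-- `e0 f ∈ V.B` for `f ∈ F0(M) ∩ RM.O` regular where `1/j` is (output shape of `h87_lift_fixed`
at `x = (h59_jbar M)⁻¹`). -/
theorem h52_cl_e0_mem_red
    {RM : h39_RedDatum Qb ↥(modularFunctionFieldBar M) (IsLocalRing.ResidueField A)
      ↥(modularFunctionFieldFullC (IsLocalRing.ResidueField A) M)}
    (hRM : h54_IsModRed M A RM) (f : ↥(modularFunctionFieldBar M))
    (hf : f ∈ h69_F0 M (A.inertiaSubgroupIn ℚ)) (hO : f ∈ RM.O)
    (hreg : h39_Reg Qb (h59_jbar M)⁻¹ f) :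
    h70_aF0 (M * q) q (A.inertiaSubgroupIn ℚ) (h70_aF0 M q (A.inertiaSubgroupIn ℚ) ⟨f, hf⟩) ∈
      (V2).B :=
  h52_cl_e0_mem M q hqM A hA ζ hζ hex ⟨f, hf⟩ ((hRM.mem_iff f).mp hO) hreg

/-- `e0 f` lies in the local ring of every prime of the chart-2 ring. -/
theorem h52_cl_e0_inLoc_red
    {RM : h39_RedDatum Qb ↥(modularFunctionFieldBar M) (IsLocalRing.ResidueField A)
      ↥(modularFunctionFieldFullC (IsLocalRing.ResidueField A) M)}
    (hRM : h54_IsModRed M A RM) (m : Ideal (V2).B) [hm : m.IsPrime]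
    (f : ↥(modularFunctionFieldBar M))
    (hf : f ∈ h69_F0 M (A.inertiaSubgroupIn ℚ)) (hO : f ∈ RM.O)
    (hreg : h39_Reg Qb (h59_jbar M)⁻¹ f) :
    (V2).InLoc m (h70_aF0 (M * q) q (A.inertiaSubgroupIn ℚ)
      (h70_aF0 M q (A.inertiaSubgroupIn ℚ) ⟨f, hf⟩)) :=
  ⟨⟨_, h52_cl_e0_mem_red M q hqM A hA ζ hζ hex hRM f hf hO hreg⟩, 1,
    fun h => hm.ne_top ((Ideal.eq_top_iff_one m).mpr h), by
      show ((1 : (V2).B) : h69_F0 (M * q * q) (A.inertiaSubgroupIn ℚ)) * _ = _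
      rw [Subring.coe_one, one_mul]⟩

/-- `e2 f` lies in the local ring of every prime containing `1/j(τ)`, for `f ∈ F0(M) ∩ RM.O`
regular where `1/j` is (output shape of `h87_lift_fixed` at `x = (h59_jbar M)⁻¹`). -/
theorem h52_cl_e2_inLoc_red
    {RM : h39_RedDatum Qb ↥(modularFunctionFieldBar M) (IsLocalRing.ResidueField A)
      ↥(modularFunctionFieldFullC (IsLocalRing.ResidueField A) M)}
    (hRM : h54_IsModRed M A RM) (m : Ideal (V2).B) [hm : m.IsPrime] (a : (V2).B)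
    (haJ : (a : h69_F0 (M * q * q) (A.inertiaSubgroupIn ℚ)) * h52_cvJ0 M q A = 1) (ham : a ∈ m)
    (f : ↥(modularFunctionFieldBar M))
    (hf : f ∈ h69_F0 M (A.inertiaSubgroupIn ℚ)) (hO : f ∈ RM.O)
    (hreg : h39_Reg Qb (h59_jbar M)⁻¹ f) :
    (V2).InLoc m (h70_bF0 (M * q) q (A.inertiaSubgroupIn ℚ)
      (h70_bF0 M q (A.inertiaSubgroupIn ℚ) ⟨f, hf⟩)) :=
  h52_cl_e2_inLoc M q hqM A hA ζ hζ hex m a haJ ham ⟨f, hf⟩ ((hRM.mem_iff f).mp hO) hreg

end Mem

end Fermat.Agent.S36
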