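/-
S36 / row NR (helper52): Gauss units and Gauss orders, relational form.

`h52_Red A x r` : the Laurent series `x` lies in the Gauss ring `h60_Os A` and its coefficientwise
reduction is `r`.  `h52_GU A x` : `x` is a unit of the Gauss ring (nonzero reduction).
`h52_GO A S φ ϖ v` : on the nonzero elements of `S`, the integer `v f` is the `ϖ`-adic Gauss order
of the expansion `φ f`, i.e. `ϖ ^ (-(v f)) * φ f` is a Gauss unit.  This single property
characterises `v` and yields the congruence calculus used by the norm-residue adapter.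
-/
import Mathlib
import Fermat.Agent.S34.h60_SerRed

set_option autoImplicit false

noncomputable section

open ModularCurve

namespace Fermat.Agent.S36

open Fermat.Agent.S34 Fermat.Agent.S18

section Gauss

variable {K : Type*} [Field K] (A : ValuationSubring K)

/-- `x` lies in the Gauss ring and reduces to `r`. -/
def h52_Red (x : LaurentSeries K) (r : LaurentSeries (IsLocalRing.ResidueField A)) : Prop :=
  ∃ h : x ∈ h60_Os A, h60_rs A ⟨x, h⟩ = r

/-- Gauss unit. -/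
def h52_GU (x : LaurentSeries K) : Prop :=
  ∃ r : LaurentSeries (IsLocalRing.ResidueField A), h52_Red A x r ∧ r ≠ 0

variable {A}

theorem h52_red_of_mem {x : LaurentSeries K} (h : x ∈ h60_Os A) :
    h52_Red A x (h60_rs A ⟨x, h⟩) := ⟨h, rfl⟩

theorem h52_Red.mem {x : LaurentSeries K} {r : LaurentSeries (IsLocalRing.ResidueField A)}
    (h : h52_Red A x r) : x ∈ h60_Os A := h.1

theorem h52_Red.unique {x : LaurentSeries K} {r s : LaurentSeries (IsLocalRing.ResidueField A)}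
    (h : h52_Red A x r) (h' : h52_Red A x s) : r = s := by
  obtain ⟨h1, rfl⟩ := h
  obtain ⟨h2, rfl⟩ := h'
  rfl

theorem h52_Red.congr {x y : LaurentSeries K} {r : LaurentSeries (IsLocalRing.ResidueField A)}
    (h : h52_Red A x r) (hxy : x = y) : h52_Red A y r := hxy ▸ h

theorem h52_Red.zero : h52_Red A (0 : LaurentSeries K) 0 := by
  have e : (⟨0, (h60_Os A).zero_mem⟩ : h60_Os A) = 0 := Subtype.ext rfl
  refine ⟨(h60_Os A).zero_mem, ?_⟩
  rw [e, map_zero]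

theorem h52_Red.one : h52_Red A (1 : LaurentSeries K) 1 := by
  have e : (⟨1, (h60_Os A).one_mem⟩ : h60_Os A) = 1 := Subtype.ext rfl
  refine ⟨(h60_Os A).one_mem, ?_⟩
  rw [e, map_one]

theorem h52_Red.mul {x y : LaurentSeries K} {r s : LaurentSeries (IsLocalRing.ResidueField A)}
    (h : h52_Red A x r) (h' : h52_Red A y s) : h52_Red A (x * y) (r * s) := by
  obtain ⟨h1, rfl⟩ := h
  obtain ⟨h2, rfl⟩ := h'
  have e : (⟨x * y, (h60_Os A).mul_mem h1 h2⟩ : h60_Os A) = ⟨x, h1⟩ * ⟨y, h2⟩ := Subtype.ext rfl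
  refine ⟨(h60_Os A).mul_mem h1 h2, ?_⟩
  rw [e, map_mul]

theorem h52_Red.add {x y : LaurentSeries K} {r s : LaurentSeries (IsLocalRing.ResidueField A)}
    (h : h52_Red A x r) (h' : h52_Red A y s) : h52_Red A (x + y) (r + s) := by
  obtain ⟨h1, rfl⟩ := h
  obtain ⟨h2, rfl⟩ := h'
  have e : (⟨x + y, (h60_Os A).add_mem h1 h2⟩ : h60_Os A) = ⟨x, h1⟩ + ⟨y, h2⟩ := Subtype.ext rfl
  refine ⟨(h60_Os A).add_mem h1 h2, ?_⟩
  rw [e, map_add]

theorem h52_Red.neg {x : LaurentSeries K} {r : LaurentSeries (IsLocalRing.ResidueField A)}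
    (h : h52_Red A x r) : h52_Red A (-x) (-r) := by
  obtain ⟨h1, rfl⟩ := h
  have e : (⟨-x, (h60_Os A).neg_mem h1⟩ : h60_Os A) = -⟨x, h1⟩ := Subtype.ext rfl
  refine ⟨(h60_Os A).neg_mem h1, ?_⟩
  rw [e, map_neg]

theorem h52_Red.sub {x y : LaurentSeries K} {r s : LaurentSeries (IsLocalRing.ResidueField A)}
    (h : h52_Red A x r) (h' : h52_Red A y s) : h52_Red A (x - y) (r - s) := by
  rw [sub_eq_add_neg, sub_eq_add_neg]
  exact h.add h'.neg

theorem h52_Red.pow {x : LaurentSeries K} {r : LaurentSeries (IsLocalRing.ResidueField A)}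
    (h : h52_Red A x r) (n : ℕ) : h52_Red A (x ^ n) (r ^ n) := by
  induction n with
  | zero => simpa using (h52_Red.one (A := A))
  | succ n ih => rw [pow_succ, pow_succ]; exact ih.mul h

theorem h52_Red.prod {ι : Type*} (s : Finset ι) {x : ι → LaurentSeries K}
    {r : ι → LaurentSeries (IsLocalRing.ResidueField A)} (h : ∀ i ∈ s, h52_Red A (x i) (r i)) :
    h52_Red A (∏ i ∈ s, x i) (∏ i ∈ s, r i) := by
  classical
  induction s using Finset.induction_on with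
  | empty => simpa using (h52_Red.one (A := A))
  | insert a s ha ih =>
    rw [Finset.prod_insert ha, Finset.prod_insert ha]
    exact (h a (Finset.mem_insert_self a s)).mul (ih fun i hi => h i (Finset.mem_insert_of_mem hi))

/-- Constants of `A`. -/
theorem h52_Red.const {c : K} (hc : c ∈ A) :
    h52_Red A (algebraMap K (LaurentSeries K) c)
      (algebraMap (IsLocalRing.ResidueField A) (LaurentSeries (IsLocalRing.ResidueField A))
        (IsLocalRing.residue A ⟨c, hc⟩)) :=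
  ⟨h60_const_mem A hc, h60_rs_const A hc⟩

/-- Non-units of `A` reduce to `0`. -/
theorem h52_Red.const_nonunit {c : K} (hc : c ∈ A) (hc' : c⁻¹ ∉ A) :
    h52_Red A (algebraMap K (LaurentSeries K) c) 0 := by
  have hnu : ¬ IsUnit (⟨c, hc⟩ : A) := by
    rintro ⟨v, hv⟩
    apply hc'
    have h1 : c * ((v⁻¹ : Aˣ) : K) = 1 := by
      have h2 : ((v : A) : K) = c := congrArg Subtype.val hv
      rw [← h2]
      have h3 : (v : A) * ((v⁻¹ : Aˣ) : A) = 1 := Units.mul_inv v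
      exact_mod_cast congrArg Subtype.val h3
    have h4 : c⁻¹ = ((v⁻¹ : Aˣ) : K) := inv_eq_of_mul_eq_one_right h1
    rw [h4]
    exact ((v⁻¹ : Aˣ) : A).2
  have hres : IsLocalRing.residue A ⟨c, hc⟩ = 0 := by
    rw [IsLocalRing.residue_eq_zero_iff, IsLocalRing.mem_maximalIdeal]
    exact hnu
  have h := h52_Red.const (A := A) hc
  rw [hres, map_zero] at h
  exact h

theorem h52_Red.inv {x : LaurentSeries K} {r : LaurentSeries (IsLocalRing.ResidueField A)}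
    (h : h52_Red A x r) (hr : r ≠ 0) : h52_Red A x⁻¹ r⁻¹ := by
  obtain ⟨h1, rfl⟩ := h
  exact ⟨h60_inv_mem A ⟨x, h1⟩ hr, h60_rs_inv A ⟨x, h1⟩ hr⟩

theorem h52_GU.mul {x y : LaurentSeries K} (hx : h52_GU A x) (hy : h52_GU A y) :
    h52_GU A (x * y) := by
  obtain ⟨r, hr, hr0⟩ := hx
  obtain ⟨s, hs, hs0⟩ := hy
  exact ⟨r * s, hr.mul hs, mul_ne_zero hr0 hs0⟩

theorem h52_GU.inv {x : LaurentSeries K} (hx : h52_GU A x) : h52_GU A x⁻¹ := by
  obtain ⟨r, hr, hr0⟩ := hx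
  exact ⟨r⁻¹, hr.inv hr0, inv_ne_zero hr0⟩

theorem h52_GU.ne_zero {x : LaurentSeries K} (hx : h52_GU A x) : x ≠ 0 := by
  obtain ⟨r, hr, hr0⟩ := hx
  rintro rfl
  exact hr0 (hr.unique h52_Red.zero)

theorem h52_GU.congr {x y : LaurentSeries K} (hx : h52_GU A x) (hxy : x = y) : h52_GU A y :=
  hxy ▸ hx

/-- Units of `A` are Gauss units. -/
theorem h52_GU.const {c : K} (hc : c ∈ A) (hc' : c⁻¹ ∈ A) (hc0 : c ≠ 0) :
    h52_GU A (algebraMap K (LaurentSeries K) c) := by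
  refine ⟨_, h52_Red.const hc, fun h0 => ?_⟩
  have h1 := (h52_Red.const (A := A) hc).mul (h52_Red.const (A := A) hc')
  rw [h0, zero_mul, ← map_mul, mul_inv_cancel₀ hc0, map_one] at h1
  exact one_ne_zero (h52_Red.one.unique h1)

/-- A constant which is a Gauss unit is a unit of `A`. -/
theorem h52_GU.const_mem {d : K} (h : h52_GU A (algebraMap K (LaurentSeries K) d)) :
    d ∈ A ∧ d⁻¹ ∈ A := by
  have key : ∀ e : K, h52_GU A (algebraMap K (LaurentSeries K) e) → e⁻¹ ∈ A := by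
    intro e he
    obtain ⟨r, ⟨h1, rfl⟩, hr0⟩ := he
    exact h60_inv_mem_A_of_scale A (c := e) ⟨1, (h60_Os A).one_mem⟩ ⟨_, h1⟩ hr0
      (by simp)
  refine ⟨?_, key d h⟩
  have h2 := key d⁻¹ (by rw [map_inv₀]; exact h.inv)
  rwa [inv_inv] at h2

/-- Two scalings of the same series into Gauss units differ by a unit of `A`. -/
theorem h52_GU.scale_unique {x : LaurentSeries K} {c c' : K}
    (h : h52_GU A (algebraMap K (LaurentSeries K) c * x))
    (h' : h52_GU A (algebraMap K (LaurentSeries K) c' * x)) :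
    c * c'⁻¹ ∈ A ∧ c' * c⁻¹ ∈ A := by
  have hx : x ≠ 0 := fun h0 => h.ne_zero (by rw [h0, mul_zero])
  have hc' : algebraMap K (LaurentSeries K) c' ≠ 0 := fun h0 => h'.ne_zero (by rw [h0, zero_mul])
  have hc : algebraMap K (LaurentSeries K) c ≠ 0 := fun h0 => h.ne_zero (by rw [h0, zero_mul])
  have e1 : algebraMap K (LaurentSeries K) c * x * (algebraMap K (LaurentSeries K) c' * x)⁻¹
      = algebraMap K (LaurentSeries K) (c * c'⁻¹) := by
    rw [map_mul, map_inv₀]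
    field_simp
  have e2 : algebraMap K (LaurentSeries K) c' * x * (algebraMap K (LaurentSeries K) c * x)⁻¹
      = algebraMap K (LaurentSeries K) (c' * c⁻¹) := by
    rw [map_mul, map_inv₀]
    field_simp
  exact ⟨((h.mul h'.inv).congr e1).const_mem.1, ((h'.mul h.inv).congr e2).const_mem.1⟩

/-- Scaling a Gauss unit by a unit of `A`. -/
theorem h52_GU.scale {x : LaurentSeries K} (h : h52_GU A x) {c : K} (hc : c ∈ A) (hc' : c⁻¹ ∈ A)
    (hc0 : c ≠ 0) : h52_GU A (algebraMap K (LaurentSeries K) c * x) :=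
  (h52_GU.const hc hc' hc0).mul h

theorem h52_zpow_mem {ϖ : K} (hϖ : ϖ ∈ A) {n : ℤ} (hn : 0 ≤ n) : ϖ ^ n ∈ A := by
  obtain ⟨m, rfl⟩ := Int.eq_ofNat_of_zero_le hn
  rw [zpow_natCast]
  exact A.pow_mem hϖ m

theorem h52_zpow_inv_notMem {ϖ : K} (hϖ : ϖ ∈ A) (hϖ0 : ϖ ≠ 0) (hϖn : ϖ⁻¹ ∉ A) {n : ℤ}
    (hn : 0 < n) : (ϖ ^ n)⁻¹ ∉ A := by
  intro h
  apply hϖn
  have h1 : ϖ⁻¹ = ϖ ^ (n - 1) * (ϖ ^ n)⁻¹ := by
    rw [← zpow_neg, ← zpow_add₀ hϖ0]
    have : n - 1 + -n = -1 := by ring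
    rw [this, zpow_neg_one]
  rw [h1]
  exact A.mul_mem _ _ (h52_zpow_mem hϖ (by omega)) h

/-- If `ϖ ^ k` is a unit of `A` for a non-unit `ϖ`, then `k = 0`. -/
theorem h52_zpow_unit {ϖ : K} (hϖ : ϖ ∈ A) (hϖ0 : ϖ ≠ 0) (hϖn : ϖ⁻¹ ∉ A) {k : ℤ}
    (h1 : ϖ ^ k ∈ A) (h2 : (ϖ ^ k)⁻¹ ∈ A) : k = 0 := by
  by_contra hk
  rcases lt_or_gt_of_ne hk with h | h
  · have h3 : (ϖ ^ (-k))⁻¹ ∉ A := h52_zpow_inv_notMem hϖ hϖ0 hϖn (by omega)
    apply h3
    rw [zpow_neg, inv_inv]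
    exact h1
  · exact h52_zpow_inv_notMem hϖ hϖ0 hϖn h h2

end Gauss

section Order

variable {K : Type*} [Field K] (A : ValuationSubring K) {F : Type*} [Field F]

/-- `v` is the `ϖ`-adic Gauss order of the expansion `φ` on the nonzero elements of `S`. -/
def h52_GO (S : Subfield F) (φ : F →+* LaurentSeries K) (ϖ : K) (v : F → ℤ) : Prop :=
  ∀ f ∈ S, f ≠ 0 → h52_GU A (algebraMap K (LaurentSeries K) (ϖ ^ (-(v f))) * φ f)

/-- Congruence modulo the positive part of `v`. -/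
def h52_Cong (v : F → ℤ) (x y : F) : Prop := x = y ∨ 0 < v (x - y)

variable {A} {S : Subfield F} {φ : F →+* LaurentSeries K} {ϖ : K} {v : F → ℤ}

/-- Uniqueness of the Gauss order, up to a unit of `A`. -/
theorem h52_GO.eq_of_GU (hGO : h52_GO A S φ ϖ v) (hϖ : ϖ ∈ A) (hϖ0 : ϖ ≠ 0) (hϖn : ϖ⁻¹ ∉ A)
    {f : F} (hf : f ∈ S) (hf0 : f ≠ 0) {n : ℤ} {ε : K} (hε : ε ∈ A) (hε' : ε⁻¹ ∈ A)
    (hε0 : ε ≠ 0)
    (h : h52_GU A (algebraMap K (LaurentSeries K) (ϖ ^ (-n) * ε) * φ f)) : v f = n := by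
  obtain ⟨h1, h2⟩ := (hGO f hf hf0).scale_unique h
  have e1 : ϖ ^ (-(v f)) * (ϖ ^ (-n) * ε)⁻¹ = ϖ ^ (n - v f) * ε⁻¹ := by
    rw [mul_inv, ← zpow_neg, neg_neg, ← mul_assoc, ← zpow_add₀ hϖ0]
    congr 2
    ring
  have e2 : ϖ ^ (-n) * ε * (ϖ ^ (-(v f)))⁻¹ = (ϖ ^ (n - v f))⁻¹ * ε := by
    rw [← zpow_neg, ← zpow_neg, neg_neg, mul_right_comm, ← zpow_add₀ hϖ0]
    congr 2
    ring
  rw [e1] at h1
  rw [e2] at h2
  have h3 : ϖ ^ (n - v f) ∈ A := by
    have := A.mul_mem _ _ h1 hε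
    rwa [mul_assoc, inv_mul_cancel₀ hε0, mul_one] at this
  have h4 : (ϖ ^ (n - v f))⁻¹ ∈ A := by
    have := A.mul_mem _ _ h2 hε'
    rwa [mul_assoc, mul_inv_cancel₀ hε0, mul_one] at this
  have := h52_zpow_unit hϖ hϖ0 hϖn h3 h4
  omega

theorem h52_GO.eq_of_GU' (hGO : h52_GO A S φ ϖ v) (hϖ : ϖ ∈ A) (hϖ0 : ϖ ≠ 0) (hϖn : ϖ⁻¹ ∉ A)
    {f : F} (hf : f ∈ S) (hf0 : f ≠ 0) {n : ℤ}
    (h : h52_GU A (algebraMap K (LaurentSeries K) (ϖ ^ (-n)) * φ f)) : v f = n := by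
  refine hGO.eq_of_GU hϖ hϖ0 hϖn hf hf0 (ε := 1) A.one_mem (by rw [inv_one]; exact A.one_mem)
    one_ne_zero ?_
  rwa [mul_one]

/-- Elements of order `0` expand to Gauss units. -/
theorem h52_GO.GU_of_zero (hGO : h52_GO A S φ ϖ v) {f : F} (hf : f ∈ S) (hf0 : f ≠ 0)
    (hv : v f = 0) : h52_GU A (φ f) := by
  have h := hGO f hf hf0
  rw [hv, neg_zero, zpow_zero, map_one, one_mul] at h
  exact h

/-- Positive order (or zero element) ⟹ integral expansion with reduction `0`. -/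
theorem h52_GO.red_of_pos (hGO : h52_GO A S φ ϖ v) (hϖ : ϖ ∈ A) (hϖ0 : ϖ ≠ 0) (hϖn : ϖ⁻¹ ∉ A)
    {f : F} (hf : f ∈ S) (h : f = 0 ∨ 0 < v f) : h52_Red A (φ f) 0 := by
  rcases eq_or_ne f 0 with rfl | hf0
  · rw [map_zero]; exact h52_Red.zero
  · have hpos : 0 < v f := h.resolve_left hf0
    obtain ⟨r, hr, -⟩ := hGO f hf hf0
    have hc : h52_Red A (algebraMap K (LaurentSeries K) (ϖ ^ (v f))) 0 :=
      h52_Red.const_nonunit (h52_zpow_mem hϖ hpos.le) (h52_zpow_inv_notMem hϖ hϖ0 hϖn hpos)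
    have h1 := hc.mul hr
    rw [zero_mul, ← mul_assoc, ← map_mul, ← zpow_add₀ hϖ0, add_neg_cancel, zpow_zero, map_one,
      one_mul] at h1
    exact h1

/-- Integral expansion with reduction `0` ⟹ positive order (or zero element). -/
theorem h52_GO.pos_of_red (hGO : h52_GO A S φ ϖ v) (hϖ : ϖ ∈ A)
    {f : F} (hf : f ∈ S) (h : h52_Red A (φ f) 0) : f = 0 ∨ 0 < v f := by
  rcases eq_or_ne f 0 with hf0 | hf0
  · exact Or.inl hf0
  · refine Or.inr ?_
    by_contra hneg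
    obtain ⟨r, hr, hr0⟩ := hGO f hf hf0
    have hc := h52_Red.const (A := A) (h52_zpow_mem hϖ (n := -(v f)) (by omega))
    have h1 := hc.mul h
    rw [mul_zero] at h1
    exact hr0 (hr.unique h1)

/-- Equal reductions ⟹ congruence. -/
theorem h52_GO.cong_of_red (hGO : h52_GO A S φ ϖ v) (hϖ : ϖ ∈ A) {x y : F} (hx : x ∈ S)
    (hy : y ∈ S) {r : LaurentSeries (IsLocalRing.ResidueField A)} (h1 : h52_Red A (φ x) r)
    (h2 : h52_Red A (φ y) r) : h52_Cong v x y := by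
  have h3 : h52_Red A (φ (x - y)) 0 := by
    have := h1.sub h2
    rwa [sub_self, ← map_sub] at this
  rcases hGO.pos_of_red hϖ (S.sub_mem hx hy) h3 with h | h
  · exact Or.inl (sub_eq_zero.mp h)
  · exact Or.inr h

/-- Congruence transports reductions (from the left element to the right one). -/
theorem h52_GO.red_of_cong (hGO : h52_GO A S φ ϖ v) (hϖ : ϖ ∈ A) (hϖ0 : ϖ ≠ 0) (hϖn : ϖ⁻¹ ∉ A)
    {x y : F} (hx : x ∈ S) (hy : y ∈ S) (hc : h52_Cong v x y)
    {r : LaurentSeries (IsLocalRing.ResidueField A)} (h1 : h52_Red A (φ x) r) :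
    h52_Red A (φ y) r := by
  have h3 : h52_Red A (φ (x - y)) 0 := by
    refine hGO.red_of_pos hϖ hϖ0 hϖn (S.sub_mem hx hy) ?_
    rcases hc with h | h
    · exact Or.inl (sub_eq_zero.mpr h)
    · exact Or.inr h
  have := h1.sub h3
  rwa [sub_zero, ← map_sub, sub_sub_cancel] at this

/-- Congruence transports reductions (from the right element to the left one). -/
theorem h52_GO.red_of_cong' (hGO : h52_GO A S φ ϖ v) (hϖ : ϖ ∈ A) (hϖ0 : ϖ ≠ 0) (hϖn : ϖ⁻¹ ∉ A)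
    {x y : F} (hx : x ∈ S) (hy : y ∈ S) (hc : h52_Cong v x y)
    {r : LaurentSeries (IsLocalRing.ResidueField A)} (h1 : h52_Red A (φ y) r) :
    h52_Red A (φ x) r := by
  have h3 : h52_Red A (φ (x - y)) 0 := by
    refine hGO.red_of_pos hϖ hϖ0 hϖn (S.sub_mem hx hy) ?_
    rcases hc with h | h
    · exact Or.inl (sub_eq_zero.mpr h)
    · exact Or.inr h
  have := h1.add h3
  rwa [add_zero, ← map_add, add_sub_cancel] at this

end Order

end Fermat.Agent.S36
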