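/-
S36 / row NR (helper52): the norm-residue table in valuation form.

Input (structure `h52_NRData`): the family `E` of the other `q - 1` expansions over the standard
one (middle cusps), the swaps `W`, `w`, the subfields `S₁`, `S₂` of rational (inertia-fixed)
functions, and five `ℤ`-valued functions `v₁ v₂ v₃` (level `N q`), `wF wV` (level `N`) which are
the Gauss orders of the expansions `coe`, `E i₀`, `coe ∘ W`, resp. `coe`, `coe ∘ w`
(`h52_GO`), together with the two compatibilities (MG), (MW) of the middle expansion with inertia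
conjugation and with `W`.

Output: (N1) the valuations of the norms along `α`, `β`; (N2)–(N4) the residues of the norms;
(NRc) the residues of norms of functions congruent to constants; and the by-products (V0).
Everything is deduced from the series statements of `h49_NormRes`.
-/
import Mathlib
import Fermat.Agent.S36.h52_GaussOrd
import Fermat.Agent.S36.h49_NormRes
import Fermat.Agent.S37.h87_Red

set_option autoImplicit false
set_option synthInstance.maxHeartbeats 400000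

noncomputable section

open ModularCurve AlgebraicCurve

namespace Fermat.Agent.S36

open Fermat.Agent.S34 Fermat.Agent.S37 Fermat.Agent.S24 Fermat.Agent.S35 Fermat.Agent.S18
  Fermat.Agent.GAL

local notation "Qb" => AlgebraicClosure ℚ

/-! ## The series half in relational form -/

section Series

variable (N q : ℕ) [NeZero N] [NeZero q] (A : ValuationSubring Qb)

theorem h52_red_beta [Fact q.Prime] (hqN : q ∣ N) [CharP (IsLocalRing.ResidueField A) q]
    (f : modularFunctionFieldBar (N * q)) {r : LaurentSeries (IsLocalRing.ResidueField A)}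
    (hf : h52_Red A (f : LaurentSeries Qb) r) :
    h52_Red A ((h67_normAlong (heckeBetaBar Qb N q) f : modularFunctionFieldBar N) :
      LaurentSeries Qb) (coeffMap (frobenius (IsLocalRing.ResidueField A) q) r) := by
  obtain ⟨hf, rfl⟩ := hf
  obtain ⟨h1, h2⟩ := h49_normRes_beta N q hqN A f hf
  exact ⟨h1, h2⟩

theorem h52_red_beta_pow [Fact q.Prime] (hqN : q ∣ N) [CharP (IsLocalRing.ResidueField A) q]
    (f : modularFunctionFieldBar (N * q)) {r : LaurentSeries (IsLocalRing.ResidueField A)}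
    (hf : h52_Red A (f : LaurentSeries Qb) r) :
    h52_Red A ((heckeBetaBar Qb N q (h67_normAlong (heckeBetaBar Qb N q) f) :
      modularFunctionFieldBar (N * q)) : LaurentSeries Qb) (r ^ q) := by
  obtain ⟨hf, rfl⟩ := hf
  obtain ⟨h1, h2⟩ := h49_normRes_beta_pow N q hqN A f hf
  exact ⟨h1, h2⟩

theorem h52_red_beta_scaled [Fact q.Prime] (hqN : q ∣ N)
    [CharP (IsLocalRing.ResidueField A) q] (c : Qb)
    (f : modularFunctionFieldBar (N * q)) {r : LaurentSeries (IsLocalRing.ResidueField A)}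
    (hf : h52_Red A (algebraMap Qb (LaurentSeries Qb) c * (f : LaurentSeries Qb)) r) :
    h52_Red A (algebraMap Qb (LaurentSeries Qb) (c ^ q) *
      ((h67_normAlong (heckeBetaBar Qb N q) f : modularFunctionFieldBar N) : LaurentSeries Qb))
      (coeffMap (frobenius (IsLocalRing.ResidueField A) q) r) := by
  obtain ⟨hf, rfl⟩ := hf
  obtain ⟨h1, h2⟩ := h49_normRes_beta_scaled N q hqN A c f hf
  exact ⟨h1, h2⟩

variable {N q A}

theorem h52_red_alpha (hq : q.Prime) (hqN : q ∣ N)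
    (E : Fin (q - 1) → modularFunctionFieldBar (N * q) →+* LaurentSeries Qb)
    (hEα : ∀ (i : Fin (q - 1)) (e : modularFunctionFieldBar N),
      E i (heckeAlphaBar Qb N q e) = (e : LaurentSeries Qb))
    (hEinj : Function.Injective E)
    (hEne : ∀ i : Fin (q - 1), E i ≠ (modularFunctionFieldBar (N * q)).val.toRingHom)
    (f : modularFunctionFieldBar (N * q)) {r : LaurentSeries (IsLocalRing.ResidueField A)}
    {s : Fin (q - 1) → LaurentSeries (IsLocalRing.ResidueField A)}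
    (hf : h52_Red A (f : LaurentSeries Qb) r) (hE : ∀ i, h52_Red A (E i f) (s i)) :
    h52_Red A ((h67_normAlong (heckeAlphaBar Qb N q) f : modularFunctionFieldBar N) :
      LaurentSeries Qb) (r * ∏ i, s i) := by
  obtain ⟨hf, rfl⟩ := hf
  obtain ⟨h1, h2⟩ := h49_normRes_alpha N q hq hqN A E hEα hEinj hEne f hf (fun i => (hE i).fst)
  refine ⟨h1, ?_⟩
  rw [h2]
  congr 1
  exact Finset.prod_congr rfl fun i _ => (hE i).snd

theorem h52_red_alpha_scaled (hq : q.Prime) (hqN : q ∣ N)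
    (E : Fin (q - 1) → modularFunctionFieldBar (N * q) →+* LaurentSeries Qb)
    (hEα : ∀ (i : Fin (q - 1)) (e : modularFunctionFieldBar N),
      E i (heckeAlphaBar Qb N q e) = (e : LaurentSeries Qb))
    (hEinj : Function.Injective E)
    (hEne : ∀ i : Fin (q - 1), E i ≠ (modularFunctionFieldBar (N * q)).val.toRingHom)
    (c₁ c₂ : Qb) (f : modularFunctionFieldBar (N * q))
    {r : LaurentSeries (IsLocalRing.ResidueField A)}
    {s : Fin (q - 1) → LaurentSeries (IsLocalRing.ResidueField A)}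
    (hf : h52_Red A (algebraMap Qb (LaurentSeries Qb) c₁ * (f : LaurentSeries Qb)) r)
    (hE : ∀ i, h52_Red A (algebraMap Qb (LaurentSeries Qb) c₂ * E i f) (s i)) :
    h52_Red A (algebraMap Qb (LaurentSeries Qb) (c₁ * c₂ ^ (q - 1)) *
      ((h67_normAlong (heckeAlphaBar Qb N q) f : modularFunctionFieldBar N) : LaurentSeries Qb))
      (r * ∏ i, s i) := by
  obtain ⟨hf, rfl⟩ := hf
  obtain ⟨h1, h2⟩ := h49_normRes_alpha_scaled N q hq hqN A E hEα hEinj hEne c₁ c₂ f hf
    (fun i => (hE i).fst)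
  refine ⟨h1, ?_⟩
  rw [h2]
  congr 1
  exact Finset.prod_congr rfl fun i _ => (hE i).snd

theorem h52_red_conj_pow [Fact q.Prime] (hqN : q ∣ N) [CharP (IsLocalRing.ResidueField A) q]
    (w : modularFunctionFieldBar N →+* modularFunctionFieldBar N) (hww : ∀ e, w (w e) = e)
    (W : modularFunctionFieldBar (N * q) →+* modularFunctionFieldBar (N * q))
    (hWW : ∀ f, W (W f) = f)
    (h : ∀ e, W (heckeAlphaBar Qb N q e) = heckeBetaBar Qb N q (w e))
    (f : modularFunctionFieldBar (N * q)) {r : LaurentSeries (IsLocalRing.ResidueField A)}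
    (hf : h52_Red A ((W f : modularFunctionFieldBar (N * q)) : LaurentSeries Qb) r) :
    h52_Red A ((W (heckeAlphaBar Qb N q (h67_normAlong (heckeAlphaBar Qb N q) f)) :
      modularFunctionFieldBar (N * q)) : LaurentSeries Qb) (r ^ q) := by
  obtain ⟨hf, rfl⟩ := hf
  obtain ⟨h1, h2⟩ := h49_normRes_conj_pow N q hqN A w hww W hWW h f hf
  exact ⟨h1, h2⟩

/-- Reduction commutes with `t ↦ t ^ n`. -/
theorem h52_Red.qExpand {K : Type*} [Field K] {B : ValuationSubring K} (n : ℕ) [NeZero n]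
    {x : LaurentSeries K} {r : LaurentSeries (IsLocalRing.ResidueField B)}
    (h : h52_Red B x r) :
    h52_Red B (qExpand K n x) (qExpand (IsLocalRing.ResidueField B) n r) := by
  obtain ⟨h1, rfl⟩ := h
  exact ⟨h60_qExpand_mem B n h1, h60_rs_qExpand B n ⟨x, h1⟩⟩

end Series

/-! ## The data -/

/-- The data consumed by the norm-residue table at the levels `N ∣ N q`, `q ∣ N`. -/
structure h52_NRData (N q : ℕ) [NeZero N] [NeZero q] (A : ValuationSubring Qb) where
  /-- the other `q - 1` expansions over the standard one -/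
  E : Fin (q - 1) → modularFunctionFieldBar (N * q) →+* LaurentSeries Qb
  hEα : ∀ (i : Fin (q - 1)) (e : modularFunctionFieldBar N),
    E i (heckeAlphaBar Qb N q e) = (e : LaurentSeries Qb)
  hEinj : Function.Injective E
  hEne : ∀ i : Fin (q - 1), E i ≠ (modularFunctionFieldBar (N * q)).val.toRingHom
  /-- the distinguished middle expansion -/
  i₀ : Fin (q - 1)
  /-- the swaps -/
  W : modularFunctionFieldBar (N * q) →+* modularFunctionFieldBar (N * q)
  w : modularFunctionFieldBar N →+* modularFunctionFieldBar N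
  hWW : ∀ f, W (W f) = f
  hww : ∀ e, w (w e) = e
  hWα : ∀ e, W (heckeAlphaBar Qb N q e) = heckeBetaBar Qb N q (w e)
  hWc : ∀ c : Qb, W (algebraMap Qb (modularFunctionFieldBar (N * q)) c)
    = algebraMap Qb (modularFunctionFieldBar (N * q)) c
  hwc : ∀ c : Qb, w (algebraMap Qb (modularFunctionFieldBar N) c)
    = algebraMap Qb (modularFunctionFieldBar N) c
  /-- the rational functions -/
  S₁ : Subfield (modularFunctionFieldBar N)
  S₂ : Subfield (modularFunctionFieldBar (N * q))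
  /-- the rational constants -/
  K₀ : Subfield Qb
  hK₁ : ∀ c ∈ K₀, algebraMap Qb (modularFunctionFieldBar N) c ∈ S₁
  hK₂ : ∀ c ∈ K₀, algebraMap Qb (modularFunctionFieldBar (N * q)) c ∈ S₂
  hα : ∀ e ∈ S₁, heckeAlphaBar Qb N q e ∈ S₂
  hβ : ∀ e ∈ S₁, heckeBetaBar Qb N q e ∈ S₂
  hNα : ∀ f ∈ S₂, h67_normAlong (heckeAlphaBar Qb N q) f ∈ S₁
  hNβ : ∀ f ∈ S₂, h67_normAlong (heckeBetaBar Qb N q) f ∈ S₁
  hW : ∀ f ∈ S₂, W f ∈ S₂
  hw : ∀ e ∈ S₁, w e ∈ S₁
  /-- `q` is not a unit of `A` -/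
  hq : ((q : Qb))⁻¹ ∉ A
  /-- the uniformiser of the middle expansion, `ϖ ^ (q - 1) = q * ε` with `ε` a unit -/
  ϖ : Qb
  ε : Qb
  hϖ : ϖ ∈ A
  hϖn : ϖ⁻¹ ∉ A
  hε : ε ∈ A
  hε' : ε⁻¹ ∈ A
  hϖq : ϖ ^ (q - 1) = (q : Qb) * ε
  /-- the five Gauss orders -/
  v₁ : modularFunctionFieldBar (N * q) → ℤ
  v₂ : modularFunctionFieldBar (N * q) → ℤ
  v₃ : modularFunctionFieldBar (N * q) → ℤ
  wF : modularFunctionFieldBar N → ℤ
  wV : modularFunctionFieldBar N → ℤ
  go₁ : h52_GO A S₂ (modularFunctionFieldBar (N * q)).val.toRingHom (q : Qb) v₁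
  go₂ : h52_GO A S₂ (E i₀) ϖ v₂
  go₃ : h52_GO A S₂ ((modularFunctionFieldBar (N * q)).val.toRingHom.comp W) (q : Qb) v₃
  goF : h52_GO A S₁ (modularFunctionFieldBar N).val.toRingHom (q : Qb) wF
  goV : h52_GO A S₁ ((modularFunctionFieldBar N).val.toRingHom.comp w) (q : Qb) wV
  /-- (MG): on rational functions all middle expansions have the same reduction -/
  mg : ∀ f ∈ S₂, ∀ (c : Qb) (i : Fin (q - 1)) (r : LaurentSeries (IsLocalRing.ResidueField A)),
    h52_Red A (algebraMap Qb (LaurentSeries Qb) c * E i₀ f) r →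
    h52_Red A (algebraMap Qb (LaurentSeries Qb) c * E i f) r
  /-- (MW): the middle expansion is `W`-invariant up to reduction -/
  mw : ∀ f ∈ S₂, ∀ (c : Qb) (r : LaurentSeries (IsLocalRing.ResidueField A)),
    h52_Red A (algebraMap Qb (LaurentSeries Qb) c * E i₀ (W f)) r →
    h52_Red A (algebraMap Qb (LaurentSeries Qb) c * E i₀ f) r

namespace h52_NRData

variable {N q : ℕ} [NeZero N] [NeZero q] {A : ValuationSubring Qb} (D : h52_NRData N q A)

local notation "Nα" => h67_normAlong (heckeAlphaBar Qb N q)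
local notation "Nβ" => h67_normAlong (heckeBetaBar Qb N q)
local notation "kA" => IsLocalRing.ResidueField A

omit [NeZero N] in
theorem hq0 : ((q : ℕ) : Qb) ≠ 0 := Nat.cast_ne_zero.mpr (NeZero.ne q)

include D in
theorem hϖ0 : D.ϖ ≠ 0 := by
  intro h
  apply D.hϖn
  rw [h, inv_zero]
  exact A.zero_mem

include D in
theorem hε0 (hq1 : 1 ≤ q - 1) : D.ε ≠ 0 := by
  intro h
  have h1 := D.hϖq
  rw [h, mul_zero] at h1
  exact D.hϖ0 (pow_eq_zero_iff (by omega) |>.mp h1)

theorem val_apply (M : ℕ) [NeZero M] (x : modularFunctionFieldBar M) :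
    (modularFunctionFieldBar M).val.toRingHom x = (x : LaurentSeries Qb) := rfl

include D in
theorem mg1 {f : modularFunctionFieldBar (N * q)} (hf : f ∈ D.S₂) (i : Fin (q - 1))
    {r : LaurentSeries kA} (h : h52_Red A (D.E D.i₀ f) r) : h52_Red A (D.E i f) r := by
  have h1 := D.mg f hf 1 i r (by rw [map_one, one_mul]; exact h)
  rwa [map_one, one_mul] at h1

include D in
theorem mw1 {f : modularFunctionFieldBar (N * q)} (hf : f ∈ D.S₂)
    {r : LaurentSeries kA} (h : h52_Red A (D.E D.i₀ f) r) : h52_Red A (D.E D.i₀ (D.W f)) r := by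
  have h1 := D.mw (D.W f) (D.hW f hf) 1 r (by rw [map_one, one_mul, D.hWW]; exact h)
  rwa [map_one, one_mul] at h1

include D in
theorem W_ne_zero {f : modularFunctionFieldBar (N * q)} (hf : f ≠ 0) : D.W f ≠ 0 :=
  (map_ne_zero D.W).mpr hf

include D in
theorem unit_zpow (n : ℤ) : D.ε ^ n ∈ A := by
  rcases le_total 0 n with h | h
  · exact h52_zpow_mem D.hε h
  · have : D.ε ^ n = D.ε⁻¹ ^ (-n) := by rw [inv_zpow, zpow_neg, inv_inv]
    rw [this]
    exact h52_zpow_mem D.hε' (by omega)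

/-! ### The swaps and the orders -/

include D in
theorem v₁_W {u : modularFunctionFieldBar (N * q)} (hu : u ∈ D.S₂) (hu0 : u ≠ 0) :
    D.v₁ (D.W u) = D.v₃ u :=
  D.go₁.eq_of_GU' (natCast_mem A q) hq0 D.hq (D.hW u hu) (D.W_ne_zero hu0) (D.go₃ u hu hu0)

include D in
theorem v₃_W {u : modularFunctionFieldBar (N * q)} (hu : u ∈ D.S₂) (hu0 : u ≠ 0) :
    D.v₃ (D.W u) = D.v₁ u := by
  have h := D.v₁_W (D.hW u hu) (D.W_ne_zero hu0)
  rw [D.hWW] at h
  exact h.symm

include D in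
theorem v₂_W {u : modularFunctionFieldBar (N * q)} (hu : u ∈ D.S₂) (hu0 : u ≠ 0) :
    D.v₂ (D.W u) = D.v₂ u := by
  obtain ⟨r, hr, hr0⟩ := D.go₂ (D.W u) (D.hW u hu) (D.W_ne_zero hu0)
  exact (D.go₂.eq_of_GU' D.hϖ D.hϖ0 D.hϖn hu hu0 ⟨r, D.mw u hu _ r hr, hr0⟩).symm

include D in
theorem wF_w {g : modularFunctionFieldBar N} (hg : g ∈ D.S₁) (hg0 : g ≠ 0) :
    D.wF (D.w g) = D.wV g :=
  D.goF.eq_of_GU' (natCast_mem A q) hq0 D.hq (D.hw g hg) ((map_ne_zero D.w).mpr hg0) (D.goV g hg hg0)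

/-! ### (N1): valuations of norms -/

include D in
/-- **(N1c)** `w_F (N_β u) = q · v₁ u`. -/
theorem N1c [Fact q.Prime] (hqN : q ∣ N) [CharP kA q]
    {u : modularFunctionFieldBar (N * q)} (hu : u ∈ D.S₂) (hu0 : u ≠ 0) :
    D.wF (Nβ u) = q * D.v₁ u := by
  obtain ⟨r, hr, hr0⟩ := D.go₁ u hu hu0
  have h2 := h52_red_beta_scaled N q A hqN _ u hr
  have h3 : coeffMap (frobenius kA q) r ≠ 0 :=
    h87_coeffMap_ne_zero _ (frobenius_inj kA q) hr0
  have hne : Nβ u ≠ 0 := h67_normAlong_ne_zero _ (h88_finiteAlong_beta N q) hu0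
  refine D.goF.eq_of_GU' (natCast_mem A q) hq0 D.hq (D.hNβ u hu) hne ⟨_, h2.congr ?_, h3⟩
  rw [← zpow_natCast, ← zpow_mul]
  congr 3
  ring

include D in
/-- **(N1b)** `w_V (N_α u) = q · v₃ u`. -/
theorem N1b [Fact q.Prime] (hqN : q ∣ N) [CharP kA q]
    {u : modularFunctionFieldBar (N * q)} (hu : u ∈ D.S₂) (hu0 : u ≠ 0) :
    D.wV (Nα u) = q * D.v₃ u := by
  obtain ⟨r, hr, hr0⟩ := D.go₃ u hu hu0
  have h2 := h52_red_beta_scaled N q A hqN _ (D.W u) hr
  have h3 : coeffMap (frobenius kA q) r ≠ 0 :=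
    h87_coeffMap_ne_zero _ (frobenius_inj kA q) hr0
  have hne : Nα u ≠ 0 := h67_normAlong_ne_zero _ (h88_finiteAlong_alpha N q) hu0
  rw [h49_normAlong_conj N q D.w D.hww D.W D.hWW D.hWα u] at h2
  refine D.goV.eq_of_GU' (natCast_mem A q) hq0 D.hq (D.hNα u hu) hne ⟨_, h2.congr ?_, h3⟩
  rw [← zpow_natCast, ← zpow_mul]
  congr 3
  ring

include D in
/-- The scaling constant of the `α`-norm. -/
theorem const_eq (a b : ℤ) :
    ((q : ℕ) : Qb) ^ (-a) * (D.ϖ ^ (-b)) ^ (q - 1)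
      = ((q : ℕ) : Qb) ^ (-(a + b)) * D.ε ^ (-b) := by
  have h1 : (D.ϖ ^ (-b)) ^ (q - 1) = (D.ϖ ^ (q - 1)) ^ (-b) := by
    rw [← zpow_natCast, ← zpow_mul, ← zpow_natCast, ← zpow_mul, mul_comm]
  rw [h1, D.hϖq, mul_zpow, ← mul_assoc, ← zpow_add₀ hq0]
  congr 2
  ring

include D in
/-- **(N1a)** `w_F (N_α u) = v₁ u + v₂ u`. -/
theorem N1a (hq : q.Prime) (hqN : q ∣ N)
    {u : modularFunctionFieldBar (N * q)} (hu : u ∈ D.S₂) (hu0 : u ≠ 0) :
    D.wF (Nα u) = D.v₁ u + D.v₂ u := by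
  obtain ⟨r, hr, hr0⟩ := D.go₁ u hu hu0
  obtain ⟨s, hs, hs0⟩ := D.go₂ u hu hu0
  have h2 := h52_red_alpha_scaled hq hqN D.E D.hEα D.hEinj D.hEne _ _ u hr
    (fun i => D.mg u hu _ i s hs)
  have h3 : r * ∏ _i : Fin (q - 1), s ≠ 0 :=
    mul_ne_zero hr0 (Finset.prod_ne_zero_iff.mpr fun _ _ => hs0)
  have hne : Nα u ≠ 0 := h67_normAlong_ne_zero _ (h88_finiteAlong_alpha N q) hu0
  have hq1 : 1 ≤ q - 1 := by have := hq.two_le; omega
  have hε0 := D.hε0 hq1
  refine D.goF.eq_of_GU (natCast_mem A q) hq0 D.hq (D.hNα u hu) hne (ε := D.ε ^ (-(D.v₂ u)))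
    (D.unit_zpow _) ?_ (zpow_ne_zero _ hε0) ⟨_, h2.congr ?_, h3⟩
  · rw [← zpow_neg]
    exact D.unit_zpow _
  · rw [D.const_eq]
    rfl

include D in
/-- **(N1d)** `w_V (N_β u) = v₂ u + v₃ u`. -/
theorem N1d (hq : q.Prime) (hqN : q ∣ N)
    {u : modularFunctionFieldBar (N * q)} (hu : u ∈ D.S₂) (hu0 : u ≠ 0) :
    D.wV (Nβ u) = D.v₂ u + D.v₃ u := by
  have hWu := D.hW u hu
  have hWu0 := D.W_ne_zero hu0
  obtain ⟨r, hr, hr0⟩ := D.go₁ (D.W u) hWu hWu0
  obtain ⟨s, hs, hs0⟩ := D.go₂ (D.W u) hWu hWu0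
  have h2 := h52_red_alpha_scaled hq hqN D.E D.hEα D.hEinj D.hEne _ _ (D.W u) hr
    (fun i => D.mg (D.W u) hWu _ i s hs)
  have h3 : r * ∏ _i : Fin (q - 1), s ≠ 0 :=
    mul_ne_zero hr0 (Finset.prod_ne_zero_iff.mpr fun _ _ => hs0)
  have hne : Nβ u ≠ 0 := h67_normAlong_ne_zero _ (h88_finiteAlong_beta N q) hu0
  have hq1 : 1 ≤ q - 1 := by have := hq.two_le; omega
  have hε0 := D.hε0 hq1
  rw [← h49_normAlong_conj' N q D.w D.hww D.W D.hWW D.hWα u] at h2
  have key := D.goV.eq_of_GU (natCast_mem A q) hq0 D.hq (D.hNβ u hu) hne (n := D.v₁ (D.W u) + D.v₂ (D.W u))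
    (ε := D.ε ^ (-(D.v₂ (D.W u)))) (D.unit_zpow _)
    (by rw [← zpow_neg]; exact D.unit_zpow _) (zpow_ne_zero _ hε0)
    ⟨_, h2.congr (by rw [D.const_eq]; rfl), h3⟩
  rw [key, D.v₁_W hu hu0, D.v₂_W hu hu0]
  ring

end h52_NRData

end Fermat.Agent.S36
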