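/-
S36 / row NR (helper52): residues of the norms along `α`, `β` in valuation form
((N2), (N3), (N4) and (NRc)), from the data `h52_NRData` of `h52_NRAdapter`.
-/
import Mathlib
import Fermat.Agent.S36.h52_NRAdapter

set_option autoImplicit false
set_option synthInstance.maxHeartbeats 400000

noncomputable section

open ModularCurve AlgebraicCurve

namespace Fermat.Agent.S36

open Fermat.Agent.S34 Fermat.Agent.S37 Fermat.Agent.S24 Fermat.Agent.S35 Fermat.Agent.S18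
  Fermat.Agent.GAL

local notation "Qb" => AlgebraicClosure ℚ

namespace h52_NRData

variable {N q : ℕ} [NeZero N] [NeZero q] {A : ValuationSubring Qb} (D : h52_NRData N q A)

local notation "Nα" => h67_normAlong (heckeAlphaBar Qb N q)
local notation "Nβ" => h67_normAlong (heckeBetaBar Qb N q)
local notation "kA" => IsLocalRing.ResidueField A

theorem coe_alpha (e : modularFunctionFieldBar N) :
    ((heckeAlphaBar Qb N q e : modularFunctionFieldBar (N * q)) : LaurentSeries Qb)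
      = (e : LaurentSeries Qb) := coe_heckeAlphaBar (L := Qb) N q e

/-! ### (N2)–(N4): residues of norms -/

include D in
/-- **(N3)** `β (N_β u) ≡ u ^ q` modulo `P₁`, for `u` a unit at `P₁`. -/
theorem N3 [Fact q.Prime] (hqN : q ∣ N) [CharP kA q]
    {u : modularFunctionFieldBar (N * q)} (hu : u ∈ D.S₂) (hu0 : u ≠ 0) (hv : D.v₁ u = 0) :
    h52_Cong D.v₁ (heckeBetaBar Qb N q (Nβ u)) (u ^ q) := by
  obtain ⟨r, hr, -⟩ := D.go₁.GU_of_zero hu hu0 hv
  have h1 := h52_red_beta_pow N q A hqN u hr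
  refine D.go₁.cong_of_red (natCast_mem A q) (D.hβ _ (D.hNβ u hu)) (D.S₂.pow_mem hu q) h1 ?_
  rw [map_pow]
  exact hr.pow q

include D in
/-- **(N2)** `α (N_α u) ≡ u ^ q` modulo `P₃`, for `u` a unit at `P₃`. -/
theorem N2 [Fact q.Prime] (hqN : q ∣ N) [CharP kA q]
    {u : modularFunctionFieldBar (N * q)} (hu : u ∈ D.S₂) (hu0 : u ≠ 0) (hv : D.v₃ u = 0) :
    h52_Cong D.v₃ (heckeAlphaBar Qb N q (Nα u)) (u ^ q) := by
  obtain ⟨r, hr, -⟩ := D.go₃.GU_of_zero hu hu0 hv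
  have h1 := h52_red_conj_pow hqN D.w D.hww D.W D.hWW D.hWα u hr
  refine D.go₃.cong_of_red (natCast_mem A q) (D.hα _ (D.hNα u hu)) (D.S₂.pow_mem hu q) h1 ?_
  rw [map_pow]
  exact hr.pow q

include D in
/-- **(N4)** `α (N_α u) ≡ u · α(g) ^ (q - 1)` modulo `P₁`, for `u` a unit at `P₁`, `P₂` and
`u ≡ α g` modulo `P₂`. -/
theorem N4 (hq : q.Prime) (hqN : q ∣ N)
    {u : modularFunctionFieldBar (N * q)} (hu : u ∈ D.S₂) (hu0 : u ≠ 0) (hv₁ : D.v₁ u = 0)
    (hv₂ : D.v₂ u = 0) {g : modularFunctionFieldBar N} (hg : g ∈ D.S₁)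
    (hc : h52_Cong D.v₂ u (heckeAlphaBar Qb N q g)) :
    h52_Cong D.v₁ (heckeAlphaBar Qb N q (Nα u)) (u * heckeAlphaBar Qb N q g ^ (q - 1)) := by
  obtain ⟨r, hr, -⟩ := D.go₁.GU_of_zero hu hu0 hv₁
  obtain ⟨s, hs, -⟩ := D.go₂.GU_of_zero hu hu0 hv₂
  have h1 := h52_red_alpha hq hqN D.E D.hEα D.hEinj D.hEne u hr (fun i => D.mg1 hu i hs)
  rw [Finset.prod_const, Finset.card_univ, Fintype.card_fin] at h1
  have hgs : h52_Red A (g : LaurentSeries Qb) s := by
    have := D.go₂.red_of_cong D.hϖ D.hϖ0 D.hϖn hu (D.hα g hg) hc hs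
    rwa [D.hEα] at this
  have hx : h52_Red A ((modularFunctionFieldBar (N * q)).val.toRingHom
      (heckeAlphaBar Qb N q (Nα u))) (r * s ^ (q - 1)) := by
    rw [val_apply, coe_alpha]
    exact h1
  have hy : h52_Red A ((modularFunctionFieldBar (N * q)).val.toRingHom
      (u * heckeAlphaBar Qb N q g ^ (q - 1))) (r * s ^ (q - 1)) := by
    rw [map_mul, map_pow, val_apply (N * q) (heckeAlphaBar Qb N q g), coe_alpha]
    exact hr.mul (hgs.pow _)
  exact D.go₁.cong_of_red (natCast_mem A q) (D.hα _ (D.hNα u hu))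
    (D.S₂.mul_mem hu (D.S₂.pow_mem (D.hα g hg) _)) hx hy

/-! ### (NRc): functions congruent to constants -/

theorem red_const (M : ℕ) [NeZero M] {z : Qb} (hz : z ∈ A) :
    h52_Red A ((modularFunctionFieldBar M).val.toRingHom
      (algebraMap Qb (modularFunctionFieldBar M) z))
      (algebraMap kA (LaurentSeries kA) (IsLocalRing.residue A ⟨z, hz⟩)) := by
  show h52_Red A (algebraMap Qb (LaurentSeries Qb) z) _
  exact h52_Red.const hz

include D in
theorem red_constW {z : Qb} (hz : z ∈ A) :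
    h52_Red A (((modularFunctionFieldBar (N * q)).val.toRingHom.comp D.W)
      (algebraMap Qb (modularFunctionFieldBar (N * q)) z))
      (algebraMap kA (LaurentSeries kA) (IsLocalRing.residue A ⟨z, hz⟩)) := by
  rw [RingHom.comp_apply, D.hWc]
  exact red_const (N * q) hz

include D in
theorem red_constw {z : Qb} (hz : z ∈ A) :
    h52_Red A (((modularFunctionFieldBar N).val.toRingHom.comp D.w)
      (algebraMap Qb (modularFunctionFieldBar N) z))
      (algebraMap kA (LaurentSeries kA) (IsLocalRing.residue A ⟨z, hz⟩)) := by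
  rw [RingHom.comp_apply, D.hwc]
  exact red_const N hz

include D in
theorem red_constE {z : Qb} (hz : z ∈ A) (i : Fin (q - 1)) :
    h52_Red A (D.E i (algebraMap Qb (modularFunctionFieldBar (N * q)) z))
      (algebraMap kA (LaurentSeries kA) (IsLocalRing.residue A ⟨z, hz⟩)) := by
  rw [h49_E_const N q (D.E i) (D.hEα i)]
  exact h52_Red.const hz

omit [NeZero N] [NeZero q] in
theorem frob_const [Fact q.Prime] [CharP kA q] (c : kA) :
    coeffMap (frobenius kA q) (algebraMap kA (LaurentSeries kA) c)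
      = algebraMap kA (LaurentSeries kA) c ^ q := by
  rw [coeffMap_algebraMap, frobenius_def, map_pow]

include D in
/-- **(NRc), `α` at `Z_F`.** -/
theorem NRc_alpha_F (hq : q.Prime) (hqN : q ∣ N)
    {f : modularFunctionFieldBar (N * q)} (hf : f ∈ D.S₂) {z₁ z₂ : Qb} (h₁ : z₁ ∈ D.K₀)
    (h₂ : z₂ ∈ D.K₀) (hz₁ : z₁ ∈ A) (hz₂ : z₂ ∈ A)
    (c₁ : h52_Cong D.v₁ f (algebraMap Qb (modularFunctionFieldBar (N * q)) z₁))
    (c₂ : h52_Cong D.v₂ f (algebraMap Qb (modularFunctionFieldBar (N * q)) z₂)) :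
    h52_Cong D.wF (Nα f) (algebraMap Qb (modularFunctionFieldBar N) (z₁ * z₂ ^ (q - 1))) := by
  have r1 := D.go₁.red_of_cong' (natCast_mem A q) hq0 D.hq hf (D.hK₂ _ h₁) c₁
    (red_const (N * q) hz₁)
  have r2 := D.go₂.red_of_cong' D.hϖ D.hϖ0 D.hϖn hf (D.hK₂ _ h₂) c₂ (D.red_constE hz₂ D.i₀)
  have h1 := h52_red_alpha hq hqN D.E D.hEα D.hEinj D.hEne f r1 (fun i => D.mg1 hf i r2)
  rw [Finset.prod_const, Finset.card_univ, Fintype.card_fin] at h1
  refine D.goF.cong_of_red (natCast_mem A q) (D.hNα f hf)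
    (D.hK₁ _ (D.K₀.mul_mem h₁ (D.K₀.pow_mem h₂ _))) h1 ?_
  show h52_Red A (algebraMap Qb (LaurentSeries Qb) (z₁ * z₂ ^ (q - 1))) _
  rw [map_mul, map_pow]
  exact (h52_Red.const hz₁).mul ((h52_Red.const hz₂).pow _)

include D in
/-- **(NRc), `β` at `Z_F`.** -/
theorem NRc_beta_F [Fact q.Prime] (hqN : q ∣ N) [CharP kA q]
    {f : modularFunctionFieldBar (N * q)} (hf : f ∈ D.S₂) {z₁ : Qb} (h₁ : z₁ ∈ D.K₀)
    (hz₁ : z₁ ∈ A)
    (c₁ : h52_Cong D.v₁ f (algebraMap Qb (modularFunctionFieldBar (N * q)) z₁)) :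
    h52_Cong D.wF (Nβ f) (algebraMap Qb (modularFunctionFieldBar N) (z₁ ^ q)) := by
  have r1 := D.go₁.red_of_cong' (natCast_mem A q) hq0 D.hq hf (D.hK₂ _ h₁) c₁
    (red_const (N * q) hz₁)
  have h1 := h52_red_beta N q A hqN f r1
  rw [frob_const] at h1
  refine D.goF.cong_of_red (natCast_mem A q) (D.hNβ f hf) (D.hK₁ _ (D.K₀.pow_mem h₁ _)) h1 ?_
  show h52_Red A (algebraMap Qb (LaurentSeries Qb) (z₁ ^ q)) _
  rw [map_pow]
  exact (h52_Red.const hz₁).pow _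

include D in
/-- **(NRc), `α` at `Z_V`.** -/
theorem NRc_alpha_V [Fact q.Prime] (hqN : q ∣ N) [CharP kA q]
    {f : modularFunctionFieldBar (N * q)} (hf : f ∈ D.S₂) {z₃ : Qb} (h₃ : z₃ ∈ D.K₀)
    (hz₃ : z₃ ∈ A)
    (c₃ : h52_Cong D.v₃ f (algebraMap Qb (modularFunctionFieldBar (N * q)) z₃)) :
    h52_Cong D.wV (Nα f) (algebraMap Qb (modularFunctionFieldBar N) (z₃ ^ q)) := by
  have r3 := D.go₃.red_of_cong' (natCast_mem A q) hq0 D.hq hf (D.hK₂ _ h₃) c₃
    (D.red_constW hz₃)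
  have h1 := h52_red_beta N q A hqN (D.W f) r3
  rw [frob_const, h49_normAlong_conj N q D.w D.hww D.W D.hWW D.hWα f] at h1
  refine D.goV.cong_of_red (natCast_mem A q) (D.hNα f hf) (D.hK₁ _ (D.K₀.pow_mem h₃ _)) h1 ?_
  rw [map_pow, map_pow]
  exact (D.red_constw hz₃).pow _

include D in
/-- **(NRc), `β` at `Z_V`.** -/
theorem NRc_beta_V (hq : q.Prime) (hqN : q ∣ N)
    {f : modularFunctionFieldBar (N * q)} (hf : f ∈ D.S₂) {z₂ z₃ : Qb} (h₂ : z₂ ∈ D.K₀)
    (h₃ : z₃ ∈ D.K₀) (hz₂ : z₂ ∈ A) (hz₃ : z₃ ∈ A)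
    (c₂ : h52_Cong D.v₂ f (algebraMap Qb (modularFunctionFieldBar (N * q)) z₂))
    (c₃ : h52_Cong D.v₃ f (algebraMap Qb (modularFunctionFieldBar (N * q)) z₃)) :
    h52_Cong D.wV (Nβ f) (algebraMap Qb (modularFunctionFieldBar N) (z₂ ^ (q - 1) * z₃)) := by
  have r3 := D.go₃.red_of_cong' (natCast_mem A q) hq0 D.hq hf (D.hK₂ _ h₃) c₃
    (D.red_constW hz₃)
  have r2 := D.go₂.red_of_cong' D.hϖ D.hϖ0 D.hϖn hf (D.hK₂ _ h₂) c₂ (D.red_constE hz₂ D.i₀)
  have r2' := D.mw1 hf r2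
  have h1 := h52_red_alpha hq hqN D.E D.hEα D.hEinj D.hEne (D.W f) r3
    (fun i => D.mg1 (D.hW f hf) i r2')
  rw [Finset.prod_const, Finset.card_univ, Fintype.card_fin,
    ← h49_normAlong_conj' N q D.w D.hww D.W D.hWW D.hWα f] at h1
  refine D.goV.cong_of_red (natCast_mem A q) (D.hNβ f hf)
    (D.hK₁ _ (D.K₀.mul_mem (D.K₀.pow_mem h₂ _) h₃)) h1 ?_
  rw [mul_comm (z₂ ^ (q - 1)) z₃, map_mul, map_pow, map_mul, map_pow]
  exact (D.red_constw hz₃).mul ((D.red_constw hz₂).pow _)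

end h52_NRData

end Fermat.Agent.S36
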