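import Fermat.Agent.S36.h60_HasseHaupt

/-!
# S36 / (HASSE) row (O) at every charted level (helper60)

`h60_hasse_fb_charted`: the statement `h60_hasse_fb` at every charted `(M, q)`
(`5 ≤ q ∨ 2 ∣ M ∨ 3 ∣ M`, `q ∤ M`), with no reference to a chart or a reduction datum:
for `t ∈ Fb(M)` regular where `j̄` is finite and with `t - c₀` a uniformiser at a place `y`
where `j̄` is finite, `(θ t)^n` is (the series of) a nonzero `c ∈ Fb(M)` with
`6 ord_y c = ord_y W`.  (`θ` abstract.)
-/

set_option autoImplicit false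

noncomputable section

open AlgebraicCurve KaehlerDifferential ModularCurve
open Fermat.Agent.S18 Fermat.Agent.S24 Fermat.Agent.S27

namespace Fermat.Agent.S36

local notation "Qb" => AlgebraicClosure ℚ

/-- A prime `p ≠ q` is nonzero in the residue field of a valuation ring over `q`. -/
theorem h60_prime_ne_zero_res (q : ℕ) [Fact q.Prime] (A : ValuationSubring Qb)
    (hA : A.LiesOverPrime q) (p : ℕ) (hp : p.Prime) (hpq : q ≠ p) :
    ((p : ℕ) : IsLocalRing.ResidueField A) ≠ 0 := by
  have : CharP (IsLocalRing.ResidueField A) q := h19_residueField_charP A q hA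
  intro h0
  rw [CharP.cast_eq_zero_iff (IsLocalRing.ResidueField A) q] at h0
  exact hpq ((Nat.prime_dvd_prime_iff_eq (Fact.out : q.Prime) hp).mp h0)

/-- **(O) at every charted level, on the special fibre** (`θ` abstract). -/
theorem h60_hasse_fb_charted (M q : ℕ) [NeZero M] [Fact q.Prime] (hqM : ¬ q ∣ M)
    (hch : 5 ≤ q ∨ 2 ∣ M ∨ 3 ∣ M) (A : ValuationSubring Qb) (hA : A.LiesOverPrime q)
    (h2 : nuTwo M = 0) (h3 : nuThree M = 0)
    (θQ : LaurentSeries Qb → LaurentSeries Qb) (θA : LaurentSeries A → LaurentSeries A)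
    (θk : LaurentSeries (IsLocalRing.ResidueField A) → LaurentSeries (IsLocalRing.ResidueField A))
    (hQ : ∀ f g : LaurentSeries Qb, θQ (f * g) = θQ f * g + f * θQ g)
    (hk : ∀ f g : LaurentSeries (IsLocalRing.ResidueField A), θk (f * g) = θk f * g + f * θk g)
    (hιθ : ∀ y : LaurentSeries A, θQ (coeffMap A.subtype y) = coeffMap A.subtype (θA y))
    (hπθ : ∀ y : LaurentSeries A, θk (coeffMap (IsLocalRing.residue A) y)
      = coeffMap (IsLocalRing.residue A) (θA y))
    (hθj : θk (jqModC (IsLocalRing.ResidueField A)) ≠ 0)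
    (hDJ : ∃ δ : Derivation Qb ↥(modularFunctionFieldBar M) ↥(modularFunctionFieldBar M),
      δ (h59_jbar M) = 1 ∧ ∀ f : ↥(modularFunctionFieldBar M), θQ (f : LaurentSeries Qb)
        = ((δ f : ↥(modularFunctionFieldBar M)) : LaurentSeries Qb)
          * θQ ((h59_jbar M : ↥(modularFunctionFieldBar M)) : LaurentSeries Qb))
    (y : Place (IsLocalRing.ResidueField A)
      ↥(modularFunctionFieldFullC (IsLocalRing.ResidueField A) M))
    (hy : h54_jk (IsLocalRing.ResidueField A) M ∈ y.toValuationSubring)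
    (t : ↥(modularFunctionFieldFullC (IsLocalRing.ResidueField A) M))
    (ht : ∀ Q : Place (IsLocalRing.ResidueField A)
        ↥(modularFunctionFieldFullC (IsLocalRing.ResidueField A) M),
      h54_jk (IsLocalRing.ResidueField A) M ∈ Q.toValuationSubring → t ∈ Q.toValuationSubring)
    (c₀ : IsLocalRing.ResidueField A)
    (hs1 : y.ord (t - algebraMap (IsLocalRing.ResidueField A)
      ↥(modularFunctionFieldFullC (IsLocalRing.ResidueField A) M) c₀) = 1)
    (n : ℕ) (W Rρ : ↥(modularFunctionFieldFullC (IsLocalRing.ResidueField A) M)) (hW : W ≠ 0)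
    (hRρ : (Rρ : LaurentSeries (IsLocalRing.ResidueField A))
      = θk (jqModC (IsLocalRing.ResidueField A)) ^ n)
    (hU : Rρ ^ 6 = W * (h54_jk (IsLocalRing.ResidueField A) M ^ 4
      * (h54_jk (IsLocalRing.ResidueField A) M - 1728) ^ 3) ^ n) :
    ∃ c : ↥(modularFunctionFieldFullC (IsLocalRing.ResidueField A) M),
      (c : LaurentSeries (IsLocalRing.ResidueField A))
        = θk (t : LaurentSeries (IsLocalRing.ResidueField A)) ^ n ∧
      c ≠ 0 ∧ 6 * y.ord c = y.ord W := by
  have hR := h54_isModRed M hqM A hA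
  rcases hch with h5 | h2M | h3M
  · exact h60_hasse_fb M A hR (h54_chart_j M hqM h5 A hA) h2 h3 θQ θA θk hQ hk hιθ hπθ hθj hDJ
      y hy t ht c₀ hs1 n W Rρ hW hRρ hU
  · have h2k : (2 : IsLocalRing.ResidueField A) ≠ 0 := by
      have := h60_prime_ne_zero_res q A hA 2 Nat.prime_two (fun h => hqM (h ▸ h2M))
      exact_mod_cast this
    exact h60_hasse_fb_h2 M A hR h2M (h54_chart_h2 M h2M hqM A hA) h2k h2 h3 θQ θA θk hQ hk hιθ
      hπθ hθj hDJ y hy t ht c₀ hs1 n W Rρ hW hRρ hU
  · have h3k : (3 : IsLocalRing.ResidueField A) ≠ 0 := by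
      have := h60_prime_ne_zero_res q A hA 3 Nat.prime_three (fun h => hqM (h ▸ h3M))
      exact_mod_cast this
    exact h60_hasse_fb_h3 M A hR h3M (h54_chart_h3 M h3M hqM A hA) h3k h2 h3 θQ θA θk hQ hk hιθ
      hπθ hθj hDJ y hy t ht c₀ hs1 n W Rρ hW hRρ hU

end Fermat.Agent.S36

end
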