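import Fermat.Agent.S36.h60_HasseOrd
import Fermat.Agent.S18.GR_Genus

/-!
# S36 / (HASSE) row (O): the statement on the special fibre (helper60)

`h60_hasse_fb`: the consumer form of `h60_hasse_mod`, with no reference to a lift: for every
`t ∈ Fb(M)` regular where `j̄` is finite and with `t - c₀` a uniformiser at a finite place `y`,
`(θ t)^n` is (the series of) a nonzero element `c` of `Fb(M)` with `6 ord_y c = ord_y W`.
(`θ` abstract, as in `h60_hasse_mod`.)
-/

set_option autoImplicit false

noncomputable section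

open AlgebraicCurve KaehlerDifferential ModularCurve
open Fermat.Agent.S18 Fermat.Agent.S24

namespace Fermat.Agent.S36

local notation "Qb" => AlgebraicClosure ℚ

/-- **(O) on the special fibre** (chart `j`, i.e. `q ≥ 5`; `θ` abstract). -/
theorem h60_hasse_fb (M : ℕ) [NeZero M] (A : ValuationSubring Qb)
    {R : h39_RedDatum Qb ↥(modularFunctionFieldBar M) (IsLocalRing.ResidueField A)
      ↥(modularFunctionFieldFullC (IsLocalRing.ResidueField A) M)} (hR : h54_IsModRed M A R)
    (hchart : h39_Chart R (h59_jbar M)) (h2 : nuTwo M = 0) (h3 : nuThree M = 0)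
    (θQ : LaurentSeries Qb → LaurentSeries Qb) (θA : LaurentSeries A → LaurentSeries A)
    (θk : LaurentSeries (IsLocalRing.ResidueField A) → LaurentSeries (IsLocalRing.ResidueField A))
    (hQ : ∀ f g : LaurentSeries Qb, θQ (f * g) = θQ f * g + f * θQ g)
    (hk : ∀ f g : LaurentSeries (IsLocalRing.ResidueField A), θk (f * g) = θk f * g + f * θk g)
    (hιθ : ∀ y : LaurentSeries A, θQ (coeffMap A.subtype y) = coeffMap A.subtype (θA y))
    (hπθ : ∀ y : LaurentSeries A, θk (coeffMap (IsLocalRing.residue A) y)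
      = coeffMap (IsLocalRing.residue A) (θA y))
    (hθj : θk (jqModC (IsLocalRing.ResidueField A)) ≠ 0)
    (hDJ : ∃ δ : Derivation Qb ↥(modularFunctionFieldBar M) ↥(modularFunctionFieldBar M),
      δ (h59_jbar M) = 1 ∧ ∀ f : ↥(modularFunctionFieldBar M), θQ (f : LaurentSeries Qb)
        = ((δ f : ↥(modularFunctionFieldBar M)) : LaurentSeries Qb)
          * θQ ((h59_jbar M : ↥(modularFunctionFieldBar M)) : LaurentSeries Qb))
    (y : Place (IsLocalRing.ResidueField A)
      ↥(modularFunctionFieldFullC (IsLocalRing.ResidueField A) M))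
    (hy : h54_jk (IsLocalRing.ResidueField A) M ∈ y.toValuationSubring)
    (t : ↥(modularFunctionFieldFullC (IsLocalRing.ResidueField A) M))
    (ht : ∀ Q : Place (IsLocalRing.ResidueField A)
        ↥(modularFunctionFieldFullC (IsLocalRing.ResidueField A) M),
      h54_jk (IsLocalRing.ResidueField A) M ∈ Q.toValuationSubring → t ∈ Q.toValuationSubring)
    (c₀ : IsLocalRing.ResidueField A)
    (hs1 : y.ord (t - algebraMap (IsLocalRing.ResidueField A)
      ↥(modularFunctionFieldFullC (IsLocalRing.ResidueField A) M) c₀) = 1)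
    (n : ℕ) (W Rρ : ↥(modularFunctionFieldFullC (IsLocalRing.ResidueField A) M)) (hW : W ≠ 0)
    (hRρ : (Rρ : LaurentSeries (IsLocalRing.ResidueField A))
      = θk (jqModC (IsLocalRing.ResidueField A)) ^ n)
    (hU : Rρ ^ 6 = W * (h54_jk (IsLocalRing.ResidueField A) M ^ 4
      * (h54_jk (IsLocalRing.ResidueField A) M - 1728) ^ 3) ^ n) :
    ∃ c : ↥(modularFunctionFieldFullC (IsLocalRing.ResidueField A) M),
      (c : LaurentSeries (IsLocalRing.ResidueField A))
        = θk (t : LaurentSeries (IsLocalRing.ResidueField A)) ^ n ∧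
      c ≠ 0 ∧ 6 * y.ord c = y.ord W := by
  have : IsAlgClosed (IsLocalRing.ResidueField A) := h19_residueField_isAlgClosed A
  have hw : h39_WeakChart R (h59_jbar M) := hchart.toh39_WeakChart
  have hredJ : R.redF (h59_jbar M) = h54_jk (IsLocalRing.ResidueField A) M := h54_redF_jbar hR
  obtain ⟨s, hsO, hsreg, hst⟩ := h39_lift_integral R hw (h39_genus_eq R hchart) t
    (by rw [hredJ]; exact ht)
  have key := h60_hasse_mod M A hR hchart h2 h3 θQ θA θk hQ hk hιθ hπθ hθj hDJ y hy s hsO hsreg
    c₀ (by rw [hst]; exact hs1) n W Rρ hW hRρ hU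
  rwa [hst] at key

end Fermat.Agent.S36

end
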