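import Fermat.Agent.S36.h60_HasseTheta
import Fermat.Agent.S36.h81_CountW
import Fermat.Agent.S34.h60_R1

/-!
# S36 / (HASSE) row (O) = H(b), consumer forms (helper60)

Level `M`, `q ∤ M` charted, `k` the residue field of `A` over `q`, `Fb = Fb(M)`, `jb = j̄`.
`Rρ, W ∈ Fb` with `Rρ = (θ j̄)^(q-1)` [(RHO)] and `Rρ^6 = W (j̄^4 (j̄ - 1728)^3)^(q-1)` [(U)].

* `h60_hasse_unit` : if `ord_y W = 0` at a non-cusp place `y`, then `(θ t)^(q-1)` is a unit at
  `y` for every `t` regular off the cusps with `t - t(y)` a uniformiser at `y`;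
* `h60_hasse_final` : the same with `ord_y W = 0` supplied by helper81's count
  (`h81_CountHyp.ordW`): `y ∉ T`, `y` not a node point;
* `h60_hasse_final_ss` : at a node point `Φ S` the function `(θ t)^(q-1)` has a pole of order
  exactly `2`.
-/

set_option autoImplicit false

noncomputable section

open AlgebraicCurve KaehlerDifferential ModularCurve
open Fermat.Agent.S18 Fermat.Agent.S24 Fermat.Agent.S34

namespace Fermat.Agent.S36

local notation "Qb" => AlgebraicClosure ℚ

variable (M : ℕ) [NeZero M] (q : ℕ) [Fact q.Prime] (hqM : ¬ q ∣ M)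
  (hch : 5 ≤ q ∨ 2 ∣ M ∨ 3 ∣ M) (A : ValuationSubring Qb) (hA : A.LiesOverPrime q)
  (h2 : nuTwo M = 0) (h3 : nuThree M = 0)

include hqM hch hA h2 h3 in
/-- **H(b), unit form**: `(θ t)^(q-1)` is a unit at every non-cusp `y` with `ord_y W = 0`. -/
theorem h60_hasse_unit
    (W Rρ : ↥(modularFunctionFieldFullC (IsLocalRing.ResidueField A) M)) (hW : W ≠ 0)
    (hRρ : (Rρ : LaurentSeries (IsLocalRing.ResidueField A))
      = h20_thetaFun (jqModC (IsLocalRing.ResidueField A)) ^ (q - 1))
    (hU : Rρ ^ 6 = W * (h54_jk (IsLocalRing.ResidueField A) M ^ 4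
      * (h54_jk (IsLocalRing.ResidueField A) M - 1728) ^ 3) ^ (q - 1))
    (y : Place (IsLocalRing.ResidueField A)
      ↥(modularFunctionFieldFullC (IsLocalRing.ResidueField A) M))
    (hy : h54_jk (IsLocalRing.ResidueField A) M ∈ y.toValuationSubring)
    (hyW : y.ord W = 0)
    (t : ↥(modularFunctionFieldFullC (IsLocalRing.ResidueField A) M))
    (ht : ∀ Q : Place (IsLocalRing.ResidueField A)
        ↥(modularFunctionFieldFullC (IsLocalRing.ResidueField A) M),
      h54_jk (IsLocalRing.ResidueField A) M ∈ Q.toValuationSubring → t ∈ Q.toValuationSubring)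
    (c₀ : IsLocalRing.ResidueField A)
    (hs1 : y.ord (t - algebraMap (IsLocalRing.ResidueField A)
      ↥(modularFunctionFieldFullC (IsLocalRing.ResidueField A) M) c₀) = 1) :
    ∃ c : ↥(modularFunctionFieldFullC (IsLocalRing.ResidueField A) M),
      (c : LaurentSeries (IsLocalRing.ResidueField A))
        = h20_thetaFun (t : LaurentSeries (IsLocalRing.ResidueField A)) ^ (q - 1) ∧
      c ≠ 0 ∧ y.ord c = 0 := by
  obtain ⟨c, hc, hc0, hord⟩ :=
    h60_hasse_theta M q hqM hch A hA h2 h3 y hy t ht c₀ hs1 (q - 1) W Rρ hW hRρ hU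
  refine ⟨c, hc, hc0, ?_⟩
  rw [hyW] at hord
  omega

section Count

variable {R₂ : h39_RedDatum Qb ↥(modularFunctionFieldBar (M * q)) (IsLocalRing.ResidueField A)
    ↥(modularFunctionFieldFullC (IsLocalRing.ResidueField A) M)}
  {D : h22_Lat Qb ↥(modularFunctionFieldBar (M * q)) (IsLocalRing.ResidueField A)
    (↥(modularFunctionFieldFullC (IsLocalRing.ResidueField A) M)
      × ↥(modularFunctionFieldFullC (IsLocalRing.ResidueField A) M))}
  {D0 : Divisor Qb ↥(modularFunctionFieldBar (M * q))}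
  {Qinf : Place (IsLocalRing.ResidueField A)
    ↥(modularFunctionFieldFullC (IsLocalRing.ResidueField A) M)}
  {Sg : Finset (Place (IsLocalRing.ResidueField A)
    ↥(modularFunctionFieldFullC (IsLocalRing.ResidueField A) M))}
  {Φ : Place (IsLocalRing.ResidueField A)
      ↥(modularFunctionFieldFullC (IsLocalRing.ResidueField A) M) →
    Place (IsLocalRing.ResidueField A)
      ↥(modularFunctionFieldFullC (IsLocalRing.ResidueField A) M)}
  {B F0 : Subring ↥(modularFunctionFieldBar (M * q))}
  {T : Finset (Place (IsLocalRing.ResidueField A)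
    ↥(modularFunctionFieldFullC (IsLocalRing.ResidueField A) M))}
  {π : Qb} {u : ↥(modularFunctionFieldBar (M * q))} {C : ℤ}

include hqM hch hA h2 h3 in
/-- **H(b), final form**: with helper81's count, `(θ t)^(q-1)` is a unit at every place `y` of
the special fibre which is neither a cusp nor a node point. -/
theorem h60_hasse_final
    [HasPrincipalDivisors (IsLocalRing.ResidueField A)
      ↥(modularFunctionFieldFullC (IsLocalRing.ResidueField A) M)]
    (H : h81_CountHyp (h60_R1 M q hqM A hA) R₂ D D0 Qinf Sg Φ B F0 T π u C)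
    (Rρ : ↥(modularFunctionFieldFullC (IsLocalRing.ResidueField A) M))
    (hRρ : (Rρ : LaurentSeries (IsLocalRing.ResidueField A))
      = h20_thetaFun (jqModC (IsLocalRing.ResidueField A)) ^ (q - 1))
    (hU : Rρ ^ 6 = (h60_R1 M q hqM A hA).redF u
      * (h54_jk (IsLocalRing.ResidueField A) M ^ 4
        * (h54_jk (IsLocalRing.ResidueField A) M - 1728) ^ 3) ^ (q - 1))
    (y : Place (IsLocalRing.ResidueField A)
      ↥(modularFunctionFieldFullC (IsLocalRing.ResidueField A) M))
    (hy : h54_jk (IsLocalRing.ResidueField A) M ∈ y.toValuationSubring)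
    (hyT : y ∉ T) (hyS : ∀ S ∈ Sg, y ≠ Φ S)
    (t : ↥(modularFunctionFieldFullC (IsLocalRing.ResidueField A) M))
    (ht : ∀ Q : Place (IsLocalRing.ResidueField A)
        ↥(modularFunctionFieldFullC (IsLocalRing.ResidueField A) M),
      h54_jk (IsLocalRing.ResidueField A) M ∈ Q.toValuationSubring → t ∈ Q.toValuationSubring)
    (c₀ : IsLocalRing.ResidueField A)
    (hs1 : y.ord (t - algebraMap (IsLocalRing.ResidueField A)
      ↥(modularFunctionFieldFullC (IsLocalRing.ResidueField A) M) c₀) = 1) :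
    ∃ c : ↥(modularFunctionFieldFullC (IsLocalRing.ResidueField A) M),
      (c : LaurentSeries (IsLocalRing.ResidueField A))
        = h20_thetaFun (t : LaurentSeries (IsLocalRing.ResidueField A)) ^ (q - 1) ∧
      c ≠ 0 ∧ y.ord c = 0 :=
  h60_hasse_unit M q hqM hch A hA h2 h3 _ Rρ H.hW hRρ hU y hy (H.ordW.2.2 y hyT hyS) t ht c₀ hs1

include hqM hch hA h2 h3 in
/-- **H(b) at the supersingular points**: `(θ t)^(q-1)` has a pole of order exactly `2` at every
node point `Φ S` (for `t` regular off the cusps with `t - t(Φ S)` a uniformiser there). -/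
theorem h60_hasse_final_ss
    [HasPrincipalDivisors (IsLocalRing.ResidueField A)
      ↥(modularFunctionFieldFullC (IsLocalRing.ResidueField A) M)]
    (H : h81_CountHyp (h60_R1 M q hqM A hA) R₂ D D0 Qinf Sg Φ B F0 T π u C)
    (Rρ : ↥(modularFunctionFieldFullC (IsLocalRing.ResidueField A) M))
    (hRρ : (Rρ : LaurentSeries (IsLocalRing.ResidueField A))
      = h20_thetaFun (jqModC (IsLocalRing.ResidueField A)) ^ (q - 1))
    (hU : Rρ ^ 6 = (h60_R1 M q hqM A hA).redF u
      * (h54_jk (IsLocalRing.ResidueField A) M ^ 4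
        * (h54_jk (IsLocalRing.ResidueField A) M - 1728) ^ 3) ^ (q - 1))
    (S : Place (IsLocalRing.ResidueField A)
      ↥(modularFunctionFieldFullC (IsLocalRing.ResidueField A) M)) (hS : S ∈ Sg)
    (hy : h54_jk (IsLocalRing.ResidueField A) M ∈ (Φ S).toValuationSubring)
    (t : ↥(modularFunctionFieldFullC (IsLocalRing.ResidueField A) M))
    (ht : ∀ Q : Place (IsLocalRing.ResidueField A)
        ↥(modularFunctionFieldFullC (IsLocalRing.ResidueField A) M),
      h54_jk (IsLocalRing.ResidueField A) M ∈ Q.toValuationSubring → t ∈ Q.toValuationSubring)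
    (c₀ : IsLocalRing.ResidueField A)
    (hs1 : (Φ S).ord (t - algebraMap (IsLocalRing.ResidueField A)
      ↥(modularFunctionFieldFullC (IsLocalRing.ResidueField A) M) c₀) = 1) :
    ∃ c : ↥(modularFunctionFieldFullC (IsLocalRing.ResidueField A) M),
      (c : LaurentSeries (IsLocalRing.ResidueField A))
        = h20_thetaFun (t : LaurentSeries (IsLocalRing.ResidueField A)) ^ (q - 1) ∧
      c ≠ 0 ∧ (Φ S).ord c = -2 := by
  obtain ⟨c, hc, hc0, hord⟩ :=
    h60_hasse_theta M q hqM hch A hA h2 h3 (Φ S) hy t ht c₀ hs1 (q - 1) _ Rρ H.hW hRρ hU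
  refine ⟨c, hc, hc0, ?_⟩
  rw [H.ordW.2.1 S hS] at hord
  omega

end Count

end Fermat.Agent.S36

end
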