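import Fermat.Agent.S36.h60_RegAt
import Fermat.Agent.S36.h60_HasseFb
import Fermat.Agent.S18.h54_Mod

/-!
# S36 / (HASSE) row (O) at level `M` for an arbitrary chart (helper60)

* `h60_regAt_of_rel` : `J x^m = N` with `N` regular on the chart `x` and `N̄ (y) ≠ 0` when
  `x̄ (y) = 0` makes `J` locally regular at `y` (Hauptmodul charts: `j h₂² = (h₂ + 256)³`, ...);
* `h60_hasse_mod_regAt` : `h60_hasse_mod` for any S18 chart `x` at which `j` is locally regular;
* `h60_hasse_fb_regAt` : the form on the special fibre (`t x̄^m` regular on the chart).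
-/

set_option autoImplicit false

noncomputable section

open AlgebraicCurve KaehlerDifferential ModularCurve
open Fermat.Agent.S18 Fermat.Agent.S24 Fermat.Agent.S27

namespace Fermat.Agent.S36

section Generic

variable {K F k Fb : Type*} [Field K] [Field F] [Algebra K F] [Field k] [Field Fb] [Algebra k Fb]

/-- `J x^m = N`, `N` regular on the chart, `N̄ (y) ≠ 0` if `x̄ (y) = 0`: `J` is locally regular
at `y` (and `x̄ (y) ≠ 0`). -/
theorem h60_regAt_of_rel (R : h39_RedDatum K F k Fb) {x J N : F} (hxO : x ∈ R.O)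
    (hJO : J ∈ R.O) (hNO : N ∈ R.O) (hNreg : h39_Reg K x N) (m : ℕ) (hm : 0 < m)
    (hrel : J * x ^ m = N) (y : Place k Fb) (cx cj : k) (hcx : h39_Val y (R.redF x) cx)
    (hcj : h39_Val y (R.redF J) cj) (hN0 : cx = 0 → ¬ h39_Val y (R.redF N) 0) :
    cx ≠ 0 ∧ h60_RegAt R x y J := by
  have hcx0 : cx ≠ 0 := by
    intro h0
    apply hN0 h0
    have h1 := h39_val_mul y hcj (h69_val_pow y hcx m)
    rw [← h39_redF_pow R hxO, ← h39_redF_mul R hJO (R.O.pow_mem hxO m), hrel, h0,
      zero_pow hm.ne', mul_zero] at h1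
    exact h1
  refine ⟨hcx0, x ^ m, R.O.pow_mem hxO m, fun P hP => P.toValuationSubring.pow_mem hP m,
    by rw [hrel]; exact hNO, by rw [hrel]; exact hNreg, cx ^ m, pow_ne_zero m hcx0, ?_⟩
  rw [h39_redF_pow R hxO]
  exact h69_val_pow y hcx m

end Generic

section Modular

local notation "Qb" => AlgebraicClosure ℚ

variable (M : ℕ) [NeZero M] (A : ValuationSubring Qb)

/-- **(O) at level `M`, arbitrary chart `x`, `θ` abstract.** -/
theorem h60_hasse_mod_regAt
    {R : h39_RedDatum Qb ↥(modularFunctionFieldBar M) (IsLocalRing.ResidueField A)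
      ↥(modularFunctionFieldFullC (IsLocalRing.ResidueField A) M)} (hR : h54_IsModRed M A R)
    {x : ↥(modularFunctionFieldBar M)} (hchart : h39_Chart R x)
    (h2 : nuTwo M = 0) (h3 : nuThree M = 0)
    (θQ : LaurentSeries Qb → LaurentSeries Qb) (θA : LaurentSeries A → LaurentSeries A)
    (θk : LaurentSeries (IsLocalRing.ResidueField A) → LaurentSeries (IsLocalRing.ResidueField A))
    (hQ : ∀ f g : LaurentSeries Qb, θQ (f * g) = θQ f * g + f * θQ g)
    (hk : ∀ f g : LaurentSeries (IsLocalRing.ResidueField A), θk (f * g) = θk f * g + f * θk g)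
    (hιθ : ∀ y : LaurentSeries A, θQ (coeffMap A.subtype y) = coeffMap A.subtype (θA y))
    (hπθ : ∀ y : LaurentSeries A, θk (coeffMap (IsLocalRing.residue A) y)
      = coeffMap (IsLocalRing.residue A) (θA y))
    (hθj : θk (jqModC (IsLocalRing.ResidueField A)) ≠ 0)
    (hDJ : ∃ δ : Derivation Qb ↥(modularFunctionFieldBar M) ↥(modularFunctionFieldBar M),
      δ (h59_jbar M) = 1 ∧ ∀ f : ↥(modularFunctionFieldBar M), θQ (f : LaurentSeries Qb)
        = ((δ f : ↥(modularFunctionFieldBar M)) : LaurentSeries Qb)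
          * θQ ((h59_jbar M : ↥(modularFunctionFieldBar M)) : LaurentSeries Qb))
    (y : Place (IsLocalRing.ResidueField A)
      ↥(modularFunctionFieldFullC (IsLocalRing.ResidueField A) M))
    (hyx : R.redF x ∈ y.toValuationSubring)
    (hy : h54_jk (IsLocalRing.ResidueField A) M ∈ y.toValuationSubring)
    (hJreg : h60_RegAt R x y (h59_jbar M))
    (s : ↥(modularFunctionFieldBar M)) (hsO : s ∈ R.O) (hsreg : h60_RegAt R x y s)
    (c₀ : IsLocalRing.ResidueField A)
    (hs1 : y.ord (R.redF s - algebraMap (IsLocalRing.ResidueField A)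
      ↥(modularFunctionFieldFullC (IsLocalRing.ResidueField A) M) c₀) = 1)
    (n : ℕ) (W Rρ : ↥(modularFunctionFieldFullC (IsLocalRing.ResidueField A) M)) (hW : W ≠ 0)
    (hRρ : (Rρ : LaurentSeries (IsLocalRing.ResidueField A))
      = θk (jqModC (IsLocalRing.ResidueField A)) ^ n)
    (hU : Rρ ^ 6 = W * (h54_jk (IsLocalRing.ResidueField A) M ^ 4
      * (h54_jk (IsLocalRing.ResidueField A) M - 1728) ^ 3) ^ n) :
    ∃ c : ↥(modularFunctionFieldFullC (IsLocalRing.ResidueField A) M),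
      (c : LaurentSeries (IsLocalRing.ResidueField A))
        = θk ((R.redF s : ↥(modularFunctionFieldFullC (IsLocalRing.ResidueField A) M)) :
          LaurentSeries (IsLocalRing.ResidueField A)) ^ n ∧
      c ≠ 0 ∧ 6 * y.ord c = y.ord W := by
  have : IsAlgClosed (IsLocalRing.ResidueField A) := h19_residueField_isAlgClosed A
  obtain ⟨δ, hδJ, hθδ⟩ := hDJ
  have hJtr : Transcendental Qb (h59_jbar M) := h59_jbar_transcendental M
  obtain ⟨δ', -, hδ'⟩ := h60_exists_dJ M hJtr
  have hδ := h60_kaehler_of_one δ' hδ' δ hδJ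
  have hredJ : R.redF (h59_jbar M) = h54_jk (IsLocalRing.ResidueField A) M := h54_redF_jbar hR
  have hjtr : Transcendental (IsLocalRing.ResidueField A) (R.redF (h59_jbar M)) := by
    rw [hredJ]
    exact h54_jk_transcendental _ M
  have hJO : h59_jbar M ∈ R.O := hR.mem_of_integral _ _ (h54_coe_jbar M A)
  obtain ⟨hδs, hθs⟩ := h60_dred_mod M A hR θQ θA θk hQ hk hιθ hπθ hθj δ hθδ s hsO
  have h1728 : R.resK 1728 = 1728 := by
    have hmem : (1728 : Qb) ∈ R.A := by
      have := natCast_mem R.A 1728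
      exact_mod_cast this
    rw [R.resK_of_mem hmem]
    exact map_ofNat R.res 1728
  have hU' : Rρ ^ 6 = W * (R.redF (h59_jbar M) ^ 4 * (R.redF (h59_jbar M)
      - algebraMap (IsLocalRing.ResidueField A)
        ↥(modularFunctionFieldFullC (IsLocalRing.ResidueField A) M) (R.resK 1728)) ^ 3) ^ n := by
    rw [hredJ, h1728, map_ofNat]
    exact hU
  obtain ⟨hc0, hord⟩ := h60_hasse_ord_regAt R hchart (Fermat.Agent.S37.h88_isFF M)
    (h59_jbar M) hJtr hjtr (h83_ord_jbar_sub M h2 h3) δ hδJ hδ y hyx (by rw [hredJ]; exact hy)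
    hJO hJreg s hsO hsreg hδs c₀ hs1 n W Rρ hW hU'
  refine ⟨R.redF (δ s) ^ n * Rρ, ?_, hc0, hord⟩
  rw [← hθs]
  push_cast
  rw [hRρ, mul_pow]

/-- **(O) on the special fibre, arbitrary chart `x`** (`θ` abstract): `t ∈ Fb(M)` with
`t x̄^m` regular on the chart `x̄`, `x̄ (y) ≠ 0`, `t - c₀` a uniformiser at `y`. -/
theorem h60_hasse_fb_regAt
    {R : h39_RedDatum Qb ↥(modularFunctionFieldBar M) (IsLocalRing.ResidueField A)
      ↥(modularFunctionFieldFullC (IsLocalRing.ResidueField A) M)} (hR : h54_IsModRed M A R)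
    {x : ↥(modularFunctionFieldBar M)} (hchart : h39_Chart R x)
    (h2 : nuTwo M = 0) (h3 : nuThree M = 0)
    (θQ : LaurentSeries Qb → LaurentSeries Qb) (θA : LaurentSeries A → LaurentSeries A)
    (θk : LaurentSeries (IsLocalRing.ResidueField A) → LaurentSeries (IsLocalRing.ResidueField A))
    (hQ : ∀ f g : LaurentSeries Qb, θQ (f * g) = θQ f * g + f * θQ g)
    (hk : ∀ f g : LaurentSeries (IsLocalRing.ResidueField A), θk (f * g) = θk f * g + f * θk g)
    (hιθ : ∀ y : LaurentSeries A, θQ (coeffMap A.subtype y) = coeffMap A.subtype (θA y))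
    (hπθ : ∀ y : LaurentSeries A, θk (coeffMap (IsLocalRing.residue A) y)
      = coeffMap (IsLocalRing.residue A) (θA y))
    (hθj : θk (jqModC (IsLocalRing.ResidueField A)) ≠ 0)
    (hDJ : ∃ δ : Derivation Qb ↥(modularFunctionFieldBar M) ↥(modularFunctionFieldBar M),
      δ (h59_jbar M) = 1 ∧ ∀ f : ↥(modularFunctionFieldBar M), θQ (f : LaurentSeries Qb)
        = ((δ f : ↥(modularFunctionFieldBar M)) : LaurentSeries Qb)
          * θQ ((h59_jbar M : ↥(modularFunctionFieldBar M)) : LaurentSeries Qb))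
    (y : Place (IsLocalRing.ResidueField A)
      ↥(modularFunctionFieldFullC (IsLocalRing.ResidueField A) M))
    (cx : IsLocalRing.ResidueField A) (hcx0 : cx ≠ 0) (hcx : h39_Val y (R.redF x) cx)
    (hy : h54_jk (IsLocalRing.ResidueField A) M ∈ y.toValuationSubring)
    (hJreg : h60_RegAt R x y (h59_jbar M))
    (t : ↥(modularFunctionFieldFullC (IsLocalRing.ResidueField A) M)) (m : ℕ)
    (ht : ∀ Q : Place (IsLocalRing.ResidueField A)
        ↥(modularFunctionFieldFullC (IsLocalRing.ResidueField A) M),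
      R.redF x ∈ Q.toValuationSubring → t * R.redF x ^ m ∈ Q.toValuationSubring)
    (c₀ : IsLocalRing.ResidueField A)
    (hs1 : y.ord (t - algebraMap (IsLocalRing.ResidueField A)
      ↥(modularFunctionFieldFullC (IsLocalRing.ResidueField A) M) c₀) = 1)
    (n : ℕ) (W Rρ : ↥(modularFunctionFieldFullC (IsLocalRing.ResidueField A) M)) (hW : W ≠ 0)
    (hRρ : (Rρ : LaurentSeries (IsLocalRing.ResidueField A))
      = θk (jqModC (IsLocalRing.ResidueField A)) ^ n)
    (hU : Rρ ^ 6 = W * (h54_jk (IsLocalRing.ResidueField A) M ^ 4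
      * (h54_jk (IsLocalRing.ResidueField A) M - 1728) ^ 3) ^ n) :
    ∃ c : ↥(modularFunctionFieldFullC (IsLocalRing.ResidueField A) M),
      (c : LaurentSeries (IsLocalRing.ResidueField A))
        = θk (t : LaurentSeries (IsLocalRing.ResidueField A)) ^ n ∧
      c ≠ 0 ∧ 6 * y.ord c = y.ord W := by
  have : IsAlgClosed (IsLocalRing.ResidueField A) := h19_residueField_isAlgClosed A
  have hw : h39_WeakChart R x := hchart.toh39_WeakChart
  have hxb0 : R.redF x ≠ 0 := fun h0 => hw.transcendental (h0 ▸ isAlgebraic_zero)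
  obtain ⟨hxinvO, hxinv⟩ := h39_inv_of_redF_ne_zero R hxb0
  have hx0 : x ≠ 0 := by
    rintro rfl
    exact hxb0 (h39_redF_zero R)
  obtain ⟨s₁, hs₁O, hs₁reg, hs₁t⟩ := h39_lift_integral R hw (h39_genus_eq R hchart)
    (t * R.redF x ^ m) ht
  set s : ↥(modularFunctionFieldBar M) := s₁ * x⁻¹ ^ m with hs
  have hsO : s ∈ R.O := R.O.mul_mem _ _ hs₁O (R.O.pow_mem hxinvO m)
  have hsx : s * x ^ m = s₁ := by
    rw [hs, mul_assoc, ← mul_pow, inv_mul_cancel₀ hx0, one_pow, mul_one]
  have hsreg : h60_RegAt R x y s := by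
    refine ⟨x ^ m, R.O.pow_mem hw.mem m, fun P hP => P.toValuationSubring.pow_mem hP m,
      by rw [hsx]; exact hs₁O, by rw [hsx]; exact hs₁reg, cx ^ m, pow_ne_zero m hcx0, ?_⟩
    rw [h39_redF_pow R hw.mem]
    exact h69_val_pow y hcx m
  have hst : R.redF s = t := by
    rw [hs, h39_redF_mul R hs₁O (R.O.pow_mem hxinvO m), h39_redF_pow R hxinvO, hs₁t, hxinv,
      mul_assoc, ← mul_pow, mul_inv_cancel₀ hxb0, one_pow, mul_one]
  have key := h60_hasse_mod_regAt M A hR hchart h2 h3 θQ θA θk hQ hk hιθ hπθ hθj hDJ y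
    (h39_val_mem y hcx) hy hJreg s hsO hsreg c₀ (by rw [hst]; exact hs1) n W Rρ hW hRρ hU
  rwa [hst] at key

end Modular

end Fermat.Agent.S36

end
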