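import Fermat.Agent.S36.h60_HasseGen

/-!
# S36 / (HASSE) row (O): the Hauptmodul charts `h₂`, `h₃` (characteristic `3`, `2`) (helper60)

Generic lemmas (`h60_ord_add_const_of_neg`, `h60_clear_poles`, `h60_redF_natCast`) and the
instances of `h60_hasse_fb_regAt` for the charts `x = h₂` (`2 ∣ M`) and `x = h₃` (`3 ∣ M`):
`h60_hasse_fb_h2`, `h60_hasse_fb_h3`, in the same consumer form as `h60_hasse_fb`
(`t` regular where `j̄` is finite).
-/

set_option autoImplicit false

noncomputable section

open AlgebraicCurve KaehlerDifferential ModularCurve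
open Fermat.Agent.S18 Fermat.Agent.S24 Fermat.Agent.S27

namespace Fermat.Agent.S36

section Generic

variable {K F k Fb : Type*} [Field K] [Field F] [Algebra K F] [Field k] [Field Fb] [Algebra k Fb]

/-- Adding a constant does not change a negative order. -/
theorem h60_ord_add_const_of_neg (y : Place k Fb) {f : Fb} (hf : y.ord f < 0) (c : k) :
    f + algebraMap k Fb c ≠ 0 ∧ y.ord (f + algebraMap k Fb c) = y.ord f := by
  have hf0 : f ≠ 0 := by
    rintro rfl
    simp at hf
  have hz : algebraMap k Fb c * f⁻¹ = 0 ∨ 0 < y.ord (algebraMap k Fb c * f⁻¹) := by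
    by_cases hc : c = 0
    · left
      rw [hc, map_zero, zero_mul]
    · right
      have hcF : algebraMap k Fb c ≠ 0 := by simpa using hc
      rw [y.ord_mul hcF (inv_ne_zero hf0), h35_ord_algebraMap, y.ord_inv]
      omega
  have h1 := h36_ord_const_add y (c := (1 : k)) one_ne_zero hz
  have h1' := h36_const_add_ne_zero y (c := (1 : k)) one_ne_zero hz
  have e : f + algebraMap k Fb c = f * (algebraMap k Fb 1 + algebraMap k Fb c * f⁻¹) := by
    rw [map_one]
    field_simp
  rw [e]
  refine ⟨mul_ne_zero hf0 h1', ?_⟩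
  rw [y.ord_mul hf0 h1', h1, add_zero]

/-- `redF` of a natural number. -/
theorem h60_redF_natCast (R : h39_RedDatum K F k Fb) (n : ℕ) : R.redF (n : F) = (n : Fb) := by
  have hmem : (n : K) ∈ R.A := natCast_mem R.A n
  have h1 : (n : F) = algebraMap K F (n : K) := (map_natCast (algebraMap K F) n).symm
  rw [h1, h39_redF_algebraMap R hmem, R.resK_of_mem hmem]
  have h2 : (⟨(n : K), hmem⟩ : R.A) = (n : R.A) := rfl
  rw [h2, map_natCast, map_natCast]

/-- Clearing the poles over `x̄ = 0`: if `j̄ x̄^m₀ = N̄` with `N̄` regular where `x̄` is, and `t` is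
regular where `j̄` is, then `t x̄^m` is regular where `x̄` is, for some `m`. -/
theorem h60_clear_poles [HasPrincipalDivisors k Fb] {xb jb Nb t : Fb} (hxb0 : xb ≠ 0)
    (m₀ : ℕ) (hrel : jb * xb ^ m₀ = Nb)
    (hNb : ∀ Q : Place k Fb, xb ∈ Q.toValuationSubring → Nb ∈ Q.toValuationSubring)
    (ht : ∀ Q : Place k Fb, jb ∈ Q.toValuationSubring → t ∈ Q.toValuationSubring) :
    ∃ m : ℕ, ∀ Q : Place k Fb, xb ∈ Q.toValuationSubring →
      t * xb ^ m ∈ Q.toValuationSubring := by
  classical
  obtain ⟨D, hD, -⟩ := HasPrincipalDivisors.exists_divisor (K := k) (F := Fb) xb hxb0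
  refine ⟨∑ Q ∈ D.support, (-Q.ord t).toNat, ?_⟩
  intro Q hQ
  have hQ0 : 0 ≤ Q.ord xb := h35_ord_nonneg_of_mem Q hQ
  by_cases h0 : Q.ord xb = 0
  · -- `x̄` is a unit at `Q`, so `j̄` is regular there
    have hinv : xb⁻¹ ∈ Q.toValuationSubring := by
      apply h24_mem_of_ord_nonneg
      rw [Q.ord_inv, h0]
      simp
    have hj : jb ∈ Q.toValuationSubring := by
      have e : jb = Nb * xb⁻¹ ^ m₀ := by
        rw [← hrel, mul_assoc, ← mul_pow, mul_inv_cancel₀ hxb0, one_pow, mul_one]
      rw [e]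
      exact Q.toValuationSubring.mul_mem _ _ (hNb Q hQ) (Q.toValuationSubring.pow_mem hinv m₀)
    exact Q.toValuationSubring.mul_mem _ _ (ht Q hj) (Q.toValuationSubring.pow_mem hQ _)
  · have hpos : 0 < Q.ord xb := lt_of_le_of_ne hQ0 (Ne.symm h0)
    have hsupp : Q ∈ D.support := by
      rw [Finsupp.mem_support_iff, hD Q]
      exact h0
    have hle : (-Q.ord t).toNat ≤ ∑ Q' ∈ D.support, (-Q'.ord t).toNat :=
      Finset.single_le_sum (f := fun Q' : Place k Fb => (-Q'.ord t).toNat)
        (fun _ _ => Nat.zero_le _) hsupp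
    by_cases ht0 : t = 0
    · rw [ht0, zero_mul]
      exact Q.toValuationSubring.zero_mem
    apply h24_mem_of_ord_nonneg
    rw [Q.ord_mul ht0 (pow_ne_zero _ hxb0), h36_ord_pow]
    have h1 : -Q.ord t ≤ ((-Q.ord t).toNat : ℤ) := Int.self_le_toNat _
    have h2 : ((-Q.ord t).toNat : ℤ) ≤ ((∑ Q' ∈ D.support, (-Q'.ord t).toNat : ℕ) : ℤ) := by
      exact_mod_cast hle
    have h3 : ((∑ Q' ∈ D.support, (-Q'.ord t).toNat : ℕ) : ℤ)
        ≤ ((∑ Q' ∈ D.support, (-Q'.ord t).toNat : ℕ) : ℤ) * Q.ord xb := by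
      have hn : (0 : ℤ) ≤ ((∑ Q' ∈ D.support, (-Q'.ord t).toNat : ℕ) : ℤ) := Nat.cast_nonneg _
      nlinarith
    linarith

end Generic

section Modular

local notation "Qb" => AlgebraicClosure ℚ

variable (M : ℕ) [NeZero M] (A : ValuationSubring Qb)

/-! ### The chart `h₂` -/

theorem h60_rel_h2 (h2 : 2 ∣ M) :
    h59_jbar M * h54_h2bar M h2 ^ 2 = (h54_h2bar M h2 + 256) ^ 3 := by
  refine h54_rel2_subtype (modularFunctionFieldBar M) (h59_jbar M) (h54_h2bar M h2) ?_
  rw [h69_coe_jbar]
  exact h54_hm2_rel1 Qb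

theorem h60_redF_h2_coe
    {R : h39_RedDatum Qb ↥(modularFunctionFieldBar M) (IsLocalRing.ResidueField A)
      ↥(modularFunctionFieldFullC (IsLocalRing.ResidueField A) M)} (hR : h54_IsModRed M A R)
    (h2 : 2 ∣ M) :
    ((R.redF (h54_h2bar M h2) : ↥(modularFunctionFieldFullC (IsLocalRing.ResidueField A) M)) :
        LaurentSeries (IsLocalRing.ResidueField A)) = h54_hm2 (IsLocalRing.ResidueField A) := by
  rw [hR.redF_of_integral _ (h54_hm2 A) (h54_coeffMap_hm2 A.subtype).symm, h54_coeffMap_hm2]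

theorem h60_rel_h2_red
    {R : h39_RedDatum Qb ↥(modularFunctionFieldBar M) (IsLocalRing.ResidueField A)
      ↥(modularFunctionFieldFullC (IsLocalRing.ResidueField A) M)} (hR : h54_IsModRed M A R)
    (h2 : 2 ∣ M) :
    h54_jk (IsLocalRing.ResidueField A) M * R.redF (h54_h2bar M h2) ^ 2
      = (R.redF (h54_h2bar M h2) + 256) ^ 3 := by
  refine h54_rel2_subtype (modularFunctionFieldFullC (IsLocalRing.ResidueField A) M)
    (h54_jk (IsLocalRing.ResidueField A) M) (R.redF (h54_h2bar M h2)) ?_
  rw [h60_redF_h2_coe M A hR h2]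
  exact h54_hm2_rel1 (IsLocalRing.ResidueField A)

/-- At a place `y` of the special fibre where `j̄` is finite, `h̄₂` is finite and nonzero and
`j` is locally regular for the chart `h₂`. -/
theorem h60_regAt_h2
    {R : h39_RedDatum Qb ↥(modularFunctionFieldBar M) (IsLocalRing.ResidueField A)
      ↥(modularFunctionFieldFullC (IsLocalRing.ResidueField A) M)} (hR : h54_IsModRed M A R)
    (h2 : 2 ∣ M) (hchart : h39_Chart R (h54_h2bar M h2))
    (h2k : (2 : IsLocalRing.ResidueField A) ≠ 0)
    (y : Place (IsLocalRing.ResidueField A)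
      ↥(modularFunctionFieldFullC (IsLocalRing.ResidueField A) M))
    (hy : h54_jk (IsLocalRing.ResidueField A) M ∈ y.toValuationSubring) :
    ∃ cx : IsLocalRing.ResidueField A, cx ≠ 0 ∧ h39_Val y (R.redF (h54_h2bar M h2)) cx ∧
      h60_RegAt R (h54_h2bar M h2) y (h59_jbar M) := by
  have : IsAlgClosed (IsLocalRing.ResidueField A) := h19_residueField_isAlgClosed A
  have hw : h39_WeakChart R (h54_h2bar M h2) := hchart.toh39_WeakChart
  have hxk : h75_IsChart (IsLocalRing.ResidueField A) (R.redF (h54_h2bar M h2)) :=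
    h39_weakChart_isChart_red R hw
  have hxb0 : R.redF (h54_h2bar M h2) ≠ 0 := fun h0 => hw.transcendental (h0 ▸ isAlgebraic_zero)
  have hredJ : R.redF (h59_jbar M) = h54_jk (IsLocalRing.ResidueField A) M := h54_redF_jbar hR
  have hjk0 : h54_jk (IsLocalRing.ResidueField A) M ≠ 0 := fun h0 =>
    h54_jk_transcendental (IsLocalRing.ResidueField A) M (h0 ▸ isAlgebraic_zero)
  have hrel := h60_rel_h2_red M A hR h2
  have e256 : (256 : ↥(modularFunctionFieldFullC (IsLocalRing.ResidueField A) M))
      = algebraMap (IsLocalRing.ResidueField A) _ 256 := (map_ofNat _ 256).symm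
  have h256 : (256 : IsLocalRing.ResidueField A) ≠ 0 := by
    have e : (256 : IsLocalRing.ResidueField A) = 2 ^ 8 := by norm_num
    rw [e]
    exact pow_ne_zero 8 h2k
  -- `h̄₂` is finite at `y`
  have hxy : R.redF (h54_h2bar M h2) ∈ y.toValuationSubring := by
    by_contra hxy
    have hneg : y.ord (R.redF (h54_h2bar M h2)) < 0 := by
      rw [h35_mem_iff_ord_nonneg y hxb0] at hxy
      omega
    obtain ⟨hne, hord⟩ := h60_ord_add_const_of_neg y hneg (256 : IsLocalRing.ResidueField A)
    have h1 := congrArg y.ord hrel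
    rw [e256, y.ord_mul hjk0 (pow_ne_zero 2 hxb0), h36_ord_pow, h36_ord_pow, hord] at h1
    have h3 := h35_ord_nonneg_of_mem y hy
    push_cast at h1
    omega
  obtain ⟨cx, hcx⟩ := h39_exists_val hxk y hxy
  obtain ⟨cj, hcj⟩ := h39_exists_val hxk y hy
  have hJO : h59_jbar M ∈ R.O := hR.mem_of_integral _ _ (h54_coe_jbar M A)
  have h256O : (256 : ↥(modularFunctionFieldBar M)) ∈ R.O := by
    have := natCast_mem R.O 256
    exact_mod_cast this
  have hx256O : h54_h2bar M h2 + 256 ∈ R.O := R.O.add_mem _ _ hw.mem h256O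
  have hred256 : R.redF (256 : ↥(modularFunctionFieldBar M))
      = (256 : ↥(modularFunctionFieldFullC (IsLocalRing.ResidueField A) M)) := by
    have := h60_redF_natCast R 256
    exact_mod_cast this
  have hNreg : h39_Reg Qb (h54_h2bar M h2) ((h54_h2bar M h2 + 256) ^ 3) := by
    intro P hP
    have h256P : (256 : ↥(modularFunctionFieldBar M)) ∈ P.toValuationSubring := by
      have := natCast_mem P.toValuationSubring 256
      exact_mod_cast this
    exact P.toValuationSubring.pow_mem (P.toValuationSubring.add_mem _ _ hP h256P) 3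
  obtain ⟨hcx0, hreg⟩ := h60_regAt_of_rel R hw.mem hJO (R.O.pow_mem hx256O 3) hNreg 2
    (by norm_num) (h60_rel_h2 M h2) y cx cj hcx (by rw [hredJ]; exact hcj) (by
      intro h0 hv
      rw [h39_redF_pow R hx256O, h39_redF_add R hw.mem h256O, hred256, e256] at hv
      have hv' := h69_val_pow y (h39_val_add y hcx
        (h39_val_algebraMap y (256 : IsLocalRing.ResidueField A))) 3
      have := h39_val_unique y hv' hv
      rw [h0, zero_add] at this
      exact h256 (pow_eq_zero_iff (by norm_num) |>.mp this))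
  exact ⟨cx, hcx0, hcx, hreg⟩

/-- **(O) on the special fibre, chart `h₂`** (`2 ∣ M`, characteristic `≠ 2`; `θ` abstract). -/
theorem h60_hasse_fb_h2
    {R : h39_RedDatum Qb ↥(modularFunctionFieldBar M) (IsLocalRing.ResidueField A)
      ↥(modularFunctionFieldFullC (IsLocalRing.ResidueField A) M)} (hR : h54_IsModRed M A R)
    (h2M : 2 ∣ M) (hchart : h39_Chart R (h54_h2bar M h2M))
    (h2k : (2 : IsLocalRing.ResidueField A) ≠ 0)
    (h2 : nuTwo M = 0) (h3 : nuThree M = 0)
    (θQ : LaurentSeries Qb → LaurentSeries Qb) (θA : LaurentSeries A → LaurentSeries A)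
    (θk : LaurentSeries (IsLocalRing.ResidueField A) → LaurentSeries (IsLocalRing.ResidueField A))
    (hQ : ∀ f g : LaurentSeries Qb, θQ (f * g) = θQ f * g + f * θQ g)
    (hk : ∀ f g : LaurentSeries (IsLocalRing.ResidueField A), θk (f * g) = θk f * g + f * θk g)
    (hιθ : ∀ y : LaurentSeries A, θQ (coeffMap A.subtype y) = coeffMap A.subtype (θA y))
    (hπθ : ∀ y : LaurentSeries A, θk (coeffMap (IsLocalRing.residue A) y)
      = coeffMap (IsLocalRing.residue A) (θA y))
    (hθj : θk (jqModC (IsLocalRing.ResidueField A)) ≠ 0)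
    (hDJ : ∃ δ : Derivation Qb ↥(modularFunctionFieldBar M) ↥(modularFunctionFieldBar M),
      δ (h59_jbar M) = 1 ∧ ∀ f : ↥(modularFunctionFieldBar M), θQ (f : LaurentSeries Qb)
        = ((δ f : ↥(modularFunctionFieldBar M)) : LaurentSeries Qb)
          * θQ ((h59_jbar M : ↥(modularFunctionFieldBar M)) : LaurentSeries Qb))
    (y : Place (IsLocalRing.ResidueField A)
      ↥(modularFunctionFieldFullC (IsLocalRing.ResidueField A) M))
    (hy : h54_jk (IsLocalRing.ResidueField A) M ∈ y.toValuationSubring)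
    (t : ↥(modularFunctionFieldFullC (IsLocalRing.ResidueField A) M))
    (ht : ∀ Q : Place (IsLocalRing.ResidueField A)
        ↥(modularFunctionFieldFullC (IsLocalRing.ResidueField A) M),
      h54_jk (IsLocalRing.ResidueField A) M ∈ Q.toValuationSubring → t ∈ Q.toValuationSubring)
    (c₀ : IsLocalRing.ResidueField A)
    (hs1 : y.ord (t - algebraMap (IsLocalRing.ResidueField A)
      ↥(modularFunctionFieldFullC (IsLocalRing.ResidueField A) M) c₀) = 1)
    (n : ℕ) (W Rρ : ↥(modularFunctionFieldFullC (IsLocalRing.ResidueField A) M)) (hW : W ≠ 0)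
    (hRρ : (Rρ : LaurentSeries (IsLocalRing.ResidueField A))
      = θk (jqModC (IsLocalRing.ResidueField A)) ^ n)
    (hU : Rρ ^ 6 = W * (h54_jk (IsLocalRing.ResidueField A) M ^ 4
      * (h54_jk (IsLocalRing.ResidueField A) M - 1728) ^ 3) ^ n) :
    ∃ c : ↥(modularFunctionFieldFullC (IsLocalRing.ResidueField A) M),
      (c : LaurentSeries (IsLocalRing.ResidueField A))
        = θk (t : LaurentSeries (IsLocalRing.ResidueField A)) ^ n ∧
      c ≠ 0 ∧ 6 * y.ord c = y.ord W := by
  have : IsAlgClosed (IsLocalRing.ResidueField A) := h19_residueField_isAlgClosed A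
  have hw : h39_WeakChart R (h54_h2bar M h2M) := hchart.toh39_WeakChart
  have hxk : h75_IsChart (IsLocalRing.ResidueField A) (R.redF (h54_h2bar M h2M)) :=
    h39_weakChart_isChart_red R hw
  have : HasPrincipalDivisors (IsLocalRing.ResidueField A)
      ↥(modularFunctionFieldFullC (IsLocalRing.ResidueField A) M) := h75_hasPrincipalDivisors hxk
  have hxb0 : R.redF (h54_h2bar M h2M) ≠ 0 := fun h0 =>
    hw.transcendental (h0 ▸ isAlgebraic_zero)
  obtain ⟨cx, hcx0, hcx, hJreg⟩ := h60_regAt_h2 M A hR h2M hchart h2k y hy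
  obtain ⟨m, hm⟩ := h60_clear_poles hxb0 2 (h60_rel_h2_red M A hR h2M) (fun Q hQ => by
    have h256Q : (256 : ↥(modularFunctionFieldFullC (IsLocalRing.ResidueField A) M))
        ∈ Q.toValuationSubring := by
      have := natCast_mem Q.toValuationSubring 256
      exact_mod_cast this
    exact Q.toValuationSubring.pow_mem (Q.toValuationSubring.add_mem _ _ hQ h256Q) 3) ht
  exact h60_hasse_fb_regAt M A hR hchart h2 h3 θQ θA θk hQ hk hιθ hπθ hθj hDJ y cx hcx0 hcx hy
    hJreg t m hm c₀ hs1 n W Rρ hW hRρ hU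

/-! ### The chart `h₃` -/

theorem h60_rel_h3 (h3 : 3 ∣ M) :
    h59_jbar M * h54_h3bar M h3 ^ 3 = (h54_h3bar M h3 + 27) * (h54_h3bar M h3 + 243) ^ 3 := by
  refine h54_rel3_subtype (modularFunctionFieldBar M) (h59_jbar M) (h54_h3bar M h3) ?_
  rw [h69_coe_jbar]
  exact h54_hm3_rel1 Qb

theorem h60_redF_h3_coe
    {R : h39_RedDatum Qb ↥(modularFunctionFieldBar M) (IsLocalRing.ResidueField A)
      ↥(modularFunctionFieldFullC (IsLocalRing.ResidueField A) M)} (hR : h54_IsModRed M A R)
    (h3 : 3 ∣ M) :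
    ((R.redF (h54_h3bar M h3) : ↥(modularFunctionFieldFullC (IsLocalRing.ResidueField A) M)) :
        LaurentSeries (IsLocalRing.ResidueField A)) = h54_hm3 (IsLocalRing.ResidueField A) := by
  rw [hR.redF_of_integral _ (h54_hm3 A) (h54_coeffMap_hm3 A.subtype).symm, h54_coeffMap_hm3]

theorem h60_rel_h3_red
    {R : h39_RedDatum Qb ↥(modularFunctionFieldBar M) (IsLocalRing.ResidueField A)
      ↥(modularFunctionFieldFullC (IsLocalRing.ResidueField A) M)} (hR : h54_IsModRed M A R)
    (h3 : 3 ∣ M) :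
    h54_jk (IsLocalRing.ResidueField A) M * R.redF (h54_h3bar M h3) ^ 3
      = (R.redF (h54_h3bar M h3) + 27) * (R.redF (h54_h3bar M h3) + 243) ^ 3 := by
  refine h54_rel3_subtype (modularFunctionFieldFullC (IsLocalRing.ResidueField A) M)
    (h54_jk (IsLocalRing.ResidueField A) M) (R.redF (h54_h3bar M h3)) ?_
  rw [h60_redF_h3_coe M A hR h3]
  exact h54_hm3_rel1 (IsLocalRing.ResidueField A)

/-- At a place `y` of the special fibre where `j̄` is finite, `h̄₃` is finite and nonzero and
`j` is locally regular for the chart `h₃`. -/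
theorem h60_regAt_h3
    {R : h39_RedDatum Qb ↥(modularFunctionFieldBar M) (IsLocalRing.ResidueField A)
      ↥(modularFunctionFieldFullC (IsLocalRing.ResidueField A) M)} (hR : h54_IsModRed M A R)
    (h3 : 3 ∣ M) (hchart : h39_Chart R (h54_h3bar M h3))
    (h3k : (3 : IsLocalRing.ResidueField A) ≠ 0)
    (y : Place (IsLocalRing.ResidueField A)
      ↥(modularFunctionFieldFullC (IsLocalRing.ResidueField A) M))
    (hy : h54_jk (IsLocalRing.ResidueField A) M ∈ y.toValuationSubring) :
    ∃ cx : IsLocalRing.ResidueField A, cx ≠ 0 ∧ h39_Val y (R.redF (h54_h3bar M h3)) cx ∧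
      h60_RegAt R (h54_h3bar M h3) y (h59_jbar M) := by
  have : IsAlgClosed (IsLocalRing.ResidueField A) := h19_residueField_isAlgClosed A
  have hw : h39_WeakChart R (h54_h3bar M h3) := hchart.toh39_WeakChart
  have hxk : h75_IsChart (IsLocalRing.ResidueField A) (R.redF (h54_h3bar M h3)) :=
    h39_weakChart_isChart_red R hw
  have hxb0 : R.redF (h54_h3bar M h3) ≠ 0 := fun h0 => hw.transcendental (h0 ▸ isAlgebraic_zero)
  have hredJ : R.redF (h59_jbar M) = h54_jk (IsLocalRing.ResidueField A) M := h54_redF_jbar hR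
  have hjk0 : h54_jk (IsLocalRing.ResidueField A) M ≠ 0 := fun h0 =>
    h54_jk_transcendental (IsLocalRing.ResidueField A) M (h0 ▸ isAlgebraic_zero)
  have hrel := h60_rel_h3_red M A hR h3
  have e27 : (27 : ↥(modularFunctionFieldFullC (IsLocalRing.ResidueField A) M))
      = algebraMap (IsLocalRing.ResidueField A) _ 27 := (map_ofNat _ 27).symm
  have e243 : (243 : ↥(modularFunctionFieldFullC (IsLocalRing.ResidueField A) M))
      = algebraMap (IsLocalRing.ResidueField A) _ 243 := (map_ofNat _ 243).symm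
  have h27 : (27 : IsLocalRing.ResidueField A) ≠ 0 := by
    have e : (27 : IsLocalRing.ResidueField A) = 3 ^ 3 := by norm_num
    rw [e]
    exact pow_ne_zero 3 h3k
  have h243 : (243 : IsLocalRing.ResidueField A) ≠ 0 := by
    have e : (243 : IsLocalRing.ResidueField A) = 3 ^ 5 := by norm_num
    rw [e]
    exact pow_ne_zero 5 h3k
  -- `h̄₃` is finite at `y`
  have hxy : R.redF (h54_h3bar M h3) ∈ y.toValuationSubring := by
    by_contra hxy
    have hneg : y.ord (R.redF (h54_h3bar M h3)) < 0 := by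
      rw [h35_mem_iff_ord_nonneg y hxb0] at hxy
      omega
    obtain ⟨hne, hord⟩ := h60_ord_add_const_of_neg y hneg (27 : IsLocalRing.ResidueField A)
    obtain ⟨hne', hord'⟩ := h60_ord_add_const_of_neg y hneg (243 : IsLocalRing.ResidueField A)
    have h1 := congrArg y.ord hrel
    rw [e27, e243, y.ord_mul hjk0 (pow_ne_zero 3 hxb0), y.ord_mul hne (pow_ne_zero 3 hne'),
      h36_ord_pow, h36_ord_pow, hord, hord'] at h1
    have h3' := h35_ord_nonneg_of_mem y hy
    push_cast at h1
    omega
  obtain ⟨cx, hcx⟩ := h39_exists_val hxk y hxy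
  obtain ⟨cj, hcj⟩ := h39_exists_val hxk y hy
  have hJO : h59_jbar M ∈ R.O := hR.mem_of_integral _ _ (h54_coe_jbar M A)
  have h27O : (27 : ↥(modularFunctionFieldBar M)) ∈ R.O := by
    have := natCast_mem R.O 27
    exact_mod_cast this
  have h243O : (243 : ↥(modularFunctionFieldBar M)) ∈ R.O := by
    have := natCast_mem R.O 243
    exact_mod_cast this
  have hx27O : h54_h3bar M h3 + 27 ∈ R.O := R.O.add_mem _ _ hw.mem h27O
  have hx243O : h54_h3bar M h3 + 243 ∈ R.O := R.O.add_mem _ _ hw.mem h243O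
  have hred27 : R.redF (27 : ↥(modularFunctionFieldBar M))
      = (27 : ↥(modularFunctionFieldFullC (IsLocalRing.ResidueField A) M)) := by
    have := h60_redF_natCast R 27
    exact_mod_cast this
  have hred243 : R.redF (243 : ↥(modularFunctionFieldBar M))
      = (243 : ↥(modularFunctionFieldFullC (IsLocalRing.ResidueField A) M)) := by
    have := h60_redF_natCast R 243
    exact_mod_cast this
  have hNreg : h39_Reg Qb (h54_h3bar M h3)
      ((h54_h3bar M h3 + 27) * (h54_h3bar M h3 + 243) ^ 3) := by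
    intro P hP
    have h27P : (27 : ↥(modularFunctionFieldBar M)) ∈ P.toValuationSubring := by
      have := natCast_mem P.toValuationSubring 27
      exact_mod_cast this
    have h243P : (243 : ↥(modularFunctionFieldBar M)) ∈ P.toValuationSubring := by
      have := natCast_mem P.toValuationSubring 243
      exact_mod_cast this
    exact P.toValuationSubring.mul_mem _ _ (P.toValuationSubring.add_mem _ _ hP h27P)
      (P.toValuationSubring.pow_mem (P.toValuationSubring.add_mem _ _ hP h243P) 3)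
  obtain ⟨hcx0, hreg⟩ := h60_regAt_of_rel R hw.mem hJO
    (R.O.mul_mem _ _ hx27O (R.O.pow_mem hx243O 3)) hNreg 3
    (by norm_num) (h60_rel_h3 M h3) y cx cj hcx (by rw [hredJ]; exact hcj) (by
      intro h0 hv
      rw [h39_redF_mul R hx27O (R.O.pow_mem hx243O 3), h39_redF_pow R hx243O,
        h39_redF_add R hw.mem h27O, h39_redF_add R hw.mem h243O, hred27, hred243, e27, e243]
        at hv
      have hv' := h39_val_mul y
        (h39_val_add y hcx (h39_val_algebraMap y (27 : IsLocalRing.ResidueField A)))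
        (h69_val_pow y (h39_val_add y hcx
          (h39_val_algebraMap y (243 : IsLocalRing.ResidueField A))) 3)
      have := h39_val_unique y hv' hv
      rw [h0, zero_add, zero_add] at this
      rcases mul_eq_zero.mp this with h | h
      · exact h27 h
      · exact h243 (pow_eq_zero_iff (by norm_num) |>.mp h))
  exact ⟨cx, hcx0, hcx, hreg⟩

/-- **(O) on the special fibre, chart `h₃`** (`3 ∣ M`, characteristic `≠ 3`; `θ` abstract). -/
theorem h60_hasse_fb_h3
    {R : h39_RedDatum Qb ↥(modularFunctionFieldBar M) (IsLocalRing.ResidueField A)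
      ↥(modularFunctionFieldFullC (IsLocalRing.ResidueField A) M)} (hR : h54_IsModRed M A R)
    (h3M : 3 ∣ M) (hchart : h39_Chart R (h54_h3bar M h3M))
    (h3k : (3 : IsLocalRing.ResidueField A) ≠ 0)
    (h2 : nuTwo M = 0) (h3 : nuThree M = 0)
    (θQ : LaurentSeries Qb → LaurentSeries Qb) (θA : LaurentSeries A → LaurentSeries A)
    (θk : LaurentSeries (IsLocalRing.ResidueField A) → LaurentSeries (IsLocalRing.ResidueField A))
    (hQ : ∀ f g : LaurentSeries Qb, θQ (f * g) = θQ f * g + f * θQ g)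
    (hk : ∀ f g : LaurentSeries (IsLocalRing.ResidueField A), θk (f * g) = θk f * g + f * θk g)
    (hιθ : ∀ y : LaurentSeries A, θQ (coeffMap A.subtype y) = coeffMap A.subtype (θA y))
    (hπθ : ∀ y : LaurentSeries A, θk (coeffMap (IsLocalRing.residue A) y)
      = coeffMap (IsLocalRing.residue A) (θA y))
    (hθj : θk (jqModC (IsLocalRing.ResidueField A)) ≠ 0)
    (hDJ : ∃ δ : Derivation Qb ↥(modularFunctionFieldBar M) ↥(modularFunctionFieldBar M),
      δ (h59_jbar M) = 1 ∧ ∀ f : ↥(modularFunctionFieldBar M), θQ (f : LaurentSeries Qb)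
        = ((δ f : ↥(modularFunctionFieldBar M)) : LaurentSeries Qb)
          * θQ ((h59_jbar M : ↥(modularFunctionFieldBar M)) : LaurentSeries Qb))
    (y : Place (IsLocalRing.ResidueField A)
      ↥(modularFunctionFieldFullC (IsLocalRing.ResidueField A) M))
    (hy : h54_jk (IsLocalRing.ResidueField A) M ∈ y.toValuationSubring)
    (t : ↥(modularFunctionFieldFullC (IsLocalRing.ResidueField A) M))
    (ht : ∀ Q : Place (IsLocalRing.ResidueField A)
        ↥(modularFunctionFieldFullC (IsLocalRing.ResidueField A) M),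
      h54_jk (IsLocalRing.ResidueField A) M ∈ Q.toValuationSubring → t ∈ Q.toValuationSubring)
    (c₀ : IsLocalRing.ResidueField A)
    (hs1 : y.ord (t - algebraMap (IsLocalRing.ResidueField A)
      ↥(modularFunctionFieldFullC (IsLocalRing.ResidueField A) M) c₀) = 1)
    (n : ℕ) (W Rρ : ↥(modularFunctionFieldFullC (IsLocalRing.ResidueField A) M)) (hW : W ≠ 0)
    (hRρ : (Rρ : LaurentSeries (IsLocalRing.ResidueField A))
      = θk (jqModC (IsLocalRing.ResidueField A)) ^ n)
    (hU : Rρ ^ 6 = W * (h54_jk (IsLocalRing.ResidueField A) M ^ 4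
      * (h54_jk (IsLocalRing.ResidueField A) M - 1728) ^ 3) ^ n) :
    ∃ c : ↥(modularFunctionFieldFullC (IsLocalRing.ResidueField A) M),
      (c : LaurentSeries (IsLocalRing.ResidueField A))
        = θk (t : LaurentSeries (IsLocalRing.ResidueField A)) ^ n ∧
      c ≠ 0 ∧ 6 * y.ord c = y.ord W := by
  have : IsAlgClosed (IsLocalRing.ResidueField A) := h19_residueField_isAlgClosed A
  have hw : h39_WeakChart R (h54_h3bar M h3M) := hchart.toh39_WeakChart
  have hxk : h75_IsChart (IsLocalRing.ResidueField A) (R.redF (h54_h3bar M h3M)) :=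
    h39_weakChart_isChart_red R hw
  have : HasPrincipalDivisors (IsLocalRing.ResidueField A)
      ↥(modularFunctionFieldFullC (IsLocalRing.ResidueField A) M) := h75_hasPrincipalDivisors hxk
  have hxb0 : R.redF (h54_h3bar M h3M) ≠ 0 := fun h0 =>
    hw.transcendental (h0 ▸ isAlgebraic_zero)
  obtain ⟨cx, hcx0, hcx, hJreg⟩ := h60_regAt_h3 M A hR h3M hchart h3k y hy
  obtain ⟨m, hm⟩ := h60_clear_poles hxb0 3 (h60_rel_h3_red M A hR h3M) (fun Q hQ => by
    have h27Q : (27 : ↥(modularFunctionFieldFullC (IsLocalRing.ResidueField A) M))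
        ∈ Q.toValuationSubring := by
      have := natCast_mem Q.toValuationSubring 27
      exact_mod_cast this
    have h243Q : (243 : ↥(modularFunctionFieldFullC (IsLocalRing.ResidueField A) M))
        ∈ Q.toValuationSubring := by
      have := natCast_mem Q.toValuationSubring 243
      exact_mod_cast this
    exact Q.toValuationSubring.mul_mem _ _ (Q.toValuationSubring.add_mem _ _ hQ h27Q)
      (Q.toValuationSubring.pow_mem (Q.toValuationSubring.add_mem _ _ hQ h243Q) 3)) ht
  exact h60_hasse_fb_regAt M A hR hchart h2 h3 θQ θA θk hQ hk hιθ hπθ hθj hDJ y cx hcx0 hcx hy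
    hJreg t m hm c₀ hs1 n W Rρ hW hRρ hU

end Modular

end Fermat.Agent.S36

end
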