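import Fermat.Agent.S18.h54_PP
import Fermat.Agent.S24.h24_Fibre
import Fermat.Agent.S24.h29_Elliptic
import Fermat.Agent.S24.h78_Fibres
import Fermat.Agent.S24.h73_Diff

/-!
# S36 / (NE): no elliptic points — the ramification of `j` at a level with `ν₂ = ν₃ = 0`

* `h83_uniform_fibre` (generic): a fibre of `t` of total multiplicity `n = [F : K(t)]` with
  `m * #fibre = n` and all multiplicities dividing `m` is uniformly of multiplicity `m`;
* `h83_ord_jbar_zero`  : `ν₃(N) = 0` ⟹ every place over `j = 0` has `ord (j) = 3`;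
* `h83_ord_jbar_1728`  : `ν₂(N) = 0` ⟹ every place over `j = 1728` has `ord (j - 1728) = 2`;
* `h83_ord_jbar_sub`, `h83_ord_jbar_sub_ite` : `ν₂(N) = ν₃(N) = 0` ⟹ `ord_P (j - c) = 3, 2, 1`
  for `c = 0`, `c = 1728`, otherwise;
* `h83_ordDifferential_jbar` : `ord_P (dj) = 2, 1, 0` at these places.

Proof by counting: the S24 fibre counts (`h78_card_fibre_zero`, `h78_card_fibre_1728`), the orbit
counts (`h29_orbits_ST`, `h29_orbits_S`), the fundamental identity (`h24_fibre_sum`) and the
divisibility `h54_ord_j_sub_dvd`.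
-/

set_option autoImplicit false

open AlgebraicCurve IntermediateField ModularCurve KaehlerDifferential
open scoped MatrixGroups

namespace Fermat.Agent.S36

open Fermat.Agent.S18 Fermat.Agent.S24

/-- a fibre with `m * #fibre = [F : K(t)]` whose multiplicities all divide `m` is uniformly of
multiplicity `m`. -/
theorem h83_uniform_fibre {K F : Type*} [Field K] [Field F] [Algebra K F] [IsAlgClosed K]
    [CharZero K] (t : F) (ht : Transcendental K t) [FiniteDimensional K⟮t⟯ F]
    (a : K) (m : ℕ) (hm : 0 < m)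
    (hcard : m * Nat.card {v : Place K F // 0 < v.ord (t - algebraMap K F a)}
      = Module.finrank K⟮t⟯ F)
    (hdvd : ∀ v : Place K F, 0 < v.ord (t - algebraMap K F a) →
      v.ord (t - algebraMap K F a) ∣ (m : ℤ))
    (v : Place K F) (hv : 0 < v.ord (t - algebraMap K F a)) :
    v.ord (t - algebraMap K F a) = m := by
  classical
  have hfin := h24_fibre_finite t ht a
  have hc : Nat.card {v : Place K F // 0 < v.ord (t - algebraMap K F a)} = hfin.toFinset.card := by
    rw [← Set.ncard_eq_toFinset_card _ hfin]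
    exact Nat.card_coe_set_eq _
  have hsum : ∑ w ∈ hfin.toFinset, w.ord (t - algebraMap K F a) = (Module.finrank K⟮t⟯ F : ℤ) :=
    h24_fibre_sum t ht a _ (fun w => by simp)
  have hs0 : ∑ w ∈ hfin.toFinset, ((m : ℤ) - w.ord (t - algebraMap K F a)) = 0 := by
    rw [Finset.sum_sub_distrib, hsum, Finset.sum_const, ← hc, ← hcard]
    push_cast
    simp [mul_comm]
  have hnn : ∀ w ∈ hfin.toFinset, 0 ≤ (m : ℤ) - w.ord (t - algebraMap K F a) := by
    intro w hw
    have hw' : 0 < w.ord (t - algebraMap K F a) := by simpa using hw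
    have := Int.le_of_dvd (by exact_mod_cast hm) (hdvd w hw')
    omega
  have h0 := (Finset.sum_eq_zero_iff_of_nonneg hnn).mp hs0 v (by simpa using hv)
  omega

/-- `ν₃(N) = 0`: every place over `j = 0` has ramification index `3`. -/
theorem h83_ord_jbar_zero (N : ℕ) [NeZero N] (h3 : ModularCurve.nuThree N = 0)
    (v : Place (AlgebraicClosure ℚ) ↥(modularFunctionFieldBar N))
    (hv : 0 < v.ord (h59_jbar N
      - algebraMap (AlgebraicClosure ℚ) ↥(modularFunctionFieldBar N) 0)) :
    v.ord (h59_jbar N - algebraMap (AlgebraicClosure ℚ) ↥(modularFunctionFieldBar N) 0) = 3 := by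
  have hfd := h78_finiteDimensional N
  have hcard : 3 * Nat.card {v : Place (AlgebraicClosure ℚ) ↥(modularFunctionFieldBar N) //
      0 < v.ord (h59_jbar N
        - algebraMap (AlgebraicClosure ℚ) ↥(modularFunctionFieldBar N) 0)}
      = Module.finrank (AlgebraicClosure ℚ)⟮h59_jbar N⟯ ↥(modularFunctionFieldBar N) := by
    rw [h78_card_fibre_zero N, h29_orbits_ST N, h3, h78_finrank N, mul_zero, add_zero]
  have := h83_uniform_fibre (h59_jbar N) (h59_jbar_transcendental N) 0 3 (by norm_num) hcard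
    (fun w hw => by exact_mod_cast (h54_ord_j_sub_dvd N w 0 hw).1 rfl) v hv
  exact_mod_cast this

/-- `ν₂(N) = 0`: every place over `j = 1728` has ramification index `2`. -/
theorem h83_ord_jbar_1728 (N : ℕ) [NeZero N] (h2 : ModularCurve.nuTwo N = 0)
    (v : Place (AlgebraicClosure ℚ) ↥(modularFunctionFieldBar N))
    (hv : 0 < v.ord (h59_jbar N
      - algebraMap (AlgebraicClosure ℚ) ↥(modularFunctionFieldBar N) 1728)) :
    v.ord (h59_jbar N - algebraMap (AlgebraicClosure ℚ) ↥(modularFunctionFieldBar N) 1728)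
      = 2 := by
  have hfd := h78_finiteDimensional N
  have hcard : 2 * Nat.card {v : Place (AlgebraicClosure ℚ) ↥(modularFunctionFieldBar N) //
      0 < v.ord (h59_jbar N
        - algebraMap (AlgebraicClosure ℚ) ↥(modularFunctionFieldBar N) 1728)}
      = Module.finrank (AlgebraicClosure ℚ)⟮h59_jbar N⟯ ↥(modularFunctionFieldBar N) := by
    rw [h78_card_fibre_1728 N, h29_orbits_S N, h2, h78_finrank N, add_zero]
  have := h83_uniform_fibre (h59_jbar N) (h59_jbar_transcendental N) 1728 2 (by norm_num) hcard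
    (fun w hw => by exact_mod_cast (h54_ord_j_sub_dvd N w 1728 hw).2.1 rfl) v hv
  exact_mod_cast this

/-- **(NE)**: at a level with `ν₂ = ν₃ = 0` the ramification index of `j` at a place over the
finite value `c` is `3`, `2`, `1` for `c = 0`, `c = 1728`, otherwise. -/
theorem h83_ord_jbar_sub (N : ℕ) [NeZero N] (h2 : ModularCurve.nuTwo N = 0)
    (h3 : ModularCurve.nuThree N = 0)
    (P : Place (AlgebraicClosure ℚ) ↥(modularFunctionFieldBar N)) (c : AlgebraicClosure ℚ)
    (h : 0 < P.ord (h59_jbar N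
      - algebraMap (AlgebraicClosure ℚ) ↥(modularFunctionFieldBar N) c)) :
    (c = 0 → P.ord (h59_jbar N
        - algebraMap (AlgebraicClosure ℚ) ↥(modularFunctionFieldBar N) c) = 3) ∧
    (c = 1728 → P.ord (h59_jbar N
        - algebraMap (AlgebraicClosure ℚ) ↥(modularFunctionFieldBar N) c) = 2) ∧
    (c ≠ 0 → c ≠ 1728 → P.ord (h59_jbar N
        - algebraMap (AlgebraicClosure ℚ) ↥(modularFunctionFieldBar N) c) = 1) := by
  refine ⟨fun h0 => ?_, fun h1 => ?_, fun h0 h1 => (h54_ord_j_sub_dvd N P c h).2.2 h0 h1⟩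
  · subst h0
    exact h83_ord_jbar_zero N h3 P h
  · subst h1
    exact h83_ord_jbar_1728 N h2 P h

/-- **(NE)**, `if`-form (for any decidability instance). -/
theorem h83_ord_jbar_sub_ite (N : ℕ) [NeZero N] (h2 : ModularCurve.nuTwo N = 0)
    (h3 : ModularCurve.nuThree N = 0) [DecidableEq (AlgebraicClosure ℚ)]
    (P : Place (AlgebraicClosure ℚ) ↥(modularFunctionFieldBar N)) (c : AlgebraicClosure ℚ)
    (h : 0 < P.ord (h59_jbar N
      - algebraMap (AlgebraicClosure ℚ) ↥(modularFunctionFieldBar N) c)) :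
    P.ord (h59_jbar N - algebraMap (AlgebraicClosure ℚ) ↥(modularFunctionFieldBar N) c)
      = if c = 0 then 3 else if c = 1728 then 2 else 1 := by
  obtain ⟨ha, hb, hc⟩ := h83_ord_jbar_sub N h2 h3 P c h
  split_ifs with h0 h1
  · exact ha h0
  · exact hb h1
  · exact hc h0 h1

/-- **(NE)** for the differential: `ord_P (dj) = ord_P (j - c) - 1`, i.e. `2`, `1`, `0`. -/
theorem h83_ordDifferential_jbar (N : ℕ) [NeZero N] (h2 : ModularCurve.nuTwo N = 0)
    (h3 : ModularCurve.nuThree N = 0)
    (P : Place (AlgebraicClosure ℚ) ↥(modularFunctionFieldBar N)) (c : AlgebraicClosure ℚ)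
    (h : 0 < P.ord (h59_jbar N
      - algebraMap (AlgebraicClosure ℚ) ↥(modularFunctionFieldBar N) c)) :
    (c = 0 → P.ordDifferential
        (D (AlgebraicClosure ℚ) ↥(modularFunctionFieldBar N) (h59_jbar N)) = 2) ∧
    (c = 1728 → P.ordDifferential
        (D (AlgebraicClosure ℚ) ↥(modularFunctionFieldBar N) (h59_jbar N)) = 1) ∧
    (c ≠ 0 → c ≠ 1728 → P.ordDifferential
        (D (AlgebraicClosure ℚ) ↥(modularFunctionFieldBar N) (h59_jbar N)) = 0) := by
  have hfd := h78_finiteDimensional N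
  have hF : h73_IsFF (AlgebraicClosure ℚ) ↥(modularFunctionFieldBar N) := ⟨h59_jbar N, hfd⟩
  obtain ⟨ha, hb, hc⟩ := h83_ord_jbar_sub N h2 h3 P c h
  have hd := h73_ordDifferential_D_pos hF P h
  refine ⟨fun h0 => ?_, fun h1 => ?_, fun h0 h1 => ?_⟩
  · rw [hd, ha h0]
    norm_num
  · rw [hd, hb h1]
    norm_num
  · rw [hd, hc h0 h1]
    norm_num

end Fermat.Agent.S36
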