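import Fermat.Agent.S36.h60_XiMod
import Fermat.Agent.S36.h83_NoElliptic

/-!
# S36 / (HASSE) row (O): `red (ds/dJ)` at an ordinary point (helper60)

`J` an S18 chart of a reduction datum `R`, with the char-`0` ramification `3 / 2 / 1` over
`0 / 1728 / else` ("no elliptic points"), `δ = d/dJ`.  For `s ∈ O` regular on the chart with
`δ s ∈ O` and `s̄ - c₀` a uniformiser at a finite place `y` of the special fibre:

* `h60_dred_ord_of_ne` : if `red (δ s) ≠ 0` then `red (δ s)^6 · j̄^4 · (j̄ - 1728)^3` is a unit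
  at `y`;
* `h60_dred_ne_zero`   : `red (δ s) ≠ 0`  (apply the previous item to `s' = (s - b)(J - a)`);
* `h60_dred_unit`      : both.
-/

set_option autoImplicit false

noncomputable section

open AlgebraicCurve KaehlerDifferential ModularCurve
open Fermat.Agent.S18 Fermat.Agent.S24

namespace Fermat.Agent.S36

section Chart

variable {K F k Fb : Type*} [Field K] [Field F] [Algebra K F] [Field k] [Field Fb] [Algebra k Fb]
variable [IsAlgClosed K] [CharZero K] [IsAlgClosed k]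

omit [IsAlgClosed K] [CharZero K] [IsAlgClosed k] in
/-- `Ξ_s ∈ O` and its reduction. -/
theorem h60_xi_redF (R : h39_RedDatum K F k Fb) {J : F} (hJO : J ∈ R.O)
    (δ : Derivation K F F) {s : F} (hδs : δ s ∈ R.O) :
    h60_Xi δ J s ∈ R.O ∧
      R.redF (h60_Xi δ J s) =
        R.redF (δ s) ^ 6 * R.redF J ^ 4 * (R.redF J - algebraMap k Fb (R.resK 1728)) ^ 3 := by
  have h1728 : (1728 : K) ∈ R.A := by
    have := natCast_mem R.A 1728
    exact_mod_cast this
  have hcO : algebraMap K F 1728 ∈ R.O := (R.mem_iff _).mp h1728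
  have h1 : (δ s) ^ 6 ∈ R.O := R.O.pow_mem hδs 6
  have h2 : J ^ 4 ∈ R.O := R.O.pow_mem hJO 4
  have h3 : J - algebraMap K F 1728 ∈ R.O := sub_mem hJO hcO
  have h4 : (J - algebraMap K F 1728) ^ 3 ∈ R.O := R.O.pow_mem h3 3
  have h12 : (δ s) ^ 6 * J ^ 4 ∈ R.O := R.O.mul_mem _ _ h1 h2
  refine ⟨R.O.mul_mem _ _ h12 h4, ?_⟩
  unfold h60_Xi
  rw [h39_redF_mul R h12 h4, h39_redF_mul R h1 h2, h39_redF_pow R hδs, h39_redF_pow R hJO,
    h39_redF_pow R h3, h39_redF_sub R hJO hcO, h39_redF_algebraMap R h1728]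

/-- If `red (δ s) ≠ 0` then `red Ξ_s` is a unit at `y`. -/
theorem h60_dred_ord_of_ne (R : h39_RedDatum K F k Fb) {J : F} (hJ : h39_Chart R J)
    (hF : h73_IsFF K F)
    (hPP : ∀ (P : Place K F) (a : K), 0 < P.ord (J - algebraMap K F a) →
      (a = 0 → P.ord (J - algebraMap K F a) = 3) ∧
      (a = 1728 → P.ord (J - algebraMap K F a) = 2) ∧
      (a ≠ 0 → a ≠ 1728 → P.ord (J - algebraMap K F a) = 1))
    (δ : Derivation K F F) (hδ : ∀ f : F, D K F f = δ f • D K F J)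
    (y : Place k Fb) (hy : R.redF J ∈ y.toValuationSubring)
    (s : F) (hsO : s ∈ R.O) (hsreg : h39_Reg K J s) (hδs : δ s ∈ R.O)
    (c₀ : k) (hs1 : y.ord (R.redF s - algebraMap k Fb c₀) = 1)
    (hne : R.redF (δ s) ≠ 0) :
    y.ord (R.redF (δ s) ^ 6 * R.redF J ^ 4 *
      (R.redF J - algebraMap k Fb (R.resK 1728)) ^ 3) = 0 := by
  have hw : h39_WeakChart R J := hJ.toh39_WeakChart
  have hxK : h75_IsChart K J := h39_weakChart_isChart R hw
  have hjtr : Transcendental k (R.redF J) := hw.transcendental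
  obtain ⟨hΞO, hred⟩ := h60_xi_redF R hw.mem δ hδs
  have hj0 : R.redF J ≠ 0 := fun h0 => hjtr (h0 ▸ isAlgebraic_zero)
  have hjc : ∀ c : k, R.redF J - algebraMap k Fb c ≠ 0 := fun c h0 =>
    hjtr (sub_eq_zero.mp h0 ▸ isAlgebraic_algebraMap c)
  have hne' : R.redF (h60_Xi δ J s) ≠ 0 := by
    rw [hred]
    exact mul_ne_zero (mul_ne_zero (pow_ne_zero _ hne) (pow_ne_zero _ hj0))
      (pow_ne_zero _ (hjc _))
  have hΞO1 : algebraMap K F 1 * h60_Xi δ J s ∈ R.O := by
    rw [map_one, one_mul]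
    exact hΞO
  have hval₀ : h39_Val y (R.redF s) c₀ := Or.inr (by rw [hs1]; norm_num)
  have hs1' : ∀ c : k, h39_Val y (R.redF s) c →
      y.ord (R.redF s - algebraMap k Fb c) = 1 := by
    intro c hc
    rw [h39_val_unique y hc hval₀]
    exact hs1
  have hredeq : R.red ⟨algebraMap K F 1 * h60_Xi δ J s, hΞO1⟩ = R.redF (h60_Xi δ J s) := by
    rw [← R.redF_of_mem hΞO1, map_one, one_mul]
  have key := h60_xi_chart R hJ hF J hxK.tr hPP δ hδ y hy (fun P hP _ => h37_disc_mem R hP)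
    s hsO hsreg hs1' 1 hΞO1 (by rw [hredeq]; exact hne')
  rw [hredeq, hred] at key
  exact key

/-- `red (δ s) ≠ 0` when `s̄ - c₀` is a uniformiser at a finite place of the special fibre. -/
theorem h60_dred_ne_zero (R : h39_RedDatum K F k Fb) {J : F} (hJ : h39_Chart R J)
    (hF : h73_IsFF K F)
    (hPP : ∀ (P : Place K F) (a : K), 0 < P.ord (J - algebraMap K F a) →
      (a = 0 → P.ord (J - algebraMap K F a) = 3) ∧
      (a = 1728 → P.ord (J - algebraMap K F a) = 2) ∧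
      (a ≠ 0 → a ≠ 1728 → P.ord (J - algebraMap K F a) = 1))
    (δ : Derivation K F F) (hδJ : δ J = 1) (hδ : ∀ f : F, D K F f = δ f • D K F J)
    (y : Place k Fb) (hy : R.redF J ∈ y.toValuationSubring)
    (s : F) (hsO : s ∈ R.O) (hsreg : h39_Reg K J s) (hδs : δ s ∈ R.O)
    (c₀ : k) (hs1 : y.ord (R.redF s - algebraMap k Fb c₀) = 1) :
    R.redF (δ s) ≠ 0 := by
  intro h0
  have hw : h39_WeakChart R J := hJ.toh39_WeakChart
  have hJO : J ∈ R.O := hw.mem
  have hjtr : Transcendental k (R.redF J) := hw.transcendental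
  have hxk : h75_IsChart k (R.redF J) := h39_weakChart_isChart_red R hw
  have hjc : ∀ c : k, R.redF J - algebraMap k Fb c ≠ 0 := fun c h0 =>
    hjtr (sub_eq_zero.mp h0 ▸ isAlgebraic_algebraMap c)
  have hj0 : R.redF J ≠ 0 := fun h0 => hjtr (h0 ▸ isAlgebraic_zero)
  -- the value of `j̄` at `y` and a constant `a ∈ A` avoiding it
  obtain ⟨cJ, hcJ⟩ := h39_exists_val hxk y hy
  obtain ⟨a, haA, hane⟩ : ∃ a : K, a ∈ R.A ∧ R.resK a ≠ cJ := by
    by_cases h : cJ = 0
    · refine ⟨1, R.A.one_mem, ?_⟩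
      rw [h39_resK_one, h]
      exact one_ne_zero
    · refine ⟨0, R.A.zero_mem, ?_⟩
      have hz : R.resK 0 = 0 := by
        rw [R.resK_of_mem R.A.zero_mem]
        exact map_zero R.res
      rw [hz]
      exact Ne.symm h
  obtain ⟨b, hbA, hbc⟩ := h39_resK_surjective R c₀
  have haO : algebraMap K F a ∈ R.O := (R.mem_iff _).mp haA
  have hbO : algebraMap K F b ∈ R.O := (R.mem_iff _).mp hbA
  have hs0O : s - algebraMap K F b ∈ R.O := sub_mem hsO hbO
  have hJaO : J - algebraMap K F a ∈ R.O := sub_mem hJO haO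
  set t : Fb := R.redF s - algebraMap k Fb c₀ with ht
  have ht0 : t ≠ 0 := by
    intro h
    rw [h] at hs1
    simp at hs1
  have hred0 : R.redF (s - algebraMap K F b) = t := by
    rw [h39_redF_sub R hsO hbO, h39_redF_algebraMap R hbA, hbc]
  have hredJa : R.redF (J - algebraMap K F a) = R.redF J - algebraMap k Fb (R.resK a) := by
    rw [h39_redF_sub R hJO haO, h39_redF_algebraMap R haA]
  -- `ord_y (j̄ - ā) = 0`
  have hordJa : y.ord (R.redF J - algebraMap k Fb (R.resK a)) = 0 := by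
    have hsplit : R.redF J - algebraMap k Fb (R.resK a)
        = algebraMap k Fb (cJ - R.resK a) + (R.redF J - algebraMap k Fb cJ) := by
      rw [map_sub]
      ring
    rw [hsplit]
    refine h36_ord_const_add y (sub_ne_zero.mpr (Ne.symm hane)) ?_
    rcases hcJ with h | h
    · exact Or.inl (sub_eq_zero.mpr h)
    · exact Or.inr h
  -- the auxiliary function `s' = (s - b) (J - a)`
  set s' : F := (s - algebraMap K F b) * (J - algebraMap K F a) with hs'
  have hs'O : s' ∈ R.O := R.O.mul_mem _ _ hs0O hJaO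
  have hs'reg : h39_Reg K J s' := by
    intro P hP
    exact P.toValuationSubring.mul_mem _ _
      (sub_mem (hsreg P hP) (P.algebraMap_mem' b))
      (sub_mem hP (P.algebraMap_mem' a))
  have hδs' : δ s' = (s - algebraMap K F b) + (J - algebraMap K F a) * δ s := by
    rw [hs', Derivation.leibniz, map_sub, map_sub, Derivation.map_algebraMap,
      Derivation.map_algebraMap, hδJ, sub_zero, sub_zero, smul_eq_mul, smul_eq_mul, mul_one]
  have hδs'O : δ s' ∈ R.O := by
    rw [hδs']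
    exact R.O.add_mem _ _ hs0O (R.O.mul_mem _ _ hJaO hδs)
  have hredδ : R.redF (δ s') = t := by
    rw [hδs', h39_redF_add R hs0O (R.O.mul_mem _ _ hJaO hδs), h39_redF_mul R hJaO hδs, h0,
      mul_zero, add_zero, hred0]
  have hreds' : R.redF s' = t * (R.redF J - algebraMap k Fb (R.resK a)) := by
    rw [hs', h39_redF_mul R hs0O hJaO, hred0, hredJa]
  have hs1' : y.ord (R.redF s' - algebraMap k Fb 0) = 1 := by
    rw [map_zero, sub_zero, hreds', y.ord_mul ht0 (hjc _), hordJa, add_zero]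
    exact hs1
  have key := h60_dred_ord_of_ne R hJ hF hPP δ hδ y hy s' hs'O hs'reg hδs'O 0 hs1'
    (by rw [hredδ]; exact ht0)
  rw [hredδ, y.ord_mul (mul_ne_zero (pow_ne_zero _ ht0) (pow_ne_zero _ hj0))
      (pow_ne_zero _ (hjc _)),
    y.ord_mul (pow_ne_zero _ ht0) (pow_ne_zero _ hj0), h36_ord_pow, h36_ord_pow, h36_ord_pow,
    hs1] at key
  have h1 : 0 ≤ y.ord (R.redF J) := h35_ord_nonneg_of_mem y hy
  have h2 : 0 ≤ y.ord (R.redF J - algebraMap k Fb (R.resK 1728)) :=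
    h35_ord_nonneg_of_mem y (sub_mem hy (y.algebraMap_mem' _))
  push_cast at key
  omega

/-- **(O), derivative form.**  `red (ds/dJ) ≠ 0` and `red Ξ_s` is a unit at `y`. -/
theorem h60_dred_unit (R : h39_RedDatum K F k Fb) {J : F} (hJ : h39_Chart R J)
    (hF : h73_IsFF K F)
    (hPP : ∀ (P : Place K F) (a : K), 0 < P.ord (J - algebraMap K F a) →
      (a = 0 → P.ord (J - algebraMap K F a) = 3) ∧
      (a = 1728 → P.ord (J - algebraMap K F a) = 2) ∧
      (a ≠ 0 → a ≠ 1728 → P.ord (J - algebraMap K F a) = 1))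
    (δ : Derivation K F F) (hδJ : δ J = 1) (hδ : ∀ f : F, D K F f = δ f • D K F J)
    (y : Place k Fb) (hy : R.redF J ∈ y.toValuationSubring)
    (s : F) (hsO : s ∈ R.O) (hsreg : h39_Reg K J s) (hδs : δ s ∈ R.O)
    (c₀ : k) (hs1 : y.ord (R.redF s - algebraMap k Fb c₀) = 1) :
    R.redF (δ s) ≠ 0 ∧
      y.ord (R.redF (δ s) ^ 6 * R.redF J ^ 4 *
        (R.redF J - algebraMap k Fb (R.resK 1728)) ^ 3) = 0 := by
  have hne := h60_dred_ne_zero R hJ hF hPP δ hδJ hδ y hy s hsO hsreg hδs c₀ hs1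
  exact ⟨hne, h60_dred_ord_of_ne R hJ hF hPP δ hδ y hy s hsO hsreg hδs c₀ hs1 hne⟩

/-- **(O), Hasse form.**  If `Rρ ^ 6 = W · (j̄^4 (j̄ - 1728)^3)^n` (helper20's identity (U) with
`n = q - 1`, `Rρ = red₁ ρ = (θ j̄)^(q-1)`, `W = red₁ u`), then `c_s := red (ds/dJ)^n · Rρ`
(`= (θ s̄)^(q-1)`) satisfies `6 ord_y c_s = ord_y W`. -/
theorem h60_hasse_ord (R : h39_RedDatum K F k Fb) {J : F} (hJ : h39_Chart R J)
    (hF : h73_IsFF K F)
    (hPP : ∀ (P : Place K F) (a : K), 0 < P.ord (J - algebraMap K F a) →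
      (a = 0 → P.ord (J - algebraMap K F a) = 3) ∧
      (a = 1728 → P.ord (J - algebraMap K F a) = 2) ∧
      (a ≠ 0 → a ≠ 1728 → P.ord (J - algebraMap K F a) = 1))
    (δ : Derivation K F F) (hδJ : δ J = 1) (hδ : ∀ f : F, D K F f = δ f • D K F J)
    (y : Place k Fb) (hy : R.redF J ∈ y.toValuationSubring)
    (s : F) (hsO : s ∈ R.O) (hsreg : h39_Reg K J s) (hδs : δ s ∈ R.O)
    (c₀ : k) (hs1 : y.ord (R.redF s - algebraMap k Fb c₀) = 1)
    (n : ℕ) (W Rρ : Fb) (hW : W ≠ 0)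
    (hU : Rρ ^ 6 = W * (R.redF J ^ 4 * (R.redF J - algebraMap k Fb (R.resK 1728)) ^ 3) ^ n) :
    R.redF (δ s) ^ n * Rρ ≠ 0 ∧ 6 * y.ord (R.redF (δ s) ^ n * Rρ) = y.ord W := by
  obtain ⟨hne, hord⟩ := h60_dred_unit R hJ hF hPP δ hδJ hδ y hy s hsO hsreg hδs c₀ hs1
  have hw : h39_WeakChart R J := hJ.toh39_WeakChart
  have hjtr : Transcendental k (R.redF J) := hw.transcendental
  have hj0 : R.redF J ≠ 0 := fun h0 => hjtr (h0 ▸ isAlgebraic_zero)
  have hjc : ∀ c : k, R.redF J - algebraMap k Fb c ≠ 0 := fun c h0 =>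
    hjtr (sub_eq_zero.mp h0 ▸ isAlgebraic_algebraMap c)
  set Ξb : Fb := R.redF (δ s) ^ 6 * R.redF J ^ 4 *
    (R.redF J - algebraMap k Fb (R.resK 1728)) ^ 3 with hΞb
  have hΞ0 : Ξb ≠ 0 :=
    mul_ne_zero (mul_ne_zero (pow_ne_zero _ hne) (pow_ne_zero _ hj0)) (pow_ne_zero _ (hjc _))
  have hRρ : Rρ ≠ 0 := by
    intro h0
    rw [h0, zero_pow (by norm_num)] at hU
    exact mul_ne_zero hW (pow_ne_zero _ (mul_ne_zero (pow_ne_zero _ hj0)
      (pow_ne_zero _ (hjc _)))) hU.symm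
  have hc0 : R.redF (δ s) ^ n * Rρ ≠ 0 := mul_ne_zero (pow_ne_zero _ hne) hRρ
  refine ⟨hc0, ?_⟩
  have hΞB : Ξb = R.redF (δ s) ^ 6 *
      (R.redF J ^ 4 * (R.redF J - algebraMap k Fb (R.resK 1728)) ^ 3) := by
    rw [hΞb]
    ring
  have e1 : (R.redF (δ s) ^ n) ^ 6 = (R.redF (δ s) ^ 6) ^ n := by
    rw [← pow_mul, ← pow_mul, mul_comm]
  have hpow : (R.redF (δ s) ^ n * Rρ) ^ 6 = W * Ξb ^ n := by
    rw [hΞB, mul_pow (R.redF (δ s) ^ 6), mul_pow (R.redF (δ s) ^ n), hU, e1]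
    generalize (R.redF J ^ 4 * (R.redF J - algebraMap k Fb (R.resK 1728)) ^ 3) ^ n = X
    generalize (R.redF (δ s) ^ 6) ^ n = Y
    ring
  have h1 := congrArg y.ord hpow
  rw [h36_ord_pow, y.ord_mul hW (pow_ne_zero _ hΞ0), h36_ord_pow, hord] at h1
  push_cast at h1
  linarith

end Chart

/-! ### The quotient rule and its reduction (abstract form) -/

section QuotRule

/-- Quotient rule, lifted: if `s · ι y₂ = ι y₁` and `θ s = ds · θ J`, `J = ι jA`, then
`ds · ι (θ jA · y₂²) = ι (θ y₁ · y₂ - y₁ · θ y₂)`. -/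
theorem h60_quot_rule_lift {LQ LA : Type*} [CommRing LQ] [CommRing LA] (ι : LA →+* LQ)
    (θQ : LQ → LQ) (θA : LA → LA)
    (hQ : ∀ f g : LQ, θQ (f * g) = θQ f * g + f * θQ g)
    (hιθ : ∀ y : LA, θQ (ι y) = ι (θA y))
    (s ds J : LQ) (hds : θQ s = ds * θQ J) (jA y₁ y₂ : LA) (hJ : J = ι jA)
    (hs : s * ι y₂ = ι y₁) :
    ds * ι (θA jA * y₂ ^ 2) = ι (θA y₁ * y₂ - y₁ * θA y₂) := by
  have h := congrArg θQ hs
  rw [hQ, hιθ, hιθ, hds, hJ, hιθ] at h
  rw [map_mul, map_pow, map_sub, map_mul, map_mul, ← h, ← hs]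
  ring

/-- Quotient rule, reduced: if `sb · π y₂ = π y₁` and
`r · π (θ jA · y₂²) = π (θ y₁ · y₂ - y₁ · θ y₂)` then `r · θ (π jA) = θ sb`. -/
theorem h60_quot_rule_red {Lk LA : Type*} [Field Lk] [CommRing LA] (π : LA →+* Lk)
    (θk : Lk → Lk) (θA : LA → LA)
    (hk : ∀ f g : Lk, θk (f * g) = θk f * g + f * θk g)
    (hπθ : ∀ y : LA, θk (π y) = π (θA y))
    (jA y₁ y₂ : LA) (hy₂ : π y₂ ≠ 0) (sb r : Lk) (hsb : sb * π y₂ = π y₁)
    (hr : r * π (θA jA * y₂ ^ 2) = π (θA y₁ * y₂ - y₁ * θA y₂)) :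
    r * θk (π jA) = θk sb := by
  have h := congrArg θk hsb
  rw [hk, hπθ, hπθ] at h
  rw [map_mul, map_pow, map_sub, map_mul, map_mul, ← h, ← hsb] at hr
  rw [hπθ]
  have h2 : (r * π (θA jA) - θk sb) * π y₂ ^ 2 = 0 := by
    linear_combination hr
  rcases mul_eq_zero.mp h2 with h3 | h3
  · exact sub_eq_zero.mp h3
  · exact absurd ((pow_eq_zero_iff two_ne_zero).mp h3) hy₂

end QuotRule

/-! ### The modular level `M` -/

section Modular

local notation "Qb" => AlgebraicClosure ℚ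

/-- A derivation `δ` of a function field with `δ J = 1` is `d/dJ`. -/
theorem h60_kaehler_of_one {K F : Type*} [Field K] [Field F] [Algebra K F] {J : F}
    (δ' : Derivation K F F) (hδ' : ∀ f : F, D K F f = δ' f • D K F J)
    (δ : Derivation K F F) (hδJ : δ J = 1) (f : F) : D K F f = δ f • D K F J := by
  have h := congrArg δ.liftKaehlerDifferential (hδ' f)
  rw [Derivation.liftKaehlerDifferential_comp_D, map_smul,
    Derivation.liftKaehlerDifferential_comp_D, hδJ, smul_eq_mul, mul_one] at h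
  rw [h]
  exact hδ' f

variable (M : ℕ) [NeZero M] (A : ValuationSubring Qb)

/-- **Integrality of `ds/dJ` and its reduction** (the operators `θ` are abstract: any maps on
Laurent series over `Qb`, `A`, `k` satisfying the Leibniz rule and commuting with the
coefficient maps).  For `s ∈ O`: `ds/dJ ∈ O` and `red (ds/dJ) · θ j̄ = θ s̄`. -/
theorem h60_dred_mod
    {R : h39_RedDatum Qb ↥(modularFunctionFieldBar M) (IsLocalRing.ResidueField A)
      ↥(modularFunctionFieldFullC (IsLocalRing.ResidueField A) M)} (hR : h54_IsModRed M A R)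
    (θQ : LaurentSeries Qb → LaurentSeries Qb) (θA : LaurentSeries A → LaurentSeries A)
    (θk : LaurentSeries (IsLocalRing.ResidueField A) → LaurentSeries (IsLocalRing.ResidueField A))
    (hQ : ∀ f g : LaurentSeries Qb, θQ (f * g) = θQ f * g + f * θQ g)
    (hk : ∀ f g : LaurentSeries (IsLocalRing.ResidueField A), θk (f * g) = θk f * g + f * θk g)
    (hιθ : ∀ y : LaurentSeries A, θQ (coeffMap A.subtype y) = coeffMap A.subtype (θA y))
    (hπθ : ∀ y : LaurentSeries A, θk (coeffMap (IsLocalRing.residue A) y)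
      = coeffMap (IsLocalRing.residue A) (θA y))
    (hθj : θk (jqModC (IsLocalRing.ResidueField A)) ≠ 0)
    (δ : ↥(modularFunctionFieldBar M) → ↥(modularFunctionFieldBar M))
    (hDJ : ∀ f : ↥(modularFunctionFieldBar M), θQ (f : LaurentSeries Qb)
      = ((δ f : ↥(modularFunctionFieldBar M)) : LaurentSeries Qb)
        * θQ ((h59_jbar M : ↥(modularFunctionFieldBar M)) : LaurentSeries Qb))
    (s : ↥(modularFunctionFieldBar M)) (hs : s ∈ R.O) :
    δ s ∈ R.O ∧
      ((R.redF (δ s) : ↥(modularFunctionFieldFullC (IsLocalRing.ResidueField A) M)) :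
          LaurentSeries (IsLocalRing.ResidueField A)) * θk (jqModC (IsLocalRing.ResidueField A))
        = θk ((R.redF s : ↥(modularFunctionFieldFullC (IsLocalRing.ResidueField A) M)) :
          LaurentSeries (IsLocalRing.ResidueField A)) := by
  obtain ⟨y₁, y₂, hy₂, hs12⟩ := (hR.mem_iff s).mp hs
  have hJ := h54_coe_jbar M A
  have hlift := h60_quot_rule_lift (coeffMap A.subtype) θQ θA hQ hιθ _ _ _ (hDJ s)
    (jqModC A) y₁ y₂ hJ hs12
  have hne : coeffMap (IsLocalRing.residue A) (θA (jqModC A) * y₂ ^ 2) ≠ 0 := by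
    rw [map_mul, map_pow, ← hπθ, coeffMap_jqModC]
    exact mul_ne_zero hθj (pow_ne_zero 2 hy₂)
  have hδO : δ s ∈ R.O := (hR.mem_iff _).mpr ⟨_, _, hne, hlift⟩
  refine ⟨hδO, ?_⟩
  have hred := hR.red_eq (δ s) hδO _ _ hlift
  have hsred := hR.red_eq s hs y₁ y₂ hs12
  have key := h60_quot_rule_red (coeffMap (IsLocalRing.residue A)) θk θA hk hπθ (jqModC A)
    y₁ y₂ hy₂ _ _ hsred hred
  rw [coeffMap_jqModC] at key
  rw [R.redF_of_mem hδO, R.redF_of_mem hs]
  exact key

/-- **(O) at level `M`, chart `j` (`q ≥ 5`), `θ` abstract.**  `M` without elliptic points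
(`ν₂ = ν₃ = 0`), `R` a modular reduction datum for which `j` is an S18 chart, `y` a place of the
special fibre with `j̄` finite, `s ∈ O` regular off the cusps with `s̄ - c₀` a uniformiser at `y`.
If `Rρ, W ∈ Fb` satisfy `Rρ = (θ j̄)^n` and `Rρ^6 = W (j̄^4 (j̄ - 1728)^3)^n`, then `(θ s̄)^n` is
(the series of) a nonzero element `c` of `Fb` with `6 ord_y c = ord_y W`. -/
theorem h60_hasse_mod
    {R : h39_RedDatum Qb ↥(modularFunctionFieldBar M) (IsLocalRing.ResidueField A)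
      ↥(modularFunctionFieldFullC (IsLocalRing.ResidueField A) M)} (hR : h54_IsModRed M A R)
    (hchart : h39_Chart R (h59_jbar M)) (h2 : nuTwo M = 0) (h3 : nuThree M = 0)
    (θQ : LaurentSeries Qb → LaurentSeries Qb) (θA : LaurentSeries A → LaurentSeries A)
    (θk : LaurentSeries (IsLocalRing.ResidueField A) → LaurentSeries (IsLocalRing.ResidueField A))
    (hQ : ∀ f g : LaurentSeries Qb, θQ (f * g) = θQ f * g + f * θQ g)
    (hk : ∀ f g : LaurentSeries (IsLocalRing.ResidueField A), θk (f * g) = θk f * g + f * θk g)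
    (hιθ : ∀ y : LaurentSeries A, θQ (coeffMap A.subtype y) = coeffMap A.subtype (θA y))
    (hπθ : ∀ y : LaurentSeries A, θk (coeffMap (IsLocalRing.residue A) y)
      = coeffMap (IsLocalRing.residue A) (θA y))
    (hθj : θk (jqModC (IsLocalRing.ResidueField A)) ≠ 0)
    (hDJ : ∃ δ : Derivation Qb ↥(modularFunctionFieldBar M) ↥(modularFunctionFieldBar M),
      δ (h59_jbar M) = 1 ∧ ∀ f : ↥(modularFunctionFieldBar M), θQ (f : LaurentSeries Qb)
        = ((δ f : ↥(modularFunctionFieldBar M)) : LaurentSeries Qb)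
          * θQ ((h59_jbar M : ↥(modularFunctionFieldBar M)) : LaurentSeries Qb))
    (y : Place (IsLocalRing.ResidueField A)
      ↥(modularFunctionFieldFullC (IsLocalRing.ResidueField A) M))
    (hy : h54_jk (IsLocalRing.ResidueField A) M ∈ y.toValuationSubring)
    (s : ↥(modularFunctionFieldBar M)) (hsO : s ∈ R.O) (hsreg : h39_Reg Qb (h59_jbar M) s)
    (c₀ : IsLocalRing.ResidueField A)
    (hs1 : y.ord (R.redF s - algebraMap (IsLocalRing.ResidueField A)
      ↥(modularFunctionFieldFullC (IsLocalRing.ResidueField A) M) c₀) = 1)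
    (n : ℕ) (W Rρ : ↥(modularFunctionFieldFullC (IsLocalRing.ResidueField A) M)) (hW : W ≠ 0)
    (hRρ : (Rρ : LaurentSeries (IsLocalRing.ResidueField A))
      = θk (jqModC (IsLocalRing.ResidueField A)) ^ n)
    (hU : Rρ ^ 6 = W * (h54_jk (IsLocalRing.ResidueField A) M ^ 4
      * (h54_jk (IsLocalRing.ResidueField A) M - 1728) ^ 3) ^ n) :
    ∃ c : ↥(modularFunctionFieldFullC (IsLocalRing.ResidueField A) M),
      (c : LaurentSeries (IsLocalRing.ResidueField A))
        = θk ((R.redF s : ↥(modularFunctionFieldFullC (IsLocalRing.ResidueField A) M)) :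
          LaurentSeries (IsLocalRing.ResidueField A)) ^ n ∧
      c ≠ 0 ∧ 6 * y.ord c = y.ord W := by
  have : IsAlgClosed (IsLocalRing.ResidueField A) := h19_residueField_isAlgClosed A
  obtain ⟨δ, hδJ, hθδ⟩ := hDJ
  have hw : h39_WeakChart R (h59_jbar M) := hchart.toh39_WeakChart
  have hxK : h75_IsChart Qb (h59_jbar M) := h39_weakChart_isChart R hw
  obtain ⟨δ', -, hδ'⟩ := h60_exists_dJ M hxK.tr
  have hδ := h60_kaehler_of_one δ' hδ' δ hδJ
  have hredJ : R.redF (h59_jbar M) = h54_jk (IsLocalRing.ResidueField A) M := h54_redF_jbar hR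
  obtain ⟨hδs, hθs⟩ := h60_dred_mod M A hR θQ θA θk hQ hk hιθ hπθ hθj δ hθδ s hsO
  have h1728 : R.resK 1728 = 1728 := by
    have hmem : (1728 : Qb) ∈ R.A := by
      have := natCast_mem R.A 1728
      exact_mod_cast this
    rw [R.resK_of_mem hmem]
    exact map_ofNat R.res 1728
  have hU' : Rρ ^ 6 = W * (R.redF (h59_jbar M) ^ 4 * (R.redF (h59_jbar M)
      - algebraMap (IsLocalRing.ResidueField A)
        ↥(modularFunctionFieldFullC (IsLocalRing.ResidueField A) M) (R.resK 1728)) ^ 3) ^ n := by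
    rw [hredJ, h1728, map_ofNat]
    exact hU
  obtain ⟨hc0, hord⟩ := h60_hasse_ord R hchart (Fermat.Agent.S37.h88_isFF M)
    (h83_ord_jbar_sub M h2 h3) δ hδJ hδ y (by rw [hredJ]; exact hy) s hsO hsreg hδs c₀ hs1
    n W Rρ hW hU'
  refine ⟨R.redF (δ s) ^ n * Rρ, ?_, hc0, hord⟩
  rw [← hθs]
  push_cast
  rw [hRρ, mul_pow]

end Modular

end Fermat.Agent.S36

end
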