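import Fermat.Agent.S36.h60_HasseOrd
import Fermat.Agent.S27.Trunc

/-!
# S36 / (HASSE) row (O) for an arbitrary chart (helper60)

The statements of `h60_HasseOrd` with the chart `x` different from `J` (Hauptmodul charts in
characteristic `2`, `3`) and with *local* regularity:

* `h60_RegAt R x y s` : `s = s₁ / s₂` with `s₁, s₂ ∈ O` regular on the chart `x` and
  `s̄₂ (y) ≠ 0`; closed under `+`, `-`, `*`, contains the constants of `A` and the elements of
  `O` regular on the chart;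
* `h60_tube_regAt` : the value of such an `s ∈ O` at every place of the tube of `y` lies in `A`
  and reduces to the value of `s̄` at `y`;
* `h60_xi_chart_regAt`, `h60_dred_unit_regAt`, `h60_hasse_ord_regAt` : the theorems
  `h60_xi_chart`, `h60_dred_unit`, `h60_hasse_ord` in this generality.
-/

set_option autoImplicit false

noncomputable section

open AlgebraicCurve KaehlerDifferential
open Fermat.Agent.S18 Fermat.Agent.S24 Fermat.Agent.S27

namespace Fermat.Agent.S36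

variable {K F k Fb : Type*} [Field K] [Field F] [Algebra K F] [Field k] [Field Fb] [Algebra k Fb]

/-- `s` is a quotient of two elements of `O` regular on the chart `x`, the denominator having
a nonzero value at `y`. -/
def h60_RegAt (R : h39_RedDatum K F k Fb) (x : F) (y : Place k Fb) (s : F) : Prop :=
  ∃ s₂ : F, s₂ ∈ R.O ∧ h39_Reg K x s₂ ∧ s * s₂ ∈ R.O ∧ h39_Reg K x (s * s₂) ∧
    ∃ c : k, c ≠ 0 ∧ h39_Val y (R.redF s₂) c

theorem h60_regAt_of_reg (R : h39_RedDatum K F k Fb) (x : F) (y : Place k Fb) {s : F}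
    (hs : s ∈ R.O) (hreg : h39_Reg K x s) : h60_RegAt R x y s := by
  refine ⟨1, R.O.one_mem, fun P _ => P.toValuationSubring.one_mem, by rwa [mul_one],
    by rwa [mul_one], 1, one_ne_zero, ?_⟩
  rw [h39_redF_one]
  exact Or.inl (map_one _).symm

theorem h60_regAt_const (R : h39_RedDatum K F k Fb) (x : F) (y : Place k Fb) {a : K}
    (ha : a ∈ R.A) : h60_RegAt R x y (algebraMap K F a) :=
  h60_regAt_of_reg R x y ((R.mem_iff a).mp ha) (fun P _ => P.algebraMap_mem' a)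

theorem h60_regAt_mul (R : h39_RedDatum K F k Fb) {x : F} {y : Place k Fb} {s s' : F}
    (h : h60_RegAt R x y s) (h' : h60_RegAt R x y s') : h60_RegAt R x y (s * s') := by
  obtain ⟨s₂, h1, h2, h3, h4, c, hc, hv⟩ := h
  obtain ⟨s₂', h1', h2', h3', h4', c', hc', hv'⟩ := h'
  have e : s * s' * (s₂ * s₂') = (s * s₂) * (s' * s₂') := by ring
  refine ⟨s₂ * s₂', R.O.mul_mem _ _ h1 h1',
    fun P hP => P.toValuationSubring.mul_mem _ _ (h2 P hP) (h2' P hP), ?_, ?_, c * c',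
    mul_ne_zero hc hc', ?_⟩
  · rw [e]
    exact R.O.mul_mem _ _ h3 h3'
  · intro P hP
    rw [e]
    exact P.toValuationSubring.mul_mem _ _ (h4 P hP) (h4' P hP)
  · rw [h39_redF_mul R h1 h1']
    exact h39_val_mul y hv hv'

theorem h60_regAt_add (R : h39_RedDatum K F k Fb) {x : F} {y : Place k Fb} {s s' : F}
    (h : h60_RegAt R x y s) (h' : h60_RegAt R x y s') : h60_RegAt R x y (s + s') := by
  obtain ⟨s₂, h1, h2, h3, h4, c, hc, hv⟩ := h
  obtain ⟨s₂', h1', h2', h3', h4', c', hc', hv'⟩ := h'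
  have e : (s + s') * (s₂ * s₂') = (s * s₂) * s₂' + (s' * s₂') * s₂ := by ring
  refine ⟨s₂ * s₂', R.O.mul_mem _ _ h1 h1',
    fun P hP => P.toValuationSubring.mul_mem _ _ (h2 P hP) (h2' P hP), ?_, ?_, c * c',
    mul_ne_zero hc hc', ?_⟩
  · rw [e]
    exact R.O.add_mem _ _ (R.O.mul_mem _ _ h3 h1') (R.O.mul_mem _ _ h3' h1)
  · intro P hP
    rw [e]
    exact P.toValuationSubring.add_mem _ _
      (P.toValuationSubring.mul_mem _ _ (h4 P hP) (h2' P hP))
      (P.toValuationSubring.mul_mem _ _ (h4' P hP) (h2 P hP))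
  · rw [h39_redF_mul R h1 h1']
    exact h39_val_mul y hv hv'

theorem h60_regAt_neg (R : h39_RedDatum K F k Fb) {x : F} {y : Place k Fb} {s : F}
    (h : h60_RegAt R x y s) : h60_RegAt R x y (-s) := by
  obtain ⟨s₂, h1, h2, h3, h4, c, hc, hv⟩ := h
  refine ⟨s₂, h1, h2, ?_, ?_, c, hc, hv⟩
  · rw [neg_mul]
    exact R.O.neg_mem _ h3
  · intro P hP
    rw [neg_mul]
    exact P.toValuationSubring.neg_mem _ (h4 P hP)

theorem h60_regAt_sub (R : h39_RedDatum K F k Fb) {x : F} {y : Place k Fb} {s s' : F}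
    (h : h60_RegAt R x y s) (h' : h60_RegAt R x y s') : h60_RegAt R x y (s - s') := by
  rw [sub_eq_add_neg]
  exact h60_regAt_add R h (h60_regAt_neg R h')

/-- A value of the zero function is zero. -/
theorem h60_val_zero_right {K F : Type*} [Field K] [Field F] [Algebra K F] (P : Place K F)
    {c : K} (h : h39_Val P (0 : F) c) : c = 0 :=
  h39_val_unique P h (Or.inl (map_zero _).symm)

section Tube

variable [IsAlgClosed K] [CharZero K] [IsAlgClosed k]

/-- The tube statement of `h60_tube_of_chart` for locally regular functions. -/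
theorem h60_tube_regAt (R : h39_RedDatum K F k Fb) {x : F} (hx : h39_Chart R x) :
    ∃ r0 : Place K F → Place k Fb,
      (∀ (g : F) (hg : g ∈ R.O), R.red ⟨g, hg⟩ ≠ 0 → ∀ D : Divisor K F,
        (∀ P, D P = P.ord g) → ∀ Q : Place k Fb,
          Finsupp.mapDomain r0 D Q = Q.ord (R.red ⟨g, hg⟩)) ∧
      ∀ y : Place k Fb, R.redF x ∈ y.toValuationSubring → ∀ P : Place K F, r0 P = y →
        ∀ s : F, s ∈ R.O → h60_RegAt R x y s →
          ∃ b : K, b ∈ R.A ∧ h39_Val P s b ∧ h39_Val y (R.redF s) (R.resK b) := by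
  obtain ⟨r0, hcons, htube⟩ := h60_tube_of_chart R hx
  refine ⟨r0, hcons, ?_⟩
  rintro y hy P hP s hsO ⟨s₂, h1, h2, h3, h4, c, hc, hv⟩
  obtain ⟨-, hall⟩ := htube y hy P hP
  obtain ⟨b₂, hb₂A, hb₂P, hb₂y⟩ := hall s₂ h1 h2
  obtain ⟨b₁, hb₁A, hb₁P, hb₁y⟩ := hall (s * s₂) h3 h4
  have hcb : R.resK b₂ = c := h39_val_unique y hb₂y hv
  have hb₂ : b₂ ≠ 0 ∧ b₂⁻¹ ∈ R.A := by
    have h0 : ¬ (b₂ = 0 ∨ b₂⁻¹ ∉ R.A) := by
      rw [← h39_resK_eq_zero_iff R hb₂A, hcb]
      exact hc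
    push Not at h0
    exact h0
  have hs₂0 : s₂ ≠ 0 := by
    rintro rfl
    exact hb₂.1 (h60_val_zero_right P hb₂P)
  have hsb₂0 : R.redF s₂ ≠ 0 := by
    intro h0
    rw [h0] at hv
    exact hc (h60_val_zero_right y hv)
  have hsP : h39_Val P s (b₁ * b₂⁻¹) := by
    have := h39_val_mul P hb₁P (h69_val_inv P hb₂P hb₂.1)
    rwa [mul_assoc, mul_inv_cancel₀ hs₂0, mul_one] at this
  have hres : R.resK (b₁ * b₂⁻¹) = R.resK b₁ * c⁻¹ := by
    rw [h39_resK_mul R hb₁A hb₂.2]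
    congr 1
    have h1' : R.resK b₂ * R.resK b₂⁻¹ = 1 := by
      rw [← h39_resK_mul R hb₂A hb₂.2, mul_inv_cancel₀ hb₂.1, h39_resK_one]
    rw [hcb] at h1'
    exact eq_inv_of_mul_eq_one_right h1'
  refine ⟨b₁ * b₂⁻¹, R.A.mul_mem _ _ hb₁A hb₂.2, hsP, ?_⟩
  have := h39_val_mul y hb₁y (h69_val_inv y hv hc)
  rw [h39_redF_mul R hsO h1, mul_assoc, mul_inv_cancel₀ hsb₂0, mul_one] at this
  rw [hres]
  exact this

/-- `h60_xi_chart` for locally regular `J`, `s`. -/
theorem h60_xi_chart_regAt (R : h39_RedDatum K F k Fb) {x : F} (hx : h39_Chart R x)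
    (hF : h73_IsFF K F) (J : F) (hJtr : Transcendental K J)
    (hPP : ∀ (P : Place K F) (a : K), 0 < P.ord (J - algebraMap K F a) →
      (a = 0 → P.ord (J - algebraMap K F a) = 3) ∧
      (a = 1728 → P.ord (J - algebraMap K F a) = 2) ∧
      (a ≠ 0 → a ≠ 1728 → P.ord (J - algebraMap K F a) = 1))
    (δ : Derivation K F F) (hδ : ∀ f : F, D K F f = δ f • D K F J)
    (y : Place k Fb) (hy : R.redF x ∈ y.toValuationSubring)
    (hJO : J ∈ R.O) (hJreg : h60_RegAt R x y J)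
    (s : F) (hsO : s ∈ R.O) (hsreg : h60_RegAt R x y s)
    (hs1 : ∀ c : k, h39_Val y (R.redF s) c → y.ord (R.redF s - algebraMap k Fb c) = 1)
    (c : K) (hΞO : algebraMap K F c * h60_Xi δ J s ∈ R.O)
    (hred : R.red ⟨algebraMap K F c * h60_Xi δ J s, hΞO⟩ ≠ 0) :
    y.ord (R.red ⟨algebraMap K F c * h60_Xi δ J s, hΞO⟩) = 0 := by
  have hw : h39_WeakChart R x := hx.toh39_WeakChart
  have hxK : h75_IsChart K x := h39_weakChart_isChart R hw
  have : HasPrincipalDivisors K F := h75_hasPrincipalDivisors hxK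
  obtain ⟨r0, hcons, htube⟩ := h60_tube_regAt R hx
  refine h60_xi_red_ord R r0 hcons y s hsO (fun P hP => htube y hy P hP s hsO hsreg) hs1
    (h60_Xi δ J s) ?_ c hΞO hred
  intro P hP b hb
  obtain ⟨bJ, -, hbJ, -⟩ := htube y hy P hP J hJO hJreg
  exact (h60_xi_ord hF P (hPP P) (h39_val_mem P hbJ) hJtr δ hδ hb).2

/-- `h60_dred_ord_of_ne` for a chart `x` and locally regular `J`, `s`. -/
theorem h60_dred_ord_of_ne_regAt (R : h39_RedDatum K F k Fb) {x : F} (hx : h39_Chart R x)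
    (hF : h73_IsFF K F) (J : F) (hJtr : Transcendental K J)
    (hjtr : Transcendental k (R.redF J))
    (hPP : ∀ (P : Place K F) (a : K), 0 < P.ord (J - algebraMap K F a) →
      (a = 0 → P.ord (J - algebraMap K F a) = 3) ∧
      (a = 1728 → P.ord (J - algebraMap K F a) = 2) ∧
      (a ≠ 0 → a ≠ 1728 → P.ord (J - algebraMap K F a) = 1))
    (δ : Derivation K F F) (hδ : ∀ f : F, D K F f = δ f • D K F J)
    (y : Place k Fb) (hy : R.redF x ∈ y.toValuationSubring)
    (hJO : J ∈ R.O) (hJreg : h60_RegAt R x y J)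
    (s : F) (hsO : s ∈ R.O) (hsreg : h60_RegAt R x y s) (hδs : δ s ∈ R.O)
    (c₀ : k) (hs1 : y.ord (R.redF s - algebraMap k Fb c₀) = 1)
    (hne : R.redF (δ s) ≠ 0) :
    y.ord (R.redF (δ s) ^ 6 * R.redF J ^ 4 *
      (R.redF J - algebraMap k Fb (R.resK 1728)) ^ 3) = 0 := by
  obtain ⟨hΞO, hred⟩ := h60_xi_redF R hJO δ hδs
  have hj0 : R.redF J ≠ 0 := fun h0 => hjtr (h0 ▸ isAlgebraic_zero)
  have hjc : ∀ c : k, R.redF J - algebraMap k Fb c ≠ 0 := fun c h0 =>
    hjtr (sub_eq_zero.mp h0 ▸ isAlgebraic_algebraMap c)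
  have hne' : R.redF (h60_Xi δ J s) ≠ 0 := by
    rw [hred]
    exact mul_ne_zero (mul_ne_zero (pow_ne_zero _ hne) (pow_ne_zero _ hj0))
      (pow_ne_zero _ (hjc _))
  have hΞO1 : algebraMap K F 1 * h60_Xi δ J s ∈ R.O := by
    rw [map_one, one_mul]
    exact hΞO
  have hval₀ : h39_Val y (R.redF s) c₀ := Or.inr (by rw [hs1]; norm_num)
  have hs1' : ∀ c : k, h39_Val y (R.redF s) c →
      y.ord (R.redF s - algebraMap k Fb c) = 1 := by
    intro c hc
    rw [h39_val_unique y hc hval₀]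
    exact hs1
  have hredeq : R.red ⟨algebraMap K F 1 * h60_Xi δ J s, hΞO1⟩ = R.redF (h60_Xi δ J s) := by
    rw [← R.redF_of_mem hΞO1, map_one, one_mul]
  have key := h60_xi_chart_regAt R hx hF J hJtr hPP δ hδ y hy hJO hJreg s hsO hsreg hs1' 1 hΞO1
    (by rw [hredeq]; exact hne')
  rw [hredeq, hred] at key
  exact key

/-- `h60_dred_ne_zero` for a chart `x` and locally regular `J`, `s`. -/
theorem h60_dred_ne_zero_regAt (R : h39_RedDatum K F k Fb) {x : F} (hx : h39_Chart R x)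
    (hF : h73_IsFF K F) (J : F) (hJtr : Transcendental K J)
    (hjtr : Transcendental k (R.redF J))
    (hPP : ∀ (P : Place K F) (a : K), 0 < P.ord (J - algebraMap K F a) →
      (a = 0 → P.ord (J - algebraMap K F a) = 3) ∧
      (a = 1728 → P.ord (J - algebraMap K F a) = 2) ∧
      (a ≠ 0 → a ≠ 1728 → P.ord (J - algebraMap K F a) = 1))
    (δ : Derivation K F F) (hδJ : δ J = 1) (hδ : ∀ f : F, D K F f = δ f • D K F J)
    (y : Place k Fb) (hy : R.redF x ∈ y.toValuationSubring)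
    (hjy : R.redF J ∈ y.toValuationSubring)
    (hJO : J ∈ R.O) (hJreg : h60_RegAt R x y J)
    (s : F) (hsO : s ∈ R.O) (hsreg : h60_RegAt R x y s) (hδs : δ s ∈ R.O)
    (c₀ : k) (hs1 : y.ord (R.redF s - algebraMap k Fb c₀) = 1) :
    R.redF (δ s) ≠ 0 := by
  intro h0
  have hw : h39_WeakChart R x := hx.toh39_WeakChart
  have hxk : h75_IsChart k (R.redF x) := h39_weakChart_isChart_red R hw
  have hjc : ∀ c : k, R.redF J - algebraMap k Fb c ≠ 0 := fun c h0 =>
    hjtr (sub_eq_zero.mp h0 ▸ isAlgebraic_algebraMap c)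
  have hj0 : R.redF J ≠ 0 := fun h0 => hjtr (h0 ▸ isAlgebraic_zero)
  obtain ⟨cJ, hcJ⟩ := h39_exists_val hxk y hjy
  obtain ⟨a, haA, hane⟩ : ∃ a : K, a ∈ R.A ∧ R.resK a ≠ cJ := by
    by_cases h : cJ = 0
    · refine ⟨1, R.A.one_mem, ?_⟩
      rw [h39_resK_one, h]
      exact one_ne_zero
    · refine ⟨0, R.A.zero_mem, ?_⟩
      have hz : R.resK 0 = 0 := by
        rw [R.resK_of_mem R.A.zero_mem]
        exact map_zero R.res
      rw [hz]
      exact Ne.symm h
  obtain ⟨b, hbA, hbc⟩ := h39_resK_surjective R c₀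
  have haO : algebraMap K F a ∈ R.O := (R.mem_iff _).mp haA
  have hbO : algebraMap K F b ∈ R.O := (R.mem_iff _).mp hbA
  have hs0O : s - algebraMap K F b ∈ R.O := sub_mem hsO hbO
  have hJaO : J - algebraMap K F a ∈ R.O := sub_mem hJO haO
  set t : Fb := R.redF s - algebraMap k Fb c₀ with ht
  have ht0 : t ≠ 0 := by
    intro h
    rw [h] at hs1
    simp at hs1
  have hred0 : R.redF (s - algebraMap K F b) = t := by
    rw [h39_redF_sub R hsO hbO, h39_redF_algebraMap R hbA, hbc]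
  have hredJa : R.redF (J - algebraMap K F a) = R.redF J - algebraMap k Fb (R.resK a) := by
    rw [h39_redF_sub R hJO haO, h39_redF_algebraMap R haA]
  have hordJa : y.ord (R.redF J - algebraMap k Fb (R.resK a)) = 0 := by
    have hsplit : R.redF J - algebraMap k Fb (R.resK a)
        = algebraMap k Fb (cJ - R.resK a) + (R.redF J - algebraMap k Fb cJ) := by
      rw [map_sub]
      ring
    rw [hsplit]
    refine h36_ord_const_add y (sub_ne_zero.mpr (Ne.symm hane)) ?_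
    rcases hcJ with h | h
    · exact Or.inl (sub_eq_zero.mpr h)
    · exact Or.inr h
  set s' : F := (s - algebraMap K F b) * (J - algebraMap K F a) with hs'
  have hs'O : s' ∈ R.O := R.O.mul_mem _ _ hs0O hJaO
  have hs'reg : h60_RegAt R x y s' :=
    h60_regAt_mul R (h60_regAt_sub R hsreg (h60_regAt_const R x y hbA))
      (h60_regAt_sub R hJreg (h60_regAt_const R x y haA))
  have hδs' : δ s' = (s - algebraMap K F b) + (J - algebraMap K F a) * δ s := by
    rw [hs', Derivation.leibniz, map_sub, map_sub, Derivation.map_algebraMap,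
      Derivation.map_algebraMap, hδJ, sub_zero, sub_zero, smul_eq_mul, smul_eq_mul, mul_one]
  have hδs'O : δ s' ∈ R.O := by
    rw [hδs']
    exact R.O.add_mem _ _ hs0O (R.O.mul_mem _ _ hJaO hδs)
  have hredδ : R.redF (δ s') = t := by
    rw [hδs', h39_redF_add R hs0O (R.O.mul_mem _ _ hJaO hδs), h39_redF_mul R hJaO hδs, h0,
      mul_zero, add_zero, hred0]
  have hreds' : R.redF s' = t * (R.redF J - algebraMap k Fb (R.resK a)) := by
    rw [hs', h39_redF_mul R hs0O hJaO, hred0, hredJa]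
  have hs1' : y.ord (R.redF s' - algebraMap k Fb 0) = 1 := by
    rw [map_zero, sub_zero, hreds', y.ord_mul ht0 (hjc _), hordJa, add_zero]
    exact hs1
  have key := h60_dred_ord_of_ne_regAt R hx hF J hJtr hjtr hPP δ hδ y hy hJO hJreg s' hs'O
    hs'reg hδs'O 0 hs1' (by rw [hredδ]; exact ht0)
  rw [hredδ, y.ord_mul (mul_ne_zero (pow_ne_zero _ ht0) (pow_ne_zero _ hj0))
      (pow_ne_zero _ (hjc _)),
    y.ord_mul (pow_ne_zero _ ht0) (pow_ne_zero _ hj0), h36_ord_pow, h36_ord_pow, h36_ord_pow,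
    hs1] at key
  have h1 : 0 ≤ y.ord (R.redF J) := h35_ord_nonneg_of_mem y hjy
  have h2 : 0 ≤ y.ord (R.redF J - algebraMap k Fb (R.resK 1728)) :=
    h35_ord_nonneg_of_mem y (sub_mem hjy (y.algebraMap_mem' _))
  push_cast at key
  omega

/-- **(O), derivative form, arbitrary chart.** -/
theorem h60_dred_unit_regAt (R : h39_RedDatum K F k Fb) {x : F} (hx : h39_Chart R x)
    (hF : h73_IsFF K F) (J : F) (hJtr : Transcendental K J)
    (hjtr : Transcendental k (R.redF J))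
    (hPP : ∀ (P : Place K F) (a : K), 0 < P.ord (J - algebraMap K F a) →
      (a = 0 → P.ord (J - algebraMap K F a) = 3) ∧
      (a = 1728 → P.ord (J - algebraMap K F a) = 2) ∧
      (a ≠ 0 → a ≠ 1728 → P.ord (J - algebraMap K F a) = 1))
    (δ : Derivation K F F) (hδJ : δ J = 1) (hδ : ∀ f : F, D K F f = δ f • D K F J)
    (y : Place k Fb) (hy : R.redF x ∈ y.toValuationSubring)
    (hjy : R.redF J ∈ y.toValuationSubring)
    (hJO : J ∈ R.O) (hJreg : h60_RegAt R x y J)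
    (s : F) (hsO : s ∈ R.O) (hsreg : h60_RegAt R x y s) (hδs : δ s ∈ R.O)
    (c₀ : k) (hs1 : y.ord (R.redF s - algebraMap k Fb c₀) = 1) :
    R.redF (δ s) ≠ 0 ∧
      y.ord (R.redF (δ s) ^ 6 * R.redF J ^ 4 *
        (R.redF J - algebraMap k Fb (R.resK 1728)) ^ 3) = 0 := by
  have hne := h60_dred_ne_zero_regAt R hx hF J hJtr hjtr hPP δ hδJ hδ y hy hjy hJO hJreg s hsO
    hsreg hδs c₀ hs1
  exact ⟨hne, h60_dred_ord_of_ne_regAt R hx hF J hJtr hjtr hPP δ hδ y hy hJO hJreg s hsO hsreg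
    hδs c₀ hs1 hne⟩

/-- **(O), Hasse form, arbitrary chart.** -/
theorem h60_hasse_ord_regAt (R : h39_RedDatum K F k Fb) {x : F} (hx : h39_Chart R x)
    (hF : h73_IsFF K F) (J : F) (hJtr : Transcendental K J)
    (hjtr : Transcendental k (R.redF J))
    (hPP : ∀ (P : Place K F) (a : K), 0 < P.ord (J - algebraMap K F a) →
      (a = 0 → P.ord (J - algebraMap K F a) = 3) ∧
      (a = 1728 → P.ord (J - algebraMap K F a) = 2) ∧
      (a ≠ 0 → a ≠ 1728 → P.ord (J - algebraMap K F a) = 1))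
    (δ : Derivation K F F) (hδJ : δ J = 1) (hδ : ∀ f : F, D K F f = δ f • D K F J)
    (y : Place k Fb) (hy : R.redF x ∈ y.toValuationSubring)
    (hjy : R.redF J ∈ y.toValuationSubring)
    (hJO : J ∈ R.O) (hJreg : h60_RegAt R x y J)
    (s : F) (hsO : s ∈ R.O) (hsreg : h60_RegAt R x y s) (hδs : δ s ∈ R.O)
    (c₀ : k) (hs1 : y.ord (R.redF s - algebraMap k Fb c₀) = 1)
    (n : ℕ) (W Rρ : Fb) (hW : W ≠ 0)
    (hU : Rρ ^ 6 = W * (R.redF J ^ 4 * (R.redF J - algebraMap k Fb (R.resK 1728)) ^ 3) ^ n) :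
    R.redF (δ s) ^ n * Rρ ≠ 0 ∧ 6 * y.ord (R.redF (δ s) ^ n * Rρ) = y.ord W := by
  obtain ⟨hne, hord⟩ := h60_dred_unit_regAt R hx hF J hJtr hjtr hPP δ hδJ hδ y hy hjy hJO hJreg
    s hsO hsreg hδs c₀ hs1
  have hj0 : R.redF J ≠ 0 := fun h0 => hjtr (h0 ▸ isAlgebraic_zero)
  have hjc : ∀ c : k, R.redF J - algebraMap k Fb c ≠ 0 := fun c h0 =>
    hjtr (sub_eq_zero.mp h0 ▸ isAlgebraic_algebraMap c)
  set Ξb : Fb := R.redF (δ s) ^ 6 * R.redF J ^ 4 *
    (R.redF J - algebraMap k Fb (R.resK 1728)) ^ 3 with hΞb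
  have hΞ0 : Ξb ≠ 0 :=
    mul_ne_zero (mul_ne_zero (pow_ne_zero _ hne) (pow_ne_zero _ hj0)) (pow_ne_zero _ (hjc _))
  have hRρ : Rρ ≠ 0 := by
    intro h0
    rw [h0, zero_pow (by norm_num)] at hU
    exact mul_ne_zero hW (pow_ne_zero _ (mul_ne_zero (pow_ne_zero _ hj0)
      (pow_ne_zero _ (hjc _)))) hU.symm
  have hc0 : R.redF (δ s) ^ n * Rρ ≠ 0 := mul_ne_zero (pow_ne_zero _ hne) hRρ
  refine ⟨hc0, ?_⟩
  have hΞB : Ξb = R.redF (δ s) ^ 6 *
      (R.redF J ^ 4 * (R.redF J - algebraMap k Fb (R.resK 1728)) ^ 3) := by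
    rw [hΞb]
    ring
  have e1 : (R.redF (δ s) ^ n) ^ 6 = (R.redF (δ s) ^ 6) ^ n := by
    rw [← pow_mul, ← pow_mul, mul_comm]
  have hpow : (R.redF (δ s) ^ n * Rρ) ^ 6 = W * Ξb ^ n := by
    rw [hΞB, mul_pow (R.redF (δ s) ^ 6), mul_pow (R.redF (δ s) ^ n), hU, e1]
    generalize (R.redF J ^ 4 * (R.redF J - algebraMap k Fb (R.resK 1728)) ^ 3) ^ n = X
    generalize (R.redF (δ s) ^ 6) ^ n = Y
    ring
  have h1 := congrArg y.ord hpow
  rw [h36_ord_pow, y.ord_mul hW (pow_ne_zero _ hΞ0), h36_ord_pow, hord] at h1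
  push_cast at h1
  linarith

end Tube

end Fermat.Agent.S36

end
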