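import Fermat.Agent.S36.h20_Theta
import Fermat.Agent.S36.h21_ThetaTwist

/-!
# S36: the two `θ = q d/dq` on Laurent series agree (helper60)

`h21_theta` (helper21, `S36/h21_ThetaTwist`) and `h20_thetaFun` (helper20, `S36/h20_Theta`) are
the same coefficientwise map `coeff n ↦ n * coeff n`.  Bridge lemmas for consumers that get
(MID-4) in terms of one and H(b) in terms of the other.
-/

set_option autoImplicit false

noncomputable section

namespace Fermat.Agent.S36

theorem h60_theta21 {R : Type*} [CommRing R] (f : LaurentSeries R) :
    h21_theta f = h20_thetaFun f := by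
  ext n
  rw [h21_theta_coeff, h20_thetaFun_coeff]

theorem h60_theta21_pow {R : Type*} [CommRing R] (f : LaurentSeries R) (n : ℕ) :
    h21_theta f ^ n = h20_thetaFun f ^ n := by
  rw [h60_theta21]

/-- Any map with the coefficient formula of `θ` is `h20_thetaFun` (for the `θ`-abstract form
`h41_twist_theta` of (MID-4)). -/
theorem h60_theta_unique {R : Type*} [CommRing R] (θ : LaurentSeries R → LaurentSeries R)
    (hcoef : ∀ (f : LaurentSeries R) (n : ℤ), (θ f).coeff n = (n : R) * f.coeff n)
    (f : LaurentSeries R) : θ f = h20_thetaFun f := by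
  ext n
  rw [hcoef, h20_thetaFun_coeff]

end Fermat.Agent.S36

end
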