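import Fermat.Agent.S36.h41_MidTheta
import Fermat.Agent.S34.h60_R1

/-!
# S36 / I-PTS (B'): the congruence behind the residue of the thick equation (helper60)

Level `M q²`, `q ∤ M`, `A` over `q`, `mid = h98_midP M q hqM ζ hζ`, `R1 = h60_R1 M q hqM A hA`.
For `s ∈ R1.O` put `z := i2 s - i0 s` and `η := z^(q-1) / q`.

* `h60_coe_redF` : the expansion of `red₁ f` is the coefficientwise reduction of the expansion;
* `h60_thick_congr` : there is a constant `ū ≠ 0` such that for every `y' ∈ R1.O` with
  `red₁ y' = ū (θ (red₁ s))^(q-1)` the middle expansion of `η - i0 y'` is integral with ZERO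
  reduction, i.e. `η ≡ i0 y'` modulo the middle valuation.  With the characterisation of the
  residue map of the middle component by level-`q` congruences (`h62_Res.exists_of_congr`) this
  is `ρ₁₁ (η) = ū (θ (red₁ s))^(q-1)`;
* `h60_thick_eta_mem` : the middle expansion of `η` is integral.
-/

set_option autoImplicit false
set_option synthInstance.maxHeartbeats 400000

noncomputable section

open ModularCurve AlgebraicCurve

namespace Fermat.Agent.S36

open Fermat.Agent.S34 Fermat.Agent.S37 Fermat.Agent.S24 Fermat.Agent.S35 Fermat.Agent.S18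

local notation "Qb" => AlgebraicClosure ℚ

variable (M q : ℕ) [NeZero M] [NeZero q] [Fact q.Prime] (hqM : ¬ q ∣ M)
  (A : ValuationSubring Qb) (hA : A.LiesOverPrime q)

/-- The expansion of `red₁ f` is the coefficientwise reduction of the expansion of `f`. -/
theorem h60_coe_redF (f : ↥(modularFunctionFieldBar (M * q)))
    (hf : f ∈ (h60_R1 M q hqM A hA).O) :
    (((h60_R1 M q hqM A hA).redF f :
        ↥(modularFunctionFieldFullC (IsLocalRing.ResidueField A) M)) :
          LaurentSeries (IsLocalRing.ResidueField A))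
      = h60_rs A ⟨(f : LaurentSeries Qb), (h60_R1_mem_iff_Os M q hqM A hA f).mp hf⟩ := by
  rw [(h60_R1 M q hqM A hA).redF_of_mem hf, h60_R1_coe_red]

variable (ζ : Qb) (hζ : IsPrimitiveRoot ζ q)

include hA in
/-- The middle expansion of `η = (i2 s - i0 s)^(q-1) / q` is integral. -/
theorem h60_thick_eta_mem (s : ↥(modularFunctionFieldBar (M * q)))
    (hs : s ∈ (h60_R1 M q hqM A hA).O) :
    h98_midP M q hqM ζ hζ ((h36_i2 M q hqM s - h36_i0 M q s) ^ (q - 1)
      / (q : modularFunctionFieldBar (M * q * q))) ∈ h60_Os A := by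
  obtain ⟨u, -, h, -⟩ := h41_mid_theta_pow' M q hqM A hA ζ hζ s
    ((h60_R1_mem_iff_Os M q hqM A hA s).mp hs)
  exact h

include hA in
/-- **The congruence of the thick equation.** -/
theorem h60_thick_congr (s : ↥(modularFunctionFieldBar (M * q)))
    (hs : s ∈ (h60_R1 M q hqM A hA).O) :
    ∃ u : IsLocalRing.ResidueField A, u ≠ 0 ∧
      ∀ (c : ↥(modularFunctionFieldFullC (IsLocalRing.ResidueField A) M))
        (y' : ↥(modularFunctionFieldBar (M * q))),
        (c : LaurentSeries (IsLocalRing.ResidueField A))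
          = h20_thetaFun ((((h60_R1 M q hqM A hA).redF s :
              ↥(modularFunctionFieldFullC (IsLocalRing.ResidueField A) M)) :
                LaurentSeries (IsLocalRing.ResidueField A))) ^ (q - 1) →
        y' ∈ (h60_R1 M q hqM A hA).O →
        (h60_R1 M q hqM A hA).redF y'
          = algebraMap (IsLocalRing.ResidueField A)
              ↥(modularFunctionFieldFullC (IsLocalRing.ResidueField A) M) u * c →
        ∃ h : h98_midP M q hqM ζ hζ ((h36_i2 M q hqM s - h36_i0 M q s) ^ (q - 1)
            / (q : modularFunctionFieldBar (M * q * q)) - h36_i0 M q y') ∈ h60_Os A,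
          h60_rs A ⟨_, h⟩ = 0 := by
  have hsO := (h60_R1_mem_iff_Os M q hqM A hA s).mp hs
  obtain ⟨u, hu, h, hrs⟩ := h41_mid_theta_pow' M q hqM A hA ζ hζ s hsO
  refine ⟨u, hu, fun c y' hc hy' hred => ?_⟩
  have hyO := (h60_R1_mem_iff_Os M q hqM A hA y').mp hy'
  have e1 : h98_midP M q hqM ζ hζ ((h36_i2 M q hqM s - h36_i0 M q s) ^ (q - 1)
        / (q : modularFunctionFieldBar (M * q * q)) - h36_i0 M q y')
      = h98_midP M q hqM ζ hζ ((h36_i2 M q hqM s - h36_i0 M q s) ^ (q - 1)
        / (q : modularFunctionFieldBar (M * q * q))) - (y' : LaurentSeries Qb) := by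
    rw [map_sub, h98_midP_i0]
  have hmem : h98_midP M q hqM ζ hζ ((h36_i2 M q hqM s - h36_i0 M q s) ^ (q - 1)
        / (q : modularFunctionFieldBar (M * q * q)) - h36_i0 M q y') ∈ h60_Os A := by
    rw [e1]
    exact (h60_Os A).sub_mem h hyO
  refine ⟨hmem, ?_⟩
  have e2 : (⟨_, hmem⟩ : h60_Os A) = ⟨_, h⟩ - ⟨(y' : LaurentSeries Qb), hyO⟩ :=
    Subtype.ext e1
  rw [e2, map_sub, hrs, sub_eq_zero]
  -- the reduction of `y'`
  have h1 := h60_coe_redF M q hqM A hA y' hy'
  have h2 := h60_coe_redF M q hqM A hA s hs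
  rw [← h1, hred, ← h2, IntermediateField.coe_mul, hc, IntermediateField.coe_algebraMap_apply]

end Fermat.Agent.S36

end
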