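import Fermat.Agent.S36.h60_HasseFinal

/-!
# S36 / I-PTS (B'): the parameter `s` of the thick branch (helper60)

From helper81's count hypotheses `h81_CountHyp`:

* `h60_exists_sep_at₁` : at EVERY place `y ≠ Q∞` of the first component there is a
  `K₀`-rational `s ∈ L(n D0) ∩ B ∩ O₁ ∩ O₂` with `red s = (t, 0)`, `t` regular off `Q∞` with a
  simple zero at `y` (`h81_CountHyp.exists_sep₁` is the case `y = Φ S`);
* `h60_exists_sep_at₂` : the same on the second component;
* `h60_thick_param` : modular form, with H(b): at a place `y` of `Fb(M)` which is neither a cusp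
  nor a node point, such an `s` exists with `(θ (red₁ s))^(q-1)` a unit at `y`.
-/

set_option autoImplicit false

noncomputable section

open AlgebraicCurve KaehlerDifferential ModularCurve
open Fermat.Agent.S18 Fermat.Agent.S24 Fermat.Agent.S34

namespace Fermat.Agent.S36

section Generic

variable {K F k Fb : Type*} [Field K] [Field F] [Algebra K F] [Field k] [Field Fb] [Algebra k Fb]
  {R₁ R₂ : h39_RedDatum K F k Fb} {D : h22_Lat K F k (Fb × Fb)} {D0 : Divisor K F}
  {Qinf : Place k Fb} {Sg : Finset (Place k Fb)} {Φ : Place k Fb → Place k Fb} {B F0 : Subring F}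
  {T : Finset (Place k Fb)} {π : K} {u : F} {C : ℤ}

/-- A `K₀`-rational separator at an arbitrary place `y ≠ Q∞` of the first component:
`red s = (t, 0)` with `t` regular off `Q∞` and `ord_y t = 1`. -/
theorem h60_exists_sep_at₁ [HasPrincipalDivisors k Fb]
    (H : h81_CountHyp R₁ R₂ D D0 Qinf Sg Φ B F0 T π u C) {y : Place k Fb} (hy : y ≠ Qinf) :
    ∃ (n m : ℕ) (s : F), s ∈ F0 ∧ s ∈ riemannRochSpace (n • D0) ∧ s ∈ B ∧ s ∈ R₁.O ∧ s ∈ R₂.O ∧
      R₂.redF s = 0 ∧ R₁.redF s ∈ h16_Linf Qinf m ∧ y.ord (R₁.redF s) = 1 := by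
  classical
  have himg : ∀ Q ∈ Sg.image Φ, Q ≠ Qinf := by
    intro Q hQ
    obtain ⟨S', hS', rfl⟩ := Finset.mem_image.mp hQ
    exact (H.hSg S' hS').2
  obtain ⟨m, t, ht, ht1, htQ⟩ := h81_exists_simple Qinf H.hV (Sg.image Φ) himg hy
  have hnode : ∀ Q ∈ Sg, ∃ c : k, h39_Val (Φ Q) t c ∧ h39_Val Q (0 : Fb) c := by
    intro Q hQ
    refine ⟨0, h81_val_zero_of_ord_pos _ ?_, (h39_val_zero_iff Q).mpr (Or.inl rfl)⟩
    by_cases hQy : Φ Q = y
    · rw [hQy, ht1]
      norm_num
    · exact htQ (Φ Q) (Finset.mem_image_of_mem Φ hQ) hQy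
  obtain ⟨n', s, hs0, hsL, hsB, hs1, hs2, hr1, hr2⟩ :=
    H.lift ht (Submodule.zero_mem (h16_Linf Qinf 0)) hnode
  exact ⟨n', m, s, hs0, hsL, hsB, hs1, hs2, hr2, by rw [hr1]; exact ht, by rw [hr1]; exact ht1⟩

/-- A `K₀`-rational separator at an arbitrary place `y ≠ Q∞` of the second component:
`red s = (0, t)` with `t` regular off `Q∞` and `ord_y t = 1`. -/
theorem h60_exists_sep_at₂ [HasPrincipalDivisors k Fb]
    (H : h81_CountHyp R₁ R₂ D D0 Qinf Sg Φ B F0 T π u C) {y : Place k Fb} (hy : y ≠ Qinf) :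
    ∃ (n m : ℕ) (s : F), s ∈ F0 ∧ s ∈ riemannRochSpace (n • D0) ∧ s ∈ B ∧ s ∈ R₁.O ∧ s ∈ R₂.O ∧
      R₁.redF s = 0 ∧ R₂.redF s ∈ h16_Linf Qinf m ∧ y.ord (R₂.redF s) = 1 := by
  classical
  obtain ⟨m, t, ht, ht1, htQ⟩ := h81_exists_simple Qinf H.hV Sg (fun Q hQ => (H.hSg Q hQ).1) hy
  have hnode : ∀ Q ∈ Sg, ∃ c : k, h39_Val (Φ Q) (0 : Fb) c ∧ h39_Val Q t c := by
    intro Q hQ
    refine ⟨0, (h39_val_zero_iff _).mpr (Or.inl rfl), h81_val_zero_of_ord_pos _ ?_⟩
    by_cases hQy : Q = y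
    · rw [hQy, ht1]
      norm_num
    · exact htQ Q hQ hQy
  obtain ⟨n', s, hs0, hsL, hsB, hs1, hs2, hr1, hr2⟩ :=
    H.lift (Submodule.zero_mem (h16_Linf Qinf 0)) ht hnode
  exact ⟨n', m, s, hs0, hsL, hsB, hs1, hs2, hr1, by rw [hr2]; exact ht, by rw [hr2]; exact ht1⟩

/-- A function regular off `Q∞` is regular wherever a function with a pole at `Q∞` is. -/
theorem h60_reg_of_Linf {Qinf : Place k Fb} {jb : Fb} (hQ : jb ∉ Qinf.toValuationSubring)
    {t : Fb} {m : ℕ} (ht : t ∈ h16_Linf Qinf m) (Q : Place k Fb)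
    (hQj : jb ∈ Q.toValuationSubring) : t ∈ Q.toValuationSubring := by
  have hne : Q ≠ Qinf := by
    rintro rfl
    exact hQ hQj
  by_cases ht0 : t = 0
  · rw [ht0]
    exact Q.toValuationSubring.zero_mem
  · exact (h35_mem_iff_ord_nonneg Q ht0).mpr (h81_Linf_ord_nonneg ht Q hne)

end Generic

section Modular

local notation "Qb" => AlgebraicClosure ℚ

variable (M : ℕ) [NeZero M] (q : ℕ) [Fact q.Prime] (hqM : ¬ q ∣ M)
  (hch : 5 ≤ q ∨ 2 ∣ M ∨ 3 ∣ M) (A : ValuationSubring Qb) (hA : A.LiesOverPrime q)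
  (h2 : nuTwo M = 0) (h3 : nuThree M = 0)

variable {R₂ : h39_RedDatum Qb ↥(modularFunctionFieldBar (M * q)) (IsLocalRing.ResidueField A)
    ↥(modularFunctionFieldFullC (IsLocalRing.ResidueField A) M)}
  {D : h22_Lat Qb ↥(modularFunctionFieldBar (M * q)) (IsLocalRing.ResidueField A)
    (↥(modularFunctionFieldFullC (IsLocalRing.ResidueField A) M)
      × ↥(modularFunctionFieldFullC (IsLocalRing.ResidueField A) M))}
  {D0 : Divisor Qb ↥(modularFunctionFieldBar (M * q))}
  {Qinf : Place (IsLocalRing.ResidueField A)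
    ↥(modularFunctionFieldFullC (IsLocalRing.ResidueField A) M)}
  {Sg : Finset (Place (IsLocalRing.ResidueField A)
    ↥(modularFunctionFieldFullC (IsLocalRing.ResidueField A) M))}
  {Φ : Place (IsLocalRing.ResidueField A)
      ↥(modularFunctionFieldFullC (IsLocalRing.ResidueField A) M) →
    Place (IsLocalRing.ResidueField A)
      ↥(modularFunctionFieldFullC (IsLocalRing.ResidueField A) M)}
  {B F0 : Subring ↥(modularFunctionFieldBar (M * q))}
  {T : Finset (Place (IsLocalRing.ResidueField A)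
    ↥(modularFunctionFieldFullC (IsLocalRing.ResidueField A) M))}
  {π : Qb} {u : ↥(modularFunctionFieldBar (M * q))} {C : ℤ}

include hqM hch hA h2 h3 in
/-- **The parameter of the thick branch** ((B') of I-PTS).  At a place `y` of the special fibre
`Fb(M)` which is neither a cusp nor a node point there is a `K₀`-rational
`s ∈ L(n D0) ∩ B ∩ O₁ ∩ O₂` with `red₂ s = 0`, `red₁ s` regular off the cusps with a simple zero
at `y`, and `(θ (red₁ s))^(q-1)` (the series of) a unit `c` at `y`. -/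
theorem h60_thick_param
    [HasPrincipalDivisors (IsLocalRing.ResidueField A)
      ↥(modularFunctionFieldFullC (IsLocalRing.ResidueField A) M)]
    (H : h81_CountHyp (h60_R1 M q hqM A hA) R₂ D D0 Qinf Sg Φ B F0 T π u C)
    (hQinf : h54_jk (IsLocalRing.ResidueField A) M ∉ Qinf.toValuationSubring)
    (Rρ : ↥(modularFunctionFieldFullC (IsLocalRing.ResidueField A) M))
    (hRρ : (Rρ : LaurentSeries (IsLocalRing.ResidueField A))
      = h20_thetaFun (jqModC (IsLocalRing.ResidueField A)) ^ (q - 1))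
    (hU : Rρ ^ 6 = (h60_R1 M q hqM A hA).redF u
      * (h54_jk (IsLocalRing.ResidueField A) M ^ 4
        * (h54_jk (IsLocalRing.ResidueField A) M - 1728) ^ 3) ^ (q - 1))
    (y : Place (IsLocalRing.ResidueField A)
      ↥(modularFunctionFieldFullC (IsLocalRing.ResidueField A) M))
    (hy : h54_jk (IsLocalRing.ResidueField A) M ∈ y.toValuationSubring)
    (hyT : y ∉ T) (hyS : ∀ S ∈ Sg, y ≠ Φ S) :
    ∃ (n : ℕ) (s : ↥(modularFunctionFieldBar (M * q))),
      s ∈ F0 ∧ s ∈ riemannRochSpace (n • D0) ∧ s ∈ B ∧ s ∈ (h60_R1 M q hqM A hA).O ∧ s ∈ R₂.O ∧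
      R₂.redF s = 0 ∧ y.ord ((h60_R1 M q hqM A hA).redF s) = 1 ∧
      (∀ Q : Place (IsLocalRing.ResidueField A)
          ↥(modularFunctionFieldFullC (IsLocalRing.ResidueField A) M),
        h54_jk (IsLocalRing.ResidueField A) M ∈ Q.toValuationSubring →
          (h60_R1 M q hqM A hA).redF s ∈ Q.toValuationSubring) ∧
      ∃ c : ↥(modularFunctionFieldFullC (IsLocalRing.ResidueField A) M),
        (c : LaurentSeries (IsLocalRing.ResidueField A))
          = h20_thetaFun ((((h60_R1 M q hqM A hA).redF s :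
              ↥(modularFunctionFieldFullC (IsLocalRing.ResidueField A) M)) :
                LaurentSeries (IsLocalRing.ResidueField A))) ^ (q - 1) ∧
        c ≠ 0 ∧ y.ord c = 0 := by
  have hyQ : y ≠ Qinf := by
    rintro rfl
    exact hQinf hy
  obtain ⟨n, m, s, hs0, hsL, hsB, hs1, hs2, hr2, hrL, hr1⟩ := h60_exists_sep_at₁ H hyQ
  have hreg := fun Q hQj => h60_reg_of_Linf hQinf hrL Q hQj
  have hs1' : y.ord ((h60_R1 M q hqM A hA).redF s - algebraMap (IsLocalRing.ResidueField A)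
      ↥(modularFunctionFieldFullC (IsLocalRing.ResidueField A) M) 0) = 1 := by
    rw [map_zero, sub_zero]
    exact hr1
  obtain ⟨c, hc, hc0, hord⟩ := h60_hasse_final M q hqM hch A hA h2 h3 H Rρ hRρ hU y hy hyT hyS
    ((h60_R1 M q hqM A hA).redF s) hreg 0 hs1'
  exact ⟨n, s, hs0, hsL, hsB, hs1, hs2, hr2, hr1, hreg, c, hc, hc0, hord⟩

end Modular

end Fermat.Agent.S36

end
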