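import Mathlib
import Fermat.Agent.S36.h62_RowU

/-!
# S36 / I-PTS (B') (helper90): the thick equation from the residue datum

Setting: `V : h80_ValFam F ι`, `m` a prime ideal of the chart ring, `c` a valuation through `m`
and `R : h62_Res V m c Fb` a residue datum of `c` at `m` (`S36/h62_RowU.lean`).

* `h90_res_val_nonneg`, `h90_res_val_zero` : `R.O` is exactly the valuation ring of `v_c`, and
  the elements with nonzero residue have value `0`.
* `h90_res_centre`, `h90_res_centre_iff` : **the centre property**: for `f` in the local ring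
  with `ρ f ≠ 0`:  `f ∈ m B_m ⟺ 0 < o (ρ f)`.
* `h90_res_unit_iff` : for `f` in the local ring with `ρ f ≠ 0`: `f` is a unit at `m` (all
  valuations through `m` vanish on it) `⟺ o (ρ f) = 0`.
* `h90_thick_hyp` : `ρ η ≠ 0` and `o (ρ η) = 0` give `v_c η = 0` and `η ∉ m B_m`: the two
  hypotheses `hη`, `hres` of `h62_case_thick`.
* `h90_thick_gen` : `h62_case_thick` with `q` replaced by any `Q : F` of the same shape
  (`v_c Q = e`, value `0` at the other valuations through `m`), e.g. `Q = unit * q`.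
* `h90_thick_localEq`, `h90_thick_localEq_q`, `h90_thick_localEq_mul` : **the thick equation**:
  if the residue of `η = z ^ e / Q` has order `0` at the centre, `z` is a local equation of `c`
  at `m`.
-/

set_option autoImplicit false

namespace Fermat.Agent.S36

universe w

variable {F : Type*} [Field F] {ι : Type*}

section Res

variable {V : h80_ValFam F ι} {m : Ideal V.B} {c : ι} {Fb : Type w} [Field Fb]

/-- `R.O` is contained in (hence equal to) the valuation ring of `v_c`. -/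
theorem h90_res_val_nonneg (R : h62_Res V m c Fb) (f : R.O) (hf0 : (f : F) ≠ 0) :
    0 ≤ V.v c (f : F) := by
  by_contra h
  have hinv0 : ((f : F))⁻¹ ≠ 0 := inv_ne_zero hf0
  have hv : 0 < V.v c ((f : F))⁻¹ := by
    rw [h80_v_inv V c hf0]
    omega
  have hmem : ((f : F))⁻¹ ∈ R.O := R.mem_O _ hinv0 (le_of_lt hv)
  have h0 : R.ρ ⟨_, hmem⟩ = 0 := (R.ρ_eq_zero ⟨_, hmem⟩ hinv0).2 hv
  have h1 : f * ⟨_, hmem⟩ = (1 : R.O) := Subtype.ext (mul_inv_cancel₀ hf0)
  have h2 := congrArg R.ρ h1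
  rw [map_mul, h0, mul_zero, map_one] at h2
  exact zero_ne_one h2

/-- Nonzero residue ⟹ nonzero, of value `0`. -/
theorem h90_res_val_zero (R : h62_Res V m c Fb) (f : R.O) (hρ : R.ρ f ≠ 0) :
    (f : F) ≠ 0 ∧ V.v c (f : F) = 0 := by
  have hf0 : (f : F) ≠ 0 := fun h => hρ (by
    have : f = 0 := Subtype.ext h
    rw [this, map_zero])
  refine ⟨hf0, ?_⟩
  have h1 := h90_res_val_nonneg R f hf0
  have h2 : ¬ 0 < V.v c (f : F) := fun h => hρ ((R.ρ_eq_zero f hf0).2 h)
  omega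

/-- The residue of the inverse. -/
theorem h90_res_inv (R : h62_Res V m c Fb) (f : R.O) (hρ : R.ρ f ≠ 0) :
    ∃ f' : R.O, (f' : F) = ((f : F))⁻¹ ∧ R.ρ f' = (R.ρ f)⁻¹ := by
  obtain ⟨hf0, hv⟩ := h90_res_val_zero R f hρ
  have hmem : ((f : F))⁻¹ ∈ R.O :=
    R.mem_O _ (inv_ne_zero hf0) (by rw [h80_v_inv V c hf0]; omega)
  refine ⟨⟨_, hmem⟩, rfl, ?_⟩
  have h1 : f * ⟨_, hmem⟩ = (1 : R.O) := Subtype.ext (mul_inv_cancel₀ hf0)
  have h2 := congrArg R.ρ h1
  rw [map_mul, map_one] at h2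
  exact eq_inv_of_mul_eq_one_right h2

theorem h90_res_o_inv (R : h62_Res V m c Fb) {g : Fb} (hg : g ≠ 0) : R.o g⁻¹ = - R.o g := by
  have h := R.o_mul _ _ hg (inv_ne_zero hg)
  rw [mul_inv_cancel₀ hg, R.o_one] at h
  omega

/-- **The centre property, I**: the elements of `m B_m` with nonzero residue have a residue of
positive order at the centre. -/
theorem h90_res_centre (R : h62_Res V m c Fb) [hm : m.IsPrime] (hc : V.Through m c)
    (f : R.O) (hfM : V.InMLoc m (f : F)) (hρ : R.ρ f ≠ 0) : 0 < R.o (R.ρ f) := by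
  obtain ⟨b, t, hb, ht, hbt⟩ := hfM
  have hfL : V.InLoc m (f : F) := ⟨b, t, ht, hbt⟩
  have h0 := R.nonneg f hfL hρ
  by_contra hlt
  have ho : R.o (R.ρ f) = 0 := by omega
  have hinv : (R.ρ f)⁻¹ ≠ 0 := inv_ne_zero hρ
  have ho' : R.o (R.ρ f)⁻¹ = 0 := by
    rw [h90_res_o_inv R hρ, ho, neg_zero]
  obtain ⟨f', hf'L, hf'⟩ := R.surj _ hinv (by omega)
  obtain ⟨b', t', ht', hbt'⟩ := hf'L
  have hρd : R.ρ (f * f' - 1) = 0 := by
    rw [map_sub, map_mul, hf', mul_inv_cancel₀ hρ, map_one, sub_self]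
  have htt' : t * t' ∉ m := fun h => (hm.mem_or_mem h).elim ht ht'
  have hbb' : b * b' ∈ m := m.mul_mem_right _ hb
  have hn : b * b' - t * t' ∉ m := fun h => htt' (by
    have := m.sub_mem hbb' h
    simpa using this)
  have hkey : ((t * t' : V.B) : F) * ((f : F) * (f' : F) - 1) = ((b * b' - t * t' : V.B) : F) := by
    push_cast
    rw [← hbt, ← hbt']
    ring
  have hn0 := h80_ne_zero_of_not_mem V hn
  have htt0 := h80_ne_zero_of_not_mem V htt'
  have hd0 : (f : F) * (f' : F) - 1 ≠ 0 := by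
    intro h
    rw [h, mul_zero] at hkey
    exact hn0 hkey.symm
  have hd0' : ((f * f' - 1 : R.O) : F) ≠ 0 := hd0
  have hpos := (R.ρ_eq_zero _ hd0').1 hρd
  have hv := V.map_mul c _ _ htt0 hd0
  rw [hkey, h80_through_eq_zero V hc hn, h80_through_eq_zero V hc htt'] at hv
  have hcoe : V.v c ((f * f' - 1 : R.O) : F) = V.v c ((f : F) * (f' : F) - 1) := rfl
  omega

/-- **The centre property, II**: an element of the local ring whose residue has positive order
at the centre lies in `m B_m`. -/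
theorem h90_res_centre_conv (R : h62_Res V m c Fb)
    (f : R.O) (hfL : V.InLoc m (f : F)) (hρ : R.ρ f ≠ 0) (ho : 0 < R.o (R.ρ f)) :
    V.InMLoc m (f : F) := by
  obtain ⟨b, t, ht, hbt⟩ := hfL
  by_contra hM
  have hb : b ∉ m := fun hb => hM ⟨b, t, hb, ht, hbt⟩
  obtain ⟨hf0, -⟩ := h90_res_val_zero R f hρ
  have hb0 := h80_ne_zero_of_not_mem V hb
  have ht0 := h80_ne_zero_of_not_mem V ht
  have hinvL : V.InLoc m ((f : F))⁻¹ := by
    refine ⟨t, b, hb, ?_⟩
    rw [← hbt]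
    field_simp
  obtain ⟨f', hf'c, hf'⟩ := h90_res_inv R f hρ
  have hρ' : R.ρ f' ≠ 0 := by
    rw [hf']
    exact inv_ne_zero hρ
  have h4 := R.nonneg f' (by rw [hf'c]; exact hinvL) hρ'
  rw [hf', h90_res_o_inv R hρ] at h4
  omega

/-- **The centre property**: for `f` in the local ring with nonzero residue,
`f ∈ m B_m ⟺ 0 < o (ρ f)`. -/
theorem h90_res_centre_iff (R : h62_Res V m c Fb) [hm : m.IsPrime] (hc : V.Through m c)
    (f : R.O) (hfL : V.InLoc m (f : F)) (hρ : R.ρ f ≠ 0) :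
    V.InMLoc m (f : F) ↔ 0 < R.o (R.ρ f) :=
  ⟨fun h => h90_res_centre R hc f h hρ, fun h => h90_res_centre_conv R f hfL hρ h⟩

/-- For `f` in the local ring with nonzero residue: `f ∉ m B_m` (i.e. `f` is a unit at `m`)
`⟺ o (ρ f) = 0`. -/
theorem h90_res_unit_iff (R : h62_Res V m c Fb) [hm : m.IsPrime] (hc : V.Through m c)
    (f : R.O) (hfL : V.InLoc m (f : F)) (hρ : R.ρ f ≠ 0) :
    ¬ V.InMLoc m (f : F) ↔ R.o (R.ρ f) = 0 := by
  rw [h90_res_centre_iff R hc f hfL hρ]
  have := R.nonneg f hfL hρ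
  omega

/-- The two hypotheses `hη`, `hres` of `h62_case_thick` from the residue: if the residue of `η`
is nonzero of order `0` at the centre, then `v_c η = 0` and `η ∉ m B_m`. -/
theorem h90_thick_hyp (R : h62_Res V m c Fb) [hm : m.IsPrime] (hc : V.Through m c)
    (η : R.O) (hρ : R.ρ η ≠ 0) (ho : R.o (R.ρ η) = 0) :
    (η : F) ≠ 0 ∧ V.v c (η : F) = 0 ∧ ¬ V.InMLoc m (η : F) := by
  obtain ⟨hη0, hv⟩ := h90_res_val_zero R η hρ
  refine ⟨hη0, hv, fun hM => ?_⟩
  have := h90_res_centre R hc η hM hρ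
  omega

end Res

/-! ### The thick equation -/

/-- `h62_case_thick` with `q` replaced by any `Q : F` with `v_c Q = e` and value `0` at the other
valuations through `m` (for instance `Q = u * q` with `u` a unit at `m`). -/
theorem h90_thick_gen (V : h80_ValFam F ι) (m : Ideal V.B) [hm : m.IsPrime]
    {c : ι} {Q : F} (hQ0 : Q ≠ 0) {e : ℕ} (he : 0 < e)
    (hvQ : V.v c Q = e) (hQ' : ∀ k, V.Through m k → k ≠ c → V.v k Q = 0)
    {z : F} (hz0 : z ≠ 0) (hzL : V.InLoc m z)
    (hη : V.v c (z ^ e / Q) = 0) (hres : ¬ V.InMLoc m (z ^ e / Q)) :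
    V.v c z = 1 ∧ ∀ k, V.Through m k → k ≠ c → V.v k z = 0 := by
  have hze0 : z ^ e ≠ 0 := pow_ne_zero e hz0
  have hη0 : z ^ e / Q ≠ 0 := div_ne_zero hze0 hQ0
  have hzn : ∀ k, V.Through m k → 0 ≤ V.v k z := (h80_inLoc_iff V m hz0).1 hzL
  have hval : ∀ k, V.v k (z ^ e / Q) = e * V.v k z - V.v k Q := by
    intro k
    rw [h80_v_div V k hze0 hQ0, h80_v_pow V k hz0]
  have hηL : V.InLoc m (z ^ e / Q) := by
    refine (h80_inLoc_iff V m hη0).2 fun k hk => ?_
    by_cases hkc : k = c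
    · subst hkc
      rw [hη]
    · rw [hval k, hQ' k hk hkc, sub_zero]
      exact mul_nonneg (Int.natCast_nonneg e) (hzn k hk)
  have hηunit : ∀ k, V.Through m k → V.v k (z ^ e / Q) = 0 := by
    obtain ⟨b, t, ht, hbt⟩ := hηL
    have hbm : b ∉ m := fun hb => hres ⟨b, t, hb, ht, hbt⟩
    have ht0 := h80_ne_zero_of_not_mem V ht
    intro k hk
    have h1 := V.map_mul k _ _ ht0 hη0
    rw [hbt, h80_through_eq_zero V hk hbm, h80_through_eq_zero V hk ht] at h1
    omega
  have heZ : (0 : ℤ) < (e : ℤ) := by exact_mod_cast he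
  refine ⟨?_, fun k hk hkc => ?_⟩
  · have h1 := hval c
    rw [hη, hvQ] at h1
    have h2 : (e : ℤ) * (V.v c z - 1) = 0 := by linarith
    rcases mul_eq_zero.1 h2 with h | h
    · omega
    · omega
  · have h1 := hval k
    rw [hηunit k hk, hQ' k hk hkc, sub_zero] at h1
    rcases mul_eq_zero.1 h1.symm with h | h
    · omega
    · exact h

/-- **The thick equation from the residue datum.**  `c` through `m` with residue datum `R`;
`Q` of value `e ≥ 1` at `c` and `0` at the other valuations through `m`; `z` in the local ring;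
`η = z ^ e / Q` lies in `R.O` and its residue is nonzero, of order `0` at the centre.  Then `z` is
a local equation of `c` at `m`. -/
theorem h90_thick_localEq (V : h80_ValFam F ι) (m : Ideal V.B) [hm : m.IsPrime]
    {c : ι} (hc : V.Through m c) {Fb : Type w} [Field Fb] (R : h62_Res V m c Fb)
    {Q : F} (hQ0 : Q ≠ 0) {e : ℕ} (he : 0 < e)
    (hvQ : V.v c Q = e) (hQ' : ∀ k, V.Through m k → k ≠ c → V.v k Q = 0)
    {z : F} (hz0 : z ≠ 0) (hzL : V.InLoc m z)
    (η : R.O) (hηz : (η : F) = z ^ e / Q) (hρ : R.ρ η ≠ 0) (ho : R.o (R.ρ η) = 0) :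
    V.v c z = 1 ∧ ∀ k, V.Through m k → k ≠ c → V.v k z = 0 := by
  obtain ⟨-, hv, hM⟩ := h90_thick_hyp R hc η hρ ho
  rw [hηz] at hv hM
  exact h90_thick_gen V m hQ0 he hvQ hQ' hz0 hzL hv hM

/-- **The thick equation**, with `Q = q` an element of the chart ring and `c` the only vertical
valuation through `m` (the shape of `h62_case_thick`). -/
theorem h90_thick_localEq_q (V : h80_ValFam F ι) (m : Ideal V.B) [hm : m.IsPrime] (q : V.B)
    (hq0 : (q : F) ≠ 0) {c : ι} (hc : V.Through m c) {Fb : Type w} [Field Fb]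
    (R : h62_Res V m c Fb) {e : ℕ} (he : 0 < e) (hvq : V.v c (q : F) = e)
    (hvert : ∀ i, V.Through m i → 0 < V.v i (q : F) → i = c)
    {z : F} (hz0 : z ≠ 0) (hzL : V.InLoc m z)
    (η : R.O) (hηz : (η : F) = z ^ e / (q : F)) (hρ : R.ρ η ≠ 0) (ho : R.o (R.ρ η) = 0) :
    V.v c z = 1 ∧ ∀ k, V.Through m k → k ≠ c → V.v k z = 0 := by
  refine h90_thick_localEq V m hc R hq0 he hvq (fun k hk hkc => ?_) hz0 hzL η hηz hρ ho
  have h1 := h80_v_nonneg V k q hq0
  by_contra h
  exact hkc (hvert k hk (lt_of_le_of_ne h1 (Ne.symm h)))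

/-- **The thick equation**, residue given as a product `u * g ^ n` with `u`, `g` of order `0` at
the centre (the shape of (MID-4): `ρ (z ^ (q - 1) / q) = ū * (θ s̄) ^ (q - 1)`). -/
theorem h90_thick_localEq_mul (V : h80_ValFam F ι) (m : Ideal V.B) [hm : m.IsPrime] (q : V.B)
    (hq0 : (q : F) ≠ 0) {c : ι} (hc : V.Through m c) {Fb : Type w} [Field Fb]
    (R : h62_Res V m c Fb) {e : ℕ} (he : 0 < e) (hvq : V.v c (q : F) = e)
    (hvert : ∀ i, V.Through m i → 0 < V.v i (q : F) → i = c)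
    {z : F} (hz0 : z ≠ 0) (hzL : V.InLoc m z)
    (η : R.O) (hηz : (η : F) = z ^ e / (q : F)) (u g : Fb) (n : ℕ) (hρ : R.ρ η = u * g ^ n)
    (hu : u ≠ 0) (hg : g ≠ 0) (hou : R.o u = 0) (hog : R.o g = 0) :
    V.v c z = 1 ∧ ∀ k, V.Through m k → k ≠ c → V.v k z = 0 := by
  have hgn : g ^ n ≠ 0 := pow_ne_zero n hg
  refine h90_thick_localEq_q V m q hq0 hc R he hvq hvert hz0 hzL η hηz ?_ ?_
  · rw [hρ]
    exact mul_ne_zero hu hgn
  · rw [hρ, R.o_mul _ _ hu hgn, R.o_pow hg, hou, hog, mul_zero, add_zero]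

end Fermat.Agent.S36
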