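import Fermat.Agent.S36.h60_ThickCongr
import Fermat.Agent.S36.h90_ThickEq
import Fermat.Agent.S36.h62_ResCongr

/-!
# S36 / I-PTS (B'): the thick equation at a point of the middle component (helper60)

Binder-generic in the two chart families, concrete in the modular fields.  Level `M q` with the
family `V₁` on `F₁` (`ψ₁ : F₁ → F(M q)`), level `M q²` with the family `V` on `F`
(`ψ : F → F(M q²)`), `φ0, φ2 : F₁ → F` the restrictions of `i0, i2`.

Inputs: the level-`q` residue datum `R₁` at the image point (`ρ₁ = red₁`, `o₁ = ord_y`), the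
level-`q²` residue datum `R` of the middle valuation `c` at `m` with its characterisation by
level-`q` congruences (`h62_Res.exists_of_congr`), the link of `v_c` with the Gauss order of the
middle expansion, and the parameter `s` with `(θ (red₁ s))^(q-1)` a unit at `y` (H(b),
`h60_thick_param`).

* `h60_thick_residue` : `η := (φ2 s - φ0 s)^(q-1) / q` lies in `R.O`, `ρ η ≠ 0`, `o (ρ η) = 0`;
* `h60_thick_plug` : `z := φ2 s - φ0 s` is a local equation of the middle component at `m`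
  (`v_c z = 1`, `v_k z = 0` for every other valuation through `m`).
-/

set_option autoImplicit false
set_option synthInstance.maxHeartbeats 400000

noncomputable section

open ModularCurve AlgebraicCurve

namespace Fermat.Agent.S36

open Fermat.Agent.S34 Fermat.Agent.S37 Fermat.Agent.S24 Fermat.Agent.S35 Fermat.Agent.S18

local notation "Qb" => AlgebraicClosure ℚ

variable (M q : ℕ) [NeZero M] [NeZero q] [Fact q.Prime] (hqM : ¬ q ∣ M)
  (A : ValuationSubring Qb) (hA : A.LiesOverPrime q) (ζ : Qb) (hζ : IsPrimitiveRoot ζ q)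

section Plug

variable {F₁ : Type*} [Field F₁] (ψ₁ : F₁ →+* ↥(modularFunctionFieldBar (M * q)))
  {ι₁ : Type*} {V₁ : h80_ValFam F₁ ι₁} {m₁ : Ideal V₁.B} {w₁ : ι₁}
  (R₁ : h62_Res V₁ m₁ w₁ ↥(modularFunctionFieldFullC (IsLocalRing.ResidueField A) M))
  {F : Type*} [Field F] (ψ : F →+* ↥(modularFunctionFieldBar (M * q * q)))
  {ι : Type*} {V : h80_ValFam F ι} {m : Ideal V.B} {c : ι}
  (R : h62_Res V m c ↥(modularFunctionFieldFullC (IsLocalRing.ResidueField A) M))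
  (φ0 φ2 : F₁ →+* F)

include hA in
/-- **The residue of the thick equation.** -/
theorem h60_thick_residue
    (hR₁ : ∀ f : R₁.O, ∃ hf : ψ₁ (f : F₁) ∈ (h60_R1 M q hqM A hA).O,
      R₁.ρ f = (h60_R1 M q hqM A hA).red ⟨ψ₁ (f : F₁), hf⟩)
    (hφ0 : ∀ g : F₁, ψ (φ0 g) = h36_i0 M q (ψ₁ g))
    (hφ2 : ∀ g : F₁, ψ (φ2 g) = h36_i2 M q hqM (ψ₁ g))
    (hcong : ∀ (f : R.O) (y' : R₁.O),
      ((f : F) - φ0 (y' : F₁) = 0 ∨ 0 < V.v c ((f : F) - φ0 (y' : F₁))) → R.ρ f = R₁.ρ y')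
    (hoR : R.o = R₁.o)
    (hnn : ∀ g : F, g ≠ 0 → h98_midP M q hqM ζ hζ (ψ g) ∈ h60_Os A → 0 ≤ V.v c g)
    (hpos : ∀ g : F, g ≠ 0 →
      (∃ h : h98_midP M q hqM ζ hζ (ψ g) ∈ h60_Os A, h60_rs A ⟨_, h⟩ = 0) → 0 < V.v c g)
    (y : Place (IsLocalRing.ResidueField A)
      ↥(modularFunctionFieldFullC (IsLocalRing.ResidueField A) M))
    (ho₁ : R₁.o = y.ord)
    (s : F₁) (hsO : ψ₁ s ∈ (h60_R1 M q hqM A hA).O)
    (cθ : ↥(modularFunctionFieldFullC (IsLocalRing.ResidueField A) M))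
    (hcθ : (cθ : LaurentSeries (IsLocalRing.ResidueField A))
      = h20_thetaFun ((((h60_R1 M q hqM A hA).redF (ψ₁ s) :
          ↥(modularFunctionFieldFullC (IsLocalRing.ResidueField A) M)) :
            LaurentSeries (IsLocalRing.ResidueField A))) ^ (q - 1))
    (hcθ0 : cθ ≠ 0) (hcθy : y.ord cθ = 0) :
    ∃ η : R.O, (η : F) = (φ2 s - φ0 s) ^ (q - 1) / (q : F) ∧ R.ρ η ≠ 0 ∧ R.o (R.ρ η) = 0 := by
  -- the expansion of `η`
  have hψη : ψ ((φ2 s - φ0 s) ^ (q - 1) / (q : F))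
      = (h36_i2 M q hqM (ψ₁ s) - h36_i0 M q (ψ₁ s)) ^ (q - 1)
        / (q : modularFunctionFieldBar (M * q * q)) := by
    rw [map_div₀, map_pow, map_sub, hφ0, hφ2, map_natCast]
  have hmid := h60_thick_eta_mem M q hqM A hA ζ hζ (ψ₁ s) hsO
  rw [← hψη] at hmid
  have hηO : (φ2 s - φ0 s) ^ (q - 1) / (q : F) ∈ R.O := by
    by_cases h0 : (φ2 s - φ0 s) ^ (q - 1) / (q : F) = 0
    · rw [h0]
      exact R.O.zero_mem
    · exact R.mem_O _ h0 (hnn _ h0 hmid)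
  refine ⟨⟨_, hηO⟩, rfl, ?_⟩
  -- the target residue
  obtain ⟨u, hu, H⟩ := h60_thick_congr M q hqM A hA ζ hζ (ψ₁ s) hsO
  have hu' : algebraMap (IsLocalRing.ResidueField A)
      ↥(modularFunctionFieldFullC (IsLocalRing.ResidueField A) M) u ≠ 0 := by
    rw [Ne, map_eq_zero]
    exact hu
  have hg0 : algebraMap (IsLocalRing.ResidueField A)
      ↥(modularFunctionFieldFullC (IsLocalRing.ResidueField A) M) u * cθ ≠ 0 :=
    mul_ne_zero hu' hcθ0
  have hgo : y.ord (algebraMap (IsLocalRing.ResidueField A)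
      ↥(modularFunctionFieldFullC (IsLocalRing.ResidueField A) M) u * cθ) = 0 := by
    rw [y.ord_mul hu' hcθ0, h35_ord_algebraMap, hcθy, add_zero]
  obtain ⟨y', -, hy'⟩ := R₁.surj _ hg0 (by rw [ho₁, hgo])
  obtain ⟨hf, hρ⟩ := hR₁ y'
  have hred : (h60_R1 M q hqM A hA).redF (ψ₁ (y' : F₁))
      = algebraMap (IsLocalRing.ResidueField A)
          ↥(modularFunctionFieldFullC (IsLocalRing.ResidueField A) M) u * cθ := by
    rw [(h60_R1 M q hqM A hA).redF_of_mem hf, ← hρ, hy']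
  obtain ⟨h, hrs⟩ := H cθ (ψ₁ (y' : F₁)) hcθ hf hred
  have hψd : ψ ((φ2 s - φ0 s) ^ (q - 1) / (q : F) - φ0 (y' : F₁))
      = (h36_i2 M q hqM (ψ₁ s) - h36_i0 M q (ψ₁ s)) ^ (q - 1)
        / (q : modularFunctionFieldBar (M * q * q)) - h36_i0 M q (ψ₁ (y' : F₁)) := by
    rw [map_sub, hψη, hφ0]
  have hcg : (φ2 s - φ0 s) ^ (q - 1) / (q : F) - φ0 (y' : F₁) = 0 ∨
      0 < V.v c ((φ2 s - φ0 s) ^ (q - 1) / (q : F) - φ0 (y' : F₁)) := by
    by_cases h0 : (φ2 s - φ0 s) ^ (q - 1) / (q : F) - φ0 (y' : F₁) = 0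
    · exact Or.inl h0
    · refine Or.inr (hpos _ h0 ?_)
      rw [hψd]
      exact ⟨h, hrs⟩
  have hρη : R.ρ ⟨_, hηO⟩ = algebraMap (IsLocalRing.ResidueField A)
      ↥(modularFunctionFieldFullC (IsLocalRing.ResidueField A) M) u * cθ := by
    rw [hcong ⟨_, hηO⟩ y' hcg, hy']
  rw [hρη]
  exact ⟨hg0, by rw [hoR, ho₁, hgo]⟩

include hA in
/-- **The thick equation at a point of the middle component**: `z = φ2 s - φ0 s` is a local
equation of the valuation `c` at `m`. -/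
theorem h60_thick_plug [hm : m.IsPrime] (hc : V.Through m c)
    (hR₁ : ∀ f : R₁.O, ∃ hf : ψ₁ (f : F₁) ∈ (h60_R1 M q hqM A hA).O,
      R₁.ρ f = (h60_R1 M q hqM A hA).red ⟨ψ₁ (f : F₁), hf⟩)
    (hφ0 : ∀ g : F₁, ψ (φ0 g) = h36_i0 M q (ψ₁ g))
    (hφ2 : ∀ g : F₁, ψ (φ2 g) = h36_i2 M q hqM (ψ₁ g))
    (hcong : ∀ (f : R.O) (y' : R₁.O),
      ((f : F) - φ0 (y' : F₁) = 0 ∨ 0 < V.v c ((f : F) - φ0 (y' : F₁))) → R.ρ f = R₁.ρ y')
    (hoR : R.o = R₁.o)
    (hnn : ∀ g : F, g ≠ 0 → h98_midP M q hqM ζ hζ (ψ g) ∈ h60_Os A → 0 ≤ V.v c g)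
    (hpos : ∀ g : F, g ≠ 0 →
      (∃ h : h98_midP M q hqM ζ hζ (ψ g) ∈ h60_Os A, h60_rs A ⟨_, h⟩ = 0) → 0 < V.v c g)
    (y : Place (IsLocalRing.ResidueField A)
      ↥(modularFunctionFieldFullC (IsLocalRing.ResidueField A) M))
    (ho₁ : R₁.o = y.ord)
    (s : F₁) (hsO : ψ₁ s ∈ (h60_R1 M q hqM A hA).O)
    (cθ : ↥(modularFunctionFieldFullC (IsLocalRing.ResidueField A) M))
    (hcθ : (cθ : LaurentSeries (IsLocalRing.ResidueField A))
      = h20_thetaFun ((((h60_R1 M q hqM A hA).redF (ψ₁ s) :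
          ↥(modularFunctionFieldFullC (IsLocalRing.ResidueField A) M)) :
            LaurentSeries (IsLocalRing.ResidueField A))) ^ (q - 1))
    (hcθ0 : cθ ≠ 0) (hcθy : y.ord cθ = 0)
    (qB : V.B) (hqB : (qB : F) = (q : F)) (hq0 : (q : F) ≠ 0)
    (hvq : V.v c (q : F) = ((q - 1 : ℕ) : ℤ))
    (hvert : ∀ i, V.Through m i → 0 < V.v i (q : F) → i = c)
    (hzL : V.InLoc m (φ2 s - φ0 s)) :
    φ2 s - φ0 s ≠ 0 ∧ V.v c (φ2 s - φ0 s) = 1 ∧
      ∀ k, V.Through m k → k ≠ c → V.v k (φ2 s - φ0 s) = 0 := by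
  have hq : q.Prime := Fact.out
  have he : 0 < q - 1 := Nat.sub_pos_of_lt hq.one_lt
  obtain ⟨η, hη, hρ, ho⟩ := h60_thick_residue M q hqM A hA ζ hζ ψ₁ R₁ ψ R φ0 φ2 hR₁ hφ0 hφ2 hcong
    hoR hnn hpos y ho₁ s hsO cθ hcθ hcθ0 hcθy
  have hz0 : φ2 s - φ0 s ≠ 0 := by
    intro h0
    apply hρ
    have : η = 0 := by
      apply Subtype.ext
      rw [hη, h0, zero_pow he.ne', zero_div]
      rfl
    rw [this, map_zero]
  refine ⟨hz0, ?_⟩
  exact h90_thick_localEq_q V m qB (by rw [hqB]; exact hq0) hc R he (by rw [hqB]; exact hvq)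
    (fun i hi hpi => hvert i hi (by rw [← hqB]; exact hpi)) hz0 hzL η (by rw [hη, hqB]) hρ ho

end Plug

end Fermat.Agent.S36

end
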