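import Fermat.Agent.S36.h60_ThickPlug

/-!
# S36 / I-PTS (B'): the series form (C1) of "the level-`q` residue map is `red₁`" (helper60)

`h60_hR₁_of_C1` : if the residue map `ρ₁` of the level-`q` datum `R₁` is the coefficientwise
reduction of the standard expansion (helper90's (C1)), then it is `red₁ = (h60_R1 ..).red`
(the hypothesis `hR₁` of `h60_thick_plug`).  `h60_thick_plug_C1` : the plug with (C1).
-/

set_option autoImplicit false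
set_option synthInstance.maxHeartbeats 400000

noncomputable section

open ModularCurve AlgebraicCurve

namespace Fermat.Agent.S36

open Fermat.Agent.S34 Fermat.Agent.S37 Fermat.Agent.S24 Fermat.Agent.S35 Fermat.Agent.S18

local notation "Qb" => AlgebraicClosure ℚ

variable (M q : ℕ) [NeZero M] [NeZero q] [Fact q.Prime] (hqM : ¬ q ∣ M)
  (A : ValuationSubring Qb) (hA : A.LiesOverPrime q) (ζ : Qb) (hζ : IsPrimitiveRoot ζ q)

variable {F₁ : Type*} [Field F₁] (ψ₁ : F₁ →+* ↥(modularFunctionFieldBar (M * q)))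
  {ι₁ : Type*} {V₁ : h80_ValFam F₁ ι₁} {m₁ : Ideal V₁.B} {w₁ : ι₁}
  (R₁ : h62_Res V₁ m₁ w₁ ↥(modularFunctionFieldFullC (IsLocalRing.ResidueField A) M))

/-- (C1) ⟹ `hR₁`. -/
theorem h60_hR₁_of_C1
    (hC1 : ∀ f : R₁.O, ∃ h : ((ψ₁ (f : F₁) : ↥(modularFunctionFieldBar (M * q))) :
        LaurentSeries Qb) ∈ h60_Os A,
      ((R₁.ρ f : ↥(modularFunctionFieldFullC (IsLocalRing.ResidueField A) M)) :
        LaurentSeries (IsLocalRing.ResidueField A)) = h60_rs A ⟨_, h⟩) :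
    ∀ f : R₁.O, ∃ hf : ψ₁ (f : F₁) ∈ (h60_R1 M q hqM A hA).O,
      R₁.ρ f = (h60_R1 M q hqM A hA).red ⟨ψ₁ (f : F₁), hf⟩ := by
  intro f
  obtain ⟨h, hρ⟩ := hC1 f
  have hf : ψ₁ (f : F₁) ∈ (h60_R1 M q hqM A hA).O :=
    (h60_R1_mem_iff_Os M q hqM A hA _).mpr h
  refine ⟨hf, Subtype.ext ?_⟩
  rw [hρ, h60_R1_coe_red]

/-- `hR₁` ⟹ (C1). -/
theorem h60_C1_of_hR₁
    (hR₁ : ∀ f : R₁.O, ∃ hf : ψ₁ (f : F₁) ∈ (h60_R1 M q hqM A hA).O,
      R₁.ρ f = (h60_R1 M q hqM A hA).red ⟨ψ₁ (f : F₁), hf⟩) :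
    ∀ f : R₁.O, ∃ h : ((ψ₁ (f : F₁) : ↥(modularFunctionFieldBar (M * q))) :
        LaurentSeries Qb) ∈ h60_Os A,
      ((R₁.ρ f : ↥(modularFunctionFieldFullC (IsLocalRing.ResidueField A) M)) :
        LaurentSeries (IsLocalRing.ResidueField A)) = h60_rs A ⟨_, h⟩ := by
  intro f
  obtain ⟨hf, hρ⟩ := hR₁ f
  refine ⟨(h60_R1_mem_iff_Os M q hqM A hA _).mp hf, ?_⟩
  rw [hρ, h60_R1_coe_red]

variable {F : Type*} [Field F] (ψ : F →+* ↥(modularFunctionFieldBar (M * q * q)))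
  {ι : Type*} {V : h80_ValFam F ι} {m : Ideal V.B} {c : ι}
  (R : h62_Res V m c ↥(modularFunctionFieldFullC (IsLocalRing.ResidueField A) M))
  (φ0 φ2 : F₁ →+* F)

include hA in
/-- `h60_thick_plug` with the level-`q` residue map given in the series form (C1). -/
theorem h60_thick_plug_C1 [hm : m.IsPrime] (hc : V.Through m c)
    (hC1 : ∀ f : R₁.O, ∃ h : ((ψ₁ (f : F₁) : ↥(modularFunctionFieldBar (M * q))) :
        LaurentSeries Qb) ∈ h60_Os A,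
      ((R₁.ρ f : ↥(modularFunctionFieldFullC (IsLocalRing.ResidueField A) M)) :
        LaurentSeries (IsLocalRing.ResidueField A)) = h60_rs A ⟨_, h⟩)
    (hφ0 : ∀ g : F₁, ψ (φ0 g) = h36_i0 M q (ψ₁ g))
    (hφ2 : ∀ g : F₁, ψ (φ2 g) = h36_i2 M q hqM (ψ₁ g))
    (hcong : ∀ (f : R.O) (y' : R₁.O),
      ((f : F) - φ0 (y' : F₁) = 0 ∨ 0 < V.v c ((f : F) - φ0 (y' : F₁))) → R.ρ f = R₁.ρ y')
    (hoR : R.o = R₁.o)
    (hnn : ∀ g : F, g ≠ 0 → h98_midP M q hqM ζ hζ (ψ g) ∈ h60_Os A → 0 ≤ V.v c g)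
    (hpos : ∀ g : F, g ≠ 0 →
      (∃ h : h98_midP M q hqM ζ hζ (ψ g) ∈ h60_Os A, h60_rs A ⟨_, h⟩ = 0) → 0 < V.v c g)
    (y : Place (IsLocalRing.ResidueField A)
      ↥(modularFunctionFieldFullC (IsLocalRing.ResidueField A) M))
    (ho₁ : R₁.o = y.ord)
    (s : F₁) (hsO : ψ₁ s ∈ (h60_R1 M q hqM A hA).O)
    (cθ : ↥(modularFunctionFieldFullC (IsLocalRing.ResidueField A) M))
    (hcθ : (cθ : LaurentSeries (IsLocalRing.ResidueField A))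
      = h20_thetaFun ((((h60_R1 M q hqM A hA).redF (ψ₁ s) :
          ↥(modularFunctionFieldFullC (IsLocalRing.ResidueField A) M)) :
            LaurentSeries (IsLocalRing.ResidueField A))) ^ (q - 1))
    (hcθ0 : cθ ≠ 0) (hcθy : y.ord cθ = 0)
    (qB : V.B) (hqB : (qB : F) = (q : F)) (hq0 : (q : F) ≠ 0)
    (hvq : V.v c (q : F) = ((q - 1 : ℕ) : ℤ))
    (hvert : ∀ i, V.Through m i → 0 < V.v i (q : F) → i = c)
    (hzL : V.InLoc m (φ2 s - φ0 s)) :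
    φ2 s - φ0 s ≠ 0 ∧ V.v c (φ2 s - φ0 s) = 1 ∧
      ∀ k, V.Through m k → k ≠ c → V.v k (φ2 s - φ0 s) = 0 :=
  h60_thick_plug M q hqM A hA ζ hζ ψ₁ R₁ ψ R φ0 φ2 hc
    (h60_hR₁_of_C1 M q hqM A hA ψ₁ R₁ hC1) hφ0 hφ2 hcong hoR hnn hpos y ho₁ s hsO cθ hcθ hcθ0 hcθy
    qB hqB hq0 hvq hvert hzL

end Fermat.Agent.S36

end
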