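import Fermat.Agent.S36.h60_ThickTwoLevel

/-!
# S36 / I-PTS (M5): the thick branch without the node hypothesis (helper60)

The point `y` of the level-`q` special fibre under a point `m` of the middle component of level
`q²` (only the middle valuation through `m`) is never a supersingular point; this need not be
known beforehand: at a supersingular point the residue of `η = z^(q-1)/q`, namely
`ū (θ s̄)^(q-1)`, has a pole at `y` (`h60_hasse_final_ss`), although `η` lies in the local ring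
at `m` (every valuation through `m` is non-negative on it).

* `h60_res_surj_all` : the residue map of a residue datum is onto the residue field;
* `h60_thick_residue_gen` : the residue of `η` is `ū (θ s̄)^(q-1)` (no hypothesis on its order);
* `h60_thick_ss_absurd` : the order of `(θ s̄)^(q-1)` at `y` is not negative;
* `h60_thick_plug2` : the thick equation from `ord_y (θ s̄)^(q-1) ≤ 0`;
* `h60_hthick_gen2` : **`hthick` of `h62_pts_two_level`** from the level-`q` residue data on the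
  branch `wF` alone (no statement on `wV`, no (UNIT*) at level `q`).
-/

set_option autoImplicit false
set_option synthInstance.maxHeartbeats 400000

noncomputable section

open ModularCurve AlgebraicCurve

namespace Fermat.Agent.S36

open Fermat.Agent.S34 Fermat.Agent.S37 Fermat.Agent.S24 Fermat.Agent.S35 Fermat.Agent.S18

section Surj

variable {F₁ : Type*} [Field F₁] {ι₁ : Type*} {V₁ : h80_ValFam F₁ ι₁} {m₁ : Ideal V₁.B}
  {w₁ : ι₁} {Fb : Type*} [Field Fb]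

/-- The residue map of a residue datum is onto (a function with a pole at the centre is a
quotient of two functions regular there). -/
theorem h60_res_surj_all (R₁ : h62_Res V₁ m₁ w₁ Fb) [m₁.IsPrime] (hF₁ : V₁.Through m₁ w₁)
    (ϖ : Fb) (hϖ0 : ϖ ≠ 0) (hϖ : 0 < R₁.o ϖ) (g : Fb) (hg : g ≠ 0) :
    ∃ y' : R₁.O, R₁.ρ y' = g := by
  have hh0 : ϖ ^ (- R₁.o g).toNat ≠ 0 := pow_ne_zero _ hϖ0
  have hoh : R₁.o (ϖ ^ (- R₁.o g).toNat) = ((- R₁.o g).toNat : ℤ) * R₁.o ϖ := R₁.o_pow hϖ0 _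
  have hN : - R₁.o g ≤ ((- R₁.o g).toNat : ℤ) := Int.self_le_toNat _
  have hN0 : (0 : ℤ) ≤ ((- R₁.o g).toNat : ℤ) := Int.natCast_nonneg _
  have h1 : 0 ≤ R₁.o (ϖ ^ (- R₁.o g).toNat) := by
    rw [hoh]
    exact mul_nonneg hN0 hϖ.le
  have h2 : 0 ≤ R₁.o (ϖ ^ (- R₁.o g).toNat * g) := by
    rw [R₁.o_mul _ g hh0 hg, hoh]
    nlinarith
  obtain ⟨y₂, hy₂L, hy₂⟩ := R₁.surj _ hh0 h1
  obtain ⟨y₁, -, hy₁⟩ := R₁.surj _ (mul_ne_zero hh0 hg) h2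
  have hy₂0 : (y₂ : F₁) ≠ 0 := by
    intro h0
    have h3 : y₂ = 0 := Subtype.ext h0
    rw [h3, map_zero] at hy₂
    exact hh0 hy₂.symm
  have hv0 : 0 ≤ V₁.v w₁ (y₂ : F₁) := (h80_inLoc_iff V₁ m₁ hy₂0).1 hy₂L w₁ hF₁
  have hv1 : ¬ 0 < V₁.v w₁ (y₂ : F₁) := by
    intro hpos
    have h3 := (R₁.ρ_eq_zero y₂ hy₂0).2 hpos
    rw [hy₂] at h3
    exact hh0 h3
  have hinv : ((y₂ : F₁))⁻¹ ∈ R₁.O :=
    R₁.mem_O _ (inv_ne_zero hy₂0) (by rw [h80_v_inv V₁ w₁ hy₂0]; omega)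
  have hmul : y₂ * ⟨_, hinv⟩ = 1 := Subtype.ext (mul_inv_cancel₀ hy₂0)
  have hρinv : R₁.ρ ⟨_, hinv⟩ = (ϖ ^ (- R₁.o g).toNat)⁻¹ := by
    have h3 := congrArg R₁.ρ hmul
    rw [map_mul, map_one, hy₂] at h3
    exact eq_inv_of_mul_eq_one_right h3
  refine ⟨y₁ * ⟨_, hinv⟩, ?_⟩
  rw [map_mul, hy₁, hρinv, mul_comm (ϖ ^ (- R₁.o g).toNat) g, mul_assoc, mul_inv_cancel₀ hh0,
    mul_one]

end Surj

local notation "Qb" => AlgebraicClosure ℚ

variable (M q : ℕ) [NeZero M] [NeZero q] [Fact q.Prime] (hqM : ¬ q ∣ M)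
  (A : ValuationSubring Qb) (hA : A.LiesOverPrime q) (ζ : Qb) (hζ : IsPrimitiveRoot ζ q)

section PlugSS

variable {F₁ : Type*} [Field F₁] (ψ₁ : F₁ →+* ↥(modularFunctionFieldBar (M * q)))
  {ι₁ : Type*} {V₁ : h80_ValFam F₁ ι₁} {m₁ : Ideal V₁.B} {w₁ : ι₁}
  (R₁ : h62_Res V₁ m₁ w₁ ↥(modularFunctionFieldFullC (IsLocalRing.ResidueField A) M))
  {F : Type*} [Field F] (ψ : F →+* ↥(modularFunctionFieldBar (M * q * q)))
  {ι : Type*} {V : h80_ValFam F ι} {m : Ideal V.B} {c : ι}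
  (R : h62_Res V m c ↥(modularFunctionFieldFullC (IsLocalRing.ResidueField A) M))
  (φ0 φ2 : F₁ →+* F)

include hA in
/-- **The residue of the thick equation**, without any hypothesis on the order of
`(θ s̄)^(q-1)` at the centre. -/
theorem h60_thick_residue_gen [hm₁ : m₁.IsPrime] (hF₁ : V₁.Through m₁ w₁)
    (hR₁ : ∀ f : R₁.O, ∃ hf : ψ₁ (f : F₁) ∈ (h60_R1 M q hqM A hA).O,
      R₁.ρ f = (h60_R1 M q hqM A hA).red ⟨ψ₁ (f : F₁), hf⟩)
    (hφ0 : ∀ g : F₁, ψ (φ0 g) = h36_i0 M q (ψ₁ g))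
    (hφ2 : ∀ g : F₁, ψ (φ2 g) = h36_i2 M q hqM (ψ₁ g))
    (hcong : ∀ (f : R.O) (y' : R₁.O),
      ((f : F) - φ0 (y' : F₁) = 0 ∨ 0 < V.v c ((f : F) - φ0 (y' : F₁))) → R.ρ f = R₁.ρ y')
    (hnn : ∀ g : F, g ≠ 0 → h98_midP M q hqM ζ hζ (ψ g) ∈ h60_Os A → 0 ≤ V.v c g)
    (hpos : ∀ g : F, g ≠ 0 →
      (∃ h : h98_midP M q hqM ζ hζ (ψ g) ∈ h60_Os A, h60_rs A ⟨_, h⟩ = 0) → 0 < V.v c g)
    (y : Place (IsLocalRing.ResidueField A)
      ↥(modularFunctionFieldFullC (IsLocalRing.ResidueField A) M))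
    (ho₁ : R₁.o = y.ord)
    (s : F₁) (hsO : ψ₁ s ∈ (h60_R1 M q hqM A hA).O)
    (cθ : ↥(modularFunctionFieldFullC (IsLocalRing.ResidueField A) M))
    (hcθ : (cθ : LaurentSeries (IsLocalRing.ResidueField A))
      = h20_thetaFun ((((h60_R1 M q hqM A hA).redF (ψ₁ s) :
          ↥(modularFunctionFieldFullC (IsLocalRing.ResidueField A) M)) :
            LaurentSeries (IsLocalRing.ResidueField A))) ^ (q - 1))
    (hcθ0 : cθ ≠ 0) :
    ∃ (η : R.O) (u : IsLocalRing.ResidueField A), u ≠ 0 ∧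
      (η : F) = (φ2 s - φ0 s) ^ (q - 1) / (q : F) ∧ (η : F) ≠ 0 ∧ 0 ≤ V.v c (η : F) ∧
      R.ρ η = algebraMap (IsLocalRing.ResidueField A)
        ↥(modularFunctionFieldFullC (IsLocalRing.ResidueField A) M) u * cθ := by
  -- the expansion of `η`
  have hψη : ψ ((φ2 s - φ0 s) ^ (q - 1) / (q : F))
      = (h36_i2 M q hqM (ψ₁ s) - h36_i0 M q (ψ₁ s)) ^ (q - 1)
        / (q : modularFunctionFieldBar (M * q * q)) := by
    rw [map_div₀, map_pow, map_sub, hφ0, hφ2, map_natCast]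
  have hmid := h60_thick_eta_mem M q hqM A hA ζ hζ (ψ₁ s) hsO
  rw [← hψη] at hmid
  have hηO : (φ2 s - φ0 s) ^ (q - 1) / (q : F) ∈ R.O := by
    by_cases h0 : (φ2 s - φ0 s) ^ (q - 1) / (q : F) = 0
    · rw [h0]
      exact R.O.zero_mem
    · exact R.mem_O _ h0 (hnn _ h0 hmid)
  -- the target residue
  obtain ⟨u, hu, H⟩ := h60_thick_congr M q hqM A hA ζ hζ (ψ₁ s) hsO
  have hu' : algebraMap (IsLocalRing.ResidueField A)
      ↥(modularFunctionFieldFullC (IsLocalRing.ResidueField A) M) u ≠ 0 := by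
    rw [Ne, map_eq_zero]
    exact hu
  have hg0 : algebraMap (IsLocalRing.ResidueField A)
      ↥(modularFunctionFieldFullC (IsLocalRing.ResidueField A) M) u * cθ ≠ 0 :=
    mul_ne_zero hu' hcθ0
  -- a uniformiser at `y`
  obtain ⟨ϖ, hϖ⟩ := IsDiscreteValuationRing.exists_irreducible y.toValuationSubring
  have hy1 : y.ord (ϖ : ↥(modularFunctionFieldFullC (IsLocalRing.ResidueField A) M)) = 1 :=
    y.ord_coe_irreducible hϖ
  have hϖ0 : (ϖ : ↥(modularFunctionFieldFullC (IsLocalRing.ResidueField A) M)) ≠ 0 := by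
    intro h0
    rw [h0, Place.ord_zero] at hy1
    exact zero_ne_one hy1
  obtain ⟨y', hy'⟩ := h60_res_surj_all R₁ hF₁ _ hϖ0 (by rw [ho₁, hy1]; exact one_pos) _ hg0
  obtain ⟨hf, hρ⟩ := hR₁ y'
  have hred : (h60_R1 M q hqM A hA).redF (ψ₁ (y' : F₁))
      = algebraMap (IsLocalRing.ResidueField A)
          ↥(modularFunctionFieldFullC (IsLocalRing.ResidueField A) M) u * cθ := by
    rw [(h60_R1 M q hqM A hA).redF_of_mem hf, ← hρ, hy']
  obtain ⟨h, hrs⟩ := H cθ (ψ₁ (y' : F₁)) hcθ hf hred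
  have hψd : ψ ((φ2 s - φ0 s) ^ (q - 1) / (q : F) - φ0 (y' : F₁))
      = (h36_i2 M q hqM (ψ₁ s) - h36_i0 M q (ψ₁ s)) ^ (q - 1)
        / (q : modularFunctionFieldBar (M * q * q)) - h36_i0 M q (ψ₁ (y' : F₁)) := by
    rw [map_sub, hψη, hφ0]
  have hcg : (φ2 s - φ0 s) ^ (q - 1) / (q : F) - φ0 (y' : F₁) = 0 ∨
      0 < V.v c ((φ2 s - φ0 s) ^ (q - 1) / (q : F) - φ0 (y' : F₁)) := by
    by_cases h0 : (φ2 s - φ0 s) ^ (q - 1) / (q : F) - φ0 (y' : F₁) = 0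
    · exact Or.inl h0
    · refine Or.inr (hpos _ h0 ?_)
      rw [hψd]
      exact ⟨h, hrs⟩
  have hρη : R.ρ ⟨_, hηO⟩ = algebraMap (IsLocalRing.ResidueField A)
      ↥(modularFunctionFieldFullC (IsLocalRing.ResidueField A) M) u * cθ := by
    rw [hcong ⟨_, hηO⟩ y' hcg, hy']
  have hη0 : (φ2 s - φ0 s) ^ (q - 1) / (q : F) ≠ 0 := by
    intro h0
    have h3 : (⟨_, hηO⟩ : R.O) = 0 := Subtype.ext h0
    rw [h3, map_zero] at hρη
    exact hg0 hρη.symm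
  exact ⟨⟨_, hηO⟩, u, hu, rfl, hη0, hnn _ hη0 hmid, hρη⟩

include hA in
/-- **No pole**: the order of `(θ s̄)^(q-1)` at the centre `y` is not negative (so `y` is not a
supersingular point, by `h60_hasse_final_ss`). -/
theorem h60_thick_ss_absurd [hm : m.IsPrime] [hm₁ : m₁.IsPrime] (hF₁ : V₁.Through m₁ w₁)
    (hR₁ : ∀ f : R₁.O, ∃ hf : ψ₁ (f : F₁) ∈ (h60_R1 M q hqM A hA).O,
      R₁.ρ f = (h60_R1 M q hqM A hA).red ⟨ψ₁ (f : F₁), hf⟩)
    (hφ0 : ∀ g : F₁, ψ (φ0 g) = h36_i0 M q (ψ₁ g))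
    (hφ2 : ∀ g : F₁, ψ (φ2 g) = h36_i2 M q hqM (ψ₁ g))
    (hcong : ∀ (f : R.O) (y' : R₁.O),
      ((f : F) - φ0 (y' : F₁) = 0 ∨ 0 < V.v c ((f : F) - φ0 (y' : F₁))) → R.ρ f = R₁.ρ y')
    (hoR : R.o = R₁.o)
    (hnn : ∀ g : F, g ≠ 0 → h98_midP M q hqM ζ hζ (ψ g) ∈ h60_Os A → 0 ≤ V.v c g)
    (hpos : ∀ g : F, g ≠ 0 →
      (∃ h : h98_midP M q hqM ζ hζ (ψ g) ∈ h60_Os A, h60_rs A ⟨_, h⟩ = 0) → 0 < V.v c g)
    (y : Place (IsLocalRing.ResidueField A)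
      ↥(modularFunctionFieldFullC (IsLocalRing.ResidueField A) M))
    (ho₁ : R₁.o = y.ord)
    (s : F₁) (hsO : ψ₁ s ∈ (h60_R1 M q hqM A hA).O)
    (cθ : ↥(modularFunctionFieldFullC (IsLocalRing.ResidueField A) M))
    (hcθ : (cθ : LaurentSeries (IsLocalRing.ResidueField A))
      = h20_thetaFun ((((h60_R1 M q hqM A hA).redF (ψ₁ s) :
          ↥(modularFunctionFieldFullC (IsLocalRing.ResidueField A) M)) :
            LaurentSeries (IsLocalRing.ResidueField A))) ^ (q - 1))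
    (hcθ0 : cθ ≠ 0)
    (qB : V.B) (hqB : (qB : F) = (q : F)) (hq0 : (q : F) ≠ 0)
    (hvert : ∀ i, V.Through m i → 0 < V.v i (q : F) → i = c)
    (hzL : V.InLoc m (φ2 s - φ0 s)) :
    0 ≤ y.ord cθ := by
  obtain ⟨η, u, hu, hη, hη0, hηc, hρ⟩ := h60_thick_residue_gen M q hqM A hA ζ hζ ψ₁ R₁ ψ R φ0 φ2
    hF₁ hR₁ hφ0 hφ2 hcong hnn hpos y ho₁ s hsO cθ hcθ hcθ0
  have hu' : algebraMap (IsLocalRing.ResidueField A)
      ↥(modularFunctionFieldFullC (IsLocalRing.ResidueField A) M) u ≠ 0 := by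
    rw [Ne, map_eq_zero]
    exact hu
  have hz0 : φ2 s - φ0 s ≠ 0 := by
    intro h0
    apply hη0
    have hq : q.Prime := Fact.out
    rw [hη, h0, zero_pow (Nat.sub_pos_of_lt hq.one_lt).ne', zero_div]
  have hzn : ∀ i, V.Through m i → 0 ≤ V.v i (φ2 s - φ0 s) := (h80_inLoc_iff V m hz0).1 hzL
  have hL : V.InLoc m (η : F) := by
    refine (h80_inLoc_iff V m hη0).2 fun i hi => ?_
    by_cases hic : i = c
    · rw [hic]
      exact hηc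
    · have hq1 : 0 ≤ V.v i (q : F) := by
        have h1 := h80_v_nonneg V i qB (by rw [hqB]; exact hq0)
        rwa [hqB] at h1
      have hq2 : V.v i (q : F) = 0 := by
        by_contra hne
        exact hic (hvert i hi (lt_of_le_of_ne hq1 (Ne.symm hne)))
      rw [hη, h80_v_div V i (pow_ne_zero _ hz0) hq0, h80_v_pow V i hz0, hq2, sub_zero]
      exact mul_nonneg (Int.natCast_nonneg _) (hzn i hi)
  have hρ0 : R.ρ η ≠ 0 := by
    rw [hρ]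
    exact mul_ne_zero hu' hcθ0
  have h1 := R.nonneg η hL hρ0
  rwa [hρ, hoR, ho₁, y.ord_mul hu' hcθ0, h35_ord_algebraMap, zero_add] at h1

include hA in
/-- **The thick equation at a point of the middle component**, from
`ord_y (θ s̄)^(q-1) ≤ 0`. -/
theorem h60_thick_plug2 [hm : m.IsPrime] [hm₁ : m₁.IsPrime] (hF₁ : V₁.Through m₁ w₁)
    (hc : V.Through m c)
    (hR₁ : ∀ f : R₁.O, ∃ hf : ψ₁ (f : F₁) ∈ (h60_R1 M q hqM A hA).O,
      R₁.ρ f = (h60_R1 M q hqM A hA).red ⟨ψ₁ (f : F₁), hf⟩)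
    (hφ0 : ∀ g : F₁, ψ (φ0 g) = h36_i0 M q (ψ₁ g))
    (hφ2 : ∀ g : F₁, ψ (φ2 g) = h36_i2 M q hqM (ψ₁ g))
    (hcong : ∀ (f : R.O) (y' : R₁.O),
      ((f : F) - φ0 (y' : F₁) = 0 ∨ 0 < V.v c ((f : F) - φ0 (y' : F₁))) → R.ρ f = R₁.ρ y')
    (hoR : R.o = R₁.o)
    (hnn : ∀ g : F, g ≠ 0 → h98_midP M q hqM ζ hζ (ψ g) ∈ h60_Os A → 0 ≤ V.v c g)
    (hpos : ∀ g : F, g ≠ 0 →
      (∃ h : h98_midP M q hqM ζ hζ (ψ g) ∈ h60_Os A, h60_rs A ⟨_, h⟩ = 0) → 0 < V.v c g)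
    (y : Place (IsLocalRing.ResidueField A)
      ↥(modularFunctionFieldFullC (IsLocalRing.ResidueField A) M))
    (ho₁ : R₁.o = y.ord)
    (s : F₁) (hsO : ψ₁ s ∈ (h60_R1 M q hqM A hA).O)
    (cθ : ↥(modularFunctionFieldFullC (IsLocalRing.ResidueField A) M))
    (hcθ : (cθ : LaurentSeries (IsLocalRing.ResidueField A))
      = h20_thetaFun ((((h60_R1 M q hqM A hA).redF (ψ₁ s) :
          ↥(modularFunctionFieldFullC (IsLocalRing.ResidueField A) M)) :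
            LaurentSeries (IsLocalRing.ResidueField A))) ^ (q - 1))
    (hcθ0 : cθ ≠ 0) (hcθy : y.ord cθ ≤ 0)
    (qB : V.B) (hqB : (qB : F) = (q : F)) (hq0 : (q : F) ≠ 0)
    (hvq : V.v c (q : F) = ((q - 1 : ℕ) : ℤ))
    (hvert : ∀ i, V.Through m i → 0 < V.v i (q : F) → i = c)
    (hzL : V.InLoc m (φ2 s - φ0 s)) :
    φ2 s - φ0 s ≠ 0 ∧ V.v c (φ2 s - φ0 s) = 1 ∧
      ∀ k, V.Through m k → k ≠ c → V.v k (φ2 s - φ0 s) = 0 := by
  have h0 := h60_thick_ss_absurd M q hqM A hA ζ hζ ψ₁ R₁ ψ R φ0 φ2 hF₁ hR₁ hφ0 hφ2 hcong hoR hnn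
    hpos y ho₁ s hsO cθ hcθ hcθ0 qB hqB hq0 hvert hzL
  exact h60_thick_plug M q hqM A hA ζ hζ ψ₁ R₁ ψ R φ0 φ2 hc hR₁ hφ0 hφ2 hcong hoR hnn hpos y ho₁
    s hsO cθ hcθ hcθ0 (le_antisymm hcθy h0) qB hqB hq0 hvq hvert hzL

end PlugSS

section Thick2

variable {F₁ : Type*} [Field F₁] (ψ₁ : F₁ →+* ↥(modularFunctionFieldBar (M * q)))
  {ι₁ : Type*} (V1 : h80_ValFam F₁ ι₁)
  {F : Type*} [Field F] (ψ : F →+* ↥(modularFunctionFieldBar (M * q * q)))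
  {ι : Type*} (V2 : h80_ValFam F ι)

include hA in
/-- **`hthick` of `h62_pts_two_level`** ((M5) = (B'-MOD)), from the level-`q` residue data on the
branch `wF` alone: at every point `s` of `wF` a residue datum with `o = ord_y`, `ρ = red₁`, and a
function `s₀` of the chart ring with `(θ (red₁ s₀))^(q-1)` of order `≤ 0` at `y`. -/
theorem h60_hthick_gen2 (wF wV : ι₁) (P : Fin 3 → ι) (Hor2 : ι → Prop)
    (hcase : ∀ i : ι, (∃ k, i = P k) ∨ Hor2 i)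
    (a : F₁ →+* F) (ha : ∀ g ∈ V1.B, a g ∈ V2.B)
    (hia : (a.restrict V1.B V2.B ha).IsIntegral)
    (hta : ∀ k, ∃ e : ℤ, 0 < e ∧ ∀ g : F₁, g ≠ 0 →
      V2.v (P k) (a g) = e * V1.v ((![wF, wF, wV] : Fin 3 → ι₁) k) g)
    (hV2 : ∀ y : F, y ≠ 0 → V2.v (P 1) y = 0 →
      ∃ y' : F₁, y - a y' = 0 ∨ 0 < V2.v (P 1) (y - a y'))
    (φ2 : F₁ →+* F) (hφ2B : ∀ g ∈ V1.B, φ2 g ∈ V2.B)
    (hφ0 : ∀ g : F₁, ψ (a g) = h36_i0 M q (ψ₁ g))
    (hφ2 : ∀ g : F₁, ψ (φ2 g) = h36_i2 M q hqM (ψ₁ g))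
    (hnn : ∀ g : F, g ≠ 0 → h98_midP M q hqM ζ hζ (ψ g) ∈ h60_Os A → 0 ≤ V2.v (P 1) g)
    (hpos : ∀ g : F, g ≠ 0 →
      (∃ h : h98_midP M q hqM ζ hζ (ψ g) ∈ h60_Os A, h60_rs A ⟨_, h⟩ = 0) → 0 < V2.v (P 1) g)
    (qB : V2.B) (hqB : (qB : F) = (q : F)) (hq0 : (q : F) ≠ 0)
    (hvq : V2.v (P 1) (q : F) = ((q - 1 : ℕ) : ℤ))
    (hqH : ∀ h, Hor2 h → V2.v h (q : F) = 0)
    (hQ : ∀ s : Ideal V1.B, s.IsMaximal → V1.Through s wF →
      ∃ (y : Place (IsLocalRing.ResidueField A)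
          ↥(modularFunctionFieldFullC (IsLocalRing.ResidueField A) M))
        (R₁ : h62_Res V1 s wF ↥(modularFunctionFieldFullC (IsLocalRing.ResidueField A) M)),
        R₁.o = y.ord ∧
        (∀ f : R₁.O, ∃ hf : ψ₁ (f : F₁) ∈ (h60_R1 M q hqM A hA).O,
          R₁.ρ f = (h60_R1 M q hqM A hA).red ⟨ψ₁ (f : F₁), hf⟩) ∧
        ∃ s₀ : F₁, s₀ ∈ V1.B ∧ ψ₁ s₀ ∈ (h60_R1 M q hqM A hA).O ∧
          ∃ cθ : ↥(modularFunctionFieldFullC (IsLocalRing.ResidueField A) M),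
            (cθ : LaurentSeries (IsLocalRing.ResidueField A))
              = h20_thetaFun ((((h60_R1 M q hqM A hA).redF (ψ₁ s₀) :
                  ↥(modularFunctionFieldFullC (IsLocalRing.ResidueField A) M)) :
                    LaurentSeries (IsLocalRing.ResidueField A))) ^ (q - 1) ∧
            cθ ≠ 0 ∧ y.ord cθ ≤ 0) :
    ∀ m : Ideal V2.B, m.IsMaximal → V2.Through m (P 1) → (∀ c, V2.Through m (P c) → c = 1) →
      ∃ z : F, z ≠ 0 ∧ V2.v (P 1) z = 1 ∧ ∀ k, V2.Through m k → k ≠ P 1 → V2.v k z = 0 := by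
  intro m hm h1 honly
  have hmp : m.IsPrime := hm.isPrime
  have hs : (m.comap (a.restrict V1.B V2.B ha)).IsMaximal :=
    Ideal.isMaximal_comap_of_isIntegral_of_isMaximal' (a.restrict V1.B V2.B ha) hia m
  have hsp : (m.comap (a.restrict V1.B V2.B ha)).IsPrime := hs.isPrime
  obtain ⟨e, he, tab⟩ := hta 1
  have tab' : ∀ g : F₁, g ≠ 0 → V2.v (P 1) (a g) = e * V1.v wF g := tab
  have hF : V1.Through (m.comap (a.restrict V1.B V2.B ha)) wF :=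
    h14_through_comap V1 V2 a ha (P 1) wF
      (fun g hg => h14_pos_iff_of_mul (V2.v (P 1)) (V1.v wF) a e he tab' g hg) m h1
  obtain ⟨y, R₁, ho₁, hR₁, s₀, hs₀B, hs₀O, cθ, hcθ, hcθ0, hcθy⟩ := hQ _ hs hF
  -- a function of positive order at `y`
  have hg : ∃ g : ↥(modularFunctionFieldFullC (IsLocalRing.ResidueField A) M),
      g ≠ 0 ∧ 0 < R₁.o g := by
    obtain ⟨ϖ, hϖ⟩ := IsDiscreteValuationRing.exists_irreducible y.toValuationSubring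
    have hy1 : y.ord (ϖ : ↥(modularFunctionFieldFullC (IsLocalRing.ResidueField A) M)) = 1 :=
      y.ord_coe_irreducible hϖ
    refine ⟨ϖ, ?_, ?_⟩
    · intro h0
      rw [h0, Place.ord_zero] at hy1
      exact zero_ne_one hy1
    · rw [ho₁, hy1]
      exact one_pos
  obtain ⟨R, -, hoR, hcong⟩ := h62_res_up_of (V1 := V1) (V2 := V2) (φ := a) (hφ := ha) m (P 1) h1
    wF hF R₁ hg e he tab' hV2
  have hvert : ∀ i, V2.Through m i → 0 < V2.v i (q : F) → i = P 1 := by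
    intro i hi hpos'
    rcases hcase i with ⟨k, rfl⟩ | hh
    · rw [honly k hi]
    · rw [hqH i hh] at hpos'
      exact absurd hpos' (lt_irrefl 0)
  have hzB : φ2 s₀ - a s₀ ∈ V2.B := V2.B.sub_mem (hφ2B s₀ hs₀B) (ha s₀ hs₀B)
  have hzL : V2.InLoc m (φ2 s₀ - a s₀) :=
    ⟨⟨_, hzB⟩, 1, fun h => hmp.ne_top ((Ideal.eq_top_iff_one m).mpr h), by simp⟩
  obtain ⟨hz0, hz1, hzk⟩ := h60_thick_plug2 M q hqM A hA ζ hζ ψ₁ R₁ ψ R a φ2 hF h1 hR₁ hφ0 hφ2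
    hcong hoR hnn hpos y ho₁ s₀ hs₀O cθ hcθ hcθ0 hcθy qB hqB hq0 hvq hvert hzL
  exact ⟨_, hz0, hz1, hzk⟩

end Thick2

end Fermat.Agent.S36

end
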