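import Mathlib
import Fermat.Agent.S36.h62_RowU
import Fermat.Agent.S36.h69_K0
import Fermat.Agent.S36.h5_ResK0
import Fermat.Agent.S33.h14_Unr
import Fermat.Agent.S18.GR_ChartPt

/-!
# S36 / I-PTS row (E): the residue field of a point is `k`; (H1)-(H3) of `h94_loc_glue_val`
(helper65)

`V : h80_ValFam F ι` a chart family, `m` a prime of the chart ring `V.B`, `c` a valuation through
`m` with a residue datum `R : h62_Res V m c Fb` (the residue map `ρ` of `v_c` and the order `o` of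
the branch at the point).

Generic:

* `h65_res_centre` : the centre property: `ρ f = 0 ∨ 0 < o (ρ f)` implies `f ∈ m`;
* `h65_res_field`  : if every element of `Fb` regular at the point has a value in `k` and the
  constants of `k` lift to "constants" of `V.B`, then every `s ∈ V.B` is congruent to a constant
  modulo `m` (the residue field of `m` is `k`);
* `h65_H1_of`, `h65_H2_of`, `h65_H3_of` : the hypotheses (H1), (H2), (H3) of `h94_loc_glue_val`
  from that and from root extraction on constants.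

Modular (`F = h69_F0 N I`, `I` the inertia group of a valuation subring `A` of `ℚ̄` over `q`):

* `h65_Cst` : the constants `a ∈ A` fixed by `I`, inside `V.B`;
* `h65_cst_root`, `h65_cst_unity` : `n`-th roots of unit constants modulo `m`, and lifting of
  `n`-th roots of unity (`q ∤ n`);
* `h65_cst_lift` : every element of the residue field of `A` is the reduction of a constant;
* `h65_H123` : (H1) ∧ (H2) ∧ (H3) at `m` for every `n` prime to `q`.
-/

set_option autoImplicit false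

namespace Fermat.Agent.S36

open AlgebraicCurve ModularCurve Fermat.Agent.S05 Fermat.Agent.S18 Fermat.Agent.S24 Fermat.Agent.S33

universe w

section generic

variable {F : Type*} [Field F] {ι : Type*} {V : h80_ValFam F ι} {m : Ideal V.B} {c : ι}
  {Fb : Type w} [Field Fb]

/-- Elements of the chart ring lie in the local ring. -/
theorem h65_inLoc_coe (m : Ideal V.B) [hm : m.IsPrime] (f : V.B) : V.InLoc m (f : F) :=
  ⟨f, 1, fun h => hm.ne_top ((Ideal.eq_top_iff_one m).mpr h), by simp⟩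

/-- Inverses of elements outside `m` lie in the local ring. -/
theorem h65_inLoc_inv (m : Ideal V.B) {f : V.B} (hf : f ∉ m) : V.InLoc m ((f : F))⁻¹ := by
  have h0 : (f : F) ≠ 0 := h80_ne_zero_of_not_mem V hf
  exact ⟨1, f, hf, by simp [h0]⟩

/-- The chart ring lies in the valuation ring of the residue datum. -/
theorem h65_mem_O (R : h62_Res V m c Fb) [m.IsPrime] (hc : V.Through m c) (f : V.B) :
    (f : F) ∈ R.O :=
  R.locRing_le hc (h65_inLoc_coe m f)

/-- **The centre property**: a chart function whose reduction on the branch `c` vanishes at the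
point lies in `m`. -/
theorem h65_res_centre (R : h62_Res V m c Fb) [hm : m.IsPrime] (hc : V.Through m c) (f : V.B)
    (h : R.ρ ⟨(f : F), h65_mem_O R hc f⟩ = 0 ∨ 0 < R.o (R.ρ ⟨(f : F), h65_mem_O R hc f⟩)) :
    f ∈ m := by
  by_contra hfm
  have hinv : V.InLoc m ((f : F))⁻¹ := h65_inLoc_inv m hfm
  have hinvO : ((f : F))⁻¹ ∈ R.O := R.locRing_le hc hinv
  have h0 : (f : F) ≠ 0 := h80_ne_zero_of_not_mem V hfm
  have hmul : R.ρ ⟨(f : F), h65_mem_O R hc f⟩ * R.ρ ⟨((f : F))⁻¹, hinvO⟩ = 1 := by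
    rw [← map_mul, ← map_one R.ρ]
    congr 1
    exact Subtype.ext (mul_inv_cancel₀ h0)
  have hne1 : R.ρ ⟨(f : F), h65_mem_O R hc f⟩ ≠ 0 := left_ne_zero_of_mul_eq_one hmul
  have hne2 : R.ρ ⟨((f : F))⁻¹, hinvO⟩ ≠ 0 := right_ne_zero_of_mul_eq_one hmul
  have hn1 := R.nonneg ⟨(f : F), h65_mem_O R hc f⟩ (h65_inLoc_coe m f) hne1
  have hn2 := R.nonneg ⟨((f : F))⁻¹, hinvO⟩ hinv hne2
  have hsum := R.o_mul _ _ hne1 hne2
  rw [hmul, R.o_one] at hsum
  rcases h with h | h
  · exact hne1 h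
  · omega

/-- **The residue field of the point is `k`**: every chart function is congruent modulo `m` to a
constant. -/
theorem h65_res_field (R : h62_Res V m c Fb) [hm : m.IsPrime] (hc : V.Through m c)
    {k : Type*} [Field k] [Algebra k Fb]
    (hval : ∀ g : Fb, g ≠ 0 → 0 ≤ R.o g →
      ∃ a : k, g = algebraMap k Fb a ∨ 0 < R.o (g - algebraMap k Fb a))
    (Cst : V.B → Prop)
    (hlift : ∀ a : k, ∃ l : V.B, Cst l ∧
      R.ρ ⟨(l : F), h65_mem_O R hc l⟩ = algebraMap k Fb a) :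
    ∀ s : V.B, ∃ l : V.B, Cst l ∧ s - l ∈ m := by
  intro s
  have key : ∃ a : k, R.ρ ⟨(s : F), h65_mem_O R hc s⟩ = algebraMap k Fb a ∨
      0 < R.o (R.ρ ⟨(s : F), h65_mem_O R hc s⟩ - algebraMap k Fb a) := by
    by_cases hg0 : R.ρ ⟨(s : F), h65_mem_O R hc s⟩ = 0
    · exact ⟨0, Or.inl (by rw [hg0, map_zero])⟩
    · exact hval _ hg0 (R.nonneg _ (h65_inLoc_coe m s) hg0)
  obtain ⟨a, ha⟩ := key
  obtain ⟨l, hl, hρl⟩ := hlift a
  refine ⟨l, hl, h65_res_centre R hc (s - l) ?_⟩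
  have e : R.ρ ⟨((s - l : V.B) : F), h65_mem_O R hc (s - l)⟩ =
      R.ρ ⟨(s : F), h65_mem_O R hc s⟩ - algebraMap k Fb a := by
    rw [← hρl, ← map_sub]
    congr 1
  rw [e]
  rcases ha with ha | ha
  · left
    rw [ha, sub_self]
  · right
    exact ha

/-- (H2) of `h94_loc_glue_val` from the residue field and roots of constants. -/
theorem h65_H2_of (Cst : V.B → Prop) (hk : ∀ s : V.B, ∃ l : V.B, Cst l ∧ s - l ∈ m) {n : ℕ}
    (hroot : ∀ l : V.B, Cst l → l ∉ m → ∃ r : V.B, r ^ n - l ∈ m) :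
    ∀ s : V.B, s ∉ m → ∃ r : V.B, r ^ n - s ∈ m := by
  intro s hs
  obtain ⟨l, hl, hsl⟩ := hk s
  have hlm : l ∉ m := fun h => hs (by
    have := m.add_mem hsl h
    simpa using this)
  obtain ⟨r, hr⟩ := hroot l hl hlm
  refine ⟨r, ?_⟩
  have e : r ^ n - s = (r ^ n - l) - (s - l) := by ring
  rw [e]
  exact m.sub_mem hr hsl

/-- (H3) of `h94_loc_glue_val` from the residue field and roots of unity among the constants. -/
theorem h65_H3_of (Cst : V.B → Prop) (hk : ∀ s : V.B, ∃ l : V.B, Cst l ∧ s - l ∈ m) {n : ℕ}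
    (hunity : ∀ l : V.B, Cst l → l ^ n - 1 ∈ m → ∃ ζ : V.B, ζ ^ n = 1 ∧ l - ζ ∈ m) :
    ∀ c0 : V.B, c0 ^ n - 1 ∈ m → ∃ ζ : V.B, ζ ^ n = 1 ∧ c0 - ζ ∈ m := by
  intro c0 hc0
  obtain ⟨l, hl, hcl⟩ := hk c0
  have h1 : c0 ^ n - l ^ n ∈ m := by
    obtain ⟨d, hd⟩ := sub_dvd_pow_sub_pow c0 l n
    rw [hd]
    exact m.mul_mem_right _ hcl
  have h2 : l ^ n - 1 ∈ m := by
    have e : l ^ n - 1 = (c0 ^ n - 1) - (c0 ^ n - l ^ n) := by ring
    rw [e]
    exact m.sub_mem hc0 h1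
  obtain ⟨ζ, hζ, hlζ⟩ := hunity l hl h2
  refine ⟨ζ, hζ, ?_⟩
  have e : c0 - ζ = (c0 - l) + (l - ζ) := by ring
  rw [e]
  exact m.add_mem hcl hlζ

/-- (H1) of `h94_loc_glue_val`: an integer which is invertible in the chart ring is a unit for
every valuation. -/
theorem h65_H1_of (V : h80_ValFam F ι) (m : Ideal V.B) {n : ℕ} (b : V.B)
    (hb : (b : F) * (n : F) = 1) :
    (n : F) ≠ 0 ∧ ∀ j, V.Through m j → V.v j (n : F) = 0 := by
  have hn0 : (n : F) ≠ 0 := right_ne_zero_of_mul_eq_one hb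
  have hb0 : (b : F) ≠ 0 := left_ne_zero_of_mul_eq_one hb
  refine ⟨hn0, fun j _ => ?_⟩
  have h1 := V.map_mul j _ _ hb0 hn0
  rw [hb, h80_v_one] at h1
  have h2 := h80_v_nonneg V j b hb0
  have h4 : (((n : V.B) : V.B) : F) = (n : F) := by push_cast; rfl
  have h3 := h80_v_nonneg V j (n : V.B) (by rw [h4]; exact hn0)
  rw [h4] at h3
  omega

/-- The value hypothesis of `h65_res_field` for the order function of a place of a function field
over an algebraically closed field. -/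
theorem h65_hval_of_place {k : Type*} [Field k] [Algebra k Fb] [IsAlgClosed k] {y : Fb}
    (hy : h75_IsChart k y) (P : Place k Fb) :
    ∀ g : Fb, g ≠ 0 → 0 ≤ P.ord g →
      ∃ a : k, g = algebraMap k Fb a ∨ 0 < P.ord (g - algebraMap k Fb a) := by
  intro g _ hg
  exact h39_exists_val hy P (h24_mem_of_ord_nonneg P hg)

end generic

section modular

local notation "Qb" => AlgebraicClosure ℚ

variable (N : ℕ) [NeZero N] (q : ℕ) [Fact q.Prime] (A : ValuationSubring Qb)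
  {ι : Type*} (V : h80_ValFam ↥(h69_F0 N (A.inertiaSubgroupIn ℚ)) ι)

/-- **The constants of the chart ring**: the elements of `A` fixed by the inertia group. -/
def h65_Cst (l : V.B) : Prop :=
  ∃ a : Qb, a ∈ A ∧ (∀ σ ∈ A.inertiaSubgroupIn ℚ, σ a = a) ∧
    ((l : ↥(h69_F0 N (A.inertiaSubgroupIn ℚ))) : modularFunctionFieldBar N) =
      algebraMap Qb (modularFunctionFieldBar N) a

variable {N q A V}

/-- Two chart functions with the same image in `F̄(N)` are equal. -/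
theorem h65_coe_inj {l l' : V.B}
    (h : ((l : ↥(h69_F0 N (A.inertiaSubgroupIn ℚ))) : modularFunctionFieldBar N) =
      ((l' : ↥(h69_F0 N (A.inertiaSubgroupIn ℚ))) : modularFunctionFieldBar N)) : l = l' :=
  Subtype.ext (Subtype.ext h)

variable (hA : A.LiesOverPrime q)
  (hA0 : ∀ a : Qb, a ∈ A → (∀ σ ∈ A.inertiaSubgroupIn ℚ, σ a = a) →
    ∃ l : V.B, ((l : ↥(h69_F0 N (A.inertiaSubgroupIn ℚ))) : modularFunctionFieldBar N) =
      algebraMap Qb (modularFunctionFieldBar N) a)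
  {m : Ideal V.B} (hqm : (q : V.B) ∈ m)

include hA hA0 hqm in
/-- A constant which is a non-unit of `A` lies in every point of the special fibre. -/
theorem h65_cst_nonunit_mem (l : V.B) (a : Qb) (ha : a ∈ A.nonunits)
    (hfix : ∀ σ ∈ A.inertiaSubgroupIn ℚ, σ a = a)
    (hl : ((l : ↥(h69_F0 N (A.inertiaSubgroupIn ℚ))) : modularFunctionFieldBar N) =
      algebraMap Qb (modularFunctionFieldBar N) a) : l ∈ m := by
  obtain ⟨b, hbA, hab, hbfix⟩ := h14_unr q A hA a ha hfix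
  obtain ⟨l', hl'⟩ := hA0 b hbA hbfix
  have e : l = (q : V.B) * l' := by
    apply h65_coe_inj
    rw [hl, hab, map_mul, map_natCast]
    push_cast
    rw [hl']
  rw [e]
  exact m.mul_mem_right _ hqm

include hA hA0 hqm in
/-- **Roots of unit constants modulo `m`.** -/
theorem h65_cst_root {n : ℕ} (hn : n ≠ 0) :
    ∀ l : V.B, h65_Cst N A V l → l ∉ m → ∃ r : V.B, r ^ n - l ∈ m := by
  rintro l ⟨a, haA, hfix, hl⟩ hlm
  have ha' : a ∉ A.nonunits := fun h => hlm (h65_cst_nonunit_mem hA hA0 hqm l a h hfix hl)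
  obtain ⟨c, hcA, -, hcfix, hc⟩ := h69_unit_root q A hA n hn a haA ha'
  obtain ⟨r, hr⟩ := hA0 c hcA hcfix
  refine ⟨r, ?_⟩
  apply h65_cst_nonunit_mem hA hA0 hqm (r ^ n - l) (c ^ n - a)
  · have e : c ^ n - a = -(a - c ^ n) := by ring
    rw [e]
    exact h5_neg_mem_nonunits A hc
  · intro σ hσ
    rw [map_sub, map_pow, hcfix σ hσ, hfix σ hσ]
  · rw [map_sub, map_pow, ← hr, ← hl]
    rfl

include hA hA0 hqm in
/-- **Roots of unity lift**: a constant whose `n`-th power is `1` modulo `m` is congruent to an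
`n`-th root of unity of the chart ring (`q ∤ n`). -/
theorem h65_cst_unity (hm : m ≠ ⊤) {n : ℕ} (hn : ¬ q ∣ n) :
    ∀ l : V.B, h65_Cst N A V l → l ^ n - 1 ∈ m → ∃ ζ : V.B, ζ ^ n = 1 ∧ l - ζ ∈ m := by
  have hq : q.Prime := Fact.out
  have hn0 : n ≠ 0 := by
    rintro rfl
    exact hn (dvd_zero q)
  rintro l ⟨a, haA, hfix, hl⟩ hlm
  -- `a ^ n - 1` is a non-unit
  have hnu : a ^ n - 1 ∈ A.nonunits := by
    by_contra hu
    have hinv : (a ^ n - 1)⁻¹ ∈ A := h26_inv_mem_of_not_mem_nonunits A hu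
    have hne : a ^ n - 1 ≠ 0 := by
      intro h0
      rw [h0] at hu
      exact hu (h5_zero_mem_nonunits A)
    have hfixinv : ∀ σ ∈ A.inertiaSubgroupIn ℚ, σ ((a ^ n - 1)⁻¹) = (a ^ n - 1)⁻¹ := by
      intro σ hσ
      rw [map_inv₀, map_sub, map_pow, map_one, hfix σ hσ]
    obtain ⟨l2, hl2⟩ := hA0 _ hinv hfixinv
    have e : (l ^ n - 1) * l2 = 1 := by
      apply h65_coe_inj
      push_cast
      rw [hl, hl2, ← map_pow, ← map_one (algebraMap Qb (modularFunctionFieldBar N)), ← map_sub,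
        ← map_mul, mul_inv_cancel₀ hne]
    apply hm
    rw [Ideal.eq_top_iff_one, ← e]
    exact m.mul_mem_right _ hlm
  obtain ⟨ζ, hζ, hnear⟩ := h5_exists_root_near A haA hn0 hnu
  have hζA : ζ ∈ A := h5_mem_of_pow_eq_one A hn0 hζ
  have hζfix : ∀ σ ∈ A.inertiaSubgroupIn ℚ, σ ζ = ζ := by
    intro σ hσ
    have hζ0 : ζ ≠ 0 := by
      rintro rfl
      rw [zero_pow hn0] at hζ
      exact zero_ne_one hζ
    have hinv : (ζ⁻¹) ^ n = 1 := by rw [inv_pow, hζ, inv_one]
    have hinvA : ζ⁻¹ ∈ A := h5_mem_of_pow_eq_one A hn0 hinv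
    have h1 : σ ζ - ζ ∈ A.nonunits := h26_sub_mem_nonunits_of_mem_inertia A hσ hζA
    have h2 : σ ζ * ζ⁻¹ - 1 ∈ A.nonunits := by
      have h3 : σ ζ * ζ⁻¹ - 1 = (σ ζ - ζ) * ζ⁻¹ := by
        field_simp
      rw [h3]
      exact h26_mul_mem_nonunits_right A h1 hinvA
    have h4 : (σ ζ * ζ⁻¹) ^ n = 1 := by
      rw [mul_pow, ← map_pow, hζ, map_one, one_mul, hinv]
    have h5 := h5_root_eq_one A hq hA hn h4 h2
    field_simp at h5
    exact h5
  obtain ⟨z, hz⟩ := hA0 ζ hζA hζfix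
  refine ⟨z, ?_, ?_⟩
  · apply h65_coe_inj
    push_cast
    rw [hz, ← map_pow, hζ, map_one]
  · apply h65_cst_nonunit_mem hA hA0 hqm (l - z) (a - ζ) hnear
    · intro σ hσ
      rw [map_sub, hfix σ hσ, hζfix σ hσ]
    · rw [map_sub, ← hl, ← hz]
      rfl

include hA hA0 in
/-- **Lifting residues to constants**: every element of the residue field of `A` is the
reduction of a constant of the chart ring. -/
theorem h65_cst_lift (hmp : m.IsPrime) {c : ι} (hc : V.Through m c) {Fb : Type w} [Field Fb]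
    [Algebra (IsLocalRing.ResidueField A) Fb] (R : h62_Res V m c Fb)
    (hρc : ∀ (l : V.B) (a : Qb) (ha : a ∈ A),
      ((l : ↥(h69_F0 N (A.inertiaSubgroupIn ℚ))) : modularFunctionFieldBar N) =
        algebraMap Qb (modularFunctionFieldBar N) a →
      R.ρ ⟨(l : ↥(h69_F0 N (A.inertiaSubgroupIn ℚ))), h65_mem_O R hc l⟩ =
        algebraMap (IsLocalRing.ResidueField A) Fb (IsLocalRing.residue A ⟨a, ha⟩)) :
    ∀ a : IsLocalRing.ResidueField A, ∃ l : V.B, h65_Cst N A V l ∧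
      R.ρ ⟨(l : ↥(h69_F0 N (A.inertiaSubgroupIn ℚ))), h65_mem_O R hc l⟩ =
        algebraMap (IsLocalRing.ResidueField A) Fb a := by
  have hq : q.Prime := Fact.out
  intro abar
  obtain ⟨⟨a, haA⟩, rfl⟩ := IsLocalRing.residue_surjective abar
  obtain ⟨a0, ha0A, hfix, hnear⟩ := h5_res_K0 q hq A hA a haA
  obtain ⟨l, hl⟩ := hA0 a0 ha0A hfix
  refine ⟨l, ⟨a0, ha0A, hfix, hl⟩, ?_⟩
  rw [hρc l a0 ha0A hl]
  congr 1
  symm
  rw [← sub_eq_zero, ← map_sub, IsLocalRing.residue_eq_zero_iff]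
  exact ValuationSubring.coe_mem_nonunits_iff.mp hnear

include hA hA0 in
/-- **The residue field of a point of the special fibre is `k`** (modular form): every chart
function is congruent modulo `m` to an inertia-fixed constant of `A`. -/
theorem h65_res_field_mod (hmp : m.IsPrime) {c : ι} (hc : V.Through m c) {Fb : Type w} [Field Fb]
    [Algebra (IsLocalRing.ResidueField A) Fb] (R : h62_Res V m c Fb)
    (hval : ∀ g : Fb, g ≠ 0 → 0 ≤ R.o g → ∃ a : IsLocalRing.ResidueField A,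
      g = algebraMap (IsLocalRing.ResidueField A) Fb a ∨
        0 < R.o (g - algebraMap (IsLocalRing.ResidueField A) Fb a))
    (hρc : ∀ (l : V.B) (a : Qb) (ha : a ∈ A),
      ((l : ↥(h69_F0 N (A.inertiaSubgroupIn ℚ))) : modularFunctionFieldBar N) =
        algebraMap Qb (modularFunctionFieldBar N) a →
      R.ρ ⟨(l : ↥(h69_F0 N (A.inertiaSubgroupIn ℚ))), h65_mem_O R hc l⟩ =
        algebraMap (IsLocalRing.ResidueField A) Fb (IsLocalRing.residue A ⟨a, ha⟩)) :
    ∀ s : V.B, ∃ l : V.B, h65_Cst N A V l ∧ s - l ∈ m :=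
  h65_res_field R hc hval (h65_Cst N A V) (h65_cst_lift hA hA0 hmp hc R hρc)

include hA hA0 hqm in
/-- **(H1) ∧ (H2) ∧ (H3) of `h94_loc_glue_val`** at a point `m` of the special fibre, for every
`n` prime to `q`, from a residue datum on ONE valuation through `m`. -/
theorem h65_H123 (hmax : m.IsMaximal) {c : ι} (hc : V.Through m c) {Fb : Type w} [Field Fb]
    [Algebra (IsLocalRing.ResidueField A) Fb] (R : h62_Res V m c Fb)
    (hval : ∀ g : Fb, g ≠ 0 → 0 ≤ R.o g → ∃ a : IsLocalRing.ResidueField A,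
      g = algebraMap (IsLocalRing.ResidueField A) Fb a ∨
        0 < R.o (g - algebraMap (IsLocalRing.ResidueField A) Fb a))
    (hρc : ∀ (l : V.B) (a : Qb) (ha : a ∈ A),
      ((l : ↥(h69_F0 N (A.inertiaSubgroupIn ℚ))) : modularFunctionFieldBar N) =
        algebraMap Qb (modularFunctionFieldBar N) a →
      R.ρ ⟨(l : ↥(h69_F0 N (A.inertiaSubgroupIn ℚ))), h65_mem_O R hc l⟩ =
        algebraMap (IsLocalRing.ResidueField A) Fb (IsLocalRing.residue A ⟨a, ha⟩))
    {n : ℕ} (hn : ¬ q ∣ n) :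
    (((n : ℕ) : ↥(h69_F0 N (A.inertiaSubgroupIn ℚ))) ≠ 0 ∧
        ∀ j, V.Through m j → V.v j ((n : ℕ) : ↥(h69_F0 N (A.inertiaSubgroupIn ℚ))) = 0) ∧
      (∀ s : V.B, s ∉ m → ∃ r : V.B, r ^ n - s ∈ m) ∧
      (∀ c0 : V.B, c0 ^ n - 1 ∈ m → ∃ ζ : V.B, ζ ^ n = 1 ∧ c0 - ζ ∈ m) := by
  have hq : q.Prime := Fact.out
  have hn0 : n ≠ 0 := by
    rintro rfl
    exact hn (dvd_zero q)
  have hk := h65_res_field_mod hA hA0 hmax.isPrime hc R hval hρc
  refine ⟨?_, h65_H2_of _ hk (h65_cst_root hA hA0 hqm hn0),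
    h65_H3_of _ hk (h65_cst_unity hA hA0 hqm hmax.ne_top hn)⟩
  -- (H1)
  have hinvA : ((n : Qb))⁻¹ ∈ A := h26_natCast_inv_mem A hq hA hn
  have hfix : ∀ σ ∈ A.inertiaSubgroupIn ℚ, σ ((n : Qb))⁻¹ = ((n : Qb))⁻¹ := by
    intro σ _
    rw [map_inv₀, map_natCast]
  obtain ⟨b, hb⟩ := hA0 _ hinvA hfix
  apply h65_H1_of V m b
  apply Subtype.ext
  push_cast
  rw [hb, ← map_natCast (algebraMap Qb (modularFunctionFieldBar N)) n, ← map_mul]
  have hnQ : (n : Qb) ≠ 0 := by exact_mod_cast hn0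
  rw [inv_mul_cancel₀ hnQ, map_one]

end modular

end Fermat.Agent.S36
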