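import Fermat.Agent.S36.h60_ThickQMod
import Fermat.Agent.S36.h60_ThickSS
import Fermat.Agent.S36.h65_ResField

/-!
# S36 / I-PTS (M5): the hypothesis `hQ` of `h60_hthick_gen2` at the modular names (helper60)

`V1 := h80_fam1 (M*q) I (h98_w1 ..) ..` (chart 1 of level `M q`, `I` = inertia),
`ψ₁ := (h69_F0 (M*q) I).subtype`, `wF := Sum.inl 0`.

* `h60_res_noncusp` : the centre `y` of a residue datum `R₁` at a point `s` of the branch
  `Sum.inl 0` with `o = ord_y`, `ρ = red₁` is not a cusp (`j̄` is regular at `y`), because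
  `j ∈ V1.B`;
* `h60_hQ_mod` : **`hQ` of `h60_hthick_gen2`**, from the residue data alone (RES at level `q` on
  the branch `Sum.inl 0`, with `o = ord_y` and `ρ = red₁`).
-/

set_option autoImplicit false
set_option synthInstance.maxHeartbeats 400000

noncomputable section

open ModularCurve AlgebraicCurve

namespace Fermat.Agent.S36

open Fermat.Agent.S34 Fermat.Agent.S37 Fermat.Agent.S24 Fermat.Agent.S35 Fermat.Agent.S18

local notation "Qb" => AlgebraicClosure ℚ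

variable (M q : ℕ) [NeZero M] [NeZero q] [Fact q.Prime] (hqM : ¬ q ∣ M)
  (A : ValuationSubring Qb) (hA : A.LiesOverPrime q) (ζ : Qb) (hζ : IsPrimitiveRoot ζ q)
  (hex : h98_Ex M q hqM A ζ hζ)

/-- `j` lies in the chart-1 ring of level `M q`. -/
theorem h60_J0_mem_fam1 :
    (⟨h59_jbar (M * q), h80_jbar_mem_F0 (M * q) (A.inertiaSubgroupIn ℚ)⟩ :
        h69_F0 (M * q) (A.inertiaSubgroupIn ℚ)) ∈
      (h80_fam1 (M * q) (A.inertiaSubgroupIn ℚ) (h98_w1 M q hqM A ζ hζ hex)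
        (h98_hw1mul M q hqM A hA ζ hζ hex) (h98_hw1add M q hqM A hA ζ hζ hex)).B :=
  h60_mem_fam1 M q hqM A hA ζ hζ hex _ (h84_jbar_mem M q hqM A hA) (h84_wjbar_mem M q hqM A hA)
    (fun _ hP => hP)

/-- **The centre of a residue datum of the chart-1 ring is not a cusp.** -/
theorem h60_res_noncusp
    (s : Ideal (h80_fam1 (M * q) (A.inertiaSubgroupIn ℚ) (h98_w1 M q hqM A ζ hζ hex)
      (h98_hw1mul M q hqM A hA ζ hζ hex) (h98_hw1add M q hqM A hA ζ hζ hex)).B) [hs : s.IsPrime]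
    (y : Place (IsLocalRing.ResidueField A)
      ↥(modularFunctionFieldFullC (IsLocalRing.ResidueField A) M))
    (R₁ : h62_Res (h80_fam1 (M * q) (A.inertiaSubgroupIn ℚ) (h98_w1 M q hqM A ζ hζ hex)
      (h98_hw1mul M q hqM A hA ζ hζ hex) (h98_hw1add M q hqM A hA ζ hζ hex)) s (Sum.inl 0)
      ↥(modularFunctionFieldFullC (IsLocalRing.ResidueField A) M))
    (ho : R₁.o = y.ord)
    (hR₁ : ∀ f : R₁.O, ∃ hf : (h69_F0 (M * q) (A.inertiaSubgroupIn ℚ)).subtype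
        (f : h69_F0 (M * q) (A.inertiaSubgroupIn ℚ)) ∈ (h60_R1 M q hqM A hA).O,
      R₁.ρ f = (h60_R1 M q hqM A hA).red
        ⟨(h69_F0 (M * q) (A.inertiaSubgroupIn ℚ)).subtype
          (f : h69_F0 (M * q) (A.inertiaSubgroupIn ℚ)), hf⟩) :
    h54_jk (IsLocalRing.ResidueField A) M ∈ y.toValuationSubring := by
  have hJB := h60_J0_mem_fam1 M q hqM A hA ζ hζ hex
  have hjk0 : h54_jk (IsLocalRing.ResidueField A) M ≠ 0 := by
    intro h
    exact (h54_jk_transcendental (IsLocalRing.ResidueField A) M) (h ▸ isAlgebraic_zero)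
  have hJne : h59_jbar (M * q) ≠ 0 := by
    intro h0
    have := h10_order_jbar (M * q)
    rw [h0] at this
    simp at this
  have hJ0 : (⟨h59_jbar (M * q), h80_jbar_mem_F0 (M * q) (A.inertiaSubgroupIn ℚ)⟩ :
      h69_F0 (M * q) (A.inertiaSubgroupIn ℚ)) ≠ 0 := by
    intro h
    exact hJne (congrArg Subtype.val h)
  have hJO : (⟨h59_jbar (M * q), h80_jbar_mem_F0 (M * q) (A.inertiaSubgroupIn ℚ)⟩ :
      h69_F0 (M * q) (A.inertiaSubgroupIn ℚ)) ∈ R₁.O :=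
    R₁.mem_O _ hJ0 (h80_v_nonneg _ (Sum.inl 0) ⟨_, hJB⟩ hJ0)
  obtain ⟨hf, hρ⟩ := hR₁ ⟨_, hJO⟩
  have hρ' : R₁.ρ ⟨_, hJO⟩ = h54_jk (IsLocalRing.ResidueField A) M := by
    rw [hρ, ← (h60_R1 M q hqM A hA).redF_of_mem hf]
    exact h84_redF_jbar M q hqM A hA
  have h1 := R₁.nonneg ⟨_, hJO⟩ (h65_inLoc_coe s ⟨_, hJB⟩) (by rw [hρ']; exact hjk0)
  rw [hρ', ho] at h1
  exact h73_mem_of_ord_nonneg y h1

/-- **`hQ` of `h60_hthick_gen2` at the modular names**, from the residue data of the branch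
`Sum.inl 0` of level `M q`. -/
theorem h60_hQ_mod (hch : 5 ≤ q ∨ 2 ∣ M ∨ 3 ∣ M) (h2 : nuTwo M = 0) (h3 : nuThree M = 0)
    (hRes : ∀ s : Ideal (h80_fam1 (M * q) (A.inertiaSubgroupIn ℚ) (h98_w1 M q hqM A ζ hζ hex)
        (h98_hw1mul M q hqM A hA ζ hζ hex) (h98_hw1add M q hqM A hA ζ hζ hex)).B,
      s.IsMaximal →
      (h80_fam1 (M * q) (A.inertiaSubgroupIn ℚ) (h98_w1 M q hqM A ζ hζ hex)
        (h98_hw1mul M q hqM A hA ζ hζ hex) (h98_hw1add M q hqM A hA ζ hζ hex)).Through s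
          (Sum.inl 0) →
      ∃ (y : Place (IsLocalRing.ResidueField A)
          ↥(modularFunctionFieldFullC (IsLocalRing.ResidueField A) M))
        (R₁ : h62_Res (h80_fam1 (M * q) (A.inertiaSubgroupIn ℚ) (h98_w1 M q hqM A ζ hζ hex)
          (h98_hw1mul M q hqM A hA ζ hζ hex) (h98_hw1add M q hqM A hA ζ hζ hex)) s (Sum.inl 0)
          ↥(modularFunctionFieldFullC (IsLocalRing.ResidueField A) M)),
        R₁.o = y.ord ∧
        ∀ f : R₁.O, ∃ hf : (h69_F0 (M * q) (A.inertiaSubgroupIn ℚ)).subtype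
            (f : h69_F0 (M * q) (A.inertiaSubgroupIn ℚ)) ∈ (h60_R1 M q hqM A hA).O,
          R₁.ρ f = (h60_R1 M q hqM A hA).red
            ⟨(h69_F0 (M * q) (A.inertiaSubgroupIn ℚ)).subtype
              (f : h69_F0 (M * q) (A.inertiaSubgroupIn ℚ)), hf⟩) :
    ∀ s : Ideal (h80_fam1 (M * q) (A.inertiaSubgroupIn ℚ) (h98_w1 M q hqM A ζ hζ hex)
        (h98_hw1mul M q hqM A hA ζ hζ hex) (h98_hw1add M q hqM A hA ζ hζ hex)).B,
      s.IsMaximal →
      (h80_fam1 (M * q) (A.inertiaSubgroupIn ℚ) (h98_w1 M q hqM A ζ hζ hex)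
        (h98_hw1mul M q hqM A hA ζ hζ hex) (h98_hw1add M q hqM A hA ζ hζ hex)).Through s
          (Sum.inl 0) →
      ∃ (y : Place (IsLocalRing.ResidueField A)
          ↥(modularFunctionFieldFullC (IsLocalRing.ResidueField A) M))
        (R₁ : h62_Res (h80_fam1 (M * q) (A.inertiaSubgroupIn ℚ) (h98_w1 M q hqM A ζ hζ hex)
          (h98_hw1mul M q hqM A hA ζ hζ hex) (h98_hw1add M q hqM A hA ζ hζ hex)) s (Sum.inl 0)
          ↥(modularFunctionFieldFullC (IsLocalRing.ResidueField A) M)),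
        R₁.o = y.ord ∧
        (∀ f : R₁.O, ∃ hf : (h69_F0 (M * q) (A.inertiaSubgroupIn ℚ)).subtype
            (f : h69_F0 (M * q) (A.inertiaSubgroupIn ℚ)) ∈ (h60_R1 M q hqM A hA).O,
          R₁.ρ f = (h60_R1 M q hqM A hA).red
            ⟨(h69_F0 (M * q) (A.inertiaSubgroupIn ℚ)).subtype
              (f : h69_F0 (M * q) (A.inertiaSubgroupIn ℚ)), hf⟩) ∧
        ∃ s₀ : h69_F0 (M * q) (A.inertiaSubgroupIn ℚ),
          s₀ ∈ (h80_fam1 (M * q) (A.inertiaSubgroupIn ℚ) (h98_w1 M q hqM A ζ hζ hex)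
            (h98_hw1mul M q hqM A hA ζ hζ hex) (h98_hw1add M q hqM A hA ζ hζ hex)).B ∧
          (h69_F0 (M * q) (A.inertiaSubgroupIn ℚ)).subtype s₀ ∈ (h60_R1 M q hqM A hA).O ∧
          ∃ cθ : ↥(modularFunctionFieldFullC (IsLocalRing.ResidueField A) M),
            (cθ : LaurentSeries (IsLocalRing.ResidueField A))
              = h20_thetaFun ((((h60_R1 M q hqM A hA).redF
                  ((h69_F0 (M * q) (A.inertiaSubgroupIn ℚ)).subtype s₀) :
                  ↥(modularFunctionFieldFullC (IsLocalRing.ResidueField A) M)) :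
                    LaurentSeries (IsLocalRing.ResidueField A))) ^ (q - 1) ∧
            cθ ≠ 0 ∧ y.ord cθ ≤ 0 := by
  intro s hs hF
  have hsp : s.IsPrime := hs.isPrime
  obtain ⟨y, R₁, ho, hR₁⟩ := hRes s hs hF
  have hy := h60_res_noncusp M q hqM A hA ζ hζ hex s y R₁ ho hR₁
  obtain ⟨s₀, hs₀B, hs₀O, cθ, hcθ, hcθ0, hcθy⟩ :=
    h60_thick_qb_mod M q hqM A hA ζ hζ hex hch h2 h3 y hy
  exact ⟨y, R₁, ho, hR₁, s₀, hs₀B, hs₀O, cθ, hcθ, hcθ0, hcθy⟩

end Fermat.Agent.S36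

end
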