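import Fermat.Agent.S36.h60_ThickQb
import Fermat.Agent.S36.h67_CountMod
import Fermat.Agent.S36.h65_HunionInst

/-!
# S36 / I-PTS (M5), (Q-b): the parameter of the thick branch, hypothesis-free (helper60)

`h60_thick_qb_mod` : at EVERY place `y` of the special fibre `Fb(M)` which is not a cusp there is
a function `s₀` of the chart-1 ring of level `M q` (`h80_fam1 (M*q) I (h98_w1 ..) ..`), integral
on the first component, such that `(θ (red₁ s₀))^(q-1)` is (the series of) a nonzero function of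
order `≤ 0` at `y` (order `0` at the ordinary points, `-2` at the node points).  This is the last
clause of `hQ` of `h60_hthick_gen2`; the count hypotheses are discharged by helper67's
`h67_cnt_mod` and helper65's `h65_hunion_inst`.
-/

set_option autoImplicit false
set_option synthInstance.maxHeartbeats 400000

noncomputable section

open ModularCurve AlgebraicCurve

namespace Fermat.Agent.S36

open Fermat.Agent.S34 Fermat.Agent.S37 Fermat.Agent.S24 Fermat.Agent.S35 Fermat.Agent.S18

local notation "Qb" => AlgebraicClosure ℚ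

variable (M q : ℕ) [NeZero M] [NeZero q] [Fact q.Prime] (hqM : ¬ q ∣ M)
  (A : ValuationSubring Qb) (hA : A.LiesOverPrime q) (ζ : Qb) (hζ : IsPrimitiveRoot ζ q)
  (hex : h98_Ex M q hqM A ζ hζ)

/-- **(Q-b)**, hypothesis-free: the parameter of the thick branch at every non-cuspidal place of
the special fibre. -/
theorem h60_thick_qb_mod (hch : 5 ≤ q ∨ 2 ∣ M ∨ 3 ∣ M) (h2 : nuTwo M = 0) (h3 : nuThree M = 0)
    (y : Place (IsLocalRing.ResidueField A)
      ↥(modularFunctionFieldFullC (IsLocalRing.ResidueField A) M))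
    (hy : h54_jk (IsLocalRing.ResidueField A) M ∈ y.toValuationSubring) :
    ∃ s₀ : h69_F0 (M * q) (A.inertiaSubgroupIn ℚ),
      s₀ ∈ (h80_fam1 (M * q) (A.inertiaSubgroupIn ℚ) (h98_w1 M q hqM A ζ hζ hex)
        (h98_hw1mul M q hqM A hA ζ hζ hex) (h98_hw1add M q hqM A hA ζ hζ hex)).B ∧
      (s₀ : modularFunctionFieldBar (M * q)) ∈ (h60_R1 M q hqM A hA).O ∧
      ∃ cθ : ↥(modularFunctionFieldFullC (IsLocalRing.ResidueField A) M),
        (cθ : LaurentSeries (IsLocalRing.ResidueField A))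
          = h20_thetaFun ((((h60_R1 M q hqM A hA).redF
              (s₀ : modularFunctionFieldBar (M * q)) :
              ↥(modularFunctionFieldFullC (IsLocalRing.ResidueField A) M)) :
                LaurentSeries (IsLocalRing.ResidueField A))) ^ (q - 1) ∧
        cθ ≠ 0 ∧ y.ord cθ ≤ 0 := by
  classical
  have : IsAlgClosed (IsLocalRing.ResidueField A) := h19_residueField_isAlgClosed A
  have : CharP (IsLocalRing.ResidueField A) q := h19_residueField_charP A q hA
  have hpd := h67_cnt_hpd M q hqM A hA hch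
  obtain ⟨Pinf, P0, hPinf, hP0⟩ := h65_exists_cusps M q hqM
  obtain ⟨Sg, hSg, hunion⟩ := h65_hunion_inst M q hqM hch A hA hPinf hP0
  obtain ⟨T, hT, H⟩ := h67_cnt_mod_ex M q hqM A hA hch h2 h3 hPinf hP0 Sg
    (h96_frobPerm (h84_isFrobChart_jk M q hqM A hA))
    (h96_frobPerm (h84_isFrobChart_jk M q hqM A hA)).injective
    (fun Q hQ => ⟨(hSg Q hQ).1, (hSg Q hQ).2.1⟩) hunion
  have hJne : h59_jbar (M * q) ≠ 0 := by
    intro h0
    have := h10_order_jbar (M * q)
    rw [h0] at this
    simp at this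
  have hBreg : ∀ f : ↥(modularFunctionFieldBar (M * q)),
      f ∈ h67_cnt_B (K := Qb) (h59_jbar (M * q)) →
      ∀ P : Place Qb (modularFunctionFieldBar (M * q)),
        0 ≤ P.ord (h59_jbar (M * q)) → 0 ≤ P.ord f := by
    intro f hf P hP
    exact h35_ord_nonneg_of_mem P (hf P ((h35_mem_iff_ord_nonneg P hJne).mpr hP))
  have hQinf : h54_jk (IsLocalRing.ResidueField A) M ∉
      (h11_placeInftyC (IsLocalRing.ResidueField A) M).toValuationSubring := by
    intro h
    have h1 := h35_ord_nonneg_of_mem _ h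
    rw [h81_ord_jk] at h1
    omega
  have hyT : y ∉ T := by
    intro h
    have h1 := (hT y).mp h
    have h2' := h35_ord_nonneg_of_mem y hy
    omega
  by_cases hyS : ∀ S ∈ Sg, y ≠ h96_frobPerm (h84_isFrobChart_jk M q hqM A hA) S
  · obtain ⟨s₀, hs₀B, hs₀O, -, cθ, hcθ, hcθ0, hcθy⟩ :=
      h60_thick_qb M q hqM A hA ζ hζ hex hch h2 h3 H hBreg hQinf y hy hyT hyS
    exact ⟨s₀, hs₀B, hs₀O, cθ, hcθ, hcθ0, hcθy.le⟩
  · push Not at hyS
    obtain ⟨S, hS, rfl⟩ := hyS
    have hyQ : h96_frobPerm (h84_isFrobChart_jk M q hqM A hA) S ≠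
        h11_placeInftyC (IsLocalRing.ResidueField A) M := (hSg S hS).2.1
    obtain ⟨n, m, s, hs0, hsL, hsB, hs1, hs2, hr2, hrL, hr1⟩ := h60_exists_sep_at₁ H hyQ
    have hreg := fun Q hQj => h60_reg_of_Linf hQinf hrL Q hQj
    have hs1' : (h96_frobPerm (h84_isFrobChart_jk M q hqM A hA) S).ord
        ((h60_R1 M q hqM A hA).redF s - algebraMap (IsLocalRing.ResidueField A)
          ↥(modularFunctionFieldFullC (IsLocalRing.ResidueField A) M) 0) = 1 := by
      rw [map_zero, sub_zero]
      exact hr1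
    obtain ⟨c, hc, hc0, hord⟩ := h60_hasse_final_ss M q hqM hch A hA h2 h3 H
      ((h60_R1 M q hqM A hA).redF (h20_rho M q)) (h20_coe_redF_rho_pow M q hqM A hA)
      (h84_redF_rho_pow M q hqM A hA (h20_rho M q) (h20_rho_mem M q hqM A hA)) S hS hy
      ((h60_R1 M q hqM A hA).redF s) hreg 0 hs1'
    refine ⟨⟨s, hs0⟩, h60_mem_fam1 M q hqM A hA ζ hζ hex ⟨s, hs0⟩ hs1
      ((h60_R2_mem_iff M q hqM A hA s).mp hs2) (hBreg s hsB), hs1, c, hc, hc0, ?_⟩
    rw [hord]
    norm_num

end Fermat.Agent.S36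

end
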