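import Fermat.Agent.S36.h60_ThickParam
import Fermat.Agent.S36.h98_W2
import Fermat.Agent.S36.h80_FamInst
import Fermat.Agent.S36.h65_HorTable
import Fermat.Agent.S36.h84_UnitU
import Fermat.Agent.S36.h20_Rho

/-!
# S36 / I-PTS (M5), (Q-b): the parameter of the thick branch in the level-`q` chart ring (helper60)

`V1 := h80_fam1 (M*q) I (h98_w1 ..) ..` the chart-1 family of level `M q` (`I` = inertia).

* `h60_mem_fam1` : a function of `F₀(M q)` in `O₁`, with `w f ∈ O₁`, regular where `j` is finite,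
  lies in `V1.B`;
* `h60_thick_qb_gen` : from helper81's count hypotheses (with `R₂ ⊆ w⁻¹ O₁`, `F0 ⊆ F₀(M q)`,
  `B ⊆` functions regular where `j` is finite) and (RHO), (U): at every place `y` of the special
  fibre which is neither a cusp nor a node point there is `s₀ ∈ V1.B ∩ O₁` with
  `(θ (red₁ s₀))^(q-1)` a unit at `y` (the last clause of `hQ` of `h60_hthick_gen`);
* `h60_thick_qb` : the same with `ρ := h20_rho M q`, `u := h84_u M q hqM ρ`, `R₂ := h60_R2`,
  `F0 := (h69_F0 (M*q) I).toSubring` plugged in.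
-/

set_option autoImplicit false
set_option synthInstance.maxHeartbeats 400000

noncomputable section

open ModularCurve AlgebraicCurve

namespace Fermat.Agent.S36

open Fermat.Agent.S34 Fermat.Agent.S37 Fermat.Agent.S24 Fermat.Agent.S35 Fermat.Agent.S18

local notation "Qb" => AlgebraicClosure ℚ

variable (M q : ℕ) [NeZero M] [NeZero q] [Fact q.Prime] (hqM : ¬ q ∣ M)
  (A : ValuationSubring Qb) (hA : A.LiesOverPrime q) (ζ : Qb) (hζ : IsPrimitiveRoot ζ q)
  (hex : h98_Ex M q hqM A ζ hζ)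

/-- **(X2)**: membership in the chart-1 ring of level `M q`. -/
theorem h60_mem_fam1 (s : h69_F0 (M * q) (A.inertiaSubgroupIn ℚ))
    (hs1 : (s : modularFunctionFieldBar (M * q)) ∈ (h60_R1 M q hqM A hA).O)
    (hs2 : h60_w M q hqM (s : modularFunctionFieldBar (M * q)) ∈ (h60_R1 M q hqM A hA).O)
    (hreg : ∀ P : Place Qb (modularFunctionFieldBar (M * q)),
      0 ≤ P.ord (h59_jbar (M * q)) → 0 ≤ P.ord (s : modularFunctionFieldBar (M * q))) :
    s ∈ (h80_fam1 (M * q) (A.inertiaSubgroupIn ℚ) (h98_w1 M q hqM A ζ hζ hex)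
      (h98_hw1mul M q hqM A hA ζ hζ hex) (h98_hw1add M q hqM A hA ζ hζ hex)).B := by
  unfold h80_fam1
  rw [h80_mem_famOf_B]
  by_cases hs0 : s = 0
  · exact Or.inl hs0
  refine Or.inr ⟨fun c => ?_, hreg⟩
  have hu := h98_q_unif q A hA
  fin_cases c
  · show 0 ≤ h98_wF M q hqM A ζ hζ hex s
    exact (h98_gv_nonneg_iff _ hu.1 hu.2.1 hu.2.2 s hs0).mpr
      ((h60_R1_mem_iff_Os M q hqM A hA _).mp hs1)
  · show 0 ≤ h98_wV M q hqM A ζ hζ hex s
    exact (h98_gv_nonneg_iff _ hu.1 hu.2.1 hu.2.2 s hs0).mpr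
      ((h60_R1_mem_iff_Os M q hqM A hA _).mp hs2)

section QbCount

variable (hch : 5 ≤ q ∨ 2 ∣ M ∨ 3 ∣ M) (h2 : nuTwo M = 0) (h3 : nuThree M = 0)

variable {R₂ : h39_RedDatum Qb ↥(modularFunctionFieldBar (M * q)) (IsLocalRing.ResidueField A)
    ↥(modularFunctionFieldFullC (IsLocalRing.ResidueField A) M)}
  {D : h22_Lat Qb ↥(modularFunctionFieldBar (M * q)) (IsLocalRing.ResidueField A)
    (↥(modularFunctionFieldFullC (IsLocalRing.ResidueField A) M)
      × ↥(modularFunctionFieldFullC (IsLocalRing.ResidueField A) M))}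
  {D0 : Divisor Qb ↥(modularFunctionFieldBar (M * q))}
  {Qinf : Place (IsLocalRing.ResidueField A)
    ↥(modularFunctionFieldFullC (IsLocalRing.ResidueField A) M)}
  {Sg : Finset (Place (IsLocalRing.ResidueField A)
    ↥(modularFunctionFieldFullC (IsLocalRing.ResidueField A) M))}
  {Φ : Place (IsLocalRing.ResidueField A)
      ↥(modularFunctionFieldFullC (IsLocalRing.ResidueField A) M) →
    Place (IsLocalRing.ResidueField A)
      ↥(modularFunctionFieldFullC (IsLocalRing.ResidueField A) M)}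
  {B F0 : Subring ↥(modularFunctionFieldBar (M * q))}
  {T : Finset (Place (IsLocalRing.ResidueField A)
    ↥(modularFunctionFieldFullC (IsLocalRing.ResidueField A) M))}
  {π : Qb} {u : ↥(modularFunctionFieldBar (M * q))} {C : ℤ}

include hch h2 h3 in
/-- **(Q-b)**, generic in the count data. -/
theorem h60_thick_qb_gen
    [HasPrincipalDivisors (IsLocalRing.ResidueField A)
      ↥(modularFunctionFieldFullC (IsLocalRing.ResidueField A) M)]
    (H : h81_CountHyp (h60_R1 M q hqM A hA) R₂ D D0 Qinf Sg Φ B F0 T π u C)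
    (hR₂ : ∀ f : ↥(modularFunctionFieldBar (M * q)), f ∈ R₂.O →
      h60_w M q hqM f ∈ (h60_R1 M q hqM A hA).O)
    (hF0 : ∀ f : ↥(modularFunctionFieldBar (M * q)), f ∈ F0 →
      f ∈ h69_F0 (M * q) (A.inertiaSubgroupIn ℚ))
    (hBreg : ∀ f : ↥(modularFunctionFieldBar (M * q)), f ∈ B →
      ∀ P : Place Qb (modularFunctionFieldBar (M * q)),
        0 ≤ P.ord (h59_jbar (M * q)) → 0 ≤ P.ord f)
    (hQinf : h54_jk (IsLocalRing.ResidueField A) M ∉ Qinf.toValuationSubring)
    (Rρ : ↥(modularFunctionFieldFullC (IsLocalRing.ResidueField A) M))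
    (hRρ : (Rρ : LaurentSeries (IsLocalRing.ResidueField A))
      = h20_thetaFun (jqModC (IsLocalRing.ResidueField A)) ^ (q - 1))
    (hU : Rρ ^ 6 = (h60_R1 M q hqM A hA).redF u
      * (h54_jk (IsLocalRing.ResidueField A) M ^ 4
        * (h54_jk (IsLocalRing.ResidueField A) M - 1728) ^ 3) ^ (q - 1))
    (y : Place (IsLocalRing.ResidueField A)
      ↥(modularFunctionFieldFullC (IsLocalRing.ResidueField A) M))
    (hy : h54_jk (IsLocalRing.ResidueField A) M ∈ y.toValuationSubring)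
    (hyT : y ∉ T) (hyS : ∀ S ∈ Sg, y ≠ Φ S) :
    ∃ s₀ : h69_F0 (M * q) (A.inertiaSubgroupIn ℚ),
      s₀ ∈ (h80_fam1 (M * q) (A.inertiaSubgroupIn ℚ) (h98_w1 M q hqM A ζ hζ hex)
        (h98_hw1mul M q hqM A hA ζ hζ hex) (h98_hw1add M q hqM A hA ζ hζ hex)).B ∧
      (s₀ : modularFunctionFieldBar (M * q)) ∈ (h60_R1 M q hqM A hA).O ∧
      y.ord ((h60_R1 M q hqM A hA).redF (s₀ : modularFunctionFieldBar (M * q))) = 1 ∧
      ∃ cθ : ↥(modularFunctionFieldFullC (IsLocalRing.ResidueField A) M),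
        (cθ : LaurentSeries (IsLocalRing.ResidueField A))
          = h20_thetaFun ((((h60_R1 M q hqM A hA).redF
              (s₀ : modularFunctionFieldBar (M * q)) :
              ↥(modularFunctionFieldFullC (IsLocalRing.ResidueField A) M)) :
                LaurentSeries (IsLocalRing.ResidueField A))) ^ (q - 1) ∧
        cθ ≠ 0 ∧ y.ord cθ = 0 := by
  obtain ⟨n, s, hs0, -, hsB, hs1, hs2, -, hord, -, cθ, hcθ, hcθ0, hcθy⟩ :=
    h60_thick_param M q hqM hch A hA h2 h3 H hQinf Rρ hRρ hU y hy hyT hyS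
  exact ⟨⟨s, hF0 s hs0⟩, h60_mem_fam1 M q hqM A hA ζ hζ hex ⟨s, hF0 s hs0⟩ hs1 (hR₂ s hs2)
    (hBreg s hsB), hs1, hord, cθ, hcθ, hcθ0, hcθy⟩

include hch h2 h3 in
/-- **(Q-b)** with `ρ := h20_rho M q`, `u := h84_u M q hqM ρ`, `R₂ := h60_R2`,
`F0 := (h69_F0 (M*q) I).toSubring`. -/
theorem h60_thick_qb
    [HasPrincipalDivisors (IsLocalRing.ResidueField A)
      ↥(modularFunctionFieldFullC (IsLocalRing.ResidueField A) M)]
    (H : h81_CountHyp (h60_R1 M q hqM A hA) (h60_R2 M q hqM A hA) D D0 Qinf Sg Φ B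
      (h69_F0 (M * q) (A.inertiaSubgroupIn ℚ)).toSubring T π
      (h84_u M q hqM (h20_rho M q)) C)
    (hBreg : ∀ f : ↥(modularFunctionFieldBar (M * q)), f ∈ B →
      ∀ P : Place Qb (modularFunctionFieldBar (M * q)),
        0 ≤ P.ord (h59_jbar (M * q)) → 0 ≤ P.ord f)
    (hQinf : h54_jk (IsLocalRing.ResidueField A) M ∉ Qinf.toValuationSubring)
    (y : Place (IsLocalRing.ResidueField A)
      ↥(modularFunctionFieldFullC (IsLocalRing.ResidueField A) M))
    (hy : h54_jk (IsLocalRing.ResidueField A) M ∈ y.toValuationSubring)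
    (hyT : y ∉ T) (hyS : ∀ S ∈ Sg, y ≠ Φ S) :
    ∃ s₀ : h69_F0 (M * q) (A.inertiaSubgroupIn ℚ),
      s₀ ∈ (h80_fam1 (M * q) (A.inertiaSubgroupIn ℚ) (h98_w1 M q hqM A ζ hζ hex)
        (h98_hw1mul M q hqM A hA ζ hζ hex) (h98_hw1add M q hqM A hA ζ hζ hex)).B ∧
      (s₀ : modularFunctionFieldBar (M * q)) ∈ (h60_R1 M q hqM A hA).O ∧
      y.ord ((h60_R1 M q hqM A hA).redF (s₀ : modularFunctionFieldBar (M * q))) = 1 ∧
      ∃ cθ : ↥(modularFunctionFieldFullC (IsLocalRing.ResidueField A) M),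
        (cθ : LaurentSeries (IsLocalRing.ResidueField A))
          = h20_thetaFun ((((h60_R1 M q hqM A hA).redF
              (s₀ : modularFunctionFieldBar (M * q)) :
              ↥(modularFunctionFieldFullC (IsLocalRing.ResidueField A) M)) :
                LaurentSeries (IsLocalRing.ResidueField A))) ^ (q - 1) ∧
        cθ ≠ 0 ∧ y.ord cθ = 0 :=
  h60_thick_qb_gen M q hqM A hA ζ hζ hex hch h2 h3 H
    (fun f hf => (h60_R2_mem_iff M q hqM A hA f).mp hf) (fun _ hf => hf) hBreg hQinf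
    ((h60_R1 M q hqM A hA).redF (h20_rho M q)) (h20_coe_redF_rho_pow M q hqM A hA)
    (h84_redF_rho_pow M q hqM A hA (h20_rho M q) (h20_rho_mem M q hqM A hA)) y hy hyT hyS

end QbCount

end Fermat.Agent.S36

end
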