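import Fermat.Agent.S24.h73_Diff
import Fermat.Agent.S18.h36_Branch
import Fermat.Agent.S18.GR_ChartPt

/-!
# S36 / (HASSE) row (O), generic core (helper60)

`Ξ_s := (δ s)^6 · J^4 · (J - 1728)^3`, `δ = d/dJ`: the 6-fold differential `Δ (dQ/Q)^6` written
in the coordinate `s`.

* `h60_ord_deriv`, `h60_xi_ord` (characteristic `0`): at a place `P` where `J` is finite and
  has ramification index `3 / 2 / 1` over `0 / 1728 / else`,
  `ord_P Ξ_s = 6 (ord_P (s - s(P)) - 1)`.
* `h60_tube_simple`, `h60_xi_red_ord` (reduction): for a reduction datum with a place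
  reduction `r0` conserving divisors, if `s̄ - s̄(y)` is a uniformiser at `y` then every place
  of the tube of `y` is a simple zero of `s - s(P)`, hence `Ξ_s` is a unit on the tube and
  the reduction of (any unit-normalised multiple of) `Ξ_s` has order `0` at `y`.
-/

set_option autoImplicit false

noncomputable section

open AlgebraicCurve KaehlerDifferential
open Fermat.Agent.S18 Fermat.Agent.S24

namespace Fermat.Agent.S36

section Char0

variable {K F : Type*} [Field K] [Field F] [Algebra K F]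

/-- `Ξ_s = (δ s)^6 J^4 (J - 1728)^3`. -/
def h60_Xi (δ : Derivation K F F) (J s : F) : F :=
  (δ s) ^ 6 * J ^ 4 * (J - algebraMap K F 1728) ^ 3

variable [IsAlgClosed K] [CharZero K]

/-- `d f ≠ 0` when `f - a` has positive order somewhere. -/
theorem h60_D_ne_zero_of_ord_pos (hF : h73_IsFF K F) (P : Place K F) {f : F} {a : K}
    (h : 0 < P.ord (f - algebraMap K F a)) : D K F f ≠ 0 := by
  have htr : Transcendental K (f - algebraMap K F a) :=
    h73_transcendental_of_ord_ne_zero P (by omega)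
  have h1 := h73_D_ne_zero hF htr
  rwa [map_sub, Derivation.map_algebraMap, sub_zero] at h1

/-- The order of `ds/dJ` at a place where `J - a` and `s - b` vanish. -/
theorem h60_ord_deriv (hF : h73_IsFF K F) (P : Place K F) {J : F} {a : K}
    (hJa : 0 < P.ord (J - algebraMap K F a)) (δ : Derivation K F F)
    (hδ : ∀ f : F, D K F f = δ f • D K F J) {s : F} {b : K}
    (hsb : 0 < P.ord (s - algebraMap K F b)) :
    δ s ≠ 0 ∧
      P.ord (δ s) = P.ord (s - algebraMap K F b) - P.ord (J - algebraMap K F a) := by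
  have h1 := h73_ordDifferential_D_pos hF P hJa
  have h2 := h73_ordDifferential_D_pos hF P hsb
  have hDs : D K F s ≠ 0 := h60_D_ne_zero_of_ord_pos hF P hsb
  have hDJ : D K F J ≠ 0 := h60_D_ne_zero_of_ord_pos hF P hJa
  have hδs : δ s ≠ 0 := by
    intro h0
    apply hDs
    rw [hδ s, h0, zero_smul]
  refine ⟨hδs, ?_⟩
  have h3 := h73_ordDifferential_smul hF P hδs hDJ
  rw [← hδ s] at h3
  omega

/-- **(XI-a)** `ord_P Ξ_s = 6 (ord_P (s - s(P)) - 1)` at a place where `J` is finite, under
the pointwise ramification hypothesis "no elliptic points". -/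
theorem h60_xi_ord (hF : h73_IsFF K F) (P : Place K F) {J : F}
    (hPP : ∀ a : K, 0 < P.ord (J - algebraMap K F a) →
      (a = 0 → P.ord (J - algebraMap K F a) = 3) ∧
      (a = 1728 → P.ord (J - algebraMap K F a) = 2) ∧
      (a ≠ 0 → a ≠ 1728 → P.ord (J - algebraMap K F a) = 1))
    (hJ : J ∈ P.toValuationSubring) (hJtr : Transcendental K J)
    (δ : Derivation K F F)
    (hδ : ∀ f : F, D K F f = δ f • D K F J) {s : F} {b : K}
    (hsb : 0 < P.ord (s - algebraMap K F b)) :
    h60_Xi δ J s ≠ 0 ∧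
      P.ord (h60_Xi δ J s) = 6 * (P.ord (s - algebraMap K F b) - 1) := by
  obtain ⟨a, ha⟩ := h73_exists_value hF P hJ
  have hJa : 0 < P.ord (J - algebraMap K F a) := by
    rcases ha with ha | ha
    · exfalso
      rw [ha] at hJtr
      exact hJtr (isAlgebraic_algebraMap a)
    · exact ha
  obtain ⟨hδs, hord⟩ := h60_ord_deriv hF P hJa δ hδ hsb
  obtain ⟨hp0, hp1, hp2⟩ := hPP a hJa
  have hz : J - algebraMap K F a = 0 ∨ 0 < P.ord (J - algebraMap K F a) := Or.inr hJa
  -- `J = a + (J - a)` and `J - 1728 = (a - 1728) + (J - a)`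
  have eJ : J = algebraMap K F a + (J - algebraMap K F a) := by ring
  have eJ' : J - algebraMap K F 1728 = algebraMap K F (a - 1728) + (J - algebraMap K F a) := by
    rw [map_sub]
    ring
  have hJ0 : J ≠ 0 := by
    rintro rfl
    exact hJtr (by simpa using isAlgebraic_algebraMap (R := K) (A := F) 0)
  have hJ1 : J - algebraMap K F 1728 ≠ 0 := by
    intro h0
    have : J = algebraMap K F 1728 := sub_eq_zero.mp h0
    rw [this] at hJtr
    exact hJtr (isAlgebraic_algebraMap _)
  have hXi : h60_Xi δ J s ≠ 0 := by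
    unfold h60_Xi
    exact mul_ne_zero (mul_ne_zero (pow_ne_zero _ hδs) (pow_ne_zero _ hJ0)) (pow_ne_zero _ hJ1)
  refine ⟨hXi, ?_⟩
  have hexp : P.ord (h60_Xi δ J s)
      = 6 * P.ord (δ s) + 4 * P.ord J + 3 * P.ord (J - algebraMap K F 1728) := by
    unfold h60_Xi
    rw [P.ord_mul (mul_ne_zero (pow_ne_zero _ hδs) (pow_ne_zero _ hJ0)) (pow_ne_zero _ hJ1),
      P.ord_mul (pow_ne_zero _ hδs) (pow_ne_zero _ hJ0), h36_ord_pow, h36_ord_pow, h36_ord_pow]
    push_cast
    ring
  rw [hexp, hord]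
  by_cases h0 : a = 0
  · -- over `0`: `e = 3`, `ord J = 3`, `ord (J - 1728) = 0`
    have he := hp0 h0
    have hJord : P.ord J = 3 := by
      have : J = J - algebraMap K F a := by rw [h0, map_zero, sub_zero]
      rw [this]
      exact he
    have hJ1ord : P.ord (J - algebraMap K F 1728) = 0 := by
      rw [eJ']
      exact h36_ord_const_add P (by rw [h0]; norm_num) hz
    rw [he, hJord, hJ1ord]
    ring
  · by_cases h1 : a = 1728
    · have he := hp1 h1
      have hJord : P.ord J = 0 := by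
        rw [eJ]
        exact h36_ord_const_add P h0 hz
      have hJ1ord : P.ord (J - algebraMap K F 1728) = 2 := by
        have : J - algebraMap K F 1728 = J - algebraMap K F a := by rw [h1]
        rw [this]
        exact he
      rw [he, hJord, hJ1ord]
      ring
    · have he := hp2 h0 h1
      have hJord : P.ord J = 0 := by
        rw [eJ]
        exact h36_ord_const_add P h0 hz
      have hJ1ord : P.ord (J - algebraMap K F 1728) = 0 := by
        rw [eJ']
        exact h36_ord_const_add P (sub_ne_zero.mpr h1) hz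
      rw [he, hJord, hJ1ord]
      ring

end Char0

section Tube

variable {K F k Fb : Type*} [Field K] [Field F] [Algebra K F] [Field k] [Field Fb] [Algebra k Fb]

theorem h60_mapDomain_apply {α β : Type*} [DecidableEq β] (f : α → β) (v : α →₀ ℤ) (b : β) :
    Finsupp.mapDomain f v b = ∑ a ∈ v.support, if f a = b then v a else 0 := by
  rw [Finsupp.mapDomain, Finsupp.sum_apply, Finsupp.sum]
  refine Finset.sum_congr rfl (fun a _ => ?_)
  rw [Finsupp.single_apply]

variable [HasPrincipalDivisors K F]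

/-- **(XI-b1)** If `s̄ - s̄(y)` is a uniformiser at `y`, every place `P` of the tube of `y`
is a simple zero of `s - s(P)`. -/
theorem h60_tube_simple (R : h39_RedDatum K F k Fb) (r0 : Place K F → Place k Fb)
    (hcons : ∀ (g : F) (hg : g ∈ R.O), R.red ⟨g, hg⟩ ≠ 0 → ∀ D : Divisor K F,
      (∀ P, D P = P.ord g) → ∀ Q : Place k Fb,
        Finsupp.mapDomain r0 D Q = Q.ord (R.red ⟨g, hg⟩))
    (y : Place k Fb) (s : F) (hsO : s ∈ R.O)
    (htube : ∀ P : Place K F, r0 P = y →
      ∃ b : K, b ∈ R.A ∧ h39_Val P s b ∧ h39_Val y (R.redF s) (R.resK b))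
    (hs1 : ∀ c : k, h39_Val y (R.redF s) c → y.ord (R.redF s - algebraMap k Fb c) = 1)
    (P : Place K F) (hP : r0 P = y) (b : K) (hb : h39_Val P s b) :
    b ∈ R.A ∧ P.ord (s - algebraMap K F b) = 1 := by
  classical
  obtain ⟨b', hb'A, hb'P, hb'y⟩ := htube P hP
  have hbb : b = b' := h39_val_unique P hb hb'P
  subst hbb
  refine ⟨hb'A, ?_⟩
  have hy1 := hs1 _ hb'y
  have hbO : algebraMap K F b ∈ R.O := (R.mem_iff b).mp hb'A
  have hgO : s - algebraMap K F b ∈ R.O := sub_mem hsO hbO
  have hredg : (R.red ⟨s - algebraMap K F b, hgO⟩ : Fb)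
      = R.redF s - algebraMap k Fb (R.resK b) := by
    have h1 : (⟨s - algebraMap K F b, hgO⟩ : R.O) = ⟨s, hsO⟩ - ⟨algebraMap K F b, hbO⟩ := rfl
    rw [h1, map_sub, R.red_algebraMap b hb'A hbO, R.redF_of_mem hsO, R.resK_of_mem hb'A]
  have hred0 : R.red ⟨s - algebraMap K F b, hgO⟩ ≠ 0 := by
    intro h0
    rw [hredg] at h0
    rw [h0] at hy1
    simp at hy1
  have hg0 : s - algebraMap K F b ≠ 0 := by
    intro h0
    apply hred0
    have : (⟨s - algebraMap K F b, hgO⟩ : R.O) = 0 := Subtype.ext h0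
    rw [this, map_zero]
  obtain ⟨D, hD, -⟩ := HasPrincipalDivisors.exists_divisor (K := K) (s - algebraMap K F b) hg0
  have hc := hcons _ hgO hred0 D hD y
  rw [hredg, hy1, h60_mapDomain_apply] at hc
  -- all terms are non-negative
  have hnonneg : ∀ P' ∈ D.support, (0 : ℤ) ≤ (if r0 P' = y then D P' else 0) := by
    intro P' _
    split_ifs with hP'
    · obtain ⟨b'', -, hb''P, -⟩ := htube P' hP'
      have hsP' : s ∈ P'.toValuationSubring := h39_val_mem P' hb''P
      rw [hD P']
      exact h35_ord_nonneg_of_mem P' (sub_mem hsP' (P'.algebraMap_mem' b))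
    · exact le_rfl
  have hPpos : 0 < P.ord (s - algebraMap K F b) := by
    rcases hb with hb | hb
    · exact absurd (sub_eq_zero.mpr hb) hg0
    · exact hb
  have hPsupp : P ∈ D.support := by
    rw [Finsupp.mem_support_iff, hD P]
    omega
  have hle := Finset.single_le_sum hnonneg hPsupp
  rw [if_pos hP, hD P, hc] at hle
  omega

/-- **(XI-b2)** If `Ξ` is a unit at every place of the tube of `y` (in the quantitative form
supplied by `h60_xi_ord`), the reduction of a unit-normalised multiple of `Ξ` has order `0`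
at `y`. -/
theorem h60_xi_red_ord (R : h39_RedDatum K F k Fb) (r0 : Place K F → Place k Fb)
    (hcons : ∀ (g : F) (hg : g ∈ R.O), R.red ⟨g, hg⟩ ≠ 0 → ∀ D : Divisor K F,
      (∀ P, D P = P.ord g) → ∀ Q : Place k Fb,
        Finsupp.mapDomain r0 D Q = Q.ord (R.red ⟨g, hg⟩))
    (y : Place k Fb) (s : F) (hsO : s ∈ R.O)
    (htube : ∀ P : Place K F, r0 P = y →
      ∃ b : K, b ∈ R.A ∧ h39_Val P s b ∧ h39_Val y (R.redF s) (R.resK b))
    (hs1 : ∀ c : k, h39_Val y (R.redF s) c → y.ord (R.redF s - algebraMap k Fb c) = 1)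
    (Ξ : F)
    (hΞ : ∀ P : Place K F, r0 P = y → ∀ b : K, 0 < P.ord (s - algebraMap K F b) →
      P.ord Ξ = 6 * (P.ord (s - algebraMap K F b) - 1))
    (c : K) (hΞO : algebraMap K F c * Ξ ∈ R.O)
    (hred : R.red ⟨algebraMap K F c * Ξ, hΞO⟩ ≠ 0) :
    y.ord (R.red ⟨algebraMap K F c * Ξ, hΞO⟩) = 0 := by
  classical
  have hg0 : algebraMap K F c * Ξ ≠ 0 := by
    intro h0
    apply hred
    have : (⟨algebraMap K F c * Ξ, hΞO⟩ : R.O) = 0 := Subtype.ext h0
    rw [this, map_zero]
  have hcF : algebraMap K F c ≠ 0 := left_ne_zero_of_mul hg0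
  have hΞ0 : Ξ ≠ 0 := right_ne_zero_of_mul hg0
  obtain ⟨D, hD, -⟩ := HasPrincipalDivisors.exists_divisor (K := K) (algebraMap K F c * Ξ) hg0
  have hcc := hcons _ hΞO hred D hD y
  rw [← hcc, h60_mapDomain_apply]
  refine Finset.sum_eq_zero (fun P' _ => ?_)
  show (if r0 P' = y then D P' else 0) = 0
  split_ifs with hP'
  · obtain ⟨b, -, hbP, -⟩ := htube P' hP'
    obtain ⟨-, h1⟩ := h60_tube_simple R r0 hcons y s hsO htube hs1 P' hP' b hbP
    have h2 := hΞ P' hP' b (by omega)
    rw [hD P', P'.ord_mul hcF hΞ0, h35_ord_algebraMap, h2, h1]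
    ring
  · rfl

end Tube

end Fermat.Agent.S36

end
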