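import Fermat.Agent.S36.h60_XiCore
import Fermat.Agent.S18.GR_Glue
import Fermat.Agent.S18.h53_GlueCore
import Fermat.Agent.S18.h37_ChartRedCore
import Fermat.Agent.S18.h54_PP
import Fermat.Agent.S18.h54_ModCharts
import Fermat.Agent.S37.h88_HICore

/-!
# S36 / (HASSE) row (O): `Ξ_s` on a chart and at the modular level (helper60)

* `h60_tube_of_chart`: for an S18 chart `x`, the glued place reduction `r0` conserves divisors,
  every place of the tube of a point `y` with `x̄` finite lies in the disc of `x`, and the value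
  of a chart-regular `s ∈ O` at such a place is integral and reduces to the value of `s̄` at `y`.
* `h60_xi_chart`: the reduction of (a unit-normalised multiple of) `Ξ_s` has order `0` at `y`.
* `h60_xi_mod`: the same at level `M` with the chart `j` (`q ≥ 5`), under "no elliptic points".
-/

set_option autoImplicit false

noncomputable section

open AlgebraicCurve KaehlerDifferential ModularCurve
open Fermat.Agent.S18 Fermat.Agent.S24

namespace Fermat.Agent.S36

section Chart

variable {K F k Fb : Type*} [Field K] [Field F] [Algebra K F] [Field k] [Field Fb] [Algebra k Fb]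
variable [IsAlgClosed K] [CharZero K] [IsAlgClosed k]

/-- The place reduction of a chart, with the properties used by `h60_xi_red_ord`. -/
theorem h60_tube_of_chart (R : h39_RedDatum K F k Fb) {x : F} (hx : h39_Chart R x) :
    ∃ r0 : Place K F → Place k Fb,
      (∀ (g : F) (hg : g ∈ R.O), R.red ⟨g, hg⟩ ≠ 0 → ∀ D : Divisor K F,
        (∀ P, D P = P.ord g) → ∀ Q : Place k Fb,
          Finsupp.mapDomain r0 D Q = Q.ord (R.red ⟨g, hg⟩)) ∧
      ∀ y : Place k Fb, R.redF x ∈ y.toValuationSubring → ∀ P : Place K F, r0 P = y →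
        h39_InDisc R x P ∧
        ∀ s : F, s ∈ R.O → h39_Reg K x s →
          ∃ b : K, b ∈ R.A ∧ h39_Val P s b ∧ h39_Val y (R.redF s) (R.resK b) := by
  have hw : h39_WeakChart R x := hx.toh39_WeakChart
  have hw' : h39_WeakChart R x⁻¹ := h39_weakChart_inv R hw
  have hxK : h75_IsChart K x := h39_weakChart_isChart R hw
  obtain ⟨r0, ⟨r, hr, h1⟩, ⟨r', hr', h2⟩, h6⟩ := h39_exists_r0 R hx
  refine ⟨r0, h6, ?_⟩
  intro y hy P hPy
  have hne : R.redF x ≠ 0 := by
    intro h0
    exact hw.transcendental (h0 ▸ isAlgebraic_zero)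
  have hdisc : h39_InDisc R x P := by
    by_contra hP
    obtain ⟨a', ha'A, hres, hval⟩ := h53_inDisc_inv_of_not R hxK P hP
    have hP' : h39_InDisc R x⁻¹ P := ⟨a', ha'A, hval⟩
    have h3 := (hr' P hP').2 x⁻¹ hw'.mem (fun _ h => h) a' hval
    rw [← h2 P hP, hPy, hres, (h39_inv_of_redF_ne_zero R hne).2, h39_val_zero_iff] at h3
    rcases h3 with h3 | h3
    · exact hne (inv_eq_zero.mp h3)
    · rw [y.ord_inv] at h3
      have := h35_ord_nonneg_of_mem y hy
      omega
  refine ⟨hdisc, ?_⟩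
  intro s hsO hsreg
  obtain ⟨b, hb⟩ := h39_exists_val hxK P (hsreg P (h37_disc_mem R hdisc))
  refine ⟨b, h37_val_mem_A R hw hdisc hsO hsreg hb, hb, ?_⟩
  have h4 := (hr P hdisc).2 s hsO hsreg b hb
  rwa [← h1 P hdisc, hPy] at h4

/-- **(XI-b)** on a chart: `red (c Ξ_s)` has order `0` at `y`. -/
theorem h60_xi_chart (R : h39_RedDatum K F k Fb) {x : F} (hx : h39_Chart R x)
    (hF : h73_IsFF K F) (J : F) (hJtr : Transcendental K J)
    (hPP : ∀ (P : Place K F) (a : K), 0 < P.ord (J - algebraMap K F a) →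
      (a = 0 → P.ord (J - algebraMap K F a) = 3) ∧
      (a = 1728 → P.ord (J - algebraMap K F a) = 2) ∧
      (a ≠ 0 → a ≠ 1728 → P.ord (J - algebraMap K F a) = 1))
    (δ : Derivation K F F) (hδ : ∀ f : F, D K F f = δ f • D K F J)
    (y : Place k Fb) (hy : R.redF x ∈ y.toValuationSubring)
    (hJy : ∀ P : Place K F, h39_InDisc R x P →
      (∀ a : K, h39_Val P x a → h39_Val y (R.redF x) (R.resK a)) → J ∈ P.toValuationSubring)
    (s : F) (hsO : s ∈ R.O) (hsreg : h39_Reg K x s)
    (hs1 : ∀ c : k, h39_Val y (R.redF s) c → y.ord (R.redF s - algebraMap k Fb c) = 1)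
    (c : K) (hΞO : algebraMap K F c * h60_Xi δ J s ∈ R.O)
    (hred : R.red ⟨algebraMap K F c * h60_Xi δ J s, hΞO⟩ ≠ 0) :
    y.ord (R.red ⟨algebraMap K F c * h60_Xi δ J s, hΞO⟩) = 0 := by
  have hw : h39_WeakChart R x := hx.toh39_WeakChart
  have hxK : h75_IsChart K x := h39_weakChart_isChart R hw
  have : HasPrincipalDivisors K F := h75_hasPrincipalDivisors hxK
  obtain ⟨r0, hcons, htube⟩ := h60_tube_of_chart R hx
  have htube' : ∀ P : Place K F, r0 P = y →
      ∃ b : K, b ∈ R.A ∧ h39_Val P s b ∧ h39_Val y (R.redF s) (R.resK b) :=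
    fun P hP => (htube y hy P hP).2 s hsO hsreg
  refine h60_xi_red_ord R r0 hcons y s hsO htube' hs1 (h60_Xi δ J s) ?_ c hΞO hred
  intro P hP b hb
  obtain ⟨hdisc, hall⟩ := htube y hy P hP
  have hJP : J ∈ P.toValuationSubring := by
    refine hJy P hdisc (fun a ha => ?_)
    obtain ⟨a', -, ha'P, ha'y⟩ := hall x hw.mem (fun _ h => h)
    rwa [h39_val_unique P ha ha'P]
  exact (h60_xi_ord hF P (hPP P) hJP hJtr δ hδ hb).2

end Chart

section Modular

local notation "Qb" => AlgebraicClosure ℚ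

/-- "No elliptic points" at level `M`, in pointwise form: every place over `j = 0` has
ramification index `3`, every place over `j = 1728` has ramification index `2`. -/
def h60_NoEll (M : ℕ) [NeZero M] : Prop :=
  (∀ v : Place Qb ↥(modularFunctionFieldBar M),
      0 < v.ord (h59_jbar M) → v.ord (h59_jbar M) = 3) ∧
  (∀ v : Place Qb ↥(modularFunctionFieldBar M),
      0 < v.ord (h59_jbar M - algebraMap Qb ↥(modularFunctionFieldBar M) 1728) →
        v.ord (h59_jbar M - algebraMap Qb ↥(modularFunctionFieldBar M) 1728) = 2)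

/-- The pointwise ramification hypothesis of `h60_xi_ord` from `h60_NoEll` and MOD-PP. -/
theorem h60_pp_of_noEll (M : ℕ) [NeZero M] (hNE : h60_NoEll M)
    (P : Place Qb ↥(modularFunctionFieldBar M)) (a : Qb)
    (ha : 0 < P.ord (h59_jbar M - algebraMap Qb ↥(modularFunctionFieldBar M) a)) :
    (a = 0 → P.ord (h59_jbar M - algebraMap Qb ↥(modularFunctionFieldBar M) a) = 3) ∧
    (a = 1728 → P.ord (h59_jbar M - algebraMap Qb ↥(modularFunctionFieldBar M) a) = 2) ∧
    (a ≠ 0 → a ≠ 1728 →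
      P.ord (h59_jbar M - algebraMap Qb ↥(modularFunctionFieldBar M) a) = 1) := by
  refine ⟨fun h0 => ?_, fun h1 => ?_, fun h0 h1 => (h54_ord_j_sub_dvd M P a ha).2.2 h0 h1⟩
  · subst h0
    rw [map_zero, sub_zero] at ha ⊢
    exact hNE.1 P ha
  · subst h1
    exact hNE.2 P ha

/-- `d/dj` on `F(M)`. -/
theorem h60_exists_dJ (M : ℕ) [NeZero M] (hJtr : Transcendental Qb (h59_jbar M)) :
    ∃ δ : Derivation Qb ↥(modularFunctionFieldBar M) ↥(modularFunctionFieldBar M),
      δ (h59_jbar M) = 1 ∧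
      ∀ f : ↥(modularFunctionFieldBar M),
        D Qb ↥(modularFunctionFieldBar M) f = δ f • D Qb ↥(modularFunctionFieldBar M) (h59_jbar M) := by
  obtain ⟨δ, h1, -, h2⟩ := h73_exists_derivation (Fermat.Agent.S37.h88_isFF M) hJtr
  exact ⟨δ, h1, h2⟩

/-- **(XI) at level `M`, chart `j`.** `R` any reduction datum of `F(M)` for which `j` is an
S18 chart (e.g. `h54_redDatum M hqM A hA` with `h54_chart_j`, `q ≥ 5`), `M` without elliptic
points, `y` a place of the special fibre where `j̄` is finite, `s ∈ O` regular off the cusps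
with `s̄ - s̄(y)` a uniformiser at `y`.  Then the reduction of every unit-normalised multiple
of `Ξ_s = (ds/dj)^6 j^4 (j - 1728)^3` has order `0` at `y`. -/
theorem h60_xi_mod (M : ℕ) [NeZero M] {k Fb : Type*} [Field k] [Field Fb] [Algebra k Fb]
    [IsAlgClosed k]
    (R : h39_RedDatum Qb ↥(modularFunctionFieldBar M) k Fb)
    (hchart : h39_Chart R (h59_jbar M)) (hNE : h60_NoEll M)
    (δ : Derivation Qb ↥(modularFunctionFieldBar M) ↥(modularFunctionFieldBar M))
    (hδ : ∀ f : ↥(modularFunctionFieldBar M),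
      D Qb ↥(modularFunctionFieldBar M) f = δ f • D Qb ↥(modularFunctionFieldBar M) (h59_jbar M))
    (y : Place k Fb) (hy : R.redF (h59_jbar M) ∈ y.toValuationSubring)
    (s : ↥(modularFunctionFieldBar M)) (hsO : s ∈ R.O) (hsreg : h39_Reg Qb (h59_jbar M) s)
    (hs1 : ∀ c : k, h39_Val y (R.redF s) c → y.ord (R.redF s - algebraMap k Fb c) = 1)
    (c : Qb)
    (hΞO : algebraMap Qb ↥(modularFunctionFieldBar M) c * h60_Xi δ (h59_jbar M) s ∈ R.O)
    (hred : R.red ⟨algebraMap Qb ↥(modularFunctionFieldBar M) c * h60_Xi δ (h59_jbar M) s, hΞO⟩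
      ≠ 0) :
    y.ord (R.red ⟨algebraMap Qb ↥(modularFunctionFieldBar M) c * h60_Xi δ (h59_jbar M) s, hΞO⟩)
      = 0 := by
  have hw : h39_WeakChart R (h59_jbar M) := hchart.toh39_WeakChart
  have hxK : h75_IsChart Qb (h59_jbar M) := h39_weakChart_isChart R hw
  exact h60_xi_chart R hchart (Fermat.Agent.S37.h88_isFF M) (h59_jbar M) hxK.tr
    (h60_pp_of_noEll M hNE) δ hδ y hy (fun P hP _ => h37_disc_mem R hP) s hsO hsreg hs1 c hΞO hred

end Modular

end Fermat.Agent.S36

end
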