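import Fermat.Agent.S36.h61_Asm
import Fermat.Agent.S36.h29_GeomNWit

/-!
# S36 / row I-E (helper61): `GeomN` at a level `M` from the contract data

The modular quantified form of `h61_principal_of_loc` with the chart function `x := j`
(`h59_jbar M`): Riemann–Roch (`hdim`), `HasPrincipalDivisors`, `hfin`, `hdeg1` are discharged
(helper29's `h29_hdim_of_rr`, `h29_polar_degree_pos`), and the conclusion is the body of the
charted `(GEOM-N)` statement.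

* `h61_kill_of_loc` : pointwise generic form (`F` any function field with a chart `y`).
* `h61_geomN_of_loc` : at a level `M`, chart `x = j`:  lattice + two chart families + for every
  `lam ^ n`-torsion class `z` with `Pnew z` fixed by `H` a toric witness `(Ez, uz)` of `c • z`
  with `(SPAN)` and `(LOC-δ)` at every closed point of both charts  ⟹  `c • z = 0`.
-/

set_option autoImplicit false

namespace Fermat.Agent.S36

open AlgebraicCurve ModularCurve Fermat.Agent.S24 Fermat.Agent.S18 Fermat.Agent.S34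

section Generic

variable {K F k Rb : Type*} [Field K] [Field F] [Algebra K F] [Field k] [CommRing Rb]
  [Algebra k Rb]

/-- **(LG) + (RR), pointwise, contract form.** The binders of `h61_principal_of_loc`;
`HasPrincipalDivisors`, `hfin`, `hdeg1`, `hdim` are discharged from a chart `y`. -/
theorem h61_kill_of_loc [IsAlgClosed K] [Nontrivial Rb] {y : F} (hy : h75_IsChart K y)
    (D : h22_Lat K F k Rb) (hON : h22_ON D)
    (hinv : ∀ (f : F) (hf : f ∈ D.O), IsUnit (D.red ⟨f, hf⟩) → f⁻¹ ∈ D.O)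
    (hrank : h39_RankOne D.A)
    (x : F) (hx0 : x ≠ 0) (hx : x ∈ D.O) (hxi : x⁻¹ ∈ D.O)
    (E1 E2 : Divisor K F) (hE1 : ∀ v : Place K F, 0 ≤ E1 v) (hE2 : ∀ v : Place K F, 0 ≤ E2 v)
    (hdisj : ∀ v : Place K F, E1 v = 0 ∨ E2 v = 0)
    (hdivx : ∀ v : Place K F, v.ord x = E2 v - E1 v)
    (hE1deg : 0 < Divisor.degree E1) (N0 : ℕ)
    (hgen : ∀ n, N0 ≤ n → ∀ a ∈ h51_Rd D ((n + 1) • E1), ∃ b ∈ h51_Rd D (n • E1),
      ∃ c ∈ h51_Rd D (n • E1), a = b + D.redF x * c)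
    {F0 : Type*} [Field F0] (ψ : F0 →+* F) (x0 : F0) (hψx : ψ x0 = x)
    {ι1 ι2 : Type*} (V1 : h80_ValFam F0 ι1) (V2 : h80_ValFam F0 ι2)
    (hB1 : ∀ b : V1.B, ψ (b : F0) ∈ D.O ∧
      ∀ v : Place K F, 0 ≤ v.ord x → 0 ≤ v.ord (ψ (b : F0)))
    (hB2 : ∀ b : V2.B, ψ (b : F0) ∈ D.O ∧
      ∀ v : Place K F, v.ord x ≤ 0 → 0 ≤ v.ord (ψ (b : F0)))
    (vert1 : Set ι1) (hvert1 : vert1.Finite) (a1 : ι1 → ℕ) (ha1 : ∀ C ∈ vert1, 1 ≤ a1 C)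
    (hVAL1 : ∀ h : F0, h ≠ 0 → (∀ C ∈ vert1, (a1 C : ℤ) ≤ V1.v C h) →
      ψ h ∈ D.O ∧ D.redF (ψ h) = 0)
    (hvertO1 : ∀ g : F0, g ≠ 0 → ψ g ∈ D.O → ∀ C ∈ vert1, 0 ≤ V1.v C g)
    (hhor1 : ∀ i, i ∉ vert1 → ∃ P : Place K F, 0 ≤ P.ord x ∧
      ∀ f : F0, f ≠ 0 → V1.v i f = P.ord (ψ f))
    (vert2 : Set ι2) (hvert2 : vert2.Finite) (a2 : ι2 → ℕ) (ha2 : ∀ C ∈ vert2, 1 ≤ a2 C)
    (hVAL2 : ∀ h : F0, h ≠ 0 → (∀ C ∈ vert2, (a2 C : ℤ) ≤ V2.v C h) →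
      ψ h ∈ D.O ∧ D.redF (ψ h) = 0)
    (hvertO2 : ∀ g : F0, g ≠ 0 → ψ g ∈ D.O → ∀ C ∈ vert2, 0 ≤ V2.v C g)
    (hhor2 : ∀ i, i ∉ vert2 → ∃ P : Place K F, P.ord x ≤ 0 ∧
      ∀ f : F0, f ≠ 0 → V2.v i f = P.ord (ψ f))
    (m : ℕ) (hm : (m : k) ≠ 0) (c : ℕ) (z : Pic0 K F)
    (Ez : Divisor.degZero (K := K) (F := F)) (hcls : Pic0.mk Ez = c • z)
    (uz : F) (huz0 : uz ≠ 0)
    (hdivz : ∀ v : Place K F, (m : ℤ) * (Ez : Divisor K F) v = v.ord uz)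
    (huz : ∃ h : uz ∈ D.O, D.red ⟨uz, h⟩ = 1)
    (hspan : ∀ (j : ℤ) (n : ℕ), N0 ≤ n → ∀ a ∈ h51_Rd D (n • E1 + j • (Ez : Divisor K F)),
      a ∈ Submodule.span k (D.redF '' (ψ '' {g : F0 |
        ψ g ∈ riemannRochSpace (n • E1 + j • (Ez : Divisor K F)) ∧ ψ g ∈ D.O})))
    (hnz1 : ∀ 𝔪 : Ideal V1.B, 𝔪.IsMaximal → (∀ t : V1.B, D.redF (ψ (t : F0)) = 0 → t ∈ 𝔪) →
      ∃ e y : F0, e ≠ 0 ∧ y ≠ 0 ∧ V1.InLoc 𝔪 y ∧ V1.InLoc 𝔪 y⁻¹ ∧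
        (∀ i, i ∉ vert1 → V1.Through 𝔪 i → ∀ P : Place K F,
          (∀ f : F0, f ≠ 0 → V1.v i f = P.ord (ψ f)) → V1.v i e = (Ez : Divisor K F) P) ∧
        ∀ C ∈ vert1, V1.Through 𝔪 C → (e = y ∨ (a1 C : ℤ) ≤ V1.v C (e - y)))
    (hnz2 : ∀ 𝔪 : Ideal V2.B, 𝔪.IsMaximal → (∀ t : V2.B, D.redF (ψ (t : F0)) = 0 → t ∈ 𝔪) →
      ∃ e y : F0, e ≠ 0 ∧ y ≠ 0 ∧ V2.InLoc 𝔪 y ∧ V2.InLoc 𝔪 y⁻¹ ∧
        (∀ i, i ∉ vert2 → V2.Through 𝔪 i → ∀ P : Place K F,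
          (∀ f : F0, f ≠ 0 → V2.v i f = P.ord (ψ f)) → V2.v i e = (Ez : Divisor K F) P) ∧
        ∀ C ∈ vert2, V2.Through 𝔪 C → (e = y ∨ (a2 C : ℤ) ≤ V2.v C (e - y))) :
    c • z = 0 := by
  have : HasPrincipalDivisors K F := h75_hasPrincipalDivisors hy
  have hfin : ∀ D' : Divisor K F, FiniteDimensional K (riemannRochSpace D') :=
    fun D' => (h75_riemann hy D').1
  have hdeg1 : ∀ P : Place K F, P.deg = 1 := h75_deg_eq_one hy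
  have hdeg : Divisor.degree (Ez : Divisor K F) = 0 := Divisor.mem_degZero.mp Ez.2
  have hprin : (Ez : Divisor K F) ∈ Divisor.principal (K := K) (F := F) :=
    h61_principal_of_loc D hON hinv hrank hfin hdeg1 x hx0 hx hxi E1 E2 hE1 hE2 hdisj hdivx
      (max N0 (2 * h75_genus K y))
      (fun n hn => hgen n (le_trans (le_max_left _ _) hn)) m hm (Ez : Divisor K F) uz hdeg huz0
      hdivz huz
      (fun j n hn => h29_hdim_of_rr hy E1 (Ez : Divisor K F) hE1deg hdeg j n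
        (le_trans (le_max_right _ _) hn))
      ψ x0 hψx V1 V2 hB1 hB2 vert1 hvert1 a1 ha1 hVAL1 hvertO1 hhor1 vert2 hvert2 a2 ha2 hVAL2
      hvertO2 hhor2
      (fun j n hn => hspan j n (le_trans (le_max_left _ _) hn)) hnz1 hnz2
  rw [← hcls]
  exact h29_pic0_mk_eq_zero Ez hprin

end Generic

section Modular

local notation "Qb" => AlgebraicClosure ℚ

variable (M : ℕ) [NeZero M] {k Rb : Type*} [Field k] [CommRing Rb] [Algebra k Rb]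

/-- **Row I-E, contract form.** At a level `M`, chart `x = j = h59_jbar M`: a lattice datum `D`
on `F̄(M)` with the lattice binders of `h46_principal_of_local`, the carrier `ψ : F0 →+* F̄(M)`
of the rational functions with two chart valuation families `V1, V2` (binders of
`h61_principal_of_loc`), and for every `lam ^ n`-torsion class `z` with `Pnew z`, fixed by `H`,
a toric witness `(Ez, uz)` of `c • z` with `(SPAN)` and `(LOC-δ)` at every closed point of the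
special fibre of both charts. Then every such `z` is killed by `c`. -/
theorem h61_geomN_of_loc [Nontrivial Rb]
    (D : h22_Lat Qb (modularFunctionFieldBar M) k Rb) (hON : h22_ON D)
    (hinv : ∀ (f : modularFunctionFieldBar M) (hf : f ∈ D.O), IsUnit (D.red ⟨f, hf⟩) → f⁻¹ ∈ D.O)
    (hrank : h39_RankOne D.A)
    (hx : h59_jbar M ∈ D.O) (hxi : (h59_jbar M)⁻¹ ∈ D.O)
    (E1 E2 : Divisor Qb (modularFunctionFieldBar M))
    (hE1 : ∀ v : Place Qb (modularFunctionFieldBar M), 0 ≤ E1 v)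
    (hE2 : ∀ v : Place Qb (modularFunctionFieldBar M), 0 ≤ E2 v)
    (hdisj : ∀ v : Place Qb (modularFunctionFieldBar M), E1 v = 0 ∨ E2 v = 0)
    (hdivx : ∀ v : Place Qb (modularFunctionFieldBar M), v.ord (h59_jbar M) = E2 v - E1 v)
    (N0 : ℕ)
    (hgen : ∀ n, N0 ≤ n → ∀ a ∈ h51_Rd D ((n + 1) • E1), ∃ b ∈ h51_Rd D (n • E1),
      ∃ c ∈ h51_Rd D (n • E1), a = b + D.redF (h59_jbar M) * c)
    {F0 : Type*} [Field F0] (ψ : F0 →+* modularFunctionFieldBar M) (x0 : F0)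
    (hψx : ψ x0 = h59_jbar M)
    {ι1 ι2 : Type*} (V1 : h80_ValFam F0 ι1) (V2 : h80_ValFam F0 ι2)
    (hB1 : ∀ b : V1.B, ψ (b : F0) ∈ D.O ∧
      ∀ v : Place Qb (modularFunctionFieldBar M), 0 ≤ v.ord (h59_jbar M) →
        0 ≤ v.ord (ψ (b : F0)))
    (hB2 : ∀ b : V2.B, ψ (b : F0) ∈ D.O ∧
      ∀ v : Place Qb (modularFunctionFieldBar M), v.ord (h59_jbar M) ≤ 0 →
        0 ≤ v.ord (ψ (b : F0)))
    (vert1 : Set ι1) (hvert1 : vert1.Finite) (a1 : ι1 → ℕ) (ha1 : ∀ C ∈ vert1, 1 ≤ a1 C)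
    (hVAL1 : ∀ h : F0, h ≠ 0 → (∀ C ∈ vert1, (a1 C : ℤ) ≤ V1.v C h) →
      ψ h ∈ D.O ∧ D.redF (ψ h) = 0)
    (hvertO1 : ∀ g : F0, g ≠ 0 → ψ g ∈ D.O → ∀ C ∈ vert1, 0 ≤ V1.v C g)
    (hhor1 : ∀ i, i ∉ vert1 → ∃ P : Place Qb (modularFunctionFieldBar M),
      0 ≤ P.ord (h59_jbar M) ∧ ∀ f : F0, f ≠ 0 → V1.v i f = P.ord (ψ f))
    (vert2 : Set ι2) (hvert2 : vert2.Finite) (a2 : ι2 → ℕ) (ha2 : ∀ C ∈ vert2, 1 ≤ a2 C)
    (hVAL2 : ∀ h : F0, h ≠ 0 → (∀ C ∈ vert2, (a2 C : ℤ) ≤ V2.v C h) →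
      ψ h ∈ D.O ∧ D.redF (ψ h) = 0)
    (hvertO2 : ∀ g : F0, g ≠ 0 → ψ g ∈ D.O → ∀ C ∈ vert2, 0 ≤ V2.v C g)
    (hhor2 : ∀ i, i ∉ vert2 → ∃ P : Place Qb (modularFunctionFieldBar M),
      P.ord (h59_jbar M) ≤ 0 ∧ ∀ f : F0, f ≠ 0 → V2.v i f = P.ord (ψ f))
    (lam : ℕ) (hlam : (lam : k) ≠ 0) (c : ℕ)
    (Pnew : JZero M → Prop) (H : Subgroup (Qb ≃ₐ[ℚ] Qb))
    (hwit : ∀ (n : ℕ) (z : JZero M), lam ^ n • z = 0 → Pnew z → (∀ s ∈ H, s • z = z) →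
      ∃ (Ez : Divisor.degZero (K := Qb) (F := modularFunctionFieldBar M))
        (uz : modularFunctionFieldBar M),
        Pic0.mk Ez = c • z ∧ uz ≠ 0 ∧
        (∀ v : Place Qb (modularFunctionFieldBar M),
          ((lam ^ n : ℕ) : ℤ) * (Ez : Divisor Qb (modularFunctionFieldBar M)) v = v.ord uz) ∧
        (∃ h : uz ∈ D.O, D.red ⟨uz, h⟩ = 1) ∧
        (∀ (j : ℤ) (n' : ℕ), N0 ≤ n' →
          ∀ a ∈ h51_Rd D (n' • E1 + j • (Ez : Divisor Qb (modularFunctionFieldBar M))),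
            a ∈ Submodule.span k (D.redF '' (ψ '' {g : F0 |
              ψ g ∈ riemannRochSpace
                (n' • E1 + j • (Ez : Divisor Qb (modularFunctionFieldBar M))) ∧
              ψ g ∈ D.O}))) ∧
        (∀ 𝔪 : Ideal V1.B, 𝔪.IsMaximal → (∀ t : V1.B, D.redF (ψ (t : F0)) = 0 → t ∈ 𝔪) →
          ∃ e y : F0, e ≠ 0 ∧ y ≠ 0 ∧ V1.InLoc 𝔪 y ∧ V1.InLoc 𝔪 y⁻¹ ∧
            (∀ i, i ∉ vert1 → V1.Through 𝔪 i → ∀ P : Place Qb (modularFunctionFieldBar M),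
              (∀ f : F0, f ≠ 0 → V1.v i f = P.ord (ψ f)) →
                V1.v i e = (Ez : Divisor Qb (modularFunctionFieldBar M)) P) ∧
            ∀ C ∈ vert1, V1.Through 𝔪 C → (e = y ∨ (a1 C : ℤ) ≤ V1.v C (e - y))) ∧
        (∀ 𝔪 : Ideal V2.B, 𝔪.IsMaximal → (∀ t : V2.B, D.redF (ψ (t : F0)) = 0 → t ∈ 𝔪) →
          ∃ e y : F0, e ≠ 0 ∧ y ≠ 0 ∧ V2.InLoc 𝔪 y ∧ V2.InLoc 𝔪 y⁻¹ ∧
            (∀ i, i ∉ vert2 → V2.Through 𝔪 i → ∀ P : Place Qb (modularFunctionFieldBar M),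
              (∀ f : F0, f ≠ 0 → V2.v i f = P.ord (ψ f)) →
                V2.v i e = (Ez : Divisor Qb (modularFunctionFieldBar M)) P) ∧
            ∀ C ∈ vert2, V2.Through 𝔪 C → (e = y ∨ (a2 C : ℤ) ≤ V2.v C (e - y)))) :
    ∀ (n : ℕ) (z : JZero M), lam ^ n • z = 0 → Pnew z → (∀ s ∈ H, s • z = z) → c • z = 0 := by
  intro n z hz hP hfix
  obtain ⟨Ez, uz, hcls, huz0, hdivz, huz, hspan, hnz1, hnz2⟩ := hwit n z hz hP hfix
  have hm : (((lam ^ n : ℕ)) : k) ≠ 0 := by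
    rw [Nat.cast_pow]
    exact pow_ne_zero n hlam
  exact h61_kill_of_loc (h54_isChart_jbar M) D hON hinv hrank (h59_jbar M)
    (h54_isChart_jbar M).ne_zero hx hxi E1 E2 hE1 hE2 hdisj hdivx
    (h29_polar_degree_pos (h54_isChart_jbar M) E1 E2 hE1 hE2 hdivx) N0 hgen ψ x0 hψx V1 V2 hB1
    hB2 vert1 hvert1 a1 ha1 hVAL1 hvertO1 hhor1 vert2 hvert2 a2 ha2 hVAL2 hvertO2 hhor2
    (lam ^ n) hm c z Ez hcls uz huz0 hdivz huz hspan hnz1 hnz2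

end Modular

end Fermat.Agent.S36
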