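import Mathlib
import Fermat.Agent.S36.h62_PtsTwoLevel
import Fermat.Agent.S36.h98_V3
import Fermat.Agent.S36.h69_TabB
import Fermat.Agent.S36.h69_TabFam
import Fermat.Agent.S36.h65_HorInt
import Fermat.Agent.S36.h80_IntLevels
import Fermat.Agent.S36.h14_N23
import Fermat.Agent.S36.h14_ClassW
import Fermat.Agent.S36.h94_NZPts
import Fermat.Agent.S36.h74_IntNorm
import Fermat.Agent.S36.h65_NoethQ2
import Fermat.Agent.S36.h91_NoethQ

/-!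
# S36 / I-PTS (helper62): the modular instance (M8)

`V2 := h80_fam1 (M q²) I (h98_w2 ..)` (chart 1 of level `M q²`), `V1 := h80_fam1 (M q) I (h98_w1 ..)`
(the `j`-chart of level `M q`), `a = h70_aF0`, `b = h70_bF0`.

`h62_pts_mod_gen` / `h62_pts_mod` : the three per-point binders `hclass1`, `hU1`, `hLG1` of
helper94's `h94_hnz_pts` at every maximal ideal of `V2.B` through which a vertical valuation
passes (i.e. containing `q`), from `h14_pts_two_level_w` (= `h62_pts_two_level` with the weak node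
hypothesis) + row (E) (`h89_ResK`).  Discharged here from main: the tables (`h69_hta`, `h69_htb`,
`h98_hV0a2`, `h98_hV0b0`), (HC1)-(HC4) (`h65_HorTable`, `h65_HorInt`, `h80_IntLevels`),
(N2')/(N3') (`h14_N23`), the values of `q`, `hunr`/`hsep`/`hfrac` (`h89_FamInst`), the degree-one
congruences (`h98_hV1`, `h98_hV2`, `h98_hV1b`), `hζ2` (`h98_hnorm`), (H1)-(H3) (`h89_ResK`);
in `h62_pts_mod` also the I-FAM inputs at both levels (`h91_NoethQ`, `h65_NoethQ2`) and the norms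
of chart-regular functions (`h74_IntNorm`).

Remaining hypotheses of `h62_pts_mod` (owners): the two vertical local equations at the nodes of
level `M q` (`hUw`, helper22); the residue data of level `M q` (`hR1F`, `hR1V`, helper83); the
thick equation (`hthick` = the conclusion of `h14_hthick_gen_w` / `h60_hthick_gen`); `hwn`
(`n` is prime to `q`).
-/

set_option autoImplicit false
set_option synthInstance.maxHeartbeats 400000
set_option linter.unusedSectionVars false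
set_option linter.unusedVariables false

noncomputable section

open ModularCurve AlgebraicCurve

namespace Fermat.Agent.S36

open Fermat.Agent.S34 Fermat.Agent.S37 Fermat.Agent.S24 Fermat.Agent.S35 Fermat.Agent.S18
  Fermat.Agent.GAL Fermat.Agent.S40

local notation "Qb" => AlgebraicClosure ℚ

/-- Integrality of the restricted map from integrality of the elements over the composite. -/
theorem h62_restrict_isIntegral {F1 F2 : Type*} [Field F1] [Field F2] (B1 : Subring F1)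
    (B2 : Subring F2) (φ : F1 →+* F2) (hφ : ∀ g ∈ B1, φ g ∈ B2)
    (h : ∀ f ∈ B2, (φ.comp B1.subtype).IsIntegralElem f) :
    (φ.restrict B1 B2 hφ).IsIntegral := by
  intro f
  obtain ⟨p, hp, hpf⟩ := h f f.2
  refine ⟨p, hp, ?_⟩
  apply Subtype.ext
  have h1 := Polynomial.hom_eval₂ p (φ.restrict B1 B2 hφ) B2.subtype f
  have h2 : B2.subtype.comp (φ.restrict B1 B2 hφ) = φ.comp B1.subtype := by
    ext x
    rfl
  rw [h2] at h1
  have h3 : (B2.subtype f : F2) = (f : F2) := rfl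
  rw [h3, hpf] at h1
  exact h1

section Mod

variable (M q : ℕ) [NeZero M] [NeZero q] [Fact q.Prime] (hqM : ¬ q ∣ M)
  (A : ValuationSubring Qb) (hA : A.LiesOverPrime q) (ζ : Qb) (hζ : IsPrimitiveRoot ζ q)
  (hex : h98_Ex M q hqM A ζ hζ)

local notation "W1" => h98_w1 M q hqM A ζ hζ hex
local notation "W2" => h98_w2 M q hqM A ζ hζ hex
local notation "VV1" => h80_fam1 (M * q) (A.inertiaSubgroupIn ℚ) (h98_w1 M q hqM A ζ hζ hex)
  (h98_hw1mul M q hqM A hA ζ hζ hex) (h98_hw1add M q hqM A hA ζ hζ hex)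
local notation "VV2" => h80_fam1 (M * q * q) (A.inertiaSubgroupIn ℚ) (h98_w2 M q hqM A ζ hζ hex)
  (h98_hw2mul M q hqM A hA ζ hζ hex) (h98_hw2add M q hqM A hA ζ hζ hex)
local notation "FF1" => (h69_F0 (M * q) (A.inertiaSubgroupIn ℚ))
local notation "FF2" => (h69_F0 (M * q * q) (A.inertiaSubgroupIn ℚ))

include hA in
/-- The values of `q` at the three verticals of level `M q²` are positive. -/
theorem h62_w2_q_pos (c : Fin 3) : 0 < W2 c ((q : ℕ) : FF2) := by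
  have hq : q.Prime := Fact.out
  fin_cases c
  · show 0 < W2 0 ((q : ℕ) : FF2)
    rw [h98_hq0 M q hqM A hA ζ hζ hex]
    exact one_pos
  · show 0 < W2 1 ((q : ℕ) : FF2)
    rw [h98_hq1 M q hqM A hA ζ hζ hex]
    have := hq.one_lt
    omega
  · show 0 < W2 2 ((q : ℕ) : FF2)
    rw [h98_hq2 M q hqM A hA ζ hζ hex]
    exact one_pos

include hA in
/-- The vertical table of `a`, in the shape of `h65_hc_mem_a`. -/
theorem h62_hvt_a : ∀ c : Fin 3, ∃ (c₁ : Fin 2) (e : ℤ), 0 ≤ e ∧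
    ∀ g : FF1, g ≠ 0 → W2 c (h70_aF0 (M * q) q (A.inertiaSubgroupIn ℚ) g) = e * W1 c₁ g := by
  intro c
  obtain ⟨e, he, h⟩ := h69_hta M q hqM A hA ζ hζ hex c
  exact ⟨_, e, he.le, h⟩

include hA in
/-- The vertical table of `b`, in the shape of `h65_hc_mem_b`. -/
theorem h62_hvt_b : ∀ c : Fin 3, ∃ (c₁ : Fin 2) (e : ℤ), 0 ≤ e ∧
    ∀ g : FF1, g ≠ 0 → W2 c (h70_bF0 (M * q) q (A.inertiaSubgroupIn ℚ) g) = e * W1 c₁ g := by
  intro c
  obtain ⟨e, he, h⟩ := h69_htb M q hqM A hA ζ hζ hex c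
  exact ⟨_, e, he.le, h⟩

/-- **(M8): I-PTS at the modular families.**  The binders `hclass1`, `hU1`, `hLG1` of
`h94_hnz_pts` at every maximal ideal of the chart-1 ring of level `M q²` through which a vertical
valuation passes. -/
theorem h62_pts_mod_gen
    -- I-FAM / I-VAL at level `M q²`
    (hwA2 : ∀ c (a : ↥(h69_K0 (A.inertiaSubgroupIn ℚ))), a ∈ h69_A0 A → a ≠ 0 →
      0 ≤ W2 c (algebraMap (h69_K0 (A.inertiaSubgroupIn ℚ)) FF2 a))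
    (hwx2 : ∀ c, 0 ≤ W2 c (h65_J0 (M * q * q) (A.inertiaSubgroupIn ℚ)))
    (hnoeth2 : IsNoetherianRing (VV2).B)
    (hint2 : ∀ f ∈ (VV2).B, (h97_ev (h69_A0 A).toSubring
      (h65_J0 (M * q * q) (A.inertiaSubgroupIn ℚ))).IsIntegralElem f)
    -- level `M q`
    (hwA1 : ∀ c (a : ↥(h69_K0 (A.inertiaSubgroupIn ℚ))), a ∈ h69_A0 A → a ≠ 0 →
      0 ≤ W1 c (algebraMap (h69_K0 (A.inertiaSubgroupIn ℚ)) FF1 a))
    -- norms of chart-regular functions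
    (hNa : ∀ t : FF2, t ∈ (VV2).B → h70_NaF0 (M * q) q (A.inertiaSubgroupIn ℚ) t ∈ (VV1).B)
    (hNb : ∀ t : FF2, t ∈ (VV2).B → h70_NbF0 (M * q) q (A.inertiaSubgroupIn ℚ) t ∈ (VV1).B)
    -- the two vertical local equations at the nodes of level `M q`
    (hUw : ∀ s : Ideal (VV1).B, s.IsMaximal → (VV1).Through s (Sum.inl 0) →
      (VV1).Through s (Sum.inl 1) →
      (∃ e : FF1, e ≠ 0 ∧ (VV1).v (Sum.inl 0) e = 1 ∧
        ∀ j, (VV1).Through s j → j ≠ Sum.inl 0 → (VV1).v j e = 0) ∧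
      (∃ e : FF1, e ≠ 0 ∧ (VV1).v (Sum.inl 1) e = 1 ∧
        ∀ j, (VV1).Through s j → j ≠ Sum.inl 1 → (VV1).v j e = 0))
    -- the residue data of level `M q`
    (hR1F : ∀ s : Ideal (VV1).B, s.IsMaximal → (VV1).Through s (Sum.inl 0) →
      ∃ (Fb : Type) (_ : Field Fb) (R : h62_Res (VV1) s (Sum.inl 0) Fb),
        ∃ g : Fb, g ≠ 0 ∧ 0 < R.o g)
    (hR1V : ∀ s : Ideal (VV1).B, s.IsMaximal → (VV1).Through s (Sum.inl 1) →
      ∃ (Fb : Type) (_ : Field Fb) (R : h62_Res (VV1) s (Sum.inl 1) Fb),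
        ∃ g : Fb, g ≠ 0 ∧ 0 < R.o g)
    -- the thick equation
    (hthick : ∀ m : Ideal (VV2).B, m.IsMaximal → (VV2).Through m (Sum.inl 1) →
      (∀ c : Fin 3, (VV2).Through m (Sum.inl c) → c = 1) →
      ∃ z : FF2, z ≠ 0 ∧ (VV2).v (Sum.inl 1) z = 1 ∧
        ∀ k, (VV2).Through m k → k ≠ Sum.inl 1 → (VV2).v k z = 0)
    {n : ℕ} (hn : n ≠ 0) (hwn : ∀ c, W2 c ((n : ℕ) : FF2) = 0) :
    (∀ 𝔪 : Ideal (VV2).B, 𝔪.IsMaximal →
      (∀ k : Fin 3, (VV2).Through 𝔪 (Sum.inl k)) ∨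
        ∃ k0 : Fin 3, ∀ k : Fin 3, (VV2).Through 𝔪 (Sum.inl k) → k = k0) ∧
    (∀ 𝔪 : Ideal (VV2).B, 𝔪.IsMaximal → (∃ k : Fin 3, (VV2).Through 𝔪 (Sum.inl k)) →
      h62_UnitStar (VV2) 𝔪) ∧
    (∀ 𝔪 : Ideal (VV2).B, 𝔪.IsMaximal → (∃ k : Fin 3, (VV2).Through 𝔪 (Sum.inl k)) →
      ∀ e ω : FF2,
        (∀ c, (VV2).Through 𝔪 c → 0 < (VV2).v c ((q : ℕ) : FF2) → 0 ≤ (VV2).v c e) →
        ω ≠ 0 → (VV2).InLoc 𝔪 ω → (VV2).InLoc 𝔪 ω⁻¹ →
        (∀ c, (VV2).Through 𝔪 c → 0 < (VV2).v c ((q : ℕ) : FF2) →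
          (e ^ n * ω = 1 ∨ (VV2).v c ((q : ℕ) : FF2) ≤ (VV2).v c (e ^ n * ω - 1))) →
        ∃ (ζ' : Fin 3 ⊕ h80_HorIdx (h80_horOrd (M * q * q) (A.inertiaSubgroupIn ℚ)
            (h59_jbar (M * q * q))) → FF2) (y : FF2),
          (∀ c, (VV2).Through 𝔪 c → 0 < (VV2).v c ((q : ℕ) : FF2) →
            (VV2).InLoc 𝔪 (ζ' c) ∧ ζ' c ^ n = 1) ∧
          y ≠ 0 ∧ (VV2).InLoc 𝔪 y ∧ (VV2).InLoc 𝔪 y⁻¹ ∧
          ∀ c, (VV2).Through 𝔪 c → 0 < (VV2).v c ((q : ℕ) : FF2) →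
            (e = ζ' c * y ∨ (VV2).v c ((q : ℕ) : FF2) ≤ (VV2).v c (e - ζ' c * y))) := by
  classical
  have hq : q.Prime := Fact.out
  have hq0' : q ≠ 0 := hq.ne_zero
  have hqF : ((q : ℕ) : FF2) ≠ 0 := h89_natCast_ne_zero (M * q * q) (A.inertiaSubgroupIn ℚ) hq0'
  have hqw : ∀ c : Fin 3, 0 < W2 c ((q : ℕ) : FF2) := h62_w2_q_pos M q hqM A hA ζ hζ hex
  -- (HC1)
  have ha : ∀ g ∈ (VV1).B, h70_aF0 (M * q) q (A.inertiaSubgroupIn ℚ) g ∈ (VV2).B :=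
    fun g hg => h65_hc_mem_a (M * q) q (A.inertiaSubgroupIn ℚ) (h98_w1 M q hqM A ζ hζ hex) (h98_hw1mul M q hqM A hA ζ hζ hex)
      (h98_hw1add M q hqM A hA ζ hζ hex)
      (h98_w2 M q hqM A ζ hζ hex) (h98_hw2mul M q hqM A hA ζ hζ hex)
      (h98_hw2add M q hqM A hA ζ hζ hex)
      (h62_hvt_a M q hqM A hA ζ hζ hex) g hg
  have hb : ∀ g ∈ (VV1).B, h70_bF0 (M * q) q (A.inertiaSubgroupIn ℚ) g ∈ (VV2).B :=
    fun g hg => h65_hc_mem_b M q hqM (A.inertiaSubgroupIn ℚ) (h98_w1 M q hqM A ζ hζ hex) (h98_hw1mul M q hqM A hA ζ hζ hex)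
      (h98_hw1add M q hqM A hA ζ hζ hex)
      (h98_w2 M q hqM A ζ hζ hex) (h98_hw2mul M q hqM A hA ζ hζ hex)
      (h98_hw2add M q hqM A hA ζ hζ hex)
      (h62_hvt_b M q hqM A hA ζ hζ hex) g hg
  -- (HC4), from the norms (helper80)
  have hconst1 : ∀ a : ↥(h69_K0 (A.inertiaSubgroupIn ℚ)), a ∈ h69_A0 A →
      algebraMap (h69_K0 (A.inertiaSubgroupIn ℚ)) FF1 a ∈ (VV1).B :=
    fun a ha' => h89_const_mem_B (M * q) A (h65_J0 (M * q) (A.inertiaSubgroupIn ℚ))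
      (h54_isChart_jbar (M * q)) (h98_w1 M q hqM A ζ hζ hex) (h98_hw1mul M q hqM A hA ζ hζ hex)
      (h98_hw1add M q hqM A hA ζ hζ hex) hwA1 a ha'
  obtain ⟨t, ht, hu⟩ := h80_nodes_in_B (M * q) q A hA (VV1) hconst1 (q + 1)
  have hia : ((h70_aF0 (M * q) q (A.inertiaSubgroupIn ℚ)).restrict (VV1).B (VV2).B ha).IsIntegral :=
    h62_restrict_isIntegral _ _ _ ha
      (fun f hf => h80_HC4_alpha (M * q) q (A.inertiaSubgroupIn ℚ) (VV1) (VV2) hq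
        (Dvd.intro_left M rfl) ha hNa t ht hu f hf)
  have hib : ((h70_bF0 (M * q) q (A.inertiaSubgroupIn ℚ)).restrict (VV1).B (VV2).B hb).IsIntegral :=
    h62_restrict_isIntegral _ _ _ hb
      (fun f hf => h80_HC4_beta (M * q) q (A.inertiaSubgroupIn ℚ) (VV1) (VV2) hq
        (Dvd.intro_left M rfl) hb hNb t ht hu f hf)
  -- the tables
  have hta := h69_hta_fam M q hqM A hA ζ hζ hex (VV1) (VV2) (Sum.inl 0) (Sum.inl 1) Sum.inl
    (fun _ => rfl) (fun _ => rfl) (fun _ _ => rfl)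
  have htb := h69_htb_fam M q hqM A hA ζ hζ hex (VV1) (VV2) (Sum.inl 0) (Sum.inl 1) Sum.inl
    (fun _ => rfl) (fun _ => rfl) (fun _ _ => rfl)
  -- (HC2)
  have hHCa : ∀ h, h80_IsHor h → ∃ h1, h80_IsHor h1 ∧ ∃ e : ℤ, 0 < e ∧ ∀ g : FF1, g ≠ 0 →
      (VV2).v h (h70_aF0 (M * q) q (A.inertiaSubgroupIn ℚ) g) = e * (VV1).v h1 g := by
    intro h hh
    obtain ⟨k₁, e, hk₁, he, htab⟩ := h65_hc_hor_a (M * q) q (A.inertiaSubgroupIn ℚ)
      (h98_w1 M q hqM A ζ hζ hex) (h98_hw1mul M q hqM A hA ζ hζ hex)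
      (h98_hw1add M q hqM A hA ζ hζ hex) (h98_w2 M q hqM A ζ hζ hex)
      (h98_hw2mul M q hqM A hA ζ hζ hex) (h98_hw2add M q hqM A hA ζ hζ hex) h hh
    exact ⟨k₁, hk₁, e, by omega, fun g _ => htab g⟩
  have hHCb : ∀ h, h80_IsHor h → ∃ h1, h80_IsHor h1 ∧ ∃ e : ℤ, 0 < e ∧ ∀ g : FF1, g ≠ 0 →
      (VV2).v h (h70_bF0 (M * q) q (A.inertiaSubgroupIn ℚ) g) = e * (VV1).v h1 g := by
    intro h hh
    obtain ⟨k₁, e, hk₁, he, htab⟩ := h65_hc_hor_b M q hqM (A.inertiaSubgroupIn ℚ)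
      (h98_w1 M q hqM A ζ hζ hex) (h98_hw1mul M q hqM A hA ζ hζ hex)
      (h98_hw1add M q hqM A hA ζ hζ hex) (h98_w2 M q hqM A ζ hζ hex)
      (h98_hw2mul M q hqM A hA ζ hζ hex) (h98_hw2add M q hqM A hA ζ hζ hex) h hh
    exact ⟨k₁, hk₁, e, by omega, fun g _ => htab g⟩
  -- the two-level theorem
  haveI := hnoeth2
  obtain ⟨hclass, hunit, hres⟩ := h14_pts_two_level_w (VV1) (VV2)
    (Sum.inl 0) (Sum.inl 1) (fun h => absurd (Sum.inl.inj h) (by decide)) Sum.inl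
    h80_IsHor h80_IsHor
    (fun h hh => by
      obtain ⟨j, rfl⟩ := hh
      exact ⟨by simp, by simp⟩)
    (fun i => by
      rcases i with c | j
      · exact Or.inl ⟨c, rfl⟩
      · exact Or.inr ⟨j, rfl⟩)
    (h70_aF0 (M * q) q (A.inertiaSubgroupIn ℚ)) (h70_bF0 (M * q) q (A.inertiaSubgroupIn ℚ))
    ha hb hia hib hta htb
    (h98_hV0a2 M q hqM A hA ζ hζ hex) (h98_hV0b0 M q hqM A hA ζ hζ hex)
    hHCa hHCb hUw q hq0'
    (h14_hN2_fam M q hqM A hA ζ hζ hex (VV1) (VV2) (Sum.inl 2) (fun _ => rfl) hNa)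
    (h14_hN3_fam M q hqM A hA ζ hζ hex (VV1) (VV2) (Sum.inl 0) (fun _ => rfl) hNb)
    ((q : ℕ) : FF2) hqF (h98_hq0 M q hqM A hA ζ hζ hex) (hqw 1)
    (h98_hq2 M q hqM A hA ζ hζ hex)
    (fun h hh => h89_fam_hq (M * q * q) (A.inertiaSubgroupIn ℚ) (h54_isChart_jbar (M * q * q))
      (h98_w2 M q hqM A ζ hζ hex) (h98_hw2mul M q hqM A hA ζ hζ hex)
      (h98_hw2add M q hqM A hA ζ hζ hex) q h hh)
    (fun i hi => h89_fam_hunr (M * q * q) (A.inertiaSubgroupIn ℚ) (h54_isChart_jbar (M * q * q))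
      (h98_w2 M q hqM A ζ hζ hex) (h98_hw2mul M q hqM A hA ζ hζ hex)
      (h98_hw2add M q hqM A hA ζ hζ hex)
      (h80_jbar_mem_F0 (M * q * q) (A.inertiaSubgroupIn ℚ)) hq0' hqw i hi)
    (fun i j hi hj hij => h89_fam_hsep (M * q * q) (A.inertiaSubgroupIn ℚ)
      (h54_isChart_jbar (M * q * q)) (h98_w2 M q hqM A ζ hζ hex) (h98_hw2mul M q hqM A hA ζ hζ hex)
      (h98_hw2add M q hqM A hA ζ hζ hex)
      (h80_jbar_mem_F0 (M * q * q) (A.inertiaSubgroupIn ℚ))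
      hq0' hqw i j hi hj hij)
    hR1F hR1V
    (h98_hV1 M q hqM A hA ζ hζ hex) (h98_hV2 M q hqM A hA ζ hζ hex)
    (h98_hV1b M q hqM A hA ζ hζ hex)
    (h98_hnorm M q hqM A hA ζ hζ hex 1) hthick
  refine ⟨hclass, hunit, fun 𝔪 h𝔪 hk => ?_⟩
  obtain ⟨k, hk⟩ := hk
  have hqm : ((q : ℕ) : (VV2).B) ∈ 𝔪 :=
    h89_fam_q_mem (M * q * q) (A.inertiaSubgroupIn ℚ) (h54_isChart_jbar (M * q * q))
      (h98_w2 M q hqM A ζ hζ hex) (h98_hw2mul M q hqM A hA ζ hζ hex)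
      (h98_hw2add M q hqM A hA ζ hζ hex)
      hq0' hqw 𝔪 k hk
  have hvert : ∀ c, (VV2).Through 𝔪 c → 0 < (VV2).v c ((q : ℕ) : FF2) → ∃ k' : Fin 3,
      c = Sum.inl k' := by
    intro c _ hc
    rcases c with c | j
    · exact ⟨c, rfl⟩
    · have h0 := h89_fam_hq (M * q * q) (A.inertiaSubgroupIn ℚ) (h54_isChart_jbar (M * q * q))
        (h98_w2 M q hqM A ζ hζ hex) (h98_hw2mul M q hqM A hA ζ hζ hex)
        (h98_hw2add M q hqM A hA ζ hζ hex) q (Sum.inr j) ⟨j, rfl⟩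
      have h0' : (VV2).v (Sum.inr j) ((q : ℕ) : FF2) = 0 := h0
      rw [h0'] at hc
      exact absurd hc (lt_irrefl _)
  haveI := h𝔪
  have hR : ∀ c, (VV2).Through 𝔪 c → 0 < (VV2).v c ((q : ℕ) : FF2) →
      ∃ (Fb : Type) (_ : Field Fb), Nonempty (h62_Res (VV2) 𝔪 c Fb) := by
    intro c hc hcq
    obtain ⟨k', rfl⟩ := hvert c hc hcq
    obtain ⟨Fb, i, R, _⟩ := hres 𝔪 h𝔪 k' hc
    exact ⟨Fb, i, ⟨R⟩⟩
  exact h94_hLG_of_point (VV2) 𝔪 ((q : ℕ) : FF2) hqF ⟨Sum.inl k, hk, hqw k⟩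
    (hunit 𝔪 h𝔪 ⟨k, hk⟩) hR
    (h89_fam_hfrac (M * q * q) (A.inertiaSubgroupIn ℚ) (h54_isChart_jbar (M * q * q))
      (h98_w2 M q hqM A ζ hζ hex) (h98_hw2mul M q hqM A hA ζ hζ hex)
      (h98_hw2add M q hqM A hA ζ hζ hex)
      (h80_jbar_mem_F0 (M * q * q) (A.inertiaSubgroupIn ℚ)) hq0' hqw)
    (h89_H1 (M * q * q) A (h65_J0 (M * q * q) (A.inertiaSubgroupIn ℚ))
      (h54_isChart_jbar (M * q * q)) (h98_w2 M q hqM A ζ hζ hex) (h98_hw2mul M q hqM A hA ζ hζ hex)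
      (h98_hw2add M q hqM A hA ζ hζ hex) hn hwn 𝔪)
    (fun s hs => @h89_H2 (M * q * q) _ q _ A _ _ (h65_J0 (M * q * q) (A.inertiaSubgroupIn ℚ))
      (h54_isChart_jbar (M * q * q)) (h98_w2 M q hqM A ζ hζ hex) (h98_hw2mul M q hqM A hA ζ hζ hex)
      (h98_hw2add M q hqM A hA ζ hζ hex) hA hwA2 hwx2 hint2 𝔪 h𝔪 hqm _ hn s hs)
    (fun c0 hc0 => @h89_H3 (M * q * q) _ q _ A _ _ (h65_J0 (M * q * q) (A.inertiaSubgroupIn ℚ))
      (h54_isChart_jbar (M * q * q)) (h98_w2 M q hqM A ζ hζ hex) (h98_hw2mul M q hqM A hA ζ hζ hex)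
      (h98_hw2add M q hqM A hA ζ hζ hex) hA hwA2 hwx2 hint2 𝔪 h𝔪 hqm _ hn c0 hc0)

/-- **(M8): I-PTS at the modular families, closed inputs plugged.**  The I-FAM inputs at both
levels (`h91_NoethQ`, `h65_NoethQ2`) and the norms of chart-regular functions (`h74_IntNorm`) are
discharged; what remains is the level-`M q` row (`hUw`, `hR1F`, `hR1V`), the thick equation and
`hwn`. -/
theorem h62_pts_mod
    -- the two vertical local equations at the nodes of level `M q`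
    (hUw : ∀ s : Ideal (VV1).B, s.IsMaximal → (VV1).Through s (Sum.inl 0) →
      (VV1).Through s (Sum.inl 1) →
      (∃ e : FF1, e ≠ 0 ∧ (VV1).v (Sum.inl 0) e = 1 ∧
        ∀ j, (VV1).Through s j → j ≠ Sum.inl 0 → (VV1).v j e = 0) ∧
      (∃ e : FF1, e ≠ 0 ∧ (VV1).v (Sum.inl 1) e = 1 ∧
        ∀ j, (VV1).Through s j → j ≠ Sum.inl 1 → (VV1).v j e = 0))
    -- the residue data of level `M q`
    (hR1F : ∀ s : Ideal (VV1).B, s.IsMaximal → (VV1).Through s (Sum.inl 0) →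
      ∃ (Fb : Type) (_ : Field Fb) (R : h62_Res (VV1) s (Sum.inl 0) Fb),
        ∃ g : Fb, g ≠ 0 ∧ 0 < R.o g)
    (hR1V : ∀ s : Ideal (VV1).B, s.IsMaximal → (VV1).Through s (Sum.inl 1) →
      ∃ (Fb : Type) (_ : Field Fb) (R : h62_Res (VV1) s (Sum.inl 1) Fb),
        ∃ g : Fb, g ≠ 0 ∧ 0 < R.o g)
    -- the thick equation
    (hthick : ∀ m : Ideal (VV2).B, m.IsMaximal → (VV2).Through m (Sum.inl 1) →
      (∀ c : Fin 3, (VV2).Through m (Sum.inl c) → c = 1) →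
      ∃ z : FF2, z ≠ 0 ∧ (VV2).v (Sum.inl 1) z = 1 ∧
        ∀ k, (VV2).Through m k → k ≠ Sum.inl 1 → (VV2).v k z = 0)
    {n : ℕ} (hn : n ≠ 0) (hwn : ∀ c, W2 c ((n : ℕ) : FF2) = 0) :
    (∀ 𝔪 : Ideal (VV2).B, 𝔪.IsMaximal →
      (∀ k : Fin 3, (VV2).Through 𝔪 (Sum.inl k)) ∨
        ∃ k0 : Fin 3, ∀ k : Fin 3, (VV2).Through 𝔪 (Sum.inl k) → k = k0) ∧
    (∀ 𝔪 : Ideal (VV2).B, 𝔪.IsMaximal → (∃ k : Fin 3, (VV2).Through 𝔪 (Sum.inl k)) →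
      h62_UnitStar (VV2) 𝔪) ∧
    (∀ 𝔪 : Ideal (VV2).B, 𝔪.IsMaximal → (∃ k : Fin 3, (VV2).Through 𝔪 (Sum.inl k)) →
      ∀ e ω : FF2,
        (∀ c, (VV2).Through 𝔪 c → 0 < (VV2).v c ((q : ℕ) : FF2) → 0 ≤ (VV2).v c e) →
        ω ≠ 0 → (VV2).InLoc 𝔪 ω → (VV2).InLoc 𝔪 ω⁻¹ →
        (∀ c, (VV2).Through 𝔪 c → 0 < (VV2).v c ((q : ℕ) : FF2) →
          (e ^ n * ω = 1 ∨ (VV2).v c ((q : ℕ) : FF2) ≤ (VV2).v c (e ^ n * ω - 1))) →
        ∃ (ζ' : Fin 3 ⊕ h80_HorIdx (h80_horOrd (M * q * q) (A.inertiaSubgroupIn ℚ)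
            (h59_jbar (M * q * q))) → FF2) (y : FF2),
          (∀ c, (VV2).Through 𝔪 c → 0 < (VV2).v c ((q : ℕ) : FF2) →
            (VV2).InLoc 𝔪 (ζ' c) ∧ ζ' c ^ n = 1) ∧
          y ≠ 0 ∧ (VV2).InLoc 𝔪 y ∧ (VV2).InLoc 𝔪 y⁻¹ ∧
          ∀ c, (VV2).Through 𝔪 c → 0 < (VV2).v c ((q : ℕ) : FF2) →
            (e = ζ' c * y ∨ (VV2).v c ((q : ℕ) : FF2) ≤ (VV2).v c (e - ζ' c * y))) :=
  h62_pts_mod_gen M q hqM A hA ζ hζ hex
    (h91_w2_hwA M q hqM A hA ζ hζ hex) (h91_w2_hwx M q hqM A hA ζ hζ hex)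
    (h65_noeth_q2 M q hqM A hA ζ hζ hex).1 (h65_noeth_q2 M q hqM A hA ζ hζ hex).2
    (h91_w1_hwA M q hqM A hA ζ hζ hex)
    (h74_int_Na M q hqM A hA ζ hζ hex) (h74_int_Nb M q hqM A hA ζ hζ hex)
    hUw hR1F hR1V hthick hn hwn

end Mod

end Fermat.Agent.S36
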