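import Mathlib
import Fermat.Agent.S36.h62_RowULoc
import Fermat.Agent.S36.h80_LocUnit
import Fermat.Prelude.Def_AlgebraicCurve_DivisorClassGroup

/-!
# S36 / I-PTS (helper62): the OUTPUT of I-PTS, in the binder shapes of `h94_hnz_two`

`V : h80_ValFam F ι` is a chart family, `P : Fin 3 → ι` its three vertical valuations with
multiplicities `a k = v_(P k) q`.  From the per-point data

* `h62_UnitStar V m`  (every maximal ideal `m`),
* a residue datum `h62_Res V m (P k) Fb` for every vertical valuation through `m`,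
* `hfrac`, (H1), (H2), (H3),

and a function `u` with `v_i u = n * E i` (all `i`) and `u ≡ 1` modulo `q` along the verticals:

* `h62_pt_localEq` : a local equation `e` of `E` at `m` with `u / e ^ n` a unit at `m`;
* `h62_pt_loc` : the glue `e ≡ ζ_c * y` at `m` (`h62_loc_glue_point` with `w := u / e ^ n`);
* `h62_pts_out` : the function `e1 : Ideal V.B → F` with the binders `hε`, `hLOC3`, `hLOC1` of
  `h94_nz_two` / `h94_hnz_two`, verbatim;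
* `h62_pts_out_div` : the same with the horizontal orders of `e1 𝔪` given by a divisor `E4`
  (binder `he1` of `h94_hnz_two`, verbatim).
-/

set_option autoImplicit false

namespace Fermat.Agent.S36

universe w

variable {F : Type*} [Field F] {ι : Type*}

/-- **Local equation at a point.**  (UNIT\*) at `m` and `v_i u = n * E i` at the valuations
through `m` give a local equation `e` of `E` at `m`, and `u = e ^ n * (unit at m)`. -/
theorem h62_pt_localEq (V : h80_ValFam F ι) (m : Ideal V.B) [m.IsPrime]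
    (hunit : h62_UnitStar V m) {n : ℕ} (hn : n ≠ 0) (u : F) (hu0 : u ≠ 0) (E : ι → ℤ)
    (hEu : ∀ i, V.Through m i → V.v i u = n * E i) :
    ∃ e : F, e ≠ 0 ∧ (∀ i, V.Through m i → V.v i e = E i) ∧
      V.InLoc m (u / e ^ n) ∧ V.InLoc m (e ^ n / u) := by
  classical
  have hnZ : (n : ℤ) ≠ 0 := by exact_mod_cast hn
  set E₀ : ι → ℤ := fun i => V.v i u / n with hE₀
  have hfin : {i | E₀ i ≠ 0}.Finite := by
    refine (V.finite_supp u hu0).subset fun i hi => ?_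
    intro h0
    apply hi
    show V.v i u / n = 0
    rw [h0, Int.zero_ediv]
  have hE₀E : ∀ i, V.Through m i → E₀ i = E i := by
    intro i hi
    show V.v i u / n = E i
    rw [hEu i hi, Int.mul_ediv_cancel_left _ hnZ]
  obtain ⟨e, he0, he⟩ := h80_exists_localEq V m E₀ hfin (fun i hi _ => hunit i hi)
  have hloc : ∀ i, V.Through m i → V.v i e = E i := fun i hi => by rw [he i hi, hE₀E i hi]
  obtain ⟨_, _, h3, h4⟩ := h80_pow_unit V m E he0 hloc n hu0 hEu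
  refine ⟨e, he0, hloc, h3, ?_⟩
  rw [inv_div] at h4
  exact h4

/-- **The glue at a point.**  `e` a local equation (`u / e ^ n` a unit at `m`, `e` a unit along
the verticals through `m`) and `u ≡ 1` modulo `q` along the verticals through `m`: then
`e ≡ ζ_c * y` modulo `q` along every vertical `c` through `m`, with `y` a unit at `m` and
`ζ_c ^ n = 1`. -/
theorem h62_pt_loc (V : h80_ValFam F ι) (m : Ideal V.B) [hmax : m.IsMaximal]
    [IsNoetherianRing V.B] (q : F) (hq0 : q ≠ 0)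
    (hqm : ∃ c, V.Through m c ∧ 0 < V.v c q)
    (hunit : h62_UnitStar V m)
    (hR : ∀ c, V.Through m c → 0 < V.v c q →
      ∃ (Fb : Type w) (_ : Field Fb), Nonempty (h62_Res V m c Fb))
    (hfrac : ∀ f : F, ∃ c d : V.B, (d : F) ≠ 0 ∧ f * (d : F) = (c : F))
    {n : ℕ} (H1 : (n : F) ≠ 0 ∧ ∀ j, V.Through m j → V.v j (n : F) = 0)
    (H2 : ∀ s : V.B, s ∉ m → ∃ r : V.B, r ^ n - s ∈ m)
    (H3 : ∀ c0 : V.B, c0 ^ n - 1 ∈ m → ∃ ζ : V.B, ζ ^ n = 1 ∧ c0 - ζ ∈ m)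
    (u : F) (hu0 : u ≠ 0)
    (hcong : ∀ c, V.Through m c → 0 < V.v c q → (u - 1 = 0 ∨ V.v c q ≤ V.v c (u - 1)))
    (e : F) (he0 : e ≠ 0) (hev : ∀ c, V.Through m c → 0 < V.v c q → 0 ≤ V.v c e)
    (hw : V.InLoc m (u / e ^ n)) (hw' : V.InLoc m (e ^ n / u)) :
    ∃ (ζ : ι → F) (y : F),
      (∀ c, V.Through m c → 0 < V.v c q → V.InLoc m (ζ c) ∧ ζ c ^ n = 1) ∧
      y ≠ 0 ∧ V.InLoc m y ∧ V.InLoc m y⁻¹ ∧
      ∀ c, V.Through m c → 0 < V.v c q → (e = ζ c * y ∨ V.v c q ≤ V.v c (e - ζ c * y)) := by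
  have hen0 : e ^ n ≠ 0 := pow_ne_zero n he0
  have hmul : e ^ n * (u / e ^ n) = u := by field_simp
  refine h62_loc_glue_point V m q hq0 hqm hunit hR hfrac H1 H2 H3 e hev (u / e ^ n)
    (div_ne_zero hu0 hen0) hw (by rw [inv_div]; exact hw') (fun c hc hcq => ?_)
  rw [hmul]
  exact (hcong c hc hcq).imp_left sub_eq_zero.1

/-- `u ≡ 1` modulo a positive power along `v_c`  ⟹  `v_c u = 0`. -/
theorem h62_v_eq_zero_of_cong_one (V : h80_ValFam F ι) (c : ι) {u : F} (hu0 : u ≠ 0) {a : ℤ}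
    (ha : 1 ≤ a) (h : u - 1 = 0 ∨ a ≤ V.v c (u - 1)) : V.v c u = 0 := by
  rcases h with h | h
  · have : u = 1 := sub_eq_zero.1 h
    rw [this]
    exact h80_v_one V c
  · by_cases h1 : u - 1 = 0
    · have : u = 1 := sub_eq_zero.1 h1
      rw [this]
      exact h80_v_one V c
    have hneg : (-1 : F) ≠ 0 := neg_ne_zero.2 one_ne_zero
    have hvneg : V.v c (-1 : F) = 0 := by
      have h2 := V.map_mul c (-1) (-1) hneg hneg
      rw [neg_one_mul, neg_neg, h80_v_one] at h2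
      omega
    -- `u = (u - 1) + 1`, `1 = u + (-(u - 1))`
    have h3 := V.map_add c (u - 1) 1 h1 one_ne_zero (by rw [sub_add_cancel]; exact hu0)
    rw [sub_add_cancel, h80_v_one] at h3
    have hm1 : -(u - 1) ≠ 0 := neg_ne_zero.2 h1
    have hvm1 : V.v c (-(u - 1)) = V.v c (u - 1) := by
      have h2 := V.map_mul c (-1) (u - 1) hneg h1
      rw [neg_one_mul, hvneg] at h2
      omega
    have h4 := V.map_add c u (-(u - 1)) hu0 hm1 (by
      have : u + -(u - 1) = 1 := by ring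
      rw [this]
      exact one_ne_zero)
    have h5 : u + -(u - 1) = 1 := by ring
    rw [h5, h80_v_one, hvm1] at h4
    have h6 := min_le_iff.1 h3
    have h7 := min_le_iff.1 h4
    omega

/-- **The output of I-PTS for one chart family** (binders `hε`, `hLOC3`, `hLOC1` of
`h94_nz_two`, with the local equations `e1`). -/
theorem h62_pts_out (V : h80_ValFam F ι) [IsNoetherianRing V.B] (q : F) (hq0 : q ≠ 0)
    (P : Fin 3 → ι) (a : Fin 3 → ℕ) (ha : ∀ k, 1 ≤ a k) (hPq : ∀ k, V.v (P k) q = a k)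
    (hvq : ∀ i, 0 < V.v i q → ∃ k, i = P k)
    (hunit : ∀ m : Ideal V.B, m.IsMaximal → h62_UnitStar V m)
    (hR : ∀ m : Ideal V.B, m.IsMaximal → ∀ k, V.Through m (P k) →
      ∃ (Fb : Type w) (_ : Field Fb), Nonempty (h62_Res V m (P k) Fb))
    (hfrac : ∀ f : F, ∃ c d : V.B, (d : F) ≠ 0 ∧ f * (d : F) = (c : F))
    {n : ℕ} (hn : (n : F) ≠ 0)
    (H1 : ∀ m : Ideal V.B, m.IsMaximal → ∀ j, V.Through m j → V.v j (n : F) = 0)
    (H2 : ∀ m : Ideal V.B, m.IsMaximal → (∃ k, V.Through m (P k)) →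
      ∀ s : V.B, s ∉ m → ∃ r : V.B, r ^ n - s ∈ m)
    (H3 : ∀ m : Ideal V.B, m.IsMaximal → (∃ k, V.Through m (P k)) →
      ∀ c0 : V.B, c0 ^ n - 1 ∈ m → ∃ ζ : V.B, ζ ^ n = 1 ∧ c0 - ζ ∈ m)
    (u : F) (hu0 : u ≠ 0) (E : ι → ℤ) (hEu : ∀ i, V.v i u = n * E i)
    (hcong : ∀ k, u - 1 = 0 ∨ (a k : ℤ) ≤ V.v (P k) (u - 1)) :
    ∃ e1 : Ideal V.B → F,
      (∀ m : Ideal V.B, m.IsMaximal → e1 m ≠ 0 ∧ (∀ i, V.Through m i → V.v i (e1 m) = E i) ∧
        V.InLoc m (u / e1 m ^ n) ∧ V.InLoc m (e1 m ^ n / u)) ∧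
      (∀ m : Ideal V.B, m.IsMaximal → (∀ k, V.Through m (P k)) →
        ∃ (ζ : Fin 3 → F) (y : F), (∀ k, V.InLoc m (ζ k) ∧ ζ k ^ n = 1) ∧
          y ≠ 0 ∧ V.InLoc m y ∧ V.InLoc m y⁻¹ ∧
          ∀ k, (e1 m = ζ k * y ∨ (a k : ℤ) ≤ V.v (P k) (e1 m - ζ k * y))) ∧
      (∀ m : Ideal V.B, m.IsMaximal → ∀ k0, V.Through m (P k0) →
        (∀ k, V.Through m (P k) → k = k0) →
        ∃ (ζ y : F), ζ ^ n = 1 ∧ y ≠ 0 ∧ V.InLoc m y ∧ V.InLoc m y⁻¹ ∧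
          (e1 m = ζ * y ∨ (a k0 : ℤ) ≤ V.v (P k0) (e1 m - ζ * y))) := by
  classical
  have hn0 : n ≠ 0 := by
    rintro rfl
    exact hn (by simp)
  have hnZ : (n : ℤ) ≠ 0 := by exact_mod_cast hn0
  have hapos : ∀ k, 0 < V.v (P k) q := by
    intro k
    rw [hPq k]
    have := ha k
    exact_mod_cast this
  -- the local equations
  have hex : ∀ m : Ideal V.B, ∃ e : F, m.IsMaximal → (e ≠ 0 ∧
      (∀ i, V.Through m i → V.v i e = E i) ∧ V.InLoc m (u / e ^ n) ∧ V.InLoc m (e ^ n / u)) := by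
    intro m
    by_cases hm : m.IsMaximal
    · have := hm.isPrime
      obtain ⟨e, h1, h2, h3, h4⟩ := h62_pt_localEq V m (hunit m hm) hn0 u hu0 E
        (fun i _ => hEu i)
      exact ⟨e, fun _ => ⟨h1, h2, h3, h4⟩⟩
    · exact ⟨1, fun h => absurd h hm⟩
  choose e1 he1 using hex
  -- the vertical values of `E`
  have hEP : ∀ k, E (P k) = 0 := by
    intro k
    have h1 := h62_v_eq_zero_of_cong_one V (P k) hu0
      (by have := ha k; exact_mod_cast this) (hcong k)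
    have h2 := hEu (P k)
    rw [h1] at h2
    have h3 : (n : ℤ) * E (P k) = 0 := h2.symm
    rcases mul_eq_zero.1 h3 with h | h
    · exact absurd h hnZ
    · exact h
  -- the glue at a point with a vertical through it
  have hglue : ∀ m : Ideal V.B, m.IsMaximal → (∃ k, V.Through m (P k)) →
      ∃ (ζ : ι → F) (y : F),
        (∀ c, V.Through m c → 0 < V.v c q → V.InLoc m (ζ c) ∧ ζ c ^ n = 1) ∧
        y ≠ 0 ∧ V.InLoc m y ∧ V.InLoc m y⁻¹ ∧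
        ∀ c, V.Through m c → 0 < V.v c q →
          (e1 m = ζ c * y ∨ V.v c q ≤ V.v c (e1 m - ζ c * y)) := by
    intro m hm hk
    obtain ⟨k, hk⟩ := hk
    have := hm
    obtain ⟨h1, h2, h3, h4⟩ := he1 m hm
    refine h62_pt_loc V m q hq0 ⟨P k, hk, hapos k⟩ (hunit m hm) (fun c hc hcq => ?_) hfrac
      ⟨hn, H1 m hm⟩ (H2 m hm ⟨k, hk⟩) (H3 m hm ⟨k, hk⟩) u hu0 (fun c hc hcq => ?_)
      (e1 m) h1 (fun c hc hcq => ?_) h3 h4
    · obtain ⟨k', rfl⟩ := hvq c hcq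
      exact hR m hm k' hc
    · obtain ⟨k', rfl⟩ := hvq c hcq
      rw [hPq k']
      exact hcong k'
    · obtain ⟨k', rfl⟩ := hvq c hcq
      rw [h2 _ hc, hEP k']
  refine ⟨e1, he1, fun m hm hall => ?_, fun m hm k0 hk0 _ => ?_⟩
  · obtain ⟨ζ, y, hζ, hy0, hy, hy', hg⟩ := hglue m hm ⟨0, hall 0⟩
    refine ⟨fun k => ζ (P k), y, fun k => hζ (P k) (hall k) (hapos k), hy0, hy, hy', fun k => ?_⟩
    have := hg (P k) (hall k) (hapos k)
    rw [hPq k] at this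
    exact this
  · obtain ⟨ζ, y, hζ, hy0, hy, hy', hg⟩ := hglue m hm ⟨k0, hk0⟩
    refine ⟨ζ (P k0), y, (hζ (P k0) hk0 (hapos k0)).2, hy0, hy, hy', ?_⟩
    have := hg (P k0) hk0 (hapos k0)
    rw [hPq k0] at this
    exact this

section Div

open AlgebraicCurve

variable {Kc Fc : Type*} [Field Kc] [Field Fc] [Algebra Kc Fc]

/-- **The output of I-PTS, divisor form** (binders `he1`, `hε1`, `hLOC3_1`, `hLOC1_1` of
`h94_hnz_two`, verbatim): the horizontal orders of `u` are `n • E4`, every index is vertical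
or the order at a place. -/
theorem h62_pts_out_div (ψ : F →+* Fc) (E4 : Divisor Kc Fc)
    (V : h80_ValFam F ι) [IsNoetherianRing V.B] (q : F) (hq0 : q ≠ 0)
    (P : Fin 3 → ι) (a : Fin 3 → ℕ) (ha : ∀ k, 1 ≤ a k) (hPq : ∀ k, V.v (P k) q = a k)
    (hvq : ∀ i, 0 < V.v i q → ∃ k, i = P k)
    (vert : Set ι)
    (hidx : ∀ i, (∃ k, i = P k) ∨
      ∃ Pl : Place Kc Fc, ∀ f : F, f ≠ 0 → V.v i f = Pl.ord (ψ f))
    (hunit : ∀ m : Ideal V.B, m.IsMaximal → h62_UnitStar V m)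
    (hR : ∀ m : Ideal V.B, m.IsMaximal → ∀ k, V.Through m (P k) →
      ∃ (Fb : Type w) (_ : Field Fb), Nonempty (h62_Res V m (P k) Fb))
    (hfrac : ∀ f : F, ∃ c d : V.B, (d : F) ≠ 0 ∧ f * (d : F) = (c : F))
    {n : ℕ} (hn : (n : F) ≠ 0)
    (H1 : ∀ m : Ideal V.B, m.IsMaximal → ∀ j, V.Through m j → V.v j (n : F) = 0)
    (H2 : ∀ m : Ideal V.B, m.IsMaximal → (∃ k, V.Through m (P k)) →
      ∀ s : V.B, s ∉ m → ∃ r : V.B, r ^ n - s ∈ m)
    (H3 : ∀ m : Ideal V.B, m.IsMaximal → (∃ k, V.Through m (P k)) →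
      ∀ c0 : V.B, c0 ^ n - 1 ∈ m → ∃ ζ : V.B, ζ ^ n = 1 ∧ c0 - ζ ∈ m)
    (u : F) (hu0 : u ≠ 0)
    (hdiv : ∀ Pl : Place Kc Fc, (n : ℤ) * E4 Pl = Pl.ord (ψ u))
    (hcong : ∀ k, u - 1 = 0 ∨ (a k : ℤ) ≤ V.v (P k) (u - 1)) :
    ∃ e1 : Ideal V.B → F,
      (∀ 𝔪 : Ideal V.B, 𝔪.IsMaximal → e1 𝔪 ≠ 0 ∧
        ∀ i, i ∉ vert → V.Through 𝔪 i → ∀ Pl : Place Kc Fc,
          (∀ f : F, f ≠ 0 → V.v i f = Pl.ord (ψ f)) → V.v i (e1 𝔪) = E4 Pl) ∧
      (∀ 𝔪 : Ideal V.B, 𝔪.IsMaximal →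
        V.InLoc 𝔪 (u / e1 𝔪 ^ n) ∧ V.InLoc 𝔪 (e1 𝔪 ^ n / u)) ∧
      (∀ 𝔪 : Ideal V.B, 𝔪.IsMaximal → (∀ k, V.Through 𝔪 (P k)) →
        ∃ (ζ : Fin 3 → F) (y : F), (∀ k, V.InLoc 𝔪 (ζ k) ∧ ζ k ^ n = 1) ∧
          y ≠ 0 ∧ V.InLoc 𝔪 y ∧ V.InLoc 𝔪 y⁻¹ ∧
          ∀ k, (e1 𝔪 = ζ k * y ∨ (a k : ℤ) ≤ V.v (P k) (e1 𝔪 - ζ k * y))) ∧
      (∀ 𝔪 : Ideal V.B, 𝔪.IsMaximal → ∀ k0, V.Through 𝔪 (P k0) →
        (∀ k, V.Through 𝔪 (P k) → k = k0) →
        ∃ (ζ y : F), ζ ^ n = 1 ∧ y ≠ 0 ∧ V.InLoc 𝔪 y ∧ V.InLoc 𝔪 y⁻¹ ∧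
          (e1 𝔪 = ζ * y ∨ (a k0 : ℤ) ≤ V.v (P k0) (e1 𝔪 - ζ * y))) := by
  classical
  have hn0 : n ≠ 0 := by
    rintro rfl
    exact hn (by simp)
  have hnZ : (n : ℤ) ≠ 0 := by exact_mod_cast hn0
  -- the divisor as a function of the index
  have hdvd : ∀ i, V.v i u = n * (V.v i u / n) := by
    intro i
    rcases hidx i with ⟨k, rfl⟩ | ⟨Pl, hPl⟩
    · have h1 := h62_v_eq_zero_of_cong_one V (P k) hu0
        (by have := ha k; exact_mod_cast this) (hcong k)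
      rw [h1, Int.zero_ediv, mul_zero]
    · rw [hPl u hu0, ← hdiv Pl, Int.mul_ediv_cancel_left _ hnZ]
  obtain ⟨e1, h1, h2, h3⟩ := h62_pts_out V q hq0 P a ha hPq hvq hunit hR hfrac hn H1 H2 H3 u hu0
    (fun i => V.v i u / n) hdvd hcong
  refine ⟨e1, fun 𝔪 h𝔪 => ⟨(h1 𝔪 h𝔪).1, fun i _ hi Pl hPl => ?_⟩,
    fun 𝔪 h𝔪 => ⟨(h1 𝔪 h𝔪).2.2.1, (h1 𝔪 h𝔪).2.2.2⟩, h2, h3⟩
  rw [(h1 𝔪 h𝔪).2.1 i hi, hPl u hu0, ← hdiv Pl, Int.mul_ediv_cancel_left _ hnZ]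

end Div

end Fermat.Agent.S36
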