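import Mathlib
import Fermat.Agent.S36.h63_CuspX12

/-!
# S36, row I-CUSP: (X1) + (X2) at the cusp points of chart 2, closed at `w := h98_w2`

`V2 := h80_fam2 (M q²) I (h98_w2 ..) (h98_hw2mul ..) (h98_hw2add ..)`.

* `h63_cusp2` : the cusp predicate on ideals of `V2.B` (`q ∈ 𝔪` and `1 / j ∈ 𝔪`, both in the
  `∃ h, ⟨_, h⟩ ∈ 𝔪` spelling of `h94_hwit_final`);
* `h63_hcusp2_w2` : `hcusp2` of `h94_hwit_final` for it;
* `h63_hcq_w2` : `hcq` of `h46_cusp_out` for it;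
* `h63_hone2_w2` : `hone2` of `h94_hwit_final` / `h94_hnz_pts` (= (X1));
* `h63_hX2_w2` : `hX2` of `h46_cusp_out` (= (X2)).
-/

set_option autoImplicit false
set_option synthInstance.maxHeartbeats 400000
set_option linter.style.haveILetI false
set_option linter.unusedSectionVars false

noncomputable section

open ModularCurve AlgebraicCurve

namespace Fermat.Agent.S36

open Fermat.Agent.S34 Fermat.Agent.S37 Fermat.Agent.S24 Fermat.Agent.S18 Fermat.Agent.S40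

local notation "Qb" => AlgebraicClosure ℚ

section X12W2

variable (M q : ℕ) [NeZero M] [NeZero q] [Fact q.Prime] (hqM : ¬ q ∣ M)
  (A : ValuationSubring Qb) (hA : A.LiesOverPrime q) (ζ : Qb) (hζ : IsPrimitiveRoot ζ q)
  (hex : h98_Ex M q hqM A ζ hζ)

/-- `⟨1 / j, _⟩ = (cvJ0)⁻¹` in `F₀`. -/
theorem h63_T_eq :
    (⟨(h59_jbar (M * q * q))⁻¹, h80_jbar_inv_mem_F0 (M * q * q) (A.inertiaSubgroupIn ℚ)⟩ :
      h69_F0 (M * q * q) (A.inertiaSubgroupIn ℚ)) = (h52_cvJ0 M q A)⁻¹ := by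
  apply Subtype.ext
  rw [Subfield.coe_inv, h52_cv_coe_J0]

/-- The cusp points of chart 2 (above `q`): `q ∈ 𝔪` and `1 / j ∈ 𝔪`. -/
def h63_cusp2 : Ideal (h80_fam2 (M * q * q) (A.inertiaSubgroupIn ℚ) (h98_w2 M q hqM A ζ hζ hex)
    (h98_hw2mul M q hqM A hA ζ hζ hex) (h98_hw2add M q hqM A hA ζ hζ hex)).B → Prop := fun 𝔪 =>
  (∃ hq0B : ((q : ℕ) : h69_F0 (M * q * q) (A.inertiaSubgroupIn ℚ)) ∈
      (h80_fam2 (M * q * q) (A.inertiaSubgroupIn ℚ) (h98_w2 M q hqM A ζ hζ hex)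
        (h98_hw2mul M q hqM A hA ζ hζ hex) (h98_hw2add M q hqM A hA ζ hζ hex)).B,
    (⟨((q : ℕ) : h69_F0 (M * q * q) (A.inertiaSubgroupIn ℚ)), hq0B⟩ :
      (h80_fam2 (M * q * q) (A.inertiaSubgroupIn ℚ) (h98_w2 M q hqM A ζ hζ hex)
        (h98_hw2mul M q hqM A hA ζ hζ hex) (h98_hw2add M q hqM A hA ζ hζ hex)).B) ∈ 𝔪) ∧
  (∃ hTB : (⟨(h59_jbar (M * q * q))⁻¹,
        h80_jbar_inv_mem_F0 (M * q * q) (A.inertiaSubgroupIn ℚ)⟩ :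
        h69_F0 (M * q * q) (A.inertiaSubgroupIn ℚ)) ∈
      (h80_fam2 (M * q * q) (A.inertiaSubgroupIn ℚ) (h98_w2 M q hqM A ζ hζ hex)
        (h98_hw2mul M q hqM A hA ζ hζ hex) (h98_hw2add M q hqM A hA ζ hζ hex)).B,
    (⟨(⟨(h59_jbar (M * q * q))⁻¹, h80_jbar_inv_mem_F0 (M * q * q) (A.inertiaSubgroupIn ℚ)⟩ :
        h69_F0 (M * q * q) (A.inertiaSubgroupIn ℚ)), hTB⟩ :
      (h80_fam2 (M * q * q) (A.inertiaSubgroupIn ℚ) (h98_w2 M q hqM A ζ hζ hex)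
        (h98_hw2mul M q hqM A hA ζ hζ hex) (h98_hw2add M q hqM A hA ζ hζ hex)).B) ∈ 𝔪)

/-- `hcusp2` of `h94_hwit_final` for `h63_cusp2`. -/
theorem h63_hcusp2_w2 :
    ∀ 𝔪 : Ideal (h80_fam2 (M * q * q) (A.inertiaSubgroupIn ℚ) (h98_w2 M q hqM A ζ hζ hex)
        (h98_hw2mul M q hqM A hA ζ hζ hex) (h98_hw2add M q hqM A hA ζ hζ hex)).B, 𝔪.IsMaximal →
      (∃ hq0B : ((q : ℕ) : h69_F0 (M * q * q) (A.inertiaSubgroupIn ℚ)) ∈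
          (h80_fam2 (M * q * q) (A.inertiaSubgroupIn ℚ) (h98_w2 M q hqM A ζ hζ hex)
            (h98_hw2mul M q hqM A hA ζ hζ hex) (h98_hw2add M q hqM A hA ζ hζ hex)).B,
        (⟨((q : ℕ) : h69_F0 (M * q * q) (A.inertiaSubgroupIn ℚ)), hq0B⟩ :
          (h80_fam2 (M * q * q) (A.inertiaSubgroupIn ℚ) (h98_w2 M q hqM A ζ hζ hex)
            (h98_hw2mul M q hqM A hA ζ hζ hex) (h98_hw2add M q hqM A hA ζ hζ hex)).B) ∈ 𝔪) →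
      (∃ hTB : (⟨(h59_jbar (M * q * q))⁻¹,
            h80_jbar_inv_mem_F0 (M * q * q) (A.inertiaSubgroupIn ℚ)⟩ :
            h69_F0 (M * q * q) (A.inertiaSubgroupIn ℚ)) ∈
          (h80_fam2 (M * q * q) (A.inertiaSubgroupIn ℚ) (h98_w2 M q hqM A ζ hζ hex)
            (h98_hw2mul M q hqM A hA ζ hζ hex) (h98_hw2add M q hqM A hA ζ hζ hex)).B,
        (⟨(⟨(h59_jbar (M * q * q))⁻¹, h80_jbar_inv_mem_F0 (M * q * q) (A.inertiaSubgroupIn ℚ)⟩ :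
            h69_F0 (M * q * q) (A.inertiaSubgroupIn ℚ)), hTB⟩ :
          (h80_fam2 (M * q * q) (A.inertiaSubgroupIn ℚ) (h98_w2 M q hqM A ζ hζ hex)
            (h98_hw2mul M q hqM A hA ζ hζ hex) (h98_hw2add M q hqM A hA ζ hζ hex)).B) ∈ 𝔪) →
      h63_cusp2 M q hqM A hA ζ hζ hex 𝔪 :=
  fun _ _ h1 h2 => ⟨h1, h2⟩

/-- `hcq` of `h46_cusp_out` for `h63_cusp2`. -/
theorem h63_hcq_w2 :
    ∀ 𝔪 : Ideal (h80_fam2 (M * q * q) (A.inertiaSubgroupIn ℚ) (h98_w2 M q hqM A ζ hζ hex)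
        (h98_hw2mul M q hqM A hA ζ hζ hex) (h98_hw2add M q hqM A hA ζ hζ hex)).B, 𝔪.IsMaximal →
      h63_cusp2 M q hqM A hA ζ hζ hex 𝔪 →
      ((q : ℕ) : (h80_fam2 (M * q * q) (A.inertiaSubgroupIn ℚ) (h98_w2 M q hqM A ζ hζ hex)
        (h98_hw2mul M q hqM A hA ζ hζ hex) (h98_hw2add M q hqM A hA ζ hζ hex)).B) ∈ 𝔪 := by
  intro 𝔪 _ hc
  obtain ⟨⟨hq0B, hq0m⟩, _⟩ := hc
  have e : ((q : ℕ) : (h80_fam2 (M * q * q) (A.inertiaSubgroupIn ℚ) (h98_w2 M q hqM A ζ hζ hex)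
      (h98_hw2mul M q hqM A hA ζ hζ hex) (h98_hw2add M q hqM A hA ζ hζ hex)).B) =
      ⟨((q : ℕ) : h69_F0 (M * q * q) (A.inertiaSubgroupIn ℚ)), hq0B⟩ := by
    apply Subtype.ext
    simp
  rw [e]
  exact hq0m

/-- The `1 / j`-half of `h63_cusp2` in the form consumed by `h63_x1_of` / `h63_x2_of`. -/
theorem h63_cusp2_T
    (𝔪 : Ideal (h80_fam2 (M * q * q) (A.inertiaSubgroupIn ℚ) (h98_w2 M q hqM A ζ hζ hex)
        (h98_hw2mul M q hqM A hA ζ hζ hex) (h98_hw2add M q hqM A hA ζ hζ hex)).B)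
    (hT : ∃ hTB : (⟨(h59_jbar (M * q * q))⁻¹,
            h80_jbar_inv_mem_F0 (M * q * q) (A.inertiaSubgroupIn ℚ)⟩ :
            h69_F0 (M * q * q) (A.inertiaSubgroupIn ℚ)) ∈
          (h80_fam2 (M * q * q) (A.inertiaSubgroupIn ℚ) (h98_w2 M q hqM A ζ hζ hex)
            (h98_hw2mul M q hqM A hA ζ hζ hex) (h98_hw2add M q hqM A hA ζ hζ hex)).B,
        (⟨(⟨(h59_jbar (M * q * q))⁻¹, h80_jbar_inv_mem_F0 (M * q * q) (A.inertiaSubgroupIn ℚ)⟩ :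
            h69_F0 (M * q * q) (A.inertiaSubgroupIn ℚ)), hTB⟩ :
          (h80_fam2 (M * q * q) (A.inertiaSubgroupIn ℚ) (h98_w2 M q hqM A ζ hζ hex)
            (h98_hw2mul M q hqM A hA ζ hζ hex) (h98_hw2add M q hqM A hA ζ hζ hex)).B) ∈ 𝔪) :
    ∃ h : (h52_cvJ0 M q A)⁻¹ ∈ (h80_fam2 (M * q * q) (A.inertiaSubgroupIn ℚ)
        (h98_w2 M q hqM A ζ hζ hex) (h98_hw2mul M q hqM A hA ζ hζ hex)
        (h98_hw2add M q hqM A hA ζ hζ hex)).B,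
      (⟨(h52_cvJ0 M q A)⁻¹, h⟩ : (h80_fam2 (M * q * q) (A.inertiaSubgroupIn ℚ)
        (h98_w2 M q hqM A ζ hζ hex) (h98_hw2mul M q hqM A hA ζ hζ hex)
        (h98_hw2add M q hqM A hA ζ hζ hex)).B) ∈ 𝔪 := by
  obtain ⟨hTB, hTm⟩ := hT
  have e := h63_T_eq M q A
  refine ⟨e ▸ hTB, ?_⟩
  convert hTm using 2
  exact e.symm

/-- **(X1)** = `hone2` of `h94_hwit_final` / `h94_hnz_pts` for `h63_cusp2`. -/
theorem h63_hone2_w2 :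
    ∀ 𝔪 : Ideal (h80_fam2 (M * q * q) (A.inertiaSubgroupIn ℚ) (h98_w2 M q hqM A ζ hζ hex)
        (h98_hw2mul M q hqM A hA ζ hζ hex) (h98_hw2add M q hqM A hA ζ hζ hex)).B, 𝔪.IsMaximal →
      h63_cusp2 M q hqM A hA ζ hζ hex 𝔪 →
      ∃ k0 : Fin 3, ∀ k : Fin 3, (h80_fam2 (M * q * q) (A.inertiaSubgroupIn ℚ)
        (h98_w2 M q hqM A ζ hζ hex) (h98_hw2mul M q hqM A hA ζ hζ hex)
        (h98_hw2add M q hqM A hA ζ hζ hex)).Through 𝔪 (Sum.inl k) → k = k0 := by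
  intro 𝔪 hmax hc
  haveI : 𝔪.IsPrime := hmax.isPrime
  exact h63_x1_of M q hqM A (h98_w2 M q hqM A ζ hζ hex) (h98_hw2mul M q hqM A hA ζ hζ hex)
    (h98_hw2add M q hqM A hA ζ hζ hex) (h63_cuspVert_w2 M q hqM A hA ζ hζ hex) 𝔪
    (h63_cusp2_T M q hqM A hA ζ hζ hex 𝔪 hc.2)

/-- **(X2)** = `hX2` of `h46_cusp_out` for `h63_cusp2`. -/
theorem h63_hX2_w2 :
    ∀ 𝔪 : Ideal (h80_fam2 (M * q * q) (A.inertiaSubgroupIn ℚ) (h98_w2 M q hqM A ζ hζ hex)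
        (h98_hw2mul M q hqM A hA ζ hζ hex) (h98_hw2add M q hqM A hA ζ hζ hex)).B, 𝔪.IsMaximal →
      h63_cusp2 M q hqM A hA ζ hζ hex 𝔪 →
      ∀ c : Fin 3, (h80_fam2 (M * q * q) (A.inertiaSubgroupIn ℚ)
        (h98_w2 M q hqM A ζ hζ hex) (h98_hw2mul M q hqM A hA ζ hζ hex)
        (h98_hw2add M q hqM A hA ζ hζ hex)).Through 𝔪 (Sum.inl c) →
      ∃ π : h69_F0 (M * q * q) (A.inertiaSubgroupIn ℚ), π ≠ 0 ∧
        (h80_fam2 (M * q * q) (A.inertiaSubgroupIn ℚ) (h98_w2 M q hqM A ζ hζ hex)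
          (h98_hw2mul M q hqM A hA ζ hζ hex) (h98_hw2add M q hqM A hA ζ hζ hex)).v (Sum.inl c) π
            = 1 ∧
        ∀ k, (h80_fam2 (M * q * q) (A.inertiaSubgroupIn ℚ) (h98_w2 M q hqM A ζ hζ hex)
          (h98_hw2mul M q hqM A hA ζ hζ hex) (h98_hw2add M q hqM A hA ζ hζ hex)).Through 𝔪 k →
          k ≠ Sum.inl c →
          (h80_fam2 (M * q * q) (A.inertiaSubgroupIn ℚ) (h98_w2 M q hqM A ζ hζ hex)
            (h98_hw2mul M q hqM A hA ζ hζ hex) (h98_hw2add M q hqM A hA ζ hζ hex)).v k π = 0 := by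
  intro 𝔪 hmax hc c hthr
  haveI : 𝔪.IsPrime := hmax.isPrime
  exact h63_x2_of M q hqM A (h98_w2 M q hqM A ζ hζ hex) (h98_hw2mul M q hqM A hA ζ hζ hex)
    (h98_hw2add M q hqM A hA ζ hζ hex) (h63_cuspVert_w2 M q hqM A hA ζ hζ hex) 𝔪
    (h63_cusp2_T M q hqM A hA ζ hζ hex 𝔪 hc.2) c hthr

end X12W2

end Fermat.Agent.S36
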