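import Mathlib
import Fermat.Agent.S36.h63_CuspX12W2
import Fermat.Agent.S36.h46_CuspOut
import Fermat.Agent.S36.h69_ConstA
import Fermat.Agent.S36.h65_NoethQ2
import Fermat.Agent.S36.h87_X3Closed

/-!
# S36, row I-CUSP: the cusp block of `h94_Rows` from (X3)

`h63_cusp_row_of_X3` : the four I-CUSP conjuncts (C0)-(C3) of `h94_Rows` (statement text
machine-copied from `S36/h94_NZGeom.lean`), with `cusp2 := h63_cusp2`, from the residue datum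
(X3) at the cusp points: (C0) = `h63_hcusp2_w2`, (C1) = `h63_hone2_w2`, (C2) + (C3) =
`h46_cusp_out` with `hcq := h63_hcq_w2`, `hX2 := h63_hX2_w2`.
-/

set_option autoImplicit false
set_option linter.unusedSectionVars false
set_option linter.unusedVariables false
set_option linter.style.haveILetI false
set_option maxHeartbeats 1600000

noncomputable section

open ModularCurve AlgebraicCurve

namespace Fermat.Agent.S36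

open Fermat.Agent.S34 Fermat.Agent.S37 Fermat.Agent.S24 Fermat.Agent.S35 Fermat.Agent.S18
  Fermat.Agent.GAL Fermat.Agent.S40

local notation "Qb" => AlgebraicClosure ℚ

/-- `0 < w2 c q` for the three vertical valuations. -/
theorem h63_hqw_w2 (M q : ℕ) [NeZero M] [NeZero q] [Fact q.Prime] (hqM : ¬ q ∣ M)
    (A : ValuationSubring Qb) (hA : A.LiesOverPrime q) (ζ : Qb) (hζ : IsPrimitiveRoot ζ q)
    (hex : h98_Ex M q hqM A ζ hζ) :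
    ∀ c, 0 < h98_w2 M q hqM A ζ hζ hex c ((q : ℕ) : h69_F0 (M * q * q) (A.inertiaSubgroupIn ℚ)) := by
  have hq : q.Prime := Fact.out
  have h2 : (2 : ℤ) ≤ (q : ℤ) := by exact_mod_cast hq.two_le
  intro c
  fin_cases c
  · have := h98_hq0 M q hqM A hA ζ hζ hex
    simp only [Fin.zero_eta]
    omega
  · have := h98_hq1 M q hqM A hA ζ hζ hex
    simp only [Fin.mk_one]
    omega
  · have := h98_hq2 M q hqM A hA ζ hζ hex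
    simp only [Fin.reduceFinMk]
    omega

/-- **The I-CUSP block of `h94_Rows`** from (X3) at the cusp points. -/
theorem h63_cusp_row_of_X3 (M q : ℕ) [NeZero M] [NeZero q] [Fact q.Prime] (hqM : ¬ q ∣ M)
    (A : ValuationSubring Qb) (hA : A.LiesOverPrime q) (ζ : Qb) (hζ : IsPrimitiveRoot ζ q)
    (hex : h98_Ex M q hqM A ζ hζ)
    (hX3 : ∀ 𝔪 : Ideal (h80_fam2 (M * q * q) (A.inertiaSubgroupIn ℚ) (h98_w2 M q hqM A ζ hζ hex) (h98_hw2mul M q hqM A hA ζ hζ hex) (h98_hw2add M q hqM A hA ζ hζ hex)).B, 𝔪.IsMaximal → h63_cusp2 M q hqM A hA ζ hζ hex 𝔪 →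
      ∀ c : Fin 3, (h80_fam2 (M * q * q) (A.inertiaSubgroupIn ℚ) (h98_w2 M q hqM A ζ hζ hex) (h98_hw2mul M q hqM A hA ζ hζ hex) (h98_hw2add M q hqM A hA ζ hζ hex)).Through 𝔪 (Sum.inl c) →
        ∃ (Fb : Type) (_ : Field Fb), Nonempty (h62_Res (h80_fam2 (M * q * q) (A.inertiaSubgroupIn ℚ) (h98_w2 M q hqM A ζ hζ hex) (h98_hw2mul M q hqM A hA ζ hζ hex) (h98_hw2add M q hqM A hA ζ hζ hex)) 𝔪 (Sum.inl c) Fb)) :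
    ∃ cusp2 : Ideal (h80_fam2 (M * q * q) (A.inertiaSubgroupIn ℚ) (h98_w2 M q hqM A ζ hζ hex) (h98_hw2mul M q hqM A hA ζ hζ hex) (h98_hw2add M q hqM A hA ζ hζ hex)).B → Prop,
    (∀ 𝔪 : Ideal (h80_fam2 (M * q * q) (A.inertiaSubgroupIn ℚ) (h98_w2 M q hqM A ζ hζ hex) (h98_hw2mul M q hqM A hA ζ hζ hex) (h98_hw2add M q hqM A hA ζ hζ hex)).B, 𝔪.IsMaximal →
        (∃ hq0B : ((q : ℕ) : h69_F0 (M * q * q) (A.inertiaSubgroupIn ℚ)) ∈ (h80_fam2 (M * q * q) (A.inertiaSubgroupIn ℚ) (h98_w2 M q hqM A ζ hζ hex) (h98_hw2mul M q hqM A hA ζ hζ hex) (h98_hw2add M q hqM A hA ζ hζ hex)).B, (⟨((q : ℕ) : h69_F0 (M * q * q) (A.inertiaSubgroupIn ℚ)), hq0B⟩ : (h80_fam2 (M * q * q) (A.inertiaSubgroupIn ℚ) (h98_w2 M q hqM A ζ hζ hex) (h98_hw2mul M q hqM A hA ζ hζ hex) (h98_hw2add M q hqM A hA ζ hζ hex)).B) ∈ 𝔪) →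
        (∃ hTB : (⟨(h59_jbar (M * q * q))⁻¹, h80_jbar_inv_mem_F0 (M * q * q) (A.inertiaSubgroupIn ℚ)⟩ : h69_F0 (M * q * q) (A.inertiaSubgroupIn ℚ)) ∈ (h80_fam2 (M * q * q) (A.inertiaSubgroupIn ℚ) (h98_w2 M q hqM A ζ hζ hex) (h98_hw2mul M q hqM A hA ζ hζ hex) (h98_hw2add M q hqM A hA ζ hζ hex)).B, (⟨(⟨(h59_jbar (M * q * q))⁻¹, h80_jbar_inv_mem_F0 (M * q * q) (A.inertiaSubgroupIn ℚ)⟩ : h69_F0 (M * q * q) (A.inertiaSubgroupIn ℚ)), hTB⟩ : (h80_fam2 (M * q * q) (A.inertiaSubgroupIn ℚ) (h98_w2 M q hqM A ζ hζ hex) (h98_hw2mul M q hqM A hA ζ hζ hex) (h98_hw2add M q hqM A hA ζ hζ hex)).B) ∈ 𝔪) → cusp2 𝔪) ∧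
    (∀ 𝔪 : Ideal (h80_fam2 (M * q * q) (A.inertiaSubgroupIn ℚ) (h98_w2 M q hqM A ζ hζ hex) (h98_hw2mul M q hqM A hA ζ hζ hex) (h98_hw2add M q hqM A hA ζ hζ hex)).B, 𝔪.IsMaximal → cusp2 𝔪 →
        ∃ k0 : Fin 3, ∀ k : Fin 3, (h80_fam2 (M * q * q) (A.inertiaSubgroupIn ℚ) (h98_w2 M q hqM A ζ hζ hex) (h98_hw2mul M q hqM A hA ζ hζ hex) (h98_hw2add M q hqM A hA ζ hζ hex)).Through 𝔪 (Sum.inl k) → k = k0) ∧
    (∀ 𝔪 : Ideal (h80_fam2 (M * q * q) (A.inertiaSubgroupIn ℚ) (h98_w2 M q hqM A ζ hζ hex) (h98_hw2mul M q hqM A hA ζ hζ hex) (h98_hw2add M q hqM A hA ζ hζ hex)).B, 𝔪.IsMaximal → cusp2 𝔪 → ∀ i, (h80_fam2 (M * q * q) (A.inertiaSubgroupIn ℚ) (h98_w2 M q hqM A ζ hζ hex) (h98_hw2mul M q hqM A hA ζ hζ hex) (h98_hw2add M q hqM A hA ζ hζ hex)).Through 𝔪 i →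
        ∃ e : h69_F0 (M * q * q) (A.inertiaSubgroupIn ℚ), e ≠ 0 ∧ (h80_fam2 (M * q * q) (A.inertiaSubgroupIn ℚ) (h98_w2 M q hqM A ζ hζ hex) (h98_hw2mul M q hqM A hA ζ hζ hex) (h98_hw2add M q hqM A hA ζ hζ hex)).v i e = 1 ∧ ∀ j, (h80_fam2 (M * q * q) (A.inertiaSubgroupIn ℚ) (h98_w2 M q hqM A ζ hζ hex) (h98_hw2mul M q hqM A hA ζ hζ hex) (h98_hw2add M q hqM A hA ζ hζ hex)).Through 𝔪 j → j ≠ i → (h80_fam2 (M * q * q) (A.inertiaSubgroupIn ℚ) (h98_w2 M q hqM A ζ hζ hex) (h98_hw2mul M q hqM A hA ζ hζ hex) (h98_hw2add M q hqM A hA ζ hζ hex)).v j e = 0) ∧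
    (∀ m : ℕ, 0 < m → Nat.Coprime q m → ∀ 𝔪 : Ideal (h80_fam2 (M * q * q) (A.inertiaSubgroupIn ℚ) (h98_w2 M q hqM A ζ hζ hex) (h98_hw2mul M q hqM A hA ζ hζ hex) (h98_hw2add M q hqM A hA ζ hζ hex)).B, 𝔪.IsMaximal → cusp2 𝔪 → ∀ e ω : h69_F0 (M * q * q) (A.inertiaSubgroupIn ℚ),
        (∀ c, (h80_fam2 (M * q * q) (A.inertiaSubgroupIn ℚ) (h98_w2 M q hqM A ζ hζ hex) (h98_hw2mul M q hqM A hA ζ hζ hex) (h98_hw2add M q hqM A hA ζ hζ hex)).Through 𝔪 c → 0 < (h80_fam2 (M * q * q) (A.inertiaSubgroupIn ℚ) (h98_w2 M q hqM A ζ hζ hex) (h98_hw2mul M q hqM A hA ζ hζ hex) (h98_hw2add M q hqM A hA ζ hζ hex)).v c ((q : ℕ) : h69_F0 (M * q * q) (A.inertiaSubgroupIn ℚ)) → 0 ≤ (h80_fam2 (M * q * q) (A.inertiaSubgroupIn ℚ) (h98_w2 M q hqM A ζ hζ hex) (h98_hw2mul M q hqM A hA ζ hζ hex) (h98_hw2add M q hqM A hA ζ hζ hex)).v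 c e) →
        ω ≠ 0 → (h80_fam2 (M * q * q) (A.inertiaSubgroupIn ℚ) (h98_w2 M q hqM A ζ hζ hex) (h98_hw2mul M q hqM A hA ζ hζ hex) (h98_hw2add M q hqM A hA ζ hζ hex)).InLoc 𝔪 ω → (h80_fam2 (M * q * q) (A.inertiaSubgroupIn ℚ) (h98_w2 M q hqM A ζ hζ hex) (h98_hw2mul M q hqM A hA ζ hζ hex) (h98_hw2add M q hqM A hA ζ hζ hex)).InLoc 𝔪 ω⁻¹ →
        (∀ c, (h80_fam2 (M * q * q) (A.inertiaSubgroupIn ℚ) (h98_w2 M q hqM A ζ hζ hex) (h98_hw2mul M q hqM A hA ζ hζ hex) (h98_hw2add M q hqM A hA ζ hζ hex)).Through 𝔪 c → 0 < (h80_fam2 (M * q * q) (A.inertiaSubgroupIn ℚ) (h98_w2 M q hqM A ζ hζ hex) (h98_hw2mul M q hqM A hA ζ hζ hex) (h98_hw2add M q hqM A hA ζ hζ hex)).v c ((q : ℕ) : h69_F0 (M * q * q) (A.inertiaSubgroupIn ℚ)) →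
          (e ^ m * ω = 1 ∨ (h80_fam2 (M * q * q) (A.inertiaSubgroupIn ℚ) (h98_w2 M q hqM A ζ hζ hex) (h98_hw2mul M q hqM A hA ζ hζ hex) (h98_hw2add M q hqM A hA ζ hζ hex)).v c ((q : ℕ) : h69_F0 (M * q * q) (A.inertiaSubgroupIn ℚ)) ≤ (h80_fam2 (M * q * q) (A.inertiaSubgroupIn ℚ) (h98_w2 M q hqM A ζ hζ hex) (h98_hw2mul M q hqM A hA ζ hζ hex) (h98_hw2add M q hqM A hA ζ hζ hex)).v c (e ^ m * ω - 1))) →
        ∃ (ξ : _ → h69_F0 (M * q * q) (A.inertiaSubgroupIn ℚ)) (y : h69_F0 (M * q * q) (A.inertiaSubgroupIn ℚ)),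
          (∀ c, (h80_fam2 (M * q * q) (A.inertiaSubgroupIn ℚ) (h98_w2 M q hqM A ζ hζ hex) (h98_hw2mul M q hqM A hA ζ hζ hex) (h98_hw2add M q hqM A hA ζ hζ hex)).Through 𝔪 c → 0 < (h80_fam2 (M * q * q) (A.inertiaSubgroupIn ℚ) (h98_w2 M q hqM A ζ hζ hex) (h98_hw2mul M q hqM A hA ζ hζ hex) (h98_hw2add M q hqM A hA ζ hζ hex)).v c ((q : ℕ) : h69_F0 (M * q * q) (A.inertiaSubgroupIn ℚ)) → (h80_fam2 (M * q * q) (A.inertiaSubgroupIn ℚ) (h98_w2 M q hqM A ζ hζ hex) (h98_hw2mul M q hqM A hA ζ hζ hex) (h98_hw2add M q hqM A hA ζ hζ hex)).InLoc 𝔪 (ξ c) ∧ ξ c ^ m = 1) ∧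
          y ≠ 0 ∧ (h80_fam2 (M * q * q) (A.inertiaSubgroupIn ℚ) (h98_w2 M q hqM A ζ hζ hex) (h98_hw2mul M q hqM A hA ζ hζ hex) (h98_hw2add M q hqM A hA ζ hζ hex)).InLoc 𝔪 y ∧ (h80_fam2 (M * q * q) (A.inertiaSubgroupIn ℚ) (h98_w2 M q hqM A ζ hζ hex) (h98_hw2mul M q hqM A hA ζ hζ hex) (h98_hw2add M q hqM A hA ζ hζ hex)).InLoc 𝔪 y⁻¹ ∧
          ∀ c, (h80_fam2 (M * q * q) (A.inertiaSubgroupIn ℚ) (h98_w2 M q hqM A ζ hζ hex) (h98_hw2mul M q hqM A hA ζ hζ hex) (h98_hw2add M q hqM A hA ζ hζ hex)).Through 𝔪 c → 0 < (h80_fam2 (M * q * q) (A.inertiaSubgroupIn ℚ) (h98_w2 M q hqM A ζ hζ hex) (h98_hw2mul M q hqM A hA ζ hζ hex) (h98_hw2add M q hqM A hA ζ hζ hex)).v c ((q : ℕ) : h69_F0 (M * q * q) (A.inertiaSubgroupIn ℚ)) →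
            (e = ξ c * y ∨ (h80_fam2 (M * q * q) (A.inertiaSubgroupIn ℚ) (h98_w2 M q hqM A ζ hζ hex) (h98_hw2mul M q hqM A hA ζ hζ hex) (h98_hw2add M q hqM A hA ζ hζ hex)).v c ((q : ℕ) : h69_F0 (M * q * q) (A.inertiaSubgroupIn ℚ)) ≤ (h80_fam2 (M * q * q) (A.inertiaSubgroupIn ℚ) (h98_w2 M q hqM A ζ hζ hex) (h98_hw2mul M q hqM A hA ζ hζ hex) (h98_hw2add M q hqM A hA ζ hζ hex)).v c (e - ξ c * y))) := by
  have hq : q.Prime := Fact.out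
  have key : ∀ n : ℕ, ¬ q ∣ n → _ := fun n hn =>
    h46_cusp_out (M * q * q) q A hA (h98_w2 M q hqM A ζ hζ hex)
      (h98_hw2mul M q hqM A hA ζ hζ hex) (h98_hw2add M q hqM A hA ζ hζ hex)
      (h69_hwA2 M q hqM A hA ζ hζ hex) (h69_w2_J0 M q hqM A hA ζ hζ hex)
      (h63_hqw_w2 M q hqM A hA ζ hζ hex) (h65_hvert_q2 M q hqM A hA ζ hζ hex)
      (h63_cusp2 M q hqM A hA ζ hζ hex) (h63_hcq_w2 M q hqM A hA ζ hζ hex)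
      (h63_hX2_w2 M q hqM A hA ζ hζ hex) hX3 (n := n) hn
  refine ⟨h63_cusp2 M q hqM A hA ζ hζ hex, h63_hcusp2_w2 M q hqM A hA ζ hζ hex,
    h63_hone2_w2 M q hqM A hA ζ hζ hex, ?_, ?_⟩
  · exact (key 1 (fun h => hq.one_lt.ne' (Nat.dvd_one.mp h))).1
  · intro m _ hqm
    exact (key m ((Nat.Prime.coprime_iff_not_dvd hq).1 hqm)).2

/-- **(X3)** = `hX3` of `h46_cusp_out` for `h63_cusp2` (from `h87_x3_hX3`). -/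
theorem h63_hX3_w2 (M q : ℕ) [NeZero M] [NeZero q] [Fact q.Prime] (hqM : ¬ q ∣ M)
    (A : ValuationSubring Qb) (hA : A.LiesOverPrime q) (ζ : Qb) (hζ : IsPrimitiveRoot ζ q)
    (hex : h98_Ex M q hqM A ζ hζ) (hch : 5 ≤ q ∨ 2 ∣ M ∨ 3 ∣ M) :
    ∀ 𝔪 : Ideal (h80_fam2 (M * q * q) (A.inertiaSubgroupIn ℚ) (h98_w2 M q hqM A ζ hζ hex) (h98_hw2mul M q hqM A hA ζ hζ hex) (h98_hw2add M q hqM A hA ζ hζ hex)).B, 𝔪.IsMaximal → h63_cusp2 M q hqM A hA ζ hζ hex 𝔪 →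
      ∀ c : Fin 3, (h80_fam2 (M * q * q) (A.inertiaSubgroupIn ℚ) (h98_w2 M q hqM A ζ hζ hex) (h98_hw2mul M q hqM A hA ζ hζ hex) (h98_hw2add M q hqM A hA ζ hζ hex)).Through 𝔪 (Sum.inl c) →
        ∃ (Fb : Type) (_ : Field Fb), Nonempty (h62_Res (h80_fam2 (M * q * q) (A.inertiaSubgroupIn ℚ) (h98_w2 M q hqM A ζ hζ hex) (h98_hw2mul M q hqM A hA ζ hζ hex) (h98_hw2add M q hqM A hA ζ hζ hex)) 𝔪 (Sum.inl c) Fb) := by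
  intro 𝔪 hmax hc c hthr
  have hqm := h63_hcq_w2 M q hqM A hA ζ hζ hex 𝔪 hmax hc
  obtain ⟨hTB, hTm⟩ := hc.2
  refine h87_x3_hX3 M q hqM A hA ζ hζ hex hch 𝔪 hmax hqm ⟨_, hTB⟩ hTm ?_ c hthr
  apply Subtype.ext
  show (h59_jbar (M * q * q))⁻¹ * h59_jbar (M * q * q) = 1
  exact inv_mul_cancel₀ (h54_isChart_jbar (M * q * q)).ne_zero

/-- **The I-CUSP block of `h94_Rows`**, closed (only the side condition `hch`). -/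
theorem h63_cusp_row (M q : ℕ) [NeZero M] [NeZero q] [Fact q.Prime] (hqM : ¬ q ∣ M)
    (A : ValuationSubring Qb) (hA : A.LiesOverPrime q) (ζ : Qb) (hζ : IsPrimitiveRoot ζ q)
    (hex : h98_Ex M q hqM A ζ hζ) (hch : 5 ≤ q ∨ 2 ∣ M ∨ 3 ∣ M) :
    ∃ cusp2 : Ideal (h80_fam2 (M * q * q) (A.inertiaSubgroupIn ℚ) (h98_w2 M q hqM A ζ hζ hex) (h98_hw2mul M q hqM A hA ζ hζ hex) (h98_hw2add M q hqM A hA ζ hζ hex)).B → Prop,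
    (∀ 𝔪 : Ideal (h80_fam2 (M * q * q) (A.inertiaSubgroupIn ℚ) (h98_w2 M q hqM A ζ hζ hex) (h98_hw2mul M q hqM A hA ζ hζ hex) (h98_hw2add M q hqM A hA ζ hζ hex)).B, 𝔪.IsMaximal →
        (∃ hq0B : ((q : ℕ) : h69_F0 (M * q * q) (A.inertiaSubgroupIn ℚ)) ∈ (h80_fam2 (M * q * q) (A.inertiaSubgroupIn ℚ) (h98_w2 M q hqM A ζ hζ hex) (h98_hw2mul M q hqM A hA ζ hζ hex) (h98_hw2add M q hqM A hA ζ hζ hex)).B, (⟨((q : ℕ) : h69_F0 (M * q * q) (A.inertiaSubgroupIn ℚ)), hq0B⟩ : (h80_fam2 (M * q * q) (A.inertiaSubgroupIn ℚ) (h98_w2 M q hqM A ζ hζ hex) (h98_hw2mul M q hqM A hA ζ hζ hex) (h98_hw2add M q hqM A hA ζ hζ hex)).B) ∈ 𝔪) →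
        (∃ hTB : (⟨(h59_jbar (M * q * q))⁻¹, h80_jbar_inv_mem_F0 (M * q * q) (A.inertiaSubgroupIn ℚ)⟩ : h69_F0 (M * q * q) (A.inertiaSubgroupIn ℚ)) ∈ (h80_fam2 (M * q * q) (A.inertiaSubgroupIn ℚ) (h98_w2 M q hqM A ζ hζ hex) (h98_hw2mul M q hqM A hA ζ hζ hex) (h98_hw2add M q hqM A hA ζ hζ hex)).B, (⟨(⟨(h59_jbar (M * q * q))⁻¹, h80_jbar_inv_mem_F0 (M * q * q) (A.inertiaSubgroupIn ℚ)⟩ : h69_F0 (M * q * q) (A.inertiaSubgroupIn ℚ)), hTB⟩ : (h80_fam2 (M * q * q) (A.inertiaSubgroupIn ℚ) (h98_w2 M q hqM A ζ hζ hex) (h98_hw2mul M q hqM A hA ζ hζ hex) (h98_hw2add M q hqM A hA ζ hζ hex)).B) ∈ 𝔪) → cusp2 𝔪) ∧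
    (∀ 𝔪 : Ideal (h80_fam2 (M * q * q) (A.inertiaSubgroupIn ℚ) (h98_w2 M q hqM A ζ hζ hex) (h98_hw2mul M q hqM A hA ζ hζ hex) (h98_hw2add M q hqM A hA ζ hζ hex)).B, 𝔪.IsMaximal → cusp2 𝔪 →
        ∃ k0 : Fin 3, ∀ k : Fin 3, (h80_fam2 (M * q * q) (A.inertiaSubgroupIn ℚ) (h98_w2 M q hqM A ζ hζ hex) (h98_hw2mul M q hqM A hA ζ hζ hex) (h98_hw2add M q hqM A hA ζ hζ hex)).Through 𝔪 (Sum.inl k) → k = k0) ∧
    (∀ 𝔪 : Ideal (h80_fam2 (M * q * q) (A.inertiaSubgroupIn ℚ) (h98_w2 M q hqM A ζ hζ hex) (h98_hw2mul M q hqM A hA ζ hζ hex) (h98_hw2add M q hqM A hA ζ hζ hex)).B, 𝔪.IsMaximal → cusp2 𝔪 → ∀ i, (h80_fam2 (M * q * q) (A.inertiaSubgroupIn ℚ) (h98_w2 M q hqM A ζ hζ hex) (h98_hw2mul M q hqM A hA ζ hζ hex) (h98_hw2add M q hqM A hA ζ hζ hex)).Through 𝔪 i →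
        ∃ e : h69_F0 (M * q * q) (A.inertiaSubgroupIn ℚ), e ≠ 0 ∧ (h80_fam2 (M * q * q) (A.inertiaSubgroupIn ℚ) (h98_w2 M q hqM A ζ hζ hex) (h98_hw2mul M q hqM A hA ζ hζ hex) (h98_hw2add M q hqM A hA ζ hζ hex)).v i e = 1 ∧ ∀ j, (h80_fam2 (M * q * q) (A.inertiaSubgroupIn ℚ) (h98_w2 M q hqM A ζ hζ hex) (h98_hw2mul M q hqM A hA ζ hζ hex) (h98_hw2add M q hqM A hA ζ hζ hex)).Through 𝔪 j → j ≠ i → (h80_fam2 (M * q * q) (A.inertiaSubgroupIn ℚ) (h98_w2 M q hqM A ζ hζ hex) (h98_hw2mul M q hqM A hA ζ hζ hex) (h98_hw2add M q hqM A hA ζ hζ hex)).v j e = 0) ∧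
    (∀ m : ℕ, 0 < m → Nat.Coprime q m → ∀ 𝔪 : Ideal (h80_fam2 (M * q * q) (A.inertiaSubgroupIn ℚ) (h98_w2 M q hqM A ζ hζ hex) (h98_hw2mul M q hqM A hA ζ hζ hex) (h98_hw2add M q hqM A hA ζ hζ hex)).B, 𝔪.IsMaximal → cusp2 𝔪 → ∀ e ω : h69_F0 (M * q * q) (A.inertiaSubgroupIn ℚ),
        (∀ c, (h80_fam2 (M * q * q) (A.inertiaSubgroupIn ℚ) (h98_w2 M q hqM A ζ hζ hex) (h98_hw2mul M q hqM A hA ζ hζ hex) (h98_hw2add M q hqM A hA ζ hζ hex)).Through 𝔪 c → 0 < (h80_fam2 (M * q * q) (A.inertiaSubgroupIn ℚ) (h98_w2 M q hqM A ζ hζ hex) (h98_hw2mul M q hqM A hA ζ hζ hex) (h98_hw2add M q hqM A hA ζ hζ hex)).v c ((q : ℕ) : h69_F0 (M * q * q) (A.inertiaSubgroupIn ℚ)) → 0 ≤ (h80_fam2 (M * q * q) (A.inertiaSubgroupIn ℚ) (h98_w2 M q hqM A ζ hζ hex) (h98_hw2mul M q hqM A hA ζ hζ hex) (h98_hw2add M q hqM A hA ζ hζ hex)).v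 c e) →
        ω ≠ 0 → (h80_fam2 (M * q * q) (A.inertiaSubgroupIn ℚ) (h98_w2 M q hqM A ζ hζ hex) (h98_hw2mul M q hqM A hA ζ hζ hex) (h98_hw2add M q hqM A hA ζ hζ hex)).InLoc 𝔪 ω → (h80_fam2 (M * q * q) (A.inertiaSubgroupIn ℚ) (h98_w2 M q hqM A ζ hζ hex) (h98_hw2mul M q hqM A hA ζ hζ hex) (h98_hw2add M q hqM A hA ζ hζ hex)).InLoc 𝔪 ω⁻¹ →
        (∀ c, (h80_fam2 (M * q * q) (A.inertiaSubgroupIn ℚ) (h98_w2 M q hqM A ζ hζ hex) (h98_hw2mul M q hqM A hA ζ hζ hex) (h98_hw2add M q hqM A hA ζ hζ hex)).Through 𝔪 c → 0 < (h80_fam2 (M * q * q) (A.inertiaSubgroupIn ℚ) (h98_w2 M q hqM A ζ hζ hex) (h98_hw2mul M q hqM A hA ζ hζ hex) (h98_hw2add M q hqM A hA ζ hζ hex)).v c ((q : ℕ) : h69_F0 (M * q * q) (A.inertiaSubgroupIn ℚ)) →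
          (e ^ m * ω = 1 ∨ (h80_fam2 (M * q * q) (A.inertiaSubgroupIn ℚ) (h98_w2 M q hqM A ζ hζ hex) (h98_hw2mul M q hqM A hA ζ hζ hex) (h98_hw2add M q hqM A hA ζ hζ hex)).v c ((q : ℕ) : h69_F0 (M * q * q) (A.inertiaSubgroupIn ℚ)) ≤ (h80_fam2 (M * q * q) (A.inertiaSubgroupIn ℚ) (h98_w2 M q hqM A ζ hζ hex) (h98_hw2mul M q hqM A hA ζ hζ hex) (h98_hw2add M q hqM A hA ζ hζ hex)).v c (e ^ m * ω - 1))) →
        ∃ (ξ : _ → h69_F0 (M * q * q) (A.inertiaSubgroupIn ℚ)) (y : h69_F0 (M * q * q) (A.inertiaSubgroupIn ℚ)),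
          (∀ c, (h80_fam2 (M * q * q) (A.inertiaSubgroupIn ℚ) (h98_w2 M q hqM A ζ hζ hex) (h98_hw2mul M q hqM A hA ζ hζ hex) (h98_hw2add M q hqM A hA ζ hζ hex)).Through 𝔪 c → 0 < (h80_fam2 (M * q * q) (A.inertiaSubgroupIn ℚ) (h98_w2 M q hqM A ζ hζ hex) (h98_hw2mul M q hqM A hA ζ hζ hex) (h98_hw2add M q hqM A hA ζ hζ hex)).v c ((q : ℕ) : h69_F0 (M * q * q) (A.inertiaSubgroupIn ℚ)) → (h80_fam2 (M * q * q) (A.inertiaSubgroupIn ℚ) (h98_w2 M q hqM A ζ hζ hex) (h98_hw2mul M q hqM A hA ζ hζ hex) (h98_hw2add M q hqM A hA ζ hζ hex)).InLoc 𝔪 (ξ c) ∧ ξ c ^ m = 1) ∧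
          y ≠ 0 ∧ (h80_fam2 (M * q * q) (A.inertiaSubgroupIn ℚ) (h98_w2 M q hqM A ζ hζ hex) (h98_hw2mul M q hqM A hA ζ hζ hex) (h98_hw2add M q hqM A hA ζ hζ hex)).InLoc 𝔪 y ∧ (h80_fam2 (M * q * q) (A.inertiaSubgroupIn ℚ) (h98_w2 M q hqM A ζ hζ hex) (h98_hw2mul M q hqM A hA ζ hζ hex) (h98_hw2add M q hqM A hA ζ hζ hex)).InLoc 𝔪 y⁻¹ ∧
          ∀ c, (h80_fam2 (M * q * q) (A.inertiaSubgroupIn ℚ) (h98_w2 M q hqM A ζ hζ hex) (h98_hw2mul M q hqM A hA ζ hζ hex) (h98_hw2add M q hqM A hA ζ hζ hex)).Through 𝔪 c → 0 < (h80_fam2 (M * q * q) (A.inertiaSubgroupIn ℚ) (h98_w2 M q hqM A ζ hζ hex) (h98_hw2mul M q hqM A hA ζ hζ hex) (h98_hw2add M q hqM A hA ζ hζ hex)).v c ((q : ℕ) : h69_F0 (M * q * q) (A.inertiaSubgroupIn ℚ)) →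
            (e = ξ c * y ∨ (h80_fam2 (M * q * q) (A.inertiaSubgroupIn ℚ) (h98_w2 M q hqM A ζ hζ hex) (h98_hw2mul M q hqM A hA ζ hζ hex) (h98_hw2add M q hqM A hA ζ hζ hex)).v c ((q : ℕ) : h69_F0 (M * q * q) (A.inertiaSubgroupIn ℚ)) ≤ (h80_fam2 (M * q * q) (A.inertiaSubgroupIn ℚ) (h98_w2 M q hqM A ζ hζ hex) (h98_hw2mul M q hqM A hA ζ hζ hex) (h98_hw2add M q hqM A hA ζ hζ hex)).v c (e - ξ c * y))) :=
  h63_cusp_row_of_X3 M q hqM A hA ζ hζ hex (h63_hX3_w2 M q hqM A hA ζ hζ hex hch)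

end Fermat.Agent.S36
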