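import Mathlib
import Fermat.Agent.S36.h63_MidSigma

/-!
# S36, row I-CUSP: the types of the cusps at levels `L q` and `L q²` (place form, any `L`)

* `h63_restrict_algHom` : restriction of a place along an algebra homomorphism of function
  fields (`ord_P ∘ φ = m · ord_{P₁}`, `m > 0`).
* `h63_two_cusps` : a pole of `j` in `F(q)` is the cusp `∞` or the cusp `0`.
* `h63_cusp_dich` : **(T1)** at level `L q` a pole `P` of `j0 = j` is of type `∞`
  (`ord j1 = q ord j0`, and then `(q - 1) ord j0 ≤ ord (j1 - j0 ^ q)`, i.e. `om - 1` vanishes to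
  order at least the width) or of type `0` (`ord j0 = q ord j1`); `j1 = β j`.
* `h63_cusp_table` : **(T2)** at level `L q²` a pole `P` of `J0` is of type `(∞, ∞)`, middle, or
  of type `0` along `α`, with the values of `G1 = J1 / J0 ^ q`, `G3 = J2 / J0 ^ (q²)`.
* `h63_mid_of_values` : `G1(P) = 1` and `G3(P) = 0` force the middle type, hence the vanishing
  of the cyclotomic sum of `J0 / J2` at `P`.
* `h63_b_regular` : `J2 · a · (1 - G3) ^ (q²)` is regular at every cusp (`a = 1 / J0`).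
-/

set_option autoImplicit false
set_option synthInstance.maxHeartbeats 400000
set_option linter.style.haveILetI false
set_option linter.unusedSectionVars false

noncomputable section

open ModularCurve AlgebraicCurve HahnSeries IntermediateField CongruenceSubgroup
open scoped MatrixGroups

namespace Fermat.Agent.S36

open Fermat.Agent.S34 Fermat.Agent.S37 Fermat.Agent.S24 Fermat.Agent.S18

local notation "Qb" => AlgebraicClosure ℚ

/-! ## Generic place calculus -/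

section Generic

variable {K E F : Type*} [Field K] [Field E] [Field F] [Algebra K E] [Algebra K F]

/-- Restriction of a place along an algebra homomorphism. -/
theorem h63_restrict_algHom (φ : E →ₐ[K] F) (P : Place K F) (f₀ : E)
    (h0 : P.ord (φ f₀) ≠ 0) :
    ∃ (P1 : Place K E) (m : ℤ), 0 < m ∧ ∀ f : E, P.ord (φ f) = m * P1.ord f := by
  have hw := h46_isOrd_comp φ P
  have hf0 : f₀ ≠ 0 := by
    rintro rfl
    rw [map_zero, Place.ord_zero] at h0
    exact h0 rfl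
  have hnt : ∃ f : E, f ≠ 0 ∧ P.ord (φ f) ≠ 0 := ⟨f₀, hf0, h0⟩
  obtain ⟨m, hm, -, hmf⟩ := h56_placeOfOrd_ord hw hnt
  refine ⟨h56_placeOfOrd _ hw hnt, m, hm, fun f => ?_⟩
  by_cases hf : f = 0
  · subst hf
    rw [map_zero, Place.ord_zero, Place.ord_zero, mul_zero]
  · exact hmf f hf

theorem h63_ord_one (P : Place K F) : P.ord (1 : F) = 0 := by
  have := h35_ord_algebraMap P (1 : K)
  rwa [map_one] at this

/-- `f = 0` or `ord f ≥ n`. -/
def h63_Ge (P : Place K F) (n : ℤ) (f : F) : Prop := f = 0 ∨ n ≤ P.ord f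

theorem h63_Ge.add {P : Place K F} {n : ℤ} {f g : F} (hf : h63_Ge P n f) (hg : h63_Ge P n g) :
    h63_Ge P n (f + g) := by
  by_cases hf0 : f = 0
  · subst hf0; rwa [zero_add]
  by_cases hg0 : g = 0
  · subst hg0; rwa [add_zero]
  by_cases hfg : f + g = 0
  · exact Or.inl hfg
  right
  have h1 := h35_ord_add P hf0 hg0 hfg
  have h2 := hf.resolve_left hf0
  have h3 := hg.resolve_left hg0
  exact le_trans (le_min h2 h3) h1

theorem h63_Ge.mul {P : Place K F} {n : ℤ} {f g : F} (hf : h63_Ge P n f) (hg : h63_Ge P 0 g) :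
    h63_Ge P n (f * g) := by
  by_cases hf0 : f = 0
  · subst hf0; left; rw [zero_mul]
  by_cases hg0 : g = 0
  · subst hg0; left; rw [mul_zero]
  right
  rw [P.ord_mul hf0 hg0]
  have h2 := hf.resolve_left hf0
  have h3 := hg.resolve_left hg0
  omega

theorem h63_Ge.mono {P : Place K F} {n m : ℤ} {f : F} (hf : h63_Ge P n f) (hmn : m ≤ n) :
    h63_Ge P m f := by
  rcases hf with h | h
  · exact Or.inl h
  · exact Or.inr (le_trans hmn h)

theorem h63_Ge.of_sub_one {P : Place K F} {n : ℤ} (hn : 0 ≤ n) {y : F}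
    (hy : h63_Ge P n (y - 1)) : h63_Ge P 0 y := by
  have h1 : h63_Ge P 0 (1 : F) := Or.inr (by rw [h63_ord_one])
  have := (hy.mono hn).add h1
  rwa [sub_add_cancel] at this

theorem h63_Ge.mul_sub_one {P : Place K F} {n : ℤ} (hn : 0 ≤ n) {x y : F}
    (hx : h63_Ge P n (x - 1)) (hy : h63_Ge P n (y - 1)) : h63_Ge P n (x * y - 1) := by
  have e : x * y - 1 = (x - 1) * y + (y - 1) := by ring
  rw [e]
  exact (hx.mul (hy.of_sub_one hn)).add hy

theorem h63_Ge.pow_sub_one {P : Place K F} {n : ℤ} (hn : 0 ≤ n) {y : F}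
    (hy : h63_Ge P n (y - 1)) (k : ℕ) : h63_Ge P n (y ^ k - 1) := by
  induction k with
  | zero => left; rw [pow_zero, sub_self]
  | succ k ih =>
    rw [pow_succ]
    exact ih.mul_sub_one hn hy

/-- An element congruent to `1` has order `0`. -/
theorem h63_ord_eq_zero_of_sub_one (P : Place K F) {x : F} (h : 0 < P.ord (x - 1)) :
    x ≠ 0 ∧ P.ord x = 0 := by
  have hx1 : x - 1 ≠ 0 := by
    intro h0
    rw [h0, Place.ord_zero] at h
    exact lt_irrefl 0 h
  have hx : x ≠ 0 := by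
    rintro rfl
    rw [zero_sub, h35_ord_neg, h63_ord_one] at h
    exact lt_irrefl 0 h
  refine ⟨hx, ?_⟩
  have h1 : h63_Ge P 0 x := h63_Ge.of_sub_one (n := 1) (by norm_num) (Or.inr (by omega))
  have h2 := h1.resolve_left hx
  by_contra hne
  have h3 : 0 < P.ord x := lt_of_le_of_ne h2 (Ne.symm hne)
  have h4 := h35_ord_add P hx (neg_ne_zero.mpr hx1) (by
    have e : x + -(x - 1) = 1 := by ring
    rw [e]; exact one_ne_zero)
  have e : x + -(x - 1) = 1 := by ring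
  rw [e, h63_ord_one, h35_ord_neg] at h4
  have := lt_min h3 h
  omega

theorem h63_ord_pow (P : Place K F) (f : F) (n : ℕ) : P.ord (f ^ n) = n * P.ord f := by
  rw [← zpow_natCast, Place.ord_zpow]

/-- `ord (a / b ^ n - 1) = ord (a - b ^ n) - n ord b`. -/
theorem h63_ord_ratio_sub_one (P : Place K F) {a b : F} (hb : b ≠ 0) (n : ℕ)
    (hD : a - b ^ n ≠ 0) :
    P.ord (a * b⁻¹ ^ n - 1) = P.ord (a - b ^ n) - n * P.ord b := by
  have e : a * b⁻¹ ^ n - 1 = (a - b ^ n) * b⁻¹ ^ n := by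
    rw [sub_mul, inv_pow, mul_inv_cancel₀ (pow_ne_zero _ hb)]
  rw [e, P.ord_mul hD (pow_ne_zero _ (inv_ne_zero hb)), h63_ord_pow, Place.ord_inv]
  ring

end Generic

/-! ## Level `q` -/

section LevelQ

variable (q : ℕ) [NeZero q] [Fact q.Prime]

/-- A pole of `j` in `F(q)` is the cusp `∞` or the cusp `0`. -/
theorem h63_two_cusps (hq1 : ¬ q ∣ 1) (P : Place Qb ↥(modularFunctionFieldBar (1 * q)))
    (h0 : P.ord (heckeAlphaBar Qb 1 q (h59_jbar 1)) < 0) :
    h10_IsCusp (modularFunctionFieldBar (1 * q)) P ∨ h10_IsCusp0 1 q (h60_w 1 q hq1) P := by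
  have hq : q.Prime := Fact.out
  have hwα := h60_w_alpha 1 q hq1
  have hwβ := h60_w_beta 1 q hq1
  obtain ⟨PM, hPM⟩ := h10_exists_cusp (F := modularFunctionFieldBar 1)
    ⟨h59_jbar 1, h10_order_jbar 1⟩
  obtain ⟨Pinf, hPinf⟩ := h10_exists_cusp (F := modularFunctionFieldBar (1 * q))
    ⟨h59_jbar (1 * q), h10_order_jbar (1 * q)⟩
  obtain ⟨P0, hP0⟩ := h10_exists_cusp0 (h60_w 1 q hq1) hwα hwβ
  by_cases h1 : P = Pinf
  · subst h1; exact Or.inl hPinf
  by_cases h2 : P = P0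
  · subst h2; exact Or.inr hP0
  have := h10_polar_alpha hwα hq hq1 hPM hPinf hP0 (h59_jbar 1)
    (h63_level_one_regular hPM) P h1 h2
  omega

/-- `j1 ≠ j0 ^ q` at level `q`. -/
theorem h63_D1_ne_zero :
    heckeBetaBar Qb 1 q (h59_jbar 1) - heckeAlphaBar Qb 1 q (h59_jbar 1) ^ q ≠ 0 := by
  have hq : q.Prime := Fact.out
  have hq1 : ¬ q ∣ 1 := hq.not_dvd_one
  intro h
  have h1 : heckeBetaBar Qb 1 q (h59_jbar 1) = heckeAlphaBar Qb 1 q (h59_jbar 1) ^ q :=
    sub_eq_zero.mp h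
  have h2 := congrArg (h60_w 1 q hq1) h1
  rw [map_pow, h60_w_alpha, h60_w_beta] at h2
  have h3 := congrArg (fun f : ↥(modularFunctionFieldBar (1 * q)) =>
    (f : LaurentSeries Qb).order) h2
  beta_reduce at h3
  rw [SubmonoidClass.coe_pow, HahnSeries.order_pow, h10_order_alpha, h10_order_beta,
    h10_order_jbar, nsmul_eq_mul] at h3
  have h4 : (2 : ℤ) ≤ q := by exact_mod_cast hq.two_le
  nlinarith

/-- The expansion of `j1 - j0 ^ q` has no term of degree `≤ -q`. -/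
theorem h63_D1_order :
    1 - (q : ℤ) ≤ ((heckeBetaBar Qb 1 q (h59_jbar 1) - heckeAlphaBar Qb 1 q (h59_jbar 1) ^ q :
      ↥(modularFunctionFieldBar (1 * q))) : LaurentSeries Qb).order := by
  have hq : q.Prime := Fact.out
  set u : LaurentSeries Qb := coeffEmb Qb jq with hu
  have hD : ((heckeBetaBar Qb 1 q (h59_jbar 1) - heckeAlphaBar Qb 1 q (h59_jbar 1) ^ q :
      ↥(modularFunctionFieldBar (1 * q))) : LaurentSeries Qb) = qExpand Qb q u - u ^ q := by
    rw [AddSubgroupClass.coe_sub, SubmonoidClass.coe_pow, coe_heckeBetaBar, coe_heckeAlphaBar,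
      h59_coe_jbar]
  rw [hD]
  by_contra hlt
  push Not at hlt
  have hne : qExpand Qb q u - u ^ q ≠ 0 := by
    intro h0
    rw [h0, HahnSeries.order_zero] at hlt
    have : (1 : ℤ) ≤ q := by exact_mod_cast hq.one_lt.le
    omega
  apply (HahnSeries.coeff_order_eq_zero.not).mpr hne
  set k := (qExpand Qb q u - u ^ q).order with hk
  rw [HahnSeries.coeff_sub]
  rcases (show k = -(q : ℤ) ∨ k < -(q : ℤ) by omega) with h | h
  · rw [h, h59_coeff_coeffEmb_jq_pow_self Qb q]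
    have e : -(q : ℤ) = (q : ℤ) * (-1) := by ring
    rw [e, qExpand_coeff_mul]
    have := h59_coeff_coeffEmb_jq_pow_self Qb 1
    rw [pow_one] at this
    have e1 : (-((1 : ℕ) : ℤ)) = -1 := by norm_num
    rw [e1] at this
    rw [this, sub_self]
  · rw [h59_coeff_coeffEmb_jq_pow_of_lt Qb h, sub_zero]
    by_cases hd : (q : ℤ) ∣ k
    · obtain ⟨k', hk'⟩ := hd
      rw [hk', qExpand_coeff_mul]
      have hk1 : k' < -((1 : ℕ) : ℤ) := by
        have hqpos : (0 : ℤ) < q := by exact_mod_cast hq.pos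
        push_cast
        by_contra hge
        push Not at hge
        have : (q : ℤ) * (-1) ≤ (q : ℤ) * k' := mul_le_mul_of_nonneg_left hge hqpos.le
        omega
      have := h59_coeff_coeffEmb_jq_pow_of_lt Qb hk1
      rwa [pow_one] at this
    · exact qExpand_coeff_of_not_dvd q u hd

/-- The orders of `j0 = α j`, `j1 = β j` and `j1 - j0 ^ q` at a pole of `j0` in `F(q)`. -/
theorem h63_types_q (P : Place Qb ↥(modularFunctionFieldBar (1 * q)))
    (h0 : P.ord (heckeAlphaBar Qb 1 q (h59_jbar 1)) < 0) :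
    (P.ord (heckeAlphaBar Qb 1 q (h59_jbar 1)) = -1 ∧
      P.ord (heckeBetaBar Qb 1 q (h59_jbar 1)) = -(q : ℤ) ∧
      1 - (q : ℤ) ≤ P.ord (heckeBetaBar Qb 1 q (h59_jbar 1)
        - heckeAlphaBar Qb 1 q (h59_jbar 1) ^ q)) ∨
    (P.ord (heckeAlphaBar Qb 1 q (h59_jbar 1)) = -(q : ℤ) ∧
      P.ord (heckeBetaBar Qb 1 q (h59_jbar 1)) = -1) := by
  have hq : q.Prime := Fact.out
  have hq1 : ¬ q ∣ 1 := hq.not_dvd_one
  rcases h63_two_cusps q hq1 P h0 with hP | hP
  · left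
    refine ⟨?_, ?_, ?_⟩
    · rw [hP.ord_eq, h10_order_alpha, h10_order_jbar]
    · rw [hP.ord_eq, h10_order_beta, h10_order_jbar]; ring
    · rw [hP.ord_eq]; exact h63_D1_order q
  · right
    have hwα := h60_w_alpha 1 q hq1
    have hwβ := h60_w_beta 1 q hq1
    refine ⟨?_, ?_⟩
    · rw [h10_ord0_alpha hwα hP, h10_order_jbar]; ring
    · rw [h10_ord0_beta hwβ hP, h10_order_jbar]

end LevelQ

/-! ## Level `L q` -/

section LevelLq

variable (L q : ℕ) [NeZero L] [NeZero q]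

theorem h63_jbar_ne_zero (N : ℕ) [NeZero N] : h59_jbar N ≠ 0 := by
  intro h
  have := h10_order_jbar N
  rw [h] at this
  simp at this

/-- The inclusion `F(q) ⊆ F(L q)`. -/
def h63_inclq : ↥(modularFunctionFieldBar (1 * q)) →ₐ[Qb] ↥(modularFunctionFieldBar (L * q)) :=
  IntermediateField.inclusion (h46_bar_le (N := 1 * q) (N₁ := L * q) ⟨L, by ring⟩)

theorem h63_coe_inclq (f : ↥(modularFunctionFieldBar (1 * q))) :
    ((h63_inclq L q f : ↥(modularFunctionFieldBar (L * q))) : LaurentSeries Qb) = f :=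
  IntermediateField.coe_inclusion _ f

theorem h63_inclq_j0 :
    h63_inclq L q (heckeAlphaBar Qb 1 q (h59_jbar 1)) = h59_jbar (L * q) := by
  apply Subtype.ext
  rw [h63_coe_inclq, coe_heckeAlphaBar, h59_coe_jbar, h59_coe_jbar]

theorem h63_inclq_j1 :
    h63_inclq L q (heckeBetaBar Qb 1 q (h59_jbar 1)) = heckeBetaBar Qb L q (h59_jbar L) := by
  apply Subtype.ext
  rw [h63_coe_inclq, coe_heckeBetaBar, coe_heckeBetaBar, h59_coe_jbar, h59_coe_jbar]

variable [Fact q.Prime]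

/-- `j1 ≠ j0 ^ q` at level `L q`. -/
theorem h63_Dl_ne_zero : heckeBetaBar Qb L q (h59_jbar L) - h59_jbar (L * q) ^ q ≠ 0 := by
  have h := h63_D1_ne_zero q
  have h1 : h63_inclq L q (heckeBetaBar Qb 1 q (h59_jbar 1)
      - heckeAlphaBar Qb 1 q (h59_jbar 1) ^ q)
      = heckeBetaBar Qb L q (h59_jbar L) - h59_jbar (L * q) ^ q := by
    rw [map_sub, map_pow, h63_inclq_j0, h63_inclq_j1]
  rw [← h1]
  exact (map_ne_zero (h63_inclq L q)).mpr h

/-- **(T1)** The two types of cusps at level `L q`: type `∞` (`ord j1 = q ord j0`, and then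
`j1 - j0 ^ q` has order at least `(q - 1) ord j0`) or type `0` (`ord j0 = q ord j1`). -/
theorem h63_cusp_dich (P : Place Qb ↥(modularFunctionFieldBar (L * q)))
    (h0 : P.ord (h59_jbar (L * q)) < 0) :
    (P.ord (heckeBetaBar Qb L q (h59_jbar L)) = q * P.ord (h59_jbar (L * q)) ∧
      ((q : ℤ) - 1) * P.ord (h59_jbar (L * q))
        ≤ P.ord (heckeBetaBar Qb L q (h59_jbar L) - h59_jbar (L * q) ^ q)) ∨
    P.ord (h59_jbar (L * q)) = q * P.ord (heckeBetaBar Qb L q (h59_jbar L)) := by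
  obtain ⟨P1, m, hm, hP1⟩ := h63_restrict_algHom (h63_inclq L q) P
    (heckeAlphaBar Qb 1 q (h59_jbar 1)) (by rw [h63_inclq_j0]; exact ne_of_lt h0)
  have e0 := hP1 (heckeAlphaBar Qb 1 q (h59_jbar 1))
  have e1 := hP1 (heckeBetaBar Qb 1 q (h59_jbar 1))
  have eD := hP1 (heckeBetaBar Qb 1 q (h59_jbar 1) - heckeAlphaBar Qb 1 q (h59_jbar 1) ^ q)
  rw [h63_inclq_j0] at e0
  rw [h63_inclq_j1] at e1
  rw [map_sub, map_pow, h63_inclq_j0, h63_inclq_j1] at eD
  have g0 : P1.ord (heckeAlphaBar Qb 1 q (h59_jbar 1)) < 0 := by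
    rw [e0] at h0
    by_contra h
    push Not at h
    have := mul_nonneg hm.le h
    omega
  rcases h63_types_q q P1 g0 with ⟨a, b, c⟩ | ⟨a, b⟩
  · left
    rw [e0, e1, eD, a, b]
    refine ⟨by ring, ?_⟩
    nlinarith
  · right
    rw [e0, e1, a, b]
    ring

/-- At a cusp of type `∞` of level `L q`, `om - 1` vanishes to order at least the width
(`om = j1 / j0 ^ q`). -/
theorem h63_om_ge (P : Place Qb ↥(modularFunctionFieldBar (L * q)))
    (h0 : P.ord (h59_jbar (L * q)) < 0)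
    (h1 : P.ord (heckeBetaBar Qb L q (h59_jbar L)) = q * P.ord (h59_jbar (L * q))) :
    -P.ord (h59_jbar (L * q))
      ≤ P.ord (heckeBetaBar Qb L q (h59_jbar L) * (h59_jbar (L * q))⁻¹ ^ q - 1) := by
  have hq : q.Prime := Fact.out
  have hq2 : (2 : ℤ) ≤ q := by exact_mod_cast hq.two_le
  have hj := h63_jbar_ne_zero (L * q)
  have hD := h63_Dl_ne_zero L q
  rw [h63_ord_ratio_sub_one P hj q hD]
  rcases h63_cusp_dich L q P h0 with ⟨-, t2⟩ | t
  · linarith
  · exfalso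
    rw [t] at h1 h0
    have h3 : P.ord (heckeBetaBar Qb L q (h59_jbar L)) * ((q : ℤ) * q - 1) = 0 := by
      linear_combination -h1
    have h4 : (q : ℤ) * q - 1 ≠ 0 := by nlinarith
    rw [(mul_eq_zero.mp h3).resolve_right h4, mul_zero] at h0
    exact lt_irrefl 0 h0

end LevelLq

/-! ## Level `L q²` -/

section LevelLqq

variable (L q : ℕ) [NeZero L] [NeZero q]

local notation "J0" => h59_jbar (L * q * q)
local notation "J1" => heckeBetaBar Qb (L * q) q (h59_jbar (L * q))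
local notation "J2" => heckeBetaBar Qb (L * q) q (heckeBetaBar Qb L q (h59_jbar L))

theorem h63_i0_j0 : heckeAlphaBar Qb (L * q) q (h59_jbar (L * q)) = J0 :=
  Subtype.ext (by rw [coe_heckeAlphaBar, h59_coe_jbar, h59_coe_jbar])

theorem h63_i0_j1 : heckeAlphaBar Qb (L * q) q (heckeBetaBar Qb L q (h59_jbar L)) = J1 :=
  Subtype.ext (by
    rw [coe_heckeAlphaBar, coe_heckeBetaBar, coe_heckeBetaBar, h59_coe_jbar, h59_coe_jbar])

theorem h63_J1_ne_zero : J1 ≠ 0 :=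
  (map_ne_zero _).mpr (h63_jbar_ne_zero (L * q))

variable [Fact q.Prime]

/-- `J1 ≠ J0 ^ q`. -/
theorem h63_G1_ne : J1 - J0 ^ q ≠ 0 := by
  have h := h63_Dl_ne_zero L q
  have h1 : heckeAlphaBar Qb (L * q) q
      (heckeBetaBar Qb L q (h59_jbar L) - h59_jbar (L * q) ^ q) = J1 - J0 ^ q := by
    rw [map_sub, map_pow, h63_i0_j0, h63_i0_j1]
  rw [← h1]
  exact (map_ne_zero _).mpr h

/-- `J2 ≠ J1 ^ q`. -/
theorem h63_G2_ne : J2 - J1 ^ q ≠ 0 := by
  have h := h63_Dl_ne_zero L q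
  rw [← map_pow, ← map_sub]
  exact (map_ne_zero _).mpr h

omit [NeZero L] in
/-- `J2 ≠ J0 ^ (q²)` at level `q²` (Atkin–Lehner swap). -/
theorem h63_G3_ne_one_level :
    heckeBetaBar Qb (1 * q) q (heckeBetaBar Qb 1 q (h59_jbar 1))
      - h59_jbar (1 * q * q) ^ (q ^ 2) ≠ 0 := by
  have hq : q.Prime := Fact.out
  have hq1 : ¬ q ∣ 1 := hq.not_dvd_one
  intro h
  have h1 : heckeBetaBar Qb (1 * q) q (heckeBetaBar Qb 1 q (h59_jbar 1))
      = h59_jbar (1 * q * q) ^ (q ^ 2) := sub_eq_zero.mp h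
  have hW0 : h36_W 1 q hq1 (h59_jbar (1 * q * q))
      = heckeBetaBar Qb (1 * q) q (heckeBetaBar Qb 1 q (h59_jbar 1)) := by
    have e1 : h59_jbar (1 * q * q) = h36_i0 1 q (heckeAlphaBar Qb 1 q (h59_jbar 1)) := by
      rw [h63_J0_eq]; rfl
    rw [e1, h36_W_i0]
    show heckeBetaBar Qb (1 * q) q (h60_w 1 q hq1 (heckeAlphaBar Qb 1 q (h59_jbar 1))) = _
    rw [h60_w_alpha]
  have hW2 : h36_W 1 q hq1 (heckeBetaBar Qb (1 * q) q (heckeBetaBar Qb 1 q (h59_jbar 1)))
      = h59_jbar (1 * q * q) := by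
    rw [← hW0, h36_W_W]
  have h2 := congrArg (h36_W 1 q hq1) h1
  rw [map_pow, hW0, hW2] at h2
  have h3 := congrArg (fun f : ↥(modularFunctionFieldBar (1 * q * q)) =>
    (f : LaurentSeries Qb).order) h2
  beta_reduce at h3
  rw [SubmonoidClass.coe_pow, HahnSeries.order_pow, h10_order_jbar, h63_J2_order 1 q,
    nsmul_eq_mul] at h3
  have h4 : (2 : ℤ) ≤ q := by exact_mod_cast hq.two_le
  push_cast at h3
  have h5 : (4 : ℤ) ≤ (q : ℤ) ^ 2 := by nlinarith
  have h6 : (4 : ℤ) ≤ (q : ℤ) * q := by nlinarith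
  nlinarith

/-- `J2 ≠ J0 ^ (q²)`. -/
theorem h63_G3_ne : J2 - J0 ^ (q ^ 2) ≠ 0 := by
  have h := h63_G3_ne_one_level q
  have h1 : h63_incl L q (heckeBetaBar Qb (1 * q) q (heckeBetaBar Qb 1 q (h59_jbar 1))
      - h59_jbar (1 * q * q) ^ (q ^ 2)) = J2 - J0 ^ (q ^ 2) := by
    rw [map_sub, map_pow, h63_incl_J0, h63_incl_J2]
  rw [← h1]
  exact (map_ne_zero _).mpr h

/-- The type of a cusp of `F(L q²)` along `α`. -/
theorem h63_type_i0 (P : Place Qb ↥(modularFunctionFieldBar (L * q * q)))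
    (h0 : P.ord J0 < 0) :
    (P.ord J1 = q * P.ord J0 ∧ ((q : ℤ) - 1) * P.ord J0 ≤ P.ord (J1 - J0 ^ q)) ∨
    P.ord J0 = q * P.ord J1 := by
  obtain ⟨P', e, he, hP'⟩ := h63_restrict_algHom (heckeAlphaBar Qb (L * q) q) P
    (h59_jbar (L * q)) (by rw [h63_i0_j0]; exact ne_of_lt h0)
  have a0 := hP' (h59_jbar (L * q))
  have a1 := hP' (heckeBetaBar Qb L q (h59_jbar L))
  have aD := hP' (heckeBetaBar Qb L q (h59_jbar L) - h59_jbar (L * q) ^ q)
  rw [h63_i0_j0] at a0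
  rw [h63_i0_j1] at a1
  rw [map_sub, map_pow, h63_i0_j0, h63_i0_j1] at aD
  have g0 : P'.ord (h59_jbar (L * q)) < 0 := by
    rw [a0] at h0
    by_contra h
    push Not at h
    have := mul_nonneg he.le h
    omega
  rcases h63_cusp_dich L q P' g0 with ⟨t1, t2⟩ | t
  · left
    rw [a0, a1, aD, t1]
    refine ⟨by ring, ?_⟩
    have := mul_le_mul_of_nonneg_left t2 he.le
    linarith
  · right
    rw [a0, a1, t]
    ring

/-- The type of a cusp of `F(L q²)` along `β`. -/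
theorem h63_type_sh (P : Place Qb ↥(modularFunctionFieldBar (L * q * q)))
    (h1 : P.ord J1 < 0) :
    (P.ord J2 = q * P.ord J1 ∧ ((q : ℤ) - 1) * P.ord J1 ≤ P.ord (J2 - J1 ^ q)) ∨
    P.ord J1 = q * P.ord J2 := by
  obtain ⟨P', e, he, hP'⟩ := h63_restrict_algHom (heckeBetaBar Qb (L * q) q) P
    (h59_jbar (L * q)) (ne_of_lt h1)
  have a0 := hP' (h59_jbar (L * q))
  have a1 := hP' (heckeBetaBar Qb L q (h59_jbar L))
  have aD := hP' (heckeBetaBar Qb L q (h59_jbar L) - h59_jbar (L * q) ^ q)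
  rw [map_sub, map_pow] at aD
  have g0 : P'.ord (h59_jbar (L * q)) < 0 := by
    rw [a0] at h1
    by_contra h
    push Not at h
    have := mul_nonneg he.le h
    omega
  rcases h63_cusp_dich L q P' g0 with ⟨t1, t2⟩ | t
  · left
    rw [a0, a1, aD, t1]
    refine ⟨by ring, ?_⟩
    have := mul_le_mul_of_nonneg_left t2 he.le
    linarith
  · right
    rw [a0, a1, t]
    ring

/-- `G3 - 1 ≠ 0`. -/
theorem h63_G3_sub_one_ne : J2 * J0⁻¹ ^ (q ^ 2) - 1 ≠ 0 := by
  have hJ0 := h63_J0_ne_zero L q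
  have e2 : J2 * J0⁻¹ ^ (q ^ 2) - 1 = (J2 - J0 ^ (q ^ 2)) * J0⁻¹ ^ (q ^ 2) := by
    rw [sub_mul, inv_pow, mul_inv_cancel₀ (pow_ne_zero _ hJ0)]
  rw [e2]
  exact mul_ne_zero (h63_G3_ne L q) (pow_ne_zero _ (inv_ne_zero hJ0))

/-- **(T2) The cusp table at level `L q²`.** A pole `P` of `J0` is of type `(∞, ∞)`
(`G1 - 1`, `G3 - 1` vanish to order at least the width `-ord J0`), of middle type
(`G1 - 1` vanishes to order at least the width), or of type `0` along `α`.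
Here `G1 = J1 / J0 ^ q`, `G3 = J2 / J0 ^ (q²)`. -/
theorem h63_cusp_table (P : Place Qb ↥(modularFunctionFieldBar (L * q * q)))
    (h0 : P.ord J0 < 0) :
    (P.ord J1 = q * P.ord J0 ∧ P.ord J2 = q * P.ord J1 ∧
      -P.ord J0 ≤ P.ord (J1 * J0⁻¹ ^ q - 1) ∧
      -P.ord J0 ≤ P.ord (J2 * J0⁻¹ ^ (q ^ 2) - 1)) ∨
    (P.ord J1 = q * P.ord J0 ∧ P.ord J1 = q * P.ord J2 ∧
      -P.ord J0 ≤ P.ord (J1 * J0⁻¹ ^ q - 1)) ∨
    (P.ord J0 = q * P.ord J1 ∧ (P.ord J2 = q * P.ord J1 ∨ P.ord J1 = q * P.ord J2)) := by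
  have hq : q.Prime := Fact.out
  have hq2 : (2 : ℤ) ≤ q := by exact_mod_cast hq.two_le
  have hJ0 := h63_J0_ne_zero L q
  have hJ1 := h63_J1_ne_zero L q
  have hJ2 := h63_J2_ne_zero L q
  rcases h63_type_i0 L q P h0 with ⟨c1, cD⟩ | t
  · have hy : -P.ord J0 ≤ P.ord (J1 * J0⁻¹ ^ q - 1) := by
      rw [h63_ord_ratio_sub_one P hJ0 q (h63_G1_ne L q)]
      linarith
    have h1 : P.ord J1 < 0 := by
      rw [c1]
      nlinarith
    rcases h63_type_sh L q P h1 with ⟨c2, sD⟩ | s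
    · left
      refine ⟨c1, c2, hy, ?_⟩
      have hx : -P.ord J1 ≤ P.ord (J2 * J1⁻¹ ^ q - 1) := by
        rw [h63_ord_ratio_sub_one P hJ1 q (h63_G2_ne L q)]
        linarith
      have hn : 0 ≤ -P.ord J0 := by omega
      have hx' : h63_Ge P (-P.ord J0) (J2 * J1⁻¹ ^ q - 1) := Or.inr (by
        rw [c1] at hx
        nlinarith)
      have hy' : h63_Ge P (-P.ord J0) (J1 * J0⁻¹ ^ q - 1) := Or.inr hy
      have hxy := hx'.mul_sub_one hn (hy'.pow_sub_one hn q)
      have e : J2 * J1⁻¹ ^ q * (J1 * J0⁻¹ ^ q) ^ q = J2 * J0⁻¹ ^ (q ^ 2) := by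
        rw [mul_pow, ← pow_mul, ← pow_two, inv_pow, inv_pow]
        field_simp
      rw [e] at hxy
      exact hxy.resolve_left (h63_G3_sub_one_ne L q)
    · right; left
      exact ⟨c1, s, hy⟩
  · right; right
    have h1 : P.ord J1 < 0 := by
      rw [t] at h0
      by_contra h
      push Not at h
      have := mul_nonneg (show (0 : ℤ) ≤ q by omega) h
      omega
    refine ⟨t, ?_⟩
    rcases h63_type_sh L q P h1 with ⟨c2, -⟩ | s
    · exact Or.inl c2
    · exact Or.inr s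

/-- **The middle type from the values of `G1`, `G3`.** A pole `P` of `J0` with `G1(P) = 1` and
`G3(P) = 0` is of middle type, and the cyclotomic sum of `J0 / J2` vanishes at `P`. -/
theorem h63_mid_of_values (P : Place Qb ↥(modularFunctionFieldBar (L * q * q)))
    (h0 : P.ord J0 < 0)
    (hG1 : 0 < P.ord (J1 * J0⁻¹ ^ q - 1)) (hG3 : 0 < P.ord (J2 * J0⁻¹ ^ (q ^ 2))) :
    P.ord J1 = q * P.ord J0 ∧ P.ord J1 = q * P.ord J2 ∧
      0 < P.ord (∑ i ∈ Finset.range q, (J0 / J2) ^ i) := by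
  have hq : q.Prime := Fact.out
  have hq2 : (2 : ℤ) ≤ q := by exact_mod_cast hq.two_le
  have hJ0 := h63_J0_ne_zero L q
  have hJ1 := h63_J1_ne_zero L q
  rcases h63_cusp_table L q P h0 with ⟨c1, c2, -, hg3⟩ | ⟨c1, c2, -⟩ | ⟨t, -⟩
  · exfalso
    have := (h63_ord_eq_zero_of_sub_one P (lt_of_lt_of_le (by omega) hg3)).2
    omega
  · exact ⟨c1, c2, h63_mid_sigma L q P h0 c1 c2⟩
  · exfalso
    have h1 := (h63_ord_eq_zero_of_sub_one P hG1).2
    rw [P.ord_mul hJ1 (pow_ne_zero _ (inv_ne_zero hJ0)), h63_ord_pow, Place.ord_inv, t] at h1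
    have h3 : P.ord J1 * ((q : ℤ) * q - 1) = 0 := by linear_combination -h1
    have h4 : (q : ℤ) * q - 1 ≠ 0 := by nlinarith
    rw [t, (mul_eq_zero.mp h3).resolve_right h4, mul_zero] at h0
    exact lt_irrefl 0 h0

/-- `G1` and `G3` are regular at every cusp. -/
theorem h63_G_regular (P : Place Qb ↥(modularFunctionFieldBar (L * q * q)))
    (h0 : P.ord J0 < 0) :
    0 ≤ P.ord (J1 * J0⁻¹ ^ q) ∧ 0 ≤ P.ord (J2 * J0⁻¹ ^ (q ^ 2)) := by
  have hq : q.Prime := Fact.out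
  have hq2 : (2 : ℤ) ≤ q := by exact_mod_cast hq.two_le
  have hJ0 := h63_J0_ne_zero L q
  have hJ1 := h63_J1_ne_zero L q
  have hJ2 := h63_J2_ne_zero L q
  rw [P.ord_mul hJ1 (pow_ne_zero _ (inv_ne_zero hJ0)),
    P.ord_mul hJ2 (pow_ne_zero _ (inv_ne_zero hJ0)), h63_ord_pow, h63_ord_pow, Place.ord_inv]
  push_cast
  have hqq : (4 : ℤ) ≤ (q : ℤ) * q := by nlinarith
  rcases h63_cusp_table L q P h0 with ⟨c1, c2, -, -⟩ | ⟨c1, c2, -⟩ | ⟨t, c2 | c2⟩
  · rw [c2, c1]
    constructor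
    · linarith
    · nlinarith
  · have e : P.ord J2 = P.ord J0 := by
      have h3 : (q : ℤ) * (P.ord J2 - P.ord J0) = 0 := by linear_combination c1 - c2
      have := (mul_eq_zero.mp h3).resolve_left (by omega)
      linarith
    rw [c1, e]
    constructor
    · linarith
    · nlinarith
  · have h1 : P.ord J1 < 0 := by
      rw [t] at h0
      by_contra h
      push Not at h
      have := mul_nonneg (show (0 : ℤ) ≤ q by omega) h
      omega
    rw [c2, t]
    constructor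
    · nlinarith
    · have h5 : (q : ℤ) ^ 2 * q ≥ 4 * q := by nlinarith
      nlinarith
  · have h1 : P.ord J2 < 0 := by
      rw [t, c2] at h0
      by_contra h
      push Not at h
      have := mul_nonneg (show (0 : ℤ) ≤ q by omega) (mul_nonneg (show (0 : ℤ) ≤ q by omega) h)
      omega
    rw [t, c2]
    have h6 : (q : ℤ) * P.ord J2 ≤ 0 := by nlinarith
    constructor
    · nlinarith [mul_nonneg_of_nonpos_of_nonpos h6 (show 1 - (q : ℤ) * q ≤ 0 by linarith)]
    · have h5 : (q : ℤ) ^ 2 * (q * q) ≥ 16 := by nlinarith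
      nlinarith [mul_nonneg_of_nonpos_of_nonpos h1.le
        (show 1 - (q : ℤ) ^ 2 * (q * q) ≤ 0 by linarith)]

/-- `b = J2 · a · (1 - G3) ^ (q²)` is regular at every cusp (`a = 1 / J0`): the factor
`(1 - G3) ^ (q²)` kills the pole of `J2 · a` at the cusps of type `(∞, ∞)`. -/
theorem h63_b_regular (P : Place Qb ↥(modularFunctionFieldBar (L * q * q)))
    (h0 : P.ord J0 < 0) :
    0 ≤ P.ord (J2 * J0⁻¹ * (1 - J2 * J0⁻¹ ^ (q ^ 2)) ^ (q ^ 2)) := by
  have hq : q.Prime := Fact.out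
  have hq2 : (2 : ℤ) ≤ q := by exact_mod_cast hq.two_le
  have hJ0 := h63_J0_ne_zero L q
  have hJ1 := h63_J1_ne_zero L q
  have hJ2 := h63_J2_ne_zero L q
  have hne := h63_G3_sub_one_ne L q
  have hne' : 1 - J2 * J0⁻¹ ^ (q ^ 2) ≠ 0 := by
    intro h
    apply hne
    rw [← neg_sub, h, neg_zero]
  have hneg : P.ord (1 - J2 * J0⁻¹ ^ (q ^ 2)) = P.ord (J2 * J0⁻¹ ^ (q ^ 2) - 1) := by
    rw [← neg_sub, h35_ord_neg]
  rw [P.ord_mul (mul_ne_zero hJ2 (inv_ne_zero hJ0)) (pow_ne_zero _ hne'),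
    P.ord_mul hJ2 (inv_ne_zero hJ0), h63_ord_pow, Place.ord_inv, hneg]
  push_cast
  have hqq : (4 : ℤ) ≤ (q : ℤ) ^ 2 := by nlinarith
  have hG := (h63_G_regular L q P h0).2
  have hreg : 0 ≤ P.ord (J2 * J0⁻¹ ^ (q ^ 2) - 1) := by
    have h1 : h63_Ge P 0 (J2 * J0⁻¹ ^ (q ^ 2)) := Or.inr hG
    have h2 : h63_Ge P 0 (-1 : ↥(modularFunctionFieldBar (L * q * q))) :=
      Or.inr (by rw [h35_ord_neg, h63_ord_one])
    have h3 := h1.add h2
    rw [← sub_eq_add_neg] at h3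
    exact h3.resolve_left hne
  rcases h63_cusp_table L q P h0 with ⟨c1, c2, -, hg3⟩ | ⟨c1, c2, -⟩ | ⟨t, c2 | c2⟩
  · rw [c2, c1]
    have h5 : (q : ℤ) ^ 2 * (-P.ord J0) ≤ (q : ℤ) ^ 2 * P.ord (J2 * J0⁻¹ ^ (q ^ 2) - 1) :=
      mul_le_mul_of_nonneg_left hg3 (by positivity)
    nlinarith
  · have e : P.ord J2 = P.ord J0 := by
      have h3 : (q : ℤ) * (P.ord J2 - P.ord J0) = 0 := by linear_combination c1 - c2
      have := (mul_eq_zero.mp h3).resolve_left (by omega)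
      linarith
    rw [e]
    have : 0 ≤ (q : ℤ) ^ 2 * P.ord (J2 * J0⁻¹ ^ (q ^ 2) - 1) := mul_nonneg (by positivity) hreg
    linarith
  · rw [c2, t]
    have : 0 ≤ (q : ℤ) ^ 2 * P.ord (J2 * J0⁻¹ ^ (q ^ 2) - 1) := mul_nonneg (by positivity) hreg
    linarith
  · have h1 : P.ord J2 < 0 := by
      rw [t, c2] at h0
      by_contra h
      push Not at h
      have := mul_nonneg (show (0 : ℤ) ≤ q by omega) (mul_nonneg (show (0 : ℤ) ≤ q by omega) h)
      omega
    rw [t, c2]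
    have : 0 ≤ (q : ℤ) ^ 2 * P.ord (J2 * J0⁻¹ ^ (q ^ 2) - 1) := mul_nonneg (by positivity) hreg
    nlinarith

end LevelLqq

end Fermat.Agent.S36
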