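import Mathlib

/-!
# S36 (NOETH-CORE): chart rings over a noetherian base are noetherian

Carrier-free, Mathlib-only.  `A` a noetherian integrally closed domain with fraction field `K`
of characteristic `0` (application: `A = A₀`, the discrete valuation ring of `K₀ = ℚ̄^I`),
`L` a field over `K`, `x : L` transcendental over `K` with `L / K(x)` finite
(application: `L = F₀`, the `K₀`-rational function field, `x` a chart function).

* `h63_adjoin_noeth` : `A[x] = Algebra.adjoin A {x}` is a noetherian ring.
* `h63_intClosure_noeth` : the integral closure of `A[x]` in `L` is a noetherian `A[x]`-module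
  (hence a finite `A[x]`-module and a noetherian ring).
* `h63_noeth_of_integral` : every subring `B` of `L` containing `A` and `x`, all of whose
  elements are integral over `A[x]`, is a noetherian ring.
* `h63_fg_of_integral` : such a `B` is spanned over `A[x]` by finitely many of its elements.
-/

set_option autoImplicit false
set_option linter.unusedSectionVars false
set_option linter.style.haveILetI false

noncomputable section

open Polynomial IntermediateField

namespace Fermat.Agent.S36

variable {A K L : Type*} [CommRing A] [IsDomain A] [IsNoetherianRing A] [IsIntegrallyClosed A]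
  [Field K] [CharZero K] [Algebra A K] [IsFractionRing A K] [Field L] [Algebra K L] [Algebra A L]
  [IsScalarTower A K L]

/-- `aeval x : A[X] → L` is injective for `x` transcendental over `K = Frac A`. -/
theorem h63_aeval_injective (x : L) (hx : Transcendental K x) :
    Function.Injective (aeval (R := A) x) := by
  have h1 : Transcendental A x :=
    hx.restrictScalars (FaithfulSMul.algebraMap_injective A K)
  exact transcendental_iff_injective.mp h1

/-- The ring isomorphism `A[X] ≃ A[x]`. -/
def h63_polyEquiv (x : L) (hx : Transcendental K x) : A[X] ≃+* Algebra.adjoin A {x} :=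
  RingEquiv.ofBijective
    ((aeval (R := A) x).codRestrict (Algebra.adjoin A {x}) (fun p => by
      rw [Algebra.adjoin_singleton_eq_range_aeval]
      exact ⟨p, rfl⟩) : A[X] →+* Algebra.adjoin A {x})
    ⟨fun p q h => h63_aeval_injective x hx (congrArg Subtype.val h), fun ⟨y, hy⟩ => by
      rw [Algebra.adjoin_singleton_eq_range_aeval] at hy
      obtain ⟨p, rfl⟩ := hy
      exact ⟨p, rfl⟩⟩

/-- `A[x]` is noetherian. -/
theorem h63_adjoin_noeth (x : L) (hx : Transcendental K x) :
    IsNoetherianRing (Algebra.adjoin A {x}) :=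
  isNoetherianRing_of_surjective A[X] _ (h63_polyEquiv (A := A) x hx).toRingHom
    (h63_polyEquiv (A := A) x hx).surjective

/-- `A[x]` is integrally closed. -/
theorem h63_adjoin_intClosed (x : L) (hx : Transcendental K x) :
    IsIntegrallyClosed (Algebra.adjoin A {x}) :=
  IsIntegrallyClosed.of_equiv (h63_polyEquiv (A := A) x hx)

/-- The inclusion `A[x] → K(x)`. -/
def h63_toKx (x : L) : Algebra.adjoin A {x} →+* K⟮x⟯ :=
  RingHom.codRestrict (algebraMap (Algebra.adjoin A {x}) L) K⟮x⟯ (fun y => by
    have hy : (y : L) ∈ (aeval (R := A) x).range := by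
      rw [← Algebra.adjoin_singleton_eq_range_aeval]
      exact y.2
    obtain ⟨p, hp⟩ := hy
    have h1 : algebraMap (Algebra.adjoin A {x}) L y = aeval x p := hp.symm
    rw [h1, ← aeval_map_algebraMap K x p]
    exact (mem_adjoin_simple_iff K _).mpr ⟨p.map (algebraMap A K), 1, by simp⟩)

theorem h63_toKx_coe (x : L) (y : Algebra.adjoin A {x}) :
    ((h63_toKx (K := K) x y : K⟮x⟯) : L) = (y : L) := rfl

/-- The integral closure of `A[x]` in `L` is a noetherian `A[x]`-module. -/
theorem h63_intClosure_noeth (x : L) (hx : Transcendental K x) [FiniteDimensional K⟮x⟯ L] :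
    IsNoetherian (Algebra.adjoin A {x}) (integralClosure (Algebra.adjoin A {x}) L) := by
  haveI := h63_adjoin_noeth (A := A) x hx
  haveI := h63_adjoin_intClosed (A := A) x hx
  letI : Algebra (Algebra.adjoin A {x}) K⟮x⟯ := (h63_toKx (K := K) x).toAlgebra
  haveI : IsScalarTower (Algebra.adjoin A {x}) K⟮x⟯ L :=
    IsScalarTower.of_algebraMap_eq (fun y => rfl)
  have hinj : Function.Injective (algebraMap (Algebra.adjoin A {x}) K⟮x⟯) := by
    intro y z h
    apply Subtype.ext
    have h2 := congrArg (fun w : K⟮x⟯ => (w : L)) h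
    exact h2
  haveI : FaithfulSMul (Algebra.adjoin A {x}) K⟮x⟯ :=
    (faithfulSMul_iff_algebraMap_injective _ _).mpr hinj
  haveI : IsFractionRing (Algebra.adjoin A {x}) K⟮x⟯ := by
    apply IsFractionRing.of_field
    rintro ⟨z, hz⟩
    obtain ⟨r, s, rfl⟩ := (mem_adjoin_simple_iff K _).mp hz
    obtain ⟨b1, hb1, hr⟩ := IsLocalization.integerNormalization_spec (nonZeroDivisors A) r
    obtain ⟨b2, hb2, hs⟩ := IsLocalization.integerNormalization_spec (nonZeroDivisors A) s
    set r1 := IsLocalization.integerNormalization (nonZeroDivisors A) r with hr1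
    set s1 := IsLocalization.integerNormalization (nonZeroDivisors A) s with hs1
    have hb1K : algebraMap A K b1 ≠ 0 := by
      intro h0
      exact (nonZeroDivisors.ne_zero hb1) ((FaithfulSMul.algebraMap_injective A K)
        (by rw [h0, map_zero]))
    have hb2K : algebraMap A K b2 ≠ 0 := by
      intro h0
      exact (nonZeroDivisors.ne_zero hb2) ((FaithfulSMul.algebraMap_injective A K)
        (by rw [h0, map_zero]))
    have hR : aeval x r1 = algebraMap K L (algebraMap A K b1) * aeval x r := by
      rw [← aeval_map_algebraMap K x r1, hr]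
      simp [Algebra.smul_def]
    have hS : aeval x s1 = algebraMap K L (algebraMap A K b2) * aeval x s := by
      rw [← aeval_map_algebraMap K x s1, hs]
      simp [Algebra.smul_def]
    have memS : ∀ p : A[X], aeval x p ∈ Algebra.adjoin A {x} := fun p => by
      rw [Algebra.adjoin_singleton_eq_range_aeval]
      exact ⟨p, rfl⟩
    refine ⟨⟨aeval x (C b2 * r1), memS _⟩, ⟨aeval x (C b1 * s1), memS _⟩, ?_⟩
    apply Subtype.ext
    have hb1L : algebraMap K L (algebraMap A K b1) ≠ 0 := by
      rw [Ne, map_eq_zero]; exact hb1K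
    have hb2L : algebraMap K L (algebraMap A K b2) ≠ 0 := by
      rw [Ne, map_eq_zero]; exact hb2K
    show aeval x r / aeval x s = aeval x (C b2 * r1) / aeval x (C b1 * s1)
    rw [map_mul, map_mul, aeval_C, aeval_C, hR, hS, IsScalarTower.algebraMap_apply A K L,
      IsScalarTower.algebraMap_apply A K L b1]
    by_cases hs0 : aeval x s = 0
    · rw [hs0]; simp
    · field_simp
  exact IsIntegralClosure.isNoetherian (Algebra.adjoin A {x}) K⟮x⟯ L
    (integralClosure (Algebra.adjoin A {x}) L)

/-- The integral closure of `A[x]` in `L` is a finite `A[x]`-module. -/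
theorem h63_intClosure_finite (x : L) (hx : Transcendental K x) [FiniteDimensional K⟮x⟯ L] :
    Module.Finite (Algebra.adjoin A {x}) (integralClosure (Algebra.adjoin A {x}) L) := by
  haveI := h63_intClosure_noeth (A := A) (K := K) x hx
  exact Module.IsNoetherian.finite _ _

/-- **(NOETH)**: a subring `B` of `L` containing `A` and `x`, all of whose elements are integral
over `A[x]`, is noetherian as an `A[x]`-module (via the inclusion `A[x] ⊆ B`): every
`A[x]`-submodule of `L` contained in `B` is finitely generated. -/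
theorem h63_submodule_fg_of_integral (x : L) (hx : Transcendental K x)
    [FiniteDimensional K⟮x⟯ L] (B : Subring L)
    (hint : ∀ f ∈ B, IsIntegral (Algebra.adjoin A {x}) f)
    (N : Submodule (Algebra.adjoin A {x}) L) (hN : ∀ f ∈ N, f ∈ B) : N.FG := by
  haveI := h63_intClosure_noeth (A := A) (K := K) x hx
  have hle : N ≤ Subalgebra.toSubmodule (integralClosure (Algebra.adjoin A {x}) L) :=
    fun f hf => hint f (hN f hf)
  haveI : IsNoetherian (Algebra.adjoin A {x})
      (Subalgebra.toSubmodule (integralClosure (Algebra.adjoin A {x}) L)) :=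
    ‹IsNoetherian (Algebra.adjoin A {x}) (integralClosure (Algebra.adjoin A {x}) L)›
  haveI : IsNoetherian (Algebra.adjoin A {x}) N := isNoetherian_of_le hle
  exact (Submodule.fg_top N).mp (IsNoetherian.noetherian (⊤ : Submodule _ N))

/-- **(NOETH)**: a subring `B` of `L` containing `A` and `x`, all of whose elements are integral
over `A[x]`, is spanned over `A[x]` by finitely many of its elements. -/
theorem h63_fg_of_integral (x : L) (hx : Transcendental K x)
    [FiniteDimensional K⟮x⟯ L] (B : Subring L) (hA : ∀ a : A, algebraMap A L a ∈ B)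
    (hxB : x ∈ B) (hint : ∀ f ∈ B, IsIntegral (Algebra.adjoin A {x}) f) :
    ∃ s : Finset L, (∀ g ∈ s, g ∈ B) ∧
      ∀ f ∈ B, f ∈ Submodule.span (Algebra.adjoin A {x}) (s : Set L) := by
  have hSB : ∀ y : Algebra.adjoin A {x}, (y : L) ∈ B := by
    intro y
    have hy : (y : L) ∈ Algebra.adjoin A {x} := y.2
    refine Algebra.adjoin_induction (p := fun z _ => z ∈ B) ?_ ?_ ?_ ?_ hy
    · intro z hz
      rw [Set.mem_singleton_iff] at hz
      rw [hz]; exact hxB
    · intro a; exact hA a
    · intro z w _ _ hz hw; exact B.add_mem hz hw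
    · intro z w _ _ hz hw; exact B.mul_mem hz hw
  let N : Submodule (Algebra.adjoin A {x}) L :=
    { carrier := B
      add_mem' := fun ha hb => B.add_mem ha hb
      zero_mem' := B.zero_mem
      smul_mem' := fun c f hf => by
        show c • f ∈ B
        rw [Algebra.smul_def]
        exact B.mul_mem (hSB c) hf }
  obtain ⟨s, hs⟩ := h63_submodule_fg_of_integral (A := A) (K := K) x hx B hint N (fun f hf => hf)
  refine ⟨s, fun g hg => ?_, fun f hf => ?_⟩
  · have : g ∈ N := by rw [← hs]; exact Submodule.subset_span hg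
    exact this
  · have : f ∈ N := hf
    rwa [← hs] at this

/-- **(NOETH)**: a subring `B` of `L` containing `A` and `x`, all of whose elements are integral
over `A[x]`, is a noetherian ring. -/
theorem h63_noeth_of_integral (x : L) (hx : Transcendental K x)
    [FiniteDimensional K⟮x⟯ L] (B : Subring L) (hA : ∀ a : A, algebraMap A L a ∈ B)
    (hxB : x ∈ B) (hint : ∀ f ∈ B, IsIntegral (Algebra.adjoin A {x}) f) :
    IsNoetherianRing B := by
  have hSB : ∀ y : Algebra.adjoin A {x}, (y : L) ∈ B := by
    intro y
    have hy : (y : L) ∈ Algebra.adjoin A {x} := y.2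
    refine Algebra.adjoin_induction (p := fun z _ => z ∈ B) ?_ ?_ ?_ ?_ hy
    · intro z hz
      rw [Set.mem_singleton_iff] at hz
      rw [hz]; exact hxB
    · intro a; exact hA a
    · intro z w _ _ hz hw; exact B.add_mem hz hw
    · intro z w _ _ hz hw; exact B.mul_mem hz hw
  rw [isNoetherianRing_iff_ideal_fg]
  intro I
  -- the `A[x]`-submodule of `L` underlying `I`
  let N : Submodule (Algebra.adjoin A {x}) L :=
    { carrier := {f | ∃ h : f ∈ B, (⟨f, h⟩ : B) ∈ I}
      add_mem' := by
        rintro a b ⟨ha, ha'⟩ ⟨hb, hb'⟩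
        exact ⟨B.add_mem ha hb, I.add_mem ha' hb'⟩
      zero_mem' := ⟨B.zero_mem, I.zero_mem⟩
      smul_mem' := by
        rintro c f ⟨hf, hf'⟩
        refine ⟨by rw [Algebra.smul_def]; exact B.mul_mem (hSB c) hf, ?_⟩
        have h1 : (⟨c • f, by rw [Algebra.smul_def]; exact B.mul_mem (hSB c) hf⟩ : B) =
            (⟨(c : L), hSB c⟩ : B) * ⟨f, hf⟩ := by
          apply Subtype.ext
          show c • f = (c : L) * f
          rw [Algebra.smul_def]; rfl
        rw [h1]
        exact I.mul_mem_left _ hf' }
  obtain ⟨s, hs⟩ := h63_submodule_fg_of_integral (A := A) (K := K) x hx B hint N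
    (fun f hf => hf.1)
  have hsN : ∀ g ∈ s, g ∈ N := fun g hg => by rw [← hs]; exact Submodule.subset_span hg
  classical
  -- generators of `I`
  refine ⟨s.attach.image (fun g => (⟨g.1, (hsN g.1 g.2).1⟩ : B)), ?_⟩
  apply le_antisymm
  · rw [Ideal.span_le]
    intro b hb
    rw [Finset.coe_image, Set.mem_image] at hb
    obtain ⟨g, -, rfl⟩ := hb
    exact (hsN g.1 g.2).2
  · intro b hb
    have hbN : (b : L) ∈ N := ⟨b.2, hb⟩
    rw [← hs] at hbN
    -- push the span through
    have key : ∀ f ∈ Submodule.span (Algebra.adjoin A {x}) (s : Set L),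
        ∃ h : f ∈ B, (⟨f, h⟩ : B) ∈ Ideal.span
          ((s.attach.image (fun g => (⟨g.1, (hsN g.1 g.2).1⟩ : B)) : Finset B) : Set B) := by
      intro f hf
      refine Submodule.span_induction (p := fun f _ => ∃ h : f ∈ B, (⟨f, h⟩ : B) ∈ Ideal.span
          ((s.attach.image (fun g => (⟨g.1, (hsN g.1 g.2).1⟩ : B)) : Finset B) : Set B))
        ?_ ?_ ?_ ?_ hf
      · intro g hg
        refine ⟨(hsN g hg).1, Ideal.subset_span ?_⟩
        rw [Finset.coe_image, Set.mem_image]
        exact ⟨⟨g, hg⟩, Finset.mem_coe.mpr (Finset.mem_attach _ _), rfl⟩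
      · exact ⟨B.zero_mem, Ideal.zero_mem _⟩
      · rintro a c _ _ ⟨ha, ha'⟩ ⟨hc, hc'⟩
        exact ⟨B.add_mem ha hc, Ideal.add_mem _ ha' hc'⟩
      · rintro c f _ ⟨hf, hf'⟩
        refine ⟨by rw [Algebra.smul_def]; exact B.mul_mem (hSB c) hf, ?_⟩
        have h1 : (⟨c • f, by rw [Algebra.smul_def]; exact B.mul_mem (hSB c) hf⟩ : B) =
            (⟨(c : L), hSB c⟩ : B) * ⟨f, hf⟩ := by
          apply Subtype.ext
          show c • f = (c : L) * f
          rw [Algebra.smul_def]; rfl
        rw [h1]
        exact Ideal.mul_mem_left _ _ hf'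
    obtain ⟨h, hmem⟩ := key _ hbN
    exact hmem

end Fermat.Agent.S36

end
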