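import Mathlib
import Fermat.Agent.S34.h20_ChartSF
import Fermat.Agent.S18.GR_ChartPt

/-!
# S36 row Q, (EV-PT) (helper64): `k`-points of the ring of functions regular off `Qinf`

`k` algebraically closed, `Fb / k` a function field, `y` a chart whose only pole is `Qinf`.
Every `k`-algebra homomorphism `χ : h20_regOff Qinf →ₐ[k] k` (functions regular off `Qinf`) is
the evaluation at a place `Q ≠ Qinf`:

* `h64_exists_place_of_algHom_regOff` : `∃ Q ≠ Qinf, ∀ b, h39_Val Q b (χ b)`;
* `h64_algHom_regOff_eq_valOff` : `∃ Q (hQ : Q ≠ Qinf), χ = h20_valOff hy Qinf Q hQ`;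
* `h64_exists_place_of_ringHom_regOff` : the same for a ring homomorphism which is the identity
  on constants.

Adapter over `h39_exists_place_of_algHom` (S18/GR_ChartPt).
-/

set_option autoImplicit false

noncomputable section

open AlgebraicCurve
open Fermat.Agent.S18 Fermat.Agent.S24 Fermat.Agent.S27 Fermat.Agent.S34

namespace Fermat.Agent.S36

variable {k Fb : Type*} [Field k] [Field Fb] [Algebra k Fb] [IsAlgClosed k]

omit [IsAlgClosed k] in
/-- Every `k`-point of the ring of functions regular off `Qinf` is a place `Q ≠ Qinf`. -/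
theorem h64_exists_place_of_algHom_regOff {y : Fb} (hy : h75_IsChart k y) (Qinf : Place k Fb)
    (hpole : ∀ Q : Place k Fb, y ∈ Q.toValuationSubring ↔ Q ≠ Qinf)
    (χ : h20_regOff Qinf →ₐ[k] k) :
    ∃ Q : Place k Fb, Q ≠ Qinf ∧ ∀ b : h20_regOff Qinf, h39_Val Q (b : Fb) (χ b) := by
  let j : h39_chartRing k y →ₐ[k] h20_regOff Qinf :=
    { toFun := fun f => ⟨(f : Fb), fun v hv => f.2 v ((hpole v).mpr hv)⟩
      map_one' := rfl
      map_mul' := fun _ _ => rfl
      map_zero' := rfl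
      map_add' := fun _ _ => rfl
      commutes' := fun _ => rfl }
  obtain ⟨P, hP, hv⟩ := h39_exists_place_of_algHom hy (χ.comp j)
  refine ⟨P, (hpole P).mp hP, fun b => ?_⟩
  have hb : h39_Reg k y (b : Fb) := fun P' hP' => b.2 P' ((hpole P').mp hP')
  have h1 := hv ⟨(b : Fb), hb⟩
  have h2 : j ⟨(b : Fb), hb⟩ = b := Subtype.ext rfl
  have h3 : (χ.comp j) ⟨(b : Fb), hb⟩ = χ b := by
    rw [AlgHom.comp_apply, h2]
  rwa [h3] at h1

/-- Every `k`-point of the ring of functions regular off `Qinf` is an evaluation `h20_valOff`. -/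
theorem h64_algHom_regOff_eq_valOff {y : Fb} (hy : h75_IsChart k y) (Qinf : Place k Fb)
    (hpole : ∀ Q : Place k Fb, y ∈ Q.toValuationSubring ↔ Q ≠ Qinf)
    (χ : h20_regOff Qinf →ₐ[k] k) :
    ∃ (Q : Place k Fb) (hQ : Q ≠ Qinf), χ = h20_valOff hy Qinf Q hQ := by
  obtain ⟨Q, hQ, hv⟩ := h64_exists_place_of_algHom_regOff hy Qinf hpole χ
  refine ⟨Q, hQ, AlgHom.ext fun b => ?_⟩
  exact (h20_valOff_eq hy Qinf Q hQ b (hv b)).symm

omit [IsAlgClosed k] in
/-- The same for a ring homomorphism which is the identity on constants. -/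
theorem h64_exists_place_of_ringHom_regOff {y : Fb} (hy : h75_IsChart k y) (Qinf : Place k Fb)
    (hpole : ∀ Q : Place k Fb, y ∈ Q.toValuationSubring ↔ Q ≠ Qinf)
    (χ : h20_regOff Qinf →+* k)
    (hχ : ∀ c : k, χ (algebraMap k (h20_regOff Qinf) c) = c) :
    ∃ Q : Place k Fb, Q ≠ Qinf ∧ ∀ b : h20_regOff Qinf, h39_Val Q (b : Fb) (χ b) := by
  let χ' : h20_regOff Qinf →ₐ[k] k := { χ with commutes' := hχ }
  exact h64_exists_place_of_algHom_regOff hy Qinf hpole χ'

end Fermat.Agent.S36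

end
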