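import Mathlib
import Fermat.Agent.S36.h65_GluePts
import Fermat.Agent.S40.h31_NodeInst

/-!
# S36 row Q / (Q-PT), (Q-NODE) generic: the node interface over two glued curves (helper65)

Generic (no modular input).  Setting of `h65_glue_pts`: `k` algebraically closed, `Fb / k` a
function field, `y` a chart whose only pole is `Qinf`, `Sg` a finite set of places and

`T := {(a₁, a₂) | a₁, a₂ regular off Qinf, ∀ Q ∈ Sg, a₁(Φ Q) = a₂(Q)}`  (the S34 node ring).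

`V : h80_ValFam F ι` is a valuation family with chart ring `V.B`, `red : V.B → Fb × Fb` a ring hom
with image `T` and kernel `q V.B`, `c1, c2 : ι` the indices of the two vertical valuations
(`(red f).1 = 0 ↔ 0 < v_c1 f`, `(red f).2 = 0 ↔ 0 < v_c2 f`, `v_c1 q = v_c2 q = 1`), all other
valuations are horizontal (`v_j q = 0`).

* `h65_dv hy P : h31_DV k Fb` : the discrete valuation with residue map of a place.
* `h65_exists_den` : denominators (every germ regular at `P` is a quotient of two functions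
  regular off `Qinf`, the denominator with value `1` at `P` and both vanishing on a given finite
  set of other places).
* `h65_pt_of_glue₁`, `h65_pt_of_glue₂` : a non-node point of the first / second branch is a
  one-branch point `h62_Pt V q m c q 1` (helper31's `h31_pt_of_lattice`).
* `h65_node_of_glue` : a node with node data `a b = q ψ` is `h62_Node V q m c1 c2 a b`
  (helper31's `h31_node_of_lattice`).
* `h65_glue_local` : **every** maximal ideal of `V.B` containing `q` is of one of the three kinds.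
-/

set_option autoImplicit false

noncomputable section

open AlgebraicCurve Module

namespace Fermat.Agent.S36

open Fermat.Agent.S18 Fermat.Agent.S24 Fermat.Agent.S27 Fermat.Agent.S34 Fermat.Agent.S40

variable {k Fb : Type*} [Field k] [Field Fb] [Algebra k Fb] [IsAlgClosed k]

/-! ### The discrete valuation of a place -/

open Classical in
/-- The value at a place (`0` off the valuation ring). -/
def h65_evFun {y : Fb} (hy : h75_IsChart k y) (P : Place k Fb) (f : Fb) : k :=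
  if h : f ∈ P.toValuationSubring then Classical.choose (h39_exists_val hy P h) else 0

theorem h65_evFun_spec {y : Fb} (hy : h75_IsChart k y) (P : Place k Fb) {f : Fb}
    (hf : f ∈ P.toValuationSubring) : h39_Val P f (h65_evFun hy P f) := by
  unfold h65_evFun
  rw [dif_pos hf]
  exact Classical.choose_spec (h39_exists_val hy P hf)

theorem h65_evFun_eq {y : Fb} (hy : h75_IsChart k y) (P : Place k Fb) {f : Fb} {c : k}
    (h : h39_Val P f c) : h65_evFun hy P f = c :=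
  h39_val_unique P (h65_evFun_spec hy P (h39_val_mem P h)) h

theorem h65_mem_of_reg' (P : Place k Fb) {f : Fb} (h : f = 0 ∨ 0 ≤ P.ord f) :
    f ∈ P.toValuationSubring := by
  rcases h with rfl | h
  · exact zero_mem _
  · exact h24_mem_of_ord_nonneg P h

/-- The discrete valuation with residue map of a place. -/
def h65_dv {y : Fb} (hy : h75_IsChart k y) (P : Place k Fb) : h31_DV k Fb where
  ord := P.ord
  ev := h65_evFun hy P
  ord_mul := fun _ _ hx hz => P.ord_mul hx hz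
  ord_add := fun _ _ hx hz hxz => h35_ord_add P hx hz hxz
  ev_zero := h65_evFun_eq hy P (Or.inl (map_zero _).symm)
  ev_add := fun _ _ hx hz => h65_evFun_eq hy P
    (h39_val_add P (h65_evFun_spec hy P (h65_mem_of_reg' P hx))
      (h65_evFun_spec hy P (h65_mem_of_reg' P hz)))
  ev_mul := fun _ _ hx hz => h65_evFun_eq hy P
    (h39_val_mul P (h65_evFun_spec hy P (h65_mem_of_reg' P hx))
      (h65_evFun_spec hy P (h65_mem_of_reg' P hz)))
  ev_algebraMap := fun c => h65_evFun_eq hy P (h39_val_algebraMap P c)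
  ord_algebraMap := fun c hc => h39_ord_eq_zero_of_val P (h39_val_algebraMap P c) hc
  ev_eq_zero := fun x hx0 hx => by
    have hx' := h24_mem_of_ord_nonneg P hx
    constructor
    · intro h
      have hs := h65_evFun_spec hy P hx'
      rw [h, h39_val_zero_iff] at hs
      exact hs.resolve_left hx0
    · intro h
      exact h65_evFun_eq hy P ((h39_val_zero_iff P).mpr (Or.inr h))

theorem h65_dv_ord {y : Fb} (hy : h75_IsChart k y) (P : Place k Fb) (f : Fb) :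
    (h65_dv hy P).ord f = P.ord f := rfl

theorem h65_dv_ev {y : Fb} (hy : h75_IsChart k y) (P : Place k Fb) (f : Fb) :
    (h65_dv hy P).ev f = h65_evFun hy P f := rfl

theorem h65_reg_of_mem {y : Fb} (hy : h75_IsChart k y) (P : Place k Fb) {f : Fb}
    (hf : f ∈ P.toValuationSubring) : (h65_dv hy P).Reg f := by
  by_cases h0 : f = 0
  · exact Or.inl h0
  · exact Or.inr (h24_ord_nonneg_of_mem P hf)

theorem h65_mem_of_reg {y : Fb} (hy : h75_IsChart k y) (P : Place k Fb) {f : Fb}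
    (hf : (h65_dv hy P).Reg f) : f ∈ P.toValuationSubring :=
  h65_mem_of_reg' P hf

/-! ### Denominators -/

/-- Every germ `γ` regular at `P ≠ Qinf` is a quotient `(g γ) / g` of two functions regular off
`Qinf`, where `g` has value `1` at `P` and `g`, `g γ` vanish on a given finite set `Z ∌ P`. -/
theorem h65_exists_den {y : Fb} (hy : h75_IsChart k y) (Qinf : Place k Fb)
    (hpole : ∀ Q : Place k Fb, y ∈ Q.toValuationSubring ↔ Q ≠ Qinf)
    (P : Place k Fb) (hP : P ≠ Qinf) (Z : Finset (Place k Fb)) (hZ : ∀ Q ∈ Z, Q ≠ Qinf)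
    (hPZ : P ∉ Z) (γ : Fb) (hγ : γ ∈ P.toValuationSubring) :
    ∃ g : Fb, g ∈ h20_regOff Qinf ∧ g * γ ∈ h20_regOff Qinf ∧ h39_Val P g 1 ∧
      (∀ Q ∈ Z, h39_Val Q g 0) ∧ ∀ Q ∈ Z, h39_Val Q (g * γ) 0 := by
  classical
  have hfin : {Q : Place k Fb | Q.ord γ ≠ 0}.Finite := by
    by_cases h0 : γ = 0
    · subst h0
      simp [Place.ord_zero]
    · exact h75_finite_ord_ne hy γ h0
  set S : Finset (Place k Fb) :=
    ((insert P Z) ∪ hfin.toFinset).filter (fun Q => Q ≠ Qinf) with hSdef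
  have hSmem : ∀ Q ∈ S, y ∈ Q.toValuationSubring :=
    fun Q hQ => (hpole Q).mpr (Finset.mem_filter.mp hQ).2
  obtain ⟨g0, hg0, hgS, hgout⟩ := h75_exists_exact hy S hSmem
    (fun Q => if Q = P then 0 else 1 + max 0 (-(Q.ord γ)))
  have hPS : P ∈ S :=
    Finset.mem_filter.mpr ⟨Finset.mem_union_left _ (Finset.mem_insert_self P Z), hP⟩
  have hordP : P.ord g0 = 0 := by rw [hgS P hPS, if_pos rfl]
  have hordS : ∀ Q ∈ S, Q ≠ P → Q.ord g0 = 1 + max 0 (-(Q.ord γ)) := fun Q hQ hQP => by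
    rw [hgS Q hQ, if_neg hQP]
  have hnotS : ∀ Q : Place k Fb, Q ≠ Qinf → Q ∉ S → Q.ord γ = 0 := by
    intro Q hQ hQS
    by_contra hne
    exact hQS (Finset.mem_filter.mpr ⟨Finset.mem_union_right _
      ((Set.Finite.mem_toFinset hfin).mpr hne), hQ⟩)
  have hnn : ∀ Q : Place k Fb, Q ≠ Qinf → 0 ≤ Q.ord g0 := by
    intro Q hQ
    by_cases hQS : Q ∈ S
    · by_cases hQP : Q = P
      · rw [hQP, hordP]
      · rw [hordS Q hQS hQP]
        have := le_max_left (0 : ℤ) (-(Q.ord γ))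
        omega
    · exact hgout Q ((hpole Q).mpr hQ) hQS
  have hnnγ : γ ≠ 0 → ∀ Q : Place k Fb, Q ≠ Qinf → 0 ≤ Q.ord (g0 * γ) ∧
      (Q ∈ S → Q ≠ P → 0 < Q.ord (g0 * γ)) := by
    intro hγ0 Q hQ
    rw [Q.ord_mul hg0 hγ0]
    by_cases hQS : Q ∈ S
    · by_cases hQP : Q = P
      · refine ⟨?_, fun _ h => absurd hQP h⟩
        rw [hQP, hordP]
        have := h24_ord_nonneg_of_mem P hγ
        omega
      · rw [hordS Q hQS hQP]
        have := le_max_right (0 : ℤ) (-(Q.ord γ))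
        have := le_max_left (0 : ℤ) (-(Q.ord γ))
        exact ⟨by omega, fun _ _ => by omega⟩
    · refine ⟨?_, fun h => absurd h hQS⟩
      rw [hnotS Q hQ hQS]
      have := hnn Q hQ
      omega
  have hg0reg : g0 ∈ h20_regOff Qinf := fun Q hQ => h24_mem_of_ord_nonneg Q (hnn Q hQ)
  have hg0γreg : g0 * γ ∈ h20_regOff Qinf := by
    by_cases hγ0 : γ = 0
    · rw [hγ0, mul_zero]
      exact (h20_regOff Qinf).zero_mem
    · exact fun Q hQ => h24_mem_of_ord_nonneg Q (hnnγ hγ0 Q hQ).1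
  obtain ⟨a, ha⟩ := h39_exists_val hy P (hg0reg P hP)
  have ha0 : a ≠ 0 := by
    intro h0
    rw [h0, h39_val_zero_iff] at ha
    rcases ha with h | h
    · exact hg0 h
    · omega
  have hZS : ∀ Q ∈ Z, Q ∈ S ∧ Q ≠ P := fun Q hQ =>
    ⟨Finset.mem_filter.mpr ⟨Finset.mem_union_left _ (Finset.mem_insert_of_mem hQ), hZ Q hQ⟩,
      fun h => hPZ (h ▸ hQ)⟩
  refine ⟨algebraMap k Fb a⁻¹ * g0, ?_, ?_, ?_, ?_, ?_⟩
  · exact (h20_regOff Qinf).mul_mem ((h20_regOff Qinf).algebraMap_mem _) hg0reg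
  · rw [mul_assoc]
    exact (h20_regOff Qinf).mul_mem ((h20_regOff Qinf).algebraMap_mem _) hg0γreg
  · have h := h39_val_mul P (h39_val_algebraMap P a⁻¹) ha
    rwa [inv_mul_cancel₀ ha0] at h
  · intro Q hQ
    obtain ⟨hQS, hQP⟩ := hZS Q hQ
    have h1 : h39_Val Q g0 0 := by
      rw [h39_val_zero_iff]
      right
      rw [hordS Q hQS hQP]
      have := le_max_left (0 : ℤ) (-(Q.ord γ))
      omega
    have h := h39_val_mul Q (h39_val_algebraMap Q a⁻¹) h1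
    rwa [mul_zero] at h
  · intro Q hQ
    obtain ⟨hQS, hQP⟩ := hZS Q hQ
    have h1 : h39_Val Q (g0 * γ) 0 := by
      rw [h39_val_zero_iff]
      by_cases hγ0 : γ = 0
      · left
        rw [hγ0, mul_zero]
      · right
        exact (hnnγ hγ0 Q (hZ Q hQ)).2 hQS hQP
    have h := h39_val_mul Q (h39_val_algebraMap Q a⁻¹) h1
    rw [mul_zero, ← mul_assoc] at h
    exact h

/-! ### The node interface -/

section Local

variable {F : Type*} [Field F] {ι : Type*}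

/-- **(Q-PT), first branch**: a point `P` of the first branch which is not a node point is a
one-branch point of the chart ring. -/
theorem h65_pt_of_glue₁ {y : Fb} (hy : h75_IsChart k y) (Qinf : Place k Fb)
    (hpole : ∀ Q : Place k Fb, y ∈ Q.toValuationSubring ↔ Q ≠ Qinf)
    (Sg : Finset (Place k Fb)) (Φ : Place k Fb → Place k Fb)
    (hSg : ∀ Q ∈ Sg, Q ≠ Qinf ∧ Φ Q ≠ Qinf)
    (V : h80_ValFam F ι) [IsNoetherianRing V.B] (q : ℕ) (hq0 : (q : F) ≠ 0)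
    (red : V.B →+* Fb × Fb)
    (hker : ∀ r : V.B, red r = 0 → ∃ r' : V.B, r = (q : V.B) * r')
    (hredq : red (q : V.B) = 0)
    (hT : ∀ a : Fb × Fb, (∃ b : V.B, red b = a) ↔
      (a.1 ∈ h20_regOff Qinf ∧ a.2 ∈ h20_regOff Qinf) ∧
        ∀ Q ∈ Sg, ∃ c : k, h39_Val (Φ Q) a.1 c ∧ h39_Val Q a.2 c)
    (c1 c2 : ι)
    (hc1 : ∀ f : V.B, (f : F) ≠ 0 → ((red f).1 = 0 ↔ 0 < V.v c1 f))
    (hc2 : ∀ f : V.B, (f : F) ≠ 0 → ((red f).2 = 0 ↔ 0 < V.v c2 f))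
    (hhor : ∀ j, j ≠ c1 → j ≠ c2 → V.v j (q : F) = 0)
    (vq1 : V.v c1 (q : F) = 1) (vq2 : V.v c2 (q : F) = 1)
    (m : Ideal V.B) (P : Place k Fb) (hP : P ≠ Qinf) (hPS : ∀ S ∈ Sg, P ≠ Φ S)
    (hm : ∀ b : V.B, b ∈ m ↔ h39_Val P (red b).1 0)
    (hunr : ∀ i, V.v i (q : F) = 0 → V.Through m i → ∃ f : V.B, (f : F) ≠ 0 ∧ V.v i f = 1)
    (hsep : ∀ i j, V.v i (q : F) = 0 → V.v j (q : F) = 0 → V.Through m i → V.Through m j →
      i ≠ j → ∃ f : V.B, (f : F) ≠ 0 ∧ 0 < V.v i f ∧ V.v j f = 0) :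
    h62_Pt V q m c1 (q : V.B) 1 := by
  classical
  have hregT : ∀ r : V.B, (red r).1 ∈ h20_regOff Qinf ∧ (red r).2 ∈ h20_regOff Qinf :=
    fun r => ((hT (red r)).mp ⟨r, rfl⟩).1
  refine h31_pt_of_lattice V q hq0 (h65_dv hy P) red hker hredq (RingHom.fst Fb Fb)
    (RingHom.snd Fb Fb) (fun h h1 h2 => Prod.ext h1 h2) ?_ ?_ ?_ m ?_ c1 hc1 ?_ vq1 hunr hsep
  · intro r
    exact h65_reg_of_mem hy P ((hregT r).1 P hP)
  · intro c
    obtain ⟨r, hr⟩ := (hT (algebraMap k Fb c, algebraMap k Fb c)).mpr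
      ⟨⟨(h20_regOff Qinf).algebraMap_mem c, (h20_regOff Qinf).algebraMap_mem c⟩,
        fun S _ => ⟨c, Or.inl rfl, Or.inl rfl⟩⟩
    exact ⟨r, by rw [hr]; rfl⟩
  · intro γ hγ
    have hγ' : γ ∈ P.toValuationSubring := h65_mem_of_reg hy P hγ
    obtain ⟨g, hg, hgγ, hgP, hgZ, hgγZ⟩ := h65_exists_den hy Qinf hpole P hP (Sg.image Φ)
      (fun Q hQ => by
        obtain ⟨S, hS, rfl⟩ := Finset.mem_image.mp hQ
        exact (hSg S hS).2)
      (fun hQ => by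
        obtain ⟨S, hS, hS'⟩ := Finset.mem_image.mp hQ
        exact hPS S hS hS'.symm) γ hγ'
    obtain ⟨τ, hτ⟩ := (hT (g, 0)).mpr ⟨⟨hg, (h20_regOff Qinf).zero_mem⟩,
      fun S hS => ⟨0, hgZ _ (Finset.mem_image_of_mem Φ hS), Or.inl (map_zero _).symm⟩⟩
    obtain ⟨ρ, hρ⟩ := (hT (g * γ, 0)).mpr ⟨⟨hgγ, (h20_regOff Qinf).zero_mem⟩,
      fun S hS => ⟨0, hgγZ _ (Finset.mem_image_of_mem Φ hS), Or.inl (map_zero _).symm⟩⟩
    refine ⟨τ, ρ, ?_, ?_, ?_, ?_⟩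
    · rw [hτ]; rfl
    · rw [hρ]; rfl
    · rw [hτ]
      show h65_evFun hy P g ≠ 0
      rw [h65_evFun_eq hy P hgP]
      exact one_ne_zero
    · rw [hρ, hτ]; rfl
  · intro f
    rw [hm f]
    constructor
    · intro h
      exact h65_evFun_eq hy P h
    · intro h
      have hs := h65_evFun_spec hy P ((hregT f).1 P hP)
      rw [show h65_evFun hy P (red f).1 = 0 from h] at hs
      exact hs
  · intro j hj f hf0 hf
    by_cases hj2 : j = c2
    · subst hj2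
      have := (hc2 f hf0).mp hf
      rw [vq2]
      omega
    · rw [hhor j hj hj2]
      exact h80_v_nonneg V j f hf0

/-- **(Q-PT), second branch**: a point `P` of the second branch which is not a node point is a
one-branch point of the chart ring. -/
theorem h65_pt_of_glue₂ {y : Fb} (hy : h75_IsChart k y) (Qinf : Place k Fb)
    (hpole : ∀ Q : Place k Fb, y ∈ Q.toValuationSubring ↔ Q ≠ Qinf)
    (Sg : Finset (Place k Fb)) (Φ : Place k Fb → Place k Fb)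
    (hSg : ∀ Q ∈ Sg, Q ≠ Qinf ∧ Φ Q ≠ Qinf)
    (V : h80_ValFam F ι) [IsNoetherianRing V.B] (q : ℕ) (hq0 : (q : F) ≠ 0)
    (red : V.B →+* Fb × Fb)
    (hker : ∀ r : V.B, red r = 0 → ∃ r' : V.B, r = (q : V.B) * r')
    (hredq : red (q : V.B) = 0)
    (hT : ∀ a : Fb × Fb, (∃ b : V.B, red b = a) ↔
      (a.1 ∈ h20_regOff Qinf ∧ a.2 ∈ h20_regOff Qinf) ∧
        ∀ Q ∈ Sg, ∃ c : k, h39_Val (Φ Q) a.1 c ∧ h39_Val Q a.2 c)
    (c1 c2 : ι)
    (hc1 : ∀ f : V.B, (f : F) ≠ 0 → ((red f).1 = 0 ↔ 0 < V.v c1 f))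
    (hc2 : ∀ f : V.B, (f : F) ≠ 0 → ((red f).2 = 0 ↔ 0 < V.v c2 f))
    (hhor : ∀ j, j ≠ c1 → j ≠ c2 → V.v j (q : F) = 0)
    (vq1 : V.v c1 (q : F) = 1) (vq2 : V.v c2 (q : F) = 1)
    (m : Ideal V.B) (P : Place k Fb) (hP : P ≠ Qinf) (hPS : P ∉ Sg)
    (hm : ∀ b : V.B, b ∈ m ↔ h39_Val P (red b).2 0)
    (hunr : ∀ i, V.v i (q : F) = 0 → V.Through m i → ∃ f : V.B, (f : F) ≠ 0 ∧ V.v i f = 1)
    (hsep : ∀ i j, V.v i (q : F) = 0 → V.v j (q : F) = 0 → V.Through m i → V.Through m j →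
      i ≠ j → ∃ f : V.B, (f : F) ≠ 0 ∧ 0 < V.v i f ∧ V.v j f = 0) :
    h62_Pt V q m c2 (q : V.B) 1 := by
  classical
  have hregT : ∀ r : V.B, (red r).1 ∈ h20_regOff Qinf ∧ (red r).2 ∈ h20_regOff Qinf :=
    fun r => ((hT (red r)).mp ⟨r, rfl⟩).1
  refine h31_pt_of_lattice V q hq0 (h65_dv hy P) red hker hredq (RingHom.snd Fb Fb)
    (RingHom.fst Fb Fb) (fun h h1 h2 => Prod.ext h2 h1) ?_ ?_ ?_ m ?_ c2 hc2 ?_ vq2 hunr hsep
  · intro r
    exact h65_reg_of_mem hy P ((hregT r).2 P hP)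
  · intro c
    obtain ⟨r, hr⟩ := (hT (algebraMap k Fb c, algebraMap k Fb c)).mpr
      ⟨⟨(h20_regOff Qinf).algebraMap_mem c, (h20_regOff Qinf).algebraMap_mem c⟩,
        fun S _ => ⟨c, Or.inl rfl, Or.inl rfl⟩⟩
    exact ⟨r, by rw [hr]; rfl⟩
  · intro γ hγ
    have hγ' : γ ∈ P.toValuationSubring := h65_mem_of_reg hy P hγ
    obtain ⟨g, hg, hgγ, hgP, hgZ, hgγZ⟩ := h65_exists_den hy Qinf hpole P hP Sg
      (fun Q hQ => (hSg Q hQ).1) hPS γ hγ'
    obtain ⟨τ, hτ⟩ := (hT (0, g)).mpr ⟨⟨(h20_regOff Qinf).zero_mem, hg⟩,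
      fun S hS => ⟨0, Or.inl (map_zero _).symm, hgZ _ hS⟩⟩
    obtain ⟨ρ, hρ⟩ := (hT (0, g * γ)).mpr ⟨⟨(h20_regOff Qinf).zero_mem, hgγ⟩,
      fun S hS => ⟨0, Or.inl (map_zero _).symm, hgγZ _ hS⟩⟩
    refine ⟨τ, ρ, ?_, ?_, ?_, ?_⟩
    · rw [hτ]; rfl
    · rw [hρ]; rfl
    · rw [hτ]
      show h65_evFun hy P g ≠ 0
      rw [h65_evFun_eq hy P hgP]
      exact one_ne_zero
    · rw [hρ, hτ]; rfl
  · intro f
    rw [hm f]
    constructor
    · intro h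
      exact h65_evFun_eq hy P h
    · intro h
      have hs := h65_evFun_spec hy P ((hregT f).2 P hP)
      rw [show h65_evFun hy P (red f).2 = 0 from h] at hs
      exact hs
  · intro j hj f hf0 hf
    by_cases hj1 : j = c1
    · subst hj1
      have := (hc1 f hf0).mp hf
      rw [vq1]
      omega
    · rw [hhor j hj1 hj]
      exact h80_v_nonneg V j f hf0

/-- **(Q-NODE)**: a node `S ∈ Sg` with node data `a b = q ψ` (`(red a).2` a uniformiser at `S`,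
`(red b).1` a uniformiser at `Φ S`, `ψ` a unit at the node) is a regular node of the chart
ring. -/
theorem h65_node_of_glue {y : Fb} (hy : h75_IsChart k y) (Qinf : Place k Fb)
    (hpole : ∀ Q : Place k Fb, y ∈ Q.toValuationSubring ↔ Q ≠ Qinf)
    (Sg : Finset (Place k Fb)) (Φ : Place k Fb → Place k Fb) (hΦ : Function.Injective Φ)
    (hSg : ∀ Q ∈ Sg, Q ≠ Qinf ∧ Φ Q ≠ Qinf)
    (V : h80_ValFam F ι) [IsNoetherianRing V.B] (q : ℕ) (hq0 : (q : F) ≠ 0)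
    (red : V.B →+* Fb × Fb)
    (hker : ∀ r : V.B, red r = 0 → ∃ r' : V.B, r = (q : V.B) * r')
    (hredq : red (q : V.B) = 0)
    (hT : ∀ a : Fb × Fb, (∃ b : V.B, red b = a) ↔
      (a.1 ∈ h20_regOff Qinf ∧ a.2 ∈ h20_regOff Qinf) ∧
        ∀ Q ∈ Sg, ∃ c : k, h39_Val (Φ Q) a.1 c ∧ h39_Val Q a.2 c)
    (c1 c2 : ι) (c_ne : c1 ≠ c2)
    (hc1 : ∀ f : V.B, (f : F) ≠ 0 → ((red f).1 = 0 ↔ 0 < V.v c1 f))
    (hc2 : ∀ f : V.B, (f : F) ≠ 0 → ((red f).2 = 0 ↔ 0 < V.v c2 f))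
    (hhor : ∀ j, j ≠ c1 → j ≠ c2 → V.v j (q : F) = 0)
    (vq1 : V.v c1 (q : F) = 1) (vq2 : V.v c2 (q : F) = 1)
    (m : Ideal V.B) (S : Place k Fb) (hS : S ∈ Sg)
    (hm : ∀ b : V.B, b ∈ m ↔ h39_Val S (red b).2 0)
    (a b ψ : V.B) (hab : a * b = (q : V.B) * ψ)
    (ha0 : (red a).2 ≠ 0) (ha : S.ord (red a).2 = 1)
    (hb0 : (red b).1 ≠ 0) (hb : (Φ S).ord (red b).1 = 1)
    (hψ : ¬ h39_Val S (red ψ).2 0)
    (hunr : ∀ i, V.v i (q : F) = 0 → V.Through m i → ∃ f : V.B, (f : F) ≠ 0 ∧ V.v i f = 1)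
    (hsep : ∀ i j, V.v i (q : F) = 0 → V.v j (q : F) = 0 → V.Through m i → V.Through m j →
      i ≠ j → ∃ f : V.B, (f : F) ≠ 0 ∧ 0 < V.v i f ∧ V.v j f = 0) :
    h62_Node V q m c1 c2 a b := by
  classical
  have hregT : ∀ r : V.B, (red r).1 ∈ h20_regOff Qinf ∧ (red r).2 ∈ h20_regOff Qinf :=
    fun r => ((hT (red r)).mp ⟨r, rfl⟩).1
  have hS1 : S ≠ Qinf := (hSg S hS).1
  have hS2 : Φ S ≠ Qinf := (hSg S hS).2
  let p' : Fb × Fb →+* PUnit.{1} :=
    { toFun := fun _ => PUnit.unit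
      map_one' := rfl
      map_mul' := fun _ _ => rfl
      map_zero' := rfl
      map_add' := fun _ _ => rfl }
  refine h31_node_of_lattice V q hq0 (h65_dv hy (Φ S)) (h65_dv hy S) red hker hredq
    (RingHom.fst Fb Fb) (RingHom.snd Fb Fb) p' (fun h h1 h2 _ => Prod.ext h1 h2) ?_ ?_ ?_ ?_ ?_
    m ?_ c1 c2 c_ne hc1 hc2 ?_ vq1 vq2 a b ψ hab ha0 ha hb0 hb ?_ hunr hsep
  · intro r
    exact h65_reg_of_mem hy (Φ S) ((hregT r).1 (Φ S) hS2)
  · intro r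
    exact h65_reg_of_mem hy S ((hregT r).2 S hS1)
  · -- hmatch
    intro r
    obtain ⟨c, h1, h2⟩ := ((hT (red r)).mp ⟨r, rfl⟩).2 S hS
    show h65_evFun hy (Φ S) (red r).1 = h65_evFun hy S (red r).2
    rw [h65_evFun_eq hy (Φ S) h1, h65_evFun_eq hy S h2]
  · intro c
    obtain ⟨r, hr⟩ := (hT (algebraMap k Fb c, algebraMap k Fb c)).mpr
      ⟨⟨(h20_regOff Qinf).algebraMap_mem c, (h20_regOff Qinf).algebraMap_mem c⟩,
        fun S _ => ⟨c, Or.inl rfl, Or.inl rfl⟩⟩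
    exact ⟨r, by rw [hr]; rfl, by rw [hr]; rfl⟩
  · -- hrich
    intro γ₁ γ₂ hγ₁ hγ₂ hev
    have hγ₁' : γ₁ ∈ (Φ S).toValuationSubring := h65_mem_of_reg hy (Φ S) hγ₁
    have hγ₂' : γ₂ ∈ S.toValuationSubring := h65_mem_of_reg hy S hγ₂
    obtain ⟨g₁, hg₁, hgγ₁, hgP₁, hgZ₁, hgγZ₁⟩ := h65_exists_den hy Qinf hpole (Φ S) hS2
      ((Sg.erase S).image Φ)
      (fun Q hQ => by
        obtain ⟨S', hS', rfl⟩ := Finset.mem_image.mp hQ
        exact (hSg S' (Finset.mem_of_mem_erase hS')).2)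
      (fun hQ => by
        obtain ⟨S', hS', hS''⟩ := Finset.mem_image.mp hQ
        exact (Finset.ne_of_mem_erase hS') (hΦ hS'')) γ₁ hγ₁'
    obtain ⟨g₂, hg₂, hgγ₂, hgP₂, hgZ₂, hgγZ₂⟩ := h65_exists_den hy Qinf hpole S hS1
      (Sg.erase S) (fun Q hQ => (hSg Q (Finset.mem_of_mem_erase hQ)).1)
      (Finset.notMem_erase S Sg) γ₂ hγ₂'
    have hv₁ : h39_Val (Φ S) (g₁ * γ₁) (h65_evFun hy (Φ S) γ₁) := by
      have h := h39_val_mul (Φ S) hgP₁ (h65_evFun_spec hy (Φ S) hγ₁')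
      rwa [one_mul] at h
    have hv₂ : h39_Val S (g₂ * γ₂) (h65_evFun hy (Φ S) γ₁) := by
      have h := h39_val_mul S hgP₂ (h65_evFun_spec hy S hγ₂')
      rw [one_mul] at h
      rw [show h65_evFun hy (Φ S) γ₁ = h65_evFun hy S γ₂ from hev]
      exact h
    obtain ⟨τ, hτ⟩ := (hT (g₁, g₂)).mpr ⟨⟨hg₁, hg₂⟩, fun S' hS' => by
      by_cases hSS : S' = S
      · subst hSS
        exact ⟨1, hgP₁, hgP₂⟩
      · exact ⟨0, hgZ₁ _ (Finset.mem_image_of_mem Φ (Finset.mem_erase.mpr ⟨hSS, hS'⟩)),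
          hgZ₂ _ (Finset.mem_erase.mpr ⟨hSS, hS'⟩)⟩⟩
    obtain ⟨ρ, hρ⟩ := (hT (g₁ * γ₁, g₂ * γ₂)).mpr ⟨⟨hgγ₁, hgγ₂⟩, fun S' hS' => by
      by_cases hSS : S' = S
      · subst hSS
        exact ⟨_, hv₁, hv₂⟩
      · exact ⟨0, hgγZ₁ _ (Finset.mem_image_of_mem Φ (Finset.mem_erase.mpr ⟨hSS, hS'⟩)),
          hgγZ₂ _ (Finset.mem_erase.mpr ⟨hSS, hS'⟩)⟩⟩
    refine ⟨τ, ρ, rfl, rfl, ?_, ?_, ?_⟩
    · rw [hτ]
      show h65_evFun hy S g₂ ≠ 0
      rw [h65_evFun_eq hy S hgP₂]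
      exact one_ne_zero
    · rw [hρ, hτ]; rfl
    · rw [hρ, hτ]; rfl
  · -- hm
    intro f
    rw [hm f]
    constructor
    · intro h
      exact h65_evFun_eq hy S h
    · intro h
      have hs := h65_evFun_spec hy S ((hregT f).2 S hS1)
      rw [show h65_evFun hy S (red f).2 = 0 from h] at hs
      exact hs
  · -- hc'
    intro j hj1 hj2 f hf0 _
    rw [hhor j hj1 hj2]
    exact h80_v_nonneg V j f hf0
  · -- hψ
    intro h
    apply hψ
    have hs := h65_evFun_spec hy S ((hregT ψ).2 S hS1)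
    rw [show h65_evFun hy S (red ψ).2 = 0 from h] at hs
    exact hs

/-- **(Q-PTS) + (Q-PT) + (Q-NODE)**: every maximal ideal of the chart ring containing `q` is a
one-branch point of the first branch, a one-branch point of the second branch, or a regular
node (given the node data `a b = q ψ` at every node). -/
theorem h65_glue_local {y : Fb} (hy : h75_IsChart k y) (Qinf : Place k Fb)
    (hpole : ∀ Q : Place k Fb, y ∈ Q.toValuationSubring ↔ Q ≠ Qinf)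
    (Sg : Finset (Place k Fb)) (Φ : Place k Fb → Place k Fb) (hΦ : Function.Injective Φ)
    (hSg : ∀ Q ∈ Sg, Q ≠ Qinf ∧ Φ Q ≠ Qinf)
    (V : h80_ValFam F ι) [IsNoetherianRing V.B] (q : ℕ) (hq0 : (q : F) ≠ 0)
    (red : V.B →+* Fb × Fb)
    (hker : ∀ r : V.B, red r = 0 → ∃ r' : V.B, r = (q : V.B) * r')
    (hredq : red (q : V.B) = 0)
    (hT : ∀ a : Fb × Fb, (∃ b : V.B, red b = a) ↔
      (a.1 ∈ h20_regOff Qinf ∧ a.2 ∈ h20_regOff Qinf) ∧
        ∀ Q ∈ Sg, ∃ c : k, h39_Val (Φ Q) a.1 c ∧ h39_Val Q a.2 c)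
    (c1 c2 : ι) (c_ne : c1 ≠ c2)
    (hc1 : ∀ f : V.B, (f : F) ≠ 0 → ((red f).1 = 0 ↔ 0 < V.v c1 f))
    (hc2 : ∀ f : V.B, (f : F) ≠ 0 → ((red f).2 = 0 ↔ 0 < V.v c2 f))
    (hhor : ∀ j, j ≠ c1 → j ≠ c2 → V.v j (q : F) = 0)
    (vq1 : V.v c1 (q : F) = 1) (vq2 : V.v c2 (q : F) = 1)
    (hnodeData : ∀ S ∈ Sg, ∃ a b ψ : V.B, a * b = (q : V.B) * ψ ∧ (red a).2 ≠ 0 ∧
      S.ord (red a).2 = 1 ∧ (red b).1 ≠ 0 ∧ (Φ S).ord (red b).1 = 1 ∧ ¬ h39_Val S (red ψ).2 0)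
    (hunr : ∀ (m : Ideal V.B) (i : ι), V.v i (q : F) = 0 → V.Through m i →
      ∃ f : V.B, (f : F) ≠ 0 ∧ V.v i f = 1)
    (hsep : ∀ (m : Ideal V.B) (i j : ι), V.v i (q : F) = 0 → V.v j (q : F) = 0 →
      V.Through m i → V.Through m j → i ≠ j → ∃ f : V.B, (f : F) ≠ 0 ∧ 0 < V.v i f ∧ V.v j f = 0)
    (m : Ideal V.B) (hmax : m.IsMaximal) (hqm : (q : V.B) ∈ m) :
    h62_Pt V q m c1 (q : V.B) 1 ∨ h62_Pt V q m c2 (q : V.B) 1 ∨
      ∃ a b : V.B, h62_Node V q m c1 c2 a b := by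
  have hker' : ∀ b : V.B, red b = 0 → b ∈ m := by
    intro b hb
    obtain ⟨r', rfl⟩ := hker b hb
    exact m.mul_mem_right _ hqm
  rcases h65_glue_pts hy Qinf hpole Sg Φ hΦ hSg red hT m hmax hker' with
    ⟨P, hP, hPS, hm⟩ | ⟨P, hP, hPS, hm⟩ | ⟨S, hS, -, hm⟩
  · exact Or.inl (h65_pt_of_glue₁ hy Qinf hpole Sg Φ hSg V q hq0 red hker hredq hT c1 c2 hc1 hc2
      hhor vq1 vq2 m P hP hPS hm (hunr m) (hsep m))
  · exact Or.inr (Or.inl (h65_pt_of_glue₂ hy Qinf hpole Sg Φ hSg V q hq0 red hker hredq hT c1 c2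
      hc1 hc2 hhor vq1 vq2 m P hP hPS hm (hunr m) (hsep m)))
  · obtain ⟨a, b, ψ, hab, ha0, ha, hb0, hb, hψ⟩ := hnodeData S hS
    exact Or.inr (Or.inr ⟨a, b, h65_node_of_glue hy Qinf hpole Sg Φ hΦ hSg V q hq0 red hker hredq
      hT c1 c2 c_ne hc1 hc2 hhor vq1 vq2 m S hS hm a b ψ hab ha0 ha hb0 hb hψ (hunr m) (hsep m)⟩)

end Local

end Fermat.Agent.S36

end
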