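import Mathlib
import Fermat.Agent.S36.h65_NoethQ

/-!
# S36 / (E) in the `hmax0` shape of helper83's `h83_glue2` (helper65)

`V` a chart family at level `N` (helper89's `h89_fam` = helper80's `h80_famOf`), `m` a maximal
ideal of `V.B` containing `q`.

* `h65_resK_unit` : every `b ∉ m` is congruent modulo `m` to a constant `a` of `A₀` with
  `a⁻¹ ∈ A₀` (from helper89's `h89_resK`).
* `h65_hmax0` : for every subring `B0` of `V.B` containing the constants of `A₀`,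
  `∀ b : B0, (b : V.B) ∉ m → ∃ b' : B0, (b : V.B) * b' - 1 ∈ m`  (the binder `hmax0` of
  `h83_glue2_cases` / `h83_res_glue2_fst` / `h83_res_glue2_snd`).
* `h65_hmax0_q` : the closed instance at the level-`M q` chart `j` for `h98_w1`
  (`V := h80_fam1 (M * q) I (h98_w1 ..) ..`);  `h65_hmax0_q2` : the same at level `M q²` for
  `h98_w2`;  `h65_resK_q`, `h65_resK_q2` : (RESK) closed at these families.
-/

set_option autoImplicit false
set_option synthInstance.maxHeartbeats 400000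

noncomputable section

open ModularCurve AlgebraicCurve CongruenceSubgroup Polynomial IntermediateField
open scoped MatrixGroups

namespace Fermat.Agent.S36

open Fermat.Agent.S34 Fermat.Agent.S37 Fermat.Agent.S24 Fermat.Agent.S35 Fermat.Agent.S18

local notation "Qb" => AlgebraicClosure ℚ

section Aux

/-- `b ≡ c mod m` and `c c' = 1` give `b c' ≡ 1 mod m`. -/
theorem h65_ideal_aux {R : Type*} [CommRing R] (m : Ideal R) {b c c' : R} (h1 : c * c' = 1)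
    (h2 : b - c ∈ m) : b * c' - 1 ∈ m := by
  have e : b * c' - 1 = (b - c) * c' := by rw [sub_mul, h1]
  rw [e]
  exact m.mul_mem_right _ h2

end Aux

section Inst

variable (N : ℕ) [NeZero N] (q : ℕ) [Fact q.Prime] (A : ValuationSubring Qb)

variable {κ : Type*} [Finite κ] (x0 : ↥(h69_F0 N (A.inertiaSubgroupIn ℚ)))
  (hx : h75_IsChart Qb (x0 : modularFunctionFieldBar N))
  (w : κ → ↥(h69_F0 N (A.inertiaSubgroupIn ℚ)) → ℤ)
  (hw_mul : ∀ c (f g : ↥(h69_F0 N (A.inertiaSubgroupIn ℚ))), f ≠ 0 → g ≠ 0 →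
    w c (f * g) = w c f + w c g)
  (hw_add : ∀ c (f g : ↥(h69_F0 N (A.inertiaSubgroupIn ℚ))), f ≠ 0 → g ≠ 0 → f + g ≠ 0 →
    min (w c f) (w c g) ≤ w c (f + g))

local notation "VF" => h89_fam N (A.inertiaSubgroupIn ℚ) hx w hw_mul hw_add

/-- Every element outside a point `m ∋ q` is congruent modulo `m` to a unit constant of `A₀`. -/
theorem h65_resK_unit (hA : A.LiesOverPrime q)
    (hwA : ∀ c (a : ↥(h69_K0 (A.inertiaSubgroupIn ℚ))), a ∈ h69_A0 A → a ≠ 0 →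
      0 ≤ w c (algebraMap (h69_K0 (A.inertiaSubgroupIn ℚ)) (h69_F0 N (A.inertiaSubgroupIn ℚ)) a))
    (hwx : ∀ c, 0 ≤ w c x0)
    (hint : ∀ f ∈ (VF).B, (h97_ev (h69_A0 A).toSubring x0).IsIntegralElem f)
    (m : Ideal (VF).B) (hm : m.IsMaximal) (hqm : ((q : ℕ) : (VF).B) ∈ m) (b : (VF).B)
    (hb : b ∉ m) :
    ∃ (a : ↥(h69_K0 (A.inertiaSubgroupIn ℚ))) (ha : a ∈ h69_A0 A), a⁻¹ ∈ h69_A0 A ∧ a ≠ 0 ∧
      b - ⟨algebraMap (h69_K0 (A.inertiaSubgroupIn ℚ)) (h69_F0 N (A.inertiaSubgroupIn ℚ)) a,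
        h89_const_mem_B N A x0 hx w hw_mul hw_add hwA a ha⟩ ∈ m := by
  obtain ⟨a, ha, hab⟩ := h89_resK N q A x0 hx w hw_mul hw_add hA hwA hwx hint m hqm b
  have hnu : (a : Qb) ∉ A.nonunits := by
    intro hnu
    have h1 := h89_nonunit_const_mem N q A x0 hx w hw_mul hw_add hA hwA m hqm a ha hnu
    apply hb
    have h2 := m.add_mem hab h1
    rwa [sub_add_cancel] at h2
  have h3 : ¬ ((a : Qb) = 0 ∨ (a : Qb)⁻¹ ∉ A) := fun h =>
    hnu ((ValuationSubring.mem_nonunits_iff_or (A := A)).mpr h)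
  push Not at h3
  refine ⟨a, ha, ?_, ?_, hab⟩
  · exact (h69_mem_A0 A a⁻¹).mpr h3.2
  · intro h0
    apply h3.1
    rw [h0]
    rfl

/-- **`hmax0`**: a subring `B0` of the chart ring containing the constants of `A₀` has residue
field `B0 / (m ∩ B0)` at every point `m ∋ q`. -/
theorem h65_hmax0 (hA : A.LiesOverPrime q)
    (hwA : ∀ c (a : ↥(h69_K0 (A.inertiaSubgroupIn ℚ))), a ∈ h69_A0 A → a ≠ 0 →
      0 ≤ w c (algebraMap (h69_K0 (A.inertiaSubgroupIn ℚ)) (h69_F0 N (A.inertiaSubgroupIn ℚ)) a))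
    (hwx : ∀ c, 0 ≤ w c x0)
    (hint : ∀ f ∈ (VF).B, (h97_ev (h69_A0 A).toSubring x0).IsIntegralElem f)
    (m : Ideal (VF).B) (hm : m.IsMaximal) (hqm : ((q : ℕ) : (VF).B) ∈ m) (B0 : Subring (VF).B)
    (hconst : ∀ (a : ↥(h69_K0 (A.inertiaSubgroupIn ℚ))) (_ : a ∈ h69_A0 A)
      (h : algebraMap (h69_K0 (A.inertiaSubgroupIn ℚ)) (h69_F0 N (A.inertiaSubgroupIn ℚ)) a ∈
        (VF).B),
      (⟨algebraMap (h69_K0 (A.inertiaSubgroupIn ℚ)) (h69_F0 N (A.inertiaSubgroupIn ℚ)) a, h⟩ :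
        (VF).B) ∈ B0) :
    ∀ b : B0, (b : (VF).B) ∉ m → ∃ b' : B0, (b : (VF).B) * b' - 1 ∈ m := by
  intro b hb
  obtain ⟨a, ha, hai, ha0, hab⟩ :=
    h65_resK_unit N q A x0 hx w hw_mul hw_add hA hwA hwx hint m hm hqm (b : (VF).B) hb
  have hmem' := h89_const_mem_B N A x0 hx w hw_mul hw_add hwA a⁻¹ hai
  refine ⟨⟨⟨_, hmem'⟩, hconst a⁻¹ hai hmem'⟩, ?_⟩
  refine h65_ideal_aux m (Subtype.ext ?_) hab
  show algebraMap (h69_K0 (A.inertiaSubgroupIn ℚ)) (h69_F0 N (A.inertiaSubgroupIn ℚ)) a *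
    algebraMap (h69_K0 (A.inertiaSubgroupIn ℚ)) (h69_F0 N (A.inertiaSubgroupIn ℚ)) a⁻¹ = 1
  rw [← map_mul, mul_inv_cancel₀ ha0, map_one]

end Inst

section Closed

variable (M q : ℕ) [NeZero M] [NeZero q] [Fact q.Prime] (hqM : ¬ q ∣ M)
  (A : ValuationSubring Qb) (hA : A.LiesOverPrime q)
  (ζ : Qb) (hζ : IsPrimitiveRoot ζ q) (hex : h98_Ex M q hqM A ζ hζ)

include hA in
/-- **(RESK) at level `M q`, chart `j`, closed.** -/
theorem h65_resK_q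
    (m : Ideal (h80_fam1 (M * q) (A.inertiaSubgroupIn ℚ) (h98_w1 M q hqM A ζ hζ hex)
      (h98_hw1mul M q hqM A hA ζ hζ hex) (h98_hw1add M q hqM A hA ζ hζ hex)).B)
    (hm : m.IsMaximal)
    (hqm : ((q : ℕ) : (h80_fam1 (M * q) (A.inertiaSubgroupIn ℚ) (h98_w1 M q hqM A ζ hζ hex)
      (h98_hw1mul M q hqM A hA ζ hζ hex) (h98_hw1add M q hqM A hA ζ hζ hex)).B) ∈ m)
    (b : (h80_fam1 (M * q) (A.inertiaSubgroupIn ℚ) (h98_w1 M q hqM A ζ hζ hex)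
      (h98_hw1mul M q hqM A hA ζ hζ hex) (h98_hw1add M q hqM A hA ζ hζ hex)).B) :
    ∃ (a : ↥(h69_K0 (A.inertiaSubgroupIn ℚ))) (_ : a ∈ h69_A0 A)
      (h : algebraMap (h69_K0 (A.inertiaSubgroupIn ℚ)) (h69_F0 (M * q) (A.inertiaSubgroupIn ℚ)) a ∈
        (h80_fam1 (M * q) (A.inertiaSubgroupIn ℚ) (h98_w1 M q hqM A ζ hζ hex)
          (h98_hw1mul M q hqM A hA ζ hζ hex) (h98_hw1add M q hqM A hA ζ hζ hex)).B),
      b - ⟨_, h⟩ ∈ m := by
  obtain ⟨a, ha, hab⟩ := @h89_resK (M * q) _ q _ A _ _ (h65_J0 (M * q) (A.inertiaSubgroupIn ℚ))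
    (h54_isChart_jbar (M * q)) (h98_w1 M q hqM A ζ hζ hex) (h98_hw1mul M q hqM A hA ζ hζ hex)
    (h98_hw1add M q hqM A hA ζ hζ hex) hA
    (h65_hwA_of_hR (M * q) A _ _ (h65_hR_w1 M q hqM A hA ζ hζ hex))
    (h65_hwx_of_hR (M * q) A _ _ (h65_hR_w1 M q hqM A hA ζ hζ hex)
      (fun h => h65_jbar_ne_zero (M * q) (congrArg Subtype.val h)))
    (h65_noeth_q M q hqM A hA ζ hζ hex).2 m hm hqm b
  exact ⟨a, ha, _, hab⟩

include hA in
/-- **`hmax0` at level `M q`, chart `j`, closed**: the binder of `h83_glue2_cases` /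
`h83_res_glue2_fst` / `_snd` for any subring `B0` of the chart ring containing the constants. -/
theorem h65_hmax0_q
    (m : Ideal (h80_fam1 (M * q) (A.inertiaSubgroupIn ℚ) (h98_w1 M q hqM A ζ hζ hex)
      (h98_hw1mul M q hqM A hA ζ hζ hex) (h98_hw1add M q hqM A hA ζ hζ hex)).B)
    (hm : m.IsMaximal)
    (hqm : ((q : ℕ) : (h80_fam1 (M * q) (A.inertiaSubgroupIn ℚ) (h98_w1 M q hqM A ζ hζ hex)
      (h98_hw1mul M q hqM A hA ζ hζ hex) (h98_hw1add M q hqM A hA ζ hζ hex)).B) ∈ m)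
    (B0 : Subring (h80_fam1 (M * q) (A.inertiaSubgroupIn ℚ) (h98_w1 M q hqM A ζ hζ hex)
      (h98_hw1mul M q hqM A hA ζ hζ hex) (h98_hw1add M q hqM A hA ζ hζ hex)).B)
    (hconst : ∀ (a : ↥(h69_K0 (A.inertiaSubgroupIn ℚ))) (_ : a ∈ h69_A0 A)
      (h : algebraMap (h69_K0 (A.inertiaSubgroupIn ℚ)) (h69_F0 (M * q) (A.inertiaSubgroupIn ℚ)) a ∈
        (h80_fam1 (M * q) (A.inertiaSubgroupIn ℚ) (h98_w1 M q hqM A ζ hζ hex)
          (h98_hw1mul M q hqM A hA ζ hζ hex) (h98_hw1add M q hqM A hA ζ hζ hex)).B),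
      (⟨_, h⟩ : (h80_fam1 (M * q) (A.inertiaSubgroupIn ℚ) (h98_w1 M q hqM A ζ hζ hex)
          (h98_hw1mul M q hqM A hA ζ hζ hex) (h98_hw1add M q hqM A hA ζ hζ hex)).B) ∈ B0) :
    ∀ b : B0, (b : (h80_fam1 (M * q) (A.inertiaSubgroupIn ℚ) (h98_w1 M q hqM A ζ hζ hex)
        (h98_hw1mul M q hqM A hA ζ hζ hex) (h98_hw1add M q hqM A hA ζ hζ hex)).B) ∉ m →
      ∃ b' : B0, (b : (h80_fam1 (M * q) (A.inertiaSubgroupIn ℚ) (h98_w1 M q hqM A ζ hζ hex)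
        (h98_hw1mul M q hqM A hA ζ hζ hex) (h98_hw1add M q hqM A hA ζ hζ hex)).B) * b' - 1 ∈ m :=
  h65_hmax0 (M * q) q A (h65_J0 (M * q) (A.inertiaSubgroupIn ℚ))
    (h54_isChart_jbar (M * q)) (h98_w1 M q hqM A ζ hζ hex) (h98_hw1mul M q hqM A hA ζ hζ hex)
    (h98_hw1add M q hqM A hA ζ hζ hex) hA
    (h65_hwA_of_hR (M * q) A _ _ (h65_hR_w1 M q hqM A hA ζ hζ hex))
    (h65_hwx_of_hR (M * q) A _ _ (h65_hR_w1 M q hqM A hA ζ hζ hex)
      (fun h => h65_jbar_ne_zero (M * q) (congrArg Subtype.val h)))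
    (h65_noeth_q M q hqM A hA ζ hζ hex).2 m hm hqm B0 hconst

include hA in
/-- **(RESK) at level `M q²`, chart `j`, closed.** -/
theorem h65_resK_q2
    (m : Ideal (h80_fam1 (M * q * q) (A.inertiaSubgroupIn ℚ) (h98_w2 M q hqM A ζ hζ hex)
      (h98_hw2mul M q hqM A hA ζ hζ hex) (h98_hw2add M q hqM A hA ζ hζ hex)).B)
    (hm : m.IsMaximal)
    (hqm : ((q : ℕ) : (h80_fam1 (M * q * q) (A.inertiaSubgroupIn ℚ) (h98_w2 M q hqM A ζ hζ hex)
      (h98_hw2mul M q hqM A hA ζ hζ hex) (h98_hw2add M q hqM A hA ζ hζ hex)).B) ∈ m)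
    (b : (h80_fam1 (M * q * q) (A.inertiaSubgroupIn ℚ) (h98_w2 M q hqM A ζ hζ hex)
      (h98_hw2mul M q hqM A hA ζ hζ hex) (h98_hw2add M q hqM A hA ζ hζ hex)).B) :
    ∃ (a : ↥(h69_K0 (A.inertiaSubgroupIn ℚ))) (_ : a ∈ h69_A0 A)
      (h : algebraMap (h69_K0 (A.inertiaSubgroupIn ℚ))
          (h69_F0 (M * q * q) (A.inertiaSubgroupIn ℚ)) a ∈
        (h80_fam1 (M * q * q) (A.inertiaSubgroupIn ℚ) (h98_w2 M q hqM A ζ hζ hex)
          (h98_hw2mul M q hqM A hA ζ hζ hex) (h98_hw2add M q hqM A hA ζ hζ hex)).B),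
      b - ⟨_, h⟩ ∈ m := by
  obtain ⟨a, ha, hab⟩ := @h89_resK (M * q * q) _ q _ A _ _
    (h65_J0 (M * q * q) (A.inertiaSubgroupIn ℚ))
    (h54_isChart_jbar (M * q * q)) (h98_w2 M q hqM A ζ hζ hex)
    (h98_hw2mul M q hqM A hA ζ hζ hex) (h98_hw2add M q hqM A hA ζ hζ hex) hA
    (h65_hwA_of_hR (M * q * q) A _ _ (h91_hR_w98 M q hqM A hA ζ hζ hex))
    (h65_hwx_of_hR (M * q * q) A _ _ (h91_hR_w98 M q hqM A hA ζ hζ hex)
      (fun h => h65_jbar_ne_zero (M * q * q) (congrArg Subtype.val h)))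
    (h65_noeth_q2 M q hqM A hA ζ hζ hex).2 m hm hqm b
  exact ⟨a, ha, _, hab⟩

end Closed

end Fermat.Agent.S36
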