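import Mathlib
import Fermat.Agent.S40.h31_NodeGen

/-!
# S36 row Q / (PT-GEN): local generators at a one-branch point (helper65)

The one-branch analogue of `Fermat.Agent.S40.h31_node_gen` (helper31), same vocabulary.

`R` is the ring of rational integral functions regular off the polar divisor, `ϖ` the uniformiser
of the constants, `red : R → Rb` the reduction (`ker red = ϖ R`), `p₁ : Rb → Fb₁` the branch
through the point `y`, `p' : Rb → Rb'` the other components, `D₁` the discrete valuation of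
`Fb₁` at `y`.

`h65_pt_gen`: if every germ regular at `y` is a quotient of two reductions of elements of `R`
supported on the branch, with denominator a unit at `y` (`hrich`: in particular `y` lies on no
other component), then every finitely generated `ϖ`-saturated ideal `M` of `R` with `M ⊄ ker p₁∘red`
is generated at `y` by one element: there are `g ∈ M` and `δ : R`, a unit at `y`, with `δ M ⊆ g R`.
-/

set_option autoImplicit false

namespace Fermat.Agent.S36

open Fermat.Agent.S40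

variable {R Rb k Fb₁ Rb' : Type*} [CommRing R] [CommRing Rb] [Field k] [Field Fb₁]
  [Algebra k Fb₁] [CommRing Rb']

/-- An element of `M` whose reduction on the branch is nonzero of minimal order at the point. -/
theorem h65_exists_min (D₁ : h31_DV k Fb₁) (red : R →+* Rb) (p₁ : Rb →+* Fb₁)
    (hreg₁ : ∀ r : R, D₁.Reg (p₁ (red r))) (M : Ideal R)
    (hM₁ : ∃ φ ∈ M, p₁ (red φ) ≠ 0) :
    ∃ g ∈ M, p₁ (red g) ≠ 0 ∧
      ∀ φ ∈ M, p₁ (red φ) ≠ 0 → D₁.ord (p₁ (red g)) ≤ D₁.ord (p₁ (red φ)) := by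
  classical
  have hS₁ : ∃ n : ℕ, ∃ φ ∈ M, p₁ (red φ) ≠ 0 ∧ D₁.ord (p₁ (red φ)) = n := by
    obtain ⟨φ, hφ, h0⟩ := hM₁
    have := (hreg₁ φ).resolve_left h0
    exact ⟨(D₁.ord (p₁ (red φ))).toNat, φ, hφ, h0, (Int.toNat_of_nonneg this).symm⟩
  obtain ⟨φ₁, hφ₁M, hφ₁0, hφ₁⟩ := Nat.find_spec hS₁
  refine ⟨φ₁, hφ₁M, hφ₁0, fun φ hφ h0 => ?_⟩
  have h1 := (hreg₁ φ).resolve_left h0
  have h2 := Nat.find_min' hS₁ ⟨φ, hφ, h0, (Int.toNat_of_nonneg h1).symm⟩
  omega

/-- **(PT-GEN)**: local generators at a one-branch point.  For a finitely generated,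
`ϖ`-saturated ideal `M` of `R` not contained in the kernel of the reduction on the branch there
are `g ∈ M` (of minimal order at the point) and `δ : R`, a unit at the point, with `δ M ⊆ g R`. -/
theorem h65_pt_gen
    (D₁ : h31_DV k Fb₁) (ϖ : R)
    (red : R →+* Rb) (hker : ∀ r : R, red r = 0 → ∃ r' : R, r = ϖ * r') (hredϖ : red ϖ = 0)
    (p₁ : Rb →+* Fb₁) (p' : Rb →+* Rb')
    (hinj : ∀ h : Rb, p₁ h = 0 → p' h = 0 → h = 0)
    (hreg₁ : ∀ r : R, D₁.Reg (p₁ (red r)))
    (hrich : ∀ q₁ : Fb₁, D₁.Reg q₁ →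
      ∃ τ ρ : R, p' (red τ) = 0 ∧ p' (red ρ) = 0 ∧ D₁.ev (p₁ (red τ)) ≠ 0 ∧
        p₁ (red ρ) = p₁ (red τ) * q₁)
    (M : Ideal R) (hsat : ∀ φ : R, ϖ * φ ∈ M → φ ∈ M) (hfg : M.FG)
    (hM₁ : ∃ φ ∈ M, p₁ (red φ) ≠ 0) :
    ∃ g ∈ M, p₁ (red g) ≠ 0 ∧
      (∀ φ ∈ M, p₁ (red φ) ≠ 0 → D₁.ord (p₁ (red g)) ≤ D₁.ord (p₁ (red φ))) ∧
      ∃ δ : R, D₁.ev (p₁ (red δ)) ≠ 0 ∧ ∀ φ ∈ M, ∃ t : R, δ * φ = g * t := by
  classical
  obtain ⟨g, hg, hg₁, hmin₁⟩ := h65_exists_min D₁ red p₁ hreg₁ M hM₁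
  refine ⟨g, hg, hg₁, hmin₁, ?_⟩
  obtain ⟨n, s, hs⟩ := Submodule.fg_iff_exists_fin_generating_family.mp hfg
  have hsM : ∀ l, s l ∈ M := fun l => by
    rw [← hs]
    exact Submodule.subset_span ⟨l, rfl⟩
  -- local quotients of the generators
  have hloc : ∀ l, ∃ τ ρ : R, D₁.ev (p₁ (red τ)) ≠ 0 ∧
      ∃ c : Fin n → R, τ * s l - ρ * g = ϖ * ∑ m, c m * s m := by
    intro l
    have hq₁ : D₁.Reg (p₁ (red (s l)) / p₁ (red g)) := h31_reg_div D₁ hg₁ (hmin₁ (s l) (hsM l))
    obtain ⟨τ, ρ, hτ', hρ', hτev, hρ₁⟩ := hrich _ hq₁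
    have hzero : red (τ * s l - ρ * g) = 0 := by
      apply hinj
      · rw [map_sub, map_sub, map_mul, map_mul, map_mul, map_mul, hρ₁]
        field_simp
        ring
      · rw [map_sub, map_sub, map_mul, map_mul, map_mul, map_mul, hτ', hρ']
        ring
    obtain ⟨w, hw⟩ := hker _ hzero
    have hwM : w ∈ M := by
      apply hsat
      rw [← hw]
      exact M.sub_mem (M.mul_mem_left _ (hsM l)) (M.mul_mem_left _ hg)
    rw [← hs] at hwM
    obtain ⟨c, hc⟩ := (Submodule.mem_span_range_iff_exists_fun R).mp hwM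
    refine ⟨τ, ρ, hτev, c, ?_⟩
    rw [hw, ← hc]
    simp only [smul_eq_mul]
  choose τ ρ hτev c hc using hloc
  set A : Matrix (Fin n) (Fin n) R := Matrix.diagonal τ - ϖ • Matrix.of c with hA
  have hAs : A.mulVec s = fun l => ρ l * g := by
    funext l
    have h1 : A.mulVec s l = τ l * s l - ϖ * ∑ m, c l m * s m := by
      rw [hA, Matrix.sub_mulVec, Matrix.smul_mulVec, Pi.sub_apply, Matrix.mulVec_diagonal,
        Pi.smul_apply, smul_eq_mul]
      rfl
    rw [h1, ← hc l]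
    ring
  have hdet : ∀ l, A.det * s l = g * ∑ m, A.adjugate l m * ρ m := by
    intro l
    have h1 : A.adjugate.mulVec (A.mulVec s) = A.det • s := by
      rw [Matrix.mulVec_mulVec, Matrix.adjugate_mul, Matrix.smul_mulVec, Matrix.one_mulVec]
    have h2 := congrFun h1 l
    rw [hAs, Pi.smul_apply, smul_eq_mul] at h2
    rw [← h2, Matrix.mulVec, dotProduct, Finset.mul_sum]
    exact Finset.sum_congr rfl fun m _ => by ring
  refine ⟨A.det, ?_, ?_⟩
  · -- the determinant is a unit at the point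
    have he : h31_evHom D₁ red p₁ hreg₁ A.det = ∏ l, h31_evHom D₁ red p₁ hreg₁ (τ l) := by
      rw [RingHom.map_det]
      have hmap : (h31_evHom D₁ red p₁ hreg₁).mapMatrix A =
          Matrix.diagonal fun l => h31_evHom D₁ red p₁ hreg₁ (τ l) := by
        ext i j
        have hϖ0 : h31_evHom D₁ red p₁ hreg₁ ϖ = 0 := by
          rw [h31_evHom_apply, hredϖ, map_zero]
          exact D₁.ev_zero
        rw [RingHom.mapMatrix_apply, Matrix.map_apply, hA, Matrix.sub_apply, Matrix.smul_apply,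
          smul_eq_mul, map_sub, map_mul, hϖ0, zero_mul, sub_zero]
        by_cases hij : i = j
        · subst hij
          rw [Matrix.diagonal_apply_eq, Matrix.diagonal_apply_eq]
        · rw [Matrix.diagonal_apply_ne _ hij, Matrix.diagonal_apply_ne _ hij, map_zero]
      rw [hmap, Matrix.det_diagonal]
    rw [← h31_evHom_apply D₁ red p₁ hreg₁, he]
    exact Finset.prod_ne_zero_iff.mpr fun l _ => hτev l
  · intro φ hφ
    rw [← hs] at hφ
    obtain ⟨d, hd⟩ := (Submodule.mem_span_range_iff_exists_fun R).mp hφ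
    refine ⟨∑ l, d l * ∑ m, A.adjugate l m * ρ m, ?_⟩
    rw [← hd, Finset.mul_sum, Finset.mul_sum]
    refine Finset.sum_congr rfl fun l _ => ?_
    rw [smul_eq_mul]
    calc A.det * (d l * s l) = d l * (A.det * s l) := by ring
      _ = d l * (g * ∑ m, A.adjugate l m * ρ m) := by rw [hdet l]
      _ = g * (d l * ∑ m, A.adjugate l m * ρ m) := by ring

end Fermat.Agent.S36
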