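import Mathlib
import Fermat.Agent.S36.h62_NodeIface
import Fermat.Agent.S36.h65_PtGen
import Fermat.Agent.S40.h31_NodeUnitStar

/-!
# S36 row Q / (PT-BRIDGE): one-branch points in the node interface (helper65)

Bridge from the lattice-level core `h65_pt_gen` to the frozen node interface
`h62_Pt` (helper62, over helper80's `h80_ValFam`), in the same hypothesis shapes as helper31's
`Fermat.Agent.S40.h31_unitStar_node`.

`V : h80_ValFam F ι` is the family of the vertical and horizontal valuations of the rational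
function field, `V.B` the chart ring, `m` the point, `red : V.B → Rb` the reduction with
`ker red = q V.B`, `p₁` the branch through the point and `p'` the other components, `c` the index
of the vertical valuation of the branch.

* `h65_unitStar_horiz_pt` : a horizontal valuation through a one-branch point has a local
  equation there.
* `h65_pt_of_gen` : `h62_Pt V q m c q 1` (smooth point of a reduced component).

No local ring is needed: no `IsLocalRing`, no PID quotient, no UFD.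
-/

set_option autoImplicit false

namespace Fermat.Agent.S36

open Fermat.Agent.S40

variable {F : Type*} [Field F] {ι : Type*}

variable {Rb k Fb₁ Rb' : Type*} [CommRing Rb] [Field k] [Field Fb₁] [Algebra k Fb₁] [CommRing Rb']

/-- **A horizontal valuation through a one-branch point has a local equation there.**
Lattice-level hypotheses only (see `h65_pt_gen`); `hfg` is (NOETH) for the one ideal used,
`hunr` is (UNR), `hseph` is (SEPH). -/
theorem h65_unitStar_horiz_pt (V : h80_ValFam F ι) (m : Ideal V.B)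
    (D₁ : h31_DV k Fb₁) (q : V.B) (hq0 : (q : F) ≠ 0)
    (red : V.B →+* Rb) (hker : ∀ r : V.B, red r = 0 → ∃ r' : V.B, r = q * r') (hredq : red q = 0)
    (p₁ : Rb →+* Fb₁) (p' : Rb →+* Rb')
    (hinj : ∀ h : Rb, p₁ h = 0 → p' h = 0 → h = 0)
    (hreg₁ : ∀ r : V.B, D₁.Reg (p₁ (red r)))
    (hrich : ∀ q₁ : Fb₁, D₁.Reg q₁ →
      ∃ τ ρ : V.B, p' (red τ) = 0 ∧ p' (red ρ) = 0 ∧ D₁.ev (p₁ (red τ)) ≠ 0 ∧
        p₁ (red ρ) = p₁ (red τ) * q₁)
    (hm : ∀ f : V.B, D₁.ev (p₁ (red f)) ≠ 0 → f ∉ m)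
    (c : ι) (hc : ∀ f : V.B, (f : F) ≠ 0 → p₁ (red f) ≠ 0 → V.v c f = 0)
    (i : ι) (hi : V.Through m i) (hiq : V.v i q = 0) (hfg : (h31_posIdeal V i).FG)
    (hunr : ∃ f : V.B, (f : F) ≠ 0 ∧ V.v i f = 1)
    (hsep1 : ∃ f : V.B, (f : F) ≠ 0 ∧ 0 < V.v i f ∧ p₁ (red f) ≠ 0)
    (hseph : ∀ j, V.Through m j → j ≠ i → j ≠ c →
      ∃ f : V.B, (f : F) ≠ 0 ∧ 0 < V.v i f ∧ V.v j f = 0) :
    ∃ e : F, e ≠ 0 ∧ V.v i e = 1 ∧ ∀ j, V.Through m j → j ≠ i → V.v j e = 0 := by
  have hcoe0 : ∀ f : V.B, (f : F) = 0 → f = 0 := fun f h => Subtype.ext h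
  -- the hypotheses of `h65_pt_gen` for `M := h31_posIdeal V i`
  have hsat : ∀ φ : V.B, q * φ ∈ h31_posIdeal V i → φ ∈ h31_posIdeal V i := by
    intro φ h
    by_cases hφ0 : (φ : F) = 0
    · exact Or.inl hφ0
    have hne : ((q * φ : V.B) : F) ≠ 0 := by
      rw [Subring.coe_mul]; exact mul_ne_zero hq0 hφ0
    have h1 := h.resolve_left hne
    rw [Subring.coe_mul, V.map_mul i q φ hq0 hφ0, hiq, zero_add] at h1
    exact Or.inr h1
  have hM₁ : ∃ φ ∈ h31_posIdeal V i, p₁ (red φ) ≠ 0 := by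
    obtain ⟨f, -, hf, hf1⟩ := hsep1
    exact ⟨f, Or.inr hf, hf1⟩
  obtain ⟨g, hgM, hg₁, -, δ, hδ, hdiv⟩ := h65_pt_gen D₁ q red hker hredq p₁ p' hinj hreg₁ hrich
    (h31_posIdeal V i) hsat hfg hM₁
  have hg0 : (g : F) ≠ 0 := by
    intro h
    apply hg₁
    rw [hcoe0 g h, map_zero, map_zero]
  have hgi : 0 < V.v i g := hgM.resolve_left hg0
  have hδm : δ ∉ m := hm δ hδ
  have hδ0 : (δ : F) ≠ 0 := h80_ne_zero_of_not_mem V hδm
  -- a general valuation identity from `δ f = g t`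
  have key : ∀ (j : ι) (f : V.B), (f : F) ≠ 0 → f ∈ h31_posIdeal V i →
      ∃ t : V.B, (t : F) ≠ 0 ∧ V.v j δ + V.v j f = V.v j g + V.v j t := by
    intro j f hf0 hfM
    obtain ⟨t, ht⟩ := hdiv f hfM
    have hne : ((δ * f : V.B) : F) ≠ 0 := by
      rw [Subring.coe_mul]; exact mul_ne_zero hδ0 hf0
    rw [ht, Subring.coe_mul] at hne
    have ht0 : (t : F) ≠ 0 := right_ne_zero_of_mul hne
    refine ⟨t, ht0, ?_⟩
    have h3 := congrArg (fun x : V.B => V.v j (x : F)) ht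
    simp only [Subring.coe_mul] at h3
    rw [V.map_mul j δ f hδ0 hf0, V.map_mul j g t hg0 ht0] at h3
    exact h3
  refine ⟨g, hg0, ?_, ?_⟩
  · -- `v i g = 1` by (UNR)
    obtain ⟨f, hf0, hf⟩ := hunr
    obtain ⟨t, ht0, h⟩ := key i f hf0 (Or.inr (by omega))
    have h1 := h80_through_eq_zero V hi hδm
    have h2 := h80_v_nonneg V i t ht0
    omega
  · -- the other valuations through the point vanish on `g`
    intro j hj hji
    by_cases hj1 : j = c
    · subst hj1
      exact hc g hg0 hg₁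
    obtain ⟨f, hf0, hfi, hfj⟩ := hseph j hj hji hj1
    obtain ⟨t, ht0, h⟩ := key j f hf0 (Or.inr hfi)
    have h1 := h80_through_eq_zero V hj hδm
    have h2 := h80_v_nonneg V j t ht0
    have h3 := h80_v_nonneg V j g hg0
    omega

/-- **(PT-BRIDGE)**: a smooth point of a reduced component in the frozen interface: the vertical
valuation has the local equation `q`; every horizontal valuation through the point has one by
`h65_unitStar_horiz_pt`. -/
theorem h65_pt_of_gen (V : h80_ValFam F ι) (q : ℕ) (m : Ideal V.B) (c : ι)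
    (D₁ : h31_DV k Fb₁) (hq0 : (q : F) ≠ 0)
    (red : V.B →+* Rb) (hker : ∀ r : V.B, red r = 0 → ∃ r' : V.B, r = (q : V.B) * r')
    (hredq : red (q : V.B) = 0)
    (p₁ : Rb →+* Fb₁) (p' : Rb →+* Rb')
    (hinj : ∀ h : Rb, p₁ h = 0 → p' h = 0 → h = 0)
    (hreg₁ : ∀ r : V.B, D₁.Reg (p₁ (red r)))
    (hrich : ∀ q₁ : Fb₁, D₁.Reg q₁ →
      ∃ τ ρ : V.B, p' (red τ) = 0 ∧ p' (red ρ) = 0 ∧ D₁.ev (p₁ (red τ)) ≠ 0 ∧
        p₁ (red ρ) = p₁ (red τ) * q₁)
    (hmax : m.IsMaximal) (hqm : (q : V.B) ∈ m) (hthr : V.Through m c)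
    (hvq : V.v c (q : F) = 1)
    (hm : ∀ f : V.B, D₁.ev (p₁ (red f)) ≠ 0 → f ∉ m)
    (hc : ∀ f : V.B, (f : F) ≠ 0 → p₁ (red f) ≠ 0 → V.v c f = 0)
    (hhor : ∀ i, V.Through m i → i ≠ c →
      V.v i (q : F) = 0 ∧ (h31_posIdeal V i).FG ∧ (∃ f : V.B, (f : F) ≠ 0 ∧ V.v i f = 1) ∧
      (∃ f : V.B, (f : F) ≠ 0 ∧ 0 < V.v i f ∧ p₁ (red f) ≠ 0) ∧
      (∀ j, V.Through m j → j ≠ i → j ≠ c →
        ∃ f : V.B, (f : F) ≠ 0 ∧ 0 < V.v i f ∧ V.v j f = 0)) :
    h62_Pt V q m c (q : V.B) 1 := by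
  have hcast : (((q : V.B) : V.B) : F) = (q : F) := by simp
  refine
    { isMax := hmax
      q_mem := hqm
      q_ne := hq0
      thr := hthr
      vert := ?_
      z_ne := by rw [hcast]; exact hq0
      vz := by rw [hcast]; exact hvq
      vz' := ?_
      vq := by rw [hvq]; rfl
      unitStar := ?_ }
  · intro i hi hpos
    by_contra hne
    have := (hhor i hi hne).1
    omega
  · intro i hi hne
    rw [hcast]
    exact (hhor i hi hne).1
  · intro i hi
    by_cases h1 : i = c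
    · subst h1
      exact ⟨(q : F), hq0, hvq, fun j hj hji => (hhor j hj hji).1⟩
    obtain ⟨hiq, hfg, hunr, hsep1, hseph⟩ := hhor i hi h1
    exact h65_unitStar_horiz_pt V m D₁ (q : V.B) (by rw [hcast]; exact hq0) red hker hredq p₁ p'
      hinj hreg₁ hrich hm c hc i hi (by rw [hcast]; exact hiq) hfg hunr hsep1 hseph

end Fermat.Agent.S36
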