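import Mathlib
import Fermat.Agent.S36.h65_Hmax0
import Fermat.Agent.S36.h65_NoethQ2b
import Fermat.Agent.S36.h87_RhoMod
import Fermat.Agent.S36.h87_ResBuild

/-!
# S36 / (RESK) in the residue-map form `hB` of helper87's `h87_hres_of_B` (helper65)

`V` a chart family, `m` a maximal ideal of `V.B` containing `q`, `(O, ρ)` a residue map of a
vertical valuation with values in `Fb(M)`.  The binder of `h87_hres_of_B` is

`hB : ∀ s : V.B, ∃ (a : k) (l : V.B) (hl : (l : F0) ∈ O), ρ ⟨(l : F0), hl⟩ = algebraMap k Fb a ∧ s - l ∈ m`.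

* `h65_hB_of_resK` : generic, from (RESK) at `m` and `ρ (constant of A₀) ∈ k`.
* `h65_hconst_of_lift` : the constants clause from a clause of the shape
  `∀ y ∈ F0(M) ∩ RM.O, ∃ h : e y ∈ O, ρ ⟨e y, h⟩ = RM.redF y` (`e` fixing the constants);
  `h65_hconst_of_redF` : the same from `ρ f = R.redF f`, `f ∈ O ↔ f ∈ R.O`.
* `h65_resK_q2b` : (RESK) closed at level `M q²`, chart `1/j` (`h80_fam2`, `h98_w2`).
* `h65_hB_a2`, `h65_hB_b2` : `hB` closed at `h80_fam2` (level `M q²`) for any `(O, ρ)` with the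
  fourth clause of `h87_rho_C20` / `h87_rho_C11` (resp. `h87_rho_C02`);
  `h65_hB_a1`, `h65_hB_b1` : the same at `h80_fam1`.
* `h65_hB_q` : `hB` closed at level `M q` (`h98_w1`), chart `j`, for any `(O, ρ)` with
  `ρ = R.redF`, `R.A = A` (the outputs of `h87_rhoF_exists` / `h87_rhoV_exists`).
-/

set_option autoImplicit false
set_option synthInstance.maxHeartbeats 400000
set_option linter.unusedSectionVars false

noncomputable section

open ModularCurve AlgebraicCurve CongruenceSubgroup Polynomial IntermediateField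
open scoped MatrixGroups

namespace Fermat.Agent.S36

open Fermat.Agent.S34 Fermat.Agent.S37 Fermat.Agent.S24 Fermat.Agent.S35 Fermat.Agent.S18

local notation "Qb" => AlgebraicClosure ℚ

section Generic

variable (N : ℕ) [NeZero N] (A : ValuationSubring Qb)

/-- **(RESK) ⟹ `hB`**, generic: any family on `F0(N)`, any residue map `(O, ρ)` whose values on
the constants of `A₀` are constants. -/
theorem h65_hB_of_resK {ι : Type*} {Fb : Type*} [Field Fb]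
    [Algebra (IsLocalRing.ResidueField A) Fb]
    (V : h80_ValFam (h69_F0 N (A.inertiaSubgroupIn ℚ)) ι) (m : Ideal V.B)
    (O : Subring (h69_F0 N (A.inertiaSubgroupIn ℚ))) (ρ : O →+* Fb)
    (hresK : ∀ b : V.B, ∃ (a : ↥(h69_K0 (A.inertiaSubgroupIn ℚ))) (_ : a ∈ h69_A0 A)
      (h : algebraMap (h69_K0 (A.inertiaSubgroupIn ℚ)) (h69_F0 N (A.inertiaSubgroupIn ℚ)) a ∈
        V.B), b - ⟨_, h⟩ ∈ m)
    (hconst : ∀ a : ↥(h69_K0 (A.inertiaSubgroupIn ℚ)), a ∈ h69_A0 A →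
      ∃ (h : algebraMap (h69_K0 (A.inertiaSubgroupIn ℚ)) (h69_F0 N (A.inertiaSubgroupIn ℚ)) a ∈ O)
        (c : IsLocalRing.ResidueField A),
        ρ ⟨_, h⟩ = algebraMap (IsLocalRing.ResidueField A) Fb c) :
    ∀ s : V.B, ∃ (a : IsLocalRing.ResidueField A) (l : V.B)
      (hl : (l : h69_F0 N (A.inertiaSubgroupIn ℚ)) ∈ O),
      ρ ⟨(l : h69_F0 N (A.inertiaSubgroupIn ℚ)), hl⟩ =
        algebraMap (IsLocalRing.ResidueField A) Fb a ∧ s - l ∈ m := by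
  intro s
  obtain ⟨a0, ha0, h, hs⟩ := hresK s
  obtain ⟨hO, c, hc⟩ := hconst a0 ha0
  exact ⟨c, ⟨_, h⟩, hO, hc, hs⟩

/-- The constants clause from `ρ = R.redF` on `O = F0 ∩ R.O` (`R.A = A`). -/
theorem h65_hconst_of_redF {Fb : Type*} [Field Fb] [Algebra (IsLocalRing.ResidueField A) Fb]
    (R : h39_RedDatum Qb ↥(modularFunctionFieldBar N) (IsLocalRing.ResidueField A) Fb)
    (hRA : R.A = A)
    (O : Subring (h69_F0 N (A.inertiaSubgroupIn ℚ))) (ρ : O →+* Fb)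
    (hρ : ∀ f : O, ρ f = R.redF
      (((f : h69_F0 N (A.inertiaSubgroupIn ℚ)) : ↥(modularFunctionFieldBar N))))
    (hO : ∀ f : h69_F0 N (A.inertiaSubgroupIn ℚ),
      f ∈ O ↔ (f : ↥(modularFunctionFieldBar N)) ∈ R.O) :
    ∀ a : ↥(h69_K0 (A.inertiaSubgroupIn ℚ)), a ∈ h69_A0 A →
      ∃ (h : algebraMap (h69_K0 (A.inertiaSubgroupIn ℚ)) (h69_F0 N (A.inertiaSubgroupIn ℚ)) a ∈ O)
        (c : IsLocalRing.ResidueField A),
        ρ ⟨_, h⟩ = algebraMap (IsLocalRing.ResidueField A) Fb c := by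
  intro a ha
  have haA : (a : Qb) ∈ R.A := by
    rw [hRA]
    exact (h69_mem_A0 A a).1 ha
  have hmem : algebraMap Qb ↥(modularFunctionFieldBar N) (a : Qb) ∈ R.O := (R.mem_iff _).1 haA
  have hO' : algebraMap (h69_K0 (A.inertiaSubgroupIn ℚ)) (h69_F0 N (A.inertiaSubgroupIn ℚ)) a ∈ O :=
    (hO _).2 hmem
  refine ⟨hO', R.res ⟨(a : Qb), haA⟩, ?_⟩
  rw [hρ]
  show R.redF (algebraMap Qb ↥(modularFunctionFieldBar N) (a : Qb)) = _
  rw [R.redF_of_mem hmem]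
  exact R.red_algebraMap _ haA hmem

/-- The constants clause from a lifting clause along a ring map `e` fixing the constants. -/
theorem h65_hconst_of_lift (M : ℕ) [NeZero M] {Fb : Type*} [Field Fb]
    [Algebra (IsLocalRing.ResidueField A) Fb]
    (R : h39_RedDatum Qb ↥(modularFunctionFieldBar M) (IsLocalRing.ResidueField A) Fb)
    (hRA : R.A = A)
    (O : Subring (h69_F0 N (A.inertiaSubgroupIn ℚ))) (ρ : O →+* Fb)
    (e : h69_F0 M (A.inertiaSubgroupIn ℚ) → h69_F0 N (A.inertiaSubgroupIn ℚ))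
    (he : ∀ a : ↥(h69_K0 (A.inertiaSubgroupIn ℚ)),
      e (algebraMap (h69_K0 (A.inertiaSubgroupIn ℚ)) (h69_F0 M (A.inertiaSubgroupIn ℚ)) a) =
        algebraMap (h69_K0 (A.inertiaSubgroupIn ℚ)) (h69_F0 N (A.inertiaSubgroupIn ℚ)) a)
    (h4 : ∀ y : h69_F0 M (A.inertiaSubgroupIn ℚ), (y : ↥(modularFunctionFieldBar M)) ∈ R.O →
      ∃ h : e y ∈ O, ρ ⟨_, h⟩ = R.redF (y : ↥(modularFunctionFieldBar M))) :
    ∀ a : ↥(h69_K0 (A.inertiaSubgroupIn ℚ)), a ∈ h69_A0 A →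
      ∃ (h : algebraMap (h69_K0 (A.inertiaSubgroupIn ℚ)) (h69_F0 N (A.inertiaSubgroupIn ℚ)) a ∈ O)
        (c : IsLocalRing.ResidueField A),
        ρ ⟨_, h⟩ = algebraMap (IsLocalRing.ResidueField A) Fb c := by
  intro a ha
  have haA : (a : Qb) ∈ R.A := by
    rw [hRA]
    exact (h69_mem_A0 A a).1 ha
  have hmem : algebraMap Qb ↥(modularFunctionFieldBar M) (a : Qb) ∈ R.O := (R.mem_iff _).1 haA
  obtain ⟨h, hh⟩ := h4 (algebraMap (h69_K0 (A.inertiaSubgroupIn ℚ))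
    (h69_F0 M (A.inertiaSubgroupIn ℚ)) a) hmem
  have hO' : algebraMap (h69_K0 (A.inertiaSubgroupIn ℚ)) (h69_F0 N (A.inertiaSubgroupIn ℚ)) a ∈ O := by
    rw [← he a]
    exact h
  refine ⟨hO', R.res ⟨(a : Qb), haA⟩, ?_⟩
  have e1 : (⟨_, hO'⟩ : O) = ⟨_, h⟩ := Subtype.ext (he a).symm
  rw [e1, hh]
  show R.redF (algebraMap Qb ↥(modularFunctionFieldBar M) (a : Qb)) = _
  rw [R.redF_of_mem hmem]
  exact R.red_algebraMap _ haA hmem

end Generic

section Closed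

variable (M q : ℕ) [NeZero M] [NeZero q] [Fact q.Prime] (hqM : ¬ q ∣ M)
  (A : ValuationSubring Qb) (hA : A.LiesOverPrime q)
  (ζ : Qb) (hζ : IsPrimitiveRoot ζ q) (hex : h98_Ex M q hqM A ζ hζ)

/-- `a ∘ a` fixes the constants. -/
theorem h65_aa_const (H : Subgroup (Qb ≃ₐ[ℚ] Qb)) (c : h69_K0 H) :
    h70_aF0 (M * q) q H (h70_aF0 M q H (algebraMap (h69_K0 H) (h69_F0 M H) c))
      = algebraMap (h69_K0 H) (h69_F0 (M * q * q) H) c := by
  apply Subtype.ext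
  rw [h70_coe_aF0, h70_coe_aF0, h69_inst_comm, h69_inst_comm, AlgHom.commutes, AlgHom.commutes]

/-- `b ∘ b` fixes the constants. -/
theorem h65_bb_const (H : Subgroup (Qb ≃ₐ[ℚ] Qb)) (c : h69_K0 H) :
    h70_bF0 (M * q) q H (h70_bF0 M q H (algebraMap (h69_K0 H) (h69_F0 M H) c))
      = algebraMap (h69_K0 H) (h69_F0 (M * q * q) H) c := by
  apply Subtype.ext
  rw [h70_coe_bF0, h70_coe_bF0, h69_inst_comm, h69_inst_comm, AlgHom.commutes, AlgHom.commutes]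

include hA in
/-- **(RESK) at level `M q²`, chart `1/j`, closed.** -/
theorem h65_resK_q2b
    (m : Ideal (h80_fam2 (M * q * q) (A.inertiaSubgroupIn ℚ) (h98_w2 M q hqM A ζ hζ hex)
      (h98_hw2mul M q hqM A hA ζ hζ hex) (h98_hw2add M q hqM A hA ζ hζ hex)).B)
    (hm : m.IsMaximal)
    (hqm : ((q : ℕ) : (h80_fam2 (M * q * q) (A.inertiaSubgroupIn ℚ) (h98_w2 M q hqM A ζ hζ hex)
      (h98_hw2mul M q hqM A hA ζ hζ hex) (h98_hw2add M q hqM A hA ζ hζ hex)).B) ∈ m)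
    (b : (h80_fam2 (M * q * q) (A.inertiaSubgroupIn ℚ) (h98_w2 M q hqM A ζ hζ hex)
      (h98_hw2mul M q hqM A hA ζ hζ hex) (h98_hw2add M q hqM A hA ζ hζ hex)).B) :
    ∃ (a : ↥(h69_K0 (A.inertiaSubgroupIn ℚ))) (_ : a ∈ h69_A0 A)
      (h : algebraMap (h69_K0 (A.inertiaSubgroupIn ℚ))
          (h69_F0 (M * q * q) (A.inertiaSubgroupIn ℚ)) a ∈
        (h80_fam2 (M * q * q) (A.inertiaSubgroupIn ℚ) (h98_w2 M q hqM A ζ hζ hex)
          (h98_hw2mul M q hqM A hA ζ hζ hex) (h98_hw2add M q hqM A hA ζ hζ hex)).B),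
      b - ⟨_, h⟩ ∈ m := by
  have hx0 : h69_jF0 (M * q * q) (A.inertiaSubgroupIn ℚ) ≠ 0 := fun h =>
    h59_jbar_transcendental (M * q * q)
      (by rw [show h59_jbar (M * q * q) = 0 from congrArg Subtype.val h]; exact isAlgebraic_zero)
  obtain ⟨a, ha, hab⟩ := @h89_resK (M * q * q) _ q _ A _ _
    (h69_jF0 (M * q * q) (A.inertiaSubgroupIn ℚ))⁻¹
    (h75_isChart_inv (h54_isChart_jbar (M * q * q))) (h98_w2 M q hqM A ζ hζ hex)
    (h98_hw2mul M q hqM A hA ζ hζ hex) (h98_hw2add M q hqM A hA ζ hζ hex) hA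
    (h65_hwA_of_hR (M * q * q) A _ _ (h91_hR_w98 M q hqM A hA ζ hζ hex))
    (fun c => h91_hR_w98 M q hqM A hA ζ hζ hex c _
      (h75_gaussRing_x_inv (h69_A0 A) hx0) (inv_ne_zero hx0))
    (h65_noeth_q2b M q hqM A hA ζ hζ hex).2 m hm hqm b
  exact ⟨a, ha, _, hab⟩

include hA in
/-- **`hB` at level `M q²`, chart `1/j`** for a residue map with the fourth clause of
`h87_rho_C20` / `h87_rho_C11` (`ρ (a (a y)) = RM.redF y`). -/
theorem h65_hB_a2
    {RM : h39_RedDatum Qb ↥(modularFunctionFieldBar M) (IsLocalRing.ResidueField A)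
      ↥(modularFunctionFieldFullC (IsLocalRing.ResidueField A) M)}
    (hRM : h54_IsModRed M A RM)
    (O : Subring (h69_F0 (M * q * q) (A.inertiaSubgroupIn ℚ)))
    (ρ : O →+* ↥(modularFunctionFieldFullC (IsLocalRing.ResidueField A) M))
    (h4 : ∀ y : h69_F0 M (A.inertiaSubgroupIn ℚ), (y : ↥(modularFunctionFieldBar M)) ∈ RM.O →
      ∃ h : h70_aF0 (M * q) q (A.inertiaSubgroupIn ℚ)
          (h70_aF0 M q (A.inertiaSubgroupIn ℚ) y) ∈ O,
        ρ ⟨_, h⟩ = RM.redF (y : ↥(modularFunctionFieldBar M)))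
    (m : Ideal (h80_fam2 (M * q * q) (A.inertiaSubgroupIn ℚ) (h98_w2 M q hqM A ζ hζ hex)
      (h98_hw2mul M q hqM A hA ζ hζ hex) (h98_hw2add M q hqM A hA ζ hζ hex)).B)
    (hm : m.IsMaximal)
    (hqm : ((q : ℕ) : (h80_fam2 (M * q * q) (A.inertiaSubgroupIn ℚ) (h98_w2 M q hqM A ζ hζ hex)
      (h98_hw2mul M q hqM A hA ζ hζ hex) (h98_hw2add M q hqM A hA ζ hζ hex)).B) ∈ m) :
    ∀ s : (h80_fam2 (M * q * q) (A.inertiaSubgroupIn ℚ) (h98_w2 M q hqM A ζ hζ hex)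
      (h98_hw2mul M q hqM A hA ζ hζ hex) (h98_hw2add M q hqM A hA ζ hζ hex)).B,
      ∃ (a : IsLocalRing.ResidueField A)
        (l : (h80_fam2 (M * q * q) (A.inertiaSubgroupIn ℚ) (h98_w2 M q hqM A ζ hζ hex)
          (h98_hw2mul M q hqM A hA ζ hζ hex) (h98_hw2add M q hqM A hA ζ hζ hex)).B)
        (hl : (l : h69_F0 (M * q * q) (A.inertiaSubgroupIn ℚ)) ∈ O),
        ρ ⟨(l : h69_F0 (M * q * q) (A.inertiaSubgroupIn ℚ)), hl⟩ =
          algebraMap (IsLocalRing.ResidueField A)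
            ↥(modularFunctionFieldFullC (IsLocalRing.ResidueField A) M) a ∧ s - l ∈ m :=
  h65_hB_of_resK (M * q * q) A _ m O ρ
    (fun b => h65_resK_q2b M q hqM A hA ζ hζ hex m hm hqm b)
    (h65_hconst_of_lift (M * q * q) A M RM hRM.A_eq O ρ
      (fun y => h70_aF0 (M * q) q (A.inertiaSubgroupIn ℚ)
        (h70_aF0 M q (A.inertiaSubgroupIn ℚ) y))
      (fun a => h65_aa_const M q (A.inertiaSubgroupIn ℚ) a) h4)

include hA in
/-- **`hB` at level `M q²`, chart `1/j`** for a residue map with the fourth clause of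
`h87_rho_C02` (`ρ (b (b y)) = RM.redF y`). -/
theorem h65_hB_b2
    {RM : h39_RedDatum Qb ↥(modularFunctionFieldBar M) (IsLocalRing.ResidueField A)
      ↥(modularFunctionFieldFullC (IsLocalRing.ResidueField A) M)}
    (hRM : h54_IsModRed M A RM)
    (O : Subring (h69_F0 (M * q * q) (A.inertiaSubgroupIn ℚ)))
    (ρ : O →+* ↥(modularFunctionFieldFullC (IsLocalRing.ResidueField A) M))
    (h4 : ∀ y : h69_F0 M (A.inertiaSubgroupIn ℚ), (y : ↥(modularFunctionFieldBar M)) ∈ RM.O →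
      ∃ h : h70_bF0 (M * q) q (A.inertiaSubgroupIn ℚ)
          (h70_bF0 M q (A.inertiaSubgroupIn ℚ) y) ∈ O,
        ρ ⟨_, h⟩ = RM.redF (y : ↥(modularFunctionFieldBar M)))
    (m : Ideal (h80_fam2 (M * q * q) (A.inertiaSubgroupIn ℚ) (h98_w2 M q hqM A ζ hζ hex)
      (h98_hw2mul M q hqM A hA ζ hζ hex) (h98_hw2add M q hqM A hA ζ hζ hex)).B)
    (hm : m.IsMaximal)
    (hqm : ((q : ℕ) : (h80_fam2 (M * q * q) (A.inertiaSubgroupIn ℚ) (h98_w2 M q hqM A ζ hζ hex)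
      (h98_hw2mul M q hqM A hA ζ hζ hex) (h98_hw2add M q hqM A hA ζ hζ hex)).B) ∈ m) :
    ∀ s : (h80_fam2 (M * q * q) (A.inertiaSubgroupIn ℚ) (h98_w2 M q hqM A ζ hζ hex)
      (h98_hw2mul M q hqM A hA ζ hζ hex) (h98_hw2add M q hqM A hA ζ hζ hex)).B,
      ∃ (a : IsLocalRing.ResidueField A)
        (l : (h80_fam2 (M * q * q) (A.inertiaSubgroupIn ℚ) (h98_w2 M q hqM A ζ hζ hex)
          (h98_hw2mul M q hqM A hA ζ hζ hex) (h98_hw2add M q hqM A hA ζ hζ hex)).B)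
        (hl : (l : h69_F0 (M * q * q) (A.inertiaSubgroupIn ℚ)) ∈ O),
        ρ ⟨(l : h69_F0 (M * q * q) (A.inertiaSubgroupIn ℚ)), hl⟩ =
          algebraMap (IsLocalRing.ResidueField A)
            ↥(modularFunctionFieldFullC (IsLocalRing.ResidueField A) M) a ∧ s - l ∈ m :=
  h65_hB_of_resK (M * q * q) A _ m O ρ
    (fun b => h65_resK_q2b M q hqM A hA ζ hζ hex m hm hqm b)
    (h65_hconst_of_lift (M * q * q) A M RM hRM.A_eq O ρ
      (fun y => h70_bF0 (M * q) q (A.inertiaSubgroupIn ℚ)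
        (h70_bF0 M q (A.inertiaSubgroupIn ℚ) y))
      (fun a => h65_bb_const M q (A.inertiaSubgroupIn ℚ) a) h4)

include hA in
/-- **`hB` at level `M q²`, chart `j`**, `a ∘ a`-clause (`C20`, `C11`). -/
theorem h65_hB_a1
    {RM : h39_RedDatum Qb ↥(modularFunctionFieldBar M) (IsLocalRing.ResidueField A)
      ↥(modularFunctionFieldFullC (IsLocalRing.ResidueField A) M)}
    (hRM : h54_IsModRed M A RM)
    (O : Subring (h69_F0 (M * q * q) (A.inertiaSubgroupIn ℚ)))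
    (ρ : O →+* ↥(modularFunctionFieldFullC (IsLocalRing.ResidueField A) M))
    (h4 : ∀ y : h69_F0 M (A.inertiaSubgroupIn ℚ), (y : ↥(modularFunctionFieldBar M)) ∈ RM.O →
      ∃ h : h70_aF0 (M * q) q (A.inertiaSubgroupIn ℚ)
          (h70_aF0 M q (A.inertiaSubgroupIn ℚ) y) ∈ O,
        ρ ⟨_, h⟩ = RM.redF (y : ↥(modularFunctionFieldBar M)))
    (m : Ideal (h80_fam1 (M * q * q) (A.inertiaSubgroupIn ℚ) (h98_w2 M q hqM A ζ hζ hex)
      (h98_hw2mul M q hqM A hA ζ hζ hex) (h98_hw2add M q hqM A hA ζ hζ hex)).B)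
    (hm : m.IsMaximal)
    (hqm : ((q : ℕ) : (h80_fam1 (M * q * q) (A.inertiaSubgroupIn ℚ) (h98_w2 M q hqM A ζ hζ hex)
      (h98_hw2mul M q hqM A hA ζ hζ hex) (h98_hw2add M q hqM A hA ζ hζ hex)).B) ∈ m) :
    ∀ s : (h80_fam1 (M * q * q) (A.inertiaSubgroupIn ℚ) (h98_w2 M q hqM A ζ hζ hex)
      (h98_hw2mul M q hqM A hA ζ hζ hex) (h98_hw2add M q hqM A hA ζ hζ hex)).B,
      ∃ (a : IsLocalRing.ResidueField A)
        (l : (h80_fam1 (M * q * q) (A.inertiaSubgroupIn ℚ) (h98_w2 M q hqM A ζ hζ hex)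
          (h98_hw2mul M q hqM A hA ζ hζ hex) (h98_hw2add M q hqM A hA ζ hζ hex)).B)
        (hl : (l : h69_F0 (M * q * q) (A.inertiaSubgroupIn ℚ)) ∈ O),
        ρ ⟨(l : h69_F0 (M * q * q) (A.inertiaSubgroupIn ℚ)), hl⟩ =
          algebraMap (IsLocalRing.ResidueField A)
            ↥(modularFunctionFieldFullC (IsLocalRing.ResidueField A) M) a ∧ s - l ∈ m :=
  h65_hB_of_resK (M * q * q) A _ m O ρ
    (fun b => h65_resK_q2 M q hqM A hA ζ hζ hex m hm hqm b)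
    (h65_hconst_of_lift (M * q * q) A M RM hRM.A_eq O ρ
      (fun y => h70_aF0 (M * q) q (A.inertiaSubgroupIn ℚ)
        (h70_aF0 M q (A.inertiaSubgroupIn ℚ) y))
      (fun a => h65_aa_const M q (A.inertiaSubgroupIn ℚ) a) h4)

include hA in
/-- **`hB` at level `M q²`, chart `j`**, `b ∘ b`-clause (`C02`). -/
theorem h65_hB_b1
    {RM : h39_RedDatum Qb ↥(modularFunctionFieldBar M) (IsLocalRing.ResidueField A)
      ↥(modularFunctionFieldFullC (IsLocalRing.ResidueField A) M)}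
    (hRM : h54_IsModRed M A RM)
    (O : Subring (h69_F0 (M * q * q) (A.inertiaSubgroupIn ℚ)))
    (ρ : O →+* ↥(modularFunctionFieldFullC (IsLocalRing.ResidueField A) M))
    (h4 : ∀ y : h69_F0 M (A.inertiaSubgroupIn ℚ), (y : ↥(modularFunctionFieldBar M)) ∈ RM.O →
      ∃ h : h70_bF0 (M * q) q (A.inertiaSubgroupIn ℚ)
          (h70_bF0 M q (A.inertiaSubgroupIn ℚ) y) ∈ O,
        ρ ⟨_, h⟩ = RM.redF (y : ↥(modularFunctionFieldBar M)))
    (m : Ideal (h80_fam1 (M * q * q) (A.inertiaSubgroupIn ℚ) (h98_w2 M q hqM A ζ hζ hex)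
      (h98_hw2mul M q hqM A hA ζ hζ hex) (h98_hw2add M q hqM A hA ζ hζ hex)).B)
    (hm : m.IsMaximal)
    (hqm : ((q : ℕ) : (h80_fam1 (M * q * q) (A.inertiaSubgroupIn ℚ) (h98_w2 M q hqM A ζ hζ hex)
      (h98_hw2mul M q hqM A hA ζ hζ hex) (h98_hw2add M q hqM A hA ζ hζ hex)).B) ∈ m) :
    ∀ s : (h80_fam1 (M * q * q) (A.inertiaSubgroupIn ℚ) (h98_w2 M q hqM A ζ hζ hex)
      (h98_hw2mul M q hqM A hA ζ hζ hex) (h98_hw2add M q hqM A hA ζ hζ hex)).B,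
      ∃ (a : IsLocalRing.ResidueField A)
        (l : (h80_fam1 (M * q * q) (A.inertiaSubgroupIn ℚ) (h98_w2 M q hqM A ζ hζ hex)
          (h98_hw2mul M q hqM A hA ζ hζ hex) (h98_hw2add M q hqM A hA ζ hζ hex)).B)
        (hl : (l : h69_F0 (M * q * q) (A.inertiaSubgroupIn ℚ)) ∈ O),
        ρ ⟨(l : h69_F0 (M * q * q) (A.inertiaSubgroupIn ℚ)), hl⟩ =
          algebraMap (IsLocalRing.ResidueField A)
            ↥(modularFunctionFieldFullC (IsLocalRing.ResidueField A) M) a ∧ s - l ∈ m :=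
  h65_hB_of_resK (M * q * q) A _ m O ρ
    (fun b => h65_resK_q2 M q hqM A hA ζ hζ hex m hm hqm b)
    (h65_hconst_of_lift (M * q * q) A M RM hRM.A_eq O ρ
      (fun y => h70_bF0 (M * q) q (A.inertiaSubgroupIn ℚ)
        (h70_bF0 M q (A.inertiaSubgroupIn ℚ) y))
      (fun a => h65_bb_const M q (A.inertiaSubgroupIn ℚ) a) h4)

include hA in
/-- **`hB` at level `M q`, chart `j`** for a residue map `ρ = R.redF` on `O = F0 ∩ R.O`
(`R.A = A`): the outputs of `h87_rhoF_exists` (`R := h60_R1 ..`, `hRA := h60_R1_A ..`) and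
`h87_rhoV_exists` (`R := h60_R2 ..`, `hRA := h60_R2_A ..`). -/
theorem h65_hB_q {Fb : Type*} [Field Fb] [Algebra (IsLocalRing.ResidueField A) Fb]
    (R : h39_RedDatum Qb ↥(modularFunctionFieldBar (M * q)) (IsLocalRing.ResidueField A) Fb)
    (hRA : R.A = A)
    (O : Subring (h69_F0 (M * q) (A.inertiaSubgroupIn ℚ))) (ρ : O →+* Fb)
    (hρ : ∀ f : O, ρ f = R.redF
      (((f : h69_F0 (M * q) (A.inertiaSubgroupIn ℚ)) : ↥(modularFunctionFieldBar (M * q)))))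
    (hO : ∀ f : h69_F0 (M * q) (A.inertiaSubgroupIn ℚ),
      f ∈ O ↔ (f : ↥(modularFunctionFieldBar (M * q))) ∈ R.O)
    (m : Ideal (h80_fam1 (M * q) (A.inertiaSubgroupIn ℚ) (h98_w1 M q hqM A ζ hζ hex)
      (h98_hw1mul M q hqM A hA ζ hζ hex) (h98_hw1add M q hqM A hA ζ hζ hex)).B)
    (hm : m.IsMaximal)
    (hqm : ((q : ℕ) : (h80_fam1 (M * q) (A.inertiaSubgroupIn ℚ) (h98_w1 M q hqM A ζ hζ hex)
      (h98_hw1mul M q hqM A hA ζ hζ hex) (h98_hw1add M q hqM A hA ζ hζ hex)).B) ∈ m) :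
    ∀ s : (h80_fam1 (M * q) (A.inertiaSubgroupIn ℚ) (h98_w1 M q hqM A ζ hζ hex)
      (h98_hw1mul M q hqM A hA ζ hζ hex) (h98_hw1add M q hqM A hA ζ hζ hex)).B,
      ∃ (a : IsLocalRing.ResidueField A)
        (l : (h80_fam1 (M * q) (A.inertiaSubgroupIn ℚ) (h98_w1 M q hqM A ζ hζ hex)
          (h98_hw1mul M q hqM A hA ζ hζ hex) (h98_hw1add M q hqM A hA ζ hζ hex)).B)
        (hl : (l : h69_F0 (M * q) (A.inertiaSubgroupIn ℚ)) ∈ O),
        ρ ⟨(l : h69_F0 (M * q) (A.inertiaSubgroupIn ℚ)), hl⟩ =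
          algebraMap (IsLocalRing.ResidueField A) Fb a ∧ s - l ∈ m :=
  h65_hB_of_resK (M * q) A _ m O ρ
    (fun b => h65_resK_q M q hqM A hA ζ hζ hex m hm hqm b)
    (h65_hconst_of_redF (M * q) A R hRA O ρ hρ hO)

end Closed

end Fermat.Agent.S36
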