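import Mathlib
import Fermat.Agent.S36.h65_HorInt
import Fermat.Agent.S36.h69_W1Bridge
import Fermat.Agent.S36.h51_TriMod
import Fermat.Agent.S36.h36_MidEmb

/-!
# S36 / the Atkin-Lehner swap preserves the chart ring of level `M q` (helper65)

`V₁ := h80_fam1 (M q) H w₁ ..` (chart `j`).

* `h65_wStab_gen` : if the swap `w` exchanges the vertical valuations (in the weak form
  `(∀ c', 0 ≤ w₁ c' g) → 0 ≤ w₁ c (w g)`), then `g ∈ V₁.B → w g ∈ V₁.B`.  (Horizontal part: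
  `j` is regular exactly where `w j` is, `h65_wJ_mem`, transported by `h96_placeMap`.)
* `h65_w1_swap` : the vertical swap for `h98_w1`;  `h65_wF0_mem_fam1` : the closed statement.
* `h65_phi2 := b ∘ w : F0(M q) →+* F0(M q²)` with `h65_phi2_coe` (`= h36_i2` on coercions) and
  `h65_phi2_mem` : `g ∈ V₁.B → φ₂ g ∈ V₂.B`  (the binders `φ2`, `hφ2`, `hφ2B` of helper60's
  `h60_hthick_gen2`).
-/

set_option autoImplicit false
set_option synthInstance.maxHeartbeats 400000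
set_option linter.unusedSectionVars false

noncomputable section

open ModularCurve AlgebraicCurve CongruenceSubgroup Polynomial IntermediateField
open scoped MatrixGroups

namespace Fermat.Agent.S36

open Fermat.Agent.S34 Fermat.Agent.S37 Fermat.Agent.S24 Fermat.Agent.S35 Fermat.Agent.S18
  Fermat.Agent.S27

local notation "Qb" => AlgebraicClosure ℚ

section Gen

variable (M q : ℕ) [NeZero M] [NeZero q] [Fact q.Prime] (hqM : ¬ q ∣ M)
  (H : Subgroup (Qb ≃ₐ[ℚ] Qb))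
variable {κ₁ : Type*} [Finite κ₁]
  (w₁ : κ₁ → h69_F0 (M * q) H → ℤ)
  (hw₁m : ∀ c (f g : h69_F0 (M * q) H), f ≠ 0 → g ≠ 0 → w₁ c (f * g) = w₁ c f + w₁ c g)
  (hw₁a : ∀ c (f g : h69_F0 (M * q) H), f ≠ 0 → g ≠ 0 → f + g ≠ 0 →
    min (w₁ c f) (w₁ c g) ≤ w₁ c (f + g))

/-- **The swap preserves the chart ring**, for any vertical valuations exchanged by `w`. -/
theorem h65_wStab_gen
    (hsw : ∀ c, ∀ g : h69_F0 (M * q) H, g ≠ 0 → (∀ c', 0 ≤ w₁ c' g) →
      0 ≤ w₁ c (h65_wF0 M q hqM H g))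
    (g : h69_F0 (M * q) H) (hg : g ∈ (h80_fam1 (M * q) H w₁ hw₁m hw₁a).B) :
    h65_wF0 M q hqM H g ∈ (h80_fam1 (M * q) H w₁ hw₁m hw₁a).B := by
  unfold h80_fam1 at hg ⊢
  rw [h80_mem_famOf_B] at hg ⊢
  rcases hg with rfl | ⟨hv, hh⟩
  · left
    exact map_zero _
  by_cases hg0 : g = 0
  · left
    rw [hg0]
    exact map_zero _
  right
  refine ⟨fun c => hsw c g hg0 hv, fun P hP => ?_⟩
  have hJ0 := h65_jbar_ne_zero (M * q)
  have hg0' : (g : modularFunctionFieldBar (M * q)) ≠ 0 := fun h => hg0 (Subtype.ext h)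
  have hwg0 : h60_w M q hqM (g : modularFunctionFieldBar (M * q)) ≠ 0 := by
    intro h
    have h2 := h60_w_w M q hqM (g : modularFunctionFieldBar (M * q))
    rw [h, map_zero] at h2
    exact hg0' h2.symm
  -- the place `P ∘ w`
  have h1 : h60_w M q hqM (h59_jbar (M * q)) ∈ P.toValuationSubring :=
    h65_wJ_mem M q hqM P ((h35_mem_iff_ord_nonneg P hJ0).mpr hP)
  have h2 : h59_jbar (M * q) ∈ (h96_placeMap (h65_wEquiv M q hqM) P).toValuationSubring := by
    have h3 := (h96_apply_mem_placeMap (h65_wEquiv M q hqM) P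
      (h60_w M q hqM (h59_jbar (M * q)))).mpr h1
    rwa [h65_wEquiv_apply, h60_w_w] at h3
  have h4 : (g : modularFunctionFieldBar (M * q)) ∈
      (h96_placeMap (h65_wEquiv M q hqM) P).toValuationSubring :=
    (h35_mem_iff_ord_nonneg _ hg0').mpr
      (hh _ ((h35_mem_iff_ord_nonneg _ hJ0).mp h2))
  have h5 : h60_w M q hqM (g : modularFunctionFieldBar (M * q)) ∈ P.toValuationSubring := by
    have h6 : h65_wEquiv M q hqM (h60_w M q hqM (g : modularFunctionFieldBar (M * q))) ∈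
        (h96_placeMap (h65_wEquiv M q hqM) P).toValuationSubring := by
      rw [h65_wEquiv_apply, h60_w_w]
      exact h4
    exact (h96_apply_mem_placeMap (h65_wEquiv M q hqM) P _).mp h6
  exact (h35_mem_iff_ord_nonneg P hwg0).mp h5

/-- `φ₂ := b ∘ w`: the embedding `f ↦ (w f)(t^q)` on `H`-fixed functions. -/
def h65_phi2 : h69_F0 (M * q) H →+* h69_F0 (M * q * q) H :=
  (h70_bF0 (M * q) q H).comp (h65_wF0 M q hqM H)

theorem h65_phi2_apply (g : h69_F0 (M * q) H) :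
    h65_phi2 M q hqM H g = h70_bF0 (M * q) q H (h65_wF0 M q hqM H g) := rfl

/-- On coercions `φ₂` is helper36's `h36_i2`. -/
theorem h65_phi2_coe (g : h69_F0 (M * q) H) :
    ((h65_phi2 M q hqM H g : h69_F0 (M * q * q) H) : modularFunctionFieldBar (M * q * q)) =
      h36_i2 M q hqM (g : modularFunctionFieldBar (M * q)) := rfl

/-- The same through the subtype maps (the shape `hφ2` of `h60_hthick_gen2`). -/
theorem h65_phi2_subtype (g : h69_F0 (M * q) H) :
    (h69_F0 (M * q * q) H).subtype (h65_phi2 M q hqM H g) =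
      h36_i2 M q hqM ((h69_F0 (M * q) H).subtype g) := rfl

end Gen

section Closed

variable (M q : ℕ) [NeZero M] [NeZero q] [Fact q.Prime] (hqM : ¬ q ∣ M)
  (A : ValuationSubring Qb) (hA : A.LiesOverPrime q)
  (ζ : Qb) (hζ : IsPrimitiveRoot ζ q) (hex : h98_Ex M q hqM A ζ hζ)

include hA in
/-- The swap exchanges the two vertical valuations of level `M q` (nonnegativity form). -/
theorem h65_w1_swap (c : Fin 2) (g : h69_F0 (M * q) (A.inertiaSubgroupIn ℚ)) (hg : g ≠ 0)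
    (hv : ∀ c', 0 ≤ h98_w1 M q hqM A ζ hζ hex c' g) :
    0 ≤ h98_w1 M q hqM A ζ hζ hex c (h65_wF0 M q hqM (A.inertiaSubgroupIn ℚ) g) := by
  have hwg : h65_wF0 M q hqM (A.inertiaSubgroupIn ℚ) g ≠ 0 := by
    intro h
    have h2 := h65_wF0_wF0 M q hqM (A.inertiaSubgroupIn ℚ) g
    rw [h, map_zero] at h2
    exact hg h2.symm
  have h0 := (h69_w1_nonneg_iff M q hqM A hA ζ hζ hex 0 g hg).1 (hv 0)
  have h1 := (h69_w1_nonneg_iff M q hqM A hA ζ hζ hex 1 g hg).1 (hv 1)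
  rw [h69_w1_nonneg_iff M q hqM A hA ζ hζ hex c _ hwg]
  fin_cases c
  · -- `w g ∈ O₁ ↔ g ∈ O₂`
    show h60_w M q hqM (g : modularFunctionFieldBar (M * q)) ∈ (h60_R1 M q hqM A hA).O
    exact (h60_R2_mem_iff M q hqM A hA _).1 h1
  · -- `w g ∈ O₂ ↔ w (w g) = g ∈ O₁`
    show h60_w M q hqM (g : modularFunctionFieldBar (M * q)) ∈ (h60_R2 M q hqM A hA).O
    rw [h60_R2_mem_iff, h60_w_w]
    exact h0

include hA in
/-- **The swap preserves the chart ring of level `M q`** (`h98_w1`, chart `j`). -/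
theorem h65_wF0_mem_fam1 (g : h69_F0 (M * q) (A.inertiaSubgroupIn ℚ))
    (hg : g ∈ (h80_fam1 (M * q) (A.inertiaSubgroupIn ℚ) (h98_w1 M q hqM A ζ hζ hex)
      (h98_hw1mul M q hqM A hA ζ hζ hex) (h98_hw1add M q hqM A hA ζ hζ hex)).B) :
    h65_wF0 M q hqM (A.inertiaSubgroupIn ℚ) g ∈
      (h80_fam1 (M * q) (A.inertiaSubgroupIn ℚ) (h98_w1 M q hqM A ζ hζ hex)
        (h98_hw1mul M q hqM A hA ζ hζ hex) (h98_hw1add M q hqM A hA ζ hζ hex)).B :=
  h65_wStab_gen M q hqM (A.inertiaSubgroupIn ℚ) (h98_w1 M q hqM A ζ hζ hex)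
    (h98_hw1mul M q hqM A hA ζ hζ hex) (h98_hw1add M q hqM A hA ζ hζ hex)
    (fun c g hg hv => h65_w1_swap M q hqM A hA ζ hζ hex c g hg hv) g hg

include hA in
/-- **`hφ2B` of `h60_hthick_gen2`**: `φ₂ = b ∘ w` maps the chart ring of level `M q` into the
chart ring of level `M q²`. -/
theorem h65_phi2_mem (g : h69_F0 (M * q) (A.inertiaSubgroupIn ℚ))
    (hg : g ∈ (h80_fam1 (M * q) (A.inertiaSubgroupIn ℚ) (h98_w1 M q hqM A ζ hζ hex)
      (h98_hw1mul M q hqM A hA ζ hζ hex) (h98_hw1add M q hqM A hA ζ hζ hex)).B) :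
    h65_phi2 M q hqM (A.inertiaSubgroupIn ℚ) g ∈
      (h80_fam1 (M * q * q) (A.inertiaSubgroupIn ℚ) (h98_w2 M q hqM A ζ hζ hex)
        (h98_hw2mul M q hqM A hA ζ hζ hex) (h98_hw2add M q hqM A hA ζ hζ hex)).B :=
  h51_b_mem M q hqM A hA ζ hζ hex _ (h65_wF0_mem_fam1 M q hqM A hA ζ hζ hex g hg)

end Closed

end Fermat.Agent.S36
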