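import Mathlib
import Fermat.Prelude.Def_ModularCurve_LaurentCoeff

/-!
# Gauss valuation of Laurent series over a discretely valued subfield (generic core of (Q-VAL))

`A` a valuation subring of a field `K`, `π ∈ 𝔪_A`, `π ≠ 0`, and `P : K → Prop` a class of elements
(the elements of a subfield `K₁`) such that every nonzero `a` with `P a` is `π ^ n * (unit of A)`
(`K₁` is discretely valued with uniformiser `π`).

* `h6_exists_lift_A` : a Laurent series all of whose coefficients lie in `A` is `coeffMap A.subtype`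
  of a Laurent series over `A`;
* `h6_gauss_scale` : a nonzero Laurent series `y` with coefficients in `K₁` which is bounded
  (`π ^ s * y` has coefficients in `A`) has a Gauss valuation in `ℤ`: `π ^ (-m) * y` is an
  `A`-integral series with NONZERO reduction, for some `m : ℤ`;
* `h6_gauss_ratio` : if `f * Q = R` with `Q`, `R ≠ 0` as above, then `π ^ (-m) * f` is a ratio of
  two `A`-integral series with nonzero reductions, for some `m : ℤ`.

Warning: ratios of `A`-integral series may have unbounded coefficients (`1 / (π + t)`), so the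
statement for `f` itself cannot be read off its coefficients.
-/

set_option autoImplicit false

noncomputable section

namespace Fermat.Agent.S36

open ModularCurve

variable {K : Type*} [Field K] (A : ValuationSubring K)

/-- A Laurent series with all coefficients in `A` comes from a Laurent series over `A`. -/
theorem h6_exists_lift_A (y : LaurentSeries K) (h : ∀ n, y.coeff n ∈ A) :
    ∃ z : LaurentSeries A, coeffMap A.subtype z = y := by
  classical
  refine ⟨⟨fun n => ⟨y.coeff n, h n⟩, ?_⟩, ?_⟩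
  · apply y.isPWO_support.mono
    intro n hn
    simp only [Function.mem_support, ne_eq] at hn ⊢
    intro h0
    exact hn (Subtype.ext h0)
  · ext n
    simp only [coeffMap_coeff]
    rfl

/-- the coefficients of a constant multiple. -/
theorem h6_coeff_const_mul (c : K) (y : LaurentSeries K) (n : ℤ) :
    (algebraMap K (LaurentSeries K) c * y).coeff n = c * y.coeff n := by
  rw [algebraMap_laurentSeries_eq_single, HahnSeries.coeff_single_zero_mul]

/-- a power `π ^ j` (`j : ℤ`) of a nonzero non-unit lies in `A` only if `0 ≤ j`. -/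
theorem h6_zpow_mem_nonneg {π : K} (hπ0 : π ≠ 0) (hπ : π ∈ A.nonunits) {j : ℤ}
    (hj : π ^ j ∈ A) : 0 ≤ j := by
  by_contra hneg
  push Not at hneg
  obtain ⟨k, hk⟩ : ∃ k : ℕ, j = -((k : ℤ) + 1) := ⟨(-j - 1).toNat, by omega⟩
  have hv : A.valuation π < 1 := A.mem_nonunits_iff.mp hπ
  have hv0 : A.valuation π ≠ 0 := (map_ne_zero _).mpr hπ0
  have h1 : A.valuation (π ^ j) ≤ 1 := (A.valuation_le_one_iff _).mpr hj
  rw [hk, zpow_neg, map_inv₀, map_zpow₀] at h1
  have h2 : (1 : A.ValueGroup) ≤ A.valuation π ^ ((k : ℤ) + 1) := by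
    have hpos : (0 : A.ValueGroup) < A.valuation π ^ ((k : ℤ) + 1) :=
      zero_lt_iff.mpr (zpow_ne_zero _ hv0)
    exact (inv_le_one₀ hpos).mp h1
  have h3 : A.valuation π ^ ((k : ℤ) + 1) ≤ A.valuation π := by
    have h4 : A.valuation π ^ ((k : ℤ) + 1) = A.valuation π ^ k * A.valuation π := by
      rw [zpow_add_one₀ hv0, zpow_natCast]
    rw [h4]
    calc A.valuation π ^ k * A.valuation π ≤ 1 * A.valuation π :=
          mul_le_mul_left (pow_le_one' hv.le k) _
      _ = A.valuation π := one_mul _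
  exact absurd (h2.trans h3) (not_le.mpr hv)

/-- **Gauss valuation in `ℤ`**: a nonzero bounded Laurent series with coefficients in a
discretely valued class of elements is `π ^ m` times an `A`-integral series with nonzero
reduction. -/
theorem h6_gauss_scale (π : K) (hπ0 : π ≠ 0) (hπ : π ∈ A.nonunits) (P : K → Prop)
    (hDV : ∀ a : K, P a → a ≠ 0 → ∃ (n : ℤ) (u : K), a = π ^ n * u ∧ u ∈ A ∧ u⁻¹ ∈ A)
    (y : LaurentSeries K) (hy0 : y ≠ 0) (hyP : ∀ n, P (y.coeff n))
    (s : ℤ) (hbdd : ∀ n, π ^ s * y.coeff n ∈ A) :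
    ∃ (m : ℤ) (z : LaurentSeries A),
      coeffMap A.subtype z = algebraMap K (LaurentSeries K) (π ^ (-m)) * y ∧
      coeffMap (IsLocalRing.residue A) z ≠ 0 := by
  have hπA : π ∈ A := A.nonunits_le hπ
  -- the set of exponents of the nonzero coefficients
  have hbound : ∃ b : ℤ, ∀ e : ℤ,
      (∃ n, y.coeff n ≠ 0 ∧ ∃ u : K, y.coeff n = π ^ e * u ∧ u ∈ A ∧ u⁻¹ ∈ A) → b ≤ e := by
    refine ⟨-s, ?_⟩
    rintro e ⟨n, hn0, u, hu, huA, huA'⟩
    have h1 : π ^ (s + e) ∈ A := by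
      have h2 : π ^ (s + e) = (π ^ s * y.coeff n) * u⁻¹ := by
        have hu0 : u ≠ 0 := by
          rintro rfl
          exact hn0 (by rw [hu, mul_zero])
        rw [hu, zpow_add₀ hπ0]
        field_simp
      rw [h2]
      exact A.mul_mem _ _ (hbdd n) huA'
    have := h6_zpow_mem_nonneg A hπ0 hπ h1
    omega
  have hinh : ∃ e : ℤ,
      (∃ n, y.coeff n ≠ 0 ∧ ∃ u : K, y.coeff n = π ^ e * u ∧ u ∈ A ∧ u⁻¹ ∈ A) := by
    obtain ⟨n, hn⟩ : ∃ n, y.coeff n ≠ 0 := by
      by_contra hall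
      push Not at hall
      exact hy0 (HahnSeries.ext (funext fun n => by rw [hall n]; rfl))
    obtain ⟨e, u, hu, huA, huA'⟩ := hDV _ (hyP n) hn
    exact ⟨e, n, hn, u, hu, huA, huA'⟩
  obtain ⟨m, ⟨n₀, hn₀, u₀, hu₀, hu₀A, hu₀A'⟩, hmin⟩ := Int.exists_least_of_bdd hbound hinh
  have hint : ∀ n, (algebraMap K (LaurentSeries K) (π ^ (-m)) * y).coeff n ∈ A := by
    intro n
    rw [h6_coeff_const_mul]
    by_cases hn : y.coeff n = 0
    · rw [hn, mul_zero]
      exact A.zero_mem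
    · obtain ⟨e, u, hu, huA, huA'⟩ := hDV _ (hyP n) hn
      have hme : m ≤ e := hmin e ⟨n, hn, u, hu, huA, huA'⟩
      obtain ⟨k, hk⟩ : ∃ k : ℕ, e = m + k := ⟨(e - m).toNat, by omega⟩
      have h1 : π ^ (-m) * y.coeff n = π ^ k * u := by
        rw [hu, hk, zpow_add₀ hπ0, zpow_neg, zpow_natCast]
        have hm0 : π ^ m ≠ 0 := zpow_ne_zero _ hπ0
        field_simp
      rw [h1]
      exact A.mul_mem _ _ (pow_mem hπA k) huA
  obtain ⟨z, hz⟩ := h6_exists_lift_A A _ hint
  refine ⟨m, z, hz, ?_⟩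
  intro h0
  have h1 : (coeffMap (IsLocalRing.residue A) z).coeff n₀ = 0 := by rw [h0]; rfl
  rw [coeffMap_coeff] at h1
  have h2 : ((z.coeff n₀ : A) : K) = u₀ := by
    have h3 : (coeffMap A.subtype z).coeff n₀ = ((z.coeff n₀ : A) : K) := rfl
    rw [← h3, hz, h6_coeff_const_mul, hu₀, zpow_neg]
    have hm0 : π ^ m ≠ 0 := zpow_ne_zero _ hπ0
    field_simp
  have h4 : z.coeff n₀ ∈ IsLocalRing.maximalIdeal A :=
    (IsLocalRing.residue_eq_zero_iff _).mp h1
  have h5 : ((z.coeff n₀ : A) : K) ∈ A.nonunits := ValuationSubring.coe_mem_nonunits_iff.mpr h4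
  rw [h2] at h5
  have h6 : A.valuation u₀ < 1 := A.mem_nonunits_iff.mp h5
  have h7 : A.valuation u₀⁻¹ ≤ 1 := (A.valuation_le_one_iff _).mpr hu₀A'
  have hu₀0 : u₀ ≠ 0 := by
    rintro rfl
    exact hn₀ (by rw [hu₀, mul_zero])
  have h8 : A.valuation u₀ * A.valuation u₀⁻¹ = 1 := by
    rw [← map_mul, mul_inv_cancel₀ hu₀0, map_one]
  have h9 : A.valuation u₀ * A.valuation u₀⁻¹ < 1 := by
    calc A.valuation u₀ * A.valuation u₀⁻¹ ≤ A.valuation u₀ * 1 := mul_le_mul_right h7 _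
      _ = A.valuation u₀ := mul_one _
      _ < 1 := h6
  rw [h8] at h9
  exact lt_irrefl _ h9

/-- **Gauss valuation of a ratio**: if `f * Q = R` with `Q`, `R` nonzero bounded series with
coefficients in the discretely valued class, then `π ^ (-m) * f` is a ratio of `A`-integral
series with nonzero reductions. -/
theorem h6_gauss_ratio (π : K) (hπ0 : π ≠ 0) (hπ : π ∈ A.nonunits) (P : K → Prop)
    (hDV : ∀ a : K, P a → a ≠ 0 → ∃ (n : ℤ) (u : K), a = π ^ n * u ∧ u ∈ A ∧ u⁻¹ ∈ A)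
    (f Q R : LaurentSeries K) (hfQ : f * Q = R)
    (hQ0 : Q ≠ 0) (hQP : ∀ n, P (Q.coeff n)) (sQ : ℤ) (hQb : ∀ n, π ^ sQ * Q.coeff n ∈ A)
    (hR0 : R ≠ 0) (hRP : ∀ n, P (R.coeff n)) (sR : ℤ) (hRb : ∀ n, π ^ sR * R.coeff n ∈ A) :
    ∃ (m : ℤ) (y₁ y₂ : LaurentSeries A),
      coeffMap (IsLocalRing.residue A) y₁ ≠ 0 ∧ coeffMap (IsLocalRing.residue A) y₂ ≠ 0 ∧
      (algebraMap K (LaurentSeries K) (π ^ (-m)) * f) * coeffMap A.subtype y₂
        = coeffMap A.subtype y₁ := by
  obtain ⟨mQ, zQ, hzQ, hzQ0⟩ := h6_gauss_scale A π hπ0 hπ P hDV Q hQ0 hQP sQ hQb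
  obtain ⟨mR, zR, hzR, hzR0⟩ := h6_gauss_scale A π hπ0 hπ P hDV R hR0 hRP sR hRb
  refine ⟨mR - mQ, zR, zQ, hzR0, hzQ0, ?_⟩
  rw [hzQ, hzR, ← hfQ]
  have h1 : π ^ (-(mR - mQ)) * π ^ (-mQ) = π ^ (-mR) := by
    rw [← zpow_add₀ hπ0]
    congr 1
    ring
  rw [← h1, map_mul]
  ring

end Fermat.Agent.S36

end
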