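import Mathlib
import Fermat.Agent.S27.h68_RRFull
import Fermat.Agent.S27.BaseGenus
import Fermat.Agent.S18.h44_Tame
import Fermat.Agent.S18.h75_HoloD1
import Fermat.Agent.S18.h54_ModLevel
import Fermat.Agent.S24.h73_GenusFibre
import Fermat.Agent.S24.h46_Hurwitz
import Fermat.Agent.S24.h78_Fibres
import Fermat.Agent.S24.h47_Numerics
import Fermat.Agent.S24.h29_Index
import Fermat.Agent.S24.h29_Elliptic
import Fermat.Agent.S24.h33_Cusps
import Fermat.Agent.S24.h59_Gen

/-!
# The genus bridge: the Riemann–Roch (chart) genus of `X₀(N)` is the classical genus formula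

S24 computes the prelude's *Kähler* genus (degree of the divisor of a differential) under a
`HasCanonicalDivisor` hypothesis; S27 / S18 / S34 work with the *Riemann–Roch* genus
`h75_genus K x = h¹(0)` (`= genusFF K F`).  This file links the two for the numerics:

* `h6_one_mem_Omega_of_le` : a divisor `E` bounded by `e_P - 1` at the finite places and by
  `ord_P x - 1` at the poles of the chart `x` has `1 ∈ Ω(x, E)` (S18 `h75_trace_mem_of_holo`);
* `h6_le_of_one_mem_Omega` : conversely `1 ∈ Ω(x, E)` forces these bounds in characteristic zero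
  (S18 `h44_tame_chart`, tame different);
* `h6_exists_dx_divisor` : the divisor of `dx` exists as a divisor `W`, is given placewise by
  `e_P - 1` resp. `ord_P x - 1`, and has degree `2 g - 2` (`g = h75_genus K x`);
* `h6_chart_hurwitz` : Riemann–Hurwitz for the chart genus with two finite branch values;
* `h6_genus_bridge`, `h6_genusFF_bridge` : `h75_genus ℚ̄ j = genusFF = genusFormula N` for the
  modular function field of level `N`.
-/

set_option autoImplicit false

noncomputable section

open AlgebraicCurve IntermediateField ModularCurve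
open scoped MatrixGroups

namespace Fermat.Agent.S36

open Fermat.Agent.S18 Fermat.Agent.S24 Fermat.Agent.S27

section Generic

variable {K F : Type*} [Field K] [Field F] [Algebra K F]

/-- a place in the fibre of `a` lies on the chart of `x`. -/
theorem h6_mem_of_fibre (P : Place K F) {x : F} {a : K}
    (ha : 0 < P.ord (x - algebraMap K F a)) : x ∈ P.toValuationSubring :=
  h46_mem_of_ord_nonneg P (h46_fibre_not_pole P ha)

variable [IsAlgClosed K]

/-- **(D1) for a general divisor**: if `E ≤ e_P - 1` on the fibres of `x` and `E ≤ ord_P x - 1`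
at the poles of `x`, then `1 ∈ Ω(x, E)`. -/
theorem h6_one_mem_Omega_of_le {x : F} (hx : h75_IsChart K x) (E : Divisor K F)
    (hE : ∀ P : Place K F,
      (∀ a : K, 0 < P.ord (x - algebraMap K F a) → E P ≤ P.ord (x - algebraMap K F a) - 1) ∧
      (P.ord x < 0 → E P ≤ P.ord x - 1)) :
    (1 : F) ∈ h75_Omega x E := by
  have hx0 := hx.ne_zero
  have hx' := h75_isChart_inv hx
  have hone : ∀ t : F, (1 : F) ∈ h75_chart t (0 : Divisor K F) := fun t =>
    h75_mem_chart_zero_iff.mpr fun P _ => P.toValuationSubring.one_mem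
  refine ⟨fun m hm => ?_, fun l hl => ?_⟩
  · apply h75_mem_adjoin_of_coe
    rw [AdjoinSimple.coe_gen, one_mul, ← mul_one m]
    refine h75_trace_mem_of_holo hx m (fun P a hPa => ?_) 1 (hone x)
    rcases (h75_mem_chart_iff.mp hm) P (h6_mem_of_fibre P hPa) with h | h
    · exact Or.inl h
    · right
      have := (hE P).1 a hPa
      omega
  · have hyp : ∀ (P : Place K F) (b : K), 0 < P.ord (x⁻¹ - algebraMap K F b) →
        x ^ 2 * l = 0 ∨ 1 - P.ord (x⁻¹ - algebraMap K F b) ≤ P.ord (x ^ 2 * l) := by
      intro P b hPb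
      rcases eq_or_ne l 0 with hl0 | hl0
      · left; rw [hl0, mul_zero]
      right
      have hord2 : P.ord (x ^ 2 * l) = 2 * P.ord x + P.ord l := by
        rw [P.ord_mul (pow_ne_zero 2 hx0) hl0, ← zpow_natCast, P.ord_zpow]
        norm_num
      have hlP := ((h75_mem_chart_iff.mp hl) P (h6_mem_of_fibre P hPb)).resolve_left hl0
      rw [hord2]
      rcases eq_or_ne b 0 with hb | hb
      · subst hb
        rw [map_zero, sub_zero, P.ord_inv] at hPb ⊢
        have := (hE P).2 (by omega)
        omega
      · have hbF : algebraMap K F b ≠ 0 := by simpa using hb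
        have hu0 : x⁻¹ - algebraMap K F b ≠ 0 := by
          intro h0
          rw [h0, P.ord_zero] at hPb
          exact lt_irrefl _ hPb
        have hinv0 : x⁻¹ ≠ 0 := inv_ne_zero hx0
        have hordb : P.ord (algebraMap K F b) = 0 := h35_ord_algebraMap P b
        have h1 : min (P.ord (x⁻¹ - algebraMap K F b)) (P.ord (algebraMap K F b)) ≤ P.ord x⁻¹ := by
          have := h35_ord_add P hu0 hbF (by rw [sub_add_cancel]; exact hinv0)
          rwa [sub_add_cancel] at this
        have h2 : min (P.ord x⁻¹) (P.ord (x⁻¹ - algebraMap K F b)) ≤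
            P.ord (algebraMap K F b) := by
          have := h35_ord_sub P hinv0 hu0 (by rw [sub_sub_cancel]; exact hbF)
          rwa [sub_sub_cancel] at this
        rw [hordb] at h1 h2
        have hinv : P.ord x⁻¹ = 0 := by
          rcases le_total (P.ord x⁻¹) (P.ord (x⁻¹ - algebraMap K F b)) with h3 | h3
          · rw [min_eq_left h3] at h2
            rw [min_eq_right hPb.le] at h1
            omega
          · rw [min_eq_right h3] at h2
            omega
        have hordx : P.ord x = 0 := by
          rw [P.ord_inv] at hinv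
          omega
        have hkey : x - algebraMap K F b⁻¹ =
            -((x⁻¹ - algebraMap K F b) * x * algebraMap K F b⁻¹) := by
          rw [map_inv₀]
          field_simp
          ring
        have hbinvF : algebraMap K F b⁻¹ ≠ 0 := by simpa using hb
        have hord : P.ord (x - algebraMap K F b⁻¹) = P.ord (x⁻¹ - algebraMap K F b) := by
          rw [hkey, h35_ord_neg, P.ord_mul (mul_ne_zero hu0 hx0) hbinvF, P.ord_mul hu0 hx0, hordx,
            h35_ord_algebraMap]
          ring
        have := (hE P).1 b⁻¹ (by rw [hord]; exact hPb)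
        rw [hord] at this
        omega
    have hmem := h75_trace_mem_of_holo hx' (x ^ 2 * l) hyp 1 (hone x⁻¹)
    rw [h75_trace_congr (h24_adjoin_inv_eq x) (x ^ 2 * l * 1)] at hmem
    have h4 : x ^ 2 * l * 1 = ((AdjoinSimple.gen K x) ^ 2 : K⟮x⟯) • (1 * l) := by
      rw [Algebra.smul_def]
      show _ = (((AdjoinSimple.gen K x) ^ 2 : K⟮x⟯) : F) * _
      rw [IntermediateField.coe_pow, AdjoinSimple.coe_gen]
      ring
    rw [h4, map_smul, smul_eq_mul] at hmem
    apply h75_mem_adjoin_of_coe
    rw [IntermediateField.coe_inv, AdjoinSimple.coe_gen]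
    exact hmem

omit [IsAlgClosed K] in
/-- `M_t(E)` is a module over `M_t(0)`. -/
theorem h6_mul_mem_chart {t : F} {E : Divisor K F} {ψ m : F} (hψ : ψ ∈ h75_chart t E)
    (hm : ∀ P : Place K F, t ∈ P.toValuationSubring → m ∈ P.toValuationSubring) :
    ψ * m ∈ h75_chart t E := by
  intro P hP
  show P.adicValuation (ψ * m) ≤ WithZero.exp (E P)
  rw [map_mul]
  exact (mul_le_of_le_one_right' (P.adicValuation_le_one_of_mem (hm P hP))).trans (hψ P hP)

/-- an element of `M_t(E)` of exact order `-E(P)` at a place `P` of the chart. -/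
theorem h6_exists_exact_chart {t : F} (ht : h75_IsChart K t) (E : Divisor K F) (P : Place K F)
    (hP : t ∈ P.toValuationSubring) :
    ∃ ψ : F, ψ ≠ 0 ∧ ψ ∈ h75_chart t E ∧ P.ord ψ = -E P := by
  classical
  let S : Finset (Place K F) := insert P (E.support.filter fun Q => t ∈ Q.toValuationSubring)
  have hS : ∀ Q ∈ S, t ∈ Q.toValuationSubring := by
    intro Q hQ
    rcases Finset.mem_insert.mp hQ with rfl | hQ
    · exact hP
    · exact (Finset.mem_filter.mp hQ).2
  obtain ⟨ψ, hψ0, hψS, hψ⟩ := h75_exists_exact ht S hS (fun Q => -E Q)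
  refine ⟨ψ, hψ0, h75_mem_chart_iff.mpr fun Q hQ => Or.inr ?_,
    hψS P (Finset.mem_insert_self _ _)⟩
  by_cases hQS : Q ∈ S
  · rw [hψS Q hQS]
  · have hE0 : E Q = 0 := by
      by_contra hne
      exact hQS (Finset.mem_insert_of_mem
        (Finset.mem_filter.mpr ⟨Finsupp.mem_support_iff.mpr hne, hQ⟩))
    rw [hE0, neg_zero]
    exact hψ Q hQ hQS

variable [CharZero K]

/-- **(D2) for a general divisor** (characteristic zero): `1 ∈ Ω(x, E)` forces `E ≤ e_P - 1` on
the fibres of `x` and `E ≤ ord_P x - 1` at the poles of `x`. -/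
theorem h6_le_of_one_mem_Omega {x : F} (hx : h75_IsChart K x) (E : Divisor K F)
    (h1 : (1 : F) ∈ h75_Omega x E) (P : Place K F) :
    (∀ a : K, 0 < P.ord (x - algebraMap K F a) → E P ≤ P.ord (x - algebraMap K F a) - 1) ∧
    (P.ord x < 0 → E P ≤ P.ord x - 1) := by
  obtain ⟨h1a, h1b⟩ := h1
  refine ⟨fun a ha => ?_, fun hPx => ?_⟩
  · obtain ⟨ψ, hψ0, hψE, hψP⟩ := h6_exists_exact_chart hx E P (h6_mem_of_fibre P ha)
    have key := h44_tame_chart hx ψ (fun m hm => ?_) P a ha
    · rcases key with key | key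
      · exact absurd key hψ0
      · omega
    · have h3 := h1a (ψ * m) (h6_mul_mem_chart hψE hm)
      rw [one_mul] at h3
      have h4 := h44_coe_mem_adjoin K⟮x⟯ (AdjoinSimple.gen K x) _ h3
      rwa [AdjoinSimple.coe_gen] at h4
  · have hx0 := hx.ne_zero
    have ht := h75_isChart_inv hx
    have hPinv : x⁻¹ ∈ P.toValuationSubring := by
      rw [h35_mem_iff_ord_nonneg P (inv_ne_zero hx0), P.ord_inv]
      omega
    obtain ⟨l₀, hl0, hlE, hlP⟩ := h6_exists_exact_chart ht E P hPinv
    have hP' : 0 < P.ord (x⁻¹ - algebraMap K F 0) := by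
      rw [map_zero, sub_zero, P.ord_inv]
      omega
    have key := h44_tame_chart ht (x ^ 2 * l₀) (fun m hm => ?_) P 0 hP'
    · rcases key with key | key
      · exact absurd key (mul_ne_zero (pow_ne_zero 2 hx0) hl0)
      · rw [map_zero, sub_zero, P.ord_inv, P.ord_mul (pow_ne_zero 2 hx0) hl0, pow_two,
          P.ord_mul hx0 hx0] at key
        omega
    · have h3 := h1b (l₀ * m) (h6_mul_mem_chart hlE hm)
      rw [one_mul] at h3
      have h4 := h44_coe_mem_adjoin K⟮x⟯ (AdjoinSimple.gen K x)⁻¹ _ h3
      have h5 : ((Algebra.trace K⟮x⁻¹⟯ F (x ^ 2 * l₀ * m) : K⟮x⁻¹⟯) : F) =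
          ((AdjoinSimple.gen K x ^ 2 * Algebra.trace K⟮x⟯ F (l₀ * m) : K⟮x⟯) : F) := by
        rw [h44_trace_congr (h24_adjoin_inv_eq x) (x ^ 2 * l₀ * m)]
        have h6 : x ^ 2 * l₀ * m = (AdjoinSimple.gen K x ^ 2 : K⟮x⟯) • (l₀ * m) := by
          rw [Algebra.smul_def, mul_assoc]
          rfl
        rw [h6, map_smul, smul_eq_mul]
      rw [h5]
      simpa using h4

/-- **The divisor of `dx`** for a chart `x` (characteristic zero): it exists as a divisor, is
`e_P - 1` on the fibres and `ord_P x - 1` at the poles, and has degree `2 g - 2` for the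
Riemann–Roch genus `g = h75_genus K x`. -/
theorem h6_exists_dx_divisor {x : F} (hx : h75_IsChart K x) :
    ∃ W : Divisor K F, Divisor.degree W = 2 * (h75_genus K x : ℤ) - 2 ∧
      ∀ P : Place K F,
        (∀ a : K, 0 < P.ord (x - algebraMap K F a) → W P = P.ord (x - algebraMap K F a) - 1) ∧
        (P.ord x < 0 → W P = P.ord x - 1) := by
  classical
  obtain ⟨D₀, w₀, hw₀, h₀⟩ := h68_exists_Omega_ne_zero hx
  obtain ⟨Df, hDf⟩ := h7_exists_div hx w₀⁻¹ (inv_ne_zero hw₀)
  have h1 : (1 : F) ∈ h75_Omega x (D₀ + Df) := by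
    have := (h68_Omega_mul (inv_ne_zero hw₀) Df hDf x D₀ w₀).mpr h₀
    rwa [inv_mul_cancel₀ hw₀] at this
  obtain ⟨W, hW, hmax⟩ := h68_exists_largest hx (one_ne_zero (α := F)) h1
  have hcan : h68_IsCanonical x W := fun D => by
    have h1 := h68_finrank_Omega hx D
    have h2 : Module.finrank K ↥(h75_Omega x D) =
        Module.finrank K ↥(riemannRochSpace (W - D)) := by
      rw [h68_Omega_eq hx (one_ne_zero (α := F)) hW hmax D]
      exact LinearEquiv.finrank_map_eq (h75_mulEquiv K (1 : F) one_ne_zero) _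
    rw [h2] at h1
    linarith
  have hub := h6_le_of_one_mem_Omega hx W hW
  have hupd : ∀ (P : Place K F) (c : ℤ), (W + Finsupp.single P (c - W P) : Divisor K F) P = c ∧
      ∀ Q : Place K F, Q ≠ P → (W + Finsupp.single P (c - W P) : Divisor K F) Q = W Q := by
    intro P c
    refine ⟨by rw [Finsupp.add_apply, Finsupp.single_eq_same]; ring, fun Q hQ => ?_⟩
    rw [Finsupp.add_apply, Finsupp.single_eq_of_ne hQ, add_zero]
  refine ⟨W, h68_canonical_degree hx hcan, fun P => ⟨fun a ha => ?_, fun hPx => ?_⟩⟩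
  · refine le_antisymm ((hub P).1 a ha) ?_
    obtain ⟨hEP, hEQ⟩ := hupd P (P.ord (x - algebraMap K F a) - 1)
    have hE1 : (1 : F) ∈ h75_Omega x (W + Finsupp.single P
        (P.ord (x - algebraMap K F a) - 1 - W P)) := by
      refine h6_one_mem_Omega_of_le hx _ (fun Q => ?_)
      by_cases hQ : Q = P
      · subst hQ
        refine ⟨fun a' ha' => ?_, fun hQx => ?_⟩
        · have := h35_value_unique Q ha ha'
          subst this
          rw [hEP]
        · have := h46_fibre_not_pole Q ha
          omega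
      · rw [hEQ Q hQ]
        exact hub Q
    have := Finsupp.le_def.mp (hmax _ hE1) P
    rwa [hEP] at this
  · refine le_antisymm ((hub P).2 hPx) ?_
    obtain ⟨hEP, hEQ⟩ := hupd P (P.ord x - 1)
    have hE1 : (1 : F) ∈ h75_Omega x (W + Finsupp.single P (P.ord x - 1 - W P)) := by
      refine h6_one_mem_Omega_of_le hx _ (fun Q => ?_)
      by_cases hQ : Q = P
      · subst hQ
        refine ⟨fun a' ha' => ?_, fun _ => ?_⟩
        · have := h46_fibre_not_pole Q ha'
          omega
        · rw [hEP]
      · rw [hEQ Q hQ]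
        exact hub Q
    have := Finsupp.le_def.mp (hmax _ hE1) P
    rwa [hEP] at this

open KaehlerDifferential in
/-- **Riemann–Hurwitz for the Riemann–Roch genus** (characteristic zero, at most two finite branch
values): `2 g - 2 = n - #fibre(a₁) - #fibre(a₂) - #poles` for `g = h75_genus K t`,
`n = [F : K(t)]`. -/
theorem h6_chart_hurwitz {t : F} (ht : h75_IsChart K t) (a₁ a₂ : K) (ha : a₁ ≠ a₂)
    (hS : ∀ a : K, a ≠ a₁ → a ≠ a₂ →
      Nat.card {v : Place K F // 0 < v.ord (t - algebraMap K F a)} = Module.finrank K⟮t⟯ F) :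
    2 * (h75_genus K t : ℤ) - 2 =
      (Module.finrank K⟮t⟯ F : ℤ)
        - (Nat.card {v : Place K F // 0 < v.ord (t - algebraMap K F a₁)} : ℤ)
        - (Nat.card {v : Place K F // 0 < v.ord (t - algebraMap K F a₂)} : ℤ)
        - (Nat.card {v : Place K F // v.ord t < 0} : ℤ) := by
  classical
  have := ht.fin
  have htr : Transcendental K t := ht.tr
  have hF : h73_IsFF K F := ⟨t, inferInstance⟩
  have hnt : Nontrivial Ω[F⁄K] := h73_nontrivial_kaehler hF htr
  have hD0 : ∀ x : F, Transcendental K x → FiniteDimensional K⟮x⟯ F :=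
    fun x hx => h73_finite_of_transcendental hF hx
  have ht' : ∀ a : K, t ≠ algebraMap K F a := by
    rintro a rfl
    exact htr (isAlgebraic_algebraMap a)
  have hsum : ∀ a : K, ∑ v ∈ (h24_fibre_finite t htr a).toFinset,
      v.ord (t - algebraMap K F a) = (Module.finrank K⟮t⟯ F : ℕ) := by
    intro a
    exact h24_fibre_sum t htr a _ (fun v => by simp)
  have hpsum : ∑ v ∈ (h24_fibre_infty_finite t htr).toFinset, v.ord t
      = -((Module.finrank K⟮t⟯ F : ℕ) : ℤ) := by
    have h := h24_fibre_infty_sum t htr (h24_fibre_infty_finite t htr).toFinset (fun v => by simp)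
    rw [Finset.sum_neg_distrib] at h
    omega
  have hprin : ∀ f : F, f ≠ 0 → ∃ D : Divisor K F, (∀ v : Place K F, D v = v.ord f) ∧
      D.sum (fun _ n => n) = 0 := fun f hf => h24_exists_principal hD0 f hf
  have hffin : ∀ f : F, f ≠ 0 → {v : Place K F | v.ord f ≠ 0}.Finite := by
    intro f hf
    obtain ⟨D, hD, -⟩ := hprin f hf
    refine D.support.finite_toSet.subset (fun v hv => ?_)
    simp only [Finset.mem_coe, Finsupp.mem_support_iff, hD v]
    exact hv
  have hfsum : ∀ (f : F) (hf : f ≠ 0), ∑ v ∈ (hffin f hf).toFinset, v.ord f = 0 := by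
    intro f hf
    obtain ⟨D, hD, hDsum⟩ := hprin f hf
    have hsupp : (hffin f hf).toFinset = D.support := by
      ext v
      simp [hD v]
    rw [hsupp, ← hDsum, Finsupp.sum]
    exact Finset.sum_congr rfl (fun v _ => (hD v).symm)
  have hres := h73_hres hF
  have hEFT := h73_hEFT hF
  obtain ⟨W, hdeg, hW⟩ := h6_exists_dx_divisor ht
  have hDW : ∀ v : Place K F, W v = v.ordDifferential (KaehlerDifferential.D K F t) := by
    intro v
    have := hEFT v
    rcases h46_pole_or_fibre v (hres v) ht' with h | ⟨a, hva⟩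
    · rw [(hW v).2 h, h46_ordDifferential_D v (hres v) (ne_of_lt h)]
    · rw [(hW v).1 a hva]
      have := h46_ordDifferential_D v (hres v) (ne_of_gt hva)
      rw [map_sub, Derivation.map_algebraMap, sub_zero] at this
      rw [this]
  have hω : KaehlerDifferential.D K F t ≠ 0 := by
    obtain ⟨v₀⟩ := h7_exists_place ht
    have := hEFT v₀
    rcases h46_pole_or_fibre v₀ (hres v₀) ht' with h | ⟨a, hva⟩
    · exact h46_D_ne_zero v₀ (hres v₀) (ne_of_lt h)
    · have := h46_D_ne_zero v₀ (hres v₀) (ne_of_gt hva)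
      rwa [map_sub, Derivation.map_algebraMap, sub_zero] at this
  have h := h46_hurwitz_two t (Module.finrank K⟮t⟯ F) ht' hres hEFT (h24_fibre_finite t htr)
    hsum (h24_fibre_infty_finite t htr) hpsum hffin hfsum a₁ a₂ ha hS hω W hDW
  rw [hdeg] at h
  exact h

end Generic

section Modular

local notation "Qb" => AlgebraicClosure ℚ

/-- **The genus bridge**: the Riemann–Roch genus of the modular function field of level `N`
(computed in the chart `j`) is the classical genus formula. -/
theorem h6_genus_bridge (N : ℕ) [NeZero N] :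
    (h75_genus Qb (h59_jbar N) : ℚ) = ModularCurve.genusFormula N := by
  have hne : (1728 : Qb) ≠ 0 := by norm_num
  have h := h6_chart_hurwitz (h54_isChart_jbar N) (1728 : Qb) 0 hne
    (fun a h1 h0 => by rw [h78_card_fibre N a h0 h1, h78_finrank N])
  rw [h78_finrank N, h78_card_fibre_1728 N, h78_card_fibre_zero N, h78_card_poles N] at h
  have h47 := h47_genus_of_counts N (G := SL(2, ℤ)) (X := SL(2, ℤ) ⧸ CongruenceSubgroup.Gamma0 N)
    ModularGroup.S ModularGroup.T SpecialLinearGroup.SL2Z_generators
    (h29_card_quotient_Gamma0 N) (h29_orbits_S N) (h29_orbits_ST N) (h33_orbits_T N)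
  rw [← h47]
  congr 1
  omega

/-- the same for the prelude's `genusFF` (`= h¹(0)` by repartitions). -/
theorem h6_genusFF_bridge (N : ℕ) [NeZero N] :
    (genusFF Qb ↥(modularFunctionFieldBar N) : ℚ) = ModularCurve.genusFormula N := by
  rw [h15_genusFF_eq (h54_isChart_jbar N)]
  exact h6_genus_bridge N

end Modular

end Fermat.Agent.S36

end
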