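import Mathlib
import Fermat.Agent.S19.h14_Inert
import Fermat.Agent.S27.h14_ValFamP
import Fermat.Agent.S55.h56_KummerUnram
import Fermat.Agent.S05.h26_Inertia

/-!
# (K8) = (RES): the inertia-fixed field has the full residue field

`A` a valuation subring of `ℚ̄` over the prime `q`, `I = A.inertiaSubgroupIn ℚ`,
`K₀ = ℚ̄^I`, `A₀ = A ∩ K₀`.  Then `A = A₀ + 𝔪_A`:

* `h6_exists_nonunit_of_prod` : a product of integral elements which is a non-unit has a
  non-unit factor (any valuation subring);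
* `h6_root_mem` : roots of unity lie in every valuation subring;
* `h6_exists_pow_sub_one_mem` : every unit `a` of `A` has `a ^ n ≡ 1 mod 𝔪_A` for some `n > 0`
  prime to `q` (residues are algebraic over `𝔽_q`);
* `h6_teich_Qb` : every unit of `A` is congruent mod `𝔪_A` to an `n`-th root of unity `ζ`
  (`q ∤ n`), and such a `ζ` is fixed by the inertia group (Teichmüller representative);
* `h6_res_K0` : every `a ∈ A` is congruent mod `𝔪_A` to an inertia-fixed element of `A`.
-/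

set_option autoImplicit false

noncomputable section

namespace Fermat.Agent.S36

open Polynomial
open Fermat.Agent.S05 Fermat.Agent.S18 Fermat.Agent.S19 Fermat.Agent.S27 Fermat.Agent.S55

local notation "Qb" => AlgebraicClosure ℚ

/-- a finite product of elements of a valuation subring which is a non-unit has a non-unit
factor. -/
theorem h6_exists_nonunit_of_prod {L : Type*} [Field L] (A : ValuationSubring L)
    (s : Multiset L) (hs : ∀ x ∈ s, x ∈ A) (h : s.prod ∈ A.nonunits) :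
    ∃ x ∈ s, x ∈ A.nonunits := by
  induction s using Multiset.induction_on with
  | empty =>
    rw [Multiset.prod_zero] at h
    exact absurd h (h26_one_not_mem_nonunits A)
  | cons a s ih =>
    rw [Multiset.prod_cons] at h
    by_cases ha : a ∈ A.nonunits
    · exact ⟨a, Multiset.mem_cons_self a s, ha⟩
    · have hs' : ∀ x ∈ s, x ∈ A := fun x hx => hs x (Multiset.mem_cons_of_mem hx)
      have hsprod : s.prod ∈ A.nonunits := by
        rw [ValuationSubring.mem_nonunits_iff] at h ha ⊢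
        rw [map_mul] at h
        have ha1 : A.valuation a = 1 :=
          le_antisymm ((A.valuation_le_one_iff a).mpr (hs a (Multiset.mem_cons_self a s)))
            (not_lt.mp ha)
        rwa [ha1, one_mul] at h
      obtain ⟨x, hx, hxn⟩ := ih hs' hsprod
      exact ⟨x, Multiset.mem_cons_of_mem hx, hxn⟩

/-- roots of unity lie in every valuation subring. -/
theorem h6_root_mem {L : Type*} [Field L] (A : ValuationSubring L) {n : ℕ} (hn : 0 < n)
    {ζ : L} (hζ : ζ ^ n = 1) : ζ ∈ A := by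
  rcases A.mem_or_inv_mem ζ with h | h
  · exact h
  · have h3 : ζ ^ (n - 1) = ζ⁻¹ :=
      eq_inv_of_mul_eq_one_left (by rw [← pow_succ, Nat.sub_add_cancel hn, hζ])
    have h2 : (ζ⁻¹) ^ (n - 1) = ζ := by
      rw [inv_pow, h3, inv_inv]
    rw [← h2]
    exact pow_mem h _

variable (q : ℕ) [Fact q.Prime] (A : ValuationSubring Qb)

/-- every unit of `A` has a power `a ^ n ≡ 1 mod 𝔪_A` with `n > 0` prime to `q`. -/
theorem h6_exists_pow_sub_one_mem (hA : A.LiesOverPrime q) (a : Qb) (ha : a ∈ A)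
    (hau : a ∉ A.nonunits) :
    ∃ n : ℕ, 0 < n ∧ ¬ q ∣ n ∧ a ^ n - 1 ∈ A.nonunits := by
  have := h19_residueField_charP A q hA
  letI : Algebra (ZMod q) (IsLocalRing.ResidueField A) := ZMod.algebra _ q
  set b : IsLocalRing.ResidueField A := IsLocalRing.residue A ⟨a, ha⟩ with hb
  have hcomp : (algebraMap (ZMod q) (IsLocalRing.ResidueField A)).comp
      (Int.castRingHom (ZMod q)) = Int.castRingHom (IsLocalRing.ResidueField A) :=
    RingHom.ext_int _ _
  have halg : IsAlgebraic (ZMod q) b := by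
    obtain ⟨P, hP0, hP⟩ := h14_residue_algebraic (ℓ := q) A b
    exact ⟨P.map _, hP0, by rw [Polynomial.aeval_def, Polynomial.eval₂_map, hcomp]; exact hP⟩
  obtain ⟨d, hd, hpow⟩ := h14_pow_card_of_isAlgebraic_zmod q b halg
  have hb0 : b ≠ 0 := by
    intro h0
    apply hau
    rw [hb, IsLocalRing.residue_eq_zero_iff] at h0
    exact ValuationSubring.coe_mem_nonunits_iff.mpr h0
  have hq2 : 2 ≤ q := (Fact.out : q.Prime).two_le
  have hqd : 2 ≤ q ^ d := hq2.trans (Nat.le_self_pow hd.ne' q)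
  refine ⟨q ^ d - 1, by omega, ?_, ?_⟩
  · intro hdvd
    have h1 : q ∣ q ^ d := dvd_pow_self q hd.ne'
    have h2 : q ∣ q ^ d - (q ^ d - 1) := Nat.dvd_sub h1 hdvd
    rw [show q ^ d - (q ^ d - 1) = 1 by omega] at h2
    exact (Fact.out : q.Prime).one_lt.ne' (Nat.dvd_one.mp h2)
  · have h1 : b ^ (q ^ d - 1) = 1 := by
      have h2 : b ^ (q ^ d - 1) * b = 1 * b := by
        rw [← pow_succ, Nat.sub_add_cancel (by omega), hpow, one_mul]
      exact mul_right_cancel₀ hb0 h2
    have h3 : IsLocalRing.residue A ((⟨a, ha⟩ : A) ^ (q ^ d - 1) - 1) = 0 := by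
      rw [map_sub, map_pow, map_one, ← hb, h1, sub_self]
    rw [IsLocalRing.residue_eq_zero_iff] at h3
    have h4 := ValuationSubring.coe_mem_nonunits_iff.mpr h3
    simpa using h4

/-- **Teichmüller representatives in `ℚ̄`**: every unit of `A` is congruent modulo `𝔪_A` to a
root of unity of order prime to `q`, and this root of unity is fixed by the inertia group. -/
theorem h6_teich_Qb (hA : A.LiesOverPrime q) (a : Qb) (ha : a ∈ A) (hau : a ∉ A.nonunits) :
    ∃ (n : ℕ) (ζ : Qb), 0 < n ∧ ¬ q ∣ n ∧ ζ ^ n = 1 ∧ a - ζ ∈ A.nonunits ∧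
      ∀ σ ∈ A.inertiaSubgroupIn ℚ, σ ζ = ζ := by
  obtain ⟨n, hn, hqn, han⟩ := h6_exists_pow_sub_one_mem q A hA a ha hau
  have hmonic : (X ^ n - 1 : Qb[X]).Monic := by
    have := monic_X_pow_sub_C (1 : Qb) hn.ne'
    rwa [C_1] at this
  have hsplit : (X ^ n - 1 : Qb[X]).Splits := IsAlgClosed.splits _
  have heval := hsplit.eval_eq_prod_roots_of_monic hmonic a
  have hroot : ∀ ζ ∈ (X ^ n - 1 : Qb[X]).roots, ζ ^ n = 1 := by
    intro ζ hζ
    have h1 := (Polynomial.mem_roots hmonic.ne_zero).mp hζ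
    rw [IsRoot, eval_sub, eval_pow, eval_X, eval_one] at h1
    exact sub_eq_zero.mp h1
  have hprod : ((X ^ n - 1 : Qb[X]).roots.map (a - ·)).prod ∈ A.nonunits := by
    rw [← heval, eval_sub, eval_pow, eval_X, eval_one]
    exact han
  obtain ⟨x, hx, hxn⟩ := h6_exists_nonunit_of_prod A _ (fun x hx => by
    obtain ⟨ζ, hζ, rfl⟩ := Multiset.mem_map.mp hx
    exact A.sub_mem ha (h6_root_mem A hn (hroot ζ hζ))) hprod
  obtain ⟨ζ, hζ, rfl⟩ := Multiset.mem_map.mp hx
  have hζn := hroot ζ hζ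
  refine ⟨n, ζ, hn, hqn, hζn, hxn, fun σ hσ => ?_⟩
  have hζA : ζ ∈ A := h6_root_mem A hn hζn
  have h1 : σ ζ - ζ ∈ A.nonunits := h26_sub_mem_nonunits_of_mem_inertia A hσ hζA
  have hζ0 : ζ ≠ 0 := by
    rintro rfl
    rw [zero_pow hn.ne'] at hζn
    exact zero_ne_one hζn
  have hξ : (σ ζ * ζ⁻¹) ^ n = 1 := by
    rw [mul_pow, ← map_pow, hζn, map_one, one_mul, inv_pow, hζn, inv_one]
  have hinvA : ζ⁻¹ ∈ A := h6_root_mem A hn (by rw [inv_pow, hζn, inv_one])
  have hξ1 : σ ζ * ζ⁻¹ - 1 ∈ A.nonunits := by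
    have h2 : σ ζ * ζ⁻¹ - 1 = (σ ζ - ζ) * ζ⁻¹ := by
      field_simp
    rw [h2]
    exact h26_mul_mem_nonunits_right A h1 hinvA
  have hnA : ((n : ℕ) : Qb) ∉ A.nonunits := fun h =>
    hqn ((h26_natCast_mem_nonunits_iff A (Fact.out : q.Prime) hA n).mp h)
  have h3 := h56_root_of_unity_eq_one A n hnA (σ ζ * ζ⁻¹) hξ hξ1
  field_simp at h3
  exact h3

/-- **(RES)**: `A = A₀ + 𝔪_A` for `A₀ = A ∩ ℚ̄^I`, `I` the inertia group of `A`: every element
of `A` is congruent modulo `𝔪_A` to an inertia-fixed element of `A`. -/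
theorem h6_res_K0 (hA : A.LiesOverPrime q) (a : Qb) (ha : a ∈ A) :
    ∃ a0 : Qb, a0 ∈ A ∧ (∀ σ ∈ A.inertiaSubgroupIn ℚ, σ a0 = a0) ∧ a - a0 ∈ A.nonunits := by
  by_cases hau : a ∈ A.nonunits
  · exact ⟨0, A.zero_mem, fun σ _ => map_zero σ, by rwa [sub_zero]⟩
  · obtain ⟨n, ζ, hn, -, hζn, haζ, hfix⟩ := h6_teich_Qb q A hA a ha hau
    exact ⟨ζ, h6_root_mem A hn hζn, hfix, haζ⟩

end Fermat.Agent.S36

end
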