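import Mathlib
import Fermat.Agent.S36.h6_GaussZ
import Fermat.Agent.S36.h69_K0
import Fermat.Agent.S18.h69_PowerBasis
import Fermat.Agent.S18.h59_HauptFull
import Fermat.Agent.S18.GR_RedAPI
import Fermat.Agent.S34.h60_R2
import Fermat.Prelude.Thm_ModularCurve_coeffMap_qExpand

/-!
# (Q-VAL): the vertical valuations of level `Mq` are `ℤ`-valued on the inertia-fixed functions

`A` a valuation subring of `ℚ̄` over the prime `q`, `I = A.inertiaSubgroupIn ℚ`,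
`F0 = h69_F0 N I` the `I`-fixed elements of `F̄(N)`.

* generic: `h6_Sc O π f` (`v_O f ∈ ⟨v_O π⟩`), `h6_zval O π f : ℤ` with its calculus
  (`h6_zval_mul`, `h6_zval_add`, `h6_zval_nonneg_iff`, `h6_zval_pos_iff`, `h6_zval_unit_spec`);
* `h6_exists_rat_multiple` : every nonzero polynomial over `ℚ̄` divides a nonzero rational one;
* `h6_exists_gauss_scale` : (EVERY level `N`) for `f ≠ 0` in `F0`, `q ^ (-m) f` is a ratio of
  two `A`-integral `q`-series with nonzero reductions, for some `m : ℤ`;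
* level `(M, q)`, `q ∤ M`: `h6_Rc c` (`c = 0`: `h60_R1`, `c = 1`: `h60_R2`),
  `h6_Rc_unit_scale`, `h6_Rc_sc`, and `h6_vq c : F0 → ℤ` with
  `h6_vq_mul`, `h6_vq_add`, `h6_vq_q`, `h6_vq_nonneg_iff`, `h6_vq_pos_iff`, `h6_vq_spec`,
  `h6_vq_pos_dvd`, `h6_vq_const_unit`.
-/

set_option autoImplicit false
set_option synthInstance.maxHeartbeats 400000

noncomputable section

namespace Fermat.Agent.S36

open ModularCurve AlgebraicCurve Polynomial
open Fermat.Agent.S18 Fermat.Agent.S24 Fermat.Agent.S34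

local notation "Qb" => AlgebraicClosure ℚ

/-! ### `ℤ`-valued valuation attached to a valuation subring and a uniformiser -/

section ZVal

variable {F : Type*} [Field F] (O : ValuationSubring F) (π : F)

/-- the valuation of `f` is an integral power of the valuation of `π`. -/
def h6_Sc (f : F) : Prop := ∃ m : ℤ, O.valuation f = O.valuation π ^ m

open Classical in
/-- the exponent `m` with `v f = v π ^ m` (`0` if there is none). -/
def h6_zval (f : F) : ℤ := if h : h6_Sc O π f then h.choose else 0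

variable {O π}

theorem h6_val_pos (hπ0 : π ≠ 0) : 0 < O.valuation π :=
  zero_lt_iff.mpr ((_root_.map_ne_zero _).mpr hπ0)

theorem h6_val_lt (hπ : π ∈ O.nonunits) : O.valuation π < 1 :=
  O.mem_nonunits_iff.mp hπ

theorem h6_zpow_le_one_iff (hπ0 : π ≠ 0) (hπ : π ∈ O.nonunits) (z : ℤ) :
    O.valuation π ^ z ≤ 1 ↔ 0 ≤ z := by
  have h := zpow_le_zpow_iff_right_of_lt_one₀ (h6_val_pos hπ0) (h6_val_lt hπ) (m := z) (n := 0)
  rwa [zpow_zero] at h

theorem h6_zpow_lt_one_iff (hπ0 : π ≠ 0) (hπ : π ∈ O.nonunits) (z : ℤ) :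
    O.valuation π ^ z < 1 ↔ 0 < z := by
  have h := zpow_lt_zpow_iff_right_of_lt_one₀ (h6_val_pos hπ0) (h6_val_lt hπ) (m := z) (n := 0)
  rwa [zpow_zero] at h

theorem h6_zval_eq (hπ0 : π ≠ 0) (hπ : π ∈ O.nonunits) {f : F} {m : ℤ}
    (h : O.valuation f = O.valuation π ^ m) : h6_zval O π f = m := by
  have hs : h6_Sc O π f := ⟨m, h⟩
  unfold h6_zval
  rw [dif_pos hs]
  have h1 : O.valuation f = O.valuation π ^ hs.choose := hs.choose_spec
  exact zpow_right_injective₀ (h6_val_pos hπ0) (h6_val_lt hπ).ne (h1.symm.trans h)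

theorem h6_zval_spec (hπ0 : π ≠ 0) (hπ : π ∈ O.nonunits) {f : F} (hf : h6_Sc O π f) :
    O.valuation f = O.valuation π ^ h6_zval O π f := by
  obtain ⟨m, hm⟩ := hf
  rw [h6_zval_eq hπ0 hπ hm, hm]

theorem h6_Sc_ne_zero (hπ0 : π ≠ 0) {f : F} (hf : h6_Sc O π f) : f ≠ 0 := by
  rintro rfl
  obtain ⟨m, hm⟩ := hf
  rw [map_zero] at hm
  exact zpow_ne_zero m (h6_val_pos hπ0).ne' hm.symm

theorem h6_Sc_mul (hπ0 : π ≠ 0) {f g : F} (hf : h6_Sc O π f) (hg : h6_Sc O π g) :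
    h6_Sc O π (f * g) := by
  obtain ⟨m, hm⟩ := hf
  obtain ⟨n, hn⟩ := hg
  exact ⟨m + n, by rw [map_mul, hm, hn, zpow_add₀ (h6_val_pos hπ0).ne']⟩

theorem h6_Sc_pi : h6_Sc O π π := ⟨1, by rw [zpow_one]⟩

theorem h6_Sc_one : h6_Sc O π 1 := ⟨0, by rw [map_one, zpow_zero]⟩

theorem h6_zval_mul (hπ0 : π ≠ 0) (hπ : π ∈ O.nonunits) {f g : F} (hf : h6_Sc O π f)
    (hg : h6_Sc O π g) : h6_zval O π (f * g) = h6_zval O π f + h6_zval O π g := by
  apply h6_zval_eq hπ0 hπ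
  rw [map_mul, h6_zval_spec hπ0 hπ hf, h6_zval_spec hπ0 hπ hg, zpow_add₀ (h6_val_pos hπ0).ne']

theorem h6_zval_add (hπ0 : π ≠ 0) (hπ : π ∈ O.nonunits) {f g : F} (hf : h6_Sc O π f)
    (hg : h6_Sc O π g) (hfg : h6_Sc O π (f + g)) :
    min (h6_zval O π f) (h6_zval O π g) ≤ h6_zval O π (f + g) := by
  have h1 := O.valuation.map_add f g
  rw [h6_zval_spec hπ0 hπ hf, h6_zval_spec hπ0 hπ hg, h6_zval_spec hπ0 hπ hfg] at h1
  rcases le_max_iff.mp h1 with h | h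
  · exact (min_le_left _ _).trans
      ((zpow_le_zpow_iff_right_of_lt_one₀ (h6_val_pos hπ0) (h6_val_lt hπ)).mp h)
  · exact (min_le_right _ _).trans
      ((zpow_le_zpow_iff_right_of_lt_one₀ (h6_val_pos hπ0) (h6_val_lt hπ)).mp h)

theorem h6_zval_nonneg_iff (hπ0 : π ≠ 0) (hπ : π ∈ O.nonunits) {f : F} (hf : h6_Sc O π f) :
    0 ≤ h6_zval O π f ↔ f ∈ O := by
  rw [← O.valuation_le_one_iff, h6_zval_spec hπ0 hπ hf]
  exact (h6_zpow_le_one_iff hπ0 hπ _).symm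

theorem h6_zval_pos_iff (hπ0 : π ≠ 0) (hπ : π ∈ O.nonunits) {f : F} (hf : h6_Sc O π f) :
    0 < h6_zval O π f ↔ f ∈ O.nonunits := by
  rw [O.mem_nonunits_iff, h6_zval_spec hπ0 hπ hf]
  exact (h6_zpow_lt_one_iff hπ0 hπ _).symm

theorem h6_zval_pi (hπ0 : π ≠ 0) (hπ : π ∈ O.nonunits) : h6_zval O π π = 1 :=
  h6_zval_eq hπ0 hπ (by rw [zpow_one])

theorem h6_zval_one (hπ0 : π ≠ 0) (hπ : π ∈ O.nonunits) : h6_zval O π 1 = 0 :=
  h6_zval_eq hπ0 hπ (by rw [map_one, zpow_zero])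

/-- a unit of `O` has valuation `1`. -/
theorem h6_val_eq_one {x : F} (hx0 : x ≠ 0) (hx : x ∈ O) (hx' : x⁻¹ ∈ O) : O.valuation x = 1 := by
  have h1 : O.valuation x ≤ 1 := (O.valuation_le_one_iff _).mpr hx
  have h2 : O.valuation x⁻¹ ≤ 1 := (O.valuation_le_one_iff _).mpr hx'
  have h3 : O.valuation x * O.valuation x⁻¹ = 1 := by
    rw [← map_mul, mul_inv_cancel₀ hx0, map_one]
  by_contra hne
  have h4 : O.valuation x < 1 := lt_of_le_of_ne h1 hne
  have h5 : O.valuation x * O.valuation x⁻¹ < 1 := by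
    calc O.valuation x * O.valuation x⁻¹ ≤ O.valuation x * 1 := mul_le_mul_right h2 _
      _ = O.valuation x := mul_one _
      _ < 1 := h4
  rw [h3] at h5
  exact lt_irrefl _ h5

/-- an element of valuation `1` is a unit of `O`. -/
theorem h6_unit_of_val_eq_one {x : F} (hx : O.valuation x = 1) : x ∈ O ∧ x⁻¹ ∈ O := by
  refine ⟨(O.valuation_le_one_iff _).mp hx.le, (O.valuation_le_one_iff _).mp ?_⟩
  rw [map_inv₀, hx, inv_one]

/-- `π ^ (-m) * f` is a unit of `O` iff `v f = v π ^ m`. -/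
theorem h6_val_eq_of_unit_scale (hπ0 : π ≠ 0) {f : F} (hf0 : f ≠ 0) {m : ℤ}
    (h1 : π ^ (-m) * f ∈ O) (h2 : (π ^ (-m) * f)⁻¹ ∈ O) : O.valuation f = O.valuation π ^ m := by
  have hx0 : π ^ (-m) * f ≠ 0 := mul_ne_zero (zpow_ne_zero _ hπ0) hf0
  have h3 := h6_val_eq_one hx0 h1 h2
  rw [map_mul, map_zpow₀, zpow_neg] at h3
  have h4 : O.valuation π ^ m ≠ 0 := zpow_ne_zero _ (h6_val_pos hπ0).ne'
  calc O.valuation f = O.valuation π ^ m * ((O.valuation π ^ m)⁻¹ * O.valuation f) := by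
        rw [← mul_assoc, mul_inv_cancel₀ h4, one_mul]
    _ = O.valuation π ^ m := by rw [h3, mul_one]

theorem h6_unit_scale_of_val_eq (hπ0 : π ≠ 0) {f : F} {m : ℤ}
    (h : O.valuation f = O.valuation π ^ m) :
    π ^ (-m) * f ∈ O ∧ (π ^ (-m) * f)⁻¹ ∈ O := by
  apply h6_unit_of_val_eq_one
  rw [map_mul, map_zpow₀, h, ← zpow_add₀ (h6_val_pos hπ0).ne', neg_add_cancel, zpow_zero]

theorem h6_zval_unit_spec (hπ0 : π ≠ 0) (hπ : π ∈ O.nonunits) {f : F} (hf : h6_Sc O π f) :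
    ∃ u : F, f = π ^ (h6_zval O π f) * u ∧ u ∈ O ∧ u⁻¹ ∈ O := by
  obtain ⟨h1, h2⟩ := h6_unit_scale_of_val_eq hπ0 (h6_zval_spec hπ0 hπ hf)
  refine ⟨π ^ (-(h6_zval O π f)) * f, ?_, h1, h2⟩
  rw [← mul_assoc, ← zpow_add₀ hπ0, add_neg_cancel, zpow_zero, one_mul]

/-- a nonzero non-unit of a valuation subring has its inverse outside. -/
theorem h6_inv_not_mem {a : F} (ha0 : a ≠ 0) (ha : a ∈ O.nonunits) : a⁻¹ ∉ O := by
  intro h
  have h1 : O.valuation a < 1 := O.mem_nonunits_iff.mp ha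
  have h2 : O.valuation a⁻¹ ≤ 1 := (O.valuation_le_one_iff _).mpr h
  have h3 : O.valuation a * O.valuation a⁻¹ = 1 := by
    rw [← map_mul, mul_inv_cancel₀ ha0, map_one]
  have h5 : O.valuation a * O.valuation a⁻¹ < 1 := by
    calc O.valuation a * O.valuation a⁻¹ ≤ O.valuation a * 1 := mul_le_mul_right h2 _
      _ = O.valuation a := mul_one _
      _ < 1 := h1
  rw [h3] at h5
  exact lt_irrefl _ h5

end ZVal

/-! ### Rational multiples of polynomials over `ℚ̄` -/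

/-- every nonzero polynomial over `ℚ̄` divides (the image of) a nonzero rational polynomial. -/
theorem h6_exists_rat_multiple (d : Qb[X]) (hd : d ≠ 0) :
    ∃ (R : Qb[X]) (Q0 : ℚ[X]), Q0 ≠ 0 ∧ d * R = Q0.map (algebraMap ℚ Qb) := by
  have key : ∀ s : Multiset Qb, ∃ (R : Qb[X]) (Q0 : ℚ[X]), Q0 ≠ 0 ∧
      (s.map (fun a => X - C a)).prod * R = Q0.map (algebraMap ℚ Qb) := by
    intro s
    induction s using Multiset.induction_on with
    | empty => exact ⟨1, 1, one_ne_zero, by simp⟩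
    | cons a s ih =>
      obtain ⟨R, Q0, hQ0, h⟩ := ih
      have ha : IsIntegral ℚ a := ((AlgebraicClosure.isAlgebraic ℚ).isAlgebraic a).isIntegral
      have hroot : IsRoot ((minpoly ℚ a).map (algebraMap ℚ Qb)) a := by
        rw [IsRoot, eval_map_algebraMap, minpoly.aeval]
      obtain ⟨S, hS⟩ := dvd_iff_isRoot.mpr hroot
      refine ⟨S * R, minpoly ℚ a * Q0, mul_ne_zero (minpoly.ne_zero ha) hQ0, ?_⟩
      rw [Multiset.map_cons, Multiset.prod_cons, Polynomial.map_mul, ← h, hS]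
      ring
  obtain ⟨R, Q0, hQ0, h⟩ := key d.roots
  have hsplit : d.Splits := IsAlgClosed.splits d
  have hlc : d.leadingCoeff ≠ 0 := leadingCoeff_ne_zero.mpr hd
  have e := hsplit.eq_prod_roots
  refine ⟨C d.leadingCoeff⁻¹ * R, Q0, hQ0, ?_⟩
  rw [← h]
  calc d * (C d.leadingCoeff⁻¹ * R)
      = (C d.leadingCoeff * (d.roots.map (fun a => X - C a)).prod) * (C d.leadingCoeff⁻¹ * R) :=
        congrArg (· * (C d.leadingCoeff⁻¹ * R)) e
    _ = (C d.leadingCoeff * C d.leadingCoeff⁻¹) * ((d.roots.map (fun a => X - C a)).prod * R) := by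
        ring
    _ = (d.roots.map (fun a => X - C a)).prod * R := by
        rw [← C_mul, mul_inv_cancel₀ hlc, C_1, one_mul]

/-! ### Bounded and inertia-fixed Laurent series -/

section Series

variable (q : ℕ) [Fact q.Prime] (A : ValuationSubring Qb) (hA : A.LiesOverPrime q)

include hA in
/-- rank one: every element of `ℚ̄` is `q`-adically bounded. -/
theorem h6_exists_pow_mul_mem (c : Qb) : ∃ s : ℕ, (q : Qb) ^ s * c ∈ A := by
  by_cases hc : c = 0
  · exact ⟨0, by rw [hc, mul_zero]; exact A.zero_mem⟩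
  · obtain ⟨n, t, ht, h⟩ := h64_rankOne_Qbar (Fact.out : q.Prime) A hA (q : Qb) hA c⁻¹
      (inv_ne_zero hc)
    refine ⟨n, ?_⟩
    rw [h, mul_assoc, mul_comm t c, ← mul_assoc, inv_mul_cancel₀ hc, one_mul]
    exact ht

/-- the `q`-adically bounded Laurent series (those `y` with `q ^ s y` `A`-integral). -/
def h6_Bdd : Subalgebra Qb (LaurentSeries Qb) where
  carrier := {y | ∃ (s : ℕ) (z : LaurentSeries A),
    algebraMap Qb (LaurentSeries Qb) ((q : Qb) ^ s) * y = coeffMap A.subtype z}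
  mul_mem' := by
    rintro y₁ y₂ ⟨s₁, z₁, h₁⟩ ⟨s₂, z₂, h₂⟩
    refine ⟨s₁ + s₂, z₁ * z₂, ?_⟩
    rw [map_mul (coeffMap A.subtype), ← h₁, ← h₂, pow_add, map_mul]
    ring
  add_mem' := by
    rintro y₁ y₂ ⟨s₁, z₁, h₁⟩ ⟨s₂, z₂, h₂⟩
    have hqA : (q : Qb) ∈ A := A.nonunits_le hA
    refine ⟨s₁ + s₂, HahnSeries.single 0 (⟨(q : Qb) ^ s₂, pow_mem hqA s₂⟩ : A) * z₁
      + HahnSeries.single 0 (⟨(q : Qb) ^ s₁, pow_mem hqA s₁⟩ : A) * z₂, ?_⟩
    rw [map_add, map_mul (coeffMap A.subtype), map_mul (coeffMap A.subtype), coeffMap_single,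
      coeffMap_single, ← h₁, ← h₂, pow_add, map_mul]
    show _ = HahnSeries.single 0 ((q : Qb) ^ s₂) * _ + HahnSeries.single 0 ((q : Qb) ^ s₁) * _
    rw [← algebraMap_laurentSeries_eq_single, ← algebraMap_laurentSeries_eq_single]
    ring
  algebraMap_mem' := by
    intro c
    obtain ⟨s, hs⟩ := h6_exists_pow_mul_mem q A hA c
    refine ⟨s, HahnSeries.single 0 (⟨(q : Qb) ^ s * c, hs⟩ : A), ?_⟩
    rw [← map_mul, coeffMap_single, algebraMap_laurentSeries_eq_single]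
    rfl

theorem h6_coe_mem_Bdd (z : LaurentSeries A) : coeffMap A.subtype z ∈ h6_Bdd q A hA :=
  ⟨0, z, by rw [pow_zero, map_one, one_mul]⟩

theorem h6_Bdd_coeff {y : LaurentSeries Qb} (hy : y ∈ h6_Bdd q A hA) :
    ∃ s : ℤ, ∀ n, (q : Qb) ^ s * y.coeff n ∈ A := by
  obtain ⟨s, z, h⟩ := hy
  refine ⟨s, fun n => ?_⟩
  rw [zpow_natCast, ← h6_coeff_const_mul, h]
  exact (z.coeff n).2

/-- the Laurent series fixed coefficientwise by a subgroup of `Gal(ℚ̄/ℚ)`. -/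
def h6_FixSer (H : Subgroup (Qb ≃ₐ[ℚ] Qb)) : Subring (LaurentSeries Qb) where
  carrier := {y | ∀ σ ∈ H, coeffMap ((σ : Qb ≃ₐ[ℚ] Qb) : Qb →+* Qb) y = y}
  mul_mem' := by
    intro a b ha hb σ hσ
    rw [map_mul, ha σ hσ, hb σ hσ]
  one_mem' := fun σ _ => map_one _
  add_mem' := by
    intro a b ha hb σ hσ
    rw [map_add, ha σ hσ, hb σ hσ]
  zero_mem' := fun σ _ => map_zero _
  neg_mem' := by
    intro a ha σ hσ
    rw [map_neg, ha σ hσ]

theorem h6_FixSer_coeff {H : Subgroup (Qb ≃ₐ[ℚ] Qb)} {y : LaurentSeries Qb}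
    (hy : y ∈ h6_FixSer H) (n : ℤ) : ∀ σ ∈ H, σ (y.coeff n) = y.coeff n := by
  intro σ hσ
  have h := congrArg (fun z => z.coeff n) (hy σ hσ)
  simpa using h

/-- a rational polynomial in `j` is fixed coefficientwise by the whole Galois group. -/
theorem h6_aeval_rat_fixed (H : Subgroup (Qb ≃ₐ[ℚ] Qb)) (Q0 : ℚ[X]) :
    aeval (jqModC Qb) (Q0.map (algebraMap ℚ Qb)) ∈ h6_FixSer H := by
  intro σ _
  rw [aeval_def, eval₂_map, hom_eval₂, coeffMap_jqModC]
  congr 1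
  exact Subsingleton.elim _ _

end Series

/-! ### The Gauss scale of an inertia-fixed modular function, every level -/

/-- **(Q-VAL), series form, every level `N`.**  For `f ≠ 0` fixed by the inertia group of `A`,
`q ^ (-m) f` is a ratio of two `A`-integral `q`-series with nonzero reductions, for some
`m : ℤ`. -/
theorem h6_exists_gauss_scale (N : ℕ) [NeZero N] (q : ℕ) [Fact q.Prime]
    (A : ValuationSubring Qb) (hA : A.LiesOverPrime q) (f : ↥(modularFunctionFieldBar N))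
    (hf0 : f ≠ 0)
    (hfix : ∀ σ ∈ A.inertiaSubgroupIn ℚ,
      arithmeticGalois (modularFunctionFieldFull N) σ • f = f) :
    ∃ (m : ℤ) (y₁ y₂ : LaurentSeries A),
      coeffMap (IsLocalRing.residue A) y₁ ≠ 0 ∧ coeffMap (IsLocalRing.residue A) y₂ ≠ 0 ∧
      (algebraMap Qb (LaurentSeries Qb) ((q : Qb) ^ (-m)) * (f : LaurentSeries Qb))
          * coeffMap A.subtype y₂ = coeffMap A.subtype y₁ := by
  have hq : q.Prime := Fact.out
  have hq0 : (q : Qb) ≠ 0 := by exact_mod_cast hq.ne_zero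
  obtain ⟨p, d, hd, hrep⟩ := h69_exists_repr N f
  obtain ⟨R, Q0, hQ0, hmul⟩ := h6_exists_rat_multiple d hd
  -- the two generators are integral and fixed
  have hJ : jqModC Qb ∈ h6_Bdd q A hA := by
    rw [← coeffMap_jqModC A.subtype]
    exact h6_coe_mem_Bdd q A hA _
  have hJN : qExpand Qb N (jqModC Qb) ∈ h6_Bdd q A hA := by
    rw [← coeffMap_jqModC A.subtype, ← coeffMap_qExpand]
    exact h6_coe_mem_Bdd q A hA _
  have haev : ∀ r : Qb[X], aeval (jqModC Qb) r ∈ h6_Bdd q A hA := by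
    intro r
    have h := aeval_subalgebra_coe r (h6_Bdd q A hA) ⟨jqModC Qb, hJ⟩
    rw [← h]
    exact Subtype.property _
  -- the denominator and the numerator
  have hQQb : aeval (jqModC Qb) (Q0.map (algebraMap ℚ Qb)) ∈ h6_Bdd q A hA := haev _
  have hQQf : aeval (jqModC Qb) (Q0.map (algebraMap ℚ Qb))
      ∈ h6_FixSer (A.inertiaSubgroupIn ℚ) := h6_aeval_rat_fixed _ Q0
  have hQQ0 : aeval (jqModC Qb) (Q0.map (algebraMap ℚ Qb)) ≠ 0 := by
    intro h0
    have h1 := transcendental_iff.mp (h59_jqModC_transcendental Qb) _ h0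
    exact hQ0 ((Polynomial.map_eq_zero (algebraMap ℚ Qb)).mp h1)
  have hfL0 : (f : LaurentSeries Qb) ≠ 0 := fun h => hf0 (Subtype.ext h)
  have hfF : (f : LaurentSeries Qb) ∈ h6_FixSer (A.inertiaSubgroupIn ℚ) := by
    intro σ hσ
    have h1 := congrArg (fun x : ↥(modularFunctionFieldBar N) => (x : LaurentSeries Qb))
      (hfix σ hσ)
    exact h1
  have hrel : (f : LaurentSeries Qb) * aeval (jqModC Qb) (Q0.map (algebraMap ℚ Qb))
      = ∑ i, aeval (jqModC Qb) (R * p i) * qExpand Qb N (jqModC Qb) ^ (i : ℕ) := by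
    calc (f : LaurentSeries Qb) * aeval (jqModC Qb) (Q0.map (algebraMap ℚ Qb))
        = aeval (jqModC Qb) R * (aeval (jqModC Qb) d * (f : LaurentSeries Qb)) := by
          rw [← hmul, map_mul]
          ring
      _ = aeval (jqModC Qb) R *
            ∑ i, aeval (jqModC Qb) (p i) * qExpand Qb N (jqModC Qb) ^ (i : ℕ) := by rw [hrep]
      _ = ∑ i, aeval (jqModC Qb) (R * p i) * qExpand Qb N (jqModC Qb) ^ (i : ℕ) := by
          rw [Finset.mul_sum]
          refine Finset.sum_congr rfl fun i _ => ?_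
          rw [map_mul]
          ring
  have hPb : (∑ i, aeval (jqModC Qb) (R * p i) * qExpand Qb N (jqModC Qb) ^ (i : ℕ))
      ∈ h6_Bdd q A hA :=
    Subalgebra.sum_mem _ fun i _ => Subalgebra.mul_mem _ (haev _) (Subalgebra.pow_mem _ hJN _)
  have hPf : (∑ i, aeval (jqModC Qb) (R * p i) * qExpand Qb N (jqModC Qb) ^ (i : ℕ))
      ∈ h6_FixSer (A.inertiaSubgroupIn ℚ) := by
    rw [← hrel]
    exact Subring.mul_mem _ hfF hQQf
  have hP0 : (∑ i, aeval (jqModC Qb) (R * p i) * qExpand Qb N (jqModC Qb) ^ (i : ℕ)) ≠ 0 := by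
    rw [← hrel]
    exact mul_ne_zero hfL0 hQQ0
  obtain ⟨sQ, hsQ⟩ := h6_Bdd_coeff q A hA hQQb
  obtain ⟨sP, hsP⟩ := h6_Bdd_coeff q A hA hPb
  exact h6_gauss_ratio A (q : Qb) hq0 hA (fun a => ∀ σ ∈ A.inertiaSubgroupIn ℚ, σ a = a)
    (fun a ha ha0 => by
      obtain ⟨n, u, hu, huA, huA', -⟩ := h69_dv q A hA a ha0 ha
      exact ⟨n, u, hu, huA, huA'⟩)
    (f : LaurentSeries Qb) _ _ hrel hQQ0 (h6_FixSer_coeff hQQf) sQ hsQ hP0 (h6_FixSer_coeff hPf)
    sP hsP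

/-! ### Level `(M, q)`, `q ∤ M` -/

section Level

variable (M q : ℕ) [NeZero M] [NeZero q] [Fact q.Prime] (hqM : ¬ q ∣ M)
  (A : ValuationSubring Qb) (hA : A.LiesOverPrime q)

/-- the two reduction data of level `Mq`: `c = 0` is `h60_R1`, `c = 1` is `h60_R2`. -/
def h6_Rc (c : Fin 2) : h39_RedDatum Qb ↥(modularFunctionFieldBar (M * q))
    (IsLocalRing.ResidueField A) ↥(modularFunctionFieldFullC (IsLocalRing.ResidueField A) M) :=
  if c = 0 then h60_R1 M q hqM A hA else h60_R2 M q hqM A hA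

theorem h6_Rc_zero : h6_Rc M q hqM A hA 0 = h60_R1 M q hqM A hA := if_pos rfl

theorem h6_Rc_one : h6_Rc M q hqM A hA 1 = h60_R2 M q hqM A hA := if_neg (by decide)

theorem h6_Rc_A (c : Fin 2) : (h6_Rc M q hqM A hA c).A = A := by
  unfold h6_Rc
  split_ifs
  · exact h60_R1_A M q hqM A hA
  · exact h60_R2_A M q hqM A hA

/-- `q` is a non-unit of both valuation rings. -/
theorem h6_q_mem_nonunits (c : Fin 2) :
    algebraMap Qb ↥(modularFunctionFieldBar (M * q)) (q : Qb)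
      ∈ (h6_Rc M q hqM A hA c).O.nonunits := by
  have hq0 : (q : Qb) ≠ 0 := by exact_mod_cast (Fact.out : q.Prime).ne_zero
  rw [ValuationSubring.mem_nonunits_iff_or]
  right
  rw [← map_inv₀, ← (h6_Rc M q hqM A hA c).mem_iff, h6_Rc_A]
  exact h6_inv_not_mem hq0 hA

omit [NeZero M] [NeZero q] in
theorem h6_q_ne_zero : algebraMap Qb ↥(modularFunctionFieldBar (M * q)) (q : Qb) ≠ 0 := by
  have hq0 : (q : Qb) ≠ 0 := by exact_mod_cast (Fact.out : q.Prime).ne_zero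
  exact (_root_.map_ne_zero _).mpr hq0

/-- **(Q-VAL)**, unit form at `R₁`. -/
theorem h6_R1_unit_scale (f : ↥(modularFunctionFieldBar (M * q))) (hf0 : f ≠ 0)
    (hfix : ∀ σ ∈ A.inertiaSubgroupIn ℚ,
      arithmeticGalois (modularFunctionFieldFull (M * q)) σ • f = f) :
    ∃ m : ℤ,
      algebraMap Qb ↥(modularFunctionFieldBar (M * q)) (q : Qb) ^ (-m) * f
          ∈ (h60_R1 M q hqM A hA).O ∧
        (algebraMap Qb ↥(modularFunctionFieldBar (M * q)) (q : Qb) ^ (-m) * f)⁻¹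
          ∈ (h60_R1 M q hqM A hA).O := by
  obtain ⟨m, y₁, y₂, hy₁, hy₂, h⟩ := h6_exists_gauss_scale (M * q) q A hA f hf0 hfix
  refine ⟨m, ?_, ?_⟩
  · rw [h60_R1_mem_iff]
    refine ⟨y₁, y₂, hy₂, ?_⟩
    rw [← h, ← map_zpow₀]
    rfl
  · rw [h60_R1_mem_iff]
    refine ⟨y₂, y₁, hy₁, ?_⟩
    have hg0 : (algebraMap Qb (LaurentSeries Qb) ((q : Qb) ^ (-m)) * (f : LaurentSeries Qb)) ≠ 0 := by
      have hq0 : (q : Qb) ≠ 0 := by exact_mod_cast (Fact.out : q.Prime).ne_zero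
      refine mul_ne_zero ((_root_.map_ne_zero _).mpr (zpow_ne_zero _ hq0)) ?_
      exact fun h0 => hf0 (Subtype.ext h0)
    have h1 : (((algebraMap Qb ↥(modularFunctionFieldBar (M * q)) (q : Qb) ^ (-m) * f)⁻¹ :
        ↥(modularFunctionFieldBar (M * q))) : LaurentSeries Qb)
        = (algebraMap Qb (LaurentSeries Qb) ((q : Qb) ^ (-m)) * (f : LaurentSeries Qb))⁻¹ := by
      rw [← map_zpow₀]
      rfl
    rw [h1, ← h, ← mul_assoc, inv_mul_cancel₀ hg0, one_mul]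

include hqM in
/-- the swap preserves the inertia-fixed functions. -/
theorem h6_w_fixed (H : Subgroup (Qb ≃ₐ[ℚ] Qb)) (f : ↥(modularFunctionFieldBar (M * q)))
    (hfix : ∀ σ ∈ H, arithmeticGalois (modularFunctionFieldFull (M * q)) σ • f = f) :
    ∀ σ ∈ H, arithmeticGalois (modularFunctionFieldFull (M * q)) σ • h60_w M q hqM f
      = h60_w M q hqM f := by
  intro σ hσ
  have h1 : arithmeticRingAut (modularFunctionFieldFull (M * q)) σ f = f := hfix σ hσ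
  have h2 := h60_w_galois M q hqM σ f
  rw [h1] at h2
  exact h2.symm

/-- **(Q-VAL)**, unit form at `R₂`. -/
theorem h6_R2_unit_scale (f : ↥(modularFunctionFieldBar (M * q))) (hf0 : f ≠ 0)
    (hfix : ∀ σ ∈ A.inertiaSubgroupIn ℚ,
      arithmeticGalois (modularFunctionFieldFull (M * q)) σ • f = f) :
    ∃ m : ℤ,
      algebraMap Qb ↥(modularFunctionFieldBar (M * q)) (q : Qb) ^ (-m) * f
          ∈ (h60_R2 M q hqM A hA).O ∧
        (algebraMap Qb ↥(modularFunctionFieldBar (M * q)) (q : Qb) ^ (-m) * f)⁻¹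
          ∈ (h60_R2 M q hqM A hA).O := by
  have hw0 : h60_w M q hqM f ≠ 0 := (_root_.map_ne_zero (h60_w M q hqM)).mpr hf0
  obtain ⟨m, h1, h2⟩ := h6_R1_unit_scale M q hqM A hA (h60_w M q hqM f) hw0
    (h6_w_fixed M q hqM _ f hfix)
  have hw : h60_w M q hqM (algebraMap Qb ↥(modularFunctionFieldBar (M * q)) (q : Qb) ^ (-m) * f)
      = algebraMap Qb ↥(modularFunctionFieldBar (M * q)) (q : Qb) ^ (-m) * h60_w M q hqM f := by
    rw [map_mul, map_zpow₀, h60_w_algebraMap]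
  refine ⟨m, ?_, ?_⟩
  · rw [h60_R2_mem_iff, hw]
    exact h1
  · rw [h60_R2_mem_iff, map_inv₀, hw]
    exact h2

/-- **(Q-VAL)**, unit form for both reduction data. -/
theorem h6_Rc_unit_scale (c : Fin 2) (f : ↥(modularFunctionFieldBar (M * q))) (hf0 : f ≠ 0)
    (hfix : ∀ σ ∈ A.inertiaSubgroupIn ℚ,
      arithmeticGalois (modularFunctionFieldFull (M * q)) σ • f = f) :
    ∃ m : ℤ,
      algebraMap Qb ↥(modularFunctionFieldBar (M * q)) (q : Qb) ^ (-m) * f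
          ∈ (h6_Rc M q hqM A hA c).O ∧
        (algebraMap Qb ↥(modularFunctionFieldBar (M * q)) (q : Qb) ^ (-m) * f)⁻¹
          ∈ (h6_Rc M q hqM A hA c).O := by
  unfold h6_Rc
  split_ifs
  · exact h6_R1_unit_scale M q hqM A hA f hf0 hfix
  · exact h6_R2_unit_scale M q hqM A hA f hf0 hfix

/-- **(Q-VAL)**: the valuation of a nonzero inertia-fixed function is an integral power of the
valuation of `q`, for both vertical valuations of level `Mq`. -/
theorem h6_Rc_sc (c : Fin 2) (f : ↥(modularFunctionFieldBar (M * q))) (hf0 : f ≠ 0)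
    (hfix : ∀ σ ∈ A.inertiaSubgroupIn ℚ,
      arithmeticGalois (modularFunctionFieldFull (M * q)) σ • f = f) :
    h6_Sc (h6_Rc M q hqM A hA c).O
      (algebraMap Qb ↥(modularFunctionFieldBar (M * q)) (q : Qb)) f := by
  obtain ⟨m, h1, h2⟩ := h6_Rc_unit_scale M q hqM A hA c f hf0 hfix
  exact ⟨m, h6_val_eq_of_unit_scale (h6_q_ne_zero M q) hf0 h1 h2⟩

/-- **The `ℤ`-valued vertical valuations of level `Mq` on the inertia-fixed functions**
(`c = 0`: the `q`-expansion valuation `h60_R1`; `c = 1`: its swap `h60_R2`), normalised by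
`v(q) = 1`; the value at `0` is `0`. -/
def h6_vq (c : Fin 2) (f : ↥(h69_F0 (M * q) (A.inertiaSubgroupIn ℚ))) : ℤ :=
  h6_zval (h6_Rc M q hqM A hA c).O (algebraMap Qb ↥(modularFunctionFieldBar (M * q)) (q : Qb))
    (f : ↥(modularFunctionFieldBar (M * q)))

variable {M q hqM A hA}

theorem h6_F0_sc (c : Fin 2) {f : ↥(h69_F0 (M * q) (A.inertiaSubgroupIn ℚ))} (hf : f ≠ 0) :
    h6_Sc (h6_Rc M q hqM A hA c).O
      (algebraMap Qb ↥(modularFunctionFieldBar (M * q)) (q : Qb))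
      (f : ↥(modularFunctionFieldBar (M * q))) :=
  h6_Rc_sc M q hqM A hA c _ (fun h => hf (Subtype.ext h)) f.2

theorem h6_vq_mul (c : Fin 2) {f g : ↥(h69_F0 (M * q) (A.inertiaSubgroupIn ℚ))} (hf : f ≠ 0)
    (hg : g ≠ 0) : h6_vq M q hqM A hA c (f * g) = h6_vq M q hqM A hA c f + h6_vq M q hqM A hA c g :=
  h6_zval_mul (h6_q_ne_zero M q) (h6_q_mem_nonunits M q hqM A hA c) (h6_F0_sc c hf) (h6_F0_sc c hg)

theorem h6_vq_add (c : Fin 2) {f g : ↥(h69_F0 (M * q) (A.inertiaSubgroupIn ℚ))} (hf : f ≠ 0)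
    (hg : g ≠ 0) (hfg : f + g ≠ 0) :
    min (h6_vq M q hqM A hA c f) (h6_vq M q hqM A hA c g) ≤ h6_vq M q hqM A hA c (f + g) :=
  h6_zval_add (h6_q_ne_zero M q) (h6_q_mem_nonunits M q hqM A hA c) (h6_F0_sc c hf) (h6_F0_sc c hg)
    (h6_F0_sc c hfg)

/-- `v(q) = 1`. -/
theorem h6_vq_q (c : Fin 2) :
    h6_vq M q hqM A hA c ((q : ℕ) : ↥(h69_F0 (M * q) (A.inertiaSubgroupIn ℚ))) = 1 := by
  have h1 : (((q : ℕ) : ↥(h69_F0 (M * q) (A.inertiaSubgroupIn ℚ))) :
      ↥(modularFunctionFieldBar (M * q)))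
      = algebraMap Qb ↥(modularFunctionFieldBar (M * q)) (q : Qb) := by
    rw [map_natCast]
    rfl
  unfold h6_vq
  rw [h1]
  exact h6_zval_pi (h6_q_ne_zero M q) (h6_q_mem_nonunits M q hqM A hA c)

/-- `0 ≤ v f` iff `f` lies in the valuation ring. -/
theorem h6_vq_nonneg_iff (c : Fin 2) (f : ↥(h69_F0 (M * q) (A.inertiaSubgroupIn ℚ))) :
    0 ≤ h6_vq M q hqM A hA c f
      ↔ (f : ↥(modularFunctionFieldBar (M * q))) ∈ (h6_Rc M q hqM A hA c).O := by
  by_cases hf : f = 0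
  · subst hf
    have h0 : h6_vq M q hqM A hA c 0 = 0 := by
      unfold h6_vq h6_zval
      rw [dif_neg]
      intro h
      exact h6_Sc_ne_zero (h6_q_ne_zero M q) h rfl
    rw [h0]
    exact ⟨fun _ => (h6_Rc M q hqM A hA c).O.zero_mem, fun _ => le_rfl⟩
  · exact h6_zval_nonneg_iff (h6_q_ne_zero M q) (h6_q_mem_nonunits M q hqM A hA c) (h6_F0_sc c hf)

/-- `0 < v f` iff `f` lies in the valuation ring and reduces to `0`. -/
theorem h6_vq_pos_iff (c : Fin 2) {f : ↥(h69_F0 (M * q) (A.inertiaSubgroupIn ℚ))} (hf : f ≠ 0) :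
    0 < h6_vq M q hqM A hA c f
      ↔ ((f : ↥(modularFunctionFieldBar (M * q))) ∈ (h6_Rc M q hqM A hA c).O ∧
          (h6_Rc M q hqM A hA c).redF (f : ↥(modularFunctionFieldBar (M * q))) = 0) := by
  have h1 := h6_zval_pos_iff (h6_q_ne_zero M q) (h6_q_mem_nonunits M q hqM A hA c) (h6_F0_sc c hf)
  unfold h6_vq
  rw [h1]
  constructor
  · intro h
    have hO := (h6_Rc M q hqM A hA c).O.nonunits_le h
    exact ⟨hO, (h39_redF_eq_zero_iff (h6_Rc M q hqM A hA c) hO).mpr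
      ((ValuationSubring.mem_nonunits_iff_or _).mp h)⟩
  · rintro ⟨hO, h0⟩
    exact (ValuationSubring.mem_nonunits_iff_or _).mpr
      ((h39_redF_eq_zero_iff (h6_Rc M q hqM A hA c) hO).mp h0)

/-- `f = q ^ (v f) * u` with `u` an inertia-fixed unit of the valuation ring. -/
theorem h6_vq_spec (c : Fin 2) {f : ↥(h69_F0 (M * q) (A.inertiaSubgroupIn ℚ))} (hf : f ≠ 0) :
    ∃ u : ↥(h69_F0 (M * q) (A.inertiaSubgroupIn ℚ)),
      f = ((q : ℕ) : ↥(h69_F0 (M * q) (A.inertiaSubgroupIn ℚ))) ^ (h6_vq M q hqM A hA c f) * u ∧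
      (u : ↥(modularFunctionFieldBar (M * q))) ∈ (h6_Rc M q hqM A hA c).O ∧
      (u : ↥(modularFunctionFieldBar (M * q)))⁻¹ ∈ (h6_Rc M q hqM A hA c).O ∧
      (h6_Rc M q hqM A hA c).redF (u : ↥(modularFunctionFieldBar (M * q))) ≠ 0 := by
  have hq0' : ((q : ℕ) : ↥(h69_F0 (M * q) (A.inertiaSubgroupIn ℚ))) ≠ 0 := by
    exact_mod_cast (Fact.out : q.Prime).ne_zero
  have h1 : (((q : ℕ) : ↥(h69_F0 (M * q) (A.inertiaSubgroupIn ℚ))) :
      ↥(modularFunctionFieldBar (M * q)))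
      = algebraMap Qb ↥(modularFunctionFieldBar (M * q)) (q : Qb) := by
    rw [map_natCast]
    rfl
  obtain ⟨h2, h3⟩ := h6_unit_scale_of_val_eq (h6_q_ne_zero M q)
    (h6_zval_spec (h6_q_ne_zero M q) (h6_q_mem_nonunits M q hqM A hA c) (h6_F0_sc c hf))
  set u : ↥(h69_F0 (M * q) (A.inertiaSubgroupIn ℚ)) :=
    ((q : ℕ) : ↥(h69_F0 (M * q) (A.inertiaSubgroupIn ℚ))) ^ (-(h6_vq M q hqM A hA c f)) * f with hu
  have hucoe : (u : ↥(modularFunctionFieldBar (M * q)))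
      = algebraMap Qb ↥(modularFunctionFieldBar (M * q)) (q : Qb) ^ (-(h6_vq M q hqM A hA c f))
        * (f : ↥(modularFunctionFieldBar (M * q))) := by
    rw [← h1]
    rfl
  refine ⟨u, ?_, ?_, ?_, ?_⟩
  · rw [hu, ← mul_assoc, ← zpow_add₀ hq0', add_neg_cancel, zpow_zero, one_mul]
  · rw [hucoe]
    exact h2
  · rw [hucoe]
    exact h3
  · have hO : (u : ↥(modularFunctionFieldBar (M * q))) ∈ (h6_Rc M q hqM A hA c).O := by
      rw [hucoe]
      exact h2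
    intro h0
    rcases (h39_redF_eq_zero_iff (h6_Rc M q hqM A hA c) hO).mp h0 with h4 | h4
    · have hu0 : u ≠ 0 := mul_ne_zero (zpow_ne_zero _ hq0') hf
      exact hu0 (Subtype.ext h4)
    · apply h4
      rw [hucoe]
      exact h3

/-- an inertia-fixed function with zero reduction is divisible by `q` in the valuation ring. -/
theorem h6_vq_pos_dvd (c : Fin 2) {f : ↥(h69_F0 (M * q) (A.inertiaSubgroupIn ℚ))} (hf : f ≠ 0)
    (hpos : 0 < h6_vq M q hqM A hA c f) :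
    ∃ g : ↥(h69_F0 (M * q) (A.inertiaSubgroupIn ℚ)),
      f = ((q : ℕ) : ↥(h69_F0 (M * q) (A.inertiaSubgroupIn ℚ))) * g ∧
      (g : ↥(modularFunctionFieldBar (M * q))) ∈ (h6_Rc M q hqM A hA c).O := by
  have hq0' : ((q : ℕ) : ↥(h69_F0 (M * q) (A.inertiaSubgroupIn ℚ))) ≠ 0 := by
    exact_mod_cast (Fact.out : q.Prime).ne_zero
  refine ⟨((q : ℕ) : ↥(h69_F0 (M * q) (A.inertiaSubgroupIn ℚ)))⁻¹ * f, ?_, ?_⟩
  · rw [← mul_assoc, mul_inv_cancel₀ hq0', one_mul]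
  · have hg0 : ((q : ℕ) : ↥(h69_F0 (M * q) (A.inertiaSubgroupIn ℚ)))⁻¹ * f ≠ 0 :=
      mul_ne_zero (inv_ne_zero hq0') hf
    rw [← h6_vq_nonneg_iff c, h6_vq_mul c (inv_ne_zero hq0') hf]
    have h1 : h6_vq M q hqM A hA c (((q : ℕ) : ↥(h69_F0 (M * q) (A.inertiaSubgroupIn ℚ)))⁻¹) = -1 := by
      have h2 := h6_vq_mul (hqM := hqM) (hA := hA) c hq0' (inv_ne_zero hq0')
      rw [mul_inv_cancel₀ hq0', h6_vq_q] at h2
      have h3 : h6_vq M q hqM A hA c (1 : ↥(h69_F0 (M * q) (A.inertiaSubgroupIn ℚ))) = 0 :=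
        h6_zval_one (h6_q_ne_zero M q) (h6_q_mem_nonunits M q hqM A hA c)
      omega
    omega

/-- an inertia-fixed constant which is a unit of `A` has valuation `0`. -/
theorem h6_vq_const_unit (c : Fin 2) (u : Qb) (hu0 : u ≠ 0) (hu : u ∈ A) (hu' : u⁻¹ ∈ A)
    (f : ↥(h69_F0 (M * q) (A.inertiaSubgroupIn ℚ)))
    (hf : (f : ↥(modularFunctionFieldBar (M * q)))
      = algebraMap Qb ↥(modularFunctionFieldBar (M * q)) u) :
    h6_vq M q hqM A hA c f = 0 := by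
  unfold h6_vq
  apply h6_zval_eq (h6_q_ne_zero M q) (h6_q_mem_nonunits M q hqM A hA c)
  rw [zpow_zero, hf]
  apply h6_val_eq_one ((_root_.map_ne_zero _).mpr hu0)
  · rw [← (h6_Rc M q hqM A hA c).mem_iff, h6_Rc_A]
    exact hu
  · rw [← map_inv₀, ← (h6_Rc M q hqM A hA c).mem_iff, h6_Rc_A]
    exact hu'

end Level

end Fermat.Agent.S36

end
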