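import Mathlib
import Fermat.Agent.S36.h70_TorInst
import Fermat.Agent.S36.h70_K6Gauss
import Fermat.Agent.S36.h98_MidW
import Fermat.Agent.S36.h98_GaussFun
import Fermat.Agent.S36.h49_GVEx
import Fermat.Agent.S36.h36_MidEmb
import Fermat.Agent.S36.h88_ValComplete

/-!
# S36 / I-TOR: TOR-M in Gauss form  (helper70)

`q ∤ M` prime, `A` a valuation subring of `ℚ̄` over `q`, `I` its inertia group,
`F0(L) := h69_F0 L I`.  The five vertical valuations are given by their *Gauss specs*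
(`h98_GV`, `S36/h98_NRVal`):

* `w2 0 f` = `q`-adic Gauss order of the standard expansion of `f ∈ F0(M q²)`      (`C20`),
* `w2 1 f` = `(ζ - 1)`-adic Gauss order of the middle expansion `mid ζ f`          (`C11`),
* `w2 2 f` = `q`-adic Gauss order of the standard expansion of `W f`               (`C02`),
* `w1 0 g` = `q`-adic Gauss order of the standard expansion of `g ∈ F0(M q)`       (`Z_F`),
* `w1 1 g` = `q`-adic Gauss order of the standard expansion of `w g`               (`Z_V`).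

Gauss orders are unique (`h98_GV_unique`), so any definition of the five valuations with these
specs can be plugged in.

* `h70_spec_*`: a function with a Gauss spec is a `ℤ`-valued valuation (generic).
* `h70_torM_gauss`: **TOR-M** (`h70_torM`, `S36/h70_TorInst`) with the binders (V0), values at
  `q`, (N1)-(N4), (K6+) discharged from `h98_MidW`, `h98_NRVal`, `h49_MidGal`, `h70_K6Gauss`;
  the remaining hypotheses are (V1), (V2), (V3).
* `h70_w2`, `h70_w1`: the concrete valuations (helper36's `h36_i0/i2/W/mid`, helper49's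
  existence of scales `h49_GVEx`, helper98's `h98_gv`), their specs, and
  `h70_torM_concrete`.
-/

set_option autoImplicit false
set_option linter.unusedSectionVars false
set_option linter.unusedVariables false
set_option synthInstance.maxHeartbeats 400000

noncomputable section

open AlgebraicCurve ModularCurve

namespace Fermat.Agent.S36

open Fermat.Agent.GAL Fermat.Agent.S35 Fermat.Agent.S37 Fermat.Agent.S34 Fermat.Agent.S24
  Fermat.Agent.S18 Fermat.Agent.S40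

local notation "Qb" => AlgebraicClosure ℚ

/-! ## Functions with a Gauss spec -/

section Spec

variable {K : Type*} [Field K] {A : ValuationSubring K} {F : Type*} [Field F]
  (E : F →+* LaurentSeries K) (F0 : Subfield F) (π : K)
  (hπ0 : π ≠ 0) (hπA : π ∈ A) (hπn : π⁻¹ ∉ A)
  (w : F0 → ℤ) (hw : ∀ f : F0, f ≠ 0 → h98_GV A π (E (f : F)) (w f))

include hπ0 hπA hπn hw in
theorem h70_spec_eq (f : F0) (hf : f ≠ 0) (n : ℤ) (h : h98_GV A π (E (f : F)) n) : w f = n :=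
  h98_GV_unique hπ0 hπA hπn (hw f hf) h

include hπ0 hπA hπn hw in
theorem h70_spec_mul (f g : F0) (hf : f ≠ 0) (hg : g ≠ 0) : w (f * g) = w f + w g := by
  refine h70_spec_eq E F0 π hπ0 hπA hπn w hw (f * g) (mul_ne_zero hf hg) _ ?_
  have := h98_GV_mul hπ0 (hw f hf) (hw g hg)
  rw [← map_mul] at this
  exact this

include hπ0 hπA hπn hw in
theorem h70_spec_add (f g : F0) (hf : f ≠ 0) (hg : g ≠ 0) (hfg : f + g ≠ 0) :
    min (w f) (w g) ≤ w (f + g) := by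
  have h3 := hw (f + g) hfg
  have e : E ((f + g : F0) : F) = E (f : F) + E (g : F) := by
    rw [← map_add]
    rfl
  rw [e] at h3
  exact h98_GV_add hπ0 hπA hπn (hw f hf) (hw g hg) h3

include hπ0 hπA hπn hw in
theorem h70_spec_nonneg_iff (f : F0) (hf : f ≠ 0) : 0 ≤ w f ↔ E (f : F) ∈ h60_Os A :=
  h98_GV_nonneg_iff hπ0 hπA hπn (hw f hf)

include hπ0 hπA hπn hw in
theorem h70_spec_pos_iff (f : F0) (hf : f ≠ 0) :
    0 < w f ↔ ∃ h : E (f : F) ∈ h60_Os A, h60_rs A ⟨_, h⟩ = 0 :=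
  h98_GV_pos_iff hπ0 hπA hπn (hw f hf)

include hπ0 hπA hπn hw in
/-- zero reduction ⟹ congruent to `0`. -/
theorem h70_spec_pos_of (f : F0) (h : ∃ h : E (f : F) ∈ h60_Os A, h60_rs A ⟨_, h⟩ = 0) :
    f = 0 ∨ 0 < w f := by
  by_cases hf : f = 0
  · exact Or.inl hf
  · exact Or.inr ((h70_spec_pos_iff E F0 π hπ0 hπA hπn w hw f hf).mpr h)

include hπ0 hπA hπn hw in
/-- congruent to `0` ⟹ zero reduction. -/
theorem h70_spec_red_of (f : F0) (h : f = 0 ∨ 0 < w f) :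
    ∃ h : E (f : F) ∈ h60_Os A, h60_rs A ⟨_, h⟩ = 0 := by
  by_cases hf : f = 0
  · subst hf
    have e : E ((0 : F0) : F) = 0 := by
      rw [← map_zero E]
      rfl
    have hmem : E ((0 : F0) : F) ∈ h60_Os A := by
      rw [e]
      exact zero_mem _
    refine ⟨hmem, ?_⟩
    have e' : (⟨E ((0 : F0) : F), hmem⟩ : h60_Os A) = 0 := Subtype.ext e
    rw [e', map_zero]
  · exact (h70_spec_pos_iff E F0 π hπ0 hπA hπn w hw f hf).mp (h.resolve_left hf)

end Spec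


/-! ## TOR-M in Gauss form -/

section Main

variable (M q : ℕ) [NeZero M] [NeZero q] [Fact q.Prime] (hqM : ¬ q ∣ M)
  (A : ValuationSubring Qb) (hA : A.LiesOverPrime q)
  (i0 i2 : modularFunctionFieldBar (M * q) →+* modularFunctionFieldBar (M * q * q))
  (hi0 : ∀ g, i0 g = heckeAlphaBar Qb (M * q) q g)
  (hi2 : ∀ g, i2 g = heckeBetaBar Qb (M * q) q (h60_w M q hqM g))
  (hgen : Subfield.closure (Set.range i0 ∪ Set.range i2) = ⊤)
  (mid : ∀ ζ : Qb, IsPrimitiveRoot ζ q →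
    (modularFunctionFieldBar (M * q * q) →+* LaurentSeries Qb))
  (hmid0 : ∀ (ζ : Qb) (hζ : IsPrimitiveRoot ζ q) (g : modularFunctionFieldBar (M * q)),
    mid ζ hζ (i0 g) = (g : LaurentSeries Qb))
  (hmid2 : ∀ (ζ : Qb) (hζ : IsPrimitiveRoot ζ q) (g : modularFunctionFieldBar (M * q)),
    mid ζ hζ (i2 g) = h59_twistHom ζ (hζ.ne_zero (NeZero.ne q)) (g : LaurentSeries Qb))
  (W : modularFunctionFieldBar (M * q * q) →+* modularFunctionFieldBar (M * q * q))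
  (hW0 : ∀ g, W (i0 g) = i2 g) (hW2 : ∀ g, W (i2 g) = i0 g)
  (ζ : Qb) (hζ : IsPrimitiveRoot ζ q)
  (w2 : Fin 3 → h69_F0 (M * q * q) (A.inertiaSubgroupIn ℚ) → ℤ)
  (w1 : Fin 2 → h69_F0 (M * q) (A.inertiaSubgroupIn ℚ) → ℤ)

/-- The standard expansion as a ring homomorphism. -/
def h70_coeHom (L : ℕ) : modularFunctionFieldBar L →+* LaurentSeries Qb :=
  (modularFunctionFieldBar L).val.toRingHom

theorem h70_coeHom_apply (L : ℕ) (f : modularFunctionFieldBar L) :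
    h70_coeHom L f = (f : LaurentSeries Qb) := rfl

theorem h70_coeHom_algebraMap (L : ℕ) (c : Qb) :
    h70_coeHom L (algebraMap Qb (modularFunctionFieldBar L) c)
      = algebraMap Qb (LaurentSeries Qb) c := rfl

include hA in
/-- The three functions with the Gauss specs of level `M q²` are valuations. -/
theorem h70_tg_isVal2
    (hS0 : ∀ f : h69_F0 (M * q * q) (A.inertiaSubgroupIn ℚ), f ≠ 0 →
      h98_GV A (q : Qb) ((f : modularFunctionFieldBar (M * q * q)) : LaurentSeries Qb) (w2 0 f))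
    (hS1 : ∀ f : h69_F0 (M * q * q) (A.inertiaSubgroupIn ℚ), f ≠ 0 →
      h98_GV A (ζ - 1) (mid ζ hζ (f : modularFunctionFieldBar (M * q * q))) (w2 1 f))
    (hS2 : ∀ f : h69_F0 (M * q * q) (A.inertiaSubgroupIn ℚ), f ≠ 0 →
      h98_GV A (q : Qb) ((W (f : modularFunctionFieldBar (M * q * q)) :
        modularFunctionFieldBar (M * q * q)) : LaurentSeries Qb) (w2 2 f)) :
    ∀ c : Fin 3, h99_IsVal (w2 c) := by
  have hq : q.Prime := Fact.out
  have hq0 : (q : Qb) ≠ 0 := by exact_mod_cast hq.ne_zero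
  have hqA : (q : Qb) ∈ A := h70_mem_of_nonunit A hA
  have hqn : (q : Qb)⁻¹ ∉ A := fun h => h70_not_nonunit_of_inv_mem A hq0 h hA
  obtain ⟨hϖ0, hϖA, hϖn, -⟩ := h98_zeta_unif q A hA ζ hζ
  intro c
  match c with
  | 0 =>
    exact ⟨h70_spec_mul (h70_coeHom (M * q * q)) _ (q : Qb) hq0 hqA hqn (w2 0) hS0,
      h70_spec_add (h70_coeHom (M * q * q)) _ (q : Qb) hq0 hqA hqn (w2 0) hS0⟩
  | 1 =>
    exact ⟨h70_spec_mul (mid ζ hζ) _ (ζ - 1) hϖ0 hϖA hϖn (w2 1) hS1,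
      h70_spec_add (mid ζ hζ) _ (ζ - 1) hϖ0 hϖA hϖn (w2 1) hS1⟩
  | 2 =>
    exact ⟨h70_spec_mul ((h70_coeHom (M * q * q)).comp W) _ (q : Qb) hq0 hqA hqn (w2 2) hS2,
      h70_spec_add ((h70_coeHom (M * q * q)).comp W) _ (q : Qb) hq0 hqA hqn (w2 2) hS2⟩

include hA in
/-- The two functions with the Gauss specs of level `M q` are valuations. -/
theorem h70_tg_isVal1
    (hT0 : ∀ g : h69_F0 (M * q) (A.inertiaSubgroupIn ℚ), g ≠ 0 →
      h98_GV A (q : Qb) ((g : modularFunctionFieldBar (M * q)) : LaurentSeries Qb) (w1 0 g))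
    (hT1 : ∀ g : h69_F0 (M * q) (A.inertiaSubgroupIn ℚ), g ≠ 0 →
      h98_GV A (q : Qb) ((h60_w M q hqM (g : modularFunctionFieldBar (M * q)) :
        modularFunctionFieldBar (M * q)) : LaurentSeries Qb) (w1 1 g)) :
    ∀ c : Fin 2, h99_IsVal (w1 c) := by
  have hq : q.Prime := Fact.out
  have hq0 : (q : Qb) ≠ 0 := by exact_mod_cast hq.ne_zero
  have hqA : (q : Qb) ∈ A := h70_mem_of_nonunit A hA
  have hqn : (q : Qb)⁻¹ ∉ A := fun h => h70_not_nonunit_of_inv_mem A hq0 h hA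
  intro c
  match c with
  | 0 =>
    exact ⟨h70_spec_mul (h70_coeHom (M * q)) _ (q : Qb) hq0 hqA hqn (w1 0) hT0,
      h70_spec_add (h70_coeHom (M * q)) _ (q : Qb) hq0 hqA hqn (w1 0) hT0⟩
  | 1 =>
    exact ⟨h70_spec_mul ((h70_coeHom (M * q)).comp (h60_w M q hqM)) _ (q : Qb) hq0 hqA hqn
        (w1 1) hT1,
      h70_spec_add ((h70_coeHom (M * q)).comp (h60_w M q hqM)) _ (q : Qb) hq0 hqA hqn
        (w1 1) hT1⟩

include hA in
/-- The values at `q`: `(1, q - 1, 1)`. -/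
theorem h70_tg_val_q
    (hS0 : ∀ f : h69_F0 (M * q * q) (A.inertiaSubgroupIn ℚ), f ≠ 0 →
      h98_GV A (q : Qb) ((f : modularFunctionFieldBar (M * q * q)) : LaurentSeries Qb) (w2 0 f))
    (hS1 : ∀ f : h69_F0 (M * q * q) (A.inertiaSubgroupIn ℚ), f ≠ 0 →
      h98_GV A (ζ - 1) (mid ζ hζ (f : modularFunctionFieldBar (M * q * q))) (w2 1 f))
    (hS2 : ∀ f : h69_F0 (M * q * q) (A.inertiaSubgroupIn ℚ), f ≠ 0 →
      h98_GV A (q : Qb) ((W (f : modularFunctionFieldBar (M * q * q)) :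
        modularFunctionFieldBar (M * q * q)) : LaurentSeries Qb) (w2 2 f)) :
    (q : h69_F0 (M * q * q) (A.inertiaSubgroupIn ℚ)) ≠ 0 ∧
    w2 0 (q : h69_F0 (M * q * q) (A.inertiaSubgroupIn ℚ)) = 1 ∧
    w2 1 (q : h69_F0 (M * q * q) (A.inertiaSubgroupIn ℚ)) = (q : ℤ) - 1 ∧
    w2 2 (q : h69_F0 (M * q * q) (A.inertiaSubgroupIn ℚ)) = 1 := by
  have hq : q.Prime := Fact.out
  have hq0 : (q : Qb) ≠ 0 := by exact_mod_cast hq.ne_zero
  have hqA : (q : Qb) ∈ A := h70_mem_of_nonunit A hA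
  have hqn : (q : Qb)⁻¹ ∉ A := fun h => h70_not_nonunit_of_inv_mem A hq0 h hA
  obtain ⟨hϖ0, hϖA, hϖn, -⟩ := h98_zeta_unif q A hA ζ hζ
  have hqF0 : (q : h69_F0 (M * q * q) (A.inertiaSubgroupIn ℚ)) ≠ 0 :=
    h70_natCast_ne_zero (H := A.inertiaSubgroupIn ℚ) (M * q * q) hq.ne_zero
  have hcast : ∀ Eh : modularFunctionFieldBar (M * q * q) →+* LaurentSeries Qb,
      Eh (((q : h69_F0 (M * q * q) (A.inertiaSubgroupIn ℚ)) :
        modularFunctionFieldBar (M * q * q))) = algebraMap Qb (LaurentSeries Qb) (q : Qb) := by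
    intro Eh
    have e : (((q : h69_F0 (M * q * q) (A.inertiaSubgroupIn ℚ)) :
        modularFunctionFieldBar (M * q * q))) = (q : modularFunctionFieldBar (M * q * q)) := rfl
    rw [e, map_natCast, map_natCast]
  have hcastS : ((((q : h69_F0 (M * q * q) (A.inertiaSubgroupIn ℚ)) :
      modularFunctionFieldBar (M * q * q))) : LaurentSeries Qb)
      = algebraMap Qb (LaurentSeries Qb) (q : Qb) := hcast (h70_coeHom (M * q * q))
  have hcastW : ((W ((q : h69_F0 (M * q * q) (A.inertiaSubgroupIn ℚ)) :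
      modularFunctionFieldBar (M * q * q)) : modularFunctionFieldBar (M * q * q)) :
        LaurentSeries Qb) = algebraMap Qb (LaurentSeries Qb) (q : Qb) :=
    hcast ((h70_coeHom (M * q * q)).comp W)
  refine ⟨hqF0, ?_, ?_, ?_⟩
  · have h' := hS0 (q : h69_F0 (M * q * q) (A.inertiaSubgroupIn ℚ)) hqF0
    rw [hcastS] at h'
    exact h98_GV_unique hq0 hqA hqn h' (h98_GV_pi hq0)
  · have h' := hS1 (q : h69_F0 (M * q * q) (A.inertiaSubgroupIn ℚ)) hqF0
    rw [hcast (mid ζ hζ)] at h'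
    rw [h98_GV_unique hϖ0 hϖA hϖn h' (h98_GV_q_zeta q A hA ζ hζ), Nat.cast_sub hq.one_le,
      Nat.cast_one]
  · have h' := hS2 (q : h69_F0 (M * q * q) (A.inertiaSubgroupIn ℚ)) hqF0
    rw [hcastW] at h'
    exact h98_GV_unique hq0 hqA hqn h' (h98_GV_pi hq0)

include hA in
/-- **(V3) from two separators**: an element `z` with `w2 z = (0, 1, 0)` and an element `g` with
`w2 0 g ≠ w2 2 g` give uniformisers at the three valuations (weak approximation,
`h88_exists_unif`). -/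
theorem h70_tg_V3
    (hS0 : ∀ f : h69_F0 (M * q * q) (A.inertiaSubgroupIn ℚ), f ≠ 0 →
      h98_GV A (q : Qb) ((f : modularFunctionFieldBar (M * q * q)) : LaurentSeries Qb) (w2 0 f))
    (hS1 : ∀ f : h69_F0 (M * q * q) (A.inertiaSubgroupIn ℚ), f ≠ 0 →
      h98_GV A (ζ - 1) (mid ζ hζ (f : modularFunctionFieldBar (M * q * q))) (w2 1 f))
    (hS2 : ∀ f : h69_F0 (M * q * q) (A.inertiaSubgroupIn ℚ), f ≠ 0 →
      h98_GV A (q : Qb) ((W (f : modularFunctionFieldBar (M * q * q)) :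
        modularFunctionFieldBar (M * q * q)) : LaurentSeries Qb) (w2 2 f))
    (hsep1 : ∃ z : h69_F0 (M * q * q) (A.inertiaSubgroupIn ℚ),
      z ≠ 0 ∧ w2 0 z = 0 ∧ w2 1 z = 1 ∧ w2 2 z = 0)
    (hsep02 : ∃ g : h69_F0 (M * q * q) (A.inertiaSubgroupIn ℚ), g ≠ 0 ∧ w2 0 g ≠ w2 2 g) :
    ∀ c : Fin 3, ∃ p : h69_F0 (M * q * q) (A.inertiaSubgroupIn ℚ),
      p ≠ 0 ∧ w2 c p = 1 ∧ ∀ c', c' ≠ c → w2 c' p = 0 := by
  have hval := h70_tg_isVal2 M q A hA mid W ζ hζ w2 hS0 hS1 hS2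
  obtain ⟨hqF0, hq0', hq1', hq2'⟩ := h70_tg_val_q M q A hA mid W ζ hζ w2 hS0 hS1 hS2
  obtain ⟨z, hz0, hz1, hz2, hz3⟩ := hsep1
  obtain ⟨g, hg0, hg⟩ := hsep02
  have hnorm : ∀ c : Fin 3, ∃ y : h69_F0 (M * q * q) (A.inertiaSubgroupIn ℚ),
      y ≠ 0 ∧ w2 c y = 1 := fun c => match c with
    | 0 => ⟨_, hqF0, hq0'⟩
    | 1 => ⟨z, hz0, hz2⟩
    | 2 => ⟨_, hqF0, hq2'⟩
  have hne : ∀ c c' : Fin 3, c ≠ c' → ∃ y : h69_F0 (M * q * q) (A.inertiaSubgroupIn ℚ),
      y ≠ 0 ∧ w2 c y ≠ w2 c' y := by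
    intro c c' hcc
    match c, c', hcc with
    | 0, 0, h => exact absurd rfl h
    | 1, 1, h => exact absurd rfl h
    | 2, 2, h => exact absurd rfl h
    | 0, 1, _ => exact ⟨z, hz0, by rw [hz1, hz2]; exact zero_ne_one⟩
    | 1, 0, _ => exact ⟨z, hz0, by rw [hz1, hz2]; exact one_ne_zero⟩
    | 1, 2, _ => exact ⟨z, hz0, by rw [hz2, hz3]; exact one_ne_zero⟩
    | 2, 1, _ => exact ⟨z, hz0, by rw [hz2, hz3]; exact zero_ne_one⟩
    | 0, 2, _ => exact ⟨g, hg0, hg⟩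
    | 2, 0, _ => exact ⟨g, hg0, fun h => hg h.symm⟩
  obtain ⟨π, hπ⟩ := h88_exists_unif w2 hval hnorm hne
  exact fun c => ⟨π c, hπ c⟩

include hA hi0 hi2 hgen hmid0 hmid2 hW0 hW2 in
set_option maxHeartbeats 1600000 in
/-- **TOR-M in Gauss form.**  The five valuations are given by their Gauss specs `hS0`, `hS1`,
`hS2`, `hT0`, `hT1`; the remaining inputs are (V1), (V2), (V3). -/
theorem h70_torM_gauss
    (hS0 : ∀ f : h69_F0 (M * q * q) (A.inertiaSubgroupIn ℚ), f ≠ 0 →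
      h98_GV A (q : Qb) ((f : modularFunctionFieldBar (M * q * q)) : LaurentSeries Qb) (w2 0 f))
    (hS1 : ∀ f : h69_F0 (M * q * q) (A.inertiaSubgroupIn ℚ), f ≠ 0 →
      h98_GV A (ζ - 1) (mid ζ hζ (f : modularFunctionFieldBar (M * q * q))) (w2 1 f))
    (hS2 : ∀ f : h69_F0 (M * q * q) (A.inertiaSubgroupIn ℚ), f ≠ 0 →
      h98_GV A (q : Qb) ((W (f : modularFunctionFieldBar (M * q * q)) :
        modularFunctionFieldBar (M * q * q)) : LaurentSeries Qb) (w2 2 f))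
    (hT0 : ∀ g : h69_F0 (M * q) (A.inertiaSubgroupIn ℚ), g ≠ 0 →
      h98_GV A (q : Qb) ((g : modularFunctionFieldBar (M * q)) : LaurentSeries Qb) (w1 0 g))
    (hT1 : ∀ g : h69_F0 (M * q) (A.inertiaSubgroupIn ℚ), g ≠ 0 →
      h98_GV A (q : Qb) ((h60_w M q hqM (g : modularFunctionFieldBar (M * q)) :
        modularFunctionFieldBar (M * q)) : LaurentSeries Qb) (w1 1 g))
    -- (V1), (V2)
    (hV1 : ∀ y : h69_F0 (M * q * q) (A.inertiaSubgroupIn ℚ), y ≠ 0 → w2 0 y = 0 →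
      ∃ y' : h69_F0 (M * q) (A.inertiaSubgroupIn ℚ),
        y - h70_aF0 (M * q) q (A.inertiaSubgroupIn ℚ) y' = 0 ∨
          0 < w2 0 (y - h70_aF0 (M * q) q (A.inertiaSubgroupIn ℚ) y'))
    (hV2 : ∀ u : h69_F0 (M * q * q) (A.inertiaSubgroupIn ℚ), u ≠ 0 → w2 1 u = 0 →
      ∃ g : h69_F0 (M * q) (A.inertiaSubgroupIn ℚ),
        u - h70_aF0 (M * q) q (A.inertiaSubgroupIn ℚ) g = 0 ∨
          0 < w2 1 (u - h70_aF0 (M * q) q (A.inertiaSubgroupIn ℚ) g))
    -- (V3)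
    (hV3 : ∀ c : Fin 3, ∃ p : h69_F0 (M * q * q) (A.inertiaSubgroupIn ℚ),
      p ≠ 0 ∧ w2 c p = 1 ∧ ∀ c', c' ≠ c → w2 c' p = 0)
    (m : ℕ) (hm : 0 < m) (hqm : Nat.Coprime q m)
    (x : JZero (M * q * q)) (hx : ∀ σ ∈ A.inertiaSubgroupIn ℚ, σ • x = x)
    (hnew : h67_Jnew (M * q) q x) (hmx : m • x = 0) :
    ∃ (E4 : Divisor.degZero (K := Qb) (F := modularFunctionFieldBar (M * q * q)))
      (u4 : h69_F0 (M * q * q) (A.inertiaSubgroupIn ℚ)),
      Pic0.mk E4 = (q ^ 2 - 1) • x ∧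
      (∀ σ ∈ A.inertiaSubgroupIn ℚ, arithmeticGalois (modularFunctionFieldFull (M * q * q)) σ •
        (E4 : Divisor Qb (modularFunctionFieldBar (M * q * q))) = E4) ∧
      h67_DivNew (M * q) q (E4 : Divisor Qb (modularFunctionFieldBar (M * q * q))) ∧
      u4 ≠ 0 ∧
      (∀ v : Place Qb (modularFunctionFieldBar (M * q * q)),
        (m : ℤ) * (E4 : Divisor Qb (modularFunctionFieldBar (M * q * q))) v
          = v.ord (u4 : modularFunctionFieldBar (M * q * q))) ∧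
      ∀ c : Fin 3, u4 - 1 = 0 ∨
        w2 c (q : h69_F0 (M * q * q) (A.inertiaSubgroupIn ℚ)) ≤ w2 c (u4 - 1) := by
  classical
  have hq : q.Prime := Fact.out
  have : CharP (IsLocalRing.ResidueField A) q := h19_residueField_charP A q hA
  have hqN : q ∣ M * q := Dvd.intro_left M rfl
  -- the uniformisers
  have hq0 : (q : Qb) ≠ 0 := by exact_mod_cast hq.ne_zero
  have hqA : (q : Qb) ∈ A := h70_mem_of_nonunit A hA
  have hqn : (q : Qb)⁻¹ ∉ A := fun h => h70_not_nonunit_of_inv_mem A hq0 h hA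
  obtain ⟨hϖ0, hϖA, hϖn, ε, hε, hε', hε0, hϖ⟩ := h98_zeta_unif q A hA ζ hζ
  -- the family of middle embeddings
  obtain ⟨E, hEmid, hEα, hEinj, hEne⟩ :=
    h49_mid_family M q hqM i0 i2 hi0 hi2 mid hmid0 hmid2 ζ hζ
  have hfam : ∀ (f : modularFunctionFieldBar (M * q * q)),
      (∀ τ ∈ A.inertiaSubgroupIn ℚ,
        arithmeticRingAut (modularFunctionFieldFull (M * q * q)) τ f = f) →
      ∀ n : ℤ, h98_GV A (ζ - 1) (mid ζ hζ f) n → ∀ i, h98_GV A (ζ - 1) (E i f) n := by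
    intro f hfix n h i
    obtain ⟨hi, hEi⟩ := hEmid i
    rw [hEi]
    exact h98_mid_GV_indep M q hqM A hA i0 i2 hi0 hi2 hgen mid hmid0 hmid2 ζ hζ _ hi f hfix n h
  have hfixF : ∀ f : h69_F0 (M * q * q) (A.inertiaSubgroupIn ℚ), ∀ τ ∈ A.inertiaSubgroupIn ℚ,
      arithmeticRingAut (modularFunctionFieldFull (M * q * q)) τ
        (f : modularFunctionFieldBar (M * q * q)) = f := fun f τ hτ => f.2 τ hτ
  -- the swap
  have hWW := h98_W_W M q i0 i2 hgen W hW0 hW2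
  have hWα := h98_W_alpha M q hqM i0 i2 hi0 hi2 W hW0
  have hWfix : ∀ f : h69_F0 (M * q * q) (A.inertiaSubgroupIn ℚ), ∀ τ ∈ A.inertiaSubgroupIn ℚ,
      arithmeticRingAut (modularFunctionFieldFull (M * q * q)) τ
        (W (f : modularFunctionFieldBar (M * q * q))) = W f := fun f τ hτ =>
    h98_W_fixed M q hqM i0 i2 hi0 hi2 hgen W hW0 hW2 τ f (hfixF f τ hτ)
  -- the five embeddings
  set E20 : modularFunctionFieldBar (M * q * q) →+* LaurentSeries Qb :=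
    h70_coeHom (M * q * q) with hE20
  set E02 : modularFunctionFieldBar (M * q * q) →+* LaurentSeries Qb :=
    (h70_coeHom (M * q * q)).comp W with hE02
  set EF : modularFunctionFieldBar (M * q) →+* LaurentSeries Qb := h70_coeHom (M * q) with hEF
  set EV : modularFunctionFieldBar (M * q) →+* LaurentSeries Qb :=
    (h70_coeHom (M * q)).comp (h60_w M q hqM) with hEV
  -- valuation axioms
  have hw2mul : ∀ (c : Fin 3) (f g : h69_F0 (M * q * q) (A.inertiaSubgroupIn ℚ)), f ≠ 0 → g ≠ 0 →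
      w2 c (f * g) = w2 c f + w2 c g := fun c => match c with
    | 0 => h70_spec_mul E20 _ (q : Qb) hq0 hqA hqn (w2 0) hS0
    | 1 => h70_spec_mul (mid ζ hζ) _ (ζ - 1) hϖ0 hϖA hϖn (w2 1) hS1
    | 2 => h70_spec_mul E02 _ (q : Qb) hq0 hqA hqn (w2 2) hS2
  have hw2add : ∀ (c : Fin 3) (f g : h69_F0 (M * q * q) (A.inertiaSubgroupIn ℚ)), f ≠ 0 → g ≠ 0 →
      f + g ≠ 0 → min (w2 c f) (w2 c g) ≤ w2 c (f + g) := fun c => match c with
    | 0 => h70_spec_add E20 _ (q : Qb) hq0 hqA hqn (w2 0) hS0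
    | 1 => h70_spec_add (mid ζ hζ) _ (ζ - 1) hϖ0 hϖA hϖn (w2 1) hS1
    | 2 => h70_spec_add E02 _ (q : Qb) hq0 hqA hqn (w2 2) hS2
  have hw1mul : ∀ (c : Fin 2) (f g : h69_F0 (M * q) (A.inertiaSubgroupIn ℚ)), f ≠ 0 → g ≠ 0 →
      w1 c (f * g) = w1 c f + w1 c g := fun c => match c with
    | 0 => h70_spec_mul EF _ (q : Qb) hq0 hqA hqn (w1 0) hT0
    | 1 => h70_spec_mul EV _ (q : Qb) hq0 hqA hqn (w1 1) hT1
  have hw1add : ∀ (c : Fin 2) (f g : h69_F0 (M * q) (A.inertiaSubgroupIn ℚ)), f ≠ 0 → g ≠ 0 →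
      f + g ≠ 0 → min (w1 c f) (w1 c g) ≤ w1 c (f + g) := fun c => match c with
    | 0 => h70_spec_add EF _ (q : Qb) hq0 hqA hqn (w1 0) hT0
    | 1 => h70_spec_add EV _ (q : Qb) hq0 hqA hqn (w1 1) hT1
  -- (V0)
  have hV0a0 : ∀ g : h69_F0 (M * q) (A.inertiaSubgroupIn ℚ), g ≠ 0 →
      w2 0 (h70_aF0 (M * q) q (A.inertiaSubgroupIn ℚ) g) = w1 0 g := by
    intro g hg
    have h := h98_V0_i0_std M q A i0 hi0 (q : Qb) g _ (hT0 g hg)
    rw [hi0] at h
    have h' := hS0 (h70_aF0 (M * q) q (A.inertiaSubgroupIn ℚ) g) ((map_ne_zero _).mpr hg)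
    rw [h70_coe_aF0] at h'
    exact h98_GV_unique hq0 hqA hqn h' h
  have hV0a1 : ∀ g : h69_F0 (M * q) (A.inertiaSubgroupIn ℚ), g ≠ 0 →
      w2 1 (h70_aF0 (M * q) q (A.inertiaSubgroupIn ℚ) g) = ((q : ℤ) - 1) * w1 0 g := by
    intro g hg
    have h := h98_V0_i0_mid M q A hA i0 mid hmid0 ζ hζ g _ (hT0 g hg)
    rw [hi0] at h
    have h' := hS1 (h70_aF0 (M * q) q (A.inertiaSubgroupIn ℚ) g) ((map_ne_zero _).mpr hg)
    rw [h70_coe_aF0] at h'
    rw [h98_GV_unique hϖ0 hϖA hϖn h' h, Nat.cast_sub hq.one_le, Nat.cast_one]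
  have hV0a2 : ∀ g : h69_F0 (M * q) (A.inertiaSubgroupIn ℚ), g ≠ 0 →
      w2 2 (h70_aF0 (M * q) q (A.inertiaSubgroupIn ℚ) g) = w1 1 g := by
    intro g hg
    have h := h98_V0_i0_conj M q hqM A i0 i2 hi2 W hW0 (q : Qb) g _ (hT1 g hg)
    rw [hi0] at h
    have h' := hS2 (h70_aF0 (M * q) q (A.inertiaSubgroupIn ℚ) g) ((map_ne_zero _).mpr hg)
    rw [h70_coe_aF0] at h'
    exact h98_GV_unique hq0 hqA hqn h' h
  have hV0b0 : ∀ g : h69_F0 (M * q) (A.inertiaSubgroupIn ℚ), g ≠ 0 →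
      w2 0 (h70_bF0 (M * q) q (A.inertiaSubgroupIn ℚ) g) = w1 0 g := by
    intro g hg
    have h := h98_V0_sh_std M q A (q : Qb) g _ (hT0 g hg)
    have h' := hS0 (h70_bF0 (M * q) q (A.inertiaSubgroupIn ℚ) g) ((map_ne_zero _).mpr hg)
    rw [h70_coe_bF0] at h'
    exact h98_GV_unique hq0 hqA hqn h' h
  -- the values at `q`
  have hqF0 : (q : h69_F0 (M * q * q) (A.inertiaSubgroupIn ℚ)) ≠ 0 :=
    h70_natCast_ne_zero (H := A.inertiaSubgroupIn ℚ) (M * q * q) hq.ne_zero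
  have hcast : ∀ Eh : modularFunctionFieldBar (M * q * q) →+* LaurentSeries Qb,
      Eh (((q : h69_F0 (M * q * q) (A.inertiaSubgroupIn ℚ)) :
        modularFunctionFieldBar (M * q * q))) = algebraMap Qb (LaurentSeries Qb) (q : Qb) := by
    intro Eh
    have e : (((q : h69_F0 (M * q * q) (A.inertiaSubgroupIn ℚ)) :
        modularFunctionFieldBar (M * q * q))) = (q : modularFunctionFieldBar (M * q * q)) := rfl
    rw [e, map_natCast, map_natCast]
  have hcastS : ((((q : h69_F0 (M * q * q) (A.inertiaSubgroupIn ℚ)) :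
      modularFunctionFieldBar (M * q * q))) : LaurentSeries Qb)
      = algebraMap Qb (LaurentSeries Qb) (q : Qb) := hcast (h70_coeHom (M * q * q))
  have hcastW : ((W ((q : h69_F0 (M * q * q) (A.inertiaSubgroupIn ℚ)) :
      modularFunctionFieldBar (M * q * q)) : modularFunctionFieldBar (M * q * q)) :
        LaurentSeries Qb) = algebraMap Qb (LaurentSeries Qb) (q : Qb) :=
    hcast ((h70_coeHom (M * q * q)).comp W)
  have hq0' : w2 0 (q : h69_F0 (M * q * q) (A.inertiaSubgroupIn ℚ)) = 1 := by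
    have h' := hS0 (q : h69_F0 (M * q * q) (A.inertiaSubgroupIn ℚ)) hqF0
    rw [hcastS] at h'
    exact h98_GV_unique hq0 hqA hqn h' (h98_GV_pi hq0)
  have hq1' : w2 1 (q : h69_F0 (M * q * q) (A.inertiaSubgroupIn ℚ)) = (q : ℤ) - 1 := by
    have h' := hS1 (q : h69_F0 (M * q * q) (A.inertiaSubgroupIn ℚ)) hqF0
    rw [hcast (mid ζ hζ)] at h'
    rw [h98_GV_unique hϖ0 hϖA hϖn h' (h98_GV_q_zeta q A hA ζ hζ), Nat.cast_sub hq.one_le,
      Nat.cast_one]
  have hq2' : w2 2 (q : h69_F0 (M * q * q) (A.inertiaSubgroupIn ℚ)) = 1 := by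
    have h' := hS2 (q : h69_F0 (M * q * q) (A.inertiaSubgroupIn ℚ)) hqF0
    rw [hcastW] at h'
    exact h98_GV_unique hq0 hqA hqn h' (h98_GV_pi hq0)
  -- (N1)
  have hN1aF : ∀ u : h69_F0 (M * q * q) (A.inertiaSubgroupIn ℚ), u ≠ 0 →
      w1 0 (h70_NaF0 (M * q) q (A.inertiaSubgroupIn ℚ) u) = w2 0 u + w2 1 u := by
    intro u hu
    have h := h98_nv_alpha_std (M * q) q hq hqN A E hEα hEinj hEne (ζ - 1) ε hε hε' hε0 hϖ u _ _
      (hS0 u hu) (hfam u (hfixF u) _ (hS1 u hu))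
    have h' := hT0 (h70_NaF0 (M * q) q (A.inertiaSubgroupIn ℚ) u) ((map_ne_zero _).mpr hu)
    rw [h70_coe_NaF0] at h'
    exact h98_GV_unique hq0 hqA hqn h' h
  have hN1aV : ∀ u : h69_F0 (M * q * q) (A.inertiaSubgroupIn ℚ), u ≠ 0 →
      w1 1 (h70_NaF0 (M * q) q (A.inertiaSubgroupIn ℚ) u) = (q : ℤ) * w2 2 u := by
    intro u hu
    have h := h98_nv_alpha_conj (M * q) q hqN A (h60_w M q hqM) (h60_w_w M q hqM) W hWW hWα u _
      (hS2 u hu)
    have h' := hT1 (h70_NaF0 (M * q) q (A.inertiaSubgroupIn ℚ) u) ((map_ne_zero _).mpr hu)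
    rw [h70_coe_NaF0] at h'
    exact h98_GV_unique hq0 hqA hqn h' h
  have hN1bF : ∀ u : h69_F0 (M * q * q) (A.inertiaSubgroupIn ℚ), u ≠ 0 →
      w1 0 (h70_NbF0 (M * q) q (A.inertiaSubgroupIn ℚ) u) = (q : ℤ) * w2 0 u := by
    intro u hu
    have h := h98_nv_beta_std (M * q) q hqN A u _ (hS0 u hu)
    have h' := hT0 (h70_NbF0 (M * q) q (A.inertiaSubgroupIn ℚ) u) ((map_ne_zero _).mpr hu)
    rw [h70_coe_NbF0] at h'
    exact h98_GV_unique hq0 hqA hqn h' h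
  have hN1bV : ∀ u : h69_F0 (M * q * q) (A.inertiaSubgroupIn ℚ), u ≠ 0 →
      w1 1 (h70_NbF0 (M * q) q (A.inertiaSubgroupIn ℚ) u) = w2 1 u + w2 2 u := by
    intro u hu
    have h := h98_nv_beta_conj (M * q) q hq hqN A (h60_w M q hqM) (h60_w_w M q hqM) W hWW hWα
      E hEα hEinj hEne (ζ - 1) ε hε hε' hε0 hϖ u _ _ (hS2 u hu)
      (hfam (W u) (hWfix u) _
        (h98_mid_GV_W M q hqM A hA i0 i2 hi0 hi2 hgen mid hmid0 hmid2 W hW0 hW2 ζ hζ u
          (hfixF u) _ (hS1 u hu)))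
    have h' := hT1 (h70_NbF0 (M * q) q (A.inertiaSubgroupIn ℚ) u) ((map_ne_zero _).mpr hu)
    rw [h70_coe_NbF0] at h'
    rw [h98_GV_unique hq0 hqA hqn h' h, add_comm]
  -- (N2)-(N4)
  have hN2 : ∀ u : h69_F0 (M * q * q) (A.inertiaSubgroupIn ℚ), u ≠ 0 → (∀ c, w2 c u = 0) →
      h70_aF0 (M * q) q (A.inertiaSubgroupIn ℚ) (h70_NaF0 (M * q) q (A.inertiaSubgroupIn ℚ) u)
          - u ^ q = 0 ∨
        0 < w2 2 (h70_aF0 (M * q) q (A.inertiaSubgroupIn ℚ)
          (h70_NaF0 (M * q) q (A.inertiaSubgroupIn ℚ) u) - u ^ q) := by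
    intro u hu h0
    have hu2 : ((W (u : modularFunctionFieldBar (M * q * q)) :
        modularFunctionFieldBar (M * q * q)) : LaurentSeries Qb) ∈ h60_Os A :=
      (h98_GV_nonneg_iff hq0 hqA hqn (hS2 u hu)).mp (by rw [h0 2])
    have key := h98_n2 (M * q) q hqN A (h60_w M q hqM) (h60_w_w M q hqM) W hWW hWα u hu2
    by_cases hX : h70_aF0 (M * q) q (A.inertiaSubgroupIn ℚ)
        (h70_NaF0 (M * q) q (A.inertiaSubgroupIn ℚ) u) - u ^ q = 0
    · exact Or.inl hX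
    · refine Or.inr ((h98_GV_pos_iff hq0 hqA hqn (hS2 _ hX)).mpr ?_)
      have e : ((h70_aF0 (M * q) q (A.inertiaSubgroupIn ℚ)
          (h70_NaF0 (M * q) q (A.inertiaSubgroupIn ℚ) u) - u ^ q :
            h69_F0 (M * q * q) (A.inertiaSubgroupIn ℚ)) : modularFunctionFieldBar (M * q * q))
          = heckeAlphaBar Qb (M * q) q (h67_normAlong (heckeAlphaBar Qb (M * q) q)
              (u : modularFunctionFieldBar (M * q * q)))
            - (u : modularFunctionFieldBar (M * q * q)) ^ q := rfl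
      rw [e]
      exact key
  have hN3 : ∀ u : h69_F0 (M * q * q) (A.inertiaSubgroupIn ℚ), u ≠ 0 → (∀ c, w2 c u = 0) →
      h70_bF0 (M * q) q (A.inertiaSubgroupIn ℚ) (h70_NbF0 (M * q) q (A.inertiaSubgroupIn ℚ) u)
          - u ^ q = 0 ∨
        0 < w2 0 (h70_bF0 (M * q) q (A.inertiaSubgroupIn ℚ)
          (h70_NbF0 (M * q) q (A.inertiaSubgroupIn ℚ) u) - u ^ q) := by
    intro u hu h0
    have hu0 : ((u : modularFunctionFieldBar (M * q * q)) : LaurentSeries Qb) ∈ h60_Os A :=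
      (h98_GV_nonneg_iff hq0 hqA hqn (hS0 u hu)).mp (by rw [h0 0])
    have key := h98_n3 (M * q) q hqN A u hu0
    by_cases hX : h70_bF0 (M * q) q (A.inertiaSubgroupIn ℚ)
        (h70_NbF0 (M * q) q (A.inertiaSubgroupIn ℚ) u) - u ^ q = 0
    · exact Or.inl hX
    · refine Or.inr ((h98_GV_pos_iff hq0 hqA hqn (hS0 _ hX)).mpr ?_)
      have e : ((h70_bF0 (M * q) q (A.inertiaSubgroupIn ℚ)
          (h70_NbF0 (M * q) q (A.inertiaSubgroupIn ℚ) u) - u ^ q :
            h69_F0 (M * q * q) (A.inertiaSubgroupIn ℚ)) : modularFunctionFieldBar (M * q * q))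
          = heckeBetaBar Qb (M * q) q (h67_normAlong (heckeBetaBar Qb (M * q) q)
              (u : modularFunctionFieldBar (M * q * q)))
            - (u : modularFunctionFieldBar (M * q * q)) ^ q := rfl
      rw [e]
      exact key
  have hN4 : ∀ u : h69_F0 (M * q * q) (A.inertiaSubgroupIn ℚ), u ≠ 0 → (∀ c, w2 c u = 0) →
      ∀ g : h69_F0 (M * q) (A.inertiaSubgroupIn ℚ),
      (u - h70_aF0 (M * q) q (A.inertiaSubgroupIn ℚ) g = 0 ∨
        0 < w2 1 (u - h70_aF0 (M * q) q (A.inertiaSubgroupIn ℚ) g)) →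
      h70_aF0 (M * q) q (A.inertiaSubgroupIn ℚ) (h70_NaF0 (M * q) q (A.inertiaSubgroupIn ℚ) u)
          - u * h70_aF0 (M * q) q (A.inertiaSubgroupIn ℚ) g ^ (q - 1) = 0 ∨
        0 < w2 0 (h70_aF0 (M * q) q (A.inertiaSubgroupIn ℚ)
          (h70_NaF0 (M * q) q (A.inertiaSubgroupIn ℚ) u)
            - u * h70_aF0 (M * q) q (A.inertiaSubgroupIn ℚ) g ^ (q - 1)) := by
    intro u hu h0 g hg
    have hu0 : ((u : modularFunctionFieldBar (M * q * q)) : LaurentSeries Qb) ∈ h60_Os A :=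
      (h98_GV_nonneg_iff hq0 hqA hqn (hS0 u hu)).mp (by rw [h0 0])
    have hE : ∀ i, E i (u : modularFunctionFieldBar (M * q * q)) ∈ h60_Os A := fun i =>
      (h98_GV_nonneg_iff hϖ0 hϖA hϖn (hfam u (hfixF u) _ (hS1 u hu) i)).mp (by rw [h0 1])
    have e0 : ((u - h70_aF0 (M * q) q (A.inertiaSubgroupIn ℚ) g :
        h69_F0 (M * q * q) (A.inertiaSubgroupIn ℚ)) : modularFunctionFieldBar (M * q * q))
        = (u : modularFunctionFieldBar (M * q * q))
          - heckeAlphaBar Qb (M * q) q (g : modularFunctionFieldBar (M * q)) := rfl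
    have hg' : ∀ i, ∃ h : E i ((u : modularFunctionFieldBar (M * q * q))
        - heckeAlphaBar Qb (M * q) q (g : modularFunctionFieldBar (M * q))) ∈ h60_Os A,
        h60_rs A ⟨_, h⟩ = 0 := by
      intro i
      by_cases hz : u - h70_aF0 (M * q) q (A.inertiaSubgroupIn ℚ) g = 0
      · have e2 : E i ((u : modularFunctionFieldBar (M * q * q))
            - heckeAlphaBar Qb (M * q) q (g : modularFunctionFieldBar (M * q))) = 0 := by
          rw [← e0, hz]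
          exact map_zero (E i)
        have hmem : E i ((u : modularFunctionFieldBar (M * q * q))
            - heckeAlphaBar Qb (M * q) q (g : modularFunctionFieldBar (M * q))) ∈ h60_Os A := by
          rw [e2]
          exact zero_mem _
        refine ⟨hmem, ?_⟩
        have e' : (⟨_, hmem⟩ : h60_Os A) = 0 := Subtype.ext e2
        rw [e', map_zero]
      · have hpos := hg.resolve_left hz
        have hGV := hfam _ (hfixF (u - h70_aF0 (M * q) q (A.inertiaSubgroupIn ℚ) g)) _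
          (hS1 (u - h70_aF0 (M * q) q (A.inertiaSubgroupIn ℚ) g) hz) i
        rw [e0] at hGV
        exact (h98_GV_pos_iff hϖ0 hϖA hϖn hGV).mp hpos
    have key := h98_n4 (M * q) q hq hqN A E hEα hEinj hEne u hu0 hE g hg'
    by_cases hX : h70_aF0 (M * q) q (A.inertiaSubgroupIn ℚ)
        (h70_NaF0 (M * q) q (A.inertiaSubgroupIn ℚ) u)
          - u * h70_aF0 (M * q) q (A.inertiaSubgroupIn ℚ) g ^ (q - 1) = 0
    · exact Or.inl hX
    · refine Or.inr ((h98_GV_pos_iff hq0 hqA hqn (hS0 _ hX)).mpr ?_)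
      have e : ((h70_aF0 (M * q) q (A.inertiaSubgroupIn ℚ)
          (h70_NaF0 (M * q) q (A.inertiaSubgroupIn ℚ) u)
            - u * h70_aF0 (M * q) q (A.inertiaSubgroupIn ℚ) g ^ (q - 1) :
            h69_F0 (M * q * q) (A.inertiaSubgroupIn ℚ)) : modularFunctionFieldBar (M * q * q))
          = heckeAlphaBar Qb (M * q) q (h67_normAlong (heckeAlphaBar Qb (M * q) q)
              (u : modularFunctionFieldBar (M * q * q)))
            - (u : modularFunctionFieldBar (M * q * q))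
              * heckeAlphaBar Qb (M * q) q (g : modularFunctionFieldBar (M * q)) ^ (q - 1) := rfl
      rw [e]
      exact key
  -- (K6+)
  have hEFc : ∀ c : Qb, EF (algebraMap Qb (modularFunctionFieldBar (M * q)) c)
      = algebraMap Qb (LaurentSeries Qb) c := fun c => rfl
  have hEVc : ∀ c : Qb, EV (algebraMap Qb (modularFunctionFieldBar (M * q)) c)
      = algebraMap Qb (LaurentSeries Qb) c := fun c => by
    show h70_coeHom (M * q) (h60_w M q hqM (algebraMap Qb _ c)) = _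
    rw [h60_w_algebraMap]
    rfl
  have hCval := h70_K6_val q A (M * q) hA EF EV hEFc hEVc (w1 0) (w1 1) hT0 hT1
  have hCroot := h70_K6_root q A (M * q) hA EF EV hEFc hEVc (w1 0) (w1 1) hT0 hT1 m hm.ne'
  exact h70_torM (M * q) q (A.inertiaSubgroupIn ℚ) hq hqN m hm hqm w2 w1 hw2mul hw2add hw1mul
    hw1add hV0a0 hV0a1 hV0a2 hV0b0 hq0' hq1' hq2' hV1 hV2 hV3 hN1aF hN1aV hN1bF hN1bV hN2 hN3
    hN4 hCval hCroot x hx hnew hmx

include hA hi0 hi2 hgen hmid0 hmid2 hW0 hW2 in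
/-- **TOR-M in Gauss form, (V3) by separators.** -/
theorem h70_torM_gauss_sep
    (hS0 : ∀ f : h69_F0 (M * q * q) (A.inertiaSubgroupIn ℚ), f ≠ 0 →
      h98_GV A (q : Qb) ((f : modularFunctionFieldBar (M * q * q)) : LaurentSeries Qb) (w2 0 f))
    (hS1 : ∀ f : h69_F0 (M * q * q) (A.inertiaSubgroupIn ℚ), f ≠ 0 →
      h98_GV A (ζ - 1) (mid ζ hζ (f : modularFunctionFieldBar (M * q * q))) (w2 1 f))
    (hS2 : ∀ f : h69_F0 (M * q * q) (A.inertiaSubgroupIn ℚ), f ≠ 0 →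
      h98_GV A (q : Qb) ((W (f : modularFunctionFieldBar (M * q * q)) :
        modularFunctionFieldBar (M * q * q)) : LaurentSeries Qb) (w2 2 f))
    (hT0 : ∀ g : h69_F0 (M * q) (A.inertiaSubgroupIn ℚ), g ≠ 0 →
      h98_GV A (q : Qb) ((g : modularFunctionFieldBar (M * q)) : LaurentSeries Qb) (w1 0 g))
    (hT1 : ∀ g : h69_F0 (M * q) (A.inertiaSubgroupIn ℚ), g ≠ 0 →
      h98_GV A (q : Qb) ((h60_w M q hqM (g : modularFunctionFieldBar (M * q)) :
        modularFunctionFieldBar (M * q)) : LaurentSeries Qb) (w1 1 g))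
    (hV1 : ∀ y : h69_F0 (M * q * q) (A.inertiaSubgroupIn ℚ), y ≠ 0 → w2 0 y = 0 →
      ∃ y' : h69_F0 (M * q) (A.inertiaSubgroupIn ℚ),
        y - h70_aF0 (M * q) q (A.inertiaSubgroupIn ℚ) y' = 0 ∨
          0 < w2 0 (y - h70_aF0 (M * q) q (A.inertiaSubgroupIn ℚ) y'))
    (hV2 : ∀ u : h69_F0 (M * q * q) (A.inertiaSubgroupIn ℚ), u ≠ 0 → w2 1 u = 0 →
      ∃ g : h69_F0 (M * q) (A.inertiaSubgroupIn ℚ),
        u - h70_aF0 (M * q) q (A.inertiaSubgroupIn ℚ) g = 0 ∨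
          0 < w2 1 (u - h70_aF0 (M * q) q (A.inertiaSubgroupIn ℚ) g))
    (hsep1 : ∃ z : h69_F0 (M * q * q) (A.inertiaSubgroupIn ℚ),
      z ≠ 0 ∧ w2 0 z = 0 ∧ w2 1 z = 1 ∧ w2 2 z = 0)
    (hsep02 : ∃ g : h69_F0 (M * q * q) (A.inertiaSubgroupIn ℚ), g ≠ 0 ∧ w2 0 g ≠ w2 2 g)
    (m : ℕ) (hm : 0 < m) (hqm : Nat.Coprime q m)
    (x : JZero (M * q * q)) (hx : ∀ σ ∈ A.inertiaSubgroupIn ℚ, σ • x = x)
    (hnew : h67_Jnew (M * q) q x) (hmx : m • x = 0) :
    ∃ (E4 : Divisor.degZero (K := Qb) (F := modularFunctionFieldBar (M * q * q)))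
      (u4 : h69_F0 (M * q * q) (A.inertiaSubgroupIn ℚ)),
      Pic0.mk E4 = (q ^ 2 - 1) • x ∧
      (∀ σ ∈ A.inertiaSubgroupIn ℚ, arithmeticGalois (modularFunctionFieldFull (M * q * q)) σ •
        (E4 : Divisor Qb (modularFunctionFieldBar (M * q * q))) = E4) ∧
      h67_DivNew (M * q) q (E4 : Divisor Qb (modularFunctionFieldBar (M * q * q))) ∧
      u4 ≠ 0 ∧
      (∀ v : Place Qb (modularFunctionFieldBar (M * q * q)),
        (m : ℤ) * (E4 : Divisor Qb (modularFunctionFieldBar (M * q * q))) v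
          = v.ord (u4 : modularFunctionFieldBar (M * q * q))) ∧
      ∀ c : Fin 3, u4 - 1 = 0 ∨
        w2 c (q : h69_F0 (M * q * q) (A.inertiaSubgroupIn ℚ)) ≤ w2 c (u4 - 1) :=
  h70_torM_gauss M q hqM A hA i0 i2 hi0 hi2 hgen mid hmid0 hmid2 W hW0 hW2 ζ hζ w2 w1
    hS0 hS1 hS2 hT0 hT1 hV1 hV2
    (h70_tg_V3 M q A hA mid W ζ hζ w2 hS0 hS1 hS2 hsep1 hsep02) m hm hqm x hx hnew hmx

end Main

/-! ## The concrete valuations -/

section Concrete

variable (M q : ℕ) [NeZero M] [NeZero q] [Fact q.Prime] (hqM : ¬ q ∣ M)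
  (A : ValuationSubring Qb) (hA : A.LiesOverPrime q)

/-- A primitive `q`-th root of unity in `ℚ̄`. -/
def h70_zeta : Qb := (HasEnoughRootsOfUnity.exists_primitiveRoot Qb q).choose

theorem h70_zeta_prim : IsPrimitiveRoot (h70_zeta q) q :=
  (HasEnoughRootsOfUnity.exists_primitiveRoot Qb q).choose_spec

/-- helper36's middle embeddings `h36_mid` in the binder shape of `h49_MidGal` / `h98_MidW`. -/
def h70_mid (ζ : Qb) (hζ : IsPrimitiveRoot ζ q) :
    modularFunctionFieldBar (M * q * q) →+* LaurentSeries Qb :=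
  h36_mid M q hqM ζ hζ.pow_eq_one (hζ.ne_one (Fact.out : q.Prime).one_lt)

theorem h70_mid_i0 (ζ : Qb) (hζ : IsPrimitiveRoot ζ q) (g : modularFunctionFieldBar (M * q)) :
    h70_mid M q hqM ζ hζ (h36_i0 M q g) = (g : LaurentSeries Qb) :=
  h36_mid_i0 M q hqM ζ _ _ g

theorem h70_mid_i2 (ζ : Qb) (hζ : IsPrimitiveRoot ζ q) (g : modularFunctionFieldBar (M * q)) :
    h70_mid M q hqM ζ hζ (h36_i2 M q hqM g)
      = h59_twistHom ζ (hζ.ne_zero (NeZero.ne q)) (g : LaurentSeries Qb) :=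
  h36_mid_i2 M q hqM ζ _ _ g

include hA in
theorem h70_sc20 (f : h69_F0 (M * q * q) (A.inertiaSubgroupIn ℚ)) (hf : f ≠ 0) :
    ∃ n : ℤ, h98_GV A (q : Qb)
      (h70_coeHom (M * q * q) (f : modularFunctionFieldBar (M * q * q))) n :=
  h49_GV_exists_std (M * q * q) q A hA f (fun h => hf (Subtype.ext h)) (fun σ hσ => f.2 σ hσ)

include hA in
theorem h70_sc11 (f : h69_F0 (M * q * q) (A.inertiaSubgroupIn ℚ)) (hf : f ≠ 0) :
    ∃ n : ℤ, h98_GV A (h70_zeta q - 1)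
      (h70_mid M q hqM (h70_zeta q) (h70_zeta_prim q)
        (f : modularFunctionFieldBar (M * q * q))) n :=
  h49_GV_exists_mid M q hqM A hA (h36_i0 M q) (h36_i2 M q hqM) (fun _ => rfl) (fun _ => rfl)
    (h36_i02_gen M q hqM) (h70_zeta q) (h70_zeta_prim q)
    (h70_mid M q hqM (h70_zeta q) (h70_zeta_prim q))
    (h70_mid_i0 M q hqM (h70_zeta q) (h70_zeta_prim q))
    (h70_mid_i2 M q hqM (h70_zeta q) (h70_zeta_prim q)) f
    (fun h => hf (Subtype.ext h)) (fun σ hσ => f.2 σ hσ)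

include hA in
theorem h70_sc02 (f : h69_F0 (M * q * q) (A.inertiaSubgroupIn ℚ)) (hf : f ≠ 0) :
    ∃ n : ℤ, h98_GV A (q : Qb)
      (((h70_coeHom (M * q * q)).comp (h36_W M q hqM))
        (f : modularFunctionFieldBar (M * q * q))) n :=
  h49_GV_exists_W M q hqM A hA (h36_i0 M q) (h36_i2 M q hqM) (fun _ => rfl) (fun _ => rfl)
    (h36_i02_gen M q hqM) (h36_W M q hqM) (h36_W_i0 M q hqM) (h36_W_i2 M q hqM) f
    (fun h => hf (Subtype.ext h)) (fun σ hσ => f.2 σ hσ)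

include hA in
theorem h70_scF (g : h69_F0 (M * q) (A.inertiaSubgroupIn ℚ)) (hg : g ≠ 0) :
    ∃ n : ℤ, h98_GV A (q : Qb) (h70_coeHom (M * q) (g : modularFunctionFieldBar (M * q))) n :=
  h49_GV_exists_std (M * q) q A hA g (fun h => hg (Subtype.ext h)) (fun σ hσ => g.2 σ hσ)

include hA in
theorem h70_scV (g : h69_F0 (M * q) (A.inertiaSubgroupIn ℚ)) (hg : g ≠ 0) :
    ∃ n : ℤ, h98_GV A (q : Qb)
      (((h70_coeHom (M * q)).comp (h60_w M q hqM)) (g : modularFunctionFieldBar (M * q))) n :=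
  h49_GV_exists_w M q hqM A hA g (fun h => hg (Subtype.ext h)) (fun σ hσ => g.2 σ hσ)

/-- **The three vertical valuations of level `M q²`** on the inertia-fixed functions:
`0 = C20` (standard expansion), `1 = C11` (middle expansion, uniformiser `ζ - 1`),
`2 = C02` (standard expansion after the swap `W`). -/
def h70_w2 : Fin 3 → h69_F0 (M * q * q) (A.inertiaSubgroupIn ℚ) → ℤ
  | 0 => h98_gv (h70_coeHom (M * q * q)) (h69_F0 (M * q * q) (A.inertiaSubgroupIn ℚ)) (q : Qb)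
      (h70_sc20 M q A hA)
  | 1 => h98_gv (h70_mid M q hqM (h70_zeta q) (h70_zeta_prim q))
      (h69_F0 (M * q * q) (A.inertiaSubgroupIn ℚ)) (h70_zeta q - 1) (h70_sc11 M q hqM A hA)
  | 2 => h98_gv ((h70_coeHom (M * q * q)).comp (h36_W M q hqM))
      (h69_F0 (M * q * q) (A.inertiaSubgroupIn ℚ)) (q : Qb) (h70_sc02 M q hqM A hA)

/-- **The two vertical valuations of level `M q`**: `0 = Z_F` (standard expansion),
`1 = Z_V` (standard expansion after the swap `w`). -/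
def h70_w1 : Fin 2 → h69_F0 (M * q) (A.inertiaSubgroupIn ℚ) → ℤ
  | 0 => h98_gv (h70_coeHom (M * q)) (h69_F0 (M * q) (A.inertiaSubgroupIn ℚ)) (q : Qb)
      (h70_scF M q A hA)
  | 1 => h98_gv ((h70_coeHom (M * q)).comp (h60_w M q hqM))
      (h69_F0 (M * q) (A.inertiaSubgroupIn ℚ)) (q : Qb) (h70_scV M q hqM A hA)

theorem h70_w2_spec0 (f : h69_F0 (M * q * q) (A.inertiaSubgroupIn ℚ)) (hf : f ≠ 0) :
    h98_GV A (q : Qb) ((f : modularFunctionFieldBar (M * q * q)) : LaurentSeries Qb)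
      (h70_w2 M q hqM A hA 0 f) :=
  h98_gv_spec _ _ _ (h70_sc20 M q A hA) f hf

theorem h70_w2_spec1 (f : h69_F0 (M * q * q) (A.inertiaSubgroupIn ℚ)) (hf : f ≠ 0) :
    h98_GV A (h70_zeta q - 1)
      (h70_mid M q hqM (h70_zeta q) (h70_zeta_prim q) (f : modularFunctionFieldBar (M * q * q)))
      (h70_w2 M q hqM A hA 1 f) :=
  h98_gv_spec _ _ _ (h70_sc11 M q hqM A hA) f hf

theorem h70_w2_spec2 (f : h69_F0 (M * q * q) (A.inertiaSubgroupIn ℚ)) (hf : f ≠ 0) :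
    h98_GV A (q : Qb) ((h36_W M q hqM (f : modularFunctionFieldBar (M * q * q)) :
        modularFunctionFieldBar (M * q * q)) : LaurentSeries Qb)
      (h70_w2 M q hqM A hA 2 f) :=
  h98_gv_spec _ _ _ (h70_sc02 M q hqM A hA) f hf

theorem h70_w1_spec0 (g : h69_F0 (M * q) (A.inertiaSubgroupIn ℚ)) (hg : g ≠ 0) :
    h98_GV A (q : Qb) ((g : modularFunctionFieldBar (M * q)) : LaurentSeries Qb)
      (h70_w1 M q hqM A hA 0 g) :=
  h98_gv_spec _ _ _ (h70_scF M q A hA) g hg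

theorem h70_w1_spec1 (g : h69_F0 (M * q) (A.inertiaSubgroupIn ℚ)) (hg : g ≠ 0) :
    h98_GV A (q : Qb) ((h60_w M q hqM (g : modularFunctionFieldBar (M * q)) :
        modularFunctionFieldBar (M * q)) : LaurentSeries Qb)
      (h70_w1 M q hqM A hA 1 g) :=
  h98_gv_spec _ _ _ (h70_scV M q hqM A hA) g hg

/-- The concrete valuations of level `M q²` are valuations. -/
theorem h70_w2_isVal : ∀ c : Fin 3, h99_IsVal (h70_w2 M q hqM A hA c) :=
  h70_tg_isVal2 M q A hA (h70_mid M q hqM) (h36_W M q hqM) (h70_zeta q) (h70_zeta_prim q)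
    (h70_w2 M q hqM A hA) (h70_w2_spec0 M q hqM A hA) (h70_w2_spec1 M q hqM A hA)
    (h70_w2_spec2 M q hqM A hA)

/-- The concrete valuations of level `M q` are valuations. -/
theorem h70_w1_isVal : ∀ c : Fin 2, h99_IsVal (h70_w1 M q hqM A hA c) :=
  h70_tg_isVal1 M q hqM A hA (h70_w1 M q hqM A hA) (h70_w1_spec0 M q hqM A hA)
    (h70_w1_spec1 M q hqM A hA)

/-- The values at `q` of the concrete valuations: `(1, q - 1, 1)`. -/
theorem h70_w2_q :
    (q : h69_F0 (M * q * q) (A.inertiaSubgroupIn ℚ)) ≠ 0 ∧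
    h70_w2 M q hqM A hA 0 (q : h69_F0 (M * q * q) (A.inertiaSubgroupIn ℚ)) = 1 ∧
    h70_w2 M q hqM A hA 1 (q : h69_F0 (M * q * q) (A.inertiaSubgroupIn ℚ)) = (q : ℤ) - 1 ∧
    h70_w2 M q hqM A hA 2 (q : h69_F0 (M * q * q) (A.inertiaSubgroupIn ℚ)) = 1 :=
  h70_tg_val_q M q A hA (h70_mid M q hqM) (h36_W M q hqM) (h70_zeta q) (h70_zeta_prim q)
    (h70_w2 M q hqM A hA) (h70_w2_spec0 M q hqM A hA) (h70_w2_spec1 M q hqM A hA)
    (h70_w2_spec2 M q hqM A hA)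

/-- **TOR-M for the concrete valuations** `h70_w2`, `h70_w1`: the remaining hypotheses are
(V1), (V2) and the two separators of (V3). -/
theorem h70_torM_concrete
    (hV1 : ∀ y : h69_F0 (M * q * q) (A.inertiaSubgroupIn ℚ), y ≠ 0 →
      h70_w2 M q hqM A hA 0 y = 0 →
      ∃ y' : h69_F0 (M * q) (A.inertiaSubgroupIn ℚ),
        y - h70_aF0 (M * q) q (A.inertiaSubgroupIn ℚ) y' = 0 ∨
          0 < h70_w2 M q hqM A hA 0 (y - h70_aF0 (M * q) q (A.inertiaSubgroupIn ℚ) y'))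
    (hV2 : ∀ u : h69_F0 (M * q * q) (A.inertiaSubgroupIn ℚ), u ≠ 0 →
      h70_w2 M q hqM A hA 1 u = 0 →
      ∃ g : h69_F0 (M * q) (A.inertiaSubgroupIn ℚ),
        u - h70_aF0 (M * q) q (A.inertiaSubgroupIn ℚ) g = 0 ∨
          0 < h70_w2 M q hqM A hA 1 (u - h70_aF0 (M * q) q (A.inertiaSubgroupIn ℚ) g))
    (hsep1 : ∃ z : h69_F0 (M * q * q) (A.inertiaSubgroupIn ℚ),
      z ≠ 0 ∧ h70_w2 M q hqM A hA 0 z = 0 ∧ h70_w2 M q hqM A hA 1 z = 1 ∧
        h70_w2 M q hqM A hA 2 z = 0)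
    (hsep02 : ∃ g : h69_F0 (M * q * q) (A.inertiaSubgroupIn ℚ),
      g ≠ 0 ∧ h70_w2 M q hqM A hA 0 g ≠ h70_w2 M q hqM A hA 2 g)
    (m : ℕ) (hm : 0 < m) (hqm : Nat.Coprime q m)
    (x : JZero (M * q * q)) (hx : ∀ σ ∈ A.inertiaSubgroupIn ℚ, σ • x = x)
    (hnew : h67_Jnew (M * q) q x) (hmx : m • x = 0) :
    ∃ (E4 : Divisor.degZero (K := Qb) (F := modularFunctionFieldBar (M * q * q)))
      (u4 : h69_F0 (M * q * q) (A.inertiaSubgroupIn ℚ)),
      Pic0.mk E4 = (q ^ 2 - 1) • x ∧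
      (∀ σ ∈ A.inertiaSubgroupIn ℚ, arithmeticGalois (modularFunctionFieldFull (M * q * q)) σ •
        (E4 : Divisor Qb (modularFunctionFieldBar (M * q * q))) = E4) ∧
      h67_DivNew (M * q) q (E4 : Divisor Qb (modularFunctionFieldBar (M * q * q))) ∧
      u4 ≠ 0 ∧
      (∀ v : Place Qb (modularFunctionFieldBar (M * q * q)),
        (m : ℤ) * (E4 : Divisor Qb (modularFunctionFieldBar (M * q * q))) v
          = v.ord (u4 : modularFunctionFieldBar (M * q * q))) ∧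
      ∀ c : Fin 3, u4 - 1 = 0 ∨
        h70_w2 M q hqM A hA c (q : h69_F0 (M * q * q) (A.inertiaSubgroupIn ℚ))
          ≤ h70_w2 M q hqM A hA c (u4 - 1) :=
  h70_torM_gauss_sep M q hqM A hA (h36_i0 M q) (h36_i2 M q hqM) (fun _ => rfl) (fun _ => rfl)
    (h36_i02_gen M q hqM) (h70_mid M q hqM) (h70_mid_i0 M q hqM) (h70_mid_i2 M q hqM)
    (h36_W M q hqM) (h36_W_i0 M q hqM) (h36_W_i2 M q hqM) (h70_zeta q) (h70_zeta_prim q)
    (h70_w2 M q hqM A hA) (h70_w1 M q hqM A hA)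
    (h70_w2_spec0 M q hqM A hA) (h70_w2_spec1 M q hqM A hA) (h70_w2_spec2 M q hqM A hA)
    (h70_w1_spec0 M q hqM A hA) (h70_w1_spec1 M q hqM A hA)
    hV1 hV2 hsep1 hsep02 m hm hqm x hx hnew hmx

end Concrete

end Fermat.Agent.S36
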