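import Mathlib
import Fermat.Agent.S36.h75_LatChart
import Fermat.Agent.S36.h17_FrameGen
import Fermat.Agent.S36.h97_StrictFG

/-!
# S36 / row I-LAT, generic part (helper75): rational structure of a chart lattice

Setting: `A` a valuation ring of `K`, `x ∈ F` transcendental, `V = h75_gaussRing A x`, `O` a
subring of `F` with a `V`-frame `b` (`f ∈ O ↔` all `b`-coordinates lie in `V`).  A subfield `F0`
of "rational" elements of `F` and a subfield `K0` of rational constants are given with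

* `hcoord` : the `b`-coordinates of a rational element are rational;
* `hK0x`  : a rational element of `K(x)` is a quotient of polynomials in `x` with rational
  coefficients;
* `hDV`   : every nonzero rational constant is `w ^ m` times a unit of `A` (`w ∈ 𝔪_A`).

Then

* `h75_rat_div` : **(hdiv)** a rational element of `O` lying in `𝔪_A O` is `w` times an element
  of `O`;
* `h75_rat_coord` : **(COORD)** a rational element of `O` has coordinates `P(x)/S(x)` with
  `P, S` rational polynomials over `A`, `S` primitive;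
* `h75_fibreLat_gen` : **(GEN)** for the canonical lattice datum of a framed lattice (through
  `h17_gen_of_frame`);
* `h75_chartT` : the chart rings `T = {f ∈ F0 ∩ O regular on U}` as subrings.
-/

set_option autoImplicit false

noncomputable section

open IntermediateField Polynomial Module AlgebraicCurve
open Fermat.Agent.S18 Fermat.Agent.S24 Fermat.Agent.S34

namespace Fermat.Agent.S36

variable {K F : Type*} [Field K] [Field F] [Algebra K F]

section Rat

variable (A : ValuationSubring K) {x : F} (hx : Transcendental K x)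

include hx in
/-- the value at `x` of a primitive polynomial is a unit of the Gauss ring; quotients of values
of primitive polynomials lie in the Gauss ring -/
theorem h75_gaussRing_div_mem (P S : Polynomial A) (hS : S.map (IsLocalRing.residue A) ≠ 0) :
    aeval x (P.map A.subtype) / aeval x (S.map A.subtype) ∈ h75_gaussRing A x := by
  have hinj : ∀ p : K[X], aeval x p = 0 → p = 0 := transcendental_iff.mp hx
  have hS0 : aeval x (S.map A.subtype) ≠ 0 := by
    intro h0
    apply hS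
    have h2 : S = 0 := by
      apply h75_map_subtype_injective A
      rw [hinj _ h0, Polynomial.map_zero]
    rw [h2, Polynomial.map_zero]
  exact ⟨P, S, hS, div_mul_cancel₀ _ hS0⟩

variable (K0 : Subfield K)

include hx in
/-- a quotient of rational polynomials in `x` is a rational constant times a unit of the Gauss
ring which is itself a quotient of primitive rational polynomials over `A` -/
theorem h75_rat_normal_form (P S : K[X]) (hP : ∀ i, P.coeff i ∈ K0) (hS : ∀ i, S.coeff i ∈ K0)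
    (hP0 : P ≠ 0) (hS0 : S ≠ 0) :
    ∃ c₀ : K, c₀ ∈ K0 ∧ c₀ ≠ 0 ∧ ∃ P₁ S₁ : Polynomial A,
      P₁.map (IsLocalRing.residue A) ≠ 0 ∧ S₁.map (IsLocalRing.residue A) ≠ 0 ∧
      (∀ i, ((P₁.coeff i : A) : K) ∈ K0) ∧ (∀ i, ((S₁.coeff i : A) : K) ∈ K0) ∧
      aeval x P / aeval x S =
        algebraMap K F c₀ * (aeval x (P₁.map A.subtype) / aeval x (S₁.map A.subtype)) := by
  have hinj : ∀ p : K[X], aeval x p = 0 → p = 0 := transcendental_iff.mp hx
  obtain ⟨j, hj0, -, P₁, hP₁, hP₁'⟩ := h75_exists_normalise A P hP0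
  obtain ⟨j', hj'0, -, S₁, hS₁, hS₁'⟩ := h75_exists_normalise A S hS0
  refine ⟨P.coeff j / S.coeff j', K0.div_mem (hP j) (hS j'), div_ne_zero hj0 hj'0, P₁, S₁, hP₁',
    hS₁', fun i => ?_, fun i => ?_, ?_⟩
  · have h1 : ((P₁.coeff i : A) : K) = (P₁.map A.subtype).coeff i := by
      rw [Polynomial.coeff_map]
      rfl
    rw [h1, hP₁, Polynomial.coeff_C_mul]
    exact K0.mul_mem (K0.inv_mem (hP j)) (hP i)
  · have h1 : ((S₁.coeff i : A) : K) = (S₁.map A.subtype).coeff i := by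
      rw [Polynomial.coeff_map]
      rfl
    rw [h1, hS₁, Polynomial.coeff_C_mul]
    exact K0.mul_mem (K0.inv_mem (hS j')) (hS i)
  · have hSx : aeval x S ≠ 0 := fun h => hS0 (hinj _ h)
    have hjF : algebraMap K F (P.coeff j) ≠ 0 := by
      rw [Ne, map_eq_zero]
      exact hj0
    have hj'F : algebraMap K F (S.coeff j') ≠ 0 := by
      rw [Ne, map_eq_zero]
      exact hj'0
    rw [hP₁, hS₁, map_mul, map_mul, aeval_C, aeval_C, map_div₀, map_inv₀, map_inv₀]
    field_simp

variable (w : K) (hwA : w ∈ A.nonunits)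
  (hDV : ∀ c ∈ K0, c ≠ 0 → ∃ (m : ℤ) (u : K), c = w ^ m * u ∧ u ∈ A ∧ u⁻¹ ∈ A)

include hx hwA hDV in
/-- **discreteness on rational elements of `K(x)`**: a quotient of rational polynomials in `x`
which is a nonunit constant times an element of the Gauss ring is `w` times an element of the
Gauss ring. -/
theorem h75_rat_gauss_div (P S : K[X]) (hP : ∀ i, P.coeff i ∈ K0) (hS : ∀ i, S.coeff i ∈ K0)
    (hS0 : aeval x S ≠ 0) {a : K} (ha : a ∈ A.nonunits) {v : F} (hv : v ∈ h75_gaussRing A x)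
    (h : aeval x P / aeval x S = algebraMap K F a * v) :
    (algebraMap K F w)⁻¹ * (aeval x P / aeval x S) ∈ h75_gaussRing A x := by
  have hV := h75_gaussRing_gauss A hx
  by_cases hP0 : P = 0
  · rw [hP0, map_zero, zero_div, mul_zero]
    exact (h75_gaussRing A x).zero_mem
  have hS0' : S ≠ 0 := by
    rintro rfl
    exact hS0 (map_zero _)
  obtain ⟨c₀, hc₀K, hc₀, P₁, S₁, hP₁, hS₁, -, -, hnf⟩ :=
    h75_rat_normal_form A hx K0 P S hP hS hP0 hS0'
  set u : F := aeval x (P₁.map A.subtype) / aeval x (S₁.map A.subtype) with hu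
  have huV : u ∈ h75_gaussRing A x := h75_gaussRing_div_mem A hx P₁ S₁ hS₁
  have huV' : u⁻¹ ∈ h75_gaussRing A x := by
    rw [hu, inv_div]
    exact h75_gaussRing_div_mem A hx S₁ P₁ hP₁
  have hu0 : u ≠ 0 := by
    intro h0
    have h1 : aeval x P / aeval x S = 0 := by rw [hnf, h0, mul_zero]
    rcases div_eq_zero_iff.mp h1 with h2 | h2
    · exact hP0 (transcendental_iff.mp hx _ h2)
    · exact hS0 h2
  obtain ⟨m, u₀, hm, hu₀, hu₀'⟩ := hDV c₀ hc₀K hc₀
  have hw0 : w ≠ 0 := by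
    rintro rfl
    rcases eq_or_ne m 0 with rfl | hm0
    · -- `m = 0` is excluded below anyway; here `c₀ = u₀`
      rw [zpow_zero, one_mul] at hm
      -- then `c₀` is a unit of `A` and `u = a * (v * c₀⁻¹)`
      have h1 : u = algebraMap K F a * (v * algebraMap K F c₀⁻¹) := by
        have hc₀F : algebraMap K F c₀ ≠ 0 := by
          rw [Ne, map_eq_zero]
          exact hc₀
        rw [hnf] at h
        rw [map_inv₀]
        field_simp
        linear_combination h
      refine (h75_nonunit_not_dvd hV ha huV' ((h75_gaussRing A x).mul_mem hv ?_) hu0 h1).elim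
      rw [hV.const_mem_iff, hm]
      exact hu₀'
    · rw [zero_zpow m hm0, zero_mul] at hm
      exact hc₀ hm
  have hwF : algebraMap K F w ≠ 0 := by
    rw [Ne, map_eq_zero]
    exact hw0
  have hc₀F : algebraMap K F c₀ ≠ 0 := by
    rw [Ne, map_eq_zero]
    exact hc₀
  have hwAmem : w ∈ A := (ValuationSubring.mem_nonunits_iff_exists_mem_maximalIdeal.mp hwA).1
  -- `m ≥ 1`
  have hm1 : 1 ≤ m := by
    by_contra hlt
    have hm0 : m ≤ 0 := by omega
    obtain ⟨k, hk⟩ : ∃ k : ℕ, m = -(k : ℤ) := ⟨(-m).toNat, by omega⟩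
    have hc₀inv : c₀⁻¹ ∈ A := by
      have h2 : c₀⁻¹ = w ^ k * u₀⁻¹ := by
        rw [hm, hk, zpow_neg, zpow_natCast, mul_inv, inv_inv]
      rw [h2]
      exact mul_mem (pow_mem hwAmem k) hu₀'
    have h1 : u = algebraMap K F a * (v * algebraMap K F c₀⁻¹) := by
      rw [hnf] at h
      rw [map_inv₀]
      field_simp
      linear_combination h
    exact h75_nonunit_not_dvd hV ha huV'
      ((h75_gaussRing A x).mul_mem hv ((hV.const_mem_iff _).mpr hc₀inv)) hu0 h1
  obtain ⟨k, hk⟩ : ∃ k : ℕ, m = (k : ℤ) + 1 := ⟨(m - 1).toNat, by omega⟩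
  have h3 : (algebraMap K F w)⁻¹ * (aeval x P / aeval x S) =
      algebraMap K F (w ^ k * u₀) * u := by
    rw [hnf, hm, hk, zpow_add_one₀ hw0, zpow_natCast]
    simp only [map_mul]
    field_simp
  rw [h3]
  exact (h75_gaussRing A x).mul_mem
    ((hV.const_mem_iff _).mpr (mul_mem (pow_mem hwAmem k) hu₀)) huV

end Rat

/-! ### Rational elements of a framed lattice -/

section RatFrame

variable (A : ValuationSubring K) {x : F} (hx : Transcendental K x)
  (O : Subring F) {n : ℕ} (b : Module.Basis (Fin n) K⟮x⟯ F)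
  (hb : ∀ f : F, f ∈ O ↔ ∀ i, ((b.repr f i : K⟮x⟯) : F) ∈ h75_gaussRing A x)
  (F0 : Subfield F) (K0 : Subfield K)
  (hcoord : ∀ f : F, f ∈ F0 → ∀ i, ((b.repr f i : K⟮x⟯) : F) ∈ F0)
  (hK0x : ∀ c : F, c ∈ F0 → c ∈ K⟮x⟯ → ∃ P S : K[X], (∀ i, P.coeff i ∈ K0) ∧
    (∀ i, S.coeff i ∈ K0) ∧ aeval x S ≠ 0 ∧ c = aeval x P / aeval x S)
  (w : K) (hwA : w ∈ A.nonunits)
  (hDV : ∀ c ∈ K0, c ≠ 0 → ∃ (m : ℤ) (u : K), c = w ^ m * u ∧ u ∈ A ∧ u⁻¹ ∈ A)

include hx hb hcoord hK0x hwA hDV in
/-- **(hdiv)**: a rational element of `O` which lies in `𝔪_A O` is `w` times an element of `O`. -/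
theorem h75_rat_div {f : F} (hf0 : f ∈ F0) {a : K} (ha : a ∈ A.nonunits) {g : F} (hg : g ∈ O)
    (hfg : f = algebraMap K F a * g) : (algebraMap K F w)⁻¹ * f ∈ O := by
  rw [hb]
  intro i
  have h1 := h75_frame_repr_mul b ⟨(algebraMap K F w)⁻¹,
    K⟮x⟯.inv_mem (h75_algebraMap_mem x w)⟩ f i
  rw [h1]
  push_cast
  obtain ⟨P, S, hP, hS, hS0, hc⟩ := hK0x _ (hcoord f hf0 i) (b.repr f i).2
  have h2 : ((b.repr f i : K⟮x⟯) : F) = algebraMap K F a * ((b.repr g i : K⟮x⟯) : F) := by
    rw [hfg]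
    have h3 := h75_frame_repr_mul b ⟨algebraMap K F a, h75_algebraMap_mem x a⟩ g i
    rw [h3]
    push_cast
    rfl
  rw [hc]
  refine h75_rat_gauss_div A hx K0 w hwA hDV P S hP hS hS0 ha ((hb g).mp hg i) ?_
  rw [← hc]
  exact h2

include hx hb hcoord hK0x in
/-- **(COORD)**: the coordinates of a rational element of `O` are quotients `P(x)/S(x)` of
rational polynomials over `A` with `S` primitive. -/
theorem h75_rat_coord {f : F} (hf0 : f ∈ F0) (hf : f ∈ O) (i : Fin n) :
    ∃ P S : Polynomial A, S.map (IsLocalRing.residue A) ≠ 0 ∧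
      (∀ j, ((P.coeff j : A) : K) ∈ K0) ∧ (∀ j, ((S.coeff j : A) : K) ∈ K0) ∧
      ((b.repr f i : K⟮x⟯) : F) = aeval x (P.map A.subtype) / aeval x (S.map A.subtype) := by
  have hV := h75_gaussRing_gauss A hx
  obtain ⟨P, S, hP, hS, hS0, hc⟩ := hK0x _ (hcoord f hf0 i) (b.repr f i).2
  have hcV : ((b.repr f i : K⟮x⟯) : F) ∈ h75_gaussRing A x := (hb f).mp hf i
  by_cases hP0 : P = 0
  · refine ⟨0, 1, by rw [Polynomial.map_one]; exact one_ne_zero, fun j => ?_, fun j => ?_, ?_⟩
    · rw [Polynomial.coeff_zero]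
      exact K0.zero_mem
    · rw [Polynomial.coeff_one]
      split_ifs
      · exact K0.one_mem
      · exact K0.zero_mem
    · rw [hc, hP0]
      simp
  have hS0' : S ≠ 0 := by
    rintro rfl
    exact hS0 (map_zero _)
  obtain ⟨c₀, hc₀K, hc₀, P₁, S₁, hP₁, hS₁, hP₁K, hS₁K, hnf⟩ :=
    h75_rat_normal_form A hx K0 P S hP hS hP0 hS0'
  set u : F := aeval x (P₁.map A.subtype) / aeval x (S₁.map A.subtype) with hu
  have huV' : u⁻¹ ∈ h75_gaussRing A x := by
    rw [hu, inv_div]
    exact h75_gaussRing_div_mem A hx S₁ P₁ hP₁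
  have hu0 : u ≠ 0 := by
    intro h0
    have h1 : aeval x P / aeval x S = 0 := by rw [hnf, h0, mul_zero]
    rcases div_eq_zero_iff.mp h1 with h2 | h2
    · exact hP0 (transcendental_iff.mp hx _ h2)
    · exact hS0 h2
  -- `c₀ ∈ A`
  have hc₀A : c₀ ∈ A := by
    rw [← hV.const_mem_iff]
    have h1 : algebraMap K F c₀ = ((b.repr f i : K⟮x⟯) : F) * u⁻¹ := by
      rw [hc, hnf]
      field_simp
    rw [h1]
    exact (h75_gaussRing A x).mul_mem hcV huV'
  refine ⟨C ⟨c₀, hc₀A⟩ * P₁, S₁, hS₁, fun j => ?_, hS₁K, ?_⟩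
  · rw [Polynomial.coeff_C_mul]
    exact K0.mul_mem hc₀K (hP₁K j)
  · rw [hc, hnf, Polynomial.map_mul, Polynomial.map_C, map_mul, aeval_C, hu]
    show algebraMap K F c₀ * _ = algebraMap K F c₀ * _ / _
    rw [mul_div_assoc]

end RatFrame

/-! ### (GEN) for the canonical lattice datum of a framed lattice -/

section Gen

variable {A : ValuationSubring K} {x : F} {V : Subring F}

/-- **(GEN)** for the canonical lattice datum `h75_fibreLat` of a framed lattice: the binder
`hgen` of `h46_principal_of_local` / `hstrict` of `h50_lastStep`. -/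
theorem h75_fibreLat_gen (hV : h75_Gauss A x V) (O : Subring F)
    (hfr : ∃ (n : ℕ) (b : Module.Basis (Fin n) K⟮x⟯ F),
      ∀ f : F, f ∈ O ↔ ∀ i, ((b.repr f i : K⟮x⟯) : F) ∈ V)
    (hxc : h75_IsChart K x) (E1 : Divisor K F)
    (hE1 : ∀ v : Place K F, E1 v = max 0 (-v.ord x)) :
    ∃ N0 : ℕ, ∀ n, N0 ≤ n → ∀ a ∈ h51_Rd (h75_fibreLat hV O hfr) ((n + 1) • E1),
      ∃ b' ∈ h51_Rd (h75_fibreLat hV O hfr) (n • E1),
        ∃ c' ∈ h51_Rd (h75_fibreLat hV O hfr) (n • E1),
          a = b' + (h75_fibreLat hV O hfr).redF x * c' := by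
  obtain ⟨n, b, hb⟩ := id hfr
  exact h17_gen_of_frame (h75_fibreLat hV O hfr) hxc (h75_frame_gauss hV O b hb)
    (h75_frame_unit hV O b hb) b (h75_frame_coord_mem_iff hV O b hb) E1 hE1

end Gen

/-! ### Chart rings -/

section ChartRing

/-- **The chart ring** `T = {f ∈ F0 ∩ O : f regular at every place of U}`. -/
def h75_chartT (O : Subring F) (F0 : Subfield F) (U : Set (Place K F)) : Subring F where
  carrier := {f | f ∈ F0 ∧ f ∈ O ∧ ∀ v ∈ U, f ∈ v.toValuationSubring}
  mul_mem' := fun ha hb => ⟨F0.mul_mem ha.1 hb.1, O.mul_mem ha.2.1 hb.2.1,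
    fun _ hv => mul_mem (ha.2.2 _ hv) (hb.2.2 _ hv)⟩
  one_mem' := ⟨F0.one_mem, O.one_mem, fun _ _ => one_mem _⟩
  add_mem' := fun ha hb => ⟨F0.add_mem ha.1 hb.1, O.add_mem ha.2.1 hb.2.1,
    fun _ hv => add_mem (ha.2.2 _ hv) (hb.2.2 _ hv)⟩
  zero_mem' := ⟨F0.zero_mem, O.zero_mem, fun _ _ => zero_mem _⟩
  neg_mem' := fun ha => ⟨F0.neg_mem ha.1, O.neg_mem ha.2.1, fun _ hv => neg_mem (ha.2.2 _ hv)⟩

theorem h75_mem_chartT (O : Subring F) (F0 : Subfield F) (U : Set (Place K F)) (f : F) :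
    f ∈ h75_chartT O F0 U ↔ f ∈ F0 ∧ f ∈ O ∧ ∀ v ∈ U, 0 ≤ v.ord f := by
  constructor
  · rintro ⟨h1, h2, h3⟩
    exact ⟨h1, h2, fun v hv => (h97_mem_iff_ord v f).mp (h3 v hv)⟩
  · rintro ⟨h1, h2, h3⟩
    exact ⟨h1, h2, fun v hv => (h97_mem_iff_ord v f).mpr (h3 v hv)⟩

end ChartRing

end Fermat.Agent.S36
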