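import Mathlib
import Fermat.Agent.S36.h80_FamInst
import Fermat.Agent.S36.h97_IntScale
import Fermat.Agent.S36.h17_LatMod

/-!
# S36 / row I-FAM, closed form: the two chart rings are noetherian (helper80)

* `h80_ev_reflect`, `h80_hvert_inv` : the vertical integrality `hvert` of `h80_famOf_noeth`
  for the chart function `x` gives it for `x⁻¹` (the Gauss rings of `(A₀, x)` and `(A₀, x⁻¹)`
  coincide): reflect the scaling polynomial.
* `h80_hvert_of_C3` : `hvert` from (COMP3-M) = the single iff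
  `hC3 : ∀ f : F₀, f ≠ 0 → ((f : F) ∈ D.O ↔ ∀ c, 0 ≤ w c f)` at the I-LAT lattice
  `D = h17_D2 N q A hA x0 hx` (via `h17_D2_coord` and `h97_scaled_of_isInt`).
* `h80_noeth_chart`, `h80_noeth_chart_inv` : the chart rings of `x0` and of `x0⁻¹` are
  noetherian, and integral over `A₀[x0]`, `A₀[x0⁻¹]`, from `hC3` ALONE.
* `h80_noeth_fam1`, `h80_noeth_fam2` : the same for `h80_fam1`, `h80_fam2` (charts `j`, `1/j`)
  at the lattice `h17_D2j N q A hA`, with `hC3` VERBATIM the binder of `h61_geomN_of_data`.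
-/

set_option autoImplicit false
set_option linter.unusedSectionVars false
set_option linter.style.haveILetI false

noncomputable section

namespace Fermat.Agent.S36

open AlgebraicCurve ModularCurve Polynomial
open Fermat.Agent.S18 Fermat.Agent.S24 Fermat.Agent.S19 Fermat.Agent.S34

local notation "Qb" => AlgebraicClosure ℚ

section Inv

variable {K0 F0 : Type*} [Field K0] [Field F0] [Algebra K0 F0]

/-- Evaluation of the reflected polynomial at `x⁻¹`. -/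
theorem h80_ev_reflect (A0 : Subring K0) (x : F0) (hx : x ≠ 0) (D : ℕ) (v : Polynomial A0)
    (hv : v.natDegree ≤ D) :
    h97_ev A0 x⁻¹ (v.reflect D) = x⁻¹ ^ D * h97_ev A0 x v := by
  letI := invertibleOfNonzero hx
  have h := eval₂_reflect_mul_pow ((algebraMap K0 F0).comp A0.subtype) x D v hv
  rw [invOf_eq_inv] at h
  show eval₂ ((algebraMap K0 F0).comp A0.subtype) x⁻¹ (v.reflect D) =
    x⁻¹ ^ D * eval₂ ((algebraMap K0 F0).comp A0.subtype) x v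
  rw [← h, inv_pow, mul_comm, mul_assoc, mul_inv_cancel₀ (pow_ne_zero D hx), mul_one]

/-- **`hvert` for `x⁻¹` from `hvert` for `x`**: if `s(x) * f` is integral over `A₀[x]`, then
`s*(x⁻¹) * f` is integral over `A₀[x⁻¹]` for a reflection `s*` of `s`. -/
theorem h80_hvert_inv (A0 : Subring K0) (x : F0) (hx : x ≠ 0) (f : F0) (s : Polynomial A0)
    (hint : (h97_ev A0 x).IsIntegralElem (h97_ev A0 x s * f)) :
    ∃ D : ℕ, (h97_ev A0 x⁻¹).IsIntegralElem (h97_ev A0 x⁻¹ (s.reflect D) * f) := by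
  obtain ⟨m, ⟨D, rfl⟩, hm⟩ := h80_exists_scaled_integralElem (h97_ev A0 x⁻¹) (h97_ev A0 x)
    (Submonoid.powers (X : Polynomial A0))
    (fun v => ⟨X ^ v.natDegree, ⟨_, rfl⟩, v.reflect v.natDegree, by
      rw [map_pow, h97_ev_X, h80_ev_reflect A0 x hx _ v le_rfl]⟩) hint
  refine ⟨D + s.natDegree, ?_⟩
  have h1 : h97_ev A0 x⁻¹ (s.reflect (D + s.natDegree)) * f =
      h97_ev A0 x⁻¹ (X ^ s.natDegree) * (h97_ev A0 x⁻¹ (X ^ D) * (h97_ev A0 x s * f)) := by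
    rw [h80_ev_reflect A0 x hx _ s (Nat.le_add_left _ _), map_pow, map_pow, h97_ev_X, pow_add]
    ring
  rw [h1]
  exact RingHom.IsIntegralElem.mul _ ((h97_ev A0 x⁻¹).isIntegralElem_map) hm

end Inv

section Mod

variable (N : ℕ) [NeZero N] (q : ℕ) [Fact q.Prime] (A : ValuationSubring Qb)
  (hA : A.LiesOverPrime q)
variable {κ : Type*} [Finite κ] (w : κ → h69_F0 N (A.inertiaSubgroupIn ℚ) → ℤ)
  (hw_mul : ∀ c (f g : h69_F0 N (A.inertiaSubgroupIn ℚ)), f ≠ 0 → g ≠ 0 →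
    w c (f * g) = w c f + w c g)
  (hw_add : ∀ c (f g : h69_F0 N (A.inertiaSubgroupIn ℚ)), f ≠ 0 → g ≠ 0 → f + g ≠ 0 →
    min (w c f) (w c g) ≤ w c (f + g))
  (x0 : h69_F0 N (A.inertiaSubgroupIn ℚ))
  (hx : h75_IsChart Qb (x0 : modularFunctionFieldBar N))

/-- **`hvert` from (COMP3-M)**. -/
theorem h80_hvert_of_C3
    (hC3 : ∀ f : h69_F0 N (A.inertiaSubgroupIn ℚ), f ≠ 0 →
      ((f : modularFunctionFieldBar N) ∈ (h17_D2 N q A hA x0 hx).O ↔ ∀ c, 0 ≤ w c f))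
    (f : h69_F0 N (A.inertiaSubgroupIn ℚ)) (hf : f ≠ 0) (hw : ∀ c, 0 ≤ w c f) :
    ∃ s : Polynomial (h69_A0 A).toSubring,
      (∃ i, (s.coeff i : h69_K0 (A.inertiaSubgroupIn ℚ))⁻¹ ∈ h69_A0 A ∧ s.coeff i ≠ 0) ∧
      (h97_ev (h69_A0 A).toSubring x0).IsIntegralElem (h97_ev (h69_A0 A).toSubring x0 s * f) :=
  h97_scaled_of_isInt (h69_A0 A) x0 _
    ((h17_D2_coord N q A hA x0 hx f).1 ((hC3 f hf).2 hw))

/-- The constants of `A₀` have non-negative vertical valuations, from (COMP3-M). -/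
theorem h80_hwA_of_C3
    (hC3 : ∀ f : h69_F0 N (A.inertiaSubgroupIn ℚ), f ≠ 0 →
      ((f : modularFunctionFieldBar N) ∈ (h17_D2 N q A hA x0 hx).O ↔ ∀ c, 0 ≤ w c f))
    (c : κ) (a : h69_K0 (A.inertiaSubgroupIn ℚ)) (ha : a ∈ h69_A0 A) (ha0 : a ≠ 0) :
    0 ≤ w c (algebraMap (h69_K0 (A.inertiaSubgroupIn ℚ)) (h69_F0 N (A.inertiaSubgroupIn ℚ)) a) := by
  have hne : algebraMap (h69_K0 (A.inertiaSubgroupIn ℚ)) (h69_F0 N (A.inertiaSubgroupIn ℚ)) a ≠ 0 :=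
    (_root_.map_ne_zero _).2 ha0
  refine (hC3 _ hne).1 ?_ c
  rw [h69_inst_comm]
  exact ((h17_D2 N q A hA x0 hx).mem_iff (a : Qb)).1 ha

/-- **The chart ring of `x0` is noetherian** and integral over `A₀[x0]`, from (COMP3-M). -/
theorem h80_noeth_chart
    (hC3 : ∀ f : h69_F0 N (A.inertiaSubgroupIn ℚ), f ≠ 0 →
      ((f : modularFunctionFieldBar N) ∈ (h17_D2 N q A hA x0 hx).O ↔ ∀ c, 0 ≤ w c f)) :
    IsNoetherianRing
      (h80_famOf N (A.inertiaSubgroupIn ℚ) w hw_mul hw_add (x0 : modularFunctionFieldBar N) hx).B ∧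
    ∀ f ∈ (h80_famOf N (A.inertiaSubgroupIn ℚ) w hw_mul hw_add
        (x0 : modularFunctionFieldBar N) hx).B,
      (h97_ev (h69_A0 A).toSubring x0).IsIntegralElem f := by
  have hx0 : x0 ≠ 0 := fun h => hx.ne_zero (by rw [h]; rfl)
  exact h80_famOf_noeth N q A hA w hw_mul hw_add x0 hx
    (h80_hwA_of_C3 N q A hA w x0 hx hC3)
    (fun c => (hC3 x0 hx0).1 (h17_D2_x_mem N q A hA x0 hx) c)
    (h80_hvert_of_C3 N q A hA w x0 hx hC3)

/-- **The chart ring of `x0⁻¹` is noetherian** and integral over `A₀[x0⁻¹]`, from (COMP3-M)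
for the chart `x0`. -/
theorem h80_noeth_chart_inv
    (hC3 : ∀ f : h69_F0 N (A.inertiaSubgroupIn ℚ), f ≠ 0 →
      ((f : modularFunctionFieldBar N) ∈ (h17_D2 N q A hA x0 hx).O ↔ ∀ c, 0 ≤ w c f)) :
    IsNoetherianRing
      (h80_famOf N (A.inertiaSubgroupIn ℚ) w hw_mul hw_add (x0 : modularFunctionFieldBar N)⁻¹
        (h75_isChart_inv hx)).B ∧
    ∀ f ∈ (h80_famOf N (A.inertiaSubgroupIn ℚ) w hw_mul hw_add
        (x0 : modularFunctionFieldBar N)⁻¹ (h75_isChart_inv hx)).B,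
      (h97_ev (h69_A0 A).toSubring x0⁻¹).IsIntegralElem f := by
  have hx0 : x0 ≠ 0 := fun h => hx.ne_zero (by rw [h]; rfl)
  have hxi0 : x0⁻¹ ≠ 0 := inv_ne_zero hx0
  have hx' : h75_IsChart Qb ((x0⁻¹ : h69_F0 N (A.inertiaSubgroupIn ℚ)) :
      modularFunctionFieldBar N) := h75_isChart_inv hx
  refine h80_famOf_noeth N q A hA w hw_mul hw_add x0⁻¹ hx'
    (h80_hwA_of_C3 N q A hA w x0 hx hC3)
    (fun c => (hC3 x0⁻¹ hxi0).1 (h17_D2_x_inv_mem N q A hA x0 hx) c) ?_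
  intro f hf hw
  obtain ⟨s, ⟨i, hi, hi0⟩, hs⟩ := h80_hvert_of_C3 N q A hA w x0 hx hC3 f hf hw
  obtain ⟨D, hD⟩ := h80_hvert_inv (h69_A0 A).toSubring x0 hx0 f s hs
  refine ⟨s.reflect D, ⟨revAt D i, ?_⟩, hD⟩
  rw [coeff_reflect, revAt_invol]
  exact ⟨hi, hi0⟩

end Mod

section Jbar

variable (N : ℕ) [NeZero N] (q : ℕ) [Fact q.Prime] (A : ValuationSubring Qb)
  (hA : A.LiesOverPrime q)
variable {κ : Type*} [Finite κ] (w : κ → h69_F0 N (A.inertiaSubgroupIn ℚ) → ℤ)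
  (hw_mul : ∀ c (f g : h69_F0 N (A.inertiaSubgroupIn ℚ)), f ≠ 0 → g ≠ 0 →
    w c (f * g) = w c f + w c g)
  (hw_add : ∀ c (f g : h69_F0 N (A.inertiaSubgroupIn ℚ)), f ≠ 0 → g ≠ 0 → f + g ≠ 0 →
    min (w c f) (w c g) ≤ w c (f + g))

/-- **Chart 1 is noetherian** (and integral over `A₀[j]`), from the (COMP3-M) binder `hC3` of
`h61_geomN_of_data` at `D := h17_D2j N q A hA`. -/
theorem h80_noeth_fam1
    (hC3 : ∀ f : h69_F0 N (A.inertiaSubgroupIn ℚ), f ≠ 0 →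
      ((f : modularFunctionFieldBar N) ∈ (h17_D2j N q A hA).O ↔ ∀ c, 0 ≤ w c f)) :
    IsNoetherianRing (h80_fam1 N (A.inertiaSubgroupIn ℚ) w hw_mul hw_add).B ∧
    ∀ f ∈ (h80_fam1 N (A.inertiaSubgroupIn ℚ) w hw_mul hw_add).B,
      (h97_ev (h69_A0 A).toSubring (h17_jbar0 N (A.inertiaSubgroupIn ℚ))).IsIntegralElem f :=
  h80_noeth_chart N q A hA w hw_mul hw_add (h17_jbar0 N (A.inertiaSubgroupIn ℚ))
    (h17_jbar0_chart N (A.inertiaSubgroupIn ℚ)) hC3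

/-- **Chart 2 is noetherian** (and integral over `A₀[1/j]`), from the same `hC3`. -/
theorem h80_noeth_fam2
    (hC3 : ∀ f : h69_F0 N (A.inertiaSubgroupIn ℚ), f ≠ 0 →
      ((f : modularFunctionFieldBar N) ∈ (h17_D2j N q A hA).O ↔ ∀ c, 0 ≤ w c f)) :
    IsNoetherianRing (h80_fam2 N (A.inertiaSubgroupIn ℚ) w hw_mul hw_add).B ∧
    ∀ f ∈ (h80_fam2 N (A.inertiaSubgroupIn ℚ) w hw_mul hw_add).B,
      (h97_ev (h69_A0 A).toSubring (h17_jbar0 N (A.inertiaSubgroupIn ℚ))⁻¹).IsIntegralElem f :=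
  h80_noeth_chart_inv N q A hA w hw_mul hw_add (h17_jbar0 N (A.inertiaSubgroupIn ℚ))
    (h17_jbar0_chart N (A.inertiaSubgroupIn ℚ)) hC3

end Jbar

end Fermat.Agent.S36
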