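import Fermat.Agent.S36.h29_FinalPlug
import Fermat.Agent.S36.h17_LatMod
import Fermat.Agent.S36.h97_C3Mod
import Fermat.Agent.S36.h98_W2
import Fermat.Agent.S36.h49_ExInst
import Fermat.Agent.S36.h69_W2Hne
import Fermat.Agent.S36.h69_DegQ2

/-!
# S36 / rows I-LAT + COMP3-M into the final plug (helper97)

* `h97_plug_lat` : helper29's `h29_final_plug` at level `M` with ALL the I-LAT binders discharged
  by helper17's `h17_LatMod` (`D := h17_D2j M q A hA`, `E1 := h17_E1 M`, `E2 := h17_E2 M`).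
  Its statement is *by construction* the remaining part of `h29_final_plug`
  (`w hw_mul hw_add a ha hwq hC3 hfin1 hfin2 lam hlam c Pnew hNZ`).
* `h97_comp3_w2` : `(C3)` for `D := h17_D2j (L q²)` and `w := h98_w2` (helper98's vertical
  valuations with `hex := h49_ex ..`), from the two Gauss-ring inputs `hR`, `hb` (helper91),
  the count and `hnorm` for the middle component (helper74).
* `h97_plug_w2` : `h29_final_plug` at level `L q²` with I-LAT, I-VAL (`h98_w2`) and `(C3)`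
  discharged; what remains is `lam hlam c Pnew hNZ`.
-/

set_option autoImplicit false
set_option linter.style.haveILetI false

open AlgebraicCurve ModularCurve IntermediateField Polynomial CongruenceSubgroup
open scoped MatrixGroups
open Fermat.Agent.S18 Fermat.Agent.S24 Fermat.Agent.S19 Fermat.Agent.S34

namespace Fermat.Agent.S36

local notation "Qb" => AlgebraicClosure ℚ

section Lat

variable (M : ℕ) [NeZero M] (q : ℕ) [Fact q.Prime] (A : ValuationSubring Qb)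
  (hA : A.LiesOverPrime q)

/-- **The final plug with the I-LAT row discharged**: `h29_final_plug` for the modular D4 lattice
`h17_D2j M q A hA`; the remaining binders are
`w hw_mul hw_add a ha hwq hC3 hfin1 hfin2 lam hlam c Pnew hNZ`, verbatim those of
`h29_final_plug` with `D := h17_D2j M q A hA`. -/
theorem h97_plug_lat {κ : Type*} [Finite κ] :
    type_of% (@h29_final_plug M _ q (Fact.out : q.Prime) A hA _ _ _ _ _
      (h17_D2_nontrivial M q A hA _ _)
      (h17_D2j M q A hA) (h17_D2_A M q A hA _ _) (h17_D2_on M q A hA _ _)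
      (h17_D2_hinv M q A hA _ _) (h17_D2_rank M q A hA _ _)
      (h17_D2j_x_mem M q A hA) (h17_D2j_x_inv_mem M q A hA)
      (h17_E1 M) (h17_E2 M) (h17_E_spec M).2.1 (h17_E_spec M).2.2.1 (h17_E_spec M).2.2.2.1
      (h17_E_spec M).2.2.2.2.1
      (h17_D2j_gen M q A hA).choose (h17_D2j_gen M q A hA).choose_spec
      (fun f hf0 hfO hred => (h17_D2_hdiv M q A hA _ _ f hf0 hfO hred).2) κ _) :=
  @h29_final_plug M _ q (Fact.out : q.Prime) A hA _ _ _ _ _
      (h17_D2_nontrivial M q A hA _ _)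
      (h17_D2j M q A hA) (h17_D2_A M q A hA _ _) (h17_D2_on M q A hA _ _)
      (h17_D2_hinv M q A hA _ _) (h17_D2_rank M q A hA _ _)
      (h17_D2j_x_mem M q A hA) (h17_D2j_x_inv_mem M q A hA)
      (h17_E1 M) (h17_E2 M) (h17_E_spec M).2.1 (h17_E_spec M).2.2.1 (h17_E_spec M).2.2.2.1
      (h17_E_spec M).2.2.2.2.1
      (h17_D2j_gen M q A hA).choose (h17_D2j_gen M q A hA).choose_spec
      (fun f hf0 hfO hred => (h17_D2_hdiv M q A hA _ _ f hf0 hfO hred).2) κ _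

end Lat

section W2

variable (L q : ℕ) [NeZero L] [NeZero q] [Fact q.Prime] (hqL : ¬ q ∣ L)
  (A : ValuationSubring Qb) (hA : A.LiesOverPrime q) (ζ : Qb) (hζ : IsPrimitiveRoot ζ q)
  (hex : h98_Ex L q hqL A ζ hζ)

omit [NeZero L] [NeZero q] in
/-- The multiplicities `![1, q - 1, 1]` are `≥ 1`. -/
theorem h97_w2_ha : ∀ c : Fin 3, 1 ≤ (![1, q - 1, 1] : Fin 3 → ℕ) c := by
  have hq : q.Prime := Fact.out
  have h2 := hq.two_le
  intro c
  fin_cases c
  · exact le_refl 1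
  · show 1 ≤ q - 1
    omega
  · exact le_refl 1

include hA in
/-- The values of `h98_w2` at `q` are `![1, q - 1, 1]`. -/
theorem h97_w2_hwq : ∀ c : Fin 3,
    h98_w2 L q hqL A ζ hζ hex c (q : h69_F0 (L * q * q) (A.inertiaSubgroupIn ℚ)) =
      ((![1, q - 1, 1] : Fin 3 → ℕ) c : ℤ) := by
  have hq : q.Prime := Fact.out
  have h2 := hq.two_le
  intro c
  fin_cases c
  · exact (h98_hq0 L q hqL A hA ζ hζ hex).trans (by simp)
  · refine (h98_hq1 L q hqL A hA ζ hζ hex).trans ?_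
    show (q : ℤ) - 1 = ((q - 1 : ℕ) : ℤ)
    omega
  · exact (h98_hq2 L q hqL A hA ζ hζ hex).trans (by simp)

include hA in
/-- **(C3) for the lattice `h17_D2j (L q²)` and the valuations `h98_w2`**, from the Gauss-ring
inputs `hR`, `hb` (helper91's shapes, over `↥(h75_gaussRing A0 j)`), the count, and `hnorm` for
the middle component: this is the `hC3` binder of `h29_final_plug` / `h97_plug_lat`. -/
theorem h97_comp3_w2
    (hR : ∀ (c : Fin 3) (r : h69_F0 (L * q * q) (A.inertiaSubgroupIn ℚ)),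
      r ∈ h75_gaussRing (h69_A0 A) (h69_jF0 (L * q * q) (A.inertiaSubgroupIn ℚ)) → r ≠ 0 →
        0 ≤ h98_w2 L q hqL A ζ hζ hex c r)
    (f : Fin 3 → ℕ) (b : (c : Fin 3) → Fin (f c) → h69_F0 (L * q * q) (A.inertiaSubgroupIn ℚ))
    (hb : ∀ (c : Fin 3) (r : Fin (f c) →
        ↥(h75_gaussRing (h69_A0 A) (h69_jF0 (L * q * q) (A.inertiaSubgroupIn ℚ)))),
      (∃ j, IsUnit (r j)) →
        ∑ j, r j • b c j ≠ 0 ∧ h98_w2 L q hqL A ζ hζ hex c (∑ j, r j • b c j) = 0)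
    (hcount : q * (q + 1) * ModularCurve.dedekindPsi L ≤
      ∑ c : Fin 3, (![1, q - 1, 1] : Fin 3 → ℕ) c * f c)
    (hnorm1 : ∃ z : h69_F0 (L * q * q) (A.inertiaSubgroupIn ℚ),
      z ≠ 0 ∧ h98_w2 L q hqL A ζ hζ hex 1 z = 1) :
    ∀ g : h69_F0 (L * q * q) (A.inertiaSubgroupIn ℚ), g ≠ 0 →
      ((g : modularFunctionFieldBar (L * q * q)) ∈ (h17_D2j (L * q * q) q A hA).O ↔
        ∀ c, 0 ≤ h98_w2 L q hqL A ζ hζ hex c g) := by
  have hq : q.Prime := Fact.out
  have hq0 : (q : h69_F0 (L * q * q) (A.inertiaSubgroupIn ℚ)) ≠ 0 := by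
    exact_mod_cast hq.ne_zero
  have hnorm : ∀ c : Fin 3, ∃ z : h69_F0 (L * q * q) (A.inertiaSubgroupIn ℚ),
      z ≠ 0 ∧ h98_w2 L q hqL A ζ hζ hex c z = 1 := by
    intro c
    fin_cases c
    · exact ⟨_, hq0, h98_hq0 L q hqL A hA ζ hζ hex⟩
    · exact hnorm1
    · exact ⟨_, hq0, h98_hq2 L q hqL A hA ζ hζ hex⟩
  have hn : Module.finrank (h69_K0 (A.inertiaSubgroupIn ℚ))⟮h17_jbar0 (L * q * q)
      (A.inertiaSubgroupIn ℚ)⟯ (h69_F0 (L * q * q) (A.inertiaSubgroupIn ℚ)) ≤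
      ∑ c : Fin 3, (![1, q - 1, 1] : Fin 3 → ℕ) c * f c :=
    (h69_F0_finrank_q2 L q hq hqL (A.inertiaSubgroupIn ℚ)).le.trans hcount
  exact h97_C3_mod75 (L * q * q) q A (h17_jbar0 (L * q * q) (A.inertiaSubgroupIn ℚ))
    (h17_jbar0_chart (L * q * q) (A.inertiaSubgroupIn ℚ)) hA (h98_w2 L q hqL A ζ hζ hex)
    (h98_w2_isVal L q hqL A hA ζ hζ hex) (fun c r hr => hR c r r.2 hr)
    (![1, q - 1, 1]) (h97_w2_hwq L q hqL A hA ζ hζ hex) hnorm
    (h69_w2_hne L q hqL A hA ζ hζ hex) f b hb hn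

/-- **The final plug at level `L q²` with I-LAT, I-VAL (`h98_w2`) and COMP3-M discharged**:
`h29_final_plug` for `D := h17_D2j (L q²)`, `w := h98_w2`, `a := ![1, q - 1, 1]`; the remaining
binders are `lam hlam c Pnew hNZ` (verbatim those of `h29_final_plug`). Open inputs: `hR`, `hb`,
`hcount`, `hnorm1` of `h97_comp3_w2`. -/
theorem h97_plug_w2
    (hR : ∀ (c : Fin 3) (r : h69_F0 (L * q * q) (A.inertiaSubgroupIn ℚ)),
      r ∈ h75_gaussRing (h69_A0 A) (h69_jF0 (L * q * q) (A.inertiaSubgroupIn ℚ)) → r ≠ 0 →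
        0 ≤ h98_w2 L q hqL A ζ hζ hex c r)
    (f : Fin 3 → ℕ) (b : (c : Fin 3) → Fin (f c) → h69_F0 (L * q * q) (A.inertiaSubgroupIn ℚ))
    (hb : ∀ (c : Fin 3) (r : Fin (f c) →
        ↥(h75_gaussRing (h69_A0 A) (h69_jF0 (L * q * q) (A.inertiaSubgroupIn ℚ)))),
      (∃ j, IsUnit (r j)) →
        ∑ j, r j • b c j ≠ 0 ∧ h98_w2 L q hqL A ζ hζ hex c (∑ j, r j • b c j) = 0)
    (hcount : q * (q + 1) * ModularCurve.dedekindPsi L ≤
      ∑ c : Fin 3, (![1, q - 1, 1] : Fin 3 → ℕ) c * f c)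
    (hnorm1 : ∃ z : h69_F0 (L * q * q) (A.inertiaSubgroupIn ℚ),
      z ≠ 0 ∧ h98_w2 L q hqL A ζ hζ hex 1 z = 1) :
    type_of% (h97_plug_lat (L * q * q) q A hA (κ := Fin 3) (h98_w2 L q hqL A ζ hζ hex)
      (h98_hw2mul L q hqL A hA ζ hζ hex) (h98_hw2add L q hqL A hA ζ hζ hex)
      (![1, q - 1, 1]) (h97_w2_ha q) (h97_w2_hwq L q hqL A hA ζ hζ hex)
      (h97_comp3_w2 L q hqL A hA ζ hζ hex hR f b hb hcount hnorm1)
      (h29_chart_fin (L * q * q) _) (h29_chart_fin (L * q * q) _)) :=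
  h97_plug_lat (L * q * q) q A hA (κ := Fin 3) (h98_w2 L q hqL A ζ hζ hex)
      (h98_hw2mul L q hqL A hA ζ hζ hex) (h98_hw2add L q hqL A hA ζ hζ hex)
      (![1, q - 1, 1]) (h97_w2_ha q) (h97_w2_hwq L q hqL A hA ζ hζ hex)
      (h97_comp3_w2 L q hqL A hA ζ hζ hex hR f b hb hcount hnorm1)
      (h29_chart_fin (L * q * q) _) (h29_chart_fin (L * q * q) _)

omit [NeZero q] in
/-- The count for helper91's residue families `f c = ![1, 1, q * q] c * ψ(L)`. -/
theorem h97_count_w2 :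
    q * (q + 1) * ModularCurve.dedekindPsi L ≤
      ∑ c : Fin 3, (![1, q - 1, 1] : Fin 3 → ℕ) c *
        ((![1, 1, q * q] : Fin 3 → ℕ) c * Nat.card (SL(2, ℤ) ⧸ Gamma0 L)) := by
  have hq : q.Prime := Fact.out
  rw [h29_card_quotient_Gamma0 L]
  obtain ⟨m, rfl⟩ : ∃ m, q = m + 1 := ⟨q - 1, by have := hq.pos; omega⟩
  simp only [Fin.sum_univ_three, Matrix.cons_val_zero, Matrix.cons_val_one, Matrix.cons_val_two,
    Matrix.head_cons, Matrix.tail_cons, Nat.add_sub_cancel]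
  apply le_of_eq
  ring

end W2

end Fermat.Agent.S36
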