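/-
(COMP3-M), closed.  The single iff `f ∈ O ↔ ∀ c, 0 ≤ w2 c f` for the lattice `h17_D2j (L q²)`
and the three vertical valuations of level `L q²` (both `h36_w2` and `h98_w2`), with no
hypothesis beyond `hA : A.LiesOverPrime q`: helper99's `h99_hC3_fin_36 / _98` applied to the
residue-degree blocks `h91_hR_w98`, `h91_bRes`, `h91_hb_w98` of `h91_ResFamInst`.
Also the closed arguments of helper97's `h97_comp3_w2 / h97_plug_w2`.
-/
import Mathlib
import Fermat.Agent.S36.h91_ResFamInst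
import Fermat.Agent.S36.h99_Comp3Fin
import Fermat.Agent.S36.h97_PlugLat

set_option autoImplicit false
set_option synthInstance.maxHeartbeats 400000
set_option linter.unusedSectionVars false

noncomputable section

namespace Fermat.Agent.S36

open ModularCurve AlgebraicCurve CongruenceSubgroup Polynomial IntermediateField
open scoped MatrixGroups
open Fermat.Agent.S34 Fermat.Agent.S37 Fermat.Agent.S24 Fermat.Agent.S35 Fermat.Agent.S18

local notation "Qb" => AlgebraicClosure ℚ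

section Closed

variable (L q : ℕ) [NeZero L] [NeZero q] [Fact q.Prime] (hqL : ¬ q ∣ L)
  (A : ValuationSubring Qb) (hA : A.LiesOverPrime q)

/-- **(COMP3-M) for `h98_w2`** (any primitive `q`-th root of unity `ζ`, existence `h49_ex`). -/
theorem h91_hC3_98 (ζ : Qb) (hζ : IsPrimitiveRoot ζ q) :
    ∀ f : h69_F0 (L * q * q) (A.inertiaSubgroupIn ℚ), f ≠ 0 →
      ((f : modularFunctionFieldBar (L * q * q)) ∈ (h17_D2j (L * q * q) q A hA).O ↔
        ∀ c, 0 ≤ h98_w2 L q hqL A ζ hζ (h49_ex L q hqL A hA ζ hζ) c f) :=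
  h99_hC3_fin_98 L q hqL A hA ζ hζ
    (h91_hR_w98 L q hqL A hA ζ hζ (h49_ex L q hqL A hA ζ hζ))
    (h91_bRes L q hqL A)
    (h91_hb_w98 L q hqL A hA ζ hζ (h49_ex L q hqL A hA ζ hζ))

/-- **(COMP3-M) for `h36_w2`.** -/
theorem h91_hC3_36 :
    ∀ f : h69_F0 (L * q * q) (A.inertiaSubgroupIn ℚ), f ≠ 0 →
      ((f : modularFunctionFieldBar (L * q * q)) ∈ (h17_D2j (L * q * q) q A hA).O ↔
        ∀ c, 0 ≤ h36_w2 L q hqL A c f) :=
  h99_hC3_fin_36 L q hqL A hA
    (h91_hR_w98 L q hqL A hA (h36_zeta q) (h36_zeta_prim q)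
      (h49_ex L q hqL A hA (h36_zeta q) (h36_zeta_prim q)))
    (h91_bRes L q hqL A)
    (h91_hb_w98 L q hqL A hA (h36_zeta q) (h36_zeta_prim q)
      (h49_ex L q hqL A hA (h36_zeta q) (h36_zeta_prim q)))

/-- The count for the residue degrees `h91_fRes`. -/
theorem h91_count_fRes :
    q * (q + 1) * ModularCurve.dedekindPsi L ≤
      ∑ c : Fin 3, (![1, q - 1, 1] : Fin 3 → ℕ) c * h91_fRes L q c :=
  h97_count_w2 L q

/-- **The plug `h97_plug_w2` with all its I-VAL arguments discharged** (`hex := h49_ex`,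
`hR, f, b, hb := h91_ResFamInst`, `hcount`, `hnorm1 := h99_w2_hnorm1`). -/
theorem h91_plug_w2 (ζ : Qb) (hζ : IsPrimitiveRoot ζ q) :
    type_of% (h97_plug_w2 L q hqL A hA ζ hζ (h49_ex L q hqL A hA ζ hζ)
      (h91_hR_w98 L q hqL A hA ζ hζ (h49_ex L q hqL A hA ζ hζ))
      (h91_fRes L q) (h91_bRes L q hqL A)
      (h91_hb_w98 L q hqL A hA ζ hζ (h49_ex L q hqL A hA ζ hζ))
      (h91_count_fRes L q)
      (h99_w2_hnorm1 L q hqL A hA ζ hζ (h49_ex L q hqL A hA ζ hζ))) :=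
  h97_plug_w2 L q hqL A hA ζ hζ (h49_ex L q hqL A hA ζ hζ)
    (h91_hR_w98 L q hqL A hA ζ hζ (h49_ex L q hqL A hA ζ hζ))
    (h91_fRes L q) (h91_bRes L q hqL A)
    (h91_hb_w98 L q hqL A hA ζ hζ (h49_ex L q hqL A hA ζ hζ))
    (h91_count_fRes L q)
    (h99_w2_hnorm1 L q hqL A hA ζ hζ (h49_ex L q hqL A hA ζ hζ))

end Closed

end Fermat.Agent.S36
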