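import Mathlib
import Fermat.Agent.S36.h80_NoethMod
import Fermat.Agent.S36.h91_Comp3Closed

/-!
# S36 / row I-FAM, CLOSED: the chart rings of level `L q²` are noetherian (helper80)

For the three vertical valuations `w2` of level `L q²` (both objects on main, `h36_w2` and
`h98_w2`) and ANY proofs `hw_mul`, `hw_add` of the valuation axioms: the chart rings of
`h80_fam1` (chart `j`) and `h80_fam2` (chart `1/j`) are noetherian and integral over `A₀[j]`,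
resp. `A₀[1/j]`.  No hypothesis beyond `hA : A.LiesOverPrime q`
(`h80_noeth_fam1/2` applied to the closed (COMP3-M) `h91_hC3_36`, `h91_hC3_98`).
-/

set_option autoImplicit false
set_option synthInstance.maxHeartbeats 400000
set_option linter.unusedSectionVars false

noncomputable section

namespace Fermat.Agent.S36

open ModularCurve AlgebraicCurve Polynomial
open Fermat.Agent.S34 Fermat.Agent.S37 Fermat.Agent.S24 Fermat.Agent.S35 Fermat.Agent.S18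

local notation "Qb" => AlgebraicClosure ℚ

section Closed

variable (L q : ℕ) [NeZero L] [NeZero q] [Fact q.Prime] (hqL : ¬ q ∣ L)
  (A : ValuationSubring Qb) (hA : A.LiesOverPrime q)

include hA in
/-- Chart 1 at level `L q²` with `h36_w2`: noetherian, integral over `A₀[j]`. -/
theorem h80_noeth1_36
    (hw_mul : ∀ c (f g : h69_F0 (L * q * q) (A.inertiaSubgroupIn ℚ)), f ≠ 0 → g ≠ 0 →
      h36_w2 L q hqL A c (f * g) = h36_w2 L q hqL A c f + h36_w2 L q hqL A c g)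
    (hw_add : ∀ c (f g : h69_F0 (L * q * q) (A.inertiaSubgroupIn ℚ)), f ≠ 0 → g ≠ 0 →
      f + g ≠ 0 → min (h36_w2 L q hqL A c f) (h36_w2 L q hqL A c g) ≤
        h36_w2 L q hqL A c (f + g)) :
    IsNoetherianRing (h80_fam1 (L * q * q) (A.inertiaSubgroupIn ℚ) (h36_w2 L q hqL A)
      hw_mul hw_add).B ∧
    ∀ f ∈ (h80_fam1 (L * q * q) (A.inertiaSubgroupIn ℚ) (h36_w2 L q hqL A) hw_mul hw_add).B,
      (h97_ev (h69_A0 A).toSubring
        (h17_jbar0 (L * q * q) (A.inertiaSubgroupIn ℚ))).IsIntegralElem f :=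
  h80_noeth_fam1 (L * q * q) q A hA _ hw_mul hw_add (h91_hC3_36 L q hqL A hA)

include hA in
/-- Chart 2 at level `L q²` with `h36_w2`: noetherian, integral over `A₀[1/j]`. -/
theorem h80_noeth2_36
    (hw_mul : ∀ c (f g : h69_F0 (L * q * q) (A.inertiaSubgroupIn ℚ)), f ≠ 0 → g ≠ 0 →
      h36_w2 L q hqL A c (f * g) = h36_w2 L q hqL A c f + h36_w2 L q hqL A c g)
    (hw_add : ∀ c (f g : h69_F0 (L * q * q) (A.inertiaSubgroupIn ℚ)), f ≠ 0 → g ≠ 0 →
      f + g ≠ 0 → min (h36_w2 L q hqL A c f) (h36_w2 L q hqL A c g) ≤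
        h36_w2 L q hqL A c (f + g)) :
    IsNoetherianRing (h80_fam2 (L * q * q) (A.inertiaSubgroupIn ℚ) (h36_w2 L q hqL A)
      hw_mul hw_add).B ∧
    ∀ f ∈ (h80_fam2 (L * q * q) (A.inertiaSubgroupIn ℚ) (h36_w2 L q hqL A) hw_mul hw_add).B,
      (h97_ev (h69_A0 A).toSubring
        (h17_jbar0 (L * q * q) (A.inertiaSubgroupIn ℚ))⁻¹).IsIntegralElem f :=
  h80_noeth_fam2 (L * q * q) q A hA _ hw_mul hw_add (h91_hC3_36 L q hqL A hA)

/-- Chart 1 at level `L q²` with `h98_w2`: noetherian, integral over `A₀[j]`. -/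
theorem h80_noeth1_98 (ζ : Qb) (hζ : IsPrimitiveRoot ζ q)
    (hw_mul : ∀ c (f g : h69_F0 (L * q * q) (A.inertiaSubgroupIn ℚ)), f ≠ 0 → g ≠ 0 →
      h98_w2 L q hqL A ζ hζ (h49_ex L q hqL A hA ζ hζ) c (f * g) =
        h98_w2 L q hqL A ζ hζ (h49_ex L q hqL A hA ζ hζ) c f +
          h98_w2 L q hqL A ζ hζ (h49_ex L q hqL A hA ζ hζ) c g)
    (hw_add : ∀ c (f g : h69_F0 (L * q * q) (A.inertiaSubgroupIn ℚ)), f ≠ 0 → g ≠ 0 →
      f + g ≠ 0 → min (h98_w2 L q hqL A ζ hζ (h49_ex L q hqL A hA ζ hζ) c f)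
        (h98_w2 L q hqL A ζ hζ (h49_ex L q hqL A hA ζ hζ) c g) ≤
        h98_w2 L q hqL A ζ hζ (h49_ex L q hqL A hA ζ hζ) c (f + g)) :
    IsNoetherianRing (h80_fam1 (L * q * q) (A.inertiaSubgroupIn ℚ)
      (h98_w2 L q hqL A ζ hζ (h49_ex L q hqL A hA ζ hζ)) hw_mul hw_add).B ∧
    ∀ f ∈ (h80_fam1 (L * q * q) (A.inertiaSubgroupIn ℚ)
        (h98_w2 L q hqL A ζ hζ (h49_ex L q hqL A hA ζ hζ)) hw_mul hw_add).B,
      (h97_ev (h69_A0 A).toSubring
        (h17_jbar0 (L * q * q) (A.inertiaSubgroupIn ℚ))).IsIntegralElem f :=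
  h80_noeth_fam1 (L * q * q) q A hA _ hw_mul hw_add (h91_hC3_98 L q hqL A hA ζ hζ)

/-- Chart 2 at level `L q²` with `h98_w2`: noetherian, integral over `A₀[1/j]`. -/
theorem h80_noeth2_98 (ζ : Qb) (hζ : IsPrimitiveRoot ζ q)
    (hw_mul : ∀ c (f g : h69_F0 (L * q * q) (A.inertiaSubgroupIn ℚ)), f ≠ 0 → g ≠ 0 →
      h98_w2 L q hqL A ζ hζ (h49_ex L q hqL A hA ζ hζ) c (f * g) =
        h98_w2 L q hqL A ζ hζ (h49_ex L q hqL A hA ζ hζ) c f +
          h98_w2 L q hqL A ζ hζ (h49_ex L q hqL A hA ζ hζ) c g)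
    (hw_add : ∀ c (f g : h69_F0 (L * q * q) (A.inertiaSubgroupIn ℚ)), f ≠ 0 → g ≠ 0 →
      f + g ≠ 0 → min (h98_w2 L q hqL A ζ hζ (h49_ex L q hqL A hA ζ hζ) c f)
        (h98_w2 L q hqL A ζ hζ (h49_ex L q hqL A hA ζ hζ) c g) ≤
        h98_w2 L q hqL A ζ hζ (h49_ex L q hqL A hA ζ hζ) c (f + g)) :
    IsNoetherianRing (h80_fam2 (L * q * q) (A.inertiaSubgroupIn ℚ)
      (h98_w2 L q hqL A ζ hζ (h49_ex L q hqL A hA ζ hζ)) hw_mul hw_add).B ∧
    ∀ f ∈ (h80_fam2 (L * q * q) (A.inertiaSubgroupIn ℚ)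
        (h98_w2 L q hqL A ζ hζ (h49_ex L q hqL A hA ζ hζ)) hw_mul hw_add).B,
      (h97_ev (h69_A0 A).toSubring
        (h17_jbar0 (L * q * q) (A.inertiaSubgroupIn ℚ))⁻¹).IsIntegralElem f :=
  h80_noeth_fam2 (L * q * q) q A hA _ hw_mul hw_add (h91_hC3_98 L q hqL A hA ζ hζ)

end Closed

end Fermat.Agent.S36
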