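import Mathlib
import Fermat.Agent.S36.h81_CountW
import Fermat.Agent.S36.h81_IntJ
import Fermat.Agent.S36.h65_HunionInst
import Fermat.Agent.S34.h20_ChartSF

/-!
# S36 (HASSE) package, row (COUNT): the modular instance of `h81_CountHyp` (helper81)

Level `M`, `q ∤ M` a prime, `A` a valuation ring of `ℚ̄` over `q`, `k` its residue field,
`F = F(Mq)`, `Fb = Fb(M)`, `R₁ = h60_R1`, `R₂ = h60_R2`, `D = h87_D` (`O = O₁ ∩ O₂`),
`D0 = (Pinf) + (P0)`, `Qinf = h11_placeInftyC k M`, `Φ = h96_frobPerm (h84_isFrobChart_jk ..)`,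
`J = h59_jbar (M * q)`, `j̄ = h54_jk k M`, `π = q`.

* `h81_regJ N` : the subring of `F(N)` of the functions regular wherever `j` is (poles only at
  the cusps);
* `h81_L_le_regJ` : `L(n D0) ⊆ h81_regJ (M q)`;
* `h81_hV_mod` : values at finitely many non-cuspidal places are interpolated by `L(n Qinf)`;
* `h81_exists_poles_jk`, `h81_sum_poles_jk` : the finite set `T` of poles of `j̄` and
  `∑_{P ∈ T} -ord_P j̄ = ψ(M)`;
* `h81_countHyp_mod` : **the modular instance** `h81_CountHyp R₁ R₂ D D0 Qinf Sg Φ (h81_regJ (M q))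
  F0 T q u ((q-1) ψ(M))` for EVERY node set `Sg` (with `hSg`, `hunion` in the shape of
  `h65_hunion_inst`), from the explicit inputs
  `F0` (`q⁻¹ ∈ F0`, `hrat` = (K0-LAT), `hdisc1`, `hdisc2` = (Q-VAL)),
  `u` (`u ∈ h81_regJ`, `u ∈ O₁`, `red₁ u ≠ 0`, `q ^ 12 u ∈ O₂`, (W-CUSP)) and
  `hcnt : 12 #Sg ≤ (q-1) ψ(M)`;
* `h81_node_mod` : the consumer form (S1) = (Q-NODE) at every node, and `h81_ordW_mod` (S2).
-/

set_option autoImplicit false
set_option synthInstance.maxHeartbeats 400000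

noncomputable section

open AlgebraicCurve ModularCurve IntermediateField

namespace Fermat.Agent.S36

open Fermat.Agent.S18 Fermat.Agent.S24 Fermat.Agent.S37 Fermat.Agent.S27 Fermat.Agent.S34

local notation "Qb" => AlgebraicClosure ℚ

/-- The functions of `F(N)` regular wherever `j` is regular (poles only at the cusps). -/
def h81_regJ (N : ℕ) [NeZero N] : Subring ↥(modularFunctionFieldBar N) where
  carrier := {f | ∀ P : Place Qb ↥(modularFunctionFieldBar N),
    h59_jbar N ∈ P.toValuationSubring → f ∈ P.toValuationSubring}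
  mul_mem' := fun ha hb P hP => P.toValuationSubring.mul_mem _ _ (ha P hP) (hb P hP)
  one_mem' := fun P _ => P.toValuationSubring.one_mem
  add_mem' := fun ha hb P hP => P.toValuationSubring.add_mem _ _ (ha P hP) (hb P hP)
  zero_mem' := fun P _ => P.toValuationSubring.zero_mem
  neg_mem' := fun ha P hP => P.toValuationSubring.neg_mem _ (ha P hP)

theorem h81_mem_regJ {N : ℕ} [NeZero N] {f : ↥(modularFunctionFieldBar N)} :
    f ∈ h81_regJ N ↔ ∀ P : Place Qb ↥(modularFunctionFieldBar N),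
      h59_jbar N ∈ P.toValuationSubring → f ∈ P.toValuationSubring := Iff.rfl

theorem h81_algebraMap_mem_regJ (N : ℕ) [NeZero N] (c : Qb) :
    algebraMap Qb ↥(modularFunctionFieldBar N) c ∈ h81_regJ N :=
  fun P _ => P.algebraMap_mem' c

section Mod

variable (M q : ℕ) [NeZero M] [NeZero q] [Fact q.Prime] (hqM : ¬ q ∣ M)

/-- `L(n ((Pinf) + (P0))) ⊆ h81_regJ (M q)`: the two cusps are poles of `J`. -/
theorem h81_L_le_regJ {Pinf P0 : Place Qb ↥(modularFunctionFieldBar (M * q))}
    (hPinf : h10_IsCusp (modularFunctionFieldBar (M * q)) Pinf)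
    (hP0 : h10_IsCusp0 M q (h60_w M q hqM) P0) (n : ℕ)
    (f : ↥(modularFunctionFieldBar (M * q)))
    (hf : f ∈ riemannRochSpace
      (n • (Finsupp.single Pinf (1 : ℤ) + Finsupp.single P0 (1 : ℤ)))) :
    f ∈ h81_regJ (M * q) := by
  classical
  have hq : q.Prime := Fact.out
  intro P hP
  have hJ0 : h59_jbar (M * q) ≠ 0 := (h83_jbar_isChart (M * q)).ne_zero
  have hord := (h35_mem_iff_ord_nonneg P hJ0).1 hP
  have hα := h19_heckeAlphaBar_jbar M q
  have h1 : P ≠ Pinf := by
    rintro rfl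
    have := h10_ord_alpha hPinf (h59_jbar M)
    rw [hα, h10_order_jbar] at this
    omega
  have h2 : P ≠ P0 := by
    rintro rfl
    have := h10_ord0_alpha (h60_w_alpha M q hqM) hP0 (h59_jbar M)
    rw [hα, h10_order_jbar] at this
    have hq0 : (0 : ℤ) < (q : ℤ) := by exact_mod_cast hq.pos
    nlinarith
  rcases mem_riemannRochSpace_iff.1 hf P with h | h
  · rw [h]
    exact zero_mem _
  · rw [Finsupp.smul_apply, Finsupp.add_apply, Finsupp.single_eq_of_ne h1,
      Finsupp.single_eq_of_ne h2, add_zero, smul_zero, neg_zero] at h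
    exact h24_mem_of_ord_nonneg P h

end Mod

section Gen

variable {k Fb : Type*} [Field k] [Field Fb] [Algebra k Fb] [IsAlgClosed k]

/-- Values at finitely many places different from `Qinf` are interpolated by `L(n Qinf)`. -/
theorem h81_hV_gen {xb : Fb} (hx : h75_IsChart k xb) (Qinf : Place k Fb)
    (Z : Finset (Place k Fb)) (c : Place k Fb → k) (hZ : ∀ Q ∈ Z, Q ≠ Qinf) :
    ∃ n : ℕ, ∃ a ∈ h16_Linf Qinf n, ∀ Q ∈ Z, h39_Val Q a (c Q) := by
  classical
  have hsurj := h20_evMap_surjective hx Qinf (fun ν : {Q // Q ∈ Z} => ν.1)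
    (fun ν => hZ ν.1 ν.2) Subtype.val_injective
    (2 * h75_genus k xb + Fintype.card {Q // Q ∈ Z}) le_rfl
  obtain ⟨f, hf⟩ := hsurj (fun ν => c ν.1)
  refine ⟨2 * h75_genus k xb + Fintype.card {Q // Q ∈ Z}, f.1, f.2, fun Q hQ => ?_⟩
  have h := h20_evMap_spec hx Qinf (fun ν : {Q // Q ∈ Z} => ν.1) (fun ν => hZ ν.1 ν.2)
    (2 * h75_genus k xb + Fintype.card {Q // Q ∈ Z}) f ⟨Q, hQ⟩
  rw [hf] at h
  exact h

/-- The poles of a chart form a finite set, and their total order is the degree. -/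
theorem h81_exists_poles {x : Fb} (hx : h75_IsChart k x) :
    ∃ T : Finset (Place k Fb), (∀ P : Place k Fb, P ∈ T ↔ P.ord x < 0) ∧
      ∑ P ∈ T, -P.ord x = (Module.finrank k⟮x⟯ Fb : ℤ) := by
  classical
  have hxi := h75_isChart_inv hx
  have hfin := h75_fibre_finite hxi 0
  have hs : ∀ P : Place k Fb, P ∈ hfin.toFinset ↔ 0 < P.ord (x⁻¹ - algebraMap k Fb 0) := by
    intro P
    rw [Set.Finite.mem_toFinset]
    rfl
  refine ⟨hfin.toFinset, ?_, ?_⟩
  · intro P
    rw [hs P, map_zero, sub_zero, Place.ord_inv]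
    omega
  · have hsum := h75_fibre_sum hxi 0 hfin.toFinset hs
    have := hx.fin
    have hfr : Module.finrank k⟮x⁻¹⟯ Fb = Module.finrank k⟮x⟯ Fb :=
      (h35_finrank_congr (h24_adjoin_inv_eq x).symm).2
    rw [← hfr, ← hsum]
    refine Finset.sum_congr rfl fun P _ => ?_
    rw [map_zero, sub_zero, Place.ord_inv]

end Gen

section Main

variable (M q : ℕ) [NeZero M] [NeZero q] [Fact q.Prime] (hqM : ¬ q ∣ M)
  (A : ValuationSubring Qb) (hA : A.LiesOverPrime q)
  [IsAlgClosed (IsLocalRing.ResidueField A)] [CharP (IsLocalRing.ResidueField A) q]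

omit [NeZero q] [CharP (IsLocalRing.ResidueField A) q] in
include hqM hA in
/-- The reduced function field `Fb(M)` has principal divisors. -/
theorem h81_hasPD_mod : HasPrincipalDivisors (IsLocalRing.ResidueField A)
    ↥(modularFunctionFieldFullC (IsLocalRing.ResidueField A) M) :=
  h75_hasPrincipalDivisors (h84_isChart_jk M q hqM A hA)

/-- **The modular instance of `h81_CountHyp`** at level `M q`, for every node set `Sg`. -/
theorem h81_countHyp_mod
    {Pinf P0 : Place Qb ↥(modularFunctionFieldBar (M * q))}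
    (hPinf : h10_IsCusp (modularFunctionFieldBar (M * q)) Pinf)
    (hP0 : h10_IsCusp0 M q (h60_w M q hqM) P0)
    (Sg : Finset (Place (IsLocalRing.ResidueField A)
        ↥(modularFunctionFieldFullC (IsLocalRing.ResidueField A) M)))
    (hSg : ∀ Q ∈ Sg, Q ≠ h11_placeInftyC (IsLocalRing.ResidueField A) M ∧
        h96_frobPerm (h84_isFrobChart_jk M q hqM A hA) Q ≠
          h11_placeInftyC (IsLocalRing.ResidueField A) M)
    (hunion : ∀ a : ↥(modularFunctionFieldFullC (IsLocalRing.ResidueField A) M) ×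
          ↥(modularFunctionFieldFullC (IsLocalRing.ResidueField A) M),
        (∃ n : ℕ, a ∈ h51_Rd (h87_D M q hqM A hA)
          (n • (Finsupp.single Pinf (1 : ℤ) + Finsupp.single P0 (1 : ℤ)))) ↔
        (∃ n : ℕ, a.1 ∈ h16_Linf (h11_placeInftyC (IsLocalRing.ResidueField A) M) n ∧
            a.2 ∈ h16_Linf (h11_placeInftyC (IsLocalRing.ResidueField A) M) n) ∧
          ∀ Q ∈ Sg, ∃ c : IsLocalRing.ResidueField A,
            h39_Val (h96_frobPerm (h84_isFrobChart_jk M q hqM A hA) Q) a.1 c ∧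
              h39_Val Q a.2 c)
    (F0 : Subring ↥(modularFunctionFieldBar (M * q)))
    (hqF0 : (algebraMap Qb ↥(modularFunctionFieldBar (M * q)) (q : Qb))⁻¹ ∈ F0)
    (hrat : ∀ (n : ℕ) (a : ↥(modularFunctionFieldFullC (IsLocalRing.ResidueField A) M) ×
          ↥(modularFunctionFieldFullC (IsLocalRing.ResidueField A) M)),
        a ∈ h51_Rd (h87_D M q hqM A hA)
          (n • (Finsupp.single Pinf (1 : ℤ) + Finsupp.single P0 (1 : ℤ))) →
        ∃ g : ↥(modularFunctionFieldBar (M * q)), g ∈ F0 ∧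
          g ∈ riemannRochSpace (n • (Finsupp.single Pinf (1 : ℤ) + Finsupp.single P0 (1 : ℤ))) ∧
          g ∈ (h87_D M q hqM A hA).O ∧ (h87_D M q hqM A hA).redF g = a)
    (hdisc1 : ∀ g : ↥(modularFunctionFieldBar (M * q)), g ∈ F0 →
      g ∈ (h60_R1 M q hqM A hA).O → (h60_R1 M q hqM A hA).redF g = 0 →
        (algebraMap Qb ↥(modularFunctionFieldBar (M * q)) (q : Qb))⁻¹ * g ∈
          (h60_R1 M q hqM A hA).O)
    (hdisc2 : ∀ g : ↥(modularFunctionFieldBar (M * q)), g ∈ F0 →
      g ∈ (h60_R2 M q hqM A hA).O → (h60_R2 M q hqM A hA).redF g = 0 →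
        (algebraMap Qb ↥(modularFunctionFieldBar (M * q)) (q : Qb))⁻¹ * g ∈
          (h60_R2 M q hqM A hA).O)
    (u : ↥(modularFunctionFieldBar (M * q))) (huB : u ∈ h81_regJ (M * q))
    (hu1 : u ∈ (h60_R1 M q hqM A hA).O) (hW : (h60_R1 M q hqM A hA).redF u ≠ 0)
    (hu2 : algebraMap Qb ↥(modularFunctionFieldBar (M * q)) (q : Qb) ^ 12 * u ∈
      (h60_R2 M q hqM A hA).O)
    (hWcusp : ∀ y : Place (IsLocalRing.ResidueField A)
        ↥(modularFunctionFieldFullC (IsLocalRing.ResidueField A) M),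
      y.ord (h54_jk (IsLocalRing.ResidueField A) M) < 0 →
        y.ord ((h60_R1 M q hqM A hA).redF u)
          = -((q : ℤ) - 1) * y.ord (h54_jk (IsLocalRing.ResidueField A) M))
    (hcnt : 12 * (Sg.card : ℤ) ≤ ((q : ℤ) - 1) * (dedekindPsi M : ℤ)) :
    ∃ T : Finset (Place (IsLocalRing.ResidueField A)
        ↥(modularFunctionFieldFullC (IsLocalRing.ResidueField A) M)),
      (∀ P : Place (IsLocalRing.ResidueField A)
          ↥(modularFunctionFieldFullC (IsLocalRing.ResidueField A) M),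
        P ∈ T ↔ P.ord (h54_jk (IsLocalRing.ResidueField A) M) < 0) ∧
      h81_CountHyp (h60_R1 M q hqM A hA) (h60_R2 M q hqM A hA) (h87_D M q hqM A hA)
        (Finsupp.single Pinf (1 : ℤ) + Finsupp.single P0 (1 : ℤ))
        (h11_placeInftyC (IsLocalRing.ResidueField A) M) Sg
        (h96_frobPerm (h84_isFrobChart_jk M q hqM A hA)) (h81_regJ (M * q)) F0 T (q : Qb) u
        (((q : ℤ) - 1) * (dedekindPsi M : ℤ)) := by
  classical
  have hq : q.Prime := Fact.out
  have hj := h84_isChart_jk M q hqM A hA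
  obtain ⟨T, hT, hTsum⟩ := h81_exists_poles hj
  have hqA : (q : Qb) ∈ A := A.nonunits_le hA
  have hq0 : (q : Qb) ≠ 0 := Nat.cast_ne_zero.mpr hq.ne_zero
  have hqinv : (q : Qb)⁻¹ ∉ A := by
    rcases (ValuationSubring.mem_nonunits_iff_or (A := A)).mp hA with h | h
    · exact absurd h hq0
    · exact h
  have hq1 : (q : Qb) ∈ (h60_R1 M q hqM A hA).A := by
    rw [h60_R1_A]
    exact hqA
  have hq2 : (q : Qb) ∈ (h60_R2 M q hqM A hA).A := by
    rw [h60_R2_A]
    exact hqA
  refine ⟨T, hT, ?_⟩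
  refine
    { hDO := fun f => h87_D_mem M q hqM A hA
      hDred := fun f hf => h87_D_redF M q hqM A hA hf.1 hf.2
      hrank := by
        rw [h60_R2_A]
        exact h64_rankOne_h39 hq A hA
      hπ0 := hq0
      hπ1 := hq1
      hπ1' := (h39_resK_eq_zero_iff (h60_R1 M q hqM A hA) hq1).mpr
        (Or.inr (by rw [h60_R1_A]; exact hqinv))
      hπ2 := hq2
      hπ2' := (h39_resK_eq_zero_iff (h60_R2 M q hqM A hA) hq2).mpr
        (Or.inr (by rw [h60_R2_A]; exact hqinv))
      hπB := h81_algebraMap_mem_regJ (M * q) _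
      hLB := fun n f hf => h81_L_le_regJ M q hqM hPinf hP0 n f hf
      huB := huB
      hu1 := hu1
      hW := hW
      hu2 := hu2
      hint := ?_
      hQT := ?_
      hSg := hSg
      hΦ := (h96_frobPerm (h84_isFrobChart_jk M q hqM A hA)).injective
      hunion := hunion
      hπF0 := hqF0
      hrat := hrat
      hdisc1 := hdisc1
      hdisc2 := hdisc2
      hV := fun Z c hZ => h81_hV_gen hj _ Z c hZ
      hdeg1 := fun P => h75_deg_eq_one hj P
      hcusp := ?_
      hcnt := hcnt }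
  · intro x hxB hx1 hx2 P hP
    have h0 : 0 ≤ P.ord (h54_jk (IsLocalRing.ResidueField A) M) := by
      by_contra hcon
      exact hP ((hT P).mpr (not_le.mp hcon))
    exact (h81_int_j M q hqM A hA x hxB hx1 hx2 P (h24_mem_of_ord_nonneg P h0)).1
  · rw [hT, h81_ord_jk]
    norm_num
  · have hsum : ∑ P ∈ T, P.ord ((h60_R1 M q hqM A hA).redF u)
        = ((q : ℤ) - 1) * ∑ P ∈ T, -P.ord (h54_jk (IsLocalRing.ResidueField A) M) := by
      rw [Finset.mul_sum]
      refine Finset.sum_congr rfl fun P hP => ?_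
      rw [hWcusp P ((hT P).mp hP)]
      ring
    rw [hsum, hTsum, h39_mod_finrank_fb M hqM A hA, h29_card_quotient_Gamma0 M]

end Main

end Fermat.Agent.S36

end
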