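import Fermat.Agent.S27.RRFull
import Fermat.Agent.S27.BaseGenus
import Fermat.Agent.S18.GR_HoloOmega
import Fermat.Agent.S24.h73_GenusFibre

/-!
# S36 / (BRIDGE): the Riemann–Roch genus is the differential genus (characteristic zero)

`F / K` a function field in one variable over an algebraically closed field of characteristic
zero, `x` a chart.  The Riemann–Roch genus `h75_genus K x` (`= genusFF K F`, S18 / S27) and the
prelude genus `AlgebraicCurve.genus K F` (degree of the divisor of a Kähler differential, S24)
are equal: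

* `h83_one_mem_Omega`   : `1 ∈ Ω(x, K_x)` for every divisor `K_x` with the orders of `dx`
                          (`e - 1` at finite places, `-e - 1` at poles);
* `h83_degree_le`       : `deg K_x ≤ 2g - 2`;
* `h83_degree_eq`       : `deg K_x = 2g - 2` when `g ≥ 1`;
* `h83_toNat_eq`        : `(deg K_x + 2).toNat / 2 = g` in all cases;
* `h83_genus_eq_h75`    : `AlgebraicCurve.genus K F = h75_genus K x`;
* `h83_genus_eq_genusFF`: `AlgebraicCurve.genus K F = genusFF K F`;
* `h83_h75_genus_of_fibre_counts` : the Riemann–Roch genus from fibre counts (the analogue of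
  `h73_genus_of_fibre_counts`, without `HasCanonicalDivisor`).
-/

set_option autoImplicit false

open AlgebraicCurve IntermediateField KaehlerDifferential

namespace Fermat.Agent.S36

open Fermat.Agent.S18 Fermat.Agent.S24 Fermat.Agent.S27

variable {K F : Type*} [Field K] [Field F] [Algebra K F]

/-- `Kx` has the orders of the differential `dx`: `e - 1` over finite values, `-e - 1` at
poles. -/
structure h83_IsDx (x : F) (Kx : Divisor K F) : Prop where
  fin : ∀ (P : Place K F) (a : K), 0 < P.ord (x - algebraMap K F a) →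
    Kx P = P.ord (x - algebraMap K F a) - 1
  inf : ∀ P : Place K F, P.ord x < 0 → Kx P = P.ord x - 1

theorem h83_one_mem_chart (t : F) : (1 : F) ∈ h75_chart t (0 : Divisor K F) := by
  intro P _
  rw [map_one]
  simp

section Main

variable [IsAlgClosed K]

/-- **(D1) for the divisor of `dx`**: `1 ∈ Ω(x, K_x)`. -/
theorem h83_one_mem_Omega {x : F} (hx : h75_IsChart K x) {Kx : Divisor K F}
    (hK : h83_IsDx x Kx) : (1 : F) ∈ h75_Omega x Kx := by
  have hx0 := hx.ne_zero
  have hx' := h75_isChart_inv hx
  refine ⟨fun m hm => ?_, fun l hl => ?_⟩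
  · apply h75_mem_adjoin_of_coe
    rw [AdjoinSimple.coe_gen, one_mul]
    have hyp : ∀ (P : Place K F) (a : K), 0 < P.ord (x - algebraMap K F a) →
        m = 0 ∨ 1 - P.ord (x - algebraMap K F a) ≤ P.ord m := by
      intro P a hPa
      have hxP : x ∈ P.toValuationSubring := by
        have h1 : x - algebraMap K F a ∈ P.toValuationSubring :=
          h46_mem_of_ord_nonneg P hPa.le
        have h2 : algebraMap K F a ∈ P.toValuationSubring :=
          h46_mem_of_ord_nonneg P (by rw [h46_ord_algebraMap])
        have := P.toValuationSubring.add_mem _ _ h1 h2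
        rwa [sub_add_cancel] at this
      rcases P.adicValuation_le_exp_iff.mp (hm P hxP) with h | h
      · exact Or.inl h
      · right
        rw [hK.fin P a hPa] at h
        omega
    have := h75_trace_mem_of_holo hx m hyp 1 (h83_one_mem_chart x)
    rwa [mul_one] at this
  · have hyp : ∀ (P : Place K F) (b : K), 0 < P.ord (x⁻¹ - algebraMap K F b) →
        x ^ 2 * l = 0 ∨ 1 - P.ord (x⁻¹ - algebraMap K F b) ≤ P.ord (x ^ 2 * l) := by
      intro P b hPb
      rcases eq_or_ne l 0 with hl0 | hl0
      · left; rw [hl0, mul_zero]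
      right
      have hord2 : P.ord (x ^ 2 * l) = 2 * P.ord x + P.ord l := by
        rw [P.ord_mul (pow_ne_zero 2 hx0) hl0, ← zpow_natCast, P.ord_zpow]
        norm_num
      rw [hord2]
      have hxiP : x⁻¹ ∈ P.toValuationSubring := by
        have h1 : x⁻¹ - algebraMap K F b ∈ P.toValuationSubring :=
          h46_mem_of_ord_nonneg P hPb.le
        have h2 : algebraMap K F b ∈ P.toValuationSubring :=
          h46_mem_of_ord_nonneg P (by rw [h46_ord_algebraMap])
        have := P.toValuationSubring.add_mem _ _ h1 h2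
        rwa [sub_add_cancel] at this
      have hl' := (P.adicValuation_le_exp_iff.mp (hl P hxiP)).resolve_left hl0
      rcases eq_or_ne b 0 with hb | hb
      · subst hb
        rw [map_zero, sub_zero, P.ord_inv] at hPb ⊢
        rw [hK.inf P (by omega)] at hl'
        omega
      · have hbF : algebraMap K F b ≠ 0 := by simpa using hb
        have hu0 : x⁻¹ - algebraMap K F b ≠ 0 := by
          intro h0
          rw [h0, P.ord_zero] at hPb
          exact lt_irrefl _ hPb
        have hinv0 : x⁻¹ ≠ 0 := inv_ne_zero hx0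
        have hordb : P.ord (algebraMap K F b) = 0 := h35_ord_algebraMap P b
        have h1 : min (P.ord (x⁻¹ - algebraMap K F b)) (P.ord (algebraMap K F b)) ≤ P.ord x⁻¹ := by
          have := h35_ord_add P hu0 hbF (by rw [sub_add_cancel]; exact hinv0)
          rwa [sub_add_cancel] at this
        have h2 : min (P.ord x⁻¹) (P.ord (x⁻¹ - algebraMap K F b)) ≤
            P.ord (algebraMap K F b) := by
          have := h35_ord_sub P hinv0 hu0 (by rw [sub_sub_cancel]; exact hbF)
          rwa [sub_sub_cancel] at this
        rw [hordb] at h1 h2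
        have hinv : P.ord x⁻¹ = 0 := by
          rcases le_total (P.ord x⁻¹) (P.ord (x⁻¹ - algebraMap K F b)) with h3 | h3
          · rw [min_eq_left h3] at h2
            rw [min_eq_right hPb.le] at h1
            omega
          · rw [min_eq_right h3] at h2
            omega
        have hordx : P.ord x = 0 := by
          rw [P.ord_inv] at hinv
          omega
        have hkey : x - algebraMap K F b⁻¹ =
            -((x⁻¹ - algebraMap K F b) * x * algebraMap K F b⁻¹) := by
          rw [map_inv₀]
          field_simp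
          ring
        have hbinvF : algebraMap K F b⁻¹ ≠ 0 := by simpa using hb
        have hord : P.ord (x - algebraMap K F b⁻¹) = P.ord (x⁻¹ - algebraMap K F b) := by
          rw [hkey, h35_ord_neg, P.ord_mul (mul_ne_zero hu0 hx0) hbinvF, P.ord_mul hu0 hx0, hordx,
            h35_ord_algebraMap]
          ring
        rw [hK.fin P b⁻¹ (by rw [hord]; exact hPb), hord] at hl'
        omega
    have hmem := h75_trace_mem_of_holo hx' (x ^ 2 * l) hyp 1 (h83_one_mem_chart x⁻¹)
    rw [h75_trace_congr (h24_adjoin_inv_eq x) (x ^ 2 * l * 1)] at hmem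
    have h4 : x ^ 2 * l * 1 = ((AdjoinSimple.gen K x) ^ 2 : K⟮x⟯) • (1 * l) := by
      rw [Algebra.smul_def]
      show _ = (((AdjoinSimple.gen K x) ^ 2 : K⟮x⟯) : F) * _
      rw [IntermediateField.coe_pow, AdjoinSimple.coe_gen]
      ring
    rw [h4, map_smul, smul_eq_mul] at hmem
    apply h75_mem_adjoin_of_coe
    rw [IntermediateField.coe_inv, AdjoinSimple.coe_gen]
    exact hmem

end Main

section CharZeroBridge

variable [IsAlgClosed K] [CharZero K]

omit [CharZero K] in
/-- `L(K_x)` is the space `h39_holo` of holomorphic differentials. -/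
theorem h83_rr_eq_holo {x : F} (hx : h75_IsChart K x) {Kx : Divisor K F}
    (hK : h83_IsDx x Kx) : riemannRochSpace Kx = h39_holo K x := by
  have hF : h73_IsFF K F := ⟨x, hx.fin⟩
  have hxc : ∀ a : K, x ≠ algebraMap K F a := by
    rintro a rfl
    exact hx.tr (isAlgebraic_algebraMap a)
  ext φ
  rw [mem_riemannRochSpace_iff, h39_mem_holo_iff]
  constructor
  · intro h P
    refine ⟨fun a ha => ?_, fun hp => ?_⟩
    · rcases h P with h0 | h1
      · exact Or.inl h0
      · right
        rw [hK.fin P a ha] at h1
        omega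
    · rcases h P with h0 | h1
      · exact Or.inl h0
      · right
        rw [hK.inf P hp] at h1
        omega
  · intro h P
    rcases h46_pole_or_fibre P (h73_hres hF P) hxc with hp | ⟨a, ha⟩
    · rcases (h P).2 hp with h0 | h1
      · exact Or.inl h0
      · right
        rw [hK.inf P hp]
        omega
    · rcases (h P).1 a ha with h0 | h1
      · exact Or.inl h0
      · right
        rw [hK.fin P a ha]
        omega

/-- `l(K_x) = g`. -/
theorem h83_finrank_rr {x : F} (hx : h75_IsChart K x) {Kx : Divisor K F}
    (hK : h83_IsDx x Kx) :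
    Module.finrank K ↥(riemannRochSpace Kx) = h75_genus K x := by
  rw [h83_rr_eq_holo hx hK, h39_holo_eq_Omega hx]
  exact h75_finrank_Omega_zero hx

/-- `deg K_x ≤ 2g - 2`. -/
theorem h83_degree_le {x : F} (hx : h75_IsChart K x) {Kx : Divisor K F}
    (hK : h83_IsDx x Kx) : Divisor.degree Kx ≤ 2 * (h75_genus K x : ℤ) - 2 := by
  have h1 := h68_finrank_Omega hx Kx
  rw [h83_finrank_rr hx hK] at h1
  have hfd := (h75_dual hx Kx).1
  have hpos : 0 < Module.finrank K ↥(h75_Omega x Kx) := by
    rw [Module.finrank_pos_iff_exists_ne_zero]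
    exact ⟨⟨1, h83_one_mem_Omega hx hK⟩, fun h => one_ne_zero (congrArg Subtype.val h)⟩
  have h2 : (0 : ℤ) < (Module.finrank K ↥(h75_Omega x Kx) : ℤ) := by exact_mod_cast hpos
  linarith

/-- `deg K_x = 2g - 2` for `g ≥ 1`. -/
theorem h83_degree_eq {x : F} (hx : h75_IsChart K x) {Kx : Divisor K F}
    (hK : h83_IsDx x Kx) (hg : 1 ≤ h75_genus K x) :
    Divisor.degree Kx = 2 * (h75_genus K x : ℤ) - 2 := by
  classical
  obtain ⟨W, hW⟩ := h15_exists_canonical hx
  have hWc : h68_IsCanonical x W := h68_isCanonical_of hW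
  have hWdeg := h68_canonical_degree hx hWc
  have hWfin := h68_canonical_finrank hx hWc
  have hle := h83_degree_le hx hK
  have hKfin := h83_finrank_rr hx hK
  by_contra hne
  have hlt : Divisor.degree Kx < 2 * (h75_genus K x : ℤ) - 2 := lt_of_le_of_ne hle hne
  -- a nonzero `f ∈ L(W - Kx)`
  have hrr := hWc Kx
  rw [hKfin] at hrr
  have hpos : 0 < Module.finrank K ↥(riemannRochSpace (W - Kx)) := by
    have : (0 : ℤ) < (Module.finrank K ↥(riemannRochSpace (W - Kx)) : ℤ) := by linarith
    exact_mod_cast this
  have hfinWK := (hW (W - Kx)).1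
  obtain ⟨f', hf'⟩ := Module.finrank_pos_iff_exists_ne_zero.mp hpos
  obtain ⟨f, hfmem⟩ := f'
  have hf0 : f ≠ 0 := fun h => hf' (Subtype.ext h)
  obtain ⟨Df, hDf⟩ := h7_exists_div hx f hf0
  have hDfdeg := h7_degree_div hx hf0 Df hDf
  -- `E := W - Kx + Df ≥ 0` has positive degree
  have hEnn : ∀ v, 0 ≤ W v - Kx v + Df v := by
    intro v
    rcases (mem_riemannRochSpace_iff.mp hfmem) v with h | h
    · exact absurd h hf0
    · rw [hDf]
      rw [Finsupp.sub_apply] at h
      omega
  have hEdeg : 0 < Divisor.degree (W - Kx + Df) := by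
    rw [map_add, map_sub, hDfdeg, hWdeg]
    linarith
  obtain ⟨P, hP⟩ : ∃ P, 1 ≤ W P - Kx P + Df P := by
    by_contra hno
    have h0 : W - Kx + Df = 0 := by
      ext v
      have h1 := hEnn v
      have h2 : ¬ (1 ≤ W v - Kx v + Df v) := fun h => hno ⟨v, h⟩
      rw [Finsupp.add_apply, Finsupp.sub_apply]
      simp only [Finsupp.coe_zero, Pi.zero_apply]
      omega
    rw [h0, map_zero] at hEdeg
    exact lt_irrefl _ hEdeg
  -- multiplication by `f` maps `L(Kx)` into `L(W - P)`
  have hmul : ∀ φ ∈ riemannRochSpace Kx,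
      LinearMap.mulLeft K f φ ∈ riemannRochSpace (W - Finsupp.single P 1) := by
    intro φ hφ
    rw [LinearMap.mulLeft_apply]
    rcases eq_or_ne φ 0 with rfl | hφ0
    · rw [mul_zero]
      exact Submodule.zero_mem _
    rw [mem_riemannRochSpace_iff] at hφ ⊢
    intro v
    right
    have h1 := (hφ v).resolve_left hφ0
    have h2 := hEnn v
    rw [v.ord_mul hf0 hφ0, ← hDf v, Finsupp.sub_apply, Finsupp.single_apply]
    split_ifs with hv
    · subst hv
      omega
    · omega
  have hfinWP := (hW (W - Finsupp.single P 1)).1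
  have hfinW := (hW W).1
  have hinj : Function.Injective ((LinearMap.mulLeft K f).restrict hmul) := by
    intro a b hab
    have h1 := congrArg Subtype.val hab
    rw [LinearMap.coe_restrict_apply, LinearMap.coe_restrict_apply, LinearMap.mulLeft_apply,
      LinearMap.mulLeft_apply] at h1
    exact Subtype.ext (mul_left_cancel₀ hf0 h1)
  have hge : h75_genus K x ≤ Module.finrank K ↥(riemannRochSpace (W - Finsupp.single P 1)) := by
    rw [← hKfin]
    exact LinearMap.finrank_le_finrank_of_injective hinj
  have hWPle : riemannRochSpace (W - Finsupp.single P 1) ≤ riemannRochSpace W := by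
    intro y hy
    rw [mem_riemannRochSpace_iff] at hy ⊢
    intro v
    rcases hy v with h0 | h1
    · exact Or.inl h0
    · right
      rw [Finsupp.sub_apply, Finsupp.single_apply] at h1
      split_ifs at h1 <;> omega
  have hle2 : Module.finrank K ↥(riemannRochSpace (W - Finsupp.single P 1)) ≤ h75_genus K x := by
    rw [← hWfin]
    exact Submodule.finrank_mono hWPle
  have hWPfin : Module.finrank K ↥(riemannRochSpace (W - Finsupp.single P 1)) = h75_genus K x :=
    le_antisymm hle2 hge
  have hWPeq : riemannRochSpace (W - Finsupp.single P 1) = riemannRochSpace W :=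
    Submodule.eq_of_le_of_finrank_eq hWPle (by rw [hWPfin, hWfin])
  -- `l(P) = 2`
  have hrrP := hWc (Finsupp.single P 1)
  rw [Divisor.degree_single, h75_deg_eq_one hx P, hWPfin] at hrrP
  have hlP : Module.finrank K ↥(riemannRochSpace (Finsupp.single P 1 : Divisor K F)) = 2 := by
    have : (Module.finrank K ↥(riemannRochSpace (Finsupp.single P 1 : Divisor K F)) : ℤ) = 2 := by
      push_cast at hrrP
      linarith
    exact_mod_cast this
  have hfinP := (hW (Finsupp.single P 1)).1
  obtain ⟨f1, hf1P, hf1⟩ : ∃ f1 ∈ riemannRochSpace (Finsupp.single P 1 : Divisor K F),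
      f1 ∉ Submodule.span K {(1 : F)} := by
    by_contra hno
    have hsub : riemannRochSpace (Finsupp.single P 1 : Divisor K F) ≤ Submodule.span K {(1 : F)} :=
      fun y hy => by
        by_contra hy'
        exact hno ⟨y, hy, hy'⟩
    have := Submodule.finrank_mono hsub
    rw [hlP, finrank_span_singleton (one_ne_zero : (1 : F) ≠ 0)] at this
    omega
  have hf10 : f1 ≠ 0 := by
    rintro rfl
    exact hf1 (Submodule.zero_mem _)
  -- multiplication by `f1` preserves `L(W) = L(W - P)`
  have hT : ∀ h ∈ riemannRochSpace W, LinearMap.mulLeft K f1 h ∈ riemannRochSpace W := by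
    intro h hh
    rw [LinearMap.mulLeft_apply]
    rcases eq_or_ne h 0 with rfl | hh0
    · rw [mul_zero]
      exact Submodule.zero_mem _
    rw [← hWPeq] at hh
    rw [mem_riemannRochSpace_iff] at hh hf1P ⊢
    intro v
    right
    have h1 := (hh v).resolve_left hh0
    have h2 := (hf1P v).resolve_left hf10
    rw [Finsupp.sub_apply] at h1
    rw [v.ord_mul hf10 hh0]
    omega
  have hnt : Nontrivial ↥(riemannRochSpace W) := by
    apply Module.nontrivial_of_finrank_pos (R := K)
    rw [hWfin]
    exact hg
  obtain ⟨c, hc⟩ := Module.End.exists_eigenvalue ((LinearMap.mulLeft K f1).restrict hT)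
  obtain ⟨h, hh⟩ := hc.exists_hasEigenvector
  have h1 := congrArg Subtype.val hh.apply_eq_smul
  rw [LinearMap.coe_restrict_apply, LinearMap.mulLeft_apply] at h1
  have hh0 : (h : F) ≠ 0 := fun h0 => hh.2 (Subtype.ext h0)
  have h2 : f1 = algebraMap K F c := by
    have h3 : ((c • h : ↥(riemannRochSpace W)) : F) = algebraMap K F c * (h : F) := by
      rw [Submodule.coe_smul, Algebra.smul_def]
    rw [h3] at h1
    exact mul_right_cancel₀ hh0 h1
  apply hf1
  rw [h2, Submodule.mem_span_singleton]
  exact ⟨c, by rw [Algebra.smul_def, mul_one]⟩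

/-- **The bridge, numerically**: `(deg K_x + 2).toNat / 2 = g`. -/
theorem h83_toNat_eq {x : F} (hx : h75_IsChart K x) {Kx : Divisor K F}
    (hK : h83_IsDx x Kx) : (Divisor.degree Kx + 2).toNat / 2 = h75_genus K x := by
  rcases Nat.eq_zero_or_pos (h75_genus K x) with h0 | hpos
  · have hle := h83_degree_le hx hK
    rw [h0] at hle ⊢
    have h2 : (Divisor.degree Kx + 2).toNat = 0 := by
      rw [Int.toNat_eq_zero]
      push_cast at hle
      linarith
    rw [h2]
  · rw [h83_degree_eq hx hK hpos]
    have h2 : (2 * (h75_genus K x : ℤ) - 2 + 2).toNat = 2 * h75_genus K x := by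
      rw [sub_add_cancel]
      exact_mod_cast Int.toNat_natCast (2 * h75_genus K x)
    rw [h2]
    omega

/-- a divisor with the orders of the Kähler differential `dx` is an `h83_IsDx`. -/
theorem h83_isDx_of_ordDifferential (hF : h73_IsFF K F) {x : F} (Kx : Divisor K F)
    (hKx : ∀ v : Place K F, Kx v = v.ordDifferential (D K F x)) : h83_IsDx x Kx :=
  ⟨fun P a h => by rw [hKx, h73_ordDifferential_D_pos hF P h],
    fun P h => by rw [hKx, h73_ordDifferential_D_neg hF P h]⟩

/-- **The bridge**: the prelude genus (degree of the divisor of a Kähler differential) is the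
Riemann–Roch genus of any chart. -/
theorem h83_genus_eq_h75 [HasCanonicalDivisor (K := K) (F := F)] {x : F}
    (hx : h75_IsChart K x) : AlgebraicCurve.genus K F = h75_genus K x := by
  have hF : h73_IsFF K F := ⟨x, hx.fin⟩
  have hnt : Nontrivial Ω[F⁄K] := h73_nontrivial_kaehler hF hx.tr
  have hdx : D K F x ≠ 0 := h73_D_ne_zero hF hx.tr
  have hK : h83_IsDx x (canonicalDivisorOf hdx) :=
    h83_isDx_of_ordDifferential hF _ (fun v => canonicalDivisorOf_apply hdx v)
  rw [← h83_toNat_eq hx hK]
  refine h36_genus_of_degree _ fun ω hω Dω hDω => ?_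
  have h1 := h73_finrank_kaehler hF hx.tr
  obtain ⟨c, hc⟩ := (finrank_eq_one_iff_of_nonzero' (D K F x) hdx).mp h1 ω
  have hc0 : c ≠ 0 := by
    rintro rfl
    rw [zero_smul] at hc
    exact hω hc.symm
  obtain ⟨Dc, hDc⟩ := h7_exists_div hx c hc0
  have hdeg := h7_degree_div hx hc0 Dc hDc
  have hsum : Dω = Dc + canonicalDivisorOf hdx := by
    ext v
    rw [Finsupp.add_apply, hDω, ← hc, h73_ordDifferential_smul hF v hc0 hdx, hDc,
      canonicalDivisorOf_apply]
  rw [hsum, map_add, hdeg, zero_add]

/-- **The bridge**, adelic form: `AlgebraicCurve.genus K F = genusFF K F`. -/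
theorem h83_genus_eq_genusFF [HasCanonicalDivisor (K := K) (F := F)] {x : F}
    (hx : h75_IsChart K x) : AlgebraicCurve.genus K F = genusFF K F := by
  rw [h83_genus_eq_h75 hx, h15_genusFF_eq hx]

omit [IsAlgClosed K] in
/-- a transcendental element over which `F` is finite is a chart (characteristic zero). -/
theorem h83_isChart (t : F) (ht : Transcendental K t) [FiniteDimensional K⟮t⟯ F] :
    h75_IsChart K t := by
  refine ⟨ht, inferInstance, ?_⟩
  have : CharZero K⟮t⟯ := charZero_of_injective_algebraMap (algebraMap K K⟮t⟯).injective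
  infer_instance

/-- **Riemann–Roch genus from fibre counts** (the analogue of `h73_genus_of_fibre_counts` for
`h75_genus`, with no `HasCanonicalDivisor` hypothesis: the divisor of `dt` is constructed). -/
theorem h83_h75_genus_of_fibre_counts (t : F) (ht : Transcendental K t)
    [FiniteDimensional K⟮t⟯ F] (a₁ a₂ : K) (ha : a₁ ≠ a₂)
    (hS : ∀ a : K, a ≠ a₁ → a ≠ a₂ →
      Nat.card {v : Place K F // 0 < v.ord (t - algebraMap K F a)} = Module.finrank K⟮t⟯ F) :
    h75_genus K t =
      ((Module.finrank K⟮t⟯ F : ℤ)
        - (Nat.card {v : Place K F // 0 < v.ord (t - algebraMap K F a₁)} : ℤ)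
        - (Nat.card {v : Place K F // 0 < v.ord (t - algebraMap K F a₂)} : ℤ)
        - (Nat.card {v : Place K F // v.ord t < 0} : ℤ) + 2).toNat / 2 := by
  classical
  have hF : h73_IsFF K F := ⟨t, inferInstance⟩
  have hnt : Nontrivial Ω[F⁄K] := h73_nontrivial_kaehler hF ht
  have hx : h75_IsChart K t := h83_isChart t ht
  have hD0 : ∀ x : F, Transcendental K x → FiniteDimensional K⟮x⟯ F :=
    fun x hx => h73_finite_of_transcendental hF hx
  have ht' : ∀ a : K, t ≠ algebraMap K F a := by
    rintro a rfl
    exact ht (isAlgebraic_algebraMap a)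
  have hsum : ∀ a : K, ∑ v ∈ (h24_fibre_finite t ht a).toFinset,
      v.ord (t - algebraMap K F a) = (Module.finrank K⟮t⟯ F : ℕ) := by
    intro a
    exact h24_fibre_sum t ht a _ (fun v => by simp)
  have hpsum : ∑ v ∈ (h24_fibre_infty_finite t ht).toFinset, v.ord t
      = -((Module.finrank K⟮t⟯ F : ℕ) : ℤ) := by
    have h := h24_fibre_infty_sum t ht (h24_fibre_infty_finite t ht).toFinset (fun v => by simp)
    rw [Finset.sum_neg_distrib] at h
    omega
  have hprin : ∀ f : F, f ≠ 0 → ∃ D : Divisor K F, (∀ v : Place K F, D v = v.ord f) ∧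
      D.sum (fun _ n => n) = 0 := fun f hf => h24_exists_principal hD0 f hf
  have hffin : ∀ f : F, f ≠ 0 → {v : Place K F | v.ord f ≠ 0}.Finite := by
    intro f hf
    obtain ⟨D, hD, -⟩ := hprin f hf
    refine D.support.finite_toSet.subset (fun v hv => ?_)
    simp only [Finset.mem_coe, Finsupp.mem_support_iff, hD v]
    exact hv
  have hfsum : ∀ (f : F) (hf : f ≠ 0), ∑ v ∈ (hffin f hf).toFinset, v.ord f = 0 := by
    intro f hf
    obtain ⟨D, hD, hDsum⟩ := hprin f hf
    have hsupp : (hffin f hf).toFinset = D.support := by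
      ext v
      simp [hD v]
    rw [hsupp, ← hDsum, Finsupp.sum]
    exact Finset.sum_congr rfl (fun v _ => (hD v).symm)
  -- the divisor of `dt`
  have hsupp : {v : Place K F | v.ordDifferential (D K F t) ≠ 0}.Finite := by
    refine ((h24_fibre_infty_finite t ht).union
      ((h24_fibre_finite t ht a₁).union (h24_fibre_finite t ht a₂))).subset ?_
    intro v hv
    by_contra hnot
    simp only [Set.mem_union, Set.mem_ofPred_eq, not_or, not_lt] at hnot
    obtain ⟨hp, h1, h2⟩ := hnot
    rcases h46_pole_or_fibre v (h73_hres hF v) ht' with hpole | ⟨a, hav⟩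
    · exact absurd hpole (not_lt.mpr hp)
    · have ha1 : a ≠ a₁ := by
        rintro rfl
        exact absurd hav (not_lt.mpr h1)
      have ha2 : a ≠ a₂ := by
        rintro rfl
        exact absurd hav (not_lt.mpr h2)
      have hcard : (h24_fibre_finite t ht a).toFinset.card = Module.finrank K⟮t⟯ F := by
        rw [← hS a ha1 ha2, ← Set.ncard_eq_toFinset_card _ (h24_fibre_finite t ht a)]
        exact (Nat.card_coe_set_eq _).symm
      have hs0 : ∑ w ∈ (h24_fibre_finite t ht a).toFinset,
          (w.ord (t - algebraMap K F a) - 1) = 0 := by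
        rw [Finset.sum_sub_distrib, hsum a, Finset.sum_const, hcard]
        simp
      have hnn : ∀ w ∈ (h24_fibre_finite t ht a).toFinset,
          0 ≤ w.ord (t - algebraMap K F a) - 1 := by
        intro w hw
        have hw' : 0 < w.ord (t - algebraMap K F a) := by simpa using hw
        omega
      have hone := (Finset.sum_eq_zero_iff_of_nonneg hnn).mp hs0 v (by simpa using hav)
      apply hv
      show v.ordDifferential (D K F t) = 0
      rw [h73_ordDifferential_D_pos hF v hav]
      exact hone
  have hKt : ∀ v : Place K F,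
      (Finsupp.ofSupportFinite (fun v : Place K F => v.ordDifferential (D K F t)) hsupp :
        Divisor K F) v = v.ordDifferential (D K F t) := fun v => rfl
  have hdeg := h46_hurwitz_two t (Module.finrank K⟮t⟯ F) ht' (h73_hres hF) (h73_hEFT hF)
    (h24_fibre_finite t ht) hsum (h24_fibre_infty_finite t ht) hpsum hffin hfsum a₁ a₂ ha hS
    (h73_D_ne_zero hF ht) _ hKt
  have hK := h83_isDx_of_ordDifferential hF _ hKt
  rw [← h83_toNat_eq hx hK, hdeg]

end CharZeroBridge

end Fermat.Agent.S36
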