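import Mathlib
import Fermat.Prelude.Def_ModularCurve_GenusNumerics
import Fermat.Agent.S24.h29_Index

/-!
# S36 / numerics of the node count

* `h83_cuspCount_mul_prime` : `cuspCount (q * M) = 2 * cuspCount M` for a prime `q ∤ M`;
* `h83_node_numerics`       : if `ν₂ = ν₃ = 0` at the levels `M` and `M * q` (`q` prime, `q ∤ M`),
  then `12 * (g(M q) - 2 g(M) + 1) = (q - 1) * ψ(M)` for the genus formula `g`;
* `h83_node_numerics'`      : the general form, for all `M` and primes `q ∤ M`:
  `12 (g(M q) - 2 g(M) + 1) = (q - 1) ψ(M) + 3 (2 ν₂(M) - ν₂(M q)) + 4 (2 ν₃(M) - ν₃(M q))`.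
-/

set_option autoImplicit false

namespace Fermat.Agent.S36

open Fermat.Agent.S24

/-- the number of cusps doubles when a new prime enters the level. -/
theorem h83_cuspCount_mul_prime (p M : ℕ) (hp : p.Prime) (hM : 0 < M) (hpM : ¬ p ∣ M) :
    ModularCurve.cuspCount (p * M) = 2 * ModularCurve.cuspCount M := by
  unfold ModularCurve.cuspCount
  rw [← Finset.sum_filter_add_sum_filter_not (p * M).divisors (fun d => p ∣ d)]
  have hset2 : (p * M).divisors.filter (fun d => ¬ p ∣ d) = M.divisors := by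
    ext d
    simp only [Finset.mem_filter, Nat.mem_divisors]
    constructor
    · rintro ⟨⟨hd, -⟩, hpd⟩
      have hcop : Nat.Coprime d p := ((Nat.Prime.coprime_iff_not_dvd hp).mpr hpd).symm
      exact ⟨Nat.Coprime.dvd_of_dvd_mul_left hcop hd, hM.ne'⟩
    · rintro ⟨hd, -⟩
      exact ⟨⟨Dvd.dvd.mul_left hd p, Nat.mul_ne_zero hp.ne_zero hM.ne'⟩,
        fun h => hpM (dvd_trans h hd)⟩
  have hset1 : (p * M).divisors.filter (fun d => p ∣ d) = M.divisors.image (fun d => p * d) := by
    ext d
    simp only [Finset.mem_filter, Nat.mem_divisors, Finset.mem_image]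
    constructor
    · rintro ⟨⟨hd, -⟩, hpd⟩
      obtain ⟨d', rfl⟩ := hpd
      exact ⟨d', ⟨(Nat.mul_dvd_mul_iff_left hp.pos).mp hd, hM.ne'⟩, rfl⟩
    · rintro ⟨d', ⟨hd, -⟩, rfl⟩
      exact ⟨⟨Nat.mul_dvd_mul_left p hd, Nat.mul_ne_zero hp.ne_zero hM.ne'⟩, dvd_mul_right p d'⟩
  rw [hset1, hset2, Finset.sum_image (fun x _ y _ h => Nat.eq_of_mul_eq_mul_left hp.pos h),
    two_mul]
  congr 1
  · refine Finset.sum_congr rfl fun d hd => ?_
    rw [Nat.mem_divisors] at hd
    have hcop : Nat.Coprime p (M / d) := by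
      rw [Nat.Prime.coprime_iff_not_dvd hp]
      exact fun h => hpM (dvd_trans h (Nat.div_dvd_of_dvd hd.1))
    rw [Nat.mul_div_mul_left M d hp.pos, Nat.Coprime.gcd_mul_left_cancel d hcop]
  · refine Finset.sum_congr rfl fun d hd => ?_
    rw [Nat.mem_divisors] at hd
    have hcop : Nat.Coprime p d := by
      rw [Nat.Prime.coprime_iff_not_dvd hp]
      exact fun h => hpM (dvd_trans h hd.1)
    rw [Nat.mul_div_assoc p hd.1, Nat.Coprime.gcd_mul_left_cancel_right (M / d) hcop]

/-- **node numerics**: with no elliptic points at the levels `M` and `M q`,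
`12 (g(M q) - 2 g(M) + 1) = (q - 1) ψ(M)`. -/
theorem h83_node_numerics (q M : ℕ) (hq : q.Prime) (hM : 0 < M) (hqM : ¬ q ∣ M)
    (h2 : ModularCurve.nuTwo M = 0) (h3 : ModularCurve.nuThree M = 0)
    (h2' : ModularCurve.nuTwo (M * q) = 0) (h3' : ModularCurve.nuThree (M * q) = 0) :
    12 * (ModularCurve.genusFormula (M * q) - 2 * ModularCurve.genusFormula M + 1)
      = ((q : ℚ) - 1) * (ModularCurve.dedekindPsi M : ℚ) := by
  have hpsi : ModularCurve.dedekindPsi (M * q) = (q + 1) * ModularCurve.dedekindPsi M := by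
    rw [mul_comm M q]
    exact h29_psi_mul_of_not_dvd q M hq hM hqM
  have hc : ModularCurve.cuspCount (M * q) = 2 * ModularCurve.cuspCount M := by
    rw [mul_comm M q]
    exact h83_cuspCount_mul_prime q M hq hM hqM
  unfold ModularCurve.genusFormula
  rw [h2, h3, h2', h3', hpsi, hc]
  push_cast
  ring

/-- **node numerics, general form** (no hypothesis on elliptic points; the `ν` of both levels
appear). -/
theorem h83_node_numerics' (q M : ℕ) (hq : q.Prime) (hM : 0 < M) (hqM : ¬ q ∣ M) :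
    12 * (ModularCurve.genusFormula (M * q) - 2 * ModularCurve.genusFormula M + 1)
      = ((q : ℚ) - 1) * (ModularCurve.dedekindPsi M : ℚ)
        + 3 * (2 * (ModularCurve.nuTwo M : ℚ) - ModularCurve.nuTwo (M * q))
        + 4 * (2 * (ModularCurve.nuThree M : ℚ) - ModularCurve.nuThree (M * q)) := by
  have hpsi : ModularCurve.dedekindPsi (M * q) = (q + 1) * ModularCurve.dedekindPsi M := by
    rw [mul_comm M q]
    exact h29_psi_mul_of_not_dvd q M hq hM hqM
  have hc : ModularCurve.cuspCount (M * q) = 2 * ModularCurve.cuspCount M := by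
    rw [mul_comm M q]
    exact h83_cuspCount_mul_prime q M hq hM hqM
  unfold ModularCurve.genusFormula
  rw [hpsi, hc]
  push_cast
  ring

end Fermat.Agent.S36
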