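import Fermat.Agent.S36.h83_GenusMod
import Fermat.Agent.S36.h83_NodeNumerics
import Fermat.Agent.S36.h70_GeomNAux
import Fermat.Agent.S18.h39_Mod
import Fermat.Agent.S18.GR_GenusEq
import Fermat.Agent.S18.GR_LxDim
import Fermat.Agent.S18.GR_RedAPI
import Fermat.Agent.S18.h19_ResField

/-!
# S36 / (R-CNT)(b) inputs (helper83): the genus of the special fibre, and the node number

* `h83_genus_specialFibre` : for `ℓ ∤ N` (and `ℓ ≥ 5` or `2 ∣ N` or `3 ∣ N`, the charted
  levels), `A` a valuation ring of `ℚ̄` over `ℓ`, `k` its residue field and ANY chart `y` of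
  `modularFunctionFieldFullC k N`: `h75_genus k y = genusFormula N`
  (good reduction of the genus `h39_genus_eq` + the bridge `h83_h75_genus_modular`).
* `h83_node_count` : if `n = g(F_{Mq}) - 2 g(F̄_M) + 1` (Riemann–Roch genera of any charts; this
  is the shape of the generic node count), and `M`, `M q` have no elliptic points, then
  `12 n = (q - 1) ψ(M)`.
* `h83_node_count_r` : the same with the hypothesis "a prime `r ≡ 11 mod 12` divides `M`".
-/

set_option autoImplicit false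
set_option synthInstance.maxHeartbeats 400000

noncomputable section

open AlgebraicCurve IntermediateField ModularCurve

namespace Fermat.Agent.S36

open Fermat.Agent.S18 Fermat.Agent.S24 Fermat.Agent.S27

local notation "Qb" => AlgebraicClosure ℚ

/-- The Riemann–Roch genus of the special fibre of `X₀(N)` at `ℓ ∤ N` (charted levels), at any
chart, is the genus formula. -/
theorem h83_genus_specialFibre (N : ℕ) [NeZero N] {ℓ : ℕ} [Fact ℓ.Prime] (hℓN : ¬ ℓ ∣ N)
    (hch : 5 ≤ ℓ ∨ 2 ∣ N ∨ 3 ∣ N) (A : ValuationSubring Qb) (hA : A.LiesOverPrime ℓ)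
    {y : ↥(modularFunctionFieldFullC (IsLocalRing.ResidueField A) N)}
    (hy : h75_IsChart (IsLocalRing.ResidueField A) y) :
    (h75_genus (IsLocalRing.ResidueField A) y : ℚ) = genusFormula N := by
  haveI : IsAlgClosed (IsLocalRing.ResidueField A) := h19_residueField_isAlgClosed A
  obtain ⟨x, hx⟩ : ∃ x : ↥(modularFunctionFieldBar N), h39_Chart (h39_modRed N hℓN A hA) x := by
    rcases hch with h | h | h
    · exact ⟨_, h39_modRed_chart_j N hℓN A hA h⟩
    · exact h39_modRed_chart_h2 N hℓN A hA h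
    · exact h39_modRed_chart_h3 N hℓN A hA h
  have hw := hx.toh39_WeakChart
  have hxK := h39_weakChart_isChart _ hw
  have hxk := h39_weakChart_isChart_red _ hw
  rw [h39_genus_eq_of_charts hy hxk, h39_genus_eq _ hx]
  exact h83_h75_genus_modular N hxK

/-- The node number: `n = g(F_{Mq}) - 2 g(F̄_M) + 1` and no elliptic points give
`12 n = (q - 1) ψ(M)`. -/
theorem h83_node_count (M q : ℕ) [NeZero M] [Fact q.Prime] (hqM : ¬ q ∣ M)
    (hch : 5 ≤ q ∨ 2 ∣ M ∨ 3 ∣ M) (A : ValuationSubring Qb) (hA : A.LiesOverPrime q)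
    (h2 : nuTwo M = 0) (h3 : nuThree M = 0) (h2' : nuTwo (M * q) = 0)
    (h3' : nuThree (M * q) = 0)
    {xF : ↥(modularFunctionFieldBar (M * q))} (hxF : h75_IsChart Qb xF)
    {xb : ↥(modularFunctionFieldFullC (IsLocalRing.ResidueField A) M)}
    (hxb : h75_IsChart (IsLocalRing.ResidueField A) xb) (n : ℕ)
    (hn : (n : ℤ) = (h75_genus Qb xF : ℤ) - 2 * h75_genus (IsLocalRing.ResidueField A) xb + 1) :
    12 * n = (q - 1) * dedekindPsi M := by
  have hq : q.Prime := Fact.out
  have hM : 0 < M := Nat.pos_of_ne_zero (NeZero.ne M)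
  haveI : NeZero (M * q) := ⟨Nat.mul_ne_zero (NeZero.ne M) hq.ne_zero⟩
  have hgF := h83_h75_genus_modular (M * q) hxF
  have hgb := h83_genus_specialFibre M hqM hch A hA hxb
  have hnum := h83_node_numerics q M hq hM hqM h2 h3 h2' h3'
  have hnQ : (n : ℚ) = genusFormula (M * q) - 2 * genusFormula M + 1 := by
    rw [← hgF, ← hgb]
    exact_mod_cast hn
  have hQ : ((12 * n : ℕ) : ℚ) = (((q - 1) * dedekindPsi M : ℕ) : ℚ) := by
    push_cast [Nat.cast_sub hq.one_le]
    rw [hnQ]
    exact hnum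
  exact_mod_cast hQ

/-- The node number at levels divisible by a prime `r ≡ 11 mod 12`. -/
theorem h83_node_count_r (M q : ℕ) [NeZero M] [Fact q.Prime] (hqM : ¬ q ∣ M)
    (hch : 5 ≤ q ∨ 2 ∣ M ∨ 3 ∣ M) (A : ValuationSubring Qb) (hA : A.LiesOverPrime q)
    (hr : ∃ r : ℕ, r.Prime ∧ r % 12 = 11 ∧ r ∣ M)
    {xF : ↥(modularFunctionFieldBar (M * q))} (hxF : h75_IsChart Qb xF)
    {xb : ↥(modularFunctionFieldFullC (IsLocalRing.ResidueField A) M)}
    (hxb : h75_IsChart (IsLocalRing.ResidueField A) xb) (n : ℕ)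
    (hn : (n : ℤ) = (h75_genus Qb xF : ℤ) - 2 * h75_genus (IsLocalRing.ResidueField A) xb + 1) :
    12 * n = (q - 1) * dedekindPsi M := by
  obtain ⟨r, hrp, hr12, hrM⟩ := hr
  obtain ⟨h2, h3⟩ := h70_nu_zero r M hrp hr12 hrM
  obtain ⟨h2', h3'⟩ := h70_nu_zero r (M * q) hrp hr12 (Dvd.dvd.mul_right hrM q)
  exact h83_node_count M q hqM hch A hA h2 h3 h2' h3' hxF hxb n hn

end Fermat.Agent.S36

end
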