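import Mathlib
import Fermat.Agent.S36.h84_UnitCusp
import Fermat.Agent.S36.h20_RhoD

/-!
# S36 (HASSE package, rows (U) + (W-CUSP), the instance; helper84)

`h84_unit M q hqM = h84_u M q hqM (h20_rho M q)` : the modular unit
`u = ρ⁶ J⁴ (J - 1728)³ / ((wJ)⁴ (wJ - 1728)³)` for helper20's `ρ = h20_rho M q = q⁻¹ d(wJ)/dJ`.
All hypotheses of `h84_unit_main` are discharged by `S36/h20_Rho.lean`:

* `h84_unit_mem_R1`, `h84_unit_redF_ne_zero`, `h84_unit_q12_mem_R2` : the fields `hu1`, `hW`,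
  `hu2` of `h81_CountHyp` (`π = q`);
* `h84_unit_cusp_sum` : the field `hcusp` (as an equality, `C = (q - 1) ψ(M)`);
* `h84_unit_ord`, `h84_unit_inv_ord` : `u`, `u⁻¹` have order `0` where `J` is finite (level
  without elliptic elements; `= h20_u_ord`);
* `h84_unit_rho_pow`, `h84_unit_W_order`, `h84_unit_W_mem_adjoin`, `h84_unit_W_cusp`,
  `h84_unit_redF2_q12`, `h84_unit_swap`.
-/

set_option autoImplicit false
set_option synthInstance.maxHeartbeats 400000
set_option linter.unusedSectionVars false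

noncomputable section

open ModularCurve AlgebraicCurve IntermediateField
open scoped MatrixGroups

namespace Fermat.Agent.S36

open Fermat.Agent.S18 Fermat.Agent.S24 Fermat.Agent.S27 Fermat.Agent.S34 Fermat.Agent.S37

local notation "Qb" => AlgebraicClosure ℚ

variable (M q : ℕ) [NeZero M] [NeZero q] [Fact q.Prime] (hqM : ¬ q ∣ M)
  (A : ValuationSubring Qb) (hA : A.LiesOverPrime q)

/-- **The modular unit** of level `M q` (`= q⁶ Δ(qτ)/Δ(τ)` up to a constant). -/
def h84_unit : ↥(modularFunctionFieldBar (M * q)) := h84_u M q hqM (h20_rho M q)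

theorem h84_unit_eq :
    h84_unit M q hqM
      = h20_rho M q ^ 6 * (h59_jbar (M * q) ^ 4 * (h59_jbar (M * q) - 1728) ^ 3) /
        (h60_w M q hqM (h59_jbar (M * q)) ^ 4 *
          (h60_w M q hqM (h59_jbar (M * q)) - 1728) ^ 3) := rfl

set_option maxHeartbeats 1000000 in
/-- All facts at once (`h84_unit_main` at `ρ = h20_rho M q`). -/
theorem h84_unit_inst :
    h84_unit M q hqM ∈ (h60_R1 M q hqM A hA).O ∧
    (h60_R1 M q hqM A hA).redF (h84_unit M q hqM) ≠ 0 ∧
    algebraMap Qb ↥(modularFunctionFieldBar (M * q)) (q : Qb) ^ 12 * h84_unit M q hqM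
      ∈ (h60_R2 M q hqM A hA).O ∧
    (h60_R2 M q hqM A hA).redF
        (algebraMap Qb ↥(modularFunctionFieldBar (M * q)) (q : Qb) ^ 12 * h84_unit M q hqM)
      = ((h60_R1 M q hqM A hA).redF (h84_unit M q hqM))⁻¹ ∧
    (h60_R1 M q hqM A hA).redF (h20_rho M q) ^ 6
      = (h60_R1 M q hqM A hA).redF (h84_unit M q hqM)
        * (h54_jk (IsLocalRing.ResidueField A) M ^ 4
          * (h54_jk (IsLocalRing.ResidueField A) M - 1728) ^ 3) ^ (q - 1) ∧
    (h60_R1 M q hqM A hA).redF (h84_unit M q hqM)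
      ∈ (IsLocalRing.ResidueField A)⟮h54_jk (IsLocalRing.ResidueField A) M⟯ ∧
    (((h60_R1 M q hqM A hA).redF (h84_unit M q hqM) :
        ↥(modularFunctionFieldFullC (IsLocalRing.ResidueField A) M)) :
          LaurentSeries (IsLocalRing.ResidueField A)).order = ((q - 1 : ℕ) : ℤ) ∧
    ∀ T : Finset (Place (IsLocalRing.ResidueField A)
        ↥(modularFunctionFieldFullC (IsLocalRing.ResidueField A) M)),
      (∀ P, P ∈ T ↔ P.ord (h54_jk (IsLocalRing.ResidueField A) M) < 0) →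
      ∑ P ∈ T, P.ord ((h60_R1 M q hqM A hA).redF (h84_unit M q hqM))
        = ((q - 1 : ℕ) : ℤ) * (dedekindPsi M : ℤ) := by
  have h1 : ((h20_rho 1 q : ↥(modularFunctionFieldBar (1 * q))) : LaurentSeries Qb)
      = ((h20_rho M q : ↥(modularFunctionFieldBar (M * q))) : LaurentSeries Qb) :=
    (h20_coe_rho 1 q).trans (h20_coe_rho M q).symm
  have h := h84_unit_main M q hqM A hA (h20_rho M q) (h20_coe_redF_rho_pow M q hqM A hA)
    (h20_w_rho M q hqM) (h20_rho 1 q) h1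
  unfold h84_unit
  exact h

/-- `hu1` of `h81_CountHyp`. -/
theorem h84_unit_mem_R1 : h84_unit M q hqM ∈ (h60_R1 M q hqM A hA).O :=
  (h84_unit_inst M q hqM A hA).1

/-- `hW` of `h81_CountHyp`. -/
theorem h84_unit_redF_ne_zero : (h60_R1 M q hqM A hA).redF (h84_unit M q hqM) ≠ 0 :=
  (h84_unit_inst M q hqM A hA).2.1

/-- `hu2` of `h81_CountHyp` (`π = q`). -/
theorem h84_unit_q12_mem_R2 :
    algebraMap Qb ↥(modularFunctionFieldBar (M * q)) (q : Qb) ^ 12 * h84_unit M q hqM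
      ∈ (h60_R2 M q hqM A hA).O :=
  (h84_unit_inst M q hqM A hA).2.2.1

/-- `red₂ (q¹² u) = W⁻¹`. -/
theorem h84_unit_redF2_q12 :
    (h60_R2 M q hqM A hA).redF
        (algebraMap Qb ↥(modularFunctionFieldBar (M * q)) (q : Qb) ^ 12 * h84_unit M q hqM)
      = ((h60_R1 M q hqM A hA).redF (h84_unit M q hqM))⁻¹ :=
  (h84_unit_inst M q hqM A hA).2.2.2.1

/-- `(red₁ ρ)⁶ = W (j̄⁴ (j̄ - 1728)³)^(q-1)`. -/
theorem h84_unit_rho_pow :
    (h60_R1 M q hqM A hA).redF (h20_rho M q) ^ 6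
      = (h60_R1 M q hqM A hA).redF (h84_unit M q hqM)
        * (h54_jk (IsLocalRing.ResidueField A) M ^ 4
          * (h54_jk (IsLocalRing.ResidueField A) M - 1728) ^ 3) ^ (q - 1) :=
  (h84_unit_inst M q hqM A hA).2.2.2.2.1

/-- `W ∈ k(j̄)`. -/
theorem h84_unit_W_mem_adjoin :
    (h60_R1 M q hqM A hA).redF (h84_unit M q hqM)
      ∈ (IsLocalRing.ResidueField A)⟮h54_jk (IsLocalRing.ResidueField A) M⟯ :=
  (h84_unit_inst M q hqM A hA).2.2.2.2.2.1

/-- The `Q`-order of `W` is `q - 1`. -/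
theorem h84_unit_W_order :
    (((h60_R1 M q hqM A hA).redF (h84_unit M q hqM) :
        ↥(modularFunctionFieldFullC (IsLocalRing.ResidueField A) M)) :
          LaurentSeries (IsLocalRing.ResidueField A)).order = ((q - 1 : ℕ) : ℤ) :=
  (h84_unit_inst M q hqM A hA).2.2.2.2.2.2.1

/-- `hcusp` of `h81_CountHyp` (as an equality): `∑_{y over j̄ = ∞} ord_y W = (q - 1) ψ(M)`. -/
theorem h84_unit_cusp_sum
    (T : Finset (Place (IsLocalRing.ResidueField A)
      ↥(modularFunctionFieldFullC (IsLocalRing.ResidueField A) M)))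
    (hT : ∀ P, P ∈ T ↔ P.ord (h54_jk (IsLocalRing.ResidueField A) M) < 0) :
    ∑ P ∈ T, P.ord ((h60_R1 M q hqM A hA).redF (h84_unit M q hqM))
      = ((q - 1 : ℕ) : ℤ) * (dedekindPsi M : ℤ) :=
  (h84_unit_inst M q hqM A hA).2.2.2.2.2.2.2 T hT

/-- `ord_y W = -(q - 1) ord_y j̄` at every place `y` over `j̄ = ∞`. -/
theorem h84_unit_W_cusp
    (y : Place (IsLocalRing.ResidueField A)
      ↥(modularFunctionFieldFullC (IsLocalRing.ResidueField A) M))
    (hy : y.ord (h54_jk (IsLocalRing.ResidueField A) M) < 0) :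
    y.ord ((h60_R1 M q hqM A hA).redF (h84_unit M q hqM))
      = -((q - 1 : ℕ) : ℤ) * y.ord (h54_jk (IsLocalRing.ResidueField A) M) :=
  h64_ord_of_mem_adjoin_jk _ M (h84_unit_redF_ne_zero M q hqM A hA)
    (h84_unit_W_mem_adjoin M q hqM A hA) _ (h84_unit_W_order M q hqM A hA) y hy

/-- `w u · u · q¹² = 1`. -/
theorem h84_unit_swap :
    h60_w M q hqM (h84_unit M q hqM) * h84_unit M q hqM
      * (q : ↥(modularFunctionFieldBar (M * q))) ^ 12 = 1 :=
  h84_u_swap M q hqM (h20_rho M q) (h20_w_rho M q hqM)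

theorem h84_unit_ne_zero : h84_unit M q hqM ≠ 0 := by
  have h := h84_unit_swap M q hqM
  intro h0
  rw [h0, mul_zero, zero_mul] at h
  exact zero_ne_one h

/-- **(U3)**: at a level without elliptic elements, `u` has order `0` wherever `J` is finite. -/
theorem h84_unit_ord
    (hEll : ∀ g : SL(2, ℤ), g⁻¹ * ModularGroup.S * g ∉ CongruenceSubgroup.Gamma0 (M * q) ∧
      g⁻¹ * (ModularGroup.S * ModularGroup.T) * g ∉ CongruenceSubgroup.Gamma0 (M * q))
    (P : Place Qb ↥(modularFunctionFieldBar (M * q)))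
    (hP : h59_jbar (M * q) ∈ P.toValuationSubring) :
    P.ord (h84_unit M q hqM) = 0 :=
  h20_u_ord M q hqM hEll P hP

/-- ... and so does `u⁻¹`. -/
theorem h84_unit_inv_ord
    (hEll : ∀ g : SL(2, ℤ), g⁻¹ * ModularGroup.S * g ∉ CongruenceSubgroup.Gamma0 (M * q) ∧
      g⁻¹ * (ModularGroup.S * ModularGroup.T) * g ∉ CongruenceSubgroup.Gamma0 (M * q))
    (P : Place Qb ↥(modularFunctionFieldBar (M * q)))
    (hP : h59_jbar (M * q) ∈ P.toValuationSubring) :
    P.ord (h84_unit M q hqM)⁻¹ = 0 := by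
  rw [Place.ord_inv, h84_unit_ord M q hqM hEll P hP, neg_zero]

end Fermat.Agent.S36

end
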