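import Fermat.Agent.S36.h87_CuspSqueeze
import Fermat.Prelude.Def_AlgebraicCurve_BaseChangeGalois
import Fermat.Agent.S18.GR_ChartRed

/-!
# S36 / (L3) cusps, part 3: the place reduction commutes with inertia (owner helper87)

`g` a semilinear automorphism of `F / K` fixing the chart `x`, preserving `O` and the reduction
(`red (g f) = red f`: an element of inertia).  Then

* `h87_r0_smul` : `r0 (g • P) = r0 P` for every place `P` (uniqueness of chart reductions);
* `h87_pole_smul` **[C4]** : `g • P = P` for every pole `P` of `x` (cusps are inertia-fixed);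
* `h87_fibre_smul` : `g • P = P` for every zero of `x - a`, `a ∈ Z` fixed by `g`.
-/

set_option autoImplicit false

open AlgebraicCurve IntermediateField

namespace Fermat.Agent.S36

open Fermat.Agent.S18 Fermat.Agent.S27 Fermat.Agent.S24

variable {K F k Fb : Type*} [Field K] [Field F] [Algebra K F] [Field k] [Field Fb] [Algebra k Fb]

/-- transport of a value along a semilinear automorphism. -/
theorem h87_val_smul (g : SemilinearAut K F) {P : Place K F} {f : F} {b : K}
    (h : h39_Val P f b) : h39_Val (g • P) (g • f) (SemilinearAut.baseAut g b) := by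
  rcases h with h | h
  · left
    rw [h, SemilinearAut.smul_algebraMap]
  · right
    rw [← SemilinearAut.smul_algebraMap, ← smul_sub, SemilinearAut.ord_smul]
    exact h

/-- regularity on a chart fixed by `g` is preserved by `g`. -/
theorem h87_reg_smul (g : SemilinearAut K F) {t f : F} (hgt : g • t = t)
    (h : h39_Reg K t f) : h39_Reg K t (g • f) := by
  intro P hP
  have hP' : P = g • (g⁻¹ • P) := (smul_inv_smul g P).symm
  have ht : t ∈ (g⁻¹ • P).toValuationSubring := by
    rw [SemilinearAut.smul_toValuationSubring,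
      ValuationSubring.mem_pointwise_smul_iff_inv_smul_mem, inv_inv, hgt]
    exact hP
  have hf := h (g⁻¹ • P) ht
  rw [hP', SemilinearAut.smul_toValuationSubring]
  exact ValuationSubring.smul_mem_pointwise_smul g f _ hf

section Gal

variable (R : h39_RedDatum K F k Fb) (g : SemilinearAut K F)

/-- `g` fixes the residues of the constants. -/
theorem h87_resK_smul (hgO : ∀ f : F, f ∈ R.O ↔ g • f ∈ R.O)
    (hgred : ∀ f : F, f ∈ R.O → R.redF (g • f) = R.redF f) (b : K) :
    (b ∈ R.A ↔ SemilinearAut.baseAut g b ∈ R.A) ∧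
      R.resK (SemilinearAut.baseAut g b) = R.resK b := by
  have hiff : b ∈ R.A ↔ SemilinearAut.baseAut g b ∈ R.A := by
    rw [R.mem_iff b, R.mem_iff (SemilinearAut.baseAut g b), ← SemilinearAut.smul_algebraMap]
    exact hgO _
  refine ⟨hiff, ?_⟩
  by_cases hb : b ∈ R.A
  · have hb' := hiff.mp hb
    have h1 := h39_redF_algebraMap R hb'
    rw [← SemilinearAut.smul_algebraMap, hgred _ ((R.mem_iff b).mp hb),
      h39_redF_algebraMap R hb] at h1
    exact ((algebraMap k Fb).injective h1).symm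
  · rw [h62_resK_of_not_mem R hb, h62_resK_of_not_mem R (fun h => hb (hiff.mpr h))]

/-- the unit disc of a chart fixed by `g` is `g`-stable. -/
theorem h87_inDisc_smul (hgO : ∀ f : F, f ∈ R.O ↔ g • f ∈ R.O)
    (hgred : ∀ f : F, f ∈ R.O → R.redF (g • f) = R.redF f) {t : F} (hgt : g • t = t)
    {P : Place K F} (hP : h39_InDisc R t P) : h39_InDisc R t (g • P) := by
  obtain ⟨a, ha, hv⟩ := hP
  refine ⟨SemilinearAut.baseAut g a, ((h87_resK_smul R g hgO hgred a).1).mp ha, ?_⟩
  have := h87_val_smul g hv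
  rwa [hgt] at this

/-- a chart reduction precomposed with `g` is a chart reduction. -/
theorem h87_chartRed_smul (hgO : ∀ f : F, f ∈ R.O ↔ g • f ∈ R.O)
    (hgred : ∀ f : F, f ∈ R.O → R.redF (g • f) = R.redF f) {t : F} (hgt : g • t = t)
    {r : Place K F → Place k Fb} (hr : h39_IsChartRed R t r) :
    h39_IsChartRed R t (fun P => r (g • P)) := by
  intro P hP
  have hP' := h87_inDisc_smul R g hgO hgred hgt hP
  obtain ⟨h1, h2⟩ := hr (g • P) hP'
  refine ⟨h1, fun f hf hreg b hb => ?_⟩
  have := h2 (g • f) ((hgO f).mp hf) (h87_reg_smul g hgt hreg) _ (h87_val_smul g hb)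
  rwa [hgred f hf, (h87_resK_smul R g hgO hgred b).2] at this

end Gal

section Main

variable [IsAlgClosed K] [CharZero K] [IsAlgClosed k]
variable (R : h39_RedDatum K F k Fb) {x : F} {r0 : Place K F → Place k Fb}

/-- a place outside the unit disc of `x` lies in the unit disc of `x⁻¹`. -/
theorem h87_inDisc_inv (hw : h39_WeakChart R x) {P : Place K F}
    (hP : ¬ h39_InDisc R x P) : h39_InDisc R x⁻¹ P := by
  have hxK : h75_IsChart K x := h39_weakChart_isChart R hw
  have hx0 : x ≠ 0 := hxK.ne_zero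
  by_cases hmem : x ∈ P.toValuationSubring
  · obtain ⟨c, hc⟩ := h75_exists_value hxK P hmem
    have hcA : c ∉ R.A := fun hcA => hP ⟨c, hcA, Or.inr hc⟩
    have hc0 : c ≠ 0 := fun h => hcA (h ▸ R.A.zero_mem)
    have hciA : c⁻¹ ∈ R.A := (R.A.mem_or_inv_mem c).resolve_left hcA
    refine ⟨c⁻¹, hciA, Or.inr ?_⟩
    have h1 : 0 < P.ord ((x⁻¹)⁻¹ - algebraMap K F c) := by rwa [inv_inv]
    have h2 := (h87_ord_inv_sub P (inv_ne_zero hx0) hc0 h1).2
    rw [h2]
    exact h1
  · refine ⟨0, R.A.zero_mem, Or.inr ?_⟩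
    rw [map_zero, sub_zero, P.ord_inv]
    have := (h35_mem_iff_ord_nonneg P hx0).not.mp hmem
    omega

/-- **the place reduction is invariant under inertia.** -/
theorem h87_r0_smul (hx : h39_Chart R x) (h0 : h87_IsR0 R x r0) (g : SemilinearAut K F)
    (hgx : g • x = x) (hgO : ∀ f : F, f ∈ R.O ↔ g • f ∈ R.O)
    (hgred : ∀ f : F, f ∈ R.O → R.redF (g • f) = R.redF f) (P : Place K F) :
    r0 (g • P) = r0 P := by
  have hw : h39_WeakChart R x := hx.toh39_WeakChart
  -- the same hypotheses for `g⁻¹`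
  have hgx' : g⁻¹ • x = x := by
    rw [inv_smul_eq_iff, hgx]
  have hgO' : ∀ f : F, f ∈ R.O ↔ g⁻¹ • f ∈ R.O := by
    intro f
    rw [hgO (g⁻¹ • f), smul_inv_smul]
  have hgred' : ∀ f : F, f ∈ R.O → R.redF (g⁻¹ • f) = R.redF f := by
    intro f hf
    have := hgred (g⁻¹ • f) ((hgO' f).mp hf)
    rw [smul_inv_smul] at this
    exact this.symm
  by_cases hP : h39_InDisc R x P
  · have hP' := h87_inDisc_smul R g hgO hgred hgx hP
    obtain ⟨r, hr, hrr⟩ := h0.1
    rw [hrr _ hP', hrr _ hP]
    exact h39_chartRed_unique R hw (h39_genus_eq R hx)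
      (h87_chartRed_smul R g hgO hgred hgx hr) hr P hP
  · have hP' : ¬ h39_InDisc R x (g • P) := by
      intro h
      have := h87_inDisc_smul R g⁻¹ hgO' hgred' hgx' h
      rw [inv_smul_smul] at this
      exact hP this
    obtain ⟨r', hr', hrr'⟩ := h0.2.1
    rw [hrr' _ hP', hrr' _ hP]
    have hgxi : g • x⁻¹ = x⁻¹ := by
      rw [smul_inv'', hgx]
    exact h39_chartRed_unique R (h39_weakChart_inv R hw) (h53_genus_eq_inv R hx)
      (h87_chartRed_smul R g hgO hgred hgxi hr') hr' P (h87_inDisc_inv R hw hP)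

/-- **[C4]** every pole of the chart `x` is fixed by inertia. -/
theorem h87_pole_smul (hx : h39_Chart R x) (h0 : h87_IsR0 R x r0)
    (Z : Finset K) (hZA : ∀ z ∈ Z, z ∈ R.A)
    (hZinj : ∀ z ∈ Z, ∀ z' ∈ Z, R.resK z = R.resK z' → z = z')
    (hZbr : ∀ (P : Place K F) (a : K), 2 ≤ P.ord (x - algebraMap K F a) → a ∈ Z)
    (g : SemilinearAut K F)
    (hgx : g • x = x) (hgO : ∀ f : F, f ∈ R.O ↔ g • f ∈ R.O)
    (hgred : ∀ f : F, f ∈ R.O → R.redF (g • f) = R.redF f)
    (P : Place K F) (hP : P.ord x < 0) : g • P = P := by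
  have hw : h39_WeakChart R x := hx.toh39_WeakChart
  have hgP : (g • P).ord x < 0 := by
    have := SemilinearAut.ord_smul g P x
    rw [hgx] at this
    rw [this]
    exact hP
  have hnd : ¬ h39_InDisc R x P := by
    rintro ⟨a, -, hv⟩
    rcases hv with h | h
    · rw [h, h35_ord_algebraMap] at hP
      exact lt_irrefl _ hP
    · have := h87_ord_nonneg_of_value P h
      omega
  have hQ := h87_r0_pole R hw h0 hnd
  obtain ⟨P₀, -, -, huniq⟩ := (h87_squeeze R hx h0 Z hZA hZinj hZbr).2.2 (r0 P) hQ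
  rw [huniq (g • P) (h87_r0_smul R hx h0 g hgx hgO hgred P) hgP, huniq P rfl hP]

/-- every zero of `x - a`, `a ∈ Z` fixed by `g`, is fixed by inertia. -/
theorem h87_fibre_smul (hx : h39_Chart R x) (h0 : h87_IsR0 R x r0)
    (Z : Finset K) (hZA : ∀ z ∈ Z, z ∈ R.A)
    (hZinj : ∀ z ∈ Z, ∀ z' ∈ Z, R.resK z = R.resK z' → z = z')
    (hZbr : ∀ (P : Place K F) (a : K), 2 ≤ P.ord (x - algebraMap K F a) → a ∈ Z)
    (g : SemilinearAut K F)
    (hgx : g • x = x) (hgO : ∀ f : F, f ∈ R.O ↔ g • f ∈ R.O)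
    (hgred : ∀ f : F, f ∈ R.O → R.redF (g • f) = R.redF f)
    (a : K) (haZ : a ∈ Z) (hga : SemilinearAut.baseAut g a = a)
    (P : Place K F) (hP : 0 < P.ord (x - algebraMap K F a)) : g • P = P := by
  have hw : h39_WeakChart R x := hx.toh39_WeakChart
  have hgP : 0 < (g • P).ord (x - algebraMap K F a) := by
    have := SemilinearAut.ord_smul g P (x - algebraMap K F a)
    rw [smul_sub, hgx, SemilinearAut.smul_algebraMap, hga] at this
    rw [this]
    exact hP
  have hQ := h87_r0_fibre R hw h0 (hZA a haZ) hP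
  obtain ⟨P₀, -, -, huniq⟩ := (h87_squeeze R hx h0 Z hZA hZinj hZbr).2.1 (r0 P) a haZ hQ
  rw [huniq (g • P) (h87_r0_smul R hx h0 g hgx hgO hgred P) hgP, huniq P rfl hP]

end Main

end Fermat.Agent.S36
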