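import Fermat.Agent.S36.h87_CuspGal
import Fermat.Agent.S18.h39_Mod
import Fermat.Agent.S37.h87_Decomp

/-!
# S36 / (L3) cusps, part 4: the modular instance at level `N` (owner helper87)

`R` a reduction datum of level `N` at `A` (`h54_IsModRed N A R`, e.g. `h39_modRed`), `j` the
chart (`ℓ ≥ 5`), `r0` a place reduction (`h87_IsR0 R j r0`), `I` the inertia group of `A`.

* `h87_isModRed_galois`, `h87_isModRed_smul` : inertia fixes `j`, preserves `O` and `red`;
* `h87_mod_cusp` : every pole `Q` of `j̄` (cusp point of the special fibre) is the reduction of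
  exactly one cusp `P`, `ord_P j = ord_Q j̄` (the pole order of `j̄` is the width), and `P` is
  fixed by inertia;
* `h87_mod_unram` : `j̄ - b` has only simple zeros for `b ≠ 0, 1728`;
* `h87_mod_zero`, `h87_mod_1728` : the places over `j̄ = 0`, `1728` are the reductions of exactly
  one place over `j = 0`, `1728`, with the same ramification, fixed by inertia.
-/

set_option autoImplicit false
set_option synthInstance.maxHeartbeats 400000

noncomputable section

open ModularCurve AlgebraicCurve IntermediateField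

namespace Fermat.Agent.S36

open Fermat.Agent.S18 Fermat.Agent.S37 Fermat.Agent.S24

local notation "Qb" => AlgebraicClosure ℚ

section Gal

variable {N : ℕ} [NeZero N] {A : ValuationSubring Qb}
  {R : h39_RedDatum Qb ↥(modularFunctionFieldBar N) (IsLocalRing.ResidueField A)
    ↥(modularFunctionFieldFullC (IsLocalRing.ResidueField A) N)}

/-- inertia at `A` preserves `O` and commutes with `red` (any level-`N` datum). -/
theorem h87_isModRed_galois (h : h54_IsModRed N A R) (τ : Qb ≃ₐ[ℚ] Qb)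
    (hτ : τ ∈ A.inertiaSubgroupIn ℚ) (f : ↥(modularFunctionFieldBar N)) (hf : f ∈ R.O) :
    arithmeticRingAut (modularFunctionFieldFull N) τ f ∈ R.O ∧
      R.redF (arithmeticRingAut (modularFunctionFieldFull N) τ f) = R.redF f := by
  obtain ⟨sA, hsA, hres⟩ := h87_inertia_lift A τ hτ
  obtain ⟨y₁, y₂, hy, hh⟩ := (h.mem_iff f).mp hf
  have hcomm : ∀ y : LaurentSeries A,
      coeffMap ((τ : Qb ≃ₐ[ℚ] Qb) : Qb →+* Qb) (coeffMap A.subtype y)
        = coeffMap A.subtype (coeffMap sA y) := by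
    intro y
    rw [coeffMap_coeffMap, coeffMap_coeffMap]
    exact coeffMap_congr (RingHom.ext fun a => (hsA a).symm) y
  have hresid : ∀ y : LaurentSeries A,
      coeffMap (IsLocalRing.residue A) (coeffMap sA y) = coeffMap (IsLocalRing.residue A) y := by
    intro y
    rw [coeffMap_coeffMap]
    exact coeffMap_congr (RingHom.ext fun a => hres a) y
  have h' : ((arithmeticRingAut (modularFunctionFieldFull N) τ f :
      ↥(modularFunctionFieldBar N)) : LaurentSeries Qb) * coeffMap A.subtype (coeffMap sA y₂)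
      = coeffMap A.subtype (coeffMap sA y₁) := by
    rw [coe_arithmeticRingAut_apply, ← hcomm, ← hcomm, ← map_mul, hh]
  have hy' : coeffMap (IsLocalRing.residue A) (coeffMap sA y₂) ≠ 0 := by
    rw [hresid]
    exact hy
  have hmem : arithmeticRingAut (modularFunctionFieldFull N) τ f ∈ R.O :=
    (h.mem_iff _).mpr ⟨coeffMap sA y₁, coeffMap sA y₂, hy', h'⟩
  refine ⟨hmem, ?_⟩
  rw [R.redF_of_mem hmem, R.redF_of_mem hf]
  apply Subtype.ext
  have e1 := h.red_eq _ hmem _ _ h'
  have e2 := h.red_eq f hf y₁ y₂ hh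
  rw [hresid, hresid] at e1
  exact mul_right_cancel₀ hy (e1.trans e2.symm)

/-- the three inertia hypotheses of `h87_r0_smul` / `h87_pole_smul` for the chart `j`. -/
theorem h87_isModRed_smul (h : h54_IsModRed N A R) (τ : Qb ≃ₐ[ℚ] Qb)
    (hτ : τ ∈ A.inertiaSubgroupIn ℚ) :
    arithmeticGalois (modularFunctionFieldFull N) τ • h59_jbar N = h59_jbar N ∧
    (∀ f : ↥(modularFunctionFieldBar N),
      f ∈ R.O ↔ arithmeticGalois (modularFunctionFieldFull N) τ • f ∈ R.O) ∧
    (∀ f : ↥(modularFunctionFieldBar N), f ∈ R.O →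
      R.redF (arithmeticGalois (modularFunctionFieldFull N) τ • f) = R.redF f) := by
  refine ⟨?_, fun f => ⟨fun hf => (h87_isModRed_galois h τ hτ f hf).1, fun hf => ?_⟩,
    fun f hf => (h87_isModRed_galois h τ hτ f hf).2⟩
  · apply Subtype.ext
    show coeffMap ((τ : Qb ≃ₐ[ℚ] Qb) : Qb →+* Qb) ((h59_jbar N : ↥(modularFunctionFieldBar N)) :
      LaurentSeries Qb) = _
    rw [h54_coe_jbar N A, coeffMap_jqModC, coeffMap_jqModC]
  · have h1 := (h87_isModRed_galois h τ⁻¹ (inv_mem hτ) _ hf).1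
    have h2 : arithmeticRingAut (modularFunctionFieldFull N) τ⁻¹
        (arithmeticGalois (modularFunctionFieldFull N) τ • f) = f :=
      (arithmeticRingAut (modularFunctionFieldFull N) τ).symm_apply_apply f
    rwa [h2] at h1

end Gal

section ChartJ

variable {N : ℕ} [NeZero N] {A : ValuationSubring Qb}
  {R : h39_RedDatum Qb ↥(modularFunctionFieldBar N) (IsLocalRing.ResidueField A)
    ↥(modularFunctionFieldFullC (IsLocalRing.ResidueField A) N)}

/-- the exceptional set `Z = {0, 1728}` of the chart `j`, `ℓ ≥ 5` (the three chart axioms made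
explicit). -/
theorem h87_chartj_Z (h : h54_IsModRed N A R) {ℓ : ℕ} [Fact ℓ.Prime] (hA : A.LiesOverPrime ℓ)
    (hℓ : 5 ≤ ℓ) :
    (∀ z ∈ ({0, ((1728 : ℕ) : Qb)} : Finset Qb), z ∈ R.A) ∧
    (∀ z ∈ ({0, ((1728 : ℕ) : Qb)} : Finset Qb), ∀ z' ∈ ({0, ((1728 : ℕ) : Qb)} : Finset Qb),
      R.resK z = R.resK z' → z = z') ∧
    (∀ (P : Place Qb ↥(modularFunctionFieldBar N)) (a : Qb),
      2 ≤ P.ord (h59_jbar N - algebraMap Qb ↥(modularFunctionFieldBar N) a) →
        a ∈ ({0, ((1728 : ℕ) : Qb)} : Finset Qb)) := by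
  classical
  have hℓp : ℓ.Prime := Fact.out
  have h1728 : ¬ ℓ ∣ 1728 := by
    intro hd
    have h' : ℓ ∣ 2 ^ 6 * 3 ^ 3 := by norm_num; exact hd
    rcases (Nat.Prime.dvd_mul hℓp).1 h' with h2 | h3
    · have := Nat.le_of_dvd (by norm_num) (hℓp.dvd_of_dvd_pow h2)
      omega
    · have := Nat.le_of_dvd (by norm_num) (hℓp.dvd_of_dvd_pow h3)
      omega
  refine ⟨?_, ?_, ?_⟩
  · intro z hz
    rw [h.A_eq]
    rcases Finset.mem_insert.1 hz with rfl | hz
    · exact zero_mem A
    · rw [Finset.mem_singleton.1 hz]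
      exact natCast_mem A 1728
  · have hne := h54_resK_natCast_ne_zero h hA 1728 h1728
    intro z hz z' hz' hzz
    rcases Finset.mem_insert.1 hz with rfl | hz
    · rcases Finset.mem_insert.1 hz' with rfl | hz'
      · rfl
      · rw [Finset.mem_singleton.1 hz', h54_resK_zero] at hzz
        exact absurd hzz.symm hne
    · rcases Finset.mem_insert.1 hz' with rfl | hz'
      · rw [Finset.mem_singleton.1 hz, h54_resK_zero] at hzz
        exact absurd hzz hne
      · rw [Finset.mem_singleton.1 hz, Finset.mem_singleton.1 hz']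
  · intro P a hP
    obtain ⟨-, -, h3⟩ := h54_ord_j_sub_dvd N P a (by omega)
    by_contra hne
    have h0 : a ≠ 0 := fun h0 => hne (by rw [h0]; exact Finset.mem_insert_self _ _)
    have h1 : a ≠ 1728 := fun h1 => hne (by
      rw [h1]
      exact Finset.mem_insert_of_mem (Finset.mem_singleton.2 (by norm_num)))
    have := h3 h0 h1
    omega

variable [IsAlgClosed (IsLocalRing.ResidueField A)]
  {r0 : Place Qb ↥(modularFunctionFieldBar N) →
    Place (IsLocalRing.ResidueField A) ↥(modularFunctionFieldFullC (IsLocalRing.ResidueField A) N)}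

/-- **[C1] + [C4] at level `N`** (`ℓ ≥ 5`): every pole `Q` of `j̄` is the reduction of exactly
one cusp `P`; the pole orders agree; `P` is fixed by inertia. -/
theorem h87_mod_cusp (h : h54_IsModRed N A R) {ℓ : ℕ} [Fact ℓ.Prime] (hA : A.LiesOverPrime ℓ)
    (hℓ : 5 ≤ ℓ) (hchart : h39_Chart R (h59_jbar N)) (h0 : h87_IsR0 R (h59_jbar N) r0)
    (Q : Place (IsLocalRing.ResidueField A)
      ↥(modularFunctionFieldFullC (IsLocalRing.ResidueField A) N))
    (hQ : Q.ord (R.redF (h59_jbar N)) < 0) :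
    ∃ P : Place Qb ↥(modularFunctionFieldBar N), r0 P = Q ∧
      P.ord (h59_jbar N) = Q.ord (R.redF (h59_jbar N)) ∧
      (∀ P' : Place Qb ↥(modularFunctionFieldBar N), r0 P' = Q → P'.ord (h59_jbar N) < 0 →
        P' = P) ∧
      ∀ τ ∈ A.inertiaSubgroupIn ℚ, arithmeticGalois (modularFunctionFieldFull N) τ • P = P := by
  obtain ⟨hZA, hZinj, hZbr⟩ := h87_chartj_Z h hA hℓ
  obtain ⟨P, hP, hord, huniq⟩ := (h87_squeeze R hchart h0 _ hZA hZinj hZbr).2.2 Q hQ
  refine ⟨P, hP, hord, huniq, fun τ hτ => ?_⟩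
  obtain ⟨hgx, hgO, hgred⟩ := h87_isModRed_smul h τ hτ
  exact h87_pole_smul R hchart h0 _ hZA hZinj hZbr _ hgx hgO hgred P (by rw [hord]; exact hQ)

/-- **[C2] at level `N`** (`ℓ ≥ 5`): `j̄ - b` has only simple zeros for `b ≠ 0, 1728`. -/
theorem h87_mod_unram (h : h54_IsModRed N A R) {ℓ : ℕ} [Fact ℓ.Prime] (hA : A.LiesOverPrime ℓ)
    (hℓ : 5 ≤ ℓ) (hchart : h39_Chart R (h59_jbar N)) (h0 : h87_IsR0 R (h59_jbar N) r0)
    (Q : Place (IsLocalRing.ResidueField A)
      ↥(modularFunctionFieldFullC (IsLocalRing.ResidueField A) N))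
    (b : IsLocalRing.ResidueField A) (hb0 : b ≠ 0) (hb1 : b ≠ R.resK ((1728 : ℕ) : Qb))
    (hQ : 0 < Q.ord (R.redF (h59_jbar N) - algebraMap _ _ b)) :
    Q.ord (R.redF (h59_jbar N) - algebraMap _ _ b) = 1 := by
  classical
  obtain ⟨hZA, hZinj, hZbr⟩ := h87_chartj_Z h hA hℓ
  refine (h87_squeeze R hchart h0 _ hZA hZinj hZbr).1 Q b (fun z hz => ?_) hQ
  rcases Finset.mem_insert.1 hz with rfl | hz
  · rw [h54_resK_zero]
    exact fun h => hb0 h.symm
  · rw [Finset.mem_singleton.1 hz]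
    exact fun h => hb1 h.symm

/-- **[C3] at level `N`** (`ℓ ≥ 5`), over `j̄ = 0`: every zero `Q` of `j̄` is the reduction of
exactly one zero `P` of `j`, with the same order, and `P` is fixed by inertia. -/
theorem h87_mod_zero (h : h54_IsModRed N A R) {ℓ : ℕ} [Fact ℓ.Prime] (hA : A.LiesOverPrime ℓ)
    (hℓ : 5 ≤ ℓ) (hchart : h39_Chart R (h59_jbar N)) (h0 : h87_IsR0 R (h59_jbar N) r0)
    (Q : Place (IsLocalRing.ResidueField A)
      ↥(modularFunctionFieldFullC (IsLocalRing.ResidueField A) N))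
    (hQ : 0 < Q.ord (R.redF (h59_jbar N))) :
    ∃ P : Place Qb ↥(modularFunctionFieldBar N), r0 P = Q ∧
      P.ord (h59_jbar N) = Q.ord (R.redF (h59_jbar N)) ∧
      (∀ P' : Place Qb ↥(modularFunctionFieldBar N), r0 P' = Q → 0 < P'.ord (h59_jbar N) →
        P' = P) ∧
      ∀ τ ∈ A.inertiaSubgroupIn ℚ, arithmeticGalois (modularFunctionFieldFull N) τ • P = P := by
  classical
  obtain ⟨hZA, hZinj, hZbr⟩ := h87_chartj_Z h hA hℓ
  have hQ' : 0 < Q.ord (R.redF (h59_jbar N) -
      algebraMap _ _ (R.resK (0 : Qb))) := by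
    rw [h54_resK_zero, map_zero, sub_zero]
    exact hQ
  obtain ⟨P, hP, hord, huniq⟩ := (h87_squeeze R hchart h0 _ hZA hZinj hZbr).2.1 Q 0
    (Finset.mem_insert_self _ _) hQ'
  rw [h54_resK_zero, map_zero, sub_zero, map_zero, sub_zero] at hord
  simp only [map_zero, sub_zero] at huniq
  refine ⟨P, hP, hord, huniq, fun τ hτ => ?_⟩
  obtain ⟨hgx, hgO, hgred⟩ := h87_isModRed_smul h τ hτ
  refine h87_fibre_smul R hchart h0 _ hZA hZinj hZbr _ hgx hgO hgred 0
    (Finset.mem_insert_self _ _) (map_zero _) P ?_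
  rw [map_zero, sub_zero, hord]
  exact hQ

/-- **[C3] at level `N`** (`ℓ ≥ 5`), over `j̄ = 1728`. -/
theorem h87_mod_1728 (h : h54_IsModRed N A R) {ℓ : ℕ} [Fact ℓ.Prime] (hA : A.LiesOverPrime ℓ)
    (hℓ : 5 ≤ ℓ) (hchart : h39_Chart R (h59_jbar N)) (h0 : h87_IsR0 R (h59_jbar N) r0)
    (Q : Place (IsLocalRing.ResidueField A)
      ↥(modularFunctionFieldFullC (IsLocalRing.ResidueField A) N))
    (hQ : 0 < Q.ord (R.redF (h59_jbar N) - algebraMap _ _ (R.resK ((1728 : ℕ) : Qb)))) :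
    ∃ P : Place Qb ↥(modularFunctionFieldBar N), r0 P = Q ∧
      P.ord (h59_jbar N - algebraMap Qb ↥(modularFunctionFieldBar N) ((1728 : ℕ) : Qb)) =
        Q.ord (R.redF (h59_jbar N) - algebraMap _ _ (R.resK ((1728 : ℕ) : Qb))) ∧
      (∀ P' : Place Qb ↥(modularFunctionFieldBar N), r0 P' = Q →
        0 < P'.ord (h59_jbar N - algebraMap Qb ↥(modularFunctionFieldBar N) ((1728 : ℕ) : Qb)) →
        P' = P) ∧
      ∀ τ ∈ A.inertiaSubgroupIn ℚ, arithmeticGalois (modularFunctionFieldFull N) τ • P = P := by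
  classical
  obtain ⟨hZA, hZinj, hZbr⟩ := h87_chartj_Z h hA hℓ
  have hmem : ((1728 : ℕ) : Qb) ∈ ({0, ((1728 : ℕ) : Qb)} : Finset Qb) :=
    Finset.mem_insert_of_mem (Finset.mem_singleton_self _)
  obtain ⟨P, hP, hord, huniq⟩ := (h87_squeeze R hchart h0 _ hZA hZinj hZbr).2.1 Q _ hmem hQ
  refine ⟨P, hP, hord, huniq, fun τ hτ => ?_⟩
  obtain ⟨hgx, hgO, hgred⟩ := h87_isModRed_smul h τ hτ
  refine h87_fibre_smul R hchart h0 _ hZA hZinj hZbr _ hgx hgO hgred _ hmem ?_ P ?_
  · exact map_natCast _ 1728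
  · rw [hord]
    exact hQ

end ChartJ

end Fermat.Agent.S36
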