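import Fermat.Agent.S36.h87_CuspModH
import Fermat.Agent.S40.h79_RedUniq

/-!
# S36 / (L3) cusps, part 7: the cusp statement for EVERY place reduction
(owner helper87)

At a level `N` prime to `ℓ` carrying a chart (`5 ≤ ℓ ∨ 2 ∣ N ∨ 3 ∣ N`) the place reduction is
unique (`h79_placeRed_eq`), so `h87_mod_cusp_exists` holds for every place reduction:

* `h87_mod_cusp_charted` : for every `r` with `IsPlaceReductionModL A N r` (the Prelude's
  notion): cusps reduce to poles of `j̄ = h54_jk k N`; every pole `Q` of `j̄` is `r P` for exactly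
  one cusp `P`; `ord_P j = ord_Q j̄`; `P` is fixed by the inertia group of `A`;
* `h87_mod_cusp_placeRed` : the same for `S.r0`, `S` any `h39_PlaceRed` of `h39_modRed`.
-/

set_option autoImplicit false
set_option synthInstance.maxHeartbeats 400000

noncomputable section

open ModularCurve AlgebraicCurve IntermediateField

namespace Fermat.Agent.S36

open Fermat.Agent.S18 Fermat.Agent.S37 Fermat.Agent.S24 Fermat.Agent.S40

local notation "Qb" => AlgebraicClosure ℚ

variable (N : ℕ) [NeZero N] {ℓ : ℕ} [Fact ℓ.Prime] (hℓN : ¬ ℓ ∣ N)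
  (A : ValuationSubring Qb) (hA : A.LiesOverPrime ℓ)

include hℓN hA in
/-- **[C1] + [C4] for every place reduction** (Prelude notion) at a charted level. -/
theorem h87_mod_cusp_charted (hch : 5 ≤ ℓ ∨ 2 ∣ N ∨ 3 ∣ N)
    {r : Place Qb (modularFunctionFieldBar N) →
      Place (IsLocalRing.ResidueField A) (modularFunctionFieldFullC (IsLocalRing.ResidueField A) N)}
    (hr : IsPlaceReductionModL A N r) :
    (∀ P : Place Qb ↥(modularFunctionFieldBar N), P.ord (h59_jbar N) < 0 →
      (r P).ord (h54_jk (IsLocalRing.ResidueField A) N) < 0) ∧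
    ∀ Q : Place (IsLocalRing.ResidueField A)
      ↥(modularFunctionFieldFullC (IsLocalRing.ResidueField A) N),
      Q.ord (h54_jk (IsLocalRing.ResidueField A) N) < 0 →
      ∃ P : Place Qb ↥(modularFunctionFieldBar N), r P = Q ∧
        P.ord (h59_jbar N) = Q.ord (h54_jk (IsLocalRing.ResidueField A) N) ∧
        (∀ P' : Place Qb ↥(modularFunctionFieldBar N), r P' = Q →
          P'.ord (h59_jbar N) < 0 → P' = P) ∧
        ∀ τ ∈ A.inertiaSubgroupIn ℚ,
          arithmeticGalois (modularFunctionFieldFull N) τ • P = P := by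
  obtain ⟨S, h1, h2⟩ := h87_mod_cusp_exists N hℓN A hA hch (h39_modRed_spec N hℓN A hA)
  have hrS : r = S.r0 := h79_placeRed_eq N hℓN A hA S hr
  rw [h54_redF_jbar (h39_modRed_spec N hℓN A hA)] at h1 h2
  subst hrS
  exact ⟨h1, h2⟩

/-- **[C1] + [C4] for every `h39_PlaceRed` of the modular datum** at a charted level. -/
theorem h87_mod_cusp_placeRed (hch : 5 ≤ ℓ ∨ 2 ∣ N ∨ 3 ∣ N)
    (S : h39_PlaceRed (h39_modRed N hℓN A hA)) :
    (∀ P : Place Qb ↥(modularFunctionFieldBar N), P.ord (h59_jbar N) < 0 →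
      (S.r0 P).ord (h54_jk (IsLocalRing.ResidueField A) N) < 0) ∧
    ∀ Q : Place (IsLocalRing.ResidueField A)
      ↥(modularFunctionFieldFullC (IsLocalRing.ResidueField A) N),
      Q.ord (h54_jk (IsLocalRing.ResidueField A) N) < 0 →
      ∃ P : Place Qb ↥(modularFunctionFieldBar N), S.r0 P = Q ∧
        P.ord (h59_jbar N) = Q.ord (h54_jk (IsLocalRing.ResidueField A) N) ∧
        (∀ P' : Place Qb ↥(modularFunctionFieldBar N), S.r0 P' = Q →
          P'.ord (h59_jbar N) < 0 → P' = P) ∧
        ∀ τ ∈ A.inertiaSubgroupIn ℚ,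
          arithmeticGalois (modularFunctionFieldFull N) τ • P = P := by
  have hk : IsAlgClosed (IsLocalRing.ResidueField A) := h19_residueField_isAlgClosed A
  exact h87_mod_cusp_charted N hℓN A hA hch
    (h60_isPlaceRed_of_placeRed N A (h39_modRed_spec N hℓN A hA)
      (h39_modRed_weakChart_j N hℓN A hA) S)

end Fermat.Agent.S36
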