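import Fermat.Agent.S36.h87_DivDx
import Fermat.Agent.S18.GR_Glue

/-!
# S36 / (L3) cusps, part 2: the Hurwitz squeeze for the place reduction (owner helper87)

`K` algebraically closed of characteristic zero, `k` algebraically closed, `R` a reduction
datum, `x` a chart with exceptional set `Z` (`h39_Chart`), `r0` the place reduction of
`h39_exists_r0`.  Then

* `h87_squeeze_unram` : `x̄ - b` has only simple zeros for every `b` outside `Z̄`;
* `h87_squeeze_fibre` : for `a ∈ Z`, every zero `Q` of `x̄ - ā` is the image of exactly one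
  zero `P` of `x - a`, and `ord_P (x - a) = ord_Q (x̄ - ā)`;
* `h87_squeeze_pole` : every pole `Q` of `x̄` is the image of exactly one pole `P` of `x`, and
  `ord_P x = ord_Q x̄`.

Proof: the divisor `W` of `dx` (`e - 1` / `-e - 1`, degree `2 g - 2`, characteristic zero) is
pushed forward by `r0`; conservation of divisors shows that `r0_* W` is below the tame shape of
`x̄`, which has degree at most `2 ḡ - 2` in any characteristic; `ḡ = g` squeezes.
-/

set_option autoImplicit false

open AlgebraicCurve IntermediateField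

namespace Fermat.Agent.S36

open Fermat.Agent.S18 Fermat.Agent.S27 Fermat.Agent.S24

/-! ### Push-forward of finitely supported integer functions -/

section MapDomain

variable {α β : Type*} (f : α → β) (D : α →₀ ℤ) (b : β)

open Classical in
theorem h87_mapDomain_apply :
    Finsupp.mapDomain f D b = ∑ a ∈ D.support with f a = b, D a := by
  rw [Finsupp.mapDomain, Finsupp.sum_apply]
  simp only [Finsupp.sum, Finsupp.single_apply]
  rw [Finset.sum_filter]

theorem h87_mapDomain_eq_zero (h : ∀ a, f a = b → D a = 0) : Finsupp.mapDomain f D b = 0 := by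
  classical
  rw [h87_mapDomain_apply]
  exact Finset.sum_eq_zero fun a ha => h a (Finset.mem_filter.mp ha).2

theorem h87_mapDomain_nonneg (h : ∀ a, f a = b → 0 ≤ D a) : 0 ≤ Finsupp.mapDomain f D b := by
  classical
  rw [h87_mapDomain_apply]
  exact Finset.sum_nonneg fun a ha => h a (Finset.mem_filter.mp ha).2

theorem h87_mapDomain_single (a₀ : α) (h₀ : f a₀ = b) (h : ∀ a, f a = b → a ≠ a₀ → D a = 0) :
    Finsupp.mapDomain f D b = D a₀ := by
  classical
  rw [h87_mapDomain_apply]
  by_cases hmem : a₀ ∈ D.support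
  · rw [Finset.sum_eq_single a₀]
    · intro a ha hne
      exact h a (Finset.mem_filter.mp ha).2 hne
    · intro hnot
      exact absurd (Finset.mem_filter.mpr ⟨hmem, h₀⟩) hnot
  · rw [Finsupp.notMem_support_iff.mp hmem]
    refine Finset.sum_eq_zero fun a ha => ?_
    by_cases hne : a = a₀
    · rw [hne]; exact Finsupp.notMem_support_iff.mp hmem
    · exact h a (Finset.mem_filter.mp ha).2 hne

theorem h87_mapDomain_ge2 (h : ∀ a, f a = b → 0 ≤ D a) {a₁ a₂ : α} (hne : a₁ ≠ a₂)
    (h₁ : f a₁ = b) (h₂ : f a₂ = b) : D a₁ + D a₂ ≤ Finsupp.mapDomain f D b := by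
  classical
  have key : Finsupp.mapDomain f (D - Finsupp.single a₁ (D a₁) - Finsupp.single a₂ (D a₂)) b =
      Finsupp.mapDomain f D b - D a₁ - D a₂ := by
    rw [Finsupp.mapDomain_sub, Finsupp.mapDomain_sub, Finsupp.mapDomain_single,
      Finsupp.mapDomain_single, Finsupp.sub_apply, Finsupp.sub_apply, h₁, h₂,
      Finsupp.single_eq_same, Finsupp.single_eq_same]
  have hnn := h87_mapDomain_nonneg f (D - Finsupp.single a₁ (D a₁) - Finsupp.single a₂ (D a₂)) b
    (fun a ha => by
      rw [Finsupp.sub_apply, Finsupp.sub_apply, Finsupp.single_apply, Finsupp.single_apply]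
      by_cases h1 : a₁ = a
      · subst h1
        rw [if_pos rfl, if_neg (fun h => hne h.symm)]
        simp
      · rw [if_neg h1]
        by_cases h2 : a₂ = a
        · subst h2
          rw [if_pos rfl]
          simp
        · rw [if_neg h2]
          simpa using h a ha)
  rw [key] at hnn
  omega

theorem h87_mapDomain_ge (h : ∀ a, f a = b → 0 ≤ D a) {a₁ : α}
    (h₁ : f a₁ = b) : D a₁ ≤ Finsupp.mapDomain f D b := by
  classical
  have key : Finsupp.mapDomain f (D - Finsupp.single a₁ (D a₁)) b =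
      Finsupp.mapDomain f D b - D a₁ := by
    rw [Finsupp.mapDomain_sub, Finsupp.mapDomain_single, Finsupp.sub_apply, h₁,
      Finsupp.single_eq_same]
  have hnn := h87_mapDomain_nonneg f (D - Finsupp.single a₁ (D a₁)) b
    (fun a ha => by
      rw [Finsupp.sub_apply, Finsupp.single_apply]
      by_cases h1 : a₁ = a
      · subst h1
        rw [if_pos rfl]
        simp
      · rw [if_neg h1]
        simpa using h a ha)
  rw [key] at hnn
  omega

/-- the counting core: if on the fibre over `b` the function `W` is `D - 1` where `D ≠ 0` and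
`0` where `D = 0`, then `f_* W ≤ f_* D - 1` at `b`, with equality only if `D` has exactly one
point on the fibre. -/
theorem h87_count_core (W : α →₀ ℤ)
    (hfib : ∀ a, f a = b → (W a = D a - 1 ∧ D a ≠ 0) ∨ (W a = 0 ∧ D a = 0))
    (hne : Finsupp.mapDomain f D b ≠ 0) :
    Finsupp.mapDomain f W b ≤ Finsupp.mapDomain f D b - 1 ∧
    (Finsupp.mapDomain f W b = Finsupp.mapDomain f D b - 1 →
      ∃ a₀, f a₀ = b ∧ D a₀ = Finsupp.mapDomain f D b ∧ ∀ a, f a = b → D a ≠ 0 → a = a₀) := by
  have hN : ∀ a, f a = b → ((D - W) a = 1 ∧ D a ≠ 0) ∨ ((D - W) a = 0 ∧ D a = 0) := by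
    intro a ha
    rw [Finsupp.sub_apply]
    rcases hfib a ha with ⟨h1, h2⟩ | ⟨h1, h2⟩
    · exact Or.inl ⟨by omega, h2⟩
    · exact Or.inr ⟨by omega, h2⟩
  have hNnn : ∀ a, f a = b → 0 ≤ (D - W) a := by
    intro a ha
    rcases hN a ha with ⟨h1, -⟩ | ⟨h1, -⟩ <;> omega
  have hsub : Finsupp.mapDomain f (D - W) b =
      Finsupp.mapDomain f D b - Finsupp.mapDomain f W b := by
    rw [Finsupp.mapDomain_sub, Finsupp.sub_apply]
  obtain ⟨a₀, h₀, hD₀⟩ : ∃ a₀, f a₀ = b ∧ D a₀ ≠ 0 := by
    by_contra hcon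
    simp only [not_exists, not_and, not_not] at hcon
    exact hne (h87_mapDomain_eq_zero f D b hcon)
  have hN₀ : (D - W) a₀ = 1 := by
    rcases hN a₀ h₀ with ⟨h1, -⟩ | ⟨-, h2⟩
    · exact h1
    · exact absurd h2 hD₀
  have hge := h87_mapDomain_ge f (D - W) b hNnn h₀
  rw [hN₀, hsub] at hge
  refine ⟨by omega, fun heq => ?_⟩
  have huniq : ∀ a, f a = b → D a ≠ 0 → a = a₀ := by
    intro a ha hDa
    by_contra hne'
    have hNa : (D - W) a = 1 := by
      rcases hN a ha with ⟨h1, -⟩ | ⟨-, h2⟩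
      · exact h1
      · exact absurd h2 hDa
    have := h87_mapDomain_ge2 f (D - W) b hNnn hne' ha h₀
    rw [hNa, hN₀, hsub] at this
    omega
  refine ⟨a₀, h₀, ?_, huniq⟩
  exact (h87_mapDomain_single f D b a₀ h₀ (fun a ha hne' => by
    by_contra hDa
    exact hne' (huniq a ha hDa))).symm

end MapDomain

variable {K F k Fb : Type*} [Field K] [Field F] [Algebra K F] [Field k] [Field Fb] [Algebra k Fb]

/-- a function taking the value `a` at `P` does not vanish at `P` after subtracting another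
constant. -/
theorem h87_ord_sub_eq_zero_of_value (P : Place K F) {f : F} {a b : K} (hab : a ≠ b)
    (ha : 0 < P.ord (f - algebraMap K F a)) : P.ord (f - algebraMap K F b) = 0 := by
  have hmem : f - algebraMap K F b ∈ P.toValuationSubring :=
    sub_mem (h87_mem_of_ord_sub_pos P ha) (P.algebraMap_mem' b)
  have h1 := h24_ord_nonneg_of_mem P hmem
  by_contra hne
  exact hab (h87_value_unique P ha (lt_of_le_of_ne h1 (Ne.symm hne)))

/-- the degree of a push-forward (all places of degree one). -/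
theorem h87_degree_mapDomain (r : Place K F → Place k Fb) (hK : ∀ P : Place K F, P.deg = 1)
    (hk : ∀ Q : Place k Fb, Q.deg = 1) (D : Divisor K F) :
    Divisor.degree (Finsupp.mapDomain r D) = Divisor.degree D := by
  induction D using Finsupp.induction with
  | zero => simp
  | single_add P n D _ _ ih =>
    rw [Finsupp.mapDomain_add, map_add, map_add, ih, Finsupp.mapDomain_single,
      Divisor.degree_single, Divisor.degree_single, hK, hk]

/-- **the squeeze on one curve** (any characteristic): a divisor below the tame shape of the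
chart `y` and of degree at least `2 g - 2` IS the tame shape. -/
theorem h87_squeeze_core [IsAlgClosed K] {y : F} (hy : h75_IsChart K y) (V : Divisor K F)
    (h1 : ∀ (Q : Place K F) (b : K), 0 < Q.ord (y - algebraMap K F b) →
      V Q ≤ Q.ord (y - algebraMap K F b) - 1)
    (h2 : ∀ Q : Place K F, Q.ord y < 0 → V Q ≤ Q.ord y - 1)
    (hdeg : 2 * (h75_genus K y : ℤ) - 2 ≤ Divisor.degree V) :
    (∀ (Q : Place K F) (b : K), 0 < Q.ord (y - algebraMap K F b) →
      V Q = Q.ord (y - algebraMap K F b) - 1) ∧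
    (∀ Q : Place K F, Q.ord y < 0 → V Q = Q.ord y - 1) := by
  classical
  have hraise : ∀ (P : Place K F) (c : ℤ),
      (∀ a : K, 0 < P.ord (y - algebraMap K F a) → V P + c ≤ P.ord (y - algebraMap K F a) - 1) →
      (P.ord y < 0 → V P + c ≤ P.ord y - 1) → c ≤ 0 := by
    intro P c hc1 hc2
    have hE := h87_degree_le_of_tame hy (V + Finsupp.single P c) (fun P' a ha => by
      rw [Finsupp.add_apply]
      by_cases hPP : P' = P
      · subst hPP
        rw [Finsupp.single_eq_same]
        exact hc1 a ha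
      · rw [Finsupp.single_apply, if_neg (fun h => hPP h.symm), add_zero]
        exact h1 P' a ha) (fun P' hP' => by
      rw [Finsupp.add_apply]
      by_cases hPP : P' = P
      · subst hPP
        rw [Finsupp.single_eq_same]
        exact hc2 hP'
      · rw [Finsupp.single_apply, if_neg (fun h => hPP h.symm), add_zero]
        exact h2 P' hP')
    rw [map_add, Divisor.degree_single, h75_deg_eq_one hy P] at hE
    push_cast at hE
    omega
  refine ⟨fun P a ha => ?_, fun P hP => ?_⟩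
  · refine le_antisymm (h1 P a ha) ?_
    have := hraise P (P.ord (y - algebraMap K F a) - 1 - V P) (fun a' ha' => by
      rw [h87_value_unique P ha' ha]
      omega) (fun hP => by
      have := h87_ord_nonneg_of_value P ha
      omega)
    omega
  · refine le_antisymm (h2 P hP) ?_
    have := hraise P (P.ord y - 1 - V P) (fun a' ha' => by
      have := h87_ord_nonneg_of_value P ha'
      omega) (fun _ => by omega)
    omega

/-! ### The place reduction -/

/-- the place-reduction package delivered by `h39_exists_r0`: chart reduction of `x` on the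
unit disc, of `x⁻¹` off it, and conservation of divisors. -/
def h87_IsR0 (R : h39_RedDatum K F k Fb) (x : F) (r0 : Place K F → Place k Fb) : Prop :=
  (∃ r : Place K F → Place k Fb, h39_IsChartRed R x r ∧
      ∀ P : Place K F, h39_InDisc R x P → r0 P = r P) ∧
  (∃ r' : Place K F → Place k Fb, h39_IsChartRed R x⁻¹ r' ∧
      ∀ P : Place K F, ¬ h39_InDisc R x P → r0 P = r' P) ∧
  ∀ (y : F) (hy : y ∈ R.O), R.red ⟨y, hy⟩ ≠ 0 → ∀ D : Divisor K F,
      (∀ P, D P = P.ord y) → ∀ Q : Place k Fb,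
        Finsupp.mapDomain r0 D Q = Q.ord (R.red ⟨y, hy⟩)

section Red

variable [IsAlgClosed K] [CharZero K] [IsAlgClosed k]
variable (R : h39_RedDatum K F k Fb) {x : F} {r0 : Place K F → Place k Fb}

theorem h87_exists_isR0 (hx : h39_Chart R x) : ∃ r0 : Place K F → Place k Fb, h87_IsR0 R x r0 :=
  h39_exists_r0 R hx

/-- `x̄` is not a constant. -/
theorem h87_redF_ne_const (hw : h39_WeakChart R x) (c : k) : R.redF x ≠ algebraMap k Fb c :=
  fun h => hw.transcendental (h ▸ isAlgebraic_algebraMap c)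

/-- (G1) a zero of `x - a`, `a ∈ A`, reduces to a zero of `x̄ - ā`. -/
theorem h87_r0_fibre (hw : h39_WeakChart R x) (h0 : h87_IsR0 R x r0) {P : Place K F} {a : K}
    (ha : a ∈ R.A) (hP : 0 < P.ord (x - algebraMap K F a)) :
    0 < (r0 P).ord (R.redF x - algebraMap k Fb (R.resK a)) := by
  obtain ⟨r, hr, hrr⟩ := h0.1
  have hdisc : h39_InDisc R x P := ⟨a, ha, Or.inr hP⟩
  rw [hrr P hdisc]
  rcases (hr P hdisc).2 x hw.mem (fun _ h => h) a (Or.inr hP) with h | h
  · exact absurd h (h87_redF_ne_const R hw _)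
  · exact h

/-- (G2) a place outside the unit disc reduces to a pole of `x̄`. -/
theorem h87_r0_pole (hw : h39_WeakChart R x) (h0 : h87_IsR0 R x r0) {P : Place K F}
    (hP : ¬ h39_InDisc R x P) : (r0 P).ord (R.redF x) < 0 := by
  have hxK : h75_IsChart K x := h39_weakChart_isChart R hw
  have hx0 : x ≠ 0 := hxK.ne_zero
  have hne : R.redF x ≠ 0 := fun h0' => hw.transcendental (h0' ▸ isAlgebraic_zero)
  obtain ⟨hxiO, hxired⟩ := h39_inv_of_redF_ne_zero R hne
  -- the value of `x⁻¹` at `P` lies in the maximal ideal of `A`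
  obtain ⟨d, hd, hres, hv⟩ : ∃ d : K, d ∈ R.A ∧ R.resK d = 0 ∧
      0 < P.ord (x⁻¹ - algebraMap K F d) := by
    by_cases hmem : x ∈ P.toValuationSubring
    · obtain ⟨c, hc⟩ := h75_exists_value hxK P hmem
      have hcA : c ∉ R.A := fun hcA => hP ⟨c, hcA, Or.inr hc⟩
      have hc0 : c ≠ 0 := fun h => hcA (h ▸ R.A.zero_mem)
      have hciA : c⁻¹ ∈ R.A := (R.A.mem_or_inv_mem c).resolve_left hcA
      refine ⟨c⁻¹, hciA, (h39_resK_eq_zero_iff R hciA).mpr (Or.inr (by rwa [inv_inv])), ?_⟩
      have h1 : 0 < P.ord ((x⁻¹)⁻¹ - algebraMap K F c) := by rwa [inv_inv]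
      have h2 := (h87_ord_inv_sub P (inv_ne_zero hx0) hc0 h1).2
      rw [h2]
      exact h1
    · refine ⟨0, R.A.zero_mem, ?_, ?_⟩
      · rw [R.resK_of_mem R.A.zero_mem]
        exact map_zero R.res
      · rw [map_zero, sub_zero, P.ord_inv]
        have := (h35_mem_iff_ord_nonneg P hx0).not.mp hmem
        omega
  obtain ⟨r', hr', hrr'⟩ := h0.2.1
  rw [hrr' P hP]
  have hdisc : h39_InDisc R x⁻¹ P := ⟨d, hd, Or.inr hv⟩
  have key := (hr' P hdisc).2 x⁻¹ hxiO (fun _ h => h) d (Or.inr hv)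
  rw [hres, hxired] at key
  have hinv0 : (R.redF x)⁻¹ ≠ 0 := inv_ne_zero hne
  rcases key with h | h
  · rw [map_zero] at h
    exact absurd h hinv0
  · rw [map_zero, sub_zero, (r' P).ord_inv] at h
    omega

/-- (G3) conservation of the divisor of `x - a`. -/
theorem h87_cons (hw : h39_WeakChart R x) (h0 : h87_IsR0 R x r0) {a : K} (ha : a ∈ R.A)
    (D : Divisor K F) (hD : ∀ P, D P = P.ord (x - algebraMap K F a)) (Q : Place k Fb) :
    Finsupp.mapDomain r0 D Q = Q.ord (R.redF x - algebraMap k Fb (R.resK a)) := by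
  have haO : algebraMap K F a ∈ R.O := (R.mem_iff a).mp ha
  have hy : x - algebraMap K F a ∈ R.O := sub_mem hw.mem haO
  have hred : R.red ⟨x - algebraMap K F a, hy⟩ =
      R.redF x - algebraMap k Fb (R.resK a) := by
    rw [← R.redF_of_mem hy, h39_redF_sub R hw.mem haO, h39_redF_algebraMap R ha]
  have hne : R.red ⟨x - algebraMap K F a, hy⟩ ≠ 0 := by
    rw [hred, sub_ne_zero]
    exact h87_redF_ne_const R hw _
  rw [h0.2.2 _ hy hne D hD Q, hred]

/-- places over a finite point of `x̄` lie in the unit disc. -/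
theorem h87_fibre_in_disc (hw : h39_WeakChart R x) (h0 : h87_IsR0 R x r0) {P : Place K F} {b : k}
    (hQ : 0 < (r0 P).ord (R.redF x - algebraMap k Fb b)) :
    ∃ a : K, a ∈ R.A ∧ 0 < P.ord (x - algebraMap K F a) ∧ R.resK a = b := by
  have hxK : h75_IsChart K x := h39_weakChart_isChart R hw
  have hdisc : h39_InDisc R x P := by
    by_contra hnd
    have h1 := h87_r0_pole R hw h0 hnd
    have h2 := h87_ord_nonneg_of_value (r0 P) hQ
    omega
  obtain ⟨a, ha, hval⟩ := hdisc
  have hPa : 0 < P.ord (x - algebraMap K F a) := by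
    rcases hval with h | h
    · exact absurd (h ▸ isAlgebraic_algebraMap a) hxK.tr
    · exact h
  exact ⟨a, ha, hPa, h87_value_unique (r0 P) (h87_r0_fibre R hw h0 ha hPa) hQ⟩

/-- places over a pole of `x̄` lie outside the unit disc. -/
theorem h87_pole_not_disc (hw : h39_WeakChart R x) (h0 : h87_IsR0 R x r0) {P : Place K F}
    (hQ : (r0 P).ord (R.redF x) < 0) : ¬ h39_InDisc R x P := by
  have hxK : h75_IsChart K x := h39_weakChart_isChart R hw
  rintro ⟨a, ha, hval⟩
  have hPa : 0 < P.ord (x - algebraMap K F a) := by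
    rcases hval with h | h
    · exact absurd (h ▸ isAlgebraic_algebraMap a) hxK.tr
    · exact h
  have := h87_ord_nonneg_of_value (r0 P) (h87_r0_fibre R hw h0 ha hPa)
  omega

end Red

/-! ### The push-forward of `div (dx)` is below the tame shape of `x̄` -/

section Push

variable [IsAlgClosed K] [CharZero K] [IsAlgClosed k]
variable (R : h39_RedDatum K F k Fb) {x : F} {r0 : Place K F → Place k Fb}

/-- over a value outside `Z̄` the push-forward of `div (dx)` vanishes. -/
theorem h87_push_unram (hw : h39_WeakChart R x) (h0 : h87_IsR0 R x r0)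
    (Z : Finset K)
    (hZbr : ∀ (P : Place K F) (a : K), 2 ≤ P.ord (x - algebraMap K F a) → a ∈ Z)
    (W : Divisor K F)
    (hW1 : ∀ (P : Place K F) (a : K), 0 < P.ord (x - algebraMap K F a) →
      W P = P.ord (x - algebraMap K F a) - 1)
    (Q : Place k Fb) (b : k) (hb : ∀ z ∈ Z, R.resK z ≠ b)
    (hQ : 0 < Q.ord (R.redF x - algebraMap k Fb b)) :
    Finsupp.mapDomain r0 W Q = 0 := by
  refine h87_mapDomain_eq_zero r0 W Q (fun P hP => ?_)
  subst hP
  obtain ⟨a', -, hPa', hres⟩ := h87_fibre_in_disc R hw h0 hQ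
  have ha'Z : a' ∉ Z := fun h => hb a' h hres
  have h2 : ¬ 2 ≤ P.ord (x - algebraMap K F a') := fun h => ha'Z (hZbr P a' h)
  rw [hW1 P a' hPa']
  omega

/-- over an exceptional value `ā`, `a ∈ Z`. -/
theorem h87_push_fibre (hw : h39_WeakChart R x) (h0 : h87_IsR0 R x r0)
    (Z : Finset K) (hZA : ∀ z ∈ Z, z ∈ R.A)
    (hZinj : ∀ z ∈ Z, ∀ z' ∈ Z, R.resK z = R.resK z' → z = z')
    (hZbr : ∀ (P : Place K F) (a : K), 2 ≤ P.ord (x - algebraMap K F a) → a ∈ Z)
    (W : Divisor K F)
    (hW1 : ∀ (P : Place K F) (a : K), 0 < P.ord (x - algebraMap K F a) →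
      W P = P.ord (x - algebraMap K F a) - 1)
    (Q : Place k Fb) (a : K) (haZ : a ∈ Z)
    (hQ : 0 < Q.ord (R.redF x - algebraMap k Fb (R.resK a))) :
    Finsupp.mapDomain r0 W Q ≤ Q.ord (R.redF x - algebraMap k Fb (R.resK a)) - 1 ∧
    (Finsupp.mapDomain r0 W Q = Q.ord (R.redF x - algebraMap k Fb (R.resK a)) - 1 →
      ∃ P, r0 P = Q ∧
        P.ord (x - algebraMap K F a) = Q.ord (R.redF x - algebraMap k Fb (R.resK a)) ∧
        ∀ P', r0 P' = Q → 0 < P'.ord (x - algebraMap K F a) → P' = P) := by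
  have hxK : h75_IsChart K x := h39_weakChart_isChart R hw
  have hne0 : x - algebraMap K F a ≠ 0 := by
    rw [sub_ne_zero]
    exact fun h => hxK.tr (h ▸ isAlgebraic_algebraMap a)
  obtain ⟨D, hD⟩ := h7_exists_div hxK (x - algebraMap K F a) hne0
  have hcons := h87_cons R hw h0 (hZA a haZ) D hD Q
  have hfib : ∀ P, r0 P = Q → (W P = D P - 1 ∧ D P ≠ 0) ∨ (W P = 0 ∧ D P = 0) := by
    intro P hP
    subst hP
    obtain ⟨a', -, hPa', hres⟩ := h87_fibre_in_disc R hw h0 hQ
    by_cases ha'Z : a' ∈ Z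
    · have haa : a' = a := hZinj a' ha'Z a haZ hres
      subst haa
      left
      rw [hD, hW1 P a' hPa']
      exact ⟨rfl, hPa'.ne'⟩
    · right
      have h2 : ¬ 2 ≤ P.ord (x - algebraMap K F a') := fun h => ha'Z (hZbr P a' h)
      have haa : a' ≠ a := fun h => ha'Z (h ▸ haZ)
      rw [hD, hW1 P a' hPa', h87_ord_sub_eq_zero_of_value P haa hPa']
      exact ⟨by omega, rfl⟩
  have hne : Finsupp.mapDomain r0 D Q ≠ 0 := by
    rw [hcons]
    exact hQ.ne'
  obtain ⟨hle, heq⟩ := h87_count_core r0 D Q W hfib hne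
  rw [hcons] at hle heq
  refine ⟨hle, fun h => ?_⟩
  obtain ⟨P, hP, hDP, huniq⟩ := heq h
  refine ⟨P, hP, by rw [← hD, hDP], fun P' hP' hpos => huniq P' hP' ?_⟩
  rw [hD]
  exact hpos.ne'

/-- over a pole of `x̄`. -/
theorem h87_push_pole (hw : h39_WeakChart R x) (h0 : h87_IsR0 R x r0)
    (Z : Finset K) (hZA : ∀ z ∈ Z, z ∈ R.A)
    (hZbr : ∀ (P : Place K F) (a : K), 2 ≤ P.ord (x - algebraMap K F a) → a ∈ Z)
    (W : Divisor K F)
    (hW1 : ∀ (P : Place K F) (a : K), 0 < P.ord (x - algebraMap K F a) →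
      W P = P.ord (x - algebraMap K F a) - 1)
    (hW2 : ∀ P : Place K F, P.ord x < 0 → W P = P.ord x - 1)
    (Q : Place k Fb) (hQ : Q.ord (R.redF x) < 0) :
    Finsupp.mapDomain r0 W Q ≤ Q.ord (R.redF x) - 1 ∧
    (Finsupp.mapDomain r0 W Q = Q.ord (R.redF x) - 1 →
      ∃ P, r0 P = Q ∧ P.ord x = Q.ord (R.redF x) ∧
        ∀ P', r0 P' = Q → P'.ord x < 0 → P' = P) := by
  have hxK : h75_IsChart K x := h39_weakChart_isChart R hw
  obtain ⟨D, hD⟩ := h7_exists_div hxK x hxK.ne_zero
  have hredne : R.red ⟨x, hw.mem⟩ ≠ 0 := by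
    rw [← R.redF_of_mem hw.mem]
    exact fun h0' => hw.transcendental (h0' ▸ isAlgebraic_zero)
  have hcons : Finsupp.mapDomain r0 D Q = Q.ord (R.redF x) := by
    rw [h0.2.2 x hw.mem hredne D hD Q, ← R.redF_of_mem hw.mem]
  have hfib : ∀ P, r0 P = Q → (W P = D P - 1 ∧ D P ≠ 0) ∨ (W P = 0 ∧ D P = 0) := by
    intro P hP
    subst hP
    have hnd := h87_pole_not_disc R hw h0 hQ
    by_cases hPx : P.ord x < 0
    · left
      rw [hD, hW2 P hPx]
      exact ⟨rfl, hPx.ne⟩
    · right
      have hmem : x ∈ P.toValuationSubring := h24_mem_of_ord_nonneg P (not_lt.mp hPx)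
      obtain ⟨c, hc⟩ := h75_exists_value hxK P hmem
      have hcA : c ∉ R.A := fun hcA => hnd ⟨c, hcA, Or.inr hc⟩
      have hcZ : c ∉ Z := fun h => hcA (hZA c h)
      have hc0 : c ≠ 0 := fun h => hcA (h ▸ R.A.zero_mem)
      have h2 : ¬ 2 ≤ P.ord (x - algebraMap K F c) := fun h => hcZ (hZbr P c h)
      have h3 := h87_ord_sub_eq_zero_of_value P hc0 hc
      rw [map_zero, sub_zero] at h3
      rw [hD, hW1 P c hc, h3]
      exact ⟨by omega, rfl⟩
  have hne : Finsupp.mapDomain r0 D Q ≠ 0 := by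
    rw [hcons]
    exact hQ.ne
  obtain ⟨hle, heq⟩ := h87_count_core r0 D Q W hfib hne
  rw [hcons] at hle heq
  refine ⟨hle, fun h => ?_⟩
  obtain ⟨P, hP, hDP, huniq⟩ := heq h
  refine ⟨P, hP, by rw [← hD, hDP], fun P' hP' hneg => huniq P' hP' ?_⟩
  rw [hD]
  exact hneg.ne

/-- **(CUSP-A) the Hurwitz squeeze.**  For a chart `x` with exceptional set `Z` and the place
reduction `r0`: simple zeros of `x̄ - b` off `Z̄`; `r0` is a ramification-preserving bijection
on the fibres over `Z` and on the poles. -/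
theorem h87_squeeze (hx : h39_Chart R x) (h0 : h87_IsR0 R x r0)
    (Z : Finset K) (hZA : ∀ z ∈ Z, z ∈ R.A)
    (hZinj : ∀ z ∈ Z, ∀ z' ∈ Z, R.resK z = R.resK z' → z = z')
    (hZbr : ∀ (P : Place K F) (a : K), 2 ≤ P.ord (x - algebraMap K F a) → a ∈ Z) :
    (∀ (Q : Place k Fb) (b : k), (∀ z ∈ Z, R.resK z ≠ b) →
        0 < Q.ord (R.redF x - algebraMap k Fb b) →
        Q.ord (R.redF x - algebraMap k Fb b) = 1) ∧
    (∀ (Q : Place k Fb) (a : K), a ∈ Z →
        0 < Q.ord (R.redF x - algebraMap k Fb (R.resK a)) →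
        ∃ P, r0 P = Q ∧
          P.ord (x - algebraMap K F a) = Q.ord (R.redF x - algebraMap k Fb (R.resK a)) ∧
          ∀ P', r0 P' = Q → 0 < P'.ord (x - algebraMap K F a) → P' = P) ∧
    (∀ Q : Place k Fb, Q.ord (R.redF x) < 0 →
        ∃ P, r0 P = Q ∧ P.ord x = Q.ord (R.redF x) ∧
          ∀ P', r0 P' = Q → P'.ord x < 0 → P' = P) := by
  have hw : h39_WeakChart R x := hx.toh39_WeakChart
  have hxK : h75_IsChart K x := h39_weakChart_isChart R hw
  have hxk : h75_IsChart k (R.redF x) := h39_weakChart_isChart_red R hw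
  obtain ⟨W, hdeg, hW1, hW2⟩ := h87_exists_divdx_zero hxK
  have hdegV : Divisor.degree (Finsupp.mapDomain r0 W) = Divisor.degree W :=
    h87_degree_mapDomain r0 (h75_deg_eq_one hxK) (h75_deg_eq_one hxk) W
  have h1 : ∀ (Q : Place k Fb) (b : k), 0 < Q.ord (R.redF x - algebraMap k Fb b) →
      Finsupp.mapDomain r0 W Q ≤ Q.ord (R.redF x - algebraMap k Fb b) - 1 := by
    intro Q b hQ
    by_cases hb : ∃ z ∈ Z, R.resK z = b
    · obtain ⟨a, haZ, rfl⟩ := hb
      exact (h87_push_fibre R hw h0 Z hZA hZinj hZbr W hW1 Q a haZ hQ).1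
    · simp only [not_exists, not_and] at hb
      rw [h87_push_unram R hw h0 Z hZbr W hW1 Q b hb hQ]
      omega
  have h2 : ∀ Q : Place k Fb, Q.ord (R.redF x) < 0 →
      Finsupp.mapDomain r0 W Q ≤ Q.ord (R.redF x) - 1 := fun Q hQ =>
    (h87_push_pole R hw h0 Z hZA hZbr W hW1 hW2 Q hQ).1
  obtain ⟨e1, e2⟩ := h87_squeeze_core hxk (Finsupp.mapDomain r0 W) h1 h2 (by
    rw [hdegV, hdeg, h39_genus_eq R hx])
  refine ⟨fun Q b hb hQ => ?_, fun Q a haZ hQ => ?_, fun Q hQ => ?_⟩
  · have := e1 Q b hQ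
    rw [h87_push_unram R hw h0 Z hZbr W hW1 Q b hb hQ] at this
    omega
  · exact (h87_push_fibre R hw h0 Z hZA hZinj hZbr W hW1 Q a haZ hQ).2 (e1 Q _ hQ)
  · exact (h87_push_pole R hw h0 Z hZA hZbr W hW1 hW2 Q hQ).2 (e2 Q hQ)

end Push

end Fermat.Agent.S36
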