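import Fermat.Agent.S27.h68_RRFull
import Fermat.Agent.S18.h44_Tame
import Fermat.Agent.S18.h75_HoloD1

/-!
# S36 / (L3) cusps, part 1: the divisor of `dx` (owner helper87)

`K` algebraically closed, `F / K` a function field with a chart `x`.

* `h87_one_mem_Omega` (any characteristic): if `E ≤ e - 1` at the finite places and
  `E ≤ -e - 1` at the poles of `x` (`e` the ramification index of `x`), then `1 ∈ Ω(x, E)`,
  i.e. `div (dx) ≥ E`;
* `h87_Omega_le_tame` (characteristic zero): conversely `1 ∈ Ω(x, W)` forces `W ≤ e - 1`,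
  `W ≤ -e - 1`;
* `h87_exists_divdx` : the largest `W` with `1 ∈ Ω(x, W)` has degree `2 g - 2`;
* `h87_exists_divdx_zero` (characteristic zero): it is given by `e - 1`, `-e - 1`.
-/

set_option autoImplicit false

open AlgebraicCurve IntermediateField

namespace Fermat.Agent.S36

open Fermat.Agent.S18 Fermat.Agent.S27 Fermat.Agent.S24

variable {K F : Type*} [Field K] [Field F] [Algebra K F]

/-- a place where `x⁻¹` takes the nonzero value `b` is a place where `x` takes the value
`b⁻¹`, with the same multiplicity. -/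
theorem h87_ord_inv_sub (P : Place K F) {x : F} (hx0 : x ≠ 0) {b : K} (hb : b ≠ 0)
    (hPb : 0 < P.ord (x⁻¹ - algebraMap K F b)) :
    P.ord x = 0 ∧ P.ord (x - algebraMap K F b⁻¹) = P.ord (x⁻¹ - algebraMap K F b) := by
  have hbF : algebraMap K F b ≠ 0 := by simpa using hb
  have hu0 : x⁻¹ - algebraMap K F b ≠ 0 := by
    intro h0
    rw [h0, P.ord_zero] at hPb
    exact lt_irrefl _ hPb
  have hinv0 : x⁻¹ ≠ 0 := inv_ne_zero hx0
  have hordb : P.ord (algebraMap K F b) = 0 := h35_ord_algebraMap P b
  have h1 : min (P.ord (x⁻¹ - algebraMap K F b)) (P.ord (algebraMap K F b)) ≤ P.ord x⁻¹ := by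
    have := h35_ord_add P hu0 hbF (by rw [sub_add_cancel]; exact hinv0)
    rwa [sub_add_cancel] at this
  have h2 : min (P.ord x⁻¹) (P.ord (x⁻¹ - algebraMap K F b)) ≤
      P.ord (algebraMap K F b) := by
    have := h35_ord_sub P hinv0 hu0 (by rw [sub_sub_cancel]; exact hbF)
    rwa [sub_sub_cancel] at this
  rw [hordb] at h1 h2
  have hinv : P.ord x⁻¹ = 0 := by
    rcases le_total (P.ord x⁻¹) (P.ord (x⁻¹ - algebraMap K F b)) with h3 | h3
    · rw [min_eq_left h3] at h2
      rw [min_eq_right hPb.le] at h1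
      omega
    · rw [min_eq_right h3] at h2
      omega
  have hordx : P.ord x = 0 := by
    rw [P.ord_inv] at hinv
    omega
  refine ⟨hordx, ?_⟩
  have hkey : x - algebraMap K F b⁻¹ =
      -((x⁻¹ - algebraMap K F b) * x * algebraMap K F b⁻¹) := by
    rw [map_inv₀]
    field_simp
    ring
  have hbinvF : algebraMap K F b⁻¹ ≠ 0 := by simpa using hb
  rw [hkey, h35_ord_neg, P.ord_mul (mul_ne_zero hu0 hx0) hbinvF, P.ord_mul hu0 hx0, hordx,
    h35_ord_algebraMap]
  ring

/-- a place with `0 < ord (x - a)` is on the chart of `x`. -/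
theorem h87_mem_of_ord_sub_pos (P : Place K F) {x : F} {a : K}
    (h : 0 < P.ord (x - algebraMap K F a)) : x ∈ P.toValuationSubring := by
  have hmem : x - algebraMap K F a ∈ P.toValuationSubring := h24_mem_of_ord_nonneg P h.le
  have := add_mem hmem (P.algebraMap_mem' a)
  simpa using this

section AnyChar

variable [IsAlgClosed K]

/-- **(TW)** any characteristic: a divisor below the tame shape `e - 1` / `-e - 1` is below
the divisor of `dx`. -/
theorem h87_one_mem_Omega {x : F} (hx : h75_IsChart K x) (E : Divisor K F)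
    (hfin : ∀ (P : Place K F) (a : K), 0 < P.ord (x - algebraMap K F a) →
      E P ≤ P.ord (x - algebraMap K F a) - 1)
    (hpole : ∀ P : Place K F, P.ord x < 0 → E P ≤ P.ord x - 1) :
    (1 : F) ∈ h75_Omega x E := by
  have hx0 := hx.ne_zero
  have hx' := h75_isChart_inv hx
  refine ⟨fun m hm => ?_, fun l hl => ?_⟩
  · apply h75_mem_adjoin_of_coe
    rw [AdjoinSimple.coe_gen, one_mul]
    have hyp : ∀ (P : Place K F) (a : K), 0 < P.ord (x - algebraMap K F a) →
        m = 0 ∨ 1 - P.ord (x - algebraMap K F a) ≤ P.ord m := by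
      intro P a hPa
      rcases h75_mem_chart_iff.mp hm P (h87_mem_of_ord_sub_pos P hPa) with h | h
      · exact Or.inl h
      · right
        have := hfin P a hPa
        omega
    have := h75_trace_mem_of_holo hx m hyp 1 (h75_one_mem_chart_zero x)
    rwa [mul_one] at this
  · have hyp : ∀ (P : Place K F) (b : K), 0 < P.ord (x⁻¹ - algebraMap K F b) →
        x ^ 2 * l = 0 ∨ 1 - P.ord (x⁻¹ - algebraMap K F b) ≤ P.ord (x ^ 2 * l) := by
      intro P b hPb
      rcases eq_or_ne l 0 with hl0 | hl0
      · left; rw [hl0, mul_zero]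
      right
      have hord2 : P.ord (x ^ 2 * l) = 2 * P.ord x + P.ord l := by
        rw [P.ord_mul (pow_ne_zero 2 hx0) hl0, ← zpow_natCast, P.ord_zpow]
        norm_num
      rw [hord2]
      have hl' := (h75_mem_chart_iff.mp hl P (h87_mem_of_ord_sub_pos P hPb)).resolve_left hl0
      rcases eq_or_ne b 0 with hb | hb
      · subst hb
        rw [map_zero, sub_zero, P.ord_inv] at hPb ⊢
        have := hpole P (by omega)
        omega
      · obtain ⟨hordx, hord⟩ := h87_ord_inv_sub P hx0 hb hPb
        have := hfin P b⁻¹ (by rw [hord]; exact hPb)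
        rw [hord] at this
        omega
    have hmem := h75_trace_mem_of_holo hx' (x ^ 2 * l) hyp 1 (h75_one_mem_chart_zero _)
    rw [h75_trace_congr (h24_adjoin_inv_eq x) (x ^ 2 * l * 1)] at hmem
    have h4 : x ^ 2 * l * 1 = ((AdjoinSimple.gen K x) ^ 2 : K⟮x⟯) • (1 * l) := by
      rw [Algebra.smul_def]
      show _ = (((AdjoinSimple.gen K x) ^ 2 : K⟮x⟯) : F) * _
      rw [IntermediateField.coe_pow, AdjoinSimple.coe_gen]
      ring
    rw [h4, map_smul, smul_eq_mul] at hmem
    apply h75_mem_adjoin_of_coe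
    rw [IntermediateField.coe_inv, AdjoinSimple.coe_gen]
    exact hmem

/-- the divisor of `dx`: the largest `W` with `1 ∈ Ω(x, W)`; its degree is `2 g - 2`. -/
theorem h87_exists_divdx {x : F} (hx : h75_IsChart K x) :
    ∃ W : Divisor K F, (1 : F) ∈ h75_Omega x W ∧
      (∀ E : Divisor K F, (1 : F) ∈ h75_Omega x E → E ≤ W) ∧
      Divisor.degree W = 2 * (h75_genus K x : ℤ) - 2 := by
  obtain ⟨D₀, w₀, hw₀, h₀⟩ := h68_exists_Omega_ne_zero hx
  obtain ⟨Df, hDf⟩ := h7_exists_div hx w₀⁻¹ (inv_ne_zero hw₀)
  have h1 : (1 : F) ∈ h75_Omega x (D₀ + Df) := by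
    have := (h68_Omega_mul (inv_ne_zero hw₀) Df hDf x D₀ w₀).mpr h₀
    rwa [inv_mul_cancel₀ hw₀] at this
  obtain ⟨W, hW, hmax⟩ := h68_exists_largest hx (one_ne_zero (α := F)) h1
  refine ⟨W, hW, hmax, ?_⟩
  have hcan : h68_IsCanonical x W := by
    intro D
    have h1 := h68_finrank_Omega hx D
    have h2 : Module.finrank K ↥(h75_Omega x D) =
        Module.finrank K ↥(riemannRochSpace (W - D)) := by
      rw [h68_Omega_eq hx (one_ne_zero (α := F)) hW hmax D]
      exact LinearEquiv.finrank_map_eq (h75_mulEquiv K (1 : F) one_ne_zero) _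
    rw [h2] at h1
    linarith
  exact h68_canonical_degree hx hcan

/-- monotonicity of the degree. -/
theorem h87_degree_le {x : F} (hx : h75_IsChart K x) {E W : Divisor K F} (h : E ≤ W) :
    Divisor.degree E ≤ Divisor.degree W := by
  have := h7_degree_nonneg (W - E) (fun v => by
    rw [Finsupp.sub_apply]
    have := Finsupp.le_def.mp h v
    omega)
  rw [map_sub] at this
  omega

/-- **(S2)** any characteristic: a divisor of tame shape has degree at most `2 g - 2`. -/
theorem h87_degree_le_of_tame {x : F} (hx : h75_IsChart K x) (E : Divisor K F)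
    (hfin : ∀ (P : Place K F) (a : K), 0 < P.ord (x - algebraMap K F a) →
      E P ≤ P.ord (x - algebraMap K F a) - 1)
    (hpole : ∀ P : Place K F, P.ord x < 0 → E P ≤ P.ord x - 1) :
    Divisor.degree E ≤ 2 * (h75_genus K x : ℤ) - 2 := by
  obtain ⟨W, -, hmax, hdeg⟩ := h87_exists_divdx hx
  rw [← hdeg]
  exact h87_degree_le hx (hmax E (h87_one_mem_Omega hx E hfin hpole))

end AnyChar

/-- a function has at most one value at a place. -/
theorem h87_value_unique (P : Place K F) {f : F} {a b : K}
    (ha : 0 < P.ord (f - algebraMap K F a)) (hb : 0 < P.ord (f - algebraMap K F b)) : a = b := by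
  by_contra hne
  have hab : algebraMap K F (b - a) ≠ 0 := by
    rw [Ne, map_eq_zero, sub_eq_zero]
    exact fun h => hne h.symm
  have h1 : f - algebraMap K F a ≠ 0 := by
    intro h
    rw [h, P.ord_zero] at ha
    exact lt_irrefl _ ha
  have h2 : f - algebraMap K F b ≠ 0 := by
    intro h
    rw [h, P.ord_zero] at hb
    exact lt_irrefl _ hb
  have h3 := h35_ord_sub P h1 h2 (by rw [sub_sub_sub_cancel_left, ← map_sub]; exact hab)
  rw [sub_sub_sub_cancel_left, ← map_sub, h35_ord_algebraMap] at h3
  have h4 : 0 < min (P.ord (f - algebraMap K F a)) (P.ord (f - algebraMap K F b)) := lt_min ha hb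
  omega

/-- a place where `f` has a value is not a pole of `f`. -/
theorem h87_ord_nonneg_of_value (P : Place K F) {f : F} {a : K}
    (ha : 0 < P.ord (f - algebraMap K F a)) : 0 ≤ P.ord f :=
  h24_ord_nonneg_of_mem P (h87_mem_of_ord_sub_pos P ha)

section CharZero

variable [IsAlgClosed K]

/-- an element of `M_t(W)` of exact order `-W P` at a place `P` of the chart. -/
theorem h87_exists_exact_mem_chart {t : F} (ht : h75_IsChart K t) (W : Divisor K F)
    (P : Place K F) (hP : t ∈ P.toValuationSubring) :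
    ∃ m : F, m ≠ 0 ∧ m ∈ h75_chart t W ∧ P.ord m = -W P := by
  classical
  obtain ⟨m, hm0, hS, hrest⟩ := h75_exists_exact ht
    (insert P (W.support.filter fun P' => t ∈ P'.toValuationSubring))
    (by
      intro P' hP'
      rcases Finset.mem_insert.mp hP' with rfl | h
      · exact hP
      · exact (Finset.mem_filter.mp h).2)
    (fun P' => -W P')
  refine ⟨m, hm0, ?_, hS P (Finset.mem_insert_self _ _)⟩
  rw [h75_mem_chart_iff]
  intro P' hP'
  right
  by_cases hmem : P' ∈ insert P (W.support.filter fun P' => t ∈ P'.toValuationSubring)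
  · rw [hS P' hmem]
  · have h0 : W P' = 0 := by
      by_contra hne
      exact hmem (Finset.mem_insert_of_mem
        (Finset.mem_filter.mpr ⟨Finsupp.mem_support_iff.mpr hne, hP'⟩))
    rw [h0, neg_zero]
    exact hrest P' hP' hmem

/-- **(TW0)** characteristic zero (tame different): the divisor of `dx` is at most
`e - 1` at the finite places and `-e - 1` at the poles. -/
theorem h87_Omega_le_tame [CharZero K] {x : F} (hx : h75_IsChart K x) (W : Divisor K F)
    (hW : (1 : F) ∈ h75_Omega x W) (P : Place K F) :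
    (∀ a : K, 0 < P.ord (x - algebraMap K F a) → W P ≤ P.ord (x - algebraMap K F a) - 1) ∧
    (P.ord x < 0 → W P ≤ P.ord x - 1) := by
  obtain ⟨h1, h2⟩ := hW
  refine ⟨fun a ha => ?_, fun hPx => ?_⟩
  · obtain ⟨m, hm0, hm, hord⟩ :=
      h87_exists_exact_mem_chart hx W P (h87_mem_of_ord_sub_pos P ha)
    have key := h44_tame_chart hx m (fun b hb => ?_) P a ha
    · rcases key with key | key
      · exact absurd key hm0
      · omega
    · have h3 := h1 (m * b) (by
        have := h75_mul_mem_chart_of_zero (h75_mem_chart_zero_iff.mpr hb) hm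
        rwa [mul_comm] at this)
      have h4 := h44_coe_mem_adjoin K⟮x⟯ (AdjoinSimple.gen K x) _ h3
      rwa [AdjoinSimple.coe_gen, one_mul] at h4
  · have hx0 : x ≠ 0 := hx.ne_zero
    have ht := h75_isChart_inv hx
    have hP' : 0 < P.ord (x⁻¹ - algebraMap K F 0) := by
      rw [map_zero, sub_zero, P.ord_inv]
      omega
    obtain ⟨l, hl0, hl, hord⟩ :=
      h87_exists_exact_mem_chart ht W P (h87_mem_of_ord_sub_pos P hP')
    have key := h44_tame_chart ht (x ^ 2 * l) (fun b hb => ?_) P 0 hP'
    · rcases key with key | key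
      · exact absurd key (mul_ne_zero (pow_ne_zero 2 hx0) hl0)
      · rw [map_zero, sub_zero, P.ord_inv, P.ord_mul (pow_ne_zero 2 hx0) hl0, pow_two,
          P.ord_mul hx0 hx0] at key
        omega
    · have h3 := h2 (l * b) (by
        have := h75_mul_mem_chart_of_zero (h75_mem_chart_zero_iff.mpr hb) hl
        rwa [mul_comm] at this)
      have h4 := h44_coe_mem_adjoin K⟮x⟯ (AdjoinSimple.gen K x)⁻¹ _ h3
      have h5 : ((Algebra.trace K⟮x⁻¹⟯ F (x ^ 2 * l * b) : K⟮x⁻¹⟯) : F) =
          ((AdjoinSimple.gen K x ^ 2 * Algebra.trace K⟮x⟯ F (1 * (l * b)) : K⟮x⟯) : F) := by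
        rw [h44_trace_congr (h24_adjoin_inv_eq x) (x ^ 2 * l * b)]
        have h6 : x ^ 2 * l * b = (AdjoinSimple.gen K x ^ 2 : K⟮x⟯) • (1 * (l * b)) := by
          rw [Algebra.smul_def, one_mul, mul_assoc]
          rfl
        rw [h6, map_smul, smul_eq_mul]
      rw [h5]
      simpa using h4

/-- **(S1)** characteristic zero (Hurwitz): the divisor `e - 1` / `-e - 1` of `dx` has degree
`2 g - 2`. -/
theorem h87_exists_divdx_zero [CharZero K] {x : F} (hx : h75_IsChart K x) :
    ∃ W : Divisor K F, Divisor.degree W = 2 * (h75_genus K x : ℤ) - 2 ∧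
      (∀ (P : Place K F) (a : K), 0 < P.ord (x - algebraMap K F a) →
        W P = P.ord (x - algebraMap K F a) - 1) ∧
      (∀ P : Place K F, P.ord x < 0 → W P = P.ord x - 1) := by
  classical
  obtain ⟨W, hW, hmax, hdeg⟩ := h87_exists_divdx hx
  have hle := h87_Omega_le_tame hx W hW
  -- raising `W` at one place to the tame value stays below `div (dx)`
  have hraise : ∀ (P : Place K F) (c : ℤ),
      (∀ a : K, 0 < P.ord (x - algebraMap K F a) → W P + c ≤ P.ord (x - algebraMap K F a) - 1) →
      (P.ord x < 0 → W P + c ≤ P.ord x - 1) → c ≤ 0 := by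
    intro P c hc1 hc2
    have hE : (1 : F) ∈ h75_Omega x (W + Finsupp.single P c) := by
      refine h87_one_mem_Omega hx _ (fun P' a ha => ?_) (fun P' hP' => ?_)
      · rw [Finsupp.add_apply]
        by_cases hPP : P' = P
        · subst hPP
          rw [Finsupp.single_eq_same]
          exact hc1 a ha
        · rw [Finsupp.single_apply, if_neg (fun h => hPP h.symm), add_zero]
          exact (hle P').1 a ha
      · rw [Finsupp.add_apply]
        by_cases hPP : P' = P
        · subst hPP
          rw [Finsupp.single_eq_same]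
          exact hc2 hP'
        · rw [Finsupp.single_apply, if_neg (fun h => hPP h.symm), add_zero]
          exact (hle P').2 hP'
    have := Finsupp.le_def.mp (hmax _ hE) P
    rw [Finsupp.add_apply, Finsupp.single_eq_same] at this
    omega
  refine ⟨W, hdeg, fun P a ha => ?_, fun P hP => ?_⟩
  · refine le_antisymm ((hle P).1 a ha) ?_
    have := hraise P (P.ord (x - algebraMap K F a) - 1 - W P) (fun a' ha' => by
      rw [h87_value_unique P ha' ha]
      omega) (fun hP => by
      have := h87_ord_nonneg_of_value P ha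
      omega)
    omega
  · refine le_antisymm ((hle P).2 hP) ?_
    have := hraise P (P.ord x - 1 - W P) (fun a' ha' => by
      have := h87_ord_nonneg_of_value P ha'
      omega) (fun _ => by omega)
    omega

end CharZero

end Fermat.Agent.S36
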