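/-
S36 / row I-CUSP (helper87): **the binder `hX3` of `h16_cusp_row_of_X3`** (cusp predicate
`h16_cusp2`), closed, and the resulting closed row `hU2` / `hLG2` of `h94_hwit_final`.
-/
import Mathlib
import Fermat.Agent.S36.h87_X3Closed
import Fermat.Agent.S36.h16_CuspRow

set_option autoImplicit false
set_option synthInstance.maxHeartbeats 400000
set_option linter.unusedSectionVars false
set_option linter.style.haveILetI false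

noncomputable section

open ModularCurve AlgebraicCurve

namespace Fermat.Agent.S36

open Fermat.Agent.S34 Fermat.Agent.S37 Fermat.Agent.S24 Fermat.Agent.S35 Fermat.Agent.S18
  Fermat.Agent.GAL Fermat.Agent.S40 Fermat.Agent.S19

local notation "Qb" => AlgebraicClosure ℚ

section X3Row16

variable (M q : ℕ) [NeZero M] [NeZero q] [Fact q.Prime] (hqM : ¬ q ∣ M)
  (A : ValuationSubring Qb) (hA : A.LiesOverPrime q) (ζ : Qb) (hζ : IsPrimitiveRoot ζ q)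
  (hex : h98_Ex M q hqM A ζ hζ)

local notation "V2" => h80_fam2 (M * q * q) (A.inertiaSubgroupIn ℚ) (h98_w2 M q hqM A ζ hζ hex)
  (h98_hw2mul M q hqM A hA ζ hζ hex) (h98_hw2add M q hqM A hA ζ hζ hex)

local notation "II" => A.inertiaSubgroupIn ℚ

/-- **(X3) = `hX3` of `h16_cusp_row_of_X3`** (cusp predicate `h16_cusp2`). -/
theorem h87_hX3_16 (hch : 5 ≤ q ∨ 2 ∣ M ∨ 3 ∣ M) :
    ∀ 𝔪 : Ideal (V2).B, 𝔪.IsMaximal → h16_cusp2 M q hqM A hA ζ hζ hex 𝔪 →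
      ∀ c : Fin 3, (V2).Through 𝔪 (Sum.inl c) →
        ∃ (Fb : Type) (_ : Field Fb), Nonempty (h62_Res (V2) 𝔪 (Sum.inl c) Fb) := by
  intro 𝔪 hm hcusp c hc
  obtain ⟨a, haJ, ham, hqm⟩ := h16_cusp2_data M q hqM A hA ζ hζ hex 𝔪 hcusp
  exact h87_x3_hX3 M q hqM A hA ζ hζ hex hch 𝔪 hm hqm a ham haJ c hc

include hζ in
/-- **Row I-CUSP, closed**: the binders `hU2` and `hLG2` of `h94_hwit_final` for
`cusp2 := h16_cusp2`, every exponent `n` prime to `q`. -/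
theorem h87_cusp_row_16 (hch : 5 ≤ q ∨ 2 ∣ M ∨ 3 ∣ M) {n : ℕ} (hn : ¬ q ∣ n) :
    (∀ 𝔪 : Ideal (V2).B, 𝔪.IsMaximal → h16_cusp2 M q hqM A hA ζ hζ hex 𝔪 →
      ∀ i, (V2).Through 𝔪 i →
      ∃ e : ↥(h69_F0 (M * q * q) II), e ≠ 0 ∧ (V2).v i e = 1 ∧
        ∀ j, (V2).Through 𝔪 j → j ≠ i → (V2).v j e = 0) ∧
    (∀ 𝔪 : Ideal (V2).B, 𝔪.IsMaximal → h16_cusp2 M q hqM A hA ζ hζ hex 𝔪 →
      ∀ e ω : ↥(h69_F0 (M * q * q) II),
      (∀ c, (V2).Through 𝔪 c → 0 < (V2).v c ((q : ℕ) : ↥(h69_F0 (M * q * q) II)) →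
        0 ≤ (V2).v c e) →
      ω ≠ 0 → (V2).InLoc 𝔪 ω → (V2).InLoc 𝔪 ω⁻¹ →
      (∀ c, (V2).Through 𝔪 c → 0 < (V2).v c ((q : ℕ) : ↥(h69_F0 (M * q * q) II)) →
        (e ^ n * ω = 1 ∨
          (V2).v c ((q : ℕ) : ↥(h69_F0 (M * q * q) II)) ≤ (V2).v c (e ^ n * ω - 1))) →
      ∃ (ξ : Fin 3 ⊕ h80_HorIdx (h80_horOrd (M * q * q) II (h59_jbar (M * q * q))⁻¹) →
            ↥(h69_F0 (M * q * q) II))
          (y : ↥(h69_F0 (M * q * q) II)),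
        (∀ c, (V2).Through 𝔪 c → 0 < (V2).v c ((q : ℕ) : ↥(h69_F0 (M * q * q) II)) →
          (V2).InLoc 𝔪 (ξ c) ∧ ξ c ^ n = 1) ∧
        y ≠ 0 ∧ (V2).InLoc 𝔪 y ∧ (V2).InLoc 𝔪 y⁻¹ ∧
        ∀ c, (V2).Through 𝔪 c → 0 < (V2).v c ((q : ℕ) : ↥(h69_F0 (M * q * q) II)) →
          (e = ξ c * y ∨
            (V2).v c ((q : ℕ) : ↥(h69_F0 (M * q * q) II)) ≤ (V2).v c (e - ξ c * y))) :=
  h16_cusp_row_of_X3 M q hqM A hA ζ hζ hex (h87_hX3_16 M q hqM A hA ζ hζ hex hch) hn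

end X3Row16

end Fermat.Agent.S36
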