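/-
S36 / row I-CUSP (helper87): **the binder `hX3` of `h46_cusp_out` at `cusp2 := h63_cusp2`**,
closed (level `M q²`, chart `1/j`, vertical valuations `h98_w2`).
-/
import Mathlib
import Fermat.Agent.S36.h87_X3Closed
import Fermat.Agent.S36.h63_CuspX12W2
import Fermat.Agent.S36.h16_CuspInst

set_option autoImplicit false
set_option synthInstance.maxHeartbeats 400000
set_option linter.unusedSectionVars false
set_option linter.style.haveILetI false

noncomputable section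

open ModularCurve AlgebraicCurve

namespace Fermat.Agent.S36

open Fermat.Agent.S34 Fermat.Agent.S37 Fermat.Agent.S24 Fermat.Agent.S35 Fermat.Agent.S18
  Fermat.Agent.GAL Fermat.Agent.S40 Fermat.Agent.S19

local notation "Qb" => AlgebraicClosure ℚ

section X3W2

variable (M q : ℕ) [NeZero M] [NeZero q] [Fact q.Prime] (hqM : ¬ q ∣ M)
  (A : ValuationSubring Qb) (hA : A.LiesOverPrime q) (ζ : Qb) (hζ : IsPrimitiveRoot ζ q)
  (hex : h98_Ex M q hqM A ζ hζ)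

local notation "V2" => h80_fam2 (M * q * q) (A.inertiaSubgroupIn ℚ) (h98_w2 M q hqM A ζ hζ hex)
  (h98_hw2mul M q hqM A hA ζ hζ hex) (h98_hw2add M q hqM A hA ζ hζ hex)

/-- **(X3) = `hX3` of `h46_cusp_out` for `cusp2 := h63_cusp2`.** -/
theorem h87_hX3_w2 (hch : 5 ≤ q ∨ 2 ∣ M ∨ 3 ∣ M) :
    ∀ 𝔪 : Ideal (V2).B, 𝔪.IsMaximal → h63_cusp2 M q hqM A hA ζ hζ hex 𝔪 →
      ∀ c : Fin 3, (V2).Through 𝔪 (Sum.inl c) →
        ∃ (Fb : Type) (_ : Field Fb), Nonempty (h62_Res (V2) 𝔪 (Sum.inl c) Fb) := by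
  intro 𝔪 hm hcusp c hc
  obtain ⟨hq, hT⟩ := hcusp
  obtain ⟨a, -, haJ, ham, hqm⟩ := h16_cusp_premise M q hqM A hA ζ hζ hex 𝔪
    ((q : ℕ) : h69_F0 (M * q * q) (A.inertiaSubgroupIn ℚ))
    ⟨(h59_jbar (M * q * q))⁻¹, h80_jbar_inv_mem_F0 (M * q * q) (A.inertiaSubgroupIn ℚ)⟩
    (by
      rw [map_natCast]
      rfl) rfl hq hT
  exact h87_x3_hX3 M q hqM A hA ζ hζ hex hch 𝔪 hm hqm a ham haJ c hc

/-- The strong form: the residue field is `Fb(M)` and the order function is the order at a place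
of the chart `1/j̄`. -/
theorem h87_x3_w2 (hch : 5 ≤ q ∨ 2 ∣ M ∨ 3 ∣ M) :
    ∀ 𝔪 : Ideal (V2).B, 𝔪.IsMaximal → h63_cusp2 M q hqM A hA ζ hζ hex 𝔪 →
      ∀ c : Fin 3, (V2).Through 𝔪 (Sum.inl c) →
        ∃ (Q : Place (IsLocalRing.ResidueField A)
            ↥(modularFunctionFieldFullC (IsLocalRing.ResidueField A) M))
          (R : h62_Res (V2) 𝔪 (Sum.inl c)
            ↥(modularFunctionFieldFullC (IsLocalRing.ResidueField A) M)),
          (h54_jk (IsLocalRing.ResidueField A) M)⁻¹ ∈ Q.toValuationSubring ∧ R.o = Q.ord := by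
  intro 𝔪 hm hcusp c hc
  obtain ⟨hq, hT⟩ := hcusp
  obtain ⟨a, -, haJ, ham, hqm⟩ := h16_cusp_premise M q hqM A hA ζ hζ hex 𝔪
    ((q : ℕ) : h69_F0 (M * q * q) (A.inertiaSubgroupIn ℚ))
    ⟨(h59_jbar (M * q * q))⁻¹, h80_jbar_inv_mem_F0 (M * q * q) (A.inertiaSubgroupIn ℚ)⟩
    (by
      rw [map_natCast]
      rfl) rfl hq hT
  exact h87_x3_closed M q hqM A hA ζ hζ hex hch 𝔪 hm hqm a ham haJ c hc

end X3W2

end Fermat.Agent.S36
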