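import Mathlib
import Fermat.Agent.S36.h98_NRVal
import Fermat.Agent.S18.h69_PowerBasis
import Fermat.Agent.S34.h31_IntSeriesMod
import Fermat.Agent.S40.h8_Tame
import Fermat.Agent.S36.h69_K0

/-!
# S36 / row I-VAL : existence of the Gauss scale (helper88)

For an expansion `E : F(N) →+* ℚ̄((ℓ))` of the modular function field and a function `f ≠ 0`
whose expansion `E f` has coefficients fixed by a set `G` of Galois automorphisms, such that the
`G`-fixed constants are `π ^ n * unit`, the series `E f` has a `π`-adic Gauss valuation: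
`∃ n : ℤ, h98_GV A π (E f) n`  (`h88_scale_emb`).

* `h88_scale_core` : a nonzero bounded Laurent series whose coefficients are `π ^ n * unit` has an
  exact scale;
* `h88_GV_of_ratio` : scale of a ratio;
* `h88_exists_rat_multiple` : every nonzero polynomial over `ℚ̄` divides a nonzero rational one;
* `h88_scale_emb` : the main statement;
* `h88_scale_unr`, `h88_scale_tame` : the two instances (`π = q`, `G = I`;
  `π = ζ - 1`, `G = {σ ∈ I | σ ζ = ζ}`).
-/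

set_option autoImplicit false
set_option synthInstance.maxHeartbeats 400000
set_option linter.unusedSectionVars false

noncomputable section

open ModularCurve

namespace Fermat.Agent.S36

open Fermat.Agent.S34 Fermat.Agent.S18 Fermat.Agent.S24 Fermat.Agent.S40

local notation "Qb" => AlgebraicClosure ℚ

section core

variable {K : Type*} [Field K] (A : ValuationSubring K)

theorem h88_coeff_C_mul (c : K) (y : LaurentSeries K) (i : ℤ) :
    (algebraMap K (LaurentSeries K) c * y).coeff i = c * y.coeff i := by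
  rw [algebraMap_laurentSeries_eq_single, HahnSeries.coeff_single_zero_mul]

theorem h88_C_mem {c : K} (hc : c ∈ A) : algebraMap K (LaurentSeries K) c ∈ h31_intSeries A := by
  rw [algebraMap_laurentSeries_eq_single]
  exact h31_single_mem A 0 hc

theorem h88_zpow_mem {π : K} (hπn : π⁻¹ ∉ A) {k : ℤ} {u : K} (hu : u⁻¹ ∈ A) (hu0 : u ≠ 0)
    (h : π ^ k * u ∈ A) : 0 ≤ k := by
  by_contra hk
  have hk' : k < 0 := lt_of_not_ge hk
  have hπA : π ∈ A := (A.mem_or_inv_mem π).resolve_right hπn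
  have hπ0 : π ≠ 0 := by
    rintro rfl
    exact hπn (by rw [inv_zero]; exact A.zero_mem)
  have h1 : π ^ k ∈ A := by
    have := A.mul_mem _ _ h hu
    rwa [mul_assoc, mul_inv_cancel₀ hu0, mul_one] at this
  obtain ⟨n, hn⟩ : ∃ n : ℕ, k = -(n : ℤ) - 1 := ⟨(-k - 1).toNat, by omega⟩
  apply hπn
  have h2 : π⁻¹ = π ^ k * π ^ n := by
    rw [hn, zpow_sub₀ hπ0, zpow_neg, zpow_natCast, zpow_one]
    field_simp
  rw [h2]
  exact A.mul_mem _ _ h1 (A.pow_mem hπA n)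

/-- **Scale core**: a nonzero bounded Laurent series whose nonzero coefficients are all of the
form `π ^ n * unit` is `π ^ m` times an `A`-integral series with nonzero reduction. -/
theorem h88_scale_core (π : K) (hπn : π⁻¹ ∉ A) (D : K → Prop)
    (hDV : ∀ c : K, D c → c ≠ 0 → ∃ (n : ℤ) (u : K), u ∈ A ∧ u⁻¹ ∈ A ∧ c = π ^ n * u)
    (y : LaurentSeries K) (hy0 : y ≠ 0) (hyD : ∀ i, D (y.coeff i))
    (s : ℕ) (hbd : ∀ i, π ^ s * y.coeff i ∈ A) :
    ∃ (m : ℤ) (z : LaurentSeries A), coeffMap (IsLocalRing.residue A) z ≠ 0 ∧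
      algebraMap K (LaurentSeries K) (π ^ (-m)) * y = coeffMap A.subtype z := by
  classical
  have hπA : π ∈ A := (A.mem_or_inv_mem π).resolve_right hπn
  have hπ0 : π ≠ 0 := by
    rintro rfl
    exact hπn (by rw [inv_zero]; exact A.zero_mem)
  have hexp : ∀ i, y.coeff i ≠ 0 → ∃ (k : ℕ) (u : K), u ∈ A ∧ u⁻¹ ∈ A ∧ u ≠ 0 ∧
      y.coeff i = π ^ ((k : ℤ) - s) * u := by
    intro i hi
    obtain ⟨n, u, hu, hu', hc⟩ := hDV _ (hyD i) hi
    have hu0 : u ≠ 0 := by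
      rintro rfl
      rw [mul_zero] at hc
      exact hi hc
    have h1 : π ^ ((s : ℤ) + n) * u ∈ A := by
      have := hbd i
      rwa [hc, ← mul_assoc, ← zpow_natCast, ← zpow_add₀ hπ0] at this
    have h2 := h88_zpow_mem A hπn hu' hu0 h1
    refine ⟨((s : ℤ) + n).toNat, u, hu, hu', hu0, ?_⟩
    rw [hc]
    congr 2
    omega
  obtain ⟨i₁, hi₁⟩ : ∃ i, y.coeff i ≠ 0 := by
    by_contra h
    apply hy0
    ext i
    rw [HahnSeries.coeff_zero]
    by_contra hi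
    exact h ⟨i, hi⟩
  have hT : ∃ k : ℕ, ∃ i, y.coeff i ≠ 0 ∧ ∃ u : K, u ∈ A ∧ u⁻¹ ∈ A ∧ u ≠ 0 ∧
      y.coeff i = π ^ ((k : ℤ) - s) * u := by
    obtain ⟨k, u, h⟩ := hexp i₁ hi₁
    exact ⟨k, i₁, hi₁, u, h⟩
  obtain ⟨i₀, hi₀, u₀, hu₀, hu₀', hu₀0, hc₀⟩ := Nat.find_spec hT
  have hmin : ∀ k : ℕ, (∃ i, y.coeff i ≠ 0 ∧ ∃ u : K, u ∈ A ∧ u⁻¹ ∈ A ∧ u ≠ 0 ∧
      y.coeff i = π ^ ((k : ℤ) - s) * u) → Nat.find hT ≤ k := fun k hk => Nat.find_min' hT hk
  generalize Nat.find hT = m₀ at hc₀ hmin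
  have hall : ∀ i, π ^ (-((m₀ : ℤ) - s)) * y.coeff i ∈ A := by
    intro i
    by_cases hi : y.coeff i = 0
    · rw [hi, mul_zero]
      exact A.zero_mem
    obtain ⟨k, u, hu, hu', hu0, hc⟩ := hexp i hi
    have hk := hmin k ⟨i, hi, u, hu, hu', hu0, hc⟩
    rw [hc, ← mul_assoc, ← zpow_add₀ hπ0]
    have h3 : -((m₀ : ℤ) - s) + ((k : ℤ) - s) = ((k - m₀ : ℕ) : ℤ) := by omega
    rw [h3, zpow_natCast]
    exact A.mul_mem _ _ (A.pow_mem hπA _) hu
  have hmem : algebraMap K (LaurentSeries K) (π ^ (-((m₀ : ℤ) - s))) * y ∈ h31_intSeries A := by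
    intro i
    rw [h88_coeff_C_mul]
    exact hall i
  obtain ⟨z, hz⟩ := (h31_mem_intSeries_iff A _).mp hmem
  refine ⟨(m₀ : ℤ) - s, z, ?_, hz.symm⟩
  intro h0
  have h1 : (coeffMap (IsLocalRing.residue A) z).coeff i₀ = 0 := by
    rw [h0, HahnSeries.coeff_zero]
  rw [coeffMap_coeff] at h1
  have h2 : ((z.coeff i₀ : A) : K) = u₀ := by
    have h4 := congrArg (fun t : LaurentSeries K => t.coeff i₀) hz
    simp only [coeffMap_coeff, h88_coeff_C_mul] at h4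
    have h5 : ((z.coeff i₀ : A) : K) = π ^ (-((m₀ : ℤ) - s)) * y.coeff i₀ := h4
    rw [h5, hc₀, ← mul_assoc, ← zpow_add₀ hπ0, neg_add_cancel, zpow_zero, one_mul]
  rw [IsLocalRing.residue_eq_zero_iff, IsLocalRing.mem_maximalIdeal, mem_nonunits_iff] at h1
  apply h1
  refine isUnit_iff_exists_inv.mpr ⟨⟨u₀⁻¹, hu₀'⟩, Subtype.ext ?_⟩
  show ((z.coeff i₀ : A) : K) * u₀⁻¹ = 1
  rw [h2, mul_inv_cancel₀ hu₀0]

/-- Scale of a ratio. -/
theorem h88_GV_of_ratio (π : K) (hπ0 : π ≠ 0) (s P Q : LaurentSeries K) (hsQ : s * Q = P)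
    (mP mQ : ℤ) (zP zQ : LaurentSeries A)
    (hzP : coeffMap (IsLocalRing.residue A) zP ≠ 0)
    (hzQ : coeffMap (IsLocalRing.residue A) zQ ≠ 0)
    (hP : algebraMap K (LaurentSeries K) (π ^ (-mP)) * P = coeffMap A.subtype zP)
    (hQ : algebraMap K (LaurentSeries K) (π ^ (-mQ)) * Q = coeffMap A.subtype zQ) :
    h98_GV A π s (mP - mQ) := by
  have heq : algebraMap K (LaurentSeries K) (π ^ (-(mP - mQ))) * s * coeffMap A.subtype zQ
      = coeffMap A.subtype zP := by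
    rw [← hQ, ← hP, ← hsQ]
    have h1 : π ^ (-mP) = π ^ (-(mP - mQ)) * π ^ (-mQ) := by
      rw [← zpow_add₀ hπ0]
      congr 1
      ring
    rw [h1, map_mul]
    ring
  have hmem : algebraMap K (LaurentSeries K) (π ^ (-(mP - mQ))) * s ∈ h60_Os A :=
    ⟨zP, zQ, hzQ, heq⟩
  refine ⟨hmem, fun h0 => hzP ?_⟩
  have h1 := h60_rs_spec A ⟨_, hmem⟩ zP zQ heq
  rw [h0, zero_mul] at h1
  exact h1.symm

/-- The subring of `π`-bounded Laurent series. -/
def h88_bdd (π : K) (hπA : π ∈ A) : Subring (LaurentSeries K) where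
  carrier := {y | ∃ s : ℕ, algebraMap K (LaurentSeries K) (π ^ s) * y ∈ h31_intSeries A}
  mul_mem' := by
    rintro a b ⟨s, hs⟩ ⟨t, ht⟩
    refine ⟨s + t, ?_⟩
    have h : algebraMap K (LaurentSeries K) (π ^ (s + t)) * (a * b)
        = (algebraMap K (LaurentSeries K) (π ^ s) * a)
          * (algebraMap K (LaurentSeries K) (π ^ t) * b) := by
      rw [pow_add, map_mul]
      ring
    rw [h]
    exact mul_mem hs ht
  one_mem' := ⟨0, by rw [pow_zero, map_one, one_mul]; exact one_mem _⟩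
  add_mem' := by
    rintro a b ⟨s, hs⟩ ⟨t, ht⟩
    refine ⟨s + t, ?_⟩
    have h : algebraMap K (LaurentSeries K) (π ^ (s + t)) * (a + b)
        = algebraMap K (LaurentSeries K) (π ^ t) * (algebraMap K (LaurentSeries K) (π ^ s) * a)
          + algebraMap K (LaurentSeries K) (π ^ s)
            * (algebraMap K (LaurentSeries K) (π ^ t) * b) := by
      rw [pow_add, map_mul]
      ring
    rw [h]
    exact add_mem (mul_mem (h88_C_mem A (A.pow_mem hπA t)) hs)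
      (mul_mem (h88_C_mem A (A.pow_mem hπA s)) ht)
  zero_mem' := ⟨0, by rw [mul_zero]; exact zero_mem _⟩
  neg_mem' := by
    rintro a ⟨s, hs⟩
    refine ⟨s, ?_⟩
    rw [mul_neg]
    exact neg_mem hs

theorem h88_mem_bdd (π : K) (hπA : π ∈ A) (y : LaurentSeries K) :
    y ∈ h88_bdd A π hπA ↔ ∃ s : ℕ, algebraMap K (LaurentSeries K) (π ^ s) * y ∈ h31_intSeries A :=
  Iff.rfl

theorem h88_int_mem_bdd (π : K) (hπA : π ∈ A) {y : LaurentSeries K} (hy : y ∈ h31_intSeries A) :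
    y ∈ h88_bdd A π hπA :=
  ⟨0, by rwa [pow_zero, map_one, one_mul]⟩

theorem h88_const_mem_bdd (π : K) (hπA : π ∈ A) (hbdK : ∀ c : K, ∃ s : ℕ, π ^ s * c ∈ A)
    (c : K) : algebraMap K (LaurentSeries K) c ∈ h88_bdd A π hπA := by
  obtain ⟨s, hs⟩ := hbdK c
  refine ⟨s, ?_⟩
  rw [← map_mul]
  exact h88_C_mem A hs

theorem h88_aeval_mem_bdd (π : K) (hπA : π ∈ A) (hbdK : ∀ c : K, ∃ s : ℕ, π ^ s * c ∈ A)
    {x : LaurentSeries K} (hx : x ∈ h88_bdd A π hπA) (P : Polynomial K) :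
    Polynomial.aeval x P ∈ h88_bdd A π hπA := by
  rw [Polynomial.aeval_eq_sum_range]
  refine Subring.sum_mem _ fun i _ => ?_
  rw [Algebra.smul_def]
  exact mul_mem (h88_const_mem_bdd A π hπA hbdK _) (pow_mem hx i)

end core

/-! ## Rational multiples -/

attribute [local instance] Polynomial.algebra in
/-- Every nonzero polynomial over `ℚ̄` divides a nonzero polynomial with rational coefficients. -/
theorem h88_exists_rat_multiple (q0 : Polynomial Qb) (hq0 : q0 ≠ 0) :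
    ∃ Q0 : Polynomial ℚ, Q0 ≠ 0 ∧ ∃ g : Polynomial Qb, Q0.map (algebraMap ℚ Qb) = q0 * g := by
  have : Algebra.IsAlgebraic ℚ Qb := AlgebraicClosure.isAlgebraic ℚ
  have : Algebra.IsIntegral ℚ Qb := Algebra.IsAlgebraic.isIntegral
  have hint : IsIntegral (Polynomial ℚ) q0 := Algebra.IsIntegral.isIntegral q0
  obtain ⟨P, hPm, hP⟩ := hint
  obtain ⟨P', hP', hnd⟩ :=
    Polynomial.exists_eq_pow_rootMultiplicity_mul_and_not_dvd P hPm.ne_zero 0
  rw [Polynomial.C_0, sub_zero] at hP' hnd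
  have h0 : P'.coeff 0 ≠ 0 := fun h => hnd (Polynomial.X_dvd_iff.mpr h)
  have h1 : Polynomial.eval₂ (algebraMap (Polynomial ℚ) (Polynomial Qb)) q0 P' = 0 := by
    rw [hP', Polynomial.eval₂_mul, Polynomial.eval₂_pow, Polynomial.eval₂_X] at hP
    exact (mul_eq_zero.mp hP).resolve_left (pow_ne_zero _ hq0)
  refine ⟨P'.coeff 0, h0,
    -(Polynomial.eval₂ (algebraMap (Polynomial ℚ) (Polynomial Qb)) q0 P'.divX), ?_⟩
  have h2 := Polynomial.divX_mul_X_add P'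
  rw [← h2, Polynomial.eval₂_add, Polynomial.eval₂_mul, Polynomial.eval₂_X,
    Polynomial.eval₂_C] at h1
  have h3 : algebraMap (Polynomial ℚ) (Polynomial Qb) (P'.coeff 0)
      = (P'.coeff 0).map (algebraMap ℚ Qb) := rfl
  rw [← h3]
  linear_combination h1

/-! ## The main statement -/

/-- **(SCALE)**: existence of the `π`-adic Gauss valuation of `E f`. -/
theorem h88_scale_emb (N : ℕ) [NeZero N] (A : ValuationSubring Qb) (π : Qb) (hπn : π⁻¹ ∉ A)
    (hbdK : ∀ c : Qb, ∃ s : ℕ, π ^ s * c ∈ A)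
    (G : Set (Qb ≃ₐ[ℚ] Qb))
    (hDV : ∀ c : Qb, (∀ σ ∈ G, σ c = c) → c ≠ 0 →
      ∃ (n : ℤ) (u : Qb), u ∈ A ∧ u⁻¹ ∈ A ∧ c = π ^ n * u)
    (E : ↥(modularFunctionFieldBar N) →+* LaurentSeries Qb)
    (hEC : ∀ c : Qb, E (algebraMap Qb ↥(modularFunctionFieldBar N) c)
      = algebraMap Qb (LaurentSeries Qb) c)
    (hEJ : E (h59_jbar N) ∈ h31_intSeries A)
    (hEJfix : ∀ σ ∈ G, coeffMap ((σ : Qb ≃ₐ[ℚ] Qb) : Qb →+* Qb) (E (h59_jbar N))
      = E (h59_jbar N))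
    (hEJN : E (h69_jN N) ∈ h31_intSeries A)
    (f : ↥(modularFunctionFieldBar N)) (hf0 : f ≠ 0)
    (hEf : ∀ σ ∈ G, coeffMap ((σ : Qb ≃ₐ[ℚ] Qb) : Qb →+* Qb) (E f) = E f) :
    ∃ n : ℤ, h98_GV A π (E f) n := by
  classical
  have hπA : π ∈ A := (A.mem_or_inv_mem π).resolve_right hπn
  have hπ0 : π ≠ 0 := by
    rintro rfl
    exact hπn (by rw [inv_zero]; exact A.zero_mem)
  obtain ⟨p, q0, hq0, hrepr⟩ := h69_exists_repr N f
  obtain ⟨Q0, hQ0, g, hg⟩ := h88_exists_rat_multiple q0 hq0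
  have hEinj : Function.Injective E := E.injective
  -- the identity in `F`
  have hval : ∀ P : Polynomial Qb,
      ((Polynomial.aeval (h59_jbar N) P : ↥(modularFunctionFieldBar N)) : LaurentSeries Qb)
        = Polynomial.aeval (jqModC Qb) P := by
    intro P
    have h := Polynomial.aeval_algHom_apply (modularFunctionFieldBar N).val (h59_jbar N) P
    rw [← h69_coe_jbar N]
    exact h.symm
  have key : Polynomial.aeval (h59_jbar N) (Q0.map (algebraMap ℚ Qb)) * f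
      = ∑ i, Polynomial.aeval (h59_jbar N) (g * p i) * h69_jN N ^ (i : ℕ) := by
    apply Subtype.ext
    simp only [MulMemClass.coe_mul, AddSubmonoidClass.coe_finsetSum, SubmonoidClass.coe_pow,
      hval, h69_coe_jN]
    rw [hg, map_mul, mul_comm (Polynomial.aeval _ q0), mul_assoc, hrepr, Finset.mul_sum]
    refine Finset.sum_congr rfl fun i _ => ?_
    rw [map_mul]
    ring
  have hEa : ∀ P : Polynomial Qb,
      E (Polynomial.aeval (h59_jbar N) P) = Polynomial.aeval (E (h59_jbar N)) P := by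
    intro P
    rw [Polynomial.aeval_def, Polynomial.aeval_def, Polynomial.hom_eval₂]
    congr 1
    exact RingHom.ext hEC
  have keyE : Polynomial.aeval (E (h59_jbar N)) (Q0.map (algebraMap ℚ Qb)) * E f
      = ∑ i, Polynomial.aeval (E (h59_jbar N)) (g * p i) * E (h69_jN N) ^ (i : ℕ) := by
    have h := congrArg E key
    rw [map_mul, map_sum, hEa] at h
    rw [h]
    refine Finset.sum_congr rfl fun i _ => ?_
    rw [map_mul, map_pow, hEa]
  set Q : LaurentSeries Qb := Polynomial.aeval (E (h59_jbar N)) (Q0.map (algebraMap ℚ Qb))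
    with hQdef
  set P : LaurentSeries Qb := Q * E f with hPdef
  -- nonvanishing
  have hQ0' : Q0.map (algebraMap ℚ Qb) ≠ 0 :=
    (Polynomial.map_ne_zero_iff (algebraMap ℚ Qb).injective).mpr hQ0
  have hQne : Q ≠ 0 := by
    rw [hQdef, ← hEa]
    intro h
    have h1 : Polynomial.aeval (h59_jbar N) (Q0.map (algebraMap ℚ Qb)) = 0 :=
      hEinj (by rw [h, map_zero])
    exact h59_jbar_transcendental N ⟨_, hQ0', h1⟩
  have hEf0 : E f ≠ 0 := fun h => hf0 (hEinj (by rw [h, map_zero]))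
  have hPne : P ≠ 0 := mul_ne_zero hQne hEf0
  -- Galois invariance
  have hQfix : ∀ σ ∈ G, coeffMap ((σ : Qb ≃ₐ[ℚ] Qb) : Qb →+* Qb) Q = Q := by
    intro σ hσ
    rw [hQdef, Polynomial.aeval_def, Polynomial.hom_eval₂, Polynomial.eval₂_map,
      Polynomial.eval₂_map, hEJfix σ hσ]
    congr 1
    exact RingHom.ext fun r => by simp
  have hPfix : ∀ σ ∈ G, coeffMap ((σ : Qb ≃ₐ[ℚ] Qb) : Qb →+* Qb) P = P := by
    intro σ hσ
    rw [hPdef, map_mul, hQfix σ hσ, hEf σ hσ]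
  have hcoef : ∀ y : LaurentSeries Qb,
      (∀ σ ∈ G, coeffMap ((σ : Qb ≃ₐ[ℚ] Qb) : Qb →+* Qb) y = y) →
      ∀ i, ∀ σ ∈ G, σ (y.coeff i) = y.coeff i := by
    intro y hy i σ hσ
    have h := congrArg (fun t : LaurentSeries Qb => t.coeff i) (hy σ hσ)
    have h2 : ((σ : Qb ≃ₐ[ℚ] Qb) : Qb →+* Qb) (y.coeff i) = y.coeff i := by
      simpa only [coeffMap_coeff] using h
    exact h2
  -- boundedness
  have hJb : E (h59_jbar N) ∈ h88_bdd A π hπA := h88_int_mem_bdd A π hπA hEJ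
  have hJNb : E (h69_jN N) ∈ h88_bdd A π hπA := h88_int_mem_bdd A π hπA hEJN
  have hQb : Q ∈ h88_bdd A π hπA := h88_aeval_mem_bdd A π hπA hbdK hJb _
  have hPb : P ∈ h88_bdd A π hπA := by
    rw [keyE]
    exact Subring.sum_mem _ fun i _ =>
      mul_mem (h88_aeval_mem_bdd A π hπA hbdK hJb _) (pow_mem hJNb _)
  obtain ⟨sQ, hsQ⟩ := hQb
  obtain ⟨sP, hsP⟩ := hPb
  obtain ⟨mQ, zQ, hzQ, hQz⟩ := h88_scale_core A π hπn (fun c => ∀ σ ∈ G, σ c = c)
    (fun c hc hc0 => hDV c hc hc0) Q hQne (hcoef Q hQfix) sQ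
    (fun i => by have := hsQ i; rwa [h88_coeff_C_mul] at this)
  obtain ⟨mP, zP, hzP, hPz⟩ := h88_scale_core A π hπn (fun c => ∀ σ ∈ G, σ c = c)
    (fun c hc hc0 => hDV c hc hc0) P hPne (hcoef P hPfix) sP
    (fun i => by have := hsP i; rwa [h88_coeff_C_mul] at this)
  exact ⟨mP - mQ, h88_GV_of_ratio A π hπ0 (E f) P Q (by rw [hPdef, mul_comm]) mP mQ zP zQ
    hzP hzQ hPz hQz⟩

/-! ## Instances -/

section inst

variable (p : ℕ) [Fact p.Prime]

theorem h88_inv_not_mem (A : ValuationSubring Qb) {π : Qb} (h0 : π ≠ 0)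
    (h : A.valuation π < 1) : π⁻¹ ∉ A := by
  intro hmem
  have h1 := (A.valuation_le_one_iff _).2 hmem
  rw [map_inv₀] at h1
  have h2 : 0 < A.valuation π := zero_lt_iff.2 ((map_ne_zero _).2 h0)
  exact absurd h1 (not_le.2 ((one_lt_inv₀ h2).2 h))

/-- Bounded denominators at `p`. -/
theorem h88_bdd_const_p (A : ValuationSubring Qb) (hA : A.LiesOverPrime p) (c : Qb) :
    ∃ s : ℕ, (p : Qb) ^ s * c ∈ A := by
  have halg : IsAlgebraic ℤ c :=
    (IsFractionRing.isAlgebraic_iff ℤ ℚ Qb).2 ((AlgebraicClosure.isAlgebraic ℚ).isAlgebraic c)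
  obtain ⟨d, hd0, hd⟩ := halg.exists_integral_multiple
  have hda : d • c ∈ A := Fermat.Agent.S33.h14_unr_mem_of_isIntegral A hd
  obtain ⟨e, he⟩ := h8_val_int p A hA d hd0
  refine ⟨e, (A.valuation_le_one_iff _).1 ?_⟩
  rw [map_mul, map_pow, ← he, ← map_mul]
  have h1 : (d : Qb) * c = d • c := by rw [zsmul_eq_mul]
  rw [h1]
  exact (A.valuation_le_one_iff _).2 hda

theorem h88_val_zeta_lt_one (A : ValuationSubring Qb) (hA : A.LiesOverPrime p) (ζ : Qb)
    (hζ : IsPrimitiveRoot ζ p) : A.valuation (ζ - 1) < 1 := by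
  by_contra h
  have h1 : 1 ≤ A.valuation (ζ - 1) := not_lt.1 h
  have h2 := h8_val_p p A ζ hζ
  have h3 := h8_val_p_lt p A hA
  rw [h2] at h3
  exact absurd (one_le_pow₀ h1) (not_le.2 h3)

/-- Bounded denominators at `ζ - 1`. -/
theorem h88_bdd_const_zeta (A : ValuationSubring Qb) (hA : A.LiesOverPrime p) (ζ : Qb)
    (hζ : IsPrimitiveRoot ζ p) (c : Qb) : ∃ s : ℕ, (ζ - 1) ^ s * c ∈ A := by
  obtain ⟨s, hs⟩ := h88_bdd_const_p p A hA c
  refine ⟨(p - 1) * s, (A.valuation_le_one_iff _).1 ?_⟩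
  rw [map_mul, map_pow, pow_mul, ← h8_val_p p A ζ hζ, ← map_pow, ← map_mul]
  exact (A.valuation_le_one_iff _).2 hs

/-- **(SCALE), unramified instance**: `π = p`, coefficients fixed by the inertia group. -/
theorem h88_scale_unr (N : ℕ) [NeZero N] (A : ValuationSubring Qb) (hA : A.LiesOverPrime p)
    (E : ↥(modularFunctionFieldBar N) →+* LaurentSeries Qb)
    (hEC : ∀ c : Qb, E (algebraMap Qb ↥(modularFunctionFieldBar N) c)
      = algebraMap Qb (LaurentSeries Qb) c)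
    (hEJ : E (h59_jbar N) ∈ h31_intSeries A)
    (hEJfix : ∀ σ ∈ A.inertiaSubgroupIn ℚ,
      coeffMap ((σ : Qb ≃ₐ[ℚ] Qb) : Qb →+* Qb) (E (h59_jbar N)) = E (h59_jbar N))
    (hEJN : E (h69_jN N) ∈ h31_intSeries A)
    (f : ↥(modularFunctionFieldBar N)) (hf0 : f ≠ 0)
    (hEf : ∀ σ ∈ A.inertiaSubgroupIn ℚ,
      coeffMap ((σ : Qb ≃ₐ[ℚ] Qb) : Qb →+* Qb) (E f) = E f) :
    ∃ n : ℤ, h98_GV A (p : Qb) (E f) n := by
  have hp : p.Prime := Fact.out
  have hp0 : (p : Qb) ≠ 0 := Nat.cast_ne_zero.2 hp.ne_zero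
  refine h88_scale_emb N A (p : Qb) (h88_inv_not_mem A hp0 (h8_val_p_lt p A hA))
    (h88_bdd_const_p p A hA) (A.inertiaSubgroupIn ℚ : Set (Qb ≃ₐ[ℚ] Qb)) ?_ E hEC hEJ hEJfix hEJN
    f hf0 hEf
  intro c hc hc0
  obtain ⟨m, u, hu, hu', h⟩ := h8_unr_unit p A hA c hc0 hc
  exact ⟨m, u, hu, hu', h⟩

/-- **(SCALE), tame instance**: `π = ζ - 1`, coefficients fixed by the inertia elements fixing
`ζ` (all primes `p`, including `p = 2`). -/
theorem h88_scale_tame (N : ℕ) [NeZero N] (A : ValuationSubring Qb) (hA : A.LiesOverPrime p)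
    (ζ : Qb) (hζ : IsPrimitiveRoot ζ p)
    (E : ↥(modularFunctionFieldBar N) →+* LaurentSeries Qb)
    (hEC : ∀ c : Qb, E (algebraMap Qb ↥(modularFunctionFieldBar N) c)
      = algebraMap Qb (LaurentSeries Qb) c)
    (hEJ : E (h59_jbar N) ∈ h31_intSeries A)
    (hEJfix : ∀ σ ∈ A.inertiaSubgroupIn ℚ, σ ζ = ζ →
      coeffMap ((σ : Qb ≃ₐ[ℚ] Qb) : Qb →+* Qb) (E (h59_jbar N)) = E (h59_jbar N))
    (hEJN : E (h69_jN N) ∈ h31_intSeries A)
    (f : ↥(modularFunctionFieldBar N)) (hf0 : f ≠ 0)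
    (hEf : ∀ σ ∈ A.inertiaSubgroupIn ℚ, σ ζ = ζ →
      coeffMap ((σ : Qb ≃ₐ[ℚ] Qb) : Qb →+* Qb) (E f) = E f) :
    ∃ n : ℤ, h98_GV A (ζ - 1) (E f) n := by
  have hp : p.Prime := Fact.out
  have hζ0 := h8_zeta_sub_one_ne p ζ hζ
  refine h88_scale_emb N A (ζ - 1) (h88_inv_not_mem A hζ0 (h88_val_zeta_lt_one p A hA ζ hζ))
    (h88_bdd_const_zeta p A hA ζ hζ) {σ | σ ∈ A.inertiaSubgroupIn ℚ ∧ σ ζ = ζ} ?_ E hEC hEJ
    (fun σ hσ => hEJfix σ hσ.1 hσ.2) hEJN f hf0 (fun σ hσ => hEf σ hσ.1 hσ.2)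
  intro c hc hc0
  have hc' : ∀ σ ∈ A.inertiaSubgroupIn ℚ, σ ζ = ζ → σ c = c := fun σ hσ hσζ => hc σ ⟨hσ, hσζ⟩
  by_cases hp2 : p = 2
  · -- `ζ = -1`, `ζ - 1 = -2`
    have hζ2 : ζ = -1 := by
      have h1 : ζ ^ 2 = 1 := by rw [← hp2]; exact hζ.pow_eq_one
      have h2 : ζ ≠ 1 := hζ.ne_one hp.one_lt
      have h3 : (ζ - 1) * (ζ + 1) = 0 := by ring_nf; rw [h1]; ring
      rcases mul_eq_zero.1 h3 with h | h
      · exact absurd (sub_eq_zero.1 h) h2
      · exact eq_neg_of_add_eq_zero_left h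
    have hfix : ∀ σ ∈ A.inertiaSubgroupIn ℚ, σ c = c := by
      intro σ hσ
      refine hc' σ hσ ?_
      rw [hζ2, map_neg, map_one]
    obtain ⟨m, u, hu, hu', h⟩ := h8_unr_unit p A hA c hc0 hfix
    have hm1 : ((-1 : Qb)) ^ m ∈ A ∧ (((-1 : Qb)) ^ m)⁻¹ ∈ A := by
      rcases Int.even_or_odd m with he | ho
      · rw [Even.neg_one_zpow he]
        exact ⟨A.one_mem, by rw [inv_one]; exact A.one_mem⟩
      · rw [Odd.neg_one_zpow ho]
        exact ⟨A.neg_mem _ A.one_mem, by rw [inv_neg, inv_one]; exact A.neg_mem _ A.one_mem⟩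
    refine ⟨m, (-1 : Qb) ^ m * u, A.mul_mem _ _ hm1.1 hu, ?_, ?_⟩
    · rw [mul_inv]
      exact A.mul_mem _ _ hm1.2 hu'
    · have h4 : ζ - 1 = (-1 : Qb) * (p : Qb) := by rw [hζ2, hp2]; push_cast; ring
      rw [h, h4, mul_zpow]
      have h5 : (-1 : Qb) ^ m * (-1 : Qb) ^ m = 1 := by
        rw [← mul_zpow]; norm_num
      linear_combination (-(p : Qb) ^ m * u) * h5
  · obtain ⟨n, u, hu, hu', h⟩ := h8_tame_unit p hp2 A hA ζ hζ c hc0 hc'
    exact ⟨n, u, hu, hu', h⟩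

/-- **(SCALE) for the expansion at `∞`**: an inertia-fixed function `f ≠ 0` of any level has a
`p`-adic Gauss valuation. -/
theorem h88_scale_coe (N : ℕ) [NeZero N] (A : ValuationSubring Qb) (hA : A.LiesOverPrime p)
    (f : ↥(modularFunctionFieldBar N)) (hf0 : f ≠ 0)
    (hf : f ∈ h69_F0 N (A.inertiaSubgroupIn ℚ)) :
    ∃ n : ℤ, h98_GV A (p : Qb) (f : LaurentSeries Qb) n := by
  have hJ : jqModC Qb ∈ h31_intSeries A := by
    rw [← coeffMap_jqModC (R := ↥A) (S := Qb) A.subtype]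
    exact h31_coeffMap_mem A _
  have hJN : qExpand Qb N (jqModC Qb) ∈ h31_intSeries A := by
    rw [← coeffMap_jqModC (R := ↥A) (S := Qb) A.subtype, ← coeffMap_qExpand]
    exact h31_coeffMap_mem A _
  refine h88_scale_unr p N A hA (modularFunctionFieldBar N).val.toRingHom (fun c => rfl)
    (by show ((h59_jbar N : ↥(modularFunctionFieldBar N)) : LaurentSeries Qb) ∈ _
        rw [h69_coe_jbar]; exact hJ)
    (fun σ _ => by
      show coeffMap ((σ : Qb ≃ₐ[ℚ] Qb) : Qb →+* Qb)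
          ((h59_jbar N : ↥(modularFunctionFieldBar N)) : LaurentSeries Qb)
        = ((h59_jbar N : ↥(modularFunctionFieldBar N)) : LaurentSeries Qb)
      rw [h69_coe_jbar]; exact coeffMap_jqModC (R := Qb) (S := Qb) _)
    (by show ((h69_jN N : ↥(modularFunctionFieldBar N)) : LaurentSeries Qb) ∈ _
        rw [h69_coe_jN]; exact hJN)
    f hf0 (fun σ hσ => ?_)
  have h1 := (h69_mem_F0 N _ f).1 hf σ hσ
  have h2 := coe_arithmeticGalois_smul (F₀ := modularFunctionFieldFull N) σ f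
  rw [h1] at h2
  exact h2.symm

end inst

end Fermat.Agent.S36
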