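import Mathlib
import Fermat.Agent.S36.h65_HorInt
import Fermat.Agent.S36.h98_W2

/-!
# S36 / I-FAM (NOETH) at level `N` by pull-back from level `N q` (helper88)

`A` a valuation subring of `ℚ̄` over `q`, `I` its inertia group, `K₀ = h69_K0 I`, `A₀ = h69_A0 A`;
`V₁ := h80_fam1 N I w₁ ..`, `V₂ := h80_fam1 (N * q) I w₂ ..`, `α := h70_aF0 N q I`.

If every element of the chart ring `V₂.B` of level `N q` is integral over `A₀[j]`, then so is every
element of the chart ring `V₁.B` of level `N`: `α` maps `V₁.B` into `V₂.B` (`h65_hc_mem_a`),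
fixes the constants and `j`, and is injective, so the same monic polynomial works.  The chart ring
`V₁.B` is then noetherian by `h97_noeth`.  No vertical integrality statement (`hvert` of
`h80_famOf_noeth`) is needed at level `N`.

* `h88_ev_pull` : the converse of `h65_ev_map`;
* `h88_int_pull` : integrality over `A₀[j]` at level `N` from level `N q`;
* `h88_noeth_pull` : the two conclusions of `h80_famOf_noeth` at level `N` from the second one at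
  level `N q`.
-/

set_option autoImplicit false
set_option linter.unusedSectionVars false
set_option linter.style.haveILetI false

noncomputable section

open AlgebraicCurve ModularCurve Polynomial

namespace Fermat.Agent.S36

open Fermat.Agent.S18 Fermat.Agent.S24 Fermat.Agent.S27 Fermat.Agent.S34 Fermat.Agent.S37
open Fermat.Agent.S19

local notation "Qb" => AlgebraicClosure ℚ

section Generic

variable {K0 F₁ F₂ : Type*} [Field K0] [Field F₁] [Field F₂] [Algebra K0 F₁] [Algebra K0 F₂]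

/-- Integrality over `A₀[x]` is reflected by a ring homomorphism of fields fixing the
constants (converse of `h65_ev_map`). -/
theorem h88_ev_pull (A0 : Subring K0) (σ : F₁ →+* F₂)
    (hσ : ∀ a : K0, σ (algebraMap K0 F₁ a) = algebraMap K0 F₂ a) (x f : F₁)
    (hf : (h97_ev A0 (σ x)).IsIntegralElem (σ f)) : (h97_ev A0 x).IsIntegralElem f := by
  obtain ⟨p, hp, hpf⟩ := hf
  refine ⟨p, hp, ?_⟩
  have hcomp : σ.comp (h97_ev A0 x) = h97_ev A0 (σ x) := by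
    apply Polynomial.ringHom_ext
    · intro a
      rw [RingHom.comp_apply, h97_ev_C, h97_ev_C, hσ]
    · rw [RingHom.comp_apply, h97_ev_X, h97_ev_X]
  rw [← hcomp, ← Polynomial.hom_eval₂] at hpf
  exact σ.injective (by rw [hpf, map_zero])

end Generic

section Pull

variable (N q : ℕ) [NeZero N] [NeZero q] (A : ValuationSubring Qb)
variable {κ₁ κ₂ : Type*} [Finite κ₁] [Finite κ₂]
  (w₁ : κ₁ → h69_F0 N (A.inertiaSubgroupIn ℚ) → ℤ)
  (hw₁m : ∀ c (f g : h69_F0 N (A.inertiaSubgroupIn ℚ)), f ≠ 0 → g ≠ 0 →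
    w₁ c (f * g) = w₁ c f + w₁ c g)
  (hw₁a : ∀ c (f g : h69_F0 N (A.inertiaSubgroupIn ℚ)), f ≠ 0 → g ≠ 0 → f + g ≠ 0 →
    min (w₁ c f) (w₁ c g) ≤ w₁ c (f + g))
  (w₂ : κ₂ → h69_F0 (N * q) (A.inertiaSubgroupIn ℚ) → ℤ)
  (hw₂m : ∀ c (f g : h69_F0 (N * q) (A.inertiaSubgroupIn ℚ)), f ≠ 0 → g ≠ 0 →
    w₂ c (f * g) = w₂ c f + w₂ c g)
  (hw₂a : ∀ c (f g : h69_F0 (N * q) (A.inertiaSubgroupIn ℚ)), f ≠ 0 → g ≠ 0 → f + g ≠ 0 →
    min (w₂ c f) (w₂ c g) ≤ w₂ c (f + g))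

local notation "V₁" => h80_fam1 N (A.inertiaSubgroupIn ℚ) w₁ hw₁m hw₁a
local notation "V₂" => h80_fam1 (N * q) (A.inertiaSubgroupIn ℚ) w₂ hw₂m hw₂a

/-- **Integrality over `A₀[j]` pulls back along `α`**: `hvt` is the vertical table along `α`
(the binder of `h65_hc_mem_a`), `hint₂` the second conclusion of `h80_famOf_noeth` at level
`N q`. -/
theorem h88_int_pull
    (hvt : ∀ c : κ₂, ∃ (c₁ : κ₁) (e : ℤ), 0 ≤ e ∧
      ∀ g : h69_F0 N (A.inertiaSubgroupIn ℚ), g ≠ 0 →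
        w₂ c (h70_aF0 N q (A.inertiaSubgroupIn ℚ) g) = e * w₁ c₁ g)
    (hint₂ : ∀ f ∈ (V₂).B, (h97_ev (h69_A0 A).toSubring
      (h65_J0 (N * q) (A.inertiaSubgroupIn ℚ))).IsIntegralElem f)
    (f : h69_F0 N (A.inertiaSubgroupIn ℚ)) (hf : f ∈ (V₁).B) :
    (h97_ev (h69_A0 A).toSubring (h65_J0 N (A.inertiaSubgroupIn ℚ))).IsIntegralElem f := by
  have h1 := hint₂ _ (h65_hc_mem_a N q (A.inertiaSubgroupIn ℚ) w₁ hw₁m hw₁a w₂ hw₂m hw₂a hvt f hf)
  rw [← h65_aF0_J0 N q (A.inertiaSubgroupIn ℚ)] at h1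
  exact h88_ev_pull (h69_A0 A).toSubring (h70_aF0 N q (A.inertiaSubgroupIn ℚ))
    (h65_aF0_const N q (A.inertiaSubgroupIn ℚ)) _ _ h1

/-- **(NOETH) at level `N` from the integrality at level `N q`**: the two conclusions of
`h80_famOf_noeth` for the chart-1 family of level `N`, with no `hvert` at level `N`. -/
theorem h88_noeth_pull {p : ℕ} [Fact p.Prime] (hA : A.LiesOverPrime p)
    (hvt : ∀ c : κ₂, ∃ (c₁ : κ₁) (e : ℤ), 0 ≤ e ∧
      ∀ g : h69_F0 N (A.inertiaSubgroupIn ℚ), g ≠ 0 →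
        w₂ c (h70_aF0 N q (A.inertiaSubgroupIn ℚ) g) = e * w₁ c₁ g)
    (hwA₁ : ∀ c (a : h69_K0 (A.inertiaSubgroupIn ℚ)), a ∈ h69_A0 A → a ≠ 0 →
      0 ≤ w₁ c (algebraMap (h69_K0 (A.inertiaSubgroupIn ℚ))
        (h69_F0 N (A.inertiaSubgroupIn ℚ)) a))
    (hwx₁ : ∀ c, 0 ≤ w₁ c (h65_J0 N (A.inertiaSubgroupIn ℚ)))
    (hint₂ : ∀ f ∈ (V₂).B, (h97_ev (h69_A0 A).toSubring
      (h65_J0 (N * q) (A.inertiaSubgroupIn ℚ))).IsIntegralElem f) :
    IsNoetherianRing (V₁).B ∧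
      ∀ f ∈ (V₁).B,
        (h97_ev (h69_A0 A).toSubring (h65_J0 N (A.inertiaSubgroupIn ℚ))).IsIntegralElem f := by
  have hint : ∀ f ∈ (V₁).B,
      (h97_ev (h69_A0 A).toSubring (h65_J0 N (A.inertiaSubgroupIn ℚ))).IsIntegralElem f :=
    h88_int_pull N q A w₁ hw₁m hw₁a w₂ hw₂m hw₂a hvt hint₂
  haveI hdvr : IsDiscreteValuationRing (h69_A0 A).toSubring := h69_A0_isDVR p A hA
  haveI hfr : IsFractionRing (h69_A0 A).toSubring (h69_K0 (A.inertiaSubgroupIn ℚ)) :=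
    inferInstanceAs (IsFractionRing (h69_A0 A) (h69_K0 (A.inertiaSubgroupIn ℚ)))
  haveI : CharZero (h69_K0 (A.inertiaSubgroupIn ℚ)) :=
    charZero_of_injective_algebraMap (algebraMap ℚ (h69_K0 (A.inertiaSubgroupIn ℚ))).injective
  have hx0 : Transcendental (h69_K0 (A.inertiaSubgroupIn ℚ)) (h65_J0 N (A.inertiaSubgroupIn ℚ)) :=
    h69_inst_transcendental N (A.inertiaSubgroupIn ℚ) (h65_J0 N (A.inertiaSubgroupIn ℚ))
      (h54_isChart_jbar N).tr
  haveI := h69_inst_finite_of_chart N (A.inertiaSubgroupIn ℚ) (h65_J0 N (A.inertiaSubgroupIn ℚ))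
    (h54_isChart_jbar N)
  refine ⟨h97_noeth (h69_A0 A).toSubring (h65_J0 N (A.inertiaSubgroupIn ℚ)) hx0 _ ?_ ?_ hint,
    hint⟩
  · intro a
    exact h65_const_mem_fam1 N A w₁ hw₁m hw₁a hwA₁ a a.2
  · exact h65_J0_mem_fam1 N A w₁ hw₁m hw₁a hwx₁

end Pull

/-! ### The instance for the vertical valuations `h98_w1` (level `M q`), `h98_w2` (level `M q²`) -/

section Inst

variable (M q : ℕ) [NeZero M] [NeZero q] [Fact q.Prime] (hqM : ¬ q ∣ M)
  (A : ValuationSubring Qb) (hA : A.LiesOverPrime q) (ζ : Qb) (hζ : IsPrimitiveRoot ζ q)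
  (hex : h98_Ex M q hqM A ζ hζ)

include hA in
/-- The vertical table along `α` for `(h98_w1, h98_w2)`, in the binder shape `hvt` of
`h65_hc_mem_a`. -/
theorem h88_hvt_w98 : ∀ c : Fin 3, ∃ (c₁ : Fin 2) (e : ℤ), 0 ≤ e ∧
    ∀ g : h69_F0 (M * q) (A.inertiaSubgroupIn ℚ), g ≠ 0 →
      h98_w2 M q hqM A ζ hζ hex c (h70_aF0 (M * q) q (A.inertiaSubgroupIn ℚ) g) =
        e * h98_w1 M q hqM A ζ hζ hex c₁ g := by
  have hq1 : (0 : ℤ) ≤ (q : ℤ) - 1 := by
    have := (Fact.out : q.Prime).one_le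
    omega
  intro c
  fin_cases c
  · exact ⟨0, 1, zero_le_one, fun g hg => by
      rw [one_mul]; exact h98_hV0a0 M q hqM A hA ζ hζ hex g hg⟩
  · exact ⟨0, (q : ℤ) - 1, hq1, fun g hg => h98_hV0a1 M q hqM A hA ζ hζ hex g hg⟩
  · exact ⟨1, 1, zero_le_one, fun g hg => by
      rw [one_mul]; exact h98_hV0a2 M q hqM A hA ζ hζ hex g hg⟩

/-- **(NOETH) for the chart-1 family of level `M q`** (vertical valuations `h98_w1`), from the
integrality at level `M q²` (second conclusion of `h80_famOf_noeth` for `h98_w2`) and the values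
of `h98_w1` on the constants of `A₀` and on `j`. -/
theorem h88_noeth_q
    (hwA₁ : ∀ c (a : h69_K0 (A.inertiaSubgroupIn ℚ)), a ∈ h69_A0 A → a ≠ 0 →
      0 ≤ h98_w1 M q hqM A ζ hζ hex c (algebraMap (h69_K0 (A.inertiaSubgroupIn ℚ))
        (h69_F0 (M * q) (A.inertiaSubgroupIn ℚ)) a))
    (hwx₁ : ∀ c, 0 ≤ h98_w1 M q hqM A ζ hζ hex c (h65_J0 (M * q) (A.inertiaSubgroupIn ℚ)))
    (hint₂ : ∀ f ∈ (h80_fam1 (M * q * q) (A.inertiaSubgroupIn ℚ) (h98_w2 M q hqM A ζ hζ hex)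
        (h98_hw2mul M q hqM A hA ζ hζ hex) (h98_hw2add M q hqM A hA ζ hζ hex)).B,
      (h97_ev (h69_A0 A).toSubring
        (h65_J0 (M * q * q) (A.inertiaSubgroupIn ℚ))).IsIntegralElem f) :
    IsNoetherianRing (h80_fam1 (M * q) (A.inertiaSubgroupIn ℚ) (h98_w1 M q hqM A ζ hζ hex)
        (h98_hw1mul M q hqM A hA ζ hζ hex) (h98_hw1add M q hqM A hA ζ hζ hex)).B ∧
      ∀ f ∈ (h80_fam1 (M * q) (A.inertiaSubgroupIn ℚ) (h98_w1 M q hqM A ζ hζ hex)
        (h98_hw1mul M q hqM A hA ζ hζ hex) (h98_hw1add M q hqM A hA ζ hζ hex)).B,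
        (h97_ev (h69_A0 A).toSubring
          (h65_J0 (M * q) (A.inertiaSubgroupIn ℚ))).IsIntegralElem f :=
  h88_noeth_pull (M * q) q A (h98_w1 M q hqM A ζ hζ hex) (h98_hw1mul M q hqM A hA ζ hζ hex)
    (h98_hw1add M q hqM A hA ζ hζ hex) (h98_w2 M q hqM A ζ hζ hex)
    (h98_hw2mul M q hqM A hA ζ hζ hex) (h98_hw2add M q hqM A hA ζ hζ hex) hA
    (h88_hvt_w98 M q hqM A hA ζ hζ hex) hwA₁ hwx₁ hint₂

end Inst

end Fermat.Agent.S36
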