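import Fermat.Agent.S36.h99_FundEq

/-!
# S36 / row VAL : the residue families span (helper88)

In the setting of `h99_FundEq` (fundamental equality `n ≤ ∑ e c * f c` for the valuations `w c`
over the "DVR" `R` with uniformiser `π`), the `f c₀` elements `b c₀ j` span the residue field of
`w c₀` over the residue field of `R`:

* `h88_res_span` : every `y` with `0 ≤ w c₀ y` is congruent modulo `{w c₀ > 0}` to an `R`-linear
  combination of the `b c₀ j`;
* `h88_res_one`  : if the `b c₀ j` come from `R` (e.g. `f c₀ = 1`, `b c₀ = 1`), then `y` is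
  congruent to an element of `R`  (residue degree one: (V1), (V2) of row TOR).
-/

set_option autoImplicit false

namespace Fermat.Agent.S36

section h88res

variable {R : Type*} [CommRing R] [IsDomain R] {F : Type*} [Field F] [Algebra R F]
  {κ : Type*} [Fintype κ]

omit [IsDomain R] [Fintype κ] in
/-- A unit of `R` has valuation `0`. -/
theorem h88_w_unit {w : F → ℤ} (hw : h99_IsVal w)
    (hR : ∀ r : R, algebraMap R F r ≠ 0 → 0 ≤ w (algebraMap R F r)) (u : Rˣ) :
    algebraMap R F (u : R) ≠ 0 ∧ w (algebraMap R F (u : R)) = 0 := by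
  have h1 : algebraMap R F (u : R) * algebraMap R F ((u⁻¹ : Rˣ) : R) = 1 := by
    rw [← map_mul, Units.mul_inv, map_one]
  have hu0 : algebraMap R F (u : R) ≠ 0 := left_ne_zero_of_mul_eq_one h1
  have hu0' : algebraMap R F ((u⁻¹ : Rˣ) : R) ≠ 0 := right_ne_zero_of_mul_eq_one h1
  have h2 := hw.map_mul _ _ hu0 hu0'
  rw [h1, h99_w_one hw] at h2
  have h3 := hR _ hu0
  have h4 := hR _ hu0'
  exact ⟨hu0, by omega⟩

omit [IsDomain R] [Fintype κ] in
/-- A non-unit of `R` has valuation `≥ e` (or is zero). -/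
theorem h88_ge_nonunit {w : F → ℤ} (hw : h99_IsVal w)
    (hR : ∀ r : R, algebraMap R F r ≠ 0 → 0 ≤ w (algebraMap R F r))
    (π : R) (hDVR : ∀ r : R, r ≠ 0 → ∃ (k : ℕ) (u : Rˣ), r = π ^ k * u)
    (e : ℕ) (he : w (algebraMap R F π) = e) (ρ : R) (hρ : ¬ IsUnit ρ) :
    h99_Ge w e (algebraMap R F ρ) := by
  by_cases hρ0 : ρ = 0
  · left; rw [hρ0, map_zero]
  obtain ⟨k, u, hku⟩ := hDVR ρ hρ0
  have hk : k ≠ 0 := by
    rintro rfl
    apply hρ
    rw [hku, pow_zero, one_mul]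
    exact u.isUnit
  obtain ⟨k', rfl⟩ := Nat.exists_eq_succ_of_ne_zero hk
  by_cases h0 : algebraMap R F ρ = 0
  · exact Or.inl h0
  have hπ : h99_Ge w e (algebraMap R F π) := by
    by_cases h : algebraMap R F π = 0
    · exact Or.inl h
    · exact Or.inr he.ge
  have hrest : h99_Ge w 0 (algebraMap R F (π ^ k' * u)) := by
    by_cases h : algebraMap R F (π ^ k' * u) = 0
    · exact Or.inl h
    · exact Or.inr (hR _ h)
  have h := h99_ge_mul hw hπ hrest
  rw [← map_mul, add_zero] at h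
  have h2 : π * (π ^ k' * ↑u) = ρ := by rw [hku, pow_succ]; ring
  rwa [h2] at h

/-- **(RES-SPAN)**: under the fundamental equality, the residue family `b c₀` spans the residue
field of `w c₀` over that of `R`. -/
theorem h88_res_span (w : κ → F → ℤ) (hw : ∀ c, h99_IsVal (w c))
    (hinj : Function.Injective (algebraMap R F))
    (hR : ∀ c (r : R), algebraMap R F r ≠ 0 → 0 ≤ w c (algebraMap R F r))
    (π : R) (hπ0 : π ≠ 0) (hπu : ¬ IsUnit π)
    (hDVR : ∀ r : R, r ≠ 0 → ∃ (k : ℕ) (u : Rˣ), r = π ^ k * u)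
    (e : κ → ℕ) (he : ∀ c, w c (algebraMap R F π) = e c)
    (hnorm : ∀ c, ∃ z : F, z ≠ 0 ∧ w c z = 1)
    (hne : ∀ c c', c ≠ c' → ∃ g : F, g ≠ 0 ∧ w c g ≠ w c' g)
    (f : κ → ℕ) (b : (c : κ) → Fin (f c) → F)
    (hb : ∀ c (r : Fin (f c) → R), (∃ j, IsUnit (r j)) →
      ∑ j, r j • b c j ≠ 0 ∧ w c (∑ j, r j • b c j) = 0)
    (n : ℕ) (hrank : Module.rank R F ≤ n) (hn : n ≤ ∑ c, e c * f c)
    (c₀ : κ) (he₀ : 0 < e c₀) (y : F) (hy : h99_Ge (w c₀) 0 y) :
    ∃ r : Fin (f c₀) → R, h99_Ge (w c₀) 1 (y - ∑ j, r j • b c₀ j) := by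
  classical
  by_contra hcon
  have hcon' : ∀ r : Fin (f c₀) → R, y - ∑ j, r j • b c₀ j ≠ 0 ∧
      w c₀ (y - ∑ j, r j • b c₀ j) = 0 := by
    intro r
    have h1 : ¬ h99_Ge (w c₀) 1 (y - ∑ j, r j • b c₀ j) := fun h => hcon ⟨r, h⟩
    have h2 : y - ∑ j, r j • b c₀ j ≠ 0 := fun h => h1 (Or.inl h)
    have h3 : ¬ (1 ≤ w c₀ (y - ∑ j, r j • b c₀ j)) := fun h => h1 (Or.inr h)
    have hb0 : ∀ j, h99_Ge (w c₀) 0 (b c₀ j) := by
      intro j
      have h := hb c₀ (Pi.single j 1) ⟨j, by simp⟩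
      have h4 : ∑ j', (Pi.single j (1 : R) : Fin (f c₀) → R) j' • b c₀ j' = b c₀ j := by
        rw [Finset.sum_eq_single j]
        · simp
        · intro j' _ hj'; simp [Pi.single_eq_of_ne hj']
        · intro hj; exact absurd (Finset.mem_univ j) hj
      rw [h4] at h
      exact Or.inr h.2.ge
    have h5 : h99_Ge (w c₀) 0 (∑ j, r j • b c₀ j) := by
      refine h99_ge_sum (hw c₀) _ _ fun j _ => ?_
      rw [Algebra.smul_def]
      have := h99_ge_mul (hw c₀) (h99_ge_algebraMap w hR c₀ (r j)) (hb0 j)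
      simpa using this
    have h6 := (h99_ge_add (hw c₀) hy (h99_ge_neg (hw c₀) h5)).resolve_left
      (by rw [← sub_eq_add_neg]; exact h2)
    rw [← sub_eq_add_neg] at h6
    exact ⟨h2, by omega⟩
  -- the enlarged family
  let f' : κ → ℕ := fun c => f c + (if c = c₀ then 1 else 0)
  let b' : (c : κ) → Fin (f' c) → F := fun c j =>
    if h : (j : ℕ) < f c then b c ⟨j, h⟩ else y
  have key : ∀ (c : κ) (d : ℕ) (_ : d = if c = c₀ then 1 else 0) (r' : Fin (f c + d) → R),
      (∃ j, IsUnit (r' j)) →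
      ∑ j : Fin (f c + d), r' j • (if h : (j : ℕ) < f c then b c ⟨j, h⟩ else y) ≠ 0 ∧
      w c (∑ j : Fin (f c + d), r' j • (if h : (j : ℕ) < f c then b c ⟨j, h⟩ else y)) = 0 := by
    intro c d hd r' hr'
    have hsplit : ∑ j : Fin (f c + d), r' j • (if h : (j : ℕ) < f c then b c ⟨j, h⟩ else y)
        = ∑ j : Fin (f c), r' (Fin.castAdd d j) • b c j
          + ∑ j : Fin d, r' (Fin.natAdd (f c) j) • y := by
      rw [Fin.sum_univ_add]
      congr 1
      · refine Finset.sum_congr rfl fun j _ => ?_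
        simp
      · refine Finset.sum_congr rfl fun j _ => ?_
        simp
    rw [hsplit]
    by_cases hc : c = c₀
    · subst hc
      rw [if_pos rfl] at hd
      subst hd
      rw [Fin.sum_univ_one]
      set ρ : R := r' (Fin.natAdd (f c) 0) with hρ
      set s : Fin (f c) → R := fun j => r' (Fin.castAdd 1 j) with hs
      by_cases hρu : IsUnit ρ
      · obtain ⟨u, hu⟩ := hρu
        have hu' := h88_w_unit (hw c) (hR c) u
        rw [hu] at hu'
        have h1 := hcon' (fun j => -(((u⁻¹ : Rˣ) : R) * s j))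
        have h2 : ∑ j, s j • b c j + ρ • y
            = algebraMap R F ρ * (y - ∑ j, (-(((u⁻¹ : Rˣ) : R) * s j)) • b c j) := by
          have h3 : ∀ j, (-(((u⁻¹ : Rˣ) : R) * s j)) • b c j
              = -(algebraMap R F ((u⁻¹ : Rˣ) : R) * (s j • b c j)) := by
            intro j
            rw [Algebra.smul_def, Algebra.smul_def, map_neg, map_mul]
            ring
          rw [Finset.sum_congr rfl fun j _ => h3 j, Finset.sum_neg_distrib, sub_neg_eq_add,
            ← Finset.mul_sum, mul_add, ← mul_assoc, ← map_mul, ← hu, Units.mul_inv, map_one,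
            one_mul, Algebra.smul_def, add_comm]
        rw [h2]
        refine ⟨mul_ne_zero hu'.1 h1.1, ?_⟩
        rw [(hw c).map_mul _ _ hu'.1 h1.1, hu'.2, h1.2, add_zero]
      · have hsu : ∃ j, IsUnit (s j) := by
          obtain ⟨j, hj⟩ := hr'
          refine Fin.addCases (fun j' hj' => ⟨j', hj'⟩) (fun j' hj' => ?_) j hj
          exact absurd (by rwa [Subsingleton.elim j' 0] at hj') hρu
        have h1 := hb c s hsu
        have h2 : h99_Ge (w c) (w c (∑ j, s j • b c j) + 1) (ρ • y) := by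
          rw [h1.2, Algebra.smul_def]
          have h3 := h99_ge_mul (hw c) (h88_ge_nonunit (hw c) (hR c) π hDVR (e c) (he c) ρ hρu) hy
          exact h3.mono (by omega)
        have h3 := h99_w_add_eq (hw c) h1.1 h2
        exact ⟨h3.1, h3.2.trans h1.2⟩
    · rw [if_neg hc] at hd
      subst hd
      rw [Fin.sum_univ_zero, add_zero]
      refine hb c _ ?_
      obtain ⟨j, hj⟩ := hr'
      exact Fin.addCases (fun j' hj' => ⟨j', hj'⟩) (fun j' _ => j'.elim0) j hj
  have hb' : ∀ c (r : Fin (f' c) → R), (∃ j, IsUnit (r j)) →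
      ∑ j, r j • b' c j ≠ 0 ∧ w c (∑ j, r j • b' c j) = 0 :=
    fun c r hr => key c _ rfl r hr
  have hsum : ∑ c, e c * f' c = ∑ c, e c * f c + e c₀ := by
    simp only [f', mul_add, Finset.sum_add_distrib, mul_ite, mul_one, mul_zero,
      Finset.sum_ite_eq', Finset.mem_univ, if_true]
  have h1 := h99_sum_ef_eq w hw hinj hR π hπ0 hπu hDVR e he hnorm hne f b hb n hrank hn
  have h2 := h99_sum_ef_eq w hw hinj hR π hπ0 hπu hDVR e he hnorm hne f' b' hb' n hrank
    (by rw [hsum]; omega)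
  omega

/-- **(RES-ONE)**: residue degree one.  If the residue family at `c₀` consists of elements of `R`
(e.g. `f c₀ = 1` and `b c₀ = 1`), every `y` with `0 ≤ w c₀ y` is congruent to an element of `R`
modulo `{w c₀ > 0}`. -/
theorem h88_res_one (w : κ → F → ℤ) (hw : ∀ c, h99_IsVal (w c))
    (hinj : Function.Injective (algebraMap R F))
    (hR : ∀ c (r : R), algebraMap R F r ≠ 0 → 0 ≤ w c (algebraMap R F r))
    (π : R) (hπ0 : π ≠ 0) (hπu : ¬ IsUnit π)
    (hDVR : ∀ r : R, r ≠ 0 → ∃ (k : ℕ) (u : Rˣ), r = π ^ k * u)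
    (e : κ → ℕ) (he : ∀ c, w c (algebraMap R F π) = e c)
    (hnorm : ∀ c, ∃ z : F, z ≠ 0 ∧ w c z = 1)
    (hne : ∀ c c', c ≠ c' → ∃ g : F, g ≠ 0 ∧ w c g ≠ w c' g)
    (f : κ → ℕ) (b : (c : κ) → Fin (f c) → F)
    (hb : ∀ c (r : Fin (f c) → R), (∃ j, IsUnit (r j)) →
      ∑ j, r j • b c j ≠ 0 ∧ w c (∑ j, r j • b c j) = 0)
    (n : ℕ) (hrank : Module.rank R F ≤ n) (hn : n ≤ ∑ c, e c * f c)
    (c₀ : κ) (he₀ : 0 < e c₀) (hb₀ : ∀ j, ∃ s : R, b c₀ j = algebraMap R F s)
    (y : F) (hy : h99_Ge (w c₀) 0 y) :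
    ∃ r : R, h99_Ge (w c₀) 1 (y - algebraMap R F r) := by
  obtain ⟨r, hr⟩ := h88_res_span w hw hinj hR π hπ0 hπu hDVR e he hnorm hne f b hb n hrank hn
    c₀ he₀ y hy
  choose s hs using hb₀
  refine ⟨∑ j, r j * s j, ?_⟩
  have h1 : ∑ j, r j • b c₀ j = algebraMap R F (∑ j, r j * s j) := by
    rw [map_sum]
    refine Finset.sum_congr rfl fun j _ => ?_
    rw [hs j, Algebra.smul_def, map_mul]
  rwa [h1] at hr

end h88res

end Fermat.Agent.S36
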