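/-
S36 / (UNR-F0), (SEP-F0) at the modular levels (helper89).

For an arbitrary subgroup `H` of `Gal(ℚ̄/ℚ)` (in the application the inertia group of `A`),
an `H`-invariant chart function `x` of `F̄(N)` with polar divisor `D0`, and a place `P` of the
chart `{x finite}`:

* there is an `H`-invariant function, regular on the chart, with a simple zero at `P`;
* for every chart place `P'` outside the `H`-orbit of `P` there is an `H`-invariant function,
  regular on the chart, vanishing at `P` and not at `P'`.

Inputs: vector-space descent `h69_rr_span_fixed` (K3), finiteness of Galois orbits of places,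
and the generic `h89_inv_chart_of_orbit`.
-/
import Fermat.Agent.S36.h89_InvOrbit
import Fermat.Agent.S36.h69_Rat

set_option autoImplicit false

namespace Fermat.Agent.S36

open AlgebraicCurve ModularCurve Fermat.Agent.S18

local notation "Qb" => AlgebraicClosure ℚ

/-- **(UNR-F0) and (SEP-F0) at level `N`.** -/
theorem h89_unr_sep_modular (N : ℕ) [NeZero N] (H : Subgroup (Qb ≃ₐ[ℚ] Qb))
    {x : modularFunctionFieldBar N} (hx : h75_IsChart Qb x)
    (hxH : ∀ σ ∈ H, arithmeticGalois (modularFunctionFieldFull N) σ • x = x)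
    (D0 : Divisor Qb (modularFunctionFieldBar N))
    (hD0 : ∀ v : Place Qb (modularFunctionFieldBar N), D0 v = max 0 (-v.ord x))
    (P : Place Qb (modularFunctionFieldBar N)) (hP : 0 ≤ P.ord x) :
    (∃ t : modularFunctionFieldBar N,
        (∀ σ ∈ H, arithmeticGalois (modularFunctionFieldFull N) σ • t = t) ∧ t ≠ 0 ∧
        (∀ Q : Place Qb (modularFunctionFieldBar N), 0 ≤ Q.ord x → 0 ≤ Q.ord t) ∧
        P.ord t = 1) ∧
      ∀ P' : Place Qb (modularFunctionFieldBar N), 0 ≤ P'.ord x →
        (∀ σ ∈ H, arithmeticGalois (modularFunctionFieldFull N) σ • P ≠ P') →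
        ∃ g : modularFunctionFieldBar N,
          (∀ σ ∈ H, arithmeticGalois (modularFunctionFieldFull N) σ • g = g) ∧ g ≠ 0 ∧
          (∀ Q : Place Qb (modularFunctionFieldBar N), 0 ≤ Q.ord x → 0 ≤ Q.ord g) ∧
          1 ≤ P.ord g ∧ P'.ord g = 0 := by
  refine h89_inv_chart_of_orbit (arithmeticGalois (modularFunctionFieldFull N)) H hx hxH D0 hD0
    ?_ P hP (h89_orbit_finite_modular N H P)
  intro D hD f hf
  have h := h69_rr_span_fixed N H D hD
  have hset : {g : modularFunctionFieldBar N | g ∈ riemannRochSpace D ∧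
        ∀ σ ∈ H, arithmeticGalois (modularFunctionFieldFull N) σ • g = g} =
      {t : modularFunctionFieldBar N |
        ∀ σ ∈ H, arithmeticGalois (modularFunctionFieldFull N) σ • t = t} ∩
        (riemannRochSpace D : Set (modularFunctionFieldBar N)) := by
    ext g
    constructor
    · rintro ⟨h1, h2⟩
      exact ⟨h2, h1⟩
    · rintro ⟨h1, h2⟩
      exact ⟨h2, h1⟩
  rw [← hset, h]
  exact hf

end Fermat.Agent.S36
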