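/-
S36 / (L1-TUBE), generic core (helper89).  Mathlib only.

`F` is the function field of the generic fibre, `ι` the set of its places off the chart divisor
`D0` with the order function `ord : ι → F → ℤ`, `Lam0` the rational chart ring (functions regular
on the chart with integral reduction), `B` the local ring of the model at a closed point `y` of
the special fibre, mapped into `F` by `φ`, and `q : B` the uniformiser of the base.

The *tube* of `y` is the set of places `P` such that every element of `Lam0` vanishing at `P` is a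
non-unit of `B`.  Assuming that `B` is factorial and that every prime ideal of `B` without `q` is
principal (PID-lift), we prove

* `h89_zero` : a prime element of `B` not dividing `q` vanishes at a place of the tube;
* `h89_hartogs` : divisibility in `B` is read off the orders on the tube (for elements without
  vertical prime factors);
* `h89_root` : extraction of `m`-th roots of divisors;
* `h89_local_generator` : a divisor `E` with `m E = div u` has a local generator at `y`;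
* `h89_gen_dvd` : every `g` with `div g ≥ E` on the tube is a multiple of the local generator;
* `h89_unit_element` : a multiple `c e` of the generator, `c` a unit at `y`, with
  `div (c e) ≥ E` on the whole chart.
-/
import Mathlib

set_option autoImplicit false

namespace Fermat.Agent.S36

variable {F : Type*} [Field F] {ι : Type*} {B : Type*} [CommRing B]

/-- The tube of the closed point with local ring `B`: places `P` such that every chart function
vanishing at `P` is a non-unit of `B`. -/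
def h89_tube (ord : ι → F → ℤ) (Lam0 : Subring F) (φ : B →+* F) : Set ι :=
  {P | ∀ f ∈ Lam0, f ≠ 0 → 0 < ord P f → ¬ ∃ t : B, φ t = f⁻¹}

/-- The hypotheses of the tube layer. -/
structure h89_TubeHyp (ord : ι → F → ℤ) (Lam0 : Subring F) (φ : B →+* F) (q : B) : Prop where
  ord_mul : ∀ (P : ι) (f g : F), f ≠ 0 → g ≠ 0 → ord P (f * g) = ord P f + ord P g
  ord_one : ∀ P : ι, ord P 1 = 0
  ord_add : ∀ (P : ι) (f g : F), f ≠ 0 → g ≠ 0 → f + g ≠ 0 →
    min (ord P f) (ord P g) ≤ ord P (f + g)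
  fin : ∀ f : F, f ≠ 0 → {P : ι | ord P f ≠ 0}.Finite
  reg : ∀ f ∈ Lam0, f ≠ 0 → ∀ P : ι, 0 ≤ ord P f
  inj : Function.Injective φ
  lam_le : ∀ f ∈ Lam0, ∃ b : B, φ b = f
  frac : ∀ b : B, ∃ a ∈ Lam0, ∃ s ∈ Lam0, s ≠ 0 ∧ (∃ t : B, φ t = s⁻¹) ∧ φ b = a * s⁻¹
  q_mem : φ q ∈ Lam0
  q_ne : q ≠ 0
  q_ord : ∀ P : ι, ord P (φ q) = 0
  scale : ∀ a ∈ Lam0, ∀ c ∈ Lam0, a ≠ 0 → c ≠ 0 → (∀ P : ι, ord P a ≤ ord P c) →
    ∃ k : ℕ, ∃ h ∈ Lam0, φ q ^ k * c = a * h
  unr : ∀ P ∈ h89_tube ord Lam0 φ, ∃ f ∈ Lam0, f ≠ 0 ∧ ord P f = 1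
  prin : ∀ I : Ideal B, I.IsPrime → q ∉ I → ∃ π : B, I = Ideal.span {π}

/-- No vertical prime (a prime dividing `q`) divides `d`. -/
def h89_NoVert (q d : B) : Prop := ∀ p : B, Prime p → p ∣ q → ¬ p ∣ d

theorem h89_noVert_of_dvd {q d d' : B} (h : h89_NoVert q d) (hd : d' ∣ d) : h89_NoVert q d' :=
  fun p hp hpq hpd => h p hp hpq (hpd.trans hd)

theorem h89_noVert_mul {q d d' : B} (h : h89_NoVert q d) (h' : h89_NoVert q d') :
    h89_NoVert q (d * d') :=
  fun p hp hpq hpd => (hp.dvd_or_dvd hpd).elim (h p hp hpq) (h' p hp hpq)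

theorem h89_noVert_pow {q d : B} (h : h89_NoVert q d) (n : ℕ) : h89_NoVert q (d ^ n) := by
  intro p hp hpq hpd
  exact h p hp hpq (hp.dvd_of_dvd_pow hpd)

theorem h89_noVert_of_isUnit {q d : B} (h : IsUnit d) : h89_NoVert q d :=
  fun _ hp _ hpd => hp.not_isUnit (isUnit_of_dvd_unit hpd h)

section basic

variable {ord : ι → F → ℤ} {Lam0 : Subring F} {φ : B →+* F} {q : B}

theorem h89_ord_inv (H : h89_TubeHyp ord Lam0 φ q) (P : ι) {f : F} (hf : f ≠ 0) :
    ord P f⁻¹ = -ord P f := by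
  have h := H.ord_mul P f f⁻¹ hf (inv_ne_zero hf)
  rw [mul_inv_cancel₀ hf, H.ord_one] at h
  omega

theorem h89_ord_pow (H : h89_TubeHyp ord Lam0 φ q) (P : ι) {f : F} (hf : f ≠ 0) (n : ℕ) :
    ord P (f ^ n) = n * ord P f := by
  induction n with
  | zero => simp [H.ord_one]
  | succ n ih =>
    rw [pow_succ, H.ord_mul P _ _ (pow_ne_zero n hf) hf, ih]
    push_cast
    ring

theorem h89_ord_div (H : h89_TubeHyp ord Lam0 φ q) (P : ι) {f g : F} (hf : f ≠ 0) (hg : g ≠ 0) :
    ord P (f / g) = ord P f - ord P g := by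
  rw [div_eq_mul_inv, H.ord_mul P _ _ hf (inv_ne_zero hg), h89_ord_inv H P hg]
  ring

theorem h89_map_ne_zero (H : h89_TubeHyp ord Lam0 φ q) {b : B} (hb : b ≠ 0) : φ b ≠ 0 := by
  intro h
  exact hb (H.inj (by rw [h, map_zero]))

/-- Elements of `B` are regular on the tube. -/
theorem h89_ord_nonneg (H : h89_TubeHyp ord Lam0 φ q) {P : ι} (hP : P ∈ h89_tube ord Lam0 φ)
    {b : B} (hb : b ≠ 0) : 0 ≤ ord P (φ b) := by
  obtain ⟨a, ha, s, hs, hs0, hst, hbas⟩ := H.frac b
  have ha0 : a ≠ 0 := by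
    intro h
    rw [h, zero_mul] at hbas
    exact h89_map_ne_zero H hb hbas
  have hsord : ord P s = 0 := by
    have h1 := H.reg s hs hs0 P
    by_contra hne
    exact hP s hs hs0 (by omega) hst
  rw [hbas, H.ord_mul P _ _ ha0 (inv_ne_zero hs0), h89_ord_inv H P hs0, hsord]
  have := H.reg a ha ha0 P
  omega

/-- Units of `B` have order zero on the tube. -/
theorem h89_ord_unit (H : h89_TubeHyp ord Lam0 φ q) {P : ι} (hP : P ∈ h89_tube ord Lam0 φ)
    {b : B} (hb : IsUnit b) : ord P (φ b) = 0 := by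
  obtain ⟨c, hc⟩ := hb.exists_right_inv
  have hb0 : b ≠ 0 := by
    intro h
    rw [h, zero_mul] at hc
    have : (1 : F) = 0 := by rw [← map_one φ, ← hc, map_zero]
    exact one_ne_zero this
  have hc0 : c ≠ 0 := by
    intro h
    rw [h, mul_zero] at hc
    have : (1 : F) = 0 := by rw [← map_one φ, ← hc, map_zero]
    exact one_ne_zero this
  have h := H.ord_mul P _ _ (h89_map_ne_zero H hb0) (h89_map_ne_zero H hc0)
  rw [← map_mul, hc, map_one, H.ord_one] at h
  have h1 := h89_ord_nonneg H hP hb0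
  have h2 := h89_ord_nonneg H hP hc0
  omega

end basic

section ideal

variable {ord : ι → F → ℤ} {Lam0 : Subring F} {φ : B →+* F} {q : B} [IsDomain B]

/-- The ideal of elements of `B` vanishing at a place of the tube. -/
def h89_idealAt (H : h89_TubeHyp ord Lam0 φ q) {P : ι} (hP : P ∈ h89_tube ord Lam0 φ) :
    Ideal B where
  carrier := {b | b = 0 ∨ 0 < ord P (φ b)}
  zero_mem' := Or.inl rfl
  add_mem' := by
    rintro a b ha hb
    by_cases ha0 : a = 0
    · rw [ha0, zero_add]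
      exact hb
    by_cases hb0 : b = 0
    · rw [hb0, add_zero]
      exact ha
    by_cases hab : a + b = 0
    · exact Or.inl hab
    have ha' : 0 < ord P (φ a) := ha.resolve_left ha0
    have hb' : 0 < ord P (φ b) := hb.resolve_left hb0
    refine Or.inr ?_
    have h := H.ord_add P (φ a) (φ b) (h89_map_ne_zero H ha0) (h89_map_ne_zero H hb0)
      (by rw [← map_add]; exact h89_map_ne_zero H hab)
    rw [map_add]
    have := min_le_iff.1 h
    omega
  smul_mem' := by
    rintro c b hb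
    by_cases hcb : c * b = 0
    · exact Or.inl hcb
    have hc0 : c ≠ 0 := fun h => hcb (by rw [h, zero_mul])
    have hb0 : b ≠ 0 := fun h => hcb (by rw [h, mul_zero])
    rcases hb with hb | hb
    · exact absurd hb hb0
    refine Or.inr ?_
    show 0 < ord P (φ (c * b))
    rw [map_mul, H.ord_mul P _ _ (h89_map_ne_zero H hc0) (h89_map_ne_zero H hb0)]
    have := h89_ord_nonneg H hP hc0
    omega

omit [IsDomain B] in
theorem h89_mem_idealAt (H : h89_TubeHyp ord Lam0 φ q) {P : ι} (hP : P ∈ h89_tube ord Lam0 φ)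
    (b : B) : b ∈ h89_idealAt H hP ↔ b = 0 ∨ 0 < ord P (φ b) := Iff.rfl

theorem h89_idealAt_prime (H : h89_TubeHyp ord Lam0 φ q) {P : ι}
    (hP : P ∈ h89_tube ord Lam0 φ) : (h89_idealAt H hP).IsPrime := by
  refine ⟨?_, ?_⟩
  · intro htop
    have h1 : (1 : B) ∈ h89_idealAt H hP := by rw [htop]; trivial
    rcases (h89_mem_idealAt H hP 1).1 h1 with h | h
    · exact one_ne_zero h
    · rw [map_one, H.ord_one] at h
      omega
  · intro a b hab
    by_cases ha0 : a = 0
    · exact Or.inl ((h89_mem_idealAt H hP a).2 (Or.inl ha0))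
    by_cases hb0 : b = 0
    · exact Or.inr ((h89_mem_idealAt H hP b).2 (Or.inl hb0))
    rcases (h89_mem_idealAt H hP _).1 hab with h | h
    · exact absurd h (mul_ne_zero ha0 hb0)
    rw [map_mul, H.ord_mul P _ _ (h89_map_ne_zero H ha0) (h89_map_ne_zero H hb0)] at h
    have h1 := h89_ord_nonneg H hP ha0
    have h2 := h89_ord_nonneg H hP hb0
    by_cases h3 : 0 < ord P (φ a)
    · exact Or.inl ((h89_mem_idealAt H hP a).2 (Or.inr h3))
    · exact Or.inr ((h89_mem_idealAt H hP b).2 (Or.inr (by omega)))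

/-- **Generator at a place of the tube**: a prime element `π` of `B` with `ord_P π = 1` which
divides exactly the elements of `B` vanishing at `P`. -/
theorem h89_exists_gen (H : h89_TubeHyp ord Lam0 φ q) {P : ι} (hP : P ∈ h89_tube ord Lam0 φ) :
    ∃ π : B, Prime π ∧ ord P (φ π) = 1 ∧ ∀ b : B, b ≠ 0 → (0 < ord P (φ b) ↔ π ∣ b) := by
  have hprime := h89_idealAt_prime H hP
  have hq : q ∉ h89_idealAt H hP := by
    intro h
    rcases (h89_mem_idealAt H hP q).1 h with h | h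
    · exact H.q_ne h
    · rw [H.q_ord] at h
      omega
  obtain ⟨π, hπ⟩ := H.prin _ hprime hq
  obtain ⟨f, hf, hf0, hford⟩ := H.unr P hP
  obtain ⟨f', hf'⟩ := H.lam_le f hf
  have hf'0 : f' ≠ 0 := by
    rintro rfl
    rw [map_zero] at hf'
    exact hf0 hf'.symm
  have hf'mem : f' ∈ h89_idealAt H hP :=
    (h89_mem_idealAt H hP f').2 (Or.inr (by rw [hf', hford]; omega))
  have hπ0 : π ≠ 0 := by
    rintro rfl
    rw [hπ, Ideal.span_singleton_eq_bot.2 rfl, Ideal.mem_bot] at hf'mem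
    exact hf'0 hf'mem
  have hπprime : Prime π := by
    rw [← Ideal.span_singleton_prime hπ0, ← hπ]
    exact hprime
  have hmem : ∀ b : B, b ≠ 0 → (0 < ord P (φ b) ↔ π ∣ b) := by
    intro b hb
    rw [← Ideal.mem_span_singleton, ← hπ, h89_mem_idealAt]
    constructor
    · intro h
      exact Or.inr h
    · rintro (h | h)
      · exact absurd h hb
      · exact h
  refine ⟨π, hπprime, ?_, hmem⟩
  have h1 : 0 < ord P (φ π) := (hmem π hπ0).2 dvd_rfl
  obtain ⟨h, hh⟩ := (hmem f' hf'0).1 (by rw [hf', hford]; omega)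
  have hh0 : h ≠ 0 := by
    rintro rfl
    rw [mul_zero] at hh
    exact hf'0 hh
  have h2 := H.ord_mul P _ _ (h89_map_ne_zero H hπ0) (h89_map_ne_zero H hh0)
  rw [← map_mul, ← hh, hf', hford] at h2
  have h3 := h89_ord_nonneg H hP hh0
  omega

end ideal

section main

variable {ord : ι → F → ℤ} {Lam0 : Subring F} {φ : B →+* F} {q : B} [IsDomain B]

omit [IsDomain B] in
/-- A chart function, unit at the point, vanishing to prescribed orders at finitely many places
outside the tube. -/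
theorem h89_exists_sep (H : h89_TubeHyp ord Lam0 φ q) (Z : Finset ι) (n : ι → ℕ)
    (hZ : ∀ P ∈ Z, P ∉ h89_tube ord Lam0 φ) :
    ∃ c ∈ Lam0, c ≠ 0 ∧ (∃ t : B, φ t = c⁻¹) ∧ ∀ P ∈ Z, (n P : ℤ) ≤ ord P c := by
  classical
  induction Z using Finset.induction_on with
  | empty => exact ⟨1, Lam0.one_mem, one_ne_zero, ⟨1, by simp⟩, by simp⟩
  | insert P0 Z' hP0 ih =>
    obtain ⟨c', hc', hc'0, ⟨t', ht'⟩, hc'ord⟩ :=
      ih (fun P hP => hZ P (Finset.mem_insert_of_mem hP))
    have hnot := hZ P0 (Finset.mem_insert_self P0 Z')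
    simp only [h89_tube, Set.mem_ofPred_eq, not_forall, not_not] at hnot
    obtain ⟨c0, hc0, hc00, hc0ord, t0, ht0⟩ := hnot
    have hpow0 : c0 ^ n P0 ≠ 0 := pow_ne_zero _ hc00
    have hpowmem : c0 ^ n P0 ∈ Lam0 := Lam0.pow_mem hc0 _
    refine ⟨c0 ^ n P0 * c', Lam0.mul_mem hpowmem hc', mul_ne_zero hpow0 hc'0,
      ⟨t0 ^ n P0 * t', by rw [map_mul, map_pow, ht0, ht', mul_inv, inv_pow]⟩, ?_⟩
    intro P hP
    rw [H.ord_mul P _ _ hpow0 hc'0]
    rcases Finset.mem_insert.1 hP with rfl | hP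
    · rw [h89_ord_pow H P hc00]
      have h1 := H.reg c' hc' hc'0 P
      nlinarith
    · have h1 := H.reg _ hpowmem hpow0 P
      have h2 := hc'ord P hP
      omega

omit [IsDomain B] in
/-- **Zero lemma**: a prime element of `B` which does not divide `q` vanishes at a place of the
tube. -/
theorem h89_zero (H : h89_TubeHyp ord Lam0 φ q) {p : B} (hp : Prime p) (hpq : ¬ p ∣ q) :
    ∃ P ∈ h89_tube ord Lam0 φ, 0 < ord P (φ p) := by
  classical
  by_contra hcon
  replace hcon : ∀ P ∈ h89_tube ord Lam0 φ, ord P (φ p) ≤ 0 := by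
    intro P hP
    by_contra h
    exact hcon ⟨P, hP, by omega⟩
  obtain ⟨a, ha, s, hs, hs0, ⟨t, ht⟩, hpas⟩ := H.frac p
  have ha0 : a ≠ 0 := by
    intro h
    rw [h, zero_mul] at hpas
    exact h89_map_ne_zero H hp.ne_zero hpas
  obtain ⟨a', ha'⟩ := H.lam_le a ha
  obtain ⟨s', hs'⟩ := H.lam_le s hs
  have hs'0 : s' ≠ 0 := by
    rintro rfl
    rw [map_zero] at hs'
    exact hs0 hs'.symm
  have hs'u : IsUnit s' := by
    refine IsUnit.of_mul_eq_one t (H.inj ?_)
    rw [map_mul, map_one, hs', ht, mul_inv_cancel₀ hs0]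
  have hps : p * s' = a' := by
    apply H.inj
    rw [map_mul, hpas, hs', ha', mul_assoc, inv_mul_cancel₀ hs0, mul_one]
  -- the zeros of `a`
  have hfin : {P : ι | 0 < ord P a}.Finite :=
    (H.fin a ha0).subset (fun P hP => by
      simp only [Set.mem_ofPred_eq] at hP ⊢
      omega)
  have hZ : ∀ P ∈ hfin.toFinset, P ∉ h89_tube ord Lam0 φ := by
    intro P hP hPt
    rw [Set.Finite.mem_toFinset, Set.mem_ofPred_eq] at hP
    have h1 := hcon P hPt
    have h2 : ord P (φ s') = 0 := h89_ord_unit H hPt hs'u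
    have h3 := H.ord_mul P _ _ (h89_map_ne_zero H hp.ne_zero) (h89_map_ne_zero H hs'0)
    rw [← map_mul, hps, ha'] at h3
    omega
  obtain ⟨c, hc, hc0, ⟨tc, htc⟩, hcord⟩ :=
    h89_exists_sep H hfin.toFinset (fun P => (ord P a).toNat) hZ
  have hle : ∀ P : ι, ord P a ≤ ord P c := by
    intro P
    by_cases hP : 0 < ord P a
    · have := hcord P (by rw [Set.Finite.mem_toFinset]; exact hP)
      rw [Int.toNat_of_nonneg hP.le] at this
      exact this
    · have := H.reg c hc hc0 P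
      omega
  obtain ⟨k, h, hh, hkc⟩ := H.scale a ha c hc ha0 hc0 hle
  obtain ⟨c', hc'⟩ := H.lam_le c hc
  obtain ⟨h', hh'⟩ := H.lam_le h hh
  have hc'u : IsUnit c' := by
    refine IsUnit.of_mul_eq_one tc (H.inj ?_)
    rw [map_mul, map_one, hc', htc, mul_inv_cancel₀ hc0]
  have hB : q ^ k * c' = p * (s' * h') := by
    apply H.inj
    rw [map_mul, map_pow, hc', hkc, ← mul_assoc, map_mul, hps, ha', hh']
  have hdvd : p ∣ q ^ k * c' := ⟨_, hB⟩
  rcases hp.dvd_or_dvd hdvd with h1 | h1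
  · exact hpq (hp.dvd_of_dvd_pow h1)
  · exact hp.not_isUnit (isUnit_of_dvd_unit h1 hc'u)

/-- A prime element of `B` not dividing `q` has order `1` at each of its zeros in the tube, and
divides every element of `B` vanishing there. -/
theorem h89_prime_at (H : h89_TubeHyp ord Lam0 φ q) {p : B} (hp : Prime p)
    {P : ι} (hP : P ∈ h89_tube ord Lam0 φ) (hpos : 0 < ord P (φ p)) :
    ord P (φ p) = 1 ∧ ∀ b : B, b ≠ 0 → 0 < ord P (φ b) → p ∣ b := by
  obtain ⟨π, hπ, hπord, hπmem⟩ := h89_exists_gen H hP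
  obtain ⟨h, hh⟩ := (hπmem p hp.ne_zero).1 hpos
  have hhu : IsUnit h := (hp.irreducible.isUnit_or_isUnit hh).resolve_left hπ.not_isUnit
  have hassoc : Associated π p := ⟨hhu.unit, by rw [IsUnit.unit_spec, ← hh]⟩
  refine ⟨?_, fun b hb hbpos => hassoc.dvd_iff_dvd_left.1 ((hπmem b hb).1 hbpos)⟩
  have hh0 : h ≠ 0 := hhu.ne_zero
  have h1 := H.ord_mul P _ _ (h89_map_ne_zero H hπ.ne_zero) (h89_map_ne_zero H hh0)
  rw [← map_mul, ← hh, hπord, h89_ord_unit H hP hhu] at h1
  omega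

/-- The order of a prime element at a place of the tube is `0` or `1`. -/
theorem h89_prime_ord_le (H : h89_TubeHyp ord Lam0 φ q) {p : B} (hp : Prime p)
    {P : ι} (hP : P ∈ h89_tube ord Lam0 φ) : 0 ≤ ord P (φ p) ∧ ord P (φ p) ≤ 1 := by
  have h0 := h89_ord_nonneg H hP hp.ne_zero
  refine ⟨h0, ?_⟩
  by_cases hpos : 0 < ord P (φ p)
  · exact (h89_prime_at H hp hP hpos).1.le
  · omega

variable [UniqueFactorizationMonoid B]

/-- **Hartogs on the tube**: for `d` without vertical prime factors, `d ∣ n` as soon as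
`ord_P d ≤ ord_P n` at all places of the tube. -/
theorem h89_hartogs (H : h89_TubeHyp ord Lam0 φ q) (d : B) :
    d ≠ 0 → h89_NoVert q d → ∀ n : B, n ≠ 0 →
      (∀ P ∈ h89_tube ord Lam0 φ, ord P (φ d) ≤ ord P (φ n)) → d ∣ n := by
  refine UniqueFactorizationMonoid.induction_on_prime d ?_ ?_ ?_
  · intro h
    exact absurd rfl h
  · intro x hx _ _ n _ _
    exact hx.dvd
  · intro a p ha0 hp ih _ hnv n hn0 hord
    have hpq : ¬ p ∣ q := fun h => hnv p hp h (dvd_mul_right p a)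
    obtain ⟨P0, hP0, hpos⟩ := h89_zero H hp hpq
    have hpa := H.ord_mul P0 _ _ (h89_map_ne_zero H hp.ne_zero) (h89_map_ne_zero H ha0)
    have h1 := hord P0 hP0
    rw [map_mul, hpa] at h1
    have h2 := h89_ord_nonneg H hP0 ha0
    obtain ⟨n', hn'⟩ := (h89_prime_at H hp hP0 hpos).2 n hn0 (by omega)
    have hn'0 : n' ≠ 0 := by
      rintro rfl
      rw [mul_zero] at hn'
      exact hn0 hn'
    have hdvd : a ∣ n' := by
      refine ih ha0 (h89_noVert_of_dvd hnv (dvd_mul_left a p)) n' hn'0 ?_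
      intro P hP
      have h3 := hord P hP
      rw [map_mul, H.ord_mul P _ _ (h89_map_ne_zero H hp.ne_zero) (h89_map_ne_zero H ha0), hn',
        map_mul, H.ord_mul P _ _ (h89_map_ne_zero H hp.ne_zero) (h89_map_ne_zero H hn'0)] at h3
      omega
    rw [hn']
    exact mul_dvd_mul_left p hdvd

/-- **Roots of divisors**: an element without vertical prime factors all of whose orders on the
tube are divisible by `m` is an `m`-th power up to a unit. -/
theorem h89_root (H : h89_TubeHyp ord Lam0 φ q) {m : ℕ} (hm : 0 < m) (d : B) :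
    d ≠ 0 → h89_NoVert q d → (∀ P ∈ h89_tube ord Lam0 φ, (m : ℤ) ∣ ord P (φ d)) →
      ∃ e : B, Associated d (e ^ m) := by
  refine (wellFounded_dvdNotUnit (α := B)).induction
    (C := fun d : B => d ≠ 0 → h89_NoVert q d →
      (∀ P ∈ h89_tube ord Lam0 φ, (m : ℤ) ∣ ord P (φ d)) → ∃ e : B, Associated d (e ^ m)) d ?_
  intro d ih hd0 hnv hdiv
  by_cases hu : IsUnit d
  · exact ⟨1, by rw [one_pow]; exact associated_one_iff_isUnit.2 hu⟩
  obtain ⟨p, hpirr, hpd⟩ := WfDvdMonoid.exists_irreducible_factor hu hd0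
  have hp : Prime p := UniqueFactorizationMonoid.irreducible_iff_prime.1 hpirr
  have hpm0 : p ^ m ≠ 0 := pow_ne_zero _ hp.ne_zero
  have hpm : p ^ m ∣ d := by
    refine h89_hartogs H (p ^ m) hpm0 ?_ d hd0 ?_
    · intro p' hp' hp'q hp'd
      exact hnv p' hp' hp'q ((hp'.dvd_of_dvd_pow hp'd).trans hpd)
    · intro P hP
      rw [map_pow, h89_ord_pow H P (h89_map_ne_zero H hp.ne_zero)]
      obtain ⟨h0, h1⟩ := h89_prime_ord_le H hp hP
      have hd := h89_ord_nonneg H hP hd0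
      by_cases hpos : 0 < ord P (φ p)
      · have hp1 : ord P (φ p) = 1 := by omega
        rw [hp1, mul_one]
        obtain ⟨d1, hd1⟩ := hpd
        have hd10 : d1 ≠ 0 := by
          rintro rfl
          rw [mul_zero] at hd1
          exact hd0 hd1
        have h2 := H.ord_mul P _ _ (h89_map_ne_zero H hp.ne_zero) (h89_map_ne_zero H hd10)
        rw [← map_mul, ← hd1, hp1] at h2
        have h3 := h89_ord_nonneg H hP hd10
        obtain ⟨k, hk⟩ := hdiv P hP
        have hm' : (0 : ℤ) < m := by exact_mod_cast hm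
        have hk1 : 1 ≤ k := by
          by_contra hk0
          have : (m : ℤ) * k ≤ 0 := mul_nonpos_of_nonneg_of_nonpos hm'.le (by omega)
          omega
        rw [hk]
        nlinarith
      · have hp0 : ord P (φ p) = 0 := by omega
        rw [hp0, mul_zero]
        exact hd
  obtain ⟨d2, hd2⟩ := hpm
  have hd20 : d2 ≠ 0 := by
    rintro rfl
    rw [mul_zero] at hd2
    exact hd0 hd2
  have hnu : ¬ IsUnit (p ^ m) := by
    rw [isUnit_pow_iff hm.ne']
    exact hp.not_isUnit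
  have hdnu : DvdNotUnit d2 d := ⟨hd20, p ^ m, hnu, by rw [hd2, mul_comm]⟩
  have hnv2 : h89_NoVert q d2 := h89_noVert_of_dvd hnv ⟨p ^ m, by rw [hd2, mul_comm]⟩
  have hdiv2 : ∀ P ∈ h89_tube ord Lam0 φ, (m : ℤ) ∣ ord P (φ d2) := by
    intro P hP
    have h1 := H.ord_mul P _ _ (h89_map_ne_zero H hpm0) (h89_map_ne_zero H hd20)
    rw [← map_mul, ← hd2, map_pow, h89_ord_pow H P (h89_map_ne_zero H hp.ne_zero)] at h1
    have h2 := hdiv P hP
    rw [h1] at h2
    exact (Int.dvd_add_right (dvd_mul_right _ _)).1 h2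
  obtain ⟨e2, he2⟩ := ih d2 hdnu hd20 hnv2 hdiv2
  refine ⟨p * e2, ?_⟩
  rw [hd2, mul_pow]
  exact he2.mul_left (p ^ m)

/-- **Local generator**: if `u = a / s` (no vertical prime factors) has divisor `m E` on the tube,
there is `e = e0 / s`, `e0` without vertical prime factors, with `u = w e ^ m`, `w` a unit of `B`,
and `ord_P e = E P` on the tube. -/
theorem h89_local_generator (H : h89_TubeHyp ord Lam0 φ q) {m : ℕ} (hm : 0 < m) (u : F)
    (a s : B) (ha0 : a ≠ 0) (hs0 : s ≠ 0) (hu : u * φ s = φ a)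
    (hnva : h89_NoVert q a) (hnvs : h89_NoVert q s) (E : ι → ℤ)
    (hdiv : ∀ P ∈ h89_tube ord Lam0 φ, ord P u = m * E P) :
    ∃ e0 : B, e0 ≠ 0 ∧ h89_NoVert q e0 ∧ (∃ w : Bˣ, u = φ w * (φ e0 / φ s) ^ m) ∧
      ∀ P ∈ h89_tube ord Lam0 φ, ord P (φ e0 / φ s) = E P := by
  obtain ⟨m', rfl⟩ : ∃ m', m = m' + 1 := ⟨m - 1, by omega⟩
  have hφs : φ s ≠ 0 := h89_map_ne_zero H hs0
  have hφa : φ a ≠ 0 := h89_map_ne_zero H ha0
  have hu0 : u ≠ 0 := by
    rintro rfl
    rw [zero_mul] at hu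
    exact hφa hu.symm
  have hueq : u = φ a / φ s := by
    rw [← hu, mul_div_assoc, div_self hφs, mul_one]
  have hd0 : a * s ^ m' ≠ 0 := mul_ne_zero ha0 (pow_ne_zero _ hs0)
  have hnvd : h89_NoVert q (a * s ^ m') := h89_noVert_mul hnva (h89_noVert_pow hnvs _)
  have hdivd : ∀ P ∈ h89_tube ord Lam0 φ, ((m' + 1 : ℕ) : ℤ) ∣ ord P (φ (a * s ^ m')) := by
    intro P hP
    have h1 := hdiv P hP
    rw [hueq, h89_ord_div H P hφa hφs] at h1
    rw [map_mul, map_pow, H.ord_mul P _ _ hφa (pow_ne_zero _ hφs), h89_ord_pow H P hφs]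
    refine ⟨E P + ord P (φ s), ?_⟩
    push_cast at h1 ⊢
    linear_combination h1
  obtain ⟨e0, w, hw⟩ := h89_root H (Nat.succ_pos m') (a * s ^ m') hd0 hnvd hdivd
  have he00 : e0 ≠ 0 := by
    rintro rfl
    rw [zero_pow (Nat.succ_ne_zero m')] at hw
    rcases mul_eq_zero.1 hw with h | h
    · exact hd0 h
    · exact w.ne_zero h
  have hnve : h89_NoVert q e0 := by
    intro p hp hpq hpe
    have h1 : p ∣ a * s ^ m' * w := by
      rw [hw]
      exact dvd_pow hpe (Nat.succ_ne_zero m')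
    rcases hp.dvd_or_dvd h1 with h | h
    · exact hnvd p hp hpq h
    · exact hp.not_isUnit (isUnit_of_dvd_unit h w.isUnit)
  have hφe : φ e0 ≠ 0 := h89_map_ne_zero H he00
  have hpow : (φ e0 / φ s) ^ (m' + 1) = u * φ w := by
    rw [div_pow, ← map_pow, ← hw, map_mul, map_mul, map_pow, hueq]
    field_simp
    ring
  have hw1 : φ (↑w⁻¹ : B) * φ (w : B) = 1 := by
    rw [← map_mul, Units.inv_mul, map_one]
  have hrep : u = φ (↑w⁻¹ : B) * (φ e0 / φ s) ^ (m' + 1) := by
    rw [hpow, mul_comm u, ← mul_assoc, hw1, one_mul]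
  refine ⟨e0, he00, hnve, ⟨w⁻¹, hrep⟩, ?_⟩
  intro P hP
  have h1 := hdiv P hP
  have hwinv0 : φ (↑w⁻¹ : B) ≠ 0 := h89_map_ne_zero H (w⁻¹).ne_zero
  have he0 : φ e0 / φ s ≠ 0 := div_ne_zero hφe hφs
  rw [hrep, H.ord_mul P _ _ hwinv0 (pow_ne_zero _ he0), h89_ord_unit H hP (w⁻¹).isUnit,
    h89_ord_pow H P he0, zero_add] at h1
  have hm0 : ((m' + 1 : ℕ) : ℤ) ≠ 0 := by positivity
  exact mul_left_cancel₀ hm0 h1

/-- **Multiples of the local generator**: a function `g = a' / s'` (`s'` without vertical prime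
factors) with `ord_P g ≥ E P` on the tube is a `B`-multiple of the local generator. -/
theorem h89_gen_dvd (H : h89_TubeHyp ord Lam0 φ q) (e0 s : B) (he0 : e0 ≠ 0) (hs0 : s ≠ 0)
    (hnve : h89_NoVert q e0) (E : ι → ℤ)
    (hE : ∀ P ∈ h89_tube ord Lam0 φ, ord P (φ e0 / φ s) = E P)
    (g : F) (a' s' : B) (hs'0 : s' ≠ 0) (hg : g * φ s' = φ a') (hnvs' : h89_NoVert q s')
    (hord : ∀ P ∈ h89_tube ord Lam0 φ, E P ≤ ord P g) :
    ∃ b : B, g = φ e0 / φ s * φ b := by
  have hφs : φ s ≠ 0 := h89_map_ne_zero H hs0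
  have hφs' : φ s' ≠ 0 := h89_map_ne_zero H hs'0
  have hφe : φ e0 ≠ 0 := h89_map_ne_zero H he0
  by_cases ha'0 : a' = 0
  · refine ⟨0, ?_⟩
    rw [ha'0, map_zero] at hg
    rw [map_zero, mul_zero]
    exact (mul_eq_zero.1 hg).resolve_right hφs'
  have hφa' : φ a' ≠ 0 := h89_map_ne_zero H ha'0
  have hgeq : g = φ a' / φ s' := by
    rw [← hg, mul_div_assoc, div_self hφs', mul_one]
  have hdvd : e0 * s' ∣ a' * s := by
    refine h89_hartogs H (e0 * s') (mul_ne_zero he0 hs'0) (h89_noVert_mul hnve hnvs') (a' * s)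
      (mul_ne_zero ha'0 hs0) ?_
    intro P hP
    have h1 := hord P hP
    rw [← hE P hP, hgeq, h89_ord_div H P hφe hφs, h89_ord_div H P hφa' hφs'] at h1
    rw [map_mul, map_mul, H.ord_mul P _ _ hφe hφs', H.ord_mul P _ _ hφa' hφs]
    omega
  obtain ⟨b, hb⟩ := hdvd
  refine ⟨b, ?_⟩
  have hb' : φ a' * φ s = φ e0 * φ s' * φ b := by
    rw [← map_mul, hb, map_mul, map_mul]
  rw [hgeq]
  field_simp
  linear_combination hb'

omit [IsDomain B] [UniqueFactorizationMonoid B] in
/-- **The element that is a unit at the point**: if `ord_P e ≥ E P` on the tube (`E` of finite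
support), there is a chart function `c`, a unit of `B`, with `ord_P (c e) ≥ E P` at all places. -/
theorem h89_unit_element (H : h89_TubeHyp ord Lam0 φ q) (e : F) (he : e ≠ 0) (E : ι → ℤ)
    (hEfin : {P : ι | E P ≠ 0}.Finite)
    (hE : ∀ P ∈ h89_tube ord Lam0 φ, E P ≤ ord P e) :
    ∃ c ∈ Lam0, c ≠ 0 ∧ (∃ t : B, φ t = c⁻¹) ∧ ∀ P : ι, E P ≤ ord P (c * e) := by
  classical
  have hfin : {P : ι | ord P e < E P}.Finite :=
    ((H.fin e he).union hEfin).subset (fun P hP => by
      simp only [Set.mem_ofPred_eq, Set.mem_union] at hP ⊢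
      by_contra hcon
      rw [not_or, not_not, not_not] at hcon
      omega)
  have hZ : ∀ P ∈ hfin.toFinset, P ∉ h89_tube ord Lam0 φ := by
    intro P hP hPt
    rw [Set.Finite.mem_toFinset, Set.mem_ofPred_eq] at hP
    have := hE P hPt
    omega
  obtain ⟨c, hc, hc0, hct, hcord⟩ :=
    h89_exists_sep H hfin.toFinset (fun P => (E P - ord P e).toNat) hZ
  refine ⟨c, hc, hc0, hct, ?_⟩
  intro P
  rw [H.ord_mul P _ _ hc0 he]
  by_cases hP : ord P e < E P
  · have h1 := hcord P (by rw [Set.Finite.mem_toFinset]; exact hP)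
    rw [Int.toNat_of_nonneg (by omega)] at h1
    omega
  · have := H.reg c hc hc0 P
    omega

omit [UniqueFactorizationMonoid B] in
/-- At every place there is a chart function without vertical prime factors vanishing there. -/
theorem h89_exists_van (H : h89_TubeHyp ord Lam0 φ q) (P0 : ι) :
    ∃ v : B, v ≠ 0 ∧ h89_NoVert q v ∧ φ v ∈ Lam0 ∧ 0 < ord P0 (φ v) := by
  classical
  by_cases hP0 : P0 ∈ h89_tube ord Lam0 φ
  · obtain ⟨π, hπ, hπord, hπmem⟩ := h89_exists_gen H hP0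
    obtain ⟨a, ha, s, hs, hs0, ⟨t, ht⟩, hπas⟩ := H.frac π
    obtain ⟨a', ha'⟩ := H.lam_le a ha
    obtain ⟨s', hs'⟩ := H.lam_le s hs
    have hs'0 : s' ≠ 0 := by
      rintro rfl
      rw [map_zero] at hs'
      exact hs0 hs'.symm
    have hs'u : IsUnit s' := by
      refine IsUnit.of_mul_eq_one t (H.inj ?_)
      rw [map_mul, map_one, hs', ht, mul_inv_cancel₀ hs0]
    have hπs : π * s' = a' := by
      apply H.inj
      rw [map_mul, hπas, hs', ha', mul_assoc, inv_mul_cancel₀ hs0, mul_one]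
    have ha'0 : a' ≠ 0 := by
      rw [← hπs]
      exact mul_ne_zero hπ.ne_zero hs'0
    have hπq : ¬ π ∣ q := by
      intro h
      have := (hπmem q H.q_ne).2 h
      rw [H.q_ord] at this
      omega
    have hnvπ : h89_NoVert q π := by
      intro p hp hpq hpπ
      obtain ⟨h, hh⟩ := hpπ
      have hhu : IsUnit h := (hπ.irreducible.isUnit_or_isUnit hh).resolve_left hp.not_isUnit
      have hπp : π ∣ p := ⟨hhu.unit⁻¹.1, by rw [hh, mul_assoc]; simp⟩
      exact hπq (hπp.trans hpq)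
    refine ⟨a', ha'0, ?_, by rw [ha']; exact ha, ?_⟩
    · rw [← hπs]
      exact h89_noVert_mul hnvπ (h89_noVert_of_isUnit hs'u)
    · rw [← hπs, map_mul, H.ord_mul P0 _ _ (h89_map_ne_zero H hπ.ne_zero)
        (h89_map_ne_zero H hs'0), hπord, h89_ord_unit H hP0 hs'u]
      omega
  · simp only [h89_tube, Set.mem_ofPred_eq, not_forall, not_not] at hP0
    obtain ⟨c0, hc0, hc00, hc0ord, t0, ht0⟩ := hP0
    obtain ⟨c', hc'⟩ := H.lam_le c0 hc0
    have hc'0 : c' ≠ 0 := by
      rintro rfl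
      rw [map_zero] at hc'
      exact hc00 hc'.symm
    have hc'u : IsUnit c' := by
      refine IsUnit.of_mul_eq_one t0 (H.inj ?_)
      rw [map_mul, map_one, hc', ht0, mul_inv_cancel₀ hc00]
    exact ⟨c', hc'0, h89_noVert_of_isUnit hc'u, by rw [hc']; exact hc0, by rw [hc']; exact hc0ord⟩

omit [UniqueFactorizationMonoid B] in
/-- A chart function without vertical prime factors vanishing to prescribed orders at finitely
many places. -/
theorem h89_exists_van_finset (H : h89_TubeHyp ord Lam0 φ q) (Z : Finset ι) (n : ι → ℕ) :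
    ∃ v : B, v ≠ 0 ∧ h89_NoVert q v ∧ φ v ∈ Lam0 ∧ ∀ P ∈ Z, (n P : ℤ) ≤ ord P (φ v) := by
  classical
  induction Z using Finset.induction_on with
  | empty =>
    exact ⟨1, one_ne_zero, h89_noVert_of_isUnit isUnit_one, by rw [map_one]; exact Lam0.one_mem,
      by simp⟩
  | insert P0 Z' hP0 ih =>
    obtain ⟨v', hv'0, hv'nv, hv'mem, hv'ord⟩ := ih
    obtain ⟨v0, hv00, hv0nv, hv0mem, hv0ord⟩ := h89_exists_van H P0
    have hφv0 : φ v0 ≠ 0 := h89_map_ne_zero H hv00
    have hφv' : φ v' ≠ 0 := h89_map_ne_zero H hv'0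
    have hpow0 : φ v0 ^ n P0 ≠ 0 := pow_ne_zero _ hφv0
    have hpowmem : φ v0 ^ n P0 ∈ Lam0 := Lam0.pow_mem hv0mem _
    refine ⟨v0 ^ n P0 * v', mul_ne_zero (pow_ne_zero _ hv00) hv'0,
      h89_noVert_mul (h89_noVert_pow hv0nv _) hv'nv, ?_, ?_⟩
    · rw [map_mul, map_pow]
      exact Lam0.mul_mem hpowmem hv'mem
    · intro P hP
      rw [map_mul, map_pow, H.ord_mul P _ _ hpow0 hφv']
      rcases Finset.mem_insert.1 hP with rfl | hP
      · rw [h89_ord_pow H P hφv0]
        have h1 := H.reg _ hv'mem hφv' P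
        nlinarith
      · have h1 := H.reg _ hpowmem hpow0 P
        have h2 := hv'ord P hP
        omega

omit [UniqueFactorizationMonoid B] in
/-- **Clearing poles**: every nonzero function becomes regular on the chart after multiplication
by a chart function without vertical prime factors. -/
theorem h89_clear_poles (H : h89_TubeHyp ord Lam0 φ q) (g : F) (hg : g ≠ 0) :
    ∃ v : B, v ≠ 0 ∧ h89_NoVert q v ∧ φ v ∈ Lam0 ∧ ∀ P : ι, 0 ≤ ord P (g * φ v) := by
  classical
  have hfin : {P : ι | ord P g < 0}.Finite :=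
    (H.fin g hg).subset (fun P hP => by
      simp only [Set.mem_ofPred_eq] at hP ⊢
      omega)
  obtain ⟨v, hv0, hvnv, hvmem, hvord⟩ :=
    h89_exists_van_finset H hfin.toFinset (fun P => (-ord P g).toNat)
  refine ⟨v, hv0, hvnv, hvmem, ?_⟩
  intro P
  have hφv : φ v ≠ 0 := h89_map_ne_zero H hv0
  rw [H.ord_mul P _ _ hg hφv]
  by_cases hP : ord P g < 0
  · have h1 := hvord P (by rw [Set.Finite.mem_toFinset]; exact hP)
    rw [Int.toNat_of_nonneg (by omega)] at h1
    omega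
  · have := H.reg _ hvmem hφv P
    omega

omit [UniqueFactorizationMonoid B] in
/-- A function of the lattice (`InO g`: products of `g` with chart functions which are regular on
the chart are chart functions) is a fraction with denominator free of vertical primes. -/
theorem h89_frac_of_lattice (H : h89_TubeHyp ord Lam0 φ q) (g : F)
    (hO : ∀ s : B, φ s ∈ Lam0 → (∀ P : ι, 0 ≤ ord P (g * φ s)) → g * φ s ∈ Lam0) :
    ∃ a s : B, s ≠ 0 ∧ g * φ s = φ a ∧ h89_NoVert q s := by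
  by_cases hg : g = 0
  · exact ⟨0, 1, one_ne_zero, by rw [hg, zero_mul, map_zero],
      h89_noVert_of_isUnit isUnit_one⟩
  obtain ⟨v, hv0, hvnv, hvmem, hvord⟩ := h89_clear_poles H g hg
  obtain ⟨a, ha⟩ := H.lam_le _ (hO v hvmem hvord)
  exact ⟨a, v, hv0, ha.symm, hvnv⟩

omit [UniqueFactorizationMonoid B] in
/-- A unit of the lattice is a fraction with numerator and denominator free of vertical primes. -/
theorem h89_frac_of_unit (H : h89_TubeHyp ord Lam0 φ q) (u : F) (hu0 : u ≠ 0)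
    (hO : ∀ s : B, φ s ∈ Lam0 → (∀ P : ι, 0 ≤ ord P (u * φ s)) → u * φ s ∈ Lam0)
    (hOi : ∀ s : B, φ s ∈ Lam0 → (∀ P : ι, 0 ≤ ord P (u⁻¹ * φ s)) → u⁻¹ * φ s ∈ Lam0) :
    ∃ a s : B, a ≠ 0 ∧ s ≠ 0 ∧ u * φ s = φ a ∧ h89_NoVert q a ∧ h89_NoVert q s := by
  obtain ⟨a, s, hs0, has, hsnv⟩ := h89_frac_of_lattice H u hO
  obtain ⟨a3, s3, hs30, has3, hs3nv⟩ := h89_frac_of_lattice H u⁻¹ hOi
  have ha0 : a ≠ 0 := by
    rintro rfl
    rw [map_zero] at has
    exact (mul_ne_zero hu0 (h89_map_ne_zero H hs0)) has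
  refine ⟨a, s, ha0, hs0, has, ?_, hsnv⟩
  have hprod : a * a3 = s * s3 := by
    apply H.inj
    rw [map_mul, map_mul, ← has, ← has3]
    field_simp
  exact h89_noVert_of_dvd (h89_noVert_mul hsnv hs3nv) ⟨a3, hprod.symm⟩

/-- **(TUBE)**: the local generator of a divisor `E` with `m E = div u` at the point with local
ring `B`.  `InO` is membership in the lattice of the model. -/
theorem h89_tube_main (H : h89_TubeHyp ord Lam0 φ q) {m : ℕ} (hm : 0 < m) (InO : F → Prop)
    (hLam : ∀ (g : F) (s : B), InO g → φ s ∈ Lam0 → (∀ P : ι, 0 ≤ ord P (g * φ s)) →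
      g * φ s ∈ Lam0)
    (u : F) (hu0 : u ≠ 0) (huO : InO u) (huiO : InO u⁻¹) (E : ι → ℤ)
    (hdiv : ∀ P ∈ h89_tube ord Lam0 φ, ord P u = m * E P) :
    ∃ e : F, e ≠ 0 ∧
      (∃ e0 s : B, e0 ≠ 0 ∧ s ≠ 0 ∧ h89_NoVert q e0 ∧ h89_NoVert q s ∧ e = φ e0 / φ s) ∧
      (∃ w : Bˣ, u = φ w * e ^ m) ∧
      (∀ P ∈ h89_tube ord Lam0 φ, ord P e = E P) ∧
      (∀ g : F, InO g → (∀ P ∈ h89_tube ord Lam0 φ, E P ≤ ord P g) → ∃ b : B, g = e * φ b) := by
  obtain ⟨a, s, ha0, hs0, has, hanv, hsnv⟩ :=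
    h89_frac_of_unit H u hu0 (fun s hs h => hLam u s huO hs h) (fun s hs h => hLam u⁻¹ s huiO hs h)
  obtain ⟨e0, he00, he0nv, hw, hord⟩ :=
    h89_local_generator H hm u a s ha0 hs0 has hanv hsnv E hdiv
  refine ⟨φ e0 / φ s, div_ne_zero (h89_map_ne_zero H he00) (h89_map_ne_zero H hs0),
    ⟨e0, s, he00, hs0, he0nv, hsnv, rfl⟩, hw, hord, ?_⟩
  intro g hgO hgord
  obtain ⟨a', s', hs'0, hgs', hs'nv⟩ :=
    h89_frac_of_lattice H g (fun s hs h => hLam g s hgO hs h)
  exact h89_gen_dvd H e0 s he00 hs0 he0nv E hord g a' s' hs'0 hgs' hs'nv hgord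

end main

end Fermat.Agent.S36
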