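import Mathlib
import Fermat.Agent.S36.h36_W2
import Fermat.Agent.S36.h49_ExInst

/-!
# S36 / I-VAL: the two `w2` on main are the same function (helper89)

`h98_w2 M q hqM A ζ hζ hex` (helper98, `S36/h98_W2.lean`; unconditional through helper49's
`h49_ex`) and `h36_w2 L q hqL A` (helper36, `S36/h36_W2.lean`; its calculus takes
`hex : ∀ c, h36_EX L q hqL A c`) are both "the `n` of `h98_GV`, `0` at `0`".  At the root of
unity `ζ := h36_zeta q`:

* `h89_ex98`      : helper49's existence theorem at `ζ := h36_zeta q`;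
* `h89_h36_ex`    : `∀ c, h36_EX L q hqL A c` (the existence input of every `h36_w2_*` lemma);
* `h89_w2_bridge` : `h36_w2 L q hqL A = h98_w2 L q hqL A (h36_zeta q) (h36_zeta_prim q) _`;
* `h89_w2_bridge_apply` : the pointwise form;
* `h89_w2_isVal`, `h89_w2_mul`, `h89_w2_add` : the valuation axioms of `h36_w2`, unconditional.
-/

set_option autoImplicit false
set_option synthInstance.maxHeartbeats 400000

noncomputable section

open ModularCurve AlgebraicCurve

namespace Fermat.Agent.S36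

open Fermat.Agent.S34 Fermat.Agent.S37 Fermat.Agent.S24 Fermat.Agent.S35 Fermat.Agent.S18
  Fermat.Agent.GAL Fermat.Agent.S40

local notation "Qb" => AlgebraicClosure ℚ

section Bridge

variable (L q : ℕ) [NeZero L] [NeZero q] [Fact q.Prime] (hqL : ¬ q ∣ L)
  (A : ValuationSubring Qb) (hA : A.LiesOverPrime q)

include hA in
/-- helper49's existence theorem at the root of unity `h36_zeta q`. -/
theorem h89_ex98 : h98_Ex L q hqL A (h36_zeta q) (h36_zeta_prim q) :=
  h49_ex L q hqL A hA (h36_zeta q) (h36_zeta_prim q)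

include hA in
/-- **The existence statements of `h36_W2`** (`(EX0)`, `(EX1)`, `(EX2)`), from `h49_ex`. -/
theorem h89_h36_ex : ∀ c, h36_EX L q hqL A c := by
  have hex := h89_ex98 L q hqL A hA
  intro c
  fin_cases c
  · intro f hf
    exact hex.std2 f (h98_coe_ne2 L q A hf) (h98_fix2 L q A f)
  · intro f hf
    exact hex.mid f (h98_coe_ne2 L q A hf) (h98_fix2 L q A f)
  · intro f hf
    exact hex.std2 (h36_W L q hqL f)
      ((map_ne_zero (h36_W L q hqL)).mpr (h98_coe_ne2 L q A hf)) (h98_fix2W L q hqL A f)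

/-- `h98_w2 c 0 = 0`. -/
theorem h89_w2_98_zero (ζ : Qb) (hζ : IsPrimitiveRoot ζ q) (hex : h98_Ex L q hqL A ζ hζ)
    (c : Fin 3) : h98_w2 L q hqL A ζ hζ hex c 0 = 0 := by
  fin_cases c
  · show h98_v1 L q hqL A ζ hζ hex 0 = 0
    unfold h98_v1
    exact h98_gv_zero _ _ _ _
  · show h98_v2 L q hqL A ζ hζ hex 0 = 0
    unfold h98_v2
    exact h98_gv_zero _ _ _ _
  · show h98_v3 L q hqL A ζ hζ hex 0 = 0
    unfold h98_v3
    exact h98_gv_zero _ _ _ _

include hA in
/-- **The bridge, pointwise.** -/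
theorem h89_w2_bridge_apply (c : Fin 3)
    (f : ↥(h69_F0 (L * q * q) (A.inertiaSubgroupIn ℚ))) :
    h36_w2 L q hqL A c f =
      h98_w2 L q hqL A (h36_zeta q) (h36_zeta_prim q) (h89_ex98 L q hqL A hA) c f := by
  by_cases hf : f = 0
  · rw [hf, h36_w2_zero, h89_w2_98_zero]
  · fin_cases c
    · exact h36_w2_eq L q hqL A hA 0 f _
        (h98_v1_spec L q hqL A (h36_zeta q) (h36_zeta_prim q) (h89_ex98 L q hqL A hA) f hf)
    · exact h36_w2_eq L q hqL A hA 1 f _
        (h98_v2_spec L q hqL A (h36_zeta q) (h36_zeta_prim q) (h89_ex98 L q hqL A hA) f hf)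
    · exact h36_w2_eq L q hqL A hA 2 f _
        (h98_v3_spec L q hqL A (h36_zeta q) (h36_zeta_prim q) (h89_ex98 L q hqL A hA) f hf)

include hA in
/-- **The bridge**: helper36's `h36_w2` is helper98's `h98_w2` at `ζ := h36_zeta q`. -/
theorem h89_w2_bridge :
    h36_w2 L q hqL A =
      h98_w2 L q hqL A (h36_zeta q) (h36_zeta_prim q) (h89_ex98 L q hqL A hA) := by
  funext c f
  exact h89_w2_bridge_apply L q hqL A hA c f

include hA in
/-- `h36_w2 c` is a valuation, unconditionally. -/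
theorem h89_w2_isVal (c : Fin 3) : h99_IsVal (h36_w2 L q hqL A c) :=
  h36_w2_isVal L q hqL A hA c (h89_h36_ex L q hqL A hA c)

include hA in
/-- `hw_mul` of the chart families for `w := h36_w2`. -/
theorem h89_w2_mul : ∀ (c : Fin 3) (f g : ↥(h69_F0 (L * q * q) (A.inertiaSubgroupIn ℚ))),
    f ≠ 0 → g ≠ 0 →
    h36_w2 L q hqL A c (f * g) = h36_w2 L q hqL A c f + h36_w2 L q hqL A c g :=
  fun c => (h89_w2_isVal L q hqL A hA c).map_mul

include hA in
/-- `hw_add` of the chart families for `w := h36_w2`. -/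
theorem h89_w2_add : ∀ (c : Fin 3) (f g : ↥(h69_F0 (L * q * q) (A.inertiaSubgroupIn ℚ))),
    f ≠ 0 → g ≠ 0 → f + g ≠ 0 →
    min (h36_w2 L q hqL A c f) (h36_w2 L q hqL A c g) ≤ h36_w2 L q hqL A c (f + g) :=
  fun c => (h89_w2_isVal L q hqL A hA c).map_add

end Bridge

end Fermat.Agent.S36
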