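import Mathlib
import Fermat.Agent.S36.h94_NZWit
import Fermat.Agent.S36.h89_XferInst
import Fermat.Agent.S36.h69_ConstA
import Fermat.Agent.S36.h65_NoethQ2b

/-!
# S36 / row (XFER): the binder `hxfer` of `h94_hwit_final`, closed (helper89)

`h89_hxfer_w2 M q hqM A hA ζ hζ hex` is VERBATIM the hypothesis `hxfer` of helper94's
`h94_hwit_final` (`S36/h94_NZWit.lean`): at level `M q²`, for `w := h98_w2 ..`,
`a := ![1, q - 1, 1]`, `q0 := q`, `T := 1/j`, the chart-2 clause of `hwit` of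
`h61_geomN_of_data` follows from the chart-1 clause and the `(LOC-δ)` datum at the cusp points
(`q ∈ 𝔪`, `1/j ∈ 𝔪`) of chart 2.  It is the instance of `h89_hwit_chart2` with
`hwA := h69_hwA2`, `hwJ := h69_w2_J0`, `hint2 := (h65_noeth_q2b ..).2`, `hwq := h94_w2_q`.
-/

set_option autoImplicit false
set_option linter.unusedSectionVars false
set_option linter.unusedVariables false
set_option linter.style.longLine false

noncomputable section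

namespace Fermat.Agent.S36

open AlgebraicCurve ModularCurve Polynomial
open Fermat.Agent.S18 Fermat.Agent.S24 Fermat.Agent.S19 Fermat.Agent.S34

local notation "Qb" => AlgebraicClosure ℚ

/-- The integrality input of the transfer, for `T := ⟨1/j, _⟩`. -/
theorem h89_hint2_w2 (M q : ℕ) [NeZero M] [NeZero q] [Fact q.Prime] (hqM : ¬ q ∣ M)
    (A : ValuationSubring Qb) (hA : A.LiesOverPrime q) (ζ : Qb) (hζ : IsPrimitiveRoot ζ q)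
    (hex : h98_Ex M q hqM A ζ hζ) :
    ∀ f ∈ (h80_fam2 (M * q * q) (A.inertiaSubgroupIn ℚ) (h98_w2 M q hqM A ζ hζ hex) (h98_hw2mul M q hqM A hA ζ hζ hex) (h98_hw2add M q hqM A hA ζ hζ hex)).B,
      (h97_ev (h69_A0 A).toSubring (⟨(h59_jbar (M * q * q))⁻¹, h80_jbar_inv_mem_F0 (M * q * q) (A.inertiaSubgroupIn ℚ)⟩ : h69_F0 (M * q * q) (A.inertiaSubgroupIn ℚ))).IsIntegralElem f := by
  have hT : (h69_jF0 (M * q * q) (A.inertiaSubgroupIn ℚ))⁻¹ = (⟨(h59_jbar (M * q * q))⁻¹, h80_jbar_inv_mem_F0 (M * q * q) (A.inertiaSubgroupIn ℚ)⟩ : h69_F0 (M * q * q) (A.inertiaSubgroupIn ℚ)) := Subtype.ext rfl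
  have h := (h65_noeth_q2b M q hqM A hA ζ hζ hex).2
  rw [hT] at h
  exact h

/-- **Row (XFER), closed**: the hypothesis `hxfer` of `h94_hwit_final`, VERBATIM. -/
theorem h89_hxfer_w2 (M q : ℕ) [NeZero M] [NeZero q] [Fact q.Prime] (hqM : ¬ q ∣ M)
    (A : ValuationSubring Qb) (hA : A.LiesOverPrime q) (ζ : Qb) (hζ : IsPrimitiveRoot ζ q)
    (hex : h98_Ex M q hqM A ζ hζ) :
        ∀ Ez : Divisor Qb (modularFunctionFieldBar (M * q * q)),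
      (∀ 𝔪 : Ideal (h80_fam1 (M * q * q) (A.inertiaSubgroupIn ℚ) (h98_w2 M q hqM A ζ hζ hex) (h98_hw2mul M q hqM A hA ζ hζ hex) (h98_hw2add M q hqM A hA ζ hζ hex)).B, 𝔪.IsMaximal →
        (∃ hq0B : ((q : ℕ) : h69_F0 (M * q * q) (A.inertiaSubgroupIn ℚ)) ∈ (h80_fam1 (M * q * q) (A.inertiaSubgroupIn ℚ) (h98_w2 M q hqM A ζ hζ hex) (h98_hw2mul M q hqM A hA ζ hζ hex) (h98_hw2add M q hqM A hA ζ hζ hex)).B, (⟨((q : ℕ) : h69_F0 (M * q * q) (A.inertiaSubgroupIn ℚ)), hq0B⟩ : (h80_fam1 (M * q * q) (A.inertiaSubgroupIn ℚ) (h98_w2 M q hqM A ζ hζ hex) (h98_hw2mul M q hqM A hA ζ hζ hex) (h98_hw2add M q hqM A hA ζ hζ hex)).B) ∈ 𝔪) →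
        ∃ e y : h69_F0 (M * q * q) (A.inertiaSubgroupIn ℚ), e ≠ 0 ∧ y ≠ 0 ∧
          (h80_fam1 (M * q * q) (A.inertiaSubgroupIn ℚ) (h98_w2 M q hqM A ζ hζ hex) (h98_hw2mul M q hqM A hA ζ hζ hex) (h98_hw2add M q hqM A hA ζ hζ hex)).InLoc 𝔪 y ∧
          (h80_fam1 (M * q * q) (A.inertiaSubgroupIn ℚ) (h98_w2 M q hqM A ζ hζ hex) (h98_hw2mul M q hqM A hA ζ hζ hex) (h98_hw2add M q hqM A hA ζ hζ hex)).InLoc 𝔪 y⁻¹ ∧
          (∀ i, i ∉ Set.range Sum.inl →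
            (h80_fam1 (M * q * q) (A.inertiaSubgroupIn ℚ) (h98_w2 M q hqM A ζ hζ hex) (h98_hw2mul M q hqM A hA ζ hζ hex) (h98_hw2add M q hqM A hA ζ hζ hex)).Through 𝔪 i →
            ∀ P : Place Qb (modularFunctionFieldBar (M * q * q)),
              (∀ f : h69_F0 (M * q * q) (A.inertiaSubgroupIn ℚ), f ≠ 0 →
                (h80_fam1 (M * q * q) (A.inertiaSubgroupIn ℚ) (h98_w2 M q hqM A ζ hζ hex) (h98_hw2mul M q hqM A hA ζ hζ hex) (h98_hw2add M q hqM A hA ζ hζ hex)).v i f =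
                  P.ord (f : modularFunctionFieldBar (M * q * q))) →
              (h80_fam1 (M * q * q) (A.inertiaSubgroupIn ℚ) (h98_w2 M q hqM A ζ hζ hex) (h98_hw2mul M q hqM A hA ζ hζ hex) (h98_hw2add M q hqM A hA ζ hζ hex)).v i e =
                (Ez : Divisor Qb (modularFunctionFieldBar (M * q * q))) P) ∧
          ∀ c : Fin 3, (h80_fam1 (M * q * q) (A.inertiaSubgroupIn ℚ) (h98_w2 M q hqM A ζ hζ hex) (h98_hw2mul M q hqM A hA ζ hζ hex) (h98_hw2add M q hqM A hA ζ hζ hex)).Through 𝔪 (Sum.inl c) →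
            (e = y ∨ ((![1, q - 1, 1] : Fin 3 → ℕ) c : ℤ) ≤ (h98_w2 M q hqM A ζ hζ hex) c (e - y))) →
      (∀ 𝔪 : Ideal (h80_fam2 (M * q * q) (A.inertiaSubgroupIn ℚ) (h98_w2 M q hqM A ζ hζ hex) (h98_hw2mul M q hqM A hA ζ hζ hex) (h98_hw2add M q hqM A hA ζ hζ hex)).B, 𝔪.IsMaximal →
        (∃ hq0B : ((q : ℕ) : h69_F0 (M * q * q) (A.inertiaSubgroupIn ℚ)) ∈ (h80_fam2 (M * q * q) (A.inertiaSubgroupIn ℚ) (h98_w2 M q hqM A ζ hζ hex) (h98_hw2mul M q hqM A hA ζ hζ hex) (h98_hw2add M q hqM A hA ζ hζ hex)).B, (⟨((q : ℕ) : h69_F0 (M * q * q) (A.inertiaSubgroupIn ℚ)), hq0B⟩ : (h80_fam2 (M * q * q) (A.inertiaSubgroupIn ℚ) (h98_w2 M q hqM A ζ hζ hex) (h98_hw2mul M q hqM A hA ζ hζ hex) (h98_hw2add M q hqM A hA ζ hζ hex)).B) ∈ 𝔪) →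
        (∃ hTB : (⟨(h59_jbar (M * q * q))⁻¹, h80_jbar_inv_mem_F0 (M * q * q) (A.inertiaSubgroupIn ℚ)⟩ : h69_F0 (M * q * q) (A.inertiaSubgroupIn ℚ)) ∈ (h80_fam2 (M * q * q) (A.inertiaSubgroupIn ℚ) (h98_w2 M q hqM A ζ hζ hex) (h98_hw2mul M q hqM A hA ζ hζ hex) (h98_hw2add M q hqM A hA ζ hζ hex)).B, (⟨(⟨(h59_jbar (M * q * q))⁻¹, h80_jbar_inv_mem_F0 (M * q * q) (A.inertiaSubgroupIn ℚ)⟩ : h69_F0 (M * q * q) (A.inertiaSubgroupIn ℚ)), hTB⟩ : (h80_fam2 (M * q * q) (A.inertiaSubgroupIn ℚ) (h98_w2 M q hqM A ζ hζ hex) (h98_hw2mul M q hqM A hA ζ hζ hex) (h98_hw2add M q hqM A hA ζ hζ hex)).B) ∈ 𝔪) →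
        ∃ e y : h69_F0 (M * q * q) (A.inertiaSubgroupIn ℚ), e ≠ 0 ∧ y ≠ 0 ∧
          (h80_fam2 (M * q * q) (A.inertiaSubgroupIn ℚ) (h98_w2 M q hqM A ζ hζ hex) (h98_hw2mul M q hqM A hA ζ hζ hex) (h98_hw2add M q hqM A hA ζ hζ hex)).InLoc 𝔪 y ∧
          (h80_fam2 (M * q * q) (A.inertiaSubgroupIn ℚ) (h98_w2 M q hqM A ζ hζ hex) (h98_hw2mul M q hqM A hA ζ hζ hex) (h98_hw2add M q hqM A hA ζ hζ hex)).InLoc 𝔪 y⁻¹ ∧
          (∀ i, i ∉ Set.range Sum.inl →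
            (h80_fam2 (M * q * q) (A.inertiaSubgroupIn ℚ) (h98_w2 M q hqM A ζ hζ hex) (h98_hw2mul M q hqM A hA ζ hζ hex) (h98_hw2add M q hqM A hA ζ hζ hex)).Through 𝔪 i →
            ∀ P : Place Qb (modularFunctionFieldBar (M * q * q)),
              (∀ f : h69_F0 (M * q * q) (A.inertiaSubgroupIn ℚ), f ≠ 0 →
                (h80_fam2 (M * q * q) (A.inertiaSubgroupIn ℚ) (h98_w2 M q hqM A ζ hζ hex) (h98_hw2mul M q hqM A hA ζ hζ hex) (h98_hw2add M q hqM A hA ζ hζ hex)).v i f =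
                  P.ord (f : modularFunctionFieldBar (M * q * q))) →
              (h80_fam2 (M * q * q) (A.inertiaSubgroupIn ℚ) (h98_w2 M q hqM A ζ hζ hex) (h98_hw2mul M q hqM A hA ζ hζ hex) (h98_hw2add M q hqM A hA ζ hζ hex)).v i e =
                (Ez : Divisor Qb (modularFunctionFieldBar (M * q * q))) P) ∧
          ∀ c : Fin 3, (h80_fam2 (M * q * q) (A.inertiaSubgroupIn ℚ) (h98_w2 M q hqM A ζ hζ hex) (h98_hw2mul M q hqM A hA ζ hζ hex) (h98_hw2add M q hqM A hA ζ hζ hex)).Through 𝔪 (Sum.inl c) →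
            (e = y ∨ ((![1, q - 1, 1] : Fin 3 → ℕ) c : ℤ) ≤ (h98_w2 M q hqM A ζ hζ hex) c (e - y))) →
      ∀ 𝔪 : Ideal (h80_fam2 (M * q * q) (A.inertiaSubgroupIn ℚ) (h98_w2 M q hqM A ζ hζ hex) (h98_hw2mul M q hqM A hA ζ hζ hex) (h98_hw2add M q hqM A hA ζ hζ hex)).B, 𝔪.IsMaximal →
        (∃ hq0B : ((q : ℕ) : h69_F0 (M * q * q) (A.inertiaSubgroupIn ℚ)) ∈ (h80_fam2 (M * q * q) (A.inertiaSubgroupIn ℚ) (h98_w2 M q hqM A ζ hζ hex) (h98_hw2mul M q hqM A hA ζ hζ hex) (h98_hw2add M q hqM A hA ζ hζ hex)).B, (⟨((q : ℕ) : h69_F0 (M * q * q) (A.inertiaSubgroupIn ℚ)), hq0B⟩ : (h80_fam2 (M * q * q) (A.inertiaSubgroupIn ℚ) (h98_w2 M q hqM A ζ hζ hex) (h98_hw2mul M q hqM A hA ζ hζ hex) (h98_hw2add M q hqM A hA ζ hζ hex)).B) ∈ 𝔪) →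
        ∃ e y : h69_F0 (M * q * q) (A.inertiaSubgroupIn ℚ), e ≠ 0 ∧ y ≠ 0 ∧
          (h80_fam2 (M * q * q) (A.inertiaSubgroupIn ℚ) (h98_w2 M q hqM A ζ hζ hex) (h98_hw2mul M q hqM A hA ζ hζ hex) (h98_hw2add M q hqM A hA ζ hζ hex)).InLoc 𝔪 y ∧
          (h80_fam2 (M * q * q) (A.inertiaSubgroupIn ℚ) (h98_w2 M q hqM A ζ hζ hex) (h98_hw2mul M q hqM A hA ζ hζ hex) (h98_hw2add M q hqM A hA ζ hζ hex)).InLoc 𝔪 y⁻¹ ∧
          (∀ i, i ∉ Set.range Sum.inl →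
            (h80_fam2 (M * q * q) (A.inertiaSubgroupIn ℚ) (h98_w2 M q hqM A ζ hζ hex) (h98_hw2mul M q hqM A hA ζ hζ hex) (h98_hw2add M q hqM A hA ζ hζ hex)).Through 𝔪 i →
            ∀ P : Place Qb (modularFunctionFieldBar (M * q * q)),
              (∀ f : h69_F0 (M * q * q) (A.inertiaSubgroupIn ℚ), f ≠ 0 →
                (h80_fam2 (M * q * q) (A.inertiaSubgroupIn ℚ) (h98_w2 M q hqM A ζ hζ hex) (h98_hw2mul M q hqM A hA ζ hζ hex) (h98_hw2add M q hqM A hA ζ hζ hex)).v i f =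
                  P.ord (f : modularFunctionFieldBar (M * q * q))) →
              (h80_fam2 (M * q * q) (A.inertiaSubgroupIn ℚ) (h98_w2 M q hqM A ζ hζ hex) (h98_hw2mul M q hqM A hA ζ hζ hex) (h98_hw2add M q hqM A hA ζ hζ hex)).v i e =
                (Ez : Divisor Qb (modularFunctionFieldBar (M * q * q))) P) ∧
          ∀ c : Fin 3, (h80_fam2 (M * q * q) (A.inertiaSubgroupIn ℚ) (h98_w2 M q hqM A ζ hζ hex) (h98_hw2mul M q hqM A hA ζ hζ hex) (h98_hw2add M q hqM A hA ζ hζ hex)).Through 𝔪 (Sum.inl c) →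
            (e = y ∨ ((![1, q - 1, 1] : Fin 3 → ℕ) c : ℤ) ≤ (h98_w2 M q hqM A ζ hζ hex) c (e - y)) := by
  intro Ez h1 hc
  have hq0 : ((((q : ℕ) : h69_F0 (M * q * q) (A.inertiaSubgroupIn ℚ)) : h69_F0 (M * q * q) (A.inertiaSubgroupIn ℚ)) : modularFunctionFieldBar (M * q * q)) =
      algebraMap Qb (modularFunctionFieldBar (M * q * q)) ((q : ℕ) : Qb) := by
    rw [map_natCast]
    rfl
  exact h89_hwit_chart2 (M * q * q) q A (h98_w2 M q hqM A ζ hζ hex) (h98_hw2mul M q hqM A hA ζ hζ hex)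
    (h98_hw2add M q hqM A hA ζ hζ hex) hA (![1, q - 1, 1] : Fin 3 → ℕ)
    ((q : ℕ) : h69_F0 (M * q * q) (A.inertiaSubgroupIn ℚ)) hq0
    (h94_w2_q M q hqM A hA ζ hζ hex) (h69_hwA2 M q hqM A hA ζ hζ hex)
    (h65_J0 (M * q * q) (A.inertiaSubgroupIn ℚ)) (⟨(h59_jbar (M * q * q))⁻¹, h80_jbar_inv_mem_F0 (M * q * q) (A.inertiaSubgroupIn ℚ)⟩ : h69_F0 (M * q * q) (A.inertiaSubgroupIn ℚ)) rfl rfl
    (h69_w2_J0 M q hqM A hA ζ hζ hex) (h89_hint2_w2 M q hqM A hA ζ hζ hex) Ez h1 hc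

end Fermat.Agent.S36
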