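import Mathlib

/-!
# S36 / (CORE-LOC) (b) (helper90): the divided-difference lemma

Mathlib-only form of step (b) of board #3370 (2), with the proof of #3389 (no étale algebra, no
completions): `A` a local ring whose residue field is covered by a subring `R₀` and whose maximal
ideal is generated by `σ` together with elements of `R₀`; `i₀, i₂ : A →+* B` two local ring
homomorphisms into a noetherian local ring which agree on `R₀`. Then for every `g : A`

  `i₂ g - i₀ g ∈ (i₂ σ - i₀ σ) B`.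

(`A = R₀[σ] + 𝔪ⁿ` for all `n`; the difference of a polynomial in `σ` is divisible by
`i₂ σ - i₀ σ`; Krull's intersection theorem in `B ⧸ (i₂ σ - i₀ σ)`.)

Applications: `A = A_y`, `R₀ = O`, `𝔪 = (q, σ)` (points of the thick component);
`A = A_n`, `R₀ = O[τ]`, `𝔪 = (q, τ, σ)` (triple points).
-/

set_option autoImplicit false

namespace Fermat.Agent.S36

open IsLocalRing

/-- Elements of the maximal ideal are, modulo `𝔪²`, elements of `R₀[σ] ∩ 𝔪`. -/
theorem h90_dd_approx_one {A : Type*} [CommRing A] [IsLocalRing A]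
    (R₀ : Subring A) (σ : A) (P : Set A) (hP : P ⊆ R₀)
    (hres : ∀ a : A, ∃ c ∈ R₀, a - c ∈ maximalIdeal A)
    (hm : maximalIdeal A = Ideal.span (insert σ P))
    (b : A) (hb : b ∈ maximalIdeal A) :
    ∃ s ∈ Subring.closure (insert σ (R₀ : Set A)), s ∈ maximalIdeal A ∧
      b - s ∈ maximalIdeal A ^ 2 := by
  have hgen : ∀ x ∈ insert σ P, x ∈ Subring.closure (insert σ (R₀ : Set A)) := by
    intro x hx
    rcases hx with rfl | hx
    · exact Subring.subset_closure (Set.mem_insert _ _)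
    · exact Subring.subset_closure (Set.mem_insert_of_mem _ (hP hx))
  have hgenm : ∀ x ∈ insert σ P, x ∈ maximalIdeal A := fun x hx => by
    rw [hm]
    exact Ideal.subset_span hx
  rw [hm] at hb
  induction hb using Submodule.span_induction with
  | mem x hx =>
    exact ⟨x, hgen x hx, hgenm x hx, by simp⟩
  | zero => exact ⟨0, Subring.zero_mem _, Ideal.zero_mem _, by simp⟩
  | add x y _ _ hx hy =>
    obtain ⟨s, hs, hsm, hxs⟩ := hx
    obtain ⟨t, ht, htm, hyt⟩ := hy
    refine ⟨s + t, Subring.add_mem _ hs ht, Ideal.add_mem _ hsm htm, ?_⟩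
    have : x + y - (s + t) = (x - s) + (y - t) := by ring
    rw [this]
    exact Ideal.add_mem _ hxs hyt
  | smul r x _ hx =>
    obtain ⟨s, hs, hsm, hxs⟩ := hx
    obtain ⟨c, hc, hrc⟩ := hres r
    refine ⟨c * s, Subring.mul_mem _ (Subring.subset_closure (Set.mem_insert_of_mem _ hc)) hs,
      Ideal.mul_mem_left _ _ hsm, ?_⟩
    have : r • x - c * s = (r - c) * s + r * (x - s) := by
      rw [smul_eq_mul]
      ring
    rw [this]
    rw [pow_two] at hxs ⊢
    exact Ideal.add_mem _ (Ideal.mul_mem_mul hrc hsm) (Ideal.mul_mem_left _ _ hxs)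

/-- Elements of `𝔪ⁿ` are, modulo `𝔪ⁿ⁺¹`, elements of `R₀[σ] ∩ 𝔪ⁿ`. -/
theorem h90_dd_approx_pow {A : Type*} [CommRing A] [IsLocalRing A]
    (R₀ : Subring A) (σ : A) (P : Set A) (hP : P ⊆ R₀)
    (hres : ∀ a : A, ∃ c ∈ R₀, a - c ∈ maximalIdeal A)
    (hm : maximalIdeal A = Ideal.span (insert σ P)) (n : ℕ) :
    ∀ h : A, h ∈ maximalIdeal A ^ n →
      ∃ s ∈ Subring.closure (insert σ (R₀ : Set A)), s ∈ maximalIdeal A ^ n ∧
        h - s ∈ maximalIdeal A ^ (n + 1) := by
  induction n with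
  | zero =>
    intro h _
    obtain ⟨c, hc, hhc⟩ := hres h
    exact ⟨c, Subring.subset_closure (Set.mem_insert_of_mem _ hc), by simp, by simpa using hhc⟩
  | succ n ih =>
    intro h hh
    rw [pow_succ] at hh
    refine Submodule.mul_induction_on hh ?_ ?_
    · intro a ha b hb
      obtain ⟨sa, hsa, hsam, hsa'⟩ := ih a ha
      obtain ⟨sb, hsb, hsbm, hsb'⟩ := h90_dd_approx_one R₀ σ P hP hres hm b hb
      refine ⟨sa * sb, Subring.mul_mem _ hsa hsb, ?_, ?_⟩
      · rw [pow_succ]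
        exact Ideal.mul_mem_mul hsam hsbm
      · have : a * b - sa * sb = sa * (b - sb) + (a - sa) * b := by ring
        rw [this]
        refine Ideal.add_mem _ ?_ ?_
        · have h1 : sa * (b - sb) ∈ maximalIdeal A ^ n * maximalIdeal A ^ 2 :=
            Ideal.mul_mem_mul hsam hsb'
          rw [← pow_add] at h1
          exact h1
        · have h1 : (a - sa) * b ∈ maximalIdeal A ^ (n + 1) * maximalIdeal A :=
            Ideal.mul_mem_mul hsa' hb
          rw [← pow_succ] at h1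
          exact h1
    · intro x y hx hy
      obtain ⟨s, hs, hsm, hxs⟩ := hx
      obtain ⟨t, ht, htm, hyt⟩ := hy
      refine ⟨s + t, Subring.add_mem _ hs ht, Ideal.add_mem _ hsm htm, ?_⟩
      have : x + y - (s + t) = (x - s) + (y - t) := by ring
      rw [this]
      exact Ideal.add_mem _ hxs hyt

/-- `A = R₀[σ] + 𝔪ⁿ` for every `n`. -/
theorem h90_dd_approx {A : Type*} [CommRing A] [IsLocalRing A]
    (R₀ : Subring A) (σ : A) (P : Set A) (hP : P ⊆ R₀)
    (hres : ∀ a : A, ∃ c ∈ R₀, a - c ∈ maximalIdeal A)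
    (hm : maximalIdeal A = Ideal.span (insert σ P)) (n : ℕ) (g : A) :
    ∃ s ∈ Subring.closure (insert σ (R₀ : Set A)), g - s ∈ maximalIdeal A ^ n := by
  induction n with
  | zero => exact ⟨0, Subring.zero_mem _, by simp⟩
  | succ n ih =>
    obtain ⟨s, hs, hgs⟩ := ih
    obtain ⟨s', hs', _, hgs'⟩ := h90_dd_approx_pow R₀ σ P hP hres hm n (g - s) hgs
    refine ⟨s + s', Subring.add_mem _ hs hs', ?_⟩
    have : g - (s + s') = g - s - s' := by ring
    rw [this]
    exact hgs'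

/-- On `R₀[σ]` the difference `i₂ - i₀` takes values in `(i₂ σ - i₀ σ)`. -/
theorem h90_dd_closure {A B : Type*} [CommRing A] [CommRing B]
    (R₀ : Subring A) (σ : A) (i₀ i₂ : A →+* B) (heq : ∀ c ∈ R₀, i₀ c = i₂ c)
    (s : A) (hs : s ∈ Subring.closure (insert σ (R₀ : Set A))) :
    i₂ s - i₀ s ∈ Ideal.span {i₂ σ - i₀ σ} := by
  induction hs using Subring.closure_induction with
  | mem x hx =>
    rcases hx with rfl | hx
    · exact Ideal.mem_span_singleton_self _
    · rw [heq x hx, sub_self]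
      exact Ideal.zero_mem _
  | zero => simp
  | one => simp
  | add x y _ _ hx hy =>
    have : i₂ (x + y) - i₀ (x + y) = (i₂ x - i₀ x) + (i₂ y - i₀ y) := by
      rw [map_add, map_add]
      ring
    rw [this]
    exact Ideal.add_mem _ hx hy
  | neg x _ hx =>
    have : i₂ (-x) - i₀ (-x) = -(i₂ x - i₀ x) := by
      rw [map_neg, map_neg]
      ring
    rw [this]
    exact neg_mem hx
  | mul x y _ _ hx hy =>
    have : i₂ (x * y) - i₀ (x * y) = i₂ x * (i₂ y - i₀ y) + i₀ y * (i₂ x - i₀ x) := by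
      rw [map_mul, map_mul]
      ring
    rw [this]
    exact Ideal.add_mem _ (Ideal.mul_mem_left _ _ hy) (Ideal.mul_mem_left _ _ hx)

/-- **Divided differences** (board #3370 (2)(b), proof of #3389). -/
theorem h90_divided_difference {A B : Type*} [CommRing A] [IsLocalRing A]
    [CommRing B] [IsLocalRing B] [IsNoetherianRing B]
    (R₀ : Subring A) (σ : A) (P : Set A) (hP : P ⊆ R₀)
    (hres : ∀ a : A, ∃ c ∈ R₀, a - c ∈ maximalIdeal A)
    (hm : maximalIdeal A = Ideal.span (insert σ P))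
    (i₀ i₂ : A →+* B) (heq : ∀ c ∈ R₀, i₀ c = i₂ c)
    (h0 : ∀ a ∈ maximalIdeal A, i₀ a ∈ maximalIdeal B)
    (h2 : ∀ a ∈ maximalIdeal A, i₂ a ∈ maximalIdeal B) (g : A) :
    i₂ g - i₀ g ∈ Ideal.span {i₂ σ - i₀ σ} := by
  set J : Ideal B := Ideal.span {i₂ σ - i₀ σ} with hJ
  -- images of `𝔪_Aⁿ` lie in `𝔪_Bⁿ`
  have hpow : ∀ (i : A →+* B), (∀ a ∈ maximalIdeal A, i a ∈ maximalIdeal B) →
      ∀ (n : ℕ) (h : A), h ∈ maximalIdeal A ^ n → i h ∈ maximalIdeal B ^ n := by
    intro i hi n h hh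
    have h1 : (maximalIdeal A).map i ≤ maximalIdeal B := by
      rw [Ideal.map_le_iff_le_comap]
      exact fun a ha => hi a ha
    have h2 : i h ∈ (maximalIdeal A ^ n).map i := Ideal.mem_map_of_mem i hh
    rw [Ideal.map_pow] at h2
    exact Ideal.pow_right_mono h1 n h2
  -- the class of `i₂ g - i₀ g` in `B ⧸ J` lies in every `𝔪ⁿ • ⊤`
  have hmem : ∀ n : ℕ, Ideal.Quotient.mk J (i₂ g - i₀ g) ∈
      (maximalIdeal B ^ n • ⊤ : Submodule B (B ⧸ J)) := by
    intro n
    obtain ⟨s, hs, hgs⟩ := h90_dd_approx R₀ σ P hP hres hm n g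
    have hsJ := h90_dd_closure R₀ σ i₀ i₂ heq s hs
    have hd : i₂ g - i₀ g = (i₂ s - i₀ s) + (i₂ (g - s) - i₀ (g - s)) := by
      rw [map_sub, map_sub]
      ring
    have hr : i₂ (g - s) - i₀ (g - s) ∈ maximalIdeal B ^ n :=
      Ideal.sub_mem _ (hpow i₂ h2 n _ hgs) (hpow i₀ h0 n _ hgs)
    have hq : Ideal.Quotient.mk J (i₂ g - i₀ g) =
        (i₂ (g - s) - i₀ (g - s)) • (Ideal.Quotient.mk J 1) := by
      rw [hd, map_add, Ideal.Quotient.eq_zero_iff_mem.2 hsJ, zero_add, Algebra.smul_def,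
        Ideal.Quotient.algebraMap_eq, map_one, mul_one]
    rw [hq]
    exact Submodule.smul_mem_smul hr Submodule.mem_top
  have hK : (⨅ n : ℕ, maximalIdeal B ^ n • ⊤ : Submodule B (B ⧸ J)) = ⊥ :=
    Ideal.iInf_pow_smul_eq_bot_of_isLocalRing _ (IsLocalRing.maximalIdeal.isMaximal B).ne_top
  have hz : Ideal.Quotient.mk J (i₂ g - i₀ g) ∈
      (⨅ n : ℕ, maximalIdeal B ^ n • ⊤ : Submodule B (B ⧸ J)) := by
    rw [Submodule.mem_iInf]
    exact hmem
  rw [hK, Submodule.mem_bot] at hz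
  exact Ideal.Quotient.eq_zero_iff_mem.1 hz

end Fermat.Agent.S36
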