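import Mathlib

/-!
# S36 / (CORE-LOC) C4, C4', C5, C6 (helper90): branches of the special fibre, local algebra

Mathlib-only. Notation of board #3370: `B` is the local ring of the level-`q²` model at a closed
point `x` of the special fibre, `z` a local equation of a branch through `x`.

* `h90_mem_span_pow_of_mul` (C4): `z` prime, `s ∉ (z)`, `s * b ∈ (z ^ e)` ⟹ `b ∈ (z ^ e)`
  (so `B ⧸ (z ^ e) → B_(z) ⧸ (z ^ e)` is injective: with `q = unit * z ^ (q - 1)`,
  `S_x = B ⧸ q` embeds into the Artinian ring of the thick branch).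
* `h90_pow_mul_mem_span_pow_succ_iff` (C4'): `z ^ i * y ∈ (z ^ (i + 1)) ↔ y ∈ (z)`
  (the graded pieces of the `z`-adic filtration are copies of `B ⧸ (z)`).
* `h90_exists_expansion`, `h90_expansion_unique` (C4''): if `A₀ ⊆ B` is a subring with
  `B = A₀ + z B` and `A₀ ∩ z B ⊆ z ^ e B`, every element of `B` has an expansion
  `∑_{i < e} z ^ i * c i` modulo `z ^ e` with `c i ∈ A₀`, unique modulo `z B`: i.e.
  `B ⧸ (z ^ e) = (A₀ ⧸ A₀ ∩ z B)[z] ⧸ (z ^ e)`.
* `h90_dvr_of_principal_max` (C5): a noetherian local ring whose maximal ideal is generated by a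
  non-nilpotent element is a discrete valuation ring (in particular a domain).
* `h90_branch_dvr` (C6): if `𝔪_B = (b₀, b₂)` and some ring hom kills `b₀` and sends `b₂` to a
  non-nilpotent element (the reduction to the branch `b₀ = 0`), then `B ⧸ (b₀)` is a discrete
  valuation ring; `h90_branch_prime`: `(b₀)` is a prime ideal.
-/

set_option autoImplicit false

namespace Fermat.Agent.S36

open IsLocalRing

/-- (C4) -/
theorem h90_mem_span_pow_of_mul {B : Type*} [CommRing B] [IsDomain B] {z s b : B} (hz : Prime z)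
    (hs : s ∉ Ideal.span {z}) (e : ℕ) (h : s * b ∈ Ideal.span {z ^ e}) :
    b ∈ Ideal.span {z ^ e} := by
  rw [Ideal.mem_span_singleton] at h hs ⊢
  exact hz.pow_dvd_of_dvd_mul_left e hs h

/-- (C4') -/
theorem h90_pow_mul_mem_span_pow_succ_iff {B : Type*} [CommRing B] [IsDomain B] {z : B}
    (hz0 : z ≠ 0) (i : ℕ) (y : B) :
    z ^ i * y ∈ Ideal.span {z ^ (i + 1)} ↔ y ∈ Ideal.span {z} := by
  rw [Ideal.mem_span_singleton, Ideal.mem_span_singleton, pow_succ]
  exact mul_dvd_mul_iff_left (pow_ne_zero i hz0)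

/-- (C4'') existence of `z`-adic expansions with coefficients in a subring `A₀` such that
`B = A₀ + z B`. -/
theorem h90_exists_expansion {B : Type*} [CommRing B] (z : B) (A₀ : Subring B)
    (hA : ∀ b : B, ∃ a ∈ A₀, b - a ∈ Ideal.span {z}) (e : ℕ) (b : B) :
    ∃ c : ℕ → B, (∀ i, c i ∈ A₀) ∧
      b - ∑ i ∈ Finset.range e, z ^ i * c i ∈ Ideal.span {z ^ e} := by
  induction e generalizing b with
  | zero =>
    refine ⟨fun _ => 0, fun _ => A₀.zero_mem, ?_⟩
    simp
  | succ e ih =>
    obtain ⟨a, haA, ha⟩ := hA b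
    obtain ⟨y, hy⟩ := Ideal.mem_span_singleton'.1 ha
    obtain ⟨c, hcA, hc⟩ := ih y
    obtain ⟨w, hw⟩ := Ideal.mem_span_singleton'.1 hc
    refine ⟨fun i => if i = 0 then a else c (i - 1), fun i => ?_, ?_⟩
    · by_cases hi : i = 0
      · simp only [hi, if_true]
        exact haA
      · simp only [hi, if_false]
        exact hcA _
    · rw [Finset.sum_range_succ']
      simp only [Nat.add_eq_zero_iff, one_ne_zero, and_false, if_false, Nat.add_sub_cancel,
        pow_zero, one_mul, if_true]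
      rw [Ideal.mem_span_singleton']
      refine ⟨w, ?_⟩
      have h1 : ∑ i ∈ Finset.range e, z ^ (i + 1) * c i = z * ∑ i ∈ Finset.range e, z ^ i * c i := by
        rw [Finset.mul_sum]
        exact Finset.sum_congr rfl fun i _ => by ring
      rw [h1]
      have h2 : b = a + y * z := by rw [hy]; ring
      rw [h2, pow_succ]
      linear_combination z * hw

/-- (C4'') uniqueness of the expansion modulo `z`, when `A₀ ∩ z B ⊆ z ^ e B`. -/
theorem h90_expansion_unique {B : Type*} [CommRing B] [IsDomain B] {z : B} (hz0 : z ≠ 0)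
    (A₀ : Subring B) (e : ℕ)
    (hAz : ∀ a ∈ A₀, a ∈ Ideal.span {z} → a ∈ Ideal.span {z ^ e})
    (c : ℕ → B) (hc : ∀ i, c i ∈ A₀)
    (h : ∑ i ∈ Finset.range e, z ^ i * c i ∈ Ideal.span {z ^ e}) :
    ∀ i, i < e → c i ∈ Ideal.span {z} := by
  -- strengthen: for all `n ≤ e`, `∑_{i < n} z ^ i c (i + (e - n)) ∈ (z ^ n)` gives the claim
  have key : ∀ n : ℕ, n ≤ e → ∀ d : ℕ → B, (∀ i, d i ∈ A₀) →
      ∑ i ∈ Finset.range n, z ^ i * d i ∈ Ideal.span {z ^ n} →
      ∀ i, i < n → d i ∈ Ideal.span {z} := by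
    intro n
    induction n with
    | zero => intro _ _ _ _ i hi; omega
    | succ n ih =>
      intro hn d hd hsum i hi
      rw [Finset.sum_range_succ'] at hsum
      simp only [pow_zero, one_mul] at hsum
      have h1 : ∑ i ∈ Finset.range n, z ^ (i + 1) * d (i + 1) =
          z * ∑ i ∈ Finset.range n, z ^ i * d (i + 1) := by
        rw [Finset.mul_sum]
        exact Finset.sum_congr rfl fun i _ => by ring
      rw [h1] at hsum
      -- `d 0 ∈ (z)`
      have hd0 : d 0 ∈ Ideal.span {z} := by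
        obtain ⟨w, hw⟩ := Ideal.mem_span_singleton'.1 hsum
        rw [Ideal.mem_span_singleton']
        refine ⟨w * z ^ n - ∑ i ∈ Finset.range n, z ^ i * d (i + 1), ?_⟩
        rw [pow_succ] at hw
        linear_combination hw
      have hd0e : d 0 ∈ Ideal.span {z ^ (n + 1)} := by
        have h2 := hAz (d 0) (hd 0) hd0
        rw [Ideal.mem_span_singleton] at h2 ⊢
        exact (pow_dvd_pow z hn).trans h2
      have h3 : z * ∑ i ∈ Finset.range n, z ^ i * d (i + 1) ∈ Ideal.span {z ^ (n + 1)} := by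
        have := Ideal.sub_mem _ hsum hd0e
        simpa using this
      have h4 : ∑ i ∈ Finset.range n, z ^ i * d (i + 1) ∈ Ideal.span {z ^ n} := by
        rw [Ideal.mem_span_singleton] at h3 ⊢
        rw [pow_succ, mul_comm (z ^ n) z] at h3
        exact (mul_dvd_mul_iff_left hz0).1 h3
      rcases Nat.eq_zero_or_pos i with rfl | hipos
      · exact hd0
      · have := ih (by omega) (fun i => d (i + 1)) (fun i => hd _) h4 (i - 1) (by omega)
        rwa [Nat.sub_add_cancel hipos] at this
  exact key e le_rfl c hc h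

/-- (C5) A noetherian local ring whose maximal ideal is generated by a non-nilpotent element is a
discrete valuation ring. -/
theorem h90_dvr_of_principal_max {R : Type*} [CommRing R] [IsLocalRing R] [IsNoetherianRing R]
    (t : R) (ht : maximalIdeal R = Ideal.span {t}) (hnil : ¬ IsNilpotent t) :
    ∃ _ : IsDomain R, IsDiscreteValuationRing R := by
  have hK : (⨅ n : ℕ, maximalIdeal R ^ n) = ⊥ :=
    Ideal.iInf_pow_eq_bot_of_isLocalRing _ (IsLocalRing.maximalIdeal.isMaximal R).ne_top
  have key : ∀ x : R, x ≠ 0 → ∃ (n : ℕ) (u : R), IsUnit u ∧ x = u * t ^ n := by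
    intro x hx
    have hex : ∃ n, x ∉ maximalIdeal R ^ n := by
      by_contra hcon
      simp only [not_exists, not_not] at hcon
      apply hx
      have hmem : x ∈ (⨅ n : ℕ, maximalIdeal R ^ n) := by
        rw [Ideal.mem_iInf]
        exact hcon
      rw [hK] at hmem
      simpa using hmem
    classical
    have hn0 : Nat.find hex ≠ 0 := by
      intro h0
      have := Nat.find_spec hex
      rw [h0, pow_zero] at this
      exact this (by simp)
    obtain ⟨n, hn⟩ := Nat.exists_eq_succ_of_ne_zero hn0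
    have hxn : x ∈ maximalIdeal R ^ n := by
      by_contra hcon
      have := Nat.find_min' hex hcon
      omega
    rw [ht, Ideal.span_singleton_pow, Ideal.mem_span_singleton'] at hxn
    obtain ⟨u, hu⟩ := hxn
    refine ⟨n, u, ?_, hu.symm⟩
    by_contra hunit
    have hum : u ∈ maximalIdeal R := (IsLocalRing.mem_maximalIdeal u).2 hunit
    have hsucc := Nat.find_spec hex
    rw [hn] at hsucc
    apply hsucc
    have htm : t ∈ maximalIdeal R := by
      rw [ht]
      exact Ideal.mem_span_singleton_self t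
    rw [← hu, Nat.succ_eq_add_one, pow_succ, mul_comm u]
    exact Ideal.mul_mem_mul (Ideal.pow_mem_pow htm n) hum
  have hnzd : NoZeroDivisors R := by
    refine ⟨fun {x y} hxy => ?_⟩
    by_contra hcon
    rw [not_or] at hcon
    obtain ⟨n, u, hu, rfl⟩ := key x hcon.1
    obtain ⟨m, v, hv, rfl⟩ := key y hcon.2
    apply hnil
    refine ⟨n + m, ?_⟩
    have h1 : u * t ^ n * (v * t ^ m) = (u * v) * t ^ (n + m) := by ring
    rw [h1] at hxy
    exact (hu.mul hv).mul_right_eq_zero.1 hxy
  have hdom : IsDomain R := NoZeroDivisors.to_isDomain R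
  refine ⟨hdom, ?_⟩
  have ht0 : t ≠ 0 := by
    rintro rfl
    exact hnil IsNilpotent.zero
  have hnf : ¬ IsField R := by
    rw [IsLocalRing.isField_iff_maximalIdeal_eq, ht]
    intro h
    apply ht0
    have : t ∈ (⊥ : Ideal R) := by
      rw [← h]
      exact Ideal.mem_span_singleton_self t
    simpa using this
  have hpr : (maximalIdeal R).IsPrincipal := ⟨⟨t, ht⟩⟩
  exact ((IsDiscreteValuationRing.TFAE R hnf).out 0 4).2 hpr

/-- (C6) The branch `b₀ = 0` at a point with `𝔪 = (b₀, b₂)`: `B ⧸ (b₀)` is a discrete valuation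
ring as soon as some ring hom kills `b₀` and sends `b₂` to a non-nilpotent element. -/
theorem h90_branch_dvr {B : Type*} [CommRing B] [IsLocalRing B] [IsNoetherianRing B]
    (b₀ b₂ : B) (hm : maximalIdeal B = Ideal.span {b₀, b₂})
    {D : Type*} [CommRing D] (φ : B →+* D) (hφ0 : φ b₀ = 0) (hφ2 : ¬ IsNilpotent (φ b₂)) :
    ∃ (_ : IsLocalRing (B ⧸ Ideal.span {b₀})) (_ : IsDomain (B ⧸ Ideal.span {b₀})),
      IsDiscreteValuationRing (B ⧸ Ideal.span {b₀}) := by
  have hb0m : b₀ ∈ maximalIdeal B := by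
    rw [hm]
    exact Ideal.subset_span (by simp)
  have hb2m : b₂ ∈ maximalIdeal B := by
    rw [hm]
    exact Ideal.subset_span (by simp)
  have hle : Ideal.span {b₀} ≤ maximalIdeal B := (Ideal.span_singleton_le_iff_mem _).2 hb0m
  have hne : Ideal.span {b₀} ≠ ⊤ := fun h => by
    have : (1 : B) ∈ maximalIdeal B := hle (by rw [h]; trivial)
    exact (IsLocalRing.maximalIdeal.isMaximal B).ne_top ((Ideal.eq_top_iff_one _).2 this)
  have hnt : Nontrivial (B ⧸ Ideal.span {b₀}) := Ideal.Quotient.nontrivial_iff.2 hne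
  have hloc : IsLocalRing (B ⧸ Ideal.span {b₀}) :=
    IsLocalRing.of_surjective' (Ideal.Quotient.mk (Ideal.span {b₀})) Ideal.Quotient.mk_surjective
  refine ⟨hloc, ?_⟩
  have hmax : maximalIdeal (B ⧸ Ideal.span {b₀}) =
      Ideal.span {Ideal.Quotient.mk (Ideal.span {b₀}) b₂} := by
    apply le_antisymm
    · intro x hx
      obtain ⟨y, rfl⟩ := Ideal.Quotient.mk_surjective x
      have hy : y ∈ maximalIdeal B := by
        rw [IsLocalRing.mem_maximalIdeal, mem_nonunits_iff] at hx ⊢
        exact fun hu => hx (hu.map _)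
      rw [hm, Ideal.mem_span_pair] at hy
      obtain ⟨a, c, rfl⟩ := hy
      rw [Ideal.mem_span_singleton']
      refine ⟨Ideal.Quotient.mk _ c, ?_⟩
      rw [map_add, map_mul, map_mul]
      have : Ideal.Quotient.mk (Ideal.span {b₀}) b₀ = 0 :=
        Ideal.Quotient.eq_zero_iff_mem.2 (Ideal.mem_span_singleton_self b₀)
      rw [this, mul_zero, zero_add]
    · rw [Ideal.span_singleton_le_iff_mem, IsLocalRing.mem_maximalIdeal, mem_nonunits_iff]
      intro hu
      obtain ⟨w, hw⟩ := hu.exists_right_inv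
      obtain ⟨w', rfl⟩ := Ideal.Quotient.mk_surjective w
      rw [← map_mul, ← map_one (Ideal.Quotient.mk (Ideal.span {b₀})), Ideal.Quotient.eq] at hw
      have h1 : b₂ * w' - 1 ∈ maximalIdeal B := hle hw
      have h2 : b₂ * w' ∈ maximalIdeal B := Ideal.mul_mem_right _ _ hb2m
      have h3 : (1 : B) ∈ maximalIdeal B := by
        have h4 := Ideal.sub_mem _ h2 h1
        rwa [sub_sub_cancel] at h4
      exact (IsLocalRing.maximalIdeal.isMaximal B).ne_top ((Ideal.eq_top_iff_one _).2 h3)
  have hnil : ¬ IsNilpotent (Ideal.Quotient.mk (Ideal.span {b₀}) b₂) := by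
    rintro ⟨n, hn⟩
    rw [← map_pow, Ideal.Quotient.eq_zero_iff_mem, Ideal.mem_span_singleton'] at hn
    obtain ⟨a, ha⟩ := hn
    apply hφ2
    refine ⟨n, ?_⟩
    rw [← map_pow, ← ha, map_mul, hφ0, mul_zero]
  exact h90_dvr_of_principal_max _ hmax hnil

/-- (C6) In the situation of `h90_branch_dvr`, `(b₀)` is a prime ideal. -/
theorem h90_branch_prime {B : Type*} [CommRing B] [IsLocalRing B] [IsNoetherianRing B]
    (b₀ b₂ : B) (hm : maximalIdeal B = Ideal.span {b₀, b₂})
    {D : Type*} [CommRing D] (φ : B →+* D) (hφ0 : φ b₀ = 0) (hφ2 : ¬ IsNilpotent (φ b₂)) :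
    (Ideal.span {b₀}).IsPrime := by
  obtain ⟨_, hdom, _⟩ := h90_branch_dvr b₀ b₂ hm φ hφ0 hφ2
  exact (Ideal.Quotient.isDomain_iff_prime _).1 hdom

end Fermat.Agent.S36
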