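import Mathlib
import Fermat.Agent.S36.h90_ThickEq
import Fermat.Agent.S36.h98_W2
import Fermat.Agent.S36.h21_ThetaTwist
import Fermat.Agent.S36.h60_HasseTheta

/-!
# S36 / I-PTS (B') (helper90): the thick equation, modular form

Level `(M q², M q)`, `q ∤ M`, `A` a valuation ring of `ℚ̄` over `q`, `ζ` a primitive `q`-th root
of unity, `mid = h98_midP` the middle expansion, `v₂ = h98_w2 .. 1` the middle Gauss valuation.

* `h90_theta_eq` : helper21's and helper20's `θ` agree;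
* `h90_mid4_pow` : **(MID-4), power form**: for `g ∈ F(M q)` with integral expansion,
  `mid (i2 g - i0 g) ^ (q - 1) / q` is a ratio of integral series and its reduction is
  `ε̄ * (θ ḡ) ^ (q - 1)` with `ε` a unit of `A`;
* `h90_thick_mod` : **(B')**: at a point `m` of the middle component with centre a non-cusp,
  non-supersingular place `y`, `z = i2 g - i0 g` is a local equation of the middle valuation,
  for `g` of level `q` whose reduction is a local parameter at `y` (up to a constant); the residue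
  datum enters through an evaluation principle `hEV`;
* `h90_ev_of_congr` : the evaluation principle from the characterisation of the residue map by
  level-`q` congruences (last clause of `h62_Res.exists_of_congr`) and the series form of the
  level-`q` residue map;
* `h90_thick_mod_congr` : the two combined.
-/

set_option autoImplicit false
set_option synthInstance.maxHeartbeats 400000
set_option linter.unusedSectionVars false

noncomputable section

open ModularCurve AlgebraicCurve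

namespace Fermat.Agent.S36

open Fermat.Agent.S34 Fermat.Agent.S37 Fermat.Agent.S24 Fermat.Agent.S35 Fermat.Agent.S18
  Fermat.Agent.GAL Fermat.Agent.S40

local notation "Qb" => AlgebraicClosure ℚ

/-- helper21's `θ` and helper20's `θ` are the same map. -/
theorem h90_theta_eq {R : Type*} [CommRing R] (f : LaurentSeries R) :
    h21_theta f = h20_thetaFun f := by
  ext n
  rw [h21_theta_coeff, h20_thetaFun_coeff]

section Mid4

variable (M q : ℕ) [NeZero M] [NeZero q] [Fact q.Prime] (hqM : ¬ q ∣ M)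
  (A : ValuationSubring Qb) (hA : A.LiesOverPrime q) (ζ : Qb) (hζ : IsPrimitiveRoot ζ q)

include hA in
/-- `ζ` reduces to `1`. -/
theorem h90_zeta_res :
    IsLocalRing.residue A ⟨ζ, h8_zeta_mem q A ζ hζ⟩ = 1 := by
  obtain ⟨h0, hmem, hinv, -⟩ := h98_zeta_unif q A hA ζ hζ
  have h1 : IsLocalRing.residue A (⟨ζ, h8_zeta_mem q A ζ hζ⟩ - 1) = 0 := by
    rw [IsLocalRing.residue_eq_zero_iff, IsLocalRing.mem_maximalIdeal, mem_nonunits_iff]
    intro hu
    obtain ⟨b, hb⟩ := hu.exists_right_inv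
    have hb' : (ζ - 1) * (b : Qb) = 1 := congrArg Subtype.val hb
    have : (b : Qb) = (ζ - 1)⁻¹ := eq_inv_of_mul_eq_one_right hb'
    exact hinv (this ▸ b.2)
  rw [map_sub, map_one, sub_eq_zero] at h1
  exact h1

include hA in
/-- **(MID-4), power form.**  For `g ∈ F(M q)` with integral expansion, the series
`mid (i2 g - i0 g) ^ (q - 1) * q⁻¹` is a ratio of integral series with reduction
`ε̄ * (θ ḡ) ^ (q - 1)`, `ε` a unit of `A`. -/
theorem h90_mid4_pow (g : modularFunctionFieldBar (M * q))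
    (hgO : ((g : modularFunctionFieldBar (M * q)) : LaurentSeries Qb) ∈ h60_Os A) :
    ∃ (ε : Qb) (hε : ε ∈ A), ε⁻¹ ∈ A ∧ ε ≠ 0 ∧
      ∃ h : h98_midP M q hqM ζ hζ (h36_i2 M q hqM g - h36_i0 M q g) ^ (q - 1)
          * algebraMap Qb (LaurentSeries Qb) ((q : Qb)⁻¹) ∈ h60_Os A,
        h60_rs A ⟨_, h⟩ = h20_thetaFun (h60_rs A ⟨_, hgO⟩) ^ (q - 1)
          * algebraMap (IsLocalRing.ResidueField A) (LaurentSeries (IsLocalRing.ResidueField A))
            (IsLocalRing.residue A ⟨ε, hε⟩) := by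
  have hq : q.Prime := Fact.out
  have hq0 : (q : Qb) ≠ 0 := Nat.cast_ne_zero.mpr hq.ne_zero
  obtain ⟨h0, -, -, ε, hε, hε', hε0, hpow⟩ := h98_zeta_unif q A hA ζ hζ
  have hζ0 : ζ ≠ 0 := hζ.ne_zero (NeZero.ne q)
  obtain ⟨hD, hDrs⟩ := h21_twistHom_theta A ζ (h8_zeta_mem q A ζ hζ) (h90_zeta_res q A hA ζ hζ)
    hζ0 (hζ.ne_one hq.one_lt) ⟨_, hgO⟩
  refine ⟨ε, hε, hε', hε0, ?_⟩
  have hmid : h98_midP M q hqM ζ hζ (h36_i2 M q hqM g - h36_i0 M q g)
      = h59_twistHom ζ hζ0 (g : LaurentSeries Qb) - (g : LaurentSeries Qb) := by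
    rw [map_sub, h98_midP_i2, h98_midP_i0]
  have hkey : h98_midP M q hqM ζ hζ (h36_i2 M q hqM g - h36_i0 M q g) ^ (q - 1)
        * algebraMap Qb (LaurentSeries Qb) ((q : Qb)⁻¹)
      = (algebraMap Qb (LaurentSeries Qb) ((ζ - 1)⁻¹) *
          (h59_twistHom ζ hζ0 (g : LaurentSeries Qb) - (g : LaurentSeries Qb))) ^ (q - 1)
        * algebraMap Qb (LaurentSeries Qb) ε := by
    rw [hmid, mul_pow, ← map_pow, mul_comm (algebraMap Qb (LaurentSeries Qb) _) (_ ^ (q - 1)),
      mul_assoc, ← map_mul]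
    congr 2
    rw [inv_pow, hpow]
    field_simp
  set Dm : h60_Os A := ⟨_, hD⟩ with hDm
  set Em : h60_Os A := ⟨_, h60_const_mem A hε⟩ with hEm
  have hmem : h98_midP M q hqM ζ hζ (h36_i2 M q hqM g - h36_i0 M q g) ^ (q - 1)
        * algebraMap Qb (LaurentSeries Qb) ((q : Qb)⁻¹) ∈ h60_Os A := by
    rw [hkey]
    exact (Dm ^ (q - 1) * Em).2
  refine ⟨hmem, ?_⟩
  have heq : (⟨_, hmem⟩ : h60_Os A) = Dm ^ (q - 1) * Em := Subtype.ext hkey
  rw [heq, map_mul, map_pow, hDm, hDrs, hEm, h60_rs_const, h90_theta_eq]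

end Mid4

section Thick

variable (M q : ℕ) [NeZero M] [NeZero q] [Fact q.Prime] (hqM : ¬ q ∣ M)
  (A : ValuationSubring Qb) (hA : A.LiesOverPrime q) (ζ : Qb) (hζ : IsPrimitiveRoot ζ q)
  (hex : h98_Ex M q hqM A ζ hζ)

include hA in
/-- **(B'), modular form, with an evaluation principle for the residue map.**

`V` a valuation family on `F0(M q²)` whose index `c` is the middle Gauss valuation, `m` a point
with `c` the only vertical valuation through it, `R` a residue datum of `c` at `m` with values in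
`Fb(M)` whose order function is `ord_y` (`y` a non-cusp place) and whose residue map is computed
by the middle series reduction (`hEV`).  `g ∈ F(M q)` with integral expansion whose reduction is
(the series of) `t ∈ Fb(M)`, regular off the cusps, with `t - c₀` a uniformiser at `y`; `W`, `Rρ`
as in `h60_hasse_theta` with `ord_y W = 0` (`y` is not supersingular).  Then
`z = i2 g - i0 g` is a local equation of `c` at `m`. -/
theorem h90_thick_mod (hch : 5 ≤ q ∨ 2 ∣ M ∨ 3 ∣ M) (h2 : nuTwo M = 0) (h3 : nuThree M = 0)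
    {ι : Type*} (V : h80_ValFam ↥(h69_F0 (M * q * q) (A.inertiaSubgroupIn ℚ)) ι)
    (m : Ideal V.B) [hm : m.IsPrime] (c : ι)
    (hVc : ∀ f : ↥(h69_F0 (M * q * q) (A.inertiaSubgroupIn ℚ)), f ≠ 0 →
      V.v c f = h98_w2 M q hqM A ζ hζ hex 1 f)
    (hc : V.Through m c)
    (hqB : (q : ↥(h69_F0 (M * q * q) (A.inertiaSubgroupIn ℚ))) ∈ V.B)
    (hvert : ∀ i, V.Through m i →
      0 < V.v i (q : ↥(h69_F0 (M * q * q) (A.inertiaSubgroupIn ℚ))) → i = c)
    (R : h62_Res V m c ↥(modularFunctionFieldFullC (IsLocalRing.ResidueField A) M))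
    (y : Place (IsLocalRing.ResidueField A)
      ↥(modularFunctionFieldFullC (IsLocalRing.ResidueField A) M))
    (hRo : ∀ g₀ : ↥(modularFunctionFieldFullC (IsLocalRing.ResidueField A) M), g₀ ≠ 0 →
      R.o g₀ = y.ord g₀)
    (hEV : ∀ (f : R.O) (g₀ : ↥(modularFunctionFieldFullC (IsLocalRing.ResidueField A) M))
      (h : h98_midP M q hqM ζ hζ
        (((f : ↥(h69_F0 (M * q * q) (A.inertiaSubgroupIn ℚ))) :
          modularFunctionFieldBar (M * q * q))) ∈ h60_Os A),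
      g₀ ≠ 0 → y.ord g₀ = 0 →
      h60_rs A ⟨_, h⟩ = (g₀ : LaurentSeries (IsLocalRing.ResidueField A)) → R.ρ f = g₀)
    (hy : h54_jk (IsLocalRing.ResidueField A) M ∈ y.toValuationSubring)
    (g : modularFunctionFieldBar (M * q))
    (hgO : ((g : modularFunctionFieldBar (M * q)) : LaurentSeries Qb) ∈ h60_Os A)
    (t : ↥(modularFunctionFieldFullC (IsLocalRing.ResidueField A) M))
    (htg : (t : LaurentSeries (IsLocalRing.ResidueField A)) = h60_rs A ⟨_, hgO⟩)
    (ht : ∀ Q : Place (IsLocalRing.ResidueField A)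
        ↥(modularFunctionFieldFullC (IsLocalRing.ResidueField A) M),
      h54_jk (IsLocalRing.ResidueField A) M ∈ Q.toValuationSubring → t ∈ Q.toValuationSubring)
    (c₀ : IsLocalRing.ResidueField A)
    (hs1 : y.ord (t - algebraMap (IsLocalRing.ResidueField A)
      ↥(modularFunctionFieldFullC (IsLocalRing.ResidueField A) M) c₀) = 1)
    (W Rρ : ↥(modularFunctionFieldFullC (IsLocalRing.ResidueField A) M)) (hW : W ≠ 0)
    (hRρ : (Rρ : LaurentSeries (IsLocalRing.ResidueField A))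
      = h20_thetaFun (jqModC (IsLocalRing.ResidueField A)) ^ (q - 1))
    (hU : Rρ ^ 6 = W * (h54_jk (IsLocalRing.ResidueField A) M ^ 4
      * (h54_jk (IsLocalRing.ResidueField A) M - 1728) ^ 3) ^ (q - 1))
    (hWy : y.ord W = 0)
    (z : ↥(h69_F0 (M * q * q) (A.inertiaSubgroupIn ℚ)))
    (hz : (z : modularFunctionFieldBar (M * q * q)) = h36_i2 M q hqM g - h36_i0 M q g)
    (hzL : V.InLoc m z) :
    z ≠ 0 ∧ V.v c z = 1 ∧ ∀ j, V.Through m j → j ≠ c → V.v j z = 0 := by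
  have hq : q.Prime := Fact.out
  have hq1 : 0 < q - 1 := Nat.sub_pos_of_lt hq.one_lt
  have hqF0 : (q : ↥(h69_F0 (M * q * q) (A.inertiaSubgroupIn ℚ))) ≠ 0 :=
    Nat.cast_ne_zero.mpr hq.ne_zero
  -- H(b)
  obtain ⟨cc, hcc, hcc0, hccord⟩ := h60_hasse_theta M q hqM hch A hA h2 h3 y hy t ht c₀ hs1
    (q - 1) W Rρ hW hRρ hU
  have hccord' : y.ord cc = 0 := by omega
  -- (MID-4)
  obtain ⟨ε, hε, hε', hε0, hmem, hrs⟩ := h90_mid4_pow M q hqM A hA ζ hζ g hgO
  -- the residue constant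
  have hεu : IsLocalRing.residue A ⟨ε, hε⟩ ≠ 0 := by
    rw [IsLocalRing.residue_ne_zero_iff_isUnit]
    exact IsUnit.of_mul_eq_one (⟨ε⁻¹, hε'⟩ : A) (Subtype.ext (mul_inv_cancel₀ hε0))
  obtain ⟨κ, hκ0, hκs, hκord⟩ : ∃ κ : ↥(modularFunctionFieldFullC (IsLocalRing.ResidueField A) M),
      κ ≠ 0 ∧ (κ : LaurentSeries (IsLocalRing.ResidueField A))
        = algebraMap (IsLocalRing.ResidueField A)
          (LaurentSeries (IsLocalRing.ResidueField A)) (IsLocalRing.residue A ⟨ε, hε⟩) ∧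
      y.ord κ = 0 :=
    ⟨algebraMap (IsLocalRing.ResidueField A)
        ↥(modularFunctionFieldFullC (IsLocalRing.ResidueField A) M)
        (IsLocalRing.residue A ⟨ε, hε⟩),
      (map_ne_zero _).mpr hεu, rfl, h35_ord_algebraMap y _⟩
  have hg₀0 : cc * κ ≠ 0 := mul_ne_zero hcc0 hκ0
  have hg₀ord : y.ord (cc * κ) = 0 := by
    rw [y.ord_mul hcc0 hκ0, hccord', hκord, add_zero]
  -- the element `η = z ^ (q - 1) / q`
  obtain ⟨η, hη⟩ : ∃ η : ↥(h69_F0 (M * q * q) (A.inertiaSubgroupIn ℚ)),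
      η = z ^ (q - 1) / (q : ↥(h69_F0 (M * q * q) (A.inertiaSubgroupIn ℚ))) := ⟨_, rfl⟩
  have hηmid : h98_midP M q hqM ζ hζ ((η : ↥(h69_F0 (M * q * q) (A.inertiaSubgroupIn ℚ))) :
        modularFunctionFieldBar (M * q * q))
      = h98_midP M q hqM ζ hζ (h36_i2 M q hqM g - h36_i0 M q g) ^ (q - 1)
          * algebraMap Qb (LaurentSeries Qb) ((q : Qb)⁻¹) := by
    have e1 : ((η : ↥(h69_F0 (M * q * q) (A.inertiaSubgroupIn ℚ))) :
        modularFunctionFieldBar (M * q * q))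
        = (z : modularFunctionFieldBar (M * q * q)) ^ (q - 1)
          / (q : modularFunctionFieldBar (M * q * q)) := by
      rw [hη, Subfield.coe_div, SubmonoidClass.coe_pow, SubringClass.coe_natCast]
    rw [e1, hz, map_div₀, map_pow, map_natCast, div_eq_mul_inv, map_inv₀, map_natCast]
  have hηO' : h98_midP M q hqM ζ hζ ((η : ↥(h69_F0 (M * q * q) (A.inertiaSubgroupIn ℚ))) :
        modularFunctionFieldBar (M * q * q)) ∈ h60_Os A := by
    rw [hηmid]
    exact hmem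
  have hηrs : h60_rs A ⟨_, hηO'⟩
      = ((cc * κ : ↥(modularFunctionFieldFullC (IsLocalRing.ResidueField A) M)) :
          LaurentSeries (IsLocalRing.ResidueField A)) := by
    have e2 : (⟨_, hηO'⟩ : h60_Os A) = ⟨_, hmem⟩ := Subtype.ext hηmid
    rw [e2, hrs, ← htg]
    show _ = (cc : LaurentSeries (IsLocalRing.ResidueField A))
      * (κ : LaurentSeries (IsLocalRing.ResidueField A))
    rw [hcc, hκs]
  have hηrs0 : h60_rs A ⟨_, hηO'⟩ ≠ 0 := by
    rw [hηrs]
    intro h0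
    exact hg₀0 (Subtype.ext h0)
  have hη0 : η ≠ 0 := by
    intro h0
    apply hηrs0
    have e3 : (⟨_, hηO'⟩ : h60_Os A) = 0 := Subtype.ext (by
      show h98_midP M q hqM ζ hζ ((η : ↥(h69_F0 (M * q * q) (A.inertiaSubgroupIn ℚ))) :
        modularFunctionFieldBar (M * q * q)) = 0
      rw [h0]
      simp)
    rw [e3, map_zero]
  have hz0 : z ≠ 0 := by
    rintro rfl
    apply hη0
    rw [hη, zero_pow hq1.ne', zero_div]
  have hvη : V.v c η = 0 := by
    rw [hVc η hη0]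
    exact (h98_v2_eq_zero_iff M q hqM A hA ζ hζ hex η hη0).mpr ⟨hηO', hηrs0⟩
  have hηRO : η ∈ R.O := R.mem_O η hη0 (by rw [hvη])
  have hρη : R.ρ ⟨η, hηRO⟩ = cc * κ := hEV ⟨η, hηRO⟩ (cc * κ) hηO' hg₀0 hg₀ord hηrs
  have hvq : V.v c (((⟨(q : ↥(h69_F0 (M * q * q) (A.inertiaSubgroupIn ℚ))), hqB⟩ : V.B) :
      ↥(h69_F0 (M * q * q) (A.inertiaSubgroupIn ℚ)))) = ((q - 1 : ℕ) : ℤ) := by
    show V.v c (q : ↥(h69_F0 (M * q * q) (A.inertiaSubgroupIn ℚ))) = _
    rw [hVc _ hqF0, h98_hq1 M q hqM A hA ζ hζ hex, Nat.cast_sub hq.one_le, Nat.cast_one]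
  have key := h90_thick_localEq_q V m ⟨(q : ↥(h69_F0 (M * q * q) (A.inertiaSubgroupIn ℚ))), hqB⟩
    hqF0 hc R hq1 hvq hvert hz0 hzL ⟨η, hηRO⟩ hη (by rw [hρη]; exact hg₀0)
    (by rw [hρη, hRo _ hg₀0, hg₀ord])
  exact ⟨hz0, key.1, key.2⟩

include hA in
/-- **The evaluation principle from a level-`q` congruence.**  `R₁` a residue datum at level `q`
whose residue map is the series reduction (`hC1`), `R` a residue datum at level `q²` on the middle
valuation characterised by congruences along `a = h70_aF0` (`hchar`, the last clause of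
`h62_Res.exists_of_congr`).  Then the residue map of `R` is computed by the middle series
reduction, on elements whose reduction has order `0` at the centre. -/
theorem h90_ev_of_congr
    {ι₁ : Type*} (V₁ : h80_ValFam ↥(h69_F0 (M * q) (A.inertiaSubgroupIn ℚ)) ι₁)
    (m₁ : Ideal V₁.B) (w₁ : ι₁)
    (R₁ : h62_Res V₁ m₁ w₁ ↥(modularFunctionFieldFullC (IsLocalRing.ResidueField A) M))
    (hC1 : ∀ y' : R₁.O, ∃ h : (((y' : ↥(h69_F0 (M * q) (A.inertiaSubgroupIn ℚ))) :
        modularFunctionFieldBar (M * q)) : LaurentSeries Qb) ∈ h60_Os A,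
      ((R₁.ρ y' : ↥(modularFunctionFieldFullC (IsLocalRing.ResidueField A) M)) :
        LaurentSeries (IsLocalRing.ResidueField A)) = h60_rs A ⟨_, h⟩)
    {ι : Type*} (V : h80_ValFam ↥(h69_F0 (M * q * q) (A.inertiaSubgroupIn ℚ)) ι)
    (m : Ideal V.B) (c : ι)
    (hVc : ∀ f : ↥(h69_F0 (M * q * q) (A.inertiaSubgroupIn ℚ)), f ≠ 0 →
      V.v c f = h98_w2 M q hqM A ζ hζ hex 1 f)
    (R : h62_Res V m c ↥(modularFunctionFieldFullC (IsLocalRing.ResidueField A) M))
    (y : Place (IsLocalRing.ResidueField A)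
      ↥(modularFunctionFieldFullC (IsLocalRing.ResidueField A) M))
    (hR₁o : ∀ g₀ : ↥(modularFunctionFieldFullC (IsLocalRing.ResidueField A) M), g₀ ≠ 0 →
      R₁.o g₀ = y.ord g₀)
    (hchar : ∀ (f : R.O) (y' : R₁.O),
      ((f : ↥(h69_F0 (M * q * q) (A.inertiaSubgroupIn ℚ)))
          - h70_aF0 (M * q) q (A.inertiaSubgroupIn ℚ)
            (y' : ↥(h69_F0 (M * q) (A.inertiaSubgroupIn ℚ))) = 0 ∨
        0 < V.v c ((f : ↥(h69_F0 (M * q * q) (A.inertiaSubgroupIn ℚ)))
          - h70_aF0 (M * q) q (A.inertiaSubgroupIn ℚ)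
            (y' : ↥(h69_F0 (M * q) (A.inertiaSubgroupIn ℚ))))) → R.ρ f = R₁.ρ y')
    (f : R.O) (g₀ : ↥(modularFunctionFieldFullC (IsLocalRing.ResidueField A) M))
    (h : h98_midP M q hqM ζ hζ
      (((f : ↥(h69_F0 (M * q * q) (A.inertiaSubgroupIn ℚ))) :
        modularFunctionFieldBar (M * q * q))) ∈ h60_Os A)
    (hg₀ : g₀ ≠ 0) (hord : y.ord g₀ = 0)
    (hrs : h60_rs A ⟨_, h⟩ = (g₀ : LaurentSeries (IsLocalRing.ResidueField A))) :
    R.ρ f = g₀ := by
  obtain ⟨y', -, hy'⟩ := R₁.surj g₀ hg₀ (by rw [hR₁o _ hg₀, hord])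
  obtain ⟨hy'O, hy'rs⟩ := hC1 y'
  rw [← hy']
  apply hchar f y'
  by_cases hd : (f : ↥(h69_F0 (M * q * q) (A.inertiaSubgroupIn ℚ)))
      - h70_aF0 (M * q) q (A.inertiaSubgroupIn ℚ)
        (y' : ↥(h69_F0 (M * q) (A.inertiaSubgroupIn ℚ))) = 0
  · exact Or.inl hd
  right
  rw [hVc _ hd]
  refine (h98_v2_pos_iff M q hqM A hA ζ hζ hex _ hd).mpr ?_
  have hmid : h98_midP M q hqM ζ hζ
      ((((f : ↥(h69_F0 (M * q * q) (A.inertiaSubgroupIn ℚ)))
          - h70_aF0 (M * q) q (A.inertiaSubgroupIn ℚ)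
            (y' : ↥(h69_F0 (M * q) (A.inertiaSubgroupIn ℚ))) :
          ↥(h69_F0 (M * q * q) (A.inertiaSubgroupIn ℚ))) : modularFunctionFieldBar (M * q * q)))
      = h98_midP M q hqM ζ hζ
          (((f : ↥(h69_F0 (M * q * q) (A.inertiaSubgroupIn ℚ))) :
            modularFunctionFieldBar (M * q * q)))
        - (((y' : ↥(h69_F0 (M * q) (A.inertiaSubgroupIn ℚ))) :
            modularFunctionFieldBar (M * q)) : LaurentSeries Qb) := by
    have e1 : ((((f : ↥(h69_F0 (M * q * q) (A.inertiaSubgroupIn ℚ)))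
          - h70_aF0 (M * q) q (A.inertiaSubgroupIn ℚ)
            (y' : ↥(h69_F0 (M * q) (A.inertiaSubgroupIn ℚ))) :
          ↥(h69_F0 (M * q * q) (A.inertiaSubgroupIn ℚ))) : modularFunctionFieldBar (M * q * q)))
        = (((f : ↥(h69_F0 (M * q * q) (A.inertiaSubgroupIn ℚ))) :
            modularFunctionFieldBar (M * q * q)))
          - h36_i0 M q (((y' : ↥(h69_F0 (M * q) (A.inertiaSubgroupIn ℚ))) :
            modularFunctionFieldBar (M * q))) := rfl
    rw [e1, map_sub, h98_midP_i0]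
  have hmem : h98_midP M q hqM ζ hζ
      ((((f : ↥(h69_F0 (M * q * q) (A.inertiaSubgroupIn ℚ)))
          - h70_aF0 (M * q) q (A.inertiaSubgroupIn ℚ)
            (y' : ↥(h69_F0 (M * q) (A.inertiaSubgroupIn ℚ))) :
          ↥(h69_F0 (M * q * q) (A.inertiaSubgroupIn ℚ))) : modularFunctionFieldBar (M * q * q)))
      ∈ h60_Os A := by
    rw [hmid]
    exact (h60_Os A).sub_mem h hy'O
  refine ⟨hmem, ?_⟩
  have e2 : (⟨_, hmem⟩ : h60_Os A) = ⟨_, h⟩ - ⟨_, hy'O⟩ := Subtype.ext hmid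
  rw [e2, map_sub, hrs, ← hy'rs, hy', sub_self]

include hA in
/-- **(B'), modular form, in the shapes of `h62_Res.exists_of_congr`.**  As `h90_thick_mod`, with
the evaluation principle replaced by: a level-`q` residue datum `R₁` whose residue map is the
series reduction (`hC1`) and whose order function is `ord_y`, and the characterisation `hchar` of
the residue map of `R` by congruences along `a = h70_aF0`. -/
theorem h90_thick_mod_congr (hch : 5 ≤ q ∨ 2 ∣ M ∨ 3 ∣ M) (h2 : nuTwo M = 0)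
    (h3 : nuThree M = 0)
    {ι₁ : Type*} (V₁ : h80_ValFam ↥(h69_F0 (M * q) (A.inertiaSubgroupIn ℚ)) ι₁)
    (m₁ : Ideal V₁.B) (w₁ : ι₁)
    (R₁ : h62_Res V₁ m₁ w₁ ↥(modularFunctionFieldFullC (IsLocalRing.ResidueField A) M))
    (hC1 : ∀ y' : R₁.O, ∃ h : (((y' : ↥(h69_F0 (M * q) (A.inertiaSubgroupIn ℚ))) :
        modularFunctionFieldBar (M * q)) : LaurentSeries Qb) ∈ h60_Os A,
      ((R₁.ρ y' : ↥(modularFunctionFieldFullC (IsLocalRing.ResidueField A) M)) :
        LaurentSeries (IsLocalRing.ResidueField A)) = h60_rs A ⟨_, h⟩)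
    {ι : Type*} (V : h80_ValFam ↥(h69_F0 (M * q * q) (A.inertiaSubgroupIn ℚ)) ι)
    (m : Ideal V.B) [hm : m.IsPrime] (c : ι)
    (hVc : ∀ f : ↥(h69_F0 (M * q * q) (A.inertiaSubgroupIn ℚ)), f ≠ 0 →
      V.v c f = h98_w2 M q hqM A ζ hζ hex 1 f)
    (hc : V.Through m c)
    (hqB : (q : ↥(h69_F0 (M * q * q) (A.inertiaSubgroupIn ℚ))) ∈ V.B)
    (hvert : ∀ i, V.Through m i →
      0 < V.v i (q : ↥(h69_F0 (M * q * q) (A.inertiaSubgroupIn ℚ))) → i = c)
    (R : h62_Res V m c ↥(modularFunctionFieldFullC (IsLocalRing.ResidueField A) M))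
    (y : Place (IsLocalRing.ResidueField A)
      ↥(modularFunctionFieldFullC (IsLocalRing.ResidueField A) M))
    (hR₁o : ∀ g₀ : ↥(modularFunctionFieldFullC (IsLocalRing.ResidueField A) M), g₀ ≠ 0 →
      R₁.o g₀ = y.ord g₀)
    (hRo : ∀ g₀ : ↥(modularFunctionFieldFullC (IsLocalRing.ResidueField A) M), g₀ ≠ 0 →
      R.o g₀ = y.ord g₀)
    (hchar : ∀ (f : R.O) (y' : R₁.O),
      ((f : ↥(h69_F0 (M * q * q) (A.inertiaSubgroupIn ℚ)))
          - h70_aF0 (M * q) q (A.inertiaSubgroupIn ℚ)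
            (y' : ↥(h69_F0 (M * q) (A.inertiaSubgroupIn ℚ))) = 0 ∨
        0 < V.v c ((f : ↥(h69_F0 (M * q * q) (A.inertiaSubgroupIn ℚ)))
          - h70_aF0 (M * q) q (A.inertiaSubgroupIn ℚ)
            (y' : ↥(h69_F0 (M * q) (A.inertiaSubgroupIn ℚ))))) → R.ρ f = R₁.ρ y')
    (hy : h54_jk (IsLocalRing.ResidueField A) M ∈ y.toValuationSubring)
    (g : modularFunctionFieldBar (M * q))
    (hgO : ((g : modularFunctionFieldBar (M * q)) : LaurentSeries Qb) ∈ h60_Os A)
    (t : ↥(modularFunctionFieldFullC (IsLocalRing.ResidueField A) M))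
    (htg : (t : LaurentSeries (IsLocalRing.ResidueField A)) = h60_rs A ⟨_, hgO⟩)
    (ht : ∀ Q : Place (IsLocalRing.ResidueField A)
        ↥(modularFunctionFieldFullC (IsLocalRing.ResidueField A) M),
      h54_jk (IsLocalRing.ResidueField A) M ∈ Q.toValuationSubring → t ∈ Q.toValuationSubring)
    (c₀ : IsLocalRing.ResidueField A)
    (hs1 : y.ord (t - algebraMap (IsLocalRing.ResidueField A)
      ↥(modularFunctionFieldFullC (IsLocalRing.ResidueField A) M) c₀) = 1)
    (W Rρ : ↥(modularFunctionFieldFullC (IsLocalRing.ResidueField A) M)) (hW : W ≠ 0)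
    (hRρ : (Rρ : LaurentSeries (IsLocalRing.ResidueField A))
      = h20_thetaFun (jqModC (IsLocalRing.ResidueField A)) ^ (q - 1))
    (hU : Rρ ^ 6 = W * (h54_jk (IsLocalRing.ResidueField A) M ^ 4
      * (h54_jk (IsLocalRing.ResidueField A) M - 1728) ^ 3) ^ (q - 1))
    (hWy : y.ord W = 0)
    (z : ↥(h69_F0 (M * q * q) (A.inertiaSubgroupIn ℚ)))
    (hz : (z : modularFunctionFieldBar (M * q * q)) = h36_i2 M q hqM g - h36_i0 M q g)
    (hzL : V.InLoc m z) :
    z ≠ 0 ∧ V.v c z = 1 ∧ ∀ j, V.Through m j → j ≠ c → V.v j z = 0 :=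
  h90_thick_mod M q hqM A hA ζ hζ hex hch h2 h3 V m c hVc hc hqB hvert R y hRo
    (fun f g₀ h hg₀ hord hrs => h90_ev_of_congr M q hqM A hA ζ hζ hex V₁ m₁ w₁ R₁ hC1 V m c hVc
      R y hR₁o hchar f g₀ h hg₀ hord hrs)
    hy g hgO t htg ht c₀ hs1 W Rρ hW hRρ hU hWy z hz hzL

end Thick

end Fermat.Agent.S36

end
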