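import Mathlib
import Fermat.Agent.S36.h80_LocGen
import Fermat.Agent.S36.h62_NodeIface
import Fermat.Agent.S36.h62_BranchQuot

/-!
# S36 / I-PTS (TRIPLE-GEN) (helper90): `hunr` and `hsep` at a three-branch point

Generic (`h80_ValFam`) form of the list at the end of board #3567.  At a point `m` through which
three vertical valuations `c1, c2, c3` pass (`C20`, `C11`, `C02`), with

* `Q` (the prime `q`): `v c1 Q = 1`, `v c2 Q = e2 > 0`, `v c3 Q = 1`, horizontal values `0`;
* `π1` (`= i₂(b)`): values `1, 0, 0`, horizontal values `0`;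
* `π3` (`= i₀(b)`): values `0, 0, 1`, horizontal values `0`;
* `z` (`= e₂(s) - e₀(s)`): `v c2 z = 1`, integral at `m`;

and with `hunr`/`hsep` known for the horizontal valuations through `m` (row K), the hypotheses
`hunr`, `hsep` of `h62_unitStar_of_one_branch` hold for the branch `c := c1`:

* `h90_clear` : an element which is integral at `m` can be replaced by an element of `B` with the
  same valuations through `m`;
* `h90_triple_unr_sep` : the two statements;
* `h90_triple_unitStar` : `h62_UnitStar V m` from the table and the principal-ideal hypothesis.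
-/

set_option autoImplicit false

namespace Fermat.Agent.S36

variable {F : Type*} [Field F] {ι : Type*}

/-- An element integral at all valuations through `m` agrees, at those valuations, with an
element of `B`. -/
theorem h90_clear (V : h80_ValFam F ι) (m : Ideal V.B) [m.IsPrime] {f : F} (hf : f ≠ 0)
    (h : ∀ i, V.Through m i → 0 ≤ V.v i f) :
    ∃ g : V.B, (g : F) ≠ 0 ∧ ∀ j, V.Through m j → V.v j (g : F) = V.v j f := by
  obtain ⟨b, t, ht, hbt⟩ := (h80_inLoc_iff V m hf).mpr h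
  have ht0 := h80_ne_zero_of_not_mem V ht
  have hb0 : (b : F) ≠ 0 := by
    rw [← hbt]
    exact mul_ne_zero ht0 hf
  refine ⟨b, hb0, fun j hj => ?_⟩
  rw [← hbt, V.map_mul j _ _ ht0 hf, h80_through_eq_zero V hj ht, zero_add]

/-- **(TRIPLE-GEN)**: `hunr` and `hsep` of `h62_unitStar_of_one_branch` (branch `c1`) at a
three-branch point, from the valuation table. -/
theorem h90_triple_unr_sep (V : h80_ValFam F ι) (m : Ideal V.B) [m.IsPrime]
    (c1 c2 c3 : ι) (Hor : ι → Prop)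
    (hcase : ∀ i, V.Through m i → i = c1 ∨ i = c2 ∨ i = c3 ∨ Hor i)
    (Q π1 π3 z : F) (hQ0 : Q ≠ 0) (hπ10 : π1 ≠ 0) (hπ30 : π3 ≠ 0) (hz0 : z ≠ 0)
    (e2 : ℕ) (he2 : 0 < e2)
    (hQ1 : V.v c1 Q = 1) (hQ2 : V.v c2 Q = e2) (hQ3 : V.v c3 Q = 1)
    (hQH : ∀ k, Hor k → V.Through m k → V.v k Q = 0)
    (hπ11 : V.v c1 π1 = 1) (hπ12 : V.v c2 π1 = 0) (hπ13 : V.v c3 π1 = 0)
    (hπ1H : ∀ k, Hor k → V.Through m k → V.v k π1 = 0)
    (hπ31 : V.v c1 π3 = 0) (hπ32 : V.v c2 π3 = 0) (hπ33 : V.v c3 π3 = 1)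
    (hπ3H : ∀ k, Hor k → V.Through m k → V.v k π3 = 0)
    (hz2 : V.v c2 z = 1) (hzint : ∀ k, V.Through m k → 0 ≤ V.v k z)
    (hunrH : ∀ i, Hor i → V.Through m i → ∃ f : V.B, (f : F) ≠ 0 ∧ V.v i (f : F) = 1)
    (hsepH : ∀ i j, Hor i → Hor j → V.Through m i → V.Through m j → i ≠ j →
      ∃ f : V.B, (f : F) ≠ 0 ∧ 0 < V.v i (f : F) ∧ V.v j (f : F) = 0) :
    (∀ i, i ≠ c1 → V.Through m i → ∃ f : V.B, (f : F) ≠ 0 ∧ V.v i (f : F) = 1) ∧
    (∀ i j, i ≠ c1 → j ≠ c1 → V.Through m i → V.Through m j → i ≠ j →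
      ∃ f : V.B, (f : F) ≠ 0 ∧ 0 < V.v i (f : F) ∧ V.v j (f : F) = 0) := by
  -- the valuations of `π3`
  have hπ3int : ∀ k, V.Through m k → 0 ≤ V.v k π3 := by
    intro k hk
    rcases hcase k hk with rfl | rfl | rfl | hH
    · rw [hπ31]
    · rw [hπ32]
    · rw [hπ33]; norm_num
    · rw [hπ3H k hH hk]
  -- `w := Q / (π1 * π3)` has values `0, e2, 0` and horizontal values `0`
  have hπ130 : π1 * π3 ≠ 0 := mul_ne_zero hπ10 hπ30
  have hwv : ∀ k, V.v k (Q / (π1 * π3)) = V.v k Q - (V.v k π1 + V.v k π3) := by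
    intro k
    rw [h80_v_div V k hQ0 hπ130, V.map_mul k _ _ hπ10 hπ30]
  have hw0 : Q / (π1 * π3) ≠ 0 := div_ne_zero hQ0 hπ130
  have hw1 : V.v c1 (Q / (π1 * π3)) = 0 := by rw [hwv, hQ1, hπ11, hπ31]; norm_num
  have hw2 : V.v c2 (Q / (π1 * π3)) = e2 := by rw [hwv, hQ2, hπ12, hπ32]; norm_num
  have hw3 : V.v c3 (Q / (π1 * π3)) = 0 := by rw [hwv, hQ3, hπ13, hπ33]; norm_num
  have hwH : ∀ k, Hor k → V.Through m k → V.v k (Q / (π1 * π3)) = 0 := by
    intro k hH hk
    rw [hwv, hQH k hH hk, hπ1H k hH hk, hπ3H k hH hk]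
    norm_num
  have hwint : ∀ k, V.Through m k → 0 ≤ V.v k (Q / (π1 * π3)) := by
    intro k hk
    rcases hcase k hk with rfl | rfl | rfl | hH
    · rw [hw1]
    · rw [hw2]; positivity
    · rw [hw3]
    · rw [hwH k hH hk]
  -- cleared versions
  obtain ⟨gz, hgz0, hgz⟩ := h90_clear V m hz0 hzint
  obtain ⟨g3, hg30, hg3⟩ := h90_clear V m hπ30 hπ3int
  obtain ⟨gw, hgw0, hgw⟩ := h90_clear V m hw0 hwint
  have he2' : (0 : ℤ) < (e2 : ℤ) := by exact_mod_cast he2
  refine ⟨?_, ?_⟩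
  · -- hunr
    intro i hi1 hi
    rcases hcase i hi with rfl | rfl | rfl | hH
    · exact absurd rfl hi1
    · exact ⟨gz, hgz0, by rw [hgz _ hi, hz2]⟩
    · exact ⟨g3, hg30, by rw [hg3 _ hi, hπ33]⟩
    · exact hunrH i hH hi
  · -- hsep
    intro i j hi1 hj1 hi hj hij
    rcases hcase i hi with rfl | rfl | rfl | hHi
    · exact absurd rfl hi1
    · -- i = c2 : use `w`
      refine ⟨gw, hgw0, by rw [hgw _ hi, hw2]; exact he2', ?_⟩
      rcases hcase j hj with rfl | rfl | rfl | hHj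
      · exact absurd rfl hj1
      · exact absurd rfl hij
      · rw [hgw _ hj, hw3]
      · rw [hgw _ hj, hwH j hHj hj]
    · -- i = c3 : use `π3`
      refine ⟨g3, hg30, by rw [hg3 _ hi, hπ33]; norm_num, ?_⟩
      rcases hcase j hj with rfl | rfl | rfl | hHj
      · exact absurd rfl hj1
      · rw [hg3 _ hj, hπ32]
      · exact absurd rfl hij
      · rw [hg3 _ hj, hπ3H j hHj hj]
    · -- i horizontal
      obtain ⟨fi, hfi0, hfi⟩ := hunrH i hHi hi
      have hfint : ∀ k, 0 ≤ V.v k (fi : F) := fun k => h80_v_nonneg V k fi hfi0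
      rcases hcase j hj with rfl | rfl | rfl | hHj
      · exact absurd rfl hj1
      · -- j = c2 : `fi ^ e2 * (π1 π3 / Q) ^ (v c2 fi)`
        set a : ℕ := (V.v j (fi : F)).toNat with ha
        have haz : (a : ℤ) = V.v j (fi : F) := Int.toNat_of_nonneg (hfint j)
        have hu0 : (π1 * π3) / Q ≠ 0 := div_ne_zero hπ130 hQ0
        have huv : ∀ k, V.v k ((π1 * π3) / Q) = (V.v k π1 + V.v k π3) - V.v k Q := by
          intro k
          rw [h80_v_div V k hπ130 hQ0, V.map_mul k _ _ hπ10 hπ30]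
        set f : F := (fi : F) ^ e2 * ((π1 * π3) / Q) ^ a with hf
        have hf0 : f ≠ 0 := mul_ne_zero (pow_ne_zero _ hfi0) (pow_ne_zero _ hu0)
        have hfv : ∀ k, V.v k f = e2 * V.v k (fi : F) +
            a * ((V.v k π1 + V.v k π3) - V.v k Q) := by
          intro k
          rw [hf, V.map_mul k _ _ (pow_ne_zero _ hfi0) (pow_ne_zero _ hu0),
            h80_v_pow V k hfi0, h80_v_pow V k hu0, huv]
        have hfint' : ∀ k, V.Through m k → 0 ≤ V.v k f := by
          intro k hk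
          rw [hfv]
          rcases hcase k hk with rfl | rfl | rfl | hH
          · rw [hπ11, hπ31, hQ1]
            have := hfint k
            nlinarith
          · rw [hπ12, hπ32, hQ2, ← haz]
            nlinarith
          · rw [hπ13, hπ33, hQ3]
            have := hfint k
            nlinarith
          · rw [hπ1H k hH hk, hπ3H k hH hk, hQH k hH hk]
            have := hfint k
            nlinarith
        obtain ⟨g, hg0, hg⟩ := h90_clear V m hf0 hfint'
        refine ⟨g, hg0, ?_, ?_⟩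
        · rw [hg _ hi, hfv, hfi, hπ1H i hHi hi, hπ3H i hHi hi, hQH i hHi hi]
          nlinarith
        · rw [hg _ hj, hfv, hπ12, hπ32, hQ2, ← haz]
          ring
      · -- j = c3 : `fi / π3 ^ (v c3 fi)`
        set a : ℕ := (V.v j (fi : F)).toNat with ha
        have haz : (a : ℤ) = V.v j (fi : F) := Int.toNat_of_nonneg (hfint j)
        set f : F := (fi : F) / π3 ^ a with hf
        have hf0 : f ≠ 0 := div_ne_zero hfi0 (pow_ne_zero _ hπ30)
        have hfv : ∀ k, V.v k f = V.v k (fi : F) - a * V.v k π3 := by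
          intro k
          rw [hf, h80_v_div V k hfi0 (pow_ne_zero _ hπ30), h80_v_pow V k hπ30]
        have hfint' : ∀ k, V.Through m k → 0 ≤ V.v k f := by
          intro k hk
          rw [hfv]
          rcases hcase k hk with rfl | rfl | rfl | hH
          · rw [hπ31]
            have := hfint k
            linarith
          · rw [hπ32]
            have := hfint k
            linarith
          · rw [hπ33, ← haz]
            linarith
          · rw [hπ3H k hH hk]
            have := hfint k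
            linarith
        obtain ⟨g, hg0, hg⟩ := h90_clear V m hf0 hfint'
        refine ⟨g, hg0, ?_, ?_⟩
        · rw [hg _ hi, hfv, hfi, hπ3H i hHi hi]
          norm_num
        · rw [hg _ hj, hfv, hπ33, ← haz]
          ring
      · exact hsepH i j hHi hHj hi hj hij

/-- **(TRIPLE-GEN), packaged**: `(UNIT*)` at a three-branch point from the valuation table and
the principal-ideal hypothesis for the branch `c1`. -/
theorem h90_triple_unitStar (V : h80_ValFam F ι) (m : Ideal V.B) [m.IsPrime]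
    [IsNoetherianRing V.B]
    (c1 c2 c3 : ι) (Hor : ι → Prop)
    (hcase : ∀ i, V.Through m i → i = c1 ∨ i = c2 ∨ i = c3 ∨ Hor i)
    (hthr1 : V.Through m c1)
    (Q π3 z : F) (π1 : h62_locRing V m) (hQ0 : Q ≠ 0) (hπ10 : (π1 : F) ≠ 0) (hπ30 : π3 ≠ 0)
    (hz0 : z ≠ 0) (e2 : ℕ) (he2 : 0 < e2)
    (hQ1 : V.v c1 Q = 1) (hQ2 : V.v c2 Q = e2) (hQ3 : V.v c3 Q = 1)
    (hQH : ∀ k, Hor k → V.Through m k → V.v k Q = 0)
    (hπ11 : V.v c1 (π1 : F) = 1) (hπ12 : V.v c2 (π1 : F) = 0) (hπ13 : V.v c3 (π1 : F) = 0)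
    (hπ1H : ∀ k, Hor k → V.Through m k → V.v k (π1 : F) = 0)
    (hπ31 : V.v c1 π3 = 0) (hπ32 : V.v c2 π3 = 0) (hπ33 : V.v c3 π3 = 1)
    (hπ3H : ∀ k, Hor k → V.Through m k → V.v k π3 = 0)
    (hz2 : V.v c2 z = 1) (hzint : ∀ k, V.Through m k → 0 ≤ V.v k z)
    (hunrH : ∀ i, Hor i → V.Through m i → ∃ f : V.B, (f : F) ≠ 0 ∧ V.v i (f : F) = 1)
    (hsepH : ∀ i j, Hor i → Hor j → V.Through m i → V.Through m j → i ≠ j →
      ∃ f : V.B, (f : F) ≠ 0 ∧ 0 < V.v i (f : F) ∧ V.v j (f : F) = 0)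
    (hP : IsPrincipalIdealRing (h62_locRing V m ⧸ Ideal.span {π1})) :
    h62_UnitStar V m := by
  obtain ⟨hunr, hsep⟩ := h90_triple_unr_sep V m c1 c2 c3 Hor hcase
    Q (π1 : F) π3 z hQ0 hπ10 hπ30 hz0 e2 he2 hQ1 hQ2 hQ3 hQH hπ11 hπ12 hπ13 hπ1H
    hπ31 hπ32 hπ33 hπ3H hz2 hzint hunrH hsepH
  refine h62_unitStar_of_one_branch V m hthr1 π1 hπ10 hπ11 ?_ hP hunr hsep
  intro k hk hk1
  rcases hcase k hk with rfl | rfl | rfl | hH
  · exact absurd rfl hk1
  · exact hπ12
  · exact hπ13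
  · exact hπ1H k hH hk

end Fermat.Agent.S36
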