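import Mathlib
import Fermat.Agent.S36.h80_LocGen
import Fermat.Agent.S36.h62_NodeIface
import Fermat.Agent.S36.h62_BranchQuot
import Fermat.Agent.S36.h90_TripleGen

/-!
# S36 / I-PTS (TWO-GEN) (helper90): `hunr` and `hsep` at a two-branch point

Companion of `h90_TripleGen`: a point `m` through which exactly the vertical valuations `c1`
(with local equation `π1`) and `c2` pass.  With

* `Q` (the prime `q`): `v c1 Q = 1`, `v c2 Q = e2 > 0`, horizontal values `0`;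
* `π1`: values `1, 0`, horizontal values `0`;
* `z`: `v c2 z = 1`, integral at `m` (for a reduced second branch, `e2 = 1`, take `z := Q / π1`:
  `h90_two_reduced_unr_sep`);

the hypotheses `hunr`, `hsep` of `h62_unitStar_of_one_branch` hold for the branch `c := c1`.
Together with `h90_triple_unr_sep` this covers every configuration `Comp(m) ⊆ {C20, C11, C02}`
with at least two branches (`{C20, C11}`, `{C20, C02}`, `{C02, C11}`, all three) without having
to prove first that two branches through `m` force the third.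
-/

set_option autoImplicit false

namespace Fermat.Agent.S36

variable {F : Type*} [Field F] {ι : Type*}

/-- **(TWO-GEN)**: `hunr` and `hsep` of `h62_unitStar_of_one_branch` (branch `c1`) at a
two-branch point, from the valuation table. -/
theorem h90_two_unr_sep (V : h80_ValFam F ι) (m : Ideal V.B) [m.IsPrime]
    (c1 c2 : ι) (Hor : ι → Prop)
    (hcase : ∀ i, V.Through m i → i = c1 ∨ i = c2 ∨ Hor i)
    (Q π1 z : F) (hQ0 : Q ≠ 0) (hπ10 : π1 ≠ 0) (hz0 : z ≠ 0)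
    (e2 : ℕ) (he2 : 0 < e2)
    (hQ1 : V.v c1 Q = 1) (hQ2 : V.v c2 Q = e2)
    (hQH : ∀ k, Hor k → V.Through m k → V.v k Q = 0)
    (hπ11 : V.v c1 π1 = 1) (hπ12 : V.v c2 π1 = 0)
    (hπ1H : ∀ k, Hor k → V.Through m k → V.v k π1 = 0)
    (hz2 : V.v c2 z = 1) (hzint : ∀ k, V.Through m k → 0 ≤ V.v k z)
    (hunrH : ∀ i, Hor i → V.Through m i → ∃ f : V.B, (f : F) ≠ 0 ∧ V.v i (f : F) = 1)
    (hsepH : ∀ i j, Hor i → Hor j → V.Through m i → V.Through m j → i ≠ j →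
      ∃ f : V.B, (f : F) ≠ 0 ∧ 0 < V.v i (f : F) ∧ V.v j (f : F) = 0) :
    (∀ i, i ≠ c1 → V.Through m i → ∃ f : V.B, (f : F) ≠ 0 ∧ V.v i (f : F) = 1) ∧
    (∀ i j, i ≠ c1 → j ≠ c1 → V.Through m i → V.Through m j → i ≠ j →
      ∃ f : V.B, (f : F) ≠ 0 ∧ 0 < V.v i (f : F) ∧ V.v j (f : F) = 0) := by
  -- `w := Q / π1` has values `0, e2` and horizontal values `0`
  have hwv : ∀ k, V.v k (Q / π1) = V.v k Q - V.v k π1 := fun k => h80_v_div V k hQ0 hπ10
  have hw0 : Q / π1 ≠ 0 := div_ne_zero hQ0 hπ10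
  have hw1 : V.v c1 (Q / π1) = 0 := by rw [hwv, hQ1, hπ11]; norm_num
  have hw2 : V.v c2 (Q / π1) = e2 := by rw [hwv, hQ2, hπ12]; norm_num
  have hwH : ∀ k, Hor k → V.Through m k → V.v k (Q / π1) = 0 := by
    intro k hH hk
    rw [hwv, hQH k hH hk, hπ1H k hH hk]
    norm_num
  have hwint : ∀ k, V.Through m k → 0 ≤ V.v k (Q / π1) := by
    intro k hk
    rcases hcase k hk with rfl | rfl | hH
    · rw [hw1]
    · rw [hw2]; positivity
    · rw [hwH k hH hk]
  obtain ⟨gz, hgz0, hgz⟩ := h90_clear V m hz0 hzint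
  obtain ⟨gw, hgw0, hgw⟩ := h90_clear V m hw0 hwint
  have he2' : (0 : ℤ) < (e2 : ℤ) := by exact_mod_cast he2
  refine ⟨?_, ?_⟩
  · intro i hi1 hi
    rcases hcase i hi with rfl | rfl | hH
    · exact absurd rfl hi1
    · exact ⟨gz, hgz0, by rw [hgz _ hi, hz2]⟩
    · exact hunrH i hH hi
  · intro i j hi1 hj1 hi hj hij
    rcases hcase i hi with rfl | rfl | hHi
    · exact absurd rfl hi1
    · refine ⟨gw, hgw0, by rw [hgw _ hi, hw2]; exact he2', ?_⟩
      rcases hcase j hj with rfl | rfl | hHj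
      · exact absurd rfl hj1
      · exact absurd rfl hij
      · rw [hgw _ hj, hwH j hHj hj]
    · obtain ⟨fi, hfi0, hfi⟩ := hunrH i hHi hi
      have hfint : ∀ k, 0 ≤ V.v k (fi : F) := fun k => h80_v_nonneg V k fi hfi0
      rcases hcase j hj with rfl | rfl | hHj
      · exact absurd rfl hj1
      · -- j = c2 : `fi ^ e2 * (π1 / Q) ^ (v c2 fi)`
        set a : ℕ := (V.v j (fi : F)).toNat with ha
        have haz : (a : ℤ) = V.v j (fi : F) := Int.toNat_of_nonneg (hfint j)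
        have hu0 : π1 / Q ≠ 0 := div_ne_zero hπ10 hQ0
        have huv : ∀ k, V.v k (π1 / Q) = V.v k π1 - V.v k Q := fun k => h80_v_div V k hπ10 hQ0
        set f : F := (fi : F) ^ e2 * (π1 / Q) ^ a with hf
        have hf0 : f ≠ 0 := mul_ne_zero (pow_ne_zero _ hfi0) (pow_ne_zero _ hu0)
        have hfv : ∀ k, V.v k f = e2 * V.v k (fi : F) + a * (V.v k π1 - V.v k Q) := by
          intro k
          rw [hf, V.map_mul k _ _ (pow_ne_zero _ hfi0) (pow_ne_zero _ hu0),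
            h80_v_pow V k hfi0, h80_v_pow V k hu0, huv]
        have hfint' : ∀ k, V.Through m k → 0 ≤ V.v k f := by
          intro k hk
          rw [hfv]
          rcases hcase k hk with rfl | rfl | hH
          · rw [hπ11, hQ1]
            have := hfint k
            nlinarith
          · rw [hπ12, hQ2, ← haz]
            nlinarith
          · rw [hπ1H k hH hk, hQH k hH hk]
            have := hfint k
            nlinarith
        obtain ⟨g, hg0, hg⟩ := h90_clear V m hf0 hfint'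
        refine ⟨g, hg0, ?_, ?_⟩
        · rw [hg _ hi, hfv, hfi, hπ1H i hHi hi, hQH i hHi hi]
          nlinarith
        · rw [hg _ hj, hfv, hπ12, hQ2, ← haz]
          ring
      · exact hsepH i j hHi hHj hi hj hij

/-- **(TWO-GEN), reduced second branch** (`v c2 Q = 1`): no `z` is needed (`z := Q / π1`). -/
theorem h90_two_reduced_unr_sep (V : h80_ValFam F ι) (m : Ideal V.B) [m.IsPrime]
    (c1 c2 : ι) (Hor : ι → Prop)
    (hcase : ∀ i, V.Through m i → i = c1 ∨ i = c2 ∨ Hor i)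
    (Q π1 : F) (hQ0 : Q ≠ 0) (hπ10 : π1 ≠ 0)
    (hQ1 : V.v c1 Q = 1) (hQ2 : V.v c2 Q = 1)
    (hQH : ∀ k, Hor k → V.Through m k → V.v k Q = 0)
    (hπ11 : V.v c1 π1 = 1) (hπ12 : V.v c2 π1 = 0)
    (hπ1H : ∀ k, Hor k → V.Through m k → V.v k π1 = 0)
    (hunrH : ∀ i, Hor i → V.Through m i → ∃ f : V.B, (f : F) ≠ 0 ∧ V.v i (f : F) = 1)
    (hsepH : ∀ i j, Hor i → Hor j → V.Through m i → V.Through m j → i ≠ j →
      ∃ f : V.B, (f : F) ≠ 0 ∧ 0 < V.v i (f : F) ∧ V.v j (f : F) = 0) :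
    (∀ i, i ≠ c1 → V.Through m i → ∃ f : V.B, (f : F) ≠ 0 ∧ V.v i (f : F) = 1) ∧
    (∀ i j, i ≠ c1 → j ≠ c1 → V.Through m i → V.Through m j → i ≠ j →
      ∃ f : V.B, (f : F) ≠ 0 ∧ 0 < V.v i (f : F) ∧ V.v j (f : F) = 0) := by
  have hwv : ∀ k, V.v k (Q / π1) = V.v k Q - V.v k π1 := fun k => h80_v_div V k hQ0 hπ10
  refine h90_two_unr_sep V m c1 c2 Hor hcase Q π1 (Q / π1) hQ0 hπ10 (div_ne_zero hQ0 hπ10) 1
    Nat.one_pos hQ1 (by rw [hQ2]; norm_num) hQH hπ11 hπ12 hπ1H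
    (by rw [hwv, hQ2, hπ12]; norm_num) ?_ hunrH hsepH
  intro k hk
  rw [hwv]
  rcases hcase k hk with rfl | rfl | hH
  · rw [hQ1, hπ11]; norm_num
  · rw [hQ2, hπ12]; norm_num
  · rw [hQH k hH hk, hπ1H k hH hk]; norm_num

/-- **(TWO-GEN), packaged**: `(UNIT*)` at a two-branch point. -/
theorem h90_two_unitStar (V : h80_ValFam F ι) (m : Ideal V.B) [m.IsPrime]
    [IsNoetherianRing V.B]
    (c1 c2 : ι) (Hor : ι → Prop)
    (hcase : ∀ i, V.Through m i → i = c1 ∨ i = c2 ∨ Hor i)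
    (hthr1 : V.Through m c1)
    (Q z : F) (π1 : h62_locRing V m) (hQ0 : Q ≠ 0) (hπ10 : (π1 : F) ≠ 0) (hz0 : z ≠ 0)
    (e2 : ℕ) (he2 : 0 < e2)
    (hQ1 : V.v c1 Q = 1) (hQ2 : V.v c2 Q = e2)
    (hQH : ∀ k, Hor k → V.Through m k → V.v k Q = 0)
    (hπ11 : V.v c1 (π1 : F) = 1) (hπ12 : V.v c2 (π1 : F) = 0)
    (hπ1H : ∀ k, Hor k → V.Through m k → V.v k (π1 : F) = 0)
    (hz2 : V.v c2 z = 1) (hzint : ∀ k, V.Through m k → 0 ≤ V.v k z)
    (hunrH : ∀ i, Hor i → V.Through m i → ∃ f : V.B, (f : F) ≠ 0 ∧ V.v i (f : F) = 1)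
    (hsepH : ∀ i j, Hor i → Hor j → V.Through m i → V.Through m j → i ≠ j →
      ∃ f : V.B, (f : F) ≠ 0 ∧ 0 < V.v i (f : F) ∧ V.v j (f : F) = 0)
    (hP : IsPrincipalIdealRing (h62_locRing V m ⧸ Ideal.span {π1})) :
    h62_UnitStar V m := by
  obtain ⟨hunr, hsep⟩ := h90_two_unr_sep V m c1 c2 Hor hcase Q (π1 : F) z hQ0 hπ10 hz0 e2 he2
    hQ1 hQ2 hQH hπ11 hπ12 hπ1H hz2 hzint hunrH hsepH
  refine h62_unitStar_of_one_branch V m hthr1 π1 hπ10 hπ11 ?_ hP hunr hsep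
  intro k hk hk1
  rcases hcase k hk with rfl | rfl | hH
  · exact absurd rfl hk1
  · exact hπ12
  · exact hπ1H k hH hk

end Fermat.Agent.S36
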