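/-
I-CUSP (X3) (helper91, insurance twin of helper87's plug): the residue datum of the vertical
through a cusp point of the chart `1/j` at level `M q²`.

`V2 := h80_fam2 (M q²) I (h98_w2 ..) ..` (chart `1/j`), `m` a maximal ideal of `V2.B` containing
`q` and an `a` with `a * j = 1` (a point at infinity), `c : Fin 3` with `V2.Through m (inl c)`:

  `h91_x3 : ∃ (Fb : Type) (_ : Field Fb), Nonempty (h62_Res V2 m (Sum.inl c) Fb)`

(`Fb := Fb(M)`, the level-`M` function field of the special fibre), which is the binder `hX3` of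
`h46_cusp_out`.

Inputs (all on main): the residue maps `h87_rho_C20 / C11 / C02` (helper87), the inertia-fixed
lifts `h87_lift_fixed` of the affine ring of the chart `1/j̄` (helper87), the regularity of the
lifts `h49_cr_e0_inLoc` / `h49_cr_e2_inLoc_of_red` (helper49), (NZ2) `h16_nz2` (helper16),
(RESK) `h89_resK` at chart 2 with the closed noetherianity `h65_noeth_q2b` (helper89, helper65),
and the generic builder `h87_res_nonempty` / `h87_hres_of_B` (helper87).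
-/
import Mathlib
import Fermat.Agent.S36.h87_RhoMod
import Fermat.Agent.S36.h87_ResBuild
import Fermat.Agent.S36.h87_LiftFixed
import Fermat.Agent.S36.h49_CuspReg
import Fermat.Agent.S36.h16_CuspNZ2
import Fermat.Agent.S36.h65_NoethQ2b
import Fermat.Agent.S36.h89_ResK
import Fermat.Agent.S34.h84_FrobMod

set_option autoImplicit false
set_option synthInstance.maxHeartbeats 400000
set_option linter.unusedSectionVars false

noncomputable section

namespace Fermat.Agent.S36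

open Polynomial IntermediateField ModularCurve CongruenceSubgroup AlgebraicCurve
open scoped MatrixGroups
open Fermat.Agent.S34 Fermat.Agent.S18 Fermat.Agent.S19 Fermat.Agent.S24 Fermat.Agent.S37
  Fermat.Agent.S35

local notation "Qb" => AlgebraicClosure ℚ

section X3

variable (M q : ℕ) [NeZero M] [NeZero q] [Fact q.Prime] (hqM : ¬ q ∣ M)
  (A : ValuationSubring Qb) (hA : A.LiesOverPrime q) (ζ : Qb) (hζ : IsPrimitiveRoot ζ q)
  (hex : h98_Ex M q hqM A ζ hζ)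

local notation "V2" => h80_fam2 (M * q * q) (A.inertiaSubgroupIn ℚ) (h98_w2 M q hqM A ζ hζ hex)
  (h98_hw2mul M q hqM A hA ζ hζ hex) (h98_hw2add M q hqM A hA ζ hζ hex)

/-- `e0 = α ∘ α` fixes the constants of `K0`. -/
theorem h91_x3_e0_const (H : Subgroup (Qb ≃ₐ[ℚ] Qb)) (a : h69_K0 H) :
    h49_cr_e0 M q H (algebraMap (h69_K0 H) (h69_F0 M H) a) =
      algebraMap (h69_K0 H) (h69_F0 (M * q * q) H) a := by
  apply Subtype.ext
  rw [h49_cr_coe_e0, h69_inst_comm, h69_inst_comm, AlgHom.commutes, AlgHom.commutes]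

/-- `e2 = β ∘ β` fixes the constants of `K0`. -/
theorem h91_x3_e2_const (H : Subgroup (Qb ≃ₐ[ℚ] Qb)) (a : h69_K0 H) :
    h49_cr_e2 M q H (algebraMap (h69_K0 H) (h69_F0 M H) a) =
      algebraMap (h69_K0 H) (h69_F0 (M * q * q) H) a := by
  apply Subtype.ext
  rw [h49_cr_coe_e2, h69_inst_comm, h69_inst_comm, AlgHom.commutes, AlgHom.commutes]

include hA in
/-- **(RESK) at level `M q²`, chart `1/j`, closed**: every element of the chart ring is congruent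
modulo a closed point of the special fibre to a constant of `A₀`. -/
theorem h91_x3_resK (m : Ideal (V2).B) (hm : m.IsMaximal) (hqm : ((q : ℕ) : (V2).B) ∈ m)
    (b : (V2).B) :
    ∃ (a : ↥(h69_K0 (A.inertiaSubgroupIn ℚ))) (_ : a ∈ h69_A0 A)
      (h : algebraMap (h69_K0 (A.inertiaSubgroupIn ℚ))
          (h69_F0 (M * q * q) (A.inertiaSubgroupIn ℚ)) a ∈ (V2).B),
      b - ⟨_, h⟩ ∈ m := by
  have hx0 : h69_jF0 (M * q * q) (A.inertiaSubgroupIn ℚ) ≠ 0 := fun h =>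
    h59_jbar_transcendental (M * q * q)
      (by rw [show h59_jbar (M * q * q) = 0 from congrArg Subtype.val h]; exact isAlgebraic_zero)
  obtain ⟨a, ha, hab⟩ := @h89_resK (M * q * q) _ q _ A _ _
    (h69_jF0 (M * q * q) (A.inertiaSubgroupIn ℚ))⁻¹
    (h75_isChart_inv (h54_isChart_jbar (M * q * q))) (h98_w2 M q hqM A ζ hζ hex)
    (h98_hw2mul M q hqM A hA ζ hζ hex) (h98_hw2add M q hqM A hA ζ hζ hex) hA
    (h65_hwA_of_hR (M * q * q) A _ _ (h91_hR_w98 M q hqM A hA ζ hζ hex))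
    (fun c => h91_hR_w98 M q hqM A hA ζ hζ hex c _
      (h75_gaussRing_x_inv (h69_A0 A) hx0) (inv_ne_zero hx0))
    (h65_noeth_q2b M q hqM A hA ζ hζ hex).2 m hm hqm b
  exact ⟨a, ha, _, hab⟩

set_option maxHeartbeats 1600000 in
include hA in
/-- The binder `hB` of `h87_hres_of_B` at a closed point of the special fibre of the chart `1/j`
of level `M q²`, for any residue map `(O, ρ)` which restricts to the level-`M` reduction along
a lift `e` fixing the constants. -/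
theorem h91_x3_hB
    {RM : h39_RedDatum Qb ↥(modularFunctionFieldBar M) (IsLocalRing.ResidueField A)
      ↥(modularFunctionFieldFullC (IsLocalRing.ResidueField A) M)} (hRM : h54_IsModRed M A RM)
    (O : Subring (h69_F0 (M * q * q) (A.inertiaSubgroupIn ℚ)))
    (ρ : O →+* ↥(modularFunctionFieldFullC (IsLocalRing.ResidueField A) M))
    (e : h69_F0 M (A.inertiaSubgroupIn ℚ) →+* h69_F0 (M * q * q) (A.inertiaSubgroupIn ℚ))
    (he : ∀ a : h69_K0 (A.inertiaSubgroupIn ℚ),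
      e (algebraMap (h69_K0 (A.inertiaSubgroupIn ℚ)) (h69_F0 M (A.inertiaSubgroupIn ℚ)) a) =
        algebraMap (h69_K0 (A.inertiaSubgroupIn ℚ))
          (h69_F0 (M * q * q) (A.inertiaSubgroupIn ℚ)) a)
    (h4 : ∀ y : h69_F0 M (A.inertiaSubgroupIn ℚ), (y : ↥(modularFunctionFieldBar M)) ∈ RM.O →
      ∃ h : e y ∈ O, ρ ⟨_, h⟩ = RM.redF (y : ↥(modularFunctionFieldBar M)))
    (m : Ideal (V2).B) (hm : m.IsMaximal) (hqm : ((q : ℕ) : (V2).B) ∈ m) :
    ∀ s : (V2).B, ∃ (a : IsLocalRing.ResidueField A) (l : (V2).B)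
      (hl : (l : h69_F0 (M * q * q) (A.inertiaSubgroupIn ℚ)) ∈ O),
      ρ ⟨(l : h69_F0 (M * q * q) (A.inertiaSubgroupIn ℚ)), hl⟩ =
        algebraMap (IsLocalRing.ResidueField A)
          ↥(modularFunctionFieldFullC (IsLocalRing.ResidueField A) M) a ∧ s - l ∈ m := by
  intro s
  obtain ⟨a, ha, hmem, hsub⟩ := h91_x3_resK M q hqM A hA ζ hζ hex m hm hqm s
  have haA : (a : Qb) ∈ RM.A := by
    rw [hRM.A_eq]
    exact ha
  have hy' : algebraMap Qb ↥(modularFunctionFieldBar M) (a : Qb) ∈ RM.O := (RM.mem_iff _).1 haA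
  have h5 := h4 (algebraMap (h69_K0 (A.inertiaSubgroupIn ℚ))
    (h69_F0 M (A.inertiaSubgroupIn ℚ)) a) hy'
  obtain ⟨h, hh⟩ := h5
  have hl : algebraMap (h69_K0 (A.inertiaSubgroupIn ℚ))
      (h69_F0 (M * q * q) (A.inertiaSubgroupIn ℚ)) a ∈ O :=
    (congrArg (fun t => t ∈ O) (he a)).mp h
  have h1 : (⟨algebraMap (h69_K0 (A.inertiaSubgroupIn ℚ))
      (h69_F0 (M * q * q) (A.inertiaSubgroupIn ℚ)) a, hl⟩ : O) = ⟨_, h⟩ :=
    Subtype.ext (he a).symm
  have h3 : ρ ⟨algebraMap (h69_K0 (A.inertiaSubgroupIn ℚ))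
      (h69_F0 (M * q * q) (A.inertiaSubgroupIn ℚ)) a, hl⟩ =
      algebraMap (IsLocalRing.ResidueField A)
          ↥(modularFunctionFieldFullC (IsLocalRing.ResidueField A) M) (RM.res ⟨(a : Qb), haA⟩) :=
    (congrArg ρ h1).trans (hh.trans ((RM.redF_of_mem hy').trans
      (RM.red_algebraMap (a : Qb) haA hy')))
  exact ⟨RM.res ⟨(a : Qb), haA⟩, ⟨_, hmem⟩, hl, h3, hsub⟩

include hA in
/-- **(X3), core**: the residue datum on the branch `c` at a closed point `m` of the special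
fibre of the chart `1/j` of level `M q²`, from a residue map `(O, ρ)` of `w2 c` restricting to the
level-`M` reduction along a lift `e` which fixes the constants and maps the inertia-fixed,
Gauss-integral functions regular on the chart `1/j` of level `M` into the local ring at `m`. -/
theorem h91_x3_core (hch : 5 ≤ q ∨ 2 ∣ M ∨ 3 ∣ M)
    {RM : h39_RedDatum Qb ↥(modularFunctionFieldBar M) (IsLocalRing.ResidueField A)
      ↥(modularFunctionFieldFullC (IsLocalRing.ResidueField A) M)} (hRM : h54_IsModRed M A RM)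
    (c : Fin 3)
    (O : Subring (h69_F0 (M * q * q) (A.inertiaSubgroupIn ℚ)))
    (ρ : O →+* ↥(modularFunctionFieldFullC (IsLocalRing.ResidueField A) M))
    (hO : ∀ f : h69_F0 (M * q * q) (A.inertiaSubgroupIn ℚ),
      f ∈ O ↔ f = 0 ∨ 0 ≤ h98_w2 M q hqM A ζ hζ hex c f)
    (hz : ∀ f : O, (f : h69_F0 (M * q * q) (A.inertiaSubgroupIn ℚ)) ≠ 0 →
      (ρ f = 0 ↔
        0 < h98_w2 M q hqM A ζ hζ hex c (f : h69_F0 (M * q * q) (A.inertiaSubgroupIn ℚ))))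
    (e : h69_F0 M (A.inertiaSubgroupIn ℚ) →+* h69_F0 (M * q * q) (A.inertiaSubgroupIn ℚ))
    (he : ∀ a : h69_K0 (A.inertiaSubgroupIn ℚ),
      e (algebraMap (h69_K0 (A.inertiaSubgroupIn ℚ)) (h69_F0 M (A.inertiaSubgroupIn ℚ)) a) =
        algebraMap (h69_K0 (A.inertiaSubgroupIn ℚ))
          (h69_F0 (M * q * q) (A.inertiaSubgroupIn ℚ)) a)
    (h4 : ∀ y : h69_F0 M (A.inertiaSubgroupIn ℚ), (y : ↥(modularFunctionFieldBar M)) ∈ RM.O →
      ∃ h : e y ∈ O, ρ ⟨_, h⟩ = RM.redF (y : ↥(modularFunctionFieldBar M)))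
    (m : Ideal (V2).B) (hm : m.IsMaximal) (hqm : ((q : ℕ) : (V2).B) ∈ m)
    (hc : (V2).Through m (Sum.inl c))
    (hreg : ∀ (f : ↥(modularFunctionFieldBar M)) (hfix : f ∈ h69_F0 M (A.inertiaSubgroupIn ℚ)),
      f ∈ RM.O → h39_Reg Qb (h59_jbar M)⁻¹ f → (V2).InLoc m (e ⟨f, hfix⟩)) :
    Nonempty (h62_Res (V2) m (Sum.inl c)
      ↥(modularFunctionFieldFullC (IsLocalRing.ResidueField A) M)) := by
  have : IsAlgClosed (IsLocalRing.ResidueField A) := h19_residueField_isAlgClosed A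
  have : m.IsPrime := hm.isPrime
  have hjk : h75_IsChart (IsLocalRing.ResidueField A)
      (h54_jk (IsLocalRing.ResidueField A) M) := h84_isChart_jk M q hqM A hA
  have hne : RM.redF (h59_jbar M) ≠ 0 := by
    rw [h54_redF_jbar hRM]
    exact hjk.ne_zero
  obtain ⟨-, hired⟩ := h39_inv_of_redF_ne_zero RM hne
  have hxb : h75_IsChart (IsLocalRing.ResidueField A) (RM.redF (h59_jbar M)⁻¹) := by
    rw [hired, h54_redF_jbar hRM]
    exact h75_isChart_inv hjk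
  have mem_O : ∀ f : h69_F0 (M * q * q) (A.inertiaSubgroupIn ℚ), f ≠ 0 →
      0 ≤ (V2).v (Sum.inl c) f → f ∈ O := fun f _ h => (hO f).2 (Or.inr h)
  have hz' : ∀ f : O, (f : h69_F0 (M * q * q) (A.inertiaSubgroupIn ℚ)) ≠ 0 →
      (ρ f = 0 ↔ 0 < (V2).v (Sum.inl c) (f : h69_F0 (M * q * q) (A.inertiaSubgroupIn ℚ))) := hz
  refine h87_res_nonempty (V2) m (Sum.inl c) hc O mem_O ρ hz' hxb ?_
    (h87_hres_of_B (V2) m (Sum.inl c) hc O mem_O ρ hz'
      (h91_x3_hB M q hqM A hA ζ hζ hex hRM O ρ e he h4 m hm hqm))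
  intro g hg
  obtain ⟨f, hfix, hfO, hred, hreg'⟩ :=
    h87_lift_fixed M hqM A hA hch hRM (h59_jbar M)⁻¹ (Or.inr rfl) g hg
  obtain ⟨h, hh⟩ := h4 ⟨f, hfix⟩ hfO
  exact ⟨⟨_, h⟩, hreg f hfix hfO hreg', hh.trans hred⟩

include hA in
/-- **(X3)**: at a point at infinity `m` (`q ∈ m`, `a ∈ m` with `a * j = 1`) of the chart `1/j`
of level `M q²`, every vertical through `m` has a residue datum, with residue field `Fb(M)`.
This is the binder `hX3` of `h46_cusp_out`. -/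
theorem h91_x3 (hch : 5 ≤ q ∨ 2 ∣ M ∨ 3 ∣ M)
    (m : Ideal (V2).B) (hm : m.IsMaximal) (hqm : ((q : ℕ) : (V2).B) ∈ m)
    (a : (V2).B) (ham : a ∈ m)
    (haJ : (a : h69_F0 (M * q * q) (A.inertiaSubgroupIn ℚ))
      * h16_J0F M q (A.inertiaSubgroupIn ℚ) = 1)
    (c : Fin 3) (hc : (V2).Through m (Sum.inl c)) :
    ∃ (Fb : Type) (_ : Field Fb), Nonempty (h62_Res (V2) m (Sum.inl c) Fb) := by
  have : m.IsPrime := hm.isPrime
  have hRM : h54_IsModRed M A (h39_modRed M hqM A hA) := h39_modRed_spec M hqM A hA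
  refine ⟨↥(modularFunctionFieldFullC (IsLocalRing.ResidueField A) M), inferInstance, ?_⟩
  have hreg0 : ∀ (f : ↥(modularFunctionFieldBar M))
      (hfix : f ∈ h69_F0 M (A.inertiaSubgroupIn ℚ)),
      f ∈ (h39_modRed M hqM A hA).O → h39_Reg Qb (h59_jbar M)⁻¹ f →
      (V2).InLoc m (h49_cr_e0 M q (A.inertiaSubgroupIn ℚ) ⟨f, hfix⟩) :=
    fun f hfix hfO hreg => h49_cr_e0_inLoc M q hqM A hA ζ hζ hex ⟨f, hfix⟩
      (h49_cr_mem_Os M A hRM f hfO) hreg m
  have hreg2 : ∀ (f : ↥(modularFunctionFieldBar M))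
      (hfix : f ∈ h69_F0 M (A.inertiaSubgroupIn ℚ)),
      f ∈ (h39_modRed M hqM A hA).O → h39_Reg Qb (h59_jbar M)⁻¹ f →
      (V2).InLoc m (h49_cr_e2 M q (A.inertiaSubgroupIn ℚ) ⟨f, hfix⟩) :=
    fun f hfix hfO hreg => h49_cr_e2_inLoc_of_red M q hqM A hA ζ hζ hex hRM f hfix hfO hreg m
      (h16_nz2 M q hqM A hA ζ hζ hex m a ham haJ)
  fin_cases c
  · obtain ⟨O, ρ, hO, hz, -, h4⟩ := h87_rho_C20 M q hqM A hA ζ hζ hex hRM
    exact h91_x3_core M q hqM A hA ζ hζ hex hch hRM 0 O ρ hO hz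
      (h49_cr_e0 M q (A.inertiaSubgroupIn ℚ)) (h91_x3_e0_const M q (A.inertiaSubgroupIn ℚ)) h4
      m hm hqm hc hreg0
  · obtain ⟨O, ρ, hO, hz, -, h4⟩ := h87_rho_C11 M q hqM A hA ζ hζ hex hRM
    exact h91_x3_core M q hqM A hA ζ hζ hex hch hRM 1 O ρ hO hz
      (h49_cr_e0 M q (A.inertiaSubgroupIn ℚ)) (h91_x3_e0_const M q (A.inertiaSubgroupIn ℚ)) h4
      m hm hqm hc hreg0
  · obtain ⟨O, ρ, hO, hz, -, h4⟩ := h87_rho_C02 M q hqM A hA ζ hζ hex hRM
    exact h91_x3_core M q hqM A hA ζ hζ hex hch hRM 2 O ρ hO hz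
      (h49_cr_e2 M q (A.inertiaSubgroupIn ℚ)) (h91_x3_e2_const M q (A.inertiaSubgroupIn ℚ)) h4
      m hm hqm hc hreg2

include hA in
/-- **(X3)** in the `T`-form: the premises are those of `hcusp2` of `h94_hwit_final` /
`h89_hwit_chart2` (`q ∈ m` and `T = 1/j ∈ m`). -/
theorem h91_x3_T (hch : 5 ≤ q ∨ 2 ∣ M ∨ 3 ∣ M)
    (m : Ideal (V2).B) (hm : m.IsMaximal)
    (hq : ∃ hq0B : ((q : ℕ) : h69_F0 (M * q * q) (A.inertiaSubgroupIn ℚ)) ∈ (V2).B,
      (⟨((q : ℕ) : h69_F0 (M * q * q) (A.inertiaSubgroupIn ℚ)), hq0B⟩ : (V2).B) ∈ m)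
    (hT : ∃ hTB : (⟨(h59_jbar (M * q * q))⁻¹,
        h80_jbar_inv_mem_F0 (M * q * q) (A.inertiaSubgroupIn ℚ)⟩ :
          h69_F0 (M * q * q) (A.inertiaSubgroupIn ℚ)) ∈ (V2).B,
      (⟨(⟨(h59_jbar (M * q * q))⁻¹, h80_jbar_inv_mem_F0 (M * q * q) (A.inertiaSubgroupIn ℚ)⟩ :
          h69_F0 (M * q * q) (A.inertiaSubgroupIn ℚ)), hTB⟩ : (V2).B) ∈ m)
    (c : Fin 3) (hc : (V2).Through m (Sum.inl c)) :
    ∃ (Fb : Type) (_ : Field Fb), Nonempty (h62_Res (V2) m (Sum.inl c) Fb) := by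
  obtain ⟨hq0B, hqm⟩ := hq
  obtain ⟨hTB, hTm⟩ := hT
  have hqm' : ((q : ℕ) : (V2).B) ∈ m := by
    have e : ((q : ℕ) : (V2).B) =
        ⟨((q : ℕ) : h69_F0 (M * q * q) (A.inertiaSubgroupIn ℚ)), hq0B⟩ := Subtype.ext rfl
    rw [e]
    exact hqm
  have hj : h59_jbar (M * q * q) ≠ 0 := fun h =>
    h59_jbar_transcendental (M * q * q) (by rw [h]; exact isAlgebraic_zero)
  exact h91_x3 M q hqM A hA ζ hζ hex hch m hm hqm' ⟨_, hTB⟩ hTm
    (Subtype.ext (inv_mul_cancel₀ hj)) c hc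

include hA in
/-- **(X3)** as the binder `hX3` of `h46_cusp_out`, for any class `cusp2` of points at infinity
of the special fibre. -/
theorem h91_hX3 (hch : 5 ≤ q ∨ 2 ∣ M ∨ 3 ∣ M) (cusp2 : Ideal (V2).B → Prop)
    (hcq : ∀ 𝔪 : Ideal (V2).B, 𝔪.IsMaximal → cusp2 𝔪 → ((q : ℕ) : (V2).B) ∈ 𝔪)
    (hcT : ∀ 𝔪 : Ideal (V2).B, 𝔪.IsMaximal → cusp2 𝔪 → ∃ a : (V2).B, a ∈ 𝔪 ∧
      (a : h69_F0 (M * q * q) (A.inertiaSubgroupIn ℚ)) * h16_J0F M q (A.inertiaSubgroupIn ℚ) = 1) :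
    ∀ 𝔪 : Ideal (V2).B, 𝔪.IsMaximal → cusp2 𝔪 → ∀ c : Fin 3, (V2).Through 𝔪 (Sum.inl c) →
      ∃ (Fb : Type) (_ : Field Fb), Nonempty (h62_Res (V2) 𝔪 (Sum.inl c) Fb) := by
  intro 𝔪 hmax hcusp c hc
  obtain ⟨a, ham, haJ⟩ := hcT 𝔪 hmax hcusp
  exact h91_x3 M q hqM A hA ζ hζ hex hch 𝔪 hmax (hcq 𝔪 hmax hcusp) a ham haJ c hc

end X3

end Fermat.Agent.S36
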