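/-
(DISC)  Discreteness of a valuation ring of a finite extension, without any expansion.

`F` a field, `O` a valuation subring of `F`, `K ⊆ F` a subfield with `[F : K] < ∞`, and
`π ∈ K` such that `π ∈ O`, `π⁻¹ ∉ O` and every nonzero element of `K` is `π ^ m * unit of O`
(i.e. `O ∩ K` is a discrete valuation ring with uniformiser `π`).  Then `O` is the valuation
ring of a normalised `ℤ`-valued valuation:

  `h91_disc : ∃ w : F → ℤ, h99_IsVal w ∧ (∃ z ≠ 0, w z = 1) ∧ (∀ f ≠ 0, f ∈ O ↔ 0 ≤ w f)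
                ∧ 0 < w π`.

Proof: `1, f, …, f^n` are `K`-dependent; in a vanishing sum two terms have the same
valuation class, so `f ^ e = a * unit` with `a ∈ K`, `1 ≤ e ≤ n`.  Hence `f ^ (n!)` is
`π ^ M * unit`, and `f ↦ M` is a homomorphism whose nonnegative part is `O`.

Mathlib + `h99_FundEq` (only for the vocabulary `h99_IsVal`).
-/
import Mathlib
import Fermat.Agent.S36.h99_FundEq

namespace Fermat.Agent.S36

section disc

variable {F : Type*} [Field F]

/-- `x` is a unit of the valuation ring `O`. -/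
def h91_IsU (O : ValuationSubring F) (x : F) : Prop := x ≠ 0 ∧ x ∈ O ∧ x⁻¹ ∈ O

theorem h91_IsU.mul {O : ValuationSubring F} {x y : F} (hx : h91_IsU O x) (hy : h91_IsU O y) :
    h91_IsU O (x * y) :=
  ⟨mul_ne_zero hx.1 hy.1, mul_mem hx.2.1 hy.2.1, by
    rw [mul_inv]; exact mul_mem hx.2.2 hy.2.2⟩

theorem h91_IsU.inv {O : ValuationSubring F} {x : F} (hx : h91_IsU O x) : h91_IsU O x⁻¹ :=
  ⟨inv_ne_zero hx.1, hx.2.2, by rw [inv_inv]; exact hx.2.1⟩

theorem h91_IsU.pow {O : ValuationSubring F} {x : F} (hx : h91_IsU O x) (n : ℕ) :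
    h91_IsU O (x ^ n) :=
  ⟨pow_ne_zero n hx.1, pow_mem hx.2.1 n, by rw [← inv_pow]; exact pow_mem hx.2.2 n⟩

theorem h91_isU_one (O : ValuationSubring F) : h91_IsU O (1 : F) :=
  ⟨one_ne_zero, one_mem O, by rw [inv_one]; exact one_mem O⟩

/-- In a vanishing finite sum with a nonzero term, two distinct nonzero terms have the same
valuation class. -/
theorem h91_exists_pair (O : ValuationSubring F) {ι : Type*} (s : Finset ι) (t : ι → F)
    (hsum : ∑ i ∈ s, t i = 0) (hne : ∃ i ∈ s, t i ≠ 0) :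
    ∃ i ∈ s, ∃ j ∈ s, i ≠ j ∧ t i ≠ 0 ∧ t j ≠ 0 ∧ h91_IsU O (t j / t i) := by
  classical
  have hs' : (s.filter (fun i => t i ≠ 0)).Nonempty := by
    obtain ⟨i, hi, hti⟩ := hne
    exact ⟨i, Finset.mem_filter.mpr ⟨hi, hti⟩⟩
  obtain ⟨i0, hi0, hmax⟩ := Finset.exists_max_image (s.filter (fun i => t i ≠ 0))
    (fun i => O.valuation (t i)) hs'
  have hi0s := (Finset.mem_filter.mp hi0).1
  have hti0 := (Finset.mem_filter.mp hi0).2
  have hv0 : O.valuation (t i0) ≠ 0 := (Valuation.ne_zero_iff _).mpr hti0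
  by_contra hcon
  push Not at hcon
  have hlt : ∀ j ∈ s.erase i0, O.valuation (t j) < O.valuation (t i0) := by
    intro j hj
    obtain ⟨hji, hjs⟩ := Finset.mem_erase.mp hj
    by_cases htj : t j = 0
    · rw [htj, map_zero]
      exact zero_lt_iff.mpr hv0
    · have hle := hmax j (Finset.mem_filter.mpr ⟨hjs, htj⟩)
      refine lt_of_le_of_ne hle ?_
      intro heq
      apply hcon i0 hi0s j hjs (Ne.symm hji) hti0 htj
      refine ⟨div_ne_zero htj hti0, ?_, ?_⟩
      · rw [← ValuationSubring.valuation_le_one_iff, map_div₀, heq, div_self hv0]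
      · rw [← ValuationSubring.valuation_le_one_iff, map_inv₀, map_div₀, heq, div_self hv0,
          inv_one]
  have hsum' : t i0 = - ∑ j ∈ s.erase i0, t j := by
    rw [← Finset.add_sum_erase s t hi0s] at hsum
    exact eq_neg_of_add_eq_zero_left hsum
  have hbad : O.valuation (t i0) < O.valuation (t i0) := by
    conv_lhs => rw [hsum', Valuation.map_neg]
    exact Valuation.map_sum_lt _ hv0 hlt
  exact lt_irrefl _ hbad

/-- Some power `f ^ e`, `1 ≤ e ≤ [F : K]`, is an element of `K` times a unit of `O`. -/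
theorem h91_exists_pow_class {K : Type*} [Field K] [Algebra K F] [FiniteDimensional K F]
    (O : ValuationSubring F) (f : F) (hf : f ≠ 0) :
    ∃ e : ℕ, 1 ≤ e ∧ e ≤ Module.finrank K F ∧
      ∃ a : K, a ≠ 0 ∧ h91_IsU O (f ^ e / algebraMap K F a) := by
  classical
  have hdep : ¬ LinearIndependent K (fun i : Fin (Module.finrank K F + 1) => f ^ (i : ℕ)) := by
    intro h
    have := h.fintype_card_le_finrank
    simp at this
  rw [Fintype.not_linearIndependent_iff] at hdep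
  obtain ⟨c, hc, i1, hi1⟩ := hdep
  obtain ⟨i, -, j, -, hij, hti, htj, hU⟩ := h91_exists_pair O Finset.univ
    (fun i : Fin (Module.finrank K F + 1) => c i • f ^ (i : ℕ)) hc
    ⟨i1, Finset.mem_univ _, smul_ne_zero hi1 (pow_ne_zero _ hf)⟩
  have hci : c i ≠ 0 := fun h => hti (by rw [h, zero_smul])
  have hcj : c j ≠ 0 := fun h => htj (by rw [h, zero_smul])
  have hci' : algebraMap K F (c i) ≠ 0 := (map_ne_zero _).mpr hci
  have hcj' : algebraMap K F (c j) ≠ 0 := (map_ne_zero _).mpr hcj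
  have hi2 := i.2
  have hj2 := j.2
  rcases lt_or_gt_of_ne (Fin.val_ne_of_ne hij) with hlt | hlt
  · refine ⟨j - i, by omega, by omega, c i / c j, div_ne_zero hci hcj, ?_⟩
    have hpow : f ^ (j : ℕ) = f ^ ((j : ℕ) - i) * f ^ (i : ℕ) := by
      rw [← pow_add]; congr 1; omega
    have hfi : f ^ (i : ℕ) ≠ 0 := pow_ne_zero _ hf
    have : f ^ ((j : ℕ) - i) / algebraMap K F (c i / c j) =
        (c j • f ^ (j : ℕ)) / (c i • f ^ (i : ℕ)) := by
      rw [Algebra.smul_def, Algebra.smul_def, map_div₀, hpow]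
      field_simp
    rw [this]
    exact hU
  · refine ⟨i - j, by omega, by omega, c j / c i, div_ne_zero hcj hci, ?_⟩
    have hpow : f ^ (i : ℕ) = f ^ ((i : ℕ) - j) * f ^ (j : ℕ) := by
      rw [← pow_add]; congr 1; omega
    have hfj : f ^ (j : ℕ) ≠ 0 := pow_ne_zero _ hf
    have : f ^ ((i : ℕ) - j) / algebraMap K F (c j / c i) =
        ((c j • f ^ (j : ℕ)) / (c i • f ^ (i : ℕ)))⁻¹ := by
      rw [Algebra.smul_def, Algebra.smul_def, map_div₀, hpow]
      field_simp
    rw [this]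
    exact hU.inv

/-- **(DISC)**  A valuation ring of a finite extension `F / K` whose trace on `K` is discrete
with uniformiser `π` is the valuation ring of a normalised `ℤ`-valued valuation. -/
theorem h91_disc {K : Type*} [Field K] [Algebra K F] [FiniteDimensional K F]
    (O : ValuationSubring F) (π : K) (hπO : algebraMap K F π ∈ O)
    (hπ : (algebraMap K F π)⁻¹ ∉ O)
    (hK : ∀ a : K, a ≠ 0 → ∃ m : ℤ, h91_IsU O (algebraMap K F a / algebraMap K F π ^ m)) :
    ∃ w : F → ℤ, h99_IsVal w ∧ (∃ z : F, z ≠ 0 ∧ w z = 1) ∧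
      (∀ f : F, f ≠ 0 → (f ∈ O ↔ 0 ≤ w f)) ∧ 0 < w (algebraMap K F π) := by
  classical
  set p : F := algebraMap K F π with hp
  have hp0 : p ≠ 0 := by
    intro h
    apply hπ
    rw [h, inv_zero]
    exact zero_mem O
  set E : ℕ := (Module.finrank K F).factorial with hE
  have hEpos : 0 < E := Nat.factorial_pos _
  have hpow_mem : ∀ M : ℤ, 0 ≤ M → p ^ M ∈ O := by
    intro M hM
    obtain ⟨k, rfl⟩ := Int.eq_ofNat_of_zero_le hM
    rw [zpow_natCast]
    exact pow_mem hπO k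
  have hpos_not : ∀ M : ℤ, 0 < M → ¬ (p ^ M)⁻¹ ∈ O := by
    intro M hM h
    apply hπ
    have h1 : p⁻¹ = p ^ (M - 1) * (p ^ M)⁻¹ := by
      rw [← zpow_neg, ← zpow_add₀ hp0]
      have : M - 1 + -M = -1 := by ring
      rw [this, zpow_neg_one]
    rw [h1]
    exact mul_mem (hpow_mem _ (by omega)) h
  have huniq : ∀ M : ℤ, h91_IsU O (p ^ M) → M = 0 := by
    intro M hU
    by_contra hM
    rcases lt_or_gt_of_ne hM with h | h
    · apply hpos_not (-M) (by omega)
      rw [zpow_neg, inv_inv]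
      exact hU.2.1
    · exact hpos_not M h hU.2.2
  have key1 : ∀ f : F, f ≠ 0 → ∃ M : ℤ, h91_IsU O (f ^ E / p ^ M) := by
    intro f hf
    obtain ⟨e, he1, hen, a, ha, hU⟩ := h91_exists_pow_class (K := K) O f hf
    obtain ⟨m, hm⟩ := hK a ha
    obtain ⟨c, hc⟩ := Nat.dvd_factorial (by omega : 0 < e) hen
    refine ⟨m * c, ?_⟩
    have ha' : algebraMap K F a ≠ 0 := (map_ne_zero _).mpr ha
    have h1 : h91_IsU O (f ^ e / p ^ m) := by
      have h2 := hU.mul hm
      have h3 : f ^ e / algebraMap K F a * (algebraMap K F a / p ^ m) = f ^ e / p ^ m := by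
        field_simp
      rw [h3] at h2
      exact h2
    have h3 := h1.pow c
    have h4 : (f ^ e / p ^ m) ^ c = f ^ E / p ^ (m * c) := by
      rw [div_pow, ← pow_mul, hE, hc, ← zpow_natCast (p ^ m) c, ← zpow_mul]
    rw [h4] at h3
    exact h3
  let V : F → ℤ := fun f => if h : f = 0 then 0 else (key1 f h).choose
  have hV : ∀ f : F, f ≠ 0 → h91_IsU O (f ^ E / p ^ V f) := by
    intro f hf
    simp only [V, dif_neg hf]
    exact (key1 f hf).choose_spec
  have hVuniq : ∀ f : F, f ≠ 0 → ∀ M : ℤ, h91_IsU O (f ^ E / p ^ M) → V f = M := by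
    intro f hf M hM
    have h1 := (hV f hf).inv.mul hM
    have hfE : f ^ E ≠ 0 := pow_ne_zero _ hf
    have h2 : (f ^ E / p ^ V f)⁻¹ * (f ^ E / p ^ M) = p ^ (V f - M) := by
      rw [zpow_sub₀ hp0]
      have hpV : p ^ V f ≠ 0 := zpow_ne_zero _ hp0
      have hpM : p ^ M ≠ 0 := zpow_ne_zero _ hp0
      field_simp
    rw [h2] at h1
    have := huniq _ h1
    omega
  have hVmul : ∀ f g : F, f ≠ 0 → g ≠ 0 → V (f * g) = V f + V g := by
    intro f g hf hg
    apply hVuniq _ (mul_ne_zero hf hg)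
    have h1 := (hV f hf).mul (hV g hg)
    have h2 : f ^ E / p ^ V f * (g ^ E / p ^ V g) = (f * g) ^ E / p ^ (V f + V g) := by
      rw [zpow_add₀ hp0, mul_pow]
      have hpV : p ^ V f ≠ 0 := zpow_ne_zero _ hp0
      have hpM : p ^ V g ≠ 0 := zpow_ne_zero _ hp0
      field_simp
    rw [h2] at h1
    exact h1
  have hV1 : V 1 = 0 := by
    have := hVmul 1 1 one_ne_zero one_ne_zero
    rw [mul_one] at this
    omega
  have hVinv : ∀ f : F, f ≠ 0 → V f⁻¹ = - V f := by
    intro f hf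
    have := hVmul f f⁻¹ hf (inv_ne_zero hf)
    rw [mul_inv_cancel₀ hf, hV1] at this
    omega
  have hVp : V p = E := by
    apply hVuniq p hp0
    rw [zpow_natCast, div_self (pow_ne_zero _ hp0)]
    exact h91_isU_one O
  have hVO : ∀ f : F, f ≠ 0 → (f ∈ O ↔ 0 ≤ V f) := by
    intro f hf
    have hU := hV f hf
    have hfE0 : f ^ E ≠ 0 := pow_ne_zero _ hf
    have hpV : p ^ V f ≠ 0 := zpow_ne_zero _ hp0
    constructor
    · intro hfO
      by_contra hneg
      apply hpos_not (-V f) (by omega)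
      have h1 : (p ^ (-V f))⁻¹ = f ^ E * (f ^ E / p ^ V f)⁻¹ := by
        rw [zpow_neg, inv_inv, inv_div, mul_div_cancel₀ _ hfE0]
      rw [h1]
      exact mul_mem (pow_mem hfO E) hU.2.2
    · intro hnn
      have hfE : f ^ E ∈ O := by
        have h1 : f ^ E = f ^ E / p ^ V f * p ^ V f := by
          rw [div_mul_cancel₀ _ hpV]
        rw [h1]
        exact mul_mem hU.2.1 (hpow_mem _ hnn)
      rcases O.mem_or_inv_mem f with h | h
      · exact h
      · have h1 : ∀ k : ℕ, f ^ (k + 1) * f⁻¹ ^ k = f := by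
          intro k
          rw [pow_succ, inv_pow]
          have : f ^ k ≠ 0 := pow_ne_zero _ hf
          field_simp
        have h2 : f = f ^ E * f⁻¹ ^ (E - 1) := by
          have h3 := h1 (E - 1)
          rw [Nat.sub_add_cancel hEpos] at h3
          exact h3.symm
        rw [h2]
        exact mul_mem hfE (pow_mem h _)
  have hVval : h99_IsVal V := by
    refine ⟨hVmul, ?_⟩
    intro f g hf hg hfg
    have aux : ∀ f g : F, f ≠ 0 → g ≠ 0 → f + g ≠ 0 → V f ≤ V g → V f ≤ V (f + g) := by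
      intro f g hf hg hfg hle
      have h1 : g / f ∈ O := by
        rw [hVO _ (div_ne_zero hg hf), div_eq_mul_inv, hVmul _ _ hg (inv_ne_zero hf),
          hVinv f hf]
        omega
      have h2 : (f + g) / f ∈ O := by
        have h3 : (f + g) / f = 1 + g / f := by field_simp
        rw [h3]
        exact add_mem (one_mem O) h1
      rw [hVO _ (div_ne_zero hfg hf), div_eq_mul_inv, hVmul _ _ hfg (inv_ne_zero hf),
        hVinv f hf] at h2
      omega
    rcases le_total (V f) (V g) with h | h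
    · rw [min_eq_left h]
      exact aux f g hf hg hfg h
    · rw [min_eq_right h, add_comm]
      exact aux g f hg hf (by rwa [add_comm]) h
  have hex : ∃ k : ℕ, 0 < k ∧ ∃ f : F, f ≠ 0 ∧ V f = k := ⟨E, hEpos, p, hp0, hVp⟩
  obtain ⟨hdpos, z, hz0, hzd⟩ := Nat.find_spec hex
  have hdmin : ∀ k : ℕ, k < Nat.find hex → ¬ (0 < k ∧ ∃ f : F, f ≠ 0 ∧ V f = k) :=
    fun k hk => Nat.find_min hex hk
  have hdpos' : (0 : ℤ) < (Nat.find hex : ℤ) := by exact_mod_cast hdpos
  have hdvd : ∀ f : F, f ≠ 0 → ((Nat.find hex : ℕ) : ℤ) ∣ V f := by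
    intro f hf
    have hr0 : 0 ≤ V f % (Nat.find hex : ℤ) := Int.emod_nonneg _ (ne_of_gt hdpos')
    have hrd : V f % (Nat.find hex : ℤ) < (Nat.find hex : ℤ) := Int.emod_lt_of_pos _ hdpos'
    have hg0 : f * z ^ (-(V f / (Nat.find hex : ℤ))) ≠ 0 :=
      mul_ne_zero hf (zpow_ne_zero _ hz0)
    have hVg : V (f * z ^ (-(V f / (Nat.find hex : ℤ)))) = V f % (Nat.find hex : ℤ) := by
      rw [hVmul _ _ hf (zpow_ne_zero _ hz0), h99_w_zpow hVval hz0, hzd]
      have := Int.mul_ediv_add_emod (V f) (Nat.find hex : ℤ)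
      linarith
    apply Int.dvd_of_emod_eq_zero
    by_contra hne
    have hrpos : 0 < V f % (Nat.find hex : ℤ) := lt_of_le_of_ne hr0 (Ne.symm hne)
    exact hdmin (V f % (Nat.find hex : ℤ)).toNat (by omega)
      ⟨by omega, f * z ^ (-(V f / (Nat.find hex : ℤ))), hg0, by rw [hVg]; omega⟩
  refine ⟨fun f => V f / (Nat.find hex : ℤ), ⟨?_, ?_⟩, ⟨z, hz0, ?_⟩, ?_, ?_⟩
  · intro f g hf hg
    show V (f * g) / (Nat.find hex : ℤ) = V f / (Nat.find hex : ℤ) + V g / (Nat.find hex : ℤ)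
    rw [hVmul f g hf hg, Int.add_ediv_of_dvd_left (hdvd f hf)]
  · intro f g hf hg hfg
    show min (V f / (Nat.find hex : ℤ)) (V g / (Nat.find hex : ℤ)) ≤
      V (f + g) / (Nat.find hex : ℤ)
    obtain ⟨a, ha⟩ := hdvd f hf
    obtain ⟨b, hb⟩ := hdvd g hg
    obtain ⟨c, hc⟩ := hdvd (f + g) hfg
    have h := hVval.map_add f g hf hg hfg
    rw [ha, hb, hc] at h
    rw [ha, hb, hc, Int.mul_ediv_cancel_left _ (ne_of_gt hdpos'),
      Int.mul_ediv_cancel_left _ (ne_of_gt hdpos'), Int.mul_ediv_cancel_left _ (ne_of_gt hdpos')]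
    rcases le_total a b with hab | hab
    · rw [min_eq_left hab]
      rw [min_eq_left (mul_le_mul_of_nonneg_left hab hdpos'.le)] at h
      exact le_of_mul_le_mul_left h hdpos'
    · rw [min_eq_right hab]
      rw [min_eq_right (mul_le_mul_of_nonneg_left hab hdpos'.le)] at h
      exact le_of_mul_le_mul_left h hdpos'
  · show V z / (Nat.find hex : ℤ) = 1
    rw [hzd]
    exact Int.ediv_self (ne_of_gt hdpos')
  · intro f hf
    rw [hVO f hf]
    exact (Int.ediv_nonneg_iff_of_pos hdpos').symm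
  · show 0 < V p / (Nat.find hex : ℤ)
    obtain ⟨c, hc⟩ := hdvd p hp0
    rw [hc, Int.mul_ediv_cancel_left _ (ne_of_gt hdpos')]
    rw [hVp] at hc
    have hEpos' : (0 : ℤ) < (E : ℤ) := by exact_mod_cast hEpos
    by_contra hneg
    push Not at hneg
    have : (Nat.find hex : ℤ) * c ≤ 0 := mul_nonpos_of_nonneg_of_nonpos hdpos'.le hneg
    omega

end disc

/-- **Fundamental inequality** `∑ e c * f c ≤ n`: the hypotheses of `h99_integral_iff`
without `hn`. -/
theorem h91_fund_ineq {R : Type*} [CommRing R] [IsDomain R] {F : Type*} [Field F]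
    [Algebra R F] {κ : Type*} [Fintype κ] (w : κ → F → ℤ) (hw : ∀ c, h99_IsVal (w c))
    (hinj : Function.Injective (algebraMap R F))
    (hR : ∀ c (r : R), algebraMap R F r ≠ 0 → 0 ≤ w c (algebraMap R F r))
    (π : R) (hπ0 : π ≠ 0) (hπu : ¬ IsUnit π)
    (hDVR : ∀ r : R, r ≠ 0 → ∃ (k : ℕ) (u : Rˣ), r = π ^ k * u)
    (e : κ → ℕ) (he : ∀ c, w c (algebraMap R F π) = e c)
    (hnorm : ∀ c, ∃ z : F, z ≠ 0 ∧ w c z = 1)
    (hne : ∀ c c', c ≠ c' → ∃ g : F, g ≠ 0 ∧ w c g ≠ w c' g)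
    (f : κ → ℕ) (b : (c : κ) → Fin (f c) → F)
    (hb : ∀ c (r : Fin (f c) → R), (∃ j, IsUnit (r j)) →
      ∑ j, r j • b c j ≠ 0 ∧ w c (∑ j, r j • b c j) = 0)
    (n : ℕ) (hrank : Module.rank R F ≤ n) : ∑ c, e c * f c ≤ n := by
  classical
  obtain ⟨g, -, -, hind⟩ := h99_exists_family w hw hR π hDVR e he hnorm hne f b hb
  have hli := h99_linIndep_of_ind w hinj π hπ0 hπu hDVR e g hind
  have h1 := hli.cardinal_lift_le_rank
  have h3 := h1.trans (Cardinal.lift_le.mpr hrank)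
  rw [Cardinal.mk_fintype, Fintype.card_sigma] at h3
  simp only [Fintype.card_prod, Fintype.card_fin, Cardinal.lift_natCast] at h3
  have h4 : ∑ c, f c * e c ≤ n := by exact_mod_cast h3
  exact (le_of_eq (Finset.sum_congr rfl fun c _ => mul_comm _ _)).trans h4

/-- **(EXACT-e), level `q²`.**  The fundamental inequality with residue degrees
`(ψ, ψ, q²ψ)` and degree `q(q+1)ψ` forces the ramification indices `(1, q-1, 1)`, as soon as
`q - 1` divides the middle one. -/
theorem h91_e_exact (q ψ : ℕ) (hq : 2 ≤ q) (hψ : 0 < ψ) (e0 e1 e2 : ℕ) (h0 : 1 ≤ e0)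
    (h1 : 1 ≤ e1) (h2 : 1 ≤ e2) (hdvd : (q - 1) ∣ e1)
    (hle : e0 * ψ + e1 * ψ + e2 * (q * q * ψ) ≤ q * (q + 1) * ψ) :
    e0 = 1 ∧ e1 = q - 1 ∧ e2 = 1 := by
  have hle' : e0 + e1 + e2 * (q * q) ≤ q * (q + 1) := by
    have h : (e0 + e1 + e2 * (q * q)) * ψ ≤ (q * (q + 1)) * ψ := by
      calc (e0 + e1 + e2 * (q * q)) * ψ = e0 * ψ + e1 * ψ + e2 * (q * q * ψ) := by ring
        _ ≤ q * (q + 1) * ψ := hle
    exact Nat.le_of_mul_le_mul_right h hψ
  obtain ⟨t, ht⟩ := hdvd
  have ht1 : 1 ≤ t := by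
    rcases Nat.eq_zero_or_pos t with h | h
    · rw [h, mul_zero] at ht; omega
    · exact h
  have hqq : q ≤ q * q := Nat.le_mul_self q
  have he2 : e2 = 1 := by
    by_contra hne
    have h3 : 2 ≤ e2 := by omega
    have h4 : 2 * (q * q) ≤ e2 * (q * q) := Nat.mul_le_mul_right _ h3
    have h5 : q * (q + 1) = q * q + q := by ring
    omega
  subst he2
  have h5 : q * (q + 1) = q * q + q := by ring
  have ht' : t = 1 := by
    by_contra hne
    have h3 : 2 ≤ t := by omega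
    have h4 : (q - 1) * 2 ≤ (q - 1) * t := Nat.mul_le_mul_left _ h3
    omega
  subst ht'
  refine ⟨by omega, by omega, rfl⟩

/-- **(EXACT-e), level `q`.**  Residue degrees `(ψ, qψ)` and degree `(q+1)ψ` force the
ramification indices `(1, 1)`. -/
theorem h91_e_exact_q (q ψ : ℕ) (hq : 2 ≤ q) (hψ : 0 < ψ) (e0 e1 : ℕ) (h0 : 1 ≤ e0)
    (h1 : 1 ≤ e1) (hle : e0 * ψ + e1 * (q * ψ) ≤ (q + 1) * ψ) : e0 = 1 ∧ e1 = 1 := by
  have hle' : e0 + e1 * q ≤ q + 1 := by
    have h : (e0 + e1 * q) * ψ ≤ (q + 1) * ψ := by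
      calc (e0 + e1 * q) * ψ = e0 * ψ + e1 * (q * ψ) := by ring
        _ ≤ (q + 1) * ψ := hle
    exact Nat.le_of_mul_le_mul_right h hψ
  have he1 : e1 = 1 := by
    by_contra hne
    have h3 : 2 ≤ e1 := by omega
    have h4 : 2 * q ≤ e1 * q := Nat.mul_le_mul_right _ h3
    omega
  subst he1
  exact ⟨by omega, rfl⟩

end Fermat.Agent.S36
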