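/-
(VAL-FUND)  Completeness of a finite family of explicitly given discrete valuations
over a DVR, from the fundamental equality `∑ e f = [L : K]`.

Setting: `R` a DVR with uniformiser `w`, `K = Frac R`, `L / K` finite separable,
`S := integralClosure R L`.  Data: finitely many `ℤ`-valued valuations `v i` on `L`
(specified on nonzero elements), nonnegative on `R`, with `v i w = e i ≥ 1`, normalised,
pairwise separated, with `d i` residually independent elements, and
`[L : K] ≤ ∑ e i * d i`.  Then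

* `h91_isIntegral_iff` : for `f ≠ 0`, `IsIntegral R f ↔ ∀ i, 0 ≤ v i f`;
* `h91_maximal_eq`     : every maximal ideal of `S` is one of the centres `{v i > 0} ∩ S`.

Mathlib only.
-/
import Mathlib

namespace Fermat.Agent.S36

/-- A `ℤ`-valued valuation on a field, specified on nonzero elements only
(the value at `0` is irrelevant). -/
structure h91_IsVal {L : Type*} [Field L] (v : L → ℤ) : Prop where
  map_mul : ∀ f g : L, f ≠ 0 → g ≠ 0 → v (f * g) = v f + v g
  map_add : ∀ f g : L, f ≠ 0 → g ≠ 0 → f + g ≠ 0 → min (v f) (v g) ≤ v (f + g)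

namespace h91_IsVal

variable {L : Type*} [Field L] {v : L → ℤ}

theorem map_one (hv : h91_IsVal v) : v 1 = 0 := by
  have := hv.map_mul 1 1 one_ne_zero one_ne_zero
  rw [mul_one] at this; omega

theorem map_neg_one (hv : h91_IsVal v) : v (-1) = 0 := by
  have := hv.map_mul (-1) (-1) (by simp) (by simp)
  rw [neg_one_mul, neg_neg, hv.map_one] at this; omega

theorem map_neg (hv : h91_IsVal v) (f : L) (hf : f ≠ 0) : v (-f) = v f := by
  have := hv.map_mul (-1) f (by simp) hf
  rw [neg_one_mul, hv.map_neg_one] at this; omega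

theorem map_inv (hv : h91_IsVal v) (f : L) (hf : f ≠ 0) : v f⁻¹ = - v f := by
  have := hv.map_mul f f⁻¹ hf (inv_ne_zero hf)
  rw [mul_inv_cancel₀ hf, hv.map_one] at this; omega

theorem map_pow (hv : h91_IsVal v) (f : L) (hf : f ≠ 0) (n : ℕ) : v (f ^ n) = n * v f := by
  induction n with
  | zero => simp [hv.map_one]
  | succ n ih =>
    rw [pow_succ, hv.map_mul _ _ (pow_ne_zero n hf) hf, ih]; push_cast; ring

end h91_IsVal

/-- The valuation ring `{f | f = 0 ∨ 0 ≤ v f}` of a `ℤ`-valued valuation. -/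
def h91_valSubring {L : Type*} [Field L] (v : L → ℤ) (hv : h91_IsVal v) :
    ValuationSubring L where
  carrier := {f | f = 0 ∨ 0 ≤ v f}
  mul_mem' := by
    rintro a b (rfl | ha) (rfl | hb)
    · left; simp
    · left; simp
    · left; simp
    · by_cases ha0 : a = 0
      · left; simp [ha0]
      by_cases hb0 : b = 0
      · left; simp [hb0]
      right; rw [hv.map_mul a b ha0 hb0]; omega
  one_mem' := Or.inr hv.map_one.ge
  add_mem' := by
    rintro a b (rfl | ha) (rfl | hb)
    · left; simp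
    · right; simpa using hb
    · right; simpa using ha
    · by_cases ha0 : a = 0
      · right; simpa [ha0] using hb
      by_cases hb0 : b = 0
      · right; simpa [hb0] using ha
      by_cases hab : a + b = 0
      · left; exact hab
      right
      have := hv.map_add a b ha0 hb0 hab
      omega
  zero_mem' := Or.inl rfl
  neg_mem' := by
    rintro a (rfl | ha)
    · left; simp
    · by_cases ha0 : a = 0
      · left; simp [ha0]
      right; rw [hv.map_neg a ha0]; exact ha
  mem_or_inv_mem' := by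
    intro a
    by_cases ha0 : a = 0
    · left; left; exact ha0
    by_cases ha : 0 ≤ v a
    · left; right; exact ha
    · right; right; rw [hv.map_inv a ha0]; omega

theorem h91_mem_valSubring {L : Type*} [Field L] (v : L → ℤ) (hv : h91_IsVal v) (f : L) :
    f ∈ h91_valSubring v hv ↔ f = 0 ∨ 0 ≤ v f := Iff.rfl

/-- Integral elements have nonnegative valuation, as soon as the base ring does. -/
theorem h91_nonneg_of_isIntegral {R L : Type*} [CommRing R] [Field L] [Algebra R L]
    {v : L → ℤ} (hv : h91_IsVal v)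
    (hR : ∀ r : R, algebraMap R L r ≠ 0 → 0 ≤ v (algebraMap R L r))
    {f : L} (hf : IsIntegral R f) (hf0 : f ≠ 0) : 0 ≤ v f := by
  have hmem : ∀ r : R, algebraMap R L r ∈ (h91_valSubring v hv).toSubring := fun r => by
    by_cases h : algebraMap R L r = 0
    · exact Or.inl h
    · exact Or.inr (hR r h)
  have hfV : IsIntegral (h91_valSubring v hv) f := by
    obtain ⟨p, hp, hpf⟩ := hf
    refine ⟨p.map ((algebraMap R L).codRestrict (h91_valSubring v hv).toSubring hmem),
      hp.map _, ?_⟩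
    rw [← hpf, Polynomial.eval₂_map]
    rfl
  obtain ⟨y, hy⟩ := IsIntegrallyClosed.isIntegral_iff.mp hfV
  have hy' : f ∈ h91_valSubring v hv := by rw [← hy]; exact y.2
  rcases hy' with h | h
  · exact absurd h hf0
  · exact h

section dedekind

variable {S L : Type*} [CommRing S] [IsDedekindDomain S] [Field L] [Algebra S L]
  [IsFractionRing S L]

/-- The centre `{s | 0 < v s}` on `S` of a valuation that is nonnegative on `S`. -/
def h91_centre (v : L → ℤ) (hv : h91_IsVal v)
    (hS : ∀ s : S, s ≠ 0 → 0 ≤ v (algebraMap S L s)) : Ideal S where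
  carrier := {s | s = 0 ∨ 0 < v (algebraMap S L s)}
  add_mem' := by
    rintro a b ha hb
    by_cases ha0 : a = 0
    · simpa [ha0] using hb
    by_cases hb0 : b = 0
    · simpa [hb0] using ha
    by_cases hab : a + b = 0
    · left; exact hab
    have ha' := ha.resolve_left ha0
    have hb' := hb.resolve_left hb0
    right
    have hinj := IsFractionRing.injective S L
    have := hv.map_add (algebraMap S L a) (algebraMap S L b)
      ((map_ne_zero_iff _ hinj).mpr ha0) ((map_ne_zero_iff _ hinj).mpr hb0)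
      (by rw [← map_add]; exact (map_ne_zero_iff _ hinj).mpr hab)
    rw [map_add]
    have ha'' : 0 < v (algebraMap S L a) := ha'
    have hb'' : 0 < v (algebraMap S L b) := hb'
    omega
  zero_mem' := Or.inl rfl
  smul_mem' := by
    rintro c a ha
    by_cases hc : c = 0
    · left; simp [hc]
    by_cases ha0 : a = 0
    · left; simp [ha0]
    have ha' : 0 < v (algebraMap S L a) := ha.resolve_left ha0
    right
    have hinj := IsFractionRing.injective S L
    rw [smul_eq_mul, map_mul, hv.map_mul _ _ ((map_ne_zero_iff _ hinj).mpr hc)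
      ((map_ne_zero_iff _ hinj).mpr ha0)]
    have := hS c hc
    omega

theorem h91_mem_centre (v : L → ℤ) (hv : h91_IsVal v)
    (hS : ∀ s : S, s ≠ 0 → 0 ≤ v (algebraMap S L s)) (s : S) :
    s ∈ h91_centre v hv hS ↔ s = 0 ∨ 0 < v (algebraMap S L s) := Iff.rfl

theorem h91_val_eq_zero_of_not_mem (v : L → ℤ) (hv : h91_IsVal v)
    (hS : ∀ s : S, s ≠ 0 → 0 ≤ v (algebraMap S L s)) {t : S}
    (ht : t ∉ h91_centre v hv hS) : t ≠ 0 ∧ v (algebraMap S L t) = 0 := by
  rw [h91_mem_centre, not_or, not_lt] at ht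
  exact ⟨ht.1, le_antisymm ht.2 (hS t ht.1)⟩

theorem h91_centre_isPrime (v : L → ℤ) (hv : h91_IsVal v)
    (hS : ∀ s : S, s ≠ 0 → 0 ≤ v (algebraMap S L s)) : (h91_centre v hv hS).IsPrime := by
  have hinj := IsFractionRing.injective S L
  refine ⟨?_, ?_⟩
  · rw [Ideal.ne_top_iff_one]
    rintro (h | h)
    · exact one_ne_zero h
    · rw [map_one, hv.map_one] at h; exact lt_irrefl _ h
  · intro a b hab
    by_cases ha0 : a = 0
    · left; left; exact ha0
    by_cases hb0 : b = 0
    · right; left; exact hb0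
    rcases hab with h | h
    · exact absurd h (mul_ne_zero ha0 hb0)
    · rw [map_mul, hv.map_mul _ _ ((map_ne_zero_iff _ hinj).mpr ha0)
        ((map_ne_zero_iff _ hinj).mpr hb0)] at h
      by_cases ha : 0 < v (algebraMap S L a)
      · left; right; exact ha
      · right; right
        have := hS a ha0
        omega

/-- The valuation ring of `v` is the localisation of `S` at the centre: denominators can be
cleared by an element outside the centre. -/
theorem h91_exists_clear (v : L → ℤ) (hv : h91_IsVal v)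
    (hS : ∀ s : S, s ≠ 0 → 0 ≤ v (algebraMap S L s)) (hP : h91_centre v hv hS ≠ ⊥)
    (f : L) (hf0 : f ≠ 0) (hf : 0 ≤ v f) :
    ∃ t s : S, t ∉ h91_centre v hv hS ∧ algebraMap S L t * f = algebraMap S L s := by
  classical
  have hinj := IsFractionRing.injective S L
  haveI : (h91_centre v hv hS).IsPrime := h91_centre_isPrime v hv hS
  have hle : (h91_centre v hv hS).primeCompl ≤ nonZeroDivisors S :=
    (h91_centre v hv hS).primeCompl_le_nonZeroDivisors
  let A := Localization.subalgebra.ofField L (h91_centre v hv hS).primeCompl hle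
  haveI : IsLocalization.AtPrime A (h91_centre v hv hS) :=
    Localization.subalgebra.isLocalization_ofField L (h91_centre v hv hS).primeCompl hle
  haveI : IsDiscreteValuationRing A :=
    IsLocalization.AtPrime.isDiscreteValuationRing_of_dedekind_domain S hP A
  have hA : ∀ x : A, ∃ a s : S, s ∉ h91_centre v hv hS ∧
      (x : L) = algebraMap S L a * (algebraMap S L s)⁻¹ := by
    intro x
    obtain ⟨a, s, hs, hx⟩ := x.2
    exact ⟨a, s, hs, hx⟩
  rcases ValuationRing.isInteger_or_isInteger A f with ⟨x, hx⟩ | ⟨x, hx⟩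
  · obtain ⟨a, s, hs, hxa⟩ := hA x
    have hs0 := (h91_val_eq_zero_of_not_mem v hv hS hs).1
    refine ⟨s, a, hs, ?_⟩
    have : f = algebraMap S L a * (algebraMap S L s)⁻¹ := by rw [← hxa, ← hx]; rfl
    rw [this]
    field_simp [(map_ne_zero_iff _ hinj).mpr hs0]
  · obtain ⟨a, s, hs, hxa⟩ := hA x
    obtain ⟨hs0, hvs⟩ := h91_val_eq_zero_of_not_mem v hv hS hs
    have hs0' := (map_ne_zero_iff _ hinj).mpr hs0
    have hfi : f⁻¹ = algebraMap S L a * (algebraMap S L s)⁻¹ := by rw [← hxa, ← hx]; rfl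
    have ha0' : algebraMap S L a ≠ 0 := by
      intro h
      rw [h, zero_mul] at hfi
      exact hf0 (inv_eq_zero.mp hfi)
    have ha0 : a ≠ 0 := fun h => ha0' (by rw [h, map_zero])
    have hf' : f = algebraMap S L s * (algebraMap S L a)⁻¹ := by
      rw [← inv_inv f, hfi, mul_inv, inv_inv, mul_comm]
    by_cases ha : a ∈ h91_centre v hv hS
    · exfalso
      have hva : 0 < v (algebraMap S L a) := ha.resolve_left ha0
      rw [hf', hv.map_mul _ _ hs0' (inv_ne_zero ha0'), hv.map_inv _ ha0', hvs] at hf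
      omega
    · refine ⟨a, s, ha, ?_⟩
      rw [hf']
      field_simp

/-- Elements of valuation `≥ m` lie in the `m`-th power of the centre. -/
theorem h91_mem_centre_pow (v : L → ℤ) (hv : h91_IsVal v)
    (hS : ∀ s : S, s ≠ 0 → 0 ≤ v (algebraMap S L s)) (hP : h91_centre v hv hS ≠ ⊥)
    (hone : ∃ z : L, z ≠ 0 ∧ v z = 1) (s : S) (hs : s ≠ 0) (m : ℕ)
    (hm : (m : ℤ) ≤ v (algebraMap S L s)) : s ∈ h91_centre v hv hS ^ m := by
  have hinj := IsFractionRing.injective S L
  haveI : (h91_centre v hv hS).IsPrime := h91_centre_isPrime v hv hS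
  obtain ⟨z, hz0, hz⟩ := hone
  obtain ⟨t, π, ht, htπ⟩ := h91_exists_clear v hv hS hP z hz0 (by omega)
  obtain ⟨ht0, hvt⟩ := h91_val_eq_zero_of_not_mem v hv hS ht
  have ht0' := (map_ne_zero_iff _ hinj).mpr ht0
  have hπ0' : algebraMap S L π ≠ 0 := by rw [← htπ]; exact mul_ne_zero ht0' hz0
  have hπ0 : π ≠ 0 := fun h => hπ0' (by rw [h, map_zero])
  have hvπ : v (algebraMap S L π) = 1 := by
    rw [← htπ, hv.map_mul _ _ ht0' hz0, hvt, hz]; rfl
  have hπP : π ∈ h91_centre v hv hS := Or.inr (by rw [hvπ]; exact one_pos)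
  have hs0' := (map_ne_zero_iff _ hinj).mpr hs
  have hpow0 : (algebraMap S L π) ^ m ≠ 0 := pow_ne_zero m hπ0'
  obtain ⟨t', s', ht', hts'⟩ := h91_exists_clear v hv hS hP
    (algebraMap S L s * ((algebraMap S L π) ^ m)⁻¹) (mul_ne_zero hs0' (inv_ne_zero hpow0))
    (by rw [hv.map_mul _ _ hs0' (inv_ne_zero hpow0), hv.map_inv _ hpow0,
          hv.map_pow _ hπ0' m, hvπ]; omega)
  have hkey : t' * s = s' * π ^ m := by
    apply hinj
    rw [map_mul, map_mul, map_pow, ← hts']
    field_simp
  have hmem : t' * s ∈ h91_centre v hv hS ^ m := by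
    rw [hkey]
    exact Ideal.mul_mem_left _ _ (Ideal.pow_mem_pow hπP m)
  exact (Ideal.IsPrime.mul_mem_pow _ hmem).resolve_left ht'

/-- The centre is nonzero as soon as it contains a nonzero element. -/
theorem h91_centre_ne_bot (v : L → ℤ) (hv : h91_IsVal v)
    (hS : ∀ s : S, s ≠ 0 → 0 ≤ v (algebraMap S L s)) (x : S) (hx0 : x ≠ 0)
    (hx : 0 < v (algebraMap S L x)) : h91_centre v hv hS ≠ ⊥ := by
  intro h
  have hxP : x ∈ h91_centre v hv hS := Or.inr hx
  rw [h] at hxP
  exact hx0 hxP

/-- Lower bound for the ramification index of the centre. -/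
theorem h91_le_ramificationIdx {R : Type*} [CommRing R] [Algebra R S]
    (v : L → ℤ) (hv : h91_IsVal v) (hS : ∀ s : S, s ≠ 0 → 0 ≤ v (algebraMap S L s))
    (hone : ∃ z : L, z ≠ 0 ∧ v z = 1) (w : R) (e : ℕ) (he : 1 ≤ e)
    (hw0 : algebraMap R S w ≠ 0)
    (hw : v (algebraMap S L (algebraMap R S w)) = e)
    [(h91_centre v hv hS).LiesOver (Ideal.span {w})] :
    e ≤ (h91_centre v hv hS).ramificationIdx R := by
  have hP : h91_centre v hv hS ≠ ⊥ :=
    h91_centre_ne_bot v hv hS _ hw0 (by rw [hw]; exact_mod_cast he)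
  haveI := h91_centre_isPrime v hv hS
  have hmap : (Ideal.span {w}).map (algebraMap R S) ≠ ⊥ := by
    rw [Ideal.map_span, Set.image_singleton, Ne, Ideal.span_singleton_eq_bot]; exact hw0
  rw [Ideal.IsDedekindDomain.ramificationIdx_eq_multiplicity (Ideal.span {w}) _ hmap]
  apply FiniteMultiplicity.le_multiplicity_of_pow_dvd
  · exact FiniteMultiplicity.of_not_isUnit
      (by rw [Ideal.isUnit_iff]; exact (h91_centre_isPrime v hv hS).ne_top) hmap
  · rw [Ideal.dvd_iff_le, Ideal.map_span, Set.image_singleton, Ideal.span_singleton_le_iff_mem]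
    exact h91_mem_centre_pow v hv hS hP hone _ hw0 e (by rw [hw])

/-- Lower bound for the inertia degree of the centre. -/
theorem h91_le_inertiaDeg {R : Type*} [CommRing R] [Algebra R S] [Algebra R L]
    [IsScalarTower R S L] [Module.Finite R S]
    (v : L → ℤ) (hv : h91_IsVal v) (hS : ∀ s : S, s ≠ 0 → 0 ≤ v (algebraMap S L s))
    (hP : h91_centre v hv hS ≠ ⊥) (p : Ideal R) [p.IsMaximal]
    [(h91_centre v hv hS).LiesOver p]
    (d : ℕ) (b : Fin d → L) (hb : ∀ k, b k ≠ 0 ∧ 0 ≤ v (b k))
    (hres : ∀ r : Fin d → R, (∑ k, r k • b k = 0 ∨ 0 < v (∑ k, r k • b k)) → ∀ k, r k ∈ p) :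
    d ≤ (h91_centre v hv hS).inertiaDeg R := by
  classical
  have hinj := IsFractionRing.injective S L
  haveI hprime := h91_centre_isPrime v hv hS
  haveI hmax : (h91_centre v hv hS).IsMaximal := hprime.isMaximal hP
  rw [Ideal.inertiaDeg_eq_of_isMaximal p (h91_centre v hv hS)]
  have hcl : ∀ k, ∃ t c : S, t ∉ h91_centre v hv hS ∧
      algebraMap S L t * b k = algebraMap S L c :=
    fun k => h91_exists_clear v hv hS hP (b k) (hb k).1 (hb k).2
  choose t c ht hc using hcl
  set T : S := ∏ k, t k with hT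
  have hTP : T ∉ h91_centre v hv hS := by
    rw [hT]
    intro h
    obtain ⟨k, -, hk⟩ := hprime.prod_mem_iff.mp h
    exact ht k hk
  obtain ⟨hT0, hvT⟩ := h91_val_eq_zero_of_not_mem v hv hS hTP
  have hT0' := (map_ne_zero_iff _ hinj).mpr hT0
  let c' : Fin d → S := fun k => (∏ j ∈ Finset.univ.erase k, t j) * c k
  have hc' : ∀ k, algebraMap S L T * b k = algebraMap S L (c' k) := by
    intro k
    have : T = (∏ j ∈ Finset.univ.erase k, t j) * t k := by
      rw [hT, Finset.prod_erase_mul _ _ (Finset.mem_univ k)]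
    rw [this, map_mul, map_mul, mul_assoc, hc k]
  have hli : LinearIndependent (R ⧸ p)
      (fun k => (Ideal.Quotient.mk (h91_centre v hv hS) (c' k))) := by
    rw [Fintype.linearIndependent_iff]
    intro g hg k
    have hsurj : ∀ k, ∃ r : R, Ideal.Quotient.mk p r = g k :=
      fun k => Ideal.Quotient.mk_surjective (g k)
    choose r hr using hsurj
    have hσ : (∑ k, algebraMap R S (r k) * c' k) ∈ h91_centre v hv hS := by
      rw [← Ideal.Quotient.eq_zero_iff_mem, map_sum, ← hg]
      refine Finset.sum_congr rfl fun k _ => ?_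
      rw [← hr k, Algebra.smul_def, Ideal.Quotient.algebraMap_mk_of_liesOver, map_mul]
    have hσL : algebraMap S L (∑ k, algebraMap R S (r k) * c' k) =
        algebraMap S L T * ∑ k, r k • b k := by
      rw [map_sum, Finset.mul_sum]
      refine Finset.sum_congr rfl fun k _ => ?_
      rw [map_mul, ← hc' k, ← IsScalarTower.algebraMap_apply, Algebra.smul_def]
      ring
    have hrk : ∀ k, r k ∈ p := by
      apply hres
      by_cases h0 : ∑ k, r k • b k = 0
      · left; exact h0
      right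
      have hσ0 : (∑ k, algebraMap R S (r k) * c' k) ≠ 0 := by
        intro h
        rw [h, map_zero] at hσL
        exact (mul_ne_zero hT0' h0) hσL.symm
      have hpos := hσ.resolve_left hσ0
      rw [hσL, hv.map_mul _ _ hT0' h0, hvT] at hpos
      omega
    rw [← hr k, Ideal.Quotient.eq_zero_iff_mem]
    exact hrk k
  have := hli.fintype_card_le_finrank
  simpa using this

/-- Distinct (separated) valuations have distinct centres. -/
theorem h91_centre_ne (v v' : L → ℤ) (hv : h91_IsVal v) (hv' : h91_IsVal v')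
    (hS : ∀ s : S, s ≠ 0 → 0 ≤ v (algebraMap S L s))
    (hS' : ∀ s : S, s ≠ 0 → 0 ≤ v' (algebraMap S L s))
    (hP : h91_centre v hv hS ≠ ⊥)
    (hsep : ∃ f : L, f ≠ 0 ∧ 0 ≤ v f ∧ v' f < 0) :
    h91_centre v hv hS ≠ h91_centre v' hv' hS' := by
  have hinj := IsFractionRing.injective S L
  obtain ⟨f, hf0, hf, hf'⟩ := hsep
  obtain ⟨t, s, ht, hts⟩ := h91_exists_clear v hv hS hP f hf0 hf
  obtain ⟨ht0, -⟩ := h91_val_eq_zero_of_not_mem v hv hS ht
  have ht0' := (map_ne_zero_iff _ hinj).mpr ht0
  have hs0' : algebraMap S L s ≠ 0 := by rw [← hts]; exact mul_ne_zero ht0' hf0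
  have hs0 : s ≠ 0 := fun h => hs0' (by rw [h, map_zero])
  have h1 := hS' s hs0
  rw [← hts, hv'.map_mul _ _ ht0' hf0] at h1
  intro h
  apply ht
  rw [h]
  exact Or.inr (by omega)

end dedekind

/-- Counting: if finitely many distinct primes over `p` already account for the degree,
there is no other prime over `p`. -/
theorem h91_count {R S : Type*} [CommRing R] [IsDomain R] [CommRing S] [Algebra R S]
    [Module.Finite R S] [Module.Flat R S] (p : Ideal R) [p.IsPrime]
    [Fintype (p.primesOver S)]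
    {ι : Type*} [Fintype ι] (P : ι → Ideal S) (hP : Function.Injective P)
    (hmem : ∀ i, P i ∈ p.primesOver S) (e d : ι → ℕ)
    (he : ∀ i, e i ≤ (P i).ramificationIdx R) (hd : ∀ i, d i ≤ (P i).inertiaDeg R)
    (hdeg : Module.finrank R S ≤ ∑ i, e i * d i)
    (Q : Ideal S) (hQ : Q ∈ p.primesOver S) : ∃ i, P i = Q := by
  classical
  by_contra hne
  push Not at hne
  have hsum := Ideal.sum_ramification_inertia_eq_finrank p S
  let φ : ι → p.primesOver S := fun i => ⟨P i, hmem i⟩
  have hφ : Function.Injective φ := fun i j h => hP (congrArg Subtype.val h)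
  have hQpos : 0 < Q.ramificationIdx R * Q.inertiaDeg R := by
    haveI : Q.IsPrime := hQ.1
    exact Nat.mul_pos (Ideal.ramificationIdx_pos Q R) (Ideal.inertiaDeg_pos Q R)
  have h1 : ∑ i, e i * d i ≤ ∑ i, (P i).ramificationIdx R * (P i).inertiaDeg R :=
    Finset.sum_le_sum fun i _ => Nat.mul_le_mul (he i) (hd i)
  have h2 : ∑ i, (P i).ramificationIdx R * (P i).inertiaDeg R =
      ∑ q ∈ Finset.univ.image φ, q.1.ramificationIdx R * q.1.inertiaDeg R := by
    rw [Finset.sum_image (fun i _ j _ h => hφ h)]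
  have hQnot : (⟨Q, hQ⟩ : p.primesOver S) ∉ Finset.univ.image φ := by
    intro h
    obtain ⟨i, -, hi⟩ := Finset.mem_image.mp h
    exact hne i (congrArg Subtype.val hi)
  have h3 : ∑ q ∈ Finset.univ.image φ, q.1.ramificationIdx R * q.1.inertiaDeg R +
      Q.ramificationIdx R * Q.inertiaDeg R ≤
      ∑ q : p.primesOver S, q.1.ramificationIdx R * q.1.inertiaDeg R := by
    rw [add_comm, ← Finset.sum_insert hQnot (f := fun q : p.primesOver S =>
      q.1.ramificationIdx R * q.1.inertiaDeg R)]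
    exact Finset.sum_le_sum_of_subset (Finset.subset_univ _)
  omega

section main

variable (K : Type*) {R L : Type*} [CommRing R] [IsDomain R] [IsDiscreteValuationRing R]
  [Field K] [Algebra R K] [IsFractionRing R K] [Field L] [Algebra K L] [Algebra R L]
  [IsScalarTower R K L] [FiniteDimensional K L] [Algebra.IsSeparable K L]

/-- **Fundamental package.**  `R` a DVR with uniformiser `w`, `K = Frac R`, `L / K` finite
separable, and finitely many `ℤ`-valued valuations `v i` on `L`, nonnegative on `R`, with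
`v i w = e i ≥ 1`, normalised, pairwise separated, with `d i` residually independent
elements and `[L : K] ≤ ∑ e i * d i`.  Then

1. the integral closure of `R` in `L` is `{f | ∀ i, 0 ≤ v i f}`;
2. every maximal ideal of the integral closure is one of the centres `{v i > 0}`;
3. the valuation ring of `v i` is the localisation of the integral closure at its centre:
   denominators are cleared by integral elements of `v i`-valuation `0`. -/
theorem h91_fund {ι : Type*} [Fintype ι] (w : R) (hw : Irreducible w) (v : ι → L → ℤ)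
    (hmul : ∀ i (f g : L), f ≠ 0 → g ≠ 0 → v i (f * g) = v i f + v i g)
    (hadd : ∀ i (f g : L), f ≠ 0 → g ≠ 0 → f + g ≠ 0 → min (v i f) (v i g) ≤ v i (f + g))
    (hR : ∀ i (r : R), r ≠ 0 → 0 ≤ v i (algebraMap R L r))
    (e d : ι → ℕ) (hwe : ∀ i, v i (algebraMap R L w) = e i) (he : ∀ i, 1 ≤ e i)
    (hone : ∀ i, ∃ z : L, z ≠ 0 ∧ v i z = 1)
    (hsep : ∀ i j, i ≠ j → ∃ f : L, f ≠ 0 ∧ 0 ≤ v i f ∧ v j f < 0)
    (hres : ∀ i, ∃ b : Fin (d i) → L, (∀ k, b k ≠ 0 ∧ 0 ≤ v i (b k)) ∧
      ∀ r : Fin (d i) → R, (∑ k, r k • b k = 0 ∨ 0 < v i (∑ k, r k • b k)) → ∀ k, w ∣ r k)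
    (hdeg : Module.finrank K L ≤ ∑ i, e i * d i) :
    (∀ f : L, f ≠ 0 → (IsIntegral R f ↔ ∀ i, 0 ≤ v i f)) ∧
    (∀ M : Ideal (integralClosure R L), M.IsMaximal →
      ∃ i, ∀ s : integralClosure R L, s ∈ M ↔ (s = 0 ∨ 0 < v i (s : L))) ∧
    (∀ i (f : L), f ≠ 0 → 0 ≤ v i f →
      ∃ t s : integralClosure R L, (t : L) ≠ 0 ∧ v i (t : L) = 0 ∧ (t : L) * f = (s : L)) := by
  classical
  haveI : IsDedekindDomain (integralClosure R L) := integralClosure.isDedekindDomain R K L
  haveI : IsFractionRing (integralClosure R L) L :=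
    integralClosure.isFractionRing_of_finite_extension K L
  haveI : Module.Finite R (integralClosure R L) := IsIntegralClosure.finite R K L _
  haveI : FaithfulSMul R L := (faithfulSMul_iff_algebraMap_injective R L).mpr (by
    rw [IsScalarTower.algebraMap_eq R K L]
    exact (algebraMap K L).injective.comp (IsFractionRing.injective R K))
  haveI : Module.Free R (integralClosure R L) := IsIntegralClosure.module_free R K L _
  have hrank : Module.finrank R (integralClosure R L) = Module.finrank K L :=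
    IsIntegralClosure.rank R K L _
  have hv : ∀ i, h91_IsVal (v i) := fun i => ⟨hmul i, hadd i⟩
  have hRinj : Function.Injective (algebraMap R L) := FaithfulSMul.algebraMap_injective R L
  have hR' : ∀ i (r : R), algebraMap R L r ≠ 0 → 0 ≤ v i (algebraMap R L r) :=
    fun i r hr => hR i r (fun h => hr (by rw [h, map_zero]))
  have hS : ∀ i (s : integralClosure R L), s ≠ 0 →
      0 ≤ v i (algebraMap (integralClosure R L) L s) := fun i s hs =>
    h91_nonneg_of_isIntegral (hv i) (hR' i) s.2 (fun h => hs (Subtype.ext h))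
  have hw0 : w ≠ 0 := hw.ne_zero
  have hwS0 : algebraMap R (integralClosure R L) w ≠ 0 := by
    intro h
    have h2 := congrArg (algebraMap (integralClosure R L) L) h
    rw [← IsScalarTower.algebraMap_apply, map_zero] at h2
    exact hw0 (hRinj (by rw [h2, map_zero]))
  have hwS : ∀ i, v i (algebraMap (integralClosure R L) L
      (algebraMap R (integralClosure R L) w)) = e i := fun i => by
    rw [← IsScalarTower.algebraMap_apply]; exact hwe i
  have hPbot : ∀ i, h91_centre (v i) (hv i) (hS i) ≠ ⊥ := fun i =>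
    h91_centre_ne_bot _ _ _ _ hwS0 (by rw [hwS]; exact_mod_cast he i)
  have hPprime := fun i => h91_centre_isPrime (v i) (hv i) (hS i)
  have hPmax : ∀ i, (h91_centre (v i) (hv i) (hS i)).IsMaximal :=
    fun i => (hPprime i).isMaximal (hPbot i)
  have hspan : IsLocalRing.maximalIdeal R = Ideal.span {w} := hw.maximalIdeal_eq
  haveI hpmax : (Ideal.span {w} : Ideal R).IsMaximal := hspan ▸ inferInstance
  have hunder : ∀ M : Ideal (integralClosure R L), M.IsMaximal →
      M.LiesOver (Ideal.span {w}) := by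
    intro M hM
    haveI := hM
    have hmax' : (Ideal.comap (algebraMap R (integralClosure R L)) M).IsMaximal :=
      Ideal.isMaximal_comap_of_isIntegral_of_isMaximal M
    exact ⟨by rw [← hspan]; exact (IsLocalRing.eq_maximalIdeal hmax').symm⟩
  have hover : ∀ i, (h91_centre (v i) (hv i) (hS i)).LiesOver (Ideal.span {w}) :=
    fun i => hunder _ (hPmax i)
  have hinjP : Function.Injective (fun i => h91_centre (v i) (hv i) (hS i)) := by
    intro i j h
    by_contra hij
    exact h91_centre_ne (v i) (v j) (hv i) (hv j) (hS i) (hS j) (hPbot i) (hsep i j hij) h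
  have hram : ∀ i, e i ≤ (h91_centre (v i) (hv i) (hS i)).ramificationIdx R := fun i => by
    haveI := hover i
    exact h91_le_ramificationIdx (v i) (hv i) (hS i) (hone i) w (e i) (he i) hwS0 (hwS i)
  have hin : ∀ i, d i ≤ (h91_centre (v i) (hv i) (hS i)).inertiaDeg R := fun i => by
    haveI := hover i
    obtain ⟨b, hb, hbr⟩ := hres i
    exact h91_le_inertiaDeg (v i) (hv i) (hS i) (hPbot i) (Ideal.span {w}) (d i) b hb
      (fun r hr k => Ideal.mem_span_singleton.mpr (hbr r hr k))
  have hall : ∀ Q ∈ (Ideal.span {w} : Ideal R).primesOver (integralClosure R L),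
      ∃ i, h91_centre (v i) (hv i) (hS i) = Q :=
    h91_count (Ideal.span {w}) (fun i => h91_centre (v i) (hv i) (hS i)) hinjP
      (fun i => ⟨hPprime i, hover i⟩) e d hram hin (by rw [hrank]; exact hdeg)
  have hmaxall : ∀ M : Ideal (integralClosure R L), M.IsMaximal →
      ∃ i, M = h91_centre (v i) (hv i) (hS i) := by
    intro M hM
    obtain ⟨i, hi⟩ := hall M ⟨hM.isPrime, hunder M hM⟩
    exact ⟨i, hi.symm⟩
  have hclear : ∀ i (f : L), f ≠ 0 → 0 ≤ v i f → ∃ t s : integralClosure R L,
      t ∉ h91_centre (v i) (hv i) (hS i) ∧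
      algebraMap (integralClosure R L) L t * f = algebraMap (integralClosure R L) L s :=
    fun i f hf0 hf => h91_exists_clear (v i) (hv i) (hS i) (hPbot i) f hf0 hf
  refine ⟨?_, ?_, ?_⟩
  · intro f hf0
    constructor
    · intro hf i
      exact h91_nonneg_of_isIntegral (hv i) (hR' i) hf hf0
    · intro hf
      by_contra hnot
      let D : Ideal (integralClosure R L) :=
        { carrier := {t | IsIntegral R ((t : L) * f)}
          add_mem' := by
            intro a b ha hb
            show IsIntegral R (((a + b : integralClosure R L) : L) * f)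
            have : ((a + b : integralClosure R L) : L) * f = (a : L) * f + (b : L) * f := by
              push_cast; ring
            rw [this]
            exact IsIntegral.add ha hb
          zero_mem' := by
            show IsIntegral R (((0 : integralClosure R L) : L) * f)
            simpa using isIntegral_zero
          smul_mem' := by
            intro c a ha
            show IsIntegral R (((c • a : integralClosure R L) : L) * f)
            have : ((c • a : integralClosure R L) : L) * f = (c : L) * ((a : L) * f) := by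
              rw [smul_eq_mul]; push_cast; ring
            rw [this]
            exact IsIntegral.mul c.2 ha }
      have hD : D ≠ ⊤ := by
        intro h
        have h1 : (1 : integralClosure R L) ∈ D := h ▸ Submodule.mem_top
        have h2 : IsIntegral R (((1 : integralClosure R L) : L) * f) := h1
        exact hnot (by simpa using h2)
      obtain ⟨M, hM, hDM⟩ := Ideal.exists_le_maximal D hD
      obtain ⟨i, rfl⟩ := hmaxall M hM
      obtain ⟨t, s, ht, hts⟩ := hclear i f hf0 (hf i)
      exact ht (hDM (show IsIntegral R ((t : L) * f) from by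
        have : (t : L) * f = (s : L) := hts
        rw [this]; exact s.2))
  · intro M hM
    obtain ⟨i, rfl⟩ := hmaxall M hM
    exact ⟨i, fun s => Iff.rfl⟩
  · intro i f hf0 hf
    obtain ⟨t, s, ht, hts⟩ := hclear i f hf0 hf
    obtain ⟨ht0, hvt⟩ := h91_val_eq_zero_of_not_mem _ _ _ ht
    exact ⟨t, s, fun h => ht0 (Subtype.ext h), hvt, hts⟩

/-- **(F1) Completeness.**  The integral closure is cut out by the given valuations. -/
theorem h91_isIntegral_iff {ι : Type*} [Fintype ι] (w : R) (hw : Irreducible w) (v : ι → L → ℤ)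
    (hmul : ∀ i (f g : L), f ≠ 0 → g ≠ 0 → v i (f * g) = v i f + v i g)
    (hadd : ∀ i (f g : L), f ≠ 0 → g ≠ 0 → f + g ≠ 0 → min (v i f) (v i g) ≤ v i (f + g))
    (hR : ∀ i (r : R), r ≠ 0 → 0 ≤ v i (algebraMap R L r))
    (e d : ι → ℕ) (hwe : ∀ i, v i (algebraMap R L w) = e i) (he : ∀ i, 1 ≤ e i)
    (hone : ∀ i, ∃ z : L, z ≠ 0 ∧ v i z = 1)
    (hsep : ∀ i j, i ≠ j → ∃ f : L, f ≠ 0 ∧ 0 ≤ v i f ∧ v j f < 0)
    (hres : ∀ i, ∃ b : Fin (d i) → L, (∀ k, b k ≠ 0 ∧ 0 ≤ v i (b k)) ∧
      ∀ r : Fin (d i) → R, (∑ k, r k • b k = 0 ∨ 0 < v i (∑ k, r k • b k)) → ∀ k, w ∣ r k)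
    (hdeg : Module.finrank K L ≤ ∑ i, e i * d i) (f : L) (hf : f ≠ 0) :
    IsIntegral R f ↔ ∀ i, 0 ≤ v i f :=
  (h91_fund K w hw v hmul hadd hR e d hwe he hone hsep hres hdeg).1 f hf

/-- **(F1')** `f / w` is integral iff `e i ≤ v i f` for all `i`
(so `w • (integral closure) = {f | ∀ i, e i ≤ v i f}`). -/
theorem h91_isIntegral_div_iff {ι : Type*} [Fintype ι] (w : R) (hw : Irreducible w)
    (v : ι → L → ℤ)
    (hmul : ∀ i (f g : L), f ≠ 0 → g ≠ 0 → v i (f * g) = v i f + v i g)
    (hadd : ∀ i (f g : L), f ≠ 0 → g ≠ 0 → f + g ≠ 0 → min (v i f) (v i g) ≤ v i (f + g))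
    (hR : ∀ i (r : R), r ≠ 0 → 0 ≤ v i (algebraMap R L r))
    (e d : ι → ℕ) (hwe : ∀ i, v i (algebraMap R L w) = e i) (he : ∀ i, 1 ≤ e i)
    (hone : ∀ i, ∃ z : L, z ≠ 0 ∧ v i z = 1)
    (hsep : ∀ i j, i ≠ j → ∃ f : L, f ≠ 0 ∧ 0 ≤ v i f ∧ v j f < 0)
    (hres : ∀ i, ∃ b : Fin (d i) → L, (∀ k, b k ≠ 0 ∧ 0 ≤ v i (b k)) ∧
      ∀ r : Fin (d i) → R, (∑ k, r k • b k = 0 ∨ 0 < v i (∑ k, r k • b k)) → ∀ k, w ∣ r k)
    (hdeg : Module.finrank K L ≤ ∑ i, e i * d i) (f : L) (hf : f ≠ 0) (n : ℕ) :
    IsIntegral R (f / algebraMap R L w ^ n) ↔ ∀ i, (n * e i : ℤ) ≤ v i f := by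
  have hv : ∀ i, h91_IsVal (v i) := fun i => ⟨hmul i, hadd i⟩
  have hinj : Function.Injective (algebraMap R L) := by
    rw [IsScalarTower.algebraMap_eq R K L]
    exact (algebraMap K L).injective.comp (IsFractionRing.injective R K)
  have hw0 : algebraMap R L w ≠ 0 := fun h => hw.ne_zero (hinj (by rw [h, map_zero]))
  have hpow0 : algebraMap R L w ^ n ≠ 0 := pow_ne_zero n hw0
  have hdiv0 : f / algebraMap R L w ^ n ≠ 0 := div_ne_zero hf hpow0
  rw [h91_isIntegral_iff K w hw v hmul hadd hR e d hwe he hone hsep hres hdeg _ hdiv0]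
  refine forall_congr' fun i => ?_
  rw [div_eq_mul_inv, (hv i).map_mul _ _ hf (inv_ne_zero hpow0), (hv i).map_inv _ hpow0,
    (hv i).map_pow _ hw0 n, hwe i]
  constructor <;> intro h <;> linarith

/-- **(F2)** Every maximal ideal of the integral closure is a centre. -/
theorem h91_maximal_eq {ι : Type*} [Fintype ι] (w : R) (hw : Irreducible w) (v : ι → L → ℤ)
    (hmul : ∀ i (f g : L), f ≠ 0 → g ≠ 0 → v i (f * g) = v i f + v i g)
    (hadd : ∀ i (f g : L), f ≠ 0 → g ≠ 0 → f + g ≠ 0 → min (v i f) (v i g) ≤ v i (f + g))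
    (hR : ∀ i (r : R), r ≠ 0 → 0 ≤ v i (algebraMap R L r))
    (e d : ι → ℕ) (hwe : ∀ i, v i (algebraMap R L w) = e i) (he : ∀ i, 1 ≤ e i)
    (hone : ∀ i, ∃ z : L, z ≠ 0 ∧ v i z = 1)
    (hsep : ∀ i j, i ≠ j → ∃ f : L, f ≠ 0 ∧ 0 ≤ v i f ∧ v j f < 0)
    (hres : ∀ i, ∃ b : Fin (d i) → L, (∀ k, b k ≠ 0 ∧ 0 ≤ v i (b k)) ∧
      ∀ r : Fin (d i) → R, (∑ k, r k • b k = 0 ∨ 0 < v i (∑ k, r k • b k)) → ∀ k, w ∣ r k)
    (hdeg : Module.finrank K L ≤ ∑ i, e i * d i)
    (M : Ideal (integralClosure R L)) (hM : M.IsMaximal) :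
    ∃ i, ∀ s : integralClosure R L, s ∈ M ↔ (s = 0 ∨ 0 < v i (s : L)) :=
  (h91_fund K w hw v hmul hadd hR e d hwe he hone hsep hres hdeg).2.1 M hM

/-- **(F2')** The valuation ring of `v i` is the localisation of the integral closure at the
centre of `v i`: for `0 ≤ v i f` there is an integral `t` with `v i t = 0` and `t * f`
integral. -/
theorem h91_exists_integral_clear {ι : Type*} [Fintype ι] (w : R) (hw : Irreducible w)
    (v : ι → L → ℤ)
    (hmul : ∀ i (f g : L), f ≠ 0 → g ≠ 0 → v i (f * g) = v i f + v i g)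
    (hadd : ∀ i (f g : L), f ≠ 0 → g ≠ 0 → f + g ≠ 0 → min (v i f) (v i g) ≤ v i (f + g))
    (hR : ∀ i (r : R), r ≠ 0 → 0 ≤ v i (algebraMap R L r))
    (e d : ι → ℕ) (hwe : ∀ i, v i (algebraMap R L w) = e i) (he : ∀ i, 1 ≤ e i)
    (hone : ∀ i, ∃ z : L, z ≠ 0 ∧ v i z = 1)
    (hsep : ∀ i j, i ≠ j → ∃ f : L, f ≠ 0 ∧ 0 ≤ v i f ∧ v j f < 0)
    (hres : ∀ i, ∃ b : Fin (d i) → L, (∀ k, b k ≠ 0 ∧ 0 ≤ v i (b k)) ∧
      ∀ r : Fin (d i) → R, (∑ k, r k • b k = 0 ∨ 0 < v i (∑ k, r k • b k)) → ∀ k, w ∣ r k)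
    (hdeg : Module.finrank K L ≤ ∑ i, e i * d i) (i : ι) (f : L) (hf0 : f ≠ 0)
    (hf : 0 ≤ v i f) :
    ∃ t s : L, IsIntegral R t ∧ IsIntegral R s ∧ t ≠ 0 ∧ v i t = 0 ∧ t * f = s := by
  obtain ⟨t, s, ht0, hvt, hts⟩ :=
    (h91_fund K w hw v hmul hadd hR e d hwe he hone hsep hres hdeg).2.2 i f hf0 hf
  exact ⟨t, s, t.2, s.2, ht0, hvt, hts⟩

end main

end Fermat.Agent.S36
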