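import Fermat.Agent.S34.h50_LastEV

/-!
# S36 / (L2): integrality of values (EV) from finite generation of the chart ring

Generic statement on a lattice datum `D : h22_Lat K F k Rb` with a chart function `y`.  If the
chart ring `B := {f ∈ O | f regular where y is regular}` is generated, as a module over `A[y]`,
by finitely many elements, then every `f ∈ B` takes a value in `A` at every place where `y` takes
a value in `A`.  This is the clause of the hypothesis `hEV` of `h50_eshort_h22` for the chart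
function `y`.

Proof: the vector of values of the generators is an eigenvector, with eigenvalue the value of
`f`, of a matrix with entries in `A`; compare sup-norms.
-/

set_option autoImplicit false

namespace Fermat.Agent.S36

open AlgebraicCurve Fermat.Agent.S24 Fermat.Agent.S18 Fermat.Agent.S34

variable {K F k Rb : Type*} [Field K] [Field F] [Algebra K F] [Field k] [CommRing Rb]
  [Algebra k Rb]

/-- `h` takes the value `a` at the place `v`. -/
def h96_PVal (v : Place K F) (h : F) (a : K) : Prop := h53_OrdGE v (h - algebraMap K F a) 1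

theorem h96_pv_reg {v : Place K F} {h : F} {a : K} (H : h96_PVal v h a) : h53_OrdGE v h 0 := by
  have h1 : h53_OrdGE v (h - algebraMap K F a) 0 := H.mono (by norm_num)
  have := h1.add (h53_OrdGE.const (P := v) a)
  rwa [sub_add_cancel] at this

theorem h96_pv_const (v : Place K F) (a : K) : h96_PVal v (algebraMap K F a) a := by
  unfold h96_PVal
  rw [sub_self]
  exact h53_OrdGE.zero

theorem h96_pv_add {v : Place K F} {h₁ h₂ : F} {a₁ a₂ : K} (H₁ : h96_PVal v h₁ a₁)
    (H₂ : h96_PVal v h₂ a₂) : h96_PVal v (h₁ + h₂) (a₁ + a₂) := by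
  unfold h96_PVal at *
  have := H₁.add H₂
  rw [map_add]
  convert this using 1
  ring

theorem h96_pv_mul {v : Place K F} {h₁ h₂ : F} {a₁ a₂ : K} (H₁ : h96_PVal v h₁ a₁)
    (H₂ : h96_PVal v h₂ a₂) : h96_PVal v (h₁ * h₂) (a₁ * a₂) := by
  have hr := h96_pv_reg H₂
  unfold h96_PVal at *
  have t1 := H₁.mul hr
  have t2 := (h53_OrdGE.const (P := v) a₁).mul H₂
  rw [add_zero] at t1
  rw [zero_add] at t2
  have := t1.add t2
  rw [map_mul]
  convert this using 1
  ring

theorem h96_pv_sum {v : Place K F} {ι : Type*} (s : Finset ι) (h : ι → F) (a : ι → K)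
    (H : ∀ i ∈ s, h96_PVal v (h i) (a i)) : h96_PVal v (∑ i ∈ s, h i) (∑ i ∈ s, a i) := by
  classical
  induction s using Finset.induction_on with
  | empty =>
    rw [Finset.sum_empty, Finset.sum_empty]
    simpa using h96_pv_const v (0 : K)
  | insert b s hb ih =>
    rw [Finset.sum_insert hb, Finset.sum_insert hb]
    exact h96_pv_add (H b (Finset.mem_insert_self b s))
      (ih fun i hi => H i (Finset.mem_insert_of_mem hi))

theorem h96_pv_pow {v : Place K F} {h : F} {a : K} (H : h96_PVal v h a) (j : ℕ) :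
    h96_PVal v (h ^ j) (a ^ j) := by
  induction j with
  | zero => simpa using h96_pv_const v (1 : K)
  | succ j ih =>
    rw [pow_succ, pow_succ]
    exact h96_pv_mul ih H

theorem h96_pv_aeval {v : Place K F} {y : F} {c : K} (H : h96_PVal v y c) (p : Polynomial K) :
    h96_PVal v (Polynomial.aeval y p) (p.eval c) := by
  rw [Polynomial.aeval_eq_sum_range, Polynomial.eval_eq_sum_range]
  refine h96_pv_sum _ _ _ fun j _ => ?_
  rw [Algebra.smul_def]
  exact h96_pv_mul (h96_pv_const v _) (h96_pv_pow H j)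

theorem h96_pv_unique {v : Place K F} {h : F} {a a' : K} (H : h96_PVal v h a)
    (H' : h96_PVal v h a') : a = a' := by
  unfold h96_PVal at *
  have h1 := H'.sub H
  have e : h - algebraMap K F a' - (h - algebraMap K F a) = algebraMap K F (a - a') := by
    rw [map_sub]
    ring
  rw [e] at h1
  by_contra hne
  have hne' : algebraMap K F (a - a') ≠ 0 := fun h0 =>
    hne (sub_eq_zero.1 ((map_eq_zero (algebraMap K F)).1 h0))
  have h2 := (h53_OrdGE.of_ne hne').1 h1
  rw [h35_ord_algebraMap] at h2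
  omega

theorem h96_eval_mem (A : ValuationSubring K) (p : Polynomial K) (hp : ∀ j, p.coeff j ∈ A)
    {c : K} (hc : c ∈ A) : p.eval c ∈ A := by
  rw [Polynomial.eval_eq_sum_range]
  exact sum_mem fun j _ => A.mul_mem _ _ (hp j) (pow_mem hc j)

/-- **(EV) from finite generation of the chart ring of `y`.** -/
theorem h96_ev_of_fg (D : h22_Lat K F k Rb) (y : F)
    (hvalue : ∀ (v : Place K F) (f : F), h53_OrdGE v f 0 →
      ∃ a : K, h53_OrdGE v (f - algebraMap K F a) 1)
    {ι : Type*} [Fintype ι] (g : ι → F) (hgO : ∀ i, g i ∈ D.O)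
    (hgreg : ∀ i, ∀ v : Place K F, 0 ≤ v.ord y → 0 ≤ v.ord (g i))
    (hgen : ∀ f : F, f ∈ D.O → (∀ v : Place K F, 0 ≤ v.ord y → 0 ≤ v.ord f) →
      ∃ p : ι → Polynomial K, (∀ i j, (p i).coeff j ∈ D.A) ∧
        f = ∑ i, Polynomial.aeval y (p i) * g i)
    (f : F) (hfO : f ∈ D.O) (hreg : ∀ v : Place K F, 0 ≤ v.ord y → 0 ≤ v.ord f)
    (v : Place K F) (c : K) (hc : c ∈ D.A) (hv : 0 < v.ord (y - algebraMap K F c)) :
    ∃ d : K, d ∈ D.A ∧ (f = algebraMap K F d ∨ 0 < v.ord (f - algebraMap K F d)) := by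
  classical
  have hyc : h96_PVal v y c := Or.inr (by omega)
  have hy0 : 0 ≤ v.ord y := (h50_ordGE_zero_iff v y).1 (h96_pv_reg hyc)
  -- values of the generators and of `f`
  have hgv : ∀ i, ∃ a : K, h96_PVal v (g i) a := fun i =>
    hvalue v (g i) (Or.inr (hgreg i v hy0))
  choose γ hγ using hgv
  obtain ⟨φ, hφ⟩ : ∃ a : K, h96_PVal v f a := hvalue v f (Or.inr (hreg v hy0))
  -- the value of an `A[y]`-combination of the generators
  have hcomb : ∀ p : ι → Polynomial K,
      h96_PVal v (∑ i, Polynomial.aeval y (p i) * g i) (∑ i, (p i).eval c * γ i) := fun p =>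
    h96_pv_sum _ _ _ fun i _ => h96_pv_mul (h96_pv_aeval hyc (p i)) (hγ i)
  -- some generator has a nonzero value
  have hne : ∃ j, γ j ≠ 0 := by
    obtain ⟨p, -, hp1⟩ := hgen 1 D.O.one_mem (fun w _ => by simp)
    have h1 := hcomb p
    rw [← hp1] at h1
    have h2 : (1 : K) = ∑ i, (p i).eval c * γ i := by
      have := h96_pv_const v (1 : K)
      rw [map_one] at this
      exact h96_pv_unique this h1
    by_contra hcon
    have hcon' : ∀ j, γ j = 0 := fun j => by_contra fun h => hcon ⟨j, h⟩
    rw [Finset.sum_eq_zero (fun i _ => by rw [hcon' i, mul_zero])] at h2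
    exact one_ne_zero h2
  -- a generator of maximal absolute value
  have huniv : (Finset.univ : Finset ι).Nonempty := by
    obtain ⟨j, -⟩ := hne
    exact ⟨j, Finset.mem_univ j⟩
  obtain ⟨i₀, -, hi₀⟩ := Finset.exists_max_image Finset.univ (fun i => D.A.valuation (γ i)) huniv
  have hγ0 : D.A.valuation (γ i₀) ≠ 0 := by
    obtain ⟨j, hj⟩ := hne
    have h1 : D.A.valuation (γ j) ≠ 0 := (Valuation.ne_zero_iff _).2 hj
    have h2 := hi₀ j (Finset.mem_univ j)
    intro h0
    rw [h0] at h2
    exact h1 (le_antisymm h2 zero_le)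
  -- the eigenvector relation at `i₀`
  have hfg : ∀ w : Place K F, 0 ≤ w.ord y → 0 ≤ w.ord (f * g i₀) := by
    intro w hw
    have h1 : h53_OrdGE w f 0 := Or.inr (hreg w hw)
    have h2 : h53_OrdGE w (g i₀) 0 := Or.inr (hgreg i₀ w hw)
    have := h1.mul h2
    rw [add_zero] at this
    exact (h50_ordGE_zero_iff w _).1 this
  obtain ⟨P, hP, hPe⟩ := hgen (f * g i₀) (D.O.mul_mem hfO (hgO i₀)) hfg
  have h3 := hcomb P
  rw [← hPe] at h3
  have h4 : φ * γ i₀ = ∑ i, (P i).eval c * γ i := h96_pv_unique (h96_pv_mul hφ (hγ i₀)) h3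
  have h5 : D.A.valuation (φ * γ i₀) ≤ D.A.valuation (γ i₀) := by
    rw [h4]
    refine Valuation.map_sum_le _ fun i _ => ?_
    rw [map_mul]
    have h6 : D.A.valuation ((P i).eval c) ≤ 1 :=
      (D.A.valuation_le_one_iff _).2 (h96_eval_mem D.A (P i) (hP i) hc)
    calc D.A.valuation ((P i).eval c) * D.A.valuation (γ i)
        ≤ 1 * D.A.valuation (γ i) := mul_le_mul' h6 le_rfl
      _ = D.A.valuation (γ i) := one_mul _
      _ ≤ D.A.valuation (γ i₀) := hi₀ i (Finset.mem_univ i)
  have h7 : D.A.valuation φ ≤ 1 := by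
    rw [map_mul] at h5
    by_contra hcon
    have hcon' : 1 < D.A.valuation φ := not_le.1 hcon
    have h8 : 1 * D.A.valuation (γ i₀) < D.A.valuation φ * D.A.valuation (γ i₀) :=
      mul_lt_mul_of_pos_right hcon' (zero_lt_iff.2 hγ0)
    rw [one_mul] at h8
    exact absurd h5 (not_le.2 h8)
  refine ⟨φ, (D.A.valuation_le_one_iff _).1 h7, ?_⟩
  rcases hφ with h | h
  · exact Or.inl (sub_eq_zero.1 h)
  · exact Or.inr (by omega)

end Fermat.Agent.S36
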