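import Fermat.Agent.S34.h50_LastStrict

/-!
# S36 / (L2): two-chart strictness from finite generation of the chart ring

Generic statement on a lattice datum `D : h22_Lat K F k Rb` with a chart function `x`
(`x, x⁻¹ ∈ O`).  Let `B₀ := {f ∈ O | f regular where x is regular}`.  If `B₀` is generated, as a
module over `A[x]`, by finitely many elements `g i`, then the hypothesis `hstrict` of
`h50_eshort_h22` holds (verbatim): a reduction lying in `red B₀` and in `x̄ⁿ red B_∞` is the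
reduction of an element of `L(n D0) ∩ O`, for all `n ≥ n₂`.

No description of the special fibre is used (two-chart Čech chase).

* `h96_Dec` : the decomposition property `h = x^M a' + x^M x^n b'`.
* `h96_dec_of_fg` : every `A[x]`-combination of the generators has the decomposition property.
* `h96_strict_of_fg` : `hstrict` of `h50_eshort_h22` from finite generation.
-/

set_option autoImplicit false

namespace Fermat.Agent.S36

open AlgebraicCurve Fermat.Agent.S24 Fermat.Agent.S18 Fermat.Agent.S34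

variable {K F k Rb : Type*} [Field K] [Field F] [Algebra K F] [Field k] [CommRing Rb]
  [Algebra k Rb]

/-- The two-chart decomposition property of an element `h` of the chart ring. -/
def h96_Dec (D : h22_Lat K F k Rb) (x : F) (n : ℕ) (h : F) : Prop :=
  h ∈ D.O ∧ (∀ v : Place K F, 0 ≤ v.ord x → h53_OrdGE v h 0) ∧
    ∀ M : ℕ, ∃ a' b' : F, a' ∈ D.O ∧ (∀ v : Place K F, 0 ≤ v.ord x → h53_OrdGE v a' 0) ∧
      b' ∈ D.O ∧ (∀ v : Place K F, v.ord x ≤ 0 → h53_OrdGE v b' 0) ∧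
      h = x ^ M * a' + x ^ M * x ^ n * b'

theorem h96_dec_zero (D : h22_Lat K F k Rb) (x : F) (n : ℕ) : h96_Dec D x n 0 :=
  ⟨D.O.zero_mem, fun _ _ => h53_OrdGE.zero, fun _ =>
    ⟨0, 0, D.O.zero_mem, fun _ _ => h53_OrdGE.zero, D.O.zero_mem, fun _ _ => h53_OrdGE.zero,
      by simp⟩⟩

theorem h96_dec_add (D : h22_Lat K F k Rb) (x : F) (n : ℕ) {h₁ h₂ : F}
    (H₁ : h96_Dec D x n h₁) (H₂ : h96_Dec D x n h₂) : h96_Dec D x n (h₁ + h₂) := by
  refine ⟨D.O.add_mem H₁.1 H₂.1, fun v hv => (H₁.2.1 v hv).add (H₂.2.1 v hv), fun M => ?_⟩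
  obtain ⟨a₁, b₁, ha₁O, ha₁, hb₁O, hb₁, e₁⟩ := H₁.2.2 M
  obtain ⟨a₂, b₂, ha₂O, ha₂, hb₂O, hb₂, e₂⟩ := H₂.2.2 M
  refine ⟨a₁ + a₂, b₁ + b₂, D.O.add_mem ha₁O ha₂O, fun v hv => (ha₁ v hv).add (ha₂ v hv),
    D.O.add_mem hb₁O hb₂O, fun v hv => (hb₁ v hv).add (hb₂ v hv), ?_⟩
  rw [e₁, e₂]
  ring

theorem h96_dec_const_mul (D : h22_Lat K F k Rb) (x : F) (n : ℕ) {c : K} (hc : c ∈ D.A) {h : F}
    (H : h96_Dec D x n h) : h96_Dec D x n (algebraMap K F c * h) := by
  have hcO : algebraMap K F c ∈ D.O := (D.mem_iff c).1 hc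
  have hcreg : ∀ (v : Place K F) (f : F), h53_OrdGE v f 0 →
      h53_OrdGE v (algebraMap K F c * f) 0 := by
    intro v f hf
    have := (h53_OrdGE.const (P := v) c).mul hf
    rwa [zero_add] at this
  refine ⟨D.O.mul_mem hcO H.1, fun v hv => hcreg v h (H.2.1 v hv), fun M => ?_⟩
  obtain ⟨a₁, b₁, ha₁O, ha₁, hb₁O, hb₁, e₁⟩ := H.2.2 M
  refine ⟨algebraMap K F c * a₁, algebraMap K F c * b₁, D.O.mul_mem hcO ha₁O,
    fun v hv => hcreg v a₁ (ha₁ v hv), D.O.mul_mem hcO hb₁O, fun v hv => hcreg v b₁ (hb₁ v hv), ?_⟩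
  rw [e₁]
  ring

theorem h96_dec_mul_x (D : h22_Lat K F k Rb) (x : F) (hxO : x ∈ D.O) (n : ℕ) {h : F}
    (H : h96_Dec D x n h) : h96_Dec D x n (x * h) := by
  have hxreg : ∀ (v : Place K F), 0 ≤ v.ord x → ∀ f : F, h53_OrdGE v f 0 →
      h53_OrdGE v (x * f) 0 := by
    intro v hv f hf
    have h1 : h53_OrdGE v x 0 := Or.inr hv
    have := h1.mul hf
    rwa [zero_add] at this
  refine ⟨D.O.mul_mem hxO H.1, fun v hv => hxreg v hv h (H.2.1 v hv), fun M => ?_⟩
  cases M with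
  | zero =>
    exact ⟨x * h, 0, D.O.mul_mem hxO H.1, fun v hv => hxreg v hv h (H.2.1 v hv), D.O.zero_mem,
      fun _ _ => h53_OrdGE.zero, by simp⟩
  | succ M =>
    obtain ⟨a₁, b₁, ha₁O, ha₁, hb₁O, hb₁, e₁⟩ := H.2.2 M
    refine ⟨a₁, b₁, ha₁O, ha₁, hb₁O, hb₁, ?_⟩
    rw [e₁]
    ring

theorem h96_dec_pow_x_mul (D : h22_Lat K F k Rb) (x : F) (hxO : x ∈ D.O) (n : ℕ) {h : F}
    (H : h96_Dec D x n h) (j : ℕ) : h96_Dec D x n (x ^ j * h) := by
  induction j with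
  | zero => simpa using H
  | succ j ih =>
    have := h96_dec_mul_x D x hxO n ih
    rwa [← mul_assoc, ← pow_succ'] at this

theorem h96_dec_sum (D : h22_Lat K F k Rb) (x : F) (n : ℕ) {ι : Type*} (s : Finset ι)
    (f : ι → F) (H : ∀ i ∈ s, h96_Dec D x n (f i)) : h96_Dec D x n (∑ i ∈ s, f i) := by
  classical
  induction s using Finset.induction_on with
  | empty => simpa using h96_dec_zero D x n
  | insert a s ha ih =>
    rw [Finset.sum_insert ha]
    exact h96_dec_add D x n (H a (Finset.mem_insert_self a s))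
      (ih fun i hi => H i (Finset.mem_insert_of_mem hi))

/-- Multiplication by a polynomial in `x` with coefficients in `A`. -/
theorem h96_dec_aeval_mul (D : h22_Lat K F k Rb) (x : F) (hxO : x ∈ D.O) (n : ℕ)
    (p : Polynomial K) (hp : ∀ j, p.coeff j ∈ D.A) {h : F} (H : h96_Dec D x n h) :
    h96_Dec D x n (Polynomial.aeval x p * h) := by
  rw [Polynomial.aeval_eq_sum_range, Finset.sum_mul]
  refine h96_dec_sum D x n _ _ fun j _ => ?_
  rw [Algebra.smul_def, mul_assoc]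
  exact h96_dec_const_mul D x n (hp j) (h96_dec_pow_x_mul D x hxO n H j)

/-- A generator: regular where `x` is regular, with pole orders along the poles of `x` bounded
by `N ≤ n`. -/
theorem h96_dec_gen (D : h22_Lat K F k Rb) (x : F) (hx0 : x ≠ 0) (hxiO : x⁻¹ ∈ D.O)
    (n N : ℕ) (hn : N ≤ n) {g : F} (hgO : g ∈ D.O)
    (hgreg : ∀ v : Place K F, 0 ≤ v.ord x → h53_OrdGE v g 0)
    (hgN : ∀ v : Place K F, v.ord x ≤ 0 → h53_OrdGE v (x⁻¹ ^ N * g) 0) :
    h96_Dec D x n g := by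
  refine ⟨hgO, hgreg, fun M => ?_⟩
  have hxi : ∀ v : Place K F, v.ord x ≤ 0 → h53_OrdGE v x⁻¹ 0 := by
    intro v hv
    refine Or.inr ?_
    rw [v.ord_inv x]
    omega
  refine ⟨0, x⁻¹ ^ (M + (n - N)) * (x⁻¹ ^ N * g), D.O.zero_mem, fun _ _ => h53_OrdGE.zero,
    D.O.mul_mem (D.O.pow_mem hxiO _) (D.O.mul_mem (D.O.pow_mem hxiO _) hgO), ?_, ?_⟩
  · intro v hv
    have h1 := ((hxi v hv).pow (M + (n - N))).mul (hgN v hv)
    simpa using h1
  · have e : M + (n - N) + N = M + n := by omega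
    have e1 : x⁻¹ ^ (M + (n - N)) * (x⁻¹ ^ N * g) = x⁻¹ ^ (M + n) * g := by
      rw [← mul_assoc, ← pow_add, e]
    have e2 : x ^ M * x ^ n * (x⁻¹ ^ (M + n) * g) = g := by
      rw [← pow_add, ← mul_assoc, ← mul_pow, mul_inv_cancel₀ hx0, one_pow, one_mul]
    rw [mul_zero, zero_add, e1, e2]

/-- Every `A[x]`-combination of admissible generators has the decomposition property. -/
theorem h96_dec_of_fg (D : h22_Lat K F k Rb) (x : F) (hx0 : x ≠ 0) (hxO : x ∈ D.O)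
    (hxiO : x⁻¹ ∈ D.O) (n N : ℕ) (hn : N ≤ n) {ι : Type*} [Fintype ι] (g : ι → F)
    (hgO : ∀ i, g i ∈ D.O)
    (hgreg : ∀ i, ∀ v : Place K F, 0 ≤ v.ord x → h53_OrdGE v (g i) 0)
    (hgN : ∀ i, ∀ v : Place K F, v.ord x ≤ 0 → h53_OrdGE v (x⁻¹ ^ N * g i) 0)
    (p : ι → Polynomial K) (hp : ∀ i j, (p i).coeff j ∈ D.A) :
    h96_Dec D x n (∑ i, Polynomial.aeval x (p i) * g i) :=
  h96_dec_sum D x n _ _ fun i _ =>
    h96_dec_aeval_mul D x hxO n (p i) (hp i)
      (h96_dec_gen D x hx0 hxiO n N hn (hgO i) (hgreg i) (hgN i))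

/-- A bound for the pole orders of a function. -/
theorem h96_exists_ord_bound [HasPrincipalDivisors K F] (c : F) :
    ∃ B : ℕ, ∀ v : Place K F, h53_OrdGE v c (-(B : ℤ)) := by
  classical
  by_cases hc0 : c = 0
  · exact ⟨0, fun v => Or.inl hc0⟩
  obtain ⟨Dc, hDc, -⟩ := HasPrincipalDivisors.exists_divisor (K := K) c hc0
  refine ⟨∑ v ∈ Dc.support, (Dc v).natAbs, fun v => Or.inr ?_⟩
  by_cases hvS : v ∈ Dc.support
  · have hle : (Dc v).natAbs ≤ ∑ v ∈ Dc.support, (Dc v).natAbs :=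
      Finset.single_le_sum (f := fun v => (Dc v).natAbs) (fun _ _ => Nat.zero_le _) hvS
    have h3 : ((Dc v).natAbs : ℤ) ≤ ((∑ v ∈ Dc.support, (Dc v).natAbs : ℕ) : ℤ) := by
      exact_mod_cast hle
    rw [← hDc v]
    omega
  · have h0 : v.ord c = 0 := by
      rw [← hDc v]
      simpa using hvS
    rw [h0]
    have : (0 : ℤ) ≤ ((∑ v ∈ Dc.support, (Dc v).natAbs : ℕ) : ℤ) := Int.natCast_nonneg _
    omega

/-- A uniform bound `N` with `x⁻ᴺ g i` regular where `x` has no zero. -/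
theorem h96_exists_gen_bound [HasPrincipalDivisors K F] (x : F) {ι : Type*} [Fintype ι]
    (g : ι → F) (hgreg : ∀ i, ∀ v : Place K F, 0 ≤ v.ord x → h53_OrdGE v (g i) 0) :
    ∃ N : ℕ, ∀ i, ∀ v : Place K F, v.ord x ≤ 0 → h53_OrdGE v (x⁻¹ ^ N * g i) 0 := by
  classical
  choose B hB using fun i => h96_exists_ord_bound (K := K) (g i)
  refine ⟨∑ i, B i, fun i v hv => ?_⟩
  have hBi : B i ≤ ∑ i, B i := Finset.single_le_sum (f := B) (fun _ _ => Nat.zero_le _)
    (Finset.mem_univ i)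
  have hBi' : (B i : ℤ) ≤ ((∑ i, B i : ℕ) : ℤ) := by exact_mod_cast hBi
  have h0S : (0 : ℤ) ≤ ((∑ i, B i : ℕ) : ℤ) := Int.natCast_nonneg _
  have hxi : h53_OrdGE v x⁻¹ (-v.ord x) := Or.inr (v.ord_inv x).ge
  by_cases hx : v.ord x = 0
  · have h1 := (hxi.pow (∑ i, B i)).mul (hgreg i v hx.ge)
    rw [hx] at h1
    simpa using h1
  · have hneg : v.ord x ≤ -1 := by omega
    have h1 := (hxi.pow (∑ i, B i)).mul (hB i v)
    refine h1.mono ?_
    nlinarith [mul_nonneg h0S (show (0 : ℤ) ≤ -v.ord x - 1 by omega)]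

/-- **Two-chart strictness from finite generation.**  The conclusion is the hypothesis
`hstrict` of `h50_eshort_h22`, verbatim. -/
theorem h96_strict_of_fg [HasPrincipalDivisors K F] (D : h22_Lat K F k Rb) (x : F)
    (hx0 : x ≠ 0) (hxO : x ∈ D.O) (hxiO : x⁻¹ ∈ D.O)
    (D0 : Divisor K F) (hD0 : ∀ v : Place K F, D0 v = max 0 (-v.ord x))
    {ι : Type*} [Fintype ι] (g : ι → F) (hgO : ∀ i, g i ∈ D.O)
    (hgreg : ∀ i, ∀ v : Place K F, 0 ≤ v.ord x → 0 ≤ v.ord (g i))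
    (hgen : ∀ f : F, f ∈ D.O → (∀ v : Place K F, 0 ≤ v.ord x → 0 ≤ v.ord f) →
      ∃ p : ι → Polynomial K, (∀ i j, (p i).coeff j ∈ D.A) ∧
        f = ∑ i, Polynomial.aeval x (p i) * g i) :
    ∃ n2 : ℕ, ∀ n, n2 ≤ n → ∀ a b : F, a ∈ D.O → b ∈ D.O →
      (∀ v : Place K F, 0 ≤ v.ord x → 0 ≤ v.ord a) →
      (∀ v : Place K F, v.ord x ≤ 0 → 0 ≤ v.ord b) →
      D.redF a = D.redF x ^ n * D.redF b →
      ∃ f : F, f ∈ riemannRochSpace (n • D0) ∧ f ∈ D.O ∧ D.redF f = D.redF a := by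
  classical
  have hgreg' : ∀ i, ∀ v : Place K F, 0 ≤ v.ord x → h53_OrdGE v (g i) 0 :=
    fun i v hv => Or.inr (hgreg i v hv)
  obtain ⟨N, hN⟩ := h96_exists_gen_bound (K := K) x g hgreg'
  refine ⟨N, fun n hn a b haO hbO ha hb hred => ?_⟩
  have ha' : ∀ v : Place K F, 0 ≤ v.ord x → h53_OrdGE v a 0 := fun v hv => Or.inr (ha v hv)
  have hb' : ∀ v : Place K F, v.ord x ≤ 0 → h53_OrdGE v b 0 := fun v hv => Or.inr (hb v hv)
  have hxnO : x ^ n ∈ D.O := D.O.pow_mem hxO n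
  have hxnb : x ^ n * b ∈ D.O := D.O.mul_mem hxnO hbO
  -- membership in `L(n D0)` of an element regular on both charts
  have hmemL : ∀ f b₁ : F, (∀ v : Place K F, 0 ≤ v.ord x → h53_OrdGE v f 0) →
      (∀ v : Place K F, v.ord x ≤ 0 → h53_OrdGE v b₁ 0) → f = x ^ n * b₁ →
      f ∈ riemannRochSpace (n • D0) := by
    intro f b₁ hf hb₁ hfb
    rw [h50_mem_rr_iff]
    intro v
    rw [Finsupp.smul_apply, nsmul_eq_mul, hD0 v]
    have hn0 : (0 : ℤ) ≤ (n : ℤ) := Int.natCast_nonneg n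
    by_cases hv : 0 ≤ v.ord x
    · refine (hf v hv).mono ?_
      have : (0 : ℤ) ≤ max 0 (-v.ord x) := le_max_left _ _
      nlinarith [mul_nonneg hn0 this]
    · have hxn : h53_OrdGE v (x ^ n) (n * v.ord x) :=
        h53_OrdGE.pow (P := v) (f := x) (n := v.ord x) (Or.inr le_rfl) n
      have h1 := hxn.mul (hb₁ v (by omega))
      rw [hfb]
      refine h1.mono ?_
      have : max 0 (-v.ord x) = -v.ord x := max_eq_right (by omega)
      rw [this]
      nlinarith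
  by_cases hz : a - x ^ n * b = 0
  · exact ⟨a, hmemL a b ha' hb' (sub_eq_zero.1 hz), haO, rfl⟩
  have hzO : a - x ^ n * b ∈ D.O := D.O.sub_mem haO hxnb
  have hz0 : D.redF (a - x ^ n * b) = 0 := by
    rw [h50_redF_sub D haO hxnb, h51_redF_mul D hxnO hbO, h51_redF_pow D hxO, hred, sub_self]
  obtain ⟨π, hπ, c, hcO, hc⟩ := (h22_redF_eq_zero_iff D hzO).1 hz0
  have hπ0 : π ≠ 0 := by
    rintro rfl
    apply hz
    rw [hc, map_zero, zero_mul]
  have hπF : algebraMap K F π ≠ 0 := by simpa using hπ0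
  have hc0 : c ≠ 0 := by
    rintro rfl
    apply hz
    rw [hc, mul_zero]
  -- `c` is regular where `ord x = 0`
  have hcreg : ∀ v : Place K F, v.ord x = 0 → h53_OrdGE v c 0 := by
    intro v hv
    have h1 : h53_OrdGE v (a - x ^ n * b) 0 := by
      refine (ha' v hv.ge).sub ?_
      have hxn : h53_OrdGE v (x ^ n) (n * v.ord x) :=
        h53_OrdGE.pow (P := v) (f := x) (n := v.ord x) (Or.inr le_rfl) n
      have := hxn.mul (hb' v hv.le)
      rwa [hv, mul_zero, add_zero] at this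
    have e : c = algebraMap K F π⁻¹ * (a - x ^ n * b) := by
      rw [hc, map_inv₀, ← mul_assoc, inv_mul_cancel₀ hπF, one_mul]
    rw [e]
    have := (h53_OrdGE.const (P := v) π⁻¹).mul h1
    rwa [zero_add] at this
  -- a bound for the pole orders of `c`
  obtain ⟨B, hB⟩ := h96_exists_ord_bound (K := K) c
  have hB0 : (0 : ℤ) ≤ (B : ℤ) := Int.natCast_nonneg B
  -- `x^B c` lies in the chart ring
  have hxBcO : x ^ B * c ∈ D.O := D.O.mul_mem (D.O.pow_mem hxO B) hcO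
  have hxBcreg : ∀ v : Place K F, 0 ≤ v.ord x → h53_OrdGE v (x ^ B * c) 0 := by
    intro v hv
    have hxB : h53_OrdGE v (x ^ B) (B * v.ord x) :=
      h53_OrdGE.pow (P := v) (f := x) (n := v.ord x) (Or.inr le_rfl) B
    by_cases hx : v.ord x = 0
    · have := hxB.mul (hcreg v hx)
      rwa [hx, mul_zero, add_zero] at this
    · have h1 := hxB.mul (hB v)
      refine h1.mono ?_
      nlinarith [mul_nonneg hB0 (show (0 : ℤ) ≤ v.ord x - 1 by omega)]
  obtain ⟨p, hp, hpe⟩ := hgen (x ^ B * c) hxBcO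
    (fun v hv => (h50_ordGE_zero_iff v _).1 (hxBcreg v hv))
  have hdec := h96_dec_of_fg D x hx0 hxO hxiO n N hn g hgO hgreg' hN p hp
  rw [← hpe] at hdec
  obtain ⟨a', b', ha'O, ha'reg, hb'O, hb'reg, hdecB⟩ := hdec.2.2 B
  have hcdec : c = a' + x ^ n * b' := by
    have hxB : x ^ B ≠ 0 := pow_ne_zero B hx0
    apply mul_left_cancel₀ hxB
    rw [hdecB]
    ring
  have hπO : algebraMap K F π ∈ D.O := (D.mem_iff π).1 (D.A.nonunits_le hπ)
  refine ⟨a - algebraMap K F π * a', ?_, D.O.sub_mem haO (D.O.mul_mem hπO ha'O), ?_⟩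
  · refine hmemL _ (b + algebraMap K F π * b') ?_ ?_ ?_
    · intro v hv
      refine (ha' v hv).sub ?_
      have := (h53_OrdGE.const (P := v) π).mul (ha'reg v hv)
      rwa [zero_add] at this
    · intro v hv
      refine (hb' v hv).add ?_
      have := (h53_OrdGE.const (P := v) π).mul (hb'reg v hv)
      rwa [zero_add] at this
    · have h5 : a - x ^ n * b = algebraMap K F π * (a' + x ^ n * b') := by
        rw [← hcdec]
        exact hc
      linear_combination h5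
  · rw [h50_redF_sub D haO (D.O.mul_mem hπO ha'O), h50_redF_const_mul D hπ ha'O, sub_zero]

end Fermat.Agent.S36
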