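import Fermat.Agent.S34.h50_EShortH22
import Fermat.Agent.S36.h96_StrictFG
import Fermat.Agent.S36.h96_EVFG

/-!
# S36 / (L2): E-short with (EV) and (STRICT) replaced by finite generation of the two chart rings

`h96_eshort_fg` is `h50_eshort_h22` (trivial gluing ⟹ trivial class) in which the hypotheses
`hEV` and `hstrict` are replaced by:

* (FG₀)  the chart ring `{f ∈ O | f regular where x is regular}` is generated over `A[x]` by
  finitely many elements;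
* (FG∞)  the chart ring `{f ∈ O | f regular where x⁻¹ is regular}` is generated over `A[x⁻¹]` by
  finitely many elements.

Nothing about the special fibre (components, multiplicities, nilpotents) enters.
-/

set_option autoImplicit false

namespace Fermat.Agent.S36

open AlgebraicCurve Fermat.Agent.S24 Fermat.Agent.S18 Fermat.Agent.S34

variable {K F k Rb : Type*} [Field K] [Field F] [Algebra K F] [Field k] [CommRing Rb]
  [Algebra k Rb]

/-- **E-short from finite generation of the two chart rings.** -/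
theorem h96_eshort_fg [IsAlgClosed K] [HasPrincipalDivisors K F] [Nontrivial Rb]
    (D : h22_Lat K F k Rb) (hON : h22_ON D)
    (hinv : ∀ (f : F) (hf : f ∈ D.O), IsUnit (D.red ⟨f, hf⟩) → f⁻¹ ∈ D.O)
    (hrank : ∀ a d : K, a ≠ 0 → a ∈ D.A.nonunits → d ≠ 0 → ∃ n : ℕ, d * (a ^ n)⁻¹ ∉ D.A)
    (hfin : ∀ E' : Divisor K F, Module.Finite K (riemannRochSpace E'))
    (hdeg1 : ∀ P : Place K F, P.deg = 1)
    (x : F) (hx0 : x ≠ 0) (hxO : x ∈ D.O) (hxiO : x⁻¹ ∈ D.O)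
    (hconst : ∀ c : K, x ≠ algebraMap K F c)
    (D0 : Divisor K F) (hD0 : ∀ v : Place K F, D0 v = max 0 (-v.ord x))
    {ι : Type*} [Fintype ι] (g : ι → F) (hgO : ∀ i, g i ∈ D.O)
    (hgreg : ∀ i, ∀ v : Place K F, 0 ≤ v.ord x → 0 ≤ v.ord (g i))
    (hgen : ∀ f : F, f ∈ D.O → (∀ v : Place K F, 0 ≤ v.ord x → 0 ≤ v.ord f) →
      ∃ p : ι → Polynomial K, (∀ i j, (p i).coeff j ∈ D.A) ∧
        f = ∑ i, Polynomial.aeval x (p i) * g i)
    {ι' : Type*} [Fintype ι'] (g' : ι' → F) (hgO' : ∀ i, g' i ∈ D.O)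
    (hgreg' : ∀ i, ∀ v : Place K F, 0 ≤ v.ord x⁻¹ → 0 ≤ v.ord (g' i))
    (hgen' : ∀ f : F, f ∈ D.O → (∀ v : Place K F, 0 ≤ v.ord x⁻¹ → 0 ≤ v.ord f) →
      ∃ p : ι' → Polynomial K, (∀ i j, (p i).coeff j ∈ D.A) ∧
        f = ∑ i, Polynomial.aeval x⁻¹ (p i) * g' i)
    {m : ℕ} (hm : IsUnit ((m : ℕ) : Rb))
    (E : Divisor K F) (u : F) (hdiv : ∀ v : Place K F, (m : ℤ) * E v = v.ord u)
    (huO : u ∈ D.O) (hured : D.red ⟨u, huO⟩ = 1)
    (n3 : ℕ) (htg : ∀ n, n3 ≤ n → ∀ s0 : F, s0 ∈ riemannRochSpace (n • D0) → s0 ∈ D.O →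
        ∃ g0 : F, g0 ∈ riemannRochSpace (n • D0 - E) ∧ g0 ∈ D.O ∧ D.redF g0 = D.redF s0) :
    ∃ g₀ : F, g₀ ≠ 0 ∧ ∀ v : Place K F, E v = v.ord g₀ := by
  have hvalue : ∀ (v : Place K F) (f : F), h53_OrdGE v f 0 →
      ∃ a : K, h53_OrdGE v (f - algebraMap K F a) 1 :=
    fun v f hf => h50_exists_value_of_deg v (hdeg1 v) f hf
  have hval : ∀ v : Place K F, 0 ≤ v.ord x → ∃ c : K, 0 < v.ord (x - algebraMap K F c) := by
    intro v hv
    obtain ⟨c, hc⟩ := hvalue v x (Or.inr hv)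
    rcases hc with hc | hc
    · exact absurd (sub_eq_zero.1 hc) (hconst c)
    · exact ⟨c, by omega⟩
  obtain ⟨n2, hstrict⟩ := h96_strict_of_fg D x hx0 hxO hxiO D0 hD0 g hgO hgreg hgen
  refine h50_eshort_h22 D hON hinv hrank hfin x hx0 hxO hxiO hval D0 hD0 ?_ n2 hstrict hm E u
    hdiv huO hured n3 htg
  intro y hy f hfO hreg v c hc hv
  rcases hy with rfl | rfl
  · exact h96_ev_of_fg D y hvalue g hgO hgreg hgen f hfO hreg v c hc hv
  · exact h96_ev_of_fg D x⁻¹ hvalue g' hgO' hgreg' hgen' f hfO hreg v c hc hv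

end Fermat.Agent.S36
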