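import Mathlib
import Fermat.Agent.S36.h96_NZMem
import Fermat.Agent.S36.h80_FamInst
import Fermat.Agent.S36.h70_TorInst
import Fermat.Agent.S34.h60_R2
import Fermat.Agent.S33.h52_Degen
import Fermat.Agent.S37.h88_HICore

/-!
# S36 / rows NZ, I-PTS: the norm of a chart-regular function is chart-regular (helper96)

* `h96_nr_ord_norm_nonneg`, `h96_nr_ord_pull_norm_nonneg` (generic): a function regular at every
  place above `P'` has a norm regular at `P'` (and the pull-back of the norm is regular above).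
* `h96_nr_swap` (generic): an involution exchanging `x` and `y`; if `y` is regular wherever `x` is,
  then `x` is regular wherever `y` is.
* `h96_nr_pole_b` : level `(M, q)`, `q ∤ M`: `j` is regular wherever `β j` is (from the converse,
  "(REG-A)", by the swap `h60_w`).
* `h96_nr_reg_b2`, `h96_nr_pole_b2` : both directions at level `(M q, q)`.
* `h96_nr_a_mem`, `h96_nr_b_mem` : `α`, `β` map the chart-1 ring of level `N` into that of level
  `N q`;  `h96_nr_Na_mem`, `h96_nr_Nb_mem` : the norms map the chart-1 ring of level `N q` into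
  that of level `N`;  `h96_nr_Ma_mem`, `h96_nr_Mb_mem` : `α ∘ N_α`, `β ∘ N_β` preserve the chart-1
  ring of level `N q` (no valuation family at level `N` needed).
* `h96_nr_Mb_mem_sq`, `h96_nr_Nb_mem_sq`, `h96_nr_b_mem_sq` : the `β` statements at level
  `(M q, q)` from the single hypothesis (REG-A) at level `(M, q)`.
The vertical valuations are arbitrary; the vertical half of each statement is a hypothesis.
-/

set_option autoImplicit false
set_option linter.unusedSectionVars false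

noncomputable section

namespace Fermat.Agent.S36

open AlgebraicCurve ModularCurve
open Fermat.Agent.GAL Fermat.Agent.S24 Fermat.Agent.S33 Fermat.Agent.S34 Fermat.Agent.S37
  Fermat.Agent.S18

local notation "Qb" => AlgebraicClosure ℚ

/-! ### Generic: places and norms -/

section Generic

variable {K F F' : Type*} [Field K] [Field F] [Field F'] [Algebra K F] [Algebra K F']

theorem h96_nr_ramIdx_pos (φ : F →ₐ[K] F') (hφ : φ.toRingHom.IsIntegral) (w : Place K F') :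
    0 < Place.ramificationIndexAlong φ w := by
  letI := algebraAlong φ
  haveI := isScalarTower_along φ
  haveI := isIntegral_along φ hφ
  exact w.ramificationIndex_pos

/-- `0 ≤ ord_P (φ f) ↔ 0 ≤ ord_{P'} f` for `P'` the place below `P`. -/
theorem h96_nr_ord_nonneg_iff (φ : F →ₐ[K] F') (hφ : φ.toRingHom.IsIntegral) (w : Place K F')
    (f : F) : 0 ≤ w.ord (φ f) ↔ 0 ≤ (w.restrictAlong φ hφ).ord f := by
  rw [Place.ord_restrictAlong φ hφ w f]
  have he := h96_nr_ramIdx_pos φ hφ w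
  have he' : (0 : ℤ) < (Place.ramificationIndexAlong φ w : ℤ) := by exact_mod_cast he
  constructor
  · intro h
    by_contra hneg
    push_neg at hneg
    have := mul_neg_of_pos_of_neg he' hneg
    omega
  · intro h
    exact mul_nonneg he'.le h

/-- **The norm of a function regular above `P'` is regular at `P'`.** -/
theorem h96_nr_ord_norm_nonneg [HasPrincipalDivisors K F'] (ψ : F →ₐ[K] F')
    (hψ : ψ.toRingHom.IsIntegral) (hfin : FiniteAlong K ψ) (hNF : NormFormulaAlong K ψ hfin)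
    {g : F'} (hg : g ≠ 0) (P' : Place K F)
    (hreg : ∀ Q ∈ Place.fiberAlong ψ hψ P', 0 ≤ Q.ord g) :
    0 ≤ P'.ord (h67_normAlong ψ g) := by
  rw [h96_ord_normAlong ψ hψ hfin hNF hg P']
  exact Finset.sum_nonneg fun Q hQ => mul_nonneg (hreg Q hQ) (Int.natCast_nonneg _)

/-- The pull-back of the norm is regular at `P` if the function is regular at every place with
the same restriction as `P`. -/
theorem h96_nr_ord_pull_norm_nonneg [HasPrincipalDivisors K F'] (ψ : F →ₐ[K] F')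
    (hψ : ψ.toRingHom.IsIntegral) (hfin : FiniteAlong K ψ) (hNF : NormFormulaAlong K ψ hfin)
    {g : F'} (hg : g ≠ 0) (P : Place K F')
    (hreg : ∀ Q : Place K F', Q.restrictAlong ψ hψ = P.restrictAlong ψ hψ → 0 ≤ Q.ord g) :
    0 ≤ P.ord (ψ (h67_normAlong ψ g)) := by
  rw [h96_nr_ord_nonneg_iff ψ hψ P]
  exact h96_nr_ord_norm_nonneg ψ hψ hfin hNF hg _
    fun Q hQ => hreg Q (Place.mem_fiberAlong.1 hQ)

/-- **Swap.**  `w` an involution of `F` over `K` exchanging `x` and `y`.  If `y` is regular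
wherever `x` is, then `x` is regular wherever `y` is. -/
theorem h96_nr_swap (w : F →+* F) (hw2 : ∀ f, w (w f) = f)
    (hwK : ∀ c : K, w (algebraMap K F c) = algebraMap K F c) (x y : F) (hxy : w x = y)
    (h : ∀ P : Place K F, 0 ≤ P.ord x → 0 ≤ P.ord y) :
    ∀ P : Place K F, 0 ≤ P.ord y → 0 ≤ P.ord x := by
  intro P hP
  let wA : F →ₐ[K] F := { w with commutes' := hwK }
  have hwA : wA.toRingHom.IsIntegral :=
    RingHom.isIntegral_of_surjective _ fun f => ⟨w f, hw2 f⟩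
  have hyx : w y = x := by rw [← hxy, hw2]
  have h1 : 0 ≤ P.ord (wA x) := by
    show 0 ≤ P.ord (w x)
    rw [hxy]
    exact hP
  have h2 := h _ ((h96_nr_ord_nonneg_iff wA hwA P x).1 h1)
  have h3 := (h96_nr_ord_nonneg_iff wA hwA P y).2 h2
  have h4 : wA y = x := hyx
  rwa [h4] at h3

end Generic

/-! ### The chart function `j` along `α` and `β` -/

section Poles

/-- `α` and `β` commute (on `q`-expansions: `f(q) ↦ f(q^ℓ)`). -/
theorem h96_nr_beta_alpha (N q : ℕ) [NeZero N] [NeZero q] (y : modularFunctionFieldBar N) :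
    heckeBetaBar Qb (N * q) q (heckeAlphaBar Qb N q y)
      = heckeAlphaBar Qb (N * q) q (heckeBetaBar Qb N q y) :=
  Subtype.ext (by
    rw [coe_heckeBetaBar, coe_heckeAlphaBar, coe_heckeAlphaBar, coe_heckeBetaBar])

/-- Along `α`: `j` is regular at `P` iff it is regular at the place below. -/
theorem h96_nr_jbar_alpha (N q : ℕ) [NeZero N] [NeZero q]
    (P : Place Qb (modularFunctionFieldBar (N * q))) :
    0 ≤ P.ord (h59_jbar (N * q)) ↔
      0 ≤ (P.restrictAlong (heckeAlphaBar Qb N q) (h88_alphaIntegral N q)).ord (h59_jbar N) := by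
  rw [← h88_alpha_jbar N q]
  exact h96_nr_ord_nonneg_iff _ _ P _

/-- **(POLE-β)** at level `(M, q)`, `q ∤ M`: `j` is regular wherever `β j` is, given that `β j`
is regular wherever `j` is ("(REG-A)": `j(qτ)` is integral over `ℚ̄[j]`). -/
theorem h96_nr_pole_b (M q : ℕ) [NeZero M] [NeZero q] [Fact q.Prime] (hqM : ¬ q ∣ M)
    (hreg : ∀ P : Place Qb (modularFunctionFieldBar (M * q)),
      0 ≤ P.ord (h59_jbar (M * q)) → 0 ≤ P.ord (heckeBetaBar Qb M q (h59_jbar M))) :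
    ∀ P : Place Qb (modularFunctionFieldBar (M * q)),
      0 ≤ P.ord (heckeBetaBar Qb M q (h59_jbar M)) → 0 ≤ P.ord (h59_jbar (M * q)) := by
  refine h96_nr_swap (K := Qb) (h60_w M q hqM) (h60_w_w M q hqM) (h60_w_algebraMap M q hqM)
    (h59_jbar (M * q)) (heckeBetaBar Qb M q (h59_jbar M)) ?_ hreg
  rw [← h88_alpha_jbar M q, h60_w_alpha]

/-- (REG-A) at level `(M q, q)` from level `(M, q)`. -/
theorem h96_nr_reg_b2 (M q : ℕ) [NeZero M] [NeZero q]
    (hreg : ∀ P : Place Qb (modularFunctionFieldBar (M * q)),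
      0 ≤ P.ord (h59_jbar (M * q)) → 0 ≤ P.ord (heckeBetaBar Qb M q (h59_jbar M))) :
    ∀ P : Place Qb (modularFunctionFieldBar (M * q * q)),
      0 ≤ P.ord (h59_jbar (M * q * q)) →
        0 ≤ P.ord (heckeBetaBar Qb (M * q) q (h59_jbar (M * q))) := by
  intro P hP
  rw [← h88_alpha_jbar M q, h96_nr_beta_alpha M q,
    h96_nr_ord_nonneg_iff _ (h88_alphaIntegral (M * q) q) P]
  exact hreg _ ((h96_nr_jbar_alpha (M * q) q P).1 hP)

/-- **(POLE-β)** at level `(M q, q)`, `q ∤ M`. -/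
theorem h96_nr_pole_b2 (M q : ℕ) [NeZero M] [NeZero q] [Fact q.Prime] (hqM : ¬ q ∣ M)
    (hreg : ∀ P : Place Qb (modularFunctionFieldBar (M * q)),
      0 ≤ P.ord (h59_jbar (M * q)) → 0 ≤ P.ord (heckeBetaBar Qb M q (h59_jbar M))) :
    ∀ P : Place Qb (modularFunctionFieldBar (M * q * q)),
      0 ≤ P.ord (heckeBetaBar Qb (M * q) q (h59_jbar (M * q))) →
        0 ≤ P.ord (h59_jbar (M * q * q)) := by
  intro P hP
  rw [← h88_alpha_jbar M q, h96_nr_beta_alpha M q,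
    h96_nr_ord_nonneg_iff _ (h88_alphaIntegral (M * q) q) P] at hP
  exact (h96_nr_jbar_alpha (M * q) q P).2 (h96_nr_pole_b M q hqM hreg _ hP)

end Poles

/-! ### The chart-1 rings -/

section Rings

variable (N q : ℕ) [NeZero N] [NeZero q] (H : Subgroup (Qb ≃ₐ[ℚ] Qb))
variable {κ1 κ2 : Type*} [Finite κ1] [Finite κ2]
  (w1 : κ1 → h69_F0 N H → ℤ)
  (hw1_mul : ∀ c (f g : h69_F0 N H), f ≠ 0 → g ≠ 0 → w1 c (f * g) = w1 c f + w1 c g)
  (hw1_add : ∀ c (f g : h69_F0 N H), f ≠ 0 → g ≠ 0 → f + g ≠ 0 →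
    min (w1 c f) (w1 c g) ≤ w1 c (f + g))
  (w2 : κ2 → h69_F0 (N * q) H → ℤ)
  (hw2_mul : ∀ c (f g : h69_F0 (N * q) H), f ≠ 0 → g ≠ 0 → w2 c (f * g) = w2 c f + w2 c g)
  (hw2_add : ∀ c (f g : h69_F0 (N * q) H), f ≠ 0 → g ≠ 0 → f + g ≠ 0 →
    min (w2 c f) (w2 c g) ≤ w2 c (f + g))

/-- Membership in the chart-1 ring. -/
theorem h96_nr_mem_fam1 (M : ℕ) [NeZero M] {κ : Type*} [Finite κ] (w : κ → h69_F0 M H → ℤ)
    (hw_mul : ∀ c (f g : h69_F0 M H), f ≠ 0 → g ≠ 0 → w c (f * g) = w c f + w c g)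
    (hw_add : ∀ c (f g : h69_F0 M H), f ≠ 0 → g ≠ 0 → f + g ≠ 0 →
      min (w c f) (w c g) ≤ w c (f + g)) (f : h69_F0 M H) :
    f ∈ (h80_fam1 M H w hw_mul hw_add).B ↔ f = 0 ∨ ((∀ c, 0 ≤ w c f) ∧
      ∀ P : Place Qb (modularFunctionFieldBar M), 0 ≤ P.ord (h59_jbar M) →
        0 ≤ P.ord (f : modularFunctionFieldBar M)) :=
  h80_mem_famOf_B M H w hw_mul hw_add (h59_jbar M) (h54_isChart_jbar M) f

/-- **(HC1) for `α`**: `α` maps the chart-1 ring of level `N` into that of level `N q`. -/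
theorem h96_nr_a_mem
    (hvert : ∀ g : h69_F0 N H, g ≠ 0 → (∀ c, 0 ≤ w1 c g) → ∀ c, 0 ≤ w2 c (h70_aF0 N q H g))
    (g : h69_F0 N H) (hg : g ∈ (h80_fam1 N H w1 hw1_mul hw1_add).B) :
    h70_aF0 N q H g ∈ (h80_fam1 (N * q) H w2 hw2_mul hw2_add).B := by
  rw [h96_nr_mem_fam1] at hg ⊢
  rcases hg with rfl | ⟨hv, hh⟩
  · exact Or.inl (map_zero _)
  by_cases hg0 : g = 0
  · exact Or.inl (by rw [hg0, map_zero])
  refine Or.inr ⟨hvert g hg0 hv, fun P hP => ?_⟩
  rw [h70_coe_aF0, h96_nr_ord_nonneg_iff _ (h88_alphaIntegral N q) P]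
  exact hh _ ((h96_nr_jbar_alpha N q P).1 hP)

/-- **(HC1) for `β`**: `β` maps the chart-1 ring of level `N` into that of level `N q`. -/
theorem h96_nr_b_mem
    (hreg : ∀ P : Place Qb (modularFunctionFieldBar (N * q)),
      0 ≤ P.ord (h59_jbar (N * q)) → 0 ≤ P.ord (heckeBetaBar Qb N q (h59_jbar N)))
    (hvert : ∀ g : h69_F0 N H, g ≠ 0 → (∀ c, 0 ≤ w1 c g) → ∀ c, 0 ≤ w2 c (h70_bF0 N q H g))
    (g : h69_F0 N H) (hg : g ∈ (h80_fam1 N H w1 hw1_mul hw1_add).B) :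
    h70_bF0 N q H g ∈ (h80_fam1 (N * q) H w2 hw2_mul hw2_add).B := by
  rw [h96_nr_mem_fam1] at hg ⊢
  rcases hg with rfl | ⟨hv, hh⟩
  · exact Or.inl (map_zero _)
  by_cases hg0 : g = 0
  · exact Or.inl (by rw [hg0, map_zero])
  refine Or.inr ⟨hvert g hg0 hv, fun P hP => ?_⟩
  rw [h70_coe_bF0, h96_nr_ord_nonneg_iff _ (h88_betaIntegral N q) P]
  exact hh _ ((h96_nr_ord_nonneg_iff _ (h88_betaIntegral N q) P _).1 (hreg P hP))

/-- **The norm along `α`** maps the chart-1 ring of level `N q` into that of level `N`. -/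
theorem h96_nr_Na_mem
    (hvert : ∀ t : h69_F0 (N * q) H, t ≠ 0 → (∀ c, 0 ≤ w2 c t) →
      ∀ c, 0 ≤ w1 c (h70_NaF0 N q H t))
    (t : h69_F0 (N * q) H) (ht : t ∈ (h80_fam1 (N * q) H w2 hw2_mul hw2_add).B) :
    h70_NaF0 N q H t ∈ (h80_fam1 N H w1 hw1_mul hw1_add).B := by
  haveI := h88_hasPrincipalDivisors (N * q)
  rw [h96_nr_mem_fam1] at ht ⊢
  rcases ht with rfl | ⟨hv, hh⟩
  · exact Or.inl (map_zero _)
  by_cases ht0 : t = 0
  · exact Or.inl (by rw [ht0, map_zero])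
  have ht0' : (t : modularFunctionFieldBar (N * q)) ≠ 0 := fun h => ht0 (Subtype.ext h)
  refine Or.inr ⟨hvert t ht0 hv, fun P' hP' => ?_⟩
  rw [h70_coe_NaF0]
  refine h96_nr_ord_norm_nonneg _ (h88_alphaIntegral N q) (h88_finiteAlong_alpha N q)
    (h52_NF_alpha N q) ht0' P' fun Q hQ => hh Q ?_
  rw [h96_nr_jbar_alpha N q Q, Place.mem_fiberAlong.1 hQ]
  exact hP'

/-- **The norm along `β`** maps the chart-1 ring of level `N q` into that of level `N`, given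
(POLE-β): `j` is regular wherever `β j` is. -/
theorem h96_nr_Nb_mem
    (hpole : ∀ P : Place Qb (modularFunctionFieldBar (N * q)),
      0 ≤ P.ord (heckeBetaBar Qb N q (h59_jbar N)) → 0 ≤ P.ord (h59_jbar (N * q)))
    (hvert : ∀ t : h69_F0 (N * q) H, t ≠ 0 → (∀ c, 0 ≤ w2 c t) →
      ∀ c, 0 ≤ w1 c (h70_NbF0 N q H t))
    (t : h69_F0 (N * q) H) (ht : t ∈ (h80_fam1 (N * q) H w2 hw2_mul hw2_add).B) :
    h70_NbF0 N q H t ∈ (h80_fam1 N H w1 hw1_mul hw1_add).B := by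
  haveI := h88_hasPrincipalDivisors (N * q)
  rw [h96_nr_mem_fam1] at ht ⊢
  rcases ht with rfl | ⟨hv, hh⟩
  · exact Or.inl (map_zero _)
  by_cases ht0 : t = 0
  · exact Or.inl (by rw [ht0, map_zero])
  have ht0' : (t : modularFunctionFieldBar (N * q)) ≠ 0 := fun h => ht0 (Subtype.ext h)
  refine Or.inr ⟨hvert t ht0 hv, fun P' hP' => ?_⟩
  rw [h70_coe_NbF0]
  refine h96_nr_ord_norm_nonneg _ (h88_betaIntegral N q) (h88_finiteAlong_beta N q)
    (h52_NF_beta N q) ht0' P' fun Q hQ => hh Q (hpole Q ?_)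
  rw [h96_nr_ord_nonneg_iff _ (h88_betaIntegral N q) Q, Place.mem_fiberAlong.1 hQ]
  exact hP'

/-- **`α ∘ N_α` preserves the chart-1 ring** of level `N q`. -/
theorem h96_nr_Ma_mem
    (hvert : ∀ t : h69_F0 (N * q) H, t ≠ 0 → (∀ c, 0 ≤ w2 c t) →
      ∀ c, 0 ≤ w2 c (h70_aF0 N q H (h70_NaF0 N q H t)))
    (t : h69_F0 (N * q) H) (ht : t ∈ (h80_fam1 (N * q) H w2 hw2_mul hw2_add).B) :
    h70_aF0 N q H (h70_NaF0 N q H t) ∈ (h80_fam1 (N * q) H w2 hw2_mul hw2_add).B := by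
  haveI := h88_hasPrincipalDivisors (N * q)
  rw [h96_nr_mem_fam1] at ht ⊢
  rcases ht with rfl | ⟨hv, hh⟩
  · exact Or.inl (by rw [map_zero, map_zero])
  by_cases ht0 : t = 0
  · exact Or.inl (by rw [ht0, map_zero, map_zero])
  have ht0' : (t : modularFunctionFieldBar (N * q)) ≠ 0 := fun h => ht0 (Subtype.ext h)
  refine Or.inr ⟨hvert t ht0 hv, fun P hP => ?_⟩
  rw [h70_coe_aF0, h70_coe_NaF0]
  refine h96_nr_ord_pull_norm_nonneg _ (h88_alphaIntegral N q) (h88_finiteAlong_alpha N q)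
    (h52_NF_alpha N q) ht0' P fun Q hQ => hh Q ?_
  rw [h96_nr_jbar_alpha N q Q, hQ]
  exact (h96_nr_jbar_alpha N q P).1 hP

/-- **`β ∘ N_β` preserves the chart-1 ring** of level `N q`, given both inclusions between the
poles of `j` and of `β j`. -/
theorem h96_nr_Mb_mem
    (hreg : ∀ P : Place Qb (modularFunctionFieldBar (N * q)),
      0 ≤ P.ord (h59_jbar (N * q)) → 0 ≤ P.ord (heckeBetaBar Qb N q (h59_jbar N)))
    (hpole : ∀ P : Place Qb (modularFunctionFieldBar (N * q)),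
      0 ≤ P.ord (heckeBetaBar Qb N q (h59_jbar N)) → 0 ≤ P.ord (h59_jbar (N * q)))
    (hvert : ∀ t : h69_F0 (N * q) H, t ≠ 0 → (∀ c, 0 ≤ w2 c t) →
      ∀ c, 0 ≤ w2 c (h70_bF0 N q H (h70_NbF0 N q H t)))
    (t : h69_F0 (N * q) H) (ht : t ∈ (h80_fam1 (N * q) H w2 hw2_mul hw2_add).B) :
    h70_bF0 N q H (h70_NbF0 N q H t) ∈ (h80_fam1 (N * q) H w2 hw2_mul hw2_add).B := by
  haveI := h88_hasPrincipalDivisors (N * q)
  rw [h96_nr_mem_fam1] at ht ⊢
  rcases ht with rfl | ⟨hv, hh⟩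
  · exact Or.inl (by rw [map_zero, map_zero])
  by_cases ht0 : t = 0
  · exact Or.inl (by rw [ht0, map_zero, map_zero])
  have ht0' : (t : modularFunctionFieldBar (N * q)) ≠ 0 := fun h => ht0 (Subtype.ext h)
  refine Or.inr ⟨hvert t ht0 hv, fun P hP => ?_⟩
  rw [h70_coe_bF0, h70_coe_NbF0]
  refine h96_nr_ord_pull_norm_nonneg _ (h88_betaIntegral N q) (h88_finiteAlong_beta N q)
    (h52_NF_beta N q) ht0' P fun Q hQ => hh Q (hpole Q ?_)
  rw [h96_nr_ord_nonneg_iff _ (h88_betaIntegral N q) Q, hQ,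
    ← h96_nr_ord_nonneg_iff _ (h88_betaIntegral N q) P]
  exact hreg P hP

end Rings

/-! ### Level `(M q, q)` from (REG-A) at level `(M, q)` -/

section Square

variable (M q : ℕ) [NeZero M] [NeZero q] [Fact q.Prime] (hqM : ¬ q ∣ M)
  (H : Subgroup (Qb ≃ₐ[ℚ] Qb))
variable {κ1 κ2 : Type*} [Finite κ1] [Finite κ2]
  (w1 : κ1 → h69_F0 (M * q) H → ℤ)
  (hw1_mul : ∀ c (f g : h69_F0 (M * q) H), f ≠ 0 → g ≠ 0 → w1 c (f * g) = w1 c f + w1 c g)
  (hw1_add : ∀ c (f g : h69_F0 (M * q) H), f ≠ 0 → g ≠ 0 → f + g ≠ 0 →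
    min (w1 c f) (w1 c g) ≤ w1 c (f + g))
  (w2 : κ2 → h69_F0 (M * q * q) H → ℤ)
  (hw2_mul : ∀ c (f g : h69_F0 (M * q * q) H), f ≠ 0 → g ≠ 0 → w2 c (f * g) = w2 c f + w2 c g)
  (hw2_add : ∀ c (f g : h69_F0 (M * q * q) H), f ≠ 0 → g ≠ 0 → f + g ≠ 0 →
    min (w2 c f) (w2 c g) ≤ w2 c (f + g))
  (hreg : ∀ P : Place Qb (modularFunctionFieldBar (M * q)),
    0 ≤ P.ord (h59_jbar (M * q)) → 0 ≤ P.ord (heckeBetaBar Qb M q (h59_jbar M)))

include hreg in
/-- (HC1) for `β` at level `(M q, q)`. -/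
theorem h96_nr_b_mem_sq
    (hvert : ∀ g : h69_F0 (M * q) H, g ≠ 0 → (∀ c, 0 ≤ w1 c g) →
      ∀ c, 0 ≤ w2 c (h70_bF0 (M * q) q H g))
    (g : h69_F0 (M * q) H) (hg : g ∈ (h80_fam1 (M * q) H w1 hw1_mul hw1_add).B) :
    h70_bF0 (M * q) q H g ∈ (h80_fam1 (M * q * q) H w2 hw2_mul hw2_add).B :=
  h96_nr_b_mem (M * q) q H w1 hw1_mul hw1_add w2 hw2_mul hw2_add (h96_nr_reg_b2 M q hreg)
    hvert g hg

include hreg hqM in
/-- The norm along `β` at level `(M q, q)` maps the chart-1 ring into the chart-1 ring. -/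
theorem h96_nr_Nb_mem_sq
    (hvert : ∀ t : h69_F0 (M * q * q) H, t ≠ 0 → (∀ c, 0 ≤ w2 c t) →
      ∀ c, 0 ≤ w1 c (h70_NbF0 (M * q) q H t))
    (t : h69_F0 (M * q * q) H) (ht : t ∈ (h80_fam1 (M * q * q) H w2 hw2_mul hw2_add).B) :
    h70_NbF0 (M * q) q H t ∈ (h80_fam1 (M * q) H w1 hw1_mul hw1_add).B :=
  h96_nr_Nb_mem (M * q) q H w1 hw1_mul hw1_add w2 hw2_mul hw2_add
    (h96_nr_pole_b2 M q hqM hreg) hvert t ht

include hreg hqM in
/-- `β ∘ N_β` preserves the chart-1 ring of level `M q²`. -/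
theorem h96_nr_Mb_mem_sq
    (hvert : ∀ t : h69_F0 (M * q * q) H, t ≠ 0 → (∀ c, 0 ≤ w2 c t) →
      ∀ c, 0 ≤ w2 c (h70_bF0 (M * q) q H (h70_NbF0 (M * q) q H t)))
    (t : h69_F0 (M * q * q) H) (ht : t ∈ (h80_fam1 (M * q * q) H w2 hw2_mul hw2_add).B) :
    h70_bF0 (M * q) q H (h70_NbF0 (M * q) q H t) ∈
      (h80_fam1 (M * q * q) H w2 hw2_mul hw2_add).B :=
  h96_nr_Mb_mem (M * q) q H w2 hw2_mul hw2_add (h96_nr_reg_b2 M q hreg)
    (h96_nr_pole_b2 M q hqM hreg) hvert t ht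

end Square

end Fermat.Agent.S36
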