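import Mathlib
import Fermat.Agent.S36.h96_ChartXfer
import Fermat.Agent.S36.h80_FamInst
import Fermat.Agent.S36.h89_ResK
import Fermat.Agent.S36.h61_Plug

/-!
# S36: the chart-2 clause of the final plug from chart 1 and the cusp points (helper96)

* `h96_xfer_point` (generic): a closed point `𝔪` of the second chart with `x0⁻¹ ∉ 𝔪` is a closed
  point `𝔪1` of the first chart: `B_𝔪1 ⊆ B_𝔪`, and every valuation through `𝔪` is a valuation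
  through `𝔪1`.
* `h96_fam_h21`, `h96_fam_hx2` : the relation between the two modular charts `h80_fam1`
  (`j` finite) and `h80_fam2` (`1/j` finite).
* `h96_fam2_clause` : the `(LOC-δ)` clause of `h61_geomN_of_data` for `h80_fam2` from the clause
  for `h80_fam1` and the clause at the points of `h80_fam2` containing `1/j`; the residue
  condition is a hypothesis.
* `h96_fam2_clause_resK` : the same with the residue condition discharged by `h89_resK`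
  (input: the chart ring of `h80_fam2` is integral over `A₀[1/j]`).
* `h96_geomN_of_data_cusp` : `h61_geomN_of_data` with the chart-2 clause of `hwit` required at the
  cusp points only.
-/

set_option autoImplicit false
set_option linter.unusedSectionVars false
set_option linter.style.haveILetI false

namespace Fermat.Agent.S36

open AlgebraicCurve ModularCurve Fermat.Agent.S24 Fermat.Agent.S18 Fermat.Agent.S34
  Fermat.Agent.S19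

local notation "Qb" => AlgebraicClosure ℚ

/-! ### Generic: transfer of a closed point -/

section Point

variable {F0 : Type*} [Field F0] {ι1 ι2 : Type*} (V1 : h80_ValFam F0 ι1) (V2 : h80_ValFam F0 ι2)

/-- **Transfer of a closed point.**  `𝔪` a closed point of chart 2 not containing `x0⁻¹`.  Then
there is a closed point `𝔪1` of chart 1 with `𝔪1 = 𝔪 B_𝔪 ∩ V1.B`, `B_𝔪1 ⊆ B_𝔪`, and such that
every valuation through `𝔪` is (as a function) a valuation through `𝔪1`; `R` is any relation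
carried along by the correspondence `h21` of indices. -/
theorem h96_xfer_point (x0 : F0) (hx00 : x0 ≠ 0) (hx2 : ∀ i, V2.v i x0 ≤ 0)
    (R : ι1 → ι2 → Prop)
    (h21 : ∀ i2, V2.v i2 x0 = 0 → ∃ i1, (∀ f : F0, V1.v i1 f = V2.v i2 f) ∧ R i1 i2)
    (t0 : V2.B) (ht0 : (t0 : F0) = x0⁻¹) (𝔪 : Ideal V2.B) (hmax : 𝔪.IsMaximal) (ht0m : t0 ∉ 𝔪)
    (hres : ∀ s : V2.B, ∃ l : V2.B, s - l ∈ 𝔪 ∧
      (l ∈ 𝔪 ∨ ((l : F0) ∈ V1.B ∧ (l : F0)⁻¹ ∈ V1.B))) :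
    ∃ 𝔪1 : Ideal V1.B, 𝔪1.IsMaximal ∧ (∀ f : V1.B, f ∈ 𝔪1 ↔ V2.InMLoc 𝔪 (f : F0)) ∧
      (∀ f : F0, V1.InLoc 𝔪1 f → V2.InLoc 𝔪 f) ∧
      ∀ i2, V2.Through 𝔪 i2 →
        ∃ i1, (∀ f : F0, V1.v i1 f = V2.v i2 f) ∧ R i1 i2 ∧ V1.Through 𝔪1 i1 := by
  haveI h𝔪 : 𝔪.IsPrime := hmax.isPrime
  have h21' : ∀ i2, V2.v i2 x0 = 0 → ∃ i1, ∀ f : F0, V1.v i1 f = V2.v i2 f := fun i2 hi2 => by
    obtain ⟨i1, h, -⟩ := h21 i2 hi2
    exact ⟨i1, h⟩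
  have hsub : ∀ f : V1.B, V2.InLoc 𝔪 (f : F0) :=
    h96_xfer_sub V1 V2 x0 hx00 hx2 h21' 𝔪 t0 ht0 ht0m
  have hx0loc : V2.InLoc 𝔪 x0 := h96_xfer_x0 V2 x0 hx00 𝔪 t0 ht0 ht0m
  have hx0inv : V2.InLoc 𝔪 x0⁻¹ := by rw [← ht0]; exact h94_B_le_Bm V2 𝔪 t0
  have hx0thr : ∀ i2, V2.Through 𝔪 i2 → V2.v i2 x0 = 0 := fun i2 hi2 =>
    h80_through_eq_zero_of_unit V2 𝔪 hx00 hx0loc hx0inv hi2
  refine ⟨h96_xferIdeal V1 V2 𝔪 hsub, h96_xferIdeal_isMaximal V1 V2 𝔪 hsub hres,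
    fun f => Iff.rfl, ?_, ?_⟩
  · intro f hf
    exact h96_xfer_inLoc V1 V2 x0 hx00 𝔪 hsub (fun i2 hi2 => h21' i2 (hx0thr i2 hi2)) hf
  · intro i2 hi2
    obtain ⟨i1, hsame, hR⟩ := h21 i2 (hx0thr i2 hi2)
    exact ⟨i1, hsame, hR, h96_xfer_through V1 V2 x0 hx00 𝔪 hsub hsame hi2⟩

end Point

/-! ### Generic: transfer of the `(LOC-δ)` clause -/

section Clause

variable {K F : Type*} [Field K] [Field F] [Algebra K F] {F0 : Type*} [Field F0]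
  {κ ι1 ι2 : Type*}

/-- **The `(LOC-δ)` clause of chart 2 from chart 1 and the points containing `1/x0`.**  Generic
form of the two clauses of `hwit` in `h61_geomN_of_data` (`V1`, `V2` abstract families with index
types `κ ⊕ ι1`, `κ ⊕ ι2`; `emb : F0 → F`; `t` the element `1/x0`). -/
theorem h96_clause_xfer (emb : F0 → F) (V1 : h80_ValFam F0 (κ ⊕ ι1))
    (V2 : h80_ValFam F0 (κ ⊕ ι2)) (w : κ → F0 → ℤ) (a : κ → ℕ)
    (x0 : F0) (hx00 : x0 ≠ 0) (hx2 : ∀ i, V2.v i x0 ≤ 0)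
    (h21 : ∀ i2, V2.v i2 x0 = 0 → ∃ i1, (∀ f : F0, V1.v i1 f = V2.v i2 f) ∧
      ((i1 ∈ Set.range (Sum.inl : κ → κ ⊕ ι1) ↔ i2 ∈ Set.range (Sum.inl : κ → κ ⊕ ι2)) ∧
        ∀ c, i2 = Sum.inl c → i1 = Sum.inl c))
    (t : F0) (ht : t = x0⁻¹) (q0 : F0) (Ez : Divisor K F) (hq0B1 : q0 ∈ V1.B)
    (hres : ∀ 𝔪 : Ideal V2.B, 𝔪.IsMaximal → (∃ hq0B : q0 ∈ V2.B, (⟨q0, hq0B⟩ : V2.B) ∈ 𝔪) →
      ∀ s : V2.B, ∃ l : V2.B, s - l ∈ 𝔪 ∧
        (l ∈ 𝔪 ∨ ((l : F0) ∈ V1.B ∧ (l : F0)⁻¹ ∈ V1.B)))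
    (h1 : ∀ 𝔪 : Ideal V1.B, 𝔪.IsMaximal → (∃ hq0B : q0 ∈ V1.B, (⟨q0, hq0B⟩ : V1.B) ∈ 𝔪) →
      ∃ e y : F0, e ≠ 0 ∧ y ≠ 0 ∧ V1.InLoc 𝔪 y ∧ V1.InLoc 𝔪 y⁻¹ ∧
        (∀ i, i ∉ Set.range (Sum.inl : κ → κ ⊕ ι1) → V1.Through 𝔪 i → ∀ P : Place K F,
          (∀ f : F0, f ≠ 0 → V1.v i f = P.ord (emb f)) → V1.v i e = Ez P) ∧
        ∀ c : κ, V1.Through 𝔪 (Sum.inl c) → (e = y ∨ (a c : ℤ) ≤ w c (e - y)))
    (hcusp : ∀ 𝔪 : Ideal V2.B, 𝔪.IsMaximal → (∃ hq0B : q0 ∈ V2.B, (⟨q0, hq0B⟩ : V2.B) ∈ 𝔪) →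
      (∃ htB : t ∈ V2.B, (⟨t, htB⟩ : V2.B) ∈ 𝔪) →
      ∃ e y : F0, e ≠ 0 ∧ y ≠ 0 ∧ V2.InLoc 𝔪 y ∧ V2.InLoc 𝔪 y⁻¹ ∧
        (∀ i, i ∉ Set.range (Sum.inl : κ → κ ⊕ ι2) → V2.Through 𝔪 i → ∀ P : Place K F,
          (∀ f : F0, f ≠ 0 → V2.v i f = P.ord (emb f)) → V2.v i e = Ez P) ∧
        ∀ c : κ, V2.Through 𝔪 (Sum.inl c) → (e = y ∨ (a c : ℤ) ≤ w c (e - y))) :
    ∀ 𝔪 : Ideal V2.B, 𝔪.IsMaximal → (∃ hq0B : q0 ∈ V2.B, (⟨q0, hq0B⟩ : V2.B) ∈ 𝔪) →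
      ∃ e y : F0, e ≠ 0 ∧ y ≠ 0 ∧ V2.InLoc 𝔪 y ∧ V2.InLoc 𝔪 y⁻¹ ∧
        (∀ i, i ∉ Set.range (Sum.inl : κ → κ ⊕ ι2) → V2.Through 𝔪 i → ∀ P : Place K F,
          (∀ f : F0, f ≠ 0 → V2.v i f = P.ord (emb f)) → V2.v i e = Ez P) ∧
        ∀ c : κ, V2.Through 𝔪 (Sum.inl c) → (e = y ∨ (a c : ℤ) ≤ w c (e - y)) := by
  intro 𝔪 hmax hq𝔪
  haveI h𝔪 : 𝔪.IsPrime := hmax.isPrime
  have htB : t ∈ V2.B := by
    rw [ht]
    exact (V2.mem_B x0⁻¹ (inv_ne_zero hx00)).2 fun i => by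
      rw [h80_v_inv V2 i hx00]
      have := hx2 i
      omega
  by_cases hcm : (⟨t, htB⟩ : V2.B) ∈ 𝔪
  · exact hcusp 𝔪 hmax hq𝔪 ⟨htB, hcm⟩
  -- the other points: transfer to chart 1
  obtain ⟨hq0B, hq0m⟩ := hq𝔪
  obtain ⟨𝔪1, hmax1, hmem1, hloc, hthr⟩ := h96_xfer_point V1 V2 x0 hx00 hx2
    (fun i1 i2 => (i1 ∈ Set.range (Sum.inl : κ → κ ⊕ ι1) ↔
        i2 ∈ Set.range (Sum.inl : κ → κ ⊕ ι2)) ∧ ∀ c, i2 = Sum.inl c → i1 = Sum.inl c)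
    h21 ⟨t, htB⟩ ht 𝔪 hmax hcm (hres 𝔪 hmax ⟨hq0B, hq0m⟩)
  have hq1 : (⟨q0, hq0B1⟩ : V1.B) ∈ 𝔪1 :=
    (hmem1 _).2 ⟨⟨q0, hq0B⟩, 1, hq0m, h94_one_not_mem V2 𝔪, by simp⟩
  obtain ⟨e, y, he0, hy0, hy, hy', hhor, hvert⟩ := h1 𝔪1 hmax1 ⟨hq0B1, hq1⟩
  refine ⟨e, y, he0, hy0, hloc y hy, hloc y⁻¹ hy', ?_, ?_⟩
  · intro i2 hi2v hi2 P hP
    obtain ⟨i1, hsame, ⟨hv, -⟩, hthr1⟩ := hthr i2 hi2
    have h3 := hhor i1 (fun h => hi2v (hv.1 h)) hthr1 P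
      (fun f hf => by rw [hsame]; exact hP f hf)
    rw [← hsame]
    exact h3
  · intro c hc
    obtain ⟨i1, -, ⟨-, hv⟩, hthr1⟩ := hthr (Sum.inl c) hc
    rw [hv c rfl] at hthr1
    exact hvert c hthr1

end Clause

/-! ### The two modular charts

Warning for maintainers: never let the unifier compare a term of `h80_fam1` with a term of
`h80_fam2` (it would try to decide `j = j⁻¹` by unfolding); every step below keeps the two
families apart. -/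

section Charts

variable (N : ℕ) [NeZero N] (H : Subgroup (Qb ≃ₐ[ℚ] Qb))
variable {κ : Type*} [Finite κ] (w : κ → h69_F0 N H → ℤ)
  (hw_mul : ∀ c (f g : h69_F0 N H), f ≠ 0 → g ≠ 0 → w c (f * g) = w c f + w c g)
  (hw_add : ∀ c (f g : h69_F0 N H), f ≠ 0 → g ≠ 0 → f + g ≠ 0 →
    min (w c f) (w c g) ≤ w c (f + g))

/-- `j ≠ 0` in `F₀`. -/
theorem h96_j0_ne_zero : (⟨h59_jbar N, h80_jbar_mem_F0 N H⟩ : h69_F0 N H) ≠ 0 := fun h =>
  (h54_isChart_jbar N).ne_zero (congrArg Subtype.val h)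

/-- `1/j` as an element of `F₀`. -/
theorem h96_j0_inv :
    (⟨(h59_jbar N)⁻¹, h80_jbar_inv_mem_F0 N H⟩ : h69_F0 N H) =
      (⟨h59_jbar N, h80_jbar_mem_F0 N H⟩ : h69_F0 N H)⁻¹ :=
  Subtype.ext rfl

/-- The vertical valuations of chart 1. -/
theorem h96_fam1_v_inl (c : κ) (f : h69_F0 N H) :
    (h80_fam1 N H w hw_mul hw_add).v (Sum.inl c) f = w c f := rfl

/-- The vertical valuations of chart 2. -/
theorem h96_fam2_v_inl (c : κ) (f : h69_F0 N H) :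
    (h80_fam2 N H w hw_mul hw_add).v (Sum.inl c) f = w c f := rfl

/-- The horizontal valuations of chart 1. -/
theorem h96_fam1_v_mk (P : Place Qb (modularFunctionFieldBar N)) (hP : 0 ≤ P.ord (h59_jbar N))
    (f : h69_F0 N H) :
    (h80_fam1 N H w hw_mul hw_add).v
      (Sum.inr (h80_horMk (h80_horOrd N H (h59_jbar N)) ⟨P, hP⟩)) f =
      P.ord (f : modularFunctionFieldBar N) := rfl

/-- The horizontal valuations of chart 2. -/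
theorem h96_fam2_v_mk (P : Place Qb (modularFunctionFieldBar N))
    (hP : 0 ≤ P.ord (h59_jbar N)⁻¹) (f : h69_F0 N H) :
    (h80_fam2 N H w hw_mul hw_add).v
      (Sum.inr (h80_horMk (h80_horOrd N H (h59_jbar N)⁻¹) ⟨P, hP⟩)) f =
      P.ord (f : modularFunctionFieldBar N) := rfl

/-- On chart 2 every valuation is `≤ 0` at `j` (the vertical ones being `0` at `j`). -/
theorem h96_fam_hx2 (hwj : ∀ c, w c ⟨h59_jbar N, h80_jbar_mem_F0 N H⟩ = 0)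
    (i : κ ⊕ h80_HorIdx (h80_horOrd N H (h59_jbar N)⁻¹)) :
    (h80_fam2 N H w hw_mul hw_add).v i ⟨h59_jbar N, h80_jbar_mem_F0 N H⟩ ≤ 0 := by
  rcases i with c | h
  · rw [h96_fam2_v_inl]
    exact le_of_eq (hwj c)
  · obtain ⟨⟨P, hP⟩, rfl⟩ := h80_horMk_surj _ h
    have hP' : 0 ≤ P.ord (h59_jbar N)⁻¹ := hP
    refine le_of_eq_of_le (h96_fam2_v_mk N H w hw_mul hw_add P hP' _) ?_
    rw [Place.ord_inv] at hP'
    show P.ord (h59_jbar N) ≤ 0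
    omega

/-- An index of chart 2 at which `j` is a unit is an index of chart 1: same valuation, vertical
iff vertical, and a vertical index goes to the same vertical index. -/
theorem h96_fam_h21 (i2 : κ ⊕ h80_HorIdx (h80_horOrd N H (h59_jbar N)⁻¹))
    (hi2 : (h80_fam2 N H w hw_mul hw_add).v i2 ⟨h59_jbar N, h80_jbar_mem_F0 N H⟩ = 0) :
    ∃ i1 : κ ⊕ h80_HorIdx (h80_horOrd N H (h59_jbar N)),
      (∀ f : h69_F0 N H, (h80_fam1 N H w hw_mul hw_add).v i1 f =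
        (h80_fam2 N H w hw_mul hw_add).v i2 f) ∧
      ((i1 ∈ Set.range (Sum.inl : κ → κ ⊕ h80_HorIdx (h80_horOrd N H (h59_jbar N))) ↔
          i2 ∈ Set.range (Sum.inl : κ → κ ⊕ h80_HorIdx (h80_horOrd N H (h59_jbar N)⁻¹))) ∧
        ∀ c, i2 = Sum.inl c → i1 = Sum.inl c) := by
  rcases i2 with c | h
  · refine ⟨Sum.inl c, fun f => ?_, ⟨fun _ => ⟨c, rfl⟩, fun _ => ⟨c, rfl⟩⟩, fun c' hc' => ?_⟩
    · exact (h96_fam1_v_inl N H w hw_mul hw_add c f).trans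
        (h96_fam2_v_inl N H w hw_mul hw_add c f).symm
    · exact congrArg Sum.inl (Sum.inl.inj hc')
  · obtain ⟨⟨P, hP⟩, rfl⟩ := h80_horMk_surj _ h
    have hP' : 0 ≤ P.ord (h59_jbar N)⁻¹ := hP
    have hP0 : P.ord (h59_jbar N) = 0 :=
      (h96_fam2_v_mk N H w hw_mul hw_add P hP' ⟨h59_jbar N, h80_jbar_mem_F0 N H⟩).symm.trans hi2
    refine ⟨Sum.inr (h80_horMk (h80_horOrd N H (h59_jbar N)) ⟨P, le_of_eq hP0.symm⟩),
      fun f => ?_, ⟨?_, ?_⟩, ?_⟩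
    · exact (h96_fam1_v_mk N H w hw_mul hw_add P (le_of_eq hP0.symm) f).trans
        (h96_fam2_v_mk N H w hw_mul hw_add P hP' f).symm
    · rintro ⟨c, hc⟩
      exact (Sum.inl_ne_inr hc).elim
    · rintro ⟨c, hc⟩
      exact (Sum.inl_ne_inr hc).elim
    · intro c hc
      exact (Sum.inr_ne_inl hc).elim

/-- **The chart-2 clause from the chart-1 clause and the cusp points** (residue condition as a
hypothesis).  The clauses are those of `hwit` in `h61_geomN_of_data`. -/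
theorem h96_fam2_clause (hwj : ∀ c, w c ⟨h59_jbar N, h80_jbar_mem_F0 N H⟩ = 0)
    (a : κ → ℕ) (q0 : h69_F0 N H) (Ez : Divisor Qb (modularFunctionFieldBar N))
    (hq0B1 : q0 ∈ (h80_fam1 N H w hw_mul hw_add).B)
    (hres : ∀ 𝔪 : Ideal (h80_fam2 N H w hw_mul hw_add).B, 𝔪.IsMaximal →
      (∃ hq0B : q0 ∈ (h80_fam2 N H w hw_mul hw_add).B,
        (⟨q0, hq0B⟩ : (h80_fam2 N H w hw_mul hw_add).B) ∈ 𝔪) →
      ∀ s : (h80_fam2 N H w hw_mul hw_add).B, ∃ l : (h80_fam2 N H w hw_mul hw_add).B,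
        s - l ∈ 𝔪 ∧ (l ∈ 𝔪 ∨ ((l : h69_F0 N H) ∈ (h80_fam1 N H w hw_mul hw_add).B ∧
          (l : h69_F0 N H)⁻¹ ∈ (h80_fam1 N H w hw_mul hw_add).B)))
    (h1 : ∀ 𝔪 : Ideal (h80_fam1 N H w hw_mul hw_add).B, 𝔪.IsMaximal →
      (∃ hq0B : q0 ∈ (h80_fam1 N H w hw_mul hw_add).B,
        (⟨q0, hq0B⟩ : (h80_fam1 N H w hw_mul hw_add).B) ∈ 𝔪) →
      ∃ e y : h69_F0 N H, e ≠ 0 ∧ y ≠ 0 ∧
        (h80_fam1 N H w hw_mul hw_add).InLoc 𝔪 y ∧
        (h80_fam1 N H w hw_mul hw_add).InLoc 𝔪 y⁻¹ ∧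
        (∀ i, i ∉ Set.range Sum.inl →
          (h80_fam1 N H w hw_mul hw_add).Through 𝔪 i →
          ∀ P : Place Qb (modularFunctionFieldBar N),
            (∀ f : h69_F0 N H, f ≠ 0 →
              (h80_fam1 N H w hw_mul hw_add).v i f = P.ord (f : modularFunctionFieldBar N)) →
            (h80_fam1 N H w hw_mul hw_add).v i e = Ez P) ∧
        ∀ c : κ, (h80_fam1 N H w hw_mul hw_add).Through 𝔪 (Sum.inl c) →
          (e = y ∨ (a c : ℤ) ≤ w c (e - y)))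
    (hcusp : ∀ 𝔪 : Ideal (h80_fam2 N H w hw_mul hw_add).B, 𝔪.IsMaximal →
      (∃ hq0B : q0 ∈ (h80_fam2 N H w hw_mul hw_add).B,
        (⟨q0, hq0B⟩ : (h80_fam2 N H w hw_mul hw_add).B) ∈ 𝔪) →
      (∃ hjB : (⟨(h59_jbar N)⁻¹, h80_jbar_inv_mem_F0 N H⟩ : h69_F0 N H) ∈
          (h80_fam2 N H w hw_mul hw_add).B,
        (⟨⟨(h59_jbar N)⁻¹, h80_jbar_inv_mem_F0 N H⟩, hjB⟩ :
          (h80_fam2 N H w hw_mul hw_add).B) ∈ 𝔪) →
      ∃ e y : h69_F0 N H, e ≠ 0 ∧ y ≠ 0 ∧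
        (h80_fam2 N H w hw_mul hw_add).InLoc 𝔪 y ∧
        (h80_fam2 N H w hw_mul hw_add).InLoc 𝔪 y⁻¹ ∧
        (∀ i, i ∉ Set.range Sum.inl →
          (h80_fam2 N H w hw_mul hw_add).Through 𝔪 i →
          ∀ P : Place Qb (modularFunctionFieldBar N),
            (∀ f : h69_F0 N H, f ≠ 0 →
              (h80_fam2 N H w hw_mul hw_add).v i f = P.ord (f : modularFunctionFieldBar N)) →
            (h80_fam2 N H w hw_mul hw_add).v i e = Ez P) ∧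
        ∀ c : κ, (h80_fam2 N H w hw_mul hw_add).Through 𝔪 (Sum.inl c) →
          (e = y ∨ (a c : ℤ) ≤ w c (e - y))) :
    ∀ 𝔪 : Ideal (h80_fam2 N H w hw_mul hw_add).B, 𝔪.IsMaximal →
      (∃ hq0B : q0 ∈ (h80_fam2 N H w hw_mul hw_add).B,
        (⟨q0, hq0B⟩ : (h80_fam2 N H w hw_mul hw_add).B) ∈ 𝔪) →
      ∃ e y : h69_F0 N H, e ≠ 0 ∧ y ≠ 0 ∧
        (h80_fam2 N H w hw_mul hw_add).InLoc 𝔪 y ∧
        (h80_fam2 N H w hw_mul hw_add).InLoc 𝔪 y⁻¹ ∧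
        (∀ i, i ∉ Set.range Sum.inl →
          (h80_fam2 N H w hw_mul hw_add).Through 𝔪 i →
          ∀ P : Place Qb (modularFunctionFieldBar N),
            (∀ f : h69_F0 N H, f ≠ 0 →
              (h80_fam2 N H w hw_mul hw_add).v i f = P.ord (f : modularFunctionFieldBar N)) →
            (h80_fam2 N H w hw_mul hw_add).v i e = Ez P) ∧
        ∀ c : κ, (h80_fam2 N H w hw_mul hw_add).Through 𝔪 (Sum.inl c) →
          (e = y ∨ (a c : ℤ) ≤ w c (e - y)) :=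
  h96_clause_xfer (K := Qb) (F := modularFunctionFieldBar N)
    (fun f : h69_F0 N H => (f : modularFunctionFieldBar N))
    (h80_fam1 N H w hw_mul hw_add) (h80_fam2 N H w hw_mul hw_add) w a
    ⟨h59_jbar N, h80_jbar_mem_F0 N H⟩ (h96_j0_ne_zero N H)
    (h96_fam_hx2 N H w hw_mul hw_add hwj) (h96_fam_h21 N H w hw_mul hw_add)
    ⟨(h59_jbar N)⁻¹, h80_jbar_inv_mem_F0 N H⟩ (h96_j0_inv N H) q0 Ez hq0B1 hres h1 hcusp

end Charts

/-! ### With the residue condition discharged -/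

section ResK

variable (N : ℕ) [NeZero N] {q : ℕ} (hq : q.Prime) (A : ValuationSubring Qb)
  (hA : A.LiesOverPrime q)
variable {κ : Type*} [Finite κ] (w : κ → h69_F0 N (A.inertiaSubgroupIn ℚ) → ℤ)
  (hw_mul : ∀ c (f g : h69_F0 N (A.inertiaSubgroupIn ℚ)), f ≠ 0 → g ≠ 0 →
    w c (f * g) = w c f + w c g)
  (hw_add : ∀ c (f g : h69_F0 N (A.inertiaSubgroupIn ℚ)), f ≠ 0 → g ≠ 0 → f + g ≠ 0 →
    min (w c f) (w c g) ≤ w c (f + g))

include hq hA in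
/-- **The residue condition of `h96_fam2_clause`** from (RESK) on chart 2 (`h89_resK`): modulo a
closed point containing `q`, every function of the chart ring is congruent to a constant of `A₀`,
which is in the point (a non-unit) or a unit of the chart-1 ring. -/
theorem h96_fam2_hres
    (hwA : ∀ c (a : h69_K0 (A.inertiaSubgroupIn ℚ)), a ∈ h69_A0 A → a ≠ 0 →
      0 ≤ w c (algebraMap (h69_K0 (A.inertiaSubgroupIn ℚ)) (h69_F0 N (A.inertiaSubgroupIn ℚ)) a))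
    (hwj : ∀ c, w c ⟨h59_jbar N, h80_jbar_mem_F0 N (A.inertiaSubgroupIn ℚ)⟩ = 0)
    (hint2 : ∀ f ∈ (h80_fam2 N (A.inertiaSubgroupIn ℚ) w hw_mul hw_add).B,
      (h97_ev (h69_A0 A).toSubring
        (⟨(h59_jbar N)⁻¹, h80_jbar_inv_mem_F0 N (A.inertiaSubgroupIn ℚ)⟩ :
          h69_F0 N (A.inertiaSubgroupIn ℚ))).IsIntegralElem f)
    (q0 : h69_F0 N (A.inertiaSubgroupIn ℚ))
    (hq0 : (q0 : modularFunctionFieldBar N) = algebraMap Qb (modularFunctionFieldBar N) (q : Qb))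
    (𝔪 : Ideal (h80_fam2 N (A.inertiaSubgroupIn ℚ) w hw_mul hw_add).B) (hmax : 𝔪.IsMaximal)
    (hq𝔪 : ∃ hq0B : q0 ∈ (h80_fam2 N (A.inertiaSubgroupIn ℚ) w hw_mul hw_add).B,
      (⟨q0, hq0B⟩ : (h80_fam2 N (A.inertiaSubgroupIn ℚ) w hw_mul hw_add).B) ∈ 𝔪)
    (s : (h80_fam2 N (A.inertiaSubgroupIn ℚ) w hw_mul hw_add).B) :
    ∃ l : (h80_fam2 N (A.inertiaSubgroupIn ℚ) w hw_mul hw_add).B, s - l ∈ 𝔪 ∧
      (l ∈ 𝔪 ∨ ((l : h69_F0 N (A.inertiaSubgroupIn ℚ)) ∈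
          (h80_fam1 N (A.inertiaSubgroupIn ℚ) w hw_mul hw_add).B ∧
        (l : h69_F0 N (A.inertiaSubgroupIn ℚ))⁻¹ ∈
          (h80_fam1 N (A.inertiaSubgroupIn ℚ) w hw_mul hw_add).B)) := by
  haveI : Fact q.Prime := ⟨hq⟩
  haveI := hmax
  obtain ⟨hq0B, hq0m⟩ := hq𝔪
  set x1 : h69_F0 N (A.inertiaSubgroupIn ℚ) :=
    ⟨h59_jbar N, h80_jbar_mem_F0 N (A.inertiaSubgroupIn ℚ)⟩ with hx1
  set x2 : h69_F0 N (A.inertiaSubgroupIn ℚ) :=
    ⟨(h59_jbar N)⁻¹, h80_jbar_inv_mem_F0 N (A.inertiaSubgroupIn ℚ)⟩ with hx2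
  have hc1 : h75_IsChart Qb (x1 : modularFunctionFieldBar N) := h54_isChart_jbar N
  have hc2 : h75_IsChart Qb (x2 : modularFunctionFieldBar N) :=
    h75_isChart_inv (h54_isChart_jbar N)
  have hx10 : x1 ≠ 0 := h96_j0_ne_zero N _
  have hwx2 : ∀ c, 0 ≤ w c x2 := by
    intro c
    have e : x2 = x1⁻¹ := h96_j0_inv N _
    have h1 := hw_mul c x1 x1⁻¹ hx10 (inv_ne_zero hx10)
    have h2 := hw_mul c 1 1 one_ne_zero one_ne_zero
    rw [mul_inv_cancel₀ hx10] at h1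
    rw [mul_one] at h2
    rw [e]
    have := hwj c
    omega
  have hqm : ((q : ℕ) : (h89_fam N (A.inertiaSubgroupIn ℚ) hc2 w hw_mul hw_add).B) ∈
      (𝔪 : Ideal (h89_fam N (A.inertiaSubgroupIn ℚ) hc2 w hw_mul hw_add).B) := by
    have e : ((q : ℕ) : (h89_fam N (A.inertiaSubgroupIn ℚ) hc2 w hw_mul hw_add).B) =
        (⟨q0, hq0B⟩ : (h80_fam2 N (A.inertiaSubgroupIn ℚ) w hw_mul hw_add).B) := by
      apply Subtype.ext
      apply Subtype.ext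
      show (((q : ℕ) : h69_F0 N (A.inertiaSubgroupIn ℚ)) : modularFunctionFieldBar N) =
        (q0 : modularFunctionFieldBar N)
      rw [hq0, map_natCast]
      rfl
    rw [e]
    exact hq0m
  have key : ∀ m : Ideal (h89_fam N (A.inertiaSubgroupIn ℚ) hc2 w hw_mul hw_add).B,
      m.IsMaximal → ((q : ℕ) : (h89_fam N (A.inertiaSubgroupIn ℚ) hc2 w hw_mul hw_add).B) ∈ m →
      ∀ b : (h89_fam N (A.inertiaSubgroupIn ℚ) hc2 w hw_mul hw_add).B,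
      ∃ (a : ↥(h69_K0 (A.inertiaSubgroupIn ℚ))) (ha : a ∈ h69_A0 A),
        b - ⟨algebraMap (h69_K0 (A.inertiaSubgroupIn ℚ)) (h69_F0 N (A.inertiaSubgroupIn ℚ)) a,
          h89_const_mem_B N A x2 hc2 w hw_mul hw_add hwA a ha⟩ ∈ m := fun m hm hqm' b => by
    haveI := hm
    exact h89_resK N q A x2 hc2 w hw_mul hw_add hA hwA hwx2 hint2 m hqm' b
  obtain ⟨a', ha', hmem⟩ := key 𝔪 hmax hqm s
  by_cases hnu : ((a' : h69_K0 (A.inertiaSubgroupIn ℚ)) : Qb) ∈ A.nonunits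
  · exact ⟨_, hmem, Or.inl
      (h89_nonunit_const_mem N q A x2 hc2 w hw_mul hw_add hA hwA 𝔪 hqm a' ha' hnu)⟩
  · refine ⟨_, hmem, Or.inr ⟨?_, ?_⟩⟩
    · exact h89_const_mem_B N A x1 hc1 w hw_mul hw_add hwA a' ha'
    · have ha'inv : a'⁻¹ ∈ h69_A0 A := by
        rw [h69_mem_A0] at ha' ⊢
        have h1 : A.valuation ((a' : h69_K0 (A.inertiaSubgroupIn ℚ)) : Qb) = 1 := by
          have h2 := (A.valuation_le_one_iff _).2 ha'
          have h3 : ¬ A.valuation ((a' : h69_K0 (A.inertiaSubgroupIn ℚ)) : Qb) < 1 :=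
            fun h => hnu ((A.mem_nonunits_iff).2 h)
          exact le_antisymm h2 (not_lt.1 h3)
        have h4 : (((a'⁻¹ : h69_K0 (A.inertiaSubgroupIn ℚ))) : Qb) =
            ((a' : h69_K0 (A.inertiaSubgroupIn ℚ)) : Qb)⁻¹ := rfl
        rw [h4, ← A.valuation_le_one_iff, map_inv₀, h1, inv_one]
      have h5 := h89_const_mem_B N A x1 hc1 w hw_mul hw_add hwA a'⁻¹ ha'inv
      rw [map_inv₀] at h5
      exact h5

include hq hA in
/-- **The chart-2 clause from the chart-1 clause and the cusp points**, with (RESK) on chart 2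
discharged from the integrality of the chart ring over `A₀[1/j]`. -/
theorem h96_fam2_clause_resK
    (hwA : ∀ c (a : h69_K0 (A.inertiaSubgroupIn ℚ)), a ∈ h69_A0 A → a ≠ 0 →
      0 ≤ w c (algebraMap (h69_K0 (A.inertiaSubgroupIn ℚ)) (h69_F0 N (A.inertiaSubgroupIn ℚ)) a))
    (hwj : ∀ c, w c ⟨h59_jbar N, h80_jbar_mem_F0 N (A.inertiaSubgroupIn ℚ)⟩ = 0)
    (hint2 : ∀ f ∈ (h80_fam2 N (A.inertiaSubgroupIn ℚ) w hw_mul hw_add).B,
      (h97_ev (h69_A0 A).toSubring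
        (⟨(h59_jbar N)⁻¹, h80_jbar_inv_mem_F0 N (A.inertiaSubgroupIn ℚ)⟩ :
          h69_F0 N (A.inertiaSubgroupIn ℚ))).IsIntegralElem f)
    (a : κ → ℕ) (q0 : h69_F0 N (A.inertiaSubgroupIn ℚ))
    (hq0 : (q0 : modularFunctionFieldBar N) = algebraMap Qb (modularFunctionFieldBar N) (q : Qb))
    (hwq0 : ∀ c, 0 ≤ w c q0)
    (Ez : Divisor Qb (modularFunctionFieldBar N))
    (h1 : ∀ 𝔪 : Ideal (h80_fam1 N (A.inertiaSubgroupIn ℚ) w hw_mul hw_add).B, 𝔪.IsMaximal →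
      (∃ hq0B : q0 ∈ (h80_fam1 N (A.inertiaSubgroupIn ℚ) w hw_mul hw_add).B,
        (⟨q0, hq0B⟩ : (h80_fam1 N (A.inertiaSubgroupIn ℚ) w hw_mul hw_add).B) ∈ 𝔪) →
      ∃ e y : h69_F0 N (A.inertiaSubgroupIn ℚ), e ≠ 0 ∧ y ≠ 0 ∧
        (h80_fam1 N (A.inertiaSubgroupIn ℚ) w hw_mul hw_add).InLoc 𝔪 y ∧
        (h80_fam1 N (A.inertiaSubgroupIn ℚ) w hw_mul hw_add).InLoc 𝔪 y⁻¹ ∧
        (∀ i, i ∉ Set.range Sum.inl →
          (h80_fam1 N (A.inertiaSubgroupIn ℚ) w hw_mul hw_add).Through 𝔪 i →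
          ∀ P : Place Qb (modularFunctionFieldBar N),
            (∀ f : h69_F0 N (A.inertiaSubgroupIn ℚ), f ≠ 0 →
              (h80_fam1 N (A.inertiaSubgroupIn ℚ) w hw_mul hw_add).v i f =
                P.ord (f : modularFunctionFieldBar N)) →
            (h80_fam1 N (A.inertiaSubgroupIn ℚ) w hw_mul hw_add).v i e = Ez P) ∧
        ∀ c : κ, (h80_fam1 N (A.inertiaSubgroupIn ℚ) w hw_mul hw_add).Through 𝔪 (Sum.inl c) →
          (e = y ∨ (a c : ℤ) ≤ w c (e - y)))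
    (hcusp : ∀ 𝔪 : Ideal (h80_fam2 N (A.inertiaSubgroupIn ℚ) w hw_mul hw_add).B, 𝔪.IsMaximal →
      (∃ hq0B : q0 ∈ (h80_fam2 N (A.inertiaSubgroupIn ℚ) w hw_mul hw_add).B,
        (⟨q0, hq0B⟩ : (h80_fam2 N (A.inertiaSubgroupIn ℚ) w hw_mul hw_add).B) ∈ 𝔪) →
      (∃ hjB : (⟨(h59_jbar N)⁻¹, h80_jbar_inv_mem_F0 N (A.inertiaSubgroupIn ℚ)⟩ :
            h69_F0 N (A.inertiaSubgroupIn ℚ)) ∈
          (h80_fam2 N (A.inertiaSubgroupIn ℚ) w hw_mul hw_add).B,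
        (⟨⟨(h59_jbar N)⁻¹, h80_jbar_inv_mem_F0 N (A.inertiaSubgroupIn ℚ)⟩, hjB⟩ :
          (h80_fam2 N (A.inertiaSubgroupIn ℚ) w hw_mul hw_add).B) ∈ 𝔪) →
      ∃ e y : h69_F0 N (A.inertiaSubgroupIn ℚ), e ≠ 0 ∧ y ≠ 0 ∧
        (h80_fam2 N (A.inertiaSubgroupIn ℚ) w hw_mul hw_add).InLoc 𝔪 y ∧
        (h80_fam2 N (A.inertiaSubgroupIn ℚ) w hw_mul hw_add).InLoc 𝔪 y⁻¹ ∧
        (∀ i, i ∉ Set.range Sum.inl →
          (h80_fam2 N (A.inertiaSubgroupIn ℚ) w hw_mul hw_add).Through 𝔪 i →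
          ∀ P : Place Qb (modularFunctionFieldBar N),
            (∀ f : h69_F0 N (A.inertiaSubgroupIn ℚ), f ≠ 0 →
              (h80_fam2 N (A.inertiaSubgroupIn ℚ) w hw_mul hw_add).v i f =
                P.ord (f : modularFunctionFieldBar N)) →
            (h80_fam2 N (A.inertiaSubgroupIn ℚ) w hw_mul hw_add).v i e = Ez P) ∧
        ∀ c : κ, (h80_fam2 N (A.inertiaSubgroupIn ℚ) w hw_mul hw_add).Through 𝔪 (Sum.inl c) →
          (e = y ∨ (a c : ℤ) ≤ w c (e - y))) :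
    ∀ 𝔪 : Ideal (h80_fam2 N (A.inertiaSubgroupIn ℚ) w hw_mul hw_add).B, 𝔪.IsMaximal →
      (∃ hq0B : q0 ∈ (h80_fam2 N (A.inertiaSubgroupIn ℚ) w hw_mul hw_add).B,
        (⟨q0, hq0B⟩ : (h80_fam2 N (A.inertiaSubgroupIn ℚ) w hw_mul hw_add).B) ∈ 𝔪) →
      ∃ e y : h69_F0 N (A.inertiaSubgroupIn ℚ), e ≠ 0 ∧ y ≠ 0 ∧
        (h80_fam2 N (A.inertiaSubgroupIn ℚ) w hw_mul hw_add).InLoc 𝔪 y ∧
        (h80_fam2 N (A.inertiaSubgroupIn ℚ) w hw_mul hw_add).InLoc 𝔪 y⁻¹ ∧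
        (∀ i, i ∉ Set.range Sum.inl →
          (h80_fam2 N (A.inertiaSubgroupIn ℚ) w hw_mul hw_add).Through 𝔪 i →
          ∀ P : Place Qb (modularFunctionFieldBar N),
            (∀ f : h69_F0 N (A.inertiaSubgroupIn ℚ), f ≠ 0 →
              (h80_fam2 N (A.inertiaSubgroupIn ℚ) w hw_mul hw_add).v i f =
                P.ord (f : modularFunctionFieldBar N)) →
            (h80_fam2 N (A.inertiaSubgroupIn ℚ) w hw_mul hw_add).v i e = Ez P) ∧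
        ∀ c : κ, (h80_fam2 N (A.inertiaSubgroupIn ℚ) w hw_mul hw_add).Through 𝔪 (Sum.inl c) →
          (e = y ∨ (a c : ℤ) ≤ w c (e - y)) := by
  have hq0B1 : q0 ∈ (h80_fam1 N (A.inertiaSubgroupIn ℚ) w hw_mul hw_add).B := by
    refine (h80_mem_famOf_B N (A.inertiaSubgroupIn ℚ) w hw_mul hw_add (h59_jbar N)
      (h54_isChart_jbar N) q0).2 (Or.inr ⟨hwq0, fun P _ => ?_⟩)
    rw [hq0, h35_ord_algebraMap]
  exact h96_fam2_clause N (A.inertiaSubgroupIn ℚ) w hw_mul hw_add hwj a q0 Ez hq0B1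
    (fun 𝔪 hmax hq𝔪 s =>
      h96_fam2_hres N hq A hA w hw_mul hw_add hwA hwj hint2 q0 hq0 𝔪 hmax hq𝔪 s)
    h1 hcusp

include hq hA in
/-- **The last theorem before S36, cusp form.**  `h61_geomN_of_data` with the chart-2 clause of
`hwit` required only at the closed points containing `q` and `1/j` (the cusp points); the other
points of chart 2 are transferred to chart 1.  Extra inputs: `hwA` (the vertical valuations are
`≥ 0` on the constants of `A₀`), `hwj` (`j` is a unit at the vertical valuations), `hint2` (the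
chart-2 ring is integral over `A₀[1/j]` = second conjunct of `h80_famOf_noeth`). -/
theorem h96_geomN_of_data_cusp
    {k Rb : Type*} [Field k] [CommRing Rb] [Algebra k Rb] [Nontrivial Rb]
    (D : h22_Lat Qb (modularFunctionFieldBar N) k Rb) (hDA : D.A = A) (hON : h22_ON D)
    (hinv : ∀ (f : modularFunctionFieldBar N) (hf : f ∈ D.O), IsUnit (D.red ⟨f, hf⟩) → f⁻¹ ∈ D.O)
    (hrank : h39_RankOne D.A)
    (hx : h59_jbar N ∈ D.O) (hxi : (h59_jbar N)⁻¹ ∈ D.O)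
    (hgen : ∀ E1 : Divisor Qb (modularFunctionFieldBar N),
      (∀ v : Place Qb (modularFunctionFieldBar N), E1 v = max 0 (-v.ord (h59_jbar N))) →
      ∃ N0 : ℕ, ∀ n, N0 ≤ n → ∀ a ∈ h51_Rd D ((n + 1) • E1), ∃ b ∈ h51_Rd D (n • E1),
        ∃ c ∈ h51_Rd D (n • E1), a = b + D.redF (h59_jbar N) * c)
    (hdivq : ∀ f : modularFunctionFieldBar N, f ∈ h69_F0 N (A.inertiaSubgroupIn ℚ) →
      f ∈ D.O → D.redF f = 0 → ((q : Qb)⁻¹) • f ∈ D.O)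
    (hwA : ∀ c (a : h69_K0 (A.inertiaSubgroupIn ℚ)), a ∈ h69_A0 A → a ≠ 0 →
      0 ≤ w c (algebraMap (h69_K0 (A.inertiaSubgroupIn ℚ)) (h69_F0 N (A.inertiaSubgroupIn ℚ)) a))
    (hwj : ∀ c, w c ⟨h59_jbar N, h80_jbar_mem_F0 N (A.inertiaSubgroupIn ℚ)⟩ = 0)
    (hint2 : ∀ f ∈ (h80_fam2 N (A.inertiaSubgroupIn ℚ) w hw_mul hw_add).B,
      (h97_ev (h69_A0 A).toSubring
        (⟨(h59_jbar N)⁻¹, h80_jbar_inv_mem_F0 N (A.inertiaSubgroupIn ℚ)⟩ :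
          h69_F0 N (A.inertiaSubgroupIn ℚ))).IsIntegralElem f)
    (a : κ → ℕ) (ha : ∀ c, 1 ≤ a c)
    (q0 : h69_F0 N (A.inertiaSubgroupIn ℚ))
    (hq0 : (q0 : modularFunctionFieldBar N) = algebraMap Qb (modularFunctionFieldBar N) (q : Qb))
    (hwq : ∀ c, w c q0 = a c)
    (hC3 : ∀ f : h69_F0 N (A.inertiaSubgroupIn ℚ), f ≠ 0 →
      ((f : modularFunctionFieldBar N) ∈ D.O ↔ ∀ c, 0 ≤ w c f))
    (lam : ℕ) (hlam : (lam : k) ≠ 0) (c : ℕ) (Pnew : JZero N → Prop)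
    (hwit : ∀ (n : ℕ) (z : JZero N), lam ^ n • z = 0 → Pnew z →
      (∀ s ∈ A.inertiaSubgroupIn ℚ, s • z = z) →
      ∃ (Ez : Divisor.degZero (K := Qb) (F := modularFunctionFieldBar N))
        (uz : h69_F0 N (A.inertiaSubgroupIn ℚ)),
        Pic0.mk Ez = c • z ∧
        (∀ σ ∈ A.inertiaSubgroupIn ℚ, arithmeticGalois (modularFunctionFieldFull N) σ •
          (Ez : Divisor Qb (modularFunctionFieldBar N)) = Ez) ∧
        uz ≠ 0 ∧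
        (∀ v : Place Qb (modularFunctionFieldBar N),
          ((lam ^ n : ℕ) : ℤ) * (Ez : Divisor Qb (modularFunctionFieldBar N)) v =
            v.ord (uz : modularFunctionFieldBar N)) ∧
        (uz - 1 = 0 ∨ ∀ c, (a c : ℤ) ≤ w c (uz - 1)) ∧
        (∀ 𝔪 : Ideal (h80_fam1 N (A.inertiaSubgroupIn ℚ) w hw_mul hw_add).B, 𝔪.IsMaximal →
          (∃ hq0B : q0 ∈ (h80_fam1 N (A.inertiaSubgroupIn ℚ) w hw_mul hw_add).B,
            (⟨q0, hq0B⟩ : (h80_fam1 N (A.inertiaSubgroupIn ℚ) w hw_mul hw_add).B) ∈ 𝔪) →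
          ∃ e y : h69_F0 N (A.inertiaSubgroupIn ℚ), e ≠ 0 ∧ y ≠ 0 ∧
            (h80_fam1 N (A.inertiaSubgroupIn ℚ) w hw_mul hw_add).InLoc 𝔪 y ∧
            (h80_fam1 N (A.inertiaSubgroupIn ℚ) w hw_mul hw_add).InLoc 𝔪 y⁻¹ ∧
            (∀ i, i ∉ Set.range Sum.inl →
              (h80_fam1 N (A.inertiaSubgroupIn ℚ) w hw_mul hw_add).Through 𝔪 i →
              ∀ P : Place Qb (modularFunctionFieldBar N),
                (∀ f : h69_F0 N (A.inertiaSubgroupIn ℚ), f ≠ 0 →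
                  (h80_fam1 N (A.inertiaSubgroupIn ℚ) w hw_mul hw_add).v i f =
                    P.ord (f : modularFunctionFieldBar N)) →
                (h80_fam1 N (A.inertiaSubgroupIn ℚ) w hw_mul hw_add).v i e =
                  (Ez : Divisor Qb (modularFunctionFieldBar N)) P) ∧
            ∀ c : κ, (h80_fam1 N (A.inertiaSubgroupIn ℚ) w hw_mul hw_add).Through 𝔪 (Sum.inl c) →
              (e = y ∨ (a c : ℤ) ≤ w c (e - y))) ∧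
        (∀ 𝔪 : Ideal (h80_fam2 N (A.inertiaSubgroupIn ℚ) w hw_mul hw_add).B, 𝔪.IsMaximal →
          (∃ hq0B : q0 ∈ (h80_fam2 N (A.inertiaSubgroupIn ℚ) w hw_mul hw_add).B,
            (⟨q0, hq0B⟩ : (h80_fam2 N (A.inertiaSubgroupIn ℚ) w hw_mul hw_add).B) ∈ 𝔪) →
          (∃ hjB : (⟨(h59_jbar N)⁻¹, h80_jbar_inv_mem_F0 N (A.inertiaSubgroupIn ℚ)⟩ :
                h69_F0 N (A.inertiaSubgroupIn ℚ)) ∈
              (h80_fam2 N (A.inertiaSubgroupIn ℚ) w hw_mul hw_add).B,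
            (⟨⟨(h59_jbar N)⁻¹, h80_jbar_inv_mem_F0 N (A.inertiaSubgroupIn ℚ)⟩, hjB⟩ :
              (h80_fam2 N (A.inertiaSubgroupIn ℚ) w hw_mul hw_add).B) ∈ 𝔪) →
          ∃ e y : h69_F0 N (A.inertiaSubgroupIn ℚ), e ≠ 0 ∧ y ≠ 0 ∧
            (h80_fam2 N (A.inertiaSubgroupIn ℚ) w hw_mul hw_add).InLoc 𝔪 y ∧
            (h80_fam2 N (A.inertiaSubgroupIn ℚ) w hw_mul hw_add).InLoc 𝔪 y⁻¹ ∧
            (∀ i, i ∉ Set.range Sum.inl →
              (h80_fam2 N (A.inertiaSubgroupIn ℚ) w hw_mul hw_add).Through 𝔪 i →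
              ∀ P : Place Qb (modularFunctionFieldBar N),
                (∀ f : h69_F0 N (A.inertiaSubgroupIn ℚ), f ≠ 0 →
                  (h80_fam2 N (A.inertiaSubgroupIn ℚ) w hw_mul hw_add).v i f =
                    P.ord (f : modularFunctionFieldBar N)) →
                (h80_fam2 N (A.inertiaSubgroupIn ℚ) w hw_mul hw_add).v i e =
                  (Ez : Divisor Qb (modularFunctionFieldBar N)) P) ∧
            ∀ c : κ, (h80_fam2 N (A.inertiaSubgroupIn ℚ) w hw_mul hw_add).Through 𝔪 (Sum.inl c) →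
              (e = y ∨ (a c : ℤ) ≤ w c (e - y)))) :
    ∀ (n : ℕ) (z : JZero N), lam ^ n • z = 0 → Pnew z →
      (∀ s ∈ A.inertiaSubgroupIn ℚ, s • z = z) → c • z = 0 := by
  refine h61_geomN_of_data N hq A hA D hDA hON hinv hrank hx hxi hgen hdivq w hw_mul hw_add a ha
    q0 hq0 hwq hC3 lam hlam c Pnew ?_
  intro n z hz hP hfix
  obtain ⟨Ez, uz, h1, h2, h3, h4, h5, hc1, hc2⟩ := hwit n z hz hP hfix
  exact ⟨Ez, uz, h1, h2, h3, h4, h5, hc1,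
    h96_fam2_clause_resK N hq A hA w hw_mul hw_add hwA hwj hint2 a q0 hq0
      (fun c => by rw [hwq c]; exact Int.natCast_nonneg _) (Ez : Divisor Qb (modularFunctionFieldBar N))
      hc1 hc2⟩

end ResK

end Fermat.Agent.S36
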