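import Mathlib
import Fermat.Agent.S36.h97_StrictFG
import Fermat.Agent.S34.h50_LastStep

/-!
# S36 / layer (L2), second form: generation `Λ(n+1) = Λ(n) + x Λ(n)` from finite generation
of the chart ring (helper97)

Same hypothesis (FG) as in `h97_StrictFG`: the chart ring `G_x` of a unit `x` of `O` is generated
as a module over `A[x]` by finitely many `t i ∈ L(N D0) ∩ O`.  Then, for `n ≥ N + 1`,

* `h97_genup` : every `f ∈ L((n+1) D0) ∩ O` is `b + x * c` with `b, c ∈ L(n D0) ∩ O`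
  (lattice datum `h50_Lat`);
* `h97_genup_h22` : the same for an `h22_Lat`, LITERALLY the binder `hgenup` of
  `h50_strict_of_gen` (with `N0 := N + 1`);
* `h97_gen_h22` : `red L((n+1) E1) ⊆ red L(n E1) + x̄ • red L(n E1)`, LITERALLY the binder
  `hstrict` of `h50_lastStep` (with `N0 := N + 1`).

Proof of `h97_genup`: `z := x⁻¹ f` is regular where `ord x = 0`; the Čech decomposition
`z = c1 + x ^ (n-1) * c2` of `h97_dec` gives `f = x ^ n * c2 + x * c1`.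
-/

set_option autoImplicit false

namespace Fermat.Agent.S36

open AlgebraicCurve Polynomial Fermat.Agent.S24 Fermat.Agent.S18 Fermat.Agent.S34

variable {K F B : Type*} [Field K] [Field F] [Algebra K F] [CommRing B]

/-- Regularity on the two charts of an element of `L(n D0)`, `D0` the polar divisor of `x`. -/
theorem h97_charts_of_inL {x xi : F} (hxxi : x * xi = 1) (D0 : Divisor K F)
    (hD0 : ∀ v : Place K F, D0 v = max 0 (-v.ord x)) (n : ℕ) (f : F)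
    (hf : h53_InL (n • D0) f) :
    (∀ v : Place K F, 0 ≤ v.ord x → f ∈ v.toValuationSubring) ∧
      (∀ v : Place K F, v.ord x ≤ 0 → f * xi ^ n ∈ v.toValuationSubring) := by
  have hx0 : x ≠ 0 := left_ne_zero_of_mul_eq_one hxxi
  have hxi0 : xi ≠ 0 := right_ne_zero_of_mul_eq_one hxxi
  have hordxi : ∀ v : Place K F, v.ord xi = -v.ord x := by
    intro v
    have := v.ord_mul hx0 hxi0
    rw [hxxi, Place.ord_one] at this
    omega
  have hsm : ∀ v : Place K F, (n • D0) v = (n : ℤ) * D0 v := fun v => by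
    rw [Finsupp.smul_apply, nsmul_eq_mul]
  refine ⟨fun v hv => ?_, fun v hv => ?_⟩
  · have h1 := (h53_inL_iff.1 hf) v
    have hmax : max 0 (-v.ord x) = 0 := max_eq_left (by omega)
    rw [hsm, hD0, hmax, mul_zero, neg_zero] at h1
    exact h53_OrdGE.mem_iff.1 h1
  · have h1 := (h53_inL_iff.1 hf) v
    have hmax : max 0 (-v.ord x) = -v.ord x := max_eq_right (by omega)
    rw [hsm, hD0, hmax] at h1
    have h2 : h53_OrdGE v (xi ^ n) ((n : ℤ) * (-v.ord x)) := by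
      refine Or.inr ?_
      rw [← zpow_natCast, v.ord_zpow, hordxi]
    have h3 := h1.mul h2
    have e : -((n : ℤ) * -v.ord x) + (n : ℤ) * (-v.ord x) = 0 := by ring
    rw [e] at h3
    exact h53_OrdGE.mem_iff.1 h3

/-- **Generation of the Riemann–Roch lattices from finite generation of the chart ring.** -/
theorem h97_genup [HasPrincipalDivisors K F] (R : h50_Lat K F B) (x xi : R.O)
    (hxxi : x * xi = 1)
    (D0 : Divisor K F) (hD0 : ∀ v : Place K F, D0 v = max 0 (-v.ord (x : F)))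
    {ι : Type*} (t : ι → F) (N : ℕ)
    (ht : ∀ i, h97_Gx R (x : F) (t i)) (ht' : ∀ i, h97_Gxi R (x : F) ((xi : F) ^ N * t i))
    (hgen : ∀ c : R.O, (∀ v : Place K F, 0 ≤ v.ord (x : F) → 0 ≤ v.ord (c : F)) →
      (c : F) ∈ AddSubmonoid.closure
        {y : F | ∃ a ∈ R.A, ∃ (j : ℕ) (i : ι), y = algebraMap K F a * (x : F) ^ j * t i}) :
    ∀ n, N + 1 ≤ n → ∀ f : F, f ∈ R.O → h53_InL ((n + 1) • D0) f →
      ∃ b c : F, b ∈ R.O ∧ h53_InL (n • D0) b ∧ c ∈ R.O ∧ h53_InL (n • D0) c ∧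
        f = b + (x : F) * c := by
  intro n hn f hfO hfL
  obtain ⟨m, rfl⟩ : ∃ m, n = m + 1 := ⟨n - 1, by omega⟩
  have hm : N ≤ m := by omega
  have hxF : (x : F) * (xi : F) = 1 := by
    have := congrArg Subtype.val hxxi
    push_cast at this
    exact this
  have hx0 : (x : F) ≠ 0 := left_ne_zero_of_mul_eq_one hxF
  have hxi0 : (xi : F) ≠ 0 := right_ne_zero_of_mul_eq_one hxF
  have hordxi : ∀ v : Place K F, v.ord (xi : F) = -v.ord (x : F) := by
    intro v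
    have := v.ord_mul hx0 hxi0
    rw [hxF, Place.ord_one] at this
    omega
  have hxV : ∀ v : Place K F, 0 ≤ v.ord (x : F) → (x : F) ∈ v.toValuationSubring :=
    fun v hv => (h97_mem_iff_ord v _).2 hv
  have hxiV : ∀ v : Place K F, v.ord (x : F) ≤ 0 → (xi : F) ∈ v.toValuationSubring := by
    intro v hv
    refine (h97_mem_iff_ord v _).2 ?_
    rw [hordxi]; omega
  obtain ⟨hf1, hf2⟩ := h97_charts_of_inL hxF D0 hD0 (m + 1 + 1) f hfL
  -- `z := xi * f` is regular where `ord x = 0`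
  have hzO : (xi : F) * f ∈ R.O := R.O.mul_mem xi.2 hfO
  have hzreg : ∀ v : Place K F, v.ord (x : F) = 0 → (xi : F) * f ∈ v.toValuationSubring :=
    fun v hv => v.toValuationSubring.mul_mem _ _ (hxiV v hv.le) (hf1 v hv.ge)
  obtain ⟨c1, c2, hc1, hc2, hdec⟩ :=
    h97_dec R x xi hxxi t N ht ht' hgen hm ((xi : F) * f) hzO hzreg
  have hfeq : f = (x : F) ^ (m + 1) * c2 + (x : F) * c1 := by
    have h1 : f = (x : F) * ((xi : F) * f) := by rw [← mul_assoc, hxF, one_mul]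
    rw [h1, hdec, pow_succ]; ring
  have hb : (x : F) ^ (m + 1) * c2 = f - (x : F) * c1 := by rw [hfeq]; ring
  have hxn : (x : F) ^ (m + 1) * (xi : F) ^ (m + 1) = 1 := by rw [← mul_pow, hxF, one_pow]
  refine ⟨(x : F) ^ (m + 1) * c2, c1, R.O.mul_mem (R.O.pow_mem x.2 _) hc2.1, ?_, hc1.1, ?_, hfeq⟩
  · refine h97_inL_of_charts hxF D0 hD0 (m + 1) _ (fun v hv => ?_) (fun v hv => ?_)
    · rw [hb]
      exact v.toValuationSubring.sub_mem (hf1 v hv)
        (v.toValuationSubring.mul_mem _ _ (hxV v hv) (hc1.2 v hv))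
    · have e : (x : F) ^ (m + 1) * c2 * (xi : F) ^ (m + 1) = c2 := by
        rw [mul_comm ((x : F) ^ (m + 1)) c2, mul_assoc, hxn, mul_one]
      rw [e]
      exact hc2.2 v hv
  · refine h97_inL_of_charts hxF D0 hD0 (m + 1) _ hc1.2 (fun v hv => ?_)
    -- `c1 * xi ^ (m+1) = f * xi ^ (m+2) - xi * c2`
    have e : c1 * (xi : F) ^ (m + 1) = f * (xi : F) ^ (m + 1 + 1) - (xi : F) * c2 := by
      have h2 : (x : F) * c1 = f - (x : F) ^ (m + 1) * c2 := by rw [hfeq]; ring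
      have h3 : c1 = (xi : F) * (f - (x : F) ^ (m + 1) * c2) := by
        rw [← h2, ← mul_assoc, mul_comm (xi : F), hxF, one_mul]
      have h4 : (xi : F) * ((x : F) ^ (m + 1) * c2) * (xi : F) ^ (m + 1) = (xi : F) * c2 := by
        calc (xi : F) * ((x : F) ^ (m + 1) * c2) * (xi : F) ^ (m + 1)
            = ((x : F) ^ (m + 1) * (xi : F) ^ (m + 1)) * ((xi : F) * c2) := by ring
          _ = (xi : F) * c2 := by rw [hxn, one_mul]
      calc c1 * (xi : F) ^ (m + 1)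
          = (xi : F) * (f - (x : F) ^ (m + 1) * c2) * (xi : F) ^ (m + 1) := by rw [← h3]
        _ = f * ((xi : F) ^ (m + 1) * (xi : F))
              - (xi : F) * ((x : F) ^ (m + 1) * c2) * (xi : F) ^ (m + 1) := by ring
        _ = f * (xi : F) ^ (m + 1 + 1) - (xi : F) * c2 := by rw [h4, ← pow_succ]
    rw [e]
    exact v.toValuationSubring.sub_mem (hf2 v hv)
      (v.toValuationSubring.mul_mem _ _ (hxiV v hv) (hc2.2 v hv))

section H22

variable {k Rb : Type*} [Field k] [CommRing Rb] [Algebra k Rb]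

/-- **(L2), `h22_Lat` form.**  The conclusion is LITERALLY the binder `hgenup` of
`h50_strict_of_gen` (with `N0 := N + 1`). -/
theorem h97_genup_h22 [HasPrincipalDivisors K F] [Nontrivial Rb] (D : h22_Lat K F k Rb)
    (hinv : ∀ (f : F) (hf : f ∈ D.O), IsUnit (D.red ⟨f, hf⟩) → f⁻¹ ∈ D.O)
    (x : F) (hx0 : x ≠ 0) (hxO : x ∈ D.O) (hxiO : x⁻¹ ∈ D.O)
    (E1 E2 : Divisor K F) (hE1 : ∀ v : Place K F, 0 ≤ E1 v) (hE2 : ∀ v : Place K F, 0 ≤ E2 v)
    (hdisj : ∀ v : Place K F, E1 v = 0 ∨ E2 v = 0)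
    (hdivx : ∀ v : Place K F, v.ord x = E2 v - E1 v)
    {r : ℕ} (t : Fin r → F) (N : ℕ) (htO : ∀ i, t i ∈ D.O)
    (htL : ∀ i, t i ∈ riemannRochSpace (N • E1))
    (hgen : ∀ c : F, c ∈ D.O → (∀ v : Place K F, 0 ≤ v.ord x → 0 ≤ v.ord c) →
      ∃ p : Fin r → K[X], (∀ i j, (p i).coeff j ∈ D.A) ∧ c = ∑ i, aeval x (p i) * t i) :
    ∀ n, N + 1 ≤ n → ∀ f : F, f ∈ riemannRochSpace ((n + 1) • E1) → f ∈ D.O →
      ∃ b c : F, b ∈ riemannRochSpace (n • E1) ∧ b ∈ D.O ∧ c ∈ riemannRochSpace (n • E1) ∧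
        c ∈ D.O ∧ f = b + x * c := by
  intro n hn f hfL hfO
  let R : h50_Lat K F Rb := h50_latOfH22 D hinv
  have hD0 : ∀ v : Place K F, E1 v = max 0 (-v.ord x) := by
    intro v
    have h1 := hdivx v
    have h2 := hE1 v
    have h3 := hE2 v
    rcases hdisj v with h | h
    · rw [h] at h1 ⊢
      exact (max_eq_left (by omega)).symm
    · rw [h] at h1
      rw [max_eq_right (by omega)]
      omega
  have hxxi : (⟨x, hxO⟩ : R.O) * ⟨x⁻¹, hxiO⟩ = 1 := Subtype.ext (mul_inv_cancel₀ hx0)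
  have hxF : x * x⁻¹ = 1 := mul_inv_cancel₀ hx0
  -- `t i ∈ G_x`, `xi ^ N * t i ∈ G_xi`
  have ht : ∀ i, h97_Gx R x (t i) := fun i =>
    ⟨htO i, (h97_charts_of_inL hxF E1 hD0 N (t i) ((h50_inL_iff_mem_rr _ _).2 (htL i))).1⟩
  have ht' : ∀ i, h97_Gxi R x (x⁻¹ ^ N * t i) := fun i =>
    ⟨D.O.mul_mem (D.O.pow_mem hxiO N) (htO i), fun v hv => by
      rw [mul_comm]
      exact (h97_charts_of_inL hxF E1 hD0 N (t i) ((h50_inL_iff_mem_rr _ _).2 (htL i))).2 v hv⟩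
  have hcl : ∀ c : R.O, (∀ v : Place K F, 0 ≤ v.ord x → 0 ≤ v.ord (c : F)) →
      (c : F) ∈ AddSubmonoid.closure
        {y : F | ∃ a ∈ R.A, ∃ (j : ℕ) (i : Fin r), y = algebraMap K F a * x ^ j * t i} := by
    intro c hc
    obtain ⟨p, hp, hcp⟩ := hgen (c : F) c.2 hc
    exact h97_closure_of_poly R x t (c : F) p hp hcp
  obtain ⟨b, c, hbO, hbL, hcO, hcL, hfeq⟩ :=
    h97_genup R ⟨x, hxO⟩ ⟨x⁻¹, hxiO⟩ hxxi E1 hD0 t N ht ht' hcl n hn f hfO
      ((h50_inL_iff_mem_rr _ _).2 hfL)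
  exact ⟨b, c, (h50_inL_iff_mem_rr _ _).1 hbL, hbO, (h50_inL_iff_mem_rr _ _).1 hcL, hcO, hfeq⟩

/-- **(L2), reduction form.**  The conclusion is LITERALLY the binder `hstrict` of
`h50_lastStep` (with `N0 := N + 1`): `red L((n+1) E1) ⊆ red L(n E1) + x̄ • red L(n E1)`. -/
theorem h97_gen_h22 [HasPrincipalDivisors K F] [Nontrivial Rb] (D : h22_Lat K F k Rb)
    (hinv : ∀ (f : F) (hf : f ∈ D.O), IsUnit (D.red ⟨f, hf⟩) → f⁻¹ ∈ D.O)
    (x : F) (hx0 : x ≠ 0) (hxO : x ∈ D.O) (hxiO : x⁻¹ ∈ D.O)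
    (E1 E2 : Divisor K F) (hE1 : ∀ v : Place K F, 0 ≤ E1 v) (hE2 : ∀ v : Place K F, 0 ≤ E2 v)
    (hdisj : ∀ v : Place K F, E1 v = 0 ∨ E2 v = 0)
    (hdivx : ∀ v : Place K F, v.ord x = E2 v - E1 v)
    {r : ℕ} (t : Fin r → F) (N : ℕ) (htO : ∀ i, t i ∈ D.O)
    (htL : ∀ i, t i ∈ riemannRochSpace (N • E1))
    (hgen : ∀ c : F, c ∈ D.O → (∀ v : Place K F, 0 ≤ v.ord x → 0 ≤ v.ord c) →
      ∃ p : Fin r → K[X], (∀ i j, (p i).coeff j ∈ D.A) ∧ c = ∑ i, aeval x (p i) * t i) :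
    ∀ n, N + 1 ≤ n → ∀ a ∈ h51_Rd D ((n + 1) • E1), ∃ b ∈ h51_Rd D (n • E1),
      ∃ c ∈ h51_Rd D (n • E1), a = b + D.redF x * c := by
  rintro n hn a ⟨f, hfL, hfO, rfl⟩
  obtain ⟨b, c, hbL, hbO, hcL, hcO, hfeq⟩ :=
    h97_genup_h22 D hinv x hx0 hxO hxiO E1 E2 hE1 hE2 hdisj hdivx t N htO htL hgen n hn f hfL hfO
  refine ⟨D.redF b, ⟨b, hbL, hbO, rfl⟩, D.redF c, ⟨c, hcL, hcO, rfl⟩, ?_⟩
  rw [hfeq, h51_redF_add D hbO (D.O.mul_mem hxO hcO), h51_redF_mul D hxO hcO]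

end H22

end Fermat.Agent.S36
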