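import Fermat.Agent.S36.h98_TorM
import Fermat.Agent.S36.h94_NZPts
import Fermat.Agent.S36.h69_NZConst
import Fermat.Agent.S36.h49_NRc
import Fermat.Agent.S36.h70_TorWrap
import Fermat.Agent.S36.h88_ValComplete
import Fermat.Agent.S36.h74_W2Sep
import Fermat.Agent.S36.h80_FamInst
import Fermat.Agent.S36.h98_V3
import Fermat.Agent.S36.h96_ChartXfer

/-!
# S36 / row I-NZ (helper97): the modular composite TOR-M → NZ → witness

Level `N = M q²`, `q ∤ M`, `A` a valuation ring of `ℚ̄` over `q`, `I` its inertia group,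
`F₀ = h69_F0 N I`, `K₀ = h69_K0 I`, `w = h98_w2 M q hqM A ζ hζ hex`, chart families
`V₁ = h80_fam1 N I w ..`, `V₂ = h80_fam2 N I w ..` (helper80).

* Part A: the "static" binders of helper94's `h94_hnz_pts` at the modular names, from
  `origin/main`: `hCRT` (`h97_nz_hCRT`), the norm maps `h97_Ma`, `h97_Mb` and `hMres`
  (`h97_nz_hMres`), the norm relations `hTα`, `hTβ` (`h97_nz_hT`), `hhor`, `hq0h`.
* Part B: `h97_nz_core` = `h98_torM` + `h94_hnz_pts` + `h70_kummer_twist`: for every `I`-fixed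
  `q`-new class `z` killed by `m` prime to `q`, the witness `(Ez, uz)` of the final plug with the
  `(LOC-δ)` datum at the points of `fib1` (chart 1) and of `cusp2` (chart 2).  Open hypotheses:
  the point rows `hclass1`, `hone2`, `hNU1`, `hU1`, `hU2`, `hLG1`, `hLG2`.
-/

set_option autoImplicit false
set_option linter.unusedSectionVars false
set_option linter.unusedVariables false
set_option linter.style.haveILetI false

noncomputable section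

open AlgebraicCurve ModularCurve

namespace Fermat.Agent.S36

open Fermat.Agent.S34 Fermat.Agent.S37 Fermat.Agent.S24 Fermat.Agent.S35 Fermat.Agent.S18
  Fermat.Agent.GAL Fermat.Agent.S40 Fermat.Agent.S19

local notation "Qb" => AlgebraicClosure ℚ

section PartA

variable (M q : ℕ) [NeZero M] [NeZero q] [Fact q.Prime] (hqM : ¬ q ∣ M)
  (A : ValuationSubring Qb) (hA : A.LiesOverPrime q) (ζ : Qb) (hζ : IsPrimitiveRoot ζ q)
  (hex : h98_Ex M q hqM A ζ hζ)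

include hA in
/-- `hCRT` of `h94_hnz_pts` for `h98_w2`. -/
theorem h97_nz_hCRT :
    ∀ t : Fin 3 → h69_F0 (M * q * q) (A.inertiaSubgroupIn ℚ), (∀ c, t c ≠ 0) → ∀ N : ℤ,
      ∃ g : h69_F0 (M * q * q) (A.inertiaSubgroupIn ℚ), g ≠ 0 ∧
        ∀ c, (g - t c = 0 ∨ N ≤ h98_w2 M q hqM A ζ hζ hex c (g - t c)) := by
  intro t ht N
  obtain ⟨g, hg0, hg⟩ := h88_crt_val (h98_w2 M q hqM A ζ hζ hex)
    (h98_w2_isVal M q hqM A hA ζ hζ hex) (h98_hnorm M q hqM A hA ζ hζ hex)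
    (h74_w2_hne M q hqM A hA ζ hζ hex) t ht N
  exact ⟨g, hg0, fun c => (hg c).1⟩

/-- `Mα = α ∘ N_α` on `F₀(M q²)`. -/
def h97_Ma (f : h69_F0 (M * q * q) (A.inertiaSubgroupIn ℚ)) :
    h69_F0 (M * q * q) (A.inertiaSubgroupIn ℚ) :=
  h70_aF0 (M * q) q (A.inertiaSubgroupIn ℚ) (h70_NaF0 (M * q) q (A.inertiaSubgroupIn ℚ) f)

/-- `Mβ = β ∘ N_β` on `F₀(M q²)`. -/
def h97_Mb (f : h69_F0 (M * q * q) (A.inertiaSubgroupIn ℚ)) :
    h69_F0 (M * q * q) (A.inertiaSubgroupIn ℚ) :=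
  h70_bF0 (M * q) q (A.inertiaSubgroupIn ℚ) (h70_NbF0 (M * q) q (A.inertiaSubgroupIn ℚ) f)

theorem h97_Ma_mul (f g : h69_F0 (M * q * q) (A.inertiaSubgroupIn ℚ)) :
    h97_Ma M q A (f * g) = h97_Ma M q A f * h97_Ma M q A g := by
  unfold h97_Ma
  rw [map_mul, map_mul]

theorem h97_Mb_mul (f g : h69_F0 (M * q * q) (A.inertiaSubgroupIn ℚ)) :
    h97_Mb M q A (f * g) = h97_Mb M q A f * h97_Mb M q A g := by
  unfold h97_Mb
  rw [map_mul, map_mul]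

theorem h97_Ma_ne_zero (f : h69_F0 (M * q * q) (A.inertiaSubgroupIn ℚ)) (hf : f ≠ 0) :
    h97_Ma M q A f ≠ 0 := by
  unfold h97_Ma
  exact (map_ne_zero _).mpr ((map_ne_zero _).mpr hf)

theorem h97_Mb_ne_zero (f : h69_F0 (M * q * q) (A.inertiaSubgroupIn ℚ)) (hf : f ≠ 0) :
    h97_Mb M q A f ≠ 0 := by
  unfold h97_Mb
  exact (map_ne_zero _).mpr ((map_ne_zero _).mpr hf)

/-- `α` commutes with the inclusions of the constants `K₀`. -/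
theorem h97_aF0_const (c : h69_K0 (A.inertiaSubgroupIn ℚ)) :
    h70_aF0 (M * q) q (A.inertiaSubgroupIn ℚ)
        (algebraMap (h69_K0 (A.inertiaSubgroupIn ℚ))
          (h69_F0 (M * q) (A.inertiaSubgroupIn ℚ)) c)
      = algebraMap (h69_K0 (A.inertiaSubgroupIn ℚ))
          (h69_F0 (M * q * q) (A.inertiaSubgroupIn ℚ)) c := by
  apply Subtype.ext
  rw [h70_coe_aF0, h69_inst_comm, h69_inst_comm]
  exact AlgHom.commutes _ _

/-- `β` commutes with the inclusions of the constants `K₀`. -/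
theorem h97_bF0_const (c : h69_K0 (A.inertiaSubgroupIn ℚ)) :
    h70_bF0 (M * q) q (A.inertiaSubgroupIn ℚ)
        (algebraMap (h69_K0 (A.inertiaSubgroupIn ℚ))
          (h69_F0 (M * q) (A.inertiaSubgroupIn ℚ)) c)
      = algebraMap (h69_K0 (A.inertiaSubgroupIn ℚ))
          (h69_F0 (M * q * q) (A.inertiaSubgroupIn ℚ)) c := by
  apply Subtype.ext
  rw [h70_coe_bF0, h69_inst_comm, h69_inst_comm]
  exact AlgHom.commutes _ _

/-- Transport of a congruence to a constant along a ring map `φ : F₀(M q) → F₀(M q²)` commuting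
with the constants, given one row of the table (V0). -/
theorem h97_cong_push
    (φ : h69_F0 (M * q) (A.inertiaSubgroupIn ℚ) →+* h69_F0 (M * q * q) (A.inertiaSubgroupIn ℚ))
    (hφc : ∀ c : h69_K0 (A.inertiaSubgroupIn ℚ),
      φ (algebraMap (h69_K0 (A.inertiaSubgroupIn ℚ)) (h69_F0 (M * q) (A.inertiaSubgroupIn ℚ)) c)
        = algebraMap (h69_K0 (A.inertiaSubgroupIn ℚ))
          (h69_F0 (M * q * q) (A.inertiaSubgroupIn ℚ)) c)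
    (w2 : h69_F0 (M * q * q) (A.inertiaSubgroupIn ℚ) → ℤ)
    (w1 : h69_F0 (M * q) (A.inertiaSubgroupIn ℚ) → ℤ)
    (hrow : ∀ g : h69_F0 (M * q) (A.inertiaSubgroupIn ℚ), g ≠ 0 → w2 (φ g) = w1 g)
    (X : h69_F0 (M * q) (A.inertiaSubgroupIn ℚ)) (c : h69_K0 (A.inertiaSubgroupIn ℚ))
    (h : X - algebraMap (h69_K0 (A.inertiaSubgroupIn ℚ))
          (h69_F0 (M * q) (A.inertiaSubgroupIn ℚ)) c = 0 ∨
        1 ≤ w1 (X - algebraMap (h69_K0 (A.inertiaSubgroupIn ℚ))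
          (h69_F0 (M * q) (A.inertiaSubgroupIn ℚ)) c)) :
    φ X - algebraMap (h69_K0 (A.inertiaSubgroupIn ℚ))
          (h69_F0 (M * q * q) (A.inertiaSubgroupIn ℚ)) c = 0 ∨
      1 ≤ w2 (φ X - algebraMap (h69_K0 (A.inertiaSubgroupIn ℚ))
          (h69_F0 (M * q * q) (A.inertiaSubgroupIn ℚ)) c) := by
  have e : φ X - algebraMap (h69_K0 (A.inertiaSubgroupIn ℚ))
        (h69_F0 (M * q * q) (A.inertiaSubgroupIn ℚ)) c
      = φ (X - algebraMap (h69_K0 (A.inertiaSubgroupIn ℚ))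
        (h69_F0 (M * q) (A.inertiaSubgroupIn ℚ)) c) := by
    rw [map_sub, hφc]
  rw [e]
  rcases h with h | h
  · left
    rw [h, map_zero]
  · by_cases h0 : X - algebraMap (h69_K0 (A.inertiaSubgroupIn ℚ))
        (h69_F0 (M * q) (A.inertiaSubgroupIn ℚ)) c = 0
    · left
      rw [h0, map_zero]
    · right
      rw [hrow _ h0]
      exact h

include hA in
/-- `hMres` of `h94_hnz_pts` for `h98_w2`, `Mα = α ∘ N_α`, `Mβ = β ∘ N_β`: from helper49's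
`(NRc)` and the rows `a0`, `a2`, `b0`, `b2` of the table (V0). -/
theorem h97_nz_hMres (n : ℕ) (hn : n ≠ 0) :
    ∀ (g : h69_F0 (M * q * q) (A.inertiaSubgroupIn ℚ))
      (z : Fin 3 → h69_K0 (A.inertiaSubgroupIn ℚ)), (∀ k, z k ^ n = 1) →
      (∀ k, g - algebraMap (h69_K0 (A.inertiaSubgroupIn ℚ))
          (h69_F0 (M * q * q) (A.inertiaSubgroupIn ℚ)) (z k) = 0 ∨
        1 ≤ h98_w2 M q hqM A ζ hζ hex k (g - algebraMap (h69_K0 (A.inertiaSubgroupIn ℚ))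
          (h69_F0 (M * q * q) (A.inertiaSubgroupIn ℚ)) (z k))) →
      (h97_Ma M q A g - algebraMap (h69_K0 (A.inertiaSubgroupIn ℚ))
            (h69_F0 (M * q * q) (A.inertiaSubgroupIn ℚ)) (z 0 * z 1 ^ (q - 1)) = 0 ∨
          1 ≤ h98_w2 M q hqM A ζ hζ hex 0 (h97_Ma M q A g
            - algebraMap (h69_K0 (A.inertiaSubgroupIn ℚ))
              (h69_F0 (M * q * q) (A.inertiaSubgroupIn ℚ)) (z 0 * z 1 ^ (q - 1)))) ∧
      (h97_Ma M q A g - algebraMap (h69_K0 (A.inertiaSubgroupIn ℚ))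
            (h69_F0 (M * q * q) (A.inertiaSubgroupIn ℚ)) (z 2 ^ q) = 0 ∨
          1 ≤ h98_w2 M q hqM A ζ hζ hex 2 (h97_Ma M q A g
            - algebraMap (h69_K0 (A.inertiaSubgroupIn ℚ))
              (h69_F0 (M * q * q) (A.inertiaSubgroupIn ℚ)) (z 2 ^ q))) ∧
      (h97_Mb M q A g - algebraMap (h69_K0 (A.inertiaSubgroupIn ℚ))
            (h69_F0 (M * q * q) (A.inertiaSubgroupIn ℚ)) (z 0 ^ q) = 0 ∨
          1 ≤ h98_w2 M q hqM A ζ hζ hex 0 (h97_Mb M q A g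
            - algebraMap (h69_K0 (A.inertiaSubgroupIn ℚ))
              (h69_F0 (M * q * q) (A.inertiaSubgroupIn ℚ)) (z 0 ^ q))) ∧
      (h97_Mb M q A g - algebraMap (h69_K0 (A.inertiaSubgroupIn ℚ))
            (h69_F0 (M * q * q) (A.inertiaSubgroupIn ℚ)) (z 1 ^ (q - 1) * z 2) = 0 ∨
          1 ≤ h98_w2 M q hqM A ζ hζ hex 2 (h97_Mb M q A g
            - algebraMap (h69_K0 (A.inertiaSubgroupIn ℚ))
              (h69_F0 (M * q * q) (A.inertiaSubgroupIn ℚ)) (z 1 ^ (q - 1) * z 2))) := by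
  intro g z hz hg
  obtain ⟨h1, h2, h3, h4⟩ := h49_NRc_roots M q hqM A hA ζ hζ hex n hn g z hz hg
  refine ⟨?_, ?_, ?_, ?_⟩
  · exact h97_cong_push M q A (h70_aF0 (M * q) q (A.inertiaSubgroupIn ℚ)) (h97_aF0_const M q A)
      (h98_w2 M q hqM A ζ hζ hex 0) (h98_w1 M q hqM A ζ hζ hex 0)
      (h98_hV0a0 M q hqM A hA ζ hζ hex) _ _ h1
  · exact h97_cong_push M q A (h70_aF0 (M * q) q (A.inertiaSubgroupIn ℚ)) (h97_aF0_const M q A)
      (h98_w2 M q hqM A ζ hζ hex 2) (h98_w1 M q hqM A ζ hζ hex 1)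
      (h98_hV0a2 M q hqM A hA ζ hζ hex) _ _ h2
  · exact h97_cong_push M q A (h70_bF0 (M * q) q (A.inertiaSubgroupIn ℚ)) (h97_bF0_const M q A)
      (h98_w2 M q hqM A ζ hζ hex 0) (h98_w1 M q hqM A ζ hζ hex 0)
      (h98_hV0b0 M q hqM A hA ζ hζ hex) _ _ h3
  · exact h97_cong_push M q A (h70_bF0 (M * q) q (A.inertiaSubgroupIn ℚ)) (h97_bF0_const M q A)
      (h98_w2 M q hqM A ζ hζ hex 2) (h98_w1 M q hqM A ζ hζ hex 1)
      (h98_hV0b2 M q hqM A hA ζ hζ hex) _ _ h4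

/-- A norm relation downstairs, pulled back by a ring map commuting with the constants. -/
theorem h97_rel_pull
    (φ : h69_F0 (M * q) (A.inertiaSubgroupIn ℚ) →+* h69_F0 (M * q * q) (A.inertiaSubgroupIn ℚ))
    (hφc : ∀ c : h69_K0 (A.inertiaSubgroupIn ℚ),
      φ (algebraMap (h69_K0 (A.inertiaSubgroupIn ℚ)) (h69_F0 (M * q) (A.inertiaSubgroupIn ℚ)) c)
        = algebraMap (h69_K0 (A.inertiaSubgroupIn ℚ))
          (h69_F0 (M * q * q) (A.inertiaSubgroupIn ℚ)) c)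
    (Nu : h69_F0 (M * q) (A.inertiaSubgroupIn ℚ)) (m : ℕ)
    (h : ∃ (φ' : modularFunctionFieldBar (M * q)) (κ : Qb), φ' ≠ 0 ∧
      φ' ∈ h69_F0 (M * q) (A.inertiaSubgroupIn ℚ) ∧ κ ≠ 0 ∧
      (∀ σ ∈ A.inertiaSubgroupIn ℚ, σ κ = κ) ∧
      (Nu : modularFunctionFieldBar (M * q))
        = algebraMap Qb (modularFunctionFieldBar (M * q)) κ * φ' ^ m) :
    ∃ (κ : h69_K0 (A.inertiaSubgroupIn ℚ)) (Φ : h69_F0 (M * q * q) (A.inertiaSubgroupIn ℚ)),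
      κ ≠ 0 ∧ Φ ≠ 0 ∧
      φ Nu = algebraMap (h69_K0 (A.inertiaSubgroupIn ℚ))
        (h69_F0 (M * q * q) (A.inertiaSubgroupIn ℚ)) κ * Φ ^ m := by
  obtain ⟨φ', κ, hφ0, hφF, hκ0, hκfix, hrel⟩ := h
  set κ' : h69_K0 (A.inertiaSubgroupIn ℚ) := ⟨κ, (h69_mem_K0 _ κ).mpr hκfix⟩ with hκ'
  set Φ0 : h69_F0 (M * q) (A.inertiaSubgroupIn ℚ) := ⟨φ', hφF⟩ with hΦ0
  have hκ'0 : κ' ≠ 0 := fun h0 => hκ0 (congrArg Subtype.val h0)
  have hΦ00 : Φ0 ≠ 0 := fun h0 => hφ0 (congrArg Subtype.val h0)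
  have e : Nu = algebraMap (h69_K0 (A.inertiaSubgroupIn ℚ))
      (h69_F0 (M * q) (A.inertiaSubgroupIn ℚ)) κ' * Φ0 ^ m := by
    apply Subtype.ext
    rw [hrel]
    push_cast
    rfl
  refine ⟨κ', φ Φ0, hκ'0, (map_ne_zero φ).mpr hΦ00, ?_⟩
  rw [e, map_mul, map_pow, hφc]

/-- `hTα`, `hTβ` of `h94_hnz_pts`: the two norm relations of an `I`-rational Kummer pair whose
divisor is `q`-new (helper70's `h70_norm_rel_pair`), pulled back to level `M q²`. -/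
theorem h97_nz_hT (m : ℕ)
    (E4 : Divisor.degZero (K := Qb) (F := modularFunctionFieldBar (M * q * q)))
    (hD : ∀ σ ∈ A.inertiaSubgroupIn ℚ,
      arithmeticGalois (modularFunctionFieldFull (M * q * q)) σ •
        (E4 : Divisor Qb (modularFunctionFieldBar (M * q * q))) = E4)
    (hnew : h67_DivNew (M * q) q (E4 : Divisor Qb (modularFunctionFieldBar (M * q * q))))
    (u4 : h69_F0 (M * q * q) (A.inertiaSubgroupIn ℚ)) (hu0 : u4 ≠ 0)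
    (hord : ∀ v : Place Qb (modularFunctionFieldBar (M * q * q)),
      (m : ℤ) * (E4 : Divisor Qb (modularFunctionFieldBar (M * q * q))) v
        = v.ord (u4 : modularFunctionFieldBar (M * q * q))) :
    ∃ (κα κβ : h69_K0 (A.inertiaSubgroupIn ℚ))
      (Φα Φβ : h69_F0 (M * q * q) (A.inertiaSubgroupIn ℚ)),
      κα ≠ 0 ∧ κβ ≠ 0 ∧ Φα ≠ 0 ∧ Φβ ≠ 0 ∧
      h97_Ma M q A u4 = algebraMap (h69_K0 (A.inertiaSubgroupIn ℚ))
        (h69_F0 (M * q * q) (A.inertiaSubgroupIn ℚ)) κα * Φα ^ m ∧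
      h97_Mb M q A u4 = algebraMap (h69_K0 (A.inertiaSubgroupIn ℚ))
        (h69_F0 (M * q * q) (A.inertiaSubgroupIn ℚ)) κβ * Φβ ^ m := by
  have hu0' : (u4 : modularFunctionFieldBar (M * q * q)) ≠ 0 := fun h0 => hu0 (Subtype.ext h0)
  obtain ⟨⟨φa, κa, hφa0, -, hφaF, -, hκa0, hκafix, hNa⟩,
      ⟨φb, κb, hφb0, -, hφbF, -, hκb0, hκbfix, hNb⟩⟩ :=
    h70_norm_rel_pair (M * q) q (A.inertiaSubgroupIn ℚ) E4 hD hnew
      (u4 : modularFunctionFieldBar (M * q * q)) hu0' m hord u4.2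
  obtain ⟨κα, Φα, hκα, hΦα, hα⟩ := h97_rel_pull M q A
    (h70_aF0 (M * q) q (A.inertiaSubgroupIn ℚ)) (h97_aF0_const M q A)
    (h70_NaF0 (M * q) q (A.inertiaSubgroupIn ℚ) u4) m
    ⟨φa, κa, hφa0, hφaF, hκa0, hκafix, hNa⟩
  obtain ⟨κβ, Φβ, hκβ, hΦβ, hβ⟩ := h97_rel_pull M q A
    (h70_bF0 (M * q) q (A.inertiaSubgroupIn ℚ)) (h97_bF0_const M q A)
    (h70_NbF0 (M * q) q (A.inertiaSubgroupIn ℚ) u4) m
    ⟨φb, κb, hφb0, hφbF, hκb0, hκbfix, hNb⟩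
  exact ⟨κα, κβ, Φα, Φβ, hκα, hκβ, hΦα, hΦβ, hα, hβ⟩

end PartA

/-! ## Part B: the composite -/

section Defs

variable {F : Type*} [Field F] {ι : Type*}

/-- The `(LOC)` glueing scheme at a point (the conclusion of helper62's `h62_loc_glue_point`,
helper94's `h94_hLG_of_point`), for the exponent `n`. -/
def h97_LG (V : h80_ValFam F ι) (𝔪 : Ideal V.B) (q0 : F) (n : ℕ) : Prop :=
  ∀ e ω : F,
    (∀ c, V.Through 𝔪 c → 0 < V.v c q0 → 0 ≤ V.v c e) →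
    ω ≠ 0 → V.InLoc 𝔪 ω → V.InLoc 𝔪 ω⁻¹ →
    (∀ c, V.Through 𝔪 c → 0 < V.v c q0 →
      (e ^ n * ω = 1 ∨ V.v c q0 ≤ V.v c (e ^ n * ω - 1))) →
    ∃ (ζ : ι → F) (y : F),
      (∀ c, V.Through 𝔪 c → 0 < V.v c q0 → V.InLoc 𝔪 (ζ c) ∧ ζ c ^ n = 1) ∧
      y ≠ 0 ∧ V.InLoc 𝔪 y ∧ V.InLoc 𝔪 y⁻¹ ∧
      ∀ c, V.Through 𝔪 c → 0 < V.v c q0 →
        (e = ζ c * y ∨ V.v c q0 ≤ V.v c (e - ζ c * y))

variable {Kc Fc : Type*} [Field Kc] [Field Fc] [Algebra Kc Fc]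

/-- The `(LOC-δ)` datum of `h61_principal_of_loc` at a point `𝔪` of a chart family, for the
divisor `Ez`. -/
def h97_LocD (ψ : F →+* Fc) (V : h80_ValFam F ι) (vert : Set ι) (av : ι → ℕ)
    (Ez : Divisor Kc Fc) (𝔪 : Ideal V.B) : Prop :=
  ∃ e y : F, e ≠ 0 ∧ y ≠ 0 ∧ V.InLoc 𝔪 y ∧ V.InLoc 𝔪 y⁻¹ ∧
    (∀ i, i ∉ vert → V.Through 𝔪 i → ∀ P : Place Kc Fc,
      (∀ f : F, f ≠ 0 → V.v i f = P.ord (ψ f)) → V.v i e = Ez P) ∧
    ∀ C ∈ vert, V.Through 𝔪 C → (e = y ∨ (av C : ℤ) ≤ V.v C (e - y))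

end Defs

section Fam

variable (N : ℕ) [NeZero N] (H : Subgroup (Qb ≃ₐ[ℚ] Qb))
variable {κ : Type*} [Finite κ] (w : κ → h69_F0 N H → ℤ)
  (hw_mul : ∀ c (f g : h69_F0 N H), f ≠ 0 → g ≠ 0 → w c (f * g) = w c f + w c g)
  (hw_add : ∀ c (f g : h69_F0 N H), f ≠ 0 → g ≠ 0 → f + g ≠ 0 →
    min (w c f) (w c g) ≤ w c (f + g))
  (x : modularFunctionFieldBar N) (hx : h75_IsChart Qb x)

/-- `hhor` of `h94_hnz_pts` for a chart family `h80_famOf`. -/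
theorem h97_famOf_hhor :
    ∀ i, i ∉ Set.range (Sum.inl : κ → κ ⊕ h80_HorIdx (h80_horOrd N H x)) →
      ∃ Pl : Place Qb (modularFunctionFieldBar N), ∀ f : h69_F0 N H, f ≠ 0 →
        (h80_famOf N H w hw_mul hw_add x hx).v i f = Pl.ord ((h69_F0 N H).subtype f) := by
  intro i hi
  have hi' : h80_IsHor i := by
    rcases i with c | j
    · exact absurd ⟨c, rfl⟩ hi
    · exact ⟨j, rfl⟩
  obtain ⟨P, hP, rfl⟩ := h80_famOf_hor N H x i hi'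
  exact ⟨P, fun f _ => rfl⟩

/-- `hq0h` of `h94_hnz_pts`: a nonzero natural number is a unit at the horizontal indices. -/
theorem h97_famOf_natCast (n : ℕ) :
    ∀ i, i ∉ Set.range (Sum.inl : κ → κ ⊕ h80_HorIdx (h80_horOrd N H x)) →
      (h80_famOf N H w hw_mul hw_add x hx).v i (n : h69_F0 N H) = 0 := by
  intro i hi
  have hi' : h80_IsHor i := by
    rcases i with c | j
    · exact absurd ⟨c, rfl⟩ hi
    · exact ⟨j, rfl⟩
  have hmem : algebraMap Qb (modularFunctionFieldBar N) (n : Qb) ∈ h69_F0 N H := by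
    rw [map_natCast]
    exact natCast_mem _ n
  have e : (n : h69_F0 N H) = ⟨algebraMap Qb (modularFunctionFieldBar N) (n : Qb), hmem⟩ := by
    apply Subtype.ext
    show ((n : h69_F0 N H) : modularFunctionFieldBar N)
      = algebraMap Qb (modularFunctionFieldBar N) (n : Qb)
    rw [map_natCast]
    rfl
  rw [e]
  exact h80_famOf_hq N H w hw_mul hw_add x hx (n : Qb) hmem i hi'

/-- The chart-change datum `h21` of `h97_xfer` between the chart of `x⁻¹` and the chart of `x`: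
an index of the chart of `x⁻¹` at which `x` is a unit is an index of the chart of `x`. -/
theorem h97_famOf_h21 (hx' : h75_IsChart Qb x⁻¹) (a : κ → ℕ) (x0 : h69_F0 N H)
    (hx0 : (x0 : modularFunctionFieldBar N) = x) :
    ∀ i2, (h80_famOf N H w hw_mul hw_add x⁻¹ hx').v i2 x0 = 0 →
      ∃ i1, (∀ f : h69_F0 N H, (h80_famOf N H w hw_mul hw_add x hx).v i1 f
          = (h80_famOf N H w hw_mul hw_add x⁻¹ hx').v i2 f) ∧
        (i1 ∈ Set.range (Sum.inl : κ → κ ⊕ h80_HorIdx (h80_horOrd N H x)) ↔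
          i2 ∈ Set.range (Sum.inl : κ → κ ⊕ h80_HorIdx (h80_horOrd N H x⁻¹))) ∧
        (i2 ∈ Set.range (Sum.inl : κ → κ ⊕ h80_HorIdx (h80_horOrd N H x⁻¹)) →
          Sum.elim a (fun _ => 1) i1 = Sum.elim a (fun _ => 1) i2) := by
  intro i2 hi2
  rcases i2 with c | j
  · exact ⟨Sum.inl c, fun f => (h80_famOf_v_inl N H w hw_mul hw_add x hx c f).trans
      (h80_famOf_v_inl N H w hw_mul hw_add x⁻¹ hx' c f).symm,
      ⟨fun _ => ⟨c, rfl⟩, fun _ => ⟨c, rfl⟩⟩,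
      fun _ => (Sum.elim_inl a (fun _ => 1) c).trans (Sum.elim_inl a (fun _ => 1) c).symm⟩
  · obtain ⟨P, hP, hi⟩ := h80_famOf_hor N H x⁻¹ (Sum.inr j : κ ⊕ _) ⟨j, rfl⟩
    have hj : j = h80_horMk (h80_horOrd N H x⁻¹) ⟨P, hP⟩ := Sum.inr_injective hi
    subst hj
    have h0 : P.ord x = 0 := by
      have h1 : P.ord (x0 : modularFunctionFieldBar N) = 0 := hi2
      rwa [hx0] at h1
    refine ⟨Sum.inr (h80_horMk (h80_horOrd N H x) ⟨P, h0.ge⟩),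
      fun f => (h80_famOf_v_mk N H w hw_mul hw_add x hx P h0.ge f).trans
        (h80_famOf_v_mk N H w hw_mul hw_add x⁻¹ hx' P hP f).symm, ⟨?_, ?_⟩, ?_⟩
    · rintro ⟨c, hc⟩
      exact absurd hc Sum.inl_ne_inr
    · rintro ⟨c, hc⟩
      exact absurd hc Sum.inl_ne_inr
    · rintro ⟨c, hc⟩
      exact absurd hc Sum.inl_ne_inr

/-- The chart-change datum `hx2` of `h97_xfer`: `x` has non-positive valuations on the chart of
`x⁻¹` as soon as it is a unit at the vertical valuations. -/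
theorem h97_famOf_hx2 (hx' : h75_IsChart Qb x⁻¹) (x0 : h69_F0 N H)
    (hx0 : (x0 : modularFunctionFieldBar N) = x) (hwx : ∀ c, w c x0 = 0) :
    ∀ i, (h80_famOf N H w hw_mul hw_add x⁻¹ hx').v i x0 ≤ 0 := by
  intro i
  rcases i with c | j
  · exact (hwx c).le
  · obtain ⟨P, hP, hi⟩ := h80_famOf_hor N H x⁻¹ (Sum.inr j : κ ⊕ _) ⟨j, rfl⟩
    have hj : j = h80_horMk (h80_horOrd N H x⁻¹) ⟨P, hP⟩ := Sum.inr_injective hi
    subst hj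
    show P.ord (x0 : modularFunctionFieldBar N) ≤ 0
    rw [hx0]
    have h1 : 0 ≤ P.ord x⁻¹ := hP
    rw [P.ord_inv] at h1
    omega

end Fam

section Core

variable (M q : ℕ) [NeZero M] [NeZero q] [Fact q.Prime] (hqM : ¬ q ∣ M)
  (A : ValuationSubring Qb) (hA : A.LiesOverPrime q) (ζ : Qb) (hζ : IsPrimitiveRoot ζ q)
  (hex : h98_Ex M q hqM A ζ hζ)

/-- Chart 1 at level `M q²` for the vertical valuations `h98_w2`. -/
abbrev h97_V1 : h80_ValFam (h69_F0 (M * q * q) (A.inertiaSubgroupIn ℚ))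
    (Fin 3 ⊕ h80_HorIdx (h80_horOrd (M * q * q) (A.inertiaSubgroupIn ℚ) (h59_jbar (M * q * q)))) :=
  h80_fam1 (M * q * q) (A.inertiaSubgroupIn ℚ) (h98_w2 M q hqM A ζ hζ hex)
    (h98_hw2mul M q hqM A hA ζ hζ hex) (h98_hw2add M q hqM A hA ζ hζ hex)

/-- Chart 2 at level `M q²` for the vertical valuations `h98_w2`. -/
abbrev h97_V2 : h80_ValFam (h69_F0 (M * q * q) (A.inertiaSubgroupIn ℚ))
    (Fin 3 ⊕ h80_HorIdx (h80_horOrd (M * q * q) (A.inertiaSubgroupIn ℚ)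
      (h59_jbar (M * q * q))⁻¹)) :=
  h80_fam2 (M * q * q) (A.inertiaSubgroupIn ℚ) (h98_w2 M q hqM A ζ hζ hex)
    (h98_hw2mul M q hqM A hA ζ hζ hex) (h98_hw2add M q hqM A hA ζ hζ hex)

/-- The multiplicities `(1, q - 1, 1)` are positive. -/
theorem h97_nz_ha : ∀ c : Fin 3, 1 ≤ (![1, q - 1, 1] : Fin 3 → ℕ) c := by
  have hq : q.Prime := Fact.out
  have h2 := hq.two_le
  intro c
  fin_cases c
  · show 1 ≤ 1
    exact le_rfl
  · show 1 ≤ q - 1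
    omega
  · show 1 ≤ 1
    exact le_rfl

include hA in
/-- `w2 c q = (1, q - 1, 1)`. -/
theorem h97_nz_hwq : ∀ c : Fin 3, h98_w2 M q hqM A ζ hζ hex c
    (q : h69_F0 (M * q * q) (A.inertiaSubgroupIn ℚ))
      = (((![1, q - 1, 1] : Fin 3 → ℕ) c : ℕ) : ℤ) := by
  have hq : q.Prime := Fact.out
  have e : (((q - 1 : ℕ) : ℕ) : ℤ) = (q : ℤ) - 1 := by
    rw [Nat.cast_sub hq.one_le, Nat.cast_one]
  intro c
  fin_cases c
  · exact (h98_hq0 M q hqM A hA ζ hζ hex).trans (by simp)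
  · exact (h98_hq1 M q hqM A hA ζ hζ hex).trans e.symm
  · exact (h98_hq2 M q hqM A hA ζ hζ hex).trans (by simp)

set_option maxHeartbeats 1600000 in
include hA in
/-- **The composite TOR-M → NZ → witness** at level `M q²`.  For an `I`-fixed `q`-new class `z`
killed by `m` prime to `q`: the divisor `Ez` (class `(q² - 1)² • z`, `I`-invariant), the function
`uz ∈ F₀` with `m Ez = div uz`, `uz ≡ 1` modulo `(1, q - 1, 1)` on the three vertical valuations,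
and the `(LOC-δ)` datum at the points of `fib1` (chart 1) and of `cusp2` (chart 2).
Open hypotheses = the point rows of I-PTS / I-CUSP / I-NZ: `hclass1`, `hone2`, `hNU1`, `hU1`,
`hU2`, `hLG1`, `hLG2`. -/
theorem h97_nz_core
    (fib1 : Ideal (h97_V1 M q hqM A hA ζ hζ hex).B → Prop)
    (cusp2 : Ideal (h97_V2 M q hqM A hA ζ hζ hex).B → Prop)
    (hfib1 : ∀ 𝔪 : Ideal (h97_V1 M q hqM A hA ζ hζ hex).B, 𝔪.IsMaximal →
      ∀ k : Fin 3, (h97_V1 M q hqM A hA ζ hζ hex).Through 𝔪 (Sum.inl k) → fib1 𝔪)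
    (hclass1 : ∀ 𝔪 : Ideal (h97_V1 M q hqM A hA ζ hζ hex).B, 𝔪.IsMaximal → fib1 𝔪 →
      (∀ k : Fin 3, (h97_V1 M q hqM A hA ζ hζ hex).Through 𝔪 (Sum.inl k)) ∨
        ∃ k0 : Fin 3, ∀ k, (h97_V1 M q hqM A hA ζ hζ hex).Through 𝔪 (Sum.inl k) → k = k0)
    (hone2 : ∀ 𝔪 : Ideal (h97_V2 M q hqM A hA ζ hζ hex).B, 𝔪.IsMaximal → cusp2 𝔪 →
      ∃ k0 : Fin 3, ∀ k, (h97_V2 M q hqM A hA ζ hζ hex).Through 𝔪 (Sum.inl k) → k = k0)
    (hNU1 : ∀ 𝔪 : Ideal (h97_V1 M q hqM A hA ζ hζ hex).B, 𝔪.IsMaximal →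
      (∀ k : Fin 3, (h97_V1 M q hqM A hA ζ hζ hex).Through 𝔪 (Sum.inl k)) →
      ∀ y : h69_F0 (M * q * q) (A.inertiaSubgroupIn ℚ), y ≠ 0 →
        (h97_V1 M q hqM A hA ζ hζ hex).InLoc 𝔪 y →
        (h97_V1 M q hqM A hA ζ hζ hex).InLoc 𝔪 y⁻¹ →
        (h97_V1 M q hqM A hA ζ hζ hex).InLoc 𝔪 (h97_Ma M q A y) ∧
          (h97_V1 M q hqM A hA ζ hζ hex).InLoc 𝔪 (h97_Mb M q A y))
    (hU1 : ∀ 𝔪 : Ideal (h97_V1 M q hqM A hA ζ hζ hex).B, 𝔪.IsMaximal → fib1 𝔪 →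
      h62_UnitStar (h97_V1 M q hqM A hA ζ hζ hex) 𝔪)
    (hU2 : ∀ 𝔪 : Ideal (h97_V2 M q hqM A hA ζ hζ hex).B, 𝔪.IsMaximal → cusp2 𝔪 →
      h62_UnitStar (h97_V2 M q hqM A hA ζ hζ hex) 𝔪)
    (m : ℕ) (hm : 0 < m) (hqm : Nat.Coprime q m)
    (hLG1 : ∀ 𝔪 : Ideal (h97_V1 M q hqM A hA ζ hζ hex).B, 𝔪.IsMaximal → fib1 𝔪 →
      h97_LG (h97_V1 M q hqM A hA ζ hζ hex) 𝔪
        (q : h69_F0 (M * q * q) (A.inertiaSubgroupIn ℚ)) m)
    (hLG2 : ∀ 𝔪 : Ideal (h97_V2 M q hqM A hA ζ hζ hex).B, 𝔪.IsMaximal → cusp2 𝔪 →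
      h97_LG (h97_V2 M q hqM A hA ζ hζ hex) 𝔪
        (q : h69_F0 (M * q * q) (A.inertiaSubgroupIn ℚ)) m)
    (z : JZero (M * q * q)) (hz : ∀ σ ∈ A.inertiaSubgroupIn ℚ, σ • z = z)
    (hnew : h67_Jnew (M * q) q z) (hmz : m • z = 0) :
    ∃ (Ez : Divisor.degZero (K := Qb) (F := modularFunctionFieldBar (M * q * q)))
      (uz : h69_F0 (M * q * q) (A.inertiaSubgroupIn ℚ)),
      Pic0.mk Ez = ((q ^ 2 - 1) ^ 2) • z ∧
      (∀ σ ∈ A.inertiaSubgroupIn ℚ, arithmeticGalois (modularFunctionFieldFull (M * q * q)) σ •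
        (Ez : Divisor Qb (modularFunctionFieldBar (M * q * q))) = Ez) ∧
      uz ≠ 0 ∧
      (∀ v : Place Qb (modularFunctionFieldBar (M * q * q)),
        (m : ℤ) * (Ez : Divisor Qb (modularFunctionFieldBar (M * q * q))) v
          = v.ord (uz : modularFunctionFieldBar (M * q * q))) ∧
      (uz - 1 = 0 ∨ ∀ c : Fin 3, (((![1, q - 1, 1] : Fin 3 → ℕ) c : ℕ) : ℤ)
        ≤ h98_w2 M q hqM A ζ hζ hex c (uz - 1)) ∧
      (∀ 𝔪 : Ideal (h97_V1 M q hqM A hA ζ hζ hex).B, 𝔪.IsMaximal → fib1 𝔪 →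
        h97_LocD (h69_F0 (M * q * q) (A.inertiaSubgroupIn ℚ)).subtype
          (h97_V1 M q hqM A hA ζ hζ hex) (Set.range Sum.inl)
          (Sum.elim (![1, q - 1, 1] : Fin 3 → ℕ) (fun _ => 1))
          (Ez : Divisor Qb (modularFunctionFieldBar (M * q * q))) 𝔪) ∧
      (∀ 𝔪 : Ideal (h97_V2 M q hqM A hA ζ hζ hex).B, 𝔪.IsMaximal → cusp2 𝔪 →
        h97_LocD (h69_F0 (M * q * q) (A.inertiaSubgroupIn ℚ)).subtype
          (h97_V2 M q hqM A hA ζ hζ hex) (Set.range Sum.inl)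
          (Sum.elim (![1, q - 1, 1] : Fin 3 → ℕ) (fun _ => 1))
          (Ez : Divisor Qb (modularFunctionFieldBar (M * q * q))) 𝔪) := by
  classical
  have hq : q.Prime := Fact.out
  have hm0 : m ≠ 0 := hm.ne'
  have hqm' : ¬ q ∣ m := fun h => hq.one_lt.ne' (Nat.Coprime.eq_one_of_dvd hqm h)
  obtain ⟨E4, u4, hcls4, hinv4, hnew4, hu40, hord4, hcong4⟩ :=
    h98_torM M q hqM A hA ζ hζ hex m hm hqm z hz hnew hmz
  have hwq := h97_nz_hwq M q hqM A hA ζ hζ hex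
  have hu : ∀ k : Fin 3, u4 - 1 = 0 ∨ (((![1, q - 1, 1] : Fin 3 → ℕ) k : ℕ) : ℤ)
      ≤ h98_w2 M q hqM A ζ hζ hex k (u4 - 1) := fun k => by
    rw [← hwq k]
    exact hcong4 k
  obtain ⟨κα, κβ, Φα, Φβ, hκα, hκβ, hΦα, hΦβ, hTα, hTβ⟩ :=
    h97_nz_hT M q A m E4 hinv4 hnew4 u4 hu40 hord4
  have hq00 : (q : h69_F0 (M * q * q) (A.inertiaSubgroupIn ℚ)) ≠ 0 :=
    h69_hn M q A q hq.ne_zero
  have hvert1 : ∀ C : Fin 3 ⊕ h80_HorIdx (h80_horOrd (M * q * q) (A.inertiaSubgroupIn ℚ)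
      (h59_jbar (M * q * q))), C ∈ Set.range Sum.inl ↔ ∃ k : Fin 3, C = Sum.inl k :=
    fun C => ⟨fun ⟨k, hk⟩ => ⟨k, hk.symm⟩, fun ⟨k, hk⟩ => ⟨k, hk.symm⟩⟩
  have hvert2 : ∀ C : Fin 3 ⊕ h80_HorIdx (h80_horOrd (M * q * q) (A.inertiaSubgroupIn ℚ)
      (h59_jbar (M * q * q))⁻¹), C ∈ Set.range Sum.inl ↔ ∃ k : Fin 3, C = Sum.inl k :=
    fun C => ⟨fun ⟨k, hk⟩ => ⟨k, hk.symm⟩, fun ⟨k, hk⟩ => ⟨k, hk.symm⟩⟩
  have hπ0 : (q : h69_K0 (A.inertiaSubgroupIn ℚ)) ≠ 0 := Nat.cast_ne_zero.mpr hq.ne_zero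
  have hconst1 : ∀ c : h69_K0 (A.inertiaSubgroupIn ℚ), c ≠ 0 →
      h98_w2 M q hqM A ζ hζ hex 0
        (algebraMap (h69_K0 (A.inertiaSubgroupIn ℚ))
          (h69_F0 (M * q * q) (A.inertiaSubgroupIn ℚ)) c) = 0 →
      ∀ i, (h97_V1 M q hqM A hA ζ hζ hex).v i
        (algebraMap (h69_K0 (A.inertiaSubgroupIn ℚ))
          (h69_F0 (M * q * q) (A.inertiaSubgroupIn ℚ)) c) = 0 :=
    h69_hconst_placeFam M q hqM A hA ζ hζ hex (h80_chartSet Qb (h59_jbar (M * q * q)))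
      (h98_hw2mul M q hqM A hA ζ hζ hex) (h98_hw2add M q hqM A hA ζ hζ hex)
      (fun f hf => (h75_finite_ord_ne (h54_isChart_jbar (M * q * q)) f hf).subset
        fun _ hP => hP.2)
  obtain ⟨Γ, hΓ0, hcongΓ, hEz⟩ := h94_hnz_pts (Kc := Qb)
    (Fc := modularFunctionFieldBar (M * q * q)) (K := h69_K0 (A.inertiaSubgroupIn ℚ))
    (h69_F0 (M * q * q) (A.inertiaSubgroupIn ℚ)).subtype
    (E4 : Divisor Qb (modularFunctionFieldBar (M * q * q)))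
    (h98_w2 M q hqM A ζ hζ hex) (![1, q - 1, 1] : Fin 3 → ℕ) (h97_nz_ha q)
    (q := q) (n := m) hq.one_le
    (h97_V1 M q hqM A hA ζ hζ hex) (h97_V2 M q hqM A hA ζ hζ hex) Sum.inl Sum.inl
    (fun _ _ => rfl) (fun _ _ => rfl)
    (Set.range Sum.inl) (Sum.elim (![1, q - 1, 1] : Fin 3 → ℕ) (fun _ => 1)) hvert1
    (fun _ => rfl)
    (Set.range Sum.inl) (Sum.elim (![1, q - 1, 1] : Fin 3 → ℕ) (fun _ => 1)) hvert2
    (fun _ => rfl)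
    (h97_famOf_hhor (M * q * q) (A.inertiaSubgroupIn ℚ) _ _ _ _ _)
    (h97_famOf_hhor (M * q * q) (A.inertiaSubgroupIn ℚ) _ _ _ _ _)
    (q : h69_F0 (M * q * q) (A.inertiaSubgroupIn ℚ)) hq00 hwq
    (h97_famOf_natCast (M * q * q) (A.inertiaSubgroupIn ℚ) _ _ _ _ _ q)
    (h97_famOf_natCast (M * q * q) (A.inertiaSubgroupIn ℚ) _ _ _ _ _ q)
    (h97_nz_hCRT M q hqM A hA ζ hζ hex)
    fib1 hfib1 cusp2 hclass1 hone2
    hconst1
    (h69_hn M q A m hm0) (h69_hnv M q hqM A hA ζ hζ hex m hqm' 0)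
    (h69_hroots (M * q * q) (A.inertiaSubgroupIn ℚ) m hm0)
    (h69_hprim q A hA m hm0 hqm')
    (h69_hroot M q hqM A hA ζ hζ hex m hm0)
    (h69_hw02 M q hqM A hA ζ hζ hex)
    (q : h69_K0 (A.inertiaSubgroupIn ℚ)) hπ0 (h69_hpi M q hqM A hA ζ hζ hex)
    (h97_Ma M q A) (h97_Mb M q A) (h97_Ma_mul M q A) (h97_Ma_ne_zero M q A)
    (h97_Mb_mul M q A) (h97_Mb_ne_zero M q A)
    (h97_nz_hMres M q hqM A hA ζ hζ hex m hm0)
    hNU1 u4 hu40 hu hord4 κα κβ hκα hκβ Φα Φβ hΦα hΦβ hTα hTβ hU1 hU2 hLG1 hLG2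
  -- the Kummer twist
  set uz : h69_F0 (M * q * q) (A.inertiaSubgroupIn ℚ) := u4 ^ (q ^ 2 - 1) / Γ ^ m with huz
  have hu40' : (u4 : modularFunctionFieldBar (M * q * q)) ≠ 0 := fun h0 => hu40 (Subtype.ext h0)
  have hΓ0' : (Γ : modularFunctionFieldBar (M * q * q)) ≠ 0 := fun h0 => hΓ0 (Subtype.ext h0)
  have hrel : (u4 : modularFunctionFieldBar (M * q * q)) ^ (q ^ 2 - 1)
      = algebraMap Qb (modularFunctionFieldBar (M * q * q)) 1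
        * (Γ : modularFunctionFieldBar (M * q * q)) ^ m
        * (uz : modularFunctionFieldBar (M * q * q)) := by
    have e : (uz : modularFunctionFieldBar (M * q * q))
        = (u4 : modularFunctionFieldBar (M * q * q)) ^ (q ^ 2 - 1)
          / (Γ : modularFunctionFieldBar (M * q * q)) ^ m := by
      rw [huz]
      push_cast
      rfl
    rw [map_one, one_mul, e]
    field_simp
  obtain ⟨D', hcls, hinv, huz0', hdiv, hval, -⟩ := h70_kummer_twist (M * q * q)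
    (A.inertiaSubgroupIn ℚ) E4 hinv4 (u4 : modularFunctionFieldBar (M * q * q)) hu40' m
    (q ^ 2 - 1) hord4 1 one_ne_zero (Γ : modularFunctionFieldBar (M * q * q))
    (uz : modularFunctionFieldBar (M * q * q)) hΓ0' Γ.2 hrel
  refine ⟨D', uz, ?_, hinv, ?_, hdiv, ?_, ?_, ?_⟩
  · rw [hcls, hcls4, ← mul_smul, ← pow_two]
  · intro h0
    exact huz0' (by rw [h0]; rfl)
  · by_cases h0 : uz - 1 = 0
    · exact Or.inl h0
    · exact Or.inr fun c => (hcongΓ c).resolve_left h0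
  · exact (hEz (D' : Divisor Qb (modularFunctionFieldBar (M * q * q))) (fun Pl => hval Pl)).1
  · exact (hEz (D' : Divisor Qb (modularFunctionFieldBar (M * q * q))) (fun Pl => hval Pl)).2

end Core

/-! ## Part C: chart 2 away from the cusps (helper96's transfer, `q0 ∈ 𝔪` form) -/

section Xfer

variable {Kc Fc : Type*} [Field Kc] [Field Fc] [Algebra Kc Fc]
variable {F0 : Type*} [Field F0] {ι1 ι2 : Type*}

/-- **Chart transfer, point premise `q0 ∈ 𝔪`.**  Helper96's `h96_hnz2_of_hnz1` with the premise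
"the kernel of the reduction lies in `𝔪`" replaced by `q0 ∈ 𝔪` (no lattice): if the `(LOC-δ)`
datum exists at every closed point of chart 1 containing `q0` and at the closed points of chart 2
containing `q0` and `x0⁻¹`, it exists at every closed point of chart 2 containing `q0`. -/
theorem h97_xfer (ψ : F0 →+* Fc) (x0 : F0) (hx00 : x0 ≠ 0)
    (V1 : h80_ValFam F0 ι1) (V2 : h80_ValFam F0 ι2)
    (vert1 : Set ι1) (a1 : ι1 → ℕ) (vert2 : Set ι2) (a2 : ι2 → ℕ) (Ez : Divisor Kc Fc)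
    (hx2 : ∀ i, V2.v i x0 ≤ 0)
    (h21 : ∀ i2, V2.v i2 x0 = 0 → ∃ i1, (∀ f : F0, V1.v i1 f = V2.v i2 f) ∧
      (i1 ∈ vert1 ↔ i2 ∈ vert2) ∧ (i2 ∈ vert2 → a1 i1 = a2 i2))
    (t0 : V2.B) (ht0 : (t0 : F0) = x0⁻¹)
    (q0 : F0) (hq1 : q0 ∈ V1.B) (hq2 : q0 ∈ V2.B)
    (hres : ∀ 𝔪 : Ideal V2.B, 𝔪.IsMaximal → (⟨q0, hq2⟩ : V2.B) ∈ 𝔪 → t0 ∉ 𝔪 →
      ∀ s : V2.B, ∃ l : V2.B, s - l ∈ 𝔪 ∧
        (l ∈ 𝔪 ∨ ((l : F0) ∈ V1.B ∧ (l : F0)⁻¹ ∈ V1.B)))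
    (hnz1 : ∀ 𝔪 : Ideal V1.B, 𝔪.IsMaximal → (⟨q0, hq1⟩ : V1.B) ∈ 𝔪 →
      h97_LocD ψ V1 vert1 a1 Ez 𝔪)
    (hcusp : ∀ 𝔪 : Ideal V2.B, 𝔪.IsMaximal → (⟨q0, hq2⟩ : V2.B) ∈ 𝔪 → t0 ∈ 𝔪 →
      h97_LocD ψ V2 vert2 a2 Ez 𝔪) :
    ∀ 𝔪 : Ideal V2.B, 𝔪.IsMaximal → (⟨q0, hq2⟩ : V2.B) ∈ 𝔪 → h97_LocD ψ V2 vert2 a2 Ez 𝔪 := by
  intro 𝔪 hmax hq
  by_cases ht0m : t0 ∈ 𝔪
  · exact hcusp 𝔪 hmax hq ht0m
  haveI h𝔪 : 𝔪.IsPrime := hmax.isPrime
  have h21' : ∀ i2, V2.v i2 x0 = 0 → ∃ i1, ∀ f : F0, V1.v i1 f = V2.v i2 f := fun i2 hi2 => by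
    obtain ⟨i1, h, -⟩ := h21 i2 hi2
    exact ⟨i1, h⟩
  have hsub : ∀ f : V1.B, V2.InLoc 𝔪 (f : F0) :=
    h96_xfer_sub V1 V2 x0 hx00 hx2 h21' 𝔪 t0 ht0 ht0m
  have hx0loc : V2.InLoc 𝔪 x0 := h96_xfer_x0 V2 x0 hx00 𝔪 t0 ht0 ht0m
  have hx0inv : V2.InLoc 𝔪 x0⁻¹ := by rw [← ht0]; exact h94_B_le_Bm V2 𝔪 t0
  have hx0thr : ∀ i2, V2.Through 𝔪 i2 → V2.v i2 x0 = 0 := fun i2 hi2 =>
    h80_through_eq_zero_of_unit V2 𝔪 hx00 hx0loc hx0inv hi2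
  have hmax1 : (h96_xferIdeal V1 V2 𝔪 hsub).IsMaximal :=
    h96_xferIdeal_isMaximal V1 V2 𝔪 hsub (hres 𝔪 hmax hq ht0m)
  have hq1m : (⟨q0, hq1⟩ : V1.B) ∈ h96_xferIdeal V1 V2 𝔪 hsub := by
    rw [h96_mem_xferIdeal]
    exact ⟨⟨q0, hq2⟩, 1, hq, h94_one_not_mem V2 𝔪, by simp⟩
  obtain ⟨e, y, he0, hy0, hy, hy', hhor, hvert⟩ :=
    hnz1 (h96_xferIdeal V1 V2 𝔪 hsub) hmax1 hq1m
  have h21thr : ∀ i2, V2.Through 𝔪 i2 → ∃ i1, ∀ f : F0, V1.v i1 f = V2.v i2 f :=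
    fun i2 hi2 => h21' i2 (hx0thr i2 hi2)
  refine ⟨e, y, he0, hy0, h96_xfer_inLoc V1 V2 x0 hx00 𝔪 hsub h21thr hy,
    h96_xfer_inLoc V1 V2 x0 hx00 𝔪 hsub h21thr hy', ?_, ?_⟩
  · intro i2 hi2v hi2 P hP
    obtain ⟨i1, hsame, hv, -⟩ := h21 i2 (hx0thr i2 hi2)
    have hthr1 : V1.Through (h96_xferIdeal V1 V2 𝔪 hsub) i1 :=
      h96_xfer_through V1 V2 x0 hx00 𝔪 hsub hsame hi2
    have h1 := hhor i1 (fun h => hi2v (hv.1 h)) hthr1 P (fun f hf => by rw [hsame]; exact hP f hf)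
    rw [← hsame]
    exact h1
  · intro C hC hthr
    obtain ⟨i1, hsame, hv, ha⟩ := h21 C (hx0thr C hthr)
    have hthr1 : V1.Through (h96_xferIdeal V1 V2 𝔪 hsub) i1 :=
      h96_xfer_through V1 V2 x0 hx00 𝔪 hsub hsame hthr
    have h1 := hvert i1 (hv.2 hC) hthr1
    rw [hsame, ha hC] at h1
    exact h1

end Xfer

/-! ## Part D: all the points of the special fibre of both charts -/

section All

variable (M q : ℕ) [NeZero M] [NeZero q] [Fact q.Prime] (hqM : ¬ q ∣ M)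
  (A : ValuationSubring Qb) (hA : A.LiesOverPrime q) (ζ : Qb) (hζ : IsPrimitiveRoot ζ q)
  (hex : h98_Ex M q hqM A ζ hζ)

include hA in
/-- A vertical valuation through `𝔪` forces `q ∈ 𝔪` (chart 1). -/
theorem h97_q_mem_of_through1 (𝔪 : Ideal (h97_V1 M q hqM A hA ζ hζ hex).B) (k : Fin 3)
    (h : (h97_V1 M q hqM A hA ζ hζ hex).Through 𝔪 (Sum.inl k)) :
    ((q : ℕ) : (h97_V1 M q hqM A hA ζ hζ hex).B) ∈ 𝔪 := by
  have hq : q.Prime := Fact.out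
  refine h _ (h69_hn M q A q hq.ne_zero) ?_
  show 0 < h98_w2 M q hqM A ζ hζ hex k (q : h69_F0 (M * q * q) (A.inertiaSubgroupIn ℚ))
  rw [h97_nz_hwq M q hqM A hA ζ hζ hex k]
  exact_mod_cast h97_nz_ha q k

set_option maxHeartbeats 1600000 in
include hA in
/-- **All the points of the special fibre.**  `h97_nz_core` with `fib1 := (q ∈ 𝔪)` in chart 1,
`cusp2 := (q ∈ 𝔪 and j⁻¹ ∈ 𝔪)` in chart 2, and the chart transfer `h97_xfer` at the other points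
of chart 2: the witness `(Ez, uz)` with the `(LOC-δ)` datum at EVERY closed point containing `q`
of both charts.  Open hypotheses: `hwj` (`j` is a unit at the vertical valuations), the chart-1
rows `hclass1`, `hNU1`, `hU1`, `hLG1` at the points containing `q`, the residue-field row `hres2`
at the non-cusp points of chart 2, the cusp rows `hone2`, `hU2`, `hLG2`. -/
theorem h97_nz_all
    (hwj : ∀ c : Fin 3, h98_w2 M q hqM A ζ hζ hex c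
      ⟨h59_jbar (M * q * q), h80_jbar_mem_F0 (M * q * q) (A.inertiaSubgroupIn ℚ)⟩ = 0)
    (hclass1 : ∀ 𝔪 : Ideal (h97_V1 M q hqM A hA ζ hζ hex).B, 𝔪.IsMaximal →
      ((q : ℕ) : (h97_V1 M q hqM A hA ζ hζ hex).B) ∈ 𝔪 →
      (∀ k : Fin 3, (h97_V1 M q hqM A hA ζ hζ hex).Through 𝔪 (Sum.inl k)) ∨
        ∃ k0 : Fin 3, ∀ k, (h97_V1 M q hqM A hA ζ hζ hex).Through 𝔪 (Sum.inl k) → k = k0)
    (hNU1 : ∀ 𝔪 : Ideal (h97_V1 M q hqM A hA ζ hζ hex).B, 𝔪.IsMaximal →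
      (∀ k : Fin 3, (h97_V1 M q hqM A hA ζ hζ hex).Through 𝔪 (Sum.inl k)) →
      ∀ y : h69_F0 (M * q * q) (A.inertiaSubgroupIn ℚ), y ≠ 0 →
        (h97_V1 M q hqM A hA ζ hζ hex).InLoc 𝔪 y →
        (h97_V1 M q hqM A hA ζ hζ hex).InLoc 𝔪 y⁻¹ →
        (h97_V1 M q hqM A hA ζ hζ hex).InLoc 𝔪 (h97_Ma M q A y) ∧
          (h97_V1 M q hqM A hA ζ hζ hex).InLoc 𝔪 (h97_Mb M q A y))
    (hU1 : ∀ 𝔪 : Ideal (h97_V1 M q hqM A hA ζ hζ hex).B, 𝔪.IsMaximal →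
      ((q : ℕ) : (h97_V1 M q hqM A hA ζ hζ hex).B) ∈ 𝔪 →
      h62_UnitStar (h97_V1 M q hqM A hA ζ hζ hex) 𝔪)
    (hres2 : ∀ 𝔪 : Ideal (h97_V2 M q hqM A hA ζ hζ hex).B, 𝔪.IsMaximal →
      ((q : ℕ) : (h97_V2 M q hqM A hA ζ hζ hex).B) ∈ 𝔪 →
      (∃ t : (h97_V2 M q hqM A hA ζ hζ hex).B,
        ((t : h69_F0 (M * q * q) (A.inertiaSubgroupIn ℚ)) : modularFunctionFieldBar (M * q * q))
          = (h59_jbar (M * q * q))⁻¹ ∧ t ∉ 𝔪) →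
      ∀ s : (h97_V2 M q hqM A hA ζ hζ hex).B, ∃ l : (h97_V2 M q hqM A hA ζ hζ hex).B,
        s - l ∈ 𝔪 ∧ (l ∈ 𝔪 ∨
          ((l : h69_F0 (M * q * q) (A.inertiaSubgroupIn ℚ)) ∈ (h97_V1 M q hqM A hA ζ hζ hex).B ∧
            (l : h69_F0 (M * q * q) (A.inertiaSubgroupIn ℚ))⁻¹
              ∈ (h97_V1 M q hqM A hA ζ hζ hex).B)))
    (hone2 : ∀ 𝔪 : Ideal (h97_V2 M q hqM A hA ζ hζ hex).B, 𝔪.IsMaximal →
      ((q : ℕ) : (h97_V2 M q hqM A hA ζ hζ hex).B) ∈ 𝔪 →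
      (∀ t : (h97_V2 M q hqM A hA ζ hζ hex).B,
        ((t : h69_F0 (M * q * q) (A.inertiaSubgroupIn ℚ)) : modularFunctionFieldBar (M * q * q))
          = (h59_jbar (M * q * q))⁻¹ → t ∈ 𝔪) →
      ∃ k0 : Fin 3, ∀ k, (h97_V2 M q hqM A hA ζ hζ hex).Through 𝔪 (Sum.inl k) → k = k0)
    (hU2 : ∀ 𝔪 : Ideal (h97_V2 M q hqM A hA ζ hζ hex).B, 𝔪.IsMaximal →
      ((q : ℕ) : (h97_V2 M q hqM A hA ζ hζ hex).B) ∈ 𝔪 →
      (∀ t : (h97_V2 M q hqM A hA ζ hζ hex).B,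
        ((t : h69_F0 (M * q * q) (A.inertiaSubgroupIn ℚ)) : modularFunctionFieldBar (M * q * q))
          = (h59_jbar (M * q * q))⁻¹ → t ∈ 𝔪) →
      h62_UnitStar (h97_V2 M q hqM A hA ζ hζ hex) 𝔪)
    (m : ℕ) (hm : 0 < m) (hqm : Nat.Coprime q m)
    (hLG1 : ∀ 𝔪 : Ideal (h97_V1 M q hqM A hA ζ hζ hex).B, 𝔪.IsMaximal →
      ((q : ℕ) : (h97_V1 M q hqM A hA ζ hζ hex).B) ∈ 𝔪 →
      h97_LG (h97_V1 M q hqM A hA ζ hζ hex) 𝔪
        (q : h69_F0 (M * q * q) (A.inertiaSubgroupIn ℚ)) m)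
    (hLG2 : ∀ 𝔪 : Ideal (h97_V2 M q hqM A hA ζ hζ hex).B, 𝔪.IsMaximal →
      ((q : ℕ) : (h97_V2 M q hqM A hA ζ hζ hex).B) ∈ 𝔪 →
      (∀ t : (h97_V2 M q hqM A hA ζ hζ hex).B,
        ((t : h69_F0 (M * q * q) (A.inertiaSubgroupIn ℚ)) : modularFunctionFieldBar (M * q * q))
          = (h59_jbar (M * q * q))⁻¹ → t ∈ 𝔪) →
      h97_LG (h97_V2 M q hqM A hA ζ hζ hex) 𝔪
        (q : h69_F0 (M * q * q) (A.inertiaSubgroupIn ℚ)) m)
    (z : JZero (M * q * q)) (hz : ∀ σ ∈ A.inertiaSubgroupIn ℚ, σ • z = z)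
    (hnew : h67_Jnew (M * q) q z) (hmz : m • z = 0) :
    ∃ (Ez : Divisor.degZero (K := Qb) (F := modularFunctionFieldBar (M * q * q)))
      (uz : h69_F0 (M * q * q) (A.inertiaSubgroupIn ℚ)),
      Pic0.mk Ez = ((q ^ 2 - 1) ^ 2) • z ∧
      (∀ σ ∈ A.inertiaSubgroupIn ℚ, arithmeticGalois (modularFunctionFieldFull (M * q * q)) σ •
        (Ez : Divisor Qb (modularFunctionFieldBar (M * q * q))) = Ez) ∧
      uz ≠ 0 ∧
      (∀ v : Place Qb (modularFunctionFieldBar (M * q * q)),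
        (m : ℤ) * (Ez : Divisor Qb (modularFunctionFieldBar (M * q * q))) v
          = v.ord (uz : modularFunctionFieldBar (M * q * q))) ∧
      (uz - 1 = 0 ∨ ∀ c : Fin 3, (((![1, q - 1, 1] : Fin 3 → ℕ) c : ℕ) : ℤ)
        ≤ h98_w2 M q hqM A ζ hζ hex c (uz - 1)) ∧
      (∀ 𝔪 : Ideal (h97_V1 M q hqM A hA ζ hζ hex).B, 𝔪.IsMaximal →
        ((q : ℕ) : (h97_V1 M q hqM A hA ζ hζ hex).B) ∈ 𝔪 →
        h97_LocD (h69_F0 (M * q * q) (A.inertiaSubgroupIn ℚ)).subtype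
          (h97_V1 M q hqM A hA ζ hζ hex) (Set.range Sum.inl)
          (Sum.elim (![1, q - 1, 1] : Fin 3 → ℕ) (fun _ => 1))
          (Ez : Divisor Qb (modularFunctionFieldBar (M * q * q))) 𝔪) ∧
      (∀ 𝔪 : Ideal (h97_V2 M q hqM A hA ζ hζ hex).B, 𝔪.IsMaximal →
        ((q : ℕ) : (h97_V2 M q hqM A hA ζ hζ hex).B) ∈ 𝔪 →
        h97_LocD (h69_F0 (M * q * q) (A.inertiaSubgroupIn ℚ)).subtype
          (h97_V2 M q hqM A hA ζ hζ hex) (Set.range Sum.inl)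
          (Sum.elim (![1, q - 1, 1] : Fin 3 → ℕ) (fun _ => 1))
          (Ez : Divisor Qb (modularFunctionFieldBar (M * q * q))) 𝔪) := by
  classical
  have hq : q.Prime := Fact.out
  -- the chart function and its inverse
  set x0 : h69_F0 (M * q * q) (A.inertiaSubgroupIn ℚ) :=
    ⟨h59_jbar (M * q * q), h80_jbar_mem_F0 (M * q * q) (A.inertiaSubgroupIn ℚ)⟩ with hx0def
  have hx00 : x0 ≠ 0 := fun h0 =>
    (h54_isChart_jbar (M * q * q)).ne_zero (congrArg Subtype.val h0)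
  have hx2 : ∀ i, (h97_V2 M q hqM A hA ζ hζ hex).v i x0 ≤ 0 :=
    h97_famOf_hx2 (M * q * q) (A.inertiaSubgroupIn ℚ) (h98_w2 M q hqM A ζ hζ hex)
      (h98_hw2mul M q hqM A hA ζ hζ hex) (h98_hw2add M q hqM A hA ζ hζ hex)
      (h59_jbar (M * q * q)) (h75_isChart_inv (h54_isChart_jbar (M * q * q))) x0 rfl hwj
  have h21 := h97_famOf_h21 (M * q * q) (A.inertiaSubgroupIn ℚ) (h98_w2 M q hqM A ζ hζ hex)
      (h98_hw2mul M q hqM A hA ζ hζ hex) (h98_hw2add M q hqM A hA ζ hζ hex)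
      (h59_jbar (M * q * q)) (h54_isChart_jbar (M * q * q))
      (h75_isChart_inv (h54_isChart_jbar (M * q * q))) (![1, q - 1, 1] : Fin 3 → ℕ) x0 rfl
  have ht0B : x0⁻¹ ∈ (h97_V2 M q hqM A hA ζ hζ hex).B := by
    rw [(h97_V2 M q hqM A hA ζ hζ hex).mem_B _ (inv_ne_zero hx00)]
    intro i
    rw [h80_v_inv _ i hx00]
    have := hx2 i
    omega
  set t0 : (h97_V2 M q hqM A hA ζ hζ hex).B := ⟨x0⁻¹, ht0B⟩ with ht0def
  have ht0coe : ((t0 : h69_F0 (M * q * q) (A.inertiaSubgroupIn ℚ)) :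
      modularFunctionFieldBar (M * q * q)) = (h59_jbar (M * q * q))⁻¹ := rfl
  have hcuspiff : ∀ 𝔪 : Ideal (h97_V2 M q hqM A hA ζ hζ hex).B,
      (∀ t : (h97_V2 M q hqM A hA ζ hζ hex).B,
        ((t : h69_F0 (M * q * q) (A.inertiaSubgroupIn ℚ)) : modularFunctionFieldBar (M * q * q))
          = (h59_jbar (M * q * q))⁻¹ → t ∈ 𝔪) ↔ t0 ∈ 𝔪 := by
    intro 𝔪
    refine ⟨fun h => h t0 ht0coe, fun h t ht => ?_⟩
    have e : t = t0 := Subtype.ext (Subtype.ext ht)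
    rw [e]
    exact h
  -- the core
  obtain ⟨Ez, uz, h1, h2, h3, h4, h5, h6, h7⟩ := h97_nz_core M q hqM A hA ζ hζ hex
    (fun 𝔪 => ((q : ℕ) : (h97_V1 M q hqM A hA ζ hζ hex).B) ∈ 𝔪)
    (fun 𝔪 => ((q : ℕ) : (h97_V2 M q hqM A hA ζ hζ hex).B) ∈ 𝔪 ∧ t0 ∈ 𝔪)
    (fun 𝔪 _ k hk => h97_q_mem_of_through1 M q hqM A hA ζ hζ hex 𝔪 k hk)
    hclass1
    (fun 𝔪 h𝔪 hc => hone2 𝔪 h𝔪 hc.1 ((hcuspiff 𝔪).mpr hc.2))
    hNU1 hU1
    (fun 𝔪 h𝔪 hc => hU2 𝔪 h𝔪 hc.1 ((hcuspiff 𝔪).mpr hc.2))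
    m hm hqm hLG1
    (fun 𝔪 h𝔪 hc => hLG2 𝔪 h𝔪 hc.1 ((hcuspiff 𝔪).mpr hc.2))
    z hz hnew hmz
  refine ⟨Ez, uz, h1, h2, h3, h4, h5, h6, ?_⟩
  -- chart 2: transfer
  have hq1 : (q : h69_F0 (M * q * q) (A.inertiaSubgroupIn ℚ))
      ∈ (h97_V1 M q hqM A hA ζ hζ hex).B := natCast_mem _ q
  have hq2 : (q : h69_F0 (M * q * q) (A.inertiaSubgroupIn ℚ))
      ∈ (h97_V2 M q hqM A hA ζ hζ hex).B := natCast_mem _ q
  have key := h97_xfer (Kc := Qb) (Fc := modularFunctionFieldBar (M * q * q))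
    (h69_F0 (M * q * q) (A.inertiaSubgroupIn ℚ)).subtype x0 hx00
    (h97_V1 M q hqM A hA ζ hζ hex) (h97_V2 M q hqM A hA ζ hζ hex)
    (Set.range Sum.inl) (Sum.elim (![1, q - 1, 1] : Fin 3 → ℕ) (fun _ => 1))
    (Set.range Sum.inl) (Sum.elim (![1, q - 1, 1] : Fin 3 → ℕ) (fun _ => 1))
    (Ez : Divisor Qb (modularFunctionFieldBar (M * q * q))) hx2 h21 t0 rfl
    (q : h69_F0 (M * q * q) (A.inertiaSubgroupIn ℚ)) hq1 hq2
    (fun 𝔪 h𝔪 hqm' ht0 => hres2 𝔪 h𝔪 hqm' ⟨t0, ht0coe, ht0⟩)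
    (fun 𝔪 h𝔪 hqm' => h6 𝔪 h𝔪 hqm')
    (fun 𝔪 h𝔪 hqm' ht0 => h7 𝔪 h𝔪 ⟨hqm', ht0⟩)
  exact fun 𝔪 h𝔪 hqm' => key 𝔪 h𝔪 hqm'

end All

end Fermat.Agent.S36
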