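import Mathlib
import Fermat.Agent.S36.h49_NormProd
import Fermat.Agent.S35.h27_NormFun
import Fermat.Agent.S34.h60_R1

/-!
# S36 / row NR, the `β`-side at the standard expansion (helper98)

Level `L q²`, `q ∤ L`.  `β : F(L q) → F(L q²)` (`heckeBetaBar`, `g(t) ↦ g(t^q)`) has degree `q`
and `(N_β f)(t^q) = ∏_{a<q} f(ζ^a t)` (`h49_norm_beta_prod`).  Reducing the product modulo a
valuation ring `A` of `ℚ̄` over `q` (`ζ ≡ 1`):

* `h98_NR_beta_std` : if the standard expansion of `f ∈ F(L q²)` is a unit of the Gauss ring,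
  then `N_β f` is in the Gauss ring of level `L q` and `red (N_β f) = Frob (red f)` (`Frob` the
  coefficientwise Frobenius, i.e. `(red (N_β f))(t^q) = (red f)^q`).  In the language of row NR:
  `C₂₀ → Z_F` along `β` is purely inseparable of degree `q`:  `b (N_β u) ≡ u^q` on `C₂₀`, and
  `w_F (N_β u) = q v₁ u`.
* `h98_NR_beta_scale` : the valuation form: if `c • f` is a unit of the Gauss ring (`c ∈ ℚ̄ˣ`),
  then `c^q • N_β f` is a unit of the Gauss ring of level `L q`.
-/

set_option autoImplicit false
set_option synthInstance.maxHeartbeats 400000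
set_option linter.style.haveILetI false

noncomputable section

open ModularCurve AlgebraicCurve IntermediateField HahnSeries

namespace Fermat.Agent.S36

open Fermat.Agent.S24 Fermat.Agent.S18 Fermat.Agent.S37 Fermat.Agent.S34 Fermat.Agent.S35

local notation "Qb" => AlgebraicClosure ℚ

/-- **(NR), `β` at the standard expansion.** -/
theorem h98_NR_beta_std (L q : ℕ) [NeZero L] [NeZero q] [hq : Fact q.Prime] (hqL : ¬ q ∣ L)
    (A : ValuationSubring Qb) (hA : A.LiesOverPrime q) [CharP (IsLocalRing.ResidueField A) q]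
    (f : modularFunctionFieldBar (L * q * q))
    (hf : h19_InO A (f : LaurentSeries Qb)) (hfne : h19_redFun _ hf ≠ 0) :
    ∃ h : h19_InO A
        ((@Algebra.norm (modularFunctionFieldBar (L * q)) (modularFunctionFieldBar (L * q * q)) _ _
          (algebraAlong (heckeBetaBar Qb (L * q) q)) f : modularFunctionFieldBar (L * q)) :
            LaurentSeries Qb),
      h19_redFun _ h =
        coeffMap (frobenius (IsLocalRing.ResidueField A) q) (h19_redFun _ hf) := by
  letI := algebraAlong (heckeBetaBar Qb (L * q) q)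
  have hq' : q.Prime := hq.out
  obtain ⟨ζA, -, hζ⟩ := h87_exists_zeta A q
  set ζ : Qbˣ := Units.map ((A.subtype : A →+* Qb) : A →* Qb) ζA with hζdef
  have hid := h49_norm_beta_prod (L * q) q hq' (dvd_mul_left q L) ζ hζ f
  have hf0 : f ≠ 0 := by
    intro h0
    exact hfne (h27_redFun_eq_zero _ hf (by rw [h0]; rfl))
  haveI : FiniteDimensional (modularFunctionFieldBar (L * q))
      (modularFunctionFieldBar (L * q * q)) := h88_finiteAlong_beta (L * q) q
  have hN0 : Algebra.norm (modularFunctionFieldBar (L * q)) f ≠ 0 := by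
    intro h0
    exact hf0 (Algebra.norm_eq_zero_iff.mp h0)
  obtain ⟨Nf, hNf⟩ : ∃ x : modularFunctionFieldBar (L * q),
      x = Algebra.norm (modularFunctionFieldBar (L * q)) f := ⟨_, rfl⟩
  rw [← hNf] at hid hN0 ⊢
  obtain ⟨c, hc0, hcO, hcinvO⟩ := (h60_R1 L q hqL A hA).exists_scale Nf hN0
  obtain ⟨y₁, y₂, hy₂, hy⟩ := (h60_R1_mem_iff L q hqL A hA _).mp hcO
  obtain ⟨z₁, z₂, hz₂, hz⟩ := (h60_R1_mem_iff L q hqL A hA _).mp hcinvO
  rw [h27_coe_const_mul] at hy
  have hcN : h19_InO A (algebraMap Qb (LaurentSeries Qb) c * (Nf : LaurentSeries Qb)) :=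
    ⟨y₁, y₂, hy₂, hy⟩
  have hcNinv : h19_InO A (((algebraMap Qb (modularFunctionFieldBar (L * q)) c * Nf)⁻¹ :
      modularFunctionFieldBar (L * q)) : LaurentSeries Qb) := ⟨z₁, z₂, hz₂, hz⟩
  have hne : algebraMap Qb (modularFunctionFieldBar (L * q)) c * Nf ≠ 0 :=
    mul_ne_zero ((map_ne_zero _).mpr hc0) hN0
  have h1 : ((algebraMap Qb (modularFunctionFieldBar (L * q)) c * Nf :
      modularFunctionFieldBar (L * q)) : LaurentSeries Qb) *
      (((algebraMap Qb (modularFunctionFieldBar (L * q)) c * Nf)⁻¹ :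
      modularFunctionFieldBar (L * q)) : LaurentSeries Qb) = 1 := by
    rw [← IntermediateField.coe_mul, mul_inv_cancel₀ hne]
    rfl
  rw [h27_coe_const_mul] at h1
  have hcNne : h19_redFun _ hcN ≠ 0 := h27_redFun_ne_zero_of_inv _ _ hcN hcNinv h1
  have hone : h19_InO A (1 : LaurentSeries Qb) := h19_InO_one
  have hid' : qExpand Qb q (Nf : LaurentSeries Qb) = qExpand Qb q (1 : LaurentSeries Qb) *
      ∏ b : Fin q, h87_twist (ζ ^ (b : ℕ)) (f : LaurentSeries Qb) := by
    rw [hid, map_one, one_mul]
  obtain ⟨h, hred⟩ := h19_norm_red_series q ζ hζ.pow_eq_one hid' hone hf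
    (by rw [h19_redFun_one]; exact one_ne_zero) hfne c hcN hcNne
  exact ⟨h, by rw [hred, h19_redFun_one, one_mul]⟩

/-- The norm along `β` of a constant is its `q`-th power (`q ∣ N`). -/
theorem h98_norm_beta_const (N q : ℕ) [NeZero N] [NeZero q] (hq : q.Prime) (hqN : q ∣ N)
    (c : Qb) :
    @Algebra.norm (modularFunctionFieldBar N) (modularFunctionFieldBar (N * q)) _ _
        (algebraAlong (heckeBetaBar Qb N q)) (algebraMap Qb (modularFunctionFieldBar (N * q)) c)
      = algebraMap Qb (modularFunctionFieldBar N) (c ^ q) := by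
  letI := algebraAlong (heckeBetaBar Qb N q)
  haveI := isScalarTower_along (heckeBetaBar Qb N q)
  have hdeg : Module.finrank (modularFunctionFieldBar N) (modularFunctionFieldBar (N * q)) = q :=
    h49_deg_beta_dvd N q hq hqN
  rw [IsScalarTower.algebraMap_apply Qb (modularFunctionFieldBar N)
    (modularFunctionFieldBar (N * q)), Algebra.norm_algebraMap, hdeg, map_pow]

/-- **(NR), `β` at the standard expansion, valuation form.**  If `c • f` is a unit of the Gauss
ring of level `L q²`, then `c ^ q • N_β f` is a unit of the Gauss ring of level `L q`, with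
reduction `Frob (red (c • f))`:  `w_F (N_β f) = q · v₁ f`. -/
theorem h98_NR_beta_scale (L q : ℕ) [NeZero L] [NeZero q] [hq : Fact q.Prime] (hqL : ¬ q ∣ L)
    (A : ValuationSubring Qb) (hA : A.LiesOverPrime q) [CharP (IsLocalRing.ResidueField A) q]
    (c : Qb) (f : modularFunctionFieldBar (L * q * q))
    (hf : h19_InO A (algebraMap Qb (LaurentSeries Qb) c * (f : LaurentSeries Qb)))
    (hfne : h19_redFun _ hf ≠ 0) :
    ∃ h : h19_InO A (algebraMap Qb (LaurentSeries Qb) (c ^ q) *
        ((@Algebra.norm (modularFunctionFieldBar (L * q)) (modularFunctionFieldBar (L * q * q)) _ _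
          (algebraAlong (heckeBetaBar Qb (L * q) q)) f : modularFunctionFieldBar (L * q)) :
            LaurentSeries Qb)),
      h19_redFun _ h =
        coeffMap (frobenius (IsLocalRing.ResidueField A) q) (h19_redFun _ hf) := by
  have key := h98_NR_beta_std L q hqL A hA
    (algebraMap Qb (modularFunctionFieldBar (L * q * q)) c * f) hf hfne
  have e : @Algebra.norm (modularFunctionFieldBar (L * q)) (modularFunctionFieldBar (L * q * q)) _ _
        (algebraAlong (heckeBetaBar Qb (L * q) q))
        (algebraMap Qb (modularFunctionFieldBar (L * q * q)) c * f)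
      = algebraMap Qb (modularFunctionFieldBar (L * q)) (c ^ q) *
        @Algebra.norm (modularFunctionFieldBar (L * q)) (modularFunctionFieldBar (L * q * q)) _ _
          (algebraAlong (heckeBetaBar Qb (L * q) q)) f := by
    rw [map_mul, h98_norm_beta_const (L * q) q hq.out (dvd_mul_left q L) c]
  rw [e] at key
  exact key

end Fermat.Agent.S36

end
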