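import Mathlib
import Fermat.Agent.S36.h98_ThickInst
import Fermat.Agent.S36.h60_ThickSS
import Fermat.Agent.S36.h60_ThickQFinal
import Fermat.Agent.S36.h60_ThickRes

/-!
# S36 / I-PTS (M5): the thick branch at the modular names, second form (helper98)

The instance of `h60_hthick_gen2` (helper60) for the chart families
`V1 := h80_fam1 (M q) I (h98_w1 ..) ..`, `V2 := h80_fam1 (M q²) I (h98_w2 ..) ..`
(same discharges as `h98_hthick_w` in `h98_ThickInst`; no node hypothesis).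

* `h98_hthick_of_Q'`  : `hQ → hthick` with `hQ` the hypothesis of `h60_hthick_gen2` verbatim at
  `ψ₁ := subtype`, `wF := Sum.inl 0`;
* `h98_hthick_of_res` : `hthick` from the residue data `hRes` of level `M q` on the branch
  `Sum.inl 0` (the hypothesis of `h60_hQ_mod`) and `hch`, `nuTwo M = 0`, `nuThree M = 0`;
* `h98_hthick_closed` : **`hthick` of `h62_pts_mod`, closed**: only `hch`, `nuTwo M = 0`,
  `nuThree M = 0` remain (via `h60_hQ_closed`).
-/

set_option autoImplicit false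
set_option synthInstance.maxHeartbeats 400000
set_option linter.unusedSectionVars false
set_option linter.unusedVariables false
set_option linter.style.haveILetI false

noncomputable section

open ModularCurve AlgebraicCurve

namespace Fermat.Agent.S36

open Fermat.Agent.S34 Fermat.Agent.S37 Fermat.Agent.S24 Fermat.Agent.S35 Fermat.Agent.S18
open Fermat.Agent.S27 Fermat.Agent.S19

local notation "Qb" => AlgebraicClosure ℚ

variable (M q : ℕ) [NeZero M] [NeZero q] [Fact q.Prime] (hqM : ¬ q ∣ M)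
variable (A : ValuationSubring Qb) (hA : A.LiesOverPrime q)
variable (ζ : Qb) (hζ : IsPrimitiveRoot ζ q) (hex : h98_Ex M q hqM A ζ hζ)

local notation "V1c" => h80_fam1 (M * q) (A.inertiaSubgroupIn ℚ) (h98_w1 M q hqM A ζ hζ hex)
  (h98_hw1mul M q hqM A hA ζ hζ hex) (h98_hw1add M q hqM A hA ζ hζ hex)
local notation "V2c" => h80_fam1 (M * q * q) (A.inertiaSubgroupIn ℚ) (h98_w2 M q hqM A ζ hζ hex)
  (h98_hw2mul M q hqM A hA ζ hζ hex) (h98_hw2add M q hqM A hA ζ hζ hex)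

/-- **`hthick` at the modular names**, from the level-`q` input `hQ` of `h60_hthick_gen2`
(verbatim at `ψ₁ := subtype`, `wF := Sum.inl 0`). -/
theorem h98_hthick_of_Q'
    (hQ : ∀ s : Ideal (V1c).B, s.IsMaximal → (V1c).Through s (Sum.inl 0) →
      ∃ (y : Place (IsLocalRing.ResidueField A)
          ↥(modularFunctionFieldFullC (IsLocalRing.ResidueField A) M))
        (R₁ : h62_Res (V1c) s (Sum.inl 0)
          ↥(modularFunctionFieldFullC (IsLocalRing.ResidueField A) M)),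
        R₁.o = y.ord ∧
        (∀ f : R₁.O, ∃ hf : (h69_F0 (M * q) (A.inertiaSubgroupIn ℚ)).subtype
              (f : h69_F0 (M * q) (A.inertiaSubgroupIn ℚ)) ∈ (h60_R1 M q hqM A hA).O,
          R₁.ρ f = (h60_R1 M q hqM A hA).red
            ⟨(h69_F0 (M * q) (A.inertiaSubgroupIn ℚ)).subtype
              (f : h69_F0 (M * q) (A.inertiaSubgroupIn ℚ)), hf⟩) ∧
        ∃ s₀ : h69_F0 (M * q) (A.inertiaSubgroupIn ℚ), s₀ ∈ (V1c).B ∧
          (h69_F0 (M * q) (A.inertiaSubgroupIn ℚ)).subtype s₀ ∈ (h60_R1 M q hqM A hA).O ∧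
          ∃ cθ : ↥(modularFunctionFieldFullC (IsLocalRing.ResidueField A) M),
            (cθ : LaurentSeries (IsLocalRing.ResidueField A))
              = h20_thetaFun ((((h60_R1 M q hqM A hA).redF
                  ((h69_F0 (M * q) (A.inertiaSubgroupIn ℚ)).subtype s₀) :
                  ↥(modularFunctionFieldFullC (IsLocalRing.ResidueField A) M)) :
                    LaurentSeries (IsLocalRing.ResidueField A))) ^ (q - 1) ∧
            cθ ≠ 0 ∧ y.ord cθ ≤ 0) :
    ∀ m : Ideal (V2c).B, m.IsMaximal → (V2c).Through m (Sum.inl 1) →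
      (∀ c : Fin 3, (V2c).Through m (Sum.inl c) → c = 1) →
      ∃ z : h69_F0 (M * q * q) (A.inertiaSubgroupIn ℚ), z ≠ 0 ∧ (V2c).v (Sum.inl 1) z = 1 ∧
        ∀ k, (V2c).Through m k → k ≠ Sum.inl 1 → (V2c).v k z = 0 := by
  have hq : q.Prime := Fact.out
  have hq0 : (q : h69_F0 (M * q * q) (A.inertiaSubgroupIn ℚ)) ≠ 0 :=
    h70_natCast_ne_zero _ _ hq.ne_zero
  have hvq : (V2c).v (Sum.inl 1) (q : h69_F0 (M * q * q) (A.inertiaSubgroupIn ℚ))
      = ((q - 1 : ℕ) : ℤ) := by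
    have e : (((q - 1 : ℕ) : ℕ) : ℤ) = (q : ℤ) - 1 := by
      rw [Nat.cast_sub hq.one_le, Nat.cast_one]
    exact (h98_hq1 M q hqM A hA ζ hζ hex).trans e.symm
  refine h60_hthick_gen2 M q hqM A hA ζ hζ (h69_F0 (M * q) (A.inertiaSubgroupIn ℚ)).subtype
    (V1c) (h69_F0 (M * q * q) (A.inertiaSubgroupIn ℚ)).subtype (V2c)
    (Sum.inl 0) (Sum.inl 1) Sum.inl (fun i => h80_IsHor i)
    ?_ (h70_aF0 (M * q) q (A.inertiaSubgroupIn ℚ)) (h98_thick_ha M q hqM A hA ζ hζ hex)
    (h98_thick_hia M q hqM A hA ζ hζ hex) (h98_thick_hta M q hqM A hA ζ hζ hex)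
    (fun y hy0 hy => h98_hV2 M q hqM A hA ζ hζ hex y hy0 hy)
    ((h70_bF0 (M * q) q (A.inertiaSubgroupIn ℚ)).comp (h98_swF0 M q hqM A))
    (h98_thick_hphi2B M q hqM A hA ζ hζ hex) (fun g => rfl) (fun g => rfl) ?_ ?_
    ⟨(q : h69_F0 (M * q * q) (A.inertiaSubgroupIn ℚ)), natCast_mem _ q⟩ rfl hq0 hvq
    (h98_thick_hqH M q hqM A hA ζ hζ hex) hQ
  · intro i
    rcases i with k | j
    · exact Or.inl ⟨k, rfl⟩
    · exact Or.inr ⟨j, rfl⟩
  · intro g hg h
    exact (h98_v2_nonneg_iff M q hqM A hA ζ hζ hex g hg).mpr h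
  · intro g hg h
    exact (h98_v2_pos_iff M q hqM A hA ζ hζ hex g hg).mpr h

/-- **`hthick` at the modular names**, from the residue data of level `M q` on the branch
`Sum.inl 0` (`hRes` of `h60_hQ_mod`) at a level `M` without elliptic points. -/
theorem h98_hthick_of_res (hch : 5 ≤ q ∨ 2 ∣ M ∨ 3 ∣ M) (h2 : nuTwo M = 0) (h3 : nuThree M = 0)
    (hRes : ∀ s : Ideal (V1c).B, s.IsMaximal → (V1c).Through s (Sum.inl 0) →
      ∃ (y : Place (IsLocalRing.ResidueField A)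
          ↥(modularFunctionFieldFullC (IsLocalRing.ResidueField A) M))
        (R₁ : h62_Res (V1c) s (Sum.inl 0)
          ↥(modularFunctionFieldFullC (IsLocalRing.ResidueField A) M)),
        R₁.o = y.ord ∧
        ∀ f : R₁.O, ∃ hf : (h69_F0 (M * q) (A.inertiaSubgroupIn ℚ)).subtype
            (f : h69_F0 (M * q) (A.inertiaSubgroupIn ℚ)) ∈ (h60_R1 M q hqM A hA).O,
          R₁.ρ f = (h60_R1 M q hqM A hA).red
            ⟨(h69_F0 (M * q) (A.inertiaSubgroupIn ℚ)).subtype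
              (f : h69_F0 (M * q) (A.inertiaSubgroupIn ℚ)), hf⟩) :
    ∀ m : Ideal (V2c).B, m.IsMaximal → (V2c).Through m (Sum.inl 1) →
      (∀ c : Fin 3, (V2c).Through m (Sum.inl c) → c = 1) →
      ∃ z : h69_F0 (M * q * q) (A.inertiaSubgroupIn ℚ), z ≠ 0 ∧ (V2c).v (Sum.inl 1) z = 1 ∧
        ∀ k, (V2c).Through m k → k ≠ Sum.inl 1 → (V2c).v k z = 0 :=
  h98_hthick_of_Q' M q hqM A hA ζ hζ hex (h60_hQ_mod M q hqM A hA ζ hζ hex hch h2 h3 hRes)

/-- **`hthick` of `h62_pts_mod`, closed** (level `M` without elliptic points, S34 chart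
hypothesis `hch`). -/
theorem h98_hthick_closed (hch : 5 ≤ q ∨ 2 ∣ M ∨ 3 ∣ M) (h2 : nuTwo M = 0) (h3 : nuThree M = 0) :
    ∀ m : Ideal (V2c).B, m.IsMaximal → (V2c).Through m (Sum.inl 1) →
      (∀ c : Fin 3, (V2c).Through m (Sum.inl c) → c = 1) →
      ∃ z : h69_F0 (M * q * q) (A.inertiaSubgroupIn ℚ), z ≠ 0 ∧ (V2c).v (Sum.inl 1) z = 1 ∧
        ∀ k, (V2c).Through m k → k ≠ Sum.inl 1 → (V2c).v k z = 0 :=
  h98_hthick_of_Q' M q hqM A hA ζ hζ hex (h60_hQ_closed M q hqM A hA ζ hζ hex hch h2 h3)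

end Fermat.Agent.S36
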